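import Mathlib
import Fermat.Prelude.Def_GaloisRep_Residual

set_option autoImplicit false

/-!
# [HYG] the mod-`n` Galois representation of a Weierstrass curve over `ℚ` factors through a
finite level as soon as the `n`-torsion is finite.
-/

open scoped WeierstrassCurve.Affine

namespace Fermat.Agent.RB

open WeierstrassCurve WeierstrassCurve.Affine WeierstrassCurve.Affine.Point

/-- The two coordinates of an affine point (and `∅` for the point at infinity). -/
def pointCoords {K : Type*} [Field K] {W : WeierstrassCurve.Affine K} :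
    W.Point → Set K
  | .zero => ∅
  | .some x y _ => {x, y}

theorem pointCoords_finite {K : Type*} [Field K] {W : WeierstrassCurve.Affine K}
    (P : W.Point) : (pointCoords P).Finite := by
  cases P with
  | zero => exact Set.finite_empty
  | some x y h => exact Set.toFinite {x, y}

theorem galois_smul_eq_self_of_fix_coords {W : WeierstrassCurve.Affine ℚ}
    (σ : AlgebraicClosure ℚ ≃ₐ[ℚ] AlgebraicClosure ℚ)
    (P : (W⁄(AlgebraicClosure ℚ)).Point) (hσ : ∀ x ∈ pointCoords P, σ x = x) :
    σ • P = P := by
  cases P with
  | zero => rfl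
  | some x y h =>
    rw [algEquiv_smul_def, Point.map_some]
    have hx : σ x = x := hσ x (by simp [pointCoords])
    have hy : σ y = y := hσ y (by simp [pointCoords])
    have hx' : (σ.toAlgHom : AlgebraicClosure ℚ →ₐ[ℚ] AlgebraicClosure ℚ) x = x := hx
    have hy' : (σ.toAlgHom : AlgebraicClosure ℚ →ₐ[ℚ] AlgebraicClosure ℚ) y = y := hy
    simp only [hx', hy']

/-- **[HYG-1]** the mod-`n` representation factors through a finite level when the `n`-torsion
is finite. -/
theorem galoisFactorsThroughFiniteLevel_of_finite (W : WeierstrassCurve ℚ) (n : ℕ)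
    [Finite (Submodule.torsionBy ℤ (W⁄(AlgebraicClosure ℚ)).Point n)] :
    GaloisFactorsThroughFiniteLevel
      (WeierstrassCurve.Affine.Point.galoisRepModuleEnd (K := AlgebraicClosure ℚ) ℚ W n) := by
  classical
  set S : Set (AlgebraicClosure ℚ) :=
    ⋃ P : Submodule.torsionBy ℤ (W⁄(AlgebraicClosure ℚ)).Point n,
      pointCoords (P : (W⁄(AlgebraicClosure ℚ)).Point) with hS
  have hSfin : S.Finite := Set.finite_iUnion fun P => pointCoords_finite _
  refine ⟨IntermediateField.adjoin ℚ S, ?_, ?_⟩
  · have : Finite S := hSfin
    exact IntermediateField.finiteDimensional_adjoin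
      (fun x _ => ((AlgebraicClosure.isAlgebraic ℚ).isAlgebraic x).isIntegral)
  · intro σ hσ
    ext P
    rw [galoisRepModuleEnd_apply]
    change (σ • (P : (W⁄(AlgebraicClosure ℚ)).Point)) = _
    refine galois_smul_eq_self_of_fix_coords σ _ fun x hx => ?_
    exact hσ x (IntermediateField.subset_adjoin ℚ S (Set.mem_iUnion.mpr ⟨P, hx⟩))

end Fermat.Agent.RB
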