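import Mathlib
import Fermat.Agent.S13.At2_helper2_FreyInertia
import Fermat.Agent.FC.RED_helper1_Frozen
import Fermat.Agent.FC.NODE_helper6_Form
import Fermat.Agent.FC.P_helper5_K6

set_option autoImplicit false
set_option linter.unusedSectionVars false

/-!
# [HYG] torsion points near the node of a nodal model (any residue characteristic)

* `card_torsion_nodeForm_le` : a nodal cubic in normal form has at most `m` points killed by `m`;
* `exists_torsion_near_node` : on a nodal model (`S13.GNodeCtx.IsModel`) a set of more than `p`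
  points killed by `p` (`p` a unit) contains a point near the node.
-/

namespace Fermat.Agent.RB

open WeierstrassCurve WeierstrassCurve.Affine IsLocalRing
open Fermat.Agent.Tate Fermat.Agent.S13 Fermat.Agent.FC

section NodeForm

variable {κ : Type*} [Field κ] [DecidableEq κ]

/-- at most `m` points of a nodal cubic in normal form are killed by `m` (any characteristic) -/
theorem card_torsion_nodeForm_le {W : WeierstrassCurve κ} {α β : κ} (hW : IsNodeForm W α β)
    (m : ℕ) (hm : 0 < m) (T : Finset W.toAffine.Point) (hT : ∀ P ∈ T, m • P = 0) :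
    T.card ≤ m := by
  classical
  set φ := nodeHom hW with hφdef
  have hφ : Function.Injective φ := nodeHom_injective hW
  haveI : NeZero m := ⟨hm.ne'⟩
  have hmem : ∀ P : ↥T, Additive.toMul (φ P.1) ∈ rootsOfUnity m κ := by
    intro P
    rw [mem_rootsOfUnity]
    have h1 : φ (m • P.1) = 0 := by rw [hT P.1 P.2, map_zero]
    rw [map_nsmul] at h1
    have h2' := congrArg Additive.toMul h1
    rw [toMul_nsmul, toMul_zero] at h2'
    exact h2'
  have hle : Nat.card ↥T ≤ Nat.card (rootsOfUnity m κ) :=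
    Nat.card_le_card_of_injective (fun P : ↥T => (⟨Additive.toMul (φ P.1), hmem P⟩ :
      rootsOfUnity m κ))
      (fun P Q hPQ => by
        have h1 : Additive.toMul (φ P.1) = Additive.toMul (φ Q.1) := congrArg Subtype.val hPQ
        exact Subtype.ext (hφ (Additive.toMul.injective h1)))
  rw [Nat.card_eq_fintype_card, Fintype.card_coe] at hle
  exact hle.trans (card_rootsOfUnity κ m)

end NodeForm

section Model

variable {K : Type*} [Field K] [DecidableEq K] {A : ValuationSubring K}
  {C : GNodeCtx K A} {α β : K} {W : Affine K}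

/-- the reduction of a nodal model is a nodal cubic in normal form -/
theorem isNodeForm_residue (hM : C.IsModel W α β) (EA : Affine A) (hEA : EA.map A.subtype = W) :
    IsNodeForm (EA.map (residue A)) (residue A ⟨α, hM.hα⟩) (residue A ⟨β, hM.hβ⟩) := by
  have c1 : (EA.a₁ : K) = W.a₁ := by rw [← hEA]; rfl
  have c2 : (EA.a₂ : K) = W.a₂ := by rw [← hEA]; rfl
  have c3 : (EA.a₃ : K) = W.a₃ := by rw [← hEA]; rfl
  have c4 : (EA.a₄ : K) = W.a₄ := by rw [← hEA]; rfl
  have c6 : (EA.a₆ : K) = W.a₆ := by rw [← hEA]; rfl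
  have e1 : EA.a₁ = -((⟨α, hM.hα⟩ : A) + ⟨β, hM.hβ⟩) := Subtype.ext (by rw [c1, hM.a₁]; rfl)
  have e2 : EA.a₂ = -((⟨α, hM.hα⟩ : A) * ⟨β, hM.hβ⟩) := Subtype.ext (by rw [c2, hM.a₂]; rfl)
  have e3 : EA.a₃ = 0 := Subtype.ext (by rw [c3, hM.a₃]; rfl)
  refine ⟨?_, ?_, ?_, ?_, ?_, ?_⟩
  · show residue A EA.a₁ = _
    rw [e1, map_neg, map_add]
  · show residue A EA.a₂ = _
    rw [e2, map_neg, map_mul]
  · show residue A EA.a₃ = _
    rw [e3, map_zero]
  · show residue A EA.a₄ = _
    apply residue_eq_zero_of_coe_mem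
    rw [c4, hM.a₄]
    exact GNodeCtx.a₄_mem
  · show residue A EA.a₆ = _
    apply residue_eq_zero_of_coe_mem
    rw [c6, hM.a₆]
    exact GNodeCtx.a₆_mem
  · intro h
    have h1 : residue A ((⟨α, hM.hα⟩ : A) - ⟨β, hM.hβ⟩) = 0 := by rw [map_sub, h, sub_self]
    rw [residue_eq_zero_iff, mem_maximalIdeal] at h1
    have h2 : (((⟨α, hM.hα⟩ : A) - ⟨β, hM.hβ⟩ : A) : K) ∈ A.nonunits :=
      A.coe_mem_nonunits_iff.mpr h1
    have h3 : (((⟨α, hM.hα⟩ : A) - ⟨β, hM.hβ⟩ : A) : K) = C.γ := by
      rw [← hM.hγ]; rfl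
    rw [h3] at h2
    have := C.L.pos_of_mem_nonunits C.γ_ne h2
    rw [C.γ_unit] at this
    exact lt_irrefl _ this

/-- **a point near the node**: on a nodal model, a set of more than `p` points killed by `p`
(`p` a unit of `A`) contains a point whose abscissa is in the maximal ideal. -/
theorem exists_torsion_near_node (hM : C.IsModel W α β) {p : ℕ} (hp : 0 < p)
    (hp0 : (p : K) ≠ 0) (hpinv : ((p : K))⁻¹ ∈ A)
    (hR1 : ∀ {x y : K} (h : W.Nonsingular x y), p • Point.some x y h = 0 → x ∈ A ∧ y ∈ A)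
    (T : Finset W.Point) (hT : ∀ Q ∈ T, p • Q = 0) (hcard : p < T.card) :
    ∃ (x y : K) (h : W.Nonsingular x y), Point.some x y h ∈ T ∧ x ∈ A.nonunits := by
  classical
  by_contra hcon
  push_neg at hcon
  obtain ⟨EA, hEA⟩ := exists_model_of_isIntegralCurve hM.isIntegralCurve
  have hnf := isNodeForm_residue hM EA hEA
  have hle : T.card ≤ p := by
    refine card_le_of_inZeroCompP_torsion EA W (EA.map (residue A)) hEA rfl hp0 hpinv
      (fun T' hT' => card_torsion_nodeForm_le hnf p hp T' hT') T ?_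
    intro Q hQ
    refine ⟨hT Q hQ, ?_⟩
    rcases Q with _ | ⟨x, y, h⟩
    · exact Or.inl rfl
    · refine Or.inr ⟨x, y, h, rfl, Or.inr ?_⟩
      obtain ⟨hx, hy⟩ := hR1 h (hT _ hQ)
      have hx' : x ∉ A.nonunits := hcon x y h hQ
      have hnp := hM.not_partials_mem hx hy hx' h.1
      have hg : GoodRed EA x y := by
        rw [goodRed_iff_partials EA hx hy (by rw [hEA]; exact h.1), hEA]
        exact hnp
      exact ⟨hg.x_mem, hg.y_mem, hg.nonsingular⟩
  omega

end Model

end Fermat.Agent.RB
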