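import Mathlib
import Fermat.Agent.RB.HYG_lead_Node
import Fermat.Agent.EC.InertiaField_helper5
import Fermat.Agent.EC.Tors_helper6_Frey
import Fermat.Agent.S13.Assembly_helper6

set_option autoImplicit false
set_option linter.unusedSectionVars false

/-!
# [HYG] the mod `p` representation of the Frey curve is RAMIFIED at `2`

`v₂(Δ_min) = 2 p v₂(b) - 8` is prime to `p`, so a `p`-torsion point near the node of the nodal
model at `2` has an abscissa of non-integral valuation, which cannot be fixed by inertia.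
-/

namespace Fermat.Agent.RB

open WeierstrassCurve WeierstrassCurve.Affine WeierstrassCurve.Affine.Point IsLocalRing
open Fermat.Agent.Tate Fermat.Agent.S13 Fermat.Agent.FC Fermat.Agent.CFT.S14
open scoped WeierstrassCurve.Affine

section Generic

variable (P : FreyPackage) {K : Type*} [Field K] [DecidableEq K] [Algebra ℚ K] [IsAlgClosed K]
  [Algebra.IsAlgebraic ℚ K]

/-- generic form, with the integrality of the valuation of inertia-fixed elements as input -/
theorem frey_ramified_two_of_intVal (A : ValuationSubring K) (hA : A.LiesOverPrime 2)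
    (hint : ∀ L : LogVal A, L.w ((2 : ℕ) : K) = 1 → ∀ y : K, y ≠ 0 →
      (∀ σ ∈ A.inertiaSubgroupIn ℚ, σ y = y) → ∃ m : ℤ, L.w y = m) :
    ∃ σ ∈ A.inertiaSubgroupIn ℚ,
      ∃ x : Submodule.torsionBy ℤ (P.freyCurve.toAffine⁄K).Point P.p, σ • x ≠ x := by
  classical
  have : CharZero K := algebraRat.charZero K
  by_contra hcon
  push Not at hcon
  have hA' : ((2 : ℕ) : K) ∈ A.nonunits := hA
  obtain ⟨C, α, β, N, hL, hn, hpN, hM⟩ := exists_frey_nodeCtx P A hA'
  have hR1 : ∀ {x y : K} (h : ((freyVC2 P • P.freyCurve).toAffine⁄K).Nonsingular x y),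
      P.p • Point.some x y h = 0 → x ∈ A ∧ y ∈ A := frey_hR1 P hA' hM
  have hfin : Finite (Submodule.torsionBy ℤ (P.freyCurve.toAffine⁄K).Point P.p) :=
    Fermat.Agent.EC.frey_finite_torsionBy P
  have hcard : Nat.card (Submodule.torsionBy ℤ (P.freyCurve.toAffine⁄K).Point P.p) = P.p ^ 2 :=
    Fermat.Agent.EC.frey_card_torsionBy P
  let e := vcPtBaseChange P.freyCurve (freyVC2 P) K
  have : Fintype (Submodule.torsionBy ℤ (P.freyCurve.toAffine⁄K).Point P.p) := Fintype.ofFinite _
  let f : Submodule.torsionBy ℤ (P.freyCurve.toAffine⁄K).Point P.p →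
      ((freyVC2 P • P.freyCurve).toAffine⁄K).Point := fun x => e.symm x.1
  have hf : Function.Injective f := fun x y hxy => Subtype.ext (e.symm.injective hxy)
  have hfp : ∀ x, P.p • f x = 0 := by
    intro x
    show P.p • e.symm x.1 = 0
    rw [← map_nsmul]
    have := x.2
    rw [Submodule.mem_torsionBy_iff, natCast_zsmul] at this
    rw [this, _root_.map_zero]
  set T : Finset ((freyVC2 P • P.freyCurve).toAffine⁄K).Point := Finset.univ.image f with hTdef
  have hTcard : T.card = P.p ^ 2 := by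
    rw [hTdef, Finset.card_image_of_injective _ hf, Finset.card_univ, ← Nat.card_eq_fintype_card,
      hcard]
  have hp5 := P.hp5
  have hunit := prime_cast_mem_and_inv_mem A Nat.prime_two hA' P.pp (by omega : 2 ≠ P.p)
  have hp0 : ((P.p : ℕ) : K) ≠ 0 := by exact_mod_cast P.hp0
  obtain ⟨x, y, h, hmem, hx⟩ := exists_torsion_near_node hM P.hppos hp0 hunit.2 hR1 T
    (by
      intro Q hQ
      obtain ⟨z, -, rfl⟩ := Finset.mem_image.mp hQ
      exact hfp z)
    (by rw [hTcard]; nlinarith)
  obtain ⟨z, -, hz⟩ := Finset.mem_image.mp hmem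
  have hfσ : ∀ (σ : K ≃ₐ[ℚ] K) (w : Submodule.torsionBy ℤ (P.freyCurve.toAffine⁄K).Point P.p),
      f (σ • w) = σ • f w := fun σ w => symm_vcPtBaseChange_smul P (freyVC2 P) σ w.1
  -- the abscissa is fixed by inertia
  have hxfix : ∀ σ ∈ A.inertiaSubgroupIn ℚ, σ x = x := by
    intro σ hσ
    have h1 : σ • f z = f z := by rw [← hfσ, hcon σ hσ z]
    rw [hz, Fermat.Agent.Tate.smul_some] at h1
    simp only [Point.some.injEq] at h1
    exact h1.1
  obtain ⟨hx0, hlt, m, hm⟩ := hM.torsion_near_node P.hp_odd hR1 h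
    (by rw [← hz]; exact hfp z) hx
  obtain ⟨j, hj⟩ := hint C.L hL x hx0 hxfix
  have hpos : 0 < C.L.w x := C.L.pos_of_mem_nonunits hx0 hx
  rw [hn] at hlt hm
  rw [hj] at hlt hm hpos
  have hjpos : 0 < j := by exact_mod_cast hpos
  have hNpos : (0 : ℚ) < N := by rw [← hn]; exact C.n_pos
  have hNpos' : 0 < N := by exact_mod_cast hNpos
  have hm' : (P.p : ℤ) * j = m * N := by exact_mod_cast hm
  have hlt' : 2 * j < N := by exact_mod_cast hlt
  have hpp : Prime (P.p : ℤ) := Nat.prime_iff_prime_int.mp P.pp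
  have hdvd : (P.p : ℤ) ∣ m := by
    have : (P.p : ℤ) ∣ m * N := ⟨j, hm'.symm⟩
    exact (hpp.dvd_or_dvd this).resolve_right hpN
  obtain ⟨k, rfl⟩ := hdvd
  have hppos : (0 : ℤ) < P.p := by exact_mod_cast P.hppos
  have hjk : j = k * N := by
    have : (P.p : ℤ) * j = P.p * (k * N) := by rw [hm']; ring
    exact mul_left_cancel₀ hppos.ne' this
  have hk : 0 < k := by
    by_contra hk
    push Not at hk
    have : k * N ≤ 0 := mul_nonpos_of_nonpos_of_nonneg hk hNpos'.le
    omega
  nlinarith

end Generic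

/-- **ramification at `2`**: every inertia group above `2` moves some `p`-torsion point of the
Frey curve. -/
theorem frey_ramified_two (P : FreyPackage) (A : ValuationSubring Qbar)
    (hA : A.LiesOverPrime 2) :
    ∃ σ ∈ A.inertiaSubgroupIn ℚ, ∃ x : FreyTors P, σ • x ≠ x :=
  @frey_ramified_two_of_intVal P Qbar _ _ (AlgebraicClosure.instAlgebra ℚ) _ _ A hA
    (fun L hL y hy hfix =>
      Fermat.Agent.EC.logVal_eq_intCast_of_fixed L Nat.prime_two hA hL y hy hfix)

end Fermat.Agent.RB
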