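import Mathlib
import Fermat.Prelude.Def_GaloisRep_Residual

set_option autoImplicit false
set_option linter.unusedSectionVars false

/-!
# [HYG] two transvections with distinct axes force (absolute) irreducibility on subgroups

`TwoTransv ρ G` : the subgroup `G` of `G_ℚ` contains two elements acting on the 2-dimensional
`ρ.V` through transvections with different axes.  This is stable under base change
(`TwoTransv.baseChange`), forces every `G`-stable subspace to be trivial (`TwoTransv.eq_bot_or_top`)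
and holds for every subgroup containing all squares as soon as `ρ` is irreducible, `2 ≠ 0` and
some element acts through a nontrivial unipotent (`twoTransv_of_irreducible`).
-/

open scoped TensorProduct

namespace Fermat.Agent.RB

/-- the absolute Galois group of `ℚ` -/
local notation "Γℚ" => AlgebraicClosure ℚ ≃ₐ[ℚ] AlgebraicClosure ℚ

variable {k : Type} [Field k]

/-- `G` contains two transvections of `ρ.V` with distinct axes (in a spanning pair `e₁, e₂`) -/
def TwoTransv (ρ : ResidualGaloisRep k) (G : Subgroup Γℚ) : Prop :=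
  ∃ σ₁ ∈ G, ∃ σ₂ ∈ G, ∃ (e₁ e₂ : ρ.V) (a b : k), a ≠ 0 ∧ b ≠ 0 ∧
    (∀ x : ρ.V, ∃ c d : k, x = c • e₁ + d • e₂) ∧
    ρ.ρ σ₁ e₁ = e₁ ∧ ρ.ρ σ₁ e₂ = e₂ + a • e₁ ∧ ρ.ρ σ₂ e₂ = e₂ ∧ ρ.ρ σ₂ e₁ = e₁ + b • e₂

/-- a `G`-stable subspace is trivial -/
theorem TwoTransv.eq_bot_or_top {ρ : ResidualGaloisRep k} {G : Subgroup Γℚ}
    (h : TwoTransv ρ G) (V : Submodule k ρ.V) (hV : ∀ σ ∈ G, ∀ x ∈ V, ρ.ρ σ x ∈ V) :
    V = ⊥ ∨ V = ⊤ := by
  obtain ⟨σ₁, hσ₁, σ₂, hσ₂, e₁, e₂, a, b, ha, hb, hspan, h11, h12, h22, h21⟩ := h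
  by_cases hbot : V = ⊥
  · exact Or.inl hbot
  right
  obtain ⟨w, hwV, hw0⟩ := Submodule.exists_mem_ne_zero_of_ne_bot hbot
  obtain ⟨c, d, hw⟩ := hspan w
  -- `(σ₁ - 1) w = (d a) e₁`, `(σ₂ - 1) w = (c b) e₂`
  have k1 : (d * a) • e₁ ∈ V := by
    have h1 : ρ.ρ σ₁ w - w ∈ V := V.sub_mem (hV σ₁ hσ₁ w hwV) hwV
    have h2 : ρ.ρ σ₁ w - w = (d * a) • e₁ := by
      rw [hw, map_add, map_smul, map_smul, h11, h12, smul_add, smul_smul]
      abel
    rwa [h2] at h1
  have k2 : (c * b) • e₂ ∈ V := by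
    have h1 : ρ.ρ σ₂ w - w ∈ V := V.sub_mem (hV σ₂ hσ₂ w hwV) hwV
    have h2 : ρ.ρ σ₂ w - w = (c * b) • e₂ := by
      rw [hw, map_add, map_smul, map_smul, h22, h21, smul_add, smul_smul]
      abel
    rwa [h2] at h1
  have hboth : e₁ ∈ V ∧ e₂ ∈ V := by
    by_cases hd : d = 0
    · have hc : c ≠ 0 := by
        rintro rfl
        apply hw0
        rw [hw, hd, zero_smul, zero_smul, add_zero]
      have he₂ : e₂ ∈ V := by
        have := V.smul_mem (c * b)⁻¹ k2
        rwa [smul_smul, inv_mul_cancel₀ (mul_ne_zero hc hb), one_smul] at this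
      have h1 : ρ.ρ σ₁ e₂ - e₂ ∈ V := V.sub_mem (hV σ₁ hσ₁ e₂ he₂) he₂
      rw [h12, add_sub_cancel_left] at h1
      have := V.smul_mem a⁻¹ h1
      rw [smul_smul, inv_mul_cancel₀ ha, one_smul] at this
      exact ⟨this, he₂⟩
    · have he₁ : e₁ ∈ V := by
        have := V.smul_mem (d * a)⁻¹ k1
        rwa [smul_smul, inv_mul_cancel₀ (mul_ne_zero hd ha), one_smul] at this
      have h1 : ρ.ρ σ₂ e₁ - e₁ ∈ V := V.sub_mem (hV σ₂ hσ₂ e₁ he₁) he₁
      rw [h21, add_sub_cancel_left] at h1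
      have := V.smul_mem b⁻¹ h1
      rw [smul_smul, inv_mul_cancel₀ hb, one_smul] at this
      exact ⟨he₁, this⟩
  rw [eq_top_iff]
  intro x _
  obtain ⟨c', d', rfl⟩ := hspan x
  exact V.add_mem (V.smul_mem _ hboth.1) (V.smul_mem _ hboth.2)

/-- stability under base change -/
theorem TwoTransv.baseChange {ρ : ResidualGaloisRep k} {G : Subgroup Γℚ}
    (h : TwoTransv ρ G) (K : Type) [Field K] [Algebra k K] : TwoTransv (ρ.baseChange K) G := by
  obtain ⟨σ₁, hσ₁, σ₂, hσ₂, e₁, e₂, a, b, ha, hb, hspan, h11, h12, h22, h21⟩ := h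
  have hinj : Function.Injective (algebraMap k K) := (algebraMap k K).injective
  refine ⟨σ₁, hσ₁, σ₂, hσ₂, (1 : K) ⊗ₜ[k] e₁, (1 : K) ⊗ₜ[k] e₂, algebraMap k K a, algebraMap k K b,
    fun h0 => ha (hinj (by rw [h0, map_zero])), fun h0 => hb (hinj (by rw [h0, map_zero])),
    ?_, ?_, ?_, ?_, ?_⟩
  · intro x
    induction x using TensorProduct.induction_on with
    | zero => exact ⟨0, 0, by simp⟩
    | tmul z v =>
      obtain ⟨c, d, rfl⟩ := hspan v
      refine ⟨z * algebraMap k K c, z * algebraMap k K d, ?_⟩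
      rw [TensorProduct.tmul_add, TensorProduct.tmul_smul, TensorProduct.tmul_smul,
        TensorProduct.smul_tmul', TensorProduct.smul_tmul', TensorProduct.smul_tmul',
        TensorProduct.smul_tmul', smul_eq_mul, smul_eq_mul, mul_one, mul_one,
        Algebra.smul_def, Algebra.smul_def, mul_comm (algebraMap k K c), mul_comm (algebraMap k K d)]
    | add x y hx hy =>
      obtain ⟨c, d, rfl⟩ := hx
      obtain ⟨c', d', rfl⟩ := hy
      exact ⟨c + c', d + d', by rw [add_smul, add_smul]; abel⟩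
  · show (ρ.ρ σ₁).baseChange K ((1 : K) ⊗ₜ[k] e₁) = _
    rw [LinearMap.baseChange_tmul, h11]
  · show (ρ.ρ σ₁).baseChange K ((1 : K) ⊗ₜ[k] e₂) = _
    rw [LinearMap.baseChange_tmul, h12, TensorProduct.tmul_add, TensorProduct.tmul_smul,
      TensorProduct.smul_tmul', TensorProduct.smul_tmul', Algebra.smul_def, mul_one, smul_eq_mul,
      mul_one]
  · show (ρ.ρ σ₂).baseChange K ((1 : K) ⊗ₜ[k] e₂) = _
    rw [LinearMap.baseChange_tmul, h22]
  · show (ρ.ρ σ₂).baseChange K ((1 : K) ⊗ₜ[k] e₁) = _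
    rw [LinearMap.baseChange_tmul, h21, TensorProduct.tmul_add, TensorProduct.tmul_smul,
      TensorProduct.smul_tmul', TensorProduct.smul_tmul', Algebra.smul_def, mul_one, smul_eq_mul,
      mul_one]

end Fermat.Agent.RB

namespace Fermat.Agent.RB

local notation "Γℚ" => AlgebraicClosure ℚ ≃ₐ[ℚ] AlgebraicClosure ℚ

variable {k : Type} [Field k]

/-- a spanning pair from two independent vectors in a 2-dimensional space -/
theorem exists_coords_of_finrank_two {V : Type*} [AddCommGroup V] [Module k V]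
    (hV : Module.finrank k V = 2) {e₁ e₂ : V}
    (hind : ∀ c d : k, c • e₁ + d • e₂ = 0 → c = 0 ∧ d = 0) (x : V) :
    ∃ c d : k, x = c • e₁ + d • e₂ := by
  have hli : LinearIndependent k ![e₁, e₂] := by
    rw [LinearIndependent.pair_iff]
    intro s t hst
    exact hind s t hst
  have hcard : Fintype.card (Fin 2) = Module.finrank k V := by rw [hV]; rfl
  haveI : Module.Finite k V := Module.finite_of_finrank_pos (by rw [hV]; norm_num)
  let b := basisOfLinearIndependentOfCardEqFinrank hli hcard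
  refine ⟨b.repr x 0, b.repr x 1, ?_⟩
  have h := b.sum_repr x
  rw [Fin.sum_univ_two] at h
  have h0 : b 0 = e₁ := by
    rw [coe_basisOfLinearIndependentOfCardEqFinrank]; rfl
  have h1 : b 1 = e₂ := by
    rw [coe_basisOfLinearIndependentOfCardEqFinrank]; rfl
  rw [h0, h1] at h
  exact h.symm

/-- **irreducible + one nontrivial unipotent ⇒ two transvections in every subgroup containing
the squares** (characteristic `≠ 2`). -/
theorem twoTransv_of_irreducible (h2 : (2 : k) ≠ 0) (ρ : ResidualGaloisRep k)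
    (hirr : ρ.IsIrreducible) (σ₀ : Γℚ) (h1 : ρ.ρ σ₀ ≠ 1)
    (hu : ∀ x : ρ.V, ρ.ρ σ₀ (ρ.ρ σ₀ x - x) = ρ.ρ σ₀ x - x)
    (G : Subgroup Γℚ) (hG : ∀ σ : Γℚ, σ * σ ∈ G) : TwoTransv ρ G := by
  -- a vector moved by `σ₀`
  obtain ⟨v, hv⟩ : ∃ v : ρ.V, ρ.ρ σ₀ v - v ≠ 0 := by
    by_contra hno
    push Not at hno
    apply h1
    ext x
    have := hno x
    rw [sub_eq_zero] at this
    rw [this]; rfl
  set u := ρ.ρ σ₀ with hudef
  set e₁ : ρ.V := u v - v with he₁
  set e₂ : ρ.V := v with he₂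
  have hu1 : u e₁ = e₁ := hu v
  have hu2 : u e₂ = e₂ + e₁ := by rw [he₁]; abel
  -- independence
  have hind : ∀ c d : k, c • e₁ + d • e₂ = 0 → c = 0 ∧ d = 0 := by
    intro c d hcd
    have h3 : u (c • e₁ + d • e₂) - (c • e₁ + d • e₂) = d • e₁ := by
      rw [map_add, map_smul, map_smul, hu1, hu2, smul_add]; abel
    rw [hcd, map_zero, sub_zero] at h3
    have hd : d = 0 := by
      rcases smul_eq_zero.mp h3.symm with h | h
      · exact h
      · exact absurd h hv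
    rw [hd, zero_smul, add_zero] at hcd
    rcases smul_eq_zero.mp hcd with h | h
    · exact ⟨h, hd⟩
    · exact absurd h hv
  have hspan := exists_coords_of_finrank_two ρ.finrank_eq hind
  -- the action of `u²`
  have huu : ∀ c d : k, u (u (c • e₁ + d • e₂)) = (c • e₁ + d • e₂) + (2 * d) • e₁ := by
    intro c d
    rw [map_add, map_smul, map_smul, hu1, hu2, map_add, map_smul, map_smul, map_add, hu1, hu2,
      smul_add, smul_add, mul_smul, two_smul]
    abel
  -- the line `k e₁` is not stable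
  have hline : ∃ g : Γℚ, ∀ c : k, ρ.ρ g e₁ ≠ c • e₁ := by
    by_contra hno
    push Not at hno
    rcases hirr (Submodule.span k {e₁}) (by
      intro σ x hx
      obtain ⟨c, rfl⟩ := Submodule.mem_span_singleton.mp hx
      obtain ⟨c', hc'⟩ := hno σ
      rw [map_smul, hc', smul_smul]
      exact Submodule.mem_span_singleton.mpr ⟨_, rfl⟩) with h | h
    · apply hv
      have : e₁ ∈ Submodule.span k {e₁} := Submodule.mem_span_singleton_self e₁
      rw [h] at this
      exact (Submodule.mem_bot k).mp this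
    · have : e₂ ∈ Submodule.span k {e₁} := by rw [h]; exact Submodule.mem_top
      obtain ⟨c, hc⟩ := Submodule.mem_span_singleton.mp this
      have := (hind c (-1) (by rw [hc]; simp)).2
      norm_num at this
  obtain ⟨g, hg⟩ := hline
  have hgg : ∀ y : ρ.V, ρ.ρ g⁻¹ (ρ.ρ g y) = y := by
    intro y
    rw [← Module.End.mul_apply, ← map_mul, inv_mul_cancel, map_one]; rfl
  have hgg' : ∀ y : ρ.V, ρ.ρ g (ρ.ρ g⁻¹ y) = y := by
    intro y
    rw [← Module.End.mul_apply, ← map_mul, mul_inv_cancel, map_one]; rfl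
  set f₂ : ρ.V := ρ.ρ g e₁ with hf₂
  obtain ⟨c', d', hcd'⟩ := hspan f₂
  have hd' : d' ≠ 0 := by
    rintro rfl
    rw [zero_smul, add_zero] at hcd'
    exact hg c' hcd'
  obtain ⟨c'', d'', hcd''⟩ := hspan (ρ.ρ g⁻¹ e₁)
  have hd'' : d'' ≠ 0 := by
    rintro rfl
    rw [zero_smul, add_zero] at hcd''
    have h3 : e₁ = c'' • f₂ := by
      rw [hf₂, ← map_smul, ← hcd'', hgg']
    have hc'' : c'' ≠ 0 := by
      rintro rfl
      rw [zero_smul] at h3
      exact hv h3
    apply hg c''⁻¹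
    show f₂ = c''⁻¹ • e₁
    rw [h3, smul_smul, inv_mul_cancel₀ hc'', one_smul]
  set σ₁ : Γℚ := σ₀ * σ₀ with hσ₁
  set σ₂ : Γℚ := (g * σ₀ * g⁻¹) * (g * σ₀ * g⁻¹) with hσ₂
  have hρ₁ : ∀ y : ρ.V, ρ.ρ σ₁ y = u (u y) := by
    intro y; rw [hσ₁, map_mul]; rfl
  have hρ₂ : ∀ y : ρ.V, ρ.ρ σ₂ y = ρ.ρ g (u (u (ρ.ρ g⁻¹ y))) := by
    intro y
    rw [hσ₂, map_mul, map_mul, map_mul]
    simp only [Module.End.mul_apply]
    rw [hgg]
  refine ⟨σ₁, hG σ₀, σ₂, hG _, e₁, f₂, 2 * d', 2 * d'', mul_ne_zero h2 hd', mul_ne_zero h2 hd'',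
    ?_, ?_, ?_, ?_, ?_⟩
  · intro x
    obtain ⟨c, d, rfl⟩ := hspan x
    refine ⟨c - d * d'⁻¹ * c', d * d'⁻¹, ?_⟩
    have e : d * d'⁻¹ * d' = d := by rw [mul_assoc, inv_mul_cancel₀ hd', mul_one]
    rw [hcd', smul_add, smul_smul, smul_smul, sub_smul, e]
    abel
  · rw [hρ₁, hu1, hu1]
  · rw [hρ₁, hcd', huu]
  · rw [hρ₂, hf₂, hgg, hu1, hu1]
  · rw [hρ₂, hcd'', huu, map_add, ← hcd'', hgg', map_smul]

end Fermat.Agent.RB
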