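import Mathlib
import Fermat.Agent.RB.HYG_lead_Ker
import Fermat.Agent.RB.HYG_lead_Ram2
import Fermat.Agent.RB.HYG_lead_Transv
import Fermat.Agent.S54_Frobenius
import Fermat.Agent.S05

set_option autoImplicit false
set_option linter.unusedSectionVars false

/-!
# [HYG] the residual representation of the Frey curve

* `freyRhobar P : ResidualGaloisRep (ZMod P.p)` : `E[p]` of the Frey curve;
* `freyRhobar_twoTransv` : if it is irreducible, every subgroup of `G_ℚ` containing all squares
  contains two transvections with distinct axes (from the inertia at `2`);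
* consequences: irreducibility of all base changes restricted to subgroups of index `2`.
-/

namespace Fermat.Agent.RB

open WeierstrassCurve WeierstrassCurve.Affine WeierstrassCurve.Affine.Point
open Fermat.Agent.S13 Fermat.Agent.CFT.S14
open scoped WeierstrassCurve.Affine

local notation "Γℚ" => AlgebraicClosure ℚ ≃ₐ[ℚ] AlgebraicClosure ℚ

/-- the prime of a Frey package, as an instance -/
instance instFactPrimeFreyPackage (P : FreyPackage) : Fact P.p.Prime := ⟨P.pp⟩

theorem frey_card_torsionBy_Qbar (P : FreyPackage) :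
    Nat.card (Submodule.torsionBy ℤ (P.freyCurve⁄(AlgebraicClosure ℚ)).Point P.p) = P.p ^ 2 :=
  Fermat.Agent.EC.frey_card_torsionBy P

theorem frey_factorsThroughFiniteLevel (P : FreyPackage) :
    GaloisFactorsThroughFiniteLevel
      (WeierstrassCurve.Affine.Point.galoisRepModuleEnd (K := AlgebraicClosure ℚ) ℚ
        P.freyCurve P.p) := by
  haveI : Finite (Submodule.torsionBy ℤ (P.freyCurve⁄(AlgebraicClosure ℚ)).Point P.p) :=
    Fermat.Agent.EC.frey_finite_torsionBy P
  exact galoisFactorsThroughFiniteLevel_of_finite P.freyCurve P.p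

/-- **the mod `p` representation of the Frey curve** as a `ResidualGaloisRep`. -/
noncomputable def freyRhobar (P : FreyPackage) : ResidualGaloisRep (ZMod P.p) :=
  P.freyCurve.residualGaloisRepOf P.p (frey_card_torsionBy_Qbar P)
    (frey_factorsThroughFiniteLevel P)

theorem freyRhobar_apply (P : FreyPackage) (σ : Γℚ) (x : FreyTors P) :
    (freyRhobar P).ρ σ x = σ • x := rfl

theorem freyRhobar_isIrreducible (P : FreyPackage)
    (hirr : GaloisRepIsIrreducible (K := AlgebraicClosure ℚ) ℚ P.freyCurve P.p) :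
    (freyRhobar P).IsIrreducible := by
  intro W hW
  exact hirr.2 W (fun σ x hx => hW σ x hx)

theorem two_ne_zero_zmod (P : FreyPackage) : (2 : ZMod P.p) ≠ 0 := by
  intro h
  have h2 : ((2 : ℕ) : ZMod P.p) = 0 := by exact_mod_cast h
  rw [ZMod.natCast_eq_zero_iff] at h2
  have := Nat.le_of_dvd (by norm_num) h2
  have := P.hp5
  omega

/-- **inertia at `2` gives a nontrivial unipotent element**. -/
theorem freyRhobar_exists_unipotent (P : FreyPackage) :
    ∃ σ₀ : Γℚ, (freyRhobar P).ρ σ₀ ≠ 1 ∧
      ∀ x : (freyRhobar P).V, (freyRhobar P).ρ σ₀ ((freyRhobar P).ρ σ₀ x - x) =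
        (freyRhobar P).ρ σ₀ x - x := by
  obtain ⟨A, hA⟩ := Fermat.Agent.S54.exists_valuationSubring_liesOver
    (L := AlgebraicClosure ℚ) Nat.prime_two
  have hA' : A.LiesOverPrime 2 := hA
  obtain ⟨σ, hσ, x, hx⟩ := frey_ramified_two P A hA'
  refine ⟨σ, fun h1 => hx ?_, fun y => ?_⟩
  · have := congrArg (fun f => f x) h1
    exact this
  · exact @Fermat.Agent.S13.frey_inertia_two_unipotent P (AlgebraicClosure ℚ) _ _
      (AlgebraicClosure.instAlgebra ℚ) _ _ A hA' σ hσ y

/-- **two transvections** in every subgroup containing the squares. -/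
theorem freyRhobar_twoTransv (P : FreyPackage)
    (hirr : GaloisRepIsIrreducible (K := AlgebraicClosure ℚ) ℚ P.freyCurve P.p)
    (G : Subgroup Γℚ) (hG : ∀ σ : Γℚ, σ * σ ∈ G) : TwoTransv (freyRhobar P) G := by
  obtain ⟨σ₀, h1, hu⟩ := freyRhobar_exists_unipotent P
  exact twoTransv_of_irreducible (two_ne_zero_zmod P) (freyRhobar P)
    (freyRhobar_isIrreducible P hirr) σ₀ h1 hu G hG

/-- `ρ̄` is unramified at the odd primes `q ≠ p` (S05). -/
theorem freyRhobar_isUnramifiedAt (P : FreyPackage) {q : ℕ} (hq : q.Prime) (hq2 : q ≠ 2)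
    (hqp : q ≠ P.p) : (freyRhobar P).IsUnramifiedAt q := by
  intro A hA σ hσ
  ext x
  exact Fermat.Agent.S05.result P hq hq2 hqp A hA σ hσ x

/-- `ρ̄` is ramified at `2`. -/
theorem freyRhobar_not_isUnramifiedAt_two (P : FreyPackage) :
    ¬ (freyRhobar P).IsUnramifiedAt 2 := by
  intro h
  obtain ⟨A, hA⟩ := Fermat.Agent.S54.exists_valuationSubring_liesOver
    (L := AlgebraicClosure ℚ) Nat.prime_two
  have hA' : A.LiesOverPrime 2 := hA
  obtain ⟨σ, hσ, x, hx⟩ := frey_ramified_two P A hA'
  apply hx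
  have := congrArg (fun f => f x) (h A hA' σ hσ)
  exact this

/-- the inertia groups at `2` act unipotently. -/
theorem freyRhobar_unipotent_two (P : FreyPackage) (A : ValuationSubring (AlgebraicClosure ℚ))
    (hA : A.LiesOverPrime 2) (σ : Γℚ) (hσ : σ ∈ A.inertiaSubgroupIn ℚ)
    (x : (freyRhobar P).V) :
    (freyRhobar P).ρ σ ((freyRhobar P).ρ σ x - x) = (freyRhobar P).ρ σ x - x :=
  @Fermat.Agent.S13.frey_inertia_two_unipotent P (AlgebraicClosure ℚ) _ _
    (AlgebraicClosure.instAlgebra ℚ) _ _ A hA σ hσ x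

/-- squares lie in a subgroup of index two -/
theorem sq_mem_of_index_two {G₀ : Type*} [Group G₀] (H : Subgroup G₀) (hH : H.index = 2)
    (σ : G₀) : σ * σ ∈ H :=
  (Subgroup.mul_self_mem_of_index_two hH σ)

end Fermat.Agent.RB
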