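import Mathlib
import Fermat.Agent.RB.HYG_lead_Frey
import Fermat.Agent.MP.TOPG_lead_Frob
import Fermat.Agent.FC.FREY_helper9_Basic

set_option autoImplicit false
set_option linter.unusedSectionVars false

/-!
# [HYG] characteristic polynomials on `E[p]` of the Frey curve

* `charpoly_of_int_matrix` : the characteristic polynomial of an endomorphism of a free
  `ZMod p`-module of rank two from an integral matrix in a basis;
* `freyRhobar_charpoly_frobenius` : `charpoly ρ̄(Frob_ℓ) = X² - a_ℓ(W) X + ℓ` for every integral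
  model `W` of the Frey curve, `ℓ ≠ p` a prime of good reduction of `W`;
* `freyRhobar_det` : `det ρ̄ = ε̄_p`.
-/

namespace Fermat.Agent.RB

open Polynomial WeierstrassCurve WeierstrassCurve.Affine WeierstrassCurve.Affine.Point
open Fermat.Agent.S13 Fermat.Agent.CFT.S14
open scoped WeierstrassCurve.Affine

local notation "Ω" => AlgebraicClosure ℚ
local notation "Γℚ" => AlgebraicClosure ℚ ≃ₐ[ℚ] AlgebraicClosure ℚ

section LinAlg

variable {p : ℕ} [Fact p.Prime] {V : Type*} [AddCommGroup V] [Module (ZMod p) V]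
  [Module.Finite (ZMod p) V]

/-- characteristic polynomial from an integral matrix in a basis -/
theorem charpoly_of_int_matrix (b : Module.Basis (Fin 2) (ZMod p) V) (f : V →ₗ[ZMod p] V)
    (a b' c d : ℤ) (h0 : f (b 0) = a • b 0 + c • b 1) (h1 : f (b 1) = b' • b 0 + d • b 1) :
    f.charpoly = X ^ 2 - C (((a + d : ℤ) : ZMod p)) * X + C (((a * d - b' * c : ℤ) : ZMod p)) := by
  have hz : ∀ (n : ℤ) (v : V), n • v = (n : ZMod p) • v := fun n v =>
    (Int.cast_smul_eq_zsmul (ZMod p) n v).symm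
  rw [hz, hz] at h0 h1
  rw [← LinearMap.charpoly_toMatrix f b, Matrix.charpoly_fin_two]
  have m00 : LinearMap.toMatrix b b f 0 0 = (a : ZMod p) := by
    rw [LinearMap.toMatrix_apply, h0]; simp
  have m10 : LinearMap.toMatrix b b f 1 0 = (c : ZMod p) := by
    rw [LinearMap.toMatrix_apply, h0]; simp
  have m01 : LinearMap.toMatrix b b f 0 1 = (b' : ZMod p) := by
    rw [LinearMap.toMatrix_apply, h1]; simp
  have m11 : LinearMap.toMatrix b b f 1 1 = (d : ZMod p) := by
    rw [LinearMap.toMatrix_apply, h1]; simp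
  rw [Matrix.trace_fin_two, Matrix.det_fin_two, m00, m10, m01, m11]
  push_cast
  ring_nf

/-- determinant from an integral matrix in a basis -/
theorem det_of_int_matrix (b : Module.Basis (Fin 2) (ZMod p) V) (f : V →ₗ[ZMod p] V)
    (a b' c d : ℤ) (h0 : f (b 0) = a • b 0 + c • b 1) (h1 : f (b 1) = b' • b 0 + d • b 1) :
    LinearMap.det f = (((a * d - b' * c : ℤ) : ZMod p)) := by
  have hz : ∀ (n : ℤ) (v : V), n • v = (n : ZMod p) • v := fun n v =>
    (Int.cast_smul_eq_zsmul (ZMod p) n v).symm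
  rw [hz, hz] at h0 h1
  rw [← LinearMap.det_toMatrix b f, Matrix.det_fin_two]
  have m00 : LinearMap.toMatrix b b f 0 0 = (a : ZMod p) := by
    rw [LinearMap.toMatrix_apply, h0]; simp
  have m10 : LinearMap.toMatrix b b f 1 0 = (c : ZMod p) := by
    rw [LinearMap.toMatrix_apply, h0]; simp
  have m01 : LinearMap.toMatrix b b f 0 1 = (b' : ZMod p) := by
    rw [LinearMap.toMatrix_apply, h1]; simp
  have m11 : LinearMap.toMatrix b b f 1 1 = (d : ZMod p) := by
    rw [LinearMap.toMatrix_apply, h1]; simp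
  rw [m00, m10, m01, m11]
  push_cast
  ring

/-- integral coordinates in a basis -/
theorem exists_int_coords (b : Module.Basis (Fin 2) (ZMod p) V) (v : V) :
    ∃ x y : ℤ, v = x • b 0 + y • b 1 := by
  obtain ⟨x, hx⟩ := ZMod.intCast_surjective (b.repr v 0)
  obtain ⟨y, hy⟩ := ZMod.intCast_surjective (b.repr v 1)
  refine ⟨x, y, ?_⟩
  have h := b.sum_repr v
  rw [Fin.sum_univ_two, ← hx, ← hy, Int.cast_smul_eq_zsmul, Int.cast_smul_eq_zsmul] at h
  exact h.symm

/-- integral independence of a basis -/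
theorem int_indep_of_basis (b : Module.Basis (Fin 2) (ZMod p) V) (x y : ℤ)
    (h : x • b 0 + y • b 1 = 0) : (p : ℤ) ∣ x ∧ (p : ℤ) ∣ y := by
  rw [← Int.cast_smul_eq_zsmul (ZMod p), ← Int.cast_smul_eq_zsmul (ZMod p)] at h
  have hli := b.linearIndependent
  rw [Fintype.linearIndependent_iff] at hli
  have h2 := hli ![(x : ZMod p), (y : ZMod p)] (by rw [Fin.sum_univ_two]; simpa using h)
  have hx := h2 0
  have hy := h2 1
  simp only [Matrix.cons_val_zero, Matrix.cons_val_one] at hx hy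
  exact ⟨(ZMod.intCast_zmod_eq_zero_iff_dvd x p).mp hx, (ZMod.intCast_zmod_eq_zero_iff_dvd y p).mp hy⟩

end LinAlg

section Frey

variable (P : FreyPackage)

/-- **an integral matrix of `ρ̄(σ)`** in an integral basis of `E[p]` of the Frey curve, with the
characteristic polynomial and the determinant. -/
theorem freyRhobar_exists_int_matrix (σ : Γℚ) :
    ∃ (P₀ Q₀ : (P.freyCurve⁄Ω).Point) (a b c d : ℤ), P.p • P₀ = 0 ∧ P.p • Q₀ = 0 ∧
      (∀ x y : ℤ, x • P₀ + y • Q₀ = 0 → (P.p : ℤ) ∣ x ∧ (P.p : ℤ) ∣ y) ∧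
      σ • P₀ = a • P₀ + c • Q₀ ∧ σ • Q₀ = b • P₀ + d • Q₀ ∧
      ((freyRhobar P).ρ σ).charpoly =
        X ^ 2 - C (((a + d : ℤ) : ZMod P.p)) * X + C (((a * d - b * c : ℤ) : ZMod P.p)) ∧
      LinearMap.det ((freyRhobar P).ρ σ) = (((a * d - b * c : ℤ) : ZMod P.p)) := by
  let b : Module.Basis (Fin 2) (ZMod P.p) (freyRhobar P).V :=
    Module.finBasisOfFinrankEq (ZMod P.p) (freyRhobar P).V (freyRhobar P).finrank_eq
  obtain ⟨a, c, hac⟩ := exists_int_coords b ((freyRhobar P).ρ σ (b 0))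
  obtain ⟨b', d, hbd⟩ := exists_int_coords b ((freyRhobar P).ρ σ (b 1))
  let u : FreyTors P := b 0
  let v : FreyTors P := b 1
  have hP₀ : P.p • (u : (P.freyCurve⁄Ω).Point) = 0 := by
    have := u.2
    rw [Submodule.mem_torsionBy_iff, natCast_zsmul] at this
    exact this
  have hQ₀ : P.p • (v : (P.freyCurve⁄Ω).Point) = 0 := by
    have := v.2
    rw [Submodule.mem_torsionBy_iff, natCast_zsmul] at this
    exact this
  have hind : ∀ x y : ℤ, x • (u : (P.freyCurve⁄Ω).Point) +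
      y • (v : (P.freyCurve⁄Ω).Point) = 0 → (P.p : ℤ) ∣ x ∧ (P.p : ℤ) ∣ y := by
    intro x y hxy
    refine int_indep_of_basis b x y (Subtype.ext ?_)
    exact hxy
  have h1 : σ • (u : (P.freyCurve⁄Ω).Point) = a • (u : (P.freyCurve⁄Ω).Point) +
      c • (v : (P.freyCurve⁄Ω).Point) :=
    congrArg (fun w : FreyTors P => (w : (P.freyCurve⁄Ω).Point)) hac
  have h2 : σ • (v : (P.freyCurve⁄Ω).Point) = b' • (u : (P.freyCurve⁄Ω).Point) +
      d • (v : (P.freyCurve⁄Ω).Point) :=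
    congrArg (fun w : FreyTors P => (w : (P.freyCurve⁄Ω).Point)) hbd
  exact ⟨u, v, a, b', c, d, hP₀, hQ₀, hind, h1, h2, charpoly_of_int_matrix b _ a b' c d hac hbd,
    det_of_int_matrix b _ a b' c d hac hbd⟩

end Frey

end Fermat.Agent.RB

namespace Fermat.Agent.RB

open Polynomial WeierstrassCurve WeierstrassCurve.Affine WeierstrassCurve.Affine.Point
open Fermat.Agent.S13 Fermat.Agent.CFT.S14 Fermat.Agent.LR.NonEis
open scoped WeierstrassCurve.Affine

local notation "Ω" => AlgebraicClosure ℚ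
local notation "Γℚ" => AlgebraicClosure ℚ ≃ₐ[ℚ] AlgebraicClosure ℚ

/-- the Galois-equivariant identification of the points of a curve over `ℚ` with those of an
integral model (no ellipticity assumption). -/
theorem exists_equivariant_addEquiv_intModel (E : WeierstrassCurve ℚ) {W : WeierstrassCurve ℤ}
    (hW : W.IsIntegralModelOf E) :
    ∃ e : (E.toAffine⁄Ω).Point ≃+ (W.toAffine⁄Ω).Point,
      ∀ (σ : Γℚ) (Q : (E.toAffine⁄Ω).Point), e (σ • Q) = σ • e Q := by
  obtain ⟨C, hC⟩ := hW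
  obtain ⟨e2, he2⟩ := Fermat.Agent.MP.exists_addEquiv_of_eq (C • E) (W.map (Int.castRingHom ℚ)) hC
  refine ⟨((Fermat.Agent.Tate.vcPtBaseChange E C Ω).symm.trans e2).trans
    (pointCongr (baseChange_map_castRingHom W)), fun σ Q => ?_⟩
  have h1 : (Fermat.Agent.Tate.vcPtBaseChange E C Ω).symm (σ • Q) =
      σ • (Fermat.Agent.Tate.vcPtBaseChange E C Ω).symm Q := by
    apply (Fermat.Agent.Tate.vcPtBaseChange E C Ω).injective
    rw [AddEquiv.apply_symm_apply, ← Fermat.Agent.Tate.smul_vcPtBaseChange,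
      AddEquiv.apply_symm_apply]
  show pointCongr (baseChange_map_castRingHom W)
    (e2 ((Fermat.Agent.Tate.vcPtBaseChange E C Ω).symm (σ • Q))) = _
  rw [h1, he2, smul_pointCongr_castRingHom]
  rfl

variable (P : FreyPackage)

theorem frey_p_ne_two' : P.p ≠ 2 := by have := P.hp5; omega

/-- **Frobenius on `E[p]`**: `charpoly ρ̄(Frob_ℓ) = X² - a_ℓ(W) X + ℓ` for every integral model
`W` of the Frey curve and every prime `ℓ ≠ p` of good reduction of `W`. -/
theorem freyRhobar_charpoly_frobenius {W : WeierstrassCurve ℤ}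
    (hW : W.IsIntegralModelOf P.freyCurve) {ℓ : ℕ} (hℓ : ℓ.Prime) (hℓp : ℓ ≠ P.p)
    (hgood : W.IsGoodPrimeFor ℓ) (A : ValuationSubring Ω) (hA : A.LiesOverPrime ℓ) (σ : Γℚ)
    (hσ : A.IsFrobeniusAt σ ℓ) :
    ((freyRhobar P).ρ σ).charpoly =
      X ^ 2 - C ((W.apOfModel ℓ : ℤ) : ZMod P.p) * X + C ((ℓ : ℕ) : ZMod P.p) := by
  have hΔ : W.Δ ≠ 0 := fun h0 => hgood (by rw [h0]; exact dvd_zero _)
  obtain ⟨e, he⟩ := exists_equivariant_addEquiv_intModel P.freyCurve hW
  obtain ⟨P₀, Q₀, a, b, c, d, hP₀, hQ₀, hind, hσP, hσQ, hchar, -⟩ :=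
    freyRhobar_exists_int_matrix P σ
  have key := Fermat.Agent.S52x.trace_det_frobenius_mod W hΔ (frey_p_ne_two' P) (e P₀) (e Q₀)
    (by rw [← map_nsmul, hP₀, _root_.map_zero]) (by rw [← map_nsmul, hQ₀, _root_.map_zero])
    (by
      intro x y hxy
      refine hind x y (e.injective ?_)
      rw [map_add, map_zsmul, map_zsmul, hxy, _root_.map_zero])
    hℓ hℓp hgood A hA σ hσ a b c d
    (by rw [← he, hσP, map_add, map_zsmul, map_zsmul])
    (by rw [← he, hσQ, map_add, map_zsmul, map_zsmul])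
  have et : ((a + d : ℤ) : ZMod P.p) = ((W.apOfModel ℓ : ℤ) : ZMod P.p) := by
    rw [← sub_eq_zero, ← Int.cast_sub]
    exact (ZMod.intCast_zmod_eq_zero_iff_dvd _ _).mpr key.1
  have eδ : ((a * d - b * c : ℤ) : ZMod P.p) = ((ℓ : ℕ) : ZMod P.p) := by
    rw [← sub_eq_zero, ← Int.cast_natCast, ← Int.cast_sub]
    exact (ZMod.intCast_zmod_eq_zero_iff_dvd _ _).mpr key.2
  rw [hchar, et, eδ]

/-- **`det ρ̄ = ε̄_p`** for the Frey curve. -/
theorem freyRhobar_det (σ : Γℚ) (n : ℕ) (hn : ∀ μ : Ω, μ ^ P.p = 1 → σ μ = μ ^ n) :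
    LinearMap.det ((freyRhobar P).ρ σ) = ((n : ℕ) : ZMod P.p) := by
  have hW : P.freyCurveInt.IsIntegralModelOf P.freyCurve :=
    ⟨1, by rw [one_smul]; exact (Fermat.Agent.FC.frey_map_int P).symm⟩
  have hΔ : P.freyCurveInt.Δ ≠ 0 := Fermat.Agent.FC.freyCurveInt_Δ_ne_zero P
  obtain ⟨e, he⟩ := exists_equivariant_addEquiv_intModel P.freyCurve hW
  obtain ⟨P₀, Q₀, a, b, c, d, hP₀, hQ₀, hind, hσP, hσQ, -, hdet⟩ :=
    freyRhobar_exists_int_matrix P σ
  have key := Fermat.Agent.S52x.det_mod_eq_cyclotomic P.freyCurveInt hΔ (frey_p_ne_two' P)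
    (e P₀) (e Q₀)
    (by rw [← map_nsmul, hP₀, _root_.map_zero]) (by rw [← map_nsmul, hQ₀, _root_.map_zero])
    (by
      intro x y hxy
      refine hind x y (e.injective ?_)
      rw [map_add, map_zsmul, map_zsmul, hxy, _root_.map_zero])
    σ a b c d
    (by rw [← he, hσP, map_add, map_zsmul, map_zsmul])
    (by rw [← he, hσQ, map_add, map_zsmul, map_zsmul]) n hn
  have eδ : ((a * d - b * c : ℤ) : ZMod P.p) = ((n : ℕ) : ZMod P.p) := by
    rw [← sub_eq_zero, ← Int.cast_natCast, ← Int.cast_sub]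
    exact (ZMod.intCast_zmod_eq_zero_iff_dvd _ _).mpr key
  rw [hdet, eδ]

end Fermat.Agent.RB
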