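/-
RB — helper6 — [MAZ]: **[NODE-q] + [DICT-q], abstract part** (ports of helper9's `sheet_node_rel`,
`SSModel.dvd_node_of_isNodeFact` and helper1's dictionary `SSModel.redOrd_dict_one/two`,
`SSModel.dict_one_rel/two_rel` with the exponent `r` separated from the residue characteristic).

* `sheet_node_relQ`, `SSModel.dvd_node_of_isNodeFactQ` : `f = c X ^ k v G ^ r` at a node of thickness
  `m` ⇒ `r ∣ k m - (a0 - a∞)`;
* `SSModel.redOrd_dvdQ_one`, `SSModel.redOrd_dvdQ_two` : the dictionary when `r ∣ k nd` at every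
  node: `r ∣ ω_Q(f)`;
* `SSModel.dvd_ord_redQ` : relational form: `r ∣ ord_Q (ρ x₀)` at every place `Q` of the reduction.
-/
import Mathlib
import Fermat.Agent.MP.DICT_helper1_Rel
import Fermat.Agent.MP.PLHOST_helper9_Val

set_option autoImplicit false
set_option linter.unusedSectionVars false
set_option linter.unusedVariables false
set_option linter.style.haveILetI false

open AlgebraicCurve IsLocalRing

namespace Fermat.Agent.RB

open Fermat.Agent.NP Fermat.Agent.SS Fermat.Agent.JA Fermat.Agent.FF Fermat.Agent.MW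
  Fermat.Agent.MW.NAdic Fermat.Agent.MP

section Abstract

variable {F : Type*} [Field F] {p : ℕ} {B : DepthBase F p}

/-- **the valuation identity at a node**, abstract form, exponent `r`. -/
theorem sheet_node_relQ (Sinf S0 : Sheet B) {X Y c v G f : F} {m r : ℕ} {k ainf a0 : ℤ}
    (hXY : X * Y = B.π ^ m) (hX : IsUnitIn Sinf.W X) (hY : IsUnitIn S0.W Y)
    (hc : c ∈ B.K₁) (hc0 : c ≠ 0) (hvinf : IsUnitIn Sinf.W v) (hv0 : IsUnitIn S0.W v)
    (hG : G ≠ 0) (hf : f = c * X ^ k * v * G ^ r)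
    (hfinf : IsUnitIn Sinf.W (f * (B.π ^ ainf)⁻¹)) (hf0 : IsUnitIn S0.W (f * (B.π ^ a0)⁻¹)) :
    (r : ℤ) ∣ k * m - (a0 - ainf) := by
  obtain ⟨nc, uc, huc, huc', rfl⟩ := B.unif_const c hc hc0
  obtain ⟨bi, ui, hui, hui', eGi⟩ := Sinf.unif G hG
  obtain ⟨bz, uz, huz, huz', eGz⟩ := S0.unif G hG
  have hπ0 := B.π_ne_zero
  have huc0 : uc ≠ 0 := by
    rintro rfl
    exact hc0 (mul_zero _)
  have hui0 : ui ≠ 0 := by
    rintro rfl
    exact hG (by rw [eGi, mul_zero])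
  have huz0 : uz ≠ 0 := by
    rintro rfl
    exact hG (by rw [eGz, mul_zero])
  have hUci : IsUnitIn Sinf.W uc := ⟨Sinf.R₁_le huc, Sinf.R₁_le huc', huc0⟩
  have hUcz : IsUnitIn S0.W uc := ⟨S0.R₁_le huc, S0.R₁_le huc', huc0⟩
  have hUi : IsUnitIn Sinf.W ui := ⟨hui, hui', hui0⟩
  have hUz : IsUnitIn S0.W uz := ⟨huz, huz', huz0⟩
  have hY0 : Y ≠ 0 := hY.2.2
  have hXe : X = B.π ^ m * Y⁻¹ := by
    rw [← hXY]
    field_simp
  -- along the sheet `∞`
  have e1 : B.π ^ ainf * (f * (B.π ^ ainf)⁻¹) =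
      B.π ^ (nc + (r : ℤ) * bi) * (uc * X ^ k * v * ui ^ r) := by
    have h0 : B.π ^ ainf ≠ 0 := zpow_ne_zero _ hπ0
    rw [mul_comm f, ← mul_assoc, mul_inv_cancel₀ h0, one_mul, hf, eGi, zpow_add₀ hπ0,
      mul_comm (r : ℤ) bi, zpow_mul B.π bi (r : ℤ), zpow_natCast, mul_pow]
    ring
  have hainf : ainf = nc + (r : ℤ) * bi :=
    sheet_zpow_unique Sinf hfinf
      (((hUci.mul (isUnitIn_zpow hX k)).mul hvinf).mul (hUi.pow r)) e1
  -- along the sheet `0`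
  have e2 : B.π ^ a0 * (f * (B.π ^ a0)⁻¹) =
      B.π ^ (nc + k * (m : ℤ) + (r : ℤ) * bz) * (uc * Y⁻¹ ^ k * v * uz ^ r) := by
    have h0 : B.π ^ a0 ≠ 0 := zpow_ne_zero _ hπ0
    have hz : B.π ^ (nc + k * (m : ℤ) + (r : ℤ) * bz) =
        B.π ^ nc * (B.π ^ m) ^ k * (B.π ^ bz) ^ r := by
      rw [zpow_add₀ hπ0, zpow_add₀ hπ0, mul_comm (r : ℤ) bz, zpow_mul B.π bz (r : ℤ),
        zpow_natCast, mul_comm k (m : ℤ), zpow_mul B.π (m : ℤ) k, zpow_natCast]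
    rw [mul_comm f, ← mul_assoc, mul_inv_cancel₀ h0, one_mul, hf, eGz, hXe, hz, mul_pow, mul_zpow]
    ring
  have ha0 : a0 = nc + k * (m : ℤ) + (r : ℤ) * bz :=
    sheet_zpow_unique S0 hf0
      (((hUcz.mul (isUnitIn_zpow hY.inv k)).mul hv0).mul (hUz.pow r)) e2
  exact ⟨bi - bz, by rw [ha0, hainf]; ring⟩

end Abstract

section Model

variable {R : Type*} [CommRing R] [IsDomain R] [IsDiscreteValuationRing R] [CharZero R]
  {K₁ : Type*} [Field K₁] [Algebra R K₁] [IsFractionRing R K₁]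
  {KM : Type*} [Field KM] [Algebra K₁ KM] [Algebra R KM] [IsScalarTower R K₁ KM]
  {EM : Type*} [Field EM] [Algebra KM EM] [Algebra K₁ EM] [IsScalarTower K₁ KM EM] [Algebra R EM]
  [IsScalarTower R KM EM]
  {KN : Type*} [Field KN] [Algebra K₁ KN] [Algebra R KN] [IsScalarTower R K₁ KN]
  {EN : Type*} [Field EN] [Algebra KN EN] [Algebra K₁ EN] [IsScalarTower K₁ KN EN] [Algebra R EN]
  [IsScalarTower R KN EN] [FiniteDimensional KN EN]
  {π : R} {p n : ℕ} {S : Finset R} {t : KM} {jM : EM} {j : KN} {A B : EM →+* EN}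
  {VM : ValuationSubring EM} {Winf W0 : ValuationSubring EN}
  [IsAlgClosed (IsLocalRing.ResidueField R)]

/-- **the valuation identity at a node of an `SSModel`**, exponent `r`:
`r ∣ k m - (a0 - a∞)`. -/
theorem SSModel.dvd_node_of_isNodeFactQ (h : SSModel K₁ π p n S t jM j A B VM Winf W0)
    (hπ : Irreducible π) (hp : p.Prime) {e₁ : ℕ} (he₁ : 0 < e₁) {ε : Rˣ}
    (hpe : (p : R) = ε * π ^ e₁)
    (𝔪 : Ideal ↥(chartOne R EN j)) [h𝔪 : 𝔪.IsMaximal]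
    (hinf : sheetIdeal j Winf h.two.chart_le_inf ≤ 𝔪)
    (h0 : sheetIdeal j W0 h.two.chart_le_zero ≤ 𝔪) {X : EN} {m : ℕ}
    (hX : haveI := h𝔪.isPrime; IsNodeCoord π (isFractionRing_chartOne (K₁ := K₁) j h.j_adjoin)
      (sheetIdeal j Winf h.two.chart_le_inf) (sheetIdeal j W0 h.two.chart_le_zero) 𝔪 X m)
    {r : ℕ} {f : EN} {k : ℤ} (hk : IsNodeFact K₁ (locSub (chartOne R EN j) 𝔪) r X f k)
    {ainf a0 : ℤ} (hfinf : Winf.valuation (f * (algebraMap R EN π ^ ainf)⁻¹) = 1)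
    (hf0 : W0.valuation (f * (algebraMap R EN π ^ a0)⁻¹) = 1) :
    (r : ℤ) ∣ k * m - (a0 - ainf) := by
  haveI := h𝔪.isPrime
  obtain ⟨L, Y, hLR, hLt, hLf, -, -, hXY, hXu, hYu, -, -, -⟩ :=
    SSModel.exists_localPt_node hp he₁ hpe h hπ 𝔪 hinf h0 hX
  obtain ⟨c, v, G, hc, hG, hv, hf⟩ := hk
  have hvL : IsUnitIn L.R' v := by rw [hLR]; exact hv
  have hvi : IsUnitIn Winf.toSubring v := by
    have := hvL.of_le (L.le_sheet true)
    rwa [hLt] at this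
  have hvz : IsUnitIn W0.toSubring v := by
    have := hvL.of_le (L.le_sheet false)
    rwa [hLf] at this
  exact sheet_node_relQ (B := hostDepthBase K₁ KN EN hπ hp he₁ hpe)
    (SSModel.sheetInf hp he₁ hpe h hπ) (SSModel.sheetZero hp he₁ hpe h hπ) hXY hXu hYu
    ⟨c, rfl⟩ ((map_ne_zero _).mpr hc) hvi hvz hG hf
    ((isUnitIn_toSubring_iff Winf).mpr hfinf) ((isUnitIn_toSubring_iff W0).mpr hf0)

end Model

section Dict

variable {R : Type*} [CommRing R] [IsDomain R] [IsDiscreteValuationRing R] [CharZero R]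
  {K₁ : Type*} [Field K₁] [Algebra R K₁] [IsFractionRing R K₁]
  {KM : Type*} [Field KM] [Algebra K₁ KM] [Algebra R KM] [IsScalarTower R K₁ KM]
  {EM : Type*} [Field EM] [Algebra KM EM] [Algebra K₁ EM] [IsScalarTower K₁ KM EM] [Algebra R EM]
  [IsScalarTower R KM EM]
  {KN : Type*} [Field KN] [Algebra K₁ KN] [Algebra R KN] [IsScalarTower R K₁ KN]
  {EN : Type*} [Field EN] [Algebra KN EN] [Algebra K₁ EN] [IsScalarTower K₁ KN EN] [Algebra R EN]
  [IsScalarTower R KN EN] [FiniteDimensional KN EN]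
  {π : R} {q n : ℕ} {S : Finset R} {t : KM} {jM : EM} {j : KN} {A B : EM →+* EN}
  {VM : ValuationSubring EM} {Winf W0 : ValuationSubring EN}
  [IsAlgClosed (IsLocalRing.ResidueField R)]
  {k : Type*} [Field k] {F : Type*} [Field F] [Algebra k F]
  {ι : ↥Winf →+* F}

/-- **the dictionary at the non-cuspidal places**, exponent `r`, when `r ∣ k nd` at every node. -/
theorem SSModel.redOrd_dvdQ_one (h : SSModel K₁ π q n S t jM j A B VM Winf W0)
    (hπ : Irreducible π) {e₁ : ℕ} (he₁ : 0 < e₁) {ε : Rˣ} (hpe : (q : R) = ε * π ^ e₁)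
    (hker : ∀ x : ↥Winf, Winf.valuation (x : EN) < 1 → ι x = 0)
    (res : R →+* k) (hres : Function.Surjective res)
    (hιR : ∀ (r : R) (hr : algebraMap R EN r ∈ Winf),
      ι ⟨algebraMap R EN r, hr⟩ = algebraMap k F (res r))
    (Q : Place k F)
    (hQ : ∀ y ∈ Q.toValuationSubring, ∃ c : k,
      Q.toValuationSubring.valuation (y - algebraMap k F c) < 1)
    (hjW : algebraMap KN EN j ∈ Winf)
    (hιj : ι ⟨algebraMap KN EN j, hjW⟩ ∈ Q.toValuationSubring)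
    {r : ℕ} (hr : r ≠ 0)
    {f : EN} (hf : f ≠ 0) (hord : ∀ P : Place K₁ EN, (r : ℤ) ∣ P.ord f)
    (hcinf : ∀ b ∈ chartOne R EN j, b ∈ Winf) (hc0 : ∀ b ∈ chartOne R EN j, b ∈ W0)
    (X : ChartNode j Winf W0 hcinf hc0 → EN) (kk : ChartNode j Winf W0 hcinf hc0 → ℤ)
    (hXu : ∀ nd, IsUnitIn Winf.toSubring (X nd))
    (hfact : ∀ nd, IsNodeFact K₁ (locSub (chartOne R EN j) nd.1) r (X nd) f (kk nd))
    (hkk : ∀ nd, (r : ℤ) ∣ kk nd)
    {nf : ℤ} (hnf : RedOrd Winf (algebraMap R EN π) ι Q f nf) : (r : ℤ) ∣ nf := by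
  have hπ0 : algebraMap R EN π ≠ 0 := algebraMap_pi_ne_zero (K₁ := K₁) (K := KN) hπ
  have hπ1 := SSModel.valuation_pi_inf_lt_one h hπ
  have hex : ∀ g : EN, g ≠ 0 → ∃ m, RedOrd Winf (algebraMap R EN π) ι Q g m :=
    fun g hg => SSModel.redOrd_exists h he₁ hpe Q hg
  have hconst : ∀ c : K₁, c ≠ 0 → RedOrd Winf (algebraMap R EN π) ι Q (algebraMap K₁ EN c) 0 :=
    fun c hc => SSModel.redOrd_const h hπ hker res hιR Q hc
  obtain ⟨hW, 𝔪, hmax, hle, hmem, hunit⟩ :=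
    SSModel.exists_centre_chart h hπ hker res hres hιR Q hQ j hjW hιj
  haveI := hmax
  by_cases h0 : sheetIdeal j W0 hc0 ≤ 𝔪
  · let nd : ChartNode j Winf W0 hcinf hc0 := ⟨𝔪, hmax, hle, h0⟩
    have hXW : X nd ∈ Winf := (hXu nd).1
    have hX1 : Winf.valuation (X nd) = 1 :=
      valuation_eq_one_of_mem_of_inv_mem (hXu nd).2.2 (hXu nd).1 (hXu nd).2.1
    have hX : RedOrd Winf (algebraMap R EN π) ι Q (X nd) (Q.ord (ι ⟨X nd, hXW⟩)) :=
      RedOrd.of_valuation_eq_one hXW hX1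
    have h1 := RedOrd.dvd_of_isNodeFact hπ0 hπ1 hex hconst (O := locSub (chartOne R EN j) 𝔪) hunit
      (hfact nd) hX hnf
    have h2 : (r : ℤ) ∣ kk nd * Q.ord (ι ⟨X nd, hXW⟩) := Dvd.dvd.mul_right (hkk nd) _
    have := dvd_add h1 h2
    rwa [sub_add_cancel] at this
  · exact RedOrd.dvd_of_smooth_fact hπ0 hπ1 hex hconst (O := locSub (chartOne R EN j) 𝔪) hunit
      ((SSModel.exists_fact_smooth_one h hπ hr hf hord 𝔪).1 hle h0) hnf

/-- **the dictionary at the cuspidal places**, exponent `r`. -/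
theorem SSModel.redOrd_dvdQ_two (h : SSModel K₁ π q n S t jM j A B VM Winf W0)
    (hπ : Irreducible π) {e₁ : ℕ} (he₁ : 0 < e₁) {ε : Rˣ} (hpe : (q : R) = ε * π ^ e₁)
    (hjint : IsIntegral ↥(Algebra.adjoin R {B jM}) (A jM))
    (hker : ∀ x : ↥Winf, Winf.valuation (x : EN) < 1 → ι x = 0)
    (res : R →+* k) (hres : Function.Surjective res)
    (hιR : ∀ (r : R) (hr : algebraMap R EN r ∈ Winf),
      ι ⟨algebraMap R EN r, hr⟩ = algebraMap k F (res r))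
    (Q : Place k F)
    (hQ : ∀ y ∈ Q.toValuationSubring, ∃ c : k,
      Q.toValuationSubring.valuation (y - algebraMap k F c) < 1)
    (hjW : algebraMap KN EN j ∈ Winf)
    (hιj : ι ⟨algebraMap KN EN j, hjW⟩ ∉ Q.toValuationSubring)
    {r : ℕ} (hr : r ≠ 0)
    {f : EN} (hf : f ≠ 0) (hord : ∀ P : Place K₁ EN, (r : ℤ) ∣ P.ord f)
    {nf : ℤ} (hnf : RedOrd Winf (algebraMap R EN π) ι Q f nf) : (r : ℤ) ∣ nf := by
  have hπ0 : algebraMap R EN π ≠ 0 := algebraMap_pi_ne_zero (K₁ := K₁) (K := KN) hπ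
  have hπ1 := SSModel.valuation_pi_inf_lt_one h hπ
  have hex : ∀ g : EN, g ≠ 0 → ∃ m, RedOrd Winf (algebraMap R EN π) ι Q g m :=
    fun g hg => SSModel.redOrd_exists h he₁ hpe Q hg
  have hconst : ∀ c : K₁, c ≠ 0 → RedOrd Winf (algebraMap R EN π) ι Q (algebraMap K₁ EN c) 0 :=
    fun c hc => SSModel.redOrd_const h hπ hker res hιR Q hc
  have h2 := h.two.inv hπ
  have hjiW : algebraMap KN EN j⁻¹ ∈ Winf :=
    h2.chart_le_inf _ (algebraMap_coord_mem_chartOne j⁻¹)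
  -- the reduction of `j⁻¹` is the inverse of the reduction of `j`
  have hmul : ι ⟨algebraMap KN EN j, hjW⟩ * ι ⟨algebraMap KN EN j⁻¹, hjiW⟩ = 1 := by
    rw [← map_mul]
    have hj0 : algebraMap KN EN j ≠ 0 := by
      intro h0
      apply hιj
      have : (⟨algebraMap KN EN j, hjW⟩ : ↥Winf) = 0 := Subtype.ext h0
      rw [this, map_zero]
      exact Q.toValuationSubring.zero_mem
    have : (⟨algebraMap KN EN j, hjW⟩ : ↥Winf) * ⟨algebraMap KN EN j⁻¹, hjiW⟩ = 1 := by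
      apply Subtype.ext
      show algebraMap KN EN j * algebraMap KN EN j⁻¹ = 1
      rw [map_inv₀, mul_inv_cancel₀ hj0]
    rw [this, map_one]
  have hιji : ι ⟨algebraMap KN EN j⁻¹, hjiW⟩ = (ι ⟨algebraMap KN EN j, hjW⟩)⁻¹ :=
    eq_inv_of_mul_eq_one_right hmul
  have hιjim : ι ⟨algebraMap KN EN j⁻¹, hjiW⟩ ∈ Q.toValuationSubring := by
    rw [hιji]
    exact (Q.toValuationSubring.mem_or_inv_mem _).resolve_left hιj
  have hιjilt : Q.toValuationSubring.valuation (ι ⟨algebraMap KN EN j⁻¹, hjiW⟩) < 1 := by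
    rw [hιji, map_inv₀]
    have h1 : 1 < Q.toValuationSubring.valuation (ι ⟨algebraMap KN EN j, hjW⟩) := by
      rw [← not_le, ValuationSubring.valuation_le_one_iff]; exact hιj
    exact inv_lt_one_of_one_lt₀ h1
  obtain ⟨hW, 𝔪, hmax, hle, hmem, hunit⟩ :=
    SSModel.exists_centre_chart h hπ hker res hres hιR Q hQ j⁻¹ hjiW hιjim
  haveI := hmax
  haveI := hmax.isPrime
  have hcusp : (⟨algebraMap KN EN j⁻¹, algebraMap_coord_mem_chartOne j⁻¹⟩ :
      ↥(chartOne R EN j⁻¹)) ∈ 𝔪 := (hmem _).mpr hιjilt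
  have h0 : ¬ sheetIdeal j⁻¹ W0 h2.chart_le_zero ≤ 𝔪 := fun h0 =>
    h.not_crossing_of_cusp hπ h2 𝔪 hcusp hle h0
  exact RedOrd.dvd_of_smooth_fact hπ0 hπ1 hex hconst (O := locSub (chartOne R EN j⁻¹) 𝔪) hunit
    ((SSModel.exists_fact_smooth_two h hπ hjint hr hf hord 𝔪).1 hle h0) hnf

/-- **[ORD-q], abstract form**: on an `SSModel` with a reduction `ρ : VM → F̄` of the good level, a
function `f` with `div f ∈ r Div` whose normalisation along `Winf` reduces to `F̄ = ρ x₀`, node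
factorisations `f = c X ^ k v G ^ r` with `r ∣ k` at every node: `r ∣ ord_Q F̄` at EVERY place `Q` of
`F̄`. -/
theorem SSModel.dvd_ord_redQ (h : SSModel K₁ π q n S t jM j A B VM Winf W0)
    (hπ : Irreducible π) {e₁ : ℕ} (he₁ : 0 < e₁) {ε : Rˣ} (hpe : (q : R) = ε * π ^ e₁)
    (hjint : IsIntegral ↥(Algebra.adjoin R {B jM}) (A jM))
    (ρ : ↥VM →+* F) (hρ : ∀ x : ↥VM, VM.valuation (x : EM) < 1 → ρ x = 0)
    (res : R →+* k) (hres : Function.Surjective res)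
    (hρR : ∀ (r : R) (hr : algebraMap R EM r ∈ VM),
      ρ ⟨algebraMap R EM r, hr⟩ = algebraMap k F (res r))
    (hQ : ∀ Q : Place k F, ∀ y ∈ Q.toValuationSubring, ∃ c : k,
      Q.toValuationSubring.valuation (y - algebraMap k F c) < 1)
    (hjV : jM ∈ VM) {r : ℕ} (hr : r ≠ 0)
    {f : EN} (hf : f ≠ 0) (hord : ∀ P : Place K₁ EN, (r : ℤ) ∣ P.ord f)
    (hcinf : ∀ b ∈ chartOne R EN j, b ∈ Winf) (hc0 : ∀ b ∈ chartOne R EN j, b ∈ W0)
    (X : ChartNode j Winf W0 hcinf hc0 → EN) (kk : ChartNode j Winf W0 hcinf hc0 → ℤ)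
    (hXu : ∀ nd, IsUnitIn Winf.toSubring (X nd))
    (hfact : ∀ nd, IsNodeFact K₁ (locSub (chartOne R EN j) nd.1) r (X nd) f (kk nd))
    (hkk : ∀ nd, (r : ℤ) ∣ kk nd)
    {ainf : ℤ} {x₀ : EM} (hx₀ : x₀ ∈ VM)
    (hfu : Winf.valuation (f * (algebraMap R EN π ^ ainf)⁻¹) = 1)
    (hlink : Winf.valuation (f * (algebraMap R EN π ^ ainf)⁻¹ - A x₀) < 1) :
    ∀ Q : Place k F, (r : ℤ) ∣ Q.ord (ρ ⟨x₀, hx₀⟩) := by
  intro Q
  obtain ⟨ι, hker, hιA, hιR⟩ := SSModel.exists_redInf h ρ hρ res hρR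
  have hjW : algebraMap KN EN j ∈ Winf :=
    h.two.chart_le_inf _ (algebraMap_coord_mem_chartOne j)
  have hιjeq : ι ⟨algebraMap KN EN j, hjW⟩ = ρ ⟨jM, hjV⟩ :=
    hιA ⟨algebraMap KN EN j, hjW⟩ ⟨jM, hjV⟩ (by
      show Winf.valuation (algebraMap KN EN j - A jM) < 1
      rw [h.A_j, sub_self, map_zero]; exact zero_lt_one)
  have hfm : f * (algebraMap R EN π ^ ainf)⁻¹ ∈ Winf :=
    (ValuationSubring.valuation_le_one_iff _ _).mp hfu.le
  have hnf : RedOrd Winf (algebraMap R EN π) ι Q f (Q.ord (ρ ⟨x₀, hx₀⟩)) :=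
    ⟨ainf, hfm, hfu, by rw [hιA ⟨_, hfm⟩ ⟨x₀, hx₀⟩ hlink]⟩
  by_cases hg : ρ ⟨jM, hjV⟩ ∈ Q.toValuationSubring
  · exact SSModel.redOrd_dvdQ_one h hπ he₁ hpe hker res hres hιR Q (hQ Q) hjW
      (by rw [hιjeq]; exact hg) hr hf hord hcinf hc0 X kk hXu hfact hkk hnf
  · exact SSModel.redOrd_dvdQ_two h hπ he₁ hpe hjint hker res hres hιR Q (hQ Q) hjW
      (by rw [hιjeq]; exact hg) hr hf hord hnf

end Dict

end Fermat.Agent.RB
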