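/-
RB — helper6 — [MAZ], package P1 (part 1): **the Atkin–Lehner involution `w_q` on `J₀(M q)`**.

* `alSemi hq hqM : SemilinearAut Ω F_{Mq}` — `atkinLehnerBar` as a semilinear automorphism with
  trivial base automorphism; `atkinLehnerJ hq hqM : J₀(M q) →+ J₀(M q)`;
* `atkinLehnerJ_atkinLehnerJ` (involution), `smul_atkinLehnerJ` (`w_q` commutes with `G_ℚ`);
* `IsDivOf.alSemi`-type bookkeeping is inherited from `SemilinearAut`;
* `pic0_frob_add_al_eq_zero_of_kummer` (abstract): if for a representative `(D, f)` (`m D = div f`) of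
  `x` the function `(g f · (w f) ^ q) ^ c` is `(constant) · u ^ m`, then `c • (g x + q • w x) = 0`.
-/
import Mathlib
import Fermat.Agent.JA.ES1_helper2_Bar
import Fermat.Agent.S35.TOPF_helper8_Abs
import Fermat.Prelude.Thm_ModularCurve_coeffMap_qExpand

set_option autoImplicit false
set_option linter.unusedSectionVars false
set_option linter.unusedVariables false
set_option linter.style.haveILetI false

open AlgebraicCurve ModularCurve

namespace Fermat.Agent.RB

open Fermat.Agent.JA Fermat.Agent.X0N Fermat.Agent.S35 Fermat.Agent.SS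

/-- `Ω = AlgebraicClosure ℚ`. -/
local notation "Ω" => AlgebraicClosure ℚ

/-- the absolute Galois group. -/
local notation "GQ" => (AlgebraicClosure ℚ ≃ₐ[ℚ] AlgebraicClosure ℚ)

section Abstract

variable {K F : Type*} [Field K] [Field F] [Algebra K F]

/-- the divisor of `g f · (w f) ^ q`. -/
theorem isDivOf_frob_mul_al_pow (g w : SemilinearAut K F) {f : F} {D : Divisor K F}
    (h : IsDivOf f D) (q : ℕ) : IsDivOf (g • f * (w • f) ^ q) (g • D + q • (w • D)) := by
  have h1 := h.smul g
  have h2 := (h.smul w).pow q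
  refine ⟨mul_ne_zero h1.1 h2.1, fun v => ?_⟩
  rw [Finsupp.add_apply, h1.2, h2.2, v.ord_mul h1.1 h2.1]

/-- **abstract top of the toric Frobenius relation**: a Kummer relation
`(g f · (w f)^q)^c = a · u^m` for ONE representative `(D, f)` of `x ∈ Pic⁰(F)[m]` gives
`c • (g x + q • w x) = 0`. -/
theorem pic0_frob_add_al_eq_zero_of_kummer (g w : SemilinearAut K F) {m c q : ℕ} (hm : m ≠ 0)
    (D : Divisor.degZero (K := K) (F := F)) (f : F) (hf : f ≠ 0)
    (hfD : ∀ v : Place K F, v.ord f = (m : ℤ) * (D : Divisor K F) v)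
    (a : K) (u : F) (ha : a ≠ 0) (hu : u ≠ 0)
    (hH : (g • f * (w • f) ^ q) ^ c = algebraMap K F a * u ^ m) :
    c • (g • (Pic0.mk D : Pic0 K F) + q • (w • (Pic0.mk D : Pic0 K F))) = 0 := by
  have hdiv : IsDivOf f (m • (D : Divisor K F)) := ⟨hf, fun v => by
    rw [Finsupp.smul_apply, nsmul_eq_mul, hfD v]⟩
  have hdivP := (isDivOf_frob_mul_al_pow g w hdiv q).pow c
  set E₀ : Divisor.degZero (K := K) (F := F) :=
    SemilinearAut.degZeroSMulHom g D + q • SemilinearAut.degZeroSMulHom w D with hE₀
  have hcoe : (E₀ : Divisor K F) = g • (D : Divisor K F) + q • (w • (D : Divisor K F)) := rfl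
  have hmk : g • (Pic0.mk D : Pic0 K F) + q • (w • (Pic0.mk D : Pic0 K F)) = Pic0.mk E₀ := rfl
  rw [hmk]
  have hcE : (c • E₀ : Divisor.degZero (K := K) (F := F)) ∈
      (Divisor.principal (K := K) (F := F)).addSubgroupOf (Divisor.degZero (K := K) (F := F)) := by
    rw [AddSubgroup.mem_addSubgroupOf]
    refine ⟨u, hu, fun v => ?_⟩
    show ((c • (E₀ : Divisor K F)) : Divisor K F) v = _
    rw [hcoe]
    have h1 := hdivP.2 v
    rw [hH, v.ord_mul ((map_ne_zero _).2 ha) (pow_ne_zero m hu),
      place_ord_algebraMap_eq_zero v ha, zero_add] at h1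
    have h2 : v.ord (u ^ m) = (m : ℤ) * v.ord u := by
      have := v.ord_zpow u m
      rw [zpow_natCast] at this
      exact this
    have e : (c • (g • (m • (D : Divisor K F)) + q • (w • (m • (D : Divisor K F)))) : Divisor K F) =
        m • (c • (g • (D : Divisor K F) + q • (w • (D : Divisor K F)))) := by
      rw [smul_comm g m, smul_comm w m, smul_comm q m, ← smul_add, smul_comm c m]
    rw [h2, e, Finsupp.smul_apply, nsmul_eq_mul] at h1
    have hm' : (m : ℤ) ≠ 0 := by exact_mod_cast hm
    have h3 : (m : ℤ) * ((c • (g • (D : Divisor K F) + q • (w • (D : Divisor K F))) :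
        Divisor K F) v) = (m : ℤ) * v.ord u := h1
    exact mul_left_cancel₀ hm' h3
  have h4 : (c • Pic0.mk E₀ : Pic0 K F) = Pic0.mk (c • E₀) := rfl
  rw [h4]
  exact (QuotientAddGroup.eq_zero_iff _).2 hcE

end Abstract

section AL

variable {M q : ℕ} [NeZero M] [NeZero q] (hq : q.Prime) (hqM : ¬ q ∣ M)

/-- **the Atkin–Lehner involution `W_q` of `F̄(X₀(M q))` as a semilinear automorphism** (trivial
on the constants). -/
noncomputable def alSemi : SemilinearAut Ω ↥(modularFunctionFieldBar (M * q)) :=
  ⟨(atkinLehnerBarEquiv hq hqM, RingEquiv.refl Ω), fun a => atkinLehnerBar_algebraMap hq hqM a⟩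

theorem alSemi_smul (z : ↥(modularFunctionFieldBar (M * q))) :
    alSemi hq hqM • z = atkinLehnerBar M q hq hqM z := rfl

theorem alSemi_mul_alSemi : alSemi hq hqM * alSemi hq hqM = 1 := by
  refine Subtype.ext (Prod.ext (RingEquiv.ext fun z => ?_) rfl)
  exact atkinLehnerBar_atkinLehnerBar hq hqM z

/-- `W_q` commutes with the coefficientwise Galois action on the function field. -/
theorem arithmeticRingAut_atkinLehnerBar (σ : GQ) (z : ↥(modularFunctionFieldBar (M * q))) :
    arithmeticRingAut (modularFunctionFieldFull (M * q)) σ (atkinLehnerBar M q hq hqM z) =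
      atkinLehnerBar M q hq hqM (arithmeticRingAut (modularFunctionFieldFull (M * q)) σ z) := by
  induction z using induction_alpha_beta M q hq with
  | hconst c =>
    rw [atkinLehnerBar_algebraMap, arithmeticRingAut_algebraMap, atkinLehnerBar_algebraMap]
  | hα y =>
    have e1 : arithmeticRingAut (modularFunctionFieldFull (M * q)) σ (heckeAlphaBar Ω M q y) =
        heckeAlphaBar Ω M q (arithmeticRingAut (modularFunctionFieldFull M) σ y) :=
      Subtype.ext (by
        rw [coe_arithmeticRingAut_apply, coe_heckeAlphaBar, coe_heckeAlphaBar,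
          coe_arithmeticRingAut_apply])
    have e2 : arithmeticRingAut (modularFunctionFieldFull (M * q)) σ (heckeBetaBar Ω M q y) =
        heckeBetaBar Ω M q (arithmeticRingAut (modularFunctionFieldFull M) σ y) :=
      Subtype.ext (by
        rw [coe_arithmeticRingAut_apply, coe_heckeBetaBar, coe_heckeBetaBar,
          coe_arithmeticRingAut_apply, coeffMap_qExpand])
    rw [atkinLehnerBar_alpha, e2, e1, atkinLehnerBar_alpha]
  | hβ y =>
    have e1 : arithmeticRingAut (modularFunctionFieldFull (M * q)) σ (heckeAlphaBar Ω M q y) =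
        heckeAlphaBar Ω M q (arithmeticRingAut (modularFunctionFieldFull M) σ y) :=
      Subtype.ext (by
        rw [coe_arithmeticRingAut_apply, coe_heckeAlphaBar, coe_heckeAlphaBar,
          coe_arithmeticRingAut_apply])
    have e2 : arithmeticRingAut (modularFunctionFieldFull (M * q)) σ (heckeBetaBar Ω M q y) =
        heckeBetaBar Ω M q (arithmeticRingAut (modularFunctionFieldFull M) σ y) :=
      Subtype.ext (by
        rw [coe_arithmeticRingAut_apply, coe_heckeBetaBar, coe_heckeBetaBar,
          coe_arithmeticRingAut_apply, coeffMap_qExpand])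
    rw [atkinLehnerBar_beta, e1, e2, atkinLehnerBar_beta]
  | hadd a b h1 h2 => rw [map_add, map_add, h1, h2, map_add, map_add]
  | hmul a b h1 h2 => rw [map_mul, map_mul, h1, h2, map_mul, map_mul]
  | hinv a h1 => rw [map_inv₀, map_inv₀, h1, map_inv₀, map_inv₀]

/-- `W_q` commutes with `G_ℚ` in the group of semilinear automorphisms. -/
theorem arithmeticGalois_mul_alSemi (σ : GQ) :
    arithmeticGalois (modularFunctionFieldFull (M * q)) σ * alSemi hq hqM =
      alSemi hq hqM * arithmeticGalois (modularFunctionFieldFull (M * q)) σ := by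
  refine Subtype.ext (Prod.ext (RingEquiv.ext fun z => ?_) ?_)
  · exact arithmeticRingAut_atkinLehnerBar hq hqM σ z
  · exact RingEquiv.ext fun a => rfl

/-- **the Atkin–Lehner involution `w_q` on `J₀(M q)`.** -/
noncomputable def atkinLehnerJ : JZero (M * q) →+ JZero (M * q) :=
  DistribSMul.toAddMonoidHom (JZero (M * q)) (alSemi hq hqM)

theorem atkinLehnerJ_apply (x : JZero (M * q)) :
    atkinLehnerJ hq hqM x = alSemi hq hqM • x := rfl

/-- `w_q` is an involution. -/
theorem atkinLehnerJ_atkinLehnerJ (x : JZero (M * q)) :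
    atkinLehnerJ hq hqM (atkinLehnerJ hq hqM x) = x := by
  rw [atkinLehnerJ_apply, atkinLehnerJ_apply, ← mul_smul, alSemi_mul_alSemi, one_smul]

/-- **`w_q` commutes with `G_ℚ`.** -/
theorem smul_atkinLehnerJ (σ : GQ) (x : JZero (M * q)) :
    σ • atkinLehnerJ hq hqM x = atkinLehnerJ hq hqM (σ • x) := by
  rw [atkinLehnerJ_apply, atkinLehnerJ_apply, galois_smul_pic0_def, galois_smul_pic0_def,
    ← mul_smul, ← mul_smul, arithmeticGalois_mul_alSemi]

theorem atkinLehnerJ_nsmul (n : ℕ) (x : JZero (M * q)) :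
    atkinLehnerJ hq hqM (n • x) = n • atkinLehnerJ hq hqM x := map_nsmul _ n x

theorem atkinLehnerJ_injective : Function.Injective (atkinLehnerJ hq hqM) := fun x y h => by
  rw [← atkinLehnerJ_atkinLehnerJ hq hqM x, h, atkinLehnerJ_atkinLehnerJ]

end AL

end Fermat.Agent.RB
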