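/-
RB — helper6 — **[MAZ], the interfaces** (Mazur's principle at a prime `q ≠ p`, `q ∥ level`, in the
form "the level lowers OR `q ≡ 1 mod p` and `ρ̄(Frob_q)` is scalar", plus (LGC-St)).  Finding 420.

Top level (consumed by [TOP]):
* `FrobScalarAtCurve E p q` : `q ≡ 1 [MOD p]` and every Frobenius lift at every place over `q` acts on
  `E[p](ℚ̄)` as a scalar;
* `MazurPrincipleStatement` : `E[p]` irreducible and unramified at `q`, `q` bad for the model `W`,
  `W` residually modular of level `M' q` (`q ∤ M'`, `q ≠ 2, p`, `p ≥ 5`) ⇒ residually modular of level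
  `M'` or `FrobScalarAtCurve E p q`.

Middle level (statements about the groups `JZero _`):
* `NewCopyQ E W M' q p`, `TopGQStatement` : the `q`-old branch or a `q`-new Galois-equivariant copy of
  `E[p]` in `J₀(M' q)` (P1 = port of MP/TOPG);
* `IsToricClassAt M q m A x` : the class `x ∈ J₀(M q)[m]` has a Kummer function which, over every
  sufficiently large Galois base, is congruent to `m`-th powers of units along both sheets `W_∞`,
  `W_0` of the Legendre host at `A ∣ q`;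
* `KeyToricStatement` (P7 + descent): toric classes satisfy `φ x + q • w_q x = 0`;
* `KeyMazAt M q p A`, `KeyMazStatement` (P2–P6): an `I_A`-fixed, `q`-new Hecke eigenclass in
  `J₀(M q)[p]` with a non-Eisenstein eigensystem is toric, or the eigensystem occurs at level `M`;
* `NewToricStatement` ([NODE-I], for (LGC-St)): an `I_A`-fixed `q`-new class of `p`-power order is
  toric up to a bounded power of `p`; with `KeyToricStatement` it gives `S35.KeyI3Statement`.
-/
import Mathlib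
import Fermat.Agent.RB.MAZ_helper6_ALJ
import Fermat.Agent.MP.TOPG_lead_Iface
import Fermat.Agent.S35.FROBBASE_helper8_Iface
import Fermat.Agent.S35.KEY_lead_Iface
import Fermat.Agent.JA.BCD_helper9_HostRat
import Fermat.Agent.SS.BASE_helper1_Leg
import Fermat.Agent.SS.TOPB_lead_Leg

set_option autoImplicit false
set_option linter.unusedSectionVars false
set_option linter.unusedVariables false
set_option linter.style.haveILetI false

open HahnSeries IntermediateField AlgebraicCurve ModularCurve WeierstrassCurve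
open WeierstrassCurve.Affine WeierstrassCurve.Affine.Point

open scoped WeierstrassCurve.Affine

namespace Fermat.Agent.RB

open Fermat.Agent.JA Fermat.Agent.FF Fermat.Agent.SS Fermat.Agent.S35 Fermat.Agent.MP
  Fermat.Agent.NP Fermat.Agent.GR

/-- `Ω = AlgebraicClosure ℚ`. -/
local notation "Ω" => AlgebraicClosure ℚ

/-- the absolute Galois group. -/
local notation "GQ" => (AlgebraicClosure ℚ ≃ₐ[ℚ] AlgebraicClosure ℚ)

/-! ### toric functions and classes -/

section Toric

variable (M q m : ℕ) [NeZero M] [NeZero q] [NeZero (M * q)] (A : ValuationSubring Ω)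

/-- **toric at a base `K₁`**: the function `g` on the Legendre host of level `M q` over `K₁` is
congruent to the `m`-th power of a unit along each of the two sheets `W_∞`, `W_0` over
`R₁ = A ∩ K₁`. -/
def LegToricAt (K₁ : IntermediateField ℚ Ω) (g : ↥(legE ↥K₁ (M * q))) : Prop :=
  ∀ [IsDiscreteValuationRing ↥(baseRing A K₁)] [CharZero ↥(baseRing A K₁)]
    (h2 : IsUnit (2 : ↥(baseRing A K₁))) (x y : ℤ) (hbez : (q : ℤ) * x + M * y = 1)
    (hq : q.Prime),
    letI := baseToComplex K₁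
    ∃ linf l0 : ↥(legE ↥K₁ (M * q)),
      (legWinf ↥(baseRing A K₁) ↥K₁ h2 (M * q)).valuation linf = 1 ∧
      (legW0 ↥(baseRing A K₁) ↥K₁ hbez hq).valuation l0 = 1 ∧
      (legWinf ↥(baseRing A K₁) ↥K₁ h2 (M * q)).valuation (g - linf ^ m) < 1 ∧
      (legW0 ↥(baseRing A K₁) ↥K₁ hbez hq).valuation (g - l0 ^ m) < 1

/-- **a toric representative**: over every Galois base containing a fixed base `K₀`, the descended
function is toric. -/
def IsToricRep (f : ↥(modularFunctionFieldBar (M * q))) : Prop :=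
  ∃ K₀ : IntermediateField ℚ Ω, IsBase q K₀ ∧
    ∀ K₁ : IntermediateField ℚ Ω, IsGalBase q K₁ → K₀ ≤ K₁ →
      ∀ F₁ : ↥(keyFq ↥K₁ (M * q)), keyFqBC (M * q) K₁ F₁ = f →
        LegToricAt M q m A K₁ (fullToLegE ↥K₁ (M * q) F₁)

/-- **a toric class** of `J₀(M q)[m]` at the place `A ∣ q`. -/
def IsToricClassAt (x : JZero (M * q)) : Prop :=
  ∃ (D : Divisor.degZero (K := Ω) (F := ↥(modularFunctionFieldBar (M * q))))
    (f : ↥(modularFunctionFieldBar (M * q))), f ≠ 0 ∧ Pic0.mk D = x ∧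
    (∀ v : Place Ω ↥(modularFunctionFieldBar (M * q)),
      v.ord f = (m : ℤ) * (D : Divisor Ω ↥(modularFunctionFieldBar (M * q))) v) ∧
    IsToricRep M q m A f

end Toric

/-! ### the key statements on `J₀(M q)` -/

section Key

/-- **(KEY-TORIC)** (P7 + descent): on toric classes of `J₀(M q)[m]` (`q ∤ m`, `m` prime to the
degree of the Legendre host) every Frobenius lift at `A` satisfies `φ x + q • w_q x = 0`. -/
def KeyToricStatement : Prop :=
  ∀ (M q : ℕ) [NeZero M] [NeZero q] [NeZero (M * q)] (hq : q.Prime) (hq2 : q ≠ 2) (hqM : ¬ q ∣ M)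
    (A : ValuationSubring Ω), A.LiesOverPrime q → ∀ φ : GQ, A.IsFrobeniusAt φ q →
    ∀ m : ℕ, 0 < m → ¬ q ∣ m → Nat.Coprime (legDeg (M * q)) m →
    ∀ x : JZero (M * q), IsToricClassAt M q m A x →
      φ • x + q • atkinLehnerJ hq hqM x = 0

/-- **(KEY-MAZ)** at one place `A ∣ q`: an `I_A`-fixed, `q`-new class of `J₀(M q)[p]` which is a
Hecke eigenclass for a non-Eisenstein eigensystem `a` (outside `S ∋ 2, p`) is toric, unless the
eigensystem occurs residually at level `M`. -/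
def KeyMazAt (M q p : ℕ) [NeZero M] [NeZero q] [NeZero (M * q)] (A : ValuationSubring Ω) : Prop :=
  ∀ (S : Set ℕ) (a : ℕ → ℤ), (∀ ℓ : ℕ, ℓ.Prime → ℓ ∣ M * q → ℓ ∈ S) → p ∈ S → 2 ∈ S →
    (∃ ℓ : ℕ, ℓ.Prime ∧ ℓ ∉ S ∧ ¬ (a ℓ ≡ (ℓ : ℤ) + 1 [ZMOD (p : ℤ)])) →
    ∀ x : JZero (M * q), p • x = 0 → degPushAlpha M q x = 0 → degPushBeta M q x = 0 →
      (∀ (ℓ : ℕ) (hℓ : ℓ.Prime), ℓ ∉ S → heckeOperatorBar (M * q) ⟨ℓ, hℓ⟩ x = a ℓ • x) →
      (∀ τ ∈ A.inertiaSubgroupIn ℚ, τ • x = x) →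
      IsToricClassAt M q p A x ∨ ResOccurs M p S a

/-- **(KEY-MAZ), all levels** (`q ≠ 2` for the Legendre host, `p ≥ 5`). -/
def KeyMazStatement : Prop :=
  ∀ (M q p : ℕ) [NeZero M] [NeZero q] [NeZero (M * q)], q.Prime → q ≠ 2 → p.Prime → 5 ≤ p →
    q ≠ p → ¬ q ∣ M → ∀ A : ValuationSubring Ω, A.LiesOverPrime q → KeyMazAt M q p A

/-- **[NODE-I]** (for (LGC-St)): an `I_A`-fixed class of `p`-power order of `J₀(M q)` killed by
both degeneracy pushforwards is toric up to a bounded power of `p`. -/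
def NewToric (M q p : ℕ) [NeZero M] [NeZero q] [NeZero (M * q)] : Prop :=
  ∃ c : ℕ, ∀ A : ValuationSubring Ω, A.LiesOverPrime q →
    ∀ (k : ℕ) (x : JZero (M * q)), p ^ k • x = 0 →
      (∀ τ ∈ A.inertiaSubgroupIn ℚ, τ • x = x) →
      degPushAlpha M q x = 0 → degPushBeta M q x = 0 →
        IsToricClassAt M q (p ^ k) A (p ^ c • x)

/-- **[NODE-I], all levels.** -/
def NewToricStatement : Prop :=
  ∀ (M q p : ℕ) [NeZero M] [NeZero q] [NeZero (M * q)], q.Prime → q ≠ 2 → p.Prime → 5 ≤ p →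
    q ≠ p → ¬ q ∣ M → NewToric M q p

end Key

/-! ### the global part -/

section Global

/-- **a `q`-new Galois-equivariant copy of `E[p]` in `J₀(M' q)`** on which the good Hecke operators
act through the traces of Frobenius of the model `W`. -/
structure NewCopyQ (E : WeierstrassCurve ℚ) (W : WeierstrassCurve ℤ) (M' q p : ℕ) [NeZero M']
    [NeZero q] [NeZero (M' * q)] where
  /-- the embedding -/
  φ : ↥(torsionNat (E.toAffine⁄Ω).Point p) →+ JZero (M' * q)
  inj : Function.Injective φ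
  gal : ∀ (σ : GQ) (Q : ↥(torsionNat (E.toAffine⁄Ω).Point p)),
    φ ⟨σ • Q.1, smul_mem_torsionNat_point E p σ Q.2⟩ = σ • φ Q
  alpha : ∀ Q, degPushAlpha M' q (φ Q) = 0
  beta : ∀ Q, degPushBeta M' q (φ Q) = 0
  hecke : ∀ (ℓ : ℕ) (hℓ : ℓ.Prime), ℓ ∉ badSet W p (M' * q) →
    ∀ Q, heckeOperatorBar (M' * q) ⟨ℓ, hℓ⟩ (φ Q) = W.apOfModel ℓ • φ Q

/-- **[TOP-G(q)]**: the `q`-old branch or a `q`-new copy of `E[p]`. -/
def TopGQStatement : Prop :=
  ∀ (E : WeierstrassCurve ℚ) [E.IsElliptic] {W : WeierstrassCurve ℤ} (_hW : W.IsIntegralModelOf E)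
    {M' q p : ℕ} [NeZero M'] [NeZero q] [NeZero (M' * q)], p.Prime → p ≠ 2 → q.Prime → ¬ q ∣ M' →
    GaloisRepIsIrreducible (K := Ω) ℚ E p →
    W.IsResiduallyModularOfLevel p (M' * q) →
      ResOccurs M' p (badSet W p (M' * q)) (fun ℓ => W.apOfModel ℓ) ∨
        Nonempty (NewCopyQ E W M' q p)

/-- **`q ≡ 1 mod p` and `ρ̄_{E,p}(Frob_q)` is scalar** (the exceptional set `Σ` of Mazur's
principle). -/
def FrobScalarAtCurve (E : WeierstrassCurve ℚ) (p q : ℕ) : Prop :=
  q ≡ 1 [MOD p] ∧ ∀ A : ValuationSubring Ω, A.LiesOverPrime q → ∀ φ : GQ, A.IsFrobeniusAt φ q →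
    ∃ c : ℤ, ∀ Q : (E.toAffine⁄Ω).Point, p • Q = 0 → φ • Q = c • Q

/-- **Mazur's principle at `q ≠ p`** (general curve). -/
def MazurPrincipleStatement : Prop :=
  ∀ (E : WeierstrassCurve ℚ) [E.IsElliptic] {W : WeierstrassCurve ℤ} (_hW : W.IsIntegralModelOf E)
    {M' q p : ℕ} [NeZero M'] [NeZero q] [NeZero (M' * q)], p.Prime → 5 ≤ p → q.Prime → q ≠ 2 →
    q ≠ p → ¬ q ∣ M' → ¬ W.IsGoodPrimeFor q → 2 ∈ badSet W p (M' * q) →
    GaloisRepIsIrreducible (K := Ω) ℚ E p →
    GaloisRepUnramifiedAt (K := Ω) ℚ E p q →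
    W.IsResiduallyModularOfLevel p (M' * q) →
      W.IsResiduallyModularOfLevel p M' ∨ FrobScalarAtCurve E p q

end Global

end Fermat.Agent.RB
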