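/-
RB — helper6 — [MAZ]: **the sub-packages of `KeyMazStatement`, literal forms.**

`x ∈ J₀(M q)[p]` (`q ≠ p`, `q ∤ M`, `q` odd, `p ≥ 5`), fixed by the inertia group `I_A` of a place
`A ∣ q`, Hecke eigenclass for a non-Eisenstein eigensystem `a` outside `S ∋ 2, p, primes of M q`.
Over the small base `K' = Fix_{K₁}(I_A)` (`q` is a uniformiser of `R' = A ∩ K'`) the Kummer function
`f₀ ∈ F_{Mq}(K')` of `x` (`div f₀ = p D`) is studied along the two sheets `W_∞`, `W_0` of the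
Legendre host of level `M q`.

* `LegMazHyp`     : the hypothesis package over `K' ≤ K₁` (the `q`-analogue of `MP.LegPeuHyp`);
* `LegDeltaLitQ`  : **[DELTA-q]** a non-Eisenstein Hecke relation forces `p ∣ a₀ - a_∞`;
* `LegMazOrdQ`    : **[ORD-q]** the reduction `w̄₀` of `f₀ ϖ ^ (-a_∞) ≡ A(w₀)` along `W_∞` has all
  orders divisible by `p` on the special fibre ([NODE-q] + [DICT-q]);
* `LegRoldQ`      : **[ROLD-q]** a function on the reduced Legendre host of level `M` which is not a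
  `p`-th power, with all orders divisible by `p`, satisfying the reduced Hecke relations
  `T̄_ℓ w̄ = c w̄ ^ (a ℓ) u ^ p` (`ℓ ∉ S`), gives `ResOccurs M p S a`;
* `ParLiftModP`   : **[TOPO-p]** every parabolic hom `Γ₀(N) → ℤ/p` is the reduction of an element of
  `H¹_par(Γ₀(N), ℤ)` (`p ≥ 5`);
* `EigenTorsOccurs` : **[FIN-q]** a non-zero Hecke eigenclass in `J₀(M)[p]` gives `ResOccurs`;
* `LegMazInfQ`    : **[HALF∞]** along `W_∞`: `f₀ ϖ ^ (-a_∞)` is congruent to a `p`-th power, or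
  `ResOccurs M p S a`;
* `KeyFqALHecke`  : **[AL-HECKE]** the Atkin–Lehner involution `W_q` commutes with the Hecke operators
  `T_ℓ` (`ℓ ∤ M q`) on `F_{Mq}(K)`;
* `MazDescQ`      : **[DESC-q]** the descent package: from `x` to `LegMazHyp` for `f₀` and `W_q f₀`;
* `LegMazBaseQ`   : **[BASE-q]** under `LegMazHyp` for `f₀` and `W_q f₀`: a constant multiple of
  `f₀ h ^ p` is toric over `K'`, or `ResOccurs M p S a`.
-/
import Mathlib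
import Fermat.Agent.RB.MAZ_helper6_Iface
import Fermat.Agent.MP.ORD_helper1_Defs
import Fermat.Agent.LR.RAISE_helper2_Hecke

set_option autoImplicit false
set_option linter.unusedSectionVars false
set_option linter.unusedVariables false
set_option linter.style.haveILetI false
set_option synthInstance.maxHeartbeats 400000

open HahnSeries IntermediateField AlgebraicCurve ModularCurve IsLocalRing CongruenceSubgroup
  ModularCurve.Period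

open scoped MatrixGroups

namespace Fermat.Agent.RB

open Fermat.Agent.JA Fermat.Agent.FF Fermat.Agent.SS Fermat.Agent.S35 Fermat.Agent.MP
  Fermat.Agent.NP Fermat.Agent.GR Fermat.Agent.FG Fermat.Agent.X0N Fermat.Agent.LR

open scoped Fermat.Agent.JA.Host

/-- `Ω = AlgebraicClosure ℚ`. -/
local notation "Ω" => AlgebraicClosure ℚ

/-- the absolute Galois group. -/
local notation "GQ" => (AlgebraicClosure ℚ ≃ₐ[ℚ] AlgebraicClosure ℚ)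

/-- **the hypothesis package of (KEY-MAZ) over the unramified small base `K' ≤ K₁`.** -/
structure LegMazHyp (q p M : ℕ) [NeZero M] [NeZero q] [NeZero (M * q)] (A : ValuationSubring Ω)
    (K₁ : IntermediateField ℚ Ω) [Normal ℚ ↥K₁] (K' : IntermediateField ℚ Ω)
    (S : Set ℕ) (a : ℕ → ℤ) (f₀ : ↥(keyFq ↥K' (M * q))) : Prop where
  /-- `K₁` is a Galois base. -/
  galBase : IsGalBase q K₁
  /-- `K'` is a base. -/
  base : IsBase q K'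
  le : K' ≤ K₁
  /-- (h1): the automorphisms fixing `K'` preserve `A ∩ K₁`. -/
  h1 : ∀ σ : GQ, (∀ c ∈ K', σ c = c) → ∀ c ∈ K₁, (c ∈ A ↔ σ c ∈ A)
  /-- `K'` is unramified at `A`: `q` is a uniformiser. -/
  unram : Irreducible ((q : ℕ) : ↥(baseRing A K'))
  bad : ∀ ℓ : ℕ, ℓ.Prime → ℓ ∣ M * q → ℓ ∈ S
  pS : p ∈ S
  twoS : 2 ∈ S
  nonEis : ∃ ℓ : ℕ, ℓ.Prime ∧ ℓ ∉ S ∧ ¬ (a ℓ ≡ (ℓ : ℤ) + 1 [ZMOD (p : ℤ)])
  ne_zero : f₀ ≠ 0
  /-- all orders over `Ω` are divisible by `p`. -/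
  ordΩ : ∀ v : Place Ω ↥(modularFunctionFieldBar (M * q)),
    (p : ℤ) ∣ v.ord (keyFqBC (M * q) K' f₀)
  /-- the support on the Legendre host is rational over `K₁`. -/
  rat : ∃ F₁ : ↥(keyFq ↥K₁ (M * q)), keyFqBC (M * q) K₁ F₁ = keyFqBC (M * q) K' f₀ ∧
    LegOrdCond K₁ (M * q) p (fullToLegE ↥K₁ (M * q) F₁)
  hecke : HeckeRelK ↥K' (M * q) p S a f₀

/-- **[DELTA-q], literal form**: a non-Eisenstein Hecke relation on the host of level `M q` forces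
the orders along the two sheets to be congruent modulo `p` (residue characteristic `q ≠ p`). -/
def LegDeltaLitQ : Prop :=
  ∀ (M : ℕ) [NeZero M] (q : ℕ) [NeZero q] [NeZero (M * q)] [Fact q.Prime] (hq : q.Prime)
    (hq2 : q ≠ 2), ¬ q ∣ M → ∀ (p : ℕ), p.Prime → p ≠ q →
  ∀ (A : ValuationSubring Ω) (hA : A.LiesOverPrime q) (K' : IntermediateField ℚ Ω)
    [IsDiscreteValuationRing ↥(baseRing A K')], IsBase q K' →
  ∀ (ϖ : ↥(baseRing A K')), Irreducible ϖ → ∀ (h2 : IsUnit (2 : ↥(baseRing A K'))) {x y : ℤ}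
    (hbez : (q : ℤ) * x + M * y = 1) (ℓ : ℕ) [NeZero ℓ] [NeZero (M * q * ℓ)] (hℓ : ℓ.Prime)
    (hℓ2 : ℓ ≠ 2), ¬ ℓ ∣ M * q → ∀ (a : ℤ), ¬ a ≡ (ℓ : ℤ) + 1 [ZMOD (p : ℤ)] →
  ∀ f : ↥(legE ↥K' (M * q)), f ≠ 0 →
    (∃ (c : ↥K') (u : ↥(legE ↥K' (M * q))), c ≠ 0 ∧ u ≠ 0 ∧
      legHeckeP ↥K' (M * q) ℓ hℓ hℓ2 f = algebraMap ↥K' ↥(legE ↥K' (M * q)) c * f ^ a * u ^ p) →
  ∀ ainf a0 : ℤ,
    (legWinf ↥(baseRing A K') ↥K' h2 (M * q)).valuation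
      (f * (algebraMap ↥(baseRing A K') ↥(legE ↥K' (M * q)) ϖ ^ ainf)⁻¹) = 1 →
    (letI := baseToComplex K'; legW0 ↥(baseRing A K') ↥K' hbez hq).valuation
      (f * (algebraMap ↥(baseRing A K') ↥(legE ↥K' (M * q)) ϖ ^ a0)⁻¹) = 1 →
    (p : ℤ) ∣ a0 - ainf

/-- **[ORD-q]**: the reduction of `f₀ ϖ ^ (-a∞)` along `W_∞` has all orders divisible by `p`. -/
def LegMazOrdQ : Prop :=
  ∀ (M : ℕ) [NeZero M] (q : ℕ) [NeZero q] [NeZero (M * q)] [Fact q.Prime] (hq2 : q ≠ 2),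
    ¬ q ∣ M → ∀ (p : ℕ), p.Prime → 5 ≤ p → p ≠ q →
  ∀ (A : ValuationSubring Ω) (hA : A.LiesOverPrime q)
    (K₁ : IntermediateField ℚ Ω) [Normal ℚ ↥K₁] (K' : IntermediateField ℚ Ω)
    [IsDiscreteValuationRing ↥(baseRing A K')] (S : Set ℕ) (a : ℕ → ℤ)
    (f₀ : ↥(keyFq ↥K' (M * q))), LegMazHyp q p M A K₁ K' S a f₀ →
  ∀ (ϖ : ↥(baseRing A K')), Irreducible ϖ → ∀ (h2 : IsUnit (2 : ↥(baseRing A K'))) (ainf : ℤ)
    (w₀ : ↥(keyFq ↥K' M)),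
    (legWinf ↥(baseRing A K') ↥K' h2 M).valuation (fullToLegE ↥K' M w₀) = 1 →
    (legWinf ↥(baseRing A K') ↥K' h2 (M * q)).valuation
      (fullToLegE ↥K' (M * q) f₀ *
        (algebraMap ↥(baseRing A K') ↥(legE ↥K' (M * q)) ϖ ^ ainf)⁻¹ -
        legHostA ↥K' M q (fullToLegE ↥K' M w₀)) < 1 →
  ∀ (hW : fullToLegE Ω M (keyFqBC M K' w₀) ∈ legWE hA M hq2)
    (Q : Place (ResidueField ↥A) (legEt hA M hq2)),
    (p : ℤ) ∣ Q.ord (legρ hA M hq2 ⟨fullToLegE Ω M (keyFqBC M K' w₀), hW⟩)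

/-- **[ROLD-q]**: a function on the reduction (at `A ∣ q`) of the Legendre host of level `M` which
is not a `p`-th power, has all orders divisible by `p`, and satisfies the reduced Hecke relations
`T̄_ℓ w̄ = c w̄ ^ (a ℓ) u ^ p` for all `ℓ ∉ S`, forces the eigensystem `a` to occur residually at
level `M`.

(Route: the class `(1/p) div w̄ ∈ Pic⁰(Ẽ_M)[p]` lifts uniquely to `Pic⁰(E_M)[p]`
(`FG.legGoodRed`, `MW.kerRed_divisible`, `FG.GoodRed.liftSpec_of_liesOverPrime`); its norm to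
`J₀(M)[p]` is a non-zero Hecke eigenclass (`MP.legRhoBase_legHeckeP`, `JA.KeyStatement` / S18 for
the injectivity); conclude by `EigenTorsOccurs`.) -/
def LegRoldQ : Prop :=
  ∀ (M : ℕ) [NeZero M] (q : ℕ) [NeZero q] [Fact q.Prime] (hq2 : q ≠ 2), ¬ q ∣ M →
  ∀ (p : ℕ), p.Prime → 5 ≤ p → p ≠ q →
  ∀ (A : ValuationSubring Ω) (hA : A.LiesOverPrime q) (S : Set ℕ) (a : ℕ → ℤ),
    (∀ ℓ : ℕ, ℓ.Prime → ℓ ∣ M → ℓ ∈ S) → q ∈ S → p ∈ S → 2 ∈ S →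
  ∀ (w : ↥(keyFq Ω M)) (hW : fullToLegE Ω M w ∈ legWE hA M hq2),
    (¬ ∃ g : legEt hA M hq2, legρ hA M hq2 ⟨fullToLegE Ω M w, hW⟩ = g ^ p) →
    (∀ Q : Place (ResidueField ↥A) (legEt hA M hq2),
      (p : ℤ) ∣ Q.ord (legρ hA M hq2 ⟨fullToLegE Ω M w, hW⟩)) →
    (∀ (ℓ : ℕ) (hℓ : ℓ.Prime) (hℓ2 : ℓ ≠ 2), ℓ ∉ S →
      haveI : NeZero ℓ := ⟨hℓ.ne_zero⟩
      haveI : NeZero (M * ℓ) := ⟨Nat.mul_ne_zero (NeZero.ne M) hℓ.ne_zero⟩
      ∃ (c : ResidueField ↥A) (u : legEt hA M hq2), c ≠ 0 ∧ u ≠ 0 ∧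
        legEtT hA M hq2 ℓ hℓ hℓ2 (legρ hA M hq2 ⟨fullToLegE Ω M w, hW⟩) =
          algebraMap (ResidueField ↥A) (legEt hA M hq2) c *
            legρ hA M hq2 ⟨fullToLegE Ω M w, hW⟩ ^ (a ℓ) * u ^ p) →
    ResOccurs M p S a

/-- **[TOPO-p]**: for `p ≥ 5`, every parabolic homomorphism `Γ₀(N) → ℤ/p` is the reduction of an
element of `H¹_par(Γ₀(N), ℤ)`.

(Route: `dim_{𝔽_p} Hom_par(Γ₀(N), 𝔽_p) ≤ 2 g(X₀(N))` by the cocycle count of
`X0N/ParHom_helper9_*` over a field of characteristic prime to `6`; the reduction map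
`LPar N / p → Hom_par(Γ₀(N), 𝔽_p)` is injective (`MP.lpar_eq_smul_of_red_eq_zero`) and
`LPar N` is free of rank `2 g` (`S16.finrank_parabolicHoms_int`).) -/
def ParLiftModP : Prop :=
  ∀ (N : ℕ) [NeZero N] (p : ℕ) [Fact p.Prime], 5 ≤ p →
    ∀ ψ : Additive ↥(Gamma0 N) →+ ZMod (p ^ 1), ψ ∈ parabolicHoms ℤ (Gamma0 N) (ZMod (p ^ 1)) →
      ∃ w : LPar N, (Int.castAddHom (ZMod (p ^ 1))).comp w.1 = ψ

/-- **[FIN-q]**: a non-zero Hecke eigenclass of `J₀(M)[p]` (`p ≥ 5`) with eigensystem `a` outside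
`S` gives an eigenform of level `M` congruent to `a` modulo a prime above `p`. -/
def EigenTorsOccurs : Prop :=
  ∀ (M : ℕ) [NeZero M] (p : ℕ), p.Prime → 5 ≤ p → ∀ (S : Set ℕ) (a : ℕ → ℤ),
    (∀ ℓ : ℕ, ℓ.Prime → ℓ ∣ M → ℓ ∈ S) →
    ∀ x : JZero M, x ≠ 0 → p • x = 0 →
      (∀ (ℓ : ℕ) (hℓ : ℓ.Prime), ℓ ∉ S → heckeOperatorBar M ⟨ℓ, hℓ⟩ x = a ℓ • x) →
      ResOccurs M p S a

/-- **[HALF∞]**: along `W_∞`, over the small base: `f₀ ϖ ^ (-a∞)` is congruent to the `p`-th power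
of a unit coming from level `M`, or the eigensystem occurs residually at level `M`. -/
def LegMazInfQ : Prop :=
  ∀ (M : ℕ) [NeZero M] (q : ℕ) [NeZero q] [NeZero (M * q)] [Fact q.Prime] (hq2 : q ≠ 2),
    ¬ q ∣ M → ∀ (p : ℕ), p.Prime → 5 ≤ p → p ≠ q →
  ∀ (A : ValuationSubring Ω) (hA : A.LiesOverPrime q)
    (K₁ : IntermediateField ℚ Ω) [Normal ℚ ↥K₁] (K' : IntermediateField ℚ Ω)
    [IsDiscreteValuationRing ↥(baseRing A K')] (S : Set ℕ) (a : ℕ → ℤ)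
    (f₀ : ↥(keyFq ↥K' (M * q))), LegMazHyp q p M A K₁ K' S a f₀ →
  ∀ (ϖ : ↥(baseRing A K')), Irreducible ϖ → ∀ (h2 : IsUnit (2 : ↥(baseRing A K'))),
    (∃ (ainf : ℤ) (b : ↥(legE ↥K' M)),
      (legWinf ↥(baseRing A K') ↥K' h2 M).valuation b = 1 ∧
      (legWinf ↥(baseRing A K') ↥K' h2 (M * q)).valuation
        (fullToLegE ↥K' (M * q) f₀ *
          (algebraMap ↥(baseRing A K') ↥(legE ↥K' (M * q)) ϖ ^ ainf)⁻¹ -
          legHostA ↥K' M q b ^ p) < 1) ∨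
    ResOccurs M p S a

/-- **[AL-HECKE]**: on the function field of `X₀(M q)` over `K`, the Atkin–Lehner involution `W_q`
commutes with the Hecke operators `T_ℓ`, `ℓ ∤ M q`. -/
def KeyFqALHecke : Prop :=
  ∀ (K : Type) [Field K] [Algebra ℚ K] [Algebra K ℂ] (M q : ℕ) [NeZero M] [NeZero q]
    [NeZero (M * q)] (hq : q.Prime), ¬ q ∣ M → ∀ {x y : ℤ} (hbez : (q : ℤ) * x + M * y = 1)
    (ℓ : ℕ) [NeZero ℓ] [NeZero (M * q * ℓ)], ℓ.Prime → ¬ ℓ ∣ M * q →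
  ∀ f : ↥(keyFq K (M * q)),
    heckeFunK K (M * q) ℓ (atkinLehnerN (algebraMap K ℂ) hbez hq f) =
      atkinLehnerN (algebraMap K ℂ) hbez hq (heckeFunK K (M * q) ℓ f)

/-- **[DESC-q]**: the descent package of an `I_A`-fixed eigenclass `x ∈ J₀(M q)[p]`: a Kummer
function `f` of `x`, defined over an unramified small base `K' ≤ K₁`, satisfying `LegMazHyp`
together with its Atkin–Lehner transform. -/
def MazDescQ : Prop :=
  ∀ (M q p : ℕ) [NeZero M] [NeZero q] [NeZero (M * q)] (hq : q.Prime), q ≠ 2 → p.Prime → 5 ≤ p →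
    q ≠ p → ¬ q ∣ M → ∀ (A : ValuationSubring Ω), A.LiesOverPrime q →
  ∀ (S : Set ℕ) (a : ℕ → ℤ), (∀ ℓ : ℕ, ℓ.Prime → ℓ ∣ M * q → ℓ ∈ S) → p ∈ S → 2 ∈ S →
    (∃ ℓ : ℕ, ℓ.Prime ∧ ℓ ∉ S ∧ ¬ (a ℓ ≡ (ℓ : ℤ) + 1 [ZMOD (p : ℤ)])) →
  ∀ x : JZero (M * q), p • x = 0 →
    (∀ (ℓ : ℕ) (hℓ : ℓ.Prime), ℓ ∉ S → heckeOperatorBar (M * q) ⟨ℓ, hℓ⟩ x = a ℓ • x) →
    (∀ τ ∈ A.inertiaSubgroupIn ℚ, τ • x = x) →
  ∃ (D : Divisor.degZero (K := Ω) (F := ↥(modularFunctionFieldBar (M * q))))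
    (f : ↥(modularFunctionFieldBar (M * q))), f ≠ 0 ∧ Pic0.mk D = x ∧
    (∀ v : Place Ω ↥(modularFunctionFieldBar (M * q)),
      v.ord f = (p : ℤ) * (D : Divisor Ω ↥(modularFunctionFieldBar (M * q))) v) ∧
    ∃ (K₁ : IntermediateField ℚ Ω) (_ : Normal ℚ ↥K₁) (K' : IntermediateField ℚ Ω)
      (f₀ : ↥(keyFq ↥K' (M * q))), keyFqBC (M * q) K' f₀ = f ∧
      LegMazHyp q p M A K₁ K' S a f₀ ∧
      ∀ {x y : ℤ} (hbez : (q : ℤ) * x + M * y = 1),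
        LegMazHyp q p M A K₁ K' S a
          (letI := baseToComplex K'; atkinLehnerN (algebraMap ↥K' ℂ) hbez hq f₀)

/-- **[BASE-q]**: over the small base, a constant multiple of `f₀ h ^ p` is toric along both sheets,
or the eigensystem occurs residually at level `M`. -/
def LegMazBaseQ : Prop :=
  ∀ (M q p : ℕ) [NeZero M] [NeZero q] [NeZero (M * q)] (hq : q.Prime), q ≠ 2 → p.Prime → 5 ≤ p →
    q ≠ p → ¬ q ∣ M → ∀ (A : ValuationSubring Ω), A.LiesOverPrime q →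
  ∀ (K₁ : IntermediateField ℚ Ω) [Normal ℚ ↥K₁] (K' : IntermediateField ℚ Ω)
    (S : Set ℕ) (a : ℕ → ℤ) (f₀ : ↥(keyFq ↥K' (M * q))), LegMazHyp q p M A K₁ K' S a f₀ →
    (∀ {x y : ℤ} (hbez : (q : ℤ) * x + M * y = 1),
      LegMazHyp q p M A K₁ K' S a
        (letI := baseToComplex K'; atkinLehnerN (algebraMap ↥K' ℂ) hbez hq f₀)) →
    (∃ (c : ↥K') (h : ↥(keyFq ↥K' (M * q))), c ≠ 0 ∧ h ≠ 0 ∧
      LegToricAt M q p A K'
        (fullToLegE ↥K' (M * q) (algebraMap ↥K' ↥(keyFq ↥K' (M * q)) c * f₀ * h ^ p))) ∨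
    ResOccurs M p S a

end Fermat.Agent.RB
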