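/-
RB — helper6 — [MAZ]: **[ORD-q]: `LegMazOrdQ ⇐ LegDeltaLitQ`** (host assembly of [NODE-q] +
[DICT-q]).

Over the unramified small base (`q = u ϖ`): at every node of the Legendre model of level `M q` the
thickness `m` divides `12` (`K m = 12`), the node factorisation `f = c X ^ k v G ^ p` gives
`p ∣ k m - (a₀ - a∞)`, and [DELTA-q] gives `p ∣ a₀ - a∞`; hence `p ∣ k` (`p ≥ 5`), and the
dictionary gives `p ∣ ord_Q w̄₀` at every place of the reduced host of level `M`.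
-/
import Mathlib
import Fermat.Agent.RB.MAZ_helper6_Parts
import Fermat.Agent.RB.MAZ_helper6_DictQ
import Fermat.Agent.MP.PLHOST_helper9_Pack
import Fermat.Agent.MP.ORD_helper1_Rat
import Fermat.Agent.MP.REDINF_helper8_RhoBaseP
import Fermat.Agent.JA.O1_helper2_Compat
import Fermat.Agent.NP.BASEP_helper2_OldDesc

set_option autoImplicit false
set_option linter.unusedSectionVars false
set_option linter.unusedVariables false
set_option linter.style.haveILetI false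
set_option synthInstance.maxHeartbeats 400000

open HahnSeries IntermediateField AlgebraicCurve ModularCurve IsLocalRing

namespace Fermat.Agent.RB

open Fermat.Agent.JA Fermat.Agent.FF Fermat.Agent.SS Fermat.Agent.S35 Fermat.Agent.Igusa
  Fermat.Agent.NP Fermat.Agent.MW.NAdic Fermat.Agent.MW Fermat.Agent.FG Fermat.Agent.MP

open scoped Fermat.Agent.JA.Host

/-- `Ω = AlgebraicClosure ℚ`. -/
local notation "Ω" => AlgebraicClosure ℚ

/-- `p ≥ 5` prime, `K m = 12`, `p ∣ k m` ⇒ `p ∣ k`. -/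
theorem int_dvd_of_dvd_mul_of_mul_eq_twelve {p : ℕ} (hp : p.Prime) (hp5 : 5 ≤ p) {k K : ℤ} {m : ℕ}
    (hKm : K * (m : ℤ) = 12) (h : (p : ℤ) ∣ k * m) : (p : ℤ) ∣ k := by
  have hP : Prime (p : ℤ) := Nat.prime_iff_prime_int.mp hp
  rcases hP.dvd_or_dvd h with h1 | h1
  · exact h1
  · exfalso
    have h12 : (p : ℤ) ∣ 12 := by
      rw [← hKm]
      exact Dvd.dvd.mul_left h1 K
    have h12' : p ∣ 12 := by exact_mod_cast h12
    have e12 : (12 : ℕ) = 2 ^ 2 * 3 := by norm_num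
    rw [e12] at h12'
    rcases (Nat.Prime.dvd_mul hp).mp h12' with h3 | h3
    · have := (Nat.prime_dvd_prime_iff_eq hp Nat.prime_two).mp (hp.dvd_of_dvd_pow h3)
      omega
    · have := (Nat.prime_dvd_prime_iff_eq hp Nat.prime_three).mp h3
      omega

set_option maxHeartbeats 6400000 in
/-- **[ORD-q] from [DELTA-q].** -/
theorem legMazOrdQ_of (HD : LegDeltaLitQ) : LegMazOrdQ := by
  intro M _ q _ _ _ hq2 hqM p hp hp5 hpq A hA K₁ _ K' _ S a f₀ H ϖ hϖ h2 ainf w₀ hw₀ hlink hW Q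
  classical
  have hq : q.Prime := Fact.out
  haveI : CharZero ↥(baseRing A K') := charZero_valuationSubring_of_algebraRat _
  letI := baseToComplex K'
  have hK' : IsBase q K' := H.base
  obtain ⟨x, y, hbez⟩ := exists_bezout_of_prime_of_not_dvd hq hqM
  haveI : IsAlgClosed (ResidueField ↥(baseRing A K')) := hK'.isAlgClosed_residueField hA
  have hqϖ := natCast_mem_span_uniformizer_baseRing hA K' hϖ
  have hmodel : SSModelLeg ↥(baseRing A K') ↥K' ϖ h2 hbez hq hq2 :=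
    ssModelLeg ↥(baseRing A K') ↥K' hϖ h2 hbez hq hq2 hqϖ
      (geoHyps_legE_baseRing hA M hqM hK' hq2 hϖ)
  haveI : FiniteDimensional ↥(↥K')⟮jqNModC ↥K' 2⟯ ↥(legE ↥K' (M * q)) :=
    finite_legE_adjoin_j ↥K' (M * q)
  have h' := SSModelLeg.ssModel ↥(baseRing A K') ↥K' hmodel
  -- `q = u ϖ`
  obtain ⟨u, hu⟩ : ∃ u : (↥(baseRing A K'))ˣ, ((q : ℕ) : ↥(baseRing A K')) = u * ϖ ^ 1 := by
    obtain ⟨u, hu⟩ := IsDiscreteValuationRing.associated_of_irreducible ↥(baseRing A K') hϖ H.unram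
    exact ⟨u, by rw [← hu, pow_one, mul_comm]⟩
  have he : 0 < 1 := one_pos
  set f : ↥(legE ↥K' (M * q)) := fullToLegE ↥K' (M * q) f₀ with hfdef
  have hf : f ≠ 0 := (_root_.map_ne_zero (fullToLegE ↥K' (M * q))).mpr H.ne_zero
  set x₀ : ↥(legE ↥K' M) := fullToLegE ↥K' M w₀ with hx₀def
  have hx₀ : x₀ ∈ legWinf ↥(baseRing A K') ↥K' h2 M :=
    (ValuationSubring.valuation_le_one_iff _ _).mp hw₀.le
  have hord : ∀ P : Place ↥K' ↥(legE ↥K' (M * q)), (p : ℤ) ∣ P.ord f :=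
    fun P => dvd_ord_fullToLegE_of_keyFqBC (M * q) K' f₀ H.ordΩ P
  -- the reduction map
  obtain ⟨ρ, res, hres, hρ, hρR, hρapp⟩ := legRhoBaseP M q hq2 hqM A hA K' hK' h2
  -- the Hecke operator
  obtain ⟨ℓ, hℓ, hℓS, hnEℓ⟩ := H.nonEis
  have hℓ2 : ℓ ≠ 2 := fun h => hℓS (h ▸ H.twoS)
  have hℓMq : ¬ ℓ ∣ M * q := fun h => hℓS (H.bad ℓ hℓ h)
  haveI : NeZero ℓ := ⟨hℓ.ne_zero⟩
  haveI : NeZero (M * q * ℓ) := ⟨Nat.mul_ne_zero (NeZero.ne (M * q)) hℓ.ne_zero⟩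
  obtain ⟨cH, uH, hcH, huH, hrel⟩ := H.hecke ℓ hℓ hℓS
  have hhost : legHeckeP ↥K' (M * q) ℓ hℓ hℓ2 f =
      algebraMap ↥K' ↥(legE ↥K' (M * q)) cH * f ^ (a ℓ) * fullToLegE ↥K' (M * q) uH ^ p := by
    rw [hfdef, legHeckeP_fullToLegE_base (M * q) ℓ hℓ hℓ2 hℓMq K' f₀, hrel, map_mul, map_mul,
      map_zpow₀, map_pow, AlgHom.commutes]
  -- the orders along the two sheets
  have hAx₀ : (legWinf ↥(baseRing A K') ↥K' h2 (M * q)).valuation (legHostA ↥K' M q x₀) = 1 :=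
    (kp_comap_val_eq_one_iff (legWinf ↥(baseRing A K') ↥K' h2 (M * q))
      (legHostA ↥K' M q : ↥(legE ↥K' M) →+* ↥(legE ↥K' (M * q))) h'.comap_A_inf x₀).mpr hw₀
  have hfinf : (legWinf ↥(baseRing A K') ↥K' h2 (M * q)).valuation
      (f * (algebraMap ↥(baseRing A K') ↥(legE ↥K' (M * q)) ϖ ^ ainf)⁻¹) = 1 := by
    have e1 : f * (algebraMap ↥(baseRing A K') ↥(legE ↥K' (M * q)) ϖ ^ ainf)⁻¹ =
        (f * (algebraMap ↥(baseRing A K') ↥(legE ↥K' (M * q)) ϖ ^ ainf)⁻¹ -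
          legHostA ↥K' M q x₀) + legHostA ↥K' M q x₀ := by ring
    rw [e1, Valuation.map_add_eq_of_lt_right _ (by rw [hAx₀]; exact hlink), hAx₀]
  obtain ⟨a0, hf0⟩ := SSModel.exists_zpow_val_eq_one_zero h' he hu hf
  -- [DELTA-q]
  have hdelta : (p : ℤ) ∣ a0 - ainf :=
    HD M q hq hq2 hqM p hp hpq A hA K' hK' ϖ hϖ h2 hbez ℓ hℓ hℓ2 hℓMq (a ℓ) hnEℓ f hf
      ⟨cH, fullToLegE ↥K' (M * q) uH, hcH,
        (_root_.map_ne_zero (fullToLegE ↥K' (M * q))).mpr huH, hhost⟩ ainf a0 hfinf hf0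
  -- the node package
  have hUnode := ssModelLeg_nodeUnit ↥(baseRing A K') ↥K' (M := M) hϖ h2 hbez hq he hu
  have hfr := isFractionRing_chartOne (R := ↥(baseRing A K')) (K₁ := ↥K')
    (E := ↥(legE ↥K' (M * q))) (AdjoinSimple.gen ↥K' (jqNModC ↥K' 2)) h'.j_adjoin
  have hXex : ∀ nd : ChartNode (AdjoinSimple.gen ↥K' (jqNModC ↥K' 2))
      (legWinf ↥(baseRing A K') ↥K' h2 (M * q)) (legW0 ↥(baseRing A K') ↥K' hbez hq)
      h'.two.chart_le_inf h'.two.chart_le_zero,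
      ∃ (X : ↥(legE ↥K' (M * q))) (m : ℕ), IsNodeCoord ϖ hfr
        (sheetIdeal (AdjoinSimple.gen ↥K' (jqNModC ↥K' 2))
          (legWinf ↥(baseRing A K') ↥K' h2 (M * q)) h'.two.chart_le_inf)
        (sheetIdeal (AdjoinSimple.gen ↥K' (jqNModC ↥K' 2))
          (legW0 ↥(baseRing A K') ↥K' hbez hq) h'.two.chart_le_zero) nd.1 X m := by
    intro nd
    obtain ⟨X, m, hX, -⟩ := SSModel.exists_isNodeCoord_gen h' hϖ hUnode nd.1 nd.inf_le nd.zero_le
    exact ⟨X, m, hX⟩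
  choose X m hX using hXex
  have hKex : ∀ nd, ∃ (K : ℤ) (w : ↥(legE ↥K' (M * q))),
      IsUnitIn (locSub (chartOne ↥(baseRing A K') ↥(legE ↥K' (M * q))
        (AdjoinSimple.gen ↥K' (jqNModC ↥K' 2))) nd.1) w ∧
      fullToLegE ↥K' (M * q) (modUnit ↥K' (M * q) q (Dvd.intro_left M rfl)) = w * X nd ^ K ∧
      K * (m nd : ℤ) = ((12 * 1 : ℕ) : ℤ) ∧ 1 ≤ K := fun nd =>
    SSModel.nodeUnit_eq_unit_mul_zpow h' hϖ hUnode nd.1 nd.inf_le nd.zero_le (hX nd)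
  choose K w hw hUw hKm hK1 using hKex
  have hginf : f * (algebraMap ↥(baseRing A K') ↥(legE ↥K' (M * q)) ϖ ^ ainf)⁻¹ ∈
      legWinf ↥(baseRing A K') ↥K' h2 (M * q) :=
    ((isUnitIn_toSubring_iff _).mpr hfinf).1
  have hginf' : (f * (algebraMap ↥(baseRing A K') ↥(legE ↥K' (M * q)) ϖ ^ ainf)⁻¹)⁻¹ ∈
      legWinf ↥(baseRing A K') ↥K' h2 (M * q) :=
    ((isUnitIn_toSubring_iff _).mpr hfinf).2.1
  have hkex : ∀ nd, ∃ k : ℤ, IsNodeFact ↥K' (locSub (chartOne ↥(baseRing A K')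
      ↥(legE ↥K' (M * q)) (AdjoinSimple.gen ↥K' (jqNModC ↥K' 2))) nd.1) p (X nd) f k := fun nd =>
    legE_isNodeFact_of_rat (M * q) A h' hϖ H.le H.h1 nd.1 nd.inf_le nd.zero_le (hX nd) f₀
      H.ne_zero hord H.rat ainf hginf hginf'
  choose k hk using hkex
  have hXu : ∀ nd, IsUnitIn (legWinf ↥(baseRing A K') ↥K' h2 (M * q)).toSubring (X nd) := by
    intro nd
    obtain ⟨L, Y, -, -, -, -, -, -, hXu, -⟩ :=
      SSModel.exists_localPt_node hq he hu h' hϖ nd.1 nd.inf_le nd.zero_le (hX nd)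
    exact hXu
  have hkk : ∀ nd, (p : ℤ) ∣ k nd := by
    intro nd
    have h1 : (p : ℤ) ∣ k nd * (m nd : ℤ) - (a0 - ainf) :=
      SSModel.dvd_node_of_isNodeFactQ h' hϖ hq he hu nd.1 nd.inf_le nd.zero_le (hX nd) (hk nd)
        hfinf hf0
    have h2' : (p : ℤ) ∣ k nd * (m nd : ℤ) := by
      have := dvd_add h1 hdelta
      rwa [sub_add_cancel] at this
    have hKm' : K nd * (m nd : ℤ) = 12 := by
      rw [hKm nd]; norm_num
    exact int_dvd_of_dvd_mul_of_mul_eq_twelve hp hp5 hKm' h2'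
  -- the core
  have hcore := SSModel.dvd_ord_redQ h' hϖ he hu
    (SSModelLeg.jint ↥(baseRing A K') ↥K' hϖ hmodel) ρ hρ res hres hρR
    (legEtRationalP M q hq2 hqM A hA) h'.jM_mem hp.ne_zero hf hord
    h'.two.chart_le_inf h'.two.chart_le_zero X k hXu hk hkk hx₀ hfinf hlink Q
  have hWx : legBC M K' x₀ ∈ legWE hA M hq2 := by
    rw [hx₀def, legBC_fullToLegE]; exact hW
  rw [hρapp x₀ hx₀ hWx] at hcore
  have e2 : (⟨legBC M K' x₀, hWx⟩ : ↥(legWE hA M hq2)) =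
      ⟨fullToLegE Ω M (keyFqBC M K' w₀), hW⟩ := Subtype.ext (legBC_fullToLegE M K' w₀)
  rw [e2] at hcore
  exact hcore

end Fermat.Agent.RB
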