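/-
RB — helper4 — [NEW-TORIC], leaf (L3) **[NEW-PLACE]**: a place of the reduction centred at a given
closed point of the sheet `∞` (helper6's literal `SSModel.exists_place_centre`).

* `exists_place_of_ideal` (generic): `F / k` a function field with separating coordinate, `Bt ⊆ F` a
  subring containing `k` and the coordinate, `I ≠ ⊤, ⊥` an ideal of `Bt`: there is a place `Q` of `F`
  with `Bt ⊆ O_Q` and `I ⊆ 𝔪_Q` (Chevalley + every valuation ring `≠ ⊤` of `F / k` is a place);
* `exists_mem_map_ne_zero` (generic): a ring `B` all of whose images under `φ : B → F` are integral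
  over `k[φ j₀]`, with `φ b₀` transcendental over `k`: no maximal ideal of `B` is contained in
  `ker φ`;
* `SSModel.exists_place_centre`.
-/
import Mathlib
import Fermat.Agent.RB.MAZ_helper6_DictQ
import Fermat.Agent.W1.RAM1_helper3_Place
import Fermat.Agent.JA.CONST_helper6

set_option autoImplicit false
set_option linter.unusedSectionVars false
set_option linter.unusedVariables false
set_option linter.style.haveILetI false

open AlgebraicCurve IsLocalRing Polynomial IntermediateField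

namespace Fermat.Agent.RB

open Fermat.Agent.NP Fermat.Agent.SS Fermat.Agent.JA Fermat.Agent.FF

section Generic

variable {k F : Type*} [Field k] [Field F] [Algebra k F]

/-- **a place containing a subring and centred at an ideal.** -/
theorem exists_place_of_ideal (c : Coord k F) (hsep : Algebra.IsSeparable k⟮c.x⟯ F)
    (Bt : Subring F) (hk : ∀ a : k, algebraMap k F a ∈ Bt) (hx : c.x ∈ Bt) (I : Ideal ↥Bt)
    (hI : I ≠ ⊤) (hI0 : ∃ y ∈ I, y ≠ 0) :
    ∃ Q : Place k F, (∀ b ∈ Bt, b ∈ Q.toValuationSubring) ∧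
      ∀ y ∈ I, Q.toValuationSubring.valuation (y : F) < 1 := by
  obtain ⟨V, hBV, hIV⟩ := Ideal.image_subset_nonunits_valuationSubring I hI
  have hval : ∀ y ∈ I, V.valuation (y : F) < 1 := fun y hy =>
    (ValuationSubring.mem_nonunits_iff (A := V)).1 (hIV ⟨y, hy, rfl⟩)
  have hV : V ≠ ⊤ := by
    rintro rfl
    obtain ⟨y, hy, hy0⟩ := hI0
    have h1 := hval y hy
    have hyF : (y : F) ≠ 0 := fun h => hy0 (Subtype.ext h)
    have h2 : ((y : F))⁻¹ ∈ (⊤ : ValuationSubring F) := ValuationSubring.mem_top _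
    have h3 := ((⊤ : ValuationSubring F).valuation_le_one_iff _).2 h2
    rw [map_inv₀] at h3
    have h4 : (⊤ : ValuationSubring F).valuation (y : F) ≠ 0 := (Valuation.ne_zero_iff _).2 hyF
    have h5 := (inv_le_one₀ (zero_lt_iff.2 h4)).1 h3
    exact absurd h1 (not_lt.2 h5)
  obtain ⟨i1, i2, i3, i4, i5, i6, i7, hxF⟩ := exists_typeclass_setting_of_isSeparable c hsep
  obtain ⟨Q, hQ⟩ := Fermat.Agent.W1.exists_place_of_valuationSubring_of_xF_mem k F V hV
    (fun a => hBV (hk a)) (by rw [hxF]; exact hBV hx)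
  refine ⟨Q, fun b hb => ?_, fun y hy => ?_⟩
  · rw [hQ]
    exact hBV hb
  · rw [hQ]
    exact hval y hy

/-- **no maximal ideal lies in the kernel**, when the image is integral over `k[φ j₀]` and contains a
transcendental element. -/
theorem exists_mem_map_ne_zero {B : Type*} [CommRing B] (φ : B →+* F)
    (hk : ∀ a : k, algebraMap k F a ∈ φ.range) (j₀ : B)
    (hint : ∀ b : B, IsIntegral ↥(Algebra.adjoin k {φ j₀}) (φ b))
    (b₀ : B) (hb₀ : Transcendental k (φ b₀)) (𝔪 : Ideal B) [h𝔪 : 𝔪.IsMaximal] :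
    ∃ m ∈ 𝔪, φ m ≠ 0 := by
  by_contra hcon
  push Not at hcon
  set τ : F := φ j₀ with hτ
  -- the image is a field
  have hinv : ∀ b : B, φ b ≠ 0 → ∃ b' : B, φ b * φ b' = 1 := by
    intro b hb
    have hbm : b ∉ 𝔪 := fun h => hb (hcon b h)
    obtain ⟨b', i, hi, hb'⟩ := h𝔪.exists_inv hbm
    refine ⟨b', ?_⟩
    have h1 := hcon _ hi
    have h2 := congrArg φ hb'
    rw [map_add, map_mul, map_one, h1, add_zero] at h2
    rw [mul_comm]
    exact h2
  -- the two subalgebras
  let Bt : Subalgebra k F :=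
    { φ.range.toSubsemiring with algebraMap_mem' := hk }
  have hmemBt : ∀ y : F, y ∈ Bt ↔ ∃ b : B, φ b = y := fun y => Iff.rfl
  set S : Subalgebra k F := Algebra.adjoin k {τ} with hS
  have hSB : S ≤ Bt := Algebra.adjoin_le (by
    rintro _ rfl
    exact (hmemBt _).2 ⟨j₀, rfl⟩)
  letI : Algebra ↥S ↥Bt := (Subalgebra.inclusion hSB).toRingHom.toAlgebra
  haveI : IsScalarTower ↥S ↥Bt F := IsScalarTower.of_algebraMap_eq fun _ => rfl
  haveI : Algebra.IsIntegral ↥S ↥Bt := by
    refine ⟨fun y => ?_⟩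
    obtain ⟨b, hb⟩ := (hmemBt _).1 y.2
    have h1 : IsIntegral ↥S (algebraMap ↥Bt F y) := by
      have : algebraMap ↥Bt F y = φ b := hb.symm
      rw [this]
      exact hint b
    exact (isIntegral_algebraMap_iff (Subtype.val_injective : Function.Injective
      (algebraMap ↥Bt F))).1 h1
  have hBtField : IsField ↥Bt := by
    refine ⟨⟨0, 1, zero_ne_one⟩, mul_comm, fun {y} hy => ?_⟩
    obtain ⟨b, hb⟩ := (hmemBt _).1 y.2
    have hb0 : φ b ≠ 0 := by
      rw [hb]
      exact fun h => hy (Subtype.ext h)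
    obtain ⟨b', hb'⟩ := hinv b hb0
    refine ⟨⟨φ b', (hmemBt _).2 ⟨b', rfl⟩⟩, Subtype.ext ?_⟩
    show (y : F) * φ b' = 1
    rw [← hb, hb']
  have hSField : IsField ↥S :=
    isField_of_isIntegral_of_isField (R := ↥S) (S := ↥Bt)
      (Subalgebra.inclusion_injective hSB) hBtField
  -- `τ` is algebraic over `k`
  have hτalg : IsIntegral k τ := by
    by_cases hτ0 : τ = 0
    · rw [hτ0]
      exact isIntegral_zero
    have hτS : τ ∈ S := Algebra.subset_adjoin (Set.mem_singleton _)
    have hne : (⟨τ, hτS⟩ : ↥S) ≠ 0 := fun h => hτ0 (congrArg Subtype.val h)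
    obtain ⟨s, hs⟩ := hSField.mul_inv_cancel hne
    have hs' : τ * (s : F) = 1 := congrArg Subtype.val hs
    have hsmem : (s : F) ∈ Algebra.adjoin k {τ} := s.2
    rw [Algebra.adjoin_singleton_eq_range_aeval] at hsmem
    obtain ⟨g, hg⟩ := hsmem
    have hg' : aeval τ g = (s : F) := hg
    refine IsAlgebraic.isIntegral ⟨X * g - 1, ?_, ?_⟩
    · intro h0
      have h1 := congrArg (fun P : k[X] => P.coeff 0) h0
      simp at h1
    · rw [map_sub, map_mul, aeval_X, map_one, hg', hs', sub_self]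
  -- hence everything in the image is algebraic over `k`
  haveI : Algebra.IsIntegral k ↥S := by
    refine ⟨fun s => ?_⟩
    have h1 : S ≤ integralClosure k F := Algebra.adjoin_le (by
      rintro _ rfl
      exact hτalg)
    have h2 : IsIntegral k (s : F) := h1 s.2
    exact (isIntegral_algebraMap_iff (Subtype.val_injective : Function.Injective
      (algebraMap ↥S F))).1 h2
  have h3 : IsIntegral k (φ b₀) := isIntegral_trans (R := k) (A := ↥S) (φ b₀) (hint b₀)
  exact hb₀ h3.isAlgebraic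

end Generic

section Model

open Fermat.Agent.MW Fermat.Agent.MW.NAdic Fermat.Agent.MP

variable {R : Type*} [CommRing R] [IsDomain R] [IsDiscreteValuationRing R] [CharZero R]
  {K₁ : Type*} [Field K₁] [Algebra R K₁] [IsFractionRing R K₁]
  {KM : Type*} [Field KM] [Algebra K₁ KM] [Algebra R KM] [IsScalarTower R K₁ KM]
  {EM : Type*} [Field EM] [Algebra KM EM] [Algebra K₁ EM] [IsScalarTower K₁ KM EM] [Algebra R EM]
  [IsScalarTower R KM EM]
  {KN : Type*} [Field KN] [Algebra K₁ KN] [Algebra R KN] [IsScalarTower R K₁ KN]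
  {EN : Type*} [Field EN] [Algebra KN EN] [Algebra K₁ EN] [IsScalarTower K₁ KN EN] [Algebra R EN]
  [IsScalarTower R KN EN] [FiniteDimensional KN EN]
  {π : R} {q n : ℕ} {S : Finset R} {t : KM} {jM : EM} {j : KN} {A B : EM →+* EN}
  {VM : ValuationSubring EM} {Winf W0 : ValuationSubring EN}
  [IsAlgClosed (IsLocalRing.ResidueField R)]
  {k : Type*} [Field k] {F : Type*} [Field F] [Algebra k F]
  {ι : ↥Winf →+* F}

/-- the reduction map restricted to the chart. -/
noncomputable def placeChartRed (j : KN) (Winf : ValuationSubring EN) (ι : ↥Winf →+* F)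
    (hW : ∀ b ∈ chartOne R EN j, b ∈ Winf) : ↥(chartOne R EN j) →+* F where
  toFun b := ι ⟨(b : EN), hW _ b.2⟩
  map_one' := map_one ι
  map_mul' a b := map_mul ι ⟨(a : EN), hW _ a.2⟩ ⟨(b : EN), hW _ b.2⟩
  map_zero' := map_zero ι
  map_add' a b := map_add ι ⟨(a : EN), hW _ a.2⟩ ⟨(b : EN), hW _ b.2⟩

theorem placeChartRed_apply (hW : ∀ b ∈ chartOne R EN j, b ∈ Winf) (b : ↥(chartOne R EN j)) :
    placeChartRed j Winf ι hW b = ι ⟨(b : EN), hW _ b.2⟩ := rfl

/-- the kernel of the reduction on the chart lies in the sheet ideal. -/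
theorem mem_sheetIdeal_of_placeChartRed_eq_zero (hW : ∀ b ∈ chartOne R EN j, b ∈ Winf)
    {b : ↥(chartOne R EN j)} (hb : placeChartRed j Winf ι hW b = 0) : b ∈ sheetIdeal j Winf hW := by
  by_contra hcon
  have h1 : Winf.valuation (b : EN) = 1 := valuation_eq_one_of_notMem_sheetIdeal hW hcon
  have hb0 : (b : EN) ≠ 0 := by
    intro h0
    rw [h0, map_zero] at h1
    exact zero_ne_one h1
  have hinv : ((b : EN))⁻¹ ∈ Winf := by
    rw [← ValuationSubring.valuation_le_one_iff, map_inv₀, h1, inv_one]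
  have h2 : ι ⟨(b : EN), hW _ b.2⟩ * ι ⟨((b : EN))⁻¹, hinv⟩ = 1 := by
    rw [← map_mul, ← map_one ι]
    congr 1
    exact Subtype.ext (mul_inv_cancel₀ hb0)
  rw [placeChartRed_apply] at hb
  rw [hb, zero_mul] at h2
  exact zero_ne_one h2

/-- the reduction of the constants on the chart. -/
theorem placeChartRed_algebraMap (hW : ∀ b ∈ chartOne R EN j, b ∈ Winf) (res : R →+* k)
    (hιR : ∀ (r : R) (hr : algebraMap R EN r ∈ Winf),
      ι ⟨algebraMap R EN r, hr⟩ = algebraMap k F (res r)) (r : R) :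
    placeChartRed j Winf ι hW (algebraMap R ↥(chartOne R EN j) r) = algebraMap k F (res r) :=
  hιR r _

/-- the reduction of the polynomials in the coordinate. -/
theorem placeChartRed_aeval (hW : ∀ b ∈ chartOne R EN j, b ∈ Winf) (res : R →+* k)
    (hιR : ∀ (r : R) (hr : algebraMap R EN r ∈ Winf),
      ι ⟨algebraMap R EN r, hr⟩ = algebraMap k F (res r)) (b : ↥(chartOne R EN j)) (g : R[X]) :
    placeChartRed j Winf ι hW (aeval b g) = aeval (placeChartRed j Winf ι hW b) (g.map res) := by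
  rw [aeval_def, hom_eval₂, aeval_def, eval₂_map]
  congr 1
  ext r
  exact placeChartRed_algebraMap hW res hιR r

/-- **the image of the chart is integral over `k[ῑ j]`.** -/
theorem placeChartRed_isIntegral (hW : ∀ b ∈ chartOne R EN j, b ∈ Winf) (res : R →+* k)
    (hιR : ∀ (r : R) (hr : algebraMap R EN r ∈ Winf),
      ι ⟨algebraMap R EN r, hr⟩ = algebraMap k F (res r)) (b : ↥(chartOne R EN j)) :
    IsIntegral ↥(Algebra.adjoin k {placeChartRed j Winf ι hW
      ⟨algebraMap KN EN j, algebraMap_coord_mem_chartOne j⟩}) (placeChartRed j Winf ι hW b) := by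
  set φ := placeChartRed j Winf ι hW with hφ
  set j₀ : ↥(chartOne R EN j) := ⟨algebraMap KN EN j, algebraMap_coord_mem_chartOne j⟩ with hj₀
  -- the inclusion of `R[j]` into the chart
  let g' : ↥(Algebra.adjoin R {j}) →+* ↥(chartOne R EN j) :=
    (algebraMap ↥(Algebra.adjoin R {j}) EN).codRestrict (chartOne R EN j)
      (fun a => (mem_chartOne_iff j _).2 isIntegral_algebraMap)
  have hg' : ∀ a, ((g' a : ↥(chartOne R EN j)) : EN) = algebraMap ↥(Algebra.adjoin R {j}) EN a :=
    fun a => rfl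
  have hmem : ∀ a : ↥(Algebra.adjoin R {j}), φ (g' a) ∈ Algebra.adjoin k {φ j₀} := by
    intro a
    obtain ⟨a, ha⟩ := a
    have ha' := ha
    rw [Algebra.adjoin_singleton_eq_range_aeval] at ha'
    obtain ⟨g, hg⟩ := ha'
    have h1 : g' ⟨a, ha⟩ = aeval j₀ g := by
      apply Subtype.ext
      rw [hg', ← Subalgebra.aeval_coe]
      show algebraMap KN EN a = aeval (algebraMap KN EN j) g
      rw [aeval_algebraMap_apply]
      exact congrArg _ hg.symm
    rw [h1, placeChartRed_aeval hW res hιR]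
    exact aeval_mem_adjoin_singleton _ _
  let ψ : ↥(Algebra.adjoin R {j}) →+* ↥(Algebra.adjoin k {φ j₀}) :=
    (φ.comp g').codRestrict (Algebra.adjoin k {φ j₀}) hmem
  obtain ⟨P, hP, hP0⟩ := (mem_chartOne_iff j _).1 b.2
  refine ⟨P.map ψ, hP.map ψ, ?_⟩
  rw [eval₂_map]
  have h2 : (algebraMap ↥(Algebra.adjoin k {φ j₀}) F).comp ψ = φ.comp g' := by
    ext a
    rfl
  rw [h2, ← hom_eval₂]
  have h3 : eval₂ g' b P = 0 := by
    apply Subtype.ext
    have h4 := hom_eval₂ P g' (chartOne R EN j).val.toRingHom b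
    have h5 : (chartOne R EN j).val.toRingHom.comp g' = algebraMap ↥(Algebra.adjoin R {j}) EN := by
      ext a
      rfl
    rw [h5] at h4
    show (chartOne R EN j).val.toRingHom (eval₂ g' b P) = 0
    rw [h4]
    exact hP0
  rw [h3, map_zero]

/-- **(L3) [NEW-PLACE]: a place of the reduction centred at a given closed point of the sheet
`∞`.** -/
theorem SSModel.exists_place_centre (h : SSModel K₁ π q n S t jM j A B VM Winf W0)
    (hπ : Irreducible π)
    (hker : ∀ x : ↥Winf, Winf.valuation (x : EN) < 1 → ι x = 0)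
    (res : R →+* k) (hres : Function.Surjective res)
    (hιR : ∀ (r : R) (hr : algebraMap R EN r ∈ Winf),
      ι ⟨algebraMap R EN r, hr⟩ = algebraMap k F (res r))
    (c : Coord k F) (hsep : Algebra.IsSeparable k⟮c.x⟯ F)
    (b₀ : ↥(chartOne R EN j)) (hb₀ : ι ⟨(b₀ : EN), h.two.chart_le_inf _ b₀.2⟩ = c.x)
    (𝔪 : Ideal ↥(chartOne R EN j)) [𝔪.IsMaximal]
    (hinf : sheetIdeal j Winf h.two.chart_le_inf ≤ 𝔪) :
    ∃ Q : Place k F, ∀ b : ↥(chartOne R EN j),
      ι ⟨(b : EN), h.two.chart_le_inf _ b.2⟩ ∈ Q.toValuationSubring ∧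
      (b ∈ 𝔪 → Q.toValuationSubring.valuation (ι ⟨(b : EN), h.two.chart_le_inf _ b.2⟩) < 1) := by
  have hW := h.two.chart_le_inf
  set φ : ↥(chartOne R EN j) →+* F := placeChartRed j Winf ι hW with hφ
  have hk : ∀ a : k, algebraMap k F a ∈ φ.range := by
    intro a
    obtain ⟨r, rfl⟩ := hres a
    exact ⟨algebraMap R ↥(chartOne R EN j) r, placeChartRed_algebraMap hW res hιR r⟩
  have hx : c.x ∈ φ.range := ⟨b₀, hb₀⟩
  have htr : Transcendental k (φ b₀) := by
    have : φ b₀ = c.x := hb₀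
    rw [this]
    exact c.trans
  obtain ⟨m₀, hm₀, hm₀0⟩ := exists_mem_map_ne_zero φ hk
    ⟨algebraMap KN EN j, algebraMap_coord_mem_chartOne j⟩
    (fun b => placeChartRed_isIntegral hW res hιR b) b₀ htr 𝔪
  set I : Ideal ↥φ.range := 𝔪.map φ.rangeRestrict with hI
  have hItop : I ≠ ⊤ := by
    intro htop
    have h1 : (1 : ↥φ.range) ∈ I := by
      rw [htop]
      exact Submodule.mem_top
    rw [hI, Ideal.mem_map_iff_of_surjective _ φ.rangeRestrict_surjective] at h1
    obtain ⟨m, hm, hm1⟩ := h1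
    have h2 : φ m = 1 := congrArg Subtype.val hm1
    have h3 : φ (1 - m) = 0 := by
      rw [map_sub, map_one, h2, sub_self]
    have h4 : 1 - m ∈ 𝔪 := hinf (mem_sheetIdeal_of_placeChartRed_eq_zero hW h3)
    have h5 : (1 : ↥(chartOne R EN j)) ∈ 𝔪 := by
      have := 𝔪.add_mem h4 hm
      rwa [sub_add_cancel] at this
    exact (Ideal.IsMaximal.ne_top ‹_›) ((Ideal.eq_top_iff_one _).2 h5)
  have hI0 : ∃ y ∈ I, y ≠ 0 :=
    ⟨φ.rangeRestrict m₀, Ideal.mem_map_of_mem _ hm₀, fun h0 => hm₀0 (congrArg Subtype.val h0)⟩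
  obtain ⟨Q, hQ1, hQ2⟩ := exists_place_of_ideal c hsep φ.range hk hx I hItop hI0
  refine ⟨Q, fun b => ⟨hQ1 _ ⟨b, rfl⟩, fun hb => ?_⟩⟩
  exact hQ2 (φ.rangeRestrict b) (Ideal.mem_map_of_mem _ hb)

end Model

end Fermat.Agent.RB
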