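/-
RB — helper6 — **[NEW-TORIC]: the sub-packages of `NewToricAt` (per place `A ∣ q`), literal forms.**

`x ∈ J₀(M q)[p ^ k]` (`q ≠ p`, `q ∤ M`, `q` odd, `p ≥ 5`), fixed by the inertia group `I_A` of a place
`A ∣ q`, killed by both degeneracy pushforwards.  Over the small base `K' = Fix_{K₁}(I_A)` (`q` is a
uniformiser of `R' = A ∩ K'`) the Kummer function `f₀ ∈ F_{Mq}(K')` of `x` (`div f₀ = p ^ k D`) is
studied along the two sheets `W_∞`, `W_0` of the Legendre host of level `M q`.  Exponent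
`r = p ^ k`.

* `NewToricAt M q p A`, `NewToricAtStatement` : [NODE-I] with the constant depending on the place
  (enough for lead's `KeyI3W`);
* `LegNewHyp`     : the hypothesis package over `K' ≤ K₁` (no Hecke relations; the two degeneracy
  norms of `f₀` are constants times `r`-th powers; `K'` is stable under the decomposition group);
* `NewDescQ`      : **[NEW-DESC]** the descent package: from `x` to `LegNewHyp` for `f₀` and `W_q f₀`;
* `LegNewAbelQ`   : **[NEW-ABEL]** over the small base, for `g ∈ F_{Mq}(K')` a unit along both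
  sheets whose two degeneracy norms are constants times `r`-th powers, `g ≡ A(a)` along `W_∞`, all
  orders of the reduction `ā` on the reduced host of level `M` divisible by `r`:
  `ā ^ (p ^ c₁)` is an `r`-th power, `c₁` depending only on `(M, q, p, A)`
  (norm–reduction + Frobenius–Kronecker: `φ̄² ā / ā` is an `r`-th power; then FINPIC).
-/
import Mathlib
import Fermat.Agent.RB.MAZ_helper6_Parts

set_option autoImplicit false
set_option linter.unusedSectionVars false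
set_option linter.unusedVariables false
set_option linter.style.haveILetI false
set_option synthInstance.maxHeartbeats 400000

open HahnSeries IntermediateField AlgebraicCurve ModularCurve IsLocalRing

namespace Fermat.Agent.RB

open Fermat.Agent.JA Fermat.Agent.FF Fermat.Agent.SS Fermat.Agent.S35 Fermat.Agent.MP
  Fermat.Agent.NP Fermat.Agent.GR Fermat.Agent.FG Fermat.Agent.X0N

open scoped Fermat.Agent.JA.Host

/-- `Ω = AlgebraicClosure ℚ`. -/
local notation "Ω" => AlgebraicClosure ℚ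

/-- the absolute Galois group. -/
local notation "GQ" => (AlgebraicClosure ℚ ≃ₐ[ℚ] AlgebraicClosure ℚ)

/-- **[NODE-I] at one place `A ∣ q`**: an `I_A`-fixed class of `p`-power order of `J₀(M q)` killed
by both degeneracy pushforwards is toric at `A` up to a bounded power of `p` (the bound may depend on
`A`). -/
def NewToricAt (M q p : ℕ) [NeZero M] [NeZero q] [NeZero (M * q)] (A : ValuationSubring Ω) : Prop :=
  ∃ c : ℕ, ∀ (k : ℕ) (x : JZero (M * q)), p ^ k • x = 0 →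
    (∀ τ ∈ A.inertiaSubgroupIn ℚ, τ • x = x) →
    degPushAlpha M q x = 0 → degPushBeta M q x = 0 →
      IsToricClassAt M q (p ^ k) A (p ^ c • x)

/-- **[NODE-I] at every place, all levels.** -/
def NewToricAtStatement : Prop :=
  ∀ (M q p : ℕ) [NeZero M] [NeZero q] [NeZero (M * q)], q.Prime → q ≠ 2 → p.Prime → 5 ≤ p →
    q ≠ p → ¬ q ∣ M → ∀ A : ValuationSubring Ω, A.LiesOverPrime q → NewToricAt M q p A

/-- **the hypothesis package of [NEW-TORIC] over the unramified small base `K' ≤ K₁`**, exponent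
`r`. -/
structure LegNewHyp (q r M : ℕ) [NeZero M] [NeZero q] [NeZero (M * q)] (A : ValuationSubring Ω)
    (K₁ : IntermediateField ℚ Ω) [Normal ℚ ↥K₁] (K' : IntermediateField ℚ Ω)
    (f₀ : ↥(keyFq ↥K' (M * q))) : Prop where
  /-- `K₁` is a Galois base. -/
  galBase : IsGalBase q K₁
  /-- `K'` is a base. -/
  base : IsBase q K'
  le : K' ≤ K₁
  /-- (h1): the automorphisms fixing `K'` preserve `A ∩ K₁`. -/
  h1 : ∀ σ : GQ, (∀ c ∈ K', σ c = c) → ∀ c ∈ K₁, (c ∈ A ↔ σ c ∈ A)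
  /-- `K'` is unramified at `A`: `q` is a uniformiser. -/
  unram : Irreducible ((q : ℕ) : ↥(baseRing A K'))
  /-- `K'` is stable under the decomposition group of `A`. -/
  stab : ∀ σ ∈ A.decompositionSubgroup ℚ, ∀ z ∈ K', σ z ∈ K'
  ne_zero : f₀ ≠ 0
  /-- all orders over `Ω` are divisible by `r`. -/
  ordΩ : ∀ v : Place Ω ↥(modularFunctionFieldBar (M * q)),
    (r : ℤ) ∣ v.ord (keyFqBC (M * q) K' f₀)
  /-- the support on the Legendre host is rational over `K₁`. -/
  rat : ∃ F₁ : ↥(keyFq ↥K₁ (M * q)), keyFqBC (M * q) K₁ F₁ = keyFqBC (M * q) K' f₀ ∧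
    LegOrdCond K₁ (M * q) r (fullToLegE ↥K₁ (M * q) F₁)
  /-- the norm along the degeneracy map `A` is a constant times an `r`-th power. -/
  normA : ∃ (c : ↥K') (h : ↥(keyFq ↥K' M)), c ≠ 0 ∧ h ≠ 0 ∧
    (letI := (keyFqA ↥K' M q).toRingHom.toAlgebra; Algebra.norm ↥(keyFq ↥K' M) f₀) =
      algebraMap ↥K' ↥(keyFq ↥K' M) c * h ^ r
  /-- the norm along the degeneracy map `B` is a constant times an `r`-th power. -/
  normB : ∃ (c : ↥K') (h : ↥(keyFq ↥K' M)), c ≠ 0 ∧ h ≠ 0 ∧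
    (letI := (keyFqB ↥K' M q).toRingHom.toAlgebra; Algebra.norm ↥(keyFq ↥K' M) f₀) =
      algebraMap ↥K' ↥(keyFq ↥K' M) c * h ^ r

/-- **[NEW-DESC]**: the descent package of an `I_A`-fixed `q`-new class `x ∈ J₀(M q)[p ^ k]`: a
Kummer function `f` of `x`, defined over an unramified small base `K' ≤ K₁`, satisfying `LegNewHyp`
together with its Atkin–Lehner transform. -/
def NewDescQ : Prop :=
  ∀ (M q p : ℕ) [NeZero M] [NeZero q] [NeZero (M * q)] (hq : q.Prime), q ≠ 2 → p.Prime →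
    q ≠ p → ¬ q ∣ M → ∀ (A : ValuationSubring Ω), A.LiesOverPrime q →
  ∀ (k : ℕ) (x : JZero (M * q)), p ^ k • x = 0 →
    (∀ τ ∈ A.inertiaSubgroupIn ℚ, τ • x = x) →
    degPushAlpha M q x = 0 → degPushBeta M q x = 0 →
  ∃ (D : Divisor.degZero (K := Ω) (F := ↥(modularFunctionFieldBar (M * q))))
    (f : ↥(modularFunctionFieldBar (M * q))), f ≠ 0 ∧ Pic0.mk D = x ∧
    (∀ v : Place Ω ↥(modularFunctionFieldBar (M * q)),
      v.ord f = ((p ^ k : ℕ) : ℤ) * (D : Divisor Ω ↥(modularFunctionFieldBar (M * q))) v) ∧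
    ∃ (K₁ : IntermediateField ℚ Ω) (_ : Normal ℚ ↥K₁) (K' : IntermediateField ℚ Ω)
      (f₀ : ↥(keyFq ↥K' (M * q))), keyFqBC (M * q) K' f₀ = f ∧
      LegNewHyp q (p ^ k) M A K₁ K' f₀ ∧
      ∀ {x y : ℤ} (hbez : (q : ℤ) * x + M * y = 1),
        LegNewHyp q (p ^ k) M A K₁ K'
          (letI := baseToComplex K'; atkinLehnerN (algebraMap ↥K' ℂ) hbez hq f₀)

/-- **[NEW-ABEL]**: over the small base, the reduction along `W_∞` of a function `g ∈ F_{Mq}(K')`
which is a unit along both sheets and whose two degeneracy norms are constants times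
`p ^ k`-th powers, if all its orders on the reduced host of level `M` are divisible by `p ^ k`, is a
`p ^ k`-th power up to the exponent `p ^ c₁`; `c₁` depends only on `(M, q, p, A)`. -/
def LegNewAbelQ : Prop :=
  ∀ (M : ℕ) [NeZero M] (q : ℕ) [NeZero q] [NeZero (M * q)] [Fact q.Prime] (hq2 : q ≠ 2),
    ¬ q ∣ M → ∀ (p : ℕ), p.Prime → p ≠ q →
  ∀ (A : ValuationSubring Ω) (hA : A.LiesOverPrime q), ∃ c₁ : ℕ,
  ∀ (K' : IntermediateField ℚ Ω) [IsDiscreteValuationRing ↥(baseRing A K')], IsBase q K' →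
    Irreducible ((q : ℕ) : ↥(baseRing A K')) →
    (∀ σ ∈ A.decompositionSubgroup ℚ, ∀ z ∈ K', σ z ∈ K') →
  ∀ {x y : ℤ} (hbez : (q : ℤ) * x + M * y = 1) (k : ℕ) (g : ↥(keyFq ↥K' (M * q))),
    (keyFqWinf ↥(baseRing A K') ↥K' (M * q)).valuation g = 1 →
    (letI := baseToComplex K'
     keyFqW0 ↥(baseRing A K') ↥K' (algebraMap ↥K' ℂ) hbez (Fact.out : q.Prime)).valuation g = 1 →
    (∃ (c : ↥K') (h : ↥(keyFq ↥K' M)), c ≠ 0 ∧ h ≠ 0 ∧
      (letI := (keyFqA ↥K' M q).toRingHom.toAlgebra; Algebra.norm ↥(keyFq ↥K' M) g) =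
        algebraMap ↥K' ↥(keyFq ↥K' M) c * h ^ (p ^ k)) →
    (∃ (c : ↥K') (h : ↥(keyFq ↥K' M)), c ≠ 0 ∧ h ≠ 0 ∧
      (letI := (keyFqB ↥K' M q).toRingHom.toAlgebra; Algebra.norm ↥(keyFq ↥K' M) g) =
        algebraMap ↥K' ↥(keyFq ↥K' M) c * h ^ (p ^ k)) →
  ∀ (a : ↥(keyFq ↥K' M)),
    (keyFqWinf ↥(baseRing A K') ↥K' (M * q)).valuation (g - keyFqA ↥K' M q a) < 1 →
  ∀ (hW : fullToLegE Ω M (keyFqBC M K' a) ∈ legWE hA M hq2),
    (∀ Q : Place (ResidueField ↥A) (legEt hA M hq2),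
      ((p ^ k : ℕ) : ℤ) ∣ Q.ord (legρ hA M hq2 ⟨fullToLegE Ω M (keyFqBC M K' a), hW⟩)) →
    ∃ hbar : legEt hA M hq2,
      legρ hA M hq2 ⟨fullToLegE Ω M (keyFqBC M K' a), hW⟩ ^ (p ^ c₁) = hbar ^ (p ^ k)

end Fermat.Agent.RB
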