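/-
RB [BB3] = (KEY-H), package D [SHAPE+BCH] — helper5 — part 10: **[NE] a two-sheeted model has a
node** (connectedness of the special fibre).

Two-chart model of `E / K₁(t)` over the discrete valuation ring `R`, two sheets `Winf ≠ W0`
(`IsTwoSheet`), constant field `K₁`, no crossing point of the two sheets at `t = ∞`.  Then the
two sheets cross at a closed point of the first chart (`isTwoSheet_exists_node`): otherwise
"lying over `Winf`" would be a function on the sheets which is constant through every closed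
point of both charts, hence constant (`NP.chart_sheet_const_rad`), while both sheets occur.

* `isTwoSheet_exists_node` : the abstract statement;
* `ssModel_exists_node_chart` : the case of an `SSModel` (cusp clause = `not_crossing_of_cusp`).
-/
import Mathlib
import Fermat.Agent.NP.BRIDGE_helper5_Glob
import Fermat.Agent.S35.TORICKUM_helper5_Main
import Fermat.Agent.SS.XFER_helper3
import Fermat.Agent.SS.EXPORT_helper4_Model

set_option autoImplicit false
set_option linter.unusedSectionVars false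
set_option linter.unusedVariables false
set_option linter.style.haveILetI false

namespace Fermat.Agent.RB

open Fermat.Agent.SS Fermat.Agent.JA Fermat.Agent.NP

section NodeEx

variable {R : Type*} [CommRing R] [IsDomain R] [IsDiscreteValuationRing R] [CharZero R]
  {K₁ : Type*} [Field K₁] [Algebra R K₁] [IsFractionRing R K₁]
  {K : Type*} [Field K] [Algebra K₁ K] [Algebra R K] [IsScalarTower R K₁ K]
  {E : Type*} [Field E] [Algebra K E] [Algebra K₁ E] [IsScalarTower K₁ K E] [Algebra R E]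
  [IsScalarTower R K E] [FiniteDimensional K E]
  {π : R} {t : K} {Winf W0 : ValuationSubring E}

/-- **[NE] a two-sheeted model with constant field `K₁` and no crossing at `t = ∞` has a node in
the first chart.** -/
theorem isTwoSheet_exists_node [IsAlgClosed (IsLocalRing.ResidueField R)]
    (h2 : IsTwoSheet π t Winf W0) (hπ : Irreducible π)
    (ht : Transcendental K₁ t) (hK : IntermediateField.adjoin K₁ {t} = ⊤)
    (hM4 : ∀ x : E, IsAlgebraic K₁ x → x ∈ Set.range (algebraMap K₁ E))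
    (hcusp : ∀ 𝔪' : Ideal ↥(chartOne R E t⁻¹), 𝔪'.IsMaximal →
      sheetIdeal t⁻¹ Winf (h2.inv hπ).chart_le_inf ≤ 𝔪' →
      sheetIdeal t⁻¹ W0 (h2.inv hπ).chart_le_zero ≤ 𝔪' →
      (⟨algebraMap K E t⁻¹, algebraMap_coord_mem_chartOne t⁻¹⟩ : ↥(chartOne R E t⁻¹)) ∉ 𝔪') :
    ∃ 𝔪 : Ideal ↥(chartOne R E t), 𝔪.IsMaximal ∧ sheetIdeal t Winf h2.chart_le_inf ≤ 𝔪 ∧
      sheetIdeal t W0 h2.chart_le_zero ≤ 𝔪 := by
  have ht0 : t ≠ 0 := fun h => ht (h ▸ isAlgebraic_zero)
  have hπp : Prime π := hπ.prime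
  have ht' : Transcendental K₁ t⁻¹ := transcendental_inv_of_transcendental ht
  have hK' : IntermediateField.adjoin K₁ {t⁻¹} = ⊤ := adjoin_inv_eq_top hK
  have hT₁ := coord_not_mem_of_mem_minimalPrimes (K₁ := K₁) (F := E) t ht hK π hπp
  have hT₂ := coord_not_mem_of_mem_minimalPrimes (K₁ := K₁) (F := E) t⁻¹ ht' hK' π hπp
  have h2' := h2.inv hπ
  obtain ⟨hnle1, hnle2, -, -⟩ := h2.not_le (K₁ := K₁) hπ ht hK
  by_contra hno
  simp only [not_exists, not_and] at hno
  -- the two functions on the sheets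
  set Φ : SheetOf R E t π → Prop := fun s => SheetOver (F := E) (L := E) t s.1 Winf with hΦ
  set Ψ : SheetOf R E t π → Prop := fun s => SheetOver (F := E) (L := E) t s.1 W0 with hΨ
  have hsp : ∀ s : SheetOf R E t π, (s.1).IsPrime := fun s => s.2.1.1
  have hmid : ∀ x : ↥(chartOne R E t), midMap (F := E) (L := E) t x =
      Subalgebra.inclusion (chartOne_le_chartMid (R := R) (E := E) t) x := fun x => rfl
  have hcm : ∀ y : ↥(chartOne R E t⁻¹), chartMap (F := E) (L := E) t⁻¹ y = y := fun y => rfl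
  have hor : ∀ s, Φ s ∨ Ψ s := fun s => h2.sheetOver_inf_or_zero (L := E) hπ ht hK s
  have hnot : ∀ s, Φ s → Ψ s → False := by
    intro s h1 h0
    apply hnle1
    intro x hx
    rw [mem_sheetIdeal_iff] at hx ⊢
    exact (h0 x).mp ((h1 x).mpr hx)
  have hWtinf : Winf.valuation (algebraMap K E t) = 1 :=
    valuation_coord_eq_one_of_isGaussAt h2.gauss_inf hπ ht0
  have hWt0 : W0.valuation (algebraMap K E t) = 1 :=
    valuation_coord_eq_one_of_isGaussAt h2.gauss_zero hπ ht0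
  -- a closed point of the first chart on an `∞`-sheet and a `0`-sheet is a node
  have hnode₁ : ∀ 𝔑 : Ideal ↥(chartOne R E t), 𝔑.IsMaximal → ∀ s s' : SheetOf R E t π,
      (s.1).comap (Subalgebra.inclusion (chartOne_le_chartMid t)) ≤ 𝔑 →
      (s'.1).comap (Subalgebra.inclusion (chartOne_le_chartMid t)) ≤ 𝔑 → Φ s → Ψ s' → False := by
    intro 𝔑 h𝔑 s s' hs hs' h1 h0
    refine hno 𝔑 h𝔑 (fun x hx => ?_) (fun x hx => ?_)
    · rw [mem_sheetIdeal_iff] at hx
      exact hs ((h1 x).mpr hx)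
    · rw [mem_sheetIdeal_iff] at hx
      exact hs' ((h0 x).mpr hx)
  -- the same in the second chart
  have hnode₂ : ∀ 𝔑 : Ideal ↥(chartOne R E t⁻¹), 𝔑.IsMaximal → ∀ s s' : SheetOf R E t π,
      (s.1).comap (Subalgebra.inclusion (chartOne_inv_le_chartMid t ht0)) ≤ 𝔑 →
      (s'.1).comap (Subalgebra.inclusion (chartOne_inv_le_chartMid t ht0)) ≤ 𝔑 →
      Φ s → Ψ s' → False := by
    intro 𝔑 h𝔑 s s' hs hs' h1 h0
    haveI := hsp s
    haveI := hsp s'
    haveI := h𝔑
    haveI : 𝔑.IsPrime := h𝔑.isPrime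
    have hinf : sheetIdeal t⁻¹ Winf h2'.chart_le_inf ≤ 𝔑 := by
      intro y hy
      rw [mem_sheetIdeal_iff] at hy
      have := (SheetOver.inv (L := E) ht0 h1 hWtinf y).mpr hy
      rw [hcm] at this
      exact hs this
    have hzero : sheetIdeal t⁻¹ W0 h2'.chart_le_zero ≤ 𝔑 := by
      intro y hy
      rw [mem_sheetIdeal_iff] at hy
      have := (SheetOver.inv (L := E) ht0 h0 hWt0 y).mpr hy
      rw [hcm] at this
      exact hs' this
    have hx := hcusp 𝔑 h𝔑 hinf hzero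
    have hπ𝔑 : algebraMap R ↥(chartOne R E t⁻¹) π ∈ 𝔑 :=
      hinf (h2'.pi_mem_inf (K₁ := K₁) hπ)
    have hle : chartOne R E t ≤ locRing (chartOne R E t⁻¹) 𝔑 := chartOne_le_locRing_inv t ht0 𝔑 hx
    obtain ⟨hL, hM⟩ := locRing_chartOne_inv_eq (R := R) (E := E) t ht0 𝔑 hx
    have hres : ∀ b : ↥(chartOne R E t⁻¹), ∃ c : R,
        b - algebraMap R ↥(chartOne R E t⁻¹) c ∈ 𝔑 :=
      exists_sub_mem_of_isMaximal_chartOne hπ ht' hK' 𝔑 hπ𝔑
    obtain ⟨hmax₁, -⟩ := locComap_isMaximal hres hle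
    haveI := hmax₁.isPrime
    have hinf_iff : sheetIdeal t Winf h2.chart_le_inf ≤
        locComap (chartOne R E t⁻¹) 𝔑 (chartOne R E t) hle ↔
        sheetIdeal t⁻¹ Winf h2'.chart_le_inf ≤ 𝔑 :=
      sheet_le_iff_of_locRing_eq hL hM h2.chart_le_inf h2'.chart_le_inf
        (mem_sheetIdeal_iff t Winf h2.chart_le_inf) (mem_sheetIdeal_iff t⁻¹ Winf h2'.chart_le_inf)
    have hzero_iff : sheetIdeal t W0 h2.chart_le_zero ≤
        locComap (chartOne R E t⁻¹) 𝔑 (chartOne R E t) hle ↔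
        sheetIdeal t⁻¹ W0 h2'.chart_le_zero ≤ 𝔑 :=
      sheet_le_iff_of_locRing_eq hL hM h2.chart_le_zero h2'.chart_le_zero
        (mem_sheetIdeal_iff t W0 h2.chart_le_zero) (mem_sheetIdeal_iff t⁻¹ W0 h2'.chart_le_zero)
    exact hno _ hmax₁ (hinf_iff.mpr hinf) (hzero_iff.mpr hzero)
  -- `Φ` is constant
  have hΦΨ : ∀ s, ¬ Φ s → Ψ s := fun s hs => (hor s).resolve_left hs
  have hconst : ∀ s s' : SheetOf R E t π, Φ s = Φ s' := by
    refine chart_sheet_const_rad (K₁ := K₁) t ht hK π hπp hM4 hT₁ hT₂ Φ ?_ ?_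
    · intro 𝔑 h𝔑 s s' hs hs'
      by_cases h1 : Φ s <;> by_cases h1' : Φ s'
      · exact propext (iff_of_true h1 h1')
      · exact (hnode₁ 𝔑 h𝔑 s s' hs hs' h1 (hΦΨ s' h1')).elim
      · exact (hnode₁ 𝔑 h𝔑 s' s hs' hs h1' (hΦΨ s h1)).elim
      · exact propext (iff_of_false h1 h1')
    · intro 𝔑 h𝔑 s s' hs hs'
      by_cases h1 : Φ s <;> by_cases h1' : Φ s'
      · exact propext (iff_of_true h1 h1')
      · exact (hnode₂ 𝔑 h𝔑 s s' hs hs' h1 (hΦΨ s' h1')).elim
      · exact (hnode₂ 𝔑 h𝔑 s' s hs' hs h1' (hΦΨ s h1)).elim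
      · exact propext (iff_of_false h1 h1')
  -- both kinds of sheets occur
  obtain ⟨s₁, hs₁⟩ := exists_sheet_through_one (K₁ := K₁) t ht hK π hπp
    (sheetIdeal t Winf h2.chart_le_inf) (h2.pi_mem_inf (K₁ := K₁) hπ)
  obtain ⟨s₀, hs₀⟩ := exists_sheet_through_one (K₁ := K₁) t ht hK π hπp
    (sheetIdeal t W0 h2.chart_le_zero) (h2.pi_mem_zero (K₁ := K₁) hπ)
  have h1 : Φ s₁ := by
    by_contra hcon
    have h0 := hΦΨ s₁ hcon
    apply hnle2
    intro x hx
    rw [mem_sheetIdeal_iff] at hx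
    exact hs₁ ((h0 x).mpr hx)
  have h0 : Ψ s₀ := by
    by_contra hcon
    have h1' : Φ s₀ := (hor s₀).resolve_right hcon
    apply hnle1
    intro x hx
    rw [mem_sheetIdeal_iff] at hx
    exact hs₀ ((h1' x).mpr hx)
  have h1' : Φ s₀ := by rw [← hconst s₁ s₀]; exact h1
  exact hnot s₀ h1' h0

end NodeEx

section Model

variable {R : Type*} [CommRing R] [IsDomain R] [IsDiscreteValuationRing R] [CharZero R]
  {K₁ : Type*} [Field K₁] [Algebra R K₁] [IsFractionRing R K₁]
  {KM : Type*} [Field KM] [Algebra K₁ KM] [Algebra R KM] [IsScalarTower R K₁ KM]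
  {EM : Type*} [Field EM] [Algebra KM EM] [Algebra K₁ EM] [IsScalarTower K₁ KM EM] [Algebra R EM]
  [IsScalarTower R KM EM]
  {KN : Type*} [Field KN] [Algebra K₁ KN] [Algebra R KN] [IsScalarTower R K₁ KN]
  {EN : Type*} [Field EN] [Algebra KN EN] [Algebra K₁ EN] [IsScalarTower K₁ KN EN] [Algebra R EN]
  [IsScalarTower R KN EN] [FiniteDimensional KN EN]
  {π : R} {q n : ℕ} {S : Finset R} {t : KM} {jM : EM} {j : KN} {A B : EM →+* EN}
  {VM : ValuationSubring EM} {Winf W0 : ValuationSubring EN}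

/-- **[NE] an `SSModel` has a node in the chart `j`.** -/
theorem ssModel_exists_node_chart [IsAlgClosed (IsLocalRing.ResidueField R)]
    (h : SSModel K₁ π q n S t jM j A B VM Winf W0)
    (hπ : Irreducible π) :
    ∃ 𝔪 : Ideal ↥(chartOne R EN j), 𝔪.IsMaximal ∧ sheetIdeal j Winf h.two.chart_le_inf ≤ 𝔪 ∧
      sheetIdeal j W0 h.two.chart_le_zero ≤ 𝔪 := by
  refine isTwoSheet_exists_node (K₁ := K₁) h.two hπ h.j_transcendental h.j_adjoin h.const ?_
  intro 𝔪' h𝔪' hinf' h0' hx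
  haveI := h𝔪'.isPrime
  exact h.not_crossing_of_cusp hπ (h.two.inv hπ) 𝔪' hx hinf' h0'

end Model

end Fermat.Agent.RB
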