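/-
RB — helper6 — [NEW-TORIC]: **[NEW-DICT], abstract part**: the dictionary with the node unit, exponent
`r` separated from the residue characteristic.

On an `SSModel` with a reduction `ρ : VM → F̄` of the good level: `f` with `div f ∈ r Div`, node
factorisations `f = c X ^ k v G ^ r`, `U = w X ^ K` (`U` the node unit), and `r ∣ N k - δ K` at every
node (`N = 12`, `δ = a₀ - a∞`).  Then at every place `Q` of `F̄`:
* `Q` not a cusp (`ρ jM` regular at `Q`): `r ∣ N · ord_Q (ρ x₀) - δ · ord_Q (ρ x_U)`;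
* `Q` a cusp: `r ∣ ord_Q (ρ x₀)`,
where `f π ^ (-a∞) ≡ A x₀` and `U ≡ A x_U` along `W_∞`.
-/
import Mathlib
import Fermat.Agent.RB.MAZ_helper6_DictQ

set_option autoImplicit false
set_option linter.unusedSectionVars false
set_option linter.unusedVariables false
set_option linter.style.haveILetI false

open AlgebraicCurve IsLocalRing

namespace Fermat.Agent.RB

open Fermat.Agent.NP Fermat.Agent.SS Fermat.Agent.JA Fermat.Agent.FF Fermat.Agent.MW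
  Fermat.Agent.MW.NAdic Fermat.Agent.MP

section Dict

variable {R : Type*} [CommRing R] [IsDomain R] [IsDiscreteValuationRing R] [CharZero R]
  {K₁ : Type*} [Field K₁] [Algebra R K₁] [IsFractionRing R K₁]
  {KM : Type*} [Field KM] [Algebra K₁ KM] [Algebra R KM] [IsScalarTower R K₁ KM]
  {EM : Type*} [Field EM] [Algebra KM EM] [Algebra K₁ EM] [IsScalarTower K₁ KM EM] [Algebra R EM]
  [IsScalarTower R KM EM]
  {KN : Type*} [Field KN] [Algebra K₁ KN] [Algebra R KN] [IsScalarTower R K₁ KN]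
  {EN : Type*} [Field EN] [Algebra KN EN] [Algebra K₁ EN] [IsScalarTower K₁ KN EN] [Algebra R EN]
  [IsScalarTower R KN EN] [FiniteDimensional KN EN]
  {π : R} {q n : ℕ} {S : Finset R} {t : KM} {jM : EM} {j : KN} {A B : EM →+* EN}
  {VM : ValuationSubring EM} {Winf W0 : ValuationSubring EN}
  [IsAlgClosed (IsLocalRing.ResidueField R)]
  {k : Type*} [Field k] {F : Type*} [Field F] [Algebra k F]
  {ι : ↥Winf →+* F}

/-- **the dictionary with the node unit at the non-cuspidal places**, exponent `r`. -/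
theorem SSModel.redOrd_congQ_one (h : SSModel K₁ π q n S t jM j A B VM Winf W0)
    (hπ : Irreducible π) {e₁ : ℕ} (he₁ : 0 < e₁) {ε : Rˣ} (hpe : (q : R) = ε * π ^ e₁)
    (hker : ∀ x : ↥Winf, Winf.valuation (x : EN) < 1 → ι x = 0)
    (res : R →+* k) (hres : Function.Surjective res)
    (hιR : ∀ (r : R) (hr : algebraMap R EN r ∈ Winf),
      ι ⟨algebraMap R EN r, hr⟩ = algebraMap k F (res r))
    (Q : Place k F)
    (hQ : ∀ y ∈ Q.toValuationSubring, ∃ c : k,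
      Q.toValuationSubring.valuation (y - algebraMap k F c) < 1)
    (hjW : algebraMap KN EN j ∈ Winf)
    (hιj : ι ⟨algebraMap KN EN j, hjW⟩ ∈ Q.toValuationSubring)
    {r : ℕ} (hr : r ≠ 0)
    {f : EN} (hf : f ≠ 0) (hord : ∀ P : Place K₁ EN, (r : ℤ) ∣ P.ord f)
    {U : EN} {c : ℕ} (hU : NodeUnit K₁ π (A jM) U c Winf W0)
    (hcinf : ∀ b ∈ chartOne R EN j, b ∈ Winf) (hc0 : ∀ b ∈ chartOne R EN j, b ∈ W0)
    (X : ChartNode j Winf W0 hcinf hc0 → EN) (kk KK : ChartNode j Winf W0 hcinf hc0 → ℤ)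
    (hXu : ∀ nd, IsUnitIn Winf.toSubring (X nd))
    (hfact : ∀ nd, IsNodeFact K₁ (locSub (chartOne R EN j) nd.1) r (X nd) f (kk nd))
    (hUfact : ∀ nd, ∃ w : EN, IsUnitIn (locSub (chartOne R EN j) nd.1) w ∧ U = w * X nd ^ KK nd)
    {N δ : ℤ} (hrel : ∀ nd, (r : ℤ) ∣ N * kk nd - δ * KK nd)
    {nf nU : ℤ} (hnf : RedOrd Winf (algebraMap R EN π) ι Q f nf)
    (hnU : RedOrd Winf (algebraMap R EN π) ι Q U nU) : (r : ℤ) ∣ N * nf - δ * nU := by
  have hπ0 : algebraMap R EN π ≠ 0 := algebraMap_pi_ne_zero (K₁ := K₁) (K := KN) hπ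
  have hπ1 := SSModel.valuation_pi_inf_lt_one h hπ
  have hex : ∀ g : EN, g ≠ 0 → ∃ m, RedOrd Winf (algebraMap R EN π) ι Q g m :=
    fun g hg => SSModel.redOrd_exists h he₁ hpe Q hg
  have hconst : ∀ c : K₁, c ≠ 0 → RedOrd Winf (algebraMap R EN π) ι Q (algebraMap K₁ EN c) 0 :=
    fun c hc => SSModel.redOrd_const h hπ hker res hιR Q hc
  obtain ⟨hW, 𝔪, hmax, hle, hmem, hunit⟩ :=
    SSModel.exists_centre_chart h hπ hker res hres hιR Q hQ j hjW hιj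
  haveI := hmax
  by_cases h0 : sheetIdeal j W0 hc0 ≤ 𝔪
  · let nd : ChartNode j Winf W0 hcinf hc0 := ⟨𝔪, hmax, hle, h0⟩
    have hXW : X nd ∈ Winf := (hXu nd).1
    have hX1 : Winf.valuation (X nd) = 1 :=
      valuation_eq_one_of_mem_of_inv_mem (hXu nd).2.2 (hXu nd).1 (hXu nd).2.1
    have hX : RedOrd Winf (algebraMap R EN π) ι Q (X nd) (Q.ord (ι ⟨X nd, hXW⟩)) :=
      RedOrd.of_valuation_eq_one hXW hX1
    obtain ⟨z₁, hz₁⟩ := RedOrd.dvd_of_isNodeFact hπ0 hπ1 hex hconst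
      (O := locSub (chartOne R EN j) 𝔪) hunit (hfact nd) hX hnf
    obtain ⟨w, hw, hUw⟩ := hUfact nd
    have h2 : nU = KK nd * Q.ord (ι ⟨X nd, hXW⟩) := RedOrd.unique hπ0 hπ1 hnU
      (RedOrd.of_unit_mul_zpow hπ0 (O := locSub (chartOne R EN j) 𝔪) hunit hw hUw hX)
    obtain ⟨z₃, hz₃⟩ := hrel nd
    refine ⟨N * z₁ + Q.ord (ι ⟨X nd, hXW⟩) * z₃, ?_⟩
    have e1 : nf = kk nd * Q.ord (ι ⟨X nd, hXW⟩) + (r : ℤ) * z₁ := by linarith
    rw [e1, h2]
    linear_combination Q.ord (ι ⟨X nd, hXW⟩) * hz₃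
  · have h1 : (r : ℤ) ∣ nf :=
      RedOrd.dvd_of_smooth_fact hπ0 hπ1 hex hconst (O := locSub (chartOne R EN j) 𝔪) hunit
        ((SSModel.exists_fact_smooth_one h hπ hr hf hord 𝔪).1 hle h0) hnf
    have h2 : (r : ℤ) ∣ nU := by
      obtain ⟨γ, hγ, hv⟩ := SSModel.nodeUnit_smooth_one h hπ hU hr 𝔪 hle h0
      refine RedOrd.dvd_of_smooth_fact (K₁ := K₁) hπ0 hπ1 hex hconst
        (O := locSub (chartOne R EN j) 𝔪) hunit ⟨1, U * (γ ^ r)⁻¹, γ, one_ne_zero, hγ, hv, ?_⟩ hnU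
      rw [map_one, one_mul, mul_assoc, inv_mul_cancel₀ (pow_ne_zero _ hγ), mul_one]
    exact dvd_sub (Dvd.dvd.mul_left h1 N) (Dvd.dvd.mul_left h2 δ)

/-- **[NEW-DICT], abstract form**: the congruence between the orders of the reductions of `f` and of
the node unit at the non-cuspidal places, and the divisibility at the cusps. -/
theorem SSModel.cong_ord_redQ (h : SSModel K₁ π q n S t jM j A B VM Winf W0)
    (hπ : Irreducible π) {e₁ : ℕ} (he₁ : 0 < e₁) {ε : Rˣ} (hpe : (q : R) = ε * π ^ e₁)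
    (hjint : IsIntegral ↥(Algebra.adjoin R {B jM}) (A jM))
    (ρ : ↥VM →+* F) (hρ : ∀ x : ↥VM, VM.valuation (x : EM) < 1 → ρ x = 0)
    (res : R →+* k) (hres : Function.Surjective res)
    (hρR : ∀ (r : R) (hr : algebraMap R EM r ∈ VM),
      ρ ⟨algebraMap R EM r, hr⟩ = algebraMap k F (res r))
    (hQ : ∀ Q : Place k F, ∀ y ∈ Q.toValuationSubring, ∃ c : k,
      Q.toValuationSubring.valuation (y - algebraMap k F c) < 1)
    (hjV : jM ∈ VM) {r : ℕ} (hr : r ≠ 0)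
    {f : EN} (hf : f ≠ 0) (hord : ∀ P : Place K₁ EN, (r : ℤ) ∣ P.ord f)
    {U : EN} {c : ℕ} (hU : NodeUnit K₁ π (A jM) U c Winf W0)
    (hcinf : ∀ b ∈ chartOne R EN j, b ∈ Winf) (hc0 : ∀ b ∈ chartOne R EN j, b ∈ W0)
    (X : ChartNode j Winf W0 hcinf hc0 → EN) (kk KK : ChartNode j Winf W0 hcinf hc0 → ℤ)
    (hXu : ∀ nd, IsUnitIn Winf.toSubring (X nd))
    (hfact : ∀ nd, IsNodeFact K₁ (locSub (chartOne R EN j) nd.1) r (X nd) f (kk nd))
    (hUfact : ∀ nd, ∃ w : EN, IsUnitIn (locSub (chartOne R EN j) nd.1) w ∧ U = w * X nd ^ KK nd)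
    {N δ : ℤ} (hrel : ∀ nd, (r : ℤ) ∣ N * kk nd - δ * KK nd)
    {ainf : ℤ} {x₀ xU : EM} (hx₀ : x₀ ∈ VM) (hxU : xU ∈ VM)
    (hfu : Winf.valuation (f * (algebraMap R EN π ^ ainf)⁻¹) = 1)
    (hlink : Winf.valuation (f * (algebraMap R EN π ^ ainf)⁻¹ - A x₀) < 1)
    (hlinkU : Winf.valuation (U - A xU) < 1) (Q : Place k F) :
    (ρ ⟨jM, hjV⟩ ∈ Q.toValuationSubring →
      (r : ℤ) ∣ N * Q.ord (ρ ⟨x₀, hx₀⟩) - δ * Q.ord (ρ ⟨xU, hxU⟩)) ∧
    (ρ ⟨jM, hjV⟩ ∉ Q.toValuationSubring → (r : ℤ) ∣ Q.ord (ρ ⟨x₀, hx₀⟩)) := by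
  obtain ⟨ι, hker, hιA, hιR⟩ := SSModel.exists_redInf h ρ hρ res hρR
  have hjW : algebraMap KN EN j ∈ Winf :=
    h.two.chart_le_inf _ (algebraMap_coord_mem_chartOne j)
  have hιjeq : ι ⟨algebraMap KN EN j, hjW⟩ = ρ ⟨jM, hjV⟩ :=
    hιA ⟨algebraMap KN EN j, hjW⟩ ⟨jM, hjV⟩ (by
      show Winf.valuation (algebraMap KN EN j - A jM) < 1
      rw [h.A_j, sub_self, map_zero]; exact zero_lt_one)
  have hfm : f * (algebraMap R EN π ^ ainf)⁻¹ ∈ Winf :=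
    (ValuationSubring.valuation_le_one_iff _ _).mp hfu.le
  have hnf : RedOrd Winf (algebraMap R EN π) ι Q f (Q.ord (ρ ⟨x₀, hx₀⟩)) :=
    ⟨ainf, hfm, hfu, by rw [hιA ⟨_, hfm⟩ ⟨x₀, hx₀⟩ hlink]⟩
  have hU1 : Winf.valuation U = 1 :=
    valuation_eq_one_of_mem_of_inv_mem hU.ne_zero hU.mem_inf hU.inv_mem_inf
  have hnU : RedOrd Winf (algebraMap R EN π) ι Q U (Q.ord (ρ ⟨xU, hxU⟩)) := by
    have h1 := RedOrd.of_valuation_eq_one (π := algebraMap R EN π) (ι := ι) (Q := Q) hU.mem_inf hU1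
    rwa [hιA ⟨U, hU.mem_inf⟩ ⟨xU, hxU⟩ hlinkU] at h1
  refine ⟨fun hg => ?_, fun hg => ?_⟩
  · exact SSModel.redOrd_congQ_one h hπ he₁ hpe hker res hres hιR Q (hQ Q) hjW
      (by rw [hιjeq]; exact hg) hr hf hord hU hcinf hc0 X kk KK hXu hfact hUfact hrel hnf hnU
  · exact SSModel.redOrd_dvdQ_two h hπ he₁ hpe hjint hker res hres hιR Q (hQ Q) hjW
      (by rw [hιjeq]; exact hg) hr hf hord hnf

end Dict

end Fermat.Agent.RB
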