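/-
RB — helper6 — [NEW-TORIC]: **the node unit on the special fibre, abstract part.**

On an `SSModel` with a reduction `ι : W_∞ → F̄`:
* the node unit `U` lies in the chart `j` (Hartogs: it is regular along both sheets and at the
  horizontal places where `j` is regular);
* hence its reduction is regular at the non-cuspidal places of `F̄`;
* there is a node in the chart `j` (helper5's `ssModel_exists_node_chart`), `U` vanishes there;
  given a place of `F̄` centred at the node ([NEW-PLACE], a hypothesis here), the reduction of `U`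
  has a zero at a non-cuspidal place.
-/
import Mathlib
import Fermat.Agent.RB.NEWT_helper6_Dict
import Fermat.Agent.RB.KEYH_helper5_NodeEx
import Fermat.Agent.RB.NEWT_helper4_Place
import Fermat.Agent.SS.HART_helper4
import Fermat.Agent.SS.CUSPHOST_helper8
import Fermat.Agent.SS.NODE_helper8_Model
import Fermat.Agent.JA.LINE_helper2_Ram

set_option autoImplicit false
set_option linter.unusedSectionVars false
set_option linter.unusedVariables false
set_option linter.style.haveILetI false

open AlgebraicCurve IsLocalRing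

namespace Fermat.Agent.RB

open Fermat.Agent.NP Fermat.Agent.SS Fermat.Agent.JA Fermat.Agent.FF Fermat.Agent.MW
  Fermat.Agent.MW.NAdic Fermat.Agent.MP

section Pos

variable {R : Type*} [CommRing R] [IsDomain R] [IsDiscreteValuationRing R] [CharZero R]
  {K₁ : Type*} [Field K₁] [Algebra R K₁] [IsFractionRing R K₁]
  {KM : Type*} [Field KM] [Algebra K₁ KM] [Algebra R KM] [IsScalarTower R K₁ KM]
  {EM : Type*} [Field EM] [Algebra KM EM] [Algebra K₁ EM] [IsScalarTower K₁ KM EM] [Algebra R EM]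
  [IsScalarTower R KM EM]
  {KN : Type*} [Field KN] [Algebra K₁ KN] [Algebra R KN] [IsScalarTower R K₁ KN]
  {EN : Type*} [Field EN] [Algebra KN EN] [Algebra K₁ EN] [IsScalarTower K₁ KN EN] [Algebra R EN]
  [IsScalarTower R KN EN] [FiniteDimensional KN EN]
  {π : R} {q n : ℕ} {S : Finset R} {t : KM} {jM : EM} {j : KN} {A B : EM →+* EN}
  {VM : ValuationSubring EM} {Winf W0 : ValuationSubring EN}
  [IsAlgClosed (IsLocalRing.ResidueField R)]
  {k : Type*} [Field k] {F : Type*} [Field F] [Algebra k F]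
  {ι : ↥Winf →+* F}

/-- the node unit is regular along the sheet `0`, with valuation `< 1`. -/
theorem SSModel.nodeUnit_val_zero_lt_one (h : SSModel K₁ π q n S t jM j A B VM Winf W0)
    (hπ : Irreducible π) {U : EN} {c : ℕ} (hU : NodeUnit K₁ π (A jM) U c Winf W0) :
    W0.valuation U < 1 := by
  have hπ0 : algebraMap R EN π ≠ 0 := algebraMap_pi_ne_zero (K₁ := K₁) (K := KN) hπ
  have h1 : W0.valuation (algebraMap R EN π) < 1 := by
    have := IsTwoSheet.pi_mem_zero (K₁ := K₁) h.two hπ
    rw [mem_sheetIdeal_iff] at this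
    exact this
  have e : U = U * (algebraMap R EN π ^ c)⁻¹ * algebraMap R EN π ^ c := by
    rw [mul_assoc, inv_mul_cancel₀ (pow_ne_zero _ hπ0), mul_one]
  have h2 : W0.valuation (U * (algebraMap R EN π ^ c)⁻¹) ≤ 1 :=
    (ValuationSubring.valuation_le_one_iff _ _).mpr hU.mem_zero
  have h3 : W0.valuation (algebraMap R EN π ^ c) < 1 := by
    rw [map_pow]
    exact pow_lt_one₀ zero_le h1 (by have := hU.one_le; omega)
  rw [e, map_mul]
  calc W0.valuation (U * (algebraMap R EN π ^ c)⁻¹) * W0.valuation (algebraMap R EN π ^ c)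
      ≤ 1 * W0.valuation (algebraMap R EN π ^ c) := mul_le_mul' h2 le_rfl
    _ = W0.valuation (algebraMap R EN π ^ c) := one_mul _
    _ < 1 := h3

/-- **the node unit lies in the chart `j`** (Hartogs). -/
theorem SSModel.nodeUnit_mem_chartOne (h : SSModel K₁ π q n S t jM j A B VM Winf W0)
    (hπ : Irreducible π) {U : EN} {c : ℕ} (hU : NodeUnit K₁ π (A jM) U c Winf W0) :
    U ∈ chartOne R EN j := by
  haveI : IsScalarTower R K₁ EN := isScalarTower_base_const R K₁ KN EN
  refine IsTwoSheet.mem_chartOne_of_forall (K₁ := K₁) h.two hπ h.j_transcendental h.j_adjoin U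
    hU.mem_inf ?_ ?_
  · exact (ValuationSubring.valuation_le_one_iff _ _).mp
      (SSModel.nodeUnit_val_zero_lt_one h hπ hU).le
  · intro V hπV hV
    have hK : ∀ r : K₁, algebraMap K₁ EN r ∈ V := fun r =>
      algebraMap_mem_of_inv_uniformizer_mem hπ V
        (fun r => hV _ (Subalgebra.algebraMap_mem _ r)) hπV r
    have hJ : A jM ∈ V := by
      rw [h.A_j]
      exact hV _ (algebraMap_coord_mem_chartOne j)
    exact mem_valuationSubring_of_isIntegral_adjoin_singleton V hK hJ hU.int

/-- **the reduction of the node unit is regular at the non-cuspidal places.** -/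
theorem SSModel.nodeUnit_red_mem (h : SSModel K₁ π q n S t jM j A B VM Winf W0)
    (hπ : Irreducible π) (hker : ∀ x : ↥Winf, Winf.valuation (x : EN) < 1 → ι x = 0)
    (res : R →+* k)
    (hιR : ∀ (r : R) (hr : algebraMap R EN r ∈ Winf),
      ι ⟨algebraMap R EN r, hr⟩ = algebraMap k F (res r))
    {U : EN} {c : ℕ} (hU : NodeUnit K₁ π (A jM) U c Winf W0)
    (Q : Place k F) (hjW : algebraMap KN EN j ∈ Winf)
    (hιj : ι ⟨algebraMap KN EN j, hjW⟩ ∈ Q.toValuationSubring) :
    ι ⟨U, hU.mem_inf⟩ ∈ Q.toValuationSubring := by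
  have hRW : ∀ r : R, algebraMap R EN r ∈ Winf := fun r =>
    h.two.chart_le_inf _ (Subalgebra.algebraMap_mem _ r)
  have hB := chartOne_le_of_mem j (compValOf Winf ι hker Q.toValuationSubring)
    (fun r => ⟨hRW r, by rw [hιR]; exact Q.algebraMap_mem' _⟩) ⟨hjW, hιj⟩ U
    (SSModel.nodeUnit_mem_chartOne h hπ hU)
  exact hB.2

/-- **the reduction of the node unit has a zero at a non-cuspidal place**, given the places centred
at the closed points of the sheet `∞` of the chart `j` ([NEW-PLACE]). -/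
theorem SSModel.nodeUnit_red_exists_zero (h : SSModel K₁ π q n S t jM j A B VM Winf W0)
    (hπ : Irreducible π)
    (hplace : ∀ (𝔪 : Ideal ↥(chartOne R EN j)) [𝔪.IsMaximal],
      sheetIdeal j Winf h.two.chart_le_inf ≤ 𝔪 →
      ∃ Q : Place k F, ∀ b : ↥(chartOne R EN j),
        ι ⟨(b : EN), h.two.chart_le_inf _ b.2⟩ ∈ Q.toValuationSubring ∧
        (b ∈ 𝔪 → Q.toValuationSubring.valuation (ι ⟨(b : EN), h.two.chart_le_inf _ b.2⟩) < 1))
    {U : EN} {c : ℕ} (hU : NodeUnit K₁ π (A jM) U c Winf W0)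
    (hjW : algebraMap KN EN j ∈ Winf) :
    ∃ Q : Place k F, ι ⟨algebraMap KN EN j, hjW⟩ ∈ Q.toValuationSubring ∧
      Q.toValuationSubring.valuation (ι ⟨U, hU.mem_inf⟩) < 1 := by
  obtain ⟨𝔪, hmax, hinf, h0⟩ := ssModel_exists_node_chart h hπ
  haveI := hmax
  obtain ⟨Q, hQ⟩ := hplace 𝔪 hinf
  refine ⟨Q, (hQ ⟨algebraMap KN EN j, algebraMap_coord_mem_chartOne j⟩).1, ?_⟩
  have hUc := SSModel.nodeUnit_mem_chartOne h hπ hU
  have hUm : (⟨U, hUc⟩ : ↥(chartOne R EN j)) ∈ 𝔪 := by
    apply h0
    rw [mem_sheetIdeal_iff]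
    exact SSModel.nodeUnit_val_zero_lt_one h hπ hU
  exact (hQ ⟨U, hUc⟩).2 hUm

/-- the coordinate of the good level is regular along `V_M`. -/
theorem SSModel.t_mem (h : SSModel K₁ π q n S t jM j A B VM Winf W0) :
    algebraMap KM EM t ∈ VM := by
  rw [← h.comap_A_inf]
  exact h.two.chart_le_inf _ h.A_t_mem

/-- the reduction along `W_∞` of `A(t)` is the reduction of `t`. -/
theorem SSModel.redInf_A_t (h : SSModel K₁ π q n S t jM j A B VM Winf W0)
    (ρ : ↥VM →+* F)
    (hιA : ∀ (x : ↥Winf) (a : ↥VM), Winf.valuation ((x : EN) - A (a : EM)) < 1 → ι x = ρ a) :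
    ι ⟨A (algebraMap KM EM t), h.two.chart_le_inf _ h.A_t_mem⟩ =
      ρ ⟨algebraMap KM EM t, SSModel.t_mem h⟩ :=
  hιA ⟨A (algebraMap KM EM t), h.two.chart_le_inf _ h.A_t_mem⟩ ⟨algebraMap KM EM t, SSModel.t_mem h⟩ (by
    show Winf.valuation (A (algebraMap KM EM t) - A (algebraMap KM EM t)) < 1
    rw [sub_self, map_zero]; exact zero_lt_one)

/-- **the reduction of the node unit has a zero at a non-cuspidal place**, the reduction of the
coordinate `t` being a separating coordinate of `F̄`. -/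
theorem SSModel.nodeUnit_red_exists_zero_of_coord
    (h : SSModel K₁ π q n S t jM j A B VM Winf W0) (hπ : Irreducible π)
    (hker : ∀ x : ↥Winf, Winf.valuation (x : EN) < 1 → ι x = 0)
    (res : R →+* k) (hres : Function.Surjective res)
    (hιR : ∀ (r : R) (hr : algebraMap R EN r ∈ Winf),
      ι ⟨algebraMap R EN r, hr⟩ = algebraMap k F (res r))
    (ρ : ↥VM →+* F)
    (hιA : ∀ (x : ↥Winf) (a : ↥VM), Winf.valuation ((x : EN) - A (a : EM)) < 1 → ι x = ρ a)
    (c : Coord k F) (hsep : Algebra.IsSeparable (IntermediateField.adjoin k {c.x}) F)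
    (hρt : ρ ⟨algebraMap KM EM t, SSModel.t_mem h⟩ = c.x)
    {U : EN} {cU : ℕ} (hU : NodeUnit K₁ π (A jM) U cU Winf W0)
    (hjW : algebraMap KN EN j ∈ Winf) :
    ∃ Q : Place k F, ι ⟨algebraMap KN EN j, hjW⟩ ∈ Q.toValuationSubring ∧
      Q.toValuationSubring.valuation (ι ⟨U, hU.mem_inf⟩) < 1 :=
  SSModel.nodeUnit_red_exists_zero h hπ
    (fun 𝔪 _ hinf => SSModel.exists_place_centre h hπ hker res hres hιR c hsep
      ⟨A (algebraMap KM EM t), h.A_t_mem⟩ ((SSModel.redInf_A_t h ρ hιA).trans hρt) 𝔪 hinf)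
    hU hjW

end Pos

end Fermat.Agent.RB
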