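/-
RB — helper6 — [NEW-TORIC]: **the sum over the places** (abstract).

`F / k` a function field with principal divisors of degree zero.  If `r ∣ N · ord_v f - δ · D_U v` at
the places `v` of a set `nc` and `r ∣ ord_v f` at the others, then
`r ∣ δ · deg (D_U restricted to nc)`; an effective divisor with a point of positive multiplicity has
positive degree.
-/
import Mathlib
import Fermat.Prelude.Def_AlgebraicCurve_DivisorClassGroup
import Fermat.Agent.FF.PlaceBasic

set_option autoImplicit false
set_option linter.unusedSectionVars false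
set_option linter.unusedVariables false

open AlgebraicCurve

namespace Fermat.Agent.RB

section Sum

variable {k F : Type*} [Field k] [Field F] [Algebra k F]

theorem divisor_degree_eq_sum (E : Divisor k F) :
    Divisor.degree E = E.sum (fun v n => n * (v.deg : ℤ)) := by
  simp [Divisor.degree, Finsupp.liftAddHom_apply]

theorem divisor_dvd_degree_of_forall_dvd {r : ℤ} (E : Divisor k F) (h : ∀ v, r ∣ E v) :
    r ∣ Divisor.degree E := by
  rw [divisor_degree_eq_sum, Finsupp.sum]
  exact Finset.dvd_sum fun v _ => Dvd.dvd.mul_right (h v) _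

/-- **the sum formula**: from the congruences at the places to a divisibility of the degree of the
part of `D_U` supported on `nc`. -/
theorem divisor_dvd_mul_degree_filter [HasPrincipalDivisors k F] (nc : Place k F → Prop)
    [DecidablePred nc] {f : F} (hf : f ≠ 0) (DU : Divisor k F) {r N δ : ℤ}
    (h1 : ∀ v, nc v → r ∣ N * v.ord f - δ * DU v)
    (h2 : ∀ v, ¬ nc v → r ∣ v.ord f) :
    r ∣ δ * Divisor.degree (DU.filter nc) := by
  obtain ⟨D, hD, hdeg⟩ := HasPrincipalDivisors.exists_divisor (K := k) f hf
  have hE : ∀ v, r ∣ (N • D - δ • DU.filter nc) v := by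
    intro v
    rw [Finsupp.sub_apply, Finsupp.smul_apply, Finsupp.smul_apply, Finsupp.filter_apply, hD v,
      smul_eq_mul, smul_eq_mul]
    by_cases hv : nc v
    · rw [if_pos hv]; exact h1 v hv
    · rw [if_neg hv, mul_zero, sub_zero]; exact Dvd.dvd.mul_left (h2 v hv) N
  have h3 := divisor_dvd_degree_of_forall_dvd _ hE
  rw [map_sub, map_zsmul, map_zsmul, hdeg, smul_zero, zero_sub, smul_eq_mul, dvd_neg] at h3
  exact h3

/-- an effective divisor with a point of positive multiplicity has positive degree. -/
theorem divisor_degree_pos (hdeg : ∀ v : Place k F, 0 < v.deg) (E : Divisor k F)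
    (h0 : ∀ v, 0 ≤ E v) (v₀ : Place k F) (h1 : 0 < E v₀) : 0 < Divisor.degree E := by
  rw [divisor_degree_eq_sum, Finsupp.sum]
  refine Finset.sum_pos' (fun v _ => mul_nonneg (h0 v) (Int.natCast_nonneg _)) ⟨v₀, ?_, ?_⟩
  · rw [Finsupp.mem_support_iff]; exact h1.ne'
  · exact mul_pos h1 (by exact_mod_cast hdeg v₀)

end Sum

end Fermat.Agent.RB
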