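/-
RB — helper6 — [NEW-TORIC]: **the reduction of the node unit on the reduced host of level `M` does
not depend on the base.**

`u_q = Δ(τ)/Δ(qτ) ∈ F_{Mq}(K')`, `w ∈ F_M(K')` Gauss-integral with `u_q ≡ A(w)` along `W_∞`: the
reduction `ρ_E(w) ∈ Ẽ_M` has the `x`-expansion `(u_q mod 𝔪)(x²)`, whatever the base `K'` and the
choice of `w`.
-/
import Mathlib
import Fermat.Agent.MP.ROLDQ_helper8_RedDict
import Fermat.Agent.SS.UNIT_helper6_Fricke
import Fermat.Agent.SS.VAL2_helper7_HostGauss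
import Fermat.Agent.JA.G1OMEGA_helper5_Desc
import Fermat.Agent.S35.FROBKRON_helper6_Key

set_option autoImplicit false
set_option linter.unusedSectionVars false
set_option linter.unusedVariables false
set_option linter.style.haveILetI false
set_option synthInstance.maxHeartbeats 400000

open HahnSeries IntermediateField AlgebraicCurve ModularCurve IsLocalRing

namespace Fermat.Agent.RB

open Fermat.Agent.JA Fermat.Agent.FF Fermat.Agent.SS Fermat.Agent.S35 Fermat.Agent.MP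
  Fermat.Agent.FG Fermat.Agent.X0N Fermat.Agent.Igusa

/-- `Ω = AlgebraicClosure ℚ`. -/
local notation "Ω" => AlgebraicClosure ℚ

section Series

variable {A : ValuationSubring Ω}

theorem fracRed_congr_h6 {x y : LaurentSeries Ω} (h : x = y) (hx : x ∈ fracInt A)
    (hy : y ∈ fracInt A) : fracRed A ⟨x, hx⟩ = fracRed A ⟨y, hy⟩ := by
  subst h; rfl

/-- two series over a base which are congruent modulo the Gauss maximal ideal have the same
reduction over `Ω`. -/
theorem fracRed_eq_of_gauss_cong (K' : IntermediateField ℚ Ω)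
    [IsDiscreteValuationRing ↥(baseRing A K')] {s u : LaurentSeries ↥K'}
    (hs : s ∈ gaussInt ↥(baseRing A K') ↥K') (hd : u - s ∈ gaussInt ↥(baseRing A K') ↥K')
    (hd0 : gaussRed ↥(baseRing A K') ↥K' ⟨u - s, hd⟩ = 0)
    (hu : coeffMap (algebraMap ↥K' Ω) u ∈ fracInt A) :
    fracRed A ⟨coeffMap (algebraMap ↥K' Ω) u, hu⟩ =
      fracRed A ⟨coeffMap (algebraMap ↥K' Ω) s, coeffMap_mem_fracInt_of_mem_gaussInt hs⟩ := by
  have e : (⟨coeffMap (algebraMap ↥K' Ω) u, hu⟩ : ↥(fracInt A)) =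
      ⟨coeffMap (algebraMap ↥K' Ω) (u - s), coeffMap_mem_fracInt_of_mem_gaussInt hd⟩ +
        ⟨coeffMap (algebraMap ↥K' Ω) s, coeffMap_mem_fracInt_of_mem_gaussInt hs⟩ := by
    apply Subtype.ext
    show coeffMap (algebraMap ↥K' Ω) u =
      coeffMap (algebraMap ↥K' Ω) (u - s) + coeffMap (algebraMap ↥K' Ω) s
    rw [← map_add, sub_add_cancel]
  rw [e, map_add, fracRed_coeffMap_of_mem_gaussInt hd, hd0, map_zero, zero_add]

end Series

section Unique

variable (M : ℕ) [NeZero M] {q : ℕ} [NeZero q] [NeZero (M * q)] [Fact q.Prime]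
  {A : ValuationSubring Ω} (hA : A.LiesOverPrime q) (hq2 : q ≠ 2)

/-- the `x`-expansion of the reduction of any `w` with `u_q ≡ A(w)`. -/
theorem fracRed_of_modUnit_cong (K' : IntermediateField ℚ Ω)
    [IsDiscreteValuationRing ↥(baseRing A K')] (w : ↥(keyFq ↥K' M))
    (hw : w ∈ keyFqWinf ↥(baseRing A K') ↥K' M)
    (hc : (keyFqWinf ↥(baseRing A K') ↥K' (M * q)).valuation
      (modUnit ↥K' (M * q) q (Dvd.intro_left M rfl) - keyFqA ↥K' M q w) < 1)
    (hu : coeffEmb Ω (modularUnitSeries q) ∈ fracInt A) :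
    fracRed A ⟨((keyFqBC M K' w : ↥(keyFq Ω M)) : LaurentSeries Ω),
        redDict_mem_fracInt M K' w hw⟩ = fracRed A ⟨coeffEmb Ω (modularUnitSeries q), hu⟩ := by
  unfold keyFqWinf at hc
  rw [gaussValSub_valuation_lt_one_iff] at hc
  obtain ⟨hd, hd0⟩ := hc
  have ecoe : ((modUnit ↥K' (M * q) q (Dvd.intro_left M rfl) - keyFqA ↥K' M q w :
      ↥(keyFq ↥K' (M * q))) : LaurentSeries ↥K') =
      coeffEmb ↥K' (modularUnitSeries q) - (w : LaurentSeries ↥K') := by
    rw [AddSubgroupClass.coe_sub, coe_keyFqA, coe_modUnit]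
  have hd' : coeffEmb ↥K' (modularUnitSeries q) - (w : LaurentSeries ↥K') ∈
      gaussInt ↥(baseRing A K') ↥K' := ecoe ▸ hd
  have hd0' : gaussRed ↥(baseRing A K') ↥K'
      ⟨coeffEmb ↥K' (modularUnitSeries q) - (w : LaurentSeries ↥K'), hd'⟩ = 0 := by
    rw [← hd0]
    congr 1
    exact Subtype.ext ecoe.symm
  have hu' : coeffMap (algebraMap ↥K' Ω) (coeffEmb ↥K' (modularUnitSeries q)) ∈ fracInt A := by
    rw [coeffMap_coeffEmb_hom]; exact hu
  have h1 := fracRed_eq_of_gauss_cong K' (A := A) hw hd' hd0' hu'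
  rw [fracRed_congr_h6 (coeffMap_coeffEmb_hom _ _) hu' hu] at h1
  rw [h1]
  rfl

/-- `u_q mod 𝔪` exists as soon as some base carries a `w`. -/
theorem modUnitSeries_mem_fracInt (K' : IntermediateField ℚ Ω)
    [IsDiscreteValuationRing ↥(baseRing A K')] (w : ↥(keyFq ↥K' M))
    (hw : w ∈ keyFqWinf ↥(baseRing A K') ↥K' M)
    (hc : (keyFqWinf ↥(baseRing A K') ↥K' (M * q)).valuation
      (modUnit ↥K' (M * q) q (Dvd.intro_left M rfl) - keyFqA ↥K' M q w) < 1) :
    coeffEmb Ω (modularUnitSeries q) ∈ fracInt A := by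
  have hmem : modUnit ↥K' (M * q) q (Dvd.intro_left M rfl) - keyFqA ↥K' M q w ∈
      keyFqWinf ↥(baseRing A K') ↥K' (M * q) :=
    (ValuationSubring.valuation_le_one_iff _ _).mp hc.le
  have hA' : keyFqA ↥K' M q w ∈ keyFqWinf ↥(baseRing A K') ↥K' (M * q) := by
    rw [mem_keyFqWinf_iff, coe_keyFqA]; exact hw
  have hU : modUnit ↥K' (M * q) q (Dvd.intro_left M rfl) ∈
      keyFqWinf ↥(baseRing A K') ↥K' (M * q) := by
    have := (keyFqWinf ↥(baseRing A K') ↥K' (M * q)).add_mem _ _ hmem hA'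
    rwa [sub_add_cancel] at this
  rw [mem_keyFqWinf_iff, coe_modUnit] at hU
  have := coeffMap_mem_fracInt_of_mem_gaussInt (A := A) hU
  rwa [coeffMap_coeffEmb_hom] at this

/-- **the reduction of the node unit on the reduced host of level `M` is independent of the base
and of the lift.** -/
theorem legρ_modUnit_unique (K' K'' : IntermediateField ℚ Ω)
    [IsDiscreteValuationRing ↥(baseRing A K')] [IsDiscreteValuationRing ↥(baseRing A K'')]
    (w' : ↥(keyFq ↥K' M)) (hw' : w' ∈ keyFqWinf ↥(baseRing A K') ↥K' M)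
    (hc' : (keyFqWinf ↥(baseRing A K') ↥K' (M * q)).valuation
      (modUnit ↥K' (M * q) q (Dvd.intro_left M rfl) - keyFqA ↥K' M q w') < 1)
    (w'' : ↥(keyFq ↥K'' M)) (hw'' : w'' ∈ keyFqWinf ↥(baseRing A K'') ↥K'' M)
    (hc'' : (keyFqWinf ↥(baseRing A K'') ↥K'' (M * q)).valuation
      (modUnit ↥K'' (M * q) q (Dvd.intro_left M rfl) - keyFqA ↥K'' M q w'') < 1)
    (hW' : fullToLegE Ω M (keyFqBC M K' w') ∈ legWE hA M hq2)
    (hW'' : fullToLegE Ω M (keyFqBC M K'' w'') ∈ legWE hA M hq2) :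
    legρ hA M hq2 ⟨fullToLegE Ω M (keyFqBC M K' w'), hW'⟩ =
      legρ hA M hq2 ⟨fullToLegE Ω M (keyFqBC M K'' w''), hW''⟩ := by
  apply (legEtEmb hA M hq2).injective
  have hu := modUnitSeries_mem_fracInt M K' w' hw' hc'
  have h1 := legEtEmb_legρ_fullToLegE M hA hq2 (keyFqBC M K' w')
    (redDict_mem_fracInt M K' w' hw')
  have h2 := legEtEmb_legρ_fullToLegE M hA hq2 (keyFqBC M K'' w'')
    (redDict_mem_fracInt M K'' w'' hw'')
  rw [fracRed_of_modUnit_cong M K' w' hw' hc' hu] at h1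
  rw [fracRed_of_modUnit_cong M K'' w'' hw'' hc'' hu] at h2
  exact h1.trans h2.symm

end Unique

end Fermat.Agent.RB
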