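/-
RB — helper7 — **[NEW-TORIC]: draft literals `LegNewDictQ`, `LegNewDeltaQ`** (the two inputs of
[BASE]-NEW coming from helper6's [NEW-DICT] / [NEW-DELTA]).

Over the small base `K'`, `F = fullToLegE f₀` on the Legendre host of level `M q`, `U` the host image
of the modular unit `Δ(τ)/Δ(qτ)` (the node unit), `a∞`, `a₀` the orders of `F` along `W_∞`, `W_0`,
`F ϖ ^ (-a∞) ≡ A(w₀)`, `U ≡ A(w_U)` along `W_∞`:
* `LegNewDictQ`  : **(D1)** at every place `Q` of the reduced host of level `M`: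
  `r ∣ 12 · ord_Q(w̄₀) - (a₀ - a∞) · ord_Q(w̄_U)` (non-cuspidal places) or `r ∣ ord_Q(w̄₀)` (cusps);
  = helper6's `SSModel.cong_ord_redQ` instantiated on the hosts (`r = p ^ k`);
* `LegNewDeltaQ` : **(D2)** `r ∣ p ^ c₀ · (a₀ - a∞)`, `c₀` depending only on `(M, q, p, A)`
  (degree zero on the reduced host + the node unit vanishes at some non-cuspidal place).
-/
import Mathlib
import Fermat.Agent.RB.NEWT_helper6_Hyp
import Fermat.Agent.SS.UNIT_helper6_Fricke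

set_option autoImplicit false
set_option linter.unusedSectionVars false
set_option linter.unusedVariables false
set_option linter.style.haveILetI false
set_option synthInstance.maxHeartbeats 400000

open HahnSeries IntermediateField AlgebraicCurve ModularCurve IsLocalRing

namespace Fermat.Agent.RB

open Fermat.Agent.JA Fermat.Agent.FF Fermat.Agent.SS Fermat.Agent.S35 Fermat.Agent.MP
  Fermat.Agent.NP Fermat.Agent.GR Fermat.Agent.FG Fermat.Agent.X0N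

open scoped Fermat.Agent.JA.Host

/-- `Ω = AlgebraicClosure ℚ`. -/
local notation "Ω" => AlgebraicClosure ℚ

/-- **(D1) [NEW-DICT], host form**: the congruence between the orders of the reductions of `f₀` and
of the node unit, exponent `p ^ k`. -/
def LegNewDictQ : Prop :=
  ∀ (M : ℕ) [NeZero M] (q : ℕ) [NeZero q] [NeZero (M * q)] [Fact q.Prime] (hq2 : q ≠ 2),
    ¬ q ∣ M → ∀ (p : ℕ), p.Prime → 5 ≤ p → p ≠ q →
  ∀ (A : ValuationSubring Ω) (hA : A.LiesOverPrime q) (k : ℕ)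
    (K₁ : IntermediateField ℚ Ω) [Normal ℚ ↥K₁] (K' : IntermediateField ℚ Ω)
    [IsDiscreteValuationRing ↥(baseRing A K')]
    (f₀ : ↥(keyFq ↥K' (M * q))), LegNewHyp q (p ^ k) M A K₁ K' f₀ →
  ∀ (ϖ : ↥(baseRing A K')), Irreducible ϖ → ∀ (h2 : IsUnit (2 : ↥(baseRing A K'))) {x y : ℤ}
    (hbez : (q : ℤ) * x + M * y = 1) (ainf a0 : ℤ) (w₀ wU : ↥(keyFq ↥K' M)),
    (legWinf ↥(baseRing A K') ↥K' h2 M).valuation (fullToLegE ↥K' M w₀) = 1 →
    (legWinf ↥(baseRing A K') ↥K' h2 M).valuation (fullToLegE ↥K' M wU) = 1 →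
    (legWinf ↥(baseRing A K') ↥K' h2 (M * q)).valuation
      (fullToLegE ↥K' (M * q) f₀ *
        (algebraMap ↥(baseRing A K') ↥(legE ↥K' (M * q)) ϖ ^ ainf)⁻¹ -
        legHostA ↥K' M q (fullToLegE ↥K' M w₀)) < 1 →
    (legWinf ↥(baseRing A K') ↥K' h2 (M * q)).valuation
      (fullToLegE ↥K' (M * q) (modUnit ↥K' (M * q) q (Dvd.intro_left M rfl)) -
        legHostA ↥K' M q (fullToLegE ↥K' M wU)) < 1 →
    (letI := baseToComplex K'
     legW0 ↥(baseRing A K') ↥K' hbez (Fact.out : q.Prime)).valuation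
      (fullToLegE ↥K' (M * q) f₀ *
        (algebraMap ↥(baseRing A K') ↥(legE ↥K' (M * q)) ϖ ^ a0)⁻¹) = 1 →
  ∀ (hW : fullToLegE Ω M (keyFqBC M K' w₀) ∈ legWE hA M hq2)
    (hWU : fullToLegE Ω M (keyFqBC M K' wU) ∈ legWE hA M hq2)
    (Q : Place (ResidueField ↥A) (legEt hA M hq2)),
    ((p ^ k : ℕ) : ℤ) ∣
        12 * Q.ord (legρ hA M hq2 ⟨fullToLegE Ω M (keyFqBC M K' w₀), hW⟩) -
          (a0 - ainf) * Q.ord (legρ hA M hq2 ⟨fullToLegE Ω M (keyFqBC M K' wU), hWU⟩) ∨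
      ((p ^ k : ℕ) : ℤ) ∣ Q.ord (legρ hA M hq2 ⟨fullToLegE Ω M (keyFqBC M K' w₀), hW⟩)

/-- **(D2) [NEW-DELTA]**: the orders of `f₀` along the two sheets are congruent modulo `p ^ k` up to
a bounded power of `p`; `c₀` depends only on `(M, q, p, A)`. -/
def LegNewDeltaQ : Prop :=
  ∀ (M : ℕ) [NeZero M] (q : ℕ) [NeZero q] [NeZero (M * q)] [Fact q.Prime] (hq2 : q ≠ 2),
    ¬ q ∣ M → ∀ (p : ℕ), p.Prime → 5 ≤ p → p ≠ q →
  ∀ (A : ValuationSubring Ω) (hA : A.LiesOverPrime q), ∃ c₀ : ℕ,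
  ∀ (k : ℕ) (K₁ : IntermediateField ℚ Ω) [Normal ℚ ↥K₁] (K' : IntermediateField ℚ Ω)
    [IsDiscreteValuationRing ↥(baseRing A K')]
    (f₀ : ↥(keyFq ↥K' (M * q))), LegNewHyp q (p ^ k) M A K₁ K' f₀ →
  ∀ (ϖ : ↥(baseRing A K')), Irreducible ϖ → ∀ (h2 : IsUnit (2 : ↥(baseRing A K'))) {x y : ℤ}
    (hbez : (q : ℤ) * x + M * y = 1) (ainf a0 : ℤ),
    (legWinf ↥(baseRing A K') ↥K' h2 (M * q)).valuation
      (fullToLegE ↥K' (M * q) f₀ *
        (algebraMap ↥(baseRing A K') ↥(legE ↥K' (M * q)) ϖ ^ ainf)⁻¹) = 1 →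
    (letI := baseToComplex K'
     legW0 ↥(baseRing A K') ↥K' hbez (Fact.out : q.Prime)).valuation
      (fullToLegE ↥K' (M * q) f₀ *
        (algebraMap ↥(baseRing A K') ↥(legE ↥K' (M * q)) ϖ ^ a0)⁻¹) = 1 →
    ((p ^ k : ℕ) : ℤ) ∣ ((p ^ c₀ : ℕ) : ℤ) * (a0 - ainf)

end Fermat.Agent.RB
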