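/-
RB — helper6 — [NEW-TORIC]: **[NEW-DELTA]: `r ∣ (a₀ - a∞) · Z`**, `Z > 0` depending only on
`(M, q, A)`.

Over the unramified small base `K'` (`q` a uniformiser of `R' = A ∩ K'`), `f₀ ∈ F_{Mq}(K')` with
`div f₀ ∈ r Div` and rational support on the Legendre host, `a∞`, `a₀` its orders along the two
sheets.  At every node the thickness `m` divides `12` (`K m = 12`) and `r ∣ k m - (a₀ - a∞)`
(`f₀ = c X ^ k v G ^ r`), hence `r ∣ 12 k - (a₀ - a∞) K`; the dictionary with the node unit gives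
`r ∣ 12 ord_Q w̄₀ - (a₀ - a∞) ord_Q Ū` at the non-cuspidal places of the reduced host of level `M`
and `r ∣ ord_Q w̄₀` at the cusps; the sum over the places gives `r ∣ (a₀ - a∞) Z`,
`Z = Σ_{Q non-cuspidal} ord_Q Ū`.  `Ū` does not depend on the base, is regular at the non-cuspidal
places and vanishes at the supersingular points, which exist: `Z > 0`.
-/
import Mathlib
import Fermat.Agent.RB.NEWT_helper6_Hyp
import Fermat.Agent.RB.NEWT_helper6_Dict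
import Fermat.Agent.RB.NEWT_helper6_Sum
import Fermat.Agent.RB.NEWT_helper6_Pos
import Fermat.Agent.RB.NEWT_helper6_Ubar
import Fermat.Agent.RB.NEWT_helper4_Place
import Fermat.Agent.RB.MAZ_helper6_OrdQ
import Fermat.Agent.MP.KEYFQ_helper8_ResInfP
import Fermat.Agent.FG.EDEF_helper6_Fields
import Fermat.Agent.SS.UNIT_helper6_Gauss
import Fermat.Agent.MP.ORD_helper1_Main
import Fermat.Agent.RB.NEWT_helper7_Lit2

set_option autoImplicit false
set_option linter.unusedSectionVars false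
set_option linter.unusedVariables false
set_option linter.style.haveILetI false
set_option synthInstance.maxHeartbeats 400000

open HahnSeries IntermediateField AlgebraicCurve ModularCurve IsLocalRing

namespace Fermat.Agent.RB

open Fermat.Agent.JA Fermat.Agent.FF Fermat.Agent.SS Fermat.Agent.S35 Fermat.Agent.Igusa
  Fermat.Agent.NP Fermat.Agent.MW.NAdic Fermat.Agent.MW Fermat.Agent.FG Fermat.Agent.MP

open scoped Fermat.Agent.JA.Host

/-- `Ω = AlgebraicClosure ℚ`. -/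
local notation "Ω" => AlgebraicClosure ℚ

section Defs

variable {q : ℕ} [Fact q.Prime] {A : ValuationSubring Ω} (hA : A.LiesOverPrime q)
  (M : ℕ) [NeZero M] (hq2 : q ≠ 2)

open Classical in
/-- the degree of the non-cuspidal part of a divisor of the reduced host. -/
noncomputable def legNcDeg (DU : Divisor (ResidueField ↥A) (legEt hA M hq2)) : ℤ :=
  Divisor.degree (DU.filter fun Q =>
    legρ hA M hq2 ⟨legJE Ω M, legJE_mem_legWE M hA hq2⟩ ∈ Q.toValuationSubring)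

end Defs

section Lift

variable (M : ℕ) [NeZero M] (q : ℕ) [NeZero q] [NeZero (M * q)] [Fact q.Prime]

/-- the node unit is Gauss-integral. -/
theorem modUnit_mem_keyFqWinf (R : Type*) [CommRing R] [IsDomain R] [IsDiscreteValuationRing R]
    (K : Type*) [Field K] [Algebra R K] [IsFractionRing R K] [Algebra ℚ K] :
    modUnit K (M * q) q (Dvd.intro_left M rfl) ∈ keyFqWinf R K (M * q) := by
  rw [mem_keyFqWinf_iff, coe_modUnit, modularUnitSeries_eq_deltaRatioSeries]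
  exact coeffEmb_deltaRatioSeries_mem_gaussInt R K 1 q

/-- **a lift of the node unit to the level `M`** along the sheet `∞`. -/
theorem legNew_exists_wU (hqM : ¬ q ∣ M) (A : ValuationSubring Ω) (hA : A.LiesOverPrime q)
    (K' : IntermediateField ℚ Ω) [IsDiscreteValuationRing ↥(baseRing A K')] (hK' : IsBase q K') :
    ∃ wU ∈ keyFqWinf ↥(baseRing A K') ↥K' M,
      (keyFqWinf ↥(baseRing A K') ↥K' (M * q)).valuation
        (modUnit ↥K' (M * q) q (Dvd.intro_left M rfl) - keyFqA ↥K' M q wU) < 1 :=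
  keyFqResInfP M q hqM A hA K' hK' _ (modUnit_mem_keyFqWinf M q ↥(baseRing A K') ↥K')

end Lift

section Cong

set_option maxHeartbeats 6400000 in
/-- **[NEW-DELTA], the congruence over one base.** -/
theorem legNew_cong (M : ℕ) [NeZero M] (q : ℕ) [NeZero q] [NeZero (M * q)] [Fact q.Prime]
    (hq2 : q ≠ 2) (hqM : ¬ q ∣ M) {r : ℕ} (hr : r ≠ 0)
    (A : ValuationSubring Ω) (hA : A.LiesOverPrime q)
    (K₁ : IntermediateField ℚ Ω) [Normal ℚ ↥K₁] (K' : IntermediateField ℚ Ω)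
    [IsDiscreteValuationRing ↥(baseRing A K')]
    (f₀ : ↥(keyFq ↥K' (M * q))) (H : LegNewHyp q r M A K₁ K' f₀)
    (ϖ : ↥(baseRing A K')) (hϖ : Irreducible ϖ)
    (h2 : IsUnit (2 : ↥(baseRing A K'))) {x y : ℤ} (hbez : (q : ℤ) * x + M * y = 1)
    (ainf a0 : ℤ)
    (hfinf : (legWinf ↥(baseRing A K') ↥K' h2 (M * q)).valuation
      (fullToLegE ↥K' (M * q) f₀ *
        (algebraMap ↥(baseRing A K') ↥(legE ↥K' (M * q)) ϖ ^ ainf)⁻¹) = 1)
    (hf0 : (letI := baseToComplex K'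
      legW0 ↥(baseRing A K') ↥K' hbez (Fact.out : q.Prime)).valuation
      (fullToLegE ↥K' (M * q) f₀ *
        (algebraMap ↥(baseRing A K') ↥(legE ↥K' (M * q)) ϖ ^ a0)⁻¹) = 1)
    (wU : ↥(keyFq ↥K' M)) (hwU : wU ∈ keyFqWinf ↥(baseRing A K') ↥K' M)
    (hcU : (keyFqWinf ↥(baseRing A K') ↥K' (M * q)).valuation
      (modUnit ↥K' (M * q) q (Dvd.intro_left M rfl) - keyFqA ↥K' M q wU) < 1)
    (hW : fullToLegE Ω M (keyFqBC M K' wU) ∈ legWE hA M hq2)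
    (DU : Divisor (ResidueField ↥A) (legEt hA M hq2))
    (hDU : ∀ Q, DU Q = Q.ord (legρ hA M hq2 ⟨fullToLegE Ω M (keyFqBC M K' wU), hW⟩)) :
    (r : ℤ) ∣ (a0 - ainf) * legNcDeg hA M hq2 DU := by
  classical
  have hq : q.Prime := Fact.out
  haveI : CharZero ↥(baseRing A K') := charZero_valuationSubring_of_algebraRat _
  letI := baseToComplex K'
  have hK' : IsBase q K' := H.base
  haveI : IsAlgClosed (ResidueField ↥(baseRing A K')) := hK'.isAlgClosed_residueField hA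
  have hqϖ := natCast_mem_span_uniformizer_baseRing hA K' hϖ
  have hmodel : SSModelLeg ↥(baseRing A K') ↥K' ϖ h2 hbez hq hq2 :=
    ssModelLeg ↥(baseRing A K') ↥K' hϖ h2 hbez hq hq2 hqϖ
      (geoHyps_legE_baseRing hA M hqM hK' hq2 hϖ)
  haveI : FiniteDimensional ↥(↥K')⟮jqNModC ↥K' 2⟯ ↥(legE ↥K' (M * q)) :=
    finite_legE_adjoin_j ↥K' (M * q)
  have h' := SSModelLeg.ssModel ↥(baseRing A K') ↥K' hmodel
  obtain ⟨u, hu⟩ : ∃ u : (↥(baseRing A K'))ˣ, ((q : ℕ) : ↥(baseRing A K')) = u * ϖ ^ 1 := by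
    obtain ⟨u, hu⟩ := IsDiscreteValuationRing.associated_of_irreducible ↥(baseRing A K') hϖ H.unram
    exact ⟨u, by rw [← hu, pow_one, mul_comm]⟩
  have he : 0 < 1 := one_pos
  set f : ↥(legE ↥K' (M * q)) := fullToLegE ↥K' (M * q) f₀ with hfdef
  have hf : f ≠ 0 := (_root_.map_ne_zero (fullToLegE ↥K' (M * q))).mpr H.ne_zero
  have hord : ∀ P : Place ↥K' ↥(legE ↥K' (M * q)), (r : ℤ) ∣ P.ord f :=
    fun P => dvd_ord_fullToLegE_of_keyFqBC (M * q) K' f₀ H.ordΩ P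
  -- the reduction map
  obtain ⟨ρ, res, hres, hρ, hρR, hρapp⟩ := legRhoBaseP M q hq2 hqM A hA K' hK' h2
  -- the Gauss unit part of `f₀` and its lift to the level `M`
  have hRN : ∀ z : ↥(baseRing A K'), algebraMap ↥(baseRing A K') ↥(legE ↥K' (M * q)) z =
      algebraMap ↥K' ↥(legE ↥K' (M * q)) (algebraMap ↥(baseRing A K') ↥K' z) :=
    fun z => IsScalarTower.algebraMap_apply ↥(baseRing A K') ↥K' ↥(legE ↥K' (M * q)) z
  obtain ⟨d, hd⟩ : ∃ d : ↥K', d = algebraMap ↥(baseRing A K') ↥K' ϖ ^ ainf := ⟨_, rfl⟩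
  have hdE : algebraMap ↥K' ↥(legE ↥K' (M * q)) d =
      algebraMap ↥(baseRing A K') ↥(legE ↥K' (M * q)) ϖ ^ ainf := by
    rw [hd, map_zpow₀, ← hRN]
  obtain ⟨f₁, hf₁⟩ : ∃ f₁ : ↥(keyFq ↥K' (M * q)),
      f₁ = f₀ * (algebraMap ↥K' ↥(keyFq ↥K' (M * q)) d)⁻¹ := ⟨_, rfl⟩
  have hf₁E : fullToLegE ↥K' (M * q) f₁ = f *
      (algebraMap ↥(baseRing A K') ↥(legE ↥K' (M * q)) ϖ ^ ainf)⁻¹ := by
    rw [hf₁, map_mul, map_inv₀, AlgHom.commutes, hdE]
  have hf₁v : (keyFqWinf ↥(baseRing A K') ↥K' (M * q)).valuation f₁ = 1 := by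
    have h1 := kp_comap_val_eq_one_iff (legWinf ↥(baseRing A K') ↥K' h2 (M * q))
      (fullToLegE ↥K' (M * q) : ↥(keyFq ↥K' (M * q)) →+* ↥(legE ↥K' (M * q)))
      (xport_legWinf_comap ↥(baseRing A K') ↥K' h2 (M * q)) f₁
    refine h1.mp ?_
    show (legWinf ↥(baseRing A K') ↥K' h2 (M * q)).valuation (fullToLegE ↥K' (M * q) f₁) = 1
    rw [hf₁E]
    exact hfinf
  have hf₁mem : f₁ ∈ keyFqWinf ↥(baseRing A K') ↥K' (M * q) := kp_mem_of_val_eq_one _ hf₁v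
  obtain ⟨w₀, hw₀, hresw⟩ := keyFqResInfP M q hqM A hA K' hK' f₁ hf₁mem
  -- links on the host
  have hlinkOf : ∀ (g : ↥(keyFq ↥K' (M * q))) (w : ↥(keyFq ↥K' M)),
      (keyFqWinf ↥(baseRing A K') ↥K' (M * q)).valuation (g - keyFqA ↥K' M q w) < 1 →
      (legWinf ↥(baseRing A K') ↥K' h2 (M * q)).valuation
        (fullToLegE ↥K' (M * q) g - legHostA ↥K' M q (fullToLegE ↥K' M w)) < 1 := by
    intro g w hgw
    have h1 := (comap_val_lt_one_iff
      (fullToLegE ↥K' (M * q) : ↥(keyFq ↥K' (M * q)) →+* ↥(legE ↥K' (M * q)))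
      (xport_legWinf_comap ↥(baseRing A K') ↥K' h2 (M * q)) (g - keyFqA ↥K' M q w)).mpr hgw
    have h2' : (fullToLegE ↥K' (M * q) : ↥(keyFq ↥K' (M * q)) →+* ↥(legE ↥K' (M * q)))
        (g - keyFqA ↥K' M q w) =
        fullToLegE ↥K' (M * q) g - legHostA ↥K' M q (fullToLegE ↥K' M w) := by
      show fullToLegE ↥K' (M * q) (g - keyFqA ↥K' M q w) = _
      rw [map_sub, xport_fullToLegE_keyFqA]
    rwa [h2'] at h1
  have hmemOf : ∀ w : ↥(keyFq ↥K' M), w ∈ keyFqWinf ↥(baseRing A K') ↥K' M →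
      fullToLegE ↥K' M w ∈ legWinf ↥(baseRing A K') ↥K' h2 M := by
    intro w hw
    exact (ValuationSubring.valuation_le_one_iff _ _).mp
      ((redDict_val_le_one_iff M K' h2 w).mpr ((mem_keyFqWinf_iff _ _ _ w).mp hw))
  have hlink := hlinkOf f₁ w₀ hresw
  rw [hf₁E] at hlink
  have hlinkU := hlinkOf _ wU hcU
  set x₀ : ↥(legE ↥K' M) := fullToLegE ↥K' M w₀ with hx₀def
  set xU : ↥(legE ↥K' M) := fullToLegE ↥K' M wU with hxUdef
  have hx₀ : x₀ ∈ legWinf ↥(baseRing A K') ↥K' h2 M := hmemOf w₀ hw₀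
  have hxU : xU ∈ legWinf ↥(baseRing A K') ↥K' h2 M := hmemOf wU hwU
  -- the node package
  have hUnode := ssModelLeg_nodeUnit ↥(baseRing A K') ↥K' (M := M) hϖ h2 hbez hq he hu
  have hfr := isFractionRing_chartOne (R := ↥(baseRing A K')) (K₁ := ↥K')
    (E := ↥(legE ↥K' (M * q))) (AdjoinSimple.gen ↥K' (jqNModC ↥K' 2)) h'.j_adjoin
  have hXex : ∀ nd : ChartNode (AdjoinSimple.gen ↥K' (jqNModC ↥K' 2))
      (legWinf ↥(baseRing A K') ↥K' h2 (M * q)) (legW0 ↥(baseRing A K') ↥K' hbez hq)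
      h'.two.chart_le_inf h'.two.chart_le_zero,
      ∃ (X : ↥(legE ↥K' (M * q))) (m : ℕ), IsNodeCoord ϖ hfr
        (sheetIdeal (AdjoinSimple.gen ↥K' (jqNModC ↥K' 2))
          (legWinf ↥(baseRing A K') ↥K' h2 (M * q)) h'.two.chart_le_inf)
        (sheetIdeal (AdjoinSimple.gen ↥K' (jqNModC ↥K' 2))
          (legW0 ↥(baseRing A K') ↥K' hbez hq) h'.two.chart_le_zero) nd.1 X m := by
    intro nd
    obtain ⟨X, m, hX, -⟩ := SSModel.exists_isNodeCoord_gen h' hϖ hUnode nd.1 nd.inf_le nd.zero_le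
    exact ⟨X, m, hX⟩
  choose X m hX using hXex
  have hKex : ∀ nd, ∃ (K : ℤ) (w : ↥(legE ↥K' (M * q))),
      IsUnitIn (locSub (chartOne ↥(baseRing A K') ↥(legE ↥K' (M * q))
        (AdjoinSimple.gen ↥K' (jqNModC ↥K' 2))) nd.1) w ∧
      fullToLegE ↥K' (M * q) (modUnit ↥K' (M * q) q (Dvd.intro_left M rfl)) = w * X nd ^ K ∧
      K * (m nd : ℤ) = ((12 * 1 : ℕ) : ℤ) ∧ 1 ≤ K := fun nd =>
    SSModel.nodeUnit_eq_unit_mul_zpow h' hϖ hUnode nd.1 nd.inf_le nd.zero_le (hX nd)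
  choose K w hw hUw hKm hK1 using hKex
  have hginf : f * (algebraMap ↥(baseRing A K') ↥(legE ↥K' (M * q)) ϖ ^ ainf)⁻¹ ∈
      legWinf ↥(baseRing A K') ↥K' h2 (M * q) :=
    ((isUnitIn_toSubring_iff _).mpr hfinf).1
  have hginf' : (f * (algebraMap ↥(baseRing A K') ↥(legE ↥K' (M * q)) ϖ ^ ainf)⁻¹)⁻¹ ∈
      legWinf ↥(baseRing A K') ↥K' h2 (M * q) :=
    ((isUnitIn_toSubring_iff _).mpr hfinf).2.1
  have hkex : ∀ nd, ∃ k : ℤ, IsNodeFact ↥K' (locSub (chartOne ↥(baseRing A K')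
      ↥(legE ↥K' (M * q)) (AdjoinSimple.gen ↥K' (jqNModC ↥K' 2))) nd.1) r (X nd) f k := fun nd =>
    legE_isNodeFact_of_rat (M * q) A h' hϖ H.le H.h1 nd.1 nd.inf_le nd.zero_le (hX nd) f₀
      H.ne_zero hord H.rat ainf hginf hginf'
  choose k hk using hkex
  have hXu : ∀ nd, IsUnitIn (legWinf ↥(baseRing A K') ↥K' h2 (M * q)).toSubring (X nd) := by
    intro nd
    obtain ⟨L, Y, -, -, -, -, -, -, hXu, -⟩ :=
      SSModel.exists_localPt_node hq he hu h' hϖ nd.1 nd.inf_le nd.zero_le (hX nd)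
    exact hXu
  have hrel : ∀ nd, (r : ℤ) ∣ (12 : ℤ) * k nd - (a0 - ainf) * K nd := by
    intro nd
    have h1 : (r : ℤ) ∣ k nd * (m nd : ℤ) - (a0 - ainf) :=
      SSModel.dvd_node_of_isNodeFactQ h' hϖ hq he hu nd.1 nd.inf_le nd.zero_le (hX nd) (hk nd)
        hfinf hf0
    have hKm' : K nd * (m nd : ℤ) = 12 := by
      rw [hKm nd]; norm_num
    obtain ⟨z, hz⟩ := h1
    refine ⟨K nd * z, ?_⟩
    rw [← hKm']
    linear_combination K nd * hz
  -- the dictionary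
  have hcore := fun Q => SSModel.cong_ord_redQ h' hϖ he hu
    (SSModelLeg.jint ↥(baseRing A K') ↥K' hϖ hmodel) ρ hρ res hres hρR
    (legEtRationalP M q hq2 hqM A hA) h'.jM_mem hr hf hord hUnode
    h'.two.chart_le_inf h'.two.chart_le_zero X k K hXu hk
    (fun nd => ⟨w nd, hw nd, hUw nd⟩) hrel hx₀ hxU hfinf hlink hlinkU Q
  -- translation to `legρ`
  have hWx : legBC M K' x₀ ∈ legWE hA M hq2 := (legBC_mem_legWE_iff hA M K' hq2 _).2 hx₀
  have hWU : legBC M K' xU ∈ legWE hA M hq2 := by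
    rw [hxUdef, legBC_fullToLegE]; exact hW
  have hWj : legBC M K' (legJE ↥K' M) ∈ legWE hA M hq2 := by
    rw [legBC_legJE]; exact legJE_mem_legWE M hA hq2
  have eU : ρ ⟨xU, hxU⟩ = legρ hA M hq2 ⟨fullToLegE Ω M (keyFqBC M K' wU), hW⟩ := by
    rw [hρapp xU hxU hWU]
    congr 1
    exact Subtype.ext (legBC_fullToLegE M K' wU)
  have ej : ρ ⟨legJE ↥K' M, h'.jM_mem⟩ =
      legρ hA M hq2 ⟨legJE Ω M, legJE_mem_legWE M hA hq2⟩ := by
    rw [hρapp _ h'.jM_mem hWj]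
    congr 1
    exact Subtype.ext (legBC_legJE M K')
  -- the sum over the places
  haveI := legEt_principal_red hA M hqM hq2
  have hAWv : (legWinf ↥(baseRing A K') ↥K' h2 (M * q)).valuation
      (legHostA ↥K' M q x₀) = 1 := kp_val_eq_one_of_sub_lt _ hfinf hlink
  have hWv : (legWinf ↥(baseRing A K') ↥K' h2 M).valuation x₀ = 1 :=
    (kp_comap_val_eq_one_iff (legWinf ↥(baseRing A K') ↥K' h2 (M * q))
      (legHostA ↥K' M q : ↥(legE ↥K' M) →+* ↥(legE ↥K' (M * q))) h'.comap_A_inf x₀).mp hAWv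
  have hx₀ne : ρ ⟨x₀, hx₀⟩ ≠ 0 := map_ne_zero_of_valuation_eq_one hx₀ hWv
  unfold legNcDeg
  refine divisor_dvd_mul_degree_filter _ hx₀ne DU (N := 12) ?_ ?_
  · intro Q hQ
    have := (hcore Q).1 (by rw [ej]; exact hQ)
    rwa [eU, ← hDU Q] at this
  · intro Q hQ
    exact (hcore Q).2 (by rw [ej]; exact hQ)

end Cong

section Pos

set_option maxHeartbeats 6400000 in
/-- **[NEW-DELTA], positivity over one base**: the reduction of the node unit is regular at the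
non-cuspidal places of the reduced host of level `M` and has a zero at one of them. -/
theorem legNew_pos (M : ℕ) [NeZero M] (q : ℕ) [NeZero q] [NeZero (M * q)] [Fact q.Prime]
    (hq2 : q ≠ 2) (hqM : ¬ q ∣ M) (A : ValuationSubring Ω) (hA : A.LiesOverPrime q)
    (K' : IntermediateField ℚ Ω) [IsDiscreteValuationRing ↥(baseRing A K')] (hK' : IsBase q K')
    (wU : ↥(keyFq ↥K' M)) (hwU : wU ∈ keyFqWinf ↥(baseRing A K') ↥K' M)
    (hcU : (keyFqWinf ↥(baseRing A K') ↥K' (M * q)).valuation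
      (modUnit ↥K' (M * q) q (Dvd.intro_left M rfl) - keyFqA ↥K' M q wU) < 1)
    (hW : fullToLegE Ω M (keyFqBC M K' wU) ∈ legWE hA M hq2) :
    legρ hA M hq2 ⟨fullToLegE Ω M (keyFqBC M K' wU), hW⟩ ≠ 0 ∧
    ∀ (DU : Divisor (ResidueField ↥A) (legEt hA M hq2)),
      (∀ Q, DU Q = Q.ord (legρ hA M hq2 ⟨fullToLegE Ω M (keyFqBC M K' wU), hW⟩)) →
      0 < legNcDeg hA M hq2 DU := by
  classical
  have hq : q.Prime := Fact.out
  haveI : CharZero ↥(baseRing A K') := charZero_valuationSubring_of_algebraRat _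
  letI := baseToComplex K'
  haveI : IsAlgClosed (ResidueField ↥(baseRing A K')) := hK'.isAlgClosed_residueField hA
  have h2 : IsUnit (2 : ↥(baseRing A K')) := isUnit_ofNat_baseRing hA K' Nat.prime_two hq2
  obtain ⟨x, y, hbez⟩ := exists_bezout_of_prime_of_not_dvd hq hqM
  obtain ⟨ϖ, hϖ⟩ := IsDiscreteValuationRing.exists_irreducible ↥(baseRing A K')
  have hqϖ := natCast_mem_span_uniformizer_baseRing hA K' hϖ
  have hmodel : SSModelLeg ↥(baseRing A K') ↥K' ϖ h2 hbez hq hq2 :=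
    ssModelLeg ↥(baseRing A K') ↥K' hϖ h2 hbez hq hq2 hqϖ
      (geoHyps_legE_baseRing hA M hqM hK' hq2 hϖ)
  haveI : FiniteDimensional ↥(↥K')⟮jqNModC ↥K' 2⟯ ↥(legE ↥K' (M * q)) :=
    finite_legE_adjoin_j ↥K' (M * q)
  have h' := SSModelLeg.ssModel ↥(baseRing A K') ↥K' hmodel
  -- `q = ε ϖ ^ e₁`
  have hq0 : ((q : ℕ) : ↥(baseRing A K')) ≠ 0 := Nat.cast_ne_zero.mpr hq.ne_zero
  obtain ⟨e₁, ε, hqe⟩ := IsDiscreteValuationRing.eq_unit_mul_pow_irreducible hq0 hϖ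
  have he₁ : 1 ≤ e₁ := by
    rcases Nat.eq_zero_or_pos e₁ with h0 | h0
    · exfalso
      rw [h0, pow_zero, mul_one] at hqe
      have hu : IsUnit ((q : ℕ) : ↥(baseRing A K')) := hqe ▸ Units.isUnit _
      obtain ⟨z, hz⟩ := Ideal.mem_span_singleton.mp hqϖ
      rw [hz] at hu
      exact hϖ.not_isUnit (isUnit_of_mul_isUnit_left hu)
    · exact h0
  have hUnode := ssModelLeg_nodeUnit ↥(baseRing A K') ↥K' (M := M) hϖ h2 hbez hq he₁ hqe
  -- the reduction maps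
  obtain ⟨ρ, res, hres, hρ, hρR, hρapp⟩ := legRhoBaseP M q hq2 hqM A hA K' hK' h2
  obtain ⟨ι, hker, hιA, hιR⟩ := SSModel.exists_redInf h' ρ hρ res hρR
  have hjW : algebraMap ↥(↥K')⟮jqNModC ↥K' 2⟯ ↥(legE ↥K' (M * q))
      (AdjoinSimple.gen ↥K' (jqNModC ↥K' 2)) ∈ legWinf ↥(baseRing A K') ↥K' h2 (M * q) :=
    h'.two.chart_le_inf _ (algebraMap_coord_mem_chartOne _)
  have hιjeq : ι ⟨_, hjW⟩ = ρ ⟨legJE ↥K' M, h'.jM_mem⟩ :=
    hιA ⟨_, hjW⟩ ⟨legJE ↥K' M, h'.jM_mem⟩ (by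
      show (legWinf ↥(baseRing A K') ↥K' h2 (M * q)).valuation
        (algebraMap ↥(↥K')⟮jqNModC ↥K' 2⟯ ↥(legE ↥K' (M * q))
          (AdjoinSimple.gen ↥K' (jqNModC ↥K' 2)) -
          (legHostA ↥K' M q : ↥(legE ↥K' M) →+* ↥(legE ↥K' (M * q))) (legJE ↥K' M)) < 1
      rw [h'.A_j, sub_self, map_zero]; exact zero_lt_one)
  have hWj : legBC M K' (legJE ↥K' M) ∈ legWE hA M hq2 := by
    rw [legBC_legJE]; exact legJE_mem_legWE M hA hq2
  have ej : ρ ⟨legJE ↥K' M, h'.jM_mem⟩ =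
      legρ hA M hq2 ⟨legJE Ω M, legJE_mem_legWE M hA hq2⟩ := by
    rw [hρapp _ h'.jM_mem hWj]
    congr 1
    exact Subtype.ext (legBC_legJE M K')
  -- the lift of the node unit
  set xU : ↥(legE ↥K' M) := fullToLegE ↥K' M wU with hxUdef
  have hxU : xU ∈ legWinf ↥(baseRing A K') ↥K' h2 M :=
    (ValuationSubring.valuation_le_one_iff _ _).mp
      ((redDict_val_le_one_iff M K' h2 wU).mpr ((mem_keyFqWinf_iff _ _ _ wU).mp hwU))
  have hlinkU : (legWinf ↥(baseRing A K') ↥K' h2 (M * q)).valuation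
      (fullToLegE ↥K' (M * q) (modUnit ↥K' (M * q) q (Dvd.intro_left M rfl)) -
        legHostA ↥K' M q xU) < 1 := by
    have h1 := (comap_val_lt_one_iff
      (fullToLegE ↥K' (M * q) : ↥(keyFq ↥K' (M * q)) →+* ↥(legE ↥K' (M * q)))
      (xport_legWinf_comap ↥(baseRing A K') ↥K' h2 (M * q))
      (modUnit ↥K' (M * q) q (Dvd.intro_left M rfl) - keyFqA ↥K' M q wU)).mpr hcU
    have h2' : (fullToLegE ↥K' (M * q) : ↥(keyFq ↥K' (M * q)) →+* ↥(legE ↥K' (M * q)))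
        (modUnit ↥K' (M * q) q (Dvd.intro_left M rfl) - keyFqA ↥K' M q wU) =
        fullToLegE ↥K' (M * q) (modUnit ↥K' (M * q) q (Dvd.intro_left M rfl)) -
          legHostA ↥K' M q xU := by
      show fullToLegE ↥K' (M * q)
        (modUnit ↥K' (M * q) q (Dvd.intro_left M rfl) - keyFqA ↥K' M q wU) = _
      rw [map_sub, xport_fullToLegE_keyFqA]
    rwa [h2'] at h1
  have hWU : legBC M K' xU ∈ legWE hA M hq2 := by
    rw [hxUdef, legBC_fullToLegE]; exact hW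
  have eU : ι ⟨_, hUnode.mem_inf⟩ =
      legρ hA M hq2 ⟨fullToLegE Ω M (keyFqBC M K' wU), hW⟩ := by
    rw [hιA ⟨_, hUnode.mem_inf⟩ ⟨xU, hxU⟩ hlinkU, hρapp xU hxU hWU]
    congr 1
    exact Subtype.ext (legBC_fullToLegE M K' wU)
  have hUne : legρ hA M hq2 ⟨fullToLegE Ω M (keyFqBC M K' wU), hW⟩ ≠ 0 := by
    rw [← eU]
    exact map_ne_zero_of_valuation_eq_one hUnode.mem_inf
      (valuation_eq_one_of_mem_of_inv_mem hUnode.ne_zero hUnode.mem_inf hUnode.inv_mem_inf)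
  -- regular at the non-cuspidal places
  have hreg : ∀ Q : Place (ResidueField ↥A) (legEt hA M hq2),
      legρ hA M hq2 ⟨legJE Ω M, legJE_mem_legWE M hA hq2⟩ ∈ Q.toValuationSubring →
      0 ≤ Q.ord (legρ hA M hq2 ⟨fullToLegE Ω M (keyFqBC M K' wU), hW⟩) := by
    intro Q hQ
    rw [← eU]
    exact PlaceAux.ord_nonneg_of_mem Q
      (SSModel.nodeUnit_red_mem h' hϖ hker res hιR hUnode Q hjW (by rw [hιjeq, ej]; exact hQ))
  -- a zero at a non-cuspidal place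
  have htV := SSModel.t_mem h'
  have et : algebraMap ↥(↥K')⟮legT ↥K'⟯ ↥(legE ↥K' M) (AdjoinSimple.gen ↥K' (legT ↥K')) =
      (legCoordBase M K').x := Subtype.ext rfl
  have htW : legBC M K' (algebraMap ↥(↥K')⟮legT ↥K'⟯ ↥(legE ↥K' M)
      (AdjoinSimple.gen ↥K' (legT ↥K'))) ∈ legWE hA M hq2 := by
    rw [et, legBC_coord]; exact legCoordBar_x_mem_legWE hA M hq2
  have hρt : ρ ⟨_, htV⟩ = (legCoordRed hA M hqM hq2).x := by
    rw [hρapp _ htV htW]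
    show _ = legρ hA M hq2 ⟨(legCoordBar M).x, legCoordBar_x_mem_legWE hA M hq2⟩
    congr 1
  obtain ⟨Q₀, hQ₀j, hQ₀U⟩ := SSModel.nodeUnit_red_exists_zero_of_coord h' hϖ hker res hres hιR
    ρ hιA (legCoordRed hA M hqM hq2) (legCoordRed_isSeparable hA M hqM hq2) hρt hUnode hjW
  rw [hιjeq, ej] at hQ₀j
  rw [eU] at hQ₀U
  have hQ₀pos : 0 < Q₀.ord (legρ hA M hq2 ⟨fullToLegE Ω M (keyFqBC M K' wU), hW⟩) :=
    (valuation_lt_one_iff_ord_pos Q₀ hUne).mp hQ₀U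
  -- the degree
  refine ⟨hUne, fun DU hDU => ?_⟩
  unfold legNcDeg
  refine divisor_degree_pos (fun v => by rw [legEt_deg_red hA M hqM hq2 v]; exact one_pos) _ ?_ Q₀ ?_
  · intro v
    rw [Finsupp.filter_apply]
    split_ifs with hv
    · rw [hDU v]; exact hreg v hv
    · exact le_rfl
  · rw [Finsupp.filter_apply, if_pos hQ₀j, hDU Q₀]
    exact hQ₀pos

end Pos

section Closing

/-- `p ^ k ∣ δ (p ^ c m)`, `p ∤ m` ⇒ `p ^ k ∣ p ^ c δ`. -/
theorem pow_dvd_pow_mul_of_dvd_mul_h6 {p : ℕ} (hp : p.Prime) {c m : ℕ} (hm : ¬ p ∣ m) (k : ℕ)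
    (δ : ℤ) (h : ((p ^ k : ℕ) : ℤ) ∣ δ * ((p ^ c * m : ℕ) : ℤ)) :
    ((p ^ k : ℕ) : ℤ) ∣ ((p ^ c : ℕ) : ℤ) * δ := by
  have hcop : IsCoprime ((p ^ k : ℕ) : ℤ) ((m : ℕ) : ℤ) :=
    Nat.isCoprime_iff_coprime.mpr
      (Nat.Coprime.pow_left k ((Nat.Prime.coprime_iff_not_dvd hp).mpr hm))
  have h' : ((p ^ k : ℕ) : ℤ) ∣ (((p ^ c : ℕ) : ℤ) * δ) * ((m : ℕ) : ℤ) := by
    have e : δ * ((p ^ c * m : ℕ) : ℤ) = (((p ^ c : ℕ) : ℤ) * δ) * ((m : ℕ) : ℤ) := by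
      push_cast; ring
    rwa [e] at h
  exact hcop.dvd_of_dvd_mul_right h'

set_option maxHeartbeats 1600000 in
/-- **(D2) [NEW-DELTA]** (helper7's literal). -/
theorem legNewDeltaQ : LegNewDeltaQ := by
  intro M _ q _ _ _ hq2 hqM p hp hp5 hpq A hA
  classical
  haveI := legEt_principal_red hA M hqM hq2
  by_cases hex : ∃ (K₀ : IntermediateField ℚ Ω)
      (_ : IsDiscreteValuationRing ↥(baseRing A K₀)), IsBase q K₀
  · obtain ⟨K₀, hdvr, hK₀⟩ := hex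
    haveI := hdvr
    obtain ⟨wU₀, hwU₀, hcU₀⟩ := legNew_exists_wU M q hqM A hA K₀ hK₀
    have hW₀ : fullToLegE Ω M (keyFqBC M K₀ wU₀) ∈ legWE hA M hq2 :=
      redDict_mem_legWE M hA hq2 K₀ wU₀ ((mem_keyFqWinf_iff _ _ _ wU₀).mp hwU₀)
    obtain ⟨hūne, hpos⟩ := legNew_pos M q hq2 hqM A hA K₀ hK₀ wU₀ hwU₀ hcU₀ hW₀
    obtain ⟨DU, hDU, -⟩ := HasPrincipalDivisors.exists_divisor (K := ResidueField ↥A) _ hūne
    have hZ := hpos DU hDU
    obtain ⟨c₀, m, hm, hZm⟩ := Nat.exists_eq_pow_mul_and_not_dvd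
      (Int.natAbs_ne_zero.mpr hZ.ne') p hp.ne_one
    have hZ' : legNcDeg hA M hq2 DU = ((p ^ c₀ * m : ℕ) : ℤ) := by
      rw [← hZm, Int.natCast_natAbs, abs_of_pos hZ]
    refine ⟨c₀, ?_⟩
    intro k K₁ _ K' _ f₀ H ϖ hϖ h2 x y hbez ainf a0 hfinf hf0
    obtain ⟨wU, hwU, hcU⟩ := legNew_exists_wU M q hqM A hA K' H.base
    have hW : fullToLegE Ω M (keyFqBC M K' wU) ∈ legWE hA M hq2 :=
      redDict_mem_legWE M hA hq2 K' wU ((mem_keyFqWinf_iff _ _ _ wU).mp hwU)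
    have huniq := legρ_modUnit_unique M hA hq2 K' K₀ wU hwU hcU wU₀ hwU₀ hcU₀ hW hW₀
    have hDU' : ∀ Q, DU Q = Q.ord (legρ hA M hq2 ⟨fullToLegE Ω M (keyFqBC M K' wU), hW⟩) :=
      fun Q => by rw [huniq]; exact hDU Q
    have hdvd := legNew_cong M q hq2 hqM (pow_ne_zero k hp.ne_zero) A hA K₁ K' f₀ H ϖ hϖ h2
      hbez ainf a0 hfinf hf0 wU hwU hcU hW DU hDU'
    rw [hZ'] at hdvd
    exact pow_dvd_pow_mul_of_dvd_mul_h6 hp hm k _ hdvd
  · refine ⟨0, ?_⟩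
    intro k K₁ _ K' hdvr f₀ H
    exact absurd ⟨K', hdvr, H.base⟩ hex

end Closing

end Fermat.Agent.RB
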