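/-
RB [BB3] = (KEY-H), package G [DESC1] — helper4 — part 1: **the abstract half.**

`F / K` a function field, `s δ : SemilinearAut K F` (the inertia element and the diamond).  In
multiplicative notation `Θ = (s - 1)(s - 1)(s - δ)(s - 1)`:
`thetaFun s δ f = q_{s,1} (q_{s,1} (q_{s,δ} (q_{s,1} f)))`, `q_{a,b} f = a f / b f`, i.e. helper5's
`g₁ = s f / f`, `g₂ = s (s g₁ / δ g₁) / (s g₁ / δ g₁)`, `g₃ = s g₂ / g₂` (`KEYH_helper5_Glue`).

* `IsDivOf.thetaFun` : `div (Θ f) = Θ (div f)`;
* `nsmul_mk_eq_zero_of_pow_eq` : `div G = m E`, `G ^ c = a u ^ m` ⇒ `c • [E] = 0`;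
* `pic0_theta_eq_zero_of_kummer` : a Kummer relation `(Θ f) ^ c = a u ^ m` for ONE representative
  `(D, f)` (`div f = m D`) of a class gives `c • Θ [D] = 0`;
* `theta_end_apply` : the ring-theoretic form `((σ - 1) ^ 3 * (σ - δ) ^ 1) x` in `End`, for commuting
  `σ, δ`;
* `eq_zero_of_nsmul_eq_zero_of_coprime` : removing a factor prime to `p` on `p`-power torsion.
-/
import Mathlib
import Fermat.Agent.S35.TOPF_helper8_Abs
import Fermat.Agent.NP.BASEP_helper2_Pic

set_option autoImplicit false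
set_option linter.unusedSectionVars false
set_option linter.style.haveILetI false

open AlgebraicCurve

noncomputable section

namespace Fermat.Agent.RB.DESC1

open Fermat.Agent.S35 Fermat.Agent.NP Fermat.Agent.SS

section Fun

variable {K F : Type*} [Field K] [Field F] [Algebra K F]

/-- the multiplicative difference `a f / b f`. -/
def quotFun (a b : SemilinearAut K F) (f : F) : F := a • f / b • f

/-- the difference `a D - b D` on divisors. -/
def diffDiv (a b : SemilinearAut K F) : Divisor K F →+ Divisor K F :=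
  DistribSMul.toAddMonoidHom (Divisor K F) a - DistribSMul.toAddMonoidHom (Divisor K F) b

theorem diffDiv_apply (a b : SemilinearAut K F) (D : Divisor K F) :
    diffDiv a b D = a • D - b • D := rfl

/-- the difference on degree-zero divisors. -/
def diffDegZero (a b : SemilinearAut K F) :
    Divisor.degZero (K := K) (F := F) →+ Divisor.degZero (K := K) (F := F) :=
  SemilinearAut.degZeroSMulHom a - SemilinearAut.degZeroSMulHom b

theorem coe_diffDegZero (a b : SemilinearAut K F) (D : Divisor.degZero (K := K) (F := F)) :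
    (diffDegZero a b D : Divisor K F) = diffDiv a b (D : Divisor K F) := rfl

/-- the difference on classes. -/
def diffPic (a b : SemilinearAut K F) (x : Pic0 K F) : Pic0 K F := a • x - b • x

theorem diffPic_mk (a b : SemilinearAut K F) (D : Divisor.degZero (K := K) (F := F)) :
    diffPic a b (Pic0.mk D : Pic0 K F) = Pic0.mk (diffDegZero a b D) := rfl

theorem isDivOf_quotFun (a b : SemilinearAut K F) {f : F} {D : Divisor K F} (h : IsDivOf f D) :
    IsDivOf (quotFun a b f) (diffDiv a b D) :=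
  (h.smul a).div (h.smul b)

/-- **`Θ` on functions.** -/
def thetaFun (s δ : SemilinearAut K F) (f : F) : F :=
  quotFun s 1 (quotFun s 1 (quotFun s δ (quotFun s 1 f)))

/-- `Θ` on divisors. -/
def thetaDiv (s δ : SemilinearAut K F) : Divisor K F →+ Divisor K F :=
  (diffDiv s 1).comp ((diffDiv s 1).comp ((diffDiv s δ).comp (diffDiv s 1)))

/-- `Θ` on degree-zero divisors. -/
def thetaDegZero (s δ : SemilinearAut K F) :
    Divisor.degZero (K := K) (F := F) →+ Divisor.degZero (K := K) (F := F) :=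
  (diffDegZero s 1).comp ((diffDegZero s 1).comp ((diffDegZero s δ).comp (diffDegZero s 1)))

theorem coe_thetaDegZero (s δ : SemilinearAut K F) (D : Divisor.degZero (K := K) (F := F)) :
    (thetaDegZero s δ D : Divisor K F) = thetaDiv s δ (D : Divisor K F) := rfl

/-- **`Θ` on classes.** -/
def thetaPic (s δ : SemilinearAut K F) (x : Pic0 K F) : Pic0 K F :=
  diffPic s 1 (diffPic s 1 (diffPic s δ (diffPic s 1 x)))

theorem thetaPic_mk (s δ : SemilinearAut K F) (D : Divisor.degZero (K := K) (F := F)) :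
    thetaPic s δ (Pic0.mk D : Pic0 K F) = Pic0.mk (thetaDegZero s δ D) := rfl

/-- **`div (Θ f) = Θ (div f)`.** -/
theorem isDivOf_thetaFun (s δ : SemilinearAut K F) {f : F} {D : Divisor K F} (h : IsDivOf f D) :
    IsDivOf (thetaFun s δ f) (thetaDiv s δ D) :=
  isDivOf_quotFun s 1 (isDivOf_quotFun s 1 (isDivOf_quotFun s δ (isDivOf_quotFun s 1 h)))

theorem thetaFun_ne_zero (s δ : SemilinearAut K F) {f : F} (hf : f ≠ 0) : thetaFun s δ f ≠ 0 := by
  have h : ∀ (a b : SemilinearAut K F) {g : F}, g ≠ 0 → quotFun a b g ≠ 0 := by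
    intro a b g hg
    exact div_ne_zero (by simpa using hg) (by simpa using hg)
  exact h _ _ (h _ _ (h _ _ (h _ _ hf)))

/-- **a class `[E]` with `div G = m E` and `G ^ c = a u ^ m` is killed by `c`.** -/
theorem nsmul_mk_eq_zero_of_pow_eq {m c : ℕ} (hm : m ≠ 0)
    (E : Divisor.degZero (K := K) (F := F)) {G : F} (hG : IsDivOf G (m • (E : Divisor K F)))
    (a : K) (u : F) (ha : a ≠ 0) (hu : u ≠ 0) (hH : G ^ c = algebraMap K F a * u ^ m) :
    c • (Pic0.mk E : Pic0 K F) = 0 := by
  have h4 : (c • Pic0.mk E : Pic0 K F) = Pic0.mk (c • E) := rfl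
  rw [h4]
  refine (QuotientAddGroup.eq_zero_iff _).2 ?_
  rw [AddSubgroup.mem_addSubgroupOf]
  refine ⟨u, hu, fun v => ?_⟩
  show ((c • (E : Divisor K F)) : Divisor K F) v = _
  have h1 := (hG.pow c).2 v
  rw [hH, v.ord_mul ((map_ne_zero _).2 ha) (pow_ne_zero m hu),
    place_ord_algebraMap_eq_zero v ha, zero_add] at h1
  have h2 : v.ord (u ^ m) = (m : ℤ) * v.ord u := by
    have := v.ord_zpow u m
    rw [zpow_natCast] at this
    exact this
  rw [h2, smul_comm c m, Finsupp.smul_apply, nsmul_eq_mul] at h1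
  have hm' : (m : ℤ) ≠ 0 := by exact_mod_cast hm
  exact mul_left_cancel₀ hm' h1

/-- **the abstract half of [DESC1]**: a Kummer relation `(Θ f) ^ c = a u ^ m` for ONE
representative `(D, f)` of `x ∈ Pic⁰(F)[m]` gives `c • Θ x = 0`. -/
theorem pic0_theta_eq_zero_of_kummer (s δ : SemilinearAut K F) {m c : ℕ} (hm : m ≠ 0)
    (D : Divisor.degZero (K := K) (F := F)) (f : F) (hf : IsDivOf f (m • (D : Divisor K F)))
    (a : K) (u : F) (ha : a ≠ 0) (hu : u ≠ 0)
    (hH : thetaFun s δ f ^ c = algebraMap K F a * u ^ m) :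
    c • thetaPic s δ (Pic0.mk D : Pic0 K F) = 0 := by
  rw [thetaPic_mk]
  refine nsmul_mk_eq_zero_of_pow_eq hm _ ?_ a u ha hu hH
  have h := isDivOf_thetaFun s δ hf
  rw [map_nsmul] at h
  exact h

end Fun

section End

variable {P : Type*} [AddCommGroup P]

/-- the ring-theoretic form of `Θ`. -/
theorem theta_end_apply (σ δ : AddMonoid.End P) (h : Commute σ δ) (x : P) :
    ((σ - 1) ^ 3 * (σ - δ) ^ 1 : AddMonoid.End P) x =
      (σ - 1 : AddMonoid.End P) ((σ - 1 : AddMonoid.End P) ((σ - δ : AddMonoid.End P)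
        ((σ - 1 : AddMonoid.End P) x))) := by
  have hc : Commute (σ - 1) (σ - δ) :=
    ((Commute.refl σ).sub_right h).sub_left ((Commute.one_left _))
  have e : (σ - 1) ^ 3 * (σ - δ) ^ 1 = (σ - 1) * ((σ - 1) * ((σ - δ) * (σ - 1))) := by
    rw [pow_one, pow_succ, pow_succ, pow_one, mul_assoc, mul_assoc, hc.eq]
  rw [e]
  rfl

/-- removing a factor prime to `p` on `p`-power torsion. -/
theorem eq_zero_of_nsmul_eq_zero_of_coprime {p c n : ℕ} (hcp : Nat.Coprime c p) {y : P}
    (hy : p ^ n • y = 0) (hc : c • y = 0) : y = 0 := by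
  have hcop : Nat.Coprime c (p ^ n) := Nat.Coprime.pow_right n hcp
  have h1 : (Nat.gcd c (p ^ n) : ℤ) = c * Nat.gcdA c (p ^ n) + (p ^ n : ℕ) * Nat.gcdB c (p ^ n) :=
    Nat.gcd_eq_gcd_ab c (p ^ n)
  rw [hcop, Nat.cast_one] at h1
  have h2 : y = (1 : ℤ) • y := (one_smul ℤ y).symm
  rw [h2, h1, add_smul, mul_comm (c : ℤ), mul_comm ((p ^ n : ℕ) : ℤ), mul_smul, mul_smul,
    natCast_zsmul, natCast_zsmul, hc, hy, smul_zero, smul_zero, add_zero]

end End

end Fermat.Agent.RB.DESC1

end
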