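/-
Project RB, package B [FIELD1] (KEY-H) — helper5 — part 3 (B5): **unramifiedness of
`k·F₁ (M' r) 1` over `k·F₁ M' r`, divisibility form, over an algebraically closed `k ⊆ ℂ`.**

If `f ∈ k·F₁ M' r` is an `m`-th power `u ^ m` of an element `u ∈ k·F₁ (M' r) 1`, then
`m ∣ ord_v f` at every place `v` of `k·F₁ M' r` (`dvd_ord_of_pow_eq`), PROVIDED the group
`Gpm M' r` has no elliptic elements (`S • q ≠ q`, `(S T) • q ≠ q` on the cosets) and its parabolic
elements lie in `Gpm (M' r) 1` — the group theory is isolated as hypotheses.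

Proof: by [DICT1] every place is `(finOrdFn τ₀ a _ q).toPlace` or `(cuspOrdFn q).toPlace`; the
realisation of `u` is a single valued meromorphic function on `ℍ`, so the analytic order of
`f = u ^ m` is `m` times the one of `u`; the normalisation factor between the analytic order and
`ord_v` is `1` at finite points (no elliptic points) and `N / w` at a cusp of width `w`, which
divides the analytic order of `u` because the width of the cusp is the same for both groups.
-/
import Fermat.Agent.RB.FIELD1_helper5_Descent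
import Fermat.Agent.W1.RAM1_helper3_Main

set_option autoImplicit false
set_option linter.unusedSectionVars false

open UpperHalfPlane hiding I
open Complex ModularCurve IntermediateField CongruenceSubgroup AlgebraicCurve ModularGroup
open scoped MatrixGroups

namespace Fermat.Agent.RB

open Fermat.Agent.RatStr Fermat.Agent.X0N Fermat.Agent.W1 Fermat.Agent.FF

noncomputable section

section Real

variable {k : Type*} [Field k] [Algebra ℚ k] (ι : k →+* ℂ) (M' r : ℕ)

/-- the realisations at the two levels are compatible: `real f = (real u) ^ m` if `f = u ^ m` as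
Laurent series. -/
theorem realML_eq_pow_of_coe_eq {m : ℕ} (f : ↥(laurentBaseChange k (F₁ M' r)))
    (u : ↥(laurentBaseChange k (F₁ (M' * r) 1)))
    (hfu : (u : LaurentSeries k) ^ m = (f : LaurentSeries k)) :
    realML ι M' r f = (realML ι (M' * r) 1 u) ^ m := by
  rw [← map_pow]
  show merSeries.real ι (inclML ι M' r f) = merSeries.real ι (inclML ι (M' * r) 1 (u ^ m))
  congr 1
  apply Subtype.ext
  show (f : LaurentSeries k) = ((u ^ m : ↥(laurentBaseChange k (F₁ (M' * r) 1))) : LaurentSeries k)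
  rw [SubmonoidClass.coe_pow, hfu]

end Real

section OrdInfPow

variable {h : ℕ} [NeZero h]

theorem isMerInf_pow {x : MerH} (hx : IsMerInf h x) (m : ℕ) : IsMerInf h (x ^ m) := by
  induction m with
  | zero => rw [pow_zero]; exact isMerInf_one
  | succ n ih => rw [pow_succ]; exact ih.mul hx

theorem ordInf_pow' {x : MerH} (hx : IsMerInf h x) (hx0 : x ≠ 0) (m : ℕ) :
    MerH.ordInf h (x ^ m) = m * MerH.ordInf h x := by
  induction m with
  | zero => rw [pow_zero, MerH.ordInf_one]; simp
  | succ n ih =>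
    rw [pow_succ, MerH.ordInf_mul (isMerInf_pow hx n) hx (pow_ne_zero n hx0) hx0, ih]
    push_cast
    ring

end OrdInfPow

section Main

variable {k : Type*} [Field k] [Algebra ℚ k] [Algebra k ℂ] [IsScalarTower ℚ k ℂ]
variable (M' r : ℕ) [NeZero M'] [NeZero r]

/-- at a finite point: the analytic order of `f = u ^ m` is divisible by `m`. -/
theorem dvd_finOrdFn_ord_of_pow {m : ℕ} (f : ↥(laurentBaseChange k (F₁ M' r)))
    (u : ↥(laurentBaseChange k (F₁ (M' * r) 1)))
    (hfu : (u : LaurentSeries k) ^ m = (f : LaurentSeries k))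
    (τ₀ : ℍ) (a : k) (hτ : jFun τ₀ = algebraMap k ℂ a) (q : SL(2, ℤ) ⧸ Gpm M' r) :
    (m : ℤ) ∣ (finOrdFn M' r (algebraMap k ℂ) τ₀ a hτ q).ord f := by
  rw [finOrdFn_ord', realML_eq_pow_of_coe_eq (algebraMap k ℂ) M' r f u hfu, MerH.ordAt_pow]
  exact Dvd.intro _ rfl

/-- at a cusp: the analytic order of `f = u ^ m` is `m` times a multiple of `N / w`. -/
theorem exists_cuspOrdFn_ord_of_pow {m : ℕ} (f : ↥(laurentBaseChange k (F₁ M' r)))
    (u : ↥(laurentBaseChange k (F₁ (M' * r) 1)))
    (hfu : (u : LaurentSeries k) ^ m = (f : LaurentSeries k)) (hf : f ≠ 0)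
    (q : SL(2, ℤ) ⧸ Gpm M' r) {w d : ℕ} (hwd : w * d = M' * r)
    (hT : (Quotient.out q)⁻¹ * T ^ w * Quotient.out q ∈ Gpm (M' * r) 1) :
    ∃ t : ℤ, (W1.cuspOrdFn (algebraMap k ℂ) M' r q).ord f = m * (d * t) := by
  rcases Nat.eq_zero_or_pos m with hm | hm
  · subst hm
    refine ⟨0, ?_⟩
    have hf1 : f = 1 := by
      apply Subtype.ext
      rw [← hfu, pow_zero]
      rfl
    rw [hf1, OrdFn.ord_one]
    simp
  set y' := realML (algebraMap k ℂ) (M' * r) 1 u with hy'
  have hmod : IsModFun (Gpm (M' * r) 1) y' := isModFun_realML (algebraMap k ℂ) u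
  set Y := MerH.comp (Quotient.out q)⁻¹ y' with hY
  have hTN : T ^ (M' * r) ∈ (Gpm (M' * r) 1).normalCore := by
    have := T_pow_mem_normalCore (M' * r) 1
    rwa [mul_one] at this
  have hYmod : IsModFun (Gpm (M' * r) 1).normalCore Y :=
    (hmod.mono (Subgroup.normalCore_le _)).comp _
  have hYmer : IsMerInf (M' * r) Y := hYmod.isMerInf hTN
  have hu0 : u ≠ 0 := by
    rintro rfl
    apply hf
    apply Subtype.ext
    rw [← hfu, ZeroMemClass.coe_zero, zero_pow hm.ne', ZeroMemClass.coe_zero]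
  have hy0 : y' ≠ 0 := (map_ne_zero _).mpr hu0
  have hY0 : Y ≠ 0 := (map_ne_zero _).mpr hy0
  have hinv : MerH.comp (T ^ w) Y = Y := by
    rw [hY, ← MerH.comp_mul]
    have e : (Quotient.out q)⁻¹ * T ^ w =
        ((Quotient.out q)⁻¹ * T ^ w * Quotient.out q) * (Quotient.out q)⁻¹ := by group
    rw [e, MerH.comp_mul, hmod.comp_of_mem hT]
  obtain ⟨t, ht⟩ := MerH.dvd_ordInf_of_comp_eq hYmer hwd hinv
  refine ⟨t, ?_⟩
  rw [W1.cuspOrdFn_ord, realML_eq_pow_of_coe_eq (algebraMap k ℂ) M' r f u hfu]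
  have e2 : conjM (Gpm M' r) (y' ^ m) q = Y ^ m := by
    show MerH.comp (Quotient.out q)⁻¹ (y' ^ m) = Y ^ m
    rw [map_pow]
  rw [e2, ordInf_pow' hYmer hY0, ht]

end Main

section Places

variable {k : Type*} [Field k] [Algebra ℚ k] [Algebra k ℂ] [IsScalarTower ℚ k ℂ]

/-- if the value of the analytic order at `x` is at most the normalised one, the two orders
agree up to the factor `1`: divisibility passes to the place. -/
theorem dvd_toPlace_ord_of_le {F : Type*} [Field F] [Algebra k F] (o : OrdFn k F) {x f : F}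
    (hx : x ≠ 0) (hf : f ≠ 0) {E : ℤ} (hE : o.ord x = E) (hE0 : 0 < E)
    (hle : E ≤ o.toPlace.ord x) {m : ℕ} (hm : (m : ℤ) ∣ o.ord f) : (m : ℤ) ∣ o.toPlace.ord f := by
  obtain ⟨m₀, hm₀, hom⟩ := o.exists_ord_eq_mul
  have h1 := hom x hx
  rw [hE] at h1
  have hpos : 0 < o.toPlace.ord x := by
    by_contra hneg
    have : m₀ * o.toPlace.ord x ≤ 0 := mul_nonpos_of_nonneg_of_nonpos hm₀.le (not_lt.mp hneg)
    omega
  have hm1 : m₀ = 1 := by
    by_contra hne
    have h2 : 2 ≤ m₀ := by omega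
    have : 2 * o.toPlace.ord x ≤ m₀ * o.toPlace.ord x :=
      mul_le_mul_of_nonneg_right h2 hpos.le
    omega
  have h3 := hom f hf
  rw [hm1, one_mul] at h3
  rwa [← h3]

variable [CharZero k] [IsAlgClosed k]
variable (M' r : ℕ) [NeZero M'] [NeZero r]

/-- **(B5, algebraically closed constants)** if `f ∈ k·F₁ M' r` is the `m`-th power of an element
of `k·F₁ (M' r) 1`, then `m` divides the order of `f` at every place of `k·F₁ M' r`, provided
`Gpm M' r` has no elliptic elements and its parabolic elements lie in `Gpm (M' r) 1`. -/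
theorem dvd_ord_of_pow_eq (hM' : M' ≠ 1)
    (hS : ∀ q : SL(2, ℤ) ⧸ Gpm M' r, S • q ≠ q)
    (hST : ∀ q : SL(2, ℤ) ⧸ Gpm M' r, (S * T) • q ≠ q)
    (hT : ∀ (q : SL(2, ℤ) ⧸ Gpm M' r) (w : ℕ), T ^ w • q = q →
      (Quotient.out q)⁻¹ * T ^ w * Quotient.out q ∈ Gpm (M' * r) 1)
    {m : ℕ} (f : ↥(laurentBaseChange k (F₁ M' r))) (hf : f ≠ 0)
    (u : ↥(laurentBaseChange k (F₁ (M' * r) 1)))
    (hfu : (u : LaurentSeries k) ^ m = (f : LaurentSeries k))
    (v : Place k ↥(laurentBaseChange k (F₁ M' r))) : (m : ℤ) ∣ v.ord f := by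
  classical
  set c := jCoordOf k M' r hM' with hc
  have hcx : c.x = jK k M' r := rfl
  have hX : Nat.card (SL(2, ℤ) ⧸ Gpm M' r) = c.degree := by
    rw [hc, jCoordOf_degree]
    rfl
  rcases c.mem_poles_or_exists_mem_zeros v with hv | ⟨a, hv⟩
  · -- a cusp
    have hcx' : c.x = jB (k := k) M' r := (jB_eq_jK M' r).symm
    obtain ⟨-, h2, -, h4⟩ := poles_jB_squeeze M' r c hcx' hX.symm
    obtain ⟨q, rfl⟩ := h4 v hv
    obtain ⟨m₀, hm₀, hom⟩ := (W1.cuspOrdFn (algebraMap k ℂ) M' r q).exists_ord_eq_mul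
    have hwdvd : MulAction.period T q ∣ M' * r := period_T_dvd M' r q
    obtain ⟨d, hd⟩ := hwdvd
    have hw : T ^ MulAction.period T q • q = q := MulAction.pow_period_smul T q
    obtain ⟨t, ht⟩ := exists_cuspOrdFn_ord_of_pow M' r f u hfu hf q hd.symm (hT q _ hw)
    have hj : (W1.cuspOrdFn (algebraMap k ℂ) M' r q).ord (jK k M' r) = -((M' * r : ℕ) : ℤ) :=
      W1.cuspOrdFn_ord_jK _ _ _ q
    have h2q := h2 q
    rw [W1.card_orbit_T_eq_period, hcx] at h2q
    have h5 := hom (jK k M' r) (jK_ne_zero (algebraMap k ℂ) M' r)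
    rw [hj] at h5
    -- `M' r = m₀ * w`
    have h6 : ((M' * r : ℕ) : ℤ) = m₀ * (MulAction.period T q : ℤ) := by
      rw [← h2q]
      linarith
    have hwpos : (0 : ℤ) < (MulAction.period T q : ℤ) := by
      have hN : (0 : ℤ) < ((M' * r : ℕ) : ℤ) := by exact_mod_cast NeZero.pos (M' * r)
      by_contra hneg
      have : m₀ * (MulAction.period T q : ℤ) ≤ 0 :=
        mul_nonpos_of_nonneg_of_nonpos hm₀.le (not_lt.mp hneg)
      omega
    have h7 : m₀ = (d : ℤ) := by
      have h8 : ((M' * r : ℕ) : ℤ) = (MulAction.period T q : ℤ) * (d : ℤ) := by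
        rw [hd]; push_cast; ring
      rw [h8, mul_comm m₀] at h6
      exact (mul_left_cancel₀ hwpos.ne' h6).symm
    have h9 := hom f hf
    rw [ht, h7] at h9
    have hdpos : (d : ℤ) ≠ 0 := by rw [← h7]; exact hm₀.ne'
    refine ⟨t, ?_⟩
    have h10 : (d : ℤ) * ((W1.cuspOrdFn (algebraMap k ℂ) M' r q).toPlace.ord f) =
        (d : ℤ) * ((m : ℤ) * t) := by rw [← h9]; ring
    exact mul_left_cancel₀ hdpos h10
  · -- a finite point
    by_cases h0 : a = 0
    · subst h0
      obtain ⟨-, h2, -, h4⟩ := fin_squeeze_zero (algebraMap k ℂ) c hcx hX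
        (fun f hf0 hf => finPt_isIntegral M' r c hcx 0 rhoH _ f hf0 hf)
      obtain ⟨q, rfl⟩ := h4 v hv
      have hq := hST q
      have hcard : (3 : ℤ) ≤ Nat.card {q' // MulAction.orbitRel (Subgroup.zpowers (S * T))
          (SL(2, ℤ) ⧸ Gpm M' r) q' q} := by
        have h1 := smul_orbitRel_zpowers (X := SL(2, ℤ) ⧸ Gpm M' r) (S * T) 1 q
        have h2' := smul_orbitRel_zpowers (X := SL(2, ℤ) ⧸ Gpm M' r) (S * T) 2 q
        rw [zpow_one] at h1
        have h2'' : ((S * T) ^ (2 : ℤ)) • q = (S * T) • (S * T) • q := by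
          rw [← mul_smul]; congr 1
          exact zpow_two (S * T)
        rw [h2''] at h2'
        have hne2 : (S * T) • (S * T) • q ≠ q := by
          intro h
          apply hq
          have h3 : ((S * T) ^ 3) • q = (S * T) • q := by
            have e : (S * T) ^ 3 = (S * T) * ((S * T) * (S * T)) := by
              rw [pow_succ', pow_two]
            rw [e, mul_smul (S * T) ((S * T) * (S * T)), mul_smul (S * T) (S * T), h]
          rw [ST_cube, neg_one_smul_coset_Gpm] at h3
          exact h3.symm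
        have hne12 : (S * T) • q ≠ (S * T) • (S * T) • q := by
          intro h
          exact hq (smul_left_cancel _ h).symm
        have := finPt_three_le_card_class _ h1 h2' hq hne2 hne12
        exact_mod_cast this
      refine dvd_toPlace_ord_of_le _ (c.x_sub_ne_zero 0) hf
        (E := 3) ?_ (by norm_num) ?_
        (dvd_finOrdFn_ord_of_pow M' r f u hfu rhoH 0 _ q)
      · rw [hcx, finOrdFn_ord_jGen_sub, if_pos (map_zero _)]
      · rw [h2 q]; exact hcard
    by_cases h1 : a = 1728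
    · subst h1
      obtain ⟨-, h2, -, h4⟩ := fin_squeeze_1728 (algebraMap k ℂ) c hcx hX
        (fun f hf0 hf => finPt_isIntegral M' r c hcx 1728 UpperHalfPlane.I _ f hf0 hf)
      obtain ⟨q, rfl⟩ := h4 v hv
      have hq := hS q
      have hcard : (2 : ℤ) ≤ Nat.card {q' // MulAction.orbitRel (Subgroup.zpowers S)
          (SL(2, ℤ) ⧸ Gpm M' r) q' q} := by
        have h1 := smul_orbitRel_zpowers (X := SL(2, ℤ) ⧸ Gpm M' r) S 1 q
        rw [zpow_one] at h1
        have := finPt_two_le_card_class _ h1 hq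
        exact_mod_cast this
      have hι0 : algebraMap k ℂ 1728 ≠ 0 := by rw [map_ofNat]; norm_num
      refine dvd_toPlace_ord_of_le _ (c.x_sub_ne_zero 1728) hf
        (E := 2) ?_ (by norm_num) ?_
        (dvd_finOrdFn_ord_of_pow M' r f u hfu UpperHalfPlane.I 1728 _ q)
      · rw [hcx, finOrdFn_ord_jGen_sub, if_neg hι0, if_pos (map_ofNat _ 1728)]
      · rw [h2 q]; exact hcard
    · obtain ⟨τ₀, hτ⟩ := exists_jFun_eq (algebraMap k ℂ a)
      obtain ⟨-, h2, -, h4⟩ := fin_squeeze_generic (algebraMap k ℂ) c hcx hX a h0 h1 τ₀ hτ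
        (fun f hf0 hf => finPt_isIntegral M' r c hcx a τ₀ hτ f hf0 hf)
      obtain ⟨q, rfl⟩ := h4 v hv
      have hι0 : algebraMap k ℂ a ≠ 0 := (map_ne_zero_iff _ (algebraMap k ℂ).injective).mpr h0
      have hι1 : algebraMap k ℂ a ≠ 1728 := by
        intro h
        apply h1
        apply (algebraMap k ℂ).injective
        rw [h, map_ofNat]
      refine dvd_toPlace_ord_of_le _ (c.x_sub_ne_zero a) hf
        (E := 1) ?_ (by norm_num) ?_
        (dvd_finOrdFn_ord_of_pow M' r f u hfu τ₀ a hτ q)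
      · rw [hcx, finOrdFn_ord_jGen_sub, if_neg hι0, if_neg hι1]
      · rw [h2 q]

end Places

end

end Fermat.Agent.RB
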