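/-
RB [BB3] = (KEY-H), package B5 [UNRAM] — helper8 — **the group theory**: for `M' ≥ 4` the group
`Gpm M' r = ±(Γ₁(M') ∩ Γ₀(M' r))` has no elliptic elements (no coset fixed by `S` or `S T`), and
for `M' ≥ 5`, `r` a prime not dividing `M'`, every parabolic element `g⁻¹ T^w g` of `Gpm M' r`
already lies in `Gpm (M' r) 1 = ±Γ₁(M' r)` (so the widths of the cusps agree and the covering
`X₁(M' r) → X(Γ₁(M') ∩ Γ₀(M' r))` is unramified).

Imports `W1/Defs_helper9` (+ Mathlib) only.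
-/
import Mathlib
import Fermat.Agent.W1.Defs_helper9

set_option autoImplicit false
set_option linter.unusedSectionVars false
set_option linter.unusedVariables false

open CongruenceSubgroup Matrix

open scoped MatrixGroups

namespace Fermat.Agent.RB

open Fermat.Agent.W1

/-! ### traces -/

/-- the trace of an element of `SL(2, ℤ)`. -/
theorem trace_SL_conj (g γ : SL(2, ℤ)) :
    (g⁻¹ * γ * g : SL(2, ℤ)).val.trace = γ.val.trace := by
  have h1 : (g⁻¹ * γ * g : SL(2, ℤ)).val = g⁻¹.val * γ.val * g.val := by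
    simp only [Matrix.SpecialLinearGroup.coe_mul]
  rw [h1, Matrix.trace_mul_comm, ← mul_assoc]
  have h2 : g.val * g⁻¹.val = 1 := by
    rw [← Matrix.SpecialLinearGroup.coe_mul, mul_inv_cancel, Matrix.SpecialLinearGroup.coe_one]
  rw [h2, one_mul]

theorem trace_SL_eq (γ : SL(2, ℤ)) : γ.val.trace = γ.val 0 0 + γ.val 1 1 :=
  Matrix.trace_fin_two γ.val

/-- `γ ∈ Γ₁(M) ∩ Γ₀(M L)` has trace `≡ 2` modulo `M`. -/
theorem dvd_trace_sub_two_of_mem_GammaML {M L : ℕ} {γ : SL(2, ℤ)} (h : γ ∈ GammaML M L) :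
    (M : ℤ) ∣ γ.val.trace - 2 := by
  obtain ⟨h1, -⟩ := mem_GammaML.mp h
  rw [Gamma1_mem] at h1
  obtain ⟨h00, h11, -⟩ := h1
  rw [trace_SL_eq, ← ZMod.intCast_zmod_eq_zero_iff_dvd]
  push_cast
  rw [h00, h11]
  norm_num

/-- `-γ ∈ Γ₁(M) ∩ Γ₀(M L)` : trace `≡ -2` modulo `M`. -/
theorem dvd_trace_add_two_of_neg_mem_GammaML {M L : ℕ} {γ : SL(2, ℤ)} (h : -γ ∈ GammaML M L) :
    (M : ℤ) ∣ γ.val.trace + 2 := by
  have h1 := dvd_trace_sub_two_of_mem_GammaML h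
  have h2 : (-γ : SL(2, ℤ)).val.trace = -γ.val.trace := by
    rw [trace_SL_eq, trace_SL_eq]
    simp only [Matrix.SpecialLinearGroup.coe_neg, Matrix.neg_apply]
    ring
  rw [h2] at h1
  have : γ.val.trace + 2 = -(-γ.val.trace - 2) := by ring
  rw [this]
  exact (dvd_neg).mpr h1

/-- an element of `Gpm M L` has trace `≡ ±2` modulo `M`. -/
theorem dvd_trace_of_mem_Gpm {M L : ℕ} {γ : SL(2, ℤ)} (h : γ ∈ Gpm M L) :
    (M : ℤ) ∣ γ.val.trace - 2 ∨ (M : ℤ) ∣ γ.val.trace + 2 := by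
  rcases mem_Gpm.mp h with h | h
  · exact Or.inl (dvd_trace_sub_two_of_mem_GammaML h)
  · exact Or.inr (dvd_trace_add_two_of_neg_mem_GammaML h)

theorem trace_S : (ModularGroup.S : SL(2, ℤ)).val.trace = 0 := by
  rw [trace_SL_eq]
  simp [ModularGroup.S]

theorem trace_ST : (ModularGroup.S * ModularGroup.T : SL(2, ℤ)).val.trace = 1 := by
  rw [trace_SL_eq]
  simp [ModularGroup.S, ModularGroup.T, Matrix.mul_apply, Fin.sum_univ_two]

theorem trace_T_pow (w : ℕ) : (ModularGroup.T ^ w : SL(2, ℤ)).val.trace = 2 := by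
  rw [trace_SL_eq, ← zpow_natCast, ModularGroup.coe_T_zpow]
  simp

/-! ### fixed cosets -/

/-- a coset fixed by `γ` gives a conjugate of `γ` in the subgroup. -/
theorem conj_mem_of_smul_coset_eq {H : Subgroup SL(2, ℤ)} (γ g : SL(2, ℤ))
    (h : γ • (QuotientGroup.mk g : SL(2, ℤ) ⧸ H) = QuotientGroup.mk g) :
    g⁻¹ * γ * g ∈ H := by
  have h1 : γ • (QuotientGroup.mk g : SL(2, ℤ) ⧸ H) = QuotientGroup.mk (γ * g) := rfl
  rw [h1, eq_comm, QuotientGroup.eq] at h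
  rwa [mul_assoc]

/-- **(GT-a), `S`:** for `M' ≥ 3` (in particular `M' ≥ 4`) no coset of `Gpm M' r` is fixed by
`S`. -/
theorem S_smul_coset_ne (M' r : ℕ) (hM' : 4 ≤ M') (q : SL(2, ℤ) ⧸ Gpm M' r) :
    ModularGroup.S • q ≠ q := by
  induction q using QuotientGroup.induction_on with
  | H g =>
    intro h
    have h1 := dvd_trace_of_mem_Gpm (conj_mem_of_smul_coset_eq _ g h)
    rw [trace_SL_conj, trace_S] at h1
    rcases h1 with h1 | h1
    · have := Int.le_of_dvd (by norm_num) ((dvd_neg).mp (by simpa using h1) : (M' : ℤ) ∣ 2)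
      omega
    · have := Int.le_of_dvd (by norm_num) (by simpa using h1 : (M' : ℤ) ∣ 2)
      omega

/-- **(GT-a), `S T`:** for `M' ≥ 4` no coset of `Gpm M' r` is fixed by `S T`. -/
theorem ST_smul_coset_ne (M' r : ℕ) (hM' : 4 ≤ M') (q : SL(2, ℤ) ⧸ Gpm M' r) :
    (ModularGroup.S * ModularGroup.T) • q ≠ q := by
  induction q using QuotientGroup.induction_on with
  | H g =>
    intro h
    have h1 := dvd_trace_of_mem_Gpm (conj_mem_of_smul_coset_eq _ g h)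
    rw [trace_SL_conj, trace_ST] at h1
    rcases h1 with h1 | h1
    · have h2 : (M' : ℤ) ∣ 1 := (dvd_neg).mp (by simpa using h1)
      have := Int.le_of_dvd (by norm_num) h2
      omega
    · have h2 : (M' : ℤ) ∣ 3 := by simpa using h1
      have := Int.le_of_dvd (by norm_num) h2
      omega

/-! ### parabolic elements -/

/-- a matrix of `SL(2, ℤ)` of trace `2` with `r ∣ c` (`r` prime) has `a ≡ d ≡ 1 (r)`. -/
theorem dvd_sub_one_of_trace_eq_two {r : ℕ} (hr : r.Prime) {γ : SL(2, ℤ)}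
    (htr : γ.val.trace = 2) (hc : (r : ℤ) ∣ γ.val 1 0) :
    (r : ℤ) ∣ γ.val 0 0 - 1 ∧ (r : ℤ) ∣ γ.val 1 1 - 1 := by
  have hdet : γ.val 0 0 * γ.val 1 1 - γ.val 0 1 * γ.val 1 0 = 1 := by
    have := γ.det_coe
    rwa [Matrix.det_fin_two] at this
  rw [trace_SL_eq] at htr
  have hd : γ.val 1 1 = 2 - γ.val 0 0 := by linarith
  have hsq : (γ.val 0 0 - 1) ^ 2 = -(γ.val 0 1 * γ.val 1 0) := by
    rw [hd] at hdet
    linear_combination -hdet
  have hp : Prime (r : ℤ) := Nat.prime_iff_prime_int.mp hr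
  have h1 : (r : ℤ) ∣ (γ.val 0 0 - 1) ^ 2 := by
    rw [hsq]
    exact (dvd_neg).mpr (Dvd.dvd.mul_left hc _)
  have h2 : (r : ℤ) ∣ γ.val 0 0 - 1 := hp.dvd_of_dvd_pow h1
  refine ⟨h2, ?_⟩
  have : γ.val 1 1 - 1 = -(γ.val 0 0 - 1) := by rw [hd]; ring
  rw [this]
  exact (dvd_neg).mpr h2

/-- membership in `Γ₁(M) ∩ Γ₀(M L)` in terms of divisibilities. -/
theorem mem_GammaML_iff_dvd {M L : ℕ} {γ : SL(2, ℤ)} :
    γ ∈ GammaML M L ↔ (M : ℤ) ∣ γ.val 0 0 - 1 ∧ (M : ℤ) ∣ γ.val 1 1 - 1 ∧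
      ((M * L : ℕ) : ℤ) ∣ γ.val 1 0 := by
  rw [mem_GammaML, Gamma1_mem, Gamma0_mem]
  constructor
  · rintro ⟨⟨h00, h11, -⟩, h10⟩
    refine ⟨?_, ?_, ?_⟩
    · rw [← ZMod.intCast_zmod_eq_zero_iff_dvd]
      push_cast
      rw [h00, sub_self]
    · rw [← ZMod.intCast_zmod_eq_zero_iff_dvd]
      push_cast
      rw [h11, sub_self]
    · rwa [← ZMod.intCast_zmod_eq_zero_iff_dvd]
  · rintro ⟨h00, h11, h10⟩
    have h10' : ((γ.val 1 0 : ℤ) : ZMod (M * L)) = 0 :=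
      (ZMod.intCast_zmod_eq_zero_iff_dvd _ _).mpr h10
    refine ⟨⟨?_, ?_, ?_⟩, h10'⟩
    · have := (ZMod.intCast_zmod_eq_zero_iff_dvd _ _).mpr h00
      push_cast at this
      exact sub_eq_zero.mp this
    · have := (ZMod.intCast_zmod_eq_zero_iff_dvd _ _).mpr h11
      push_cast at this
      exact sub_eq_zero.mp this
    · have h : (M : ℤ) ∣ γ.val 1 0 := by
        refine Dvd.dvd.trans ?_ h10
        exact_mod_cast Dvd.intro L rfl
      exact (ZMod.intCast_zmod_eq_zero_iff_dvd _ _).mpr h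

/-- **(GT-b):** for `M' ≥ 5`, `r` a prime not dividing `M'`, a parabolic element `g⁻¹ T^w g` of
`Gpm M' r` lies in `Gpm (M' r) 1`. -/
theorem conj_T_pow_mem_Gpm_raise (M' r : ℕ) (hM' : 5 ≤ M') (hr : r.Prime)
    (hcop : Nat.Coprime M' r) (g : SL(2, ℤ)) (w : ℕ)
    (h : g⁻¹ * ModularGroup.T ^ w * g ∈ Gpm M' r) :
    g⁻¹ * ModularGroup.T ^ w * g ∈ Gpm (M' * r) 1 := by
  set γ : SL(2, ℤ) := g⁻¹ * ModularGroup.T ^ w * g with hγ
  have htr : γ.val.trace = 2 := by rw [hγ, trace_SL_conj, trace_T_pow]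
  rcases mem_Gpm.mp h with h | h
  · -- `γ ∈ Γ₁(M') ∩ Γ₀(M' r)`
    obtain ⟨h00, h11, h10⟩ := mem_GammaML_iff_dvd.mp h
    have hrc : (r : ℤ) ∣ γ.val 1 0 := by
      refine Dvd.dvd.trans ?_ h10
      exact_mod_cast Dvd.intro_left M' rfl
    obtain ⟨hr00, hr11⟩ := dvd_sub_one_of_trace_eq_two hr htr hrc
    have hcop' : IsCoprime (M' : ℤ) (r : ℤ) := Nat.isCoprime_iff_coprime.mpr hcop
    refine Or.inl (mem_GammaML_iff_dvd.mpr ⟨?_, ?_, ?_⟩)
    · push_cast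
      exact hcop'.mul_dvd h00 hr00
    · push_cast
      exact hcop'.mul_dvd h11 hr11
    · rwa [mul_one]
  · -- `-γ ∈ Γ₁(M')`: impossible, `M' ∣ 4`
    exfalso
    have h1 := dvd_trace_add_two_of_neg_mem_GammaML h
    rw [htr] at h1
    have h2 : (M' : ℤ) ∣ 4 := by simpa using h1
    have := Int.le_of_dvd (by norm_num) h2
    omega

/-- **(GT-b), coset form:** if `T^w` fixes the coset `q` of `Gpm M' r`, the conjugate of `T^w` by
a representative of `q` lies in `Gpm (M' r) 1`. -/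
theorem out_conj_T_pow_mem_Gpm_raise (M' r : ℕ) (hM' : 5 ≤ M') (hr : r.Prime)
    (hcop : Nat.Coprime M' r) (q : SL(2, ℤ) ⧸ Gpm M' r) (w : ℕ)
    (hq : ModularGroup.T ^ w • q = q) :
    (Quotient.out q)⁻¹ * ModularGroup.T ^ w * Quotient.out q ∈ Gpm (M' * r) 1 := by
  refine conj_T_pow_mem_Gpm_raise M' r hM' hr hcop _ w ?_
  apply conj_mem_of_smul_coset_eq
  have hout : (QuotientGroup.mk (Quotient.out q) : SL(2, ℤ) ⧸ Gpm M' r) = q :=
    QuotientGroup.out_eq' q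
  rw [hout]
  exact hq

/-- (GT-b) for an arbitrary representative. -/
theorem conj_T_pow_mem_Gpm_raise_of_smul_eq (M' r : ℕ) (hM' : 5 ≤ M') (hr : r.Prime)
    (hcop : Nat.Coprime M' r) (g : SL(2, ℤ)) (w : ℕ)
    (hq : ModularGroup.T ^ w • (QuotientGroup.mk g : SL(2, ℤ) ⧸ Gpm M' r) = QuotientGroup.mk g) :
    g⁻¹ * ModularGroup.T ^ w * g ∈ Gpm (M' * r) 1 :=
  conj_T_pow_mem_Gpm_raise M' r hM' hr hcop g w (conj_mem_of_smul_coset_eq _ g hq)

end Fermat.Agent.RB
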