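/-
Project RB, package B [FIELD1] (KEY-H) — helper5 — part 4 (B5b): **unramifiedness of
`K·F₁ (M' r) 1` over `K·F₁ M' r`, divisibility form, over an arbitrary base `K`** (algebraic
sub-extension of an algebraically closed `Ω ⊆ ℂ`), with the group theory of helper8 plugged in.

`dvd_ord_of_pow_eq_base`: `5 ≤ M'`, `r` prime, `(M', r) = 1`; if `f ∈ K·F₁ M' r` (nonzero) is
`u ^ m` for some `u ∈ K·F₁ (M' r) 1` (as Laurent series), then `m ∣ ord_P f` at EVERY place `P` of
`K·F₁ M' r / K`.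

Proof: constant field extensions are unramified (`JA.exists_place_ord_bcHom`), so the statement
descends from `Ω`, where it is `dvd_ord_of_pow_eq`.
-/
import Fermat.Agent.RB.FIELD1_helper5_Unram
import Fermat.Agent.RB.UNRAM_helper8_Group
import Fermat.Agent.JA.BC_helper9_Main

set_option autoImplicit false
set_option linter.unusedSectionVars false

open ModularCurve IntermediateField AlgebraicCurve
open scoped MatrixGroups

namespace Fermat.Agent.RB

open Fermat.Agent.X0N Fermat.Agent.W1 Fermat.Agent.JA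

noncomputable section

/-- **(B5), over an algebraically closed `k ⊆ ℂ`, group theory discharged.** -/
theorem dvd_ord_of_pow_eq_closed {k : Type*} [Field k] [Algebra ℚ k] [Algebra k ℂ]
    [IsScalarTower ℚ k ℂ] [CharZero k] [IsAlgClosed k] (M' r : ℕ) [NeZero M'] [NeZero r]
    (hM' : 5 ≤ M') (hr : r.Prime) (hcop : Nat.Coprime M' r) {m : ℕ}
    (f : ↥(laurentBaseChange k (F₁ M' r))) (hf : f ≠ 0)
    (u : ↥(laurentBaseChange k (F₁ (M' * r) 1)))
    (hfu : (u : LaurentSeries k) ^ m = (f : LaurentSeries k))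
    (v : Place k ↥(laurentBaseChange k (F₁ M' r))) : (m : ℤ) ∣ v.ord f :=
  dvd_ord_of_pow_eq M' r (by omega) (S_smul_coset_ne M' r (by omega))
    (ST_smul_coset_ne M' r (by omega))
    (fun q w hq => out_conj_T_pow_mem_Gpm_raise M' r hM' hr hcop q w hq) f hf u hfu v

/-- **(B5), over an arbitrary base `K`** algebraic under an algebraically closed `Ω ⊆ ℂ`. -/
theorem dvd_ord_of_pow_eq_base {K : Type*} [Field K] [Algebra ℚ K]
    (Ω : Type*) [Field Ω] [Algebra ℚ Ω] [Algebra Ω ℂ] [IsScalarTower ℚ Ω ℂ] [CharZero Ω]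
    [IsAlgClosed Ω] [Algebra K Ω] [IsScalarTower ℚ K Ω] [Algebra.IsAlgebraic K Ω]
    (M' r : ℕ) [NeZero M'] [NeZero r]
    (hM' : 5 ≤ M') (hr : r.Prime) (hcop : Nat.Coprime M' r) {m : ℕ}
    (f : ↥(laurentBaseChange K (F₁ M' r))) (hf : f ≠ 0)
    (u : ↥(laurentBaseChange K (F₁ (M' * r) 1)))
    (hfu : (u : LaurentSeries K) ^ m = (f : LaurentSeries K))
    (P : Place K ↥(laurentBaseChange K (F₁ M' r))) : (m : ℤ) ∣ P.ord f := by
  obtain ⟨v, hv⟩ := exists_place_ord_bcHom (L := Ω) (F₁ M' r) P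
  rw [← hv f]
  refine dvd_ord_of_pow_eq_closed M' r hM' hr hcop (bcHom (L := Ω) (F₁ M' r) f) ?_
    (bcHom (L := Ω) (F₁ (M' * r) 1) u) ?_ v
  · exact (map_ne_zero (bcHom (L := Ω) (F₁ M' r))).2 hf
  · rw [coe_bcHom, coe_bcHom, ← map_pow, hfu]

end

end Fermat.Agent.RB
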