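/-
Project RB, package B [FIELD1] (KEY-H) — helper5 — part 1: **descent and level raising for the
fields `F₁ M L`**.

* `mem_laurentBaseChange_F₁_of_iota_mem`: a series `z ∈ k((q))` (`k ⊆ ℂ`) whose base change to
  `ℂ((q))` lies in `ℂ·F₁ M L` already lies in `k·F₁ M L`;
* `mem_F₁C_of_isModFun`: a meromorphic series over `ℂ` whose realisation is a modular function
  for `Gpm M L` lies in `ℂ·F₁ M L`;
* `laurentBaseChange_F₁_raise_le`: `k·F₁ M' r ≤ k·F₁ (M' r) 1` (the function field of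
  `Γ₁(M') ∩ Γ₀(M' r)` is contained in the one of `Γ₁(M' r)`), and `F₁_raise_le` over `ℚ`.
-/
import Fermat.Agent.W1.DEG1_helper9_Galois
import Fermat.Agent.Igusa.A_helper2_Bridge

set_option autoImplicit false

open UpperHalfPlane hiding I
open Complex ModularCurve IntermediateField CongruenceSubgroup
open scoped MatrixGroups

namespace Fermat.Agent.RB

open Fermat.Agent.RatStr Fermat.Agent.X0N Fermat.Agent.W1

noncomputable section

section Descent

variable (M L : ℕ) [NeZero M] [NeZero L]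
variable {k : Type*} [Field k] [Algebra ℚ k] [Algebra k ℂ] [IsScalarTower ℚ k ℂ]

/-- **Descent for `F₁ M L`**: a series over `k ⊆ ℂ` whose base change to `ℂ` lies in `ℂ·F₁ M L`
lies in `k·F₁ M L`. -/
theorem mem_laurentBaseChange_F₁_of_iota_mem (hM : M ≠ 1) {z : LaurentSeries k}
    (hz : iota k ℂ z ∈ laurentBaseChange ℂ (F₁ M L)) : z ∈ laurentBaseChange k (F₁ M L) := by
  obtain ⟨c, hc⟩ := exists_linearIndependent_pow_tPrim M L hM
  exact mem_laurentBaseChange_of_iota_mem_of_bounds (K := k) (L := ℂ) (F₁ M L)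
    (jq_mem_F₁ M L) transcendental_jq (tPrim_mem_F₁ M L hM c) _
    (card_le_index_of_linearIndependent_laurentML M L hM) hc hz

/-- a meromorphic series over `ℂ` whose realisation is a modular function for `Gpm M L` lies in
`ℂ·F₁ M L`. -/
theorem mem_F₁C_of_isModFun (hM : M ≠ 1) {x : LaurentSeries ℂ}
    (hx : x ∈ merSeries (RingHom.id ℂ))
    (hmod : IsModFun (Gpm M L) (merSeries.real (RingHom.id ℂ) ⟨x, hx⟩)) :
    x ∈ laurentBaseChange ℂ (F₁ M L) := by
  obtain ⟨z, hz⟩ := exists_realML_eq_of_isModFun M L hM hmod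
  have h1 : inclML (RingHom.id ℂ) M L z = ⟨x, hx⟩ :=
    merSeries.real_injective (RingHom.id ℂ) hz
  have h2 : (z : LaurentSeries ℂ) = x := congrArg Subtype.val h1
  rw [← h2]
  exact z.2

end Descent

section Raise

variable (M' r : ℕ)

theorem GammaML_raise_le : GammaML (M' * r) 1 ≤ GammaML M' r := by
  intro γ hγ
  obtain ⟨h1, h0⟩ := mem_GammaML.mp hγ
  refine mem_GammaML.mpr ⟨?_, ?_⟩
  · rw [Gamma1_mem] at h1 ⊢
    obtain ⟨ha, hd, hc⟩ := h1
    have hcast : ∀ x : ℤ, ((x : ZMod (M' * r)) = 1) → ((x : ZMod M') = 1) := by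
      intro x hx
      have := congrArg (ZMod.castHom (Dvd.intro r rfl) (ZMod M')) hx
      simpa using this
    have hcast0 : ∀ x : ℤ, ((x : ZMod (M' * r)) = 0) → ((x : ZMod M') = 0) := by
      intro x hx
      have := congrArg (ZMod.castHom (Dvd.intro r rfl) (ZMod M')) hx
      simpa using this
    exact ⟨hcast _ ha, hcast _ hd, hcast0 _ hc⟩
  · rwa [mul_one] at h0

theorem Gpm_raise_le : Gpm (M' * r) 1 ≤ Gpm M' r := by
  rintro γ (h | h)
  · exact Or.inl (GammaML_raise_le M' r h)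
  · exact Or.inr (GammaML_raise_le M' r h)

variable [NeZero M'] [NeZero r]
variable {k : Type*} [Field k] [Algebra ℚ k] [Algebra k ℂ] [IsScalarTower ℚ k ℂ]

/-- **Level raising**: the function field of `Γ₁(M') ∩ Γ₀(M' r)` is contained in the function
field of `Γ₁(M' r)`. -/
theorem laurentBaseChange_F₁_raise_le (hM' : M' ≠ 1) :
    laurentBaseChange k (F₁ M' r) ≤ laurentBaseChange k (F₁ (M' * r) 1) := by
  haveI : NeZero (M' * r) := ⟨mul_ne_zero (NeZero.ne M') (NeZero.ne r)⟩
  have hMr : M' * r ≠ 1 := fun h => hM' (Nat.eq_one_of_mul_eq_one_right h)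
  intro x hx
  apply mem_laurentBaseChange_F₁_of_iota_mem (M' * r) 1 hMr
  have hxC : iota k ℂ x ∈ laurentBaseChange ℂ (F₁ M' r) := iota_mem_laurentBaseChange _ hx
  have hmer : iota k ℂ x ∈ merSeries (RingHom.id ℂ) := F₁_le_merSeriesI (RingHom.id ℂ) M' r hxC
  refine mem_F₁C_of_isModFun (M' * r) 1 hMr hmer ?_
  have h1 : IsModFun (Gpm M' r) (realML (RingHom.id ℂ) M' r ⟨iota k ℂ x, hxC⟩) :=
    isModFun_realML (RingHom.id ℂ) _
  exact h1.mono (Gpm_raise_le M' r)

/-- level raising over `ℚ`. -/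
theorem F₁_raise_le (hM' : M' ≠ 1) : F₁ M' r ≤ F₁ (M' * r) 1 := by
  have h := laurentBaseChange_F₁_raise_le (k := ℚ) M' r hM'
  rwa [Igusa.laurentBaseChange_rat, Igusa.laurentBaseChange_rat] at h

end Raise

end

end Fermat.Agent.RB
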