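/-
Project RB, package B [FIELD1] (KEY-H) — helper5 — part 2: **the Galois structure of
`k·F₁ (M' r) 1` over `k·F₁ M' r`** (`r` prime to `M'`).

* `mem_F₁_raise_of_fixed`: an element of `k·F₁ (M' r) 1` fixed by the diamond automorphisms
  attached to `σ ∈ Γ₁(M') ∩ Γ₀(M' r)` lies in `k·F₁ M' r`; `diaHom_raise_eq_self`: the converse;
* `crtUnitHom : (ZMod r)ˣ →* (ZMod (M' r))ˣ` (`s ↦ (1, s)`), `diaRHom`: the action of `(ZMod r)ˣ`
  on `k·F₁ (M' r) 1` by `k`-algebra automorphisms, `diaRHom_phiBarA`;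
* `mem_F₁_raise_of_diaR_fixed`: the fixed field of this action is `k·F₁ M' r`;
* `relfinrank_F₁_raise_le`: `[k·F₁ (M' r) 1 : k·F₁ M' r] ≤ φ(r)`;
* `resolvent`, `diaR_resolvent`, `resolvent_pow_mem`: for a character `c : (ZMod r)ˣ →* kˣ` the
  Lagrange resolvent `u = ∑_s c(s) φ_{(1,s)}` satisfies `⟨s⟩ u = c(s)⁻¹ u` and
  `u ^ φ(r) ∈ k·F₁ M' r`.
-/
import Fermat.Agent.RB.FIELD1_helper5_Descent

set_option autoImplicit false

open UpperHalfPlane hiding I
open Complex ModularCurve IntermediateField CongruenceSubgroup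
open scoped MatrixGroups

namespace Fermat.Agent.RB

open Fermat.Agent.RatStr Fermat.Agent.X0N Fermat.Agent.W1

noncomputable section

/-! ### the fixed field -/

section FixedField

variable (M' r : ℕ) [NeZero M'] [NeZero r]
variable {k : Type*} [Field k] [Algebra ℚ k] [Algebra k ℂ] [IsScalarTower ℚ k ℂ]

theorem mem_Gamma0_raise_of_mem_Gpm {σ : SL(2, ℤ)} (h : σ ∈ Gpm M' r) :
    σ ∈ Gamma0 (M' * r * 1) := by
  rw [mul_one]
  exact Gpm_le_Gamma0 M' r h

/-- **the fixed field**: an element of `k·F₁ (M' r) 1` fixed by the diamond automorphisms attached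
to the elements of `Γ₁(M') ∩ Γ₀(M' r)` lies in `k·F₁ M' r`. -/
theorem mem_F₁_raise_of_fixed (hM' : M' ≠ 1) (x : ↥(laurentBaseChange k (F₁ (M' * r) 1)))
    (hfix : ∀ (σ : SL(2, ℤ)) (hσ : σ ∈ Gamma0 (M' * r * 1)), σ ∈ GammaML M' r →
      diaHom (algebraMap k ℂ) hσ x = x) :
    (x : LaurentSeries k) ∈ laurentBaseChange k (F₁ M' r) := by
  haveI : NeZero (M' * r * 1) := ⟨by rw [mul_one]; exact NeZero.ne (M' * r)⟩
  set y := realML (algebraMap k ℂ) (M' * r) 1 x with hy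
  have hmod : IsModFun (Gpm (M' * r) 1) y := isModFun_realML (algebraMap k ℂ) x
  have hneg : MerH.comp (-1) y = y := comp_realML_of_mem_Gpm _ (neg_one_mem_Gpm _ _) x
  have hinv1 : ∀ γ ∈ GammaML M' r, MerH.comp γ y = y := by
    intro γ hγ
    have hγ0 : γ ∈ Gamma0 (M' * r * 1) := mem_Gamma0_raise_of_mem_Gpm M' r (Or.inl hγ)
    rw [hy, ← realML_diaHom (algebraMap k ℂ) hγ0, hfix γ hγ0 hγ]
  have hinv : ∀ γ ∈ Gpm M' r, MerH.comp γ y = y := by
    rintro γ (h | h)
    · exact hinv1 γ h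
    · have e : γ = (-1) * (-γ) := by rw [neg_mul_neg, one_mul]
      rw [e, MerH.comp_mul, hneg]
      exact hinv1 _ h
  have hmod' : IsModFun (Gpm M' r) y := isModFun_of_invariant hmod hinv
  apply mem_laurentBaseChange_F₁_of_iota_mem M' r hM'
  have hxC : iota k ℂ (x : LaurentSeries k) ∈ laurentBaseChange ℂ (F₁ (M' * r) 1) :=
    iota_mem_laurentBaseChange _ x.2
  have hmer : iota k ℂ (x : LaurentSeries k) ∈ merSeries (RingHom.id ℂ) :=
    F₁_le_merSeriesI (RingHom.id ℂ) (M' * r) 1 hxC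
  refine mem_F₁C_of_isModFun M' r hM' hmer ?_
  have e : y = merSeries.real (RingHom.id ℂ) ⟨iota k ℂ (x : LaurentSeries k), hmer⟩ := by
    rw [hy, realML_eq_realML_baseChange]
    rfl
  rw [← e]
  exact hmod'

/-- the elements of `k·F₁ M' r` are fixed by the diamond automorphisms attached to `Gpm M' r`. -/
theorem diaHom_raise_eq_self (ι : k →+* ℂ) {σ : SL(2, ℤ)} (hσ : σ ∈ Gamma0 (M' * r * 1))
    (hσ' : σ ∈ Gpm M' r) (x : ↥(laurentBaseChange k (F₁ (M' * r) 1)))
    (hx : (x : LaurentSeries k) ∈ laurentBaseChange k (F₁ M' r)) :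
    diaHom ι hσ x = x := by
  rw [diaHom_eq_iff]
  have e : realML ι (M' * r) 1 x = realML ι M' r ⟨(x : LaurentSeries k), hx⟩ := rfl
  rw [e]
  exact comp_realML_of_mem_Gpm ι hσ' _

end FixedField

/-! ### the Chinese remainder units -/

section CRT

variable {M' r : ℕ} (hcop : Nat.Coprime M' r)

theorem crt_fst (x : ZMod (M' * r)) :
    (ZMod.chineseRemainder hcop x).1 = ZMod.castHom (dvd_mul_right M' r) (ZMod M') x := by
  have h1 : ZMod.chineseRemainder hcop x = (ZMod.cast x : ZMod M' × ZMod r) := rfl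
  rw [h1, ZMod.castHom_apply, Prod.fst_zmod_cast]

theorem crt_snd (x : ZMod (M' * r)) :
    (ZMod.chineseRemainder hcop x).2 = ZMod.castHom (dvd_mul_left r M') (ZMod r) x := by
  have h1 : ZMod.chineseRemainder hcop x = (ZMod.cast x : ZMod M' × ZMod r) := rfl
  rw [h1, ZMod.castHom_apply, Prod.snd_zmod_cast]

/-- the unit `(1, s)` of `ZMod (M' r)`, as a homomorphism in `s`. -/
def crtUnitHom : (ZMod r)ˣ →* (ZMod (M' * r))ˣ :=
  (Units.map ((ZMod.chineseRemainder hcop).symm : ZMod M' × ZMod r →+* ZMod (M' * r)).toMonoidHom).comp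
    ((MulEquiv.prodUnits (M := ZMod M') (N := ZMod r)).symm.toMonoidHom.comp
      (MonoidHom.inr (ZMod M')ˣ (ZMod r)ˣ))

theorem coe_crtUnitHom (s : (ZMod r)ˣ) :
    ((crtUnitHom hcop s : (ZMod (M' * r))ˣ) : ZMod (M' * r)) =
      (ZMod.chineseRemainder hcop).symm (1, (s : ZMod r)) := rfl

theorem castHom_crtUnitHom_fst (s : (ZMod r)ˣ) :
    ZMod.castHom (dvd_mul_right M' r) (ZMod M') ((crtUnitHom hcop s : (ZMod (M' * r))ˣ) :
      ZMod (M' * r)) = 1 := by
  rw [← crt_fst hcop, coe_crtUnitHom, RingEquiv.apply_symm_apply]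

theorem castHom_crtUnitHom_snd (s : (ZMod r)ˣ) :
    ZMod.castHom (dvd_mul_left r M') (ZMod r) ((crtUnitHom hcop s : (ZMod (M' * r))ˣ) :
      ZMod (M' * r)) = (s : ZMod r) := by
  rw [← crt_snd hcop, coe_crtUnitHom, RingEquiv.apply_symm_apply]

/-- a unit which is `1` modulo `M'` is `(1, s)`. -/
theorem eq_crtUnitHom_of_castHom_eq_one (d : (ZMod (M' * r))ˣ)
    (hd : ZMod.castHom (dvd_mul_right M' r) (ZMod M') (d : ZMod (M' * r)) = 1) :
    d = crtUnitHom hcop (Units.map (ZMod.castHom (dvd_mul_left r M') (ZMod r)).toMonoidHom d) := by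
  apply Units.ext
  apply (ZMod.chineseRemainder hcop).injective
  rw [coe_crtUnitHom, RingEquiv.apply_symm_apply]
  apply Prod.ext
  · rw [crt_fst, hd]
  · rw [crt_snd]
    rfl

theorem crtUnitHom_injective : Function.Injective (crtUnitHom (M' := M') (r := r) hcop) := by
  intro s t h
  apply Units.ext
  rw [← castHom_crtUnitHom_snd hcop s, ← castHom_crtUnitHom_snd hcop t, h]

end CRT

/-! ### the action of `(ZMod r)ˣ` -/

section Action

variable (M' r : ℕ) [NeZero M'] [NeZero r] (hcop : Nat.Coprime M' r)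
variable {k : Type*} [Field k] [Algebra ℚ k] [Algebra k ℂ] [IsScalarTower ℚ k ℂ]

/-- the diamond automorphism `⟨(1, s)⟩` of `k·F₁ (M' r) 1`, as a `k`-algebra automorphism. -/
def diaR (s : (ZMod r)ˣ) :
    ↥(laurentBaseChange k (F₁ (M' * r) 1)) ≃ₐ[k] ↥(laurentBaseChange k (F₁ (M' * r) 1)) :=
  diaML (algebraMap k ℂ) (sigmaU_mem (M' * r) 1 (crtUnitHom hcop s))

theorem diaR_apply (s : (ZMod r)ˣ) (x : ↥(laurentBaseChange k (F₁ (M' * r) 1))) :
    diaR M' r hcop s x =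
      diaHom (algebraMap k ℂ) (sigmaU_mem (M' * r) 1 (crtUnitHom hcop s)) x := rfl

theorem diaR_eq_diaU (s : (ZMod r)ˣ) (x : ↥(laurentBaseChange k (F₁ (M' * r) 1))) :
    diaR M' r hcop s x = diaU (M' * r) 1 (crtUnitHom hcop s) x := rfl

/-- the diamond automorphism of an element of `Γ₀(M' r)` whose upper left entry is `1` modulo
`M'` is a `diaR`. -/
theorem diaHom_eq_diaR {σ : SL(2, ℤ)} (hσ : σ ∈ Gamma0 (M' * r * 1))
    (h1 : ((σ 0 0 : ℤ) : ZMod M') = 1) (x : ↥(laurentBaseChange k (F₁ (M' * r) 1))) :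
    diaHom (algebraMap k ℂ) hσ x =
      diaR M' r hcop (Units.map (ZMod.castHom (dvd_mul_left r M') (ZMod r)).toMonoidHom
        (unitOf (mem_Gamma0_of_mem_Gamma0_mul hσ))) x := by
  rw [diaR_apply]
  apply diaHom_congr
  rw [sigmaU_entry, ← eq_crtUnitHom_of_castHom_eq_one hcop, coe_unitOf]
  rw [coe_unitOf, map_intCast]
  exact h1

theorem diaR_one (x : ↥(laurentBaseChange k (F₁ (M' * r) 1))) : diaR M' r hcop 1 x = x := by
  rw [diaR_apply]
  conv_rhs => rw [← diaHom_one (algebraMap k ℂ) x]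
  apply diaHom_congr
  rw [sigmaU_entry, map_one, Units.val_one]
  simp

theorem diaR_mul (s t : (ZMod r)ˣ) (x : ↥(laurentBaseChange k (F₁ (M' * r) 1))) :
    diaR M' r hcop (s * t) x = diaR M' r hcop s (diaR M' r hcop t x) := by
  rw [diaR_apply, diaR_apply, diaR_apply, ← diaHom_mul]
  apply diaHom_congr
  rw [sigmaU_entry, entry_mul (mem_Gamma0_of_mem_Gamma0_mul (sigmaU_mem (M' * r) 1 _)),
    sigmaU_entry, sigmaU_entry, map_mul, Units.val_mul]
  exact mul_comm _ _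

/-- the action of `(ZMod r)ˣ` on `k·F₁ (M' r) 1`. -/
def diaRHom : (ZMod r)ˣ →*
    (↥(laurentBaseChange k (F₁ (M' * r) 1)) ≃ₐ[k] ↥(laurentBaseChange k (F₁ (M' * r) 1))) where
  toFun := diaR M' r hcop
  map_one' := AlgEquiv.ext fun x => diaR_one M' r hcop x
  map_mul' s t := AlgEquiv.ext fun x => diaR_mul M' r hcop s t x

theorem diaRHom_apply (s : (ZMod r)ˣ) (x : ↥(laurentBaseChange k (F₁ (M' * r) 1))) :
    diaRHom M' r hcop s x = diaR M' r hcop s x := rfl

theorem diaR_phiBarA (s : (ZMod r)ˣ) (a : ZMod (M' * r)) :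
    diaR (k := k) M' r hcop s (phiBarA (M' * r) 1 a) =
      phiBarA (M' * r) 1 (a * ((crtUnitHom hcop s : (ZMod (M' * r))ˣ) : ZMod (M' * r))) := by
  rw [diaR_eq_diaU, diaU_phiBarA]

/-- the elements of `k·F₁ M' r` are fixed. -/
theorem diaR_eq_self_of_mem (s : (ZMod r)ˣ) (x : ↥(laurentBaseChange k (F₁ (M' * r) 1)))
    (hx : (x : LaurentSeries k) ∈ laurentBaseChange k (F₁ M' r)) : diaR M' r hcop s x = x := by
  rw [diaR_apply]
  apply diaHom_raise_eq_self M' r (algebraMap k ℂ) _ _ x hx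
  have hσ : sigmaU (M' * r) 1 (crtUnitHom hcop s) ∈ Gamma0 (M' * r) := by
    have := sigmaU_mem (M' * r) 1 (crtUnitHom hcop s)
    rwa [mul_one] at this
  apply mem_Gpm_of_mem_Gamma0_of_entry hσ
  left
  have h1 := sigmaU_entry (M' * r) 1 (crtUnitHom hcop s)
  have h2 := congrArg (ZMod.castHom (dvd_mul_right M' r) (ZMod M')) h1
  rw [map_intCast, castHom_crtUnitHom_fst] at h2
  exact h2

/-- **the fixed field of `(ZMod r)ˣ` is `k·F₁ M' r`.** -/
theorem mem_F₁_raise_of_diaR_fixed (hM' : M' ≠ 1) (x : ↥(laurentBaseChange k (F₁ (M' * r) 1)))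
    (hfix : ∀ s : (ZMod r)ˣ, diaR M' r hcop s x = x) :
    (x : LaurentSeries k) ∈ laurentBaseChange k (F₁ M' r) := by
  apply mem_F₁_raise_of_fixed M' r hM' x
  intro σ hσ hσ'
  rw [diaHom_eq_diaR M' r hcop hσ ?_ x]
  · exact hfix _
  · have := (mem_GammaML.mp hσ').1
    rw [Gamma1_mem] at this
    exact this.1

end Action

/-! ### the degree bound -/

section Degree

variable (M' r : ℕ) [NeZero M'] [NeZero r] (hcop : Nat.Coprime M' r)
variable {k : Type*} [Field k] [Algebra ℚ k] [Algebra k ℂ] [IsScalarTower ℚ k ℂ]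

/-- the action of `(ZMod r)ˣ` on `k·F₁ (M' r) 1` as a `MulSemiringAction`. -/
@[reducible] def diaRAction :
    MulSemiringAction (ZMod r)ˣ ↥(laurentBaseChange k (F₁ (M' * r) 1)) :=
  MulSemiringAction.compHom _ (diaRHom (k := k) M' r hcop)

theorem diaRAction_smul (s : (ZMod r)ˣ) (x : ↥(laurentBaseChange k (F₁ (M' * r) 1))) :
    letI := diaRAction (k := k) M' r hcop
    s • x = diaR M' r hcop s x := rfl

include hcop in
/-- **`[k·F₁ (M' r) 1 : k·F₁ M' r] ≤ φ(r)`.** -/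
theorem relfinrank_F₁_raise_le (hM' : M' ≠ 1) :
    (laurentBaseChange k (F₁ M' r)).relfinrank (laurentBaseChange k (F₁ (M' * r) 1)) ≤
      Nat.totient r := by
  classical
  letI := diaRAction (k := k) M' r hcop
  haveI : SMulCommClass (ZMod r)ˣ k ↥(laurentBaseChange k (F₁ (M' * r) 1)) :=
    ⟨fun s c x => by
      show diaR M' r hcop s (c • x) = c • diaR M' r hcop s x
      exact map_smul _ c x⟩
  have h1 : Module.finrank
      ↥((laurentBaseChange k (F₁ M' r)).comap (laurentBaseChange k (F₁ (M' * r) 1)).val)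
      ↥(laurentBaseChange k (F₁ (M' * r) 1)) =
      (laurentBaseChange k (F₁ M' r)).relfinrank (laurentBaseChange k (F₁ (M' * r) 1)) := by
    rw [IntermediateField.finrank_comap, IntermediateField.fieldRange_val]
  rw [← h1]
  have hle : FixedPoints.intermediateField (F := k)
      (E := ↥(laurentBaseChange k (F₁ (M' * r) 1))) (ZMod r)ˣ ≤
      (laurentBaseChange k (F₁ M' r)).comap (laurentBaseChange k (F₁ (M' * r) 1)).val := by
    intro x hx
    show ((x : ↥(laurentBaseChange k (F₁ (M' * r) 1))) : LaurentSeries k) ∈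
      laurentBaseChange k (F₁ M' r)
    exact mem_F₁_raise_of_diaR_fixed M' r hcop hM' x hx
  haveI : FiniteDimensional ↥(FixedPoints.intermediateField (F := k)
      (E := ↥(laurentBaseChange k (F₁ (M' * r) 1))) (ZMod r)ˣ)
      ↥(laurentBaseChange k (F₁ (M' * r) 1)) :=
    inferInstanceAs (FiniteDimensional
      ↥(FixedPoints.subfield (ZMod r)ˣ ↥(laurentBaseChange k (F₁ (M' * r) 1)))
      ↥(laurentBaseChange k (F₁ (M' * r) 1)))
  refine (IntermediateField.finrank_le_of_le_left hle).trans ?_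
  have h2 : Module.finrank
      ↥(FixedPoints.subfield (ZMod r)ˣ ↥(laurentBaseChange k (F₁ (M' * r) 1)))
      ↥(laurentBaseChange k (F₁ (M' * r) 1)) ≤ Fintype.card (ZMod r)ˣ :=
    FixedPoints.finrank_le_card (ZMod r)ˣ ↥(laurentBaseChange k (F₁ (M' * r) 1))
  rw [ZMod.card_units_eq_totient] at h2
  exact h2

end Degree

/-! ### the Lagrange resolvent -/

section Resolvent

variable (M' r : ℕ) [NeZero M'] [NeZero r] (hcop : Nat.Coprime M' r)
variable {k : Type*} [Field k] [Algebra ℚ k] [Algebra k ℂ] [IsScalarTower ℚ k ℂ]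

/-- **the Lagrange resolvent** `u = ∑_s c(s) φ_{(1, s)}` of a character `c` of `(ZMod r)ˣ`. -/
def resolvent (c : (ZMod r)ˣ →* kˣ) : ↥(laurentBaseChange k (F₁ (M' * r) 1)) :=
  ∑ s : (ZMod r)ˣ, ((c s : kˣ) : k) •
    phiBarA (k := k) (M' * r) 1 ((crtUnitHom hcop s : (ZMod (M' * r))ˣ) : ZMod (M' * r))

/-- `⟨(1, t)⟩ u = c(t)⁻¹ u`. -/
theorem diaR_resolvent (c : (ZMod r)ˣ →* kˣ) (t : (ZMod r)ˣ) :
    diaR M' r hcop t (resolvent M' r hcop c) = (((c t)⁻¹ : kˣ) : k) • resolvent M' r hcop c := by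
  unfold resolvent
  rw [map_sum, Finset.smul_sum]
  set g : (ZMod r)ˣ → ↥(laurentBaseChange k (F₁ (M' * r) 1)) := fun s' =>
    (((c t)⁻¹ : kˣ) : k) • (((c s' : kˣ) : k) •
      phiBarA (k := k) (M' * r) 1 ((crtUnitHom hcop s' : (ZMod (M' * r))ˣ) : ZMod (M' * r)))
    with hg
  have h1 : ∀ s : (ZMod r)ˣ, diaR (k := k) M' r hcop t (((c s : kˣ) : k) •
      phiBarA (k := k) (M' * r) 1 ((crtUnitHom hcop s : (ZMod (M' * r))ˣ) : ZMod (M' * r))) =
      g (Equiv.mulRight t s) := by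
    intro s
    have h2 : (((c t)⁻¹ : kˣ) : k) * ((c (s * t) : kˣ) : k) = ((c s : kˣ) : k) := by
      rw [← Units.val_mul, map_mul, mul_comm (c s), inv_mul_cancel_left]
    show _ = (((c t)⁻¹ : kˣ) : k) • (((c (s * t) : kˣ) : k) •
      phiBarA (k := k) (M' * r) 1 ((crtUnitHom hcop (s * t) : (ZMod (M' * r))ˣ) : ZMod (M' * r)))
    rw [map_smul, diaR_phiBarA, smul_smul, h2, map_mul (crtUnitHom hcop), Units.val_mul]
  rw [Finset.sum_congr rfl (fun s _ => h1 s)]
  exact Equiv.sum_comp (Equiv.mulRight t) g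

/-- **`u ^ φ(r)` lies in `k·F₁ M' r`.** -/
theorem resolvent_pow_mem (hM' : M' ≠ 1) (c : (ZMod r)ˣ →* kˣ) :
    (((resolvent M' r hcop c) ^ Nat.totient r : ↥(laurentBaseChange k (F₁ (M' * r) 1))) :
      LaurentSeries k) ∈ laurentBaseChange k (F₁ M' r) := by
  classical
  apply mem_F₁_raise_of_diaR_fixed M' r hcop hM'
  intro t
  rw [map_pow, diaR_resolvent, smul_pow, ← Units.val_pow_eq_pow_val, inv_pow, ← map_pow,
    ← ZMod.card_units_eq_totient, pow_card_eq_one, map_one, inv_one, Units.val_one, one_smul]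

/-- the underlying Laurent series of the resolvent. -/
theorem coe_resolvent (hM' : M' ≠ 1) (c : (ZMod r)ˣ →* kˣ) :
    ((resolvent M' r hcop c : ↥(laurentBaseChange k (F₁ (M' * r) 1))) : LaurentSeries k) =
      ∑ s : (ZMod r)ˣ, algebraMap k (LaurentSeries k) ((c s : kˣ) : k) *
        coeffEmb k (phiGen ℚ (M' * r)
          ((crtUnitHom hcop s : (ZMod (M' * r))ˣ) : ZMod (M' * r))) := by
  have hN : M' * r ≠ 1 := fun h => hM' (Nat.eq_one_of_mul_eq_one_right h)
  haveI : Nontrivial (ZMod (M' * r)) := ZMod.nontrivial_iff.mpr hN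
  unfold resolvent
  rw [AddSubmonoidClass.coe_finsetSum]
  refine Finset.sum_congr rfl fun s _ => ?_
  rw [IntermediateField.coe_smul, coe_phiBarA_of_ne _ _ (Units.ne_zero _), qExpand_one_apply,
    Algebra.smul_def]

end Resolvent

end

end Fermat.Agent.RB
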