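/-
RB [BB3] = (KEY-H), package A [SSM1] — helper7 — part 1: **the hosts.**

Everything lives inside `K⸨x⸩` (`q = x ^ 2`, Legendre coordinate `legT K = λ(x)`).

* `legHost K F₀ = K(λ) · (K · F₀)(x²)` : the Legendre host of a field `F₀ ⊆ ℚ⸨q⸩` of modular
  functions (`JA.legE K N = legHost K (modularFunctionFieldFull N)`,
  `W1.legE K M = legHost K (F₁ M 1)` definitionally);
* `legEL K M L = legHost K (F₁ M L)` : the Legendre host of level `Γ₁(M) ∩ Γ₀(M L)`;
  `EM₁ = legEL K M' 1`, `EN₁ = legEL K M' r`;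
* monotonicity, the dilation `f(x) ↦ f(x^ℓ)` (`ℓ` an odd prime), Gauss-boundedness,
  coefficientwise stability (`CoeffStable`), functoriality in the coefficient field;
* `keyFqL_le_sup` : `K·F₁(M, L) ≤ K·F₀(M L) ⊔ K·F₁(M, 1)` (from helper9's
  `adjoin_phiQ_one_eq_top`), hence `legEL_eq_sup : legEL K M L = JA.legE K (M L) ⊔ legEL K M 1`.
-/
import Mathlib
import Fermat.Agent.W1.DEG1_helper9_Galois
import Fermat.Agent.W1.GEOBASE_helper7_Compat
import Fermat.Agent.SS.MODELS_helper7_AtBases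

set_option autoImplicit false
set_option linter.unusedSectionVars false
set_option linter.style.haveILetI false
set_option synthInstance.maxHeartbeats 200000

open HahnSeries IntermediateField AlgebraicCurve ModularCurve Polynomial

namespace Fermat.Agent.RB

open Fermat.Agent.JA Fermat.Agent.Igusa Fermat.Agent.SS

open scoped Fermat.Agent.JA.Host

noncomputable section

section Defs

variable (K : Type*) [Field K] [Algebra ℚ K]

/-- the image in the host `K⸨x⸩`, `q = x ^ w`, of `K · F₀`. -/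
abbrev hostW (w : ℕ) [NeZero w] (F₀ : IntermediateField ℚ (LaurentSeries ℚ)) :
    IntermediateField K (LaurentSeries K) :=
  hostImage K w (laurentBaseChange K F₀)

/-- **the Legendre host** `K(λ) · (K · F₀)(x²)` of a field `F₀` of modular functions. -/
abbrev legHost (F₀ : IntermediateField ℚ (LaurentSeries ℚ)) :
    IntermediateField K (LaurentSeries K) :=
  Host.Etu (hostW K 2 F₀) (legT K) 1

/-- **the Legendre host of level `Γ₁(M) ∩ Γ₀(M L)`.** -/
abbrev legEL (M L : ℕ) : IntermediateField K (LaurentSeries K) :=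
  legHost K (W1.F₁ M L)

theorem legHost_full (N : ℕ) [NeZero N] :
    legHost K (modularFunctionFieldFull N) = legE K N := rfl

theorem legEL_one (M : ℕ) [NeZero M] [W1.W1Api M] : legEL K M 1 = W1.legE K M := rfl

variable {K}

theorem laurentBaseChange_mono' {F₀ F₀' : IntermediateField ℚ (LaurentSeries ℚ)} (h : F₀ ≤ F₀') :
    laurentBaseChange K F₀ ≤ laurentBaseChange K F₀' :=
  W1.laurentBaseChange_mono K h

theorem hostW_mono (w : ℕ) [NeZero w] {F₀ F₀' : IntermediateField ℚ (LaurentSeries ℚ)}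
    (h : F₀ ≤ F₀') : hostW K w F₀ ≤ hostW K w F₀' := by
  rintro _ ⟨g, hg, rfl⟩
  exact ⟨g, laurentBaseChange_mono' h hg, rfl⟩

theorem hostW_le_legHost (F₀ : IntermediateField ℚ (LaurentSeries ℚ)) :
    hostW K 2 F₀ ≤ legHost K F₀ :=
  le_trans (le_sup_left : hostW K 2 F₀ ≤ Host.Fu (hostW K 2 F₀) 1) le_sup_right

theorem legT_mem_legHost (F₀ : IntermediateField ℚ (LaurentSeries ℚ)) :
    legT K ∈ legHost K F₀ := Host.mem_Etu_t _ _ _

/-- `E = K(t) · F_w`: the auxiliary generator `u = 1` is harmless. -/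
theorem legHost_eq_sup (F₀ : IntermediateField ℚ (LaurentSeries ℚ)) :
    legHost K F₀ = K⟮legT K⟯ ⊔ hostW K 2 F₀ := by
  have h : Host.Fu (hostW K 2 F₀) 1 = hostW K 2 F₀ := by
    refine le_antisymm (sup_le le_rfl ?_) le_sup_left
    rw [adjoin_simple_le_iff]
    exact one_mem _
  show K⟮legT K⟯ ⊔ Host.Fu (hostW K 2 F₀) 1 = _
  rw [h]

theorem legHost_mono {F₀ F₀' : IntermediateField ℚ (LaurentSeries ℚ)} (h : F₀ ≤ F₀') :
    legHost K F₀ ≤ legHost K F₀' := by
  rw [legHost_eq_sup, legHost_eq_sup]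
  exact sup_le_sup_left (hostW_mono 2 h) _

/-- the host of a compositum is the compositum of the hosts. -/
theorem laurentBaseChange_sup (F₀ F₀' : IntermediateField ℚ (LaurentSeries ℚ)) :
    laurentBaseChange K (F₀ ⊔ F₀') = laurentBaseChange K F₀ ⊔ laurentBaseChange K F₀' := by
  apply le_antisymm
  · rw [laurentBaseChange, adjoin_le_iff]
    rintro _ ⟨x, hx, rfl⟩
    -- `x ∈ F₀ ⊔ F₀'`: induction on the closure
    have hx' : x ∈ IntermediateField.adjoin ℚ ((F₀ : Set (LaurentSeries ℚ)) ∪ F₀') := by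
      have : F₀ ⊔ F₀' ≤ IntermediateField.adjoin ℚ ((F₀ : Set (LaurentSeries ℚ)) ∪ F₀') :=
        sup_le (fun y hy => subset_adjoin ℚ _ (Or.inl hy))
          (fun y hy => subset_adjoin ℚ _ (Or.inr hy))
      exact this hx
    clear hx
    induction hx' using IntermediateField.adjoin_induction with
    | mem y hy =>
      rcases hy with hy | hy
      · exact (le_sup_left : laurentBaseChange K F₀ ≤ _) (coeffEmb_mem_laurentBaseChange K hy)
      · exact (le_sup_right : laurentBaseChange K F₀' ≤ _) (coeffEmb_mem_laurentBaseChange K hy)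
    | algebraMap c =>
      have : coeffEmb K (algebraMap ℚ (LaurentSeries ℚ) c) =
          algebraMap K (LaurentSeries K) (algebraMap ℚ K c) := by
        rw [coeffEmb, algebraMap_laurentSeries_eq_single, algebraMap_laurentSeries_eq_single,
          coeffMap_single]
      rw [this]
      exact IntermediateField.algebraMap_mem _ _
    | add y z _ _ hy hz => rw [map_add]; exact add_mem hy hz
    | mul y z _ _ hy hz => rw [map_mul]; exact mul_mem hy hz
    | inv y _ hy => rw [map_inv₀]; exact inv_mem hy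
  · exact sup_le (laurentBaseChange_mono' le_sup_left) (laurentBaseChange_mono' le_sup_right)

theorem hostW_sup (w : ℕ) [NeZero w] (F₀ F₀' : IntermediateField ℚ (LaurentSeries ℚ)) :
    hostW K w (F₀ ⊔ F₀') = hostW K w F₀ ⊔ hostW K w F₀' := by
  show (laurentBaseChange K (F₀ ⊔ F₀')).map (qExpandAlgHomC K w) = _
  rw [laurentBaseChange_sup, IntermediateField.map_sup]
  rfl

theorem legHost_sup (F₀ F₀' : IntermediateField ℚ (LaurentSeries ℚ)) :
    legHost K (F₀ ⊔ F₀') = legHost K F₀ ⊔ legHost K F₀' := by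
  rw [legHost_eq_sup, legHost_eq_sup, legHost_eq_sup, hostW_sup]
  apply le_antisymm
  · exact sup_le (le_trans le_sup_left le_sup_left)
      (sup_le_sup le_sup_right le_sup_right)
  · exact sup_le (sup_le le_sup_left (le_trans le_sup_left le_sup_right))
      (sup_le le_sup_left (le_trans le_sup_right le_sup_right))

end Defs

section Coeff

variable {K L : Type*} [Field K] [Field L] [Algebra ℚ K] [Algebra ℚ L] (φ : K →+* L)
  (F₀ : IntermediateField ℚ (LaurentSeries ℚ))

/-- `coeffMap φ` maps `F_w(K)` into `F_w(L)`. -/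
theorem coeffMap_mem_hostW (w : ℕ) [NeZero w] {x : LaurentSeries K} (hx : x ∈ hostW K w F₀) :
    coeffMap φ x ∈ hostW L w F₀ := by
  obtain ⟨y, hy, rfl⟩ := mem_hostImage_iff.mp hx
  rw [coeffMap_qExpand]
  exact mem_hostImage_iff.mpr ⟨_, coeffMap_hom_mem_laurentBaseChange φ _ hy, rfl⟩

/-- `coeffMap φ` maps the Legendre host over `K` into the Legendre host over `L`. -/
theorem coeffMap_mem_legHost {x : LaurentSeries K} (hx : x ∈ legHost K F₀) :
    coeffMap φ x ∈ legHost L F₀ := by
  have h : legHost K F₀ ≤ comapCoeff φ (legHost L F₀) := by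
    refine sup_le ?_ (sup_le ?_ ?_)
    · rw [adjoin_simple_le_iff, mem_comapCoeff, coeffMap_legT]
      exact Host.mem_Etu_t _ _ _
    · intro y hy
      exact hostW_le_legHost F₀ (coeffMap_mem_hostW φ F₀ 2 hy)
    · rw [adjoin_simple_le_iff]
      exact one_mem _
  exact h hx

theorem coeffStable_legHost : CoeffStable (legHost K F₀) :=
  fun τ _ hx => coeffMap_mem_legHost (τ : K →+* K) F₀ hx

end Coeff

section Gauss

variable (R : Type*) [CommRing R] [IsDomain R] [IsDiscreteValuationRing R] [CharZero R]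
  (K : Type*) [Field K] [Algebra R K] [IsFractionRing R K] [Algebra ℚ K]

/-- the host image of a Gauss-bounded field is Gauss-bounded. -/
theorem hostW_le_gaussField (w : ℕ) [NeZero w] {F₀ : IntermediateField ℚ (LaurentSeries ℚ)}
    (hF₀ : laurentBaseChange K F₀ ≤ gaussField R K) : hostW K w F₀ ≤ gaussField R K := by
  rintro x ⟨y, hy, rfl⟩
  exact (gaussHomQExpand R K w).map_mem_gaussField (hF₀ hy)

/-- **the Legendre host of a Gauss-bounded field is Gauss-bounded** (`2 ∈ Rˣ`). -/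
theorem legHost_le_gaussField (h2 : IsUnit (2 : R)) {F₀ : IntermediateField ℚ (LaurentSeries ℚ)}
    (hF₀ : laurentBaseChange K F₀ ≤ gaussField R K) : legHost K F₀ ≤ gaussField R K := by
  rw [legHost_eq_sup]
  refine sup_le ?_ (hostW_le_gaussField R K 2 hF₀)
  rw [IntermediateField.adjoin_simple_le_iff]
  exact gaussInt_le_gaussField (legT_mem_gaussInt R K h2).1

theorem legEL_le_gaussField (h2 : IsUnit (2 : R)) (M L : ℕ) :
    legEL K M L ≤ gaussField R K :=
  legHost_le_gaussField R K h2 (W1.laurentBaseChange_F₁_le_gaussField R K M L)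

end Gauss

section Level

variable (K : Type*) [Field K] [Algebra ℚ K]

/-- `JA.legE K (M L) ≤ legEL K M L`. -/
theorem legE_le_legEL (M L : ℕ) [NeZero (M * L)] : legE K (M * L) ≤ legEL K M L :=
  legHost_mono (W1.full_le_F₁ M L)

theorem legEL_mono (M : ℕ) {L L' : ℕ} (h : L ∣ L') : legEL K M L ≤ legEL K M L' :=
  legHost_mono (W1.F₁_degeneracy_le h)

/-- dilation `q ↦ q ^ ℓ` on the host images. -/
theorem qExpand_mem_hostW {F₀ F₀' : IntermediateField ℚ (LaurentSeries ℚ)} (ℓ : ℕ) [NeZero ℓ]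
    (w : ℕ) [NeZero w] (hmap : F₀.map (qExpandₐ ℓ) ≤ F₀') {f : LaurentSeries K}
    (hf : f ∈ hostW K w F₀) : qExpand K ℓ f ∈ hostW K w F₀' := by
  obtain ⟨g, hg, rfl⟩ := hf
  show qExpand K ℓ (qExpand K w g) ∈ hostW K w F₀'
  rw [qExpand_qExpand' ℓ w (w * ℓ) (mul_comm w ℓ), ← qExpand_qExpand' w ℓ (w * ℓ) rfl]
  refine qExpand_mem_hostImage ?_
  -- `g(q^ℓ) ∈ K · F₀'`
  have hle : laurentBaseChange K F₀ ≤
      (laurentBaseChange K F₀').comap (qExpandAlgHomC K ℓ) := by
    rw [laurentBaseChange, adjoin_le_iff]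
    rintro _ ⟨y, hy, rfl⟩
    show qExpand K ℓ (coeffEmb K y) ∈ laurentBaseChange K F₀'
    have : qExpand K ℓ (coeffEmb K y) = coeffEmb K (qExpand ℚ ℓ y) := by
      rw [coeffEmb, coeffMap_qExpand]
    rw [this]
    exact coeffEmb_mem_laurentBaseChange K (hmap ⟨y, hy, rfl⟩)
  exact hle hg

/-- **dilation `x ↦ x ^ ℓ` (`ℓ` an odd prime) on the Legendre hosts.** -/
theorem qExpand_mem_legHost {F₀ F₀' : IntermediateField ℚ (LaurentSeries ℚ)} {ℓ : ℕ} [NeZero ℓ]
    (hmap : F₀.map (qExpandₐ ℓ) ≤ F₀')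
    (ht : qExpand K ℓ (legT K) ∈ legHost K F₀') {f : LaurentSeries K}
    (hf : f ∈ legHost K F₀) : qExpand K ℓ f ∈ legHost K F₀' := by
  have h : (legHost K F₀).map (qExpandAlgHomC K ℓ) ≤ legHost K F₀' := by
    rw [legHost_eq_sup, IntermediateField.map_sup, IntermediateField.adjoin_map,
      Set.image_singleton]
    refine sup_le ?_ ?_
    · rw [IntermediateField.adjoin_simple_le_iff]
      exact ht
    · rintro _ ⟨f, hf, rfl⟩
      exact hostW_le_legHost F₀' (qExpand_mem_hostW K ℓ 2 hmap hf)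
  exact h ⟨f, hf, rfl⟩

/-- **`EM₁(x^ℓ) ⊆ EN₁`**: dilation maps the host of level `(M, L)` into the one of level
`(M, L ℓ)`, `ℓ` an odd prime. -/
theorem qExpand_mem_legEL (M L : ℕ) {ℓ : ℕ} [NeZero ℓ] [NeZero (M * (L * ℓ))] (hℓ : ℓ.Prime)
    (hℓ2 : ℓ ≠ 2) {f : LaurentSeries K} (hf : f ∈ legEL K M L) :
    qExpand K ℓ f ∈ legEL K M (L * ℓ) := by
  refine qExpand_mem_legHost K (W1.F₁_degeneracy_map_le M L ℓ) ?_ hf
  have h1 : qExpand K ℓ (legT K) ∈ legE K (M * (L * ℓ)) :=
    qExpand_legT_mem_legE K hℓ hℓ2 (Dvd.intro_left (M * L) (by ring))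
  exact legE_le_legEL K M (L * ℓ) h1

end Level

section Sup

variable (K : Type*) [Field K] [Algebra ℚ K] [Algebra K ℂ] [IsScalarTower ℚ K ℂ]
  (M L : ℕ) [NeZero M] [NeZero L]

attribute [local instance] W1.fullAlgebra

/-- **`K·F₁(M, L) ≤ K·F₀(M L) ⊔ K·F₁(M, 1)`** (`M ≠ 1`): the field of level `Γ₁(M) ∩ Γ₀(M L)` is
generated over the field of level `Γ₀(M L)` by `φ_1`. -/
theorem keyFqL_le_sup (hM : M ≠ 1) :
    laurentBaseChange K (W1.F₁ M L) ≤
      laurentBaseChange K (modularFunctionFieldFull (M * L)) ⊔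
        laurentBaseChange K (W1.F₁ M 1) := by
  have : Nontrivial (ZMod M) := ZMod.nontrivial_iff.mpr hM
  intro z hz
  have htop := W1.adjoin_phiQ_one_eq_top (k := K) M L hM
  have hmem : (⟨z, hz⟩ : ↥(laurentBaseChange K (W1.F₁ M L))) ∈
      Algebra.adjoin ↥(laurentBaseChange K (modularFunctionFieldFull (M * L)))
        {W1.phiQ (k := K) M L 1} := by
    rw [htop]; exact Algebra.mem_top
  suffices h : ∀ y : ↥(laurentBaseChange K (W1.F₁ M L)),
      y ∈ Algebra.adjoin ↥(laurentBaseChange K (modularFunctionFieldFull (M * L)))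
        {W1.phiQ (k := K) M L 1} →
      (y : LaurentSeries K) ∈ laurentBaseChange K (modularFunctionFieldFull (M * L)) ⊔
        laurentBaseChange K (W1.F₁ M 1) from h _ hmem
  intro y hy
  induction hy using Algebra.adjoin_induction with
  | mem x hx =>
    rw [Set.mem_singleton_iff] at hx
    subst hx
    refine (le_sup_right : laurentBaseChange K (W1.F₁ M 1) ≤ _) ?_
    have h1 : (1 : W1.DiaGrp M) = (QuotientGroup.mk (1 : (ZMod M)ˣ) : W1.DiaGrp M) := rfl
    rw [h1, W1.phiQ_mk, Units.val_one, W1.coe_phiBarA_of_ne M L one_ne_zero]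
    exact coeffEmb_mem_laurentBaseChange K
      (W1.phi_mem_F₁ (M := M) (L := 1) (e := 1) (one_dvd 1) one_ne_zero)
  | algebraMap c =>
    rw [W1.algebraMap_full_eq, W1.coe_fullIncl]
    exact (le_sup_left : laurentBaseChange K (modularFunctionFieldFull (M * L)) ≤ _) c.2
  | add x y _ _ hx hy => exact add_mem hx hy
  | mul x y _ _ hx hy => exact mul_mem hx hy

/-- **`EN₁ = EN · EM₁`**: the Legendre host of level `Γ₁(M) ∩ Γ₀(M L)` is the compositum of the
one of level `Γ₀(M L)` and the one of level `Γ₁(M)`. -/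
theorem legEL_eq_sup [NeZero (M * L)] (hM : M ≠ 1) :
    legEL K M L = legE K (M * L) ⊔ legEL K M 1 := by
  apply le_antisymm
  · have h1 : legEL K M L ≤ legHost K (modularFunctionFieldFull (M * L) ⊔ W1.F₁ M 1) := by
      rw [legEL, legHost_eq_sup, legHost_eq_sup]
      refine sup_le_sup_left ?_ _
      rintro _ ⟨g, hg, rfl⟩
      refine ⟨g, ?_, rfl⟩
      rw [laurentBaseChange_sup]
      exact keyFqL_le_sup K M L hM hg
    rw [legHost_sup] at h1
    exact h1
  · exact sup_le (legE_le_legEL K M L) (legEL_mono K M (one_dvd L))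

end Sup

end

end Fermat.Agent.RB
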