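/-
Project RB, package B [FIELD1] (KEY-H) — helper5 — part 5: **transport to the Legendre hosts**
(`EN₁ = legEL K M' r`, `E'' = legEL K (M' r) 1` of helper7's `RB/KEYH_helper7_Host.lean`).

* abstract field theory: `relfinrank_sup_sup_le` (`[T·B : T·A] ≤ [B : A]`),
  `finrank_inclusion_eq_relfinrank`, `finite_inclusion_of_relfinrank_ne_zero`;
* (H1) `legEL_raise_le : legEL K M' r ≤ legEL K (M' * r) 1`;
* (H2) `relfinrank_legEL_raise_le`, `finrank_legEL_raise_le`, `finite_legEL_raise` :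
  `[E'' : EN₁] ≤ φ(r)`, finite;
* (H3) `legHostEmb K F₀ : K·F₀ →ₐ[K] legHost K F₀` (`f ↦ f(x²)`), `legHostEmb_pow_eq` : the Kummer
  equation `u ^ m = f` on the hosts;
* (H4) `dvd_ord_legHostEmb`, **`dvd_ord_legEL_of_pow_eq`** : `m ∣ ord_P f` at every place `P` of
  `EN₁ / K` (from (B5) `dvd_ord_of_pow_eq_base` through `Place.restrictAlong`).
-/
import Fermat.Agent.RB.FIELD1_helper5_Fixed
import Fermat.Agent.RB.FIELD1_helper5_Desc2
import Fermat.Agent.RB.KEYH_helper7_Host

set_option autoImplicit false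
set_option linter.unusedSectionVars false
set_option linter.style.haveILetI false

open HahnSeries IntermediateField AlgebraicCurve ModularCurve

namespace Fermat.Agent.RB

open Fermat.Agent.JA Fermat.Agent.Igusa Fermat.Agent.W1

noncomputable section

/-! ### abstract field theory -/

section Abstract

variable {F E : Type*} [Field F] [Field E] [Algebra F E]

/-- `[T·B : T·A] ≤ [B : A]` for `A ≤ B` with `B / A` finite. -/
theorem relfinrank_sup_sup_le (T A B : IntermediateField F E) (hAB : A ≤ B)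
    (hfin : A.relfinrank B ≠ 0) :
    (T ⊔ A).relfinrank (T ⊔ B) ≤ A.relfinrank B ∧ (T ⊔ A).relfinrank (T ⊔ B) ≠ 0 := by
  classical
  have hA' : A ≤ T ⊔ A := le_sup_right
  have hle : T ⊔ A ≤ T ⊔ B := sup_le_sup_left hAB T
  letI : Algebra ↥A ↥(T ⊔ A) := (IntermediateField.inclusion hA').toRingHom.toAlgebra
  haveI : IsScalarTower ↥A ↥(T ⊔ A) E := IsScalarTower.of_algebraMap_eq (fun _ => rfl)
  rw [relfinrank_eq_finrank_of_le hAB] at hfin ⊢
  rw [relfinrank_eq_finrank_of_le hle]
  haveI hfd : FiniteDimensional ↥A ↥(extendScalars hAB) :=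
    Module.finite_of_finrank_pos (Nat.pos_of_ne_zero hfin)
  haveI : Algebra.IsAlgebraic ↥A ↥(extendScalars hAB) := Algebra.IsAlgebraic.of_finite _ _
  have h1 := adjoin_rank_le_of_isAlgebraic_right (↥(T ⊔ A)) (extendScalars hAB)
  have h2 : adjoin ↥(T ⊔ A) ((extendScalars hAB : IntermediateField ↥A E) : Set E) =
      extendScalars hle := by
    apply restrictScalars_injective F
    rw [extendScalars_restrictScalars, restrictScalars_adjoin_eq_sup]
    show (T ⊔ A) ⊔ adjoin F (B : Set E) = T ⊔ B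
    rw [adjoin_self, sup_assoc, sup_eq_right.mpr hAB]
  rw [h2] at h1
  have hlt : Module.rank ↥A ↥(extendScalars hAB) < Cardinal.aleph0 :=
    Module.rank_lt_aleph0 _ _
  have hlt' : Module.rank ↥(T ⊔ A) ↥(extendScalars hle) < Cardinal.aleph0 := lt_of_le_of_lt h1 hlt
  haveI : FiniteDimensional ↥(T ⊔ A) ↥(extendScalars hle) :=
    Module.rank_lt_aleph0_iff.mp hlt'
  refine ⟨?_, (Module.finrank_pos).ne'⟩
  exact Cardinal.toNat_le_toNat h1 hlt

/-- the `↥A`-linear identification of `↥B` (inclusion algebra) with `↥(extendScalars h)`. -/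
def inclExtendEquiv {A B : IntermediateField F E} (h : A ≤ B) :
    letI := (IntermediateField.inclusion h).toRingHom.toAlgebra
    ↥B ≃ₗ[↥A] ↥(extendScalars h) :=
  letI := (IntermediateField.inclusion h).toRingHom.toAlgebra
  { toFun := fun x => ⟨x.1, x.2⟩
    invFun := fun x => ⟨x.1, x.2⟩
    left_inv := fun _ => rfl
    right_inv := fun _ => rfl
    map_add' := fun _ _ => rfl
    map_smul' := fun _ _ => rfl }

/-- the degree for the inclusion algebra is the relative degree. -/
theorem finrank_inclusion_eq_relfinrank {A B : IntermediateField F E} (h : A ≤ B) :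
    letI := (IntermediateField.inclusion h).toRingHom.toAlgebra
    Module.finrank ↥A ↥B = A.relfinrank B := by
  letI := (IntermediateField.inclusion h).toRingHom.toAlgebra
  rw [relfinrank_eq_finrank_of_le h]
  exact LinearEquiv.finrank_eq (inclExtendEquiv h)

theorem finite_inclusion_of_relfinrank_ne_zero {A B : IntermediateField F E} (h : A ≤ B)
    (hfin : A.relfinrank B ≠ 0) :
    letI := (IntermediateField.inclusion h).toRingHom.toAlgebra
    Module.Finite ↥A ↥B := by
  letI := (IntermediateField.inclusion h).toRingHom.toAlgebra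
  rw [← finrank_inclusion_eq_relfinrank h] at hfin
  exact Module.finite_of_finrank_pos (Nat.pos_of_ne_zero hfin)

/-- every element of `F(t) · A` is algebraic over `A` if `t` is. -/
theorem isIntegral_of_mem_adjoin_sup (A : IntermediateField F E) {t : E}
    (ht : IsIntegral ↥A t) {y : E} (hy : y ∈ F⟮t⟯ ⊔ A) : IsIntegral ↥A y := by
  have h1 : F⟮t⟯ ⊔ A = restrictScalars F (↥A)⟮t⟯ := by
    rw [restrictScalars_adjoin_eq_sup, sup_comm]
  rw [h1] at hy
  have hy' : y ∈ (↥A)⟮t⟯ := hy
  haveI : Algebra.IsAlgebraic ↥A ↥(↥A)⟮t⟯ := isAlgebraic_adjoin_simple ht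
  have h2 : IsIntegral ↥A (⟨y, hy'⟩ : ↥(↥A)⟮t⟯) :=
    (Algebra.IsAlgebraic.isAlgebraic (R := ↥A) (⟨y, hy'⟩ : ↥(↥A)⟮t⟯)).isIntegral
  exact (isIntegral_algebraMap_iff (algebraMap ↥(↥A)⟮t⟯ E).injective).mpr h2

end Abstract

/-! ### (B4'): the relative degree is nonzero -/

section Laurent

variable (M' r : ℕ) [NeZero M'] [NeZero r] (hcop : Nat.Coprime M' r)
variable {k : Type*} [Field k] [Algebra ℚ k] [Algebra k ℂ] [IsScalarTower ℚ k ℂ]

include hcop in
/-- `k·F₁ (M' r) 1` is finite over `k·F₁ M' r`. -/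
theorem relfinrank_F₁_raise_ne_zero (hM' : M' ≠ 1) :
    (laurentBaseChange k (F₁ M' r)).relfinrank (laurentBaseChange k (F₁ (M' * r) 1)) ≠ 0 := by
  classical
  letI := diaRAction (k := k) M' r hcop
  haveI : SMulCommClass (ZMod r)ˣ k ↥(laurentBaseChange k (F₁ (M' * r) 1)) :=
    ⟨fun s c x => by
      show diaR M' r hcop s (c • x) = c • diaR M' r hcop s x
      exact map_smul _ c x⟩
  have h1 : Module.finrank
      ↥((laurentBaseChange k (F₁ M' r)).comap (laurentBaseChange k (F₁ (M' * r) 1)).val)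
      ↥(laurentBaseChange k (F₁ (M' * r) 1)) =
      (laurentBaseChange k (F₁ M' r)).relfinrank (laurentBaseChange k (F₁ (M' * r) 1)) := by
    rw [IntermediateField.finrank_comap, IntermediateField.fieldRange_val]
  rw [← h1]
  have hle : FixedPoints.intermediateField (F := k)
      (E := ↥(laurentBaseChange k (F₁ (M' * r) 1))) (ZMod r)ˣ ≤
      (laurentBaseChange k (F₁ M' r)).comap (laurentBaseChange k (F₁ (M' * r) 1)).val := by
    intro x hx
    show ((x : ↥(laurentBaseChange k (F₁ (M' * r) 1))) : LaurentSeries k) ∈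
      laurentBaseChange k (F₁ M' r)
    exact mem_F₁_raise_of_diaR_fixed M' r hcop hM' x hx
  haveI : FiniteDimensional ↥(FixedPoints.intermediateField (F := k)
      (E := ↥(laurentBaseChange k (F₁ (M' * r) 1))) (ZMod r)ˣ)
      ↥(laurentBaseChange k (F₁ (M' * r) 1)) :=
    inferInstanceAs (FiniteDimensional
      ↥(FixedPoints.subfield (ZMod r)ˣ ↥(laurentBaseChange k (F₁ (M' * r) 1)))
      ↥(laurentBaseChange k (F₁ (M' * r) 1)))
  have h3 := relfinrank_mul_relfinrank hle (le_top :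
    (laurentBaseChange k (F₁ M' r)).comap (laurentBaseChange k (F₁ (M' * r) 1)).val ≤ ⊤)
  rw [relfinrank_top_right, relfinrank_top_right] at h3
  intro h0
  rw [h0, mul_zero] at h3
  exact (Module.finrank_pos (R := ↥(FixedPoints.intermediateField (F := k)
      (E := ↥(laurentBaseChange k (F₁ (M' * r) 1))) (ZMod r)ˣ))
      (M := ↥(laurentBaseChange k (F₁ (M' * r) 1)))).ne' h3.symm

end Laurent

/-! ### (H1), (H2): the hosts -/

section Hosts

variable (K : Type*) [Field K] [Algebra ℚ K] [Algebra K ℂ] [IsScalarTower ℚ K ℂ]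
  (M' r : ℕ) [NeZero M'] [NeZero r]

/-- **(H1)** `EN₁ ≤ E''`. -/
theorem legEL_raise_le (hM' : M' ≠ 1) : legEL K M' r ≤ legEL K (M' * r) 1 :=
  legHost_mono (F₁_raise_le M' r hM')

theorem hostW_raise_le (w : ℕ) [NeZero w] (hM' : M' ≠ 1) :
    hostW K w (F₁ M' r) ≤ hostW K w (F₁ (M' * r) 1) :=
  hostW_mono w (F₁_raise_le M' r hM')

/-- the relative degree of the host images. -/
theorem relfinrank_hostW_raise (w : ℕ) [NeZero w] :
    (hostW K w (F₁ M' r)).relfinrank (hostW K w (F₁ (M' * r) 1)) =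
      (laurentBaseChange K (F₁ M' r)).relfinrank (laurentBaseChange K (F₁ (M' * r) 1)) :=
  relfinrank_map_map _ _ (qExpandAlgHomC K w)

variable (hcop : Nat.Coprime M' r)

include hcop in
/-- **(H2)** `[E'' : EN₁] ≤ φ(r)`, and `E'' / EN₁` is finite (relative-degree form). -/
theorem relfinrank_legEL_raise_le (hM' : M' ≠ 1) :
    (legEL K M' r).relfinrank (legEL K (M' * r) 1) ≤ Nat.totient r ∧
      (legEL K M' r).relfinrank (legEL K (M' * r) 1) ≠ 0 := by
  have h0 : (hostW K 2 (F₁ M' r)).relfinrank (hostW K 2 (F₁ (M' * r) 1)) ≠ 0 := by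
    rw [relfinrank_hostW_raise]
    exact relfinrank_F₁_raise_ne_zero M' r hcop hM'
  obtain ⟨h1, h2⟩ := relfinrank_sup_sup_le K⟮legT K⟯ _ _ (hostW_raise_le K M' r 2 hM') h0
  rw [relfinrank_hostW_raise] at h1
  rw [legEL, legEL, legHost_eq_sup, legHost_eq_sup]
  exact ⟨h1.trans (relfinrank_F₁_raise_le M' r hcop hM'), h2⟩

include hcop in
/-- **(H2)**, inclusion-algebra form. -/
theorem finrank_legEL_raise_le (hM' : M' ≠ 1) :
    letI := (IntermediateField.inclusion (legEL_raise_le K M' r hM')).toRingHom.toAlgebra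
    Module.finrank ↥(legEL K M' r) ↥(legEL K (M' * r) 1) ≤ Nat.totient r := by
  letI := (IntermediateField.inclusion (legEL_raise_le K M' r hM')).toRingHom.toAlgebra
  rw [finrank_inclusion_eq_relfinrank (legEL_raise_le K M' r hM')]
  exact (relfinrank_legEL_raise_le K M' r hcop hM').1

include hcop in
theorem finite_legEL_raise (hM' : M' ≠ 1) :
    letI := (IntermediateField.inclusion (legEL_raise_le K M' r hM')).toRingHom.toAlgebra
    Module.Finite ↥(legEL K M' r) ↥(legEL K (M' * r) 1) :=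
  finite_inclusion_of_relfinrank_ne_zero (legEL_raise_le K M' r hM')
    (relfinrank_legEL_raise_le K M' r hcop hM').2

end Hosts

/-! ### (H3): the embedding of `K·F₀` into its host -/

section Emb

variable (K : Type*) [Field K] [Algebra ℚ K] (F₀ : IntermediateField ℚ (LaurentSeries ℚ))

/-- the embedding `K·F₀ → legHost K F₀`, `f ↦ f(x²)`. -/
def legHostEmb : ↥(laurentBaseChange K F₀) →ₐ[K] ↥(legHost K F₀) :=
  (IntermediateField.inclusion (hostW_le_legHost (K := K) F₀)).comp
    (hostImageEquiv K 2 (laurentBaseChange K F₀)).toAlgHom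

@[simp] theorem coe_legHostEmb (x : ↥(laurentBaseChange K F₀)) :
    ((legHostEmb K F₀ x : ↥(legHost K F₀)) : LaurentSeries K) =
      qExpand K 2 (x : LaurentSeries K) := rfl

variable {K F₀}

/-- the host is integral over the image of `K·F₀` as soon as `j ∈ K·F₀`. -/
theorem legHostEmb_isIntegral (hj : jqNModC K 2 ∈ hostW K 2 F₀) :
    (legHostEmb K F₀).toRingHom.IsIntegral := by
  have hle : (K⟮jqNModC K 2⟯ : IntermediateField K (LaurentSeries K)) ≤ hostW K 2 F₀ := by
    rw [adjoin_simple_le_iff]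
    exact hj
  letI : Algebra ↥K⟮jqNModC K 2⟯ ↥(hostW K 2 F₀) :=
    (IntermediateField.inclusion hle).toRingHom.toAlgebra
  haveI : IsScalarTower ↥K⟮jqNModC K 2⟯ ↥(hostW K 2 F₀) (LaurentSeries K) :=
    IsScalarTower.of_algebraMap_eq (fun _ => rfl)
  have ht : IsIntegral ↥(hostW K 2 F₀) (legT K) := (isIntegral_legT K).tower_top
  intro y
  have hy : (y : LaurentSeries K) ∈ K⟮legT K⟯ ⊔ hostW K 2 F₀ :=
    (legHost_eq_sup (K := K) F₀).le y.2
  obtain ⟨p, hp, hpy⟩ := isIntegral_of_mem_adjoin_sup (hostW K 2 F₀) ht hy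
  refine ⟨p.map ((hostImageEquiv K 2 (laurentBaseChange K F₀)).symm :
    ↥(hostW K 2 F₀) →+* ↥(laurentBaseChange K F₀)), hp.map _, ?_⟩
  rw [Polynomial.eval₂_map]
  apply Subtype.ext
  have h1 : ((Polynomial.eval₂ ((legHostEmb K F₀).toRingHom.comp
      ((hostImageEquiv K 2 (laurentBaseChange K F₀)).symm :
        ↥(hostW K 2 F₀) →+* ↥(laurentBaseChange K F₀))) y p : ↥(legHost K F₀)) :
      LaurentSeries K) =
      Polynomial.eval₂ (algebraMap ↥(hostW K 2 F₀) (LaurentSeries K)) (y : LaurentSeries K) p := by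
    rw [← IntermediateField.coe_val, ← AlgHom.coe_toRingHom, Polynomial.hom_eval₂]
    congr 1
    refine RingHom.ext fun a => ?_
    show ((legHostEmb K F₀ ((hostImageEquiv K 2 (laurentBaseChange K F₀)).symm a) :
      ↥(legHost K F₀)) : LaurentSeries K) = (a : LaurentSeries K)
    rw [coe_legHostEmb, ← coe_hostImageEquiv, AlgEquiv.apply_symm_apply]
  rw [h1, hpy]
  rfl

/-- **(H4), abstract**: divisibility of the orders goes up to the host. -/
theorem dvd_ord_legHostEmb (hj : jqNModC K 2 ∈ hostW K 2 F₀) {m : ℤ}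
    (f : ↥(laurentBaseChange K F₀))
    (h : ∀ v : Place K ↥(laurentBaseChange K F₀), m ∣ v.ord f)
    (P : Place K ↥(legHost K F₀)) : m ∣ P.ord (legHostEmb K F₀ f) := by
  rw [Place.ord_restrictAlong (legHostEmb K F₀) (legHostEmb_isIntegral hj) P f]
  exact Dvd.dvd.mul_left (h _) _

end Emb

/-! ### (H3), (H4) at the levels `(M', r)` and `(M' r, 1)` -/

section Level

variable (K : Type*) [Field K] [Algebra ℚ K] [Algebra K ℂ] [IsScalarTower ℚ K ℂ]
  (M' r : ℕ) [NeZero M'] [NeZero r]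

theorem jqNModC_mem_hostW_F₁ (M L : ℕ) [NeZero M] [NeZero L] :
    jqNModC K 2 ∈ hostW K 2 (F₁ M L) :=
  qExpand_mem_hostImage (by
    rw [W1.laurentBaseChange_F₁_eq_F₁C]
    exact W1.jqModC_mem_F₁C K M L)

/-- **(H3)** the Kummer equation on the hosts: `u ^ m = f` in `E''`. -/
theorem legHostEmb_pow_eq (hM' : M' ≠ 1) {m : ℕ} (f : ↥(laurentBaseChange K (F₁ M' r)))
    (u : ↥(laurentBaseChange K (F₁ (M' * r) 1)))
    (hfu : (u : LaurentSeries K) ^ m = (f : LaurentSeries K)) :
    (legHostEmb K (F₁ (M' * r) 1) u) ^ m =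
      IntermediateField.inclusion (legEL_raise_le K M' r hM') (legHostEmb K (F₁ M' r) f) := by
  apply Subtype.ext
  rw [IntermediateField.coe_inclusion, coe_legHostEmb]
  push_cast
  rw [coe_legHostEmb, ← map_pow, hfu]

/-- **(H4)** `m ∣ ord_P f` at every place `P` of `EN₁ = legEL K M' r` over `K`. -/
theorem dvd_ord_legEL_of_pow_eq (Ω : Type*) [Field Ω] [Algebra ℚ Ω] [Algebra Ω ℂ]
    [IsScalarTower ℚ Ω ℂ] [CharZero Ω] [IsAlgClosed Ω] [Algebra K Ω] [IsScalarTower ℚ K Ω]
    [Algebra.IsAlgebraic K Ω] (hM' : 5 ≤ M') (hr : r.Prime) (hcop : Nat.Coprime M' r) {m : ℕ}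
    (f : ↥(laurentBaseChange K (F₁ M' r))) (hf : f ≠ 0)
    (u : ↥(laurentBaseChange K (F₁ (M' * r) 1)))
    (hfu : (u : LaurentSeries K) ^ m = (f : LaurentSeries K))
    (P : Place K ↥(legEL K M' r)) : (m : ℤ) ∣ P.ord (legHostEmb K (F₁ M' r) f) :=
  dvd_ord_legHostEmb (jqNModC_mem_hostW_F₁ K M' r) f
    (fun v => dvd_ord_of_pow_eq_base Ω M' r hM' hr hcop f hf u hfu v) P

end Level

end

end Fermat.Agent.RB
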