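/-
RB [BB3] = (KEY-H), package G [DESC1] — helper4 — part 3: **THE INTERFACE between the host half
(helper5 `pow_of_inertia_diamond` + its instantiation, helper7/helper8 hosts) and the descent to
`J₁(M)`.**

`M = M' r`, `r ∥ M` an odd prime, `σ ∈ I_A`, `A | r`; `K₁` a Galois base; host
`E'' = legEL K₁ (M' r) 1` (`= W1.legE K₁ (M' r)` definitionally) inside `K₁⸨x⸩`;
`s = coeffRingAut … (resGal K₁ σ)` the coefficientwise action of `σ`, `δ` a `K₁`-automorphism of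
`E''` restricting to the diamond `⟨(cyc_M σ)⁻¹⟩ = W1.diaAlg M 1 (cyc M σ)⁻¹` (upper-left
convention, `= diaU`) on the image of `K₁·F₁(M, 1)` under `legHostEmb` (`f ↦ f(x²)`).

* `hostTheta s δ f` : `g₃ = s g₂ / g₂`, `g₂ = s h / h`, `h = s g₁ / δ g₁`, `g₁ = s f / f`
  (helper5's `g₁, g₂` of `pow_of_inertia_diamond`);
* `HostThetaAt M' r σ m K₁` : the host statement at the base `K₁`;
* **`LegThetaBase`** : the host statement at all sufficiently large Galois bases — THE literal the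
  host half has to deliver; `DESC1_helper4_Main` proves `LegThetaBase → ∀ M ≥ 5, ThetaKillsJ1 M p`.
-/
import Mathlib
import Fermat.Agent.RB.FIELD1_helper5_Host
import Fermat.Agent.W1.HECKEF_helper4_Dia
import Fermat.Agent.TW.Kill_helper1_Cyc
import Fermat.Agent.SS.BASE_helper1_Leg

set_option autoImplicit false
set_option linter.unusedSectionVars false
set_option linter.unusedVariables false
set_option linter.style.haveILetI false

open HahnSeries IntermediateField AlgebraicCurve ModularCurve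

noncomputable section

namespace Fermat.Agent.RB.DESC1

open Fermat.Agent.JA Fermat.Agent.SS Fermat.Agent.W1 Fermat.Agent.TW.Kill

local notation "Ω" => AlgebraicClosure ℚ
local notation "GQ" => (AlgebraicClosure ℚ ≃ₐ[ℚ] AlgebraicClosure ℚ)

section Theta

variable {F : Type*} [Field F]

/-- `a f / b f` for ring endomorphisms. -/
def hostQuot (a b : F →+* F) (f : F) : F := a f / b f

/-- helper5's `g₂ = s h / h`, `h = s g₁ / δ g₁`, `g₁ = s f / f`. -/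
def hostG₂ (s δ : F →+* F) (f : F) : F :=
  hostQuot s (RingHom.id F) (hostQuot s δ (hostQuot s (RingHom.id F) f))

/-- **`Θ f = g₃ = s g₂ / g₂`** on a host. -/
def hostTheta (s δ : F →+* F) (f : F) : F := hostQuot s (RingHom.id F) (hostG₂ s δ f)

theorem hostG₂_eq (s δ : F →+* F) (f : F) :
    hostG₂ s δ f = s (s (s f / f) / δ (s f / f)) / (s (s f / f) / δ (s f / f)) := rfl

theorem hostTheta_eq (s δ : F →+* F) (f : F) :
    hostTheta s δ f = s (hostG₂ s δ f) / hostG₂ s δ f := rfl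

end Theta

/-- **the host statement of (KEY-H) at a Galois base `K₁`**, `M = M' r`. -/
def HostThetaAt (M' r : ℕ) [NeZero M'] [NeZero r] [NeZero (M' * r)] (σ : GQ) (m : ℕ)
    (K₁ : IntermediateField ℚ Ω) [Normal ℚ ↥K₁] : Prop :=
  letI : Algebra ↥K₁ ℂ := baseToComplex K₁
  haveI : IsScalarTower ℚ ↥K₁ ℂ := IsScalarTower.of_algebraMap_eq' (Subsingleton.elim _ _)
  ∃ δ : ↥(legEL ↥K₁ (M' * r) 1) ≃ₐ[↥K₁] ↥(legEL ↥K₁ (M' * r) 1),
    (∀ x : ↥(laurentBaseChange ↥K₁ (F₁ (M' * r) 1)),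
      δ (legHostEmb ↥K₁ (F₁ (M' * r) 1) x) =
        legHostEmb ↥K₁ (F₁ (M' * r) 1) (diaAlg (k := ↥K₁) (M' * r) 1 (cyc (M' * r) σ)⁻¹ x)) ∧
    ∀ f : ↥(legEL ↥K₁ (M' * r) 1), f ≠ 0 →
      (∀ P : Place ↥K₁ ↥(legEL ↥K₁ (M' * r) 1),
        P.ord (hostG₂ (coeffRingAut (coeffStable_legHost (K := ↥K₁) (F₁ (M' * r) 1))
            (resGal K₁ σ) : ↥(legEL ↥K₁ (M' * r) 1) →+* ↥(legEL ↥K₁ (M' * r) 1))
          (δ : ↥(legEL ↥K₁ (M' * r) 1) →+* ↥(legEL ↥K₁ (M' * r) 1)) f) = 0 ∨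
        (IsRationalPlace P ∧ (m : ℤ) ∣
          P.ord (hostG₂ (coeffRingAut (coeffStable_legHost (K := ↥K₁) (F₁ (M' * r) 1))
            (resGal K₁ σ) : ↥(legEL ↥K₁ (M' * r) 1) →+* ↥(legEL ↥K₁ (M' * r) 1))
          (δ : ↥(legEL ↥K₁ (M' * r) 1) →+* ↥(legEL ↥K₁ (M' * r) 1)) f))) →
      (∀ P : Place ↥K₁ ↥(legEL ↥K₁ (M' * r) 1),
        P.ord (hostTheta (coeffRingAut (coeffStable_legHost (K := ↥K₁) (F₁ (M' * r) 1))
            (resGal K₁ σ) : ↥(legEL ↥K₁ (M' * r) 1) →+* ↥(legEL ↥K₁ (M' * r) 1))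
          (δ : ↥(legEL ↥K₁ (M' * r) 1) →+* ↥(legEL ↥K₁ (M' * r) 1)) f) = 0 ∨
        (IsRationalPlace P ∧ (m : ℤ) ∣
          P.ord (hostTheta (coeffRingAut (coeffStable_legHost (K := ↥K₁) (F₁ (M' * r) 1))
            (resGal K₁ σ) : ↥(legEL ↥K₁ (M' * r) 1) →+* ↥(legEL ↥K₁ (M' * r) 1))
          (δ : ↥(legEL ↥K₁ (M' * r) 1) →+* ↥(legEL ↥K₁ (M' * r) 1)) f))) →
      (∃ μ : ↥K₁, μ ≠ 0 ∧
        ((hostTheta (coeffRingAut (coeffStable_legHost (K := ↥K₁) (F₁ (M' * r) 1))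
            (resGal K₁ σ) : ↥(legEL ↥K₁ (M' * r) 1) →+* ↥(legEL ↥K₁ (M' * r) 1))
          (δ : ↥(legEL ↥K₁ (M' * r) 1) →+* ↥(legEL ↥K₁ (M' * r) 1)) f :
            ↥(legEL ↥K₁ (M' * r) 1)) : LaurentSeries ↥K₁).leadingCoeff = μ ^ m) →
      ∃ u : ↥(legEL ↥K₁ (M' * r) 1),
        hostTheta (coeffRingAut (coeffStable_legHost (K := ↥K₁) (F₁ (M' * r) 1))
            (resGal K₁ σ) : ↥(legEL ↥K₁ (M' * r) 1) →+* ↥(legEL ↥K₁ (M' * r) 1))
          (δ : ↥(legEL ↥K₁ (M' * r) 1) →+* ↥(legEL ↥K₁ (M' * r) 1)) f = u ^ m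

/-- **THE HOST LITERAL of package G**: (KEY-H) on the hosts `legEL K₁ (M' r) 1` over all
sufficiently large Galois bases `K₁`, for the exponents `m = p ^ n`, `p ≥ 5` a prime `≠ r`. -/
def LegThetaBase : Prop :=
  ∀ (M' r : ℕ) [NeZero M'] [NeZero r] [NeZero (M' * r)], 5 ≤ M' → r.Prime → r ≠ 2 →
    Nat.Coprime M' r →
  ∀ (A : ValuationSubring Ω), A.LiesOverPrime r → ∀ σ ∈ A.inertiaSubgroupIn ℚ,
  ∀ (p : ℕ), p.Prime → 5 ≤ p → p ≠ r → ∀ n : ℕ,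
  ∃ K₀ : IntermediateField ℚ Ω, IsBase r K₀ ∧
    ∀ (K₁ : IntermediateField ℚ Ω) [Normal ℚ ↥K₁], IsGalBase r K₁ → K₀ ≤ K₁ →
      HostThetaAt M' r σ (p ^ n) K₁

end Fermat.Agent.RB.DESC1

end
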