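/-
RB [BB3] = (KEY-H), package G [DESC1] — helper4 — part 4: **Kummer-type functions and their
transport under semilinear automorphisms** (generic).

`IsKum m f` : all orders of `f` are divisible by `m` and the support of `div f` consists of rational
places.  It is stable under `f ↦ a f / b f` for semilinear automorphisms `a, b`
(`IsKum.quotFun`), hence under `Θ` (`IsKum.thetaFun`); `IsKum.hord` is the shape
`ord = 0 ∨ (rational ∧ m ∣ ord)` of the host statements.  Transport of `Θ` along ring homomorphisms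
intertwining the automorphisms (`map_quotFun`, `map_thetaFun`), and the comparison with the
ring-hom form `hostTheta` of the interface.
-/
import Mathlib
import Fermat.Agent.RB.DESC1_helper4_Abs
import Fermat.Agent.RB.DESC1_helper4_Iface
import Fermat.Agent.SS.IBASE_helper1_Place
import Fermat.Agent.SS.TOPB_lead_Gen

set_option autoImplicit false
set_option linter.unusedSectionVars false
set_option linter.unusedVariables false
set_option linter.style.haveILetI false

open AlgebraicCurve

noncomputable section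

namespace Fermat.Agent.RB.DESC1

open Fermat.Agent.S35 Fermat.Agent.NP Fermat.Agent.SS Fermat.Agent.JA

section Kum

variable {K F : Type*} [Field K] [Field F] [Algebra K F]

/-- **Kummer-type functions**: all orders divisible by `m`, rational support. -/
def IsKum (K : Type*) {F : Type*} [Field K] [Field F] [Algebra K F] (m : ℕ) (f : F) : Prop :=
  ∀ Q : Place K F, (m : ℤ) ∣ Q.ord f ∧ (Q.ord f ≠ 0 → IsRationalPlace Q)

theorem quotFun_ne_zero (a b : SemilinearAut K F) {f : F} (hf : f ≠ 0) : quotFun a b f ≠ 0 :=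
  div_ne_zero (semilinear_smul_ne_zero a hf) (semilinear_smul_ne_zero b hf)

theorem ord_quotFun (a b : SemilinearAut K F) {f : F} (hf : f ≠ 0) (P : Place K F) :
    P.ord (quotFun a b f) = (a⁻¹ • P).ord f - (b⁻¹ • P).ord f := by
  unfold quotFun
  rw [div_eq_mul_inv, P.ord_mul (semilinear_smul_ne_zero a hf)
    (inv_ne_zero (semilinear_smul_ne_zero b hf)), P.ord_inv, place_ord_smul_eq,
    place_ord_smul_eq]
  ring

/-- **`IsKum` is stable under `f ↦ a f / b f`.** -/
theorem IsKum.quotFun {m : ℕ} {f : F} (h : IsKum K m f) (hf : f ≠ 0) (a b : SemilinearAut K F) :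
    IsKum K m (quotFun a b f) := by
  intro P
  rw [ord_quotFun a b hf P]
  refine ⟨dvd_sub (h _).1 (h _).1, fun hne => ?_⟩
  by_cases h1 : (a⁻¹ • P).ord f = 0
  · have h2 : (b⁻¹ • P).ord f ≠ 0 := by
      intro h2
      apply hne
      rw [h1, h2, sub_zero]
    exact (isRationalPlace_smul_iff b⁻¹ P).1 ((h _).2 h2)
  · exact (isRationalPlace_smul_iff a⁻¹ P).1 ((h _).2 h1)

/-- the shape of the host statements. -/
theorem IsKum.hord {m : ℕ} {f : F} (h : IsKum K m f) (P : Place K F) :
    P.ord f = 0 ∨ (IsRationalPlace P ∧ (m : ℤ) ∣ P.ord f) := by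
  by_cases h0 : P.ord f = 0
  · exact Or.inl h0
  · exact Or.inr ⟨(h P).2 h0, (h P).1⟩

/-- helper5's `g₂`, in the semilinear form. -/
def g₂Fun (s δ : SemilinearAut K F) (f : F) : F :=
  quotFun s 1 (quotFun s δ (quotFun s 1 f))

theorem thetaFun_eq_quotFun_g₂Fun (s δ : SemilinearAut K F) (f : F) :
    thetaFun s δ f = quotFun s 1 (g₂Fun s δ f) := rfl

theorem g₂Fun_ne_zero (s δ : SemilinearAut K F) {f : F} (hf : f ≠ 0) : g₂Fun s δ f ≠ 0 :=
  quotFun_ne_zero _ _ (quotFun_ne_zero _ _ (quotFun_ne_zero _ _ hf))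

theorem IsKum.g₂Fun {m : ℕ} {f : F} (h : IsKum K m f) (hf : f ≠ 0) (s δ : SemilinearAut K F) :
    IsKum K m (g₂Fun s δ f) :=
  ((h.quotFun hf s 1).quotFun (quotFun_ne_zero _ _ hf) s δ).quotFun
    (quotFun_ne_zero _ _ (quotFun_ne_zero _ _ hf)) s 1

theorem IsKum.thetaFun {m : ℕ} {f : F} (h : IsKum K m f) (hf : f ≠ 0) (s δ : SemilinearAut K F) :
    IsKum K m (thetaFun s δ f) :=
  (h.g₂Fun hf s δ).quotFun (g₂Fun_ne_zero s δ hf) s 1

/-- the ring-hom forms of the interface are the semilinear forms. -/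
theorem hostG₂_eq_g₂Fun (s δ : SemilinearAut K F) (f : F) :
    hostG₂ ((SemilinearAut.toRingAut s : F ≃+* F) : F →+* F)
      ((SemilinearAut.toRingAut δ : F ≃+* F) : F →+* F) f = g₂Fun s δ f := by
  unfold hostG₂ hostQuot g₂Fun quotFun
  simp only [SemilinearAut.smul_def, RingHom.id_apply, one_smul, RingHom.coe_coe]

theorem hostTheta_eq_thetaFun (s δ : SemilinearAut K F) (f : F) :
    hostTheta ((SemilinearAut.toRingAut s : F ≃+* F) : F →+* F)
      ((SemilinearAut.toRingAut δ : F ≃+* F) : F →+* F) f = thetaFun s δ f := by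
  rw [thetaFun_eq_quotFun_g₂Fun, ← hostG₂_eq_g₂Fun]
  unfold hostTheta hostQuot quotFun
  simp only [SemilinearAut.smul_def, RingHom.id_apply, one_smul, RingHom.coe_coe]

/-- the ring-hom forms of the interface are the semilinear forms (pointwise hypotheses). -/
theorem hostG₂_eq_g₂Fun' (s δ : SemilinearAut K F) (a b : F →+* F) (ha : ∀ x, a x = s • x)
    (hb : ∀ x, b x = δ • x) (f : F) : hostG₂ a b f = g₂Fun s δ f := by
  unfold hostG₂ hostQuot g₂Fun quotFun
  simp only [ha, hb, RingHom.id_apply, one_smul]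

theorem hostTheta_eq_thetaFun' (s δ : SemilinearAut K F) (a b : F →+* F) (ha : ∀ x, a x = s • x)
    (hb : ∀ x, b x = δ • x) (f : F) : hostTheta a b f = thetaFun s δ f := by
  rw [thetaFun_eq_quotFun_g₂Fun, ← hostG₂_eq_g₂Fun' s δ a b ha hb]
  unfold hostTheta hostQuot quotFun
  simp only [ha, RingHom.id_apply, one_smul]

end Kum

section Map

variable {K F K' F' : Type*} [Field K] [Field F] [Algebra K F] [Field K'] [Field F']
  [Algebra K' F']

/-- transport of `a f / b f` along a ring homomorphism intertwining the automorphisms. -/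
theorem map_quotFun (φ : F →+* F') {a b : SemilinearAut K F} {a' b' : SemilinearAut K' F'}
    (ha : ∀ x, φ (a • x) = a' • φ x) (hb : ∀ x, φ (b • x) = b' • φ x) (f : F) :
    φ (quotFun a b f) = quotFun a' b' (φ f) := by
  unfold quotFun
  rw [map_div₀, ha, hb]

/-- **transport of `Θ`** along a ring homomorphism intertwining `s, δ` with `s', δ'`. -/
theorem map_thetaFun (φ : F →+* F') {s δ : SemilinearAut K F} {s' δ' : SemilinearAut K' F'}
    (hs : ∀ x, φ (s • x) = s' • φ x) (hδ : ∀ x, φ (δ • x) = δ' • φ x) (f : F) :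
    φ (thetaFun s δ f) = thetaFun s' δ' (φ f) := by
  have h1 : ∀ x, φ ((1 : SemilinearAut K F) • x) = (1 : SemilinearAut K' F') • φ x := fun x => by
    rw [one_smul, one_smul]
  unfold thetaFun
  rw [map_quotFun φ hs h1, map_quotFun φ hs h1, map_quotFun φ hs hδ, map_quotFun φ hs h1]

end Map

end Fermat.Agent.RB.DESC1

end
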