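/-
PROJECT RB — ARCHITECT (helper9) — INTERFACE FILE 4/4: **(KEY-H)**, the one geometric theorem
behind [BB3] (owners: helper5 (lead of BB3), helper7, helper8).

`KeyHStatement` is `DS48.AdicRepGamma1` (the `p`-adic representations attached to the
characteristic-zero eigensystems `χ` of the weight-two Hecke algebra of `±Γ₁(M)`; proven on main
through W1) with ONE extra clause: at every prime `r ≠ p` EXACTLY dividing `M`, for `σ` in an
inertia group at `r` acting on the `M`-th roots of unity through `a ∈ (ℤ/M)ˣ`,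
      `tr ρ(σ) = 1 + χ(⟨a⟩)`   or   `tr ρ(σ) = 1 + χ(⟨a⟩⁻¹)`
(the UNORDERED inertial type; the sign is irrelevant for the consumer, which only uses the
symmetric function `ψ + ψ⁻¹` after the twist by `ψ^{-1/2}`).  Together with `det ρ(σ) = χ(⟨a⟩)^{±1}`
(from the Frobenius clause by Chebotarev) this is "eigenvalues of `ρ(σ)` are `{1, ψ(σ)}`".

Geometric form to be proven (finding 422 §2): for `r ∥ M`, `σ ∈ I_r`,
`(σ - 1)² (σ - ⟨a_σ⟩^ε)` kills `Pic⁰(ℚ̄·F₁(M, L))[p^∞]`.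
-/
import Fermat.Agent.DS48.RED_lead_Defs
import Fermat.Prelude.Def_FLTPrelim_Ramification

set_option autoImplicit false

namespace Fermat.Agent.RB

open Matrix CongruenceSubgroup Polynomial IsLocalRing Fermat.Agent.DS48
open scoped MatrixGroups

local notation "Ω" => AlgebraicClosure ℚ
local notation "GQ" => (AlgebraicClosure ℚ ≃ₐ[ℚ] AlgebraicClosure ℚ)

/-- **(KEY-H)**: `AdicRepGamma1` together with the unordered inertial type at the primes exactly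
dividing the level. -/
def KeyHStatement : Prop :=
  ∀ (M : ℕ) [NeZero M], 5 ≤ M → ∀ (p : ℕ) [Fact p.Prime]
    (𝒪' : Type) [CommRing 𝒪'] [IsDomain 𝒪'] [IsDiscreteValuationRing 𝒪']
    [IsAdicComplete (maximalIdeal 𝒪') 𝒪'] [Finite (ResidueField 𝒪')] [CharZero 𝒪'],
    (p : 𝒪') ∈ maximalIdeal 𝒪' → ∀ χ : ↥(hecke1Alg M) →+* 𝒪',
    ∃ (𝒪'' : Type) (_ : CommRing 𝒪'') (_ : IsDomain 𝒪'') (_ : IsDiscreteValuationRing 𝒪'')
      (_ : IsAdicComplete (maximalIdeal 𝒪'') 𝒪'') (_ : Finite (ResidueField 𝒪''))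
      (_ : CharZero 𝒪'') (_ : Algebra 𝒪' 𝒪'') (_ : Module.Finite 𝒪' 𝒪'')
      (_ : IsLocalHom (algebraMap 𝒪' 𝒪'')),
      Function.Injective (algebraMap 𝒪' 𝒪'') ∧ ∃ ρ : GaloisRepAdic 𝒪'',
        (∀ (q : ℕ) (hq : q.Prime) (hqM : ¬ q ∣ M), q ≠ p →
          ∀ A : ValuationSubring Ω, A.LiesOverPrime q → ∀ σ : GQ, A.IsFrobeniusAt σ q →
            LinearMap.charpoly (ρ.ρ σ) =
              X ^ 2 - C (algebraMap 𝒪' 𝒪''
                (χ ⟨heckeT1 2 hq hqM, heckeT1_mem_hecke1Alg M hq hqM⟩)) * X +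
              C ((q : 𝒪'') * algebraMap 𝒪' 𝒪''
                (χ ⟨diamond 2 (primeUnit M hq hqM), diamond_mem_hecke1Alg M _⟩))) ∧
        (∀ q : ℕ, q.Prime → ¬ q ∣ M → q ≠ p → ρ.IsUnramifiedAt q) ∧
        -- the new clause (v1.1: restricted to `p ≥ 5` and nebentypus of `p`-power order; v1.2: and to
        -- `r ≠ 2`, `5 ≤ M / r` (helper8) -- all that REP_T (B) / GLUE consume)
        (5 ≤ p → (∀ d : (ZMod M)ˣ, ∃ k : ℕ,
            χ ⟨diamond 2 d, diamond_mem_hecke1Alg M _⟩ ^ (p ^ k) = 1) →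
          ∀ r : ℕ, r.Prime → r ∣ M → ¬ r ^ 2 ∣ M → r ≠ p → r ≠ 2 → 5 ≤ M / r →
          ∀ A : ValuationSubring Ω, A.LiesOverPrime r → ∀ σ ∈ A.inertiaSubgroupIn ℚ,
            ∀ a : (ZMod M)ˣ, (∀ ζ : Ω, ζ ^ M = 1 → σ ζ = ζ ^ (a : ZMod M).val) →
              LinearMap.trace 𝒪'' ρ.V (ρ.ρ σ) =
                  1 + algebraMap 𝒪' 𝒪'' (χ ⟨diamond 2 a, diamond_mem_hecke1Alg M _⟩) ∨
              LinearMap.trace 𝒪'' ρ.V (ρ.ρ σ) =
                  1 + algebraMap 𝒪' 𝒪'' (χ ⟨diamond 2 a⁻¹, diamond_mem_hecke1Alg M _⟩))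

/-- (KEY-H) contains `AdicRepGamma1`. -/
theorem KeyHStatement.adicRepGamma1 (h : KeyHStatement) : AdicRepGamma1 := by
  intro M _ hM p _ 𝒪' _ _ _ _ _ _ hp χ
  obtain ⟨𝒪'', i1, i2, i3, i4, i5, i6, i7, i8, i9, hinj, ρ, h1, h2, -⟩ := h M hM p 𝒪' hp χ
  exact ⟨𝒪'', i1, i2, i3, i4, i5, i6, i7, i8, i9, hinj, ρ, h1, h2⟩

end Fermat.Agent.RB
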