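/-
PROJECT RB — [BB3] package H = [TRACE], lead, part 4: **`KeyHStatement` from the geometric target
of [BB3] stated on `J₁(M)` alone** (no stage-(I) data in the statement):

  `ThetaKillsJ1 M p` : (if `5 ≤ p`) for every prime `r ≠ p`, `r ≠ 2`, exactly dividing `M`, with
  `5 ≤ M / r` (interface v1.3), every place `A | r` of `ℚ̄`
  and every `σ` in the inertia group of `A` there are `k l` such that
  `(σ - 1)^k (σ - ⟨(cyc_M σ)⁻¹⟩)^l` kills `J₁(M)[p^∞]`, where `⟨d⟩ = W1.diaBar M 1 d`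
  (helper4's upper-left convention; `W1.opBar M hM (inr d) = diaBar M 1 d⁻¹` is the operator
  corresponding to `diamondGrp d` — lower right — under the Kummer maps, and
  `det ρ(g) = cyc_p(g) · a(inr (cyc_M g))`).

`keyHStatement_of_thetaKillsJ1 : (∀ M ≥ 5, ∀ p, ThetaKillsJ1 M p) → KeyHStatement`.
-/
import Fermat.Agent.RB.KEYHTR_lead_Main
import Fermat.Agent.W1.FINAL_helper7_ModRep

set_option autoImplicit false
set_option linter.unusedSectionVars false
set_option linter.unusedVariables false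
set_option linter.style.haveILetI false

namespace Fermat.Agent.RB

open Fermat.Agent.GR Fermat.Agent.W1 Fermat.Agent.TW.Kill

local notation "Ω" => AlgebraicClosure ℚ
local notation "GQ" => (AlgebraicClosure ℚ ≃ₐ[ℚ] AlgebraicClosure ℚ)

/-- the diamond operator `⟨d⟩ = diaBar M 1 d` as an element of the ring `End(J₁(M))`. -/
noncomputable def diaBarEnd (M : ℕ) [NeZero M] (d : (ZMod M)ˣ) : AddMonoid.End (J₁ M) :=
  diaBar M 1 d

/-- **the geometric target of [BB3]**, on `J₁(M)`. -/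
def ThetaKillsJ1 (M : ℕ) [NeZero M] (p : ℕ) : Prop :=
  5 ≤ p → ∀ r : ℕ, r.Prime → r ∣ M → ¬ r ^ 2 ∣ M → r ≠ p → r ≠ 2 → 5 ≤ M / r →
    ∀ A : ValuationSubring Ω, A.LiesOverPrime r → ∀ σ ∈ A.inertiaSubgroupIn ℚ,
      ∃ k l : ℕ, ∀ x : J₁ M, (∃ n : ℕ, p ^ n • x = 0) →
        ((DistribMulAction.toAddMonoidEnd GQ (J₁ M) σ - 1) ^ k *
          (DistribMulAction.toAddMonoidEnd GQ (J₁ M) σ - diaBarEnd M (cyc M σ)⁻¹) ^ l) x = 0

/-- the stage-(I) datum of W1 (unconditional). -/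
noncomputable def w1Stage (M : ℕ) [NeZero M] (hM5 : 5 ≤ M) (p : ℕ) [Fact p.Prime] :
    StageIData₁ M p :=
  haveI : W1Api M := w1Api_of_five_le M hM5
  have hM : M ≠ 1 := by omega
  stageIData₁_of M hM p (fixHyp_of_api M) (clauseHyp_of_esCharts M hM (esChartsHyp M hM) p)

theorem thetaKills_w1Stage (M : ℕ) [NeZero M] (hM5 : 5 ≤ M) (p : ℕ) [Fact p.Prime]
    (h : ThetaKillsJ1 M p) : ThetaKills (w1Stage M hM5 p) := by
  intro h5 r hr hrM hr2 hrp hr2' hMr A hA σ hσ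
  exact h h5 r hr hrM hr2 hrp hr2' hMr A hA σ hσ

open Polynomial IsLocalRing in
/-- **(KEY-H) for a SYSTEM of eigenvalues** `a : HIdx M → B` occurring in `Hom_par(Γ₁(M), Frac B)`
(the form consumed by REP_T (B): (OCC-b) of [TWMOD] produces such systems), from the geometric
target of [BB3] at `(M, p)`. -/
theorem exists_rep_of_system_of_thetaKillsJ1 (M : ℕ) [NeZero M] (hM5 : 5 ≤ M) (p : ℕ)
    [Fact p.Prime] (h : ThetaKillsJ1 M p)
    (B : Type) [CommRing B] [IsDomain B] [IsDiscreteValuationRing B] [CharZero B]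
    [IsAdicComplete (maximalIdeal B) B] (hpB : (p : B) ∈ maximalIdeal B)
    (L : Type) [Field L] [Algebra B L] [IsFractionRing B L]
    (a : HIdx M → B) (hocc : W1.eigenPar M L (W1.mapSys M B L a) ≠ ⊥) :
    ∃ ρ : GaloisRepAdic B,
      (∀ (q : ℕ) (hq : q.Prime) (hqM : ¬ q ∣ M), q ≠ p →
        ∀ A : ValuationSubring Ω, A.LiesOverPrime q → ∀ σ : GQ, A.IsFrobeniusAt σ q →
          LinearMap.charpoly (ρ.ρ σ) = X ^ 2 - C (a (Sum.inl ⟨q, hq⟩)) * X +
            C ((q : B) * a (Sum.inr (DS48.primeUnit M hq hqM)))) ∧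
      (∀ q : ℕ, q.Prime → ¬ q ∣ M → q ≠ p → ρ.IsUnramifiedAt q) ∧
      (5 ≤ p → ∀ r : ℕ, r.Prime → r ∣ M → ¬ r ^ 2 ∣ M → r ≠ p → r ≠ 2 → 5 ≤ M / r →
        ∀ A : ValuationSubring Ω, A.LiesOverPrime r → ∀ σ ∈ A.inertiaSubgroupIn ℚ,
          LinearMap.trace B ρ.V (ρ.ρ σ) = 1 + a (Sum.inr (cyc M σ))) := by
  haveI : ESHyp M := esHyp_of_ne_one M (by omega)
  exact exists_rep_of_system_keyH (w1Stage M hM5 p) (thetaKills_w1Stage M hM5 p h) B hpB L a hocc

/-- **(KEY-H) from the geometric target of [BB3].** -/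
theorem keyHStatement_of_thetaKillsJ1
    (h : ∀ (M : ℕ) [NeZero M], 5 ≤ M → ∀ (p : ℕ) [Fact p.Prime], ThetaKillsJ1 M p) :
    KeyHStatement :=
  keyHStatement_of_thetaKills fun M _ hM p _ =>
    ⟨w1Stage M hM p, thetaKills_w1Stage M hM p (h M hM p)⟩

end Fermat.Agent.RB
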