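/-
RB [BB3] = (KEY-H), package G [DESC1] — helper4 — part 2: **from the Kummer form over `Ω = ℚ̄` to
`Θ_σ` killing `J₁(M)[p^∞]`.**

* `diaSLBar M d` : the diamond `⟨d⟩` (helper4's upper-left convention, `W1.diaSL`) as a semilinear
  automorphism of the function field `F₁Bar M 1` of `X₁(M)` over `Ω`;
* `ThetaKummerAt M p c σ d` : **the Kummer form of (KEY-H) over `Ω`**: for every `f ≠ 0` of
  `F₁Bar M 1` with all orders divisible by `p ^ n`, `(Θ f) ^ c` is a constant times a `p ^ n`-th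
  power, `Θ = (σ̄ - 1)³(σ̄ - ⟨d⟩)` multiplicatively;
* `theta_kills_of_thetaKummerAt` : it implies, for `c` prime to `p`, that
  `(σ - 1) ^ 3 * (σ - ⟨d⟩) ^ 1` kills `J₁(M)[p^∞]` (the shape of `ThetaKillsJ1`).
-/
import Mathlib
import Fermat.Agent.RB.DESC1_helper4_Abs
import Fermat.Agent.RB.KEYHTR_lead_Final

set_option autoImplicit false
set_option linter.unusedSectionVars false
set_option linter.unusedVariables false
set_option linter.style.haveILetI false

open AlgebraicCurve ModularCurve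

noncomputable section

namespace Fermat.Agent.RB.DESC1

open Fermat.Agent.S35 Fermat.Agent.NP Fermat.Agent.SS Fermat.Agent.W1 Fermat.Agent.GR
  Fermat.Agent.TW.Kill

local notation "Ω" => AlgebraicClosure ℚ
local notation "GQ" => (AlgebraicClosure ℚ ≃ₐ[ℚ] AlgebraicClosure ℚ)

variable (M : ℕ) [NeZero M]

/-- the diamond `⟨d⟩` as a semilinear automorphism of `F₁Bar M 1`. -/
def diaSLBar (d : (ZMod M)ˣ) : SemilinearAut Ω ↥(F₁Bar M 1) :=
  letI : Algebra Ω ℂ := complexEmbedding.toRingHom.toAlgebra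
  haveI : IsScalarTower ℚ Ω ℂ := IsScalarTower.of_algebraMap_eq' (Subsingleton.elim _ _)
  diaSL (k := Ω) M 1 d

theorem diaBar_apply_eq (d : (ZMod M)ˣ) (x : J₁ M) : diaBar M 1 d x = diaSLBar M d • x := rfl

/-- **the Kummer form of (KEY-H) over `Ω`**, with exponent `c`. -/
def ThetaKummerAt (p c : ℕ) (σ : GQ) (d : (ZMod M)ˣ) : Prop :=
  ∀ (n : ℕ) (f : ↥(F₁Bar M 1)), f ≠ 0 →
    (∀ v : Place Ω ↥(F₁Bar M 1), ((p ^ n : ℕ) : ℤ) ∣ v.ord f) →
    ∃ (a : Ω) (u : ↥(F₁Bar M 1)), a ≠ 0 ∧ u ≠ 0 ∧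
      thetaFun (arithmeticGalois (F₁ M 1) σ) (diaSLBar M d) f ^ c =
        algebraMap Ω ↥(F₁Bar M 1) a * u ^ (p ^ n)

section Hom

variable {K F : Type*} [Field K] [Field F] [Algebra K F]

/-- `diffPic` is additive. -/
theorem diffPic_nsmul (a b : SemilinearAut K F) (n : ℕ) (x : Pic0 K F) :
    diffPic a b (n • x) = n • diffPic a b x := by
  unfold diffPic
  have ha : a • (n • x) = n • (a • x) := map_nsmul (DistribSMul.toAddMonoidHom (Pic0 K F) a) n x
  have hb : b • (n • x) = n • (b • x) := map_nsmul (DistribSMul.toAddMonoidHom (Pic0 K F) b) n x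
  rw [ha, hb, nsmul_sub]

theorem thetaPic_nsmul (s δ : SemilinearAut K F) (n : ℕ) (x : Pic0 K F) :
    thetaPic s δ (n • x) = n • thetaPic s δ x := by
  unfold thetaPic
  rw [diffPic_nsmul, diffPic_nsmul, diffPic_nsmul, diffPic_nsmul]

theorem diffPic_zero (a b : SemilinearAut K F) : diffPic a b (0 : Pic0 K F) = 0 := by
  unfold diffPic
  have ha : a • (0 : Pic0 K F) = 0 := map_zero (DistribSMul.toAddMonoidHom (Pic0 K F) a)
  have hb : b • (0 : Pic0 K F) = 0 := map_zero (DistribSMul.toAddMonoidHom (Pic0 K F) b)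
  rw [ha, hb, sub_zero]

theorem thetaPic_zero (s δ : SemilinearAut K F) : thetaPic s δ (0 : Pic0 K F) = 0 := by
  unfold thetaPic
  rw [diffPic_zero, diffPic_zero, diffPic_zero, diffPic_zero]

end Hom

theorem end_sub_one_apply (σ : GQ) (y : J₁ M) :
    (DistribMulAction.toAddMonoidEnd GQ (J₁ M) σ - 1 : AddMonoid.End (J₁ M)) y =
      diffPic (arithmeticGalois (F₁ M 1) σ) 1 y := by
  have e : (DistribMulAction.toAddMonoidEnd GQ (J₁ M) σ - 1 : AddMonoid.End (J₁ M)) y =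
      σ • y - y := rfl
  rw [e, galois_smul_pic0_def]
  unfold diffPic
  rw [one_smul]

theorem end_sub_dia_apply (σ : GQ) (d : (ZMod M)ˣ) (y : J₁ M) :
    (DistribMulAction.toAddMonoidEnd GQ (J₁ M) σ - diaBarEnd M d : AddMonoid.End (J₁ M)) y =
      diffPic (arithmeticGalois (F₁ M 1) σ) (diaSLBar M d) y := by
  have e : (DistribMulAction.toAddMonoidEnd GQ (J₁ M) σ - diaBarEnd M d : AddMonoid.End (J₁ M)) y =
      σ • y - diaBar M 1 d y := rfl
  rw [e, galois_smul_pic0_def, diaBar_apply_eq]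
  rfl

theorem commute_end_diaBarEnd (σ : GQ) (d : (ZMod M)ˣ) :
    Commute (DistribMulAction.toAddMonoidEnd GQ (J₁ M) σ) (diaBarEnd M d) := by
  have key : ∀ y : J₁ M, (DistribMulAction.toAddMonoidEnd GQ (J₁ M) σ * diaBarEnd M d) y =
      (diaBarEnd M d * DistribMulAction.toAddMonoidEnd GQ (J₁ M) σ) y := by
    intro y
    have e1 : (DistribMulAction.toAddMonoidEnd GQ (J₁ M) σ * diaBarEnd M d) y =
        σ • (diaBar M 1 d y) := rfl
    have e2 : (diaBarEnd M d * DistribMulAction.toAddMonoidEnd GQ (J₁ M) σ) y =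
        diaBar M 1 d (σ • y) := rfl
    exact e1.trans ((diaBar_galois_smul M 1 d σ y).symm.trans e2.symm)
  exact AddMonoidHom.ext key

/-- the ring-theoretic `Θ` on `J₁(M)` is `thetaPic`. -/
theorem theta_end_eq_thetaPic (σ : GQ) (d : (ZMod M)ˣ) (x : J₁ M) :
    ((DistribMulAction.toAddMonoidEnd GQ (J₁ M) σ - 1) ^ 3 *
      (DistribMulAction.toAddMonoidEnd GQ (J₁ M) σ - diaBarEnd M d) ^ 1 : AddMonoid.End (J₁ M)) x =
      thetaPic (arithmeticGalois (F₁ M 1) σ) (diaSLBar M d) x := by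
  rw [theta_end_apply _ _ (commute_end_diaBarEnd M σ d), end_sub_one_apply, end_sub_one_apply,
    end_sub_dia_apply, end_sub_one_apply]
  rfl

/-- **from the Kummer form over `Ω` to `Θ_σ` killing `J₁(M)[p^∞]`.** -/
theorem theta_kills_of_thetaKummerAt {p c : ℕ} (hcp : Nat.Coprime c p) (hp : p ≠ 0) (σ : GQ)
    (d : (ZMod M)ˣ) (H : ThetaKummerAt M p c σ d) (x : J₁ M) (hx : ∃ n : ℕ, p ^ n • x = 0) :
    ((DistribMulAction.toAddMonoidEnd GQ (J₁ M) σ - 1) ^ 3 *
      (DistribMulAction.toAddMonoidEnd GQ (J₁ M) σ - diaBarEnd M d) ^ 1 : AddMonoid.End (J₁ M)) x = 0 := by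
  rw [theta_end_eq_thetaPic]
  obtain ⟨n, hn⟩ := hx
  obtain ⟨D, rfl⟩ := Pic0.mk_surjective x
  obtain ⟨f, hf⟩ := exists_isDivOf_of_nsmul_eq_zero D hn
  have hdiv : ∀ v : Place Ω ↥(F₁Bar M 1), ((p ^ n : ℕ) : ℤ) ∣ v.ord f := by
    intro v
    rw [← hf.2 v, Finsupp.smul_apply, nsmul_eq_mul]
    exact dvd_mul_right _ _
  obtain ⟨a, u, ha, hu, hH⟩ := H n f hf.1 hdiv
  have hc := pic0_theta_eq_zero_of_kummer (arithmeticGalois (F₁ M 1) σ) (diaSLBar M d)
    (pow_ne_zero n hp) D f hf a u ha hu hH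
  have hy : p ^ n • thetaPic (arithmeticGalois (F₁ M 1) σ) (diaSLBar M d)
      (Pic0.mk D : J₁ M) = 0 := by
    rw [← thetaPic_nsmul, hn, thetaPic_zero]
  exact eq_zero_of_nsmul_eq_zero_of_coprime hcp hy hc

end Fermat.Agent.RB.DESC1

end
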