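/-
RB [BB3] = (KEY-H), package G [DESC1] — helper4 — part 5: **the W1 dictionary at a base `K₁`.**

`M ≥ 5` (so `W1Api M`), `K₁ ⊆ Ω` normal over `ℚ`:
* `keyFqBC_diaAlg` : the diamonds over `K₁` and over `Ω` are compatible with base change;
* `keyFqBC_arithmeticGalois_smul` : `σ̄ = resGal K₁ σ` over `K₁` and `σ` over `Ω`;
* `fullToLegE_arithmeticGalois_smul` : the embedding `K₁·F₁(M,1) → W1.legE K₁ M` intertwines the
  coefficientwise actions; `legHostEmb_eq_fullToLegE`;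
* `IsBase.exists_ge_isGalBase_legE₁` : choice of a Galois base (W1 port);
* `dvd_ord_fullToLegE₁`, `isKum_descended_leg` : the descended function is of Kummer type on the
  host over `K₁`.
-/
import Mathlib
import Fermat.Agent.RB.DESC1_helper4_Kum
import Fermat.Agent.RB.DESC1_helper4_Omega
import Fermat.Agent.W1.BCDEG_helper7
import Fermat.Agent.SS.IBASE_helper1_Main

set_option autoImplicit false
set_option linter.unusedSectionVars false
set_option linter.unusedVariables false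
set_option linter.style.haveILetI false
set_option synthInstance.maxHeartbeats 400000

open HahnSeries IntermediateField AlgebraicCurve ModularCurve

noncomputable section

namespace Fermat.Agent.RB.DESC1

open Fermat.Agent.JA Fermat.Agent.FF Fermat.Agent.SS Fermat.Agent.W1 Fermat.Agent.GR
  Fermat.Agent.TW.Kill Fermat.Agent.S35 Fermat.Agent.NP

local notation "Ω" => AlgebraicClosure ℚ
local notation "GQ" => (AlgebraicClosure ℚ ≃ₐ[ℚ] AlgebraicClosure ℚ)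

section Dict

variable (M : ℕ) [NeZero M] [W1Api M] (K₁ : IntermediateField ℚ Ω)

/-- base change of the generators. -/
theorem keyFqBC_jdBarML {d : ℕ} [NeZero d] (hd : d ∣ M * 1) :
    W1.keyFqBC M K₁ (jdBarML (k := ↥K₁) hd) = jdBarML (k := Ω) hd := by
  apply Subtype.ext
  rw [W1.coe_keyFqBC, coe_jdBarML, coe_jdBarML, coeffMap_coeffEmb_hom]

theorem keyFqBC_phiBarML {e : ℕ} [NeZero e] (he : e ∣ 1) {a : ZMod M} (ha : a ≠ 0) :
    W1.keyFqBC M K₁ (phiBarML (k := ↥K₁) he ha) = phiBarML (k := Ω) he ha := by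
  apply Subtype.ext
  rw [W1.coe_keyFqBC]
  show coeffMap (algebraMap ↥K₁ Ω) (coeffEmb ↥K₁ (qExpand ℚ e (phiGen ℚ M a))) =
    coeffEmb Ω (qExpand ℚ e (phiGen ℚ M a))
  rw [coeffMap_coeffEmb_hom]

/-- **the diamonds are compatible with base change `K₁ → Ω`.** -/
theorem keyFqBC_diaAlg (d : (ZMod M)ˣ) (x : ↥(W1.keyFq ↥K₁ M)) :
    letI : Algebra ↥K₁ ℂ := baseToComplex K₁
    haveI : IsScalarTower ℚ ↥K₁ ℂ := IsScalarTower.of_algebraMap_eq' (Subsingleton.elim _ _)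
    letI : Algebra Ω ℂ := complexEmbedding.toRingHom.toAlgebra
    haveI : IsScalarTower ℚ Ω ℂ := IsScalarTower.of_algebraMap_eq' (Subsingleton.elim _ _)
    W1.keyFqBC M K₁ (diaAlg (k := ↥K₁) M 1 d x) = diaAlg (k := Ω) M 1 d (W1.keyFqBC M K₁ x) := by
  letI : Algebra ↥K₁ ℂ := baseToComplex K₁
  haveI : IsScalarTower ℚ ↥K₁ ℂ := IsScalarTower.of_algebraMap_eq' (Subsingleton.elim _ _)
  letI : Algebra Ω ℂ := complexEmbedding.toRingHom.toAlgebra
  haveI : IsScalarTower ℚ Ω ℂ := IsScalarTower.of_algebraMap_eq' (Subsingleton.elim _ _)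
  refine ringHom_ext_F₁
    (f := (W1.keyFqBC M K₁).comp ((diaAlg (k := ↥K₁) M 1 d : ↥(W1.keyFq ↥K₁ M) ≃ₐ[↥K₁] ↥(W1.keyFq ↥K₁ M)) :
      ↥(W1.keyFq ↥K₁ M) →+* ↥(W1.keyFq ↥K₁ M)))
    (g := ((diaAlg (k := Ω) M 1 d : ↥(W1.keyFq Ω M) ≃ₐ[Ω] ↥(W1.keyFq Ω M)) :
      ↥(W1.keyFq Ω M) →+* ↥(W1.keyFq Ω M)).comp (W1.keyFqBC M K₁)) ?_ ?_ ?_ x
  · intro c
    simp only [RingHom.comp_apply, RingHom.coe_coe]
    rw [AlgEquiv.commutes, W1.keyFqBC_algebraMap, AlgEquiv.commutes]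
  · intro e _ he
    simp only [RingHom.comp_apply, RingHom.coe_coe]
    rw [diaAlg_jdBarML, keyFqBC_jdBarML, diaAlg_jdBarML]
  · intro e _ he a ha
    simp only [RingHom.comp_apply, RingHom.coe_coe]
    rw [diaAlg_phiBarML, keyFqBC_phiBarML, keyFqBC_phiBarML, diaAlg_phiBarML]

variable [Normal ℚ ↥K₁]

/-- **`σ̄` over `K₁` and `σ` over `Ω`.** -/
theorem keyFqBC_arithmeticGalois_smul (σ : GQ) (x : ↥(W1.keyFq ↥K₁ M)) :
    W1.keyFqBC M K₁ (arithmeticGalois (F₁ M 1) (resGal K₁ σ) • x) =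
      arithmeticGalois (F₁ M 1) σ • W1.keyFqBC M K₁ x := by
  apply Subtype.ext
  rw [W1.coe_keyFqBC, coe_arithmeticGalois_smul, coe_arithmeticGalois_smul, W1.coe_keyFqBC,
    coeffMap_coeffMap, coeffMap_coeffMap]
  exact coeffMap_congr (RingHom.ext fun a => algebraMap_resGal K₁ σ a) _

/-- the coefficientwise semilinear action on the host over `K₁`. -/
def hostGal (τ : ↥K₁ ≃ₐ[ℚ] ↥K₁) : SemilinearAut ↥K₁ ↥(W1.legE ↥K₁ M) :=
  coeffGalois (coeffStable_legHost (K := ↥K₁) (F₁ M 1)) τ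

theorem hostGal_smul (τ : ↥K₁ ≃ₐ[ℚ] ↥K₁) (x : ↥(W1.legE ↥K₁ M)) :
    hostGal M K₁ τ • x = coeffRingAut (coeffStable_legHost (K := ↥K₁) (F₁ M 1)) τ x := rfl

/-- **the embedding into the host intertwines the coefficientwise actions.** -/
theorem fullToLegE_arithmeticGalois_smul (τ : ↥K₁ ≃ₐ[ℚ] ↥K₁) (x : ↥(W1.keyFq ↥K₁ M)) :
    W1.fullToLegE ↥K₁ M (arithmeticGalois (F₁ M 1) τ • x) = hostGal M K₁ τ • W1.fullToLegE ↥K₁ M x := by
  apply Subtype.ext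
  rw [W1.coe_fullToLegE, coe_arithmeticGalois_smul]
  show _ = coeffMap (τ : ↥K₁ →+* ↥K₁) ((W1.fullToLegE ↥K₁ M x : ↥(W1.legE ↥K₁ M)) : LaurentSeries ↥K₁)
  rw [W1.coe_fullToLegE, coeffMap_qExpand]

theorem legHostEmb_eq_fullToLegE (x : ↥(W1.keyFq ↥K₁ M)) :
    legHostEmb ↥K₁ (F₁ M 1) x = W1.fullToLegE ↥K₁ M x := rfl

end Dict

section Choice

variable {q : ℕ} (M : ℕ) [NeZero M] [W1Api M] {K₀ : IntermediateField ℚ Ω}

/-- **choice of the base** (W1 port of `IsBase.exists_ge_isGalBase_legE`). -/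
theorem exists_ge_isGalBase_legE₁ (hK₀ : IsBase q K₀)
    (t : Finset Ω) {ι : Type*} [Fintype ι] {f : ι → LaurentSeries Ω}
    (hf : ∀ i, f i ∈ W1.keyFq Ω M) (s : Finset (Place Ω ↥(W1.legE Ω M))) :
    ∃ K₁ : IntermediateField ℚ Ω, IsGalBase q K₁ ∧ K₀ ≤ K₁ ∧ (∀ c ∈ t, c ∈ K₁) ∧
      (∀ i, ∃ f₁ ∈ W1.keyFq ↥K₁ M, coeffMap (algebraMap ↥K₁ Ω) f₁ = f i) ∧
      ∀ P ∈ s, IsRationalPlace (restrictBC (W1.legBC M K₁) (W1.legBC_algebraMap M K₁)
        (W1.closure_range_legBC M K₁) P) := by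
  classical
  obtain ⟨s₁, hs₁⟩ := exists_finset_forall_descent_family (F₁ M 1) hf
  obtain ⟨s₂, hs₂⟩ := W1.exists_finset_forall_isRationalPlace_legE M K₀ s
  obtain ⟨K₁, hK₁, hle, hmem⟩ := hK₀.exists_ge_isGalBase_forall_mem (t ∪ (s₁ ∪ s₂))
  refine ⟨K₁, hK₁, hle, fun c hc => hmem c (Finset.mem_union_left _ hc), ?_, ?_⟩
  · exact hs₁ K₁ fun c hc =>
      hmem c (Finset.mem_union_right _ (Finset.mem_union_left _ hc))
  · exact hs₂ K₁ hle fun c hc =>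
      hmem c (Finset.mem_union_right _ (Finset.mem_union_right _ hc))

end Choice

section Ord

variable (M : ℕ) [NeZero M] [W1Api M]

/-- all orders of the image of `f` in the host are divisible by `m`. -/
theorem dvd_ord_fullToLegE₁ {m : ℕ} (f : ↥(W1.keyFq Ω M))
    (hf : ∀ v : Place Ω ↥(W1.keyFq Ω M), (m : ℤ) ∣ v.ord f)
    (P : Place Ω ↥(W1.legE Ω M)) : (m : ℤ) ∣ P.ord (W1.fullToLegE Ω M f) := by
  letI : Algebra ↥(W1.keyFq Ω M) ↥(W1.legE Ω M) := (W1.fullToLegE Ω M).toRingHom.toAlgebra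
  haveI : IsScalarTower Ω ↥(W1.keyFq Ω M) ↥(W1.legE Ω M) :=
    isScalarTower_along (W1.fullToLegE Ω M)
  haveI : Algebra.IsIntegral ↥(W1.keyFq Ω M) ↥(W1.legE Ω M) :=
    isIntegral_along (W1.fullToLegE Ω M)
      (isIntegral_of_finiteAlong _ (W1.finiteAlong_fullToLegE M))
  have h := P.ord_restrict (F := ↥(W1.keyFq Ω M)) f
  have h2 : W1.fullToLegE Ω M f = algebraMap ↥(W1.keyFq Ω M) ↥(W1.legE Ω M) f := rfl
  rw [h2, h]
  exact Dvd.dvd.mul_left (hf _) _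

/-- **the descended function is of Kummer type on the host over `K₁`.** -/
theorem isKum_descended_leg {m : ℕ} (f : ↥(W1.keyFq Ω M)) (hf0 : f ≠ 0)
    (hdiv : ∀ v : Place Ω ↥(W1.keyFq Ω M), (m : ℤ) ∣ v.ord f)
    (D : Divisor Ω ↥(W1.legE Ω M))
    (hD : ∀ v : Place Ω ↥(W1.legE Ω M), D v = v.ord (W1.fullToLegE Ω M f))
    (K₁ : IntermediateField ℚ Ω)
    (hrat : ∀ P ∈ D.support, IsRationalPlace (restrictBC (W1.legBC M K₁)
      (W1.legBC_algebraMap M K₁) (W1.closure_range_legBC M K₁) P))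
    (g₁ : ↥(W1.legE ↥K₁ M)) (hg₁ : W1.legBC M K₁ g₁ = W1.fullToLegE Ω M f) :
    IsKum ↥K₁ m g₁ := by
  intro Q₁
  obtain ⟨Q, hQ, hQord⟩ := exists_place_restrictBC_eq_and_ord (W1.legBC M K₁)
    (W1.legBC_algebraMap M K₁) (W1.closure_range_legBC M K₁) Q₁
  have h1 : Q₁.ord g₁ = Q.ord (W1.fullToLegE Ω M f) := by rw [hQord, hg₁]
  refine ⟨by rw [h1]; exact dvd_ord_fullToLegE₁ M f hdiv Q, fun hne => ?_⟩
  rw [h1, ← hD Q] at hne
  have hmem : Q ∈ D.support := Finsupp.mem_support_iff.2 hne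
  have := hrat Q hmem
  rwa [hQ] at this

end Ord

end Fermat.Agent.RB.DESC1

end
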