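/-
RB [BB3] = (KEY-H), package G [DESC1] — helper4 — part 6: **the degree of the Legendre host over
the function field of `X₁(M)` is prime to every prime `p ≥ 5`** (W1 port of
`MW.legDeg_coprime_five` / `ROLD.legCoverDeg_coprime`).

`E = legE Ω M = φ(F)(t)`, `t = λ` the Legendre coordinate, a root of the sextic
`256 (X² - X + 1)³ - j X² (X - 1)²` over `F = F₁Bar M 1`; `δ = (t+1)(t-2)(2t-1) / (t(t-1))`
satisfies `64 δ² = j - 1728` and does not lie in `φ(F)` (its `x`-expansion has odd order), so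
`2 ∣ [E : F] ≤ 6`.
-/
import Mathlib
import Fermat.Agent.RB.DESC1_helper4_Dict
import Fermat.Agent.MW.DIV_helper1_Leg

set_option autoImplicit false
set_option linter.unusedSectionVars false
set_option linter.unusedVariables false
set_option linter.style.haveILetI false
set_option synthInstance.maxHeartbeats 400000

open HahnSeries IntermediateField AlgebraicCurve ModularCurve Polynomial

noncomputable section

namespace Fermat.Agent.RB.DESC1

open Fermat.Agent.JA Fermat.Agent.FF Fermat.Agent.SS Fermat.Agent.W1 Fermat.Agent.GR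
open scoped Fermat.Agent.JA.Host

local notation "Ω" => AlgebraicClosure ℚ

section Deg

variable (M : ℕ) [NeZero M] [W1Api M]

/-- the degree of the Legendre host over the function field of `X₁(M)` (over `Ω`). -/
def legDeg₁ : ℕ :=
  letI : Algebra ↥(F₁Bar M 1) ↥(W1.legE Ω M) := (W1.fullToLegE Ω M).toRingHom.toAlgebra
  Module.finrank ↥(F₁Bar M 1) ↥(W1.legE Ω M)

theorem legDeg₁_ne_zero : legDeg₁ M ≠ 0 := by
  letI : Algebra ↥(F₁Bar M 1) ↥(W1.legE Ω M) := (W1.fullToLegE Ω M).toRingHom.toAlgebra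
  haveI : FiniteDimensional ↥(F₁Bar M 1) ↥(W1.legE Ω M) := W1.finite_fullToLegE Ω M
  exact (Module.finrank_pos (R := ↥(F₁Bar M 1)) (M := ↥(W1.legE Ω M))).ne'

/-- the Legendre coordinate as an element of the host. -/
def legTE₁ : ↥(W1.legE Ω M) := ⟨legT Ω, Host.mem_Etu_t _ _ _⟩

/-- `j` in the host. -/
def legJE₁ : ↥(W1.legE Ω M) := W1.fullToLegE Ω M (W1.jGen Ω M)

theorem coe_legJE₁ : ((legJE₁ M : ↥(W1.legE Ω M)) : LaurentSeries Ω) = jqNModC Ω 2 := by
  rw [legJE₁, W1.coe_fullToLegE, W1.coe_jGen']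
  rfl

/-- the Legendre relation in the host. -/
theorem legTE₁_rel :
    legJE₁ M * (legTE₁ M ^ 2 * (legTE₁ M - 1) ^ 2) =
      256 * (legTE₁ M ^ 2 - legTE₁ M + 1) ^ 3 := by
  apply Subtype.ext
  have h := jqNModC_mul_aeval_legT Ω
  rw [Host.aeval_legA, Host.aeval_legB] at h
  push_cast
  rw [coe_legJE₁]
  exact h

theorem legTE₁_ne_zero : legTE₁ M ≠ 0 := by
  intro h
  apply transcendental_legT Ω
  have : legT Ω = 0 := congrArg Subtype.val h
  rw [this]
  exact isAlgebraic_zero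

theorem legTE₁_ne_one : legTE₁ M ≠ 1 := by
  intro h
  apply transcendental_legT Ω
  have : legT Ω = 1 := congrArg Subtype.val h
  rw [this]
  exact isAlgebraic_one

/-- **`E = φ(F)(t)`** (W1 port of `FG.adjoin_fullToEtu_eq_top`). -/
theorem adjoin_legTE₁_eq_top :
    letI : Algebra ↥(F₁Bar M 1) ↥(W1.legE Ω M) := (W1.fullToLegE Ω M).toRingHom.toAlgebra
    IntermediateField.adjoin ↥(F₁Bar M 1) {legTE₁ M} = ⊤ := by
  letI : Algebra ↥(F₁Bar M 1) ↥(W1.legE Ω M) := (W1.fullToLegE Ω M).toRingHom.toAlgebra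
  haveI : IsScalarTower Ω ↥(F₁Bar M 1) ↥(W1.legE Ω M) := isScalarTower_along (W1.fullToLegE Ω M)
  rw [eq_top_iff]
  intro e _
  set S := IntermediateField.adjoin ↥(F₁Bar M 1) {legTE₁ M} with hS
  let T : IntermediateField Ω (LaurentSeries Ω) :=
    (S.restrictScalars Ω).map (W1.legE Ω M).val
  have h1 : W1.keyFw Ω M 2 ≤ T := by
    intro x hx
    obtain ⟨y, hy, rfl⟩ := (IntermediateField.mem_map _).mp hx
    refine (IntermediateField.mem_map _).mpr ⟨W1.fullToLegE Ω M ⟨y, hy⟩, ?_, rfl⟩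
    show W1.fullToLegE Ω M ⟨y, hy⟩ ∈ S
    exact S.algebraMap_mem ⟨y, hy⟩
  have h2 : Ω⟮legT Ω⟯ ≤ T := by
    rw [adjoin_simple_le_iff]
    refine (IntermediateField.mem_map _).mpr ⟨legTE₁ M, ?_, rfl⟩
    show legTE₁ M ∈ S
    exact IntermediateField.mem_adjoin_simple_self _ _
  have h3 : W1.legE Ω M ≤ T := by
    show Host.Etu (W1.keyFw Ω M 2) (legT Ω) 1 ≤ T
    rw [W1.Etu_one_eq_sup]
    exact sup_le h1 h2
  obtain ⟨s, hs, hse⟩ := (IntermediateField.mem_map _).mp (h3 e.2)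
  have : s = e := Subtype.ext hse
  rw [← this]
  exact hs

/-- the Legendre sextic over `F`. -/
def legSextic₁ : (↥(F₁Bar M 1))[X] :=
  Polynomial.C 256 * (X ^ 2 - X + 1) ^ 3 - Polynomial.C (W1.jGen Ω M) * (X ^ 2 * (X - 1) ^ 2)

theorem legSextic₁_ne_zero : legSextic₁ M ≠ 0 := by
  intro h
  have h1 := congrArg (Polynomial.eval 0) h
  simp [legSextic₁] at h1

theorem legSextic₁_natDegree_le : (legSextic₁ M).natDegree ≤ 6 := by
  unfold legSextic₁
  compute_degree

theorem legSextic₁_aeval :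
    letI : Algebra ↥(F₁Bar M 1) ↥(W1.legE Ω M) := (W1.fullToLegE Ω M).toRingHom.toAlgebra
    aeval (legTE₁ M) (legSextic₁ M) = 0 := by
  letI : Algebra ↥(F₁Bar M 1) ↥(W1.legE Ω M) := (W1.fullToLegE Ω M).toRingHom.toAlgebra
  have hj : algebraMap ↥(F₁Bar M 1) ↥(W1.legE Ω M) (W1.jGen Ω M) = legJE₁ M := rfl
  simp only [legSextic₁, map_sub, map_mul, map_pow, map_add, map_one, aeval_X, aeval_C, hj,
    map_ofNat]
  linear_combination -(legTE₁_rel M)

/-- `δ = √(j - 1728) / 8` in the host. -/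
def legDE₁ : ↥(W1.legE Ω M) :=
  (legTE₁ M + 1) * (legTE₁ M - 2) * (2 * legTE₁ M - 1) / (legTE₁ M * (legTE₁ M - 1))

/-- `64 δ² = j - 1728`. -/
theorem legDE₁_sq : 64 * legDE₁ M ^ 2 = legJE₁ M - 1728 := by
  have hd : legTE₁ M * (legTE₁ M - 1) ≠ 0 :=
    mul_ne_zero (legTE₁_ne_zero M) (sub_ne_zero.mpr (legTE₁_ne_one M))
  have h2 := legTE₁_rel M
  rw [legDE₁, div_pow]
  have hd2 : (legTE₁ M * (legTE₁ M - 1)) ^ 2 ≠ 0 := pow_ne_zero 2 hd
  rw [mul_div_assoc', div_eq_iff hd2]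
  linear_combination (-1 : ↥(W1.legE Ω M)) * h2

/-- **`√(j - 1728)` does not lie in `φ F`** (its `x`-expansion has odd order). -/
theorem legDE₁_not_mem_range : legDE₁ M ∉ Set.range (W1.fullToLegE Ω M) := by
  rintro ⟨f, hf⟩
  have hsq := congrArg (Subtype.val : ↥(W1.legE Ω M) → LaurentSeries Ω) (legDE₁_sq M)
  set d : LaurentSeries Ω := ((legDE₁ M : ↥(W1.legE Ω M)) : LaurentSeries Ω) with hd
  have hsq' : (64 : LaurentSeries Ω) * d ^ 2 =
      jqNModC Ω 2 - algebraMap Ω (LaurentSeries Ω) 1728 := by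
    rw [← Fermat.Agent.FG.ofNat_laurent_eq_algebraMap, ← coe_legJE₁ M]
    exact hsq
  have hord := Fermat.Agent.FG.order_jqNModC_sub_const (K := Ω) 2 (1728 : Ω)
  rw [← hsq'] at hord
  have h64 : (64 : LaurentSeries Ω) ≠ 0 := by
    rw [Fermat.Agent.FG.ofNat_laurent_eq_algebraMap]
    exact (_root_.map_ne_zero _).mpr (by norm_num)
  have hd0 : d ≠ 0 := by
    intro h0
    rw [h0] at hord
    simp at hord
  have h64o : (64 : LaurentSeries Ω).order = 0 := by
    rw [Fermat.Agent.FG.ofNat_laurent_eq_algebraMap, LaurentSeries.algebraMap_apply]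
    exact HahnSeries.order_C
  rw [HahnSeries.order_mul h64 (pow_ne_zero 2 hd0), h64o, zero_add, pow_two,
    HahnSeries.order_mul hd0 hd0] at hord
  have hdvd : ((2 : ℕ) : ℤ) ∣ d.order := by
    rw [hd, ← hf, W1.coe_fullToLegE, order_qExpand]
    exact dvd_mul_right _ _
  obtain ⟨m, hm⟩ := hdvd
  push_cast at hm hord
  omega

/-- **the degree of the Legendre host is prime to `5`.** -/
theorem legDeg₁_coprime_five : Nat.Coprime (legDeg₁ M) 5 := by
  letI : Algebra ↥(F₁Bar M 1) ↥(W1.legE Ω M) := (W1.fullToLegE Ω M).toRingHom.toAlgebra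
  haveI : FiniteDimensional ↥(F₁Bar M 1) ↥(W1.legE Ω M) := W1.finite_fullToLegE Ω M
  have h64 : (64 : ↥(W1.legE Ω M)) ≠ 0 := by norm_num
  have hc : legDE₁ M ^ 2 =
      algebraMap ↥(F₁Bar M 1) ↥(W1.legE Ω M) ((W1.jGen Ω M - 1728) / 64) := by
    have h1 : algebraMap ↥(F₁Bar M 1) ↥(W1.legE Ω M) ((W1.jGen Ω M - 1728) / 64) =
        (legJE₁ M - 1728) / 64 := by
      rw [map_div₀, map_sub, map_ofNat, map_ofNat]
      rfl
    rw [h1, ← legDE₁_sq M, mul_div_cancel_left₀ _ h64]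
  exact Fermat.Agent.MW.coprime_five_finrank_of_sextic (adjoin_legTE₁_eq_top M)
    (legSextic₁_ne_zero M) (legSextic₁_aeval M) (legSextic₁_natDegree_le M)
    (legDE₁_not_mem_range M) hc

theorem legDeg₁_le_six : legDeg₁ M ≤ 6 := by
  letI : Algebra ↥(F₁Bar M 1) ↥(W1.legE Ω M) := (W1.fullToLegE Ω M).toRingHom.toAlgebra
  haveI : FiniteDimensional ↥(F₁Bar M 1) ↥(W1.legE Ω M) := W1.finite_fullToLegE Ω M
  have hint : IsIntegral ↥(F₁Bar M 1) (legTE₁ M) := Algebra.IsIntegral.isIntegral _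
  have h2 : Module.finrank ↥(F₁Bar M 1) ↥(W1.legE Ω M) =
      (minpoly ↥(F₁Bar M 1) (legTE₁ M)).natDegree := by
    rw [← IntermediateField.adjoin.finrank hint, adjoin_legTE₁_eq_top M,
      IntermediateField.finrank_top']
  show Module.finrank ↥(F₁Bar M 1) ↥(W1.legE Ω M) ≤ 6
  rw [h2]
  exact (natDegree_le_of_dvd (minpoly.dvd _ _ (legSextic₁_aeval M)) (legSextic₁_ne_zero M)).trans
    (legSextic₁_natDegree_le M)

/-- **the degree of the Legendre host is prime to every prime `p ≥ 5`.** -/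
theorem legDeg₁_coprime {p : ℕ} (hp : p.Prime) (hp5 : 5 ≤ p) : Nat.Coprime (legDeg₁ M) p := by
  by_cases h5 : p = 5
  · subst h5
    exact legDeg₁_coprime_five M
  · have h7 : 7 ≤ p := by
      by_contra hlt
      have h6 : p = 6 := by omega
      subst h6
      exact absurd hp (by norm_num)
    have hlt : legDeg₁ M < p := lt_of_le_of_lt (legDeg₁_le_six M) (by omega)
    exact ((Nat.Prime.coprime_iff_not_dvd hp).2
      (Nat.not_dvd_of_pos_of_lt (Nat.pos_of_ne_zero (legDeg₁_ne_zero M)) hlt)).symm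

end Deg

end Fermat.Agent.RB.DESC1

end
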