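/-
RB [BB3] = (KEY-H), package G [DESC1] — helper4 — part 7: **from the host literal `LegThetaBase`
to `ThetaKillsJ1 M p`.**

Chain (mirror of `RB/MAZ_helper6_Desc` and `SS/TOPB_lead_Leg` in the W1 world): `x ∈ J₁(M)[p^n]`,
Kummer pair `(D, f)` over `Ω`; `G_Ω = Θ f` over `Ω`, `μ` a `p^n`-th root of its leading coefficient;
a Galois base `K₁ ⊇ K₀ ∋ μ` over which `f` is defined and the support of `f` on the host is
rational; on the host `E''(K₁) = legE K₁ M` the function `g = φ(F_d)` is of Kummer type, hence so are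
`g₂`, `g₃ = Θ g` (`IsKum.g₂Fun`, `IsKum.thetaFun`); the dictionary identifies `Θ g` with the image of
`Θ F_d`, the host statement gives `Θ g = u ^ m`; the norm `E''(K₁) → K₁·F₁(M,1)` and base change to
`Ω` give `(Θ f) ^ c = (N u) ^ m`, `c = [E'' : F]` prime to `p`; `theta_kills_of_thetaKummerAt`.
-/
import Mathlib
import Fermat.Agent.RB.DESC1_helper4_Deg
import Fermat.Agent.RB.KEYHTR_lead_Final

set_option autoImplicit false
set_option linter.unusedSectionVars false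
set_option linter.unusedVariables false
set_option linter.style.haveILetI false
set_option synthInstance.maxHeartbeats 400000

open HahnSeries IntermediateField AlgebraicCurve ModularCurve

noncomputable section

namespace Fermat.Agent.RB.DESC1

open Fermat.Agent.JA Fermat.Agent.FF Fermat.Agent.SS Fermat.Agent.W1 Fermat.Agent.GR
  Fermat.Agent.TW.Kill Fermat.Agent.S35 Fermat.Agent.NP

local notation "Ω" => AlgebraicClosure ℚ
local notation "GQ" => (AlgebraicClosure ℚ ≃ₐ[ℚ] AlgebraicClosure ℚ)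

section Main

variable (M' r : ℕ) [NeZero M'] [NeZero r] [NeZero (M' * r)] [W1Api (M' * r)]

set_option maxHeartbeats 6400000 in
/-- **the Kummer form over `Ω` from the host literal.** -/
theorem thetaKummerAt_of_legThetaBase (hB : LegThetaBase) (hM' : 5 ≤ M') (hr : r.Prime)
    (hr2 : r ≠ 2) (hcop : Nat.Coprime M' r) {A : ValuationSubring Ω} (hA : A.LiesOverPrime r)
    {σ : GQ} (hσ : σ ∈ A.inertiaSubgroupIn ℚ) {p : ℕ} (hp : p.Prime) (hp5 : 5 ≤ p) (hpr : p ≠ r) :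
    ThetaKummerAt (M' * r) p (legDeg₁ (M' * r)) σ (cyc (M' * r) σ)⁻¹ := by
  classical
  intro n f hf hdiv
  have hm0 : 0 < p ^ n := pow_pos hp.pos n
  -- `Θ f` over `Ω`
  set sΩ : SemilinearAut Ω ↥(F₁Bar (M' * r) 1) := arithmeticGalois (F₁ (M' * r) 1) σ with hsΩ
  set dΩ : SemilinearAut Ω ↥(F₁Bar (M' * r) 1) := diaSLBar (M' * r) (cyc (M' * r) σ)⁻¹ with hdΩ
  set GΩ : ↥(F₁Bar (M' * r) 1) := thetaFun sΩ dΩ f with hGΩ
  have hGΩ0 : GΩ ≠ 0 := thetaFun_ne_zero sΩ dΩ hf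
  have hGΩL : ((GΩ : ↥(F₁Bar (M' * r) 1)) : LaurentSeries Ω) ≠ 0 := fun h0 =>
    hGΩ0 (Subtype.ext h0)
  obtain ⟨μ, hμ⟩ := IsAlgClosed.exists_pow_nat_eq
    (((GΩ : ↥(F₁Bar (M' * r) 1)) : LaurentSeries Ω).leadingCoeff) hm0
  have hμ0 : μ ≠ 0 := by
    rintro rfl
    rw [zero_pow hm0.ne'] at hμ
    exact HahnSeries.leadingCoeff_ne_zero.2 hGΩL hμ.symm
  -- the divisor of `f` on the host over `Ω`
  haveI : HasPrincipalDivisors Ω ↥(W1.legE Ω (M' * r)) := W1.up_hasPrincipalDivisors_legE (M' * r)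
  have hfE : W1.fullToLegE Ω (M' * r) f ≠ 0 := (map_ne_zero _).2 hf
  obtain ⟨D1, hD1, -⟩ :=
    HasPrincipalDivisors.exists_divisor (K := Ω) (W1.fullToLegE Ω (M' * r) f) hfE
  -- the base
  obtain ⟨K₀, hK₀, hhost⟩ := hB M' r hM' hr hr2 hcop A hA σ hσ p hp hp5 hpr n
  obtain ⟨K₁, hK₁, hle, htK, hdesc, hrat⟩ :=
    exists_ge_isGalBase_legE₁ (M' * r) hK₀ ({μ} : Finset Ω)
      (f := fun _ : Unit => ((f : ↥(F₁Bar (M' * r) 1)) : LaurentSeries Ω)) (fun _ => f.2)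
      D1.support
  haveI := hK₁.normal
  letI instC : Algebra ↥K₁ ℂ := baseToComplex K₁
  haveI : IsScalarTower ℚ ↥K₁ ℂ := IsScalarTower.of_algebraMap_eq' (Subsingleton.elim _ _)
  obtain ⟨δ, hdict, hmain⟩ := hhost K₁ hK₁ hle
  obtain ⟨f₁, hf₁mem, hf₁⟩ := hdesc ()
  set Fd : ↥(W1.keyFq ↥K₁ (M' * r)) := ⟨f₁, hf₁mem⟩ with hFddef
  have hBC : W1.keyFqBC (M' * r) K₁ Fd = f := Subtype.ext hf₁
  have hFd0 : Fd ≠ 0 := by
    intro h0
    apply hf
    rw [← hBC, h0, map_zero]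
  -- the function on the host over `K₁`
  set g : ↥(W1.legE ↥K₁ (M' * r)) := W1.fullToLegE ↥K₁ (M' * r) Fd with hgdef
  have hg0 : g ≠ 0 := (map_ne_zero _).2 hFd0
  have hgBC : W1.legBC (M' * r) K₁ g = W1.fullToLegE Ω (M' * r) f := by
    rw [hgdef, W1.bcdeg_legBC_fullToLegE, hBC]
  have hkum : IsKum ↥K₁ (p ^ n) g :=
    isKum_descended_leg (M' * r) f hf hdiv D1 hD1 K₁ hrat g hgBC
  -- the semilinear forms on the host
  set sH : SemilinearAut ↥K₁ ↥(W1.legE ↥K₁ (M' * r)) := hostGal (M' * r) K₁ (resGal K₁ σ) with hsH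
  set dH : SemilinearAut ↥K₁ ↥(W1.legE ↥K₁ (M' * r)) := SemilinearAut.ofAlgAut δ with hdH
  have ha : ∀ x : ↥(W1.legE ↥K₁ (M' * r)),
      (coeffRingAut (coeffStable_legHost (K := ↥K₁) (F₁ (M' * r) 1)) (resGal K₁ σ) :
        ↥(legEL ↥K₁ (M' * r) 1) →+* ↥(legEL ↥K₁ (M' * r) 1)) x = sH • x := fun x => rfl
  have hb : ∀ x : ↥(W1.legE ↥K₁ (M' * r)),
      (δ : ↥(legEL ↥K₁ (M' * r) 1) →+* ↥(legEL ↥K₁ (M' * r) 1)) x = dH • x := fun x => rfl
  have e2 := hostG₂_eq_g₂Fun' sH dH _ _ ha hb g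
  have e3 := hostTheta_eq_thetaFun' sH dH _ _ ha hb g
  -- `Θ` over `K₁`
  set sK : SemilinearAut ↥K₁ ↥(W1.keyFq ↥K₁ (M' * r)) :=
    arithmeticGalois (F₁ (M' * r) 1) (resGal K₁ σ) with hsK
  set dK : SemilinearAut ↥K₁ ↥(W1.keyFq ↥K₁ (M' * r)) :=
    diaSL (k := ↥K₁) (M' * r) 1 (cyc (M' * r) σ)⁻¹ with hdK
  set GK : ↥(W1.keyFq ↥K₁ (M' * r)) := thetaFun sK dK Fd with hGK
  have hhostG : (W1.fullToLegE ↥K₁ (M' * r)).toRingHom GK = thetaFun sH dH g := by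
    rw [hGK, map_thetaFun (W1.fullToLegE ↥K₁ (M' * r)).toRingHom (s := sK) (δ := dK) (s' := sH)
      (δ' := dH) (fun x => fullToLegE_arithmeticGalois_smul (M' * r) K₁ (resGal K₁ σ) x)
      (fun x => (hdict x).symm) Fd]
    rfl
  have hBCG : W1.keyFqBC (M' * r) K₁ GK = GΩ := by
    rw [hGK, map_thetaFun (W1.keyFqBC (M' * r) K₁) (s := sK) (δ := dK) (s' := sΩ) (δ' := dΩ)
      (fun x => keyFqBC_arithmeticGalois_smul (M' * r) K₁ σ x)
      (fun x => keyFqBC_diaAlg (M' * r) K₁ (cyc (M' * r) σ)⁻¹ x) Fd, hBC]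
  -- the hypotheses of the host statement
  have hordg := fun P => (hkum.g₂Fun hg0 sH dH).hord P
  have hordG := fun P => (hkum.thetaFun hg0 sH dH).hord P
  have hμK : μ ∈ K₁ := htK μ (Finset.mem_singleton_self μ)
  have hlead : ∃ c : ↥K₁, c ≠ 0 ∧
      ((thetaFun sH dH g : ↥(W1.legE ↥K₁ (M' * r))) : LaurentSeries ↥K₁).leadingCoeff =
        c ^ (p ^ n) := by
    refine ⟨⟨μ, hμK⟩, fun h0 => hμ0 (congrArg Subtype.val h0), ?_⟩
    rw [← hhostG]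
    show ((W1.fullToLegE ↥K₁ (M' * r) GK : ↥(W1.legE ↥K₁ (M' * r))) :
      LaurentSeries ↥K₁).leadingCoeff = _
    rw [W1.coe_fullToLegE, leadingCoeff_qExpand]
    apply (algebraMap ↥K₁ Ω).injective
    rw [← leadingCoeff_coeffMap_of_injective (f := algebraMap ↥K₁ Ω)
      (algebraMap ↥K₁ Ω).injective, ← W1.coe_keyFqBC, hBCG, map_pow, ← hμ]
    rfl
  rw [← e2] at hordg
  rw [← e3] at hordG hlead
  obtain ⟨u, hu⟩ := hmain g hg0 hordg hordG hlead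
  rw [e3] at hu
  -- the norm to `K₁·F₁(M, 1)`
  have hu' : (W1.fullToLegE ↥K₁ (M' * r)).toRingHom GK = u ^ (p ^ n) := by
    rw [hhostG]
    exact hu
  letI : Algebra ↥(W1.keyFq ↥K₁ (M' * r)) ↥(W1.legE ↥K₁ (M' * r)) :=
    (W1.fullToLegE ↥K₁ (M' * r)).toRingHom.toAlgebra
  haveI : FiniteDimensional ↥(W1.keyFq ↥K₁ (M' * r)) ↥(W1.legE ↥K₁ (M' * r)) :=
    W1.finite_fullToLegE ↥K₁ (M' * r)
  have hnorm := pow_finrank_eq_norm_pow (K := ↥(W1.keyFq ↥K₁ (M' * r)))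
    (L := ↥(W1.legE ↥K₁ (M' * r))) (x := GK) (u := u) (m := p ^ n) hu'
  have hdeg : Module.finrank ↥(W1.keyFq ↥K₁ (M' * r)) ↥(W1.legE ↥K₁ (M' * r)) =
      legDeg₁ (M' * r) := (W1.finrank_legE_base (M' * r) K₁).symm
  rw [hdeg] at hnorm
  have h5 := congrArg (W1.keyFqBC (M' * r) K₁) hnorm
  rw [map_pow, map_pow, hBCG] at h5
  set Nu : ↥(F₁Bar (M' * r) 1) :=
    W1.keyFqBC (M' * r) K₁ (Algebra.norm ↥(W1.keyFq ↥K₁ (M' * r)) u) with hNu
  have hNu0 : Nu ≠ 0 := by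
    intro h0
    rw [h0, zero_pow hm0.ne'] at h5
    exact hGΩ0 (pow_eq_zero_iff (legDeg₁_ne_zero (M' * r)) |>.1 h5)
  exact ⟨1, Nu, one_ne_zero, hNu0, by rw [map_one, one_mul]; exact h5⟩

end Main

section Final

/-- **`ThetaKillsJ1` at the level `M' r`, from the host literal.** -/
theorem thetaKillsJ1_mul_of_legThetaBase (hB : LegThetaBase) (M' r : ℕ) [NeZero M'] [NeZero r]
    [NeZero (M' * r)] (hM' : 5 ≤ M') (hr : r.Prime) (hr2 : r ≠ 2) (hcop : Nat.Coprime M' r)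
    {A : ValuationSubring Ω} (hA : A.LiesOverPrime r)
    {σ : GQ} (hσ : σ ∈ A.inertiaSubgroupIn ℚ) {p : ℕ} (hp : p.Prime) (hp5 : 5 ≤ p) (hpr : p ≠ r)
    (x : J₁ (M' * r)) (hx : ∃ n : ℕ, p ^ n • x = 0) :
    ((DistribMulAction.toAddMonoidEnd GQ (J₁ (M' * r)) σ - 1) ^ 3 *
      (DistribMulAction.toAddMonoidEnd GQ (J₁ (M' * r)) σ -
        diaBarEnd (M' * r) (cyc (M' * r) σ)⁻¹) ^ 1 : AddMonoid.End (J₁ (M' * r))) x = 0 := by
  have hM5 : 5 ≤ M' * r := le_trans hM' (Nat.le_mul_of_pos_right _ hr.pos)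
  haveI : W1Api (M' * r) := w1Api_of_five_le (M' * r) hM5
  exact theta_kills_of_thetaKummerAt (M' * r) (legDeg₁_coprime (M' * r) hp hp5) hp.ne_zero σ _
    (thetaKummerAt_of_legThetaBase M' r hB hM' hr hr2 hcop hA hσ hp hp5 hpr) x hx

/-- **G [DESC1]: `ThetaKillsJ1 M p` for all `M ≥ 5` and all primes `p`, from the host literal.** -/
theorem thetaKillsJ1_of_legThetaBase (hB : LegThetaBase) (M : ℕ) [NeZero M] (hM : 5 ≤ M) (p : ℕ)
    [Fact p.Prime] : ThetaKillsJ1 M p := by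
  intro hp5 r hr hrM hr2M hrp hr2 hMr A hA σ hσ
  obtain ⟨M', hM'⟩ : ∃ M', M = M' * r := ⟨M / r, (Nat.div_mul_cancel hrM).symm⟩
  subst hM'
  have hM'r : M' * r / r = M' := Nat.mul_div_cancel _ hr.pos
  rw [hM'r] at hMr
  haveI : NeZero M' := ⟨by omega⟩
  haveI : NeZero r := ⟨hr.ne_zero⟩
  have hcop : Nat.Coprime M' r := by
    rw [Nat.coprime_comm, Nat.Prime.coprime_iff_not_dvd hr]
    intro h
    apply hr2M
    rw [pow_two]
    exact Nat.mul_dvd_mul h dvd_rfl |>.trans (by rw [Nat.mul_comm])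
  refine ⟨3, 1, fun x hx => ?_⟩
  exact thetaKillsJ1_mul_of_legThetaBase hB M' r hMr hr hr2 hcop hA hσ Fact.out hp5
    (fun h => hrp h.symm) x hx

end Final

end Fermat.Agent.RB.DESC1

end
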