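/-
RB [BB3] = (KEY-H), package F [GLUE'] — helper5 — **the abstract gluing theorem of KEY-H.**

Setting of `SS.toric_pow_of_model`: `R` a DVR of characteristic zero with algebraically closed
residue field, `K₁ = Frac R`, `K = K₁(t)`, `F / K` finite with a two-sheeted model
(`IsTwoSheet π t Winf W0`, `IsModelChart` on both charts `t`, `t⁻¹`).

`s : F →+* F` is an *inertia-type* endomorphism: it preserves the base `R` (through `sR`, congruent
to the identity modulo `π`), fixes the coordinate `t`, preserves both sheets, and acts TRIVIALLY on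
the residue field of the sheet `W_∞`.

* `toricDatumAt_of_inertia` : for a toric function `g`, the function `s g / g` has a toric closed
  datum at EVERY closed point of the special fibre of a chart (at the crossing points because `s`
  fixes every closed point of the sheet `W_∞` and acts trivially on its residue field);
* `pow_of_toric_of_inertia` : for a toric `g` with rational `m`-divisible divisor, `s g / g` is an
  `m`-th power as soon as its leading coefficient is an `m`-th power of a unit;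
* `pow_of_inertia_diamond` : **(KEY-H) on the host.**  `d : F →+* F` a second endomorphism commuting
  with `s` (the diamond operator), `s ≡ d` on the residue field of `W_0`.  For `g₁` a unit on both
  sheets (e.g. `g₁ = s g / g`), `g₂ = (s - 1)(s - d) g₁` is congruent to `1` on both sheets and
  `(s - 1) g₂` is an `m`-th power.
-/
import Mathlib
import Fermat.Agent.S35.TORICKUM_helper5_Final
import Fermat.Agent.S35.NODEFROB_helper5_Model
import Fermat.Agent.SS.GSIGMA_helper5_Abs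

set_option autoImplicit false
set_option linter.unusedSectionVars false
set_option linter.unusedVariables false
set_option linter.style.haveILetI false

open AlgebraicCurve

namespace Fermat.Agent.RB

open Fermat.Agent.JA Fermat.Agent.SS Fermat.Agent.S35 Polynomial

section Fix

variable {R : Type*} [CommRing R] [IsDomain R] [IsDiscreteValuationRing R] [CharZero R]
  {K₁ : Type*} [Field K₁] [Algebra R K₁] [IsFractionRing R K₁]
  {K : Type*} [Field K] [Algebra K₁ K] [Algebra R K] [IsScalarTower R K₁ K]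
  {E : Type*} [Field E] [Algebra K E] [Algebra R E] [IsScalarTower R K E] [FiniteDimensional K E]

/-- an endomorphism fixing the coordinate, preserving the base and acting trivially on the residue
field of a sheet `W` fixes every closed point of that sheet (in the local currency). -/
theorem map_mem_locRing_of_res_trivial (u : K) (s : E →+* E)
    (hsu : s (algebraMap K E u) = algebraMap K E u)
    (hsR : ∀ r : R, ∃ r' : R, s (algebraMap R E r) = algebraMap R E r')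
    (W : ValuationSubring E) (hBW : ∀ b ∈ chartOne R E u, b ∈ W)
    (hres : ∀ x ∈ W, W.valuation (s x - x) < 1)
    (𝔫 : Ideal ↥(chartOne R E u)) [h𝔫 : 𝔫.IsPrime] (hle : sheetIdeal u W hBW ≤ 𝔫) :
    (∀ e ∈ locRing (chartOne R E u) 𝔫, s e ∈ locRing (chartOne R E u) 𝔫) ∧
      (∀ e ∈ locMax (chartOne R E u) 𝔫, s e ∈ locMax (chartOne R E u) 𝔫) := by
  have hsB : ∀ e ∈ chartOne R E u, s e ∈ chartOne R E u := fun e he =>
    map_mem_chartOne_of_ringHom u s hsu hsR he
  have hdiff : ∀ x : ↥(chartOne R E u),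
      (⟨s (x : E), hsB x x.2⟩ - x : ↥(chartOne R E u)) ∈ 𝔫 := by
    intro x
    apply hle
    rw [mem_sheetIdeal_iff]
    exact hres _ (hBW _ x.2)
  refine map_mem_locRing_of_fix s hsB (fun x => ⟨fun hx => ?_, fun hx => ?_⟩)
  · have := 𝔫.add_mem (hdiff x) hx
    rwa [sub_add_cancel] at this
  · have := 𝔫.sub_mem hx (hdiff x)
    rwa [sub_sub_cancel] at this

end Fix

section Glue

variable {R : Type*} [CommRing R] [IsDomain R] [IsDiscreteValuationRing R] [CharZero R]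
  {K₁ : Type*} [Field K₁] [Algebra R K₁] [IsFractionRing R K₁]
  {K : Type*} [Field K] [Algebra K₁ K] [Algebra R K] [IsScalarTower R K₁ K]
  {F : Type*} [Field F] [Algebra K F] [Algebra K₁ F] [IsScalarTower K₁ K F] [Algebra R F]
  [IsScalarTower R K F] [FiniteDimensional K F]
  {π : R} {t : K} {Winf W0 : ValuationSubring F}

/-- **the toric closed datum of `s g / g` at every closed point of the special fibre of a chart**,
for an inertia-type endomorphism `s`. -/
theorem toricDatumAt_of_inertia [IsAlgClosed (IsLocalRing.ResidueField R)]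
    (h2 : IsTwoSheet π t Winf W0) (hπ : Irreducible π) (ht : Transcendental K₁ t)
    (hK : IntermediateField.adjoin K₁ {t} = ⊤)
    (hmod : IsModelChart F π (sheetIdeal t Winf h2.chart_le_inf)
      (sheetIdeal t W0 h2.chart_le_zero))
    (s : F →+* F) (sR : R →+* R)
    (hsR : ∀ r : R, s (algebraMap R F r) = algebraMap R F (sR r))
    (hfrob : ∀ r : R, sR r - r ∈ Ideal.span {π})
    (hst : s (algebraMap K F t) = algebraMap K F t)
    (hsinf : ∀ x : F, x ∈ Winf ↔ s x ∈ Winf) (hs0 : ∀ x : F, x ∈ W0 ↔ s x ∈ W0)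
    (hres : ∀ x ∈ Winf, Winf.valuation (s x - x) < 1)
    {m : ℕ} (hm : m ≠ 0) {g linf l0 : F} (hg : g ≠ 0)
    (hordg : ∀ P : Place K₁ F, P.ord g = 0 ∨ (IsRationalPlace P ∧ (m : ℤ) ∣ P.ord g))
    (hordG : ∀ P : Place K₁ F, P.ord (s g / g) = 0 ∨
      (IsRationalPlace P ∧ (m : ℤ) ∣ P.ord (s g / g)))
    (hlinf : Winf.valuation linf = 1) (hginf : Winf.valuation (g - linf ^ m) < 1)
    (hl0 : W0.valuation l0 = 1) (hg0 : W0.valuation (g - l0 ^ m) < 1)
    (𝔫 : Ideal ↥(chartOne R F t)) [h𝔫 : 𝔫.IsMaximal]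
    (hπ𝔫 : algebraMap R ↥(chartOne R F t) π ∈ 𝔫) :
    ToricDatumAt (chartOne R F t) (sheetIdeal t Winf h2.chart_le_inf)
      (sheetIdeal t W0 h2.chart_le_zero) 𝔫 Winf W0 m (s g / g) (s linf / linf) (s l0 / l0) := by
  haveI : 𝔫.IsPrime := h𝔫.isPrime
  have e1 : ∀ x : F, s x / x ^ 1 = s x / x := fun x => by rw [pow_one]
  have hfrob' : ∀ r : R, sR r - r ^ 1 ∈ Ideal.span {π} := fun r => by rw [pow_one]; exact hfrob r
  have hG : s g / g ≠ 0 := div_ne_zero ((_root_.map_ne_zero s).mpr hg) hg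
  by_cases hc : sheetIdeal t Winf h2.chart_le_inf ≤ 𝔫 ∧ sheetIdeal t W0 h2.chart_le_zero ≤ 𝔫
  · obtain ⟨hsO, hsM⟩ := map_mem_locRing_of_res_trivial t s hst (fun r => ⟨sR r, hsR r⟩) Winf
      h2.chart_le_inf hres 𝔫 hc.1
    have h := h2.toricDatumAt_of_fixed_crossing hπ ht hK hmod hm hg hordg hlinf hginf hl0 hg0
      s sR 1 hsR hfrob' hsinf hs0 𝔫 hc.1 hc.2 hsO hsM
    rwa [e1, e1, e1] at h
  · obtain ⟨hL1, hL2⟩ := toric_frob Winf s hsinf 1 m hlinf hginf
    obtain ⟨hL3, hL4⟩ := toric_frob W0 s hs0 1 m hl0 hg0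
    rw [e1, e1] at hL2 hL4
    rw [e1] at hL1 hL3
    exact h2.toricDatumAt_of_not_crossing hπ ht hK hmod hm hG hordG hL1 hL2 hL3 hL4 𝔫 hπ𝔫 hc

/-- rescaling a toric closed datum by the `m`-th power of a nonzero constant. -/
theorem toricDatumAt_div_pow {B : Subalgebra R F} {𝔭inf 𝔭0 𝔫 : Ideal ↥B} [𝔫.IsPrime]
    {m : ℕ} {G Linf L0 : F} (μ : F) (hμ : μ ≠ 0)
    (h : ToricDatumAt B 𝔭inf 𝔭0 𝔫 Winf W0 m G Linf L0) :
    ToricDatumAt B 𝔭inf 𝔭0 𝔫 Winf W0 m (G / μ ^ m) (Linf / μ) (L0 / μ) := by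
  obtain ⟨Γ, winf, w0, hΓ, ⟨c, d, hc, hd, hcd⟩, h1, h2, h3⟩ := h
  refine ⟨Γ / μ, winf, w0, div_ne_zero hΓ hμ, ⟨c, d, hc, hd, ?_⟩, ?_, ?_, h3⟩
  · rw [div_mul_eq_mul_div, hcd, div_pow]
    field_simp
  · intro hle
    obtain ⟨a, b, c⟩ := h1 hle
    refine ⟨a, b, ?_⟩
    rwa [div_div_div_cancel_right₀ hμ]
  · intro hle
    obtain ⟨a, b, c⟩ := h2 hle
    refine ⟨a, b, ?_⟩
    rwa [div_div_div_cancel_right₀ hμ]

set_option maxHeartbeats 800000 in
/-- **`s g / g` is an `m`-th power** for a toric function `g` and an inertia-type endomorphism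
`s`. -/
theorem pow_of_toric_of_inertia [IsAlgClosed (IsLocalRing.ResidueField R)]
    (t : K) (ht : Transcendental K₁ t) (hK : IntermediateField.adjoin K₁ {t} = ⊤)
    (π : R) (hπ : Irreducible π) {m : ℕ} (hm : 0 < m) (hmR : IsUnit (m : R)) (ζ : R)
    (hζ : IsPrimitiveRoot ζ m)
    (hM4 : ∀ x : F, IsAlgebraic K₁ x → x ∈ Set.range (algebraMap K₁ F))
    (lc : Fˣ →* K₁ˣ) (hlc : ∀ c : K₁ˣ, lc (Units.map (algebraMap K₁ F).toMonoidHom c) = c)
    {Winf W0 : ValuationSubring F} (two : IsTwoSheet π t Winf W0)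
    (hmod₁ : IsModelChart F π (sheetIdeal t Winf two.chart_le_inf)
      (sheetIdeal t W0 two.chart_le_zero))
    (hmod₂ : IsModelChart F π (sheetIdeal t⁻¹ Winf (two.inv hπ).chart_le_inf)
      (sheetIdeal t⁻¹ W0 (two.inv hπ).chart_le_zero))
    (s : F →+* F) (sR : R →+* R)
    (hsR : ∀ r : R, s (algebraMap R F r) = algebraMap R F (sR r))
    (hfrob : ∀ r : R, sR r - r ∈ Ideal.span {π})
    (hst : s (algebraMap K F t) = algebraMap K F t)
    (hsinf : ∀ x : F, x ∈ Winf ↔ s x ∈ Winf) (hs0 : ∀ x : F, x ∈ W0 ↔ s x ∈ W0)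
    (hres : ∀ x ∈ Winf, Winf.valuation (s x - x) < 1)
    (g linf l0 : F) (hg : g ≠ 0)
    (hordg : ∀ P : Place K₁ F, P.ord g = 0 ∨ (IsRationalPlace P ∧ (m : ℤ) ∣ P.ord g))
    (hordG : ∀ P : Place K₁ F, P.ord (s g / g) = 0 ∨
      (IsRationalPlace P ∧ (m : ℤ) ∣ P.ord (s g / g)))
    (hlinf : Winf.valuation linf = 1) (hginf : Winf.valuation (g - linf ^ m) < 1)
    (hl0 : W0.valuation l0 = 1) (hg0 : W0.valuation (g - l0 ^ m) < 1)
    (μ : K₁ˣ) (hμinf : Winf.valuation (algebraMap K₁ F μ) = 1)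
    (hμ0 : W0.valuation (algebraMap K₁ F μ) = 1)
    (hlead : ∀ u : Fˣ, (u : F) = s g / g → lc u = μ ^ m) :
    ∃ u : F, s g / g = u ^ m := by
  have hm0 : m ≠ 0 := hm.ne'
  have ht' : Transcendental K₁ t⁻¹ := transcendental_inv_of_transcendental ht
  have hK' : IntermediateField.adjoin K₁ {t⁻¹} = ⊤ := adjoin_inv_eq_top hK
  have hG : s g / g ≠ 0 := div_ne_zero ((_root_.map_ne_zero s).mpr hg) hg
  have hμF : algebraMap K₁ F μ ≠ 0 := (_root_.map_ne_zero _).mpr μ.ne_zero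
  have e1 : ∀ x : F, s x / x ^ 1 = s x / x := fun x => by rw [pow_one]
  obtain ⟨hL1, hL2⟩ := toric_frob Winf s hsinf 1 m hlinf hginf
  obtain ⟨hL3, hL4⟩ := toric_frob W0 s hs0 1 m hl0 hg0
  rw [e1, e1] at hL2 hL4
  rw [e1] at hL1 hL3
  have hst' : s (algebraMap K F t⁻¹) = algebraMap K F t⁻¹ := by
    rw [map_inv₀, map_inv₀, hst]
  -- the rescaled function
  set G' : F := s g / g / algebraMap K₁ F μ ^ m with hG'
  have hG'0 : G' ≠ 0 := div_ne_zero hG (pow_ne_zero _ hμF)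
  have hval : ∀ (W : ValuationSubring F) (L : F), W.valuation L = 1 →
      W.valuation (algebraMap K₁ F μ) = 1 → W.valuation (s g / g - L ^ m) < 1 →
      W.valuation (L / algebraMap K₁ F μ) = 1 ∧
        W.valuation (G' - (L / algebraMap K₁ F μ) ^ m) < 1 := by
    intro W L hL hμW hGL
    refine ⟨by rw [map_div₀, hL, hμW, div_one], ?_⟩
    have : G' - (L / algebraMap K₁ F μ) ^ m = (s g / g - L ^ m) / algebraMap K₁ F μ ^ m := by
      rw [hG', div_pow, sub_div]
    rw [this, map_div₀, map_pow, hμW, one_pow, div_one]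
    exact hGL
  obtain ⟨hA1, hA2⟩ := hval Winf _ hL1 hμinf hL2
  obtain ⟨hA3, hA4⟩ := hval W0 _ hL3 hμ0 hL4
  have hd₁ : ∀ (𝔫 : Ideal ↥(chartOne R F t)) (h𝔫 : 𝔫.IsMaximal),
      algebraMap R ↥(chartOne R F t) π ∈ 𝔫 →
      @ToricDatumAt R _ F _ _ (chartOne R F t) (sheetIdeal t Winf two.chart_le_inf)
        (sheetIdeal t W0 two.chart_le_zero) 𝔫 h𝔫.isPrime Winf W0 m G'
        (s linf / linf / algebraMap K₁ F μ) (s l0 / l0 / algebraMap K₁ F μ) := by
    intro 𝔫 h𝔫 hπ𝔫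
    haveI := h𝔫
    haveI := h𝔫.isPrime
    exact toricDatumAt_div_pow _ hμF
      (toricDatumAt_of_inertia two hπ ht hK hmod₁ s sR hsR hfrob hst hsinf hs0 hres hm0 hg hordg
        hordG hlinf hginf hl0 hg0 𝔫 hπ𝔫)
  have hd₂ : ∀ (𝔫 : Ideal ↥(chartOne R F t⁻¹)) (h𝔫 : 𝔫.IsMaximal),
      algebraMap R ↥(chartOne R F t⁻¹) π ∈ 𝔫 →
      @ToricDatumAt R _ F _ _ (chartOne R F t⁻¹)
        (sheetIdeal t⁻¹ Winf (two.inv hπ).chart_le_inf)
        (sheetIdeal t⁻¹ W0 (two.inv hπ).chart_le_zero) 𝔫 h𝔫.isPrime Winf W0 m G'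
        (s linf / linf / algebraMap K₁ F μ) (s l0 / l0 / algebraMap K₁ F μ) := by
    intro 𝔫 h𝔫 hπ𝔫
    haveI := h𝔫
    haveI := h𝔫.isPrime
    exact toricDatumAt_div_pow _ hμF
      (toricDatumAt_of_inertia (two.inv hπ) hπ ht' hK' hmod₂ s sR hsR hfrob hst' hsinf hs0 hres hm0
        hg hordg hordG hlinf hginf hl0 hg0 𝔫 hπ𝔫)
  have hlc1 : ∀ u : Fˣ, (u : F) = G' → lc u = 1 := by
    intro u hu
    have h1 : (u * Units.map (algebraMap K₁ F).toMonoidHom (μ ^ m) : Fˣ).val = s g / g := by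
      rw [Units.val_mul, hu, hG']
      show s g / g / algebraMap K₁ F μ ^ m * algebraMap K₁ F ((μ ^ m : K₁ˣ) : K₁) = s g / g
      rw [Units.val_pow_eq_pow_val, map_pow, div_mul_cancel₀ _ (pow_ne_zero _ hμF)]
    have h2 := hlead _ h1
    rw [map_mul, hlc] at h2
    exact mul_right_cancel (by rw [h2, one_mul])
  obtain ⟨u, hu⟩ := toric_pow_of_model t ht hK π hπ hm hmR ζ hζ hM4 lc hlc two hmod₁ hmod₂ G'
    (s linf / linf / algebraMap K₁ F μ) (s l0 / l0 / algebraMap K₁ F μ) hA1 hA2 hA3 hA4 hd₁ hd₂ hlc1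
  refine ⟨algebraMap K₁ F μ * u, ?_⟩
  rw [mul_pow, ← hu, hG', mul_div_cancel₀ _ (pow_ne_zero _ hμF)]

/-! ### congruences to `1` on a sheet -/

theorem val_eq_one_of_sub_one_lt (W : ValuationSubring F) {x : F}
    (hx : W.valuation (x - 1) < 1) : W.valuation x = 1 :=
  valuation_eq_one_of_sub_lt_one W (a := 1) (map_one _) hx

theorem val_div_sub_one_lt (W : ValuationSubring F) {a b : F} (hb : W.valuation b = 1)
    (h : W.valuation (a - b) < 1) : W.valuation (a / b - 1) < 1 := by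
  have hb0 : b ≠ 0 := fun h0 => by rw [h0, map_zero] at hb; exact zero_ne_one hb
  have : a / b - 1 = (a - b) / b := by field_simp
  rw [this, map_div₀, hb, div_one]
  exact h

theorem val_mul_sub_one_lt (W : ValuationSubring F) {x y : F} (hx : W.valuation (x - 1) < 1)
    (hy : W.valuation (y - 1) < 1) : W.valuation (x * y - 1) < 1 := by
  have hy1 := val_eq_one_of_sub_one_lt W hy
  have : x * y - 1 = (x - 1) * y + (y - 1) := by ring
  rw [this]
  refine lt_of_le_of_lt (Valuation.map_add _ _ _) (max_lt ?_ hy)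
  rw [map_mul, hy1, mul_one]
  exact hx

theorem val_inv_sub_one_lt (W : ValuationSubring F) {x : F} (hx : W.valuation (x - 1) < 1) :
    W.valuation (x⁻¹ - 1) < 1 := by
  have hx1 := val_eq_one_of_sub_one_lt W hx
  have hx0 : x ≠ 0 := fun h0 => by rw [h0, map_zero] at hx1; exact zero_ne_one hx1
  have : x⁻¹ - 1 = -(x - 1) / x := by field_simp; ring
  rw [this, map_div₀, hx1, div_one, Valuation.map_neg]
  exact hx

/-- **the function `(s - 1)(s - d) g₁` is congruent to `1` on both sheets**, for a unit `g₁` of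
both sheets, `s ≡ 1` on the residue field of `W_∞`, `s ≡ d` on the residue field of `W_0`. -/
theorem val_inertia_diamond_sub_one_lt
    (s d : F →+* F)
    (hsinf : ∀ x : F, x ∈ Winf ↔ s x ∈ Winf) (hs0 : ∀ x : F, x ∈ W0 ↔ s x ∈ W0)
    (hdinf : ∀ x : F, x ∈ Winf ↔ d x ∈ Winf) (hd0 : ∀ x : F, x ∈ W0 ↔ d x ∈ W0)
    (hcomm : ∀ x : F, d (s x) = s (d x))
    (hres : ∀ x ∈ Winf, Winf.valuation (s x - x) < 1)
    (hres0 : ∀ x ∈ W0, W0.valuation (s x - d x) < 1)
    {g₁ : F} (hginf : Winf.valuation g₁ = 1) (hg0 : W0.valuation g₁ = 1) :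
    Winf.valuation (s (s g₁ / d g₁) / (s g₁ / d g₁) - 1) < 1 ∧
      W0.valuation (s (s g₁ / d g₁) / (s g₁ / d g₁) - 1) < 1 := by
  have hg₁0 : g₁ ≠ 0 := fun h0 => by rw [h0, map_zero] at hginf; exact zero_ne_one hginf
  have hs1 : Winf.valuation (s g₁) = 1 := (valuation_map_eq_one_iff Winf s hsinf g₁).mpr hginf
  have hd1 : Winf.valuation (d g₁) = 1 := (valuation_map_eq_one_iff Winf d hdinf g₁).mpr hginf
  have hs1' : W0.valuation (s g₁) = 1 := (valuation_map_eq_one_iff W0 s hs0 g₁).mpr hg0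
  have hd1' : W0.valuation (d g₁) = 1 := (valuation_map_eq_one_iff W0 d hd0 g₁).mpr hg0
  have hds1' : W0.valuation (d (s g₁)) = 1 :=
    (valuation_map_eq_one_iff W0 d hd0 _).mpr hs1'
  have hsg0 : s g₁ ≠ 0 := (_root_.map_ne_zero s).mpr hg₁0
  have hdg0 : d g₁ ≠ 0 := (_root_.map_ne_zero d).mpr hg₁0
  have hdsg0 : d (s g₁) ≠ 0 := (_root_.map_ne_zero d).mpr hsg0
  constructor
  · have hh : Winf.valuation (s g₁ / d g₁) = 1 := by rw [map_div₀, hs1, hd1, div_one]
    have hhmem : s g₁ / d g₁ ∈ Winf := (Winf.valuation_le_one_iff _).mp hh.le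
    exact val_div_sub_one_lt Winf hh (hres _ hhmem)
  · -- `s h / h = (s h' / d h') * (s g₁ / d g₁)⁻¹`, `h' = s g₁`
    have e : s (s g₁ / d g₁) / (s g₁ / d g₁) =
        (s (s g₁) / d (s g₁)) * (s g₁ / d g₁)⁻¹ := by
      rw [map_div₀, ← hcomm g₁]
      field_simp
    rw [e]
    have h1 : W0.valuation (s (s g₁) / d (s g₁) - 1) < 1 :=
      val_div_sub_one_lt W0 hds1' (hres0 _ ((W0.valuation_le_one_iff _).mp hs1'.le))
    have h2 : W0.valuation (s g₁ / d g₁ - 1) < 1 :=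
      val_div_sub_one_lt W0 hd1' (hres0 _ ((W0.valuation_le_one_iff _).mp hg0.le))
    exact val_mul_sub_one_lt W0 h1 (val_inv_sub_one_lt W0 h2)

set_option maxHeartbeats 800000 in
/-- **(KEY-H) on the host.**  `s` an inertia-type endomorphism (trivial on the residue field of
`W_∞`), `d` an endomorphism commuting with `s` with `s ≡ d` on the residue field of `W_0`; `g₁` a
unit of both sheets, `g₂ := (s - 1)(s - d) g₁` (multiplicatively) with rational `m`-divisible
divisor.  Then `(s - 1) g₂` is an `m`-th power, as soon as its leading coefficient is the `m`-th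
power of a unit of the base. -/
theorem pow_of_inertia_diamond [IsAlgClosed (IsLocalRing.ResidueField R)]
    (t : K) (ht : Transcendental K₁ t) (hK : IntermediateField.adjoin K₁ {t} = ⊤)
    (π : R) (hπ : Irreducible π) {m : ℕ} (hm : 0 < m) (hmR : IsUnit (m : R)) (ζ : R)
    (hζ : IsPrimitiveRoot ζ m)
    (hM4 : ∀ x : F, IsAlgebraic K₁ x → x ∈ Set.range (algebraMap K₁ F))
    (lc : Fˣ →* K₁ˣ) (hlc : ∀ c : K₁ˣ, lc (Units.map (algebraMap K₁ F).toMonoidHom c) = c)
    {Winf W0 : ValuationSubring F} (two : IsTwoSheet π t Winf W0)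
    (hmod₁ : IsModelChart F π (sheetIdeal t Winf two.chart_le_inf)
      (sheetIdeal t W0 two.chart_le_zero))
    (hmod₂ : IsModelChart F π (sheetIdeal t⁻¹ Winf (two.inv hπ).chart_le_inf)
      (sheetIdeal t⁻¹ W0 (two.inv hπ).chart_le_zero))
    (s : F →+* F) (sR : R →+* R)
    (hsR : ∀ r : R, s (algebraMap R F r) = algebraMap R F (sR r))
    (hfrob : ∀ r : R, sR r - r ∈ Ideal.span {π})
    (hst : s (algebraMap K F t) = algebraMap K F t)
    (hsinf : ∀ x : F, x ∈ Winf ↔ s x ∈ Winf) (hs0 : ∀ x : F, x ∈ W0 ↔ s x ∈ W0)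
    (hres : ∀ x ∈ Winf, Winf.valuation (s x - x) < 1)
    (d : F →+* F)
    (hdinf : ∀ x : F, x ∈ Winf ↔ d x ∈ Winf) (hd0 : ∀ x : F, x ∈ W0 ↔ d x ∈ W0)
    (hcomm : ∀ x : F, d (s x) = s (d x))
    (hres0 : ∀ x ∈ W0, W0.valuation (s x - d x) < 1)
    (g₁ : F) (hginf : Winf.valuation g₁ = 1) (hg0 : W0.valuation g₁ = 1)
    (g₂ : F) (hg₂ : g₂ = s (s g₁ / d g₁) / (s g₁ / d g₁))
    (hordg : ∀ P : Place K₁ F, P.ord g₂ = 0 ∨ (IsRationalPlace P ∧ (m : ℤ) ∣ P.ord g₂))
    (hordG : ∀ P : Place K₁ F, P.ord (s g₂ / g₂) = 0 ∨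
      (IsRationalPlace P ∧ (m : ℤ) ∣ P.ord (s g₂ / g₂)))
    (μ : K₁ˣ) (hμinf : Winf.valuation (algebraMap K₁ F μ) = 1)
    (hμ0 : W0.valuation (algebraMap K₁ F μ) = 1)
    (hlead : ∀ u : Fˣ, (u : F) = s g₂ / g₂ → lc u = μ ^ m) :
    ∃ u : F, s g₂ / g₂ = u ^ m := by
  obtain ⟨h1, h2⟩ := val_inertia_diamond_sub_one_lt s d hsinf hs0 hdinf hd0 hcomm hres hres0
    hginf hg0
  rw [← hg₂] at h1 h2
  have hg₂0 : g₂ ≠ 0 := by
    intro h0
    have := val_eq_one_of_sub_one_lt Winf h1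
    rw [h0, map_zero] at this
    exact zero_ne_one this
  exact pow_of_toric_of_inertia t ht hK π hπ hm hmR ζ hζ hM4 lc hlc two hmod₁ hmod₂ s sR hsR hfrob
    hst hsinf hs0 hres g₂ 1 1 hg₂0 hordg hordG (map_one _) (by rwa [one_pow]) (map_one _)
    (by rwa [one_pow]) μ hμinf hμ0 hlead

end Glue

end Fermat.Agent.RB
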