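/-
RB [BB3] = (KEY-H), package D [SHAPE+BCH] — helper5 — part 3: **the order along a sheet.**

A sheet `W` of a two-sheeted chart (a valuation subring of `E` over a Gauss valuation subring of
`K = K₁(t)`, uniformised by `π`) is a discrete valuation ring with uniformizer `π`:

* `exists_zpow_val_eq_one` : every `f ≠ 0` is `π ^ a` times a unit of `W`;
* `zpow_val_eq_one_iff` : `W.valuation (π ^ n) = 1 ↔ n = 0`;
* `val_zpow_unique` : the exponent `a` is unique.
-/
import Mathlib
import Fermat.Agent.RB.KUMEXT_helper5_Two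

set_option autoImplicit false
set_option linter.unusedSectionVars false
set_option linter.unusedVariables false
set_option linter.style.haveILetI false

namespace Fermat.Agent.RB

open Fermat.Agent.SS Fermat.Agent.JA IsLocalRing

section Order

variable {R : Type*} [CommRing R] [IsDomain R] [IsDiscreteValuationRing R] [CharZero R]
  {K₁ : Type*} [Field K₁] [Algebra R K₁] [IsFractionRing R K₁]
  {K : Type*} [Field K] [Algebra K₁ K] [Algebra R K] [IsScalarTower R K₁ K]
  {E : Type*} [Field E] [Algebra K E] [Algebra R E] [IsScalarTower R K E] [FiniteDimensional K E]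
  {π : R} {t : K}

include K₁ in
/-- `π` is a non-zero non-unit of a sheet. -/
theorem val_pi_lt_one (hπ : Irreducible π) {W : ValuationSubring E}
    (hG : IsGaussAt R π t (W.comap (algebraMap K E))) :
    algebraMap R E π ≠ 0 ∧ W.valuation (algebraMap R E π) < 1 := by
  have hπE : algebraMap R E π ≠ 0 := algebraMap_pi_ne_zero (K₁ := K₁) (K := K) hπ
  refine ⟨hπE, ?_⟩
  rw [TwoExt.val_lt_one_iff_inv_not_mem W hπE]
  intro hmem
  apply hG.2.1
  change algebraMap K E ((algebraMap R K π)⁻¹) ∈ W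
  rwa [map_inv₀, ← IsScalarTower.algebraMap_apply]

/-- `W.valuation (π ^ n) = 1 ↔ n = 0` for a non-zero non-unit `π`. -/
theorem zpow_val_eq_one_iff {W : ValuationSubring E} {ϖ : E} (hϖ0 : ϖ ≠ 0)
    (hϖ : W.valuation ϖ < 1) (n : ℤ) : W.valuation (ϖ ^ n) = 1 ↔ n = 0 := by
  constructor
  · intro h
    by_contra hn
    have hv0 : W.valuation ϖ ≠ 0 := (Valuation.ne_zero_iff _).mpr hϖ0
    rcases lt_or_gt_of_ne hn with hneg | hpos
    · -- `n < 0`
      obtain ⟨k, hk⟩ := Int.eq_ofNat_of_zero_le (by omega : 0 ≤ -n)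
      have hk0 : k ≠ 0 := by omega
      have h1 : W.valuation (ϖ ^ k) = 1 := by
        have : ϖ ^ n = (ϖ ^ k)⁻¹ := by
          have hn' : n = -(k : ℤ) := by omega
          rw [hn', zpow_neg, zpow_natCast]
        rw [this, map_inv₀, inv_eq_one] at h
        exact h
      rw [map_pow] at h1
      have h2 : W.valuation ϖ ^ k < 1 := pow_lt_one₀ zero_le hϖ hk0
      exact absurd h1 h2.ne
    · obtain ⟨k, hk⟩ := Int.eq_ofNat_of_zero_le (by omega : 0 ≤ n)
      have hk0 : k ≠ 0 := by omega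
      rw [hk, zpow_natCast, map_pow] at h
      have h2 : W.valuation ϖ ^ k < 1 := pow_lt_one₀ zero_le hϖ hk0
      exact absurd h h2.ne
  · rintro rfl
    rw [zpow_zero, map_one]

/-- uniqueness of the order. -/
theorem val_zpow_unique {W : ValuationSubring E} {ϖ : E} (hϖ0 : ϖ ≠ 0)
    (hϖ : W.valuation ϖ < 1) {f : E} {a b : ℤ}
    (ha : W.valuation (f * (ϖ ^ a)⁻¹) = 1) (hb : W.valuation (f * (ϖ ^ b)⁻¹) = 1) : a = b := by
  have hf0 : f ≠ 0 := by
    rintro rfl
    rw [zero_mul, map_zero] at ha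
    exact zero_ne_one ha
  have h1 : W.valuation (ϖ ^ (a - b)) = 1 := by
    have : ϖ ^ (a - b) = (f * (ϖ ^ b)⁻¹) * (f * (ϖ ^ a)⁻¹)⁻¹ := by
      rw [zpow_sub₀ hϖ0]
      field_simp
    rw [this, map_mul, map_inv₀, ha, hb, inv_one, mul_one]
  have := (zpow_val_eq_one_iff hϖ0 hϖ (a - b)).mp h1
  omega

include K₁ in
/-- **every non-zero function is `π ^ a` times a unit of the sheet.** -/
theorem exists_zpow_val_eq_one (hπ : Irreducible π) (hu : Transcendental K₁ t)
    (hK : IntermediateField.adjoin K₁ {t} = ⊤) {W : ValuationSubring E}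
    (hG : IsGaussAt R π t (W.comap (algebraMap K E)))
    (he : ∀ x : E, W.valuation x < 1 → x * (algebraMap R E π)⁻¹ ∈ W) {f : E} (hf : f ≠ 0) :
    ∃ a : ℤ, W.valuation (f * (algebraMap R E π ^ a)⁻¹) = 1 := by
  haveI : IsDiscreteValuationRing ↥W := isDiscreteValuationRing_sheet (K₁ := K₁) hπ hu hK hG
  obtain ⟨hπE, hπlt⟩ := val_pi_lt_one (K₁ := K₁) hπ hG
  have hπW : algebraMap R E π ∈ W := (ValuationSubring.valuation_le_one_iff _ _).mp hπlt.le
  set ϖ : ↥W := ⟨algebraMap R E π, hπW⟩ with hϖ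
  have hirr : Irreducible ϖ := by
    rw [IsDiscreteValuationRing.irreducible_iff_uniformizer]
    apply le_antisymm
    · intro x hx
      rw [ValuationSubring.valuation_lt_one_iff] at hx
      rw [Ideal.mem_span_singleton]
      refine ⟨⟨(x : E) * (algebraMap R E π)⁻¹, he _ hx⟩, Subtype.ext ?_⟩
      show (x : E) = algebraMap R E π * ((x : E) * (algebraMap R E π)⁻¹)
      field_simp
    · rw [Ideal.span_singleton_le_iff_mem, ValuationSubring.valuation_lt_one_iff]
      exact hπlt
  -- the case of an element of `W`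
  have key : ∀ g : E, g ≠ 0 → g ∈ W → ∃ n : ℕ, W.valuation (g * (algebraMap R E π ^ n)⁻¹) = 1 := by
    intro g hg0 hgW
    have hg0' : (⟨g, hgW⟩ : ↥W) ≠ 0 := fun h => hg0 (congrArg Subtype.val h)
    obtain ⟨n, u, hu⟩ := IsDiscreteValuationRing.eq_unit_mul_pow_irreducible hg0' hirr
    refine ⟨n, ?_⟩
    have h1 : g = (u : ↥W) * algebraMap R E π ^ n := by
      have := congrArg Subtype.val hu
      simpa using this
    have h2 : g * (algebraMap R E π ^ n)⁻¹ = ((u : ↥W) : E) := by
      rw [h1, mul_assoc, mul_inv_cancel₀ (pow_ne_zero _ hπE), mul_one]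
    rw [h2]
    exact W.valuation_unit u
  rcases W.mem_or_inv_mem f with hfW | hfW
  · obtain ⟨n, hn⟩ := key f hf hfW
    exact ⟨n, by rwa [zpow_natCast]⟩
  · obtain ⟨n, hn⟩ := key f⁻¹ (inv_ne_zero hf) hfW
    refine ⟨-(n : ℤ), ?_⟩
    have : f * (algebraMap R E π ^ (-(n : ℤ)))⁻¹ = (f⁻¹ * (algebraMap R E π ^ n)⁻¹)⁻¹ := by
      rw [zpow_neg, zpow_natCast, inv_inv, mul_inv, inv_inv, inv_inv]
    rw [this, map_inv₀, hn, inv_one]

end Order

end Fermat.Agent.RB
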