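/-
RB [BB3] = (KEY-H), package A [SSM1] — helper7 — part 2: **level raising of an `SSModel`**
(abstract).

`SSModel.transfer` : an `SSModel` on a pair of hosts `(E_M, E_N)` extends to a pair of bigger
hosts `E_M ⊆ E_M'`, `E_N ⊆ E_N'` (same coordinate fields `K_M = K₁(t)`, `K_N = K₁(j)`, degeneracy
maps `A'`, `B'` extending `A`, `B`, valuation subrings `V_M'`, `W_∞'`, `W_0'` restricting to `V_M`,
`W_∞`, `W_0`) as soon as the level `E_M'` has good reduction (`GeoHyps`) and the *sheet block*
(`two`, `comap_*`, `res_*`) and `const` hold upstairs: all the other fields (`gauss_M`, `t_int`,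
`t_sub_inv_int`, `cusp_t`, the Kronecker congruences, `cuspord`, `cuspord'`, `unit`) are statements
inside `E_M` / `E_N` and are transported along the inclusions.
-/
import Mathlib
import Fermat.Agent.SS.MODEL_helper7_Iface
import Fermat.Agent.SS.NODE_helper8_Model
import Fermat.Agent.SS.VAL2_helper7_HostTwo

set_option autoImplicit false
set_option linter.unusedSectionVars false
set_option linter.style.haveILetI false

namespace Fermat.Agent.RB

open Fermat.Agent.JA Fermat.Agent.SS

section Transfer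

variable {R : Type*} [CommRing R] [IsDomain R] [IsDiscreteValuationRing R] [CharZero R]
  {K₁ : Type*} [Field K₁] [Algebra R K₁] [IsFractionRing R K₁]
  {KM : Type*} [Field KM] [Algebra K₁ KM] [Algebra R KM] [IsScalarTower R K₁ KM]
  {EM : Type*} [Field EM] [Algebra KM EM] [Algebra K₁ EM] [IsScalarTower K₁ KM EM] [Algebra R EM]
  [IsScalarTower R KM EM]
  {KN : Type*} [Field KN] [Algebra K₁ KN] [Algebra R KN] [IsScalarTower R K₁ KN]
  {EN : Type*} [Field EN] [Algebra KN EN] [Algebra K₁ EN] [IsScalarTower K₁ KN EN] [Algebra R EN]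
  [IsScalarTower R KN EN] [FiniteDimensional KN EN]
  {EM' : Type*} [Field EM'] [Algebra KM EM'] [Algebra K₁ EM'] [IsScalarTower K₁ KM EM']
  [Algebra R EM'] [IsScalarTower R KM EM']
  {EN' : Type*} [Field EN'] [Algebra KN EN'] [Algebra K₁ EN'] [IsScalarTower K₁ KN EN']
  [Algebra R EN'] [IsScalarTower R KN EN'] [FiniteDimensional KN EN']
  {π : R} {q n : ℕ} {S : Finset R} {t : KM} {jM : EM} {j : KN} {A B : EM →+* EN}
  {VM : ValuationSubring EM} {Winf W0 : ValuationSubring EN}

/-- integrality over a subring is transported to the preimage subring. -/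
theorem isIntegral_map_of_comap {E E' : Type*} [Field E] [Field E'] (ι : E →+* E')
    (O : Subring E') {x : E} (hx : IsIntegral ↥(O.comap ι) x) : IsIntegral ↥O (ι x) := by
  set φ₀ : ↥(O.comap ι) →+* ↥O :=
    (ι.comp (O.comap ι).subtype).codRestrict O (fun y => y.2) with hφ₀
  exact IsIntegral.map_of_comp_eq φ₀ ι (RingHom.ext fun s => rfl) hx

set_option maxHeartbeats 1600000 in
/-- **level raising of an `SSModel`** (see the file header). -/
theorem SSModel.transfer (h : SSModel K₁ π q n S t jM j A B VM Winf W0)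
    (ιM : EM →+* EM') (hιM : ∀ x : KM, ιM (algebraMap KM EM x) = algebraMap KM EM' x)
    (ιN : EN →+* EN') (hιN : ∀ x : KN, ιN (algebraMap KN EN x) = algebraMap KN EN' x)
    {A' B' : EM' →+* EN'} (hA : ∀ x : EM, A' (ιM x) = ιN (A x))
    (hB : ∀ x : EM, B' (ιM x) = ιN (B x))
    {VM' : ValuationSubring EM'} {Winf' W0' : ValuationSubring EN'}
    (hVM : VM'.comap ιM = VM) (hWinf : Winf'.comap ιN = Winf) (hW0 : W0'.comap ιN = W0)
    (geo' : GeoHyps K₁ π t EM' n S)
    (hA'R : ∀ r : R, A' (algebraMap R EM' r) = algebraMap R EN' r)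
    (hB'R : ∀ r : R, B' (algebraMap R EM' r) = algebraMap R EN' r)
    (two' : IsTwoSheet π j Winf' W0')
    (cAinf : Winf'.comap A' = VM') (cBinf : Winf'.comap B' = VM')
    (cA0 : W0'.comap A' = VM') (cB0 : W0'.comap B' = VM')
    (rinf : ∀ x ∈ Winf', ∃ a ∈ VM', Winf'.valuation (x - A' a) < 1)
    (r0 : ∀ x ∈ W0', ∃ a ∈ VM', W0'.valuation (x - B' a) < 1)
    (const' : ∀ x : EN', IsAlgebraic K₁ x → x ∈ Set.range (algebraMap K₁ EN')) :
    SSModel K₁ π q n S t (ιM jM) j A' B' VM' Winf' W0' := by
  have hιMR : ∀ r : R, ιM (algebraMap R EM r) = algebraMap R EM' r := fun r => by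
    rw [IsScalarTower.algebraMap_apply R KM EM, hιM, ← IsScalarTower.algebraMap_apply R KM EM']
  have hιNR : ∀ r : R, ιN (algebraMap R EN r) = algebraMap R EN' r := fun r => by
    rw [IsScalarTower.algebraMap_apply R KN EN, hιN, ← IsScalarTower.algebraMap_apply R KN EN']
  have hιNK : ∀ c : K₁, ιN (algebraMap K₁ EN c) = algebraMap K₁ EN' c := fun c => by
    rw [IsScalarTower.algebraMap_apply K₁ KN EN, hιN, ← IsScalarTower.algebraMap_apply K₁ KN EN']
  have hAj : A' (ιM jM) = ιN (A jM) := hA jM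
  have hBj : B' (ιM jM) = ιN (B jM) := hB jM
  have hAt : A' (algebraMap KM EM' t) = ιN (A (algebraMap KM EM t)) := by rw [← hιM, hA]
  have hBt : B' (algebraMap KM EM' t) = ιN (B (algebraMap KM EM t)) := by rw [← hιM, hB]
  refine
    { q_prime := h.q_prime
      q_mem := h.q_mem
      geo := geo'
      gauss_M := ?_
      t_int := ?_
      t_sub_inv_int := ?_
      cusp_t := ?_
      j_transcendental := h.j_transcendental
      j_adjoin := h.j_adjoin
      A_algebraMap := hA'R
      B_algebraMap := hB'R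
      A_j := ?_
      two := two'
      comap_A_inf := cAinf
      comap_B_inf := cBinf
      comap_A_zero := cA0
      comap_B_zero := cB0
      res_inf := rinf
      res_zero := r0
      kron_j_inf := ?_
      kron_j_zero := ?_
      kron_t_inf := ?_
      kron_t_zero := ?_
      cuspord := ?_
      cuspord' := ?_
      const := const'
      unit := ?_ }
  · -- gauss_M
    have e : VM'.comap (algebraMap KM EM') = VM.comap (algebraMap KM EM) := by
      ext x
      rw [ValuationSubring.mem_comap, ValuationSubring.mem_comap, ← hVM,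
        ValuationSubring.mem_comap, hιM]
    rw [e]
    exact h.gauss_M
  · -- t_int
    have := isIntegral_adjoin_map ιM hιMR h.t_int
    rwa [hιM] at this
  · -- t_sub_inv_int
    intro s hs
    have := isIntegral_adjoin_map ιM hιMR (h.t_sub_inv_int s hs)
    rwa [map_inv₀, map_sub, hιM, hιMR] at this
  · -- cusp_t
    intro O hint hloc hR hj hj'
    have h1 := h.cusp_t (O.comap ιM) (fun x hx => isIntegral_map_of_comap ιM O hx |> hint _)
      (fun a ha b hb hab => by
        have := hloc (ιM a) ha (ιM b) hb (by rw [← map_add, hab, map_one])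
        rcases this with h2 | h2
        · left; show ιM a⁻¹ ∈ O; rwa [map_inv₀]
        · right; show ιM b⁻¹ ∈ O; rwa [map_inv₀])
      (fun r => by show ιM (algebraMap R EM r) ∈ O; rw [hιMR]; exact hR r)
      (by show ιM jM⁻¹ ∈ O; rwa [map_inv₀])
      (fun hmem => hj' hmem)
    rcases h1 with h2 | h2
    · left
      rw [← hιM]
      exact h2
    · right
      rw [← hιM, ← map_inv₀]
      exact h2
  · -- A_j
    rw [hAj, h.A_j, hιN]
  · -- kron_j_inf
    rw [hBj, hAj, ← map_pow, ← map_sub]
    exact (comap_val_lt_one_iff ιN hWinf _).mpr h.kron_j_inf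
  · -- kron_j_zero
    rw [hBj, hAj, ← map_pow, ← map_sub]
    exact (comap_val_lt_one_iff ιN hW0 _).mpr h.kron_j_zero
  · -- kron_t_inf
    rw [hBt, hAt, ← map_pow, ← map_sub]
    exact (comap_val_lt_one_iff ιN hWinf _).mpr h.kron_t_inf
  · -- kron_t_zero
    obtain ⟨s', ρ, hs', hρ, h1, h2⟩ := h.kron_t_zero
    refine ⟨ιN s', ιN ρ, ?_, ?_, ?_, ?_⟩
    · have := isIntegral_adjoin_map ιN hιNR hs'
      rwa [← hBj] at this
    · have := isIntegral_adjoin_map ιN hιNR hρ
      rwa [← hAj] at this
    · rw [hAt, ← map_pow, ← map_sub]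
      exact (comap_val_lt_one_iff ιN hW0 _).mpr h1
    · rw [← map_pow, ← map_sub]
      exact (comap_val_lt_one_iff ιN hWinf _).mpr h2
  · -- cuspord
    intro V hR hπV hjV
    obtain ⟨c1, c2, c3⟩ := h.cuspord (V.comap ιN)
      (fun r => by show ιN (algebraMap R EN r) ∈ V; rw [hιNR]; exact hR r)
      (by show ιN (algebraMap R EN π)⁻¹ ∈ V; rwa [map_inv₀, hιNR])
      (fun hmem => hjV (by rw [hAj]; exact hmem))
    refine ⟨?_, ?_, ?_⟩
    · rw [hBj, hAj, ← map_pow, ← map_inv₀, ← map_mul]
      exact c1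
    · rw [hBj, hAj, ← map_pow, ← map_inv₀, ← map_mul]
      exact c2
    · rw [hBj]
      exact c3
  · -- cuspord'
    intro V hR hπV hjV
    have := h.cuspord' (V.comap ιN)
      (fun r => by show ιN (algebraMap R EN r) ∈ V; rw [hιNR]; exact hR r)
      (by show ιN (algebraMap R EN π)⁻¹ ∈ V; rwa [map_inv₀, hιNR])
      (fun hmem => hjV (by rw [hBj]; exact hmem))
    rw [hAj]
    exact this
  · -- unit
    obtain ⟨U, c, hc, hU0, hUinf, hUinf', hU0', hU0'', hint, hint'⟩ := h.unit
    refine ⟨ιN U, c, hc, (_root_.map_ne_zero ιN).mpr hU0, ?_, ?_, ?_, ?_, ?_, ?_⟩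
    · exact (comap_mem_iff ιN hWinf U).mpr hUinf
    · rw [← map_inv₀]
      exact (comap_mem_iff ιN hWinf _).mpr hUinf'
    · rw [← hιNR, ← map_pow, ← map_inv₀, ← map_mul]
      exact (comap_mem_iff ιN hW0 _).mpr hU0'
    · rw [← hιNR, ← map_pow, ← map_inv₀, ← map_mul, ← map_inv₀]
      exact (comap_mem_iff ιN hW0 _).mpr hU0''
    · have := isIntegral_adjoin_map ιN hιNK hint
      rwa [← hAj] at this
    · have := isIntegral_adjoin_map ιN hιNK hint'
      rwa [← hAj, map_inv₀] at this

end Transfer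

end Fermat.Agent.RB
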