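/-
RB [BB3] = (KEY-H), package A [SSM1] — helper7 — part 3: **the `SSModel` of the Legendre hosts of
level `Γ₁(M)` / `Γ₁(M) ∩ Γ₀(M q)`** (`q` an odd prime, `q ∤ M`, `M ≠ 1`, residue characteristic `q`).

`EM₁ = legEL K M 1` (`= W1.legE K M`), `EN₁ = legEL K M q`, `A` = inclusion, `B = (x ↦ x^q)`,
`V_M`, `W_∞` = coefficientwise Gauss valuation subrings, `W_0` = `legW0L` := a valuation subring of
`EN₁` extending SS `legW0` of `JA.legE K (M q) ≤ EN₁` (Chevalley).

* degrees: `[EN₁ : A EM₁] ≤ q + 1` (compositum, `legEL_eq_sup`) and `[EN₁ : B EM₁] = [EN₁ : A EM₁]`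
  (two towers over the `Γ₀`-hosts, no Atkin–Lehner operator on level `Γ₁` needed);
* the sheet block from SS `host_two_sheet`;
* `ssModelLegL` : the `SSModel`, by `SSModel.transfer` from SS `ssModelLeg`.
-/
import Mathlib
import Fermat.Agent.RB.KEYH_helper7_Host
import Fermat.Agent.RB.KEYH_helper7_Transfer
import Fermat.Agent.W1.BCD_helper7_Host

set_option autoImplicit false
set_option linter.unusedSectionVars false
set_option linter.unusedVariables false
set_option linter.style.haveILetI false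
set_option synthInstance.maxHeartbeats 200000

open HahnSeries IntermediateField AlgebraicCurve ModularCurve Polynomial

namespace Fermat.Agent.RB

open Fermat.Agent.JA Fermat.Agent.Igusa Fermat.Agent.SS

open scoped Fermat.Agent.JA.Host

noncomputable section

section Abstract

variable {F₀ E L F₁ : Type*} [Field F₀] [Field E] [Field L] [Field F₁]

/-- **two towers**: if `a ∘ i = e ∘ c`, `b ∘ i = e ∘ d`, `[F₁ : c F₀] = [F₁ : d F₀]` and `E / F₀`
is finite, then `[L : a E] = [L : b E]`. -/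
theorem finrank_eq_of_two_towers (i : F₀ →+* E) (a b : E →+* L) (c d : F₀ →+* F₁) (e : F₁ →+* L)
    (hac : a.comp i = e.comp c) (hbd : b.comp i = e.comp d)
    (hcd : @Module.finrank F₀ F₁ _ _ c.toAlgebra.toModule =
      @Module.finrank F₀ F₁ _ _ d.toAlgebra.toModule)
    (hfin : @Module.finrank F₀ E _ _ i.toAlgebra.toModule ≠ 0) :
    @Module.finrank E L _ _ a.toAlgebra.toModule =
      @Module.finrank E L _ _ b.toAlgebra.toModule := by
  have h1 := degB_finrank_comp i a
  have h2 := degB_finrank_comp i b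
  have h3 := degB_finrank_comp c e
  have h4 := degB_finrank_comp d e
  rw [hac] at h1
  rw [hbd] at h2
  rw [h3] at h1
  rw [h4, ← hcd] at h2
  exact Nat.eq_of_mul_eq_mul_left (Nat.pos_of_ne_zero hfin) (h1.symm.trans h2)

end Abstract

section Hosts

variable (K : Type*) [Field K] [Algebra ℚ K]

theorem legE_le_legEL_one (M : ℕ) [NeZero M] : legE K M ≤ legEL K M 1 :=
  legHost_mono (W1.full_le_F₁_one M)

theorem legEL_one_le (M q : ℕ) : legEL K M 1 ≤ legEL K M q := legEL_mono K M (one_dvd q)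

theorem qExpand_mem_legEL_one (M : ℕ) {q : ℕ} [NeZero q] [NeZero (M * q)] (hq : q.Prime)
    (hq2 : q ≠ 2) : ∀ f ∈ legEL K M 1, qExpand K q f ∈ legEL K M q := by
  intro f hf
  haveI : NeZero (M * (1 * q)) := ⟨by rw [one_mul]; exact NeZero.ne _⟩
  have := qExpand_mem_legEL K M 1 hq hq2 hf
  rwa [one_mul] at this

/-- the `j`-function of the host of level `(M, L)`. -/
def legJL (M L : ℕ) : ↥(legEL K M L) :=
  ⟨jqNModC K 2, hostW_le_legHost _ (qExpand_mem_hostImage (by
    rw [W1.laurentBaseChange_F₁_eq_F₁C]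
    exact W1.jqModC_mem_F₁C K M L))⟩

@[simp] theorem coe_legJL (M L : ℕ) :
    ((legJL K M L : ↥(legEL K M L)) : LaurentSeries K) = jqNModC K 2 := rfl

end Hosts

section Degrees

variable (K : Type) [Field K] [Algebra ℚ K] [Algebra K ℂ] [IsScalarTower ℚ K ℂ]
  {M q : ℕ} [NeZero M] [NeZero q] [NeZero (M * q)] [W1.W1Api M]

/-- `EM₁ / EM` is finite. -/
theorem finite_legEL_one_over_legE :
    letI := Host.inclAlg (legE_le_legEL_one K M)
    Module.Finite ↥(legE K M) ↥(legEL K M 1) := by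
  haveI : Fact (legE K M ≤ legEL K M 1) := ⟨legE_le_legEL_one K M⟩
  haveI : Fact ((K⟮legT K⟯ : IntermediateField K (LaurentSeries K)) ≤ legE K M) :=
    ⟨le_sup_left⟩
  haveI : Module.Finite ↥K⟮legT K⟯ ↥(legEL K M 1) := W1.finite_legE K M
  exact Module.Finite.right ↥K⟮legT K⟯ ↥(legE K M) ↥(legEL K M 1)

set_option maxHeartbeats 1600000 in
/-- **the degree along `A`**: `[EN₁ : EM₁] ≤ q + 1`. -/
theorem degA_legEL (hq : q.Prime) (hqM : ¬ q ∣ M) (hM : M ≠ 1) :
    letI := Host.inclAlg (legEL_one_le K M q)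
    Module.Finite ↥(legEL K M 1) ↥(legEL K M q) ∧
      Module.finrank ↥(legEL K M 1) ↥(legEL K M q) ≤ q + 1 := by
  have hle : legE K M ≤ legE K (M * q) := legE_le_of_dvd K (dvd_mul_right M q)
  haveI : Fact (legE K M ≤ legEL K M 1) := ⟨legE_le_legEL_one K M⟩
  haveI : Fact (legE K M ≤ legE K (M * q)) := ⟨hle⟩
  haveI : Fact (legE K M ≤ legEL K M q) := ⟨le_trans hle (legE_le_legEL K M q)⟩
  haveI : Fact (legEL K M 1 ≤ legEL K M q) := ⟨legEL_one_le K M q⟩
  obtain ⟨h1, h2⟩ := deg2_finrank_legE_le (K := K) (algebraMap K ℂ) hq hqM hle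
  haveI : Module.Finite ↥(legE K M) ↥(legE K (M * q)) := h1
  haveI : Module.Finite ↥(legE K M) ↥(legEL K M 1) := finite_legEL_one_over_legE K
  have hD : legEL K M q = legEL K M 1 ⊔ legE K (M * q) := by
    rw [legEL_eq_sup K M q hM, sup_comm]
  refine ⟨Host.finite_sup_left (A := legE K M) hD, le_trans ?_ h2⟩
  exact deg2_finrank_sup_le (A := legE K M) hD

end Degrees

section DegB

variable (K : Type) [Field K] [Algebra ℚ K] [Algebra K ℂ] [IsScalarTower ℚ K ℂ]
  {M q : ℕ} [NeZero M] [NeZero q] [NeZero (M * q)] [W1.W1Api M]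

/-- the square of inclusions `EM → EM₁ → EN₁`, `EM → EN → EN₁` commutes. -/
theorem hostA_comp_inclusion :
    (hostA (legEL K M 1) (legEL K M q) (legEL_one_le K M q) :
        ↥(legEL K M 1) →+* ↥(legEL K M q)).comp
      (IntermediateField.inclusion (legE_le_legEL_one K M)).toRingHom =
    (IntermediateField.inclusion (legE_le_legEL K M q)).toRingHom.comp
      (IntermediateField.inclusion (legE_le_of_dvd K (dvd_mul_right M q))).toRingHom := by
  refine RingHom.ext fun f => Subtype.ext ?_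
  rw [RingHom.comp_apply, RingHom.comp_apply, AlgHom.toRingHom_eq_coe, AlgHom.toRingHom_eq_coe,
    AlgHom.toRingHom_eq_coe, RingHom.coe_coe, RingHom.coe_coe, RingHom.coe_coe, RingHom.coe_coe,
    coe_hostA, IntermediateField.coe_inclusion, IntermediateField.coe_inclusion,
    IntermediateField.coe_inclusion]

/-- the square of dilations `EM → EM₁ → EN₁`, `EM → EN → EN₁` commutes. -/
theorem hostB_comp_inclusion (hq : q.Prime) (hq2 : q ≠ 2) :
    (hostB (legEL K M 1) (legEL K M q) q (qExpand_mem_legEL_one K M hq hq2) :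
        ↥(legEL K M 1) →+* ↥(legEL K M q)).comp
      (IntermediateField.inclusion (legE_le_legEL_one K M)).toRingHom =
    (IntermediateField.inclusion (legE_le_legEL K M q)).toRingHom.comp
      (legHostB K M q hq hq2 : ↥(legE K M) →+* ↥(legE K (M * q))) := by
  refine RingHom.ext fun f => Subtype.ext ?_
  rw [RingHom.comp_apply, RingHom.comp_apply, AlgHom.toRingHom_eq_coe, AlgHom.toRingHom_eq_coe,
    RingHom.coe_coe, RingHom.coe_coe, RingHom.coe_coe, RingHom.coe_coe,
    coe_hostB, IntermediateField.coe_inclusion, IntermediateField.coe_inclusion,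
    coe_legHostB]

set_option maxHeartbeats 800000 in
/-- `[EN₁ : B EM₁] = [EN₁ : A EM₁]`. -/
theorem finrank_hostB_eq_hostA (hq : q.Prime) (hq2 : q ≠ 2) (hqM : ¬ q ∣ M) :
    @Module.finrank ↥(legEL K M 1) ↥(legEL K M q) _ _
      (hostB (legEL K M 1) (legEL K M q) q (qExpand_mem_legEL_one K M hq hq2) :
        ↥(legEL K M 1) →+* ↥(legEL K M q)).toAlgebra.toModule =
    @Module.finrank ↥(legEL K M 1) ↥(legEL K M q) _ _
      (hostA (legEL K M 1) (legEL K M q) (legEL_one_le K M q) :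
        ↥(legEL K M 1) →+* ↥(legEL K M q)).toAlgebra.toModule := by
  have hle : legE K M ≤ legE K (M * q) := legE_le_of_dvd K (dvd_mul_right M q)
  have hcd := degB_finrank_Etu_eq (algebraMap K ℂ) 2 (legT K) hq hqM
    (isIntegral_legT K).tower_top hle
    (legHostB K M q hq hq2 : ↥(legE K M) →+* ↥(legE K (M * q))) (fun _ => rfl)
  have hfin : @Module.finrank ↥(legE K M) ↥(legEL K M 1) _ _
      (IntermediateField.inclusion (legE_le_legEL_one K M)).toRingHom.toAlgebra.toModule ≠ 0 := by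
    letI := Host.inclAlg (legE_le_legEL_one K M)
    haveI : Module.Finite ↥(legE K M) ↥(legEL K M 1) := finite_legEL_one_over_legE K
    exact Module.finrank_pos.ne'
  exact (finrank_eq_of_two_towers
    (IntermediateField.inclusion (legE_le_legEL_one K M)).toRingHom
    (hostA (legEL K M 1) (legEL K M q) (legEL_one_le K M q) : ↥(legEL K M 1) →+* ↥(legEL K M q))
    (hostB (legEL K M 1) (legEL K M q) q (qExpand_mem_legEL_one K M hq hq2) :
      ↥(legEL K M 1) →+* ↥(legEL K M q))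
    (IntermediateField.inclusion hle).toRingHom
    (legHostB K M q hq hq2 : ↥(legE K M) →+* ↥(legE K (M * q)))
    (IntermediateField.inclusion (legE_le_legEL K M q)).toRingHom
    (hostA_comp_inclusion K) (hostB_comp_inclusion K hq hq2) hcd.symm hfin).symm

set_option maxHeartbeats 800000 in
/-- **the degree along `B`**: `[EN₁ : B EM₁] = [EN₁ : A EM₁] ≤ q + 1`. -/
theorem degB_legEL (hq : q.Prime) (hq2 : q ≠ 2) (hqM : ¬ q ∣ M) (hM : M ≠ 1) :
    letI := (hostB (legEL K M 1) (legEL K M q) q (qExpand_mem_legEL_one K M hq hq2) :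
      ↥(legEL K M 1) →+* ↥(legEL K M q)).toAlgebra
    Module.Finite ↥(legEL K M 1) ↥(legEL K M q) ∧
      Module.finrank ↥(legEL K M 1) ↥(legEL K M q) ≤ q + 1 := by
  obtain ⟨hA1, hA2⟩ := degA_legEL K (M := M) (q := q) hq hqM hM
  have heq := finrank_hostB_eq_hostA K (M := M) hq hq2 hqM
  have hpos : 0 < @Module.finrank ↥(legEL K M 1) ↥(legEL K M q) _ _
      (Host.inclAlg (legEL_one_le K M q)).toModule := by
    letI := Host.inclAlg (legEL_one_le K M q)
    haveI : Module.Finite ↥(legEL K M 1) ↥(legEL K M q) := hA1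
    exact Module.finrank_pos
  letI := (hostB (legEL K M 1) (legEL K M q) q (qExpand_mem_legEL_one K M hq hq2) :
      ↥(legEL K M 1) →+* ↥(legEL K M q)).toAlgebra
  refine ⟨Module.finite_of_finrank_pos ?_, ?_⟩
  · rw [heq]
    exact hpos
  · rw [heq]
    exact hA2

end DegB

section Sheets

variable (R : Type*) [CommRing R] [IsDomain R] [IsDiscreteValuationRing R] [CharZero R]
  (K : Type) [Field K] [Algebra R K] [IsFractionRing R K] [Algebra ℚ K] [Algebra K ℂ]
  {M q : ℕ} [NeZero M] [NeZero q] [NeZero (M * q)] {x y : ℤ} {π : R}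

/-- `V_M` / `W_∞`: the coefficientwise Gauss valuation subring of the host of level `(M, L)`. -/
def legWinfL (h2 : IsUnit (2 : R)) (M L : ℕ) : ValuationSubring ↥(legEL K M L) :=
  gaussValSub R K (legEL K M L) (legEL_le_gaussField R K h2 M L)

/-- the inclusion `EN → EN₁` of the `Γ₀`-host into the `Γ₁ ∩ Γ₀`-host. -/
def inclN (M q : ℕ) [NeZero (M * q)] : ↥(legE K (M * q)) →ₐ[K] ↥(legEL K M q) :=
  IntermediateField.inclusion (legE_le_legEL K M q)

/-- the inclusion `EM → EM₁` of the `Γ₀`-host into the `Γ₁`-host. -/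
def inclM (M : ℕ) [NeZero M] : ↥(legE K M) →ₐ[K] ↥(legEL K M 1) :=
  IntermediateField.inclusion (legE_le_legEL_one K M)

@[simp] theorem coe_inclN (f : ↥(legE K (M * q))) :
    ((inclN K M q f : ↥(legEL K M q)) : LaurentSeries K) = f :=
  IntermediateField.coe_inclusion _ f

@[simp] theorem coe_inclM (f : ↥(legE K M)) :
    ((inclM K M f : ↥(legEL K M 1)) : LaurentSeries K) = f :=
  IntermediateField.coe_inclusion _ f

theorem exists_legW0L (h : (q : ℤ) * x + M * y = 1) (hq : q.Prime) :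
    ∃ V : ValuationSubring ↥(legEL K M q),
      V.comap (inclN K M q : ↥(legE K (M * q)) →+* ↥(legEL K M q)) = legW0 R K h hq :=
  Fermat.Agent.SS.exists_valuationSubring_comap_eq _ _

/-- **`W_0` on the host of level `Γ₁(M) ∩ Γ₀(M q)`**: a valuation subring extending SS `legW0`
(unique: `legW0L_unique`). -/
def legW0L (h : (q : ℤ) * x + M * y = 1) (hq : q.Prime) : ValuationSubring ↥(legEL K M q) :=
  Classical.choose (exists_legW0L R K h hq)

theorem legW0L_comap (h : (q : ℤ) * x + M * y = 1) (hq : q.Prime) :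
    (legW0L R K h hq).comap (inclN K M q : ↥(legE K (M * q)) →+* ↥(legEL K M q)) =
      legW0 R K h hq :=
  Classical.choose_spec (exists_legW0L R K h hq)

theorem legWinfL_comap_inclN (h2 : IsUnit (2 : R)) :
    (legWinfL R K h2 M q).comap (inclN K M q : ↥(legE K (M * q)) →+* ↥(legEL K M q)) =
      legWinf R K h2 (M * q) := by
  ext f
  show ((inclN K M q f : ↥(legEL K M q)) : LaurentSeries K) ∈ gaussInt R K ↔
    (f : LaurentSeries K) ∈ gaussInt R K
  rw [coe_inclN]

theorem legWinfL_comap_inclM (h2 : IsUnit (2 : R)) :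
    (legWinfL R K h2 M 1).comap (inclM K M : ↥(legE K M) →+* ↥(legEL K M 1)) =
      legWinf R K h2 M := by
  ext f
  show ((inclM K M f : ↥(legEL K M 1)) : LaurentSeries K) ∈ gaussInt R K ↔
    (f : LaurentSeries K) ∈ gaussInt R K
  rw [coe_inclM]

end Sheets

section Block

variable (R : Type*) [CommRing R] [IsDomain R] [IsDiscreteValuationRing R] [CharZero R]
  [DecidableEq R]
  (K : Type) [Field K] [Algebra R K] [IsFractionRing R K] [Algebra ℚ K] [Algebra K ℂ]
  [IsScalarTower ℚ K ℂ]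
  {M q : ℕ} [NeZero M] [NeZero q] [NeZero (M * q)] [W1.W1Api M] {x y : ℤ} {π : R}

/-- the Legendre coordinate in the host of level `(M, L)`. -/
theorem coe_algebraMap_gen_legEL (M L : ℕ) :
    ((algebraMap ↥K⟮legT K⟯ ↥(legEL K M L) (AdjoinSimple.gen K (legT K)) : ↥(legEL K M L)) :
      LaurentSeries K) = legT K := by
  rw [Host.coe_algebraMap, AdjoinSimple.coe_gen]

/-- the Legendre relation in the host of level `(M, L)`. -/
theorem legendre_rel_legEL (M L : ℕ) :
    256 * ((algebraMap ↥K⟮legT K⟯ ↥(legEL K M L) (AdjoinSimple.gen K (legT K))) ^ 2 -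
        algebraMap ↥K⟮legT K⟯ ↥(legEL K M L) (AdjoinSimple.gen K (legT K)) + 1) ^ 3 =
      legJL K M L * ((algebraMap ↥K⟮legT K⟯ ↥(legEL K M L) (AdjoinSimple.gen K (legT K))) ^ 2 *
        (algebraMap ↥K⟮legT K⟯ ↥(legEL K M L) (AdjoinSimple.gen K (legT K)) - 1) ^ 2) := by
  apply Subtype.ext
  have h := jqNModC_mul_aeval_legT K
  rw [Host.aeval_legA, Host.aeval_legB] at h
  push_cast
  rw [coe_algebraMap_gen_legEL, coe_legJL]
  exact h.symm

/-- `gauss_M` for the host of level `Γ₁(M)`. -/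
theorem legL_gauss_M (hπ : Irreducible π) (h2 : IsUnit (2 : R)) (L : ℕ) :
    IsGaussAt R π (AdjoinSimple.gen K (legT K))
      ((legWinfL R K h2 M L).comap (algebraMap ↥K⟮legT K⟯ ↥(legEL K M L))) := by
  have hs : ((algebraMap ↥K⟮legT K⟯ ↥(legEL K M L) (AdjoinSimple.gen K (legT K)) :
      ↥(legEL K M L)) : LaurentSeries K) ∈ gaussInt R K := by
    rw [coe_algebraMap_gen_legEL]
    exact (isPrimeSeries_legT (R := R) (L := K) h2).mem_gaussInt
  refine isGaussAt_comap_gaussValSub' (legEL K M L) (legEL_le_gaussField R K h2 M L)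
    (algebraMap ↥K⟮legT K⟯ ↥(legEL K M L)) ?_ hπ (AdjoinSimple.gen K (legT K)) hs ?_
  · intro r
    rw [← IsScalarTower.algebraMap_apply R ↥K⟮legT K⟯ ↥(legEL K M L),
      IsScalarTower.algebraMap_apply R K ↥(legEL K M L), IntermediateField.coe_algebraMap_apply,
      LaurentSeries.algebraMap_apply]
  · have e : (⟨_, hs⟩ : gaussInt R K) =
        ⟨legT K, (isPrimeSeries_legT (R := R) (L := K) h2).mem_gaussInt⟩ :=
      Subtype.ext (coe_algebraMap_gen_legEL K M L)
    rw [e]
    exact (isPrimeSeries_legT (R := R) (L := K) h2).transcendental_gaussRed _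

/-- **uniqueness of the `j`-Gauss valuation subring of the host of level `Γ₁(M)`.** -/
theorem legEL_one_eq_legWinfL_of_isGaussAt (hπ : Irreducible π) (h2 : IsUnit (2 : R))
    (hgeo : GeoHyps K π (AdjoinSimple.gen K (legT K)) ↥(legEL K M 1) M ({0, 1} : Finset R))
    (V : ValuationSubring ↥(legEL K M 1)) (hV : IsGaussAt R π (legJL K M 1) V) :
    V = legWinfL R K h2 M 1 := by
  have h1 := legendre_isGaussAt hπ h2 (legendre_rel_legEL K M 1) hV
  have h2' : IsGaussAt R π (AdjoinSimple.gen K (legT K))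
      (V.comap (algebraMap ↥K⟮legT K⟯ ↥(legEL K M 1))) :=
    (isGaussAt_comap_ringHom_iff (algebraMap ↥K⟮legT K⟯ ↥(legEL K M 1))
      (fun r => (IsScalarTower.algebraMap_apply R ↥K⟮legT K⟯ ↥(legEL K M 1) r).symm) π _ V).mpr h1
  exact GeoHyps.valuationSubring_unique hgeo h2' (legL_gauss_M R K hπ h2 1)

end Block

section Main

variable (R : Type*) [CommRing R] [IsDomain R] [IsDiscreteValuationRing R] [CharZero R]
  [DecidableEq R]
  (K : Type) [Field K] [Algebra R K] [IsFractionRing R K] [Algebra ℚ K] [Algebra K ℂ]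
  [IsScalarTower ℚ K ℂ]
  {M q : ℕ} [NeZero M] [NeZero q] [NeZero (M * q)] [W1.W1Api M] {x y : ℤ} {π : R}

/-- the degeneracy map `A` (inclusion) `EM₁ → EN₁`. -/
abbrev legAL (M q : ℕ) : ↥(legEL K M 1) →ₐ[K] ↥(legEL K M q) :=
  hostA (legEL K M 1) (legEL K M q) (legEL_one_le K M q)

/-- the degeneracy map `B` (`x ↦ x ^ q`) `EM₁ → EN₁`. -/
abbrev legBL (M q : ℕ) [NeZero q] [NeZero (M * q)] (hq : q.Prime) (hq2 : q ≠ 2) :
    ↥(legEL K M 1) →ₐ[K] ↥(legEL K M q) :=
  hostB (legEL K M 1) (legEL K M q) q (qExpand_mem_legEL_one K M hq hq2)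

set_option maxHeartbeats 1600000 in
/-- the host of level `Γ₁(M) ∩ Γ₀(M q)` is finite over `K(j)`. -/
theorem finite_legEL_adjoin_j (hq : q.Prime) (hqM : ¬ q ∣ M) (hM : M ≠ 1) :
    Module.Finite ↥K⟮jqNModC K 2⟯ ↥(legEL K M q) := by
  haveI : Fact (legEL K M 1 ≤ legEL K M q) := ⟨legEL_one_le K M q⟩
  haveI : Module.Finite ↥K⟮jqNModC K 2⟯ ↥K⟮legT K⟯ :=
    Host.finite_Kj_Kt _ (legT K) (isIntegral_legT K)
  haveI : Module.Finite ↥K⟮legT K⟯ ↥(legEL K M 1) := W1.finite_legE K M
  haveI : Module.Finite ↥K⟮jqNModC K 2⟯ ↥(legEL K M 1) :=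
    Module.Finite.trans ↥K⟮legT K⟯ ↥(legEL K M 1)
  haveI : Module.Finite ↥(legEL K M 1) ↥(legEL K M q) := (degA_legEL K hq hqM hM).1
  exact Module.Finite.trans ↥(legEL K M 1) ↥(legEL K M q)

theorem legAL_legJL :
    (legAL K M q : ↥(legEL K M 1) →+* ↥(legEL K M q)) (legJL K M 1) =
      algebraMap ↥K⟮jqNModC K 2⟯ ↥(legEL K M q) (AdjoinSimple.gen K (jqNModC K 2)) := by
  apply Subtype.ext
  rw [RingHom.coe_coe, coe_hostA, coe_legJL, Host.coe_algebraMap, AdjoinSimple.coe_gen]

theorem legAL_legJL' :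
    (legAL K M q : ↥(legEL K M 1) →+* ↥(legEL K M q)) (legJL K M 1) =
      (inclN K M q : ↥(legE K (M * q)) →+* ↥(legEL K M q))
        ((legHostA K M q : ↥(legE K M) →+* ↥(legE K (M * q))) (legJE K M)) := by
  apply Subtype.ext
  rw [RingHom.coe_coe, RingHom.coe_coe, RingHom.coe_coe, coe_hostA, coe_legJL, coe_inclN,
    coe_legHostA, coe_legJE]

theorem legBL_legJL (hq : q.Prime) (hq2 : q ≠ 2) :
    (legBL K M q hq hq2 : ↥(legEL K M 1) →+* ↥(legEL K M q)) (legJL K M 1) =
      (inclN K M q : ↥(legE K (M * q)) →+* ↥(legEL K M q))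
        ((legHostB K M q hq hq2 : ↥(legE K M) →+* ↥(legE K (M * q))) (legJE K M)) := by
  apply Subtype.ext
  rw [RingHom.coe_coe, RingHom.coe_coe, RingHom.coe_coe, coe_hostB, coe_legJL, coe_inclN,
    coe_legHostB, coe_legJE]

theorem legAL_algebraMap (r : R) :
    (legAL K M q : ↥(legEL K M 1) →+* ↥(legEL K M q)) (algebraMap R ↥(legEL K M 1) r) =
      algebraMap R ↥(legEL K M q) r := by
  rw [IsScalarTower.algebraMap_apply R K ↥(legEL K M 1),
    IsScalarTower.algebraMap_apply R K ↥(legEL K M q)]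
  exact (legAL K M q).commutes _

theorem legBL_algebraMap (hq : q.Prime) (hq2 : q ≠ 2) (r : R) :
    (legBL K M q hq hq2 : ↥(legEL K M 1) →+* ↥(legEL K M q)) (algebraMap R ↥(legEL K M 1) r) =
      algebraMap R ↥(legEL K M q) r := by
  rw [IsScalarTower.algebraMap_apply R K ↥(legEL K M 1),
    IsScalarTower.algebraMap_apply R K ↥(legEL K M q)]
  exact (legBL K M q hq hq2).commutes _

theorem inclN_algebraMap_KN (c : ↥K⟮jqNModC K 2⟯) :
    (inclN K M q : ↥(legE K (M * q)) →+* ↥(legEL K M q))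
      (algebraMap ↥K⟮jqNModC K 2⟯ ↥(legE K (M * q)) c) =
      algebraMap ↥K⟮jqNModC K 2⟯ ↥(legEL K M q) c := by
  apply Subtype.ext
  rw [RingHom.coe_coe, coe_inclN, Host.coe_algebraMap, Host.coe_algebraMap]

theorem inclM_algebraMap_KM (c : ↥K⟮legT K⟯) :
    (inclM K M : ↥(legE K M) →+* ↥(legEL K M 1)) (algebraMap ↥K⟮legT K⟯ ↥(legE K M) c) =
      algebraMap ↥K⟮legT K⟯ ↥(legEL K M 1) c := by
  apply Subtype.ext
  rw [RingHom.coe_coe, coe_inclM, Host.coe_algebraMap, Host.coe_algebraMap]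

end Main

end

end Fermat.Agent.RB
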