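/-
RB [BB3] = (KEY-H), package A [SSM1] — helper7 — part 4: **the sheet block and the `SSModel` of the
Legendre hosts of level `Γ₁(M)` / `Γ₁(M) ∩ Γ₀(M q)`.**

* `legL_block` : `comap_A_zero`, `comap_B_zero`, `two`, `res_inf`, `res_zero` for
  `(EM₁, EN₁) = (legEL K M 1, legEL K M q)` with `W_0 = legW0L`, from SS `host_two_sheet`;
* `ssModelLegL` : **the `SSModel`** (from SS `SSModelLeg` on the `Γ₀`-hosts by `SSModel.transfer`);
* `legW0L_unique` : `legW0L` is the only valuation subring of `EN₁` extending SS `legW0`.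
-/
import Mathlib
import Fermat.Agent.RB.KEYH_helper7_Model

set_option autoImplicit false
set_option linter.unusedSectionVars false
set_option linter.unusedVariables false
set_option linter.style.haveILetI false
set_option synthInstance.maxHeartbeats 200000

open HahnSeries IntermediateField AlgebraicCurve ModularCurve Polynomial

namespace Fermat.Agent.RB

open Fermat.Agent.JA Fermat.Agent.Igusa Fermat.Agent.SS

open scoped Fermat.Agent.JA.Host

noncomputable section

section Main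

variable (R : Type*) [CommRing R] [IsDomain R] [IsDiscreteValuationRing R] [CharZero R]
  [DecidableEq R]
  (K : Type) [Field K] [Algebra R K] [IsFractionRing R K] [Algebra ℚ K] [Algebra K ℂ]
  [IsScalarTower ℚ K ℂ]
  {M q : ℕ} [NeZero M] [NeZero q] [NeZero (M * q)] [W1.W1Api M] {x y : ℤ} {π : R}

set_option maxHeartbeats 1600000 in
/-- **the sheet block on the hosts of level `Γ₁(M)` / `Γ₁(M) ∩ Γ₀(M q)`.** -/
theorem legL_block (hπ : Irreducible π) (h2 : IsUnit (2 : R))
    (h : (q : ℤ) * x + M * y = 1) (hq : q.Prime) (hq2 : q ≠ 2) (hM : M ≠ 1)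
    (hqπ : (q : R) ∈ Ideal.span {π})
    (hfin : FiniteDimensional ↥K⟮jqNModC K 2⟯ ↥(legEL K M q))
    (hSS : SSModelLeg R K π h2 h hq hq2)
    (hgeo₁ : GeoHyps K π (AdjoinSimple.gen K (legT K)) ↥(legEL K M 1) M ({0, 1} : Finset R)) :
    (legW0L R K h hq).comap (legAL K M q : ↥(legEL K M 1) →+* ↥(legEL K M q)) =
      legWinfL R K h2 M 1 ∧
    (legW0L R K h hq).comap (legBL K M q hq hq2 : ↥(legEL K M 1) →+* ↥(legEL K M q)) =
      legWinfL R K h2 M 1 ∧
    IsTwoSheet π (AdjoinSimple.gen K (jqNModC K 2)) (legWinfL R K h2 M q) (legW0L R K h hq) ∧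
    (∀ z ∈ legWinfL R K h2 M q, ∃ a ∈ legWinfL R K h2 M 1,
      (legWinfL R K h2 M q).valuation
        (z - (legAL K M q : ↥(legEL K M 1) →+* ↥(legEL K M q)) a) < 1) ∧
    (∀ z ∈ legW0L R K h hq, ∃ a ∈ legWinfL R K h2 M 1,
      (legW0L R K h hq).valuation
        (z - (legBL K M q hq hq2 : ↥(legEL K M 1) →+* ↥(legEL K M q)) a) < 1) := by
  haveI : FiniteDimensional ↥K⟮jqNModC K 2⟯ ↥(legE K (M * q)) := finite_legE_adjoin_j K (M * q)
  have hSS' : SSModel K (KM := ↥K⟮legT K⟯) (EM := ↥(legE K M)) (KN := ↥K⟮jqNModC K 2⟯)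
      (EN := ↥(legE K (M * q))) π q M ({0, 1} : Finset R)
      (AdjoinSimple.gen K (legT K)) (legJE K M) (AdjoinSimple.gen K (jqNModC K 2))
      (legHostA K M q : ↥(legE K M) →+* ↥(legE K (M * q)))
      (legHostB K M q hq hq2 : ↥(legE K M) →+* ↥(legE K (M * q)))
      (legWinf R K h2 M) (legWinf R K h2 (M * q)) (legW0 R K h hq) := hSS
  have hqM : ¬ q ∣ M := not_dvd_of_bezout h hq
  haveI : CharP (IsLocalRing.ResidueField R) q := charP_residueField_of_mem_span hπ hq hqπ
  have hchar : (q : IsLocalRing.ResidueField R) = 0 := CharP.cast_eq_zero _ q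
  have hcop : Nat.Coprime 2 q := (Nat.coprime_primes Nat.prime_two hq).mpr (Ne.symm hq2)
  have hinj : Function.Injective (algebraMap R K) := IsFractionRing.injective R K
  haveI : CharZero K := charZero_of_injective_algebraMap hinj
  -- the coordinate `j`
  have hTj := isPrimeSeries_jqNModC R K 2
  have hJg : ((legJL K M 1 : ↥(legEL K M 1)) : LaurentSeries K) ∈ gaussInt R K := by
    rw [coe_legJL]; exact hTj.mem_gaussInt
  have hred : gaussRed R K ⟨((legJL K M 1 : ↥(legEL K M 1)) : LaurentSeries K), hJg⟩ =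
      jqNModC (IsLocalRing.ResidueField R) 2 := by
    have e : (⟨((legJL K M 1 : ↥(legEL K M 1)) : LaurentSeries K), hJg⟩ : gaussInt R K) =
        ⟨jqNModC K 2, hTj.mem_gaussInt⟩ := Subtype.ext (coe_legJL K M 1)
    rw [e, gaussRed_jqNModC]
  have hord : (gaussRed R K
      ⟨((legJL K M 1 : ↥(legEL K M 1)) : LaurentSeries K), hJg⟩).order = -((2 : ℕ) : ℤ) := by
    rw [hred, order_jqNModC_field]
  have hne0 : gaussRed R K ⟨((legJL K M 1 : ↥(legEL K M 1)) : LaurentSeries K), hJg⟩ ≠ 0 := by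
    intro h0
    rw [h0, HahnSeries.order_zero] at hord
    norm_num at hord
  -- the degrees
  obtain ⟨hfA, hdA⟩ := degA_legEL K (M := M) (q := q) hq hqM hM
  obtain ⟨hfB, hdB⟩ := degB_legEL K (M := M) (q := q) hq hq2 hqM hM
  -- uniqueness at level `M`
  have huniq : ∀ V : ValuationSubring ↥(legEL K M 1), IsGaussAt R π (legJL K M 1) V →
      V = legWinfL R K h2 M 1 :=
    fun V hV => legEL_one_eq_legWinfL_of_isGaussAt R K hπ h2 hgeo₁ V hV
  -- `W_0` is Gauss in the coordinates `A j`, `B j`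
  have hKN : ∀ r : R, algebraMap ↥K⟮jqNModC K 2⟯ ↥(legEL K M q)
      (algebraMap R ↥K⟮jqNModC K 2⟯ r) = algebraMap R ↥(legEL K M q) r :=
    fun r => (IsScalarTower.algebraMap_apply R ↥K⟮jqNModC K 2⟯ ↥(legEL K M q) r).symm
  have hKN0 : ∀ r : R, algebraMap ↥K⟮jqNModC K 2⟯ ↥(legE K (M * q))
      (algebraMap R ↥K⟮jqNModC K 2⟯ r) = algebraMap R ↥(legE K (M * q)) r :=
    fun r => (IsScalarTower.algebraMap_apply R ↥K⟮jqNModC K 2⟯ ↥(legE K (M * q)) r).symm
  have hinclR : ∀ r : R, (inclN K M q : ↥(legE K (M * q)) →+* ↥(legEL K M q))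
      (algebraMap R ↥(legE K (M * q)) r) = algebraMap R ↥(legEL K M q) r := by
    intro r
    rw [IsScalarTower.algebraMap_apply R K ↥(legE K (M * q)),
      IsScalarTower.algebraMap_apply R K ↥(legEL K M q)]
    exact (inclN K M q).commutes _
  have hW0c := legW0L_comap R K (M := M) h hq
  have hGA0 : IsGaussAt R π
      ((legHostA K M q : ↥(legE K M) →+* ↥(legE K (M * q))) (legJE K M)) (legW0 R K h hq) := by
    rw [hSS'.A_j]
    exact (isGaussAt_comap_ringHom_iff _ hKN0 π _ _).mp hSS'.two.gauss_zero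
  have hGA : IsGaussAt R π
      ((legAL K M q : ↥(legEL K M 1) →+* ↥(legEL K M q)) (legJL K M 1)) (legW0L R K h hq) := by
    rw [legAL_legJL']
    refine (isGaussAt_comap_ringHom_iff _ hinclR π _ _).mp ?_
    rw [hW0c]
    exact hGA0
  have hJM : IsGaussAt R π (legJE K M) (legWinf R K h2 M) := by
    have h1 : IsGaussAt R π
        ((legHostA K M q : ↥(legE K M) →+* ↥(legE K (M * q))) (legJE K M))
        (legWinf R K h2 (M * q)) := by
      rw [hSS'.A_j]
      exact (isGaussAt_comap_ringHom_iff _ hKN0 π _ _).mp hSS'.two.gauss_inf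
    have h3 := (isGaussAt_comap_ringHom_iff _ hSS'.A_algebraMap π (legJE K M)
      (legWinf R K h2 (M * q))).mpr h1
    rwa [hSS'.comap_A_inf] at h3
  have hGB0 : IsGaussAt R π
      ((legHostB K M q hq hq2 : ↥(legE K M) →+* ↥(legE K (M * q))) (legJE K M))
      (legW0 R K h hq) := by
    refine (isGaussAt_comap_ringHom_iff _ hSS'.B_algebraMap π (legJE K M) (legW0 R K h hq)).mp ?_
    rw [hSS'.comap_B_zero]
    exact hJM
  have hGB : IsGaussAt R π
      ((legBL K M q hq hq2 : ↥(legEL K M 1) →+* ↥(legEL K M q)) (legJL K M 1))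
      (legW0L R K h hq) := by
    rw [legBL_legJL]
    refine (isGaussAt_comap_ringHom_iff _ hinclR π _ _).mp ?_
    rw [hW0c]
    exact hGB0
  have hW0A : (legW0L R K h hq).comap (legAL K M q : ↥(legEL K M 1) →+* ↥(legEL K M q)) =
      legWinfL R K h2 M 1 :=
    huniq _ ((isGaussAt_comap_ringHom_iff _ (legAL_algebraMap R K) π (legJL K M 1) _).mpr hGA)
  have hW0B : (legW0L R K h hq).comap
      (legBL K M q hq hq2 : ↥(legEL K M 1) →+* ↥(legEL K M q)) = legWinfL R K h2 M 1 :=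
    huniq _ ((isGaussAt_comap_ringHom_iff _ (legBL_algebraMap R K hq hq2) π (legJL K M 1) _).mpr
      hGB)
  -- Kronecker on `W_0`
  have hkron : (legW0L R K h hq).valuation
      ((legAL K M q : ↥(legEL K M 1) →+* ↥(legEL K M q)) (legJL K M 1) -
        (legBL K M q hq hq2 : ↥(legEL K M 1) →+* ↥(legEL K M q)) (legJL K M 1) ^ q) < 1 := by
    rw [legAL_legJL', legBL_legJL, ← map_pow, ← map_sub]
    exact (comap_val_lt_one_iff _ hW0c _).mpr hSS'.kron_j_zero
  obtain ⟨hne, honlyA, -, heinf, hezero, hresinf, hreszero⟩ :=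
    host_two_sheet (R := R) (legEL K M 1) (legEL K M q) (legEL_one_le K M q) q
      (qExpand_mem_legEL_one K M hq hq2) (legEL_le_gaussField R K h2 M 1)
      (legEL_le_gaussField R K h2 M q) hq hchar hπ 2 hcop (legJL K M 1) hJg hord hne0
      hfA hdA hfB hdB (legW0L R K h hq) hW0A hW0B hkron
  refine ⟨hW0A, hW0B, ⟨hne, ?_, ?_, fun W hW => ?_, heinf, hezero⟩, hresinf, hreszero⟩
  · -- gauss_inf
    exact isGaussAt_comap_gaussValSub' (R := R) (L := K) (legEL K M q)
      (legEL_le_gaussField R K h2 M q) (algebraMap ↥K⟮jqNModC K 2⟯ ↥(legEL K M q))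
      (fun r => by
        rw [hKN, IsScalarTower.algebraMap_apply R K ↥(legEL K M q),
          IntermediateField.coe_algebraMap_apply, algebraMap_laurentSeries_eq_single]
        rfl) hπ (AdjoinSimple.gen K (jqNModC K 2)) hTj.mem_gaussInt
      (hTj.transcendental_gaussRed _)
  · -- gauss_zero
    rw [isGaussAt_comap_ringHom_iff _ hKN, ← legAL_legJL]
    exact hGA
  · -- only
    rw [isGaussAt_comap_ringHom_iff _ hKN, ← legAL_legJL] at hW
    exact honlyA W (huniq _
      ((isGaussAt_comap_ringHom_iff _ (legAL_algebraMap R K) π (legJL K M 1) _).mpr hW))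

theorem legAL_inclM (f : ↥(legE K M)) :
    (legAL K M q : ↥(legEL K M 1) →+* ↥(legEL K M q))
      ((inclM K M : ↥(legE K M) →+* ↥(legEL K M 1)) f) =
    (inclN K M q : ↥(legE K (M * q)) →+* ↥(legEL K M q))
      ((legHostA K M q : ↥(legE K M) →+* ↥(legE K (M * q))) f) := by
  apply Subtype.ext
  rw [RingHom.coe_coe, RingHom.coe_coe, RingHom.coe_coe, RingHom.coe_coe, coe_hostA, coe_inclM,
    coe_inclN, coe_legHostA]

theorem legBL_inclM (hq : q.Prime) (hq2 : q ≠ 2) (f : ↥(legE K M)) :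
    (legBL K M q hq hq2 : ↥(legEL K M 1) →+* ↥(legEL K M q))
      ((inclM K M : ↥(legE K M) →+* ↥(legEL K M 1)) f) =
    (inclN K M q : ↥(legE K (M * q)) →+* ↥(legEL K M q))
      ((legHostB K M q hq hq2 : ↥(legE K M) →+* ↥(legE K (M * q))) f) := by
  apply Subtype.ext
  rw [RingHom.coe_coe, RingHom.coe_coe, RingHom.coe_coe, RingHom.coe_coe, coe_hostB, coe_inclM,
    coe_inclN, coe_legHostB]

theorem inclM_legJE :
    (inclM K M : ↥(legE K M) →+* ↥(legEL K M 1)) (legJE K M) = legJL K M 1 := by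
  apply Subtype.ext
  rw [RingHom.coe_coe, coe_inclM, coe_legJE, coe_legJL]

theorem legL_const (L : ℕ) (z : ↥(legEL K M L)) (hz : IsAlgebraic K z) :
    z ∈ Set.range (algebraMap K ↥(legEL K M L)) := by
  have h1 : IsAlgebraic K (z : LaurentSeries K) := by
    have := hz.algebraMap (A := LaurentSeries K)
    exact this
  obtain ⟨c, hc⟩ := laurentSeries_mem_range_algebraMap_of_isAlgebraic _ h1
  exact ⟨c, Subtype.ext hc⟩

set_option maxHeartbeats 1600000 in
/-- **the `SSModel` of the Legendre hosts of level `Γ₁(M)` / `Γ₁(M) ∩ Γ₀(M q)`** (`q` an odd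
prime, `q ∤ M`, `M ≠ 1`, residue characteristic `q`), from good reduction at the levels `Γ₀(M)`
and `Γ₁(M)`. -/
theorem ssModelLegL (hπ : Irreducible π) (h2 : IsUnit (2 : R))
    (h : (q : ℤ) * x + M * y = 1) (hq : q.Prime) (hq2 : q ≠ 2) (hM : M ≠ 1)
    (hqπ : (q : R) ∈ Ideal.span {π})
    [hfin : FiniteDimensional ↥K⟮jqNModC K 2⟯ ↥(legEL K M q)]
    (hgeo : GeoHyps K π (AdjoinSimple.gen K (legT K)) ↥(legE K M) M ({0, 1} : Finset R))
    (hgeo₁ : GeoHyps K π (AdjoinSimple.gen K (legT K)) ↥(legEL K M 1) M ({0, 1} : Finset R)) :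
    SSModel K (KM := ↥K⟮legT K⟯) (EM := ↥(legEL K M 1)) (KN := ↥K⟮jqNModC K 2⟯)
      (EN := ↥(legEL K M q)) π q M ({0, 1} : Finset R)
      (AdjoinSimple.gen K (legT K)) (legJL K M 1) (AdjoinSimple.gen K (jqNModC K 2))
      (legAL K M q : ↥(legEL K M 1) →+* ↥(legEL K M q))
      (legBL K M q hq hq2 : ↥(legEL K M 1) →+* ↥(legEL K M q))
      (legWinfL R K h2 M 1) (legWinfL R K h2 M q) (legW0L R K h hq) := by
  haveI : FiniteDimensional ↥K⟮jqNModC K 2⟯ ↥(legE K (M * q)) := finite_legE_adjoin_j K (M * q)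
  have hSS : SSModelLeg R K π h2 h hq hq2 := ssModelLeg R K hπ h2 h hq hq2 hqπ hgeo
  have hSS' : SSModel K (KM := ↥K⟮legT K⟯) (EM := ↥(legE K M)) (KN := ↥K⟮jqNModC K 2⟯)
      (EN := ↥(legE K (M * q))) π q M ({0, 1} : Finset R)
      (AdjoinSimple.gen K (legT K)) (legJE K M) (AdjoinSimple.gen K (jqNModC K 2))
      (legHostA K M q : ↥(legE K M) →+* ↥(legE K (M * q)))
      (legHostB K M q hq hq2 : ↥(legE K M) →+* ↥(legE K (M * q)))
      (legWinf R K h2 M) (legWinf R K h2 (M * q)) (legW0 R K h hq) := hSS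
  obtain ⟨hA0, hB0, htwo, hri, hr0⟩ := legL_block R K hπ h2 h hq hq2 hM hqπ hfin hSS hgeo₁
  have hT := SSModel.transfer hSS'
    (inclM K M : ↥(legE K M) →+* ↥(legEL K M 1)) (inclM_algebraMap_KM K)
    (inclN K M q : ↥(legE K (M * q)) →+* ↥(legEL K M q)) (inclN_algebraMap_KN K)
    (A' := (legAL K M q : ↥(legEL K M 1) →+* ↥(legEL K M q)))
    (B' := (legBL K M q hq hq2 : ↥(legEL K M 1) →+* ↥(legEL K M q)))
    (legAL_inclM K) (legBL_inclM K hq hq2)
    (legWinfL_comap_inclM R K h2) (legWinfL_comap_inclN R K h2) (legW0L_comap R K h hq)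
    hgeo₁ (legAL_algebraMap R K) (legBL_algebraMap R K hq hq2) htwo
    (comap_hostA_gaussValSub (R := R) (legEL K M 1) (legEL K M q) (legEL_one_le K M q)
      (legEL_le_gaussField R K h2 M 1) (legEL_le_gaussField R K h2 M q))
    (comap_hostB_gaussValSub (R := R) (legEL K M 1) (legEL K M q) q
      (qExpand_mem_legEL_one K M hq hq2)
      (legEL_le_gaussField R K h2 M 1) (legEL_le_gaussField R K h2 M q))
    hA0 hB0 hri hr0 (legL_const K q)
  rwa [inclM_legJE] at hT

/-- **`legW0L` is the only valuation subring of `EN₁` extending SS `legW0`.** -/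
theorem legW0L_unique (h2 : IsUnit (2 : R)) (h : (q : ℤ) * x + M * y = 1) (hq : q.Prime)
    [FiniteDimensional ↥K⟮jqNModC K 2⟯ ↥(legEL K M q)]
    [FiniteDimensional ↥K⟮jqNModC K 2⟯ ↥(legE K (M * q))]
    (htwo : IsTwoSheet π (AdjoinSimple.gen K (jqNModC K 2)) (legWinfL R K h2 M q)
      (legW0L R K h hq))
    (htwo₀ : IsTwoSheet π (AdjoinSimple.gen K (jqNModC K 2)) (legWinf R K h2 (M * q))
      (legW0 R K h hq))
    (V : ValuationSubring ↥(legEL K M q))
    (hV : V.comap (inclN K M q : ↥(legE K (M * q)) →+* ↥(legEL K M q)) = legW0 R K h hq) :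
    V = legW0L R K h hq := by
  have e : V.comap (algebraMap ↥K⟮jqNModC K 2⟯ ↥(legEL K M q)) =
      (legW0 R K h hq).comap (algebraMap ↥K⟮jqNModC K 2⟯ ↥(legE K (M * q))) := by
    ext c
    rw [ValuationSubring.mem_comap, ValuationSubring.mem_comap, ← hV, ValuationSubring.mem_comap,
      inclN_algebraMap_KN]
  rcases htwo.only V (by rw [e]; exact htwo₀.gauss_zero) with h1 | h1
  · exfalso
    apply htwo₀.ne
    rw [← hV, h1, legWinfL_comap_inclN]
  · exact h1

end Main

end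

end Fermat.Agent.RB
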