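/-
RB [BB3] = (KEY-H), package A [SSM1] — helper7 — part 5: **the `SSModel` of level
`Γ₁(M)` / `Γ₁(M) ∩ Γ₀(M q)` at every base** `K₁ ⊂ Ω` (`IsBase q K₁`, `R₁ = baseRing A K₁` a DVR),
Legendre hosts (`q` an odd prime, `q ∤ M`, `M ≠ 1`).
-/
import Mathlib
import Fermat.Agent.RB.KEYH_helper7_ModelMain
import Fermat.Agent.W1.INST_helper2_Final

set_option autoImplicit false
set_option linter.unusedSectionVars false
set_option linter.unusedVariables false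
set_option linter.style.haveILetI false
set_option synthInstance.maxHeartbeats 200000

open HahnSeries IntermediateField AlgebraicCurve ModularCurve Polynomial

namespace Fermat.Agent.RB

open Fermat.Agent.JA Fermat.Agent.Igusa Fermat.Agent.SS Fermat.Agent.FF

open scoped Fermat.Agent.JA.Host

/-- `Ω = AlgebraicClosure ℚ`. -/
local notation "Ω" => AlgebraicClosure ℚ

noncomputable section

/-- the scalar tower `ℚ → K₁ → ℂ` for the embedding `baseToComplex`. -/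
theorem isScalarTower_baseToComplex (K₁ : IntermediateField ℚ Ω) :
    letI := baseToComplex K₁
    IsScalarTower ℚ ↥K₁ ℂ := by
  letI := baseToComplex K₁
  exact IsScalarTower.of_algebraMap_eq (fun r => by
    rw [eq_ratCast, eq_ratCast, map_ratCast])

/-- the host of level `Γ₁(M) ∩ Γ₀(M q)` over a subfield of `Ω` is finite over `K₁(j)`. -/
theorem finite_legEL_adjoin_j_base (K₁ : IntermediateField ℚ Ω) {M q : ℕ} [NeZero M] [NeZero q]
    [NeZero (M * q)] (hq : q.Prime) (hqM : ¬ q ∣ M) (hM : M ≠ 1) :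
    Module.Finite ↥(↥K₁)⟮jqNModC ↥K₁ 2⟯ ↥(legEL ↥K₁ M q) := by
  letI := baseToComplex K₁
  haveI := isScalarTower_baseToComplex K₁
  haveI : W1.W1Api M := W1.w1Api_of_ne_one_h2 M hM
  exact finite_legEL_adjoin_j ↥K₁ hq hqM hM

set_option maxHeartbeats 1600000 in
/-- **the Legendre model of level `Γ₁(M)` / `Γ₁(M) ∩ Γ₀(M q)` at every base.** -/
theorem legLModelAtBases (M q : ℕ) [NeZero M] [NeZero q] [NeZero (M * q)] (hM : M ≠ 1)
    (hq : q.Prime) (hq2 : q ≠ 2) (hqM : ¬ q ∣ M)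
    (A : ValuationSubring Ω) (hA : A.LiesOverPrime q)
    (K₁ : IntermediateField ℚ Ω) (hK₁ : IsBase q K₁)
    [IsDiscreteValuationRing ↥(baseRing A K₁)] [CharZero ↥(baseRing A K₁)]
    [DecidableEq ↥(baseRing A K₁)] (ϖ : ↥(baseRing A K₁)) (hϖ : Irreducible ϖ)
    (h2 : IsUnit (2 : ↥(baseRing A K₁))) (x y : ℤ) (hbez : (q : ℤ) * x + M * y = 1) :
    letI := baseToComplex K₁
    haveI : FiniteDimensional ↥(↥K₁)⟮jqNModC ↥K₁ 2⟯ ↥(legEL ↥K₁ M q) :=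
      finite_legEL_adjoin_j_base K₁ hq hqM hM
    SSModel ↥K₁ (KM := ↥(↥K₁)⟮legT ↥K₁⟯) (EM := ↥(legEL ↥K₁ M 1))
      (KN := ↥(↥K₁)⟮jqNModC ↥K₁ 2⟯) (EN := ↥(legEL ↥K₁ M q)) ϖ q M
      ({0, 1} : Finset ↥(baseRing A K₁))
      (AdjoinSimple.gen ↥K₁ (legT ↥K₁)) (legJL ↥K₁ M 1) (AdjoinSimple.gen ↥K₁ (jqNModC ↥K₁ 2))
      (legAL ↥K₁ M q : ↥(legEL ↥K₁ M 1) →+* ↥(legEL ↥K₁ M q))
      (legBL ↥K₁ M q hq hq2 : ↥(legEL ↥K₁ M 1) →+* ↥(legEL ↥K₁ M q))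
      (legWinfL ↥(baseRing A K₁) ↥K₁ h2 M 1) (legWinfL ↥(baseRing A K₁) ↥K₁ h2 M q)
      (legW0L ↥(baseRing A K₁) ↥K₁ hbez hq) := by
  haveI : Fact q.Prime := ⟨hq⟩
  letI := baseToComplex K₁
  haveI := isScalarTower_baseToComplex K₁
  haveI : W1.W1Api M := W1.w1Api_of_ne_one_h2 M hM
  haveI : FiniteDimensional ↥(↥K₁)⟮jqNModC ↥K₁ 2⟯ ↥(legEL ↥K₁ M q) :=
    finite_legEL_adjoin_j_base K₁ hq hqM hM
  exact ssModelLegL ↥(baseRing A K₁) ↥K₁ hϖ h2 hbez hq hq2 hM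
    (natCast_mem_span_uniformizer_baseRing hA K₁ hϖ)
    (Fermat.Agent.JA.geoHyps_legE_baseRing hA M hqM hK₁ hq2 hϖ)
    (Fermat.Agent.W1.geoHyps_legE_baseRing hA M hqM hK₁ hq2 hϖ)

end

end Fermat.Agent.RB
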