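/-
RB [BB3] = (KEY-H), package A [SSM1], slice (helper8): **`SSModelAut` for the coefficientwise action
of an inertia element on a coefficient-stable host** `E_N ⊂ K₁⸨x⸩`, from an abstract `SSModel` on
`(E_M, E_N)` whose sheets `V_M`, `W_∞` are the Gauss valuation subrings and whose degeneracy map
`B` is `f ↦ f(x^q)` (the `haut` block of SS `kummer_base_of_ssModel`, extracted), and the
specialisation to the Legendre hosts `EM₁ = legEL K₁ M 1`, `EN₁ = legEL K₁ M q` of helper7.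

Also: the coefficientwise base-change maps `legEL K_s M L → legEL K₁ M L` for `K_s ≤ K₁`.
-/
import Mathlib
import Fermat.Agent.SS.BASE_helper1_Gen
import Fermat.Agent.RB.KEYH_helper7_Host

set_option autoImplicit false
set_option linter.unusedSectionVars false
set_option linter.unusedVariables false
set_option linter.style.haveILetI false

open HahnSeries IntermediateField AlgebraicCurve ModularCurve Fermat.Agent.Igusa

namespace Fermat.Agent.RB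

open Fermat.Agent.JA Fermat.Agent.FF Fermat.Agent.SS

/-- `Ω = AlgebraicClosure ℚ`. -/
local notation "Ω" => AlgebraicClosure ℚ

/-- the absolute Galois group. -/
local notation "GQ" => (AlgebraicClosure ℚ ≃ₐ[ℚ] AlgebraicClosure ℚ)

section Gen

variable {q : ℕ} [NeZero q] {A : ValuationSubring Ω}
  {K₁ : IntermediateField ℚ Ω} [Normal ℚ ↥K₁]
  [IsDiscreteValuationRing ↥(baseRing A K₁)] [CharZero ↥(baseRing A K₁)]
  [IsFractionRing ↥(baseRing A K₁) ↥K₁]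
  {EMf ENf : IntermediateField ↥K₁ (LaurentSeries ↥K₁)}
  {KM : Type*} [Field KM] [Algebra ↥K₁ KM] [Algebra ↥(baseRing A K₁) KM]
  [IsScalarTower ↥(baseRing A K₁) ↥K₁ KM]
  [Algebra KM ↥EMf] [IsScalarTower ↥K₁ KM ↥EMf] [Algebra ↥(baseRing A K₁) ↥EMf]
  [IsScalarTower ↥(baseRing A K₁) KM ↥EMf]
  {KN : Type*} [Field KN] [Algebra ↥K₁ KN] [Algebra ↥(baseRing A K₁) KN]
  [IsScalarTower ↥(baseRing A K₁) ↥K₁ KN]
  [Algebra KN ↥ENf] [IsScalarTower ↥K₁ KN ↥ENf] [Algebra ↥(baseRing A K₁) ↥ENf]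
  [IsScalarTower ↥(baseRing A K₁) KN ↥ENf] [FiniteDimensional KN ↥ENf]

/-- **the coefficientwise action of an inertia element is an `SSModelAut`** (generic form). -/
theorem ssModelAut_coeffRingAut_rb
    (hEM : CoeffStable EMf) (hEN : CoeffStable ENf)
    (hMle : EMf ≤ gaussField ↥(baseRing A K₁) ↥K₁) (hNle : ENf ≤ gaussField ↥(baseRing A K₁) ↥K₁)
    {ϖ : ↥(baseRing A K₁)} (hϖ : Irreducible ϖ) {n : ℕ} {S : Finset ↥(baseRing A K₁)} {t : KM}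
    {jM : ↥EMf} {j : KN} {Ad Bd : ↥EMf →+* ↥ENf} {VM : ValuationSubring ↥EMf}
    {Winf W0 : ValuationSubring ↥ENf}
    (h : SSModel ↥K₁ ϖ q n S t jM j Ad Bd VM Winf W0)
    (hVM : VM = gaussValSub ↥(baseRing A K₁) ↥K₁ EMf hMle)
    (hWinf : Winf = gaussValSub ↥(baseRing A K₁) ↥K₁ ENf hNle)
    (hB : ∀ f : ↥EMf, ((Bd f : ↥ENf) : LaurentSeries ↥K₁) = qExpand ↥K₁ q (f : LaurentSeries ↥K₁))
    (hj : ∀ τ : ↥K₁ ≃ₐ[ℚ] ↥K₁, coeffRingAut hEN τ (algebraMap KN ↥ENf j) = algebraMap KN ↥ENf j)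
    (hR : ∀ r : ↥(baseRing A K₁), algebraMap ↥(baseRing A K₁) ↥ENf r =
      algebraMap ↥K₁ ↥ENf (algebraMap ↥(baseRing A K₁) ↥K₁ r))
    {σ : GQ} (hσ : σ ∈ A.inertiaSubgroupIn ℚ) :
    SSModelAut ϖ j Winf W0 (coeffRingAut hEN (resGal K₁ σ) : ↥ENf →+* ↥ENf) := by
  subst hVM hWinf
  set σN : ↥ENf ≃+* ↥ENf := coeffRingAut hEN (resGal K₁ σ) with hσN
  set σM : ↥EMf ≃+* ↥EMf := coeffRingAut hEM (resGal K₁ σ) with hσM
  have hσR : ∀ r : ↥(baseRing A K₁), σN (algebraMap ↥(baseRing A K₁) ↥ENf r) =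
      algebraMap ↥(baseRing A K₁) ↥ENf ((baseRingAut (K₁ := K₁) hσ).toRingHom r) := by
    intro r
    rw [hR, hR]
    exact coeffRingAut_algebraMap_baseRing hEN hσ r
  have hres : ∀ r : ↥(baseRing A K₁),
      (baseRingAut (K₁ := K₁) hσ).toRingHom r - r ∈ Ideal.span {ϖ} := by
    intro r
    rw [← hϖ.maximalIdeal_eq]
    exact baseRingAut_sub_mem_maximalIdeal hσ r
  refine h.modelAut σN (baseRingAut (K₁ := K₁) hσ).toRingHom (σM : ↥EMf →+* ↥EMf)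
    (hj _) hσR hres (fun x => coeffRingAut_mem_gaussValSub_iff hEN hσ x)
    (fun x hx => valuation_coeffRingAut_sub_lt_one hEN hσ hx) ?_
    (fun a ha => valuation_coeffRingAut_sub_lt_one hEM hσ ha)
  intro a
  apply Subtype.ext
  rw [hB]
  show coeffMap _ ((Bd a : ↥ENf) : LaurentSeries ↥K₁) = qExpand ↥K₁ q (coeffMap _ _)
  rw [hB, coeffMap_qExpand]

/-- the same endomorphism also acts on `R` through `baseRingAut`, congruent to the identity modulo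
the uniformiser (the `hsR`, `hfrob` inputs of `pow_of_inertia_diamond`). -/
theorem coeffRingAut_algebraMap_baseRing_rb (hEN : CoeffStable ENf)
    {ϖ : ↥(baseRing A K₁)} (hϖ : Irreducible ϖ)
    (hR : ∀ r : ↥(baseRing A K₁), algebraMap ↥(baseRing A K₁) ↥ENf r =
      algebraMap ↥K₁ ↥ENf (algebraMap ↥(baseRing A K₁) ↥K₁ r))
    {σ : GQ} (hσ : σ ∈ A.inertiaSubgroupIn ℚ) :
    (∀ r : ↥(baseRing A K₁), coeffRingAut hEN (resGal K₁ σ) (algebraMap ↥(baseRing A K₁) ↥ENf r) =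
      algebraMap ↥(baseRing A K₁) ↥ENf ((baseRingAut (K₁ := K₁) hσ).toRingHom r)) ∧
    ∀ r : ↥(baseRing A K₁),
      (baseRingAut (K₁ := K₁) hσ).toRingHom r - r ∈ Ideal.span {ϖ} := by
  refine ⟨fun r => ?_, fun r => ?_⟩
  · rw [hR, hR]
    exact coeffRingAut_algebraMap_baseRing hEN hσ r
  · rw [← hϖ.maximalIdeal_eq]
    exact baseRingAut_sub_mem_maximalIdeal hσ r

end Gen

section LegEL

variable {q M : ℕ} [NeZero q] {A : ValuationSubring Ω}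
  {K₁ : IntermediateField ℚ Ω} [Normal ℚ ↥K₁]
  [IsDiscreteValuationRing ↥(baseRing A K₁)] [CharZero ↥(baseRing A K₁)]
  [IsFractionRing ↥(baseRing A K₁) ↥K₁]
  {KM : Type*} [Field KM] [Algebra ↥K₁ KM] [Algebra ↥(baseRing A K₁) KM]
  [IsScalarTower ↥(baseRing A K₁) ↥K₁ KM]
  [Algebra KM ↥(legEL ↥K₁ M 1)] [IsScalarTower ↥K₁ KM ↥(legEL ↥K₁ M 1)]
  [Algebra ↥(baseRing A K₁) ↥(legEL ↥K₁ M 1)]
  [IsScalarTower ↥(baseRing A K₁) KM ↥(legEL ↥K₁ M 1)]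
  {KN : Type*} [Field KN] [Algebra ↥K₁ KN] [Algebra ↥(baseRing A K₁) KN]
  [IsScalarTower ↥(baseRing A K₁) ↥K₁ KN]
  [Algebra KN ↥(legEL ↥K₁ M q)] [IsScalarTower ↥K₁ KN ↥(legEL ↥K₁ M q)]
  [Algebra ↥(baseRing A K₁) ↥(legEL ↥K₁ M q)]
  [IsScalarTower ↥(baseRing A K₁) KN ↥(legEL ↥K₁ M q)] [FiniteDimensional KN ↥(legEL ↥K₁ M q)]

/-- **`SSModelAut` for the coefficientwise action of an inertia element on `EN₁ = legEL K₁ M q`**
(helper7's Legendre host of level `Γ₁(M) ∩ Γ₀(M q)`), from an abstract `SSModel` on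
`(legEL K₁ M 1, legEL K₁ M q)`. -/
theorem ssModelAut_legEL (h2 : IsUnit (2 : ↥(baseRing A K₁)))
    {ϖ : ↥(baseRing A K₁)} (hϖ : Irreducible ϖ) {n : ℕ} {S : Finset ↥(baseRing A K₁)} {t : KM}
    {jM : ↥(legEL ↥K₁ M 1)} {j : KN} {Ad Bd : ↥(legEL ↥K₁ M 1) →+* ↥(legEL ↥K₁ M q)}
    {VM : ValuationSubring ↥(legEL ↥K₁ M 1)} {Winf W0 : ValuationSubring ↥(legEL ↥K₁ M q)}
    (h : SSModel ↥K₁ ϖ q n S t jM j Ad Bd VM Winf W0)
    (hVM : VM = gaussValSub ↥(baseRing A K₁) ↥K₁ (legEL ↥K₁ M 1)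
      (legEL_le_gaussField ↥(baseRing A K₁) ↥K₁ h2 M 1))
    (hWinf : Winf = gaussValSub ↥(baseRing A K₁) ↥K₁ (legEL ↥K₁ M q)
      (legEL_le_gaussField ↥(baseRing A K₁) ↥K₁ h2 M q))
    (hB : ∀ f : ↥(legEL ↥K₁ M 1), ((Bd f : ↥(legEL ↥K₁ M q)) : LaurentSeries ↥K₁) =
      qExpand ↥K₁ q (f : LaurentSeries ↥K₁))
    (hj : ((algebraMap KN ↥(legEL ↥K₁ M q) j : ↥(legEL ↥K₁ M q)) : LaurentSeries ↥K₁) =
      jqNModC ↥K₁ 2)
    (hR : ∀ r : ↥(baseRing A K₁), algebraMap ↥(baseRing A K₁) ↥(legEL ↥K₁ M q) r =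
      algebraMap ↥K₁ ↥(legEL ↥K₁ M q) (algebraMap ↥(baseRing A K₁) ↥K₁ r))
    {σ : GQ} (hσ : σ ∈ A.inertiaSubgroupIn ℚ) :
    SSModelAut ϖ j Winf W0
      (coeffRingAut (coeffStable_legHost (K := ↥K₁) (W1.F₁ M q)) (resGal K₁ σ) :
        ↥(legEL ↥K₁ M q) →+* ↥(legEL ↥K₁ M q)) :=
  ssModelAut_coeffRingAut_rb (coeffStable_legHost (K := ↥K₁) (W1.F₁ M 1))
    (coeffStable_legHost (K := ↥K₁) (W1.F₁ M q))
    (legEL_le_gaussField ↥(baseRing A K₁) ↥K₁ h2 M 1)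
    (legEL_le_gaussField ↥(baseRing A K₁) ↥K₁ h2 M q) hϖ h hVM hWinf hB
    (fun τ => Subtype.ext (by
      rw [coe_coeffRingAut_apply, hj, coeffMap_jqNModC])) hR hσ

end LegEL

end Fermat.Agent.RB
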