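/-
RB [BB3] = (KEY-H), package G [DESC1] — helper4 — part 9: **(O11b) the unit / leading-coefficient
slices of the final host assembly** (`LegThetaBase` from helper5's `pow_of_inertia_diamond`).

Abstract part (a sheet `W` of a two-sheeted chart, uniformised by `π`):
* `val_map_div_self_eq_one` : a ring endomorphism `s` preserving `W` with `s π ~ π` preserves the
  valuation: `W.valuation (s f / f) = 1` for `f ≠ 0` (`hginf`, `hg0` of `pow_of_inertia_diamond`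
  for `g₁ = s f / f`);
* `val_algebraMap_eq_one_of_pow` : a constant `μ` with `μ ^ m` a unit of `R` is a unit of every
  valuation subring containing `R`.
-/
import Mathlib
import Fermat.Agent.RB.KEYH_helper5_Order
import Fermat.Agent.RB.DESC1_helper4_Iface
import Fermat.Agent.RB.KEYH_helper5_Glue
import Fermat.Agent.RB.KEYH_helper7_AtBases
import Fermat.Agent.RB.KEYH_helper8_Aut
import Fermat.Agent.SS.LC_helper5

set_option autoImplicit false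
set_option linter.unusedSectionVars false
set_option linter.unusedVariables false
set_option linter.style.haveILetI false
set_option synthInstance.maxHeartbeats 400000

open HahnSeries IntermediateField AlgebraicCurve ModularCurve Polynomial

namespace Fermat.Agent.RB.DESC1

open Fermat.Agent.JA Fermat.Agent.Igusa Fermat.Agent.SS Fermat.Agent.FF
  Fermat.Agent.W1 Fermat.Agent.RB Fermat.Agent.TW.Kill

open scoped Fermat.Agent.JA.Host

/-- `Ω = AlgebraicClosure ℚ`. -/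
local notation "Ω" => AlgebraicClosure ℚ

/-- the absolute Galois group. -/
local notation "GQ" => (AlgebraicClosure ℚ ≃ₐ[ℚ] AlgebraicClosure ℚ)

section Abs

variable {R : Type*} [CommRing R] [IsDomain R] [IsDiscreteValuationRing R] [CharZero R]
  {K₁ : Type*} [Field K₁] [Algebra R K₁] [IsFractionRing R K₁]
  {K : Type*} [Field K] [Algebra K₁ K] [Algebra R K] [IsScalarTower R K₁ K]
  {E : Type*} [Field E] [Algebra K E] [Algebra R E] [IsScalarTower R K E] [FiniteDimensional K E]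
  {π : R} {t : K}

/-- a ring endomorphism preserving a valuation subring maps its units to units. -/
theorem val_map_eq_one_of_mem_iff {W : ValuationSubring E} (s : E →+* E)
    (hs : ∀ x : E, x ∈ W ↔ s x ∈ W) {u : E} (hu : W.valuation u = 1) :
    W.valuation (s u) = 1 := by
  have hu0 : u ≠ 0 := by
    rintro rfl
    rw [map_zero] at hu
    exact zero_ne_one hu
  have h1 : u ∈ W := (ValuationSubring.valuation_le_one_iff _ _).mp hu.le
  have h2 : u⁻¹ ∈ W := by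
    rw [← ValuationSubring.valuation_le_one_iff, map_inv₀, hu, inv_one]
  have h3 : s u ∈ W := (hs u).1 h1
  have h4 : (s u)⁻¹ ∈ W := by
    rw [← map_inv₀]
    exact (hs _).1 h2
  have h5 : W.valuation (s u) ≤ 1 := (ValuationSubring.valuation_le_one_iff _ _).mpr h3
  have h6 : W.valuation (s u)⁻¹ ≤ 1 := (ValuationSubring.valuation_le_one_iff _ _).mpr h4
  rw [map_inv₀] at h6
  have h0 : W.valuation (s u) ≠ 0 := (Valuation.ne_zero_iff _).mpr ((map_ne_zero s).mpr hu0)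
  refine le_antisymm h5 ?_
  by_contra hlt
  rw [not_le] at hlt
  exact absurd h6 (not_le.mpr ((one_lt_inv₀ (zero_lt_iff.mpr h0)).mpr hlt))

include K₁ in
/-- **an endomorphism preserving a sheet and its uniformiser preserves the valuation.** -/
theorem val_map_div_self_eq_one (hπ : Irreducible π) (hu : Transcendental K₁ t)
    (hK : IntermediateField.adjoin K₁ {t} = ⊤) {W : ValuationSubring E}
    (hG : IsGaussAt R π t (W.comap (algebraMap K E)))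
    (he : ∀ x : E, W.valuation x < 1 → x * (algebraMap R E π)⁻¹ ∈ W)
    (s : E →+* E) (hs : ∀ x : E, x ∈ W ↔ s x ∈ W)
    (hsπ : W.valuation (s (algebraMap R E π) / algebraMap R E π) = 1)
    {f : E} (hf : f ≠ 0) : W.valuation (s f / f) = 1 := by
  obtain ⟨a, ha⟩ := exists_zpow_val_eq_one (K₁ := K₁) hπ hu hK hG he hf
  have hπ0 : algebraMap R E π ≠ 0 := (val_pi_lt_one (K₁ := K₁) hπ hG).1
  set ϖ : E := algebraMap R E π with hϖ
  set u : E := f * (ϖ ^ a)⁻¹ with hu'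
  have hsu : W.valuation (s u) = 1 := val_map_eq_one_of_mem_iff s hs ha
  have hfu : f = u * ϖ ^ a := by
    rw [hu', mul_assoc, inv_mul_cancel₀ (zpow_ne_zero _ hπ0), mul_one]
  have hsf : s f / f = (s u / u) * (s ϖ / ϖ) ^ a := by
    have hu0 : u ≠ 0 := by
      intro h0
      rw [h0, map_zero] at ha
      exact zero_ne_one ha
    have hsϖ : s ϖ ≠ 0 := (map_ne_zero s).mpr hπ0
    conv_lhs => rw [hfu]
    rw [map_mul, map_zpow₀, div_zpow]
    field_simp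
  rw [hsf, map_mul, map_zpow₀, hsπ, one_zpow, mul_one, map_div₀, hsu, ha, div_one]

/-- `hsπ` from `s π = unit · π`. -/
theorem val_map_pi_div_eq_one {W : ValuationSubring E} (hRW : ∀ r : R, algebraMap R E r ∈ W)
    (hπ0 : algebraMap R E π ≠ 0) (s : E →+* E) (sR : R →+* R)
    (hsR : ∀ r : R, s (algebraMap R E r) = algebraMap R E (sR r)) (hass : Associated (sR π) π) :
    W.valuation (s (algebraMap R E π) / algebraMap R E π) = 1 := by
  obtain ⟨ε, hε⟩ := hass.symm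
  -- `π * ε = sR π`
  rw [hsR, ← hε, map_mul, mul_div_cancel_left₀ _ hπ0]
  have h1 : W.valuation (algebraMap R E (ε : R)) ≤ 1 :=
    (ValuationSubring.valuation_le_one_iff _ _).mpr (hRW _)
  have h2 : W.valuation (algebraMap R E ((ε⁻¹ : Rˣ) : R)) ≤ 1 :=
    (ValuationSubring.valuation_le_one_iff _ _).mpr (hRW _)
  have h3 : W.valuation (algebraMap R E (ε : R)) * W.valuation (algebraMap R E ((ε⁻¹ : Rˣ) : R))
      = 1 := by
    rw [← map_mul, ← map_mul, Units.mul_inv, map_one, map_one]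
  refine le_antisymm h1 ?_
  calc (1 : _) = W.valuation (algebraMap R E (ε : R)) *
        W.valuation (algebraMap R E ((ε⁻¹ : Rˣ) : R)) := h3.symm
    _ ≤ W.valuation (algebraMap R E (ε : R)) * 1 := mul_le_mul' le_rfl h2
    _ = _ := mul_one _

/-- units of `R` are units of every valuation subring containing `R`. -/
theorem val_algebraMap_unit_eq_one {W : ValuationSubring E} (hRW : ∀ r : R, algebraMap R E r ∈ W)
    (ε : Rˣ) : W.valuation (algebraMap R E (ε : R)) = 1 := by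
  have h1 : W.valuation (algebraMap R E (ε : R)) ≤ 1 :=
    (ValuationSubring.valuation_le_one_iff _ _).mpr (hRW _)
  have h2 : W.valuation (algebraMap R E ((ε⁻¹ : Rˣ) : R)) ≤ 1 :=
    (ValuationSubring.valuation_le_one_iff _ _).mpr (hRW _)
  have h3 : W.valuation (algebraMap R E (ε : R)) * W.valuation (algebraMap R E ((ε⁻¹ : Rˣ) : R))
      = 1 := by
    rw [← map_mul, ← map_mul, Units.mul_inv, map_one, map_one]
  refine le_antisymm h1 ?_
  calc (1 : _) = W.valuation (algebraMap R E (ε : R)) *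
        W.valuation (algebraMap R E ((ε⁻¹ : Rˣ) : R)) := h3.symm
    _ ≤ W.valuation (algebraMap R E (ε : R)) * 1 := mul_le_mul' le_rfl h2
    _ = _ := mul_one _

/-- **a constant whose `m`-th power is a unit of `R` is a unit of `R`.** -/
theorem exists_unit_of_pow_eq {m : ℕ} (hm : 0 < m) {μ : K₁} {ε : Rˣ}
    (hμ : μ ^ m = algebraMap R K₁ (ε : R)) : ∃ ε' : Rˣ, μ = algebraMap R K₁ (ε' : R) := by
  have hμ0 : μ ≠ 0 := by
    rintro rfl
    rw [zero_pow hm.ne'] at hμ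
    exact (IsFractionRing.to_map_ne_zero_of_mem_nonZeroDivisors
      (mem_nonZeroDivisors_of_ne_zero ε.ne_zero)) hμ.symm
  have hint : ∀ (ν : K₁) (η : Rˣ), ν ^ m = algebraMap R K₁ (η : R) → IsIntegral R ν := by
    intro ν η hν
    refine ⟨X ^ m - Polynomial.C (η : R), monic_X_pow_sub_C _ hm.ne', ?_⟩
    rw [eval₂_sub, eval₂_X_pow, eval₂_C, hν, sub_self]
  obtain ⟨y, hy⟩ := IsIntegrallyClosed.isIntegral_iff.mp (hint μ ε hμ)
  have hinv : μ⁻¹ ^ m = algebraMap R K₁ ((ε⁻¹ : Rˣ) : R) := by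
    rw [inv_pow, hμ, ← map_units_inv]
  obtain ⟨y', hy'⟩ := IsIntegrallyClosed.isIntegral_iff.mp (hint μ⁻¹ ε⁻¹ hinv)
  have hyy' : y * y' = 1 := by
    apply IsFractionRing.injective R K₁
    rw [map_mul, hy, hy', mul_inv_cancel₀ hμ0, map_one]
  exact ⟨⟨y, y', hyy', by rw [mul_comm]; exact hyy'⟩, hy.symm⟩

/-- a ring automorphism of a discrete valuation ring maps every non-zero element to an associated
element. -/
theorem associated_map_of_irreducible (sR : R ≃+* R) {a : R} (ha : a ≠ 0) :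
    Associated (sR a) a := by
  obtain ⟨ϖ, hϖ⟩ := IsDiscreteValuationRing.exists_irreducible R
  obtain ⟨n, u, rfl⟩ := IsDiscreteValuationRing.eq_unit_mul_pow_irreducible ha hϖ
  have h1 : Associated (sR ϖ) ϖ :=
    IsDiscreteValuationRing.associated_of_irreducible _ ((MulEquiv.irreducible_iff sR).mpr hϖ) hϖ
  rw [map_mul, map_pow]
  refine Associated.mul_mul ?_ (h1.pow_pow)
  have h2 : IsUnit (sR (u : R)) := u.isUnit.map sR
  exact (associated_one_iff_isUnit.mpr h2).trans (associated_one_iff_isUnit.mpr u.isUnit).symm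

/-- a ring automorphism of `K₁ = Frac R` preserving `R` moves every non-zero constant by a unit
of `R`. -/
theorem exists_unit_map_div_self (sR : R ≃+* R) (τ : K₁ →+* K₁)
    (hτ : ∀ a : R, τ (algebraMap R K₁ a) = algebraMap R K₁ (sR a)) {c : K₁} (hc : c ≠ 0) :
    ∃ ε : Rˣ, τ c / c = algebraMap R K₁ (ε : R) := by
  obtain ⟨a, b, hb, rfl⟩ := IsFractionRing.div_surjective (A := R) c
  have hb0 : b ≠ 0 := nonZeroDivisors.ne_zero hb
  have ha0 : a ≠ 0 := by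
    rintro rfl
    rw [map_zero, zero_div] at hc
    exact hc rfl
  obtain ⟨εa, hεa⟩ := (associated_map_of_irreducible sR ha0).symm
  obtain ⟨εb, hεb⟩ := (associated_map_of_irreducible sR hb0).symm
  refine ⟨εa * εb⁻¹, ?_⟩
  have hA0 : algebraMap R K₁ a ≠ 0 :=
    IsFractionRing.to_map_ne_zero_of_mem_nonZeroDivisors (mem_nonZeroDivisors_of_ne_zero ha0)
  have hB0 : algebraMap R K₁ b ≠ 0 :=
    IsFractionRing.to_map_ne_zero_of_mem_nonZeroDivisors (mem_nonZeroDivisors_of_ne_zero hb0)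
  have hEb : algebraMap R K₁ (εb : R) ≠ 0 :=
    IsFractionRing.to_map_ne_zero_of_mem_nonZeroDivisors (mem_nonZeroDivisors_of_ne_zero εb.ne_zero)
  rw [map_div₀, hτ, hτ, ← hεa, ← hεb, map_mul, map_mul, Units.val_mul, map_mul,
    map_units_inv]
  field_simp

end Abs

noncomputable section

section Host

attribute [local instance] baseToComplex

set_option maxHeartbeats 3200000 in
/-- **(O11b) the third clause of `HostThetaAt` from the sheet data of the Kummer cover and the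
`E`-facts on `s`, `d`**: everything else in helper5's `pow_of_inertia_diamond` is discharged here
(`ζ`, `hmR`, `hM4`, `lc`, `hsR`, `hfrob`, `hst`, `hginf`, `hg0`, `μ` a unit on both sheets,
`hlead`). -/
theorem hostTheta_pow_of_sheets (M' r : ℕ) [NeZero M'] [NeZero r] [NeZero (M' * r)]
    (hr : r.Prime)
    (A : ValuationSubring Ω) (hA : A.LiesOverPrime r)
    (K₁ : IntermediateField ℚ Ω) [Normal ℚ ↥K₁] (hK₁ : IsBase r K₁)
    [IsDiscreteValuationRing ↥(baseRing A K₁)] [CharZero ↥(baseRing A K₁)]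
    (ϖ : ↥(baseRing A K₁)) (hϖ : Irreducible ϖ)
    {σ : GQ} (hσ : σ ∈ A.inertiaSubgroupIn ℚ) {m : ℕ} (hm : 0 < m) (hrm : ¬ r ∣ m)
    [FiniteDimensional ↥(↥K₁)⟮jqNModC ↥K₁ 2⟯ ↥(legEL ↥K₁ (M' * r) 1)]
    {Winf W0 : ValuationSubring ↥(legEL ↥K₁ (M' * r) 1)}
    (two : IsTwoSheet ϖ (AdjoinSimple.gen ↥K₁ (jqNModC ↥K₁ 2)) Winf W0)
    (hmod₁ : IsModelChart ↥(legEL ↥K₁ (M' * r) 1) ϖ
      (sheetIdeal (AdjoinSimple.gen ↥K₁ (jqNModC ↥K₁ 2)) Winf two.chart_le_inf)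
      (sheetIdeal (AdjoinSimple.gen ↥K₁ (jqNModC ↥K₁ 2)) W0 two.chart_le_zero))
    (hmod₂ : IsModelChart ↥(legEL ↥K₁ (M' * r) 1) ϖ
      (sheetIdeal (AdjoinSimple.gen ↥K₁ (jqNModC ↥K₁ 2))⁻¹ Winf (two.inv hϖ).chart_le_inf)
      (sheetIdeal (AdjoinSimple.gen ↥K₁ (jqNModC ↥K₁ 2))⁻¹ W0 (two.inv hϖ).chart_le_zero))
    (hsinf : ∀ x : ↥(legEL ↥K₁ (M' * r) 1), x ∈ Winf ↔
      coeffRingAut (coeffStable_legHost (K := ↥K₁) (F₁ (M' * r) 1)) (resGal K₁ σ) x ∈ Winf)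
    (hs0 : ∀ x : ↥(legEL ↥K₁ (M' * r) 1), x ∈ W0 ↔
      coeffRingAut (coeffStable_legHost (K := ↥K₁) (F₁ (M' * r) 1)) (resGal K₁ σ) x ∈ W0)
    (hres : ∀ x ∈ Winf, Winf.valuation
      (coeffRingAut (coeffStable_legHost (K := ↥K₁) (F₁ (M' * r) 1)) (resGal K₁ σ) x - x) < 1)
    (d : ↥(legEL ↥K₁ (M' * r) 1) →+* ↥(legEL ↥K₁ (M' * r) 1))
    (hdinf : ∀ x : ↥(legEL ↥K₁ (M' * r) 1), x ∈ Winf ↔ d x ∈ Winf)
    (hd0 : ∀ x : ↥(legEL ↥K₁ (M' * r) 1), x ∈ W0 ↔ d x ∈ W0)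
    (hcomm : ∀ x : ↥(legEL ↥K₁ (M' * r) 1),
      d (coeffRingAut (coeffStable_legHost (K := ↥K₁) (F₁ (M' * r) 1)) (resGal K₁ σ) x) =
        coeffRingAut (coeffStable_legHost (K := ↥K₁) (F₁ (M' * r) 1)) (resGal K₁ σ) (d x))
    (hres0 : ∀ x ∈ W0, W0.valuation
      (coeffRingAut (coeffStable_legHost (K := ↥K₁) (F₁ (M' * r) 1)) (resGal K₁ σ) x - d x) < 1)
    (f : ↥(legEL ↥K₁ (M' * r) 1)) (hf : f ≠ 0)
    (hordg : ∀ P : Place ↥K₁ ↥(legEL ↥K₁ (M' * r) 1),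
      P.ord (hostG₂ (coeffRingAut (coeffStable_legHost (K := ↥K₁) (F₁ (M' * r) 1))
          (resGal K₁ σ) : ↥(legEL ↥K₁ (M' * r) 1) →+* ↥(legEL ↥K₁ (M' * r) 1)) d f) = 0 ∨
      (IsRationalPlace P ∧ (m : ℤ) ∣
        P.ord (hostG₂ (coeffRingAut (coeffStable_legHost (K := ↥K₁) (F₁ (M' * r) 1))
          (resGal K₁ σ) : ↥(legEL ↥K₁ (M' * r) 1) →+* ↥(legEL ↥K₁ (M' * r) 1)) d f)))
    (hordG : ∀ P : Place ↥K₁ ↥(legEL ↥K₁ (M' * r) 1),
      P.ord (hostTheta (coeffRingAut (coeffStable_legHost (K := ↥K₁) (F₁ (M' * r) 1))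
          (resGal K₁ σ) : ↥(legEL ↥K₁ (M' * r) 1) →+* ↥(legEL ↥K₁ (M' * r) 1)) d f) = 0 ∨
      (IsRationalPlace P ∧ (m : ℤ) ∣
        P.ord (hostTheta (coeffRingAut (coeffStable_legHost (K := ↥K₁) (F₁ (M' * r) 1))
          (resGal K₁ σ) : ↥(legEL ↥K₁ (M' * r) 1) →+* ↥(legEL ↥K₁ (M' * r) 1)) d f)))
    (hμ : ∃ μ : ↥K₁, μ ≠ 0 ∧
      ((hostTheta (coeffRingAut (coeffStable_legHost (K := ↥K₁) (F₁ (M' * r) 1))
          (resGal K₁ σ) : ↥(legEL ↥K₁ (M' * r) 1) →+* ↥(legEL ↥K₁ (M' * r) 1)) d f :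
          ↥(legEL ↥K₁ (M' * r) 1)) : LaurentSeries ↥K₁).leadingCoeff = μ ^ m) :
    ∃ u : ↥(legEL ↥K₁ (M' * r) 1),
      hostTheta (coeffRingAut (coeffStable_legHost (K := ↥K₁) (F₁ (M' * r) 1))
          (resGal K₁ σ) : ↥(legEL ↥K₁ (M' * r) 1) →+* ↥(legEL ↥K₁ (M' * r) 1)) d f = u ^ m := by
  classical
  haveI : Fact r.Prime := ⟨hr⟩
  haveI := hK₁.isAlgClosed_residueField hA
  obtain ⟨ζ, hζ⟩ := hK₁.exists_isPrimitiveRoot_baseRing A hm hrm
  have hmR : IsUnit ((m : ℕ) : ↥(baseRing A K₁)) := isUnit_natCast_baseRing hA hrm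
  set s : ↥(legEL ↥K₁ (M' * r) 1) →+* ↥(legEL ↥K₁ (M' * r) 1) :=
    (coeffRingAut (coeffStable_legHost (K := ↥K₁) (F₁ (M' * r) 1)) (resGal K₁ σ) :
      ↥(legEL ↥K₁ (M' * r) 1) →+* ↥(legEL ↥K₁ (M' * r) 1)) with hs
  set t : ↥(↥K₁)⟮jqNModC ↥K₁ 2⟯ := AdjoinSimple.gen ↥K₁ (jqNModC ↥K₁ 2) with ht'
  have ht : Transcendental ↥K₁ t := Host.transcendental_gen (transcendental_jqNModC 2)
  have hK : IntermediateField.adjoin ↥K₁ {t} = ⊤ := Host.adjoin_gen_eq_top _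
  have hM4 : ∀ x : ↥(legEL ↥K₁ (M' * r) 1), IsAlgebraic ↥K₁ x →
      x ∈ Set.range (algebraMap ↥K₁ ↥(legEL ↥K₁ (M' * r) 1)) := fun x hx =>
    Host.mem_range_algebraMap_of_isAlgebraic
      (fun x hx => laurentSeries_mem_range_algebraMap_of_isAlgebraic x hx) _ x hx
  have hRF : ∀ a : ↥(baseRing A K₁),
      algebraMap ↥(baseRing A K₁) ↥(legEL ↥K₁ (M' * r) 1) a =
        algebraMap ↥K₁ ↥(legEL ↥K₁ (M' * r) 1) (algebraMap ↥(baseRing A K₁) ↥K₁ a) :=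
    fun a => IsScalarTower.algebraMap_apply ↥(baseRing A K₁) ↥K₁ ↥(legEL ↥K₁ (M' * r) 1) a
  have hsR : ∀ a : ↥(baseRing A K₁),
      s (algebraMap ↥(baseRing A K₁) ↥(legEL ↥K₁ (M' * r) 1) a) =
        algebraMap ↥(baseRing A K₁) ↥(legEL ↥K₁ (M' * r) 1)
          ((baseRingAut (K₁ := K₁) hσ).toRingHom a) := by
    intro a
    rw [hRF, hRF]
    exact coeffRingAut_algebraMap_baseRing _ hσ a
  have hfrob : ∀ a : ↥(baseRing A K₁),
      (baseRingAut (K₁ := K₁) hσ).toRingHom a - a ∈ Ideal.span {ϖ} := by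
    intro a
    rw [← hϖ.maximalIdeal_eq]
    exact baseRingAut_sub_mem_maximalIdeal hσ a
  have hst : s (algebraMap ↥(↥K₁)⟮jqNModC ↥K₁ 2⟯ ↥(legEL ↥K₁ (M' * r) 1) t) =
      algebraMap ↥(↥K₁)⟮jqNModC ↥K₁ 2⟯ ↥(legEL ↥K₁ (M' * r) 1) t := by
    apply Subtype.ext
    show coeffMap _ (jqNModC ↥K₁ 2) = jqNModC ↥K₁ 2
    rw [coeffMap_jqNModC]
  have hRWinf : ∀ a : ↥(baseRing A K₁),
      algebraMap ↥(baseRing A K₁) ↥(legEL ↥K₁ (M' * r) 1) a ∈ Winf :=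
    fun a => two.chart_le_inf _ (Subalgebra.algebraMap_mem _ a)
  have hRW0 : ∀ a : ↥(baseRing A K₁),
      algebraMap ↥(baseRing A K₁) ↥(legEL ↥K₁ (M' * r) 1) a ∈ W0 :=
    fun a => two.chart_le_zero _ (Subalgebra.algebraMap_mem _ a)
  have hπ0 : algebraMap ↥(baseRing A K₁) ↥(legEL ↥K₁ (M' * r) 1) ϖ ≠ 0 :=
    (val_pi_lt_one (K₁ := ↥K₁) hϖ two.gauss_inf).1
  have hass : Associated ((baseRingAut (K₁ := K₁) hσ).toRingHom ϖ) ϖ :=
    associated_baseRingAut hσ hϖ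
  have hginf : Winf.valuation (s f / f) = 1 :=
    val_map_div_self_eq_one (K₁ := ↥K₁) hϖ ht hK two.gauss_inf two.e_inf s hsinf
      (val_map_pi_div_eq_one hRWinf hπ0 s _ hsR hass) hf
  have hg0 : W0.valuation (s f / f) = 1 :=
    val_map_div_self_eq_one (K₁ := ↥K₁) hϖ ht hK two.gauss_zero two.e_zero s hs0
      (val_map_pi_div_eq_one hRW0 hπ0 s _ hsR hass) hf
  -- the leading coefficient
  obtain ⟨μ, hμ0, hμm⟩ := hμ
  set g₂ : ↥(legEL ↥K₁ (M' * r) 1) := hostG₂ s d f with hg₂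
  have hg₂0 : g₂ ≠ 0 := by
    have h1 : s f / f ≠ 0 := div_ne_zero ((map_ne_zero s).mpr hf) hf
    have h2 : s (s f / f) / d (s f / f) ≠ 0 :=
      div_ne_zero ((map_ne_zero s).mpr h1) ((map_ne_zero d).mpr h1)
    exact div_ne_zero ((map_ne_zero s).mpr h2) h2
  set c : ↥K₁ := ((g₂ : ↥(legEL ↥K₁ (M' * r) 1)) : LaurentSeries ↥K₁).leadingCoeff with hc
  have hc0 : c ≠ 0 :=
    HahnSeries.leadingCoeff_ne_zero.mpr (fun h => hg₂0 (Subtype.ext h))
  have hlcθ : ((hostTheta s d f : ↥(legEL ↥K₁ (M' * r) 1)) : LaurentSeries ↥K₁).leadingCoeff =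
      ((resGal K₁ σ : ↥K₁ ≃ₐ[ℚ] ↥K₁) : ↥K₁ →+* ↥K₁) c / c := by
    rw [hostTheta_eq, IntermediateField.coe_div, leadingCoeff_div_laurent,
      leadingCoeff_map_of_coeffMap s ((resGal K₁ σ : ↥K₁ ≃ₐ[ℚ] ↥K₁) : ↥K₁ →+* ↥K₁)
        (fun x => rfl)]
  obtain ⟨ε, hε⟩ := exists_unit_map_div_self (baseRingAut (K₁ := K₁) hσ)
    ((resGal K₁ σ : ↥K₁ ≃ₐ[ℚ] ↥K₁) : ↥K₁ →+* ↥K₁)
    (fun a => resGal_algebraMap_baseRing hσ a) hc0
  obtain ⟨ε', hε'⟩ := exists_unit_of_pow_eq hm (μ := μ) (ε := ε) (by rw [← hμm, hlcθ, hε])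
  have hμinf : Winf.valuation (algebraMap ↥K₁ ↥(legEL ↥K₁ (M' * r) 1)
      ((Units.mk0 μ hμ0 : (↥K₁)ˣ) : ↥K₁)) = 1 := by
    rw [Units.val_mk0, hε', ← hRF]
    exact val_algebraMap_unit_eq_one hRWinf ε'
  have hμ0' : W0.valuation (algebraMap ↥K₁ ↥(legEL ↥K₁ (M' * r) 1)
      ((Units.mk0 μ hμ0 : (↥K₁)ˣ) : ↥K₁)) = 1 := by
    rw [Units.val_mk0, hε', ← hRF]
    exact val_algebraMap_unit_eq_one hRW0 ε'
  have hlead : ∀ u : (↥(legEL ↥K₁ (M' * r) 1))ˣ,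
      (u : ↥(legEL ↥K₁ (M' * r) 1)) = s g₂ / g₂ →
        hostLc (legEL ↥K₁ (M' * r) 1) u = Units.mk0 μ hμ0 ^ m := by
    intro u hu
    apply Units.ext
    rw [coe_hostLc, hu, Units.val_pow_eq_pow_val, Units.val_mk0]
    exact hμm
  exact pow_of_inertia_diamond t ht hK ϖ hϖ hm hmR ζ hζ hM4 (hostLc (legEL ↥K₁ (M' * r) 1))
    (hostLc_algebraMap (legEL ↥K₁ (M' * r) 1)) two hmod₁ hmod₂ s
    (baseRingAut (K₁ := K₁) hσ).toRingHom hsR hfrob hst hsinf hs0 hres d hdinf hd0 hcomm hres0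
    (s f / f) hginf hg0 g₂ rfl hordg hordG (Units.mk0 μ hμ0) hμinf hμ0' hlead

set_option maxHeartbeats 3200000 in
/-- **(O11b) `HostThetaAt` from the sheet data of the Kummer cover, the diamond automorphism `δ`
with its dictionary, and the `E`-facts on `s`, `δ`.** -/
theorem hostThetaAt_of_sheets (M' r : ℕ) [NeZero M'] [NeZero r] [NeZero (M' * r)]
    (hr : r.Prime)
    (A : ValuationSubring Ω) (hA : A.LiesOverPrime r)
    (K₁ : IntermediateField ℚ Ω) [Normal ℚ ↥K₁] (hK₁ : IsBase r K₁)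
    [IsDiscreteValuationRing ↥(baseRing A K₁)] [CharZero ↥(baseRing A K₁)]
    (ϖ : ↥(baseRing A K₁)) (hϖ : Irreducible ϖ)
    {σ : GQ} (hσ : σ ∈ A.inertiaSubgroupIn ℚ) {m : ℕ} (hm : 0 < m) (hrm : ¬ r ∣ m)
    [FiniteDimensional ↥(↥K₁)⟮jqNModC ↥K₁ 2⟯ ↥(legEL ↥K₁ (M' * r) 1)]
    {Winf W0 : ValuationSubring ↥(legEL ↥K₁ (M' * r) 1)}
    (two : IsTwoSheet ϖ (AdjoinSimple.gen ↥K₁ (jqNModC ↥K₁ 2)) Winf W0)
    (hmod₁ : IsModelChart ↥(legEL ↥K₁ (M' * r) 1) ϖ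
      (sheetIdeal (AdjoinSimple.gen ↥K₁ (jqNModC ↥K₁ 2)) Winf two.chart_le_inf)
      (sheetIdeal (AdjoinSimple.gen ↥K₁ (jqNModC ↥K₁ 2)) W0 two.chart_le_zero))
    (hmod₂ : IsModelChart ↥(legEL ↥K₁ (M' * r) 1) ϖ
      (sheetIdeal (AdjoinSimple.gen ↥K₁ (jqNModC ↥K₁ 2))⁻¹ Winf (two.inv hϖ).chart_le_inf)
      (sheetIdeal (AdjoinSimple.gen ↥K₁ (jqNModC ↥K₁ 2))⁻¹ W0 (two.inv hϖ).chart_le_zero))
    (hsinf : ∀ x : ↥(legEL ↥K₁ (M' * r) 1), x ∈ Winf ↔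
      coeffRingAut (coeffStable_legHost (K := ↥K₁) (F₁ (M' * r) 1)) (resGal K₁ σ) x ∈ Winf)
    (hs0 : ∀ x : ↥(legEL ↥K₁ (M' * r) 1), x ∈ W0 ↔
      coeffRingAut (coeffStable_legHost (K := ↥K₁) (F₁ (M' * r) 1)) (resGal K₁ σ) x ∈ W0)
    (hres : ∀ x ∈ Winf, Winf.valuation
      (coeffRingAut (coeffStable_legHost (K := ↥K₁) (F₁ (M' * r) 1)) (resGal K₁ σ) x - x) < 1)
    (δ : ↥(legEL ↥K₁ (M' * r) 1) ≃ₐ[↥K₁] ↥(legEL ↥K₁ (M' * r) 1))
    (hdict : haveI : IsScalarTower ℚ ↥K₁ ℂ := isScalarTower_baseToComplex K₁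
      ∀ x : ↥(laurentBaseChange ↥K₁ (F₁ (M' * r) 1)),
        δ (legHostEmb ↥K₁ (F₁ (M' * r) 1) x) =
          legHostEmb ↥K₁ (F₁ (M' * r) 1)
            (diaAlg (k := ↥K₁) (M' * r) 1 (cyc (M' * r) σ)⁻¹ x))
    (hdinf : ∀ x : ↥(legEL ↥K₁ (M' * r) 1), x ∈ Winf ↔ δ x ∈ Winf)
    (hd0 : ∀ x : ↥(legEL ↥K₁ (M' * r) 1), x ∈ W0 ↔ δ x ∈ W0)
    (hcomm : ∀ x : ↥(legEL ↥K₁ (M' * r) 1),
      δ (coeffRingAut (coeffStable_legHost (K := ↥K₁) (F₁ (M' * r) 1)) (resGal K₁ σ) x) =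
        coeffRingAut (coeffStable_legHost (K := ↥K₁) (F₁ (M' * r) 1)) (resGal K₁ σ) (δ x))
    (hres0 : ∀ x ∈ W0, W0.valuation
      (coeffRingAut (coeffStable_legHost (K := ↥K₁) (F₁ (M' * r) 1)) (resGal K₁ σ) x - δ x) < 1) :
    HostThetaAt M' r σ m K₁ := by
  refine ⟨δ, hdict, fun f hf hordg hordG hμ => ?_⟩
  exact hostTheta_pow_of_sheets M' r hr A hA K₁ hK₁ ϖ hϖ hσ hm hrm two hmod₁ hmod₂ hsinf hs0 hres
    (δ : ↥(legEL ↥K₁ (M' * r) 1) →+* ↥(legEL ↥K₁ (M' * r) 1)) hdinf hd0 hcomm hres0 f hf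
    hordg hordG hμ

end Host

end

end Fermat.Agent.RB.DESC1
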