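/-
Project RB, package C [VAL] (KEY-H) — helper8 — (C-III) **the resolvent**: for a nontrivial character
`ψ` of `(ℤ/r)ˣ` and `u = ∑_{t mod r} ψ(t) φ_{a(t)}` (`a(t) ≡ 1 (M')`, `≡ t (r)`):
`alF1 u = g(ψ) · r⁻⁴ · phiMult(q^r) · resSer`, with
`resSer = ∑_e (∑_{nm = e} ([n ≡ 1] ψ⁻¹(−y m) + [n ≡ −1] ψ⁻¹(y m)) m³) q^e` (`y = 1/M' mod r`), whose
`q¹`-coefficient is the root of unity `ψ⁻¹(−y)` if `M' ≥ 3`; and `u = 1 + O(q)`.
-/
import Fermat.Agent.RB.VAL_helper8_Field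

set_option autoImplicit false
set_option linter.unusedSectionVars false
set_option linter.style.haveILetI false

open ModularCurve

namespace Fermat.Agent.RB

open Fermat.Agent.W1

noncomputable section

/-! ### the character sum -/

section CharSum

variable {A : Type*} [CommRing A] [IsDomain A] {r : ℕ} [hr : Fact r.Prime] [NeZero r]
  {ζ : A} (hζ : ζ ^ r = 1)

/-- `∑_t ψ(t) ζ^{(c t) m} = ψ⁻¹(c m) g(ψ)` for a nontrivial character `ψ` of `(ℤ/r)ˣ`. -/
theorem sum_mulChar_mul_pow (ψ : MulChar (ZMod r) A) (hψ : ψ ≠ 1) (c : ZMod r) (m : ℕ) :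
    ∑ t : ZMod r, ψ t * (ζ ^ (c * t).val) ^ m =
      ψ⁻¹ (c * (m : ZMod r)) * gaussSum ψ (AddChar.zmodChar r hζ) := by
  have h1 : ∀ t : ZMod r, (ζ ^ (c * t).val) ^ m =
      AddChar.mulShift (AddChar.zmodChar r hζ) (c * (m : ZMod r)) t := by
    intro t
    rw [AddChar.mulShift_apply, ← pow_mul, ← AddChar.zmodChar_apply' hζ, Nat.cast_mul,
      ZMod.natCast_zmod_val]
    congr 1
    ring
  simp_rw [h1]
  by_cases hc : IsUnit (c * (m : ZMod r))
  · obtain ⟨u, hu⟩ := hc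
    rw [← hu]
    exact gaussSum_mulShift_eq ψ (AddChar.zmodChar r hζ) u
  · have h0 : c * (m : ZMod r) = 0 := by
      by_contra hne
      exact hc (Ne.isUnit hne)
    rw [h0, AddChar.mulShift_zero, MulChar.map_nonunit _ (by simp), zero_mul]
    exact gaussSum_one_right hψ

end CharSum

/-! ### the resolvent of the series `twSer` -/

section ResSer

variable (A : Type*) [CommRing A] {B : Type*} [CommRing B] {r : ℕ}

/-- the series `∑_e (∑_{nm = e} ([n ≡ 1] ψ'(−y m) + [n ≡ −1] ψ'(y m)) m³) q^e`. -/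
def resSer (M' : ℕ) (ψ' : MulChar (ZMod r) A) (y : ZMod r) : PowerSeries A :=
  PowerSeries.mk fun e => ∑ x ∈ e.divisorsAntidiagonal,
    ((if ((x.1 : ℕ) : ZMod M') = 1 then ψ' (-y * (x.2 : ZMod r)) else 0) +
      (if ((x.1 : ℕ) : ZMod M') = -1 then ψ' (y * (x.2 : ZMod r)) else 0)) * (x.2 : A) ^ 3

variable {A}

theorem coeff_resSer (M' : ℕ) (ψ' : MulChar (ZMod r) A) (y : ZMod r) (e : ℕ) :
    PowerSeries.coeff e (resSer A M' ψ' y) = ∑ x ∈ e.divisorsAntidiagonal,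
      ((if ((x.1 : ℕ) : ZMod M') = 1 then ψ' (-y * (x.2 : ZMod r)) else 0) +
        (if ((x.1 : ℕ) : ZMod M') = -1 then ψ' (y * (x.2 : ZMod r)) else 0)) * (x.2 : A) ^ 3 := by
  rw [resSer, PowerSeries.coeff_mk]

theorem map_resSer (f : A →+* B) (M' : ℕ) (ψ' : MulChar (ZMod r) A) (y : ZMod r) :
    (resSer A M' ψ' y).map f = resSer B M' (ψ'.ringHomComp f) y := by
  ext e
  rw [PowerSeries.coeff_map, coeff_resSer, coeff_resSer, map_sum]
  refine Finset.sum_congr rfl fun x _ => ?_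
  rw [map_mul, map_add, map_pow, map_natCast]
  congr 2
  · split_ifs
    · rfl
    · rw [map_zero]
  · split_ifs
    · rfl
    · rw [map_zero]

/-- the `q¹`-coefficient of `resSer` is `ψ'(−y)` for `M' ≥ 3`. -/
theorem coeff_one_resSer {M' : ℕ} (hM' : 3 ≤ M') (ψ' : MulChar (ZMod r) A) (y : ZMod r) :
    PowerSeries.coeff 1 (resSer A M' ψ' y) = ψ' (-y) := by
  rw [coeff_resSer]
  have h1 : (1 : ℕ).divisorsAntidiagonal = {(1, 1)} := by decide
  rw [h1, Finset.sum_singleton]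
  have hne : ((1 : ℕ) : ZMod M') ≠ -1 := by
    intro h
    have h2 : ((2 : ℕ) : ZMod M') = 0 := by
      have : ((1 : ℕ) : ZMod M') + 1 = 0 := by rw [h]; ring
      push_cast at this ⊢
      rw [← this]
      ring
    rw [ZMod.natCast_eq_zero_iff] at h2
    have := Nat.le_of_dvd (by norm_num) h2
    omega
  rw [if_pos (by simp), if_neg hne]
  simp

end ResSer

section Resolvent

variable {A : Type*} [CommRing A] [IsDomain A] {r : ℕ} [hr : Fact r.Prime] [NeZero r]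
  {ζ : A} (hζ : ζ ^ r = 1)

/-- **the resolvent identity for `twSer`**. -/
theorem sum_mulChar_twSer (ψ : MulChar (ZMod r) A) (hψ : ψ ≠ 1) (M' : ℕ) (y : ZMod r) :
    ∑ t : ZMod r, PowerSeries.C (ψ t) *
        twSer A M' 1 (ζ ^ (-t * y).val) (ζ ^ (-(-t * y)).val) =
      PowerSeries.C (gaussSum ψ (AddChar.zmodChar r hζ)) * resSer A M' ψ⁻¹ y := by
  ext e
  rw [map_sum, PowerSeries.coeff_C_mul, coeff_resSer]
  simp_rw [PowerSeries.coeff_C_mul, coeff_twSer, Finset.mul_sum]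
  rw [Finset.sum_comm]
  refine Finset.sum_congr rfl fun x _ => ?_
  have e1 : ∀ t : ZMod r, -t * y = -y * t := fun t => by ring
  have e2 : ∀ t : ZMod r, -(-t * y) = y * t := fun t => by ring
  have e3 : ∀ t : ZMod r, ψ t * (((if ((x.1 : ℕ) : ZMod M') = 1 then (ζ ^ (-t * y).val) ^ x.2 else 0) +
      if ((x.1 : ℕ) : ZMod M') = -1 then (ζ ^ (-(-t * y)).val) ^ x.2 else 0) * (x.2 : A) ^ 3) =
      ψ t * (((if ((x.1 : ℕ) : ZMod M') = 1 then (ζ ^ (-y * t).val) ^ x.2 else 0) +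
      if ((x.1 : ℕ) : ZMod M') = -1 then (ζ ^ (y * t).val) ^ x.2 else 0) * (x.2 : A) ^ 3) := by
    intro t
    rw [e2 t, e1 t]
  rw [Finset.sum_congr rfl fun t _ => e3 t]
  have h1 := sum_mulChar_mul_pow hζ ψ hψ (-y) x.2
  have h2 := sum_mulChar_mul_pow hζ ψ hψ y x.2
  by_cases c1 : ((x.1 : ℕ) : ZMod M') = 1 <;> by_cases c2 : ((x.1 : ℕ) : ZMod M') = -1
  · simp only [if_pos c1, if_pos c2]
    have e4 : gaussSum ψ (AddChar.zmodChar r hζ) *
        ((ψ⁻¹ (-y * (x.2 : ZMod r)) + ψ⁻¹ (y * (x.2 : ZMod r))) * (x.2 : A) ^ 3) =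
        (ψ⁻¹ (-y * (x.2 : ZMod r)) * gaussSum ψ (AddChar.zmodChar r hζ) +
          ψ⁻¹ (y * (x.2 : ZMod r)) * gaussSum ψ (AddChar.zmodChar r hζ)) * (x.2 : A) ^ 3 := by ring
    rw [e4, ← h1, ← h2, ← Finset.sum_add_distrib, Finset.sum_mul]
    refine Finset.sum_congr rfl fun t _ => ?_
    ring
  · simp only [if_pos c1, if_neg c2, add_zero]
    have e4 : gaussSum ψ (AddChar.zmodChar r hζ) *
        (ψ⁻¹ (-y * (x.2 : ZMod r)) * (x.2 : A) ^ 3) =
        (ψ⁻¹ (-y * (x.2 : ZMod r)) * gaussSum ψ (AddChar.zmodChar r hζ)) * (x.2 : A) ^ 3 := by ring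
    rw [e4, ← h1, Finset.sum_mul]
    refine Finset.sum_congr rfl fun t _ => ?_
    ring
  · simp only [if_neg c1, if_pos c2, zero_add]
    have e4 : gaussSum ψ (AddChar.zmodChar r hζ) *
        (ψ⁻¹ (y * (x.2 : ZMod r)) * (x.2 : A) ^ 3) =
        (ψ⁻¹ (y * (x.2 : ZMod r)) * gaussSum ψ (AddChar.zmodChar r hζ)) * (x.2 : A) ^ 3 := by ring
    rw [e4, ← h2, Finset.sum_mul]
    refine Finset.sum_congr rfl fun t _ => ?_
    ring
  · simp only [if_neg c1, if_neg c2, add_zero, zero_mul, mul_zero, Finset.sum_const_zero]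

end Resolvent

end

end Fermat.Agent.RB
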