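/-
Project RB, package C [VAL] (KEY-H) — helper8 — (C-III/B) **the resolvent `u = ∑_t ψ(t) φ_{a(t)}`
(`a(t) ≡ 1 (M')`, `≡ t (r)`) and its Atkin–Lehner transform, Gauss-integrality**:
`u = 1 + O(q)` is a Gauss unit, and `alF1 u = g(ψ) r⁻⁴ · U₀`,
`U₀ = phiMult(q^r) · resSer = ψ⁻¹(−y) q^{1−r} + …` a Gauss unit.
-/
import Fermat.Agent.RB.VAL_helper8_Res
import Fermat.Agent.W1.BASE_helper7_Field

set_option autoImplicit false
set_option linter.unusedSectionVars false
set_option linter.style.haveILetI false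

open ModularCurve

namespace Fermat.Agent.RB

open Fermat.Agent.W1 Fermat.Agent.Igusa

noncomputable section

/-! ### generic Laurent series lemmas -/

section Laurent

variable {A : Type*} [CommRing A]

theorem eq_ofPowerSeries_of_coeff_neg {f : LaurentSeries A}
    (hf : ∀ n : ℤ, n < 0 → f.coeff n = 0) :
    f = HahnSeries.ofPowerSeries ℤ A (PowerSeries.mk fun n => f.coeff (n : ℤ)) := by
  ext n
  by_cases hn : n < 0
  · rw [hf n hn, ofPowerSeries_coeff_of_neg _ hn]
  · obtain ⟨m, rfl⟩ := Int.eq_ofNat_of_zero_le (not_lt.mp hn)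
    rw [HahnSeries.ofPowerSeries_apply_coeff, PowerSeries.coeff_mk]

/-- the coefficient of `q^{m+1}` in `q^m · (1 + …) · (s₁ q + …)`. -/
theorem coeff_single_mul_oneUnit_mul {W : LaurentSeries A} (hW : IsOneUnit W) (S : PowerSeries A)
    (hS0 : PowerSeries.constantCoeff S = 0) (m : ℤ) :
    (HahnSeries.single m (1 : A) * W * HahnSeries.ofPowerSeries ℤ A S).coeff (m + 1) =
      PowerSeries.coeff 1 S := by
  rw [eq_ofPowerSeries_of_coeff_neg hW.1, mul_assoc, ← map_mul, HahnSeries.coeff_single_mul,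
    one_mul, add_sub_cancel_left]
  have h1 : ((1 : ℕ) : ℤ) = 1 := rfl
  have h2 : Finset.HasAntidiagonal.antidiagonal (1 : ℕ) = {((0 : ℕ), (1 : ℕ)), (1, 0)} := by
    decide
  rw [← h1, HahnSeries.ofPowerSeries_apply_coeff, PowerSeries.coeff_mul, h2,
    Finset.sum_pair (by decide)]
  simp only [PowerSeries.coeff_mk, Nat.cast_zero, hW.2, one_mul,
    PowerSeries.coeff_zero_eq_constantCoeff_apply, hS0, mul_zero, add_zero]

theorem coeff_single_mul_oneUnit_mul' {W : LaurentSeries A} (hW : IsOneUnit W) (S : PowerSeries A)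
    (hS0 : PowerSeries.constantCoeff S = 0) (m : ℤ) {n : ℤ} (hn : n = m + 1) :
    (HahnSeries.single m (1 : A) * W * HahnSeries.ofPowerSeries ℤ A S).coeff n =
      PowerSeries.coeff 1 S := by
  rw [hn, coeff_single_mul_oneUnit_mul hW S hS0]

end Laurent

/-! ### Gauss units -/

section GaussUnit

variable {R : Type*} [CommRing R] [IsDomain R] [IsDiscreteValuationRing R]
  {L : Type*} [Field L] [Algebra R L] [IsFractionRing R L]

theorem red_ne_zero_of_isUnit_coeff {f : LaurentSeries R} {n : ℤ} (h : IsUnit (f.coeff n)) :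
    red R f ≠ 0 := by
  intro h0
  have h1 : (red R f).coeff n = 0 := by rw [h0]; rfl
  rw [red_coeff] at h1
  exact (IsLocalRing.residue_ne_zero_iff_isUnit _).mpr h h1

theorem emb_inv_mem_gaussInt {f : LaurentSeries R} (hf : red R f ≠ 0) :
    (emb R L f)⁻¹ ∈ gaussInt R L :=
  ⟨1, f, hf, by rw [map_one, inv_mul_cancel₀ (emb_ne_zero_of_red_ne_zero hf)]⟩

end GaussUnit

/-! ### the indices `a(t)` -/

section Idx

variable (M' r : ℕ) (x y : ℤ)

/-- `a(t) ≡ 1 (M')`, `≡ t (r)` (for `r x + M' y = 1`). -/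
def aOf (t : ZMod r) : ZMod (M' * r) :=
  (((r : ℤ) * x + (M' : ℤ) * y * (t.val : ℤ) : ℤ) : ZMod (M' * r))

variable {M' r x y}

theorem castHom_aOf_left (h : (r : ℤ) * x + M' * y = 1) (t : ZMod r) :
    ZMod.castHom (dvd_mul_right M' r) (ZMod M') (aOf M' r x y t) = 1 := by
  rw [aOf, map_intCast]
  have h1 : ((r : ℤ) * x : ℤ) = 1 - M' * y := by linarith
  push_cast
  have h2 : (((r : ℤ) * x : ℤ) : ZMod M') = ((1 - M' * y : ℤ) : ZMod M') := by rw [h1]
  push_cast at h2
  rw [h2, ZMod.natCast_self]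
  ring

theorem castHom_aOf_right [NeZero r] (h : (r : ℤ) * x + M' * y = 1) (t : ZMod r) :
    ZMod.castHom (dvd_mul_left r M') (ZMod r) (aOf M' r x y t) = t := by
  rw [aOf, map_intCast]
  have h1 : ((M' : ℤ) * y : ℤ) = 1 - r * x := by linarith
  push_cast
  have h2 : (((M' : ℤ) * y : ℤ) : ZMod r) = ((1 - r * x : ℤ) : ZMod r) := by rw [h1]
  push_cast at h2
  rw [h2, ZMod.natCast_self, ZMod.natCast_zmod_val]
  ring

theorem aOf_one [Fact (1 < r)] (h : (r : ℤ) * x + M' * y = 1) : aOf M' r x y 1 = 1 := by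
  rw [aOf, ZMod.val_one, Nat.cast_one, mul_one, h, Int.cast_one]

end Idx

/-! ### the resolvent series -/

section USer

variable (A : Type*) [CommRing A] {B : Type*} [CommRing B] (M' r : ℕ) [NeZero r] (x y : ℤ)

/-- the resolvent `u = ∑_t ψ(t) φ_{a(t)}`. -/
def uSer (ψ : MulChar (ZMod r) A) : LaurentSeries A :=
  ∑ t : ZMod r, HahnSeries.C (ψ t) * phiGen A (M' * r) (aOf M' r x y t)

/-- `U₀ = phiMult(q^r) · resSer`. -/
def u0Ser (ψ' : MulChar (ZMod r) A) (y' : ZMod r) : LaurentSeries A :=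
  qExpand A r (phiMult A) * HahnSeries.ofPowerSeries ℤ A (resSer A M' ψ' y')

variable {A}

theorem coeffMap_uSer (f : A →+* B) (ψ : MulChar (ZMod r) A) :
    coeffMap f (uSer A M' r x y ψ) = uSer B M' r x y (ψ.ringHomComp f) := by
  rw [uSer, uSer, map_sum]
  refine Finset.sum_congr rfl fun t _ => ?_
  rw [map_mul, Igusa.coeffMap_C, coeffMap_phiGen, MulChar.ringHomComp_apply]

theorem coeffMap_u0Ser (f : A →+* B) (ψ' : MulChar (ZMod r) A) (y' : ZMod r) :
    coeffMap f (u0Ser A M' r ψ' y') = u0Ser B M' r (ψ'.ringHomComp f) y' := by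
  rw [u0Ser, u0Ser, map_mul, coeffMap_qExpand_rb, coeffMap_phiMult, coeffMap_ofPowerSeries,
    map_resSer]

theorem phiMult_eq_single_mul_oneUnit :
    phiMult A = HahnSeries.single (-1 : ℤ) (1 : A) * (HahnSeries.single (1 : ℤ) (1 : A) * phiMult A) := by
  rw [← mul_assoc, HahnSeries.single_mul_single]
  simp

theorem uSer_eq (ψ : MulChar (ZMod r) A) :
    uSer A M' r x y ψ = HahnSeries.single (-1 : ℤ) (1 : A) *
      (HahnSeries.single (1 : ℤ) (1 : A) * phiMult A) *
      HahnSeries.ofPowerSeries ℤ A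
        (∑ t : ZMod r, PowerSeries.C (ψ t) * yPart (M' * r) A (aOf M' r x y t)) := by
  rw [← phiMult_eq_single_mul_oneUnit, map_sum, Finset.mul_sum, uSer]
  refine Finset.sum_congr rfl fun t _ => ?_
  rw [map_mul, HahnSeries.ofPowerSeries_C, phiGen]
  ring

theorem yCoefHalf_one_rb (M : ℕ) (a : ZMod M) :
    yCoefHalf M a 1 = if (1 : ZMod M) = a then 1 else 0 := by
  rw [yCoefHalf, Nat.divisors_one, Finset.filter_singleton]
  split_ifs with h1 h2 h2
  · simp
  · exact absurd (by simpa using h1) h2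
  · exact absurd (by simpa using h2) h1
  · simp

theorem constantCoeff_resSer (ψ' : MulChar (ZMod r) A) (y' : ZMod r) :
    PowerSeries.constantCoeff (resSer A M' ψ' y') = 0 := by
  rw [← PowerSeries.coeff_zero_eq_constantCoeff_apply, coeff_resSer]
  simp

/-- **`U₀ = ψ'(−y) q^{1−r} + …`**. -/
theorem coeff_u0Ser (hM' : 3 ≤ M') (ψ' : MulChar (ZMod r) A) (y' : ZMod r) :
    (u0Ser A M' r ψ' y').coeff (-(r : ℤ) + 1) = ψ' (-y') := by
  rw [u0Ser, phiMult_eq_single_mul_oneUnit, qExpand_single_mul,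
    coeff_single_mul_oneUnit_mul' ((isOneUnit_single_mul_phiMult A).qExpand r) _
      (constantCoeff_resSer M' r ψ' y') _ (by ring), coeff_one_resSer hM']

/-- **`u = 1 + O(q)`**. -/
theorem coeff_zero_uSer [Fact (1 < r)] (hM' : 3 ≤ M') (h : (r : ℤ) * x + M' * y = 1)
    (ψ : MulChar (ZMod r) A) : (uSer A M' r x y ψ).coeff 0 = 1 := by
  have hne : (1 : ZMod M') ≠ -1 := by
    intro h1
    have h2 : ((2 : ℕ) : ZMod M') = 0 := by
      push_cast
      linear_combination h1
    rw [ZMod.natCast_eq_zero_iff] at h2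
    have := Nat.le_of_dvd (by norm_num) h2
    omega
  have h0 : PowerSeries.constantCoeff
      (∑ t : ZMod r, PowerSeries.C (ψ t) * yPart (M' * r) A (aOf M' r x y t)) = 0 := by
    rw [map_sum]
    refine Finset.sum_eq_zero fun t _ => ?_
    rw [map_mul, constantCoeff_yPart, mul_zero]
  rw [uSer_eq, coeff_single_mul_oneUnit_mul' (isOneUnit_single_mul_phiMult A) _ h0 _ (by ring),
    map_sum, Finset.sum_eq_single (1 : ZMod r)]
  · rw [PowerSeries.coeff_C_mul, MulChar.map_one, one_mul, coeff_yPart, yCoef, yCoefHalf_one_rb,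
      yCoefHalf_one_rb, aOf_one h, if_pos rfl, if_neg]
    · simp
    · intro h1
      have h2 := congrArg (ZMod.castHom (dvd_mul_right M' r) (ZMod M')) h1
      rw [map_one, map_neg, map_one] at h2
      exact hne h2
  · intro t _ ht
    rw [PowerSeries.coeff_C_mul, coeff_yPart, yCoef, yCoefHalf_one_rb, yCoefHalf_one_rb, if_neg,
      if_neg]
    · simp
    · intro h1
      have h2 := congrArg (ZMod.castHom (dvd_mul_right M' r) (ZMod M')) h1
      rw [map_one, map_neg, castHom_aOf_left h] at h2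
      exact hne h2
    · intro h1
      have h2 := congrArg (ZMod.castHom (dvd_mul_left r M') (ZMod r)) h1
      rw [map_one, castHom_aOf_right h] at h2
      exact ht h2.symm
  · intro h1
    exact absurd (Finset.mem_univ _) h1

end USer

/-! ### Gauss-integrality of the resolvent series -/

section GaussRes

variable {R : Type*} [CommRing R] [IsDomain R] [IsDiscreteValuationRing R]
  (k : Type*) [Field k] [Algebra R k] [IsFractionRing R k] {M' r : ℕ} [NeZero r] {x y : ℤ}

/-- **(C1)** the resolvent `u = 1 + O(q)` is a Gauss unit. -/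
theorem uSer_gaussUnit [Fact (1 < r)] (hM' : 3 ≤ M') (h : (r : ℤ) * x + M' * y = 1)
    (ψR : MulChar (ZMod r) R) :
    uSer k M' r x y (ψR.ringHomComp (algebraMap R k)) ∈ gaussInt R k ∧
      (uSer k M' r x y (ψR.ringHomComp (algebraMap R k)))⁻¹ ∈ gaussInt R k := by
  have e : uSer k M' r x y (ψR.ringHomComp (algebraMap R k)) = emb R k (uSer R M' r x y ψR) :=
    (coeffMap_uSer M' r x y (algebraMap R k) ψR).symm
  rw [e]
  refine ⟨emb_mem_gaussInt R k _, emb_inv_mem_gaussInt (red_ne_zero_of_isUnit_coeff (n := 0) ?_)⟩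
  rw [coeff_zero_uSer M' r x y hM' h]
  exact isUnit_one

/-- **(C2)** `U₀ = ψ'(−y) q^{1−r} + …` is a Gauss unit. -/
theorem u0Ser_gaussUnit (hM' : 3 ≤ M') (ψR' : MulChar (ZMod r) R) {y' : ZMod r}
    (hy' : IsUnit y') :
    u0Ser k M' r (ψR'.ringHomComp (algebraMap R k)) y' ∈ gaussInt R k ∧
      (u0Ser k M' r (ψR'.ringHomComp (algebraMap R k)) y')⁻¹ ∈ gaussInt R k := by
  have e : u0Ser k M' r (ψR'.ringHomComp (algebraMap R k)) y' =
      emb R k (u0Ser R M' r ψR' y') := (coeffMap_u0Ser M' r (algebraMap R k) ψR' y').symm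
  rw [e]
  refine ⟨emb_mem_gaussInt R k _,
    emb_inv_mem_gaussInt (red_ne_zero_of_isUnit_coeff (n := -(r : ℤ) + 1) ?_)⟩
  rw [coeff_u0Ser M' r hM']
  exact hy'.neg.map ψR'

end GaussRes

/-! ### the resolvent in the function field and its transform -/

section Field

open Complex Real

variable {k : Type*} [Field k] [Algebra ℚ k] {M' r : ℕ} (ι : k →+* ℂ) [NeZero M'] [NeZero r]
  [NeZero (M' * r)] {x y : ℤ} (h : (r : ℤ) * x + M' * y = 1) (hr : r.Prime) {ζ : k}
  (hζ : ι ζ = cexp (2 * π * I / r))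

include hζ in
theorem pow_eq_one_of_map_eq_exp : ζ ^ r = 1 := by
  apply ι.injective
  rw [map_pow, hζ, map_one, ← Complex.exp_nat_mul]
  have h1 : (r : ℂ) * (2 * π * I / r) = 2 * π * I := by
    have : (r : ℂ) ≠ 0 := Nat.cast_ne_zero.mpr (NeZero.ne r)
    field_simp
  rw [h1, Complex.exp_two_pi_mul_I]

include h in
theorem phiGen_aOf_mem_F1good (hM' : 2 ≤ M') (t : ZMod r) :
    coeffEmb k (phiGen ℚ (M' * r) (aOf M' r x y t)) ∈ F1good k M' r := by
  haveI : Fact (1 < M') := ⟨by omega⟩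
  refine IntermediateField.subset_adjoin k _ (Or.inr ⟨aOf M' r x y t, ?_, rfl⟩)
  rw [castHom_aOf_left h]
  exact one_ne_zero

include h in
theorem uSer_mem_F1good (hM' : 2 ≤ M') (ψ : MulChar (ZMod r) k) :
    uSer k M' r x y ψ ∈ F1good k M' r := by
  rw [uSer]
  refine sum_mem fun t _ => mul_mem ?_ ?_
  · have h1 : (HahnSeries.C (ψ t) : LaurentSeries k) = algebraMap k (LaurentSeries k) (ψ t) := by
      rw [algebraMap_laurentSeries_eq_single, HahnSeries.C_apply]
    rw [h1]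
    exact (F1good k M' r).algebraMap_mem _
  · have h1 := phiGen_aOf_mem_F1good (k := k) h hM' t
    rwa [coeffEmb, coeffMap_phiGen] at h1

/-- **the Atkin–Lehner transform of the resolvent**: `alF1 u = g(ψ) r⁻⁴ · U₀`. -/
theorem alF1L_uSer (hM' : 2 ≤ M') (hζr : ζ ^ r = 1) (ψ : MulChar (ZMod r) k) (hψ : ψ ≠ 1)
    (hu : uSer k M' r x y ψ ∈ F1good k M' r) :
    alF1L ι h hr hζ ⟨uSer k M' r x y ψ, hu⟩ =
      HahnSeries.C (gaussSum ψ (AddChar.zmodChar r hζr) * ((r : k)⁻¹) ^ 4) *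
        u0Ser k M' r ψ⁻¹ ((y : ℤ) : ZMod r) := by
  haveI : Fact r.Prime := ⟨hr⟩
  have hC : ∀ c : k, (HahnSeries.C c : LaurentSeries k) = algebraMap k (LaurentSeries k) c := by
    intro c
    rw [algebraMap_laurentSeries_eq_single, HahnSeries.C_apply]
  have hmem : ∀ t : ZMod r, coeffEmb k (phiGen ℚ (M' * r) (aOf M' r x y t)) ∈ F1good k M' r :=
    fun t => phiGen_aOf_mem_F1good h hM' t
  have e1 : (⟨uSer k M' r x y ψ, hu⟩ : ↥(F1good k M' r)) =
      ∑ t : ZMod r, algebraMap k ↥(F1good k M' r) (ψ t) * ⟨_, hmem t⟩ := by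
    apply Subtype.ext
    rw [IntermediateField.coe_sum]
    show uSer k M' r x y ψ = _
    rw [uSer]
    refine Finset.sum_congr rfl fun t _ => ?_
    rw [IntermediateField.coe_mul, IntermediateField.coe_algebraMap_apply, hC]
    congr 1
    exact (coeffMap_phiGen (M' * r) (algebraMap ℚ k) _).symm
  rw [e1, map_sum]
  have e2 : ∀ t : ZMod r, alF1L ι h hr hζ
      (algebraMap k ↥(F1good k M' r) (ψ t) * ⟨_, hmem t⟩) =
      qExpand k r (phiMult k) * (HahnSeries.C (((r : k)⁻¹) ^ 4) *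
        HahnSeries.ofPowerSeries ℤ k (PowerSeries.C (ψ t) *
          twSer k M' 1 (ζ ^ (-t * ((y : ℤ) : ZMod r)).val)
            (ζ ^ (-(-t * ((y : ℤ) : ZMod r))).val))) := by
    intro t
    have ha : ZMod.castHom (dvd_mul_right M' r) (ZMod M') (aOf M' r x y t) ≠ 0 := by
      haveI : Fact (1 < M') := ⟨by omega⟩
      rw [castHom_aOf_left h]
      exact one_ne_zero
    rw [map_mul, alF1L_apply, alF1L_apply, alF1_algebraMap, alF1_phi ι h hr hζ _ ha,
      castHom_aOf_left h, castHom_aOf_right h, alSer, map_mul, HahnSeries.ofPowerSeries_C, hC, hC]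
    ring
  rw [Finset.sum_congr rfl fun t _ => e2 t, ← Finset.mul_sum, ← Finset.mul_sum, ← map_sum,
    sum_mulChar_twSer hζr ψ hψ M' ((y : ℤ) : ZMod r), map_mul, HahnSeries.ofPowerSeries_C, u0Ser,
    map_mul]
  ring

end Field

end

end Fermat.Agent.RB
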