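/-
RB (S43) / [BB3] package E [REC-σ] — helper8 — **the three exact transformation laws** behind the
reciprocity congruence `σ ≡ ⟨d⟩` on the second sheet:

* `coeffMap_uSer_of_fixed` : a coefficientwise endomorphism fixing the values of `ψ` fixes the
  resolvent `u = ∑_t ψ(t) φ_{a(t)}`;
* `map_gaussSum_of_map_pow` : `f ζ = ζ^e`, `f` fixing the values of `ψ` ⇒ `f g(ψ) = ψ⁻¹(e) g(ψ)`;
* `diaU_uSer` : the diamond operator `⟨d⟩` (`d ≡ 1 (M')`) of W1 (`φ_a ↦ φ_{a d}`) multiplies the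
  resolvent by `ψ⁻¹(d mod r)`.

Hence for `σ ζ_r = ζ_r^e` and `δ = ⟨e⁻¹⟩`: `σ (u / c) = ψ(e) (u / c) = δ (u / c)`, `c = g(ψ) r⁻⁴`.
-/
import Fermat.Agent.RB.VAL_helper8_Unit
import Fermat.Agent.W1.DEG1_helper9_Galois

set_option autoImplicit false
set_option linter.unusedSectionVars false
set_option linter.style.haveILetI false

open ModularCurve

namespace Fermat.Agent.RB

open Fermat.Agent.W1 Fermat.Agent.Igusa

noncomputable section

/-! ### the coefficientwise action -/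

section Coeff

variable {A : Type*} [CommRing A] {M' r : ℕ} [NeZero r] {x y : ℤ}

theorem coeffMap_uSer_of_fixed (f : A →+* A) (ψ : MulChar (ZMod r) A)
    (hf : ∀ a, f (ψ a) = ψ a) : coeffMap f (uSer A M' r x y ψ) = uSer A M' r x y ψ := by
  rw [coeffMap_uSer]
  congr 1
  ext a
  rw [MulChar.ringHomComp_apply, hf]

/-- `f ζ = ζ^e`, `f` fixing the values of `ψ` ⇒ `f g(ψ) = ψ⁻¹(e) g(ψ)`. -/
theorem map_gaussSum_of_map_pow (f : A →+* A) (ψ : MulChar (ZMod r) A)
    (hf : ∀ a, f (ψ a) = ψ a) {ζ : A} (hζ : ζ ^ r = 1) (e : (ZMod r)ˣ)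
    (hfζ : f ζ = ζ ^ ((e : ZMod r)).val) :
    f (gaussSum ψ (AddChar.zmodChar r hζ)) =
      ψ⁻¹ (e : ZMod r) * gaussSum ψ (AddChar.zmodChar r hζ) := by
  rw [← gaussSum_mulShift_eq, gaussSum, gaussSum, map_sum]
  refine Finset.sum_congr rfl fun a _ => ?_
  rw [map_mul, hf]
  congr 1
  rw [AddChar.mulShift_apply, AddChar.zmodChar_apply, map_pow, hfζ, ← pow_mul,
    ← AddChar.zmodChar_apply' hζ, Nat.cast_mul, ZMod.natCast_zmod_val, ZMod.natCast_zmod_val]

end Coeff

/-! ### the Chinese remainder theorem for the indices -/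

section CRT

variable {M' r : ℕ}

theorem eq_of_castHom_eq [NeZero (M' * r)] (hcop : Nat.Coprime M' r) {a b : ZMod (M' * r)}
    (h1 : ZMod.castHom (dvd_mul_right M' r) (ZMod M') a =
      ZMod.castHom (dvd_mul_right M' r) (ZMod M') b)
    (h2 : ZMod.castHom (dvd_mul_left r M') (ZMod r) a =
      ZMod.castHom (dvd_mul_left r M') (ZMod r) b) : a = b := by
  rw [← sub_eq_zero] at h1 h2 ⊢
  rw [← map_sub] at h1 h2
  set z := a - b with hz
  rw [ZMod.castHom_apply, ZMod.cast_eq_val, ZMod.natCast_eq_zero_iff] at h1 h2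
  have h3 : M' * r ∣ z.val := hcop.mul_dvd_of_dvd_of_dvd h1 h2
  have h4 : z.val = 0 := Nat.eq_zero_of_dvd_of_lt h3 (ZMod.val_lt z)
  exact (ZMod.val_eq_zero z).mp h4

theorem aOf_mul [NeZero r] [NeZero (M' * r)] {x y : ℤ} (h : (r : ℤ) * x + M' * y = 1)
    (hcop : Nat.Coprime M' r) (t : ZMod r) (d : ZMod (M' * r))
    (hd : ZMod.castHom (dvd_mul_right M' r) (ZMod M') d = 1) :
    aOf M' r x y t * d =
      aOf M' r x y (t * ZMod.castHom (dvd_mul_left r M') (ZMod r) d) := by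
  apply eq_of_castHom_eq hcop
  · rw [map_mul, castHom_aOf_left h, castHom_aOf_left h, hd, one_mul]
  · rw [map_mul, castHom_aOf_right h, castHom_aOf_right h]

end CRT

/-! ### the diamond operators -/

section Dia

variable {k : Type*} [Field k] [Algebra ℚ k] [Algebra k ℂ] [IsScalarTower ℚ k ℂ]
  {M' r : ℕ} [NeZero M'] [NeZero r] [NeZero (M' * r)] {x y : ℤ}

attribute [local instance] fullAlgebra

theorem diaU_algebraMap_mul (M L : ℕ) [NeZero M] [NeZero L] (d : (ZMod M)ˣ) (c : k)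
    (z : ↥(laurentBaseChange k (F₁ M L))) :
    diaU (k := k) M L d (algebraMap k ↥(laurentBaseChange k (F₁ M L)) c * z) =
      algebraMap k ↥(laurentBaseChange k (F₁ M L)) c * diaU (k := k) M L d z := by
  rw [map_mul]
  congr 1
  rw [IsScalarTower.algebraMap_apply k
    ↥(laurentBaseChange k (modularFunctionFieldFull (M * L))) ↥(laurentBaseChange k (F₁ M L)),
    AlgEquiv.commutes]

omit [Algebra k ℂ] [IsScalarTower ℚ k ℂ] in
theorem phiBarML_congr_rb {M L : ℕ} {e : ℕ} [NeZero e] {he : e ∣ L} {a b : ZMod M} (hab : a = b)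
    (ha : a ≠ 0) (hb : b ≠ 0) : phiBarML (k := k) he ha = phiBarML (k := k) he hb := by
  subst hab
  rfl

/-- **`⟨d⟩ u = ψ⁻¹(d mod r) u`** for `d ≡ 1 (M')`. -/
theorem diaU_uSer (hM' : 2 ≤ M') (h : (r : ℤ) * x + M' * y = 1) (hcop : Nat.Coprime M' r)
    (ψ : MulChar (ZMod r) k) (d : (ZMod (M' * r))ˣ)
    (hd : ZMod.castHom (dvd_mul_right M' r) (ZMod M') (d : ZMod (M' * r)) = 1)
    (hu : uSer k M' r x y ψ ∈ laurentBaseChange k (F₁ (M' * r) 1)) :
    diaU (k := k) (M' * r) 1 d ⟨uSer k M' r x y ψ, hu⟩ =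
      algebraMap k ↥(laurentBaseChange k (F₁ (M' * r) 1))
        (ψ⁻¹ (ZMod.castHom (dvd_mul_left r M') (ZMod r) (d : ZMod (M' * r)))) *
        ⟨uSer k M' r x y ψ, hu⟩ := by
  haveI : Fact (1 < M') := ⟨by omega⟩
  set dr : ZMod r := ZMod.castHom (dvd_mul_left r M') (ZMod r) (d : ZMod (M' * r)) with hdr
  have hdru : IsUnit dr := d.isUnit.map _
  obtain ⟨e, he⟩ := hdru
  have hane : ∀ t : ZMod r, aOf M' r x y t ≠ 0 := by
    intro t h0
    have h1 := castHom_aOf_left (M' := M') (r := r) h t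
    rw [h0, map_zero] at h1
    exact zero_ne_one h1
  have e1 : (⟨uSer k M' r x y ψ, hu⟩ : ↥(laurentBaseChange k (F₁ (M' * r) 1))) =
      ∑ t : ZMod r, algebraMap k ↥(laurentBaseChange k (F₁ (M' * r) 1)) (ψ t) *
        phiBarML (k := k) (e := 1) (one_dvd 1) (hane t) := by
    apply Subtype.ext
    rw [IntermediateField.coe_sum]
    show uSer k M' r x y ψ = _
    rw [uSer]
    refine Finset.sum_congr rfl fun t _ => ?_
    rw [IntermediateField.coe_mul, IntermediateField.coe_algebraMap_apply,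
      algebraMap_laurentSeries_eq_single, ← HahnSeries.C_apply]
    congr 1
    show phiGen k (M' * r) (aOf M' r x y t) = coeffEmb k (qExpand ℚ 1 (phiGen ℚ (M' * r) _))
    rw [qExpand_one_apply]
    exact (coeffMap_phiGen (M' * r) (algebraMap ℚ k) _).symm
  rw [e1, map_sum, Finset.mul_sum]
  have e2 : ∀ t : ZMod r, diaU (k := k) (M' * r) 1 d
      (algebraMap k ↥(laurentBaseChange k (F₁ (M' * r) 1)) (ψ t) *
        phiBarML (k := k) (e := 1) (one_dvd 1) (hane t)) =
      algebraMap k ↥(laurentBaseChange k (F₁ (M' * r) 1)) (ψ t) *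
        phiBarML (k := k) (e := 1) (one_dvd 1) (hane (t * dr)) := by
    intro t
    rw [diaU_algebraMap_mul, diaU_phiBarML]
    exact congrArg (fun z => algebraMap k ↥(laurentBaseChange k (F₁ (M' * r) 1)) (ψ t) * z)
      (phiBarML_congr_rb (aOf_mul h hcop t _ hd) _ _)
  rw [Finset.sum_congr rfl fun t _ => e2 t]
  -- reindex `t ↦ t * dr`
  have hbij : Function.Bijective fun t : ZMod r => t * dr := by
    rw [← he]
    exact e.mulRight_bijective
  refine Fintype.sum_bijective _ hbij _ _ fun t => ?_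
  have key : ψ t = ψ⁻¹ dr * ψ (t * dr) := by
    rw [map_mul, ← he, MulChar.inv_apply_eq_inv, mul_comm (ψ t), ← mul_assoc,
      Ring.inverse_mul_cancel _ (e.isUnit.map ψ), one_mul]
  rw [← mul_assoc, ← map_mul, ← key]

end Dia

end

end Fermat.Agent.RB
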