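/-
RB [BB3] = (KEY-H), bridge between package C/E (helper8: `uSer`, `diaU_uSer`) and package B
[FIELD1] (helper5: `diaR`, `mem_F₁_raise_of_diaR_fixed`, `resolvent`):

* `uSer_mem_raise` : the resolvent series `u = ∑_t ψ(t) φ_{a(t)}` lies in `k·F₁(M' r, 1)`;
* `diaR_uSer` : `⟨(1, s)⟩ u = ψ⁻¹(s) u`;
* `uSer_pow_mem_raise` : `u ^ n ∈ k·F₁(M', r)` as soon as `ψ(s) ^ n = 1` for all units `s`
  (e.g. `n = r - 1`, `uSer_pow_totient_mem_raise`);
* `uSer_eq_resolvent` : `u` is helper5's `resolvent` of the character `s ↦ ψ(s)`.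
-/
import Mathlib
import Fermat.Agent.RB.RECS_helper8_Dia
import Fermat.Agent.RB.FIELD1_helper5_Fixed

set_option autoImplicit false
set_option linter.unusedSectionVars false
set_option linter.unusedVariables false
set_option linter.style.haveILetI false

open ModularCurve IntermediateField

namespace Fermat.Agent.RB

open Fermat.Agent.W1 Fermat.Agent.RatStr Fermat.Agent.X0N

noncomputable section

variable {k : Type*} [Field k] [Algebra ℚ k] [Algebra k ℂ] [IsScalarTower ℚ k ℂ]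
  {M' r : ℕ} [NeZero M'] [NeZero r] [NeZero (M' * r)] {x y : ℤ}

/-- the resolvent series lies in `k·F₁(M' r, 1)`. -/
theorem uSer_mem_raise (h : (r : ℤ) * x + M' * y = 1) (hM' : 2 ≤ M') (ψ : MulChar (ZMod r) k) :
    uSer k M' r x y ψ ∈ laurentBaseChange k (F₁ (M' * r) 1) :=
  F1good_le k M' r (uSer_mem_F1good (k := k) h hM' ψ)

/-- **`⟨(1, s)⟩ u = ψ⁻¹(s) u`.** -/
theorem diaR_uSer (h : (r : ℤ) * x + M' * y = 1) (hM' : 2 ≤ M') (hcop : Nat.Coprime M' r)
    (ψ : MulChar (ZMod r) k) (s : (ZMod r)ˣ) :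
    diaR M' r hcop s ⟨uSer k M' r x y ψ, uSer_mem_raise h hM' ψ⟩ =
      algebraMap k ↥(laurentBaseChange k (F₁ (M' * r) 1)) (ψ⁻¹ (s : ZMod r)) *
        ⟨uSer k M' r x y ψ, uSer_mem_raise h hM' ψ⟩ := by
  rw [diaR_eq_diaU, diaU_uSer hM' h hcop ψ (crtUnitHom hcop s) (castHom_crtUnitHom_fst hcop s),
    castHom_crtUnitHom_snd]

/-- **`u ^ n ∈ k·F₁(M', r)`** when `ψ ^ n` is trivial on units. -/
theorem uSer_pow_mem_raise (h : (r : ℤ) * x + M' * y = 1) (hM' : 2 ≤ M')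
    (hcop : Nat.Coprime M' r) (ψ : MulChar (ZMod r) k) (n : ℕ)
    (hn : ∀ s : (ZMod r)ˣ, ψ (s : ZMod r) ^ n = 1) :
    uSer k M' r x y ψ ^ n ∈ laurentBaseChange k (F₁ M' r) := by
  have hM1 : M' ≠ 1 := by omega
  set U : ↥(laurentBaseChange k (F₁ (M' * r) 1)) :=
    ⟨uSer k M' r x y ψ, uSer_mem_raise h hM' ψ⟩ with hU
  have key : ((U ^ n : ↥(laurentBaseChange k (F₁ (M' * r) 1))) : LaurentSeries k) ∈
      laurentBaseChange k (F₁ M' r) := by
    apply mem_F₁_raise_of_diaR_fixed M' r hcop hM1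
    intro s
    rw [map_pow, hU, diaR_uSer h hM' hcop ψ s, mul_pow, ← map_pow]
    have h1 : (ψ⁻¹ (s : ZMod r)) ^ n = 1 := by
      rw [MulChar.inv_apply_eq_inv, Ring.inverse_eq_inv', inv_pow, hn s, inv_one]
    rw [h1, map_one, one_mul]
  simpa using key

/-- `u ^ (r - 1) ∈ k·F₁(M', r)` (`r` prime). -/
theorem uSer_pow_totient_mem_raise (h : (r : ℤ) * x + M' * y = 1) (hM' : 2 ≤ M')
    (hcop : Nat.Coprime M' r) (ψ : MulChar (ZMod r) k) :
    uSer k M' r x y ψ ^ Nat.totient r ∈ laurentBaseChange k (F₁ M' r) := by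
  classical
  refine uSer_pow_mem_raise h hM' hcop ψ _ fun s => ?_
  have h1 : ((s ^ Nat.totient r : (ZMod r)ˣ) : ZMod r) = 1 := by
    rw [ZMod.pow_totient, Units.val_one]
  rw [← map_pow, ← Units.val_pow_eq_pow_val, h1, map_one]

/-- a sum over `ZMod r` of a function vanishing at the non-units is a sum over the units. -/
theorem sum_zmod_eq_sum_units {X : Type*} [AddCommMonoid X] (g : ZMod r → X)
    (hg : ∀ t : ZMod r, ¬ IsUnit t → g t = 0) :
    ∑ t : ZMod r, g t = ∑ s : (ZMod r)ˣ, g (s : ZMod r) := by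
  classical
  have h1 : ∑ s : (ZMod r)ˣ, g (s : ZMod r) =
      ∑ t ∈ (Finset.univ : Finset (ZMod r)ˣ).map ⟨((↑) : (ZMod r)ˣ → ZMod r), Units.val_injective⟩,
        g t := by
    rw [Finset.sum_map]
    rfl
  rw [h1]
  symm
  refine Finset.sum_subset (Finset.subset_univ _) fun t _ ht => hg t ?_
  rintro ⟨u, rfl⟩
  exact ht (Finset.mem_map.mpr ⟨u, Finset.mem_univ _, rfl⟩)

/-- `a(s) = (1, s)`. -/
theorem aOf_eq_crtUnitHom (h : (r : ℤ) * x + M' * y = 1) (hcop : Nat.Coprime M' r)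
    (s : (ZMod r)ˣ) :
    aOf M' r x y (s : ZMod r) = ((crtUnitHom hcop s : (ZMod (M' * r))ˣ) : ZMod (M' * r)) := by
  apply eq_of_castHom_eq hcop
  · rw [castHom_aOf_left h, castHom_crtUnitHom_fst]
  · rw [castHom_aOf_right h, castHom_crtUnitHom_snd]

/-- **the resolvent series is helper5's `resolvent`** of the character `s ↦ ψ(s)`. -/
theorem uSer_eq_resolvent (h : (r : ℤ) * x + M' * y = 1) (hM' : 2 ≤ M')
    (hcop : Nat.Coprime M' r) (ψ : MulChar (ZMod r) k) :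
    (⟨uSer k M' r x y ψ, uSer_mem_raise h hM' ψ⟩ : ↥(laurentBaseChange k (F₁ (M' * r) 1))) =
      resolvent M' r hcop ψ.toUnitHom := by
  have hM1 : M' ≠ 1 := by omega
  apply Subtype.ext
  rw [coe_resolvent M' r hcop hM1]
  show uSer k M' r x y ψ = _
  rw [uSer, sum_zmod_eq_sum_units _ (fun t ht => by rw [MulChar.map_nonunit ψ ht, map_zero,
    zero_mul])]
  refine Finset.sum_congr rfl fun s _ => ?_
  rw [MulChar.coe_toUnitHom, aOf_eq_crtUnitHom h hcop, coeffEmb, coeffMap_phiGen,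
    algebraMap_laurentSeries_eq_single, HahnSeries.C_apply]

end

end Fermat.Agent.RB
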