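/-
RB / [BB3] — helper5 — **KUMEXT, definitions: the local shape of a Kummer generator at a closed
point of a sheet.**

`W ⊆ E` a sheet of the model, `L = locRing B 𝔪`, `M = locMax B 𝔪` the local ring of a chart at a
closed point of the sheet (helper4's local currency), `ϖ` the uniformizer of the base, `f ∈ E` the
Kummer generator (`E' = E(u)`, `u ^ m = f`).  `HasKummerExpAt W L M ϖ m f k`:
`f = ϖ ^ (m a) · ε · ζ ^ k · h ^ m` with `ζ` a branch uniformizer of the sheet at the point, `ε` a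
unit of `L`.  Eisenstein type: `k` prime to `m` (the cover is totally ramified over the point of the
sheet: nodes, cusps of the sheet `0`); étale type: `k = 0`.
-/
import Mathlib
import Fermat.Agent.SS.EXPORT_helper4_Loc

set_option autoImplicit false
set_option linter.unusedSectionVars false
set_option linter.style.haveILetI false

namespace Fermat.Agent.RB

open Fermat.Agent.SS

section Units

variable {R : Type*} [CommRing R] {E : Type*} [Field E] [Algebra R E]

/-- `υ` is a unit of the subalgebra `L` of the field `E`. -/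
def IsLUnit (L : Subalgebra R E) (υ : E) : Prop := υ ∈ L ∧ υ⁻¹ ∈ L ∧ υ ≠ 0

theorem IsLUnit.mul {L : Subalgebra R E} {a b : E} (ha : IsLUnit L a) (hb : IsLUnit L b) :
    IsLUnit L (a * b) :=
  ⟨L.mul_mem ha.1 hb.1, by rw [mul_inv]; exact L.mul_mem ha.2.1 hb.2.1, mul_ne_zero ha.2.2 hb.2.2⟩

theorem IsLUnit.inv {L : Subalgebra R E} {a : E} (ha : IsLUnit L a) : IsLUnit L a⁻¹ :=
  ⟨ha.2.1, by rw [inv_inv]; exact ha.1, inv_ne_zero ha.2.2⟩

theorem IsLUnit.pow {L : Subalgebra R E} {a : E} (ha : IsLUnit L a) (n : ℕ) : IsLUnit L (a ^ n) :=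
  ⟨pow_mem ha.1 n, by rw [← inv_pow]; exact pow_mem ha.2.1 n, pow_ne_zero n ha.2.2⟩

theorem IsLUnit.zpow {L : Subalgebra R E} {a : E} (ha : IsLUnit L a) (n : ℤ) :
    IsLUnit L (a ^ n) := by
  rcases n with n | n
  · rw [Int.ofNat_eq_natCast, zpow_natCast]; exact ha.pow n
  · rw [zpow_negSucc]; exact (ha.pow _).inv

theorem isLUnit_one {L : Subalgebra R E} : IsLUnit L (1 : E) :=
  ⟨L.one_mem, by rw [inv_one]; exact L.one_mem, one_ne_zero⟩

/-- an element of the chart outside `𝔪` is a unit of the local ring. -/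
theorem isLUnit_coe {B : Subalgebra R E} {𝔪 : Ideal ↥B} [h𝔪 : 𝔪.IsPrime] {b : ↥B} (hb : b ∉ 𝔪) :
    IsLUnit (locRing B 𝔪) (b : E) := by
  refine ⟨coe_mem_locRing b, inv_mem_locRing (coe_mem_locRing b) ?_, ?_⟩
  · rw [coe_mem_locMax_iff]; exact hb
  · intro h0
    apply hb
    have : b = 0 := Subtype.ext h0
    rw [this]; exact 𝔪.zero_mem

end Units

section Defs

variable {R : Type*} [CommRing R] {E : Type*} [Field E] [Algebra R E]

/-- the local shape of the Kummer generator `f` at a closed point of the sheet `W`. -/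
def HasKummerExpAt (W : ValuationSubring E) (L : Subalgebra R E) (M : Set E) (ϖ : E) (m : ℕ)
    (f : E) (k : ℤ) : Prop :=
  ∃ (ζ ε h : E) (a : ℤ), IsLocBranch W L M ζ ∧ IsLUnit L ε ∧ h ≠ 0 ∧
    f = ϖ ^ ((m : ℤ) * a) * ε * ζ ^ k * h ^ m

end Defs

end Fermat.Agent.RB
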