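/-
RB [BB3] = (KEY-H), package D [SHAPE+BCH] — helper5 — part 1: **a branch uniformizer stays a branch
uniformizer under an extension of sheets with the same residue field** (e.g. a totally ramified
extension of the base: helper7's `residue_eq_of_totally_ramified`).

Local currency of `SS/EXPORT_helper4_Loc`: `IsLocBranch W L M ζ` (`ζ` generates the maximal ideal
`M` of the local ring `L` modulo the maximal ideal of the sheet `W ⊇ L`, and is a unit of `W`).

`E → E₂` fields, `W ⊆ E`, `V ⊆ E₂` valuation subrings, `V ∩ E = W`, every element of `V` congruent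
to an element of `W` modulo the maximal ideal of `V` (residue degree one); `(L, M)` a local ring of
`E` inside `W`, `(L₂, M₂)` a local ring of `E₂` inside `V` above it.  If the branch of `W` at
`(L, M)` is a discrete valuation ring with uniformizer `ζ` (in the elementwise form `hzpow` of
`exists_zpow_of_isLocBranch`), then `ζ` is a local branch uniformizer of `V` at `(L₂, M₂)`.

* `IsLocBranch.of_residue_eq` : the abstract statement;
* `IsLUnit.map_of_le` : units of `L` are units of `L₂`.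
-/
import Mathlib
import Fermat.Agent.RB.KUMEXT_helper5_Defs
import Fermat.Agent.SS.EXPORT_helper4_Loc

set_option autoImplicit false
set_option linter.unusedSectionVars false
set_option linter.unusedVariables false
set_option linter.style.haveILetI false

namespace Fermat.Agent.RB

open Fermat.Agent.SS

section Abs

variable {R R₂ : Type*} [CommRing R] [CommRing R₂]
  {E E₂ : Type*} [Field E] [Field E₂] [Algebra R E] [Algebra R₂ E₂] (ι : E →+* E₂)

/-- units of `L` map to units of `L₂`. -/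
theorem IsLUnit.map_of_le {L : Subalgebra R E} {L₂ : Subalgebra R₂ E₂}
    (hL : ∀ x ∈ L, ι x ∈ L₂) {υ : E} (hυ : IsLUnit L υ) : IsLUnit L₂ (ι υ) :=
  ⟨hL _ hυ.1, by rw [← map_inv₀]; exact hL _ hυ.2.1, (_root_.map_ne_zero ι).mpr hυ.2.2⟩

/-- **a local branch uniformizer stays one under an extension of sheets with the same residue
field.** -/
theorem IsLocBranch.of_residue_eq {W : ValuationSubring E} {V : ValuationSubring E₂}
    (hWV : ∀ x : E, ι x ∈ V ↔ x ∈ W)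
    (hres : ∀ z ∈ V, ∃ a ∈ W, V.valuation (z - ι a) < 1)
    {L : Subalgebra R E} {M : Set E} {L₂ : Subalgebra R₂ E₂} {M₂ : Set E₂}
    (hL : ∀ x ∈ L, ι x ∈ L₂) (hM : ∀ x ∈ M, ι x ∈ M₂)
    (hL₂V : ∀ x ∈ L₂, x ∈ V) (hM₂L₂ : ∀ x ∈ M₂, x ∈ L₂)
    (hmul : ∀ a ∈ L₂, ∀ w ∈ M₂, a * w ∈ M₂) (hone : (1 : E₂) ∉ M₂)
    (hsub : ∀ x ∈ M₂, ∀ y ∈ M₂, x - y ∈ M₂)
    (hnu : ∀ y ∈ L₂, V.valuation y < 1 → y ∈ M₂)
    {ζ : E} (hζ : IsLocBranch W L M ζ) (hζL : ζ ∈ L)
    (hzpow : ∀ w₀ : E, W.valuation w₀ = 1 → ∃ (n : ℤ) (υ : E), IsLUnit L υ ∧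
      W.valuation (w₀ - υ * ζ ^ n) < 1) :
    IsLocBranch V L₂ M₂ (ι ζ) := by
  -- valuations along `ι`
  have hval_le : ∀ x : E, V.valuation (ι x) ≤ 1 ↔ W.valuation x ≤ 1 := fun x => by
    rw [ValuationSubring.valuation_le_one_iff, ValuationSubring.valuation_le_one_iff, hWV]
  have hval_lt : ∀ x : E, V.valuation (ι x) < 1 ↔ W.valuation x < 1 := by
    intro x
    by_cases hx : x = 0
    · subst hx; simp
    have hιx : ι x ≠ 0 := (_root_.map_ne_zero ι).mpr hx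
    rw [← not_le, ← not_le, not_iff_not]
    have h1 : (1 : _) ≤ V.valuation (ι x) ↔ V.valuation (ι x⁻¹) ≤ 1 := by
      rw [map_inv₀, map_inv₀, inv_le_one₀ (zero_lt_iff.mpr ((Valuation.ne_zero_iff _).mpr hιx))]
    have h2 : (1 : _) ≤ W.valuation x ↔ W.valuation x⁻¹ ≤ 1 := by
      rw [map_inv₀, inv_le_one₀ (zero_lt_iff.mpr ((Valuation.ne_zero_iff _).mpr hx))]
    rw [h1, h2, hval_le]
  have hζ0 : ζ ≠ 0 := by
    intro h0
    apply hζ.val
    rw [h0, map_zero]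
    exact zero_lt_one
  have hζW : W.valuation ζ = 1 := by
    refine le_antisymm ?_ (not_lt.mp hζ.val)
    have : ι ζ ∈ V := hL₂V _ (hL _ hζL)
    rw [hWV] at this
    exact (ValuationSubring.valuation_le_one_iff _ _).mpr this
  refine ⟨hM _ hζ.mem, fun h => hζ.val ((hval_lt ζ).mp h), ?_⟩
  intro w hw
  have hwL₂ : w ∈ L₂ := hM₂L₂ w hw
  have hwV : w ∈ V := hL₂V w hwL₂
  by_cases hw1 : V.valuation w < 1
  · refine ⟨0, L₂.zero_mem, ?_⟩
    rwa [zero_mul, sub_zero]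
  have hw1' : V.valuation w = 1 :=
    le_antisymm ((ValuationSubring.valuation_le_one_iff _ _).mpr hwV) (not_lt.mp hw1)
  obtain ⟨w₀, hw₀W, hw₀⟩ := hres w hwV
  have hw₀1 : W.valuation w₀ = 1 := by
    refine le_antisymm ((ValuationSubring.valuation_le_one_iff _ _).mpr hw₀W) ?_
    by_contra hlt
    rw [not_le] at hlt
    have h1 : V.valuation (ι w₀) < 1 := (hval_lt w₀).mpr hlt
    have h2 : V.valuation w < 1 := by
      have : w = (w - ι w₀) + ι w₀ := by ring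
      rw [this]
      exact lt_of_le_of_lt (Valuation.map_add _ _ _) (max_lt hw₀ h1)
    exact hw1 h2
  obtain ⟨n, υ, hυ, hn⟩ := hzpow w₀ hw₀1
  have hυ₂ := IsLUnit.map_of_le ι hL hυ
  -- `w ≡ ι (υ ζ ^ n)`
  have hcong : V.valuation (w - ι (υ * ζ ^ n)) < 1 := by
    have : w - ι (υ * ζ ^ n) = (w - ι w₀) + ι (w₀ - υ * ζ ^ n) := by
      rw [map_sub]; ring
    rw [this]
    exact lt_of_le_of_lt (Valuation.map_add _ _ _) (max_lt hw₀ ((hval_lt _).mpr hn))
  rcases lt_or_ge 0 n with hpos | hneg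
  · -- `n ≥ 1`: `α = υ ζ ^ (n - 1)`
    refine ⟨ι (υ * ζ ^ (n - 1)), hL _ (L.mul_mem hυ.1 ?_), ?_⟩
    · obtain ⟨k, hk⟩ := Int.eq_ofNat_of_zero_le (by omega : 0 ≤ n - 1)
      rw [hk, zpow_natCast]
      exact pow_mem hζL k
    · have : ι (υ * ζ ^ (n - 1)) * ι ζ = ι (υ * ζ ^ n) := by
        rw [← map_mul, mul_assoc, ← zpow_add_one₀ hζ0, sub_add_cancel]
      rw [this]
      exact hcong
  · -- `n ≤ 0`: impossible
    exfalso
    obtain ⟨k, hk⟩ := Int.eq_ofNat_of_zero_le (by omega : 0 ≤ -n)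
    -- `β = υ⁻¹ ζ ^ k ∈ L`
    have hβL : υ⁻¹ * ζ ^ k ∈ L := L.mul_mem hυ.2.1 (pow_mem hζL k)
    have hβ₂ : ι (υ⁻¹ * ζ ^ k) ∈ L₂ := hL _ hβL
    have hprod : ι (υ⁻¹ * ζ ^ k) * w ∈ M₂ := hmul _ hβ₂ w hw
    have hυW : W.valuation υ = 1 := by
      have h1 : W.valuation υ ≤ 1 := (hval_le υ).mp
        ((ValuationSubring.valuation_le_one_iff _ _).mpr (hL₂V _ hυ₂.1))
      have h2 : W.valuation υ⁻¹ ≤ 1 := (hval_le υ⁻¹).mp
        ((ValuationSubring.valuation_le_one_iff _ _).mpr (hL₂V _ (hL _ hυ.2.1)))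
      rw [map_inv₀, inv_le_one₀ (zero_lt_iff.mpr ((Valuation.ne_zero_iff _).mpr hυ.2.2))] at h2
      exact le_antisymm h1 h2
    have hβval : V.valuation (ι (υ⁻¹ * ζ ^ k)) ≤ 1 :=
      (ValuationSubring.valuation_le_one_iff _ _).mpr (hL₂V _ hβ₂)
    have hy : V.valuation (ι (υ⁻¹ * ζ ^ k) * w - 1) < 1 := by
      have e : ι (υ⁻¹ * ζ ^ k) * w - 1 = ι (υ⁻¹ * ζ ^ k) * (w - ι (υ * ζ ^ n)) := by
        have h1 : (υ⁻¹ * ζ ^ k) * (υ * ζ ^ n) = 1 := by
          have hn' : n = -(k : ℤ) := by omega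
          rw [hn', zpow_neg, zpow_natCast]
          field_simp [hυ.2.2, hζ0]
        rw [mul_sub, ← map_mul, h1, map_one]
      rw [e, map_mul]
      calc V.valuation (ι (υ⁻¹ * ζ ^ k)) * V.valuation (w - ι (υ * ζ ^ n))
          ≤ 1 * V.valuation (w - ι (υ * ζ ^ n)) := mul_le_mul_left hβval _
        _ < 1 := by rw [one_mul]; exact hcong
    have hyM : ι (υ⁻¹ * ζ ^ k) * w - 1 ∈ M₂ :=
      hnu _ (L₂.sub_mem (hM₂L₂ _ hprod) L₂.one_mem) hy
    have := hsub _ hprod _ hyM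
    rw [sub_sub_cancel] at this
    exact hone this

end Abs

end Fermat.Agent.RB
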