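/-
RB / [BB3] — helper5 — **KUMEXT, part 4: the DVR form of a smooth point of a sheet, in helper4's
local currency.**  `W` a sheet of the chart `B = chartOne R E t` (`W ∩ K` the Gauss valuation
subring), `𝔪 ⊇ 𝔭_W` a closed point, `ζ` a local branch uniformizer (`IsLocBranch`).  Then every
unit `a` of `W` is `≡ υ ζ ^ n` modulo `𝔪_W` with `υ` a unit of the local ring `B_𝔪` and `n ∈ ℤ`
(the branch `(B/𝔭_W)_𝔪` is a discrete valuation ring with uniformizer `ζ`, and `κ(W)` is its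
fraction field).
-/
import Mathlib
import Fermat.Agent.SS.EXPORT_helper4_Loc
import Fermat.Agent.SS.DVRFORM_helper1
import Fermat.Agent.SS.KUM_helper3_Charts
import Fermat.Agent.RB.KUMEXT_helper5_Defs

set_option autoImplicit false
set_option linter.unusedSectionVars false
set_option linter.unusedVariables false
set_option linter.style.haveILetI false

namespace Fermat.Agent.RB

open Fermat.Agent.SS Fermat.Agent.JA



section Val

variable {E : Type*} [Field E] (W : ValuationSubring E)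

/-- quotients of congruent elements are congruent. -/
theorem val_div_sub_div_lt_one {r r' s s' : E} (hr : r ∈ W) (hs : W.valuation s = 1)
    (hrr : W.valuation (r - r') < 1) (hss : W.valuation (s - s') < 1) :
    W.valuation (r / s - r' / s') < 1 := by
  have hr1 : W.valuation r ≤ 1 := (ValuationSubring.valuation_le_one_iff _ _).mpr hr
  have hr' : W.valuation r' ≤ 1 := by
    have : r' = r - (r - r') := by ring
    rw [this]
    exact le_trans (Valuation.map_sub _ _ _) (max_le hr1 hrr.le)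
  have hs' : W.valuation s' = 1 := by
    have h1 : W.valuation s' ≤ 1 := by
      have : s' = s - (s - s') := by ring
      rw [this]
      exact le_trans (Valuation.map_sub _ _ _) (max_le hs.le hss.le)
    refine le_antisymm h1 ?_
    by_contra hlt
    rw [not_le] at hlt
    have : W.valuation s < 1 := by
      have e : s = s' + (s - s') := by ring
      rw [e]
      exact Valuation.map_add_lt _ hlt hss
    rw [hs] at this
    exact lt_irrefl _ this
  have hs0 : s ≠ 0 := fun h => by rw [h, map_zero] at hs; exact zero_ne_one hs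
  have hs'0 : s' ≠ 0 := fun h => by rw [h, map_zero] at hs'; exact zero_ne_one hs'
  have e : r / s - r' / s' = ((r - r') * s' + r' * (s' - s)) * (s * s')⁻¹ := by
    field_simp
    ring
  rw [e, map_mul, map_inv₀, map_mul, hs, hs', mul_one, inv_one, mul_one]
  refine Valuation.map_add_lt _ ?_ ?_
  · rw [map_mul, hs', mul_one]; exact hrr
  · rw [map_mul]
    have : W.valuation (s' - s) < 1 := by rw [← Valuation.map_neg, neg_sub]; exact hss
    calc W.valuation r' * W.valuation (s' - s) ≤ 1 * W.valuation (s' - s) :=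
          mul_le_mul_left hr' _
      _ < 1 := by rw [one_mul]; exact this

end Val

section Dvr

variable {R : Type*} [CommRing R] [IsDomain R] [IsDiscreteValuationRing R] [CharZero R]
  {K₁ : Type*} [Field K₁] [Algebra R K₁] [IsFractionRing R K₁]
  {K : Type*} [Field K] [Algebra K₁ K] [Algebra R K] [IsScalarTower R K₁ K]
  {E : Type*} [Field E] [Algebra K E] [Algebra R E] [IsScalarTower R K E] [FiniteDimensional K E]
  {π : R} {t : K}

/-- **the DVR form of a smooth point of a sheet.** -/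
theorem exists_zpow_of_isLocBranch (hπ : Irreducible π) (hu : Transcendental K₁ t)
    (hK : IntermediateField.adjoin K₁ {t} = ⊤) {W : ValuationSubring E}
    (hG : IsGaussAt R π t (W.comap (algebraMap K E)))
    (𝔪 : Ideal ↥(chartOne R E t)) [h𝔪p : 𝔪.IsPrime] (h𝔪 : 𝔪.IsMaximal)
    (hle : sheetIdeal t W (chart_le_of_isGaussAt hG) ≤ 𝔪) {ζ : E}
    (hζ : IsLocBranch W (locRing (chartOne R E t) 𝔪) (locMax (chartOne R E t) 𝔪) ζ)
    (a : E) (ha : W.valuation a = 1) :
    ∃ (n : ℤ) (υ : E), IsLUnit (locRing (chartOne R E t) 𝔪) υ ∧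
      W.valuation (a - υ * ζ ^ n) < 1 := by
  haveI : IsNoetherianRing ↥(chartOne R E t) := isNoetherianRing_chartOne (K₁ := K₁) t hu hK
  haveI := h𝔪
  have hBW : ∀ b ∈ chartOne R E t, b ∈ W := chart_le_of_isGaussAt hG
  have h𝔭 : ∀ b : ↥(chartOne R E t), b ∈ sheetIdeal t W hBW ↔ W.valuation (b : E) < 1 :=
    mem_sheetIdeal_iff t W hBW
  obtain ⟨z, s₀, hs₀, hzs₀, hz⟩ := hζ.exists_isBranchUniformizer hBW h𝔭 hle
  have haW : a ∈ W := (ValuationSubring.valuation_le_one_iff _ _).mp ha.le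
  obtain ⟨r, s, hs, hrs⟩ := exists_mul_eq_of_mem_of_isGaussAt hπ hu hK hG a haW
  have hvs : W.valuation (s : E) = 1 := valuation_eq_one_of_notMem hBW h𝔭 hs
  have hs0 : (s : E) ≠ 0 := fun h => by rw [h, map_zero] at hvs; exact zero_ne_one hvs
  have hr : r ∉ sheetIdeal t W hBW := by
    rw [h𝔭, ← hrs, map_mul, ha, hvs, one_mul]
    exact lt_irrefl _
  obtain ⟨k₁, s₁, e₁, hs₁, he₁, h1⟩ := hz.exists_pow_mul_sub_mem hle r hr
  obtain ⟨k₂, s₂, e₂, hs₂, he₂, h2⟩ := hz.exists_pow_mul_sub_mem hle s hs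
  have hU := fun {b : ↥(chartOne R E t)} (hb : b ∉ 𝔪) => isLUnit_coe (B := chartOne R E t) hb
  have hvs₁ : W.valuation (s₁ : E) = 1 :=
    valuation_eq_one_of_notMem hBW h𝔭 (fun h => hs₁ (hle h))
  have hvs₂ : W.valuation (s₂ : E) = 1 :=
    valuation_eq_one_of_notMem hBW h𝔭 (fun h => hs₂ (hle h))
  have hs₁0 : (s₁ : E) ≠ 0 := (hU hs₁).2.2
  have hs₂0 : (s₂ : E) ≠ 0 := (hU hs₂).2.2
  have he₂0 : (e₂ : E) ≠ 0 := (hU he₂).2.2
  have hs₀0 : (s₀ : E) ≠ 0 := (hU hs₀).2.2
  have hz0 : (z : E) ≠ 0 := by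
    intro h0
    apply hz.notMem
    have : z = 0 := Subtype.ext h0
    rw [this]; exact Ideal.zero_mem _
  have hζ0 : ζ ≠ 0 := by
    intro h0
    rw [h0, zero_mul] at hzs₀
    exact hz0 hzs₀.symm
  -- the congruences
  have hr' : W.valuation ((r : E) - (e₁ : E) * (z : E) ^ k₁ / (s₁ : E)) < 1 := by
    have e : (r : E) - (e₁ : E) * (z : E) ^ k₁ / (s₁ : E) =
        ((s₁ : E) * (r : E) - (e₁ : E) * (z : E) ^ k₁) * (s₁ : E)⁻¹ := by
      field_simp
    rw [e, map_mul, map_inv₀, hvs₁, inv_one, mul_one]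
    exact (h𝔭 _).mp h1
  have hs' : W.valuation ((s : E) - (e₂ : E) * (z : E) ^ k₂ / (s₂ : E)) < 1 := by
    have e : (s : E) - (e₂ : E) * (z : E) ^ k₂ / (s₂ : E) =
        ((s₂ : E) * (s : E) - (e₂ : E) * (z : E) ^ k₂) * (s₂ : E)⁻¹ := by
      field_simp
    rw [e, map_mul, map_inv₀, hvs₂, inv_one, mul_one]
    exact (h𝔭 _).mp h2
  have hmain := val_div_sub_div_lt_one W (hBW _ r.2) hvs hr' hs'
  refine ⟨(k₁ : ℤ) - k₂, (e₁ : E) * (s₂ : E) * ((s₁ : E) * (e₂ : E))⁻¹ * (s₀ : E) ^ ((k₁ : ℤ) - k₂),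
    (((hU he₁).mul (hU hs₂)).mul ((hU hs₁).mul (hU he₂)).inv).mul ((hU hs₀).zpow _), ?_⟩
  have e : a - (e₁ : E) * (s₂ : E) * ((s₁ : E) * (e₂ : E))⁻¹ * (s₀ : E) ^ ((k₁ : ℤ) - k₂) *
      ζ ^ ((k₁ : ℤ) - k₂) =
      (r : E) / (s : E) - ((e₁ : E) * (z : E) ^ k₁ / (s₁ : E)) /
        ((e₂ : E) * (z : E) ^ k₂ / (s₂ : E)) := by
    have ha' : a = (r : E) / (s : E) := by rw [← hrs]; field_simp
    have hz' : (s₀ : E) ^ ((k₁ : ℤ) - k₂) * ζ ^ ((k₁ : ℤ) - k₂) =
        (z : E) ^ k₁ / (z : E) ^ k₂ := by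
      rw [← mul_zpow, mul_comm, hzs₀, zpow_sub₀ hz0, zpow_natCast, zpow_natCast]
    rw [mul_assoc, hz', ha']
    field_simp
  rw [e]
  exact hmain

end Dvr

end Fermat.Agent.RB
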