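/-
RB / [BB3] kill-test — helper5 — **KUMEXT, part 3: a Kummer cover at an Eisenstein point of a
sheet** (pure algebra, in helper4's local currency, no residue fields).

`W ⊆ E` a sheet, `V ⊆ E'` an extension of it; `L ⊆ W` the local ring of the model at a closed
point of the sheet where the sheet is smooth with uniformizer `x` ("every unit of `W` is
`≡ υ x ^ n` modulo `𝔪_W` with `υ ∈ L^×`"), `x' ∈ E'` with `x' ^ m = ε x`, `ε ∈ L^×`; `L' ⊆ V` a
ring containing `L` and `x'`, with an ideal `M'` containing `𝔪_V ∩ L'` and `x'` and no unit of `L`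
(the local ring of the cover at a point above).  This is `IsKummerNode`.  Then:

* `IsKummerNode.indep` : `1, x', …, x' ^ (m-1)` have `κ(W)`-linearly independent residues in
  `κ(V)` (so, by helper7's `one_ext`: `[E' : E] = m`, `V` is the only extension of `W`, `e = 1`,
  `f = m`: `KUMEXT_helper5_Sheet`);
* `IsKummerNode.exists_mul` : if these residues span `κ(V)`, **`x'` generates `M'` modulo `𝔪_V`**:
  the branch `(B'/𝔭')_{𝔫'}` of the cover is a discrete valuation ring with uniformizer `x'`.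
-/
import Mathlib
import Fermat.Agent.SS.VAL2_helper7_TwoExt
import Fermat.Agent.RB.KUMEXT_helper5_Defs

set_option autoImplicit false
set_option linter.unusedSectionVars false
set_option linter.unusedVariables false
set_option linter.style.haveILetI false

namespace Fermat.Agent.RB

open Fermat.Agent.SS.TwoExt

section Node

variable {R : Type*} [CommRing R] {E E' : Type*} [Field E] [Field E'] [Algebra R E] [Algebra R E']
  [Algebra E E']

/-- **a Kummer cover at an Eisenstein point of a sheet** (see the file header). -/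
structure IsKummerNode (W : ValuationSubring E) (V : ValuationSubring E') (L : Subalgebra R E)
    (L' : Subalgebra R E') (M' : Set E') (x ε : E) (m : ℕ) (x' : E') : Prop where
  ext : IsExt W V
  le : ∀ a ∈ L, algebraMap E E' a ∈ L'
  leV : ∀ e ∈ L', e ∈ V
  memL' : ∀ e ∈ M', e ∈ L'
  add : ∀ a ∈ M', ∀ b ∈ M', a + b ∈ M'
  mul : ∀ a ∈ L', ∀ b ∈ M', a * b ∈ M'
  ofVal : ∀ e ∈ L', V.valuation e < 1 → e ∈ M'
  unit : ∀ υ : E, IsLUnit L υ → algebraMap E E' υ ∉ M'
  dvr : ∀ a : E, W.valuation a = 1 → ∃ (n : ℤ) (υ : E), IsLUnit L υ ∧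
    W.valuation (a - υ * x ^ n) < 1
  eps : IsLUnit L ε
  x_ne : x ≠ 0
  pos : 0 < m
  mem : x' ∈ M'
  pow : x' ^ m = algebraMap E E' (ε * x)
  val : V.valuation x' = 1

variable {W : ValuationSubring E} {V : ValuationSubring E'} {L : Subalgebra R E}
  {L' : Subalgebra R E'} {M' : Set E'} {x ε : E} {m : ℕ} {x' : E'}

namespace IsKummerNode

theorem x'_ne (h : IsKummerNode W V L L' M' x ε m x') : x' ≠ 0 := by
  intro h0
  have := h.val
  rw [h0, map_zero] at this
  exact zero_ne_one this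

theorem x'_mem (h : IsKummerNode W V L L' M' x ε m x') : x' ∈ L' := h.memL' _ h.mem

theorem val_pow (h : IsKummerNode W V L L' M' x ε m x') (k : ℕ) : V.valuation (x' ^ k) = 1 := by
  rw [map_pow, h.val, one_pow]

theorem val_zpow (h : IsKummerNode W V L L' M' x ε m x') (k : ℤ) : V.valuation (x' ^ k) = 1 := by
  rw [map_zpow₀, h.val, one_zpow]

theorem zero_mem (h : IsKummerNode W V L L' M' x ε m x') : (0 : E') ∈ M' := by
  have := h.mul 0 (Subalgebra.zero_mem _) x' h.mem
  rwa [zero_mul] at this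

theorem neg_mem (h : IsKummerNode W V L L' M' x ε m x') {b : E'} (hb : b ∈ M') : -b ∈ M' := by
  have := h.mul (-1) (Subalgebra.neg_mem _ (Subalgebra.one_mem _)) b hb
  rwa [neg_one_mul] at this

theorem sum_mem (h : IsKummerNode W V L L' M' x ε m x') {ι : Type*} (s : Finset ι) (f : ι → E')
    (hf : ∀ i ∈ s, f i ∈ M') : ∑ i ∈ s, f i ∈ M' := by
  classical
  induction s using Finset.induction_on with
  | empty => simpa using h.zero_mem
  | insert i s hi ih =>
    rw [Finset.sum_insert hi]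
    exact h.add _ (hf i (Finset.mem_insert_self i s)) _
      (ih (fun k hk => hf k (Finset.mem_insert_of_mem hk)))

/-- Step 1: the normal form of a term `a x' ^ i`, `a ∈ W`. -/
theorem normalForm (h : IsKummerNode W V L L' M' x ε m x') (a : E) (ha : a ∈ W) (i : ℕ) :
    ∃ (e : ℤ) (c : E'), c ∈ L' ∧ (c ≠ 0 → ∃ υ : E, IsLUnit L υ ∧ c = algebraMap E E' υ) ∧
      V.valuation (algebraMap E E' a * x' ^ i - c * x' ^ e) < 1 ∧
      (c ≠ 0 → ∃ n : ℤ, e = (m : ℤ) * n + i) := by
  set ι := algebraMap E E' with hι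
  have hx'0 := h.x'_ne
  have hιε0 : ι ε ≠ 0 := (map_ne_zero ι).mpr h.eps.2.2
  have hιx : ι x = (ι ε)⁻¹ * x' ^ m := by
    rw [h.pow, map_mul, ← mul_assoc, inv_mul_cancel₀ hιε0, one_mul]
  have hle : W.valuation a ≤ 1 := (ValuationSubring.valuation_le_one_iff _ _).mpr ha
  rcases lt_or_eq_of_le hle with hlt | heq
  · refine ⟨0, 0, Subalgebra.zero_mem _, fun h => (h rfl).elim, ?_, fun h => (h rfl).elim⟩
    rw [zero_mul, sub_zero, map_mul, h.val_pow, mul_one]
    exact (h.ext.val_lt_one_iff _).mpr hlt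
  · obtain ⟨n, υ, hυ, hval⟩ := h.dvr a heq
    have hυ' : IsLUnit L (υ * ε ^ (-n)) := hυ.mul (h.eps.zpow _)
    refine ⟨(m : ℤ) * n + i, ι (υ * ε ^ (-n)), h.le _ hυ'.1, fun _ => ⟨_, hυ', rfl⟩, ?_,
      fun _ => ⟨n, rfl⟩⟩
    have h1 : ι a * x' ^ i - ι (υ * ε ^ (-n)) * x' ^ ((m : ℤ) * n + i) =
        ι (a - υ * x ^ n) * x' ^ i := by
      rw [map_sub, map_mul, map_mul, map_zpow₀, map_zpow₀, hιx, mul_zpow, inv_zpow',
        zpow_add₀ hx'0, zpow_mul, zpow_natCast, zpow_natCast]
      ring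
    rw [h1, map_mul, h.val_pow, mul_one]
    exact (h.ext.val_lt_one_iff _).mpr hval

/-- **the core**: a combination `∑ aᵢ x' ^ i` (`aᵢ ∈ W`, not all in `𝔪_W`) is, up to the power
`x' ^ e₀` of least exponent, a unit of `L` modulo `M' + 𝔪_V`. -/
theorem core (h : IsKummerNode W V L L' M' x ε m x') (a : Fin m → E) (ha : ∀ i, a i ∈ W) :
    (∀ i, W.valuation (a i) < 1) ∨
    ∃ (e₀ : ℤ) (A : E'), A ∈ L' ∧
      (∀ w : E', V.valuation (w - ∑ i, algebraMap E E' (a i) * x' ^ (i : ℕ)) < 1 →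
        x' ^ (-e₀) * w ∈ M' → False) ∧
      (1 ≤ e₀ → V.valuation (∑ i, algebraMap E E' (a i) * x' ^ (i : ℕ) - A * x') < 1) := by
  classical
  set ι := algebraMap E E' with hι
  have hx'0 := h.x'_ne
  have hx'L := h.x'_mem
  set T : Fin m → E' := fun i => ι (a i) * x' ^ (i : ℕ) with hT
  choose e c hcL' hcunit hcval hcmod using fun i : Fin m => h.normalForm (a i) (ha i) (i : ℕ)
  by_cases hall : ∀ i, c i = 0
  · left
    intro i
    have h1 := hcval i
    rw [hall i, zero_mul, sub_zero, map_mul, h.val_pow, mul_one] at h1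
    exact (h.ext.val_lt_one_iff _).mp h1
  right
  obtain ⟨ibad, hibad⟩ := not_forall.mp hall
  -- distinct exponents
  have hne_exp : ∀ i k : Fin m, c i ≠ 0 → c k ≠ 0 → i ≠ k → e i ≠ e k := by
    intro i k hi hk hik heq
    obtain ⟨n, hn⟩ := hcmod i hi
    obtain ⟨n', hn'⟩ := hcmod k hk
    apply hik
    apply Fin.ext
    have h1 : ((i : ℕ) : ℤ) % (m : ℤ) = ((k : ℕ) : ℤ) % (m : ℤ) := by
      have : (m : ℤ) * n + (i : ℕ) = (m : ℤ) * n' + (k : ℕ) := by rw [← hn, ← hn', heq]
      have h2 := congrArg (· % (m : ℤ)) this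
      simpa [Int.add_mul_emod_self_left, Int.add_emod] using h2
    have hi' : ((i : ℕ) : ℤ) % (m : ℤ) = (i : ℕ) :=
      Int.emod_eq_of_lt (by positivity) (by exact_mod_cast i.2)
    have hk' : ((k : ℕ) : ℤ) % (m : ℤ) = (k : ℕ) :=
      Int.emod_eq_of_lt (by positivity) (by exact_mod_cast k.2)
    rw [hi', hk'] at h1
    exact_mod_cast h1
  set J : Finset (Fin m) := Finset.univ.filter (fun i => c i ≠ 0) with hJ
  have hmemJ : ∀ i, c i ≠ 0 → i ∈ J := fun i hi => by
    rw [hJ, Finset.mem_filter]; exact ⟨Finset.mem_univ _, hi⟩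
  obtain ⟨i₀, hi₀J, hi₀min⟩ := Finset.exists_min_image J e ⟨ibad, hmemJ ibad hibad⟩
  have hci₀ : c i₀ ≠ 0 := (Finset.mem_filter.mp hi₀J).2
  -- the shifted terms
  set D : Fin m → E' := fun i => c i * x' ^ (e i - e i₀).toNat with hD
  have hDval : ∀ i, V.valuation (x' ^ (-e i₀) * T i - D i) < 1 := by
    intro i
    show V.valuation (x' ^ (-e i₀) * T i - c i * x' ^ (e i - e i₀).toNat) < 1
    by_cases hci : c i = 0
    · have h1 := hcval i
      rw [hci, zero_mul, sub_zero] at h1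
      rw [hci, zero_mul, sub_zero, map_mul, h.val_zpow, one_mul]
      exact h1
    · have hge : 0 ≤ e i - e i₀ := by have := hi₀min i (hmemJ i hci); omega
      have h2 : x' ^ (e i - e i₀).toNat = x' ^ (-e i₀) * x' ^ (e i) := by
        rw [← zpow_natCast, Int.toNat_of_nonneg hge, sub_eq_add_neg, add_comm, zpow_add₀ hx'0]
      have h3 : x' ^ (-e i₀) * T i - c i * x' ^ (e i - e i₀).toNat =
          x' ^ (-e i₀) * (T i - c i * x' ^ (e i)) := by
        rw [h2]; ring
      rw [h3, map_mul, h.val_zpow, one_mul]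
      exact hcval i
  have hD₀ : D i₀ = c i₀ := by
    show c i₀ * x' ^ (e i₀ - e i₀).toNat = c i₀
    rw [sub_self, Int.toNat_zero, pow_zero, mul_one]
  have hDM' : ∀ i, i ≠ i₀ → D i ∈ M' := by
    intro i hi
    show c i * x' ^ (e i - e i₀).toNat ∈ M'
    by_cases hci : c i = 0
    · rw [hci, zero_mul]; exact h.zero_mem
    · have hge : e i₀ ≤ e i := hi₀min i (hmemJ i hci)
      have hne := hne_exp i i₀ hci hci₀ hi
      obtain ⟨k, hk⟩ : ∃ k : ℕ, (e i - e i₀).toNat = k + 1 :=
        ⟨(e i - e i₀).toNat - 1, by omega⟩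
      rw [hk, pow_succ, ← mul_assoc]
      exact h.mul _ (L'.mul_mem (hcL' i) (pow_mem hx'L k)) _ h.mem
  refine ⟨e i₀, ∑ i, c i * x' ^ (e i - 1).toNat,
    Subalgebra.sum_mem _ (fun i _ => L'.mul_mem (hcL' i) (pow_mem hx'L _)), ?_, ?_⟩
  · -- no `w` with `x' ^ (-e₀) w ∈ M'`
    intro w hwa hwM
    have hμ : x' ^ (-e i₀) * w - ∑ i ∈ Finset.univ.erase i₀, D i ∈ M' := by
      have h2 : ∑ i ∈ Finset.univ.erase i₀, D i ∈ M' :=
        h.sum_mem _ _ (fun i hi => hDM' i (Finset.ne_of_mem_erase hi))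
      rw [sub_eq_add_neg]
      exact h.add _ hwM _ (h.neg_mem h2)
    have hθ : V.valuation (c i₀ - (x' ^ (-e i₀) * w - ∑ i ∈ Finset.univ.erase i₀, D i)) < 1 := by
      have h1 : c i₀ - (x' ^ (-e i₀) * w - ∑ i ∈ Finset.univ.erase i₀, D i) =
          -(x' ^ (-e i₀) * (w - ∑ i, T i)) + -∑ i, (x' ^ (-e i₀) * T i - D i) := by
        rw [Finset.sum_sub_distrib, ← Finset.mul_sum,
          ← Finset.add_sum_erase _ D (Finset.mem_univ i₀), hD₀]
        ring
      rw [h1]
      refine Valuation.map_add_lt _ ?_ ?_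
      · rw [Valuation.map_neg, map_mul, h.val_zpow, one_mul]
        exact hwa
      · rw [Valuation.map_neg]
        exact Valuation.map_sum_lt _ one_ne_zero (fun i _ => hDval i)
    have hmem : c i₀ - (x' ^ (-e i₀) * w - ∑ i ∈ Finset.univ.erase i₀, D i) ∈ M' :=
      h.ofVal _ (L'.sub_mem (hcL' i₀) (h.memL' _ hμ)) hθ
    have hc₀M' : c i₀ ∈ M' := by
      have := h.add _ hmem _ hμ
      rwa [sub_add_cancel] at this
    obtain ⟨υ, hυ, hcυ⟩ := hcunit i₀ hci₀
    rw [hcυ] at hc₀M'
    exact h.unit υ hυ hc₀M'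
  · -- the quotient by `x'`
    intro he₀
    have hAval : ∀ i, V.valuation (T i - c i * x' ^ (e i - 1).toNat * x') < 1 := by
      intro i
      by_cases hci : c i = 0
      · have h1 := hcval i
        rw [hci, zero_mul, sub_zero] at h1
        rw [hci, zero_mul, zero_mul, sub_zero]
        exact h1
      · have hge : 0 ≤ e i - 1 := by have := hi₀min i (hmemJ i hci); omega
        have h2 : x' ^ (e i - 1).toNat * x' = x' ^ (e i) := by
          rw [← zpow_natCast, Int.toNat_of_nonneg hge, ← zpow_add_one₀ hx'0, sub_add_cancel]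
        rw [mul_assoc, h2]
        exact hcval i
    have h1 : ∑ i, T i - (∑ i, c i * x' ^ (e i - 1).toNat) * x' =
        ∑ i, (T i - c i * x' ^ (e i - 1).toNat * x') := by
      rw [Finset.sum_sub_distrib, Finset.sum_mul]
    rw [h1]
    exact Valuation.map_sum_lt _ one_ne_zero (fun i _ => hAval i)

/-- **Eisenstein independence**: the residues of `1, x', …, x' ^ (m-1)` are linearly independent
over the residue field of `W`. -/
theorem indep (h : IsKummerNode W V L L' M' x ε m x') (a : Fin m → E) (ha : ∀ i, a i ∈ W)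
    (hsum : V.valuation (∑ i, algebraMap E E' (a i) * x' ^ (i : ℕ)) < 1) :
    ∀ i, W.valuation (a i) < 1 := by
  rcases h.core a ha with hall | ⟨e₀, A, -, hno, -⟩
  · exact hall
  · exfalso
    refine hno 0 ?_ ?_
    · rw [zero_sub, Valuation.map_neg]; exact hsum
    · rw [mul_zero]; exact h.zero_mem

/-- **the expansion lemma**: if the residues of `1, x', …, x' ^ (m-1)` span the residue field of
`V` over that of `W`, every element of `M'` is `≡ α x'` modulo `𝔪_V` with `α ∈ L'`. -/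
theorem exists_mul (h : IsKummerNode W V L L' M' x ε m x')
    (hspan : ∀ y ∈ V, ∃ a : Fin m → E, (∀ i, a i ∈ W) ∧
      V.valuation (y - ∑ i, algebraMap E E' (a i) * x' ^ (i : ℕ)) < 1)
    {w : E'} (hw : w ∈ M') : ∃ α ∈ L', V.valuation (w - α * x') < 1 := by
  obtain ⟨a, ha, hwa⟩ := hspan w (h.leV _ (h.memL' _ hw))
  rcases h.core a ha with hall | ⟨e₀, A, hA, hno, hquot⟩
  · refine ⟨0, Subalgebra.zero_mem _, ?_⟩
    rw [zero_mul, sub_zero]
    have h1 : V.valuation (∑ i, algebraMap E E' (a i) * x' ^ (i : ℕ)) < 1 := by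
      refine Valuation.map_sum_lt _ one_ne_zero (fun i _ => ?_)
      rw [map_mul, h.val_pow, mul_one]
      exact (h.ext.val_lt_one_iff _).mpr (hall i)
    have : w = (w - ∑ i, algebraMap E E' (a i) * x' ^ (i : ℕ)) +
        ∑ i, algebraMap E E' (a i) * x' ^ (i : ℕ) := by ring
    rw [this]
    exact Valuation.map_add_lt _ hwa h1
  · have he₀ : 1 ≤ e₀ := by
      by_contra hlt
      rw [not_le] at hlt
      refine hno w hwa ?_
      have hge : 0 ≤ -e₀ := by omega
      have : x' ^ (-e₀) = x' ^ (-e₀).toNat := by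
        rw [← zpow_natCast, Int.toNat_of_nonneg hge]
      rw [this]
      exact h.mul _ (pow_mem h.x'_mem _) _ hw
    refine ⟨A, hA, ?_⟩
    have : w - A * x' = (w - ∑ i, algebraMap E E' (a i) * x' ^ (i : ℕ)) +
        (∑ i, algebraMap E E' (a i) * x' ^ (i : ℕ) - A * x') := by ring
    rw [this]
    exact Valuation.map_add_lt _ hwa (hquot he₀)

end IsKummerNode

end Node

end Fermat.Agent.RB
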