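/-
RB / [BB3] kill-test — helper5 — **KUMEXT, part 5: the sheets of a Kummer cover.**

* `IsKummerNode.one_ext` : at an Eisenstein point, helper7's `one_ext` applies: `[E' : E] = m`,
  `V` is the ONLY extension of the sheet `W` (irreducibility of the sheet of the cover), `e = 1`,
  `f = m` with the residues of `x' ^ i` as a basis, `V` = integral closure of `W`.
* `isKummerNode_of_chart` : the abstract datum `IsKummerNode` from chart data: `B = chartOne R E t`,
  `B' = chartOne R E' t`, `𝔪'` a closed point of `B'` on the sheet of `V`, `𝔪 = 𝔪' ∩ B`, `ζ` a local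
  branch uniformizer of `W` at `𝔪`, `x' ^ m = ε ζ` with `ε` a unit of `B_𝔪`.
-/
import Mathlib
import Fermat.Agent.SS.KUM_helper3_Red
import Fermat.Agent.SS.EXPORT_helper4_Charts
import Fermat.Agent.SS.VAL3_helper7_Count
import Fermat.Agent.RB.KUMEXT_helper5_Node
import Fermat.Agent.RB.KUMEXT_helper5_Dvr

set_option autoImplicit false
set_option linter.unusedSectionVars false
set_option linter.unusedVariables false
set_option linter.style.haveILetI false

namespace Fermat.Agent.RB

open Fermat.Agent.SS Fermat.Agent.JA Fermat.Agent.SS.TwoExt IsLocalRing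

section OneExt

variable {R : Type*} [CommRing R] {E E' : Type*} [Field E] [Field E'] [Algebra R E] [Algebra R E']
  [Algebra E E'] {W : ValuationSubring E} {V : ValuationSubring E'} {L : Subalgebra R E}
  {L' : Subalgebra R E'} {M' : Set E'} {x ε : E} {m : ℕ} {x' : E'}

/-- **the one-extension lemma at an Eisenstein point of a sheet.** -/
theorem IsKummerNode.one_ext [IsDiscreteValuationRing ↥W] [FiniteDimensional E E']
    [Algebra.IsSeparable E E'] (h : IsKummerNode W V L L' M' x ε m x')
    (hεx : ε * x ∈ W) (hdeg : Module.finrank E E' ≤ m) :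
    Module.finrank E E' = m ∧
    (∀ V' : ValuationSubring E', IsExt W V' → V' = V) ∧
    (∀ ϖ : ↥W, Irreducible ϖ → ∀ y : E', V.valuation y < 1 →
      y * (algebraMap E E' (ϖ : E))⁻¹ ∈ V) ∧
    (∀ y ∈ V, ∃ a : Fin m → ↥W,
      V.valuation (y - ∑ i, algebraMap E E' (a i : E) * x' ^ (i : ℕ)) < 1) ∧
    (∀ y : E', y ∈ V → IsIntegral ↥W y) := by
  have hx'int : IsIntegral ↥W x' := by
    refine IsIntegral.of_pow h.pos ?_
    rw [h.pow]
    have : algebraMap E E' (ε * x) = algebraMap ↥W E' ⟨ε * x, hεx⟩ := rfl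
    rw [this]
    exact isIntegral_algebraMap
  refine TwoExt.one_ext h.ext h.pos hdeg (fun i => x' ^ (i : ℕ)) (fun i => hx'int.pow _) ?_
  intro a ha i
  have := h.indep (fun i => (a i : E)) (fun i => (a i).2) ha i
  exact (ValuationSubring.valuation_lt_one_iff W _).2 this

/-- the spanning clause in the form used by `IsKummerNode.exists_mul`. -/
theorem IsKummerNode.span_of_one_ext [IsDiscreteValuationRing ↥W] [FiniteDimensional E E']
    [Algebra.IsSeparable E E'] (h : IsKummerNode W V L L' M' x ε m x')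
    (hεx : ε * x ∈ W) (hdeg : Module.finrank E E' ≤ m) :
    ∀ y ∈ V, ∃ a : Fin m → E, (∀ i, a i ∈ W) ∧
      V.valuation (y - ∑ i, algebraMap E E' (a i) * x' ^ (i : ℕ)) < 1 := by
  intro y hy
  obtain ⟨a, ha⟩ := (h.one_ext hεx hdeg).2.2.2.1 y hy
  exact ⟨fun i => (a i : E), fun i => (a i).2, ha⟩

end OneExt

section Chart

variable {R : Type*} [CommRing R] [IsDomain R] [IsDiscreteValuationRing R] [CharZero R]
  {K₁ : Type*} [Field K₁] [Algebra R K₁] [IsFractionRing R K₁]
  {K : Type*} [Field K] [Algebra K₁ K] [Algebra R K] [IsScalarTower R K₁ K]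
  {E : Type*} [Field E] [Algebra K E] [Algebra R E] [IsScalarTower R K E] [FiniteDimensional K E]
  {E' : Type*} [Field E'] [Algebra K E'] [Algebra R E'] [IsScalarTower R K E']
  [FiniteDimensional K E'] [Algebra E E'] [IsScalarTower K E E']
  {π : R} {t : K}

/-- the restriction to `K` of an extension of a valuation subring. -/
theorem comap_eq_of_isExt {W : ValuationSubring E} {V : ValuationSubring E'} (hext : IsExt W V) :
    V.comap (algebraMap K E') = W.comap (algebraMap K E) := by
  ext a
  rw [ValuationSubring.mem_comap, ValuationSubring.mem_comap,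
    IsScalarTower.algebraMap_apply K E E', hext.mem_iff]

/-- an extension of a sheet restricts to the Gauss valuation subring. -/
theorem isGaussAt_of_isExt {W : ValuationSubring E} {V : ValuationSubring E'} (hext : IsExt W V)
    (hG : IsGaussAt R π t (W.comap (algebraMap K E))) :
    IsGaussAt R π t (V.comap (algebraMap K E')) := by
  rw [comap_eq_of_isExt hext]; exact hG

variable (t) in
/-- the chart of `E` inside the chart of `E'`: local rings. -/
theorem algebraMap_mem_locRing (𝔪' : Ideal ↥(chartOne R E' t)) [𝔪'.IsPrime] {a : E}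
    (ha : a ∈ locRing (chartOne R E t) (𝔪'.comap (chartMap (R := R) (F := E) (L := E') t))) :
    algebraMap E E' a ∈ locRing (chartOne R E' t) 𝔪' := by
  obtain ⟨r, s, hs, hrs⟩ := ha
  refine ⟨chartMap t r, chartMap t s, fun h => hs (Ideal.mem_comap.mpr h), ?_⟩
  rw [coe_chartMap, coe_chartMap, ← map_mul, hrs]

variable (t) in
theorem algebraMap_mem_locMax (𝔪' : Ideal ↥(chartOne R E' t)) [𝔪'.IsPrime] {a : E}
    (ha : a ∈ locMax (chartOne R E t) (𝔪'.comap (chartMap (R := R) (F := E) (L := E') t))) :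
    algebraMap E E' a ∈ locMax (chartOne R E' t) 𝔪' := by
  obtain ⟨r, s, hr, hs, hrs⟩ := ha
  refine ⟨chartMap t r, chartMap t s, Ideal.mem_comap.mp hr, fun h => hs (Ideal.mem_comap.mpr h), ?_⟩
  rw [coe_chartMap, coe_chartMap, ← map_mul, hrs]

/-- the local ring of a chart at a point of a sheet lies in the valuation ring of the sheet. -/
theorem locRing_le_sheet {V : ValuationSubring E'} (hBV : ∀ b ∈ chartOne R E' t, b ∈ V)
    (𝔪' : Ideal ↥(chartOne R E' t)) [𝔪'.IsPrime] (hle' : sheetIdeal t V hBV ≤ 𝔪') {e : E'}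
    (he : e ∈ locRing (chartOne R E' t) 𝔪') : e ∈ V := by
  obtain ⟨r, s, hs, hrs⟩ := he
  have hvs : V.valuation (s : E') = 1 :=
    valuation_eq_one_of_notMem hBV (mem_sheetIdeal_iff t V hBV) (fun h => hs (hle' h))
  rw [← ValuationSubring.valuation_le_one_iff]
  have : V.valuation e = V.valuation (r : E') := by rw [← hrs, map_mul, hvs, mul_one]
  rw [this]
  exact (ValuationSubring.valuation_le_one_iff _ _).mpr (hBV _ r.2)

/-- **the abstract Kummer datum from chart data.** -/
theorem isKummerNode_of_chart (hπ : Irreducible π) (hu : Transcendental K₁ t)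
    (hK : IntermediateField.adjoin K₁ {t} = ⊤)
    {W : ValuationSubring E} {V : ValuationSubring E'} (hext : IsExt W V)
    (hG : IsGaussAt R π t (W.comap (algebraMap K E)))
    (𝔪' : Ideal ↥(chartOne R E' t)) [h𝔪'p : 𝔪'.IsPrime] (h𝔪' : 𝔪'.IsMaximal)
    (hle' : sheetIdeal t V (chart_le_of_isGaussAt (isGaussAt_of_isExt hext hG)) ≤ 𝔪')
    {ζ ε : E}
    (hζ : IsLocBranch W (locRing (chartOne R E t) (𝔪'.comap (chartMap (R := R) (F := E) (L := E') t)))
      (locMax (chartOne R E t) (𝔪'.comap (chartMap (R := R) (F := E) (L := E') t))) ζ)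
    (hε : IsLUnit (locRing (chartOne R E t) (𝔪'.comap (chartMap (R := R) (F := E) (L := E') t))) ε)
    {m : ℕ} (hm : 0 < m) {x' : E'} (hx' : x' ^ m = algebraMap E E' (ε * ζ)) :
    IsKummerNode W V (locRing (chartOne R E t) (𝔪'.comap (chartMap (R := R) (F := E) (L := E') t)))
      (locRing (chartOne R E' t) 𝔪') (locMax (chartOne R E' t) 𝔪') ζ ε m x' := by
  set 𝔪 := 𝔪'.comap (chartMap (R := R) (F := E) (L := E') t) with h𝔪def
  have hG' := isGaussAt_of_isExt hext hG
  have hBW : ∀ b ∈ chartOne R E t, b ∈ W := chart_le_of_isGaussAt hG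
  have hBV : ∀ b ∈ chartOne R E' t, b ∈ V := chart_le_of_isGaussAt hG'
  have h𝔭 := mem_sheetIdeal_iff t W hBW
  have h𝔭' := mem_sheetIdeal_iff t V hBV
  haveI := h𝔪'
  have h𝔪max : 𝔪.IsMaximal :=
    Ideal.isMaximal_comap_of_isIntegral_of_isMaximal' _ (chartMap_isIntegral t) 𝔪'
  -- the sheet of `W` passes through `𝔪`
  have hle : sheetIdeal t W hBW ≤ 𝔪 := by
    intro b hb
    rw [h𝔪def, Ideal.mem_comap]
    apply hle'
    rw [h𝔭', coe_chartMap]
    exact (hext.val_lt_one_iff _).mpr ((h𝔭 b).mp hb)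
  have hLW : ∀ e ∈ locRing (chartOne R E t) 𝔪, e ∈ W := by
    intro e he
    have := locRing_le_sheet hBV 𝔪' hle' (algebraMap_mem_locRing t 𝔪' he)
    exact (hext.mem_iff _).mp this
  have hUW : ∀ υ : E, IsLUnit (locRing (chartOne R E t) 𝔪) υ → W.valuation υ = 1 := by
    intro υ hυ
    exact val_eq_one_of_mem_of_inv_mem W hυ.2.2 (hLW _ hυ.1) (hLW _ hυ.2.1)
  have hζW : W.valuation ζ = 1 :=
    le_antisymm ((ValuationSubring.valuation_le_one_iff _ _).mpr
      (hLW _ (locMax_subset_locRing hζ.mem))) (not_lt.mp hζ.val)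
  have hζ0 : ζ ≠ 0 := fun h => by rw [h, map_zero] at hζW; exact zero_ne_one hζW
  have hvx' : V.valuation x' = 1 := by
    have h1 : V.valuation x' ^ m = 1 := by
      rw [← map_pow, hx', ← one_pow m]
      have : V.valuation (algebraMap E E' (ε * ζ)) = 1 := by
        have h2 : W.valuation (ε * ζ) = 1 := by rw [map_mul, hUW ε hε, hζW, one_mul]
        have h3 : ε * ζ ≠ 0 := mul_ne_zero hε.2.2 hζ0
        refine val_eq_one_of_mem_of_inv_mem V ((map_ne_zero _).mpr h3) ?_ ?_
        · exact (hext.mem_iff _).mpr ((ValuationSubring.valuation_le_one_iff _ _).mp h2.le)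
        · rw [← map_inv₀]
          refine (hext.mem_iff _).mpr ((ValuationSubring.valuation_le_one_iff _ _).mp ?_)
          rw [map_inv₀, h2, inv_one]
      rw [this, one_pow]
    exact (pow_eq_one_iff.mp h1).resolve_right hm.ne'
  -- `x'` lies in the local ring upstairs
  have hx'L : x' ∈ locRing (chartOne R E' t) 𝔪' := by
    obtain ⟨r, s, hs, hrs⟩ := (locRing (chartOne R E t) 𝔪).mul_mem hε.1
      (locMax_subset_locRing hζ.mem)
    have hy : algebraMap E E' (s : E) * x' ∈ chartOne R E' t := by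
      apply mem_chartOne_of_isIntegral
      refine IsIntegral.of_pow hm ?_
      have h1 : (algebraMap E E' (s : E) * x') ^ m =
          algebraMap ↥(chartOne R E' t) E' (chartMap t (s ^ (m - 1) * r)) := by
        show _ = ((chartMap t (s ^ (m - 1) * r) : ↥(chartOne R E' t)) : E')
        rw [coe_chartMap, mul_pow, hx', ← map_pow, ← map_mul]
        congr 1
        show (s : E) ^ m * (ε * ζ) = (s : E) ^ (m - 1) * (r : E)
        rw [← hrs]
        obtain ⟨k, rfl⟩ : ∃ k, m = k + 1 := ⟨m - 1, by omega⟩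
        rw [Nat.add_sub_cancel, pow_succ]; ring
      rw [h1]
      exact isIntegral_algebraMap
    refine ⟨⟨_, hy⟩, chartMap t s, fun h => hs (Ideal.mem_comap.mpr h), ?_⟩
    rw [coe_chartMap, mul_comm]
  have hιζ : algebraMap E E' (ε * ζ) ∈ locMax (chartOne R E' t) 𝔪' :=
    algebraMap_mem_locMax t 𝔪' (mul_mem_locMax hε.1 hζ.mem)
  have hx'M : x' ∈ locMax (chartOne R E' t) 𝔪' := by
    by_contra hnot
    have hinv := inv_mem_locRing hx'L hnot
    have h1 : (x'⁻¹) ^ m * x' ^ m ∈ locMax (chartOne R E' t) 𝔪' := by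
      rw [hx']
      exact mul_mem_locMax (pow_mem hinv m) hιζ
    have hx'0 : x' ≠ 0 := fun h => by rw [h, map_zero] at hvx'; exact zero_ne_one hvx'
    rw [← mul_pow, inv_mul_cancel₀ hx'0, one_pow] at h1
    exact one_notMem_locMax h1
  exact
    { ext := hext
      le := fun a ha => algebraMap_mem_locRing t 𝔪' ha
      leV := fun e he => locRing_le_sheet hBV 𝔪' hle' he
      memL' := fun e he => locMax_subset_locRing he
      add := fun a ha b hb => add_mem_locMax ha hb
      mul := fun a ha b hb => mul_mem_locMax ha hb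
      ofVal := (sheet_le_iff hBV h𝔭').mp hle'
      unit := by
        intro υ hυ hmem
        have h1 := mul_mem_locMax (algebraMap_mem_locRing t 𝔪' hυ.2.1) hmem
        rw [← map_mul, inv_mul_cancel₀ hυ.2.2, map_one] at h1
        exact one_notMem_locMax h1
      dvr := fun a ha => exists_zpow_of_isLocBranch hπ hu hK hG 𝔪 h𝔪max hle hζ a ha
      eps := hε
      x_ne := hζ0
      pos := hm
      mem := hx'M
      pow := hx'
      val := hvx' }

end Chart

end Fermat.Agent.RB
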