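/-
RB / [BB3] kill-test — helper5 — **KUMEXT, part 6: the two sheets of a Kummer cover.**

`two : IsTwoSheet π t Winf W0` the two sheets of the model of `E`; `E' / E` of degree `≤ m` with,
on each sheet, ONE Eisenstein point (a closed point `𝔪` of the chart, a local branch uniformizer `ζ`
of the sheet at `𝔪`, a unit `ε` of `B_𝔪` and `x' ∈ E'` with `x' ^ m = ε ζ`).  Then `E'` has exactly
two sheets too: `IsTwoSheet π t Winf' W0'`, `Winf'`, `W0'` the unique extensions of `Winf`, `W0`
(`isTwoSheet_kummer`).  So the whole of helper4's [VERT] applies to the chart of `E'`: sheet primes,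
reducedness of the special fibre, `B'_{𝔓} = W'`, …
-/
import Mathlib
import Fermat.Agent.SS.VAL3_helper7_Insep
import Fermat.Agent.RB.KUMEXT_helper5_Sheet

set_option autoImplicit false
set_option linter.unusedSectionVars false
set_option linter.unusedVariables false
set_option linter.style.haveILetI false

namespace Fermat.Agent.RB

open Fermat.Agent.SS Fermat.Agent.JA Fermat.Agent.SS.TwoExt IsLocalRing

section Two

variable {R : Type*} [CommRing R] [IsDomain R] [IsDiscreteValuationRing R] [CharZero R]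
  {K₁ : Type*} [Field K₁] [Algebra R K₁] [IsFractionRing R K₁]
  {K : Type*} [Field K] [Algebra K₁ K] [Algebra R K] [IsScalarTower R K₁ K]
  {E : Type*} [Field E] [Algebra K E] [Algebra R E] [IsScalarTower R K E] [FiniteDimensional K E]
  {E' : Type*} [Field E'] [Algebra K E'] [Algebra R E'] [IsScalarTower R K E']
  [FiniteDimensional K E'] [Algebra E E'] [IsScalarTower K E E']
  {π : R} {t : K}

include K₁ in
/-- a sheet is a discrete valuation ring. -/
theorem isDiscreteValuationRing_sheet (hπ : Irreducible π) (hu : Transcendental K₁ t)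
    (hK : IntermediateField.adjoin K₁ {t} = ⊤) {W : ValuationSubring E}
    (hG : IsGaussAt R π t (W.comap (algebraMap K E))) : IsDiscreteValuationRing ↥W := by
  haveI : IsDiscreteValuationRing ↥(W.comap (algebraMap K E)) :=
    isDiscreteValuationRing_of_isGaussAt π hπ t hu hK hG
  have hinj : Function.Injective (algebraMap R K) := by
    rw [IsScalarTower.algebraMap_eq R K₁ K]
    exact (algebraMap K₁ K).injective.comp (IsFractionRing.injective R K₁)
  haveI : CharZero K := charZero_of_injective_algebraMap hinj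
  haveI : Algebra.IsSeparable K E := Algebra.IsAlgebraic.isSeparable_of_perfectField
  have hExt : TwoExt.IsExt (W.comap (algebraMap K E)) W := rfl
  exact hExt.isDiscreteValuationRing

/-- **going-up**: a closed point of the chart of `E'` on the sheet of `V`, over a given closed point
of the sheet of `W`. -/
theorem exists_isMaximal_comap_eq {W : ValuationSubring E} {V : ValuationSubring E'}
    (hext : IsExt W V) (hBW : ∀ b ∈ chartOne R E t, b ∈ W) (hBV : ∀ b ∈ chartOne R E' t, b ∈ V)
    (𝔪 : Ideal ↥(chartOne R E t)) (h𝔪 : 𝔪.IsMaximal) (hle : sheetIdeal t W hBW ≤ 𝔪) :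
    ∃ 𝔪' : Ideal ↥(chartOne R E' t), 𝔪'.IsMaximal ∧ sheetIdeal t V hBV ≤ 𝔪' ∧
      𝔪'.comap (chartMap (R := R) (F := E) (L := E') t) = 𝔪 := by
  letI : Algebra ↥(chartOne R E t) ↥(chartOne R E' t) := (chartMap t).toAlgebra
  haveI : Algebra.IsIntegral ↥(chartOne R E t) ↥(chartOne R E' t) := ⟨chartMap_isIntegral t⟩
  haveI := h𝔪.isPrime
  have hIP : (sheetIdeal t V hBV).comap (algebraMap ↥(chartOne R E t) ↥(chartOne R E' t)) ≤ 𝔪 := by
    intro b hb
    apply hle
    rw [Ideal.mem_comap, mem_sheetIdeal_iff] at hb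
    rw [mem_sheetIdeal_iff]
    have hb' : V.valuation (algebraMap E E' (b : E)) < 1 := hb
    exact (hext.val_lt_one_iff _).mp hb'
  obtain ⟨Q, hQle, hQp, hQ⟩ := Ideal.exists_ideal_over_prime_of_isIntegral 𝔪 (sheetIdeal t V hBV) hIP
  refine ⟨Q, ?_, hQle, hQ⟩
  haveI := hQp
  exact Ideal.isMaximal_of_isIntegral_of_isMaximal_comap Q (hQ.symm ▸ h𝔪)

include K₁ in
/-- **a sheet with an Eisenstein point has exactly one extension to the Kummer cover, and it is
unramified of residue degree `m`.** -/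
theorem exists_unique_isExt_of_eisenstein (hπ : Irreducible π) (hu : Transcendental K₁ t)
    (hK : IntermediateField.adjoin K₁ {t} = ⊤) {W : ValuationSubring E}
    (hG : IsGaussAt R π t (W.comap (algebraMap K E)))
    (hπW : ∀ x : E, W.valuation x < 1 → x * (algebraMap R E π)⁻¹ ∈ W)
    {m : ℕ} (hm : 0 < m) (hdeg : Module.finrank E E' ≤ m)
    (𝔪 : Ideal ↥(chartOne R E t)) [h𝔪p : 𝔪.IsPrime] (h𝔪 : 𝔪.IsMaximal)
    (hle : sheetIdeal t W (chart_le_of_isGaussAt hG) ≤ 𝔪) {ζ ε : E}
    (hζ : IsLocBranch W (locRing (chartOne R E t) 𝔪) (locMax (chartOne R E t) 𝔪) ζ)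
    (hε : IsLUnit (locRing (chartOne R E t) 𝔪) ε)
    {x' : E'} (hx' : x' ^ m = algebraMap E E' (ε * ζ)) :
    ∃ V : ValuationSubring E', IsExt W V ∧ (∀ V' : ValuationSubring E', IsExt W V' → V' = V) ∧
      Module.finrank E E' = m ∧
      (∀ y : E', V.valuation y < 1 → y * (algebraMap R E' π)⁻¹ ∈ V) ∧
      (∀ y ∈ V, ∃ a : Fin m → E, (∀ i, a i ∈ W) ∧
        V.valuation (y - ∑ i, algebraMap E E' (a i) * x' ^ (i : ℕ)) < 1) := by
  haveI : IsDiscreteValuationRing ↥W := isDiscreteValuationRing_sheet (K₁ := K₁) hπ hu hK hG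
  have hinj : Function.Injective (algebraMap R K) := by
    rw [IsScalarTower.algebraMap_eq R K₁ K]
    exact (algebraMap K₁ K).injective.comp (IsFractionRing.injective R K₁)
  haveI : CharZero K := charZero_of_injective_algebraMap hinj
  haveI : CharZero E := charZero_of_injective_algebraMap (algebraMap K E).injective
  haveI : FiniteDimensional E E' := FiniteDimensional.right K E E'
  haveI : Algebra.IsSeparable E E' := Algebra.IsAlgebraic.isSeparable_of_perfectField
  obtain ⟨V, hext⟩ := exists_isExt (L := E') W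
  have hG' := isGaussAt_of_isExt hext hG
  have hBW : ∀ b ∈ chartOne R E t, b ∈ W := chart_le_of_isGaussAt hG
  have hBV : ∀ b ∈ chartOne R E' t, b ∈ V := chart_le_of_isGaussAt hG'
  obtain ⟨𝔪', h𝔪', hle', hcomap⟩ := exists_isMaximal_comap_eq hext hBW hBV 𝔪 h𝔪 hle
  haveI := h𝔪'.isPrime
  subst hcomap
  have hnode := isKummerNode_of_chart hπ hu hK hext hG 𝔪' h𝔪' hle' hζ hε hm hx'
  have hεζ : ε * ζ ∈ W := by
    have h1 := hnode.leV _ (hnode.le _ ((locRing (chartOne R E t) _).mul_mem hε.1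
      (locMax_subset_locRing hζ.mem)))
    exact (hext.mem_iff _).mp h1
  obtain ⟨hfin, honly, he, -, -⟩ := hnode.one_ext hεζ hdeg
  refine ⟨V, hext, honly, hfin, ?_, hnode.span_of_one_ext hεζ hdeg⟩
  -- `π` is a uniformizer of `W`
  have hπE : algebraMap R E π ≠ 0 := algebraMap_pi_ne_zero (K₁ := K₁) (K := K) hπ
  have hπlt : W.valuation (algebraMap R E π) < 1 := by
    rw [TwoExt.val_lt_one_iff_inv_not_mem W hπE]
    intro hmem
    apply hG.2.1
    change algebraMap K E ((algebraMap R K π)⁻¹) ∈ W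
    rwa [map_inv₀, ← IsScalarTower.algebraMap_apply]
  have hπmem : algebraMap R E π ∈ W := (ValuationSubring.valuation_le_one_iff _ _).mp hπlt.le
  have hirr : Irreducible (⟨algebraMap R E π, hπmem⟩ : ↥W) := by
    rw [IsDiscreteValuationRing.irreducible_iff_uniformizer]
    apply le_antisymm
    · intro y hy
      have hy' : W.valuation (y : E) < 1 := (ValuationSubring.valuation_lt_one_iff W y).1 hy
      rw [Ideal.mem_span_singleton]
      refine ⟨⟨_, hπW _ hy'⟩, ?_⟩
      apply Subtype.ext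
      show (y : E) = algebraMap R E π * ((y : E) * (algebraMap R E π)⁻¹)
      field_simp
    · rw [Ideal.span_le, Set.singleton_subset_iff]
      exact (ValuationSubring.valuation_lt_one_iff W _).2 hπlt
  intro y hy
  have := he _ hirr y hy
  have e1 : algebraMap E E' (algebraMap R E π) = algebraMap R E' π :=
    algebraMap_algebraMap_eq (K := K) π
  rwa [e1] at this

include K₁ in
/-- **the two sheets of a Kummer cover.** -/
theorem isTwoSheet_kummer (hπ : Irreducible π) (hu : Transcendental K₁ t)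
    (hK : IntermediateField.adjoin K₁ {t} = ⊤) {Winf W0 : ValuationSubring E}
    (two : IsTwoSheet π t Winf W0) {m : ℕ} (hm : 0 < m) (hdeg : Module.finrank E E' ≤ m)
    (𝔪i : Ideal ↥(chartOne R E t)) [𝔪i.IsPrime] (h𝔪i : 𝔪i.IsMaximal)
    (hlei : sheetIdeal t Winf two.chart_le_inf ≤ 𝔪i) {ζi εi : E}
    (hζi : IsLocBranch Winf (locRing (chartOne R E t) 𝔪i) (locMax (chartOne R E t) 𝔪i) ζi)
    (hεi : IsLUnit (locRing (chartOne R E t) 𝔪i) εi)
    {xi' : E'} (hxi' : xi' ^ m = algebraMap E E' (εi * ζi))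
    (𝔪z : Ideal ↥(chartOne R E t)) [𝔪z.IsPrime] (h𝔪z : 𝔪z.IsMaximal)
    (hlez : sheetIdeal t W0 two.chart_le_zero ≤ 𝔪z) {ζz εz : E}
    (hζz : IsLocBranch W0 (locRing (chartOne R E t) 𝔪z) (locMax (chartOne R E t) 𝔪z) ζz)
    (hεz : IsLUnit (locRing (chartOne R E t) 𝔪z) εz)
    {xz' : E'} (hxz' : xz' ^ m = algebraMap E E' (εz * ζz)) :
    ∃ Winf' W0' : ValuationSubring E', IsExt Winf Winf' ∧ IsExt W0 W0' ∧
      IsTwoSheet π t Winf' W0' ∧ Module.finrank E E' = m ∧
      (∀ y ∈ Winf', ∃ a : Fin m → E, (∀ i, a i ∈ Winf) ∧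
        Winf'.valuation (y - ∑ i, algebraMap E E' (a i) * xi' ^ (i : ℕ)) < 1) ∧
      (∀ y ∈ W0', ∃ a : Fin m → E, (∀ i, a i ∈ W0) ∧
        W0'.valuation (y - ∑ i, algebraMap E E' (a i) * xz' ^ (i : ℕ)) < 1) := by
  obtain ⟨Vi, hexti, honlyi, hfin, hei, hspani⟩ :=
    exists_unique_isExt_of_eisenstein (K₁ := K₁) hπ hu hK two.gauss_inf two.e_inf hm hdeg 𝔪i h𝔪i
      hlei hζi hεi hxi'
  obtain ⟨Vz, hextz, honlyz, -, hez, hspanz⟩ :=
    exists_unique_isExt_of_eisenstein (K₁ := K₁) hπ hu hK two.gauss_zero two.e_zero hm hdeg 𝔪z h𝔪z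
      hlez hζz hεz hxz'
  refine ⟨Vi, Vz, hexti, hextz, ?_, hfin, hspani, hspanz⟩
  refine ⟨?_, isGaussAt_of_isExt hexti two.gauss_inf, isGaussAt_of_isExt hextz two.gauss_zero, ?_,
    hei, hez⟩
  · intro heq
    apply two.ne
    rw [← hexti, ← hextz, heq]
  · intro V' hV'
    have hcomap : (V'.comap (algebraMap E E')).comap (algebraMap K E) =
        V'.comap (algebraMap K E') := by
      ext a
      rw [ValuationSubring.mem_comap, ValuationSubring.mem_comap, ValuationSubring.mem_comap,
        ← IsScalarTower.algebraMap_apply K E E']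
    rcases two.only (V'.comap (algebraMap E E')) (by rw [hcomap]; exact hV') with h | h
    · left; exact honlyi V' h
    · right; exact honlyz V' h

end Two

end Fermat.Agent.RB
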