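/-
RB / [BB3] kill-test — helper5 — **KUMEXT, part 7: branch uniformizers of the Kummer cover at the
Eisenstein points** (nodes, cusps of the sheet `0`).

* `exists_pow_eq_of_coprime` : if `f = ϖ ^ (m a) · ε · ζ ^ k · h ^ m` with `k` prime to `m` and
  `u ^ m = f`, then `x' := (u / (ϖ ^ a h)) ^ s · ζ ^ t'` (`s k + t' m = 1`) satisfies
  `x' ^ m = ε ^ s · ζ`;
* `exists_isBranchUniformizer_of_eisenstein` : at a closed point `𝔪'` of the chart of `E'` on the
  sheet of `V`, over a point `𝔪` where `ζ` is a local branch uniformizer of `W`: if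
  `x' ^ m = ε ζ` (`ε` a unit of `B_𝔪`) and `[E' : E] ≤ m`, then `x'` (times a unit at `𝔪'`) is a
  branch uniformizer of the sheet of `V` at `𝔪'`.
-/
import Mathlib
import Fermat.Agent.RB.KUMEXT_helper5_Two

set_option autoImplicit false
set_option linter.unusedSectionVars false
set_option linter.unusedVariables false
set_option linter.style.haveILetI false

namespace Fermat.Agent.RB

open Fermat.Agent.SS Fermat.Agent.JA Fermat.Agent.SS.TwoExt IsLocalRing

section Pow

variable {E E' : Type*} [Field E] [Field E'] [Algebra E E']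

/-- the Eisenstein generator of a Kummer extension at a point where the exponent is prime to `m`. -/
theorem exists_pow_eq_of_coprime {ϖ f ζ ε h : E} {a k : ℤ} {m : ℕ} (hm : 0 < m)
    (hk : IsCoprime k (m : ℤ)) (hϖ : ϖ ≠ 0) (hζ : ζ ≠ 0) (hε : ε ≠ 0) (hh : h ≠ 0)
    (hf : f = ϖ ^ ((m : ℤ) * a) * ε * ζ ^ k * h ^ m) {u : E'} (hu : u ^ m = algebraMap E E' f) :
    ∃ (s : ℤ) (x' : E'), x' ^ m = algebraMap E E' (ε ^ s * ζ) := by
  obtain ⟨s, t', hst⟩ := hk
  set ι := algebraMap E E' with hι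
  have hιϖ : ι ϖ ≠ 0 := (map_ne_zero ι).mpr hϖ
  have hιζ : ι ζ ≠ 0 := (map_ne_zero ι).mpr hζ
  have hιε : ι ε ≠ 0 := (map_ne_zero ι).mpr hε
  have hιh : ι h ≠ 0 := (map_ne_zero ι).mpr hh
  set u₁ : E' := u * (ι ϖ ^ a * ι h)⁻¹ with hu₁
  have hu₁m : u₁ ^ m = ι ε * ι ζ ^ k := by
    rw [hu₁, mul_pow, hu, hf, map_mul, map_mul, map_mul, map_zpow₀, map_zpow₀, map_pow, inv_pow,
      mul_pow, ← zpow_natCast (ι ϖ ^ a) m, ← zpow_mul, mul_comm a (m : ℤ)]
    have h1 : ι ϖ ^ ((m : ℤ) * a) ≠ 0 := zpow_ne_zero _ hιϖ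
    have h2 : ι h ^ m ≠ 0 := pow_ne_zero _ hιh
    field_simp
  have hu₁0 : u₁ ≠ 0 := by
    intro h0
    rw [h0, zero_pow hm.ne'] at hu₁m
    exact mul_ne_zero hιε (zpow_ne_zero _ hιζ) hu₁m.symm
  refine ⟨s, u₁ ^ s * ι ζ ^ t', ?_⟩
  rw [mul_pow, ← zpow_natCast (u₁ ^ s) m, ← zpow_mul, mul_comm s (m : ℤ), zpow_mul, zpow_natCast,
    hu₁m, ← zpow_natCast (ι ζ ^ t') m, ← zpow_mul, mul_zpow, ← zpow_mul, map_mul, map_zpow₀,
    mul_assoc, ← zpow_add₀ hιζ]
  have : k * s + t' * (m : ℤ) = 1 := by rw [mul_comm k s]; exact hst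
  rw [this, zpow_one]

end Pow

section Branch

variable {R : Type*} [CommRing R] [IsDomain R] [IsDiscreteValuationRing R] [CharZero R]
  {K₁ : Type*} [Field K₁] [Algebra R K₁] [IsFractionRing R K₁]
  {K : Type*} [Field K] [Algebra K₁ K] [Algebra R K] [IsScalarTower R K₁ K]
  {E : Type*} [Field E] [Algebra K E] [Algebra R E] [IsScalarTower R K E] [FiniteDimensional K E]
  {E' : Type*} [Field E'] [Algebra K E'] [Algebra R E'] [IsScalarTower R K E']
  [FiniteDimensional K E'] [Algebra E E'] [IsScalarTower K E E']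
  {π : R} {t : K}

include K₁ in
/-- **the branch uniformizer of the Kummer cover at an Eisenstein point.** -/
theorem exists_isBranchUniformizer_of_eisenstein (hπ : Irreducible π) (hu : Transcendental K₁ t)
    (hK : IntermediateField.adjoin K₁ {t} = ⊤)
    {W : ValuationSubring E} {V : ValuationSubring E'} (hext : IsExt W V)
    (hG : IsGaussAt R π t (W.comap (algebraMap K E)))
    {m : ℕ} (hm : 0 < m) (hdeg : Module.finrank E E' ≤ m)
    (𝔪' : Ideal ↥(chartOne R E' t)) [h𝔪'p : 𝔪'.IsPrime] (h𝔪' : 𝔪'.IsMaximal)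
    (hle' : sheetIdeal t V (chart_le_of_isGaussAt (isGaussAt_of_isExt hext hG)) ≤ 𝔪')
    {ζ ε : E}
    (hζ : IsLocBranch W (locRing (chartOne R E t) (𝔪'.comap (chartMap (R := R) (F := E) (L := E') t)))
      (locMax (chartOne R E t) (𝔪'.comap (chartMap (R := R) (F := E) (L := E') t))) ζ)
    (hε : IsLUnit (locRing (chartOne R E t) (𝔪'.comap (chartMap (R := R) (F := E) (L := E') t))) ε)
    {x' : E'} (hx' : x' ^ m = algebraMap E E' (ε * ζ)) :
    ∃ z s : ↥(chartOne R E' t), s ∉ 𝔪' ∧ x' * (s : E') = (z : E') ∧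
      IsBranchUniformizer (sheetIdeal t V (chart_le_of_isGaussAt (isGaussAt_of_isExt hext hG)))
        𝔪' z := by
  haveI : IsDiscreteValuationRing ↥W := isDiscreteValuationRing_sheet (K₁ := K₁) hπ hu hK hG
  have hinj : Function.Injective (algebraMap R K) := by
    rw [IsScalarTower.algebraMap_eq R K₁ K]
    exact (algebraMap K₁ K).injective.comp (IsFractionRing.injective R K₁)
  haveI : CharZero K := charZero_of_injective_algebraMap hinj
  haveI : CharZero E := charZero_of_injective_algebraMap (algebraMap K E).injective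
  haveI : FiniteDimensional E E' := FiniteDimensional.right K E E'
  haveI : Algebra.IsSeparable E E' := Algebra.IsAlgebraic.isSeparable_of_perfectField
  have hG' := isGaussAt_of_isExt hext hG
  have hBV : ∀ b ∈ chartOne R E' t, b ∈ V := chart_le_of_isGaussAt hG'
  have hnode := isKummerNode_of_chart hπ hu hK hext hG 𝔪' h𝔪' hle' hζ hε hm hx'
  have hεζ : ε * ζ ∈ W := by
    have h1 := hnode.leV _ (hnode.le _ ((locRing (chartOne R E t) _).mul_mem hε.1
      (locMax_subset_locRing hζ.mem)))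
    exact (hext.mem_iff _).mp h1
  have hspan := hnode.span_of_one_ext hεζ hdeg
  have hloc : IsLocBranch V (locRing (chartOne R E' t) 𝔪') (locMax (chartOne R E' t) 𝔪') x' :=
    ⟨hnode.mem, by rw [hnode.val]; exact lt_irrefl _, fun w hw => hnode.exists_mul hspan hw⟩
  exact hloc.exists_isBranchUniformizer hBV (mem_sheetIdeal_iff t V hBV) hle'

end Branch

end Fermat.Agent.RB
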