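/-
RB / [BB3] kill-test — helper5 — **KUMEXT, part 8: the model chart of a Kummer cover
(`IsModelChart` for `chartOne R E' t`).**

`E' / E` of degree `≤ m`, `u ∈ E'`, `u ^ m = f ∈ E`; the model of `E` has two sheets
(`two : IsTwoSheet π t Winf W0`) and so has `E'` (`two'`, from `isTwoSheet_kummer`).  At every
closed point `𝔪` of the special fibre of the chart of `E` and every sheet `W` through `𝔪`, `f` has
* Eisenstein shape `f = π ^ (m a) · ε · ζ ^ k · h ^ m`, `k` prime to `m`, `ζ` a local branch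
  uniformizer of `W` at `𝔪` (vanishing on the other sheet if `𝔪` is a node), `ε` a unit at `𝔪`; or
* étale shape `f = π ^ (m a) · ε · h ^ m` (only at points which are not nodes).
Then the chart of `E'` is a model chart (`isModelChart_kummer`): the branch uniformizers over the
Eisenstein points are the `x' = (u / (π ^ a h)) ^ s ζ ^ t'` (this file); over the étale points they
are an explicit hypothesis (`hét_inf`, `hét_zero` — the residue-level étale lemma, helper8's
`KUMBR`); the unit clause is helper6's `IsTwoSheet.exists_nodeUnit` for `E'` (hypothesis `hunit'`).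
-/
import Mathlib
import Fermat.Agent.SS.GLUE_helper3_A
import Fermat.Agent.RB.KUMEXT_helper5_Branch

set_option autoImplicit false
set_option linter.unusedSectionVars false
set_option linter.unusedVariables false
set_option linter.style.haveILetI false

namespace Fermat.Agent.RB

open Fermat.Agent.SS Fermat.Agent.JA Fermat.Agent.SS.TwoExt IsLocalRing

section Shape

variable {R : Type*} [CommRing R] {E : Type*} [Field E] [Algebra R E]

/-- Eisenstein shape of the Kummer generator `f` along the sheet `W` at the closed point `(L, M)`;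
if `node` (the other sheet `W₂` passes through the point) the branch uniformizer vanishes on
`W₂`. -/
def IsEisensteinAt (W W₂ : ValuationSubring E) (L : Subalgebra R E) (M : Set E) (ϖ : E) (m : ℕ)
    (f : E) (node : Prop) : Prop :=
  ∃ (k : ℤ) (ζ ε h : E) (a : ℤ), IsCoprime k (m : ℤ) ∧ IsLocBranch W L M ζ ∧ IsLUnit L ε ∧ h ≠ 0 ∧
    f = ϖ ^ ((m : ℤ) * a) * ε * ζ ^ k * h ^ m ∧ (node → W₂.valuation ζ < 1)

/-- étale shape of the Kummer generator `f` along the sheet `W` at the closed point `(L, M)`. -/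
def IsEtaleAt (W : ValuationSubring E) (L : Subalgebra R E) (M : Set E) (ϖ : E) (m : ℕ)
    (f : E) : Prop :=
  ∃ (ζ ε h : E) (a : ℤ), IsLocBranch W L M ζ ∧ IsLUnit L ε ∧ h ≠ 0 ∧
    f = ϖ ^ ((m : ℤ) * a) * ε * h ^ m

end Shape

section Chart

variable {R : Type*} [CommRing R] [IsDomain R] [IsDiscreteValuationRing R] [CharZero R]
  {K₁ : Type*} [Field K₁] [Algebra R K₁] [IsFractionRing R K₁]
  {K : Type*} [Field K] [Algebra K₁ K] [Algebra R K] [IsScalarTower R K₁ K]
  {E : Type*} [Field E] [Algebra K E] [Algebra R E] [IsScalarTower R K E] [FiniteDimensional K E]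
  {E' : Type*} [Field E'] [Algebra K E'] [Algebra R E'] [IsScalarTower R K E']
  [FiniteDimensional K E'] [Algebra E E'] [IsScalarTower K E E']
  {π : R} {t : K}

/-- the sheet downstairs passes through the image of a point of the sheet upstairs. -/
theorem sheetIdeal_le_comap {W : ValuationSubring E} {V : ValuationSubring E'} (hext : IsExt W V)
    (hBW : ∀ b ∈ chartOne R E t, b ∈ W) (hBV : ∀ b ∈ chartOne R E' t, b ∈ V)
    (𝔪' : Ideal ↥(chartOne R E' t)) (hle' : sheetIdeal t V hBV ≤ 𝔪') :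
    sheetIdeal t W hBW ≤ 𝔪'.comap (chartMap (R := R) (F := E) (L := E') t) := by
  intro b hb
  rw [Ideal.mem_comap]
  apply hle'
  rw [mem_sheetIdeal_iff, coe_chartMap]
  exact (hext.val_lt_one_iff _).mpr ((mem_sheetIdeal_iff t W hBW b).mp hb)

/-- conversely: the sheet upstairs passes through `𝔪'` only if the sheet downstairs passes through
its image — the contrapositive form used for the étale alternative. -/
theorem not_le_comap_of_not_le {W : ValuationSubring E} {V : ValuationSubring E'} (hext : IsExt W V)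
    (hBW : ∀ b ∈ chartOne R E t, b ∈ W) (hBV : ∀ b ∈ chartOne R E' t, b ∈ V)
    (𝔪' : Ideal ↥(chartOne R E' t))
    (hn : ¬ sheetIdeal t W hBW ≤ 𝔪'.comap (chartMap (R := R) (F := E) (L := E') t)) :
    ¬ sheetIdeal t V hBV ≤ 𝔪' :=
  fun h => hn (sheetIdeal_le_comap hext hBW hBV 𝔪' h)

include K₁ in
/-- **the branch uniformizer over an Eisenstein point**, with the vanishing on the other sheet at
a node. -/
theorem exists_isBranchUniformizer_of_isEisensteinAt (hπ : Irreducible π)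
    (hu : Transcendental K₁ t) (hK : IntermediateField.adjoin K₁ {t} = ⊤)
    {W W₂ : ValuationSubring E} {V V₂ : ValuationSubring E'} (hext : IsExt W V)
    (hext₂ : IsExt W₂ V₂) (hG : IsGaussAt R π t (W.comap (algebraMap K E)))
    (hBW₂ : ∀ b ∈ chartOne R E t, b ∈ W₂) (hBV₂ : ∀ b ∈ chartOne R E' t, b ∈ V₂)
    {m : ℕ} (hm : 0 < m) (hdeg : Module.finrank E E' ≤ m) {f : E} {u : E'}
    (hu' : u ^ m = algebraMap E E' f)
    (𝔪' : Ideal ↥(chartOne R E' t)) [h𝔪'p : 𝔪'.IsPrime] (h𝔪' : 𝔪'.IsMaximal)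
    (hle' : sheetIdeal t V (chart_le_of_isGaussAt (isGaussAt_of_isExt hext hG)) ≤ 𝔪')
    (hE : IsEisensteinAt W W₂
      (locRing (chartOne R E t) (𝔪'.comap (chartMap (R := R) (F := E) (L := E') t)))
      (locMax (chartOne R E t) (𝔪'.comap (chartMap (R := R) (F := E) (L := E') t)))
      (algebraMap R E π) m f
      (sheetIdeal t W₂ hBW₂ ≤ 𝔪'.comap (chartMap (R := R) (F := E) (L := E') t))) :
    ∃ z : ↥(chartOne R E' t),
      IsBranchUniformizer (sheetIdeal t V (chart_le_of_isGaussAt (isGaussAt_of_isExt hext hG)))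
        𝔪' z ∧
      (sheetIdeal t W₂ hBW₂ ≤ 𝔪'.comap (chartMap (R := R) (F := E) (L := E') t) →
        z ∈ sheetIdeal t V₂ hBV₂) := by
  obtain ⟨k, ζ, ε, h, a, hk, hζ, hε, hh, hf, hnode⟩ := hE
  have hπE : algebraMap R E π ≠ 0 := algebraMap_pi_ne_zero (K₁ := K₁) (K := K) hπ
  have hζ0 : ζ ≠ 0 := by
    intro h0
    apply hζ.val
    rw [h0, map_zero]
    exact zero_lt_one
  obtain ⟨s, x', hx'⟩ := exists_pow_eq_of_coprime hm hk hπE hζ0 hε.2.2 hh hf hu'
  obtain ⟨z, σ, hσ, hzσ, hz⟩ := exists_isBranchUniformizer_of_eisenstein (K₁ := K₁) hπ hu hK hext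
    hG hm hdeg 𝔪' h𝔪' hle' hζ (hε.zpow s) hx'
  refine ⟨z, hz, fun hle₂ => ?_⟩
  rw [mem_sheetIdeal_iff, ← hzσ, map_mul]
  have hσ1 : V₂.valuation (σ : E') ≤ 1 :=
    (ValuationSubring.valuation_le_one_iff _ _).mpr (hBV₂ _ σ.2)
  -- `x'` vanishes on the other sheet
  have hx'lt : V₂.valuation x' < 1 := by
    by_contra hge
    rw [not_lt] at hge
    have h1 : 1 ≤ V₂.valuation (x' ^ m) := by
      rw [map_pow]; exact one_le_pow₀ hge
    rw [hx'] at h1
    have h2 : V₂.valuation (algebraMap E E' (ε ^ s * ζ)) < 1 := by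
      rw [hext₂.val_lt_one_iff, map_mul]
      have h3 : W₂.valuation (ε ^ s) ≤ 1 := by
        rw [ValuationSubring.valuation_le_one_iff]
        -- the local ring at a point of the sheet `W₂` lies in `W₂`
        obtain ⟨r, σ', hσ', hrσ'⟩ := (hε.zpow s).1
        have hvσ' : W₂.valuation (σ' : E) = 1 :=
          valuation_eq_one_of_notMem hBW₂ (mem_sheetIdeal_iff t W₂ hBW₂) (fun h => hσ' (hle₂ h))
        rw [← ValuationSubring.valuation_le_one_iff]
        have : W₂.valuation (ε ^ s) = W₂.valuation (r : E) := by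
          rw [← hrσ', map_mul, hvσ', mul_one]
        rw [this]
        exact (ValuationSubring.valuation_le_one_iff _ _).mpr (hBW₂ _ r.2)
      calc W₂.valuation (ε ^ s) * W₂.valuation ζ ≤ 1 * W₂.valuation ζ := mul_le_mul_left h3 _
        _ < 1 := by rw [one_mul]; exact hnode hle₂
    exact absurd h1 (not_le.mpr h2)
  calc V₂.valuation x' * V₂.valuation (σ : E') ≤ V₂.valuation x' * 1 := mul_le_mul_right hσ1 _
    _ < 1 := by rw [mul_one]; exact hx'lt

include K₁ in
/-- **the model chart of a Kummer cover.** -/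
theorem isModelChart_kummer (hπ : Irreducible π) (hu : Transcendental K₁ t)
    (hK : IntermediateField.adjoin K₁ {t} = ⊤) {Winf W0 : ValuationSubring E}
    (two : IsTwoSheet π t Winf W0) {Winf' W0' : ValuationSubring E'}
    (hexti : IsExt Winf Winf') (hextz : IsExt W0 W0') (two' : IsTwoSheet π t Winf' W0')
    {m : ℕ} (hm : 0 < m) (hdeg : Module.finrank E E' ≤ m) {f : E} {u : E'}
    (hu' : u ^ m = algebraMap E E' f)
    (hloc_inf : ∀ (𝔪 : Ideal ↥(chartOne R E t)) [𝔪.IsPrime], 𝔪.IsMaximal →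
      sheetIdeal t Winf two.chart_le_inf ≤ 𝔪 →
      IsEisensteinAt Winf W0 (locRing (chartOne R E t) 𝔪) (locMax (chartOne R E t) 𝔪)
        (algebraMap R E π) m f (sheetIdeal t W0 two.chart_le_zero ≤ 𝔪) ∨
      (¬ sheetIdeal t W0 two.chart_le_zero ≤ 𝔪 ∧
        IsEtaleAt Winf (locRing (chartOne R E t) 𝔪) (locMax (chartOne R E t) 𝔪)
          (algebraMap R E π) m f))
    (hloc_zero : ∀ (𝔪 : Ideal ↥(chartOne R E t)) [𝔪.IsPrime], 𝔪.IsMaximal →
      sheetIdeal t W0 two.chart_le_zero ≤ 𝔪 →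
      IsEisensteinAt W0 Winf (locRing (chartOne R E t) 𝔪) (locMax (chartOne R E t) 𝔪)
        (algebraMap R E π) m f (sheetIdeal t Winf two.chart_le_inf ≤ 𝔪) ∨
      (¬ sheetIdeal t Winf two.chart_le_inf ≤ 𝔪 ∧
        IsEtaleAt W0 (locRing (chartOne R E t) 𝔪) (locMax (chartOne R E t) 𝔪)
          (algebraMap R E π) m f))
    (hét_inf : ∀ (𝔪' : Ideal ↥(chartOne R E' t)) [𝔪'.IsPrime], 𝔪'.IsMaximal →
      sheetIdeal t Winf' two'.chart_le_inf ≤ 𝔪' →
      IsEtaleAt Winf (locRing (chartOne R E t) (𝔪'.comap (chartMap (R := R) (F := E) (L := E') t)))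
        (locMax (chartOne R E t) (𝔪'.comap (chartMap (R := R) (F := E) (L := E') t)))
        (algebraMap R E π) m f →
      ∃ z, IsBranchUniformizer (sheetIdeal t Winf' two'.chart_le_inf) 𝔪' z)
    (hét_zero : ∀ (𝔪' : Ideal ↥(chartOne R E' t)) [𝔪'.IsPrime], 𝔪'.IsMaximal →
      sheetIdeal t W0' two'.chart_le_zero ≤ 𝔪' →
      IsEtaleAt W0 (locRing (chartOne R E t) (𝔪'.comap (chartMap (R := R) (F := E) (L := E') t)))
        (locMax (chartOne R E t) (𝔪'.comap (chartMap (R := R) (F := E) (L := E') t)))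
        (algebraMap R E π) m f →
      ∃ z, IsBranchUniformizer (sheetIdeal t W0' two'.chart_le_zero) 𝔪' z)
    (hunit' : ∃ (v : E') (c : ℕ), 1 ≤ c ∧
      IsUnitAtPrime (sheetIdeal t Winf' two'.chart_le_inf) v ∧
      IsUnitAtPrime (sheetIdeal t W0' two'.chart_le_zero)
        (v * (algebraMap ↥(chartOne R E' t) E' (algebraMap R ↥(chartOne R E' t) π) ^ c)⁻¹) ∧
      ∀ 𝔮 : Ideal ↥(chartOne R E' t), 𝔮.IsPrime → algebraMap R ↥(chartOne R E' t) π ∉ 𝔮 →
        IsUnitAtPrime 𝔮 v) :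
    IsModelChart E' π (sheetIdeal t Winf' two'.chart_le_inf)
      (sheetIdeal t W0' two'.chart_le_zero) := by
  refine ⟨inferInstance, inferInstance, two'.pi_mem_inf (K₁ := K₁) hπ,
    two'.pi_mem_zero (K₁ := K₁) hπ, two'.inf_le_span hπ hu hK, ?_, ?_, ?_⟩
  · -- a smooth point of the sheet `∞` of the cover
    intro 𝔪' h𝔪' _ hinf' _
    haveI := h𝔪'.isPrime
    have h𝔪max : (𝔪'.comap (chartMap (R := R) (F := E) (L := E') t)).IsMaximal :=
      Ideal.isMaximal_comap_of_isIntegral_of_isMaximal' _ (chartMap_isIntegral t) 𝔪'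
    have hlei := sheetIdeal_le_comap hexti two.chart_le_inf two'.chart_le_inf 𝔪' hinf'
    rcases hloc_inf _ h𝔪max hlei with hE | ⟨-, hét⟩
    · obtain ⟨z, hz, -⟩ := exists_isBranchUniformizer_of_isEisensteinAt (K₁ := K₁) hπ hu hK hexti
        hextz two.gauss_inf two.chart_le_zero two'.chart_le_zero hm hdeg hu' 𝔪' h𝔪' hinf' hE
      exact ⟨z, hz⟩
    · exact hét_inf 𝔪' h𝔪' hinf' hét
  · -- a smooth point of the sheet `0` of the cover
    intro 𝔪' h𝔪' _ h0' _
    haveI := h𝔪'.isPrime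
    have h𝔪max : (𝔪'.comap (chartMap (R := R) (F := E) (L := E') t)).IsMaximal :=
      Ideal.isMaximal_comap_of_isIntegral_of_isMaximal' _ (chartMap_isIntegral t) 𝔪'
    have hlez := sheetIdeal_le_comap hextz two.chart_le_zero two'.chart_le_zero 𝔪' h0'
    rcases hloc_zero _ h𝔪max hlez with hE | ⟨-, hét⟩
    · obtain ⟨z, hz, -⟩ := exists_isBranchUniformizer_of_isEisensteinAt (K₁ := K₁) hπ hu hK hextz
        hexti two.gauss_zero two.chart_le_inf two'.chart_le_inf hm hdeg hu' 𝔪' h𝔪' h0' hE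
      exact ⟨z, hz⟩
    · exact hét_zero 𝔪' h𝔪' h0' hét
  · -- a node of the cover
    intro 𝔪' h𝔪' hinf' h0'
    haveI := h𝔪'.isPrime
    have h𝔪max : (𝔪'.comap (chartMap (R := R) (F := E) (L := E') t)).IsMaximal :=
      Ideal.isMaximal_comap_of_isIntegral_of_isMaximal' _ (chartMap_isIntegral t) 𝔪'
    have hlei := sheetIdeal_le_comap hexti two.chart_le_inf two'.chart_le_inf 𝔪' hinf'
    have hlez := sheetIdeal_le_comap hextz two.chart_le_zero two'.chart_le_zero 𝔪' h0'
    have hEi : IsEisensteinAt Winf W0 _ _ (algebraMap R E π) m f _ :=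
      (hloc_inf _ h𝔪max hlei).resolve_right (fun h => h.1 hlez)
    have hEz : IsEisensteinAt W0 Winf _ _ (algebraMap R E π) m f _ :=
      (hloc_zero _ h𝔪max hlez).resolve_right (fun h => h.1 hlei)
    obtain ⟨x, hx, hx0⟩ := exists_isBranchUniformizer_of_isEisensteinAt (K₁ := K₁) hπ hu hK hexti
      hextz two.gauss_inf two.chart_le_zero two'.chart_le_zero hm hdeg hu' 𝔪' h𝔪' hinf' hEi
    obtain ⟨y, hy, hyinf⟩ := exists_isBranchUniformizer_of_isEisensteinAt (K₁ := K₁) hπ hu hK hextz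
      hexti two.gauss_zero two.chart_le_inf two'.chart_le_inf hm hdeg hu' 𝔪' h𝔪' h0' hEz
    obtain ⟨v, c, hc, hv1, hv2, hv3⟩ := hunit'
    exact ⟨x, y, hx, hx0 hlez, hy, hyinf hlei, v, c, hc, hv1, hv2,
      fun 𝔮 h𝔮 _ hπ𝔮 _ => hv3 𝔮 h𝔮 hπ𝔮⟩

end Chart

end Fermat.Agent.RB
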