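/-
RB [BB3] = (KEY-H), package D [SHAPE+BCH] — helper5 — part 4: **node data in the local currency.**

At a node `𝔪` of a two-sheeted chart `B = chartOne R E t` (sheets `Winf`, `W0`), `L = locRing B 𝔪`,
`M = locMax B 𝔪`:

* `IsNodeDatum Winf W0 L M ϖ X Y r c` : `X` is a local branch uniformizer of the sheet `Winf`
  vanishing on `W0`, `Y` a local branch uniformizer of `W0` vanishing on `Winf`, `X Y = ϖ ^ c r`,
  `r` a unit of `L`, `1 ≤ c` (the node in normal form, thickness `c`);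
* `isNodeDatum_of_isNodeCoord` : helper6's `IsNodeCoord` (currency `Localization.AtPrime 𝔪`) gives an
  `IsNodeDatum`;
* `IsNodeShape Winf W0 L M ϖ m f` : `f = ϖ ^ n · ε · X ^ k · G ^ m` with `k` prime to `m`;
* `isNodeShape_of_isNodeFact` : helper9's `IsNodeFact` (`f = c₀ X ^ k v G ^ m`) together with the
  orders `ainf`, `a0` of `f` along the two sheets, `a0 - ainf` prime to `m`, gives `IsNodeShape`.
-/
import Mathlib
import Fermat.Agent.RB.KEYH_helper5_Order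
import Fermat.Agent.RB.KUMEXT_helper5_Chart
import Fermat.Agent.MP.PLHOST_helper9_Defs
import Fermat.Agent.MP.PLHOST_helper6_Loc

set_option autoImplicit false
set_option linter.unusedSectionVars false
set_option linter.unusedVariables false
set_option linter.style.haveILetI false

namespace Fermat.Agent.RB

open Fermat.Agent.SS Fermat.Agent.JA Fermat.Agent.NP Fermat.Agent.MP Fermat.Agent.MW.NAdic
  IsLocalRing

section Defs

variable {R : Type*} [CommRing R] {E : Type*} [Field E] [Algebra R E]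

/-- **a node in normal form, local currency.** -/
structure IsNodeDatum (Winf W0 : ValuationSubring E) (L : Subalgebra R E) (M : Set E)
    (ϖ X Y r : E) (c : ℕ) : Prop where
  brX : IsLocBranch Winf L M X
  X_zero : W0.valuation X < 1
  brY : IsLocBranch W0 L M Y
  Y_inf : Winf.valuation Y < 1
  unit : IsLUnit L r
  mul : X * Y = ϖ ^ c * r
  pos : 1 ≤ c

/-- **the shape of the Kummer generator at a node** (over a base where the node is not yet
resolved): `f = ϖ ^ n · ε · X ^ k · G ^ m`, `k` prime to `m`. -/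
def IsNodeShape (Winf W0 : ValuationSubring E) (L : Subalgebra R E) (M : Set E) (ϖ : E) (m : ℕ)
    (f : E) : Prop :=
  ∃ (X Y r : E) (c : ℕ) (k n : ℤ) (ε G : E), IsNodeDatum Winf W0 L M ϖ X Y r c ∧
    IsCoprime k (m : ℤ) ∧ IsLUnit L ε ∧ G ≠ 0 ∧ f = ϖ ^ n * ε * X ^ k * G ^ m

end Defs

section Loc

attribute [local instance] locAlgebra

variable {R : Type*} [CommRing R] {E : Type*} [Field E] [Algebra R E]
  {B : Subalgebra R E} [IsFractionRing ↥B E] {𝔪 : Ideal ↥B} [h𝔪 : 𝔪.IsPrime]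

/-- an element of `𝔭 B_𝔪` is a non-unit of the sheet `W` of `𝔭`. -/
theorem val_loc_lt_one_of_mem_map {W : ValuationSubring E} (hBW : ∀ b ∈ B, b ∈ W)
    {𝔭 : Ideal ↥B} [h𝔭p : 𝔭.IsPrime] (h𝔭 : ∀ b : ↥B, b ∈ 𝔭 ↔ W.valuation (b : E) < 1)
    (hle : 𝔭 ≤ 𝔪) {z : Localization.AtPrime 𝔪}
    (hz : z ∈ 𝔭.map (algebraMap ↥B (Localization.AtPrime 𝔪))) :
    W.valuation (algebraMap (Localization.AtPrime 𝔪) E z) < 1 := by
  obtain ⟨a, s, rfl⟩ := IsLocalization.exists_mk'_eq 𝔪.primeCompl z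
  rw [mk'_mem_map_loc_iff hle] at hz
  rw [algebraMap_loc_mk', map_mul, map_inv₀]
  have hvs : W.valuation ((s : ↥B) : E) = 1 :=
    valuation_eq_one_of_notMem hBW h𝔭 (fun h => s.2 (hle h))
  rw [hvs, inv_one, mul_one]
  exact (h𝔭 a).mp hz

/-- an element of `B_𝔪` outside `𝔭 B_𝔪` is a unit of the sheet `W` of `𝔭`. -/
theorem val_loc_eq_one_of_notMem_map {W : ValuationSubring E} (hBW : ∀ b ∈ B, b ∈ W)
    {𝔭 : Ideal ↥B} [h𝔭p : 𝔭.IsPrime] (h𝔭 : ∀ b : ↥B, b ∈ 𝔭 ↔ W.valuation (b : E) < 1)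
    (hle : 𝔭 ≤ 𝔪) {z : Localization.AtPrime 𝔪}
    (hz : z ∉ 𝔭.map (algebraMap ↥B (Localization.AtPrime 𝔪))) :
    W.valuation (algebraMap (Localization.AtPrime 𝔪) E z) = 1 := by
  obtain ⟨a, s, rfl⟩ := IsLocalization.exists_mk'_eq 𝔪.primeCompl z
  rw [mk'_mem_map_loc_iff hle] at hz
  rw [algebraMap_loc_mk', map_mul, map_inv₀]
  have hvs : W.valuation ((s : ↥B) : E) = 1 :=
    valuation_eq_one_of_notMem hBW h𝔭 (fun h => s.2 (hle h))
  rw [hvs, inv_one, mul_one]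
  exact valuation_eq_one_of_notMem hBW h𝔭 hz

/-- the image of the maximal ideal of `B_𝔪` is `locMax B 𝔪`. -/
theorem algebraMap_loc_mem_locMax {z : Localization.AtPrime 𝔪}
    (hz : z ∈ maximalIdeal (Localization.AtPrime 𝔪)) :
    algebraMap (Localization.AtPrime 𝔪) E z ∈ locMax B 𝔪 := by
  obtain ⟨a, s, rfl⟩ := IsLocalization.exists_mk'_eq 𝔪.primeCompl z
  have ha : a ∈ 𝔪 :=
    (IsLocalization.AtPrime.mk'_mem_maximal_iff (Localization.AtPrime 𝔪) 𝔪 a s).mp hz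
  rw [algebraMap_loc_mk']
  refine ⟨a, s.1, ha, s.2, ?_⟩
  rw [mul_assoc, inv_mul_cancel₀ (coe_ne_zero_of_notMem s.2), mul_one]

/-- every element of `locMax B 𝔪` is the image of an element of the maximal ideal of `B_𝔪`. -/
theorem exists_loc_eq_of_mem_locMax {e : E} (he : e ∈ locMax B 𝔪) :
    ∃ z ∈ maximalIdeal (Localization.AtPrime 𝔪), algebraMap (Localization.AtPrime 𝔪) E z = e := by
  obtain ⟨a, s, ha, hs, has⟩ := he
  refine ⟨IsLocalization.mk' (Localization.AtPrime 𝔪) a (⟨s, hs⟩ : 𝔪.primeCompl), ?_, ?_⟩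
  · exact (IsLocalization.AtPrime.mk'_mem_maximal_iff (Localization.AtPrime 𝔪) 𝔪 a _).mpr ha
  · rw [algebraMap_loc_mk']
    show (a : E) * ((s : ↥B) : E)⁻¹ = e
    rw [← has, mul_assoc, mul_inv_cancel₀ (coe_ne_zero_of_notMem hs), mul_one]

/-- a unit of `B_𝔪` is a unit of the local ring (local currency). -/
theorem isLUnit_loc_of_isUnit {z : Localization.AtPrime 𝔪} (hz : IsUnit z) :
    IsLUnit (locRing B 𝔪) (algebraMap (Localization.AtPrime 𝔪) E z) := by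
  obtain ⟨h1, h2, h3⟩ := isUnitIn_loc_of_isUnit (B := B) (𝔪 := 𝔪) hz
  exact ⟨h1, h2, h3⟩

/-- **a node pair of `B_𝔪` gives the two local branch uniformizers.** -/
theorem isLocBranch_of_isNodePair {Winf W0 : ValuationSubring E}
    (hBinf : ∀ b ∈ B, b ∈ Winf) (hB0 : ∀ b ∈ B, b ∈ W0)
    {𝔭inf 𝔭0 : Ideal ↥B} [h𝔭infp : 𝔭inf.IsPrime] [h𝔭0p : 𝔭0.IsPrime]
    (h𝔭inf : ∀ b : ↥B, b ∈ 𝔭inf ↔ Winf.valuation (b : E) < 1)
    (h𝔭0 : ∀ b : ↥B, b ∈ 𝔭0 ↔ W0.valuation (b : E) < 1)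
    (hleinf : 𝔭inf ≤ 𝔪) (hle0 : 𝔭0 ≤ 𝔪) {x y : Localization.AtPrime 𝔪}
    (hnode : IsNodePair (𝔭0.map (algebraMap ↥B (Localization.AtPrime 𝔪)))
      (𝔭inf.map (algebraMap ↥B (Localization.AtPrime 𝔪))) x y) :
    IsLocBranch Winf (locRing B 𝔪) (locMax B 𝔪) (algebraMap (Localization.AtPrime 𝔪) E x) ∧
      W0.valuation (algebraMap (Localization.AtPrime 𝔪) E x) < 1 ∧
      IsLocBranch W0 (locRing B 𝔪) (locMax B 𝔪) (algebraMap (Localization.AtPrime 𝔪) E y) ∧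
      Winf.valuation (algebraMap (Localization.AtPrime 𝔪) E y) < 1 := by
  have hmax : ∀ {𝔭 : Ideal ↥B} [𝔭.IsPrime], 𝔭 ≤ 𝔪 →
      𝔭.map (algebraMap ↥B (Localization.AtPrime 𝔪)) ≤ maximalIdeal (Localization.AtPrime 𝔪) := by
    intro 𝔭 _ hle
    rw [Ideal.map_le_iff_le_comap]
    intro b hb
    rw [Ideal.mem_comap]
    have := (IsLocalization.AtPrime.mk'_mem_maximal_iff (Localization.AtPrime 𝔪) 𝔪 b 1).mpr (hle hb)
    rwa [IsLocalization.mk'_one] at this
  refine ⟨⟨algebraMap_loc_mem_locMax (hmax hle0 hnode.x_mem), ?_, ?_⟩,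
    val_loc_lt_one_of_mem_map hB0 h𝔭0 hle0 hnode.x_mem,
    ⟨algebraMap_loc_mem_locMax (hmax hleinf hnode.y_mem), ?_, ?_⟩,
    val_loc_lt_one_of_mem_map hBinf h𝔭inf hleinf hnode.y_mem⟩
  · rw [val_loc_eq_one_of_notMem_map hBinf h𝔭inf hleinf hnode.x_notMem]
    exact lt_irrefl _
  · intro w hw
    obtain ⟨z, hz, rfl⟩ := exists_loc_eq_of_mem_locMax hw
    obtain ⟨a, ha⟩ := hnode.x_gen z hz
    refine ⟨algebraMap (Localization.AtPrime 𝔪) E a, algebraMap_localization_mem_locRing B 𝔪 a, ?_⟩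
    rw [← map_mul, ← map_sub]
    exact val_loc_lt_one_of_mem_map hBinf h𝔭inf hleinf ha
  · rw [val_loc_eq_one_of_notMem_map hB0 h𝔭0 hle0 hnode.y_notMem]
    exact lt_irrefl _
  · intro w hw
    obtain ⟨z, hz, rfl⟩ := exists_loc_eq_of_mem_locMax hw
    obtain ⟨a, ha⟩ := hnode.y_gen z hz
    refine ⟨algebraMap (Localization.AtPrime 𝔪) E a, algebraMap_localization_mem_locRing B 𝔪 a, ?_⟩
    rw [← map_mul, ← map_sub]
    exact val_loc_lt_one_of_mem_map hB0 h𝔭0 hle0 ha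

end Loc

section Unit

variable {R : Type*} [CommRing R] {E : Type*} [Field E] [Algebra R E]

/-- a unit of a local ring contained in the valuation subring `W` is a unit of `W`. -/
theorem IsLUnit.val_eq_one {L : Subalgebra R E} {W : ValuationSubring E}
    (hLW : ∀ e ∈ L, e ∈ W) {υ : E} (h : IsLUnit L υ) : W.valuation υ = 1 := by
  have h1 : W.valuation υ ≤ 1 := (ValuationSubring.valuation_le_one_iff _ _).mpr (hLW _ h.1)
  have h2 : W.valuation υ⁻¹ ≤ 1 := (ValuationSubring.valuation_le_one_iff _ _).mpr (hLW _ h.2.1)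
  rw [map_inv₀, inv_le_one₀ (zero_lt_iff.mpr ((Valuation.ne_zero_iff _).mpr h.2.2))] at h2
  exact le_antisymm h1 h2

/-- the image of a unit of the base is a unit of every subalgebra. -/
theorem isLUnit_algebraMap_unit (L : Subalgebra R E) (u : Rˣ) (h0 : algebraMap R E (u : R) ≠ 0) :
    IsLUnit L (algebraMap R E (u : R)) := by
  refine ⟨L.algebraMap_mem _, ?_, h0⟩
  have : (algebraMap R E (u : R))⁻¹ = algebraMap R E ((u⁻¹ : Rˣ) : R) := by
    apply inv_eq_of_mul_eq_one_right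
    rw [← map_mul, Units.mul_inv, map_one]
  rw [this]
  exact L.algebraMap_mem _

end Unit

section Chart

attribute [local instance] locAlgebra

variable {R : Type*} [CommRing R] [IsDomain R] [IsDiscreteValuationRing R] [CharZero R]
  {K : Type*} [Field K] [Algebra R K]
  {E : Type*} [Field E] [Algebra K E] [Algebra R E] [IsScalarTower R K E] [FiniteDimensional K E]
  {π : R} {t : K}

/-- **helper6's node coordinates in the local currency.** -/
theorem isNodeDatum_of_isNodeCoord {Winf W0 : ValuationSubring E}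
    (hBinf : ∀ b ∈ chartOne R E t, b ∈ Winf) (hB0 : ∀ b ∈ chartOne R E t, b ∈ W0)
    (hfr : IsFractionRing ↥(chartOne R E t) E)
    (𝔪 : Ideal ↥(chartOne R E t)) [h𝔪 : 𝔪.IsPrime]
    (hleinf : sheetIdeal t Winf hBinf ≤ 𝔪) (hle0 : sheetIdeal t W0 hB0 ≤ 𝔪)
    {X : E} {c : ℕ}
    (hX : IsNodeCoord π hfr (sheetIdeal t Winf hBinf) (sheetIdeal t W0 hB0) 𝔪 X c) :
    ∃ Y r : E, IsNodeDatum Winf W0 (locRing (chartOne R E t) 𝔪) (locMax (chartOne R E t) 𝔪)
      (algebraMap R E π) X Y r c := by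
  haveI := hfr
  haveI := locAlgebra_isScalarTower_base (R₁ := R) (E := E) 𝔪
  obtain ⟨x, y, r, hnode, hxy, hr, hc, rfl⟩ := hX
  obtain ⟨h1, h2, h3, h4⟩ := isLocBranch_of_isNodePair (B := chartOne R E t) (𝔪 := 𝔪) hBinf hB0
    (mem_sheetIdeal_iff t Winf hBinf) (mem_sheetIdeal_iff t W0 hB0) hleinf hle0 hnode
  refine ⟨algebraMap (Localization.AtPrime 𝔪) E y, algebraMap (Localization.AtPrime 𝔪) E r,
    h1, h2, h3, h4, isLUnit_loc_of_isUnit hr, ?_, hc⟩
  rw [← map_mul, hxy, map_mul, map_pow, ← IsScalarTower.algebraMap_apply R]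

end Chart

section Shape

variable {R : Type*} [CommRing R] [IsDomain R] [IsDiscreteValuationRing R] [CharZero R]
  {K₁ : Type*} [Field K₁] [Algebra R K₁] [IsFractionRing R K₁]
  {K : Type*} [Field K] [Algebra K₁ K] [Algebra R K] [IsScalarTower R K₁ K]
  {E : Type*} [Field E] [Algebra K E] [Algebra K₁ E] [IsScalarTower K₁ K E] [Algebra R E]
  [IsScalarTower R K E] [FiniteDimensional K E]
  {π : R} {t : K}

/-- **the shape of the Kummer generator at a node**: helper9's node factorisation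
`f = c₀ X ^ k v G ^ m` and the orders `ainf`, `a0` of `f` along the two sheets, with `a0 - ainf`
prime to `m`, give `k` prime to `m`. -/
theorem isNodeShape_of_isNodeFact (hπ : Irreducible π) (hu : Transcendental K₁ t)
    (hK : IntermediateField.adjoin K₁ {t} = ⊤) {Winf W0 : ValuationSubring E}
    (two : IsTwoSheet π t Winf W0)
    (𝔪 : Ideal ↥(chartOne R E t)) [h𝔪 : 𝔪.IsPrime]
    (hleinf : sheetIdeal t Winf two.chart_le_inf ≤ 𝔪)
    (hle0 : sheetIdeal t W0 two.chart_le_zero ≤ 𝔪)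
    {X Y r : E} {c : ℕ}
    (hN : IsNodeDatum Winf W0 (locRing (chartOne R E t) 𝔪) (locMax (chartOne R E t) 𝔪)
      (algebraMap R E π) X Y r c)
    {m : ℕ} {f : E} {k : ℤ}
    (hfact : IsNodeFact K₁ (locSub (chartOne R E t) 𝔪) m X f k)
    {ainf a0 : ℤ} (hinf : Winf.valuation (f * (algebraMap R E π ^ ainf)⁻¹) = 1)
    (h0 : W0.valuation (f * (algebraMap R E π ^ a0)⁻¹) = 1)
    (hcop : IsCoprime (a0 - ainf) (m : ℤ)) :
    IsNodeShape Winf W0 (locRing (chartOne R E t) 𝔪) (locMax (chartOne R E t) 𝔪)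
      (algebraMap R E π) m f := by
  obtain ⟨c₀, v, G, hc₀, hG, hv, hf⟩ := hfact
  obtain ⟨n₀, u₀, hu₀⟩ := exists_zpow_mul_unit_base K₁ hπ hc₀
  set ϖ : E := algebraMap R E π with hϖ
  set L := locRing (chartOne R E t) 𝔪 with hL
  obtain ⟨hϖ0, hϖinf⟩ := val_pi_lt_one (K₁ := K₁) hπ two.gauss_inf
  obtain ⟨-, hϖzero⟩ := val_pi_lt_one (K₁ := K₁) hπ two.gauss_zero
  have hRE : ∀ x : R, algebraMap K₁ E (algebraMap R K₁ x) = algebraMap R E x := by
    intro x
    rw [IsScalarTower.algebraMap_apply K₁ K E, ← IsScalarTower.algebraMap_apply R K₁ K,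
      ← IsScalarTower.algebraMap_apply R K E]
  have hc₀E : algebraMap K₁ E c₀ = ϖ ^ n₀ * algebraMap R E (u₀ : R) := by
    rw [hu₀, map_mul, map_zpow₀, hRE, hRE]
  have hu₀0 : algebraMap R E (u₀ : R) ≠ 0 := by
    intro h
    have : algebraMap K₁ E c₀ = 0 := by rw [hc₀E, h, mul_zero]
    exact hc₀ ((map_eq_zero _).mp this)
  have hu₀L : IsLUnit L (algebraMap R E (u₀ : R)) := isLUnit_algebraMap_unit L u₀ hu₀0
  have hvL : IsLUnit L v := ⟨hv.1, hv.2.1, hv.2.2⟩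
  have hεL : IsLUnit L (algebraMap R E (u₀ : R) * v) := hu₀L.mul hvL
  have hfε : f = ϖ ^ n₀ * (algebraMap R E (u₀ : R) * v) * X ^ k * G ^ m := by
    rw [hf, hc₀E]; ring
  refine ⟨X, Y, r, c, k, n₀, _, G, hN, ?_, hεL, hG, hfε⟩
  -- the orders along the two sheets
  have hLinf : ∀ e ∈ L, e ∈ Winf := fun e he => locRing_le_sheet two.chart_le_inf 𝔪 hleinf he
  have hLzero : ∀ e ∈ L, e ∈ W0 := fun e he => locRing_le_sheet two.chart_le_zero 𝔪 hle0 he
  obtain ⟨ginf, hginf⟩ := exists_zpow_val_eq_one (K₁ := K₁) hπ hu hK two.gauss_inf two.e_inf hG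
  obtain ⟨g0, hg0⟩ := exists_zpow_val_eq_one (K₁ := K₁) hπ hu hK two.gauss_zero two.e_zero hG
  have hXinf : Winf.valuation X = 1 := by
    refine le_antisymm ?_ (not_lt.mp hN.brX.val)
    exact (ValuationSubring.valuation_le_one_iff _ _).mpr
      (hLinf _ (locMax_subset_locRing hN.brX.mem))
  have hY0 : W0.valuation Y = 1 := by
    refine le_antisymm ?_ (not_lt.mp hN.brY.val)
    exact (ValuationSubring.valuation_le_one_iff _ _).mpr
      (hLzero _ (locMax_subset_locRing hN.brY.mem))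
  have hY00 : Y ≠ 0 := fun h => by rw [h, map_zero] at hY0; exact zero_ne_one hY0
  have hX0 : X ≠ 0 := fun h => by rw [h, map_zero] at hXinf; exact zero_ne_one hXinf
  -- `ainf = n₀ + m ginf`
  have e1 : ainf = n₀ + (m : ℤ) * ginf := by
    refine val_zpow_unique hϖ0 hϖinf hinf ?_
    have : f * (ϖ ^ (n₀ + (m : ℤ) * ginf))⁻¹ =
        (algebraMap R E (u₀ : R) * v) * X ^ k * (G * (ϖ ^ ginf)⁻¹) ^ m := by
      rw [hfε, zpow_add₀ hϖ0, zpow_mul, zpow_natCast, mul_pow, inv_pow, ← zpow_natCast (ϖ ^ ginf) m,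
        ← zpow_mul, mul_comm ginf (m : ℤ), zpow_mul, zpow_natCast]
      have h1 : ϖ ^ n₀ ≠ 0 := zpow_ne_zero _ hϖ0
      have h2 : (ϖ ^ m) ^ ginf ≠ 0 := zpow_ne_zero _ (pow_ne_zero _ hϖ0)
      field_simp
      ring
    rw [this, map_mul, map_mul, map_zpow₀, map_pow, hginf, hXinf, hεL.val_eq_one hLinf, one_zpow,
      one_pow, mul_one, mul_one]
  -- `a0 = n₀ + k c + m g0`
  have hXc : W0.valuation (X * (ϖ ^ c)⁻¹) = 1 := by
    have : X * (ϖ ^ c)⁻¹ = r * Y⁻¹ := by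
      have h1 : ϖ ^ c ≠ 0 := pow_ne_zero _ hϖ0
      have := hN.mul
      field_simp
      rw [this]
    rw [this, map_mul, map_inv₀, hY0, inv_one, mul_one, hN.unit.val_eq_one hLzero]
  have e2 : a0 = n₀ + k * (c : ℤ) + (m : ℤ) * g0 := by
    refine val_zpow_unique hϖ0 hϖzero h0 ?_
    have : f * (ϖ ^ (n₀ + k * (c : ℤ) + (m : ℤ) * g0))⁻¹ =
        (algebraMap R E (u₀ : R) * v) * (X * (ϖ ^ c)⁻¹) ^ k * (G * (ϖ ^ g0)⁻¹) ^ m := by
      rw [hfε, zpow_add₀ hϖ0, zpow_add₀ hϖ0, mul_zpow, inv_zpow, ← zpow_natCast ϖ c, ← zpow_mul,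
        mul_comm (c : ℤ) k, mul_pow, inv_pow, ← zpow_natCast (ϖ ^ g0) m,
        ← zpow_mul, mul_comm g0 (m : ℤ)]
      have h1 : ϖ ^ n₀ ≠ 0 := zpow_ne_zero _ hϖ0
      have h2 : ϖ ^ (k * (c : ℤ)) ≠ 0 := zpow_ne_zero _ hϖ0
      have h3 : ϖ ^ ((m : ℤ) * g0) ≠ 0 := zpow_ne_zero _ hϖ0
      field_simp
      ring
    rw [this, map_mul, map_mul, map_zpow₀, map_pow, hg0, hXc, hεL.val_eq_one hLzero, one_zpow,
      one_pow, mul_one, mul_one]
  have e3 : a0 - ainf = k * (c : ℤ) + (m : ℤ) * (g0 - ginf) := by rw [e1, e2]; ring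
  rw [e3] at hcop
  have h4 : IsCoprime (k * (c : ℤ)) (m : ℤ) := by
    have := hcop
    rw [mul_comm (m : ℤ) (g0 - ginf)] at this
    exact IsCoprime.of_add_mul_right_left this
  exact IsCoprime.of_mul_left_left h4

end Shape

end Fermat.Agent.RB
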