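/-
RB [BB3] = (KEY-H), package D [SHAPE+BCH] — helper5 — part 5: **base change of the node shape.**

Small base `R` (uniformizer `ϖ`), big base `R₂` (uniformizer `ϖ₂`, `ϖ = ϖ₂ ^ e ε₀`, `m ∣ e`);
`ι : E → E₂` the map of the function fields, `(L, M)` the local ring of a node of the small chart,
`(L₂, M₂)` the local ring of the node of the big chart above it, the branch uniformizers of the small
chart stay branch uniformizers (`IsLocBranch.of_residue_eq`).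

* `isEisensteinAt_of_isNodeShape` : `IsNodeShape` over the small base gives the Eisenstein shape of
  `ι f` along BOTH sheets over the big base;
* `map_mem_chartOne` : the map of the charts;
* `isLocBranch_baseChange` : `IsLocBranch.of_residue_eq` in the chart setting.
-/
import Mathlib
import Fermat.Agent.RB.KEYH_helper5_NodeData
import Fermat.Agent.RB.KEYH_helper5_BaseChange

set_option autoImplicit false
set_option linter.unusedSectionVars false
set_option linter.unusedVariables false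
set_option linter.style.haveILetI false

namespace Fermat.Agent.RB

open Fermat.Agent.SS Fermat.Agent.JA IsLocalRing

section Abs

variable {R R₂ : Type*} [CommRing R] [CommRing R₂]
  {E E₂ : Type*} [Field E] [Field E₂] [Algebra R E] [Algebra R₂ E₂] (ι : E →+* E₂)

/-- **the Eisenstein shape along both sheets over the big base.** -/
theorem isEisensteinAt_of_isNodeShape {Winf W0 : ValuationSubring E}
    {Vinf V0 : ValuationSubring E₂} {L : Subalgebra R E} {M : Set E} {L₂ : Subalgebra R₂ E₂}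
    {M₂ : Set E₂} (hL : ∀ x ∈ L, ι x ∈ L₂)
    (hbrinf : ∀ ζ, IsLocBranch Winf L M ζ → IsLocBranch Vinf L₂ M₂ (ι ζ))
    (hbr0 : ∀ ζ, IsLocBranch W0 L M ζ → IsLocBranch V0 L₂ M₂ (ι ζ))
    (hvinf : ∀ x, Winf.valuation x < 1 → Vinf.valuation (ι x) < 1)
    (hv0 : ∀ x, W0.valuation x < 1 → V0.valuation (ι x) < 1)
    {ϖ : E} {ϖ₂ ε₀ : E₂} {e : ℕ} (hϖ₂ : ϖ₂ ≠ 0) (hε₀ : IsLUnit L₂ ε₀) (hϖ : ι ϖ = ϖ₂ ^ e * ε₀)
    {m : ℕ} (hme : m ∣ e) {f : E} (hf : IsNodeShape Winf W0 L M ϖ m f) (node₁ node₂ : Prop) :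
    IsEisensteinAt Vinf V0 L₂ M₂ ϖ₂ m (ι f) node₁ ∧
      IsEisensteinAt V0 Vinf L₂ M₂ ϖ₂ m (ι f) node₂ := by
  obtain ⟨X, Y, r, c, k, n, ε, G, hN, hk, hε, hG, hf⟩ := hf
  obtain ⟨e', rfl⟩ := hme
  have hιG : ι G ≠ 0 := (_root_.map_ne_zero ι).mpr hG
  have hε₂ := IsLUnit.map_of_le ι hL hε
  have hr₂ := IsLUnit.map_of_le ι hL hN.unit
  have hY0 : Y ≠ 0 := by
    intro h
    apply hN.brY.val
    rw [h, map_zero]
    exact zero_lt_one
  have hιY : ι Y ≠ 0 := (_root_.map_ne_zero ι).mpr hY0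
  have hιf : ι f = (ϖ₂ ^ (m * e') * ε₀) ^ n * ι ε * ι X ^ k * ι G ^ m := by
    rw [hf, map_mul, map_mul, map_mul, map_zpow₀, map_zpow₀, map_pow, hϖ]
  have hpow : ∀ j : ℤ, (ϖ₂ ^ (m * e') * ε₀) ^ j = ϖ₂ ^ ((m : ℤ) * (e' * j)) * ε₀ ^ j := by
    intro j
    rw [mul_zpow, ← zpow_natCast ϖ₂ (m * e'), ← zpow_mul]
    push_cast
    rw [mul_assoc]
  constructor
  · refine ⟨k, ι X, ε₀ ^ n * ι ε, ι G, e' * n, hk, hbrinf X hN.brX, (hε₀.zpow n).mul hε₂, hιG, ?_,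
      fun _ => hv0 X hN.X_zero⟩
    rw [hιf, hpow]
    ring
  · -- `X = ϖ ^ c r Y⁻¹`
    have hX : ι X = (ϖ₂ ^ (m * e') * ε₀) ^ (c : ℤ) * ι r * (ι Y)⁻¹ := by
      have h1 : ι X * ι Y = (ϖ₂ ^ (m * e') * ε₀) ^ c * ι r := by
        rw [← map_mul, hN.mul, map_mul, map_pow, hϖ]
      rw [zpow_natCast, ← h1, mul_assoc, mul_inv_cancel₀ hιY, mul_one]
    refine ⟨-k, ι Y, ε₀ ^ n * ι ε * (ε₀ ^ (c : ℤ) * ι r) ^ k, ι G, e' * n + e' * c * k, hk.neg_left,
      hbr0 Y hN.brY, ((hε₀.zpow n).mul hε₂).mul (((hε₀.zpow _).mul hr₂).zpow k), hιG, ?_,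
      fun _ => hvinf Y hN.Y_inf⟩
    rw [hιf, hX, hpow, hpow, mul_zpow, mul_zpow, mul_zpow, mul_zpow, ← zpow_mul, inv_zpow, zpow_neg,
      mul_add, zpow_add₀ hϖ₂]
    have : (m : ℤ) * (e' * (c : ℤ)) * k = (m : ℤ) * ((e' : ℤ) * c * k) := by ring
    rw [this]
    ring

end Abs

section ChartBC

variable {R : Type*} [CommRing R] {K : Type*} [Field K] [Algebra R K]
  {E : Type*} [Field E] [Algebra K E] [Algebra R E] [IsScalarTower R K E]
  {R₂ : Type*} [CommRing R₂] {K₂ : Type*} [Field K₂] [Algebra R₂ K₂]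
  {E₂ : Type*} [Field E₂] [Algebra K₂ E₂] [Algebra R₂ E₂] [IsScalarTower R₂ K₂ E₂]
  {t : K} {t₂ : K₂} (φ : R →+* R₂) (κ : K →+* K₂) (ι : E →+* E₂)

/-- the base change maps `R[t]` into `R₂[t₂]`. -/
theorem map_mem_adjoin_of_baseChange
    (hκR : ∀ x : R, κ (algebraMap R K x) = algebraMap R₂ K₂ (φ x)) (hκt : κ t = t₂)
    {a : K} (ha : a ∈ Algebra.adjoin R {t}) : κ a ∈ Algebra.adjoin R₂ {t₂} := by
  induction ha using Algebra.adjoin_induction with
  | mem x hx =>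
    rw [Set.mem_singleton_iff] at hx
    subst hx
    rw [hκt]
    exact Algebra.self_mem_adjoin_singleton _ _
  | algebraMap r =>
    rw [hκR]
    exact Subalgebra.algebraMap_mem _ _
  | add x y _ _ hx hy =>
    rw [map_add]
    exact add_mem hx hy
  | mul x y _ _ hx hy =>
    rw [map_mul]
    exact mul_mem hx hy

/-- **the base change maps the chart `t` into the chart `t₂`.** -/
theorem map_mem_chartOne_of_baseChange
    (hκR : ∀ x : R, κ (algebraMap R K x) = algebraMap R₂ K₂ (φ x))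
    (hικ : ∀ x : K, ι (algebraMap K E x) = algebraMap K₂ E₂ (κ x)) (hκt : κ t = t₂)
    {b : E} (hb : b ∈ chartOne R E t) : ι b ∈ chartOne R₂ E₂ t₂ := by
  rw [mem_chartOne_iff] at hb ⊢
  let ψ : ↥(Algebra.adjoin R {t}) →+* ↥(Algebra.adjoin R₂ {t₂}) :=
    { toFun := fun a => ⟨κ (a : K), map_mem_adjoin_of_baseChange φ κ hκR hκt a.2⟩
      map_one' := Subtype.ext (map_one κ)
      map_mul' := fun a b => Subtype.ext (map_mul κ _ _)
      map_zero' := Subtype.ext (map_zero κ)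
      map_add' := fun a b => Subtype.ext (map_add κ _ _) }
  have hcomp : (algebraMap ↥(Algebra.adjoin R₂ {t₂}) E₂).comp ψ =
      ι.comp (algebraMap ↥(Algebra.adjoin R {t}) E) := by
    ext z
    exact (hικ (z : K)).symm
  exact IsIntegral.map_of_comp_eq ψ ι hcomp hb

/-- the base change of the charts. -/
def chartBaseMap (hκR : ∀ x : R, κ (algebraMap R K x) = algebraMap R₂ K₂ (φ x))
    (hικ : ∀ x : K, ι (algebraMap K E x) = algebraMap K₂ E₂ (κ x)) (hκt : κ t = t₂) :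
    ↥(chartOne R E t) →+* ↥(chartOne R₂ E₂ t₂) where
  toFun z := ⟨ι (z : E), map_mem_chartOne_of_baseChange φ κ ι hκR hικ hκt z.2⟩
  map_one' := Subtype.ext (map_one ι)
  map_mul' a b := Subtype.ext (map_mul ι _ _)
  map_zero' := Subtype.ext (map_zero ι)
  map_add' a b := Subtype.ext (map_add ι _ _)

@[simp] theorem coe_chartBaseMap (hκR : ∀ x : R, κ (algebraMap R K x) = algebraMap R₂ K₂ (φ x))
    (hικ : ∀ x : K, ι (algebraMap K E x) = algebraMap K₂ E₂ (κ x)) (hκt : κ t = t₂)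
    (z : ↥(chartOne R E t)) :
    ((chartBaseMap φ κ ι hκR hικ hκt z : ↥(chartOne R₂ E₂ t₂)) : E₂) = ι (z : E) := rfl

end ChartBC

section Branch

variable {R : Type*} [CommRing R] [IsDomain R] [IsDiscreteValuationRing R] [CharZero R]
  {K₁ : Type*} [Field K₁] [Algebra R K₁] [IsFractionRing R K₁]
  {K : Type*} [Field K] [Algebra K₁ K] [Algebra R K] [IsScalarTower R K₁ K]
  {E : Type*} [Field E] [Algebra K E] [Algebra R E] [IsScalarTower R K E] [FiniteDimensional K E]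
  {R₂ : Type*} [CommRing R₂] [IsDomain R₂] [IsDiscreteValuationRing R₂] [CharZero R₂]
  {K₂ : Type*} [Field K₂] [Algebra R₂ K₂]
  {E₂ : Type*} [Field E₂] [Algebra K₂ E₂] [Algebra R₂ E₂] [IsScalarTower R₂ K₂ E₂]
  [FiniteDimensional K₂ E₂]
  {π : R} {t : K} {t₂ : K₂} (φ : R →+* R₂) (κ : K →+* K₂) (ι : E →+* E₂)

/-- the local rings along the base change of the charts. -/
theorem map_mem_locRing_of_baseChange
    (hκR : ∀ x : R, κ (algebraMap R K x) = algebraMap R₂ K₂ (φ x))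
    (hικ : ∀ x : K, ι (algebraMap K E x) = algebraMap K₂ E₂ (κ x)) (hκt : κ t = t₂)
    (𝔪₂ : Ideal ↥(chartOne R₂ E₂ t₂)) [h𝔪₂ : 𝔪₂.IsPrime] {x : E}
    (hx : x ∈ locRing (chartOne R E t) (𝔪₂.comap (chartBaseMap φ κ ι hκR hικ hκt))) :
    ι x ∈ locRing (chartOne R₂ E₂ t₂) 𝔪₂ := by
  obtain ⟨r, s, hs, hrs⟩ := hx
  refine ⟨chartBaseMap φ κ ι hκR hικ hκt r, chartBaseMap φ κ ι hκR hικ hκt s,
    fun h => hs (Ideal.mem_comap.mpr h), ?_⟩
  rw [coe_chartBaseMap, coe_chartBaseMap, ← map_mul, hrs]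

theorem map_mem_locMax_of_baseChange
    (hκR : ∀ x : R, κ (algebraMap R K x) = algebraMap R₂ K₂ (φ x))
    (hικ : ∀ x : K, ι (algebraMap K E x) = algebraMap K₂ E₂ (κ x)) (hκt : κ t = t₂)
    (𝔪₂ : Ideal ↥(chartOne R₂ E₂ t₂)) [h𝔪₂ : 𝔪₂.IsPrime] {x : E}
    (hx : x ∈ locMax (chartOne R E t) (𝔪₂.comap (chartBaseMap φ κ ι hκR hικ hκt))) :
    ι x ∈ locMax (chartOne R₂ E₂ t₂) 𝔪₂ := by
  obtain ⟨r, s, hr, hs, hrs⟩ := hx
  refine ⟨chartBaseMap φ κ ι hκR hικ hκt r, chartBaseMap φ κ ι hκR hικ hκt s,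
    Ideal.mem_comap.mp hr, fun h => hs (Ideal.mem_comap.mpr h), ?_⟩
  rw [coe_chartBaseMap, coe_chartBaseMap, ← map_mul, hrs]

include K₁ in
/-- **a local branch uniformizer of the small chart stays one on the big chart** when the sheet
`V` of the big chart has the same residue field as the sheet `W = V ∩ E` of the small chart. -/
theorem isLocBranch_baseChange (hπ : Irreducible π) (hu : Transcendental K₁ t)
    (hK : IntermediateField.adjoin K₁ {t} = ⊤)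
    (hκR : ∀ x : R, κ (algebraMap R K x) = algebraMap R₂ K₂ (φ x))
    (hικ : ∀ x : K, ι (algebraMap K E x) = algebraMap K₂ E₂ (κ x)) (hκt : κ t = t₂)
    {W : ValuationSubring E} (hG : IsGaussAt R π t (W.comap (algebraMap K E)))
    {V : ValuationSubring E₂} (hBV : ∀ b ∈ chartOne R₂ E₂ t₂, b ∈ V)
    (hWV : ∀ x : E, ι x ∈ V ↔ x ∈ W)
    (hres : ∀ z ∈ V, ∃ a ∈ W, V.valuation (z - ι a) < 1)
    (𝔪₂ : Ideal ↥(chartOne R₂ E₂ t₂)) [h𝔪₂ : 𝔪₂.IsPrime]
    (hle₂ : sheetIdeal t₂ V hBV ≤ 𝔪₂)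
    (h𝔪 : (𝔪₂.comap (chartBaseMap φ κ ι hκR hικ hκt)).IsMaximal)
    (hle : sheetIdeal t W (chart_le_of_isGaussAt hG) ≤
      𝔪₂.comap (chartBaseMap φ κ ι hκR hικ hκt)) {ζ : E}
    (hζ : IsLocBranch W (locRing (chartOne R E t) (𝔪₂.comap (chartBaseMap φ κ ι hκR hικ hκt)))
      (locMax (chartOne R E t) (𝔪₂.comap (chartBaseMap φ κ ι hκR hικ hκt))) ζ) :
    IsLocBranch V (locRing (chartOne R₂ E₂ t₂) 𝔪₂) (locMax (chartOne R₂ E₂ t₂) 𝔪₂) (ι ζ) := by
  haveI := h𝔪.isPrime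
  refine IsLocBranch.of_residue_eq ι hWV hres
    (fun x hx => map_mem_locRing_of_baseChange φ κ ι hκR hικ hκt 𝔪₂ hx)
    (fun x hx => map_mem_locMax_of_baseChange φ κ ι hκR hικ hκt 𝔪₂ hx)
    (fun x hx => locRing_le_sheet hBV 𝔪₂ hle₂ hx)
    (fun x hx => locMax_subset_locRing hx)
    (fun a ha w hw => mul_mem_locMax ha hw) one_notMem_locMax
    (fun x hx y hy => sub_mem_locMax hx hy) ?_ hζ (locMax_subset_locRing hζ.mem)
    (fun w₀ hw₀ => exists_zpow_of_isLocBranch (K₁ := K₁) hπ hu hK hG _ h𝔪 hle hζ w₀ hw₀)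
  -- a non-unit of the sheet in the local ring lies in the maximal ideal
  rintro y ⟨r, s, hs, hrs⟩ hy
  refine ⟨r, s, ?_, hs, hrs⟩
  apply hle₂
  rw [mem_sheetIdeal_iff, ← hrs, map_mul]
  have hs1 : V.valuation (s : E₂) ≤ 1 := (ValuationSubring.valuation_le_one_iff _ _).mpr (hBV _ s.2)
  calc V.valuation y * V.valuation (s : E₂) ≤ V.valuation y * 1 := mul_le_mul_right hs1 _
    _ < 1 := by rw [mul_one]; exact hy

end Branch

end Fermat.Agent.RB
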