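/-
RB [BB3] = (KEY-H), package D [SHAPE+BCH] — helper5 — part 7: **the node shapes over the big base
from the node shapes over the small base, in the chart setting.**

Small chart `chartOne R E t` (sheets `Winf`, `W0`), big chart `chartOne R₂ E₂ t₂` (sheets `Vinf`,
`V0`), `φ : R → R₂`, `κ : K → K₂`, `ι : E → E₂` compatible, `φ π = π₂ ^ e ε₀`, `m ∣ e`, the sheets of
the big chart restrict to the sheets of the small chart with the same residue fields.

* `comap_chartBaseMap_isMaximal` : a closed point of the special fibre of the big chart lies over a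
  closed point of the small chart (residue fields of the bases agree);
* `hnode_of_baseChange` : `IsNodeShape` at all nodes of the small chart gives the hypothesis `hnode`
  of `isModelChart_kummer_of_nodes` for the big chart.
-/
import Mathlib
import Fermat.Agent.RB.KEYH_helper5_NodeBC
import Fermat.Agent.SS.VERT_helper4_Closed

set_option autoImplicit false
set_option linter.unusedSectionVars false
set_option linter.unusedVariables false
set_option linter.style.haveILetI false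

namespace Fermat.Agent.RB

open Fermat.Agent.SS Fermat.Agent.JA IsLocalRing

section Val

variable {E E₂ : Type*} [Field E] [Field E₂] (ι : E →+* E₂)

/-- valuations along a map of fields with `V ∩ E = W`. -/
theorem val_map_lt_one_iff_of_comap {W : ValuationSubring E} {V : ValuationSubring E₂}
    (hWV : ∀ x : E, ι x ∈ V ↔ x ∈ W) (x : E) : V.valuation (ι x) < 1 ↔ W.valuation x < 1 := by
  have hval_le : ∀ x : E, V.valuation (ι x) ≤ 1 ↔ W.valuation x ≤ 1 := fun x => by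
    rw [ValuationSubring.valuation_le_one_iff, ValuationSubring.valuation_le_one_iff, hWV]
  by_cases hx : x = 0
  · subst hx; simp
  have hιx : ι x ≠ 0 := (_root_.map_ne_zero ι).mpr hx
  rw [← not_le, ← not_le, not_iff_not]
  have h1 : (1 : _) ≤ V.valuation (ι x) ↔ V.valuation (ι x⁻¹) ≤ 1 := by
    rw [map_inv₀, map_inv₀, inv_le_one₀ (zero_lt_iff.mpr ((Valuation.ne_zero_iff _).mpr hιx))]
  have h2 : (1 : _) ≤ W.valuation x ↔ W.valuation x⁻¹ ≤ 1 := by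
    rw [map_inv₀, inv_le_one₀ (zero_lt_iff.mpr ((Valuation.ne_zero_iff _).mpr hx))]
  rw [h1, h2, hval_le]

end Val

section Max

variable {R : Type*} [CommRing R] [IsDomain R] [IsDiscreteValuationRing R]
  {K : Type*} [Field K] [Algebra R K]
  {E : Type*} [Field E] [Algebra K E] [Algebra R E] [IsScalarTower R K E]
  {R₂ : Type*} [CommRing R₂] {K₂ : Type*} [Field K₂] [Algebra R₂ K₂]
  {E₂ : Type*} [Field E₂] [Algebra K₂ E₂] [Algebra R₂ E₂] [IsScalarTower R₂ K₂ E₂]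
  {π : R} {t : K} {t₂ : K₂} (φ : R →+* R₂) (κ : K →+* K₂) (ι : E →+* E₂)

/-- the base change of the charts on constants. -/
theorem chartBaseMap_algebraMap
    (hκR : ∀ x : R, κ (algebraMap R K x) = algebraMap R₂ K₂ (φ x))
    (hικ : ∀ x : K, ι (algebraMap K E x) = algebraMap K₂ E₂ (κ x)) (hκt : κ t = t₂) (r : R) :
    chartBaseMap φ κ ι hκR hικ hκt (algebraMap R ↥(chartOne R E t) r) =
      algebraMap R₂ ↥(chartOne R₂ E₂ t₂) (φ r) := by
  apply Subtype.ext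
  rw [coe_chartBaseMap]
  show ι (algebraMap R E r) = algebraMap R₂ E₂ (φ r)
  rw [IsScalarTower.algebraMap_apply R K E, hικ, hκR, ← IsScalarTower.algebraMap_apply R₂ K₂ E₂]

/-- **a closed point of the big chart with residue field that of `R` lies over a closed point of
the small chart.** -/
theorem comap_chartBaseMap_isMaximal (hπ : Irreducible π)
    (hκR : ∀ x : R, κ (algebraMap R K x) = algebraMap R₂ K₂ (φ x))
    (hικ : ∀ x : K, ι (algebraMap K E x) = algebraMap K₂ E₂ (κ x)) (hκt : κ t = t₂)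
    (𝔪₂ : Ideal ↥(chartOne R₂ E₂ t₂)) [h𝔪₂ : 𝔪₂.IsPrime]
    (hπ𝔪₂ : algebraMap R₂ ↥(chartOne R₂ E₂ t₂) (φ π) ∈ 𝔪₂)
    (hres : ∀ b : ↥(chartOne R₂ E₂ t₂), ∃ r : R, b - algebraMap R₂ ↥(chartOne R₂ E₂ t₂) (φ r) ∈ 𝔪₂) :
    (𝔪₂.comap (chartBaseMap φ κ ι hκR hικ hκt)).IsMaximal := by
  set ψ := chartBaseMap φ κ ι hκR hικ hκt with hψ
  have hψR : ∀ r : R, ψ (algebraMap R ↥(chartOne R E t) r) =
      algebraMap R₂ ↥(chartOne R₂ E₂ t₂) (φ r) := chartBaseMap_algebraMap φ κ ι hκR hικ hκt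
  haveI : (𝔪₂.comap ψ).IsPrime := Ideal.comap_isPrime ψ 𝔪₂
  rw [Ideal.isMaximal_iff]
  refine ⟨fun h => (Ideal.IsPrime.ne_top inferInstance) ((Ideal.eq_top_iff_one _).mpr h), ?_⟩
  intro J x hJ hx hxJ
  obtain ⟨r, hr⟩ := hres (ψ x)
  have hxr : x - algebraMap R ↥(chartOne R E t) r ∈ 𝔪₂.comap ψ := by
    rw [Ideal.mem_comap, map_sub, hψR]
    exact hr
  -- `r` is a unit of `R`
  have hru : IsUnit r := by
    by_contra hnu
    have hrm : r ∈ maximalIdeal R := (mem_maximalIdeal r).mpr hnu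
    rw [hπ.maximalIdeal_eq, Ideal.mem_span_singleton] at hrm
    obtain ⟨c, rfl⟩ := hrm
    apply hx
    have h1 : algebraMap R ↥(chartOne R E t) (π * c) ∈ 𝔪₂.comap ψ := by
      rw [Ideal.mem_comap, hψR, map_mul, map_mul]
      exact Ideal.mul_mem_right _ _ hπ𝔪₂
    have : x = (x - algebraMap R ↥(chartOne R E t) (π * c)) +
        algebraMap R ↥(chartOne R E t) (π * c) := by ring
    rw [this]
    exact Ideal.add_mem _ hxr h1
  obtain ⟨u, rfl⟩ := hru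
  have h1 : (1 : ↥(chartOne R E t)) =
      algebraMap R ↥(chartOne R E t) ((u⁻¹ : Rˣ) : R) * x -
      algebraMap R ↥(chartOne R E t) ((u⁻¹ : Rˣ) : R) *
        (x - algebraMap R ↥(chartOne R E t) (u : R)) := by
    rw [mul_sub, sub_sub_cancel, ← map_mul, Units.inv_mul, map_one]
  rw [h1]
  exact J.sub_mem (J.mul_mem_left _ hxJ) (J.mul_mem_left _ (hJ hxr))

end Max

section Big

variable {R : Type*} [CommRing R] [IsDomain R] [IsDiscreteValuationRing R] [CharZero R]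
  {K₁ : Type*} [Field K₁] [Algebra R K₁] [IsFractionRing R K₁]
  {K : Type*} [Field K] [Algebra K₁ K] [Algebra R K] [IsScalarTower R K₁ K]
  {E : Type*} [Field E] [Algebra K E] [Algebra R E] [IsScalarTower R K E] [FiniteDimensional K E]
  {R₂ : Type*} [CommRing R₂] [IsDomain R₂] [IsDiscreteValuationRing R₂] [CharZero R₂]
  {K₂ : Type*} [Field K₂] [Algebra R₂ K₂]
  {E₂ : Type*} [Field E₂] [Algebra K₂ E₂] [Algebra R₂ E₂] [IsScalarTower R₂ K₂ E₂]
  [FiniteDimensional K₂ E₂]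
  {π : R} {π₂ : R₂} {t : K} {t₂ : K₂} (φ : R →+* R₂) (κ : K →+* K₂) (ι : E →+* E₂)

include K₁ in
/-- **the node shapes over the big base.** -/
theorem hnode_of_baseChange (hπ : Irreducible π) (hu : Transcendental K₁ t)
    (hK : IntermediateField.adjoin K₁ {t} = ⊤)
    (hκR : ∀ x : R, κ (algebraMap R K x) = algebraMap R₂ K₂ (φ x))
    (hικ : ∀ x : K, ι (algebraMap K E x) = algebraMap K₂ E₂ (κ x)) (hκt : κ t = t₂)
    {Winf W0 : ValuationSubring E} (two : IsTwoSheet π t Winf W0)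
    {Vinf V0 : ValuationSubring E₂}
    (hBVinf : ∀ b ∈ chartOne R₂ E₂ t₂, b ∈ Vinf) (hBV0 : ∀ b ∈ chartOne R₂ E₂ t₂, b ∈ V0)
    (hWVinf : ∀ x : E, ι x ∈ Vinf ↔ x ∈ Winf) (hWV0 : ∀ x : E, ι x ∈ V0 ↔ x ∈ W0)
    (hresinf : ∀ z ∈ Vinf, ∃ a ∈ Winf, Vinf.valuation (z - ι a) < 1)
    (hres0 : ∀ z ∈ V0, ∃ a ∈ W0, V0.valuation (z - ι a) < 1)
    {e : ℕ} {ε₀ : R₂ˣ} (hπ₂0 : algebraMap R₂ E₂ π₂ ≠ 0) (hε₀0 : algebraMap R₂ E₂ (ε₀ : R₂) ≠ 0)
    (hφπ : φ π = π₂ ^ e * (ε₀ : R₂)) {m : ℕ} (hme : m ∣ e)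
    (hmax : ∀ 𝔪₂ : Ideal ↥(chartOne R₂ E₂ t₂), 𝔪₂.IsMaximal → sheetIdeal t₂ Vinf hBVinf ≤ 𝔪₂ →
      sheetIdeal t₂ V0 hBV0 ≤ 𝔪₂ → (𝔪₂.comap (chartBaseMap φ κ ι hκR hικ hκt)).IsMaximal)
    {f : E}
    (hshape : ∀ (𝔪 : Ideal ↥(chartOne R E t)) [𝔪.IsPrime], 𝔪.IsMaximal →
      sheetIdeal t Winf two.chart_le_inf ≤ 𝔪 → sheetIdeal t W0 two.chart_le_zero ≤ 𝔪 →
      IsNodeShape Winf W0 (locRing (chartOne R E t) 𝔪) (locMax (chartOne R E t) 𝔪)
        (algebraMap R E π) m f) :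
    ∀ (𝔪₂ : Ideal ↥(chartOne R₂ E₂ t₂)) [𝔪₂.IsPrime], 𝔪₂.IsMaximal →
      sheetIdeal t₂ Vinf hBVinf ≤ 𝔪₂ → sheetIdeal t₂ V0 hBV0 ≤ 𝔪₂ →
      IsEisensteinAt Vinf V0 (locRing (chartOne R₂ E₂ t₂) 𝔪₂) (locMax (chartOne R₂ E₂ t₂) 𝔪₂)
        (algebraMap R₂ E₂ π₂) m (ι f) (sheetIdeal t₂ V0 hBV0 ≤ 𝔪₂) ∧
      IsEisensteinAt V0 Vinf (locRing (chartOne R₂ E₂ t₂) 𝔪₂) (locMax (chartOne R₂ E₂ t₂) 𝔪₂)
        (algebraMap R₂ E₂ π₂) m (ι f) (sheetIdeal t₂ Vinf hBVinf ≤ 𝔪₂) := by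
  intro 𝔪₂ _ h𝔪₂ hinf₂ h0₂
  have h𝔪 := hmax 𝔪₂ h𝔪₂ hinf₂ h0₂
  haveI := h𝔪.isPrime
  have hleinf : sheetIdeal t Winf two.chart_le_inf ≤
      𝔪₂.comap (chartBaseMap φ κ ι hκR hικ hκt) := by
    intro b hb
    rw [Ideal.mem_comap]
    apply hinf₂
    rw [mem_sheetIdeal_iff, coe_chartBaseMap, val_map_lt_one_iff_of_comap ι hWVinf]
    exact (mem_sheetIdeal_iff t Winf two.chart_le_inf b).mp hb
  have hle0 : sheetIdeal t W0 two.chart_le_zero ≤
      𝔪₂.comap (chartBaseMap φ κ ι hκR hικ hκt) := by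
    intro b hb
    rw [Ideal.mem_comap]
    apply h0₂
    rw [mem_sheetIdeal_iff, coe_chartBaseMap, val_map_lt_one_iff_of_comap ι hWV0]
    exact (mem_sheetIdeal_iff t W0 two.chart_le_zero b).mp hb
  have hιπ : ι (algebraMap R E π) = algebraMap R₂ E₂ π₂ ^ e * algebraMap R₂ E₂ (ε₀ : R₂) := by
    rw [IsScalarTower.algebraMap_apply R K E, hικ, hκR, ← IsScalarTower.algebraMap_apply R₂ K₂ E₂,
      hφπ, map_mul, map_pow]
  exact isEisensteinAt_of_isNodeShape ι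
    (fun x hx => map_mem_locRing_of_baseChange φ κ ι hκR hικ hκt 𝔪₂ hx)
    (fun ζ hζ => isLocBranch_baseChange (K₁ := K₁) φ κ ι hπ hu hK hκR hικ hκt two.gauss_inf hBVinf
      hWVinf hresinf 𝔪₂ hinf₂ h𝔪 hleinf hζ)
    (fun ζ hζ => isLocBranch_baseChange (K₁ := K₁) φ κ ι hπ hu hK hκR hικ hκt two.gauss_zero hBV0
      hWV0 hres0 𝔪₂ h0₂ h𝔪 hle0 hζ)
    (fun x hx => (val_map_lt_one_iff_of_comap ι hWVinf x).mpr hx)
    (fun x hx => (val_map_lt_one_iff_of_comap ι hWV0 x).mpr hx)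
    hπ₂0 (isLUnit_algebraMap_unit _ ε₀ hε₀0) hιπ hme (hshape _ h𝔪 hleinf hle0) _ _

end Big

section Small

open Fermat.Agent.MW.NAdic Fermat.Agent.MP Fermat.Agent.NP

variable {R : Type*} [CommRing R] [IsDomain R] [IsDiscreteValuationRing R] [CharZero R]
  {K₁ : Type*} [Field K₁] [Algebra R K₁] [IsFractionRing R K₁]
  {K : Type*} [Field K] [Algebra K₁ K] [Algebra R K] [IsScalarTower R K₁ K]
  {E : Type*} [Field E] [Algebra K E] [Algebra K₁ E] [IsScalarTower K₁ K E] [Algebra R E]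
  [IsScalarTower R K E] [FiniteDimensional K E]
  {π : R} {t : K}

include K₁ in
/-- **the node shapes over the small base**: node coordinates (helper6's `IsNodeCoord`), the node
factorisation (helper9/helper1's `IsNodeFact`, [NODEQ]) and the orders of `f` along the two sheets
(`a0 - ainf` prime to `m`, [VAL]). -/
theorem hshape_of_isNodeFact (hπ : Irreducible π) (hu : Transcendental K₁ t)
    (hK : IntermediateField.adjoin K₁ {t} = ⊤) {Winf W0 : ValuationSubring E}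
    (two : IsTwoSheet π t Winf W0) (hfr : IsFractionRing ↥(chartOne R E t) E)
    {m : ℕ} {f : E} {ainf a0 : ℤ}
    (hinf : Winf.valuation (f * (algebraMap R E π ^ ainf)⁻¹) = 1)
    (h0 : W0.valuation (f * (algebraMap R E π ^ a0)⁻¹) = 1)
    (hcop : IsCoprime (a0 - ainf) (m : ℤ))
    (hnodes : ∀ (𝔪 : Ideal ↥(chartOne R E t)) [𝔪.IsPrime], 𝔪.IsMaximal →
      sheetIdeal t Winf two.chart_le_inf ≤ 𝔪 → sheetIdeal t W0 two.chart_le_zero ≤ 𝔪 →
      ∃ (X : E) (c : ℕ) (k : ℤ),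
        IsNodeCoord π hfr (sheetIdeal t Winf two.chart_le_inf)
          (sheetIdeal t W0 two.chart_le_zero) 𝔪 X c ∧
        IsNodeFact K₁ (locSub (chartOne R E t) 𝔪) m X f k) :
    ∀ (𝔪 : Ideal ↥(chartOne R E t)) [𝔪.IsPrime], 𝔪.IsMaximal →
      sheetIdeal t Winf two.chart_le_inf ≤ 𝔪 → sheetIdeal t W0 two.chart_le_zero ≤ 𝔪 →
      IsNodeShape Winf W0 (locRing (chartOne R E t) 𝔪) (locMax (chartOne R E t) 𝔪)
        (algebraMap R E π) m f := by
  intro 𝔪 _ h𝔪 hleinf hle0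
  obtain ⟨X, c, k, hX, hfact⟩ := hnodes 𝔪 h𝔪 hleinf hle0
  obtain ⟨Y, r, hN⟩ := isNodeDatum_of_isNodeCoord two.chart_le_inf two.chart_le_zero hfr 𝔪
    hleinf hle0 hX
  exact isNodeShape_of_isNodeFact (K₁ := K₁) hπ hu hK two 𝔪 hleinf hle0 hN hfact hinf h0 hcop

end Small

end Fermat.Agent.RB
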