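/-
Project RB, kill-test (ii') — helper7 — **the unit-node lemma, valuation-theoretic core**
(pure algebra, Mathlib only).

`F ⊆ L` fields with `[L : F] ≤ n`; `O ⊆ F` a subring which is a discrete valuation ring in
elementwise form (every `a ≠ 0` of `F` is `u * ϖ ^ j` with `u, u⁻¹ ∈ O`, `j : ℤ`); `C ⊆ L` a local
subring containing `O`; `g ∈ C` a non-unit and `ε ∈ Cˣ` with `g ^ n * ε = ϖ`.  Then

* `[L : F] = n`,
* `C = O[g] = ⊕_{i < n} O g ^ i`,
* `g` generates the maximal ideal of `C`,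
* `C` is a valuation ring of `L`.

No separability, no finiteness of integral closures, no Nakayama: the proof takes a valuation ring
`V` of `L` dominating `C` (`LocalSubring.exists_le_valuationSubring`), shows that the values
`v(a_i g ^ i)` (`a_i ∈ F`, `i < n`) are pairwise distinct, so that `1, g, …, g ^ (n-1)` is an
`F`-basis of `L` and `v(∑ a_i g ^ i) = max v(a_i g ^ i)`; hence `V = O[g] ⊆ C ⊆ V`.

In the application (finding 424): `F = κ(𝔭)`, `L = κ(𝔓)` are the residue fields of the sheet primes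
of the `X₀`- and `X₁`-charts, `O` the local ring of the (smooth) `X₀`-branch at a supersingular
point with uniformizer `ϖ = x̄ = Ū₀ · unit`, `C` the local ring of the `X₁`-branch,
`g` the reduction of the modular unit and `n = |Δ|`; `ε = ∏_δ (g_δ / g)`.
-/
import Mathlib

set_option autoImplicit false

namespace Fermat.Agent.RB

namespace UnitNode

variable {F L : Type*} [Field F] [Field L] [Algebra F L]

/-- `x` is a non-unit of `V` iff `x⁻¹ ∉ V` (for `x ≠ 0`). -/
theorem val_lt_one_iff (V : ValuationSubring L) {x : L} (hx : x ≠ 0) :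
    V.valuation x < 1 ↔ x⁻¹ ∉ V := by
  rw [← ValuationSubring.valuation_le_one_iff, map_inv₀, not_le]
  have h0 : V.valuation x ≠ 0 := (Valuation.ne_zero_iff _).mpr hx
  rw [one_lt_inv₀ (zero_lt_iff.mpr h0)]

/-- a unit of `V` has valuation one. -/
theorem val_eq_one (V : ValuationSubring L) {u : L} (hu0 : u ≠ 0) (hu : u ∈ V) (hu' : u⁻¹ ∈ V) :
    V.valuation u = 1 := by
  have h1 : V.valuation u ≤ 1 := (ValuationSubring.valuation_le_one_iff V u).mpr hu
  have h2 : V.valuation u⁻¹ ≤ 1 := (ValuationSubring.valuation_le_one_iff V _).mpr hu'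
  have h0 : V.valuation u ≠ 0 := (Valuation.ne_zero_iff _).mpr hu0
  rw [map_inv₀, inv_le_one₀ (zero_lt_iff.mpr h0)] at h2
  exact le_antisymm h1 h2

/-- **the data of the unit-node lemma** at the level of a valuation ring `V` of `L`:
`O ⊆ F` is a discrete valuation ring with uniformizer `ϖ` (elementwise), `O ⊆ V`, and `g` is an
element of `V` with `0 < v(g) < 1` and `v(ϖ) = v(g) ^ n`. -/
structure Data (O : Subring F) (ϖ : F) (V : ValuationSubring L) (g : L) (n : ℕ) : Prop where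
  mem : ϖ ∈ O
  form : ∀ a : F, a ≠ 0 → ∃ (j : ℤ) (u : F), u ∈ O ∧ u⁻¹ ∈ O ∧ a = u * ϖ ^ j
  le : ∀ a ∈ O, algebraMap F L a ∈ V
  pos : 0 < n
  g_ne : g ≠ 0
  g_lt : V.valuation g < 1
  val : V.valuation (algebraMap F L ϖ) = V.valuation g ^ n

variable {O : Subring F} {ϖ : F} {V : ValuationSubring L} {g : L} {n : ℕ}

theorem Data.val_g_ne (h : Data O ϖ V g n) : V.valuation g ≠ 0 :=
  (Valuation.ne_zero_iff _).mpr h.g_ne

theorem Data.val_g_pos (h : Data O ϖ V g n) : 0 < V.valuation g :=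
  zero_lt_iff.mpr h.val_g_ne

/-- the value of an element of `F` is `v(g) ^ (n j)`; if `j ≥ 0` the element lies in `O`. -/
theorem Data.val_algebraMap (h : Data O ϖ V g n) {a : F} (ha : a ≠ 0) :
    ∃ j : ℤ, V.valuation (algebraMap F L a) = V.valuation g ^ ((n : ℤ) * j) ∧ (0 ≤ j → a ∈ O) := by
  obtain ⟨j, u, hu, hu', rfl⟩ := h.form a ha
  have hu0 : u ≠ 0 := by
    rintro rfl
    exact ha (zero_mul _)
  refine ⟨j, ?_, ?_⟩
  · have h1 : V.valuation (algebraMap F L u) = 1 := by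
      apply val_eq_one V ((map_ne_zero _).mpr hu0) (h.le u hu)
      rw [← map_inv₀]
      exact h.le _ hu'
    rw [map_mul, map_zpow₀, map_mul, map_zpow₀, h1, one_mul, h.val, ← zpow_natCast, ← zpow_mul]
  · intro hj
    lift j to ℕ using hj
    rw [zpow_natCast]
    exact O.mul_mem hu (O.pow_mem h.mem j)

/-- the value of a monomial `a g ^ i`. -/
theorem Data.val_monomial (h : Data O ϖ V g n) {a : F} (ha : a ≠ 0) (i : ℕ) :
    ∃ j : ℤ, V.valuation (algebraMap F L a * g ^ i) = V.valuation g ^ ((n : ℤ) * j + (i : ℤ)) ∧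
      (0 ≤ j → a ∈ O) := by
  obtain ⟨j, hj, hjO⟩ := h.val_algebraMap ha
  refine ⟨j, ?_, hjO⟩
  rw [map_mul, map_pow, hj, zpow_add₀ h.val_g_ne, zpow_natCast]

/-- **the dominant term**: the values of the monomials `a_i g ^ i` (`i < n`, `a_i ≠ 0`) are pairwise
distinct, so the value of the sum is the largest of them. -/
theorem Data.exists_dominant (h : Data O ϖ V g n) (a : Fin n → F) (hne : ∃ i, a i ≠ 0) :
    ∃ i₀, a i₀ ≠ 0 ∧
      V.valuation (∑ i, algebraMap F L (a i) * g ^ (i : ℕ)) =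
        V.valuation (algebraMap F L (a i₀) * g ^ (i₀ : ℕ)) ∧
      ∀ i, V.valuation (algebraMap F L (a i) * g ^ (i : ℕ)) ≤
        V.valuation (algebraMap F L (a i₀) * g ^ (i₀ : ℕ)) := by
  classical
  have hfne : ∀ i, a i ≠ 0 → V.valuation (algebraMap F L (a i) * g ^ (i : ℕ)) ≠ 0 := by
    intro i hi
    rw [Valuation.ne_zero_iff]
    exact mul_ne_zero ((map_ne_zero _).mpr hi) (pow_ne_zero _ h.g_ne)
  have hfz : ∀ i, a i = 0 → V.valuation (algebraMap F L (a i) * g ^ (i : ℕ)) = 0 := by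
    intro i hi
    rw [hi, map_zero, zero_mul, map_zero]
  obtain ⟨i₁, hi₁⟩ := hne
  obtain ⟨i₀, -, hmax⟩ := Finset.exists_max_image Finset.univ
    (fun i : Fin n => V.valuation (algebraMap F L (a i) * g ^ (i : ℕ))) ⟨i₁, Finset.mem_univ _⟩
  have hi₀ : a i₀ ≠ 0 := by
    intro h0
    have h2 := hmax i₁ (Finset.mem_univ _)
    simp only [hfz i₀ h0] at h2
    exact hfne i₁ hi₁ (le_antisymm h2 zero_le)
  refine ⟨i₀, hi₀, ?_, fun i => hmax i (Finset.mem_univ _)⟩
  apply Valuation.map_sum_eq_of_lt _ (Finset.mem_univ i₀)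
  intro i hi
  have hine : i ≠ i₀ := by
    simpa using hi
  refine lt_of_le_of_ne (hmax i (Finset.mem_univ _)) ?_
  intro heq
  by_cases hai : a i = 0
  · rw [hfz i hai] at heq
    exact hfne i₀ hi₀ heq.symm
  · obtain ⟨j, hj, -⟩ := h.val_monomial hai (i : ℕ)
    obtain ⟨j', hj', -⟩ := h.val_monomial hi₀ (i₀ : ℕ)
    rw [hj, hj'] at heq
    have hinj := zpow_right_injective₀ h.val_g_pos h.g_lt.ne heq
    have hinj' : (n : ℤ) * j + ((i : ℕ) : ℤ) = (n : ℤ) * j' + ((i₀ : ℕ) : ℤ) := hinj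
    have hdvd : (n : ℤ) ∣ ((i : ℕ) : ℤ) - ((i₀ : ℕ) : ℤ) := ⟨j' - j, by linarith⟩
    have habs : |((i : ℕ) : ℤ) - ((i₀ : ℕ) : ℤ)| < (n : ℤ) := by
      have h1 := i.2
      have h2 := i₀.2
      rw [abs_lt]
      constructor <;> omega
    have h0 := Int.eq_zero_of_abs_lt_dvd hdvd habs
    apply hine
    apply Fin.ext
    omega

/-- `1, g, …, g ^ (n - 1)` are linearly independent over `F`, elementwise. -/
theorem Data.eq_zero_of_sum_eq_zero (h : Data O ϖ V g n) (a : Fin n → F)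
    (hz : ∑ i, algebraMap F L (a i) * g ^ (i : ℕ) = 0) : ∀ i, a i = 0 := by
  by_contra hcon
  push Not at hcon
  obtain ⟨i₀, hi₀, hv, -⟩ := h.exists_dominant a hcon
  rw [hz, map_zero] at hv
  exact (Valuation.ne_zero_iff _).mpr
    (mul_ne_zero ((map_ne_zero (algebraMap F L)).mpr hi₀) (pow_ne_zero _ h.g_ne)) hv.symm

theorem Data.linearIndependent (h : Data O ϖ V g n) :
    LinearIndependent F (fun i : Fin n => g ^ (i : ℕ)) := by
  rw [Fintype.linearIndependent_iff]
  intro a ha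
  apply h.eq_zero_of_sum_eq_zero a
  rw [← ha]
  exact Finset.sum_congr rfl fun i _ => (Algebra.smul_def _ _).symm

/-- if the sum lies in `V`, all coefficients lie in `O`. -/
theorem Data.coeff_mem (h : Data O ϖ V g n) (a : Fin n → F)
    (hz : ∑ i, algebraMap F L (a i) * g ^ (i : ℕ) ∈ V) : ∀ i, a i ∈ O := by
  intro i
  by_cases hai : a i = 0
  · rw [hai]
    exact O.zero_mem
  obtain ⟨i₀, hi₀, hv, hmax⟩ := h.exists_dominant a ⟨i, hai⟩
  have hle : V.valuation (algebraMap F L (a i) * g ^ (i : ℕ)) ≤ 1 := by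
    refine (hmax i).trans ?_
    rw [← hv]
    exact (V.valuation_le_one_iff _).mpr hz
  obtain ⟨j, hj, hjO⟩ := h.val_monomial hai (i : ℕ)
  apply hjO
  rw [hj, zpow_le_one_iff_right_of_lt_one₀ h.val_g_pos h.g_lt] at hle
  by_contra hneg
  push Not at hneg
  have h1 : (n : ℤ) * j ≤ (n : ℤ) * (-1) :=
    mul_le_mul_of_nonneg_left (by omega) (by positivity)
  have h2 := i.2
  omega

/-- a dominant monomial of value `< 1` has value `≤ v(g)`. -/
theorem Data.val_le_of_lt_one (h : Data O ϖ V g n) (a : Fin n → F)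
    (hz : V.valuation (∑ i, algebraMap F L (a i) * g ^ (i : ℕ)) < 1) :
    V.valuation (∑ i, algebraMap F L (a i) * g ^ (i : ℕ)) ≤ V.valuation g := by
  by_cases hne : ∃ i, a i ≠ 0
  · obtain ⟨i₀, hi₀, hv, -⟩ := h.exists_dominant a hne
    obtain ⟨j, hj, -⟩ := h.val_monomial hi₀ (i₀ : ℕ)
    rw [hv, hj] at hz ⊢
    rw [zpow_lt_one_iff_right_of_lt_one₀ h.val_g_pos h.g_lt] at hz
    have h1 : V.valuation g = V.valuation g ^ (1 : ℤ) := (zpow_one _).symm
    conv_rhs => rw [h1]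
    rw [zpow_le_zpow_iff_right_of_lt_one₀ h.val_g_pos h.g_lt]
    omega
  · push Not at hne
    have : ∑ i, algebraMap F L (a i) * g ^ (i : ℕ) = 0 :=
      Finset.sum_eq_zero fun i _ => by rw [hne i, map_zero, zero_mul]
    rw [this, map_zero]
    exact zero_le

section Finite

variable [FiniteDimensional F L]

theorem Data.finrank_eq (h : Data O ϖ V g n) (hdeg : Module.finrank F L ≤ n) :
    Module.finrank F L = n := by
  have h1 := h.linearIndependent.fintype_card_le_finrank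
  rw [Fintype.card_fin] at h1
  omega

/-- every element of `L` is `∑_{i < n} a_i g ^ i`. -/
theorem Data.exists_expansion (h : Data O ϖ V g n) (hdeg : Module.finrank F L ≤ n) (z : L) :
    ∃ a : Fin n → F, z = ∑ i, algebraMap F L (a i) * g ^ (i : ℕ) := by
  have hcard : Fintype.card (Fin n) = Module.finrank F L := by
    rw [Fintype.card_fin, h.finrank_eq hdeg]
  have hspan := h.linearIndependent.span_eq_top_of_card_eq_finrank' hcard
  have hz : z ∈ Submodule.span F (Set.range fun i : Fin n => g ^ (i : ℕ)) := by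
    rw [hspan]
    exact Submodule.mem_top
  obtain ⟨a, ha⟩ := (Submodule.mem_span_range_iff_exists_fun F).mp hz
  refine ⟨a, ?_⟩
  rw [← ha]
  exact Finset.sum_congr rfl fun i _ => Algebra.smul_def _ _

/-- `V = ⊕_{i < n} O g ^ i`. -/
theorem Data.exists_expansion_of_mem (h : Data O ϖ V g n) (hdeg : Module.finrank F L ≤ n)
    {z : L} (hz : z ∈ V) :
    ∃ a : Fin n → F, (∀ i, a i ∈ O) ∧ z = ∑ i, algebraMap F L (a i) * g ^ (i : ℕ) := by
  obtain ⟨a, ha⟩ := h.exists_expansion hdeg z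
  exact ⟨a, h.coeff_mem a (ha ▸ hz), ha⟩

/-- `g` is a uniformizer of `V`. -/
theorem Data.mul_inv_mem (h : Data O ϖ V g n) (hdeg : Module.finrank F L ≤ n)
    {z : L} (hz : V.valuation z < 1) : z * g⁻¹ ∈ V := by
  obtain ⟨a, ha⟩ := h.exists_expansion hdeg z
  rw [ha] at hz
  have h1 := h.val_le_of_lt_one a hz
  rw [← ha] at h1
  rw [← ValuationSubring.valuation_le_one_iff, map_mul, map_inv₀,
    mul_inv_le_iff₀ h.val_g_pos, one_mul]
  exact h1

end Finite

end UnitNode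

open UnitNode in
/-- **The unit-node lemma, valuation-theoretic core.**  See the file header. -/
theorem unit_node_core {F L : Type*} [Field F] [Field L] [Algebra F L] [FiniteDimensional F L]
    (O : Subring F) {ϖ : F} (hϖ0 : ϖ ≠ 0) (hϖO : ϖ ∈ O)
    (hO : ∀ a : F, a ≠ 0 → ∃ (j : ℤ) (u : F), u ∈ O ∧ u⁻¹ ∈ O ∧ a = u * ϖ ^ j)
    (C : Subring L) [IsLocalRing C]
    (hOC : ∀ a ∈ O, algebraMap F L a ∈ C)
    {n : ℕ} (hn : 0 < n) (hdeg : Module.finrank F L ≤ n)
    {g ε : L} (hg : g ∈ C) (hgnu : g⁻¹ ∉ C) (hε : ε ∈ C) (hε' : ε⁻¹ ∈ C)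
    (hgε : g ^ n * ε = algebraMap F L ϖ) :
    Module.finrank F L = n ∧
    (∀ z ∈ C, ∃ a : Fin n → F, (∀ i, a i ∈ O) ∧
      z = ∑ i, algebraMap F L (a i) * g ^ (i : ℕ)) ∧
    (∀ z ∈ C, z⁻¹ ∉ C → z * g⁻¹ ∈ C) ∧
    (∀ z : L, z ∈ C ∨ z⁻¹ ∈ C) := by
  obtain ⟨V, hCV, hloc⟩ := LocalSubring.exists_le_valuationSubring (LocalSubring.mk C)
  have hCV' : ∀ z ∈ C, z ∈ V := fun z hz => hCV hz
  -- non-units of `C` are non-units of `V`
  have hnu : ∀ z ∈ C, z ≠ 0 → z⁻¹ ∉ C → z⁻¹ ∉ V := by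
    intro z hz hz0 hzC hzV
    apply hzC
    have hu : IsUnit (Subring.inclusion hCV ⟨z, hz⟩) := by
      rw [isUnit_iff_exists_inv]
      exact ⟨⟨z⁻¹, hzV⟩, Subtype.ext (mul_inv_cancel₀ hz0)⟩
    have hu' : IsUnit (⟨z, hz⟩ : C) := hloc.map_nonunit _ hu
    obtain ⟨w, hw⟩ := isUnit_iff_exists_inv.mp hu'
    have hw' : z * (w : L) = 1 := congrArg Subtype.val hw
    have : (w : L) = z⁻¹ := eq_inv_of_mul_eq_one_right hw'
    rw [← this]
    exact w.2
  have hg0 : g ≠ 0 := by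
    rintro rfl
    rw [zero_pow hn.ne', zero_mul] at hgε
    exact hϖ0 ((map_eq_zero (algebraMap F L)).mp hgε.symm)
  have hε0 : ε ≠ 0 := by
    rintro rfl
    rw [mul_zero] at hgε
    exact hϖ0 ((map_eq_zero (algebraMap F L)).mp hgε.symm)
  have hD : Data O ϖ V g n :=
    { mem := hϖO
      form := hO
      le := fun a ha => hCV' _ (hOC a ha)
      pos := hn
      g_ne := hg0
      g_lt := (UnitNode.val_lt_one_iff V hg0).mpr (hnu g hg hg0 hgnu)
      val := by
        rw [← hgε, map_mul, map_pow, val_eq_one V hε0 (hCV' _ hε) (hCV' _ hε'), mul_one] }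
  -- `V ⊆ C`
  have hVC : ∀ z ∈ V, z ∈ C := by
    intro z hz
    obtain ⟨a, haO, ha⟩ := hD.exists_expansion_of_mem hdeg hz
    rw [ha]
    exact Subring.sum_mem _ fun i _ => C.mul_mem (hOC _ (haO i)) (C.pow_mem hg _)
  refine ⟨hD.finrank_eq hdeg, ?_, ?_, ?_⟩
  · intro z hz
    exact hD.exists_expansion_of_mem hdeg (hCV' z hz)
  · intro z hz hzC
    by_cases hz0 : z = 0
    · rw [hz0, zero_mul]
      exact C.zero_mem
    · apply hVC
      exact hD.mul_inv_mem hdeg ((UnitNode.val_lt_one_iff V hz0).mpr (hnu z hz hz0 hzC))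
  · intro z
    rcases V.mem_or_inv_mem z with h | h
    · exact Or.inl (hVC z h)
    · exact Or.inr (hVC _ h)

end Fermat.Agent.RB
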