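/-
Project RB, kill-test (ii') — helper7 — **residue fields of sheets: `f ≤ [L : F]` and invariance of
the residue field under a totally ramified extension** (pure algebra, Mathlib + UNITNODE core).

* `finrank_residue_le` : `O ⊆ F`, `V ⊆ L` valuation subrings with `O ⊆ V`, `κ`, `κ'` any fields
  receiving `O`, `V` compatibly (`ρ'` surjective): `κ' / κ` is finite of degree `≤ [L : F]`.
  No separability, no discreteness.
* `residue_eq_of_totally_ramified` : if `π' ∈ V` is a non-unit with `π' ^ n · ε = ϖ` (`ε ∈ Vˣ`,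
  `ϖ` a uniformizer of the discrete valuation ring `O`, `[L : F] ≤ n`), then `V = ⊕ O π'^i`, every
  element of `V` is congruent to an element of `O` modulo the maximal ideal and `π'` is a uniformizer
  of `V` (`unit_node_core` with `C = V`): the branch rings of a model do not change under a totally
  ramified base change `W ⊆ W' = W[π']`.
-/
import Mathlib
import Fermat.Agent.RB.UNITNODE_helper7_Core

set_option autoImplicit false
set_option linter.unusedSectionVars false
set_option linter.unusedVariables false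

namespace Fermat.Agent.RB

open IsLocalRing

section ResidueDegree

variable {F L : Type*} [Field F] [Field L] [Algebra F L] [FiniteDimensional F L]

/-- **`f ≤ [L : F]`** for an extension of valuation subrings, with arbitrary models `κ`, `κ'` of the
residue fields. -/
theorem finrank_residue_le {O : ValuationSubring F} {V : ValuationSubring L}
    (hOV : ∀ a : F, a ∈ O → algebraMap F L a ∈ V)
    {κ κ' : Type*} [Field κ] [Field κ'] [Algebra κ κ']
    (ρ : ↥O →+* κ) (ρ' : ↥V →+* κ') (hρ' : Function.Surjective ρ')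
    (hcompat : ∀ a : ↥O, algebraMap κ κ' (ρ a) = ρ' ⟨algebraMap F L (a : F), hOV _ a.2⟩) :
    Module.Finite κ κ' ∧ Module.finrank κ κ' ≤ Module.finrank F L := by
  classical
  have key : ∀ s : Finset κ', (LinearIndependent κ fun i : s => (i : κ')) →
      s.card ≤ Module.finrank F L := by
    intro s hs
    choose b hb using fun i : s => hρ' (i : κ')
    have hli : LinearIndependent F (fun i : s => ((b i : ↥V) : L)) := by
      rw [Fintype.linearIndependent_iff]
      intro a ha
      by_contra hcon
      push Not at hcon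
      obtain ⟨i₁, hi₁⟩ := hcon
      obtain ⟨i₀, -, hmax⟩ := Finset.exists_max_image Finset.univ
        (fun i : s => O.valuation (a i)) ⟨i₁, Finset.mem_univ _⟩
      have hi₀ : a i₀ ≠ 0 := by
        intro h0
        have h2 := hmax i₁ (Finset.mem_univ _)
        simp only [h0, map_zero] at h2
        exact (Valuation.ne_zero_iff _).mpr hi₁ (le_antisymm h2 zero_le)
      have hv0 : O.valuation (a i₀) ≠ 0 := (Valuation.ne_zero_iff _).mpr hi₀
      have hc : ∀ i, a i / a i₀ ∈ O := by
        intro i
        rw [← ValuationSubring.valuation_le_one_iff, map_div₀,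
          div_le_one₀ (zero_lt_iff.mpr hv0)]
        exact hmax i (Finset.mem_univ _)
      -- the relation with coefficients in `O`, normalised at `i₀`
      have hrel : ∑ i, (⟨algebraMap F L (a i / a i₀), hOV _ (hc i)⟩ : ↥V) * b i = 0 := by
        apply Subtype.ext
        rw [AddSubmonoidClass.coe_finsetSum]
        have h1 : ∀ i : s, (((⟨algebraMap F L (a i / a i₀), hOV _ (hc i)⟩ : ↥V) * b i : ↥V) : L) =
            algebraMap F L (a i₀)⁻¹ * (a i • ((b i : ↥V) : L)) := by
          intro i
          show algebraMap F L (a i / a i₀) * ((b i : ↥V) : L) = _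
          rw [Algebra.smul_def, div_eq_mul_inv, map_mul]
          ring
        rw [Finset.sum_congr rfl fun i _ => h1 i, ← Finset.mul_sum, ha, mul_zero]
        rfl
      have hrel' : ∑ i : s, algebraMap κ κ' (ρ ⟨a i / a i₀, hc i⟩) * (i : κ') = 0 := by
        have := congrArg ρ' hrel
        rw [map_sum, map_zero] at this
        rw [← this]
        refine Finset.sum_congr rfl fun i _ => ?_
        rw [map_mul, hb i, hcompat]
      have hzero := Fintype.linearIndependent_iff.mp hs
        (fun i => ρ ⟨a i / a i₀, hc i⟩) (by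
          rw [← hrel']
          exact Finset.sum_congr rfl fun i _ => Algebra.smul_def _ _)
      have h1 := hzero i₀
      have h2 : (⟨a i₀ / a i₀, hc i₀⟩ : ↥O) = 1 := Subtype.ext (div_self hi₀)
      rw [h2, map_one] at h1
      exact one_ne_zero h1
    have := hli.fintype_card_le_finrank
    rwa [Fintype.card_coe] at this
  have hrank : Module.rank κ κ' ≤ (Module.finrank F L : ℕ) := rank_le key
  have hfin : Module.Finite κ κ' := by
    rw [← Module.rank_lt_aleph0_iff]
    exact lt_of_le_of_lt hrank (Cardinal.natCast_lt_aleph0)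
  exact ⟨hfin, Module.finrank_le_of_rank_le hrank⟩

end ResidueDegree

section TotallyRamified

variable {F L : Type*} [Field F] [Field L] [Algebra F L] [FiniteDimensional F L]

/-- **the residue field does not change under a totally ramified extension**: see the file
header. -/
theorem residue_eq_of_totally_ramified {O : ValuationSubring F} {V : ValuationSubring L}
    (hOV : ∀ a : F, a ∈ O → algebraMap F L a ∈ V)
    {ϖ : F} (hϖ0 : ϖ ≠ 0) (hϖO : ϖ ∈ O)
    (hO : ∀ a : F, a ≠ 0 → ∃ (j : ℤ) (u : F), u ∈ O ∧ u⁻¹ ∈ O ∧ a = u * ϖ ^ j)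
    {n : ℕ} (hn : 0 < n) (hdeg : Module.finrank F L ≤ n)
    {π' ε : L} (hπ' : π' ∈ V) (hπ'nu : π'⁻¹ ∉ V) (hε : ε ∈ V) (hε' : ε⁻¹ ∈ V)
    (hrel : π' ^ n * ε = algebraMap F L ϖ) :
    Module.finrank F L = n ∧
    (∀ z ∈ V, ∃ a : Fin n → F, (∀ i, a i ∈ O) ∧
      z = ∑ i, algebraMap F L (a i) * π' ^ (i : ℕ)) ∧
    (∀ z ∈ V, ∃ a ∈ O, V.valuation (z - algebraMap F L a) < 1) ∧
    (∀ z : L, V.valuation z < 1 → z * π'⁻¹ ∈ V) := by
  have : IsLocalRing ↥V.toSubring := inferInstanceAs (IsLocalRing ↥V)
  obtain ⟨hfin, hexp, hunif, -⟩ := unit_node_core O.toSubring hϖ0 hϖO hO V.toSubring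
    (fun a ha => hOV a ha) hn hdeg hπ' hπ'nu hε hε' hrel
  have hπ'0 : π' ≠ 0 := by
    rintro rfl
    rw [zero_pow hn.ne', zero_mul] at hrel
    exact hϖ0 ((map_eq_zero (algebraMap F L)).mp hrel.symm)
  have hπ'lt : V.valuation π' < 1 := (UnitNode.val_lt_one_iff V hπ'0).mpr hπ'nu
  refine ⟨hfin, hexp, ?_, ?_⟩
  · intro z hz
    obtain ⟨a, haO, ha⟩ := hexp z hz
    have h0 : 0 < n := hn
    refine ⟨a ⟨0, hn⟩, haO _, ?_⟩
    -- `z - a₀ = ∑_{i ≥ 1} a_i π'^i` is divisible by `π'`
    have hsplit : z - algebraMap F L (a ⟨0, hn⟩) =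
        π' * ∑ i : Fin n, (if (i : ℕ) = 0 then 0 else
          algebraMap F L (a i) * π' ^ ((i : ℕ) - 1)) := by
      rw [ha, Finset.mul_sum]
      rw [← Finset.sum_erase_add _ _ (Finset.mem_univ (⟨0, hn⟩ : Fin n))]
      rw [← Finset.sum_erase_add (f := fun i : Fin n => π' * (if (i : ℕ) = 0 then 0 else
          algebraMap F L (a i) * π' ^ ((i : ℕ) - 1))) _ (Finset.mem_univ (⟨0, hn⟩ : Fin n))]
      simp only [pow_zero, mul_one, if_true, mul_zero, add_zero, add_sub_cancel_right]
      refine Finset.sum_congr rfl fun i hi => ?_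
      have hi0 : (i : ℕ) ≠ 0 := by
        intro h
        exact (Finset.ne_of_mem_erase hi) (Fin.ext h)
      rw [if_neg hi0]
      obtain ⟨k, hk⟩ := Nat.exists_eq_succ_of_ne_zero hi0
      rw [hk, Nat.succ_sub_one, pow_succ]
      ring
    rw [hsplit, map_mul]
    have hmem : (∑ i : Fin n, (if (i : ℕ) = 0 then 0 else
        algebraMap F L (a i) * π' ^ ((i : ℕ) - 1))) ∈ V := by
      refine Subring.sum_mem V.toSubring fun i _ => ?_
      split_ifs
      · exact V.zero_mem
      · exact V.mul_mem _ _ (hOV _ (haO i)) (pow_mem hπ' _)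
    calc V.valuation π' * V.valuation _ ≤ V.valuation π' * 1 :=
          mul_le_mul_right ((ValuationSubring.valuation_le_one_iff _ _).mpr hmem) _
      _ < 1 := by rw [mul_one]; exact hπ'lt
  · intro z hz
    by_cases hz0 : z = 0
    · rw [hz0, zero_mul]
      exact V.zero_mem
    have hzV : z ∈ V := (ValuationSubring.valuation_le_one_iff _ _).mp hz.le
    exact hunif z hzV ((UnitNode.val_lt_one_iff V hz0).mp hz)

end TotallyRamified

end Fermat.Agent.RB
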