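/-
RB [BB3] = (KEY-H), package D [SHAPE+BCH] — helper5 — part 11: **the residue hypotheses of the base
change** (`hresinf`, `hres0`, `hmax` of `kummer_cover_of_ssModel_baseChange`), abstract form.

Small base `R'` (unramified), big base `R` with `φ π' = π ^ e ε₀`, fields `F` (small), `EN` (big),
`ι : F →+* EN` with `[EN : ι F] ≤ e` (totally ramified base change).

* `exists_sub_val_lt_one_of_baseChange` : a sheet `W` of `EN` over a sheet `W'` of `F` has the same
  residue field (`UNITNODE_helper7_Res.residue_eq_of_totally_ramified` + the uniformizer form of a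
  sheet `exists_zpow_val_eq_one`);
* `comap_chartBaseMap_isMaximal_of_pi_mem` : a closed point of the special fibre of the big chart
  lies over a closed point of the small chart, as soon as `R'` and `R` have the same residue field.
-/
import Mathlib
import Fermat.Agent.RB.KEYH_helper5_NodeBig
import Fermat.Agent.RB.KEYH_helper5_Order
import Fermat.Agent.RB.UNITNODE_helper7_Res

set_option autoImplicit false
set_option linter.unusedSectionVars false
set_option linter.unusedVariables false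
set_option linter.style.haveILetI false

namespace Fermat.Agent.RB

open Fermat.Agent.SS Fermat.Agent.JA IsLocalRing

section Res

variable
  {R' : Type*} [CommRing R'] [IsDomain R'] [IsDiscreteValuationRing R'] [CharZero R']
  {K₁' : Type*} [Field K₁'] [Algebra R' K₁'] [IsFractionRing R' K₁']
  {K' : Type*} [Field K'] [Algebra K₁' K'] [Algebra R' K'] [IsScalarTower R' K₁' K']
  {F : Type*} [Field F] [Algebra K' F] [Algebra R' F] [IsScalarTower R' K' F]
  [FiniteDimensional K' F]
  {π' : R'} {j' : K'}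

include K₁' in
/-- **the residue field of a sheet does not change under a totally ramified base change.** -/
theorem exists_sub_val_lt_one_of_baseChange (hπ' : Irreducible π')
    (hu₀ : Transcendental K₁' j') (hK₀ : IntermediateField.adjoin K₁' {j'} = ⊤)
    {W' : ValuationSubring F} (hG' : IsGaussAt R' π' j' (W'.comap (algebraMap K' F)))
    (he' : ∀ x : F, W'.valuation x < 1 → x * (algebraMap R' F π')⁻¹ ∈ W')
    {EN : Type*} [Field EN] (ι : F →+* EN) {W : ValuationSubring EN}
    (hWV : ∀ x : F, ι x ∈ W ↔ x ∈ W')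
    (hfin : letI := ι.toAlgebra; FiniteDimensional F EN)
    {n : ℕ} (hn : 0 < n) (hdeg : letI := ι.toAlgebra; Module.finrank F EN ≤ n)
    {ϖ ε : EN} (hϖ : ϖ ∈ W) (hϖnu : ϖ⁻¹ ∉ W) (hε : ε ∈ W) (hε' : ε⁻¹ ∈ W)
    (hrel : ϖ ^ n * ε = ι (algebraMap R' F π')) :
    ∀ z ∈ W, ∃ a ∈ W', W.valuation (z - ι a) < 1 := by
  letI := ι.toAlgebra
  haveI := hfin
  obtain ⟨hπF, hπlt⟩ := val_pi_lt_one (K₁ := K₁') hπ' hG'
  have hπW' : algebraMap R' F π' ∈ W' := (ValuationSubring.valuation_le_one_iff _ _).mp hπlt.le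
  have hO : ∀ a : F, a ≠ 0 → ∃ (j : ℤ) (u : F), u ∈ W' ∧ u⁻¹ ∈ W' ∧
      a = u * (algebraMap R' F π') ^ j := by
    intro a ha
    obtain ⟨j, hj⟩ := exists_zpow_val_eq_one (K₁ := K₁') hπ' hu₀ hK₀ hG' he' ha
    refine ⟨j, a * (algebraMap R' F π' ^ j)⁻¹, ?_, ?_, ?_⟩
    · exact (ValuationSubring.valuation_le_one_iff _ _).mp hj.le
    · rw [← ValuationSubring.valuation_le_one_iff, map_inv₀, hj, inv_one]
    · rw [mul_assoc, inv_mul_cancel₀ (zpow_ne_zero _ hπF), mul_one]
  exact (residue_eq_of_totally_ramified (O := W') (V := W) (fun a ha => (hWV a).mpr ha) hπF hπW'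
    hO hn hdeg hϖ hϖnu hε hε' hrel).2.2.1

end Res

section Max

variable
  {R' : Type*} [CommRing R'] [IsDomain R'] [IsDiscreteValuationRing R']
  {K' : Type*} [Field K'] [Algebra R' K']
  {F : Type*} [Field F] [Algebra K' F] [Algebra R' F] [IsScalarTower R' K' F]
  {π' : R'} {j' : K'}
  {R : Type*} [CommRing R] [IsDomain R] [IsDiscreteValuationRing R] [CharZero R]
  {K₁ : Type*} [Field K₁] [Algebra R K₁] [IsFractionRing R K₁]
  {KN : Type*} [Field KN] [Algebra K₁ KN] [Algebra R KN] [IsScalarTower R K₁ KN]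
  {EN : Type*} [Field EN] [Algebra KN EN] [Algebra R EN] [IsScalarTower R KN EN]
  [FiniteDimensional KN EN]
  {π : R} {j : KN}
  (φ : R' →+* R) (κ : K' →+* KN) (ι : F →+* EN)

include K₁ in
/-- **a closed point of the special fibre of the big chart lies over a closed point of the small
chart** (the two bases have the same residue field, algebraically closed). -/
theorem comap_chartBaseMap_isMaximal_of_pi_mem [IsAlgClosed (ResidueField R)]
    (hπ : Irreducible π) (hu : Transcendental K₁ j)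
    (hK : IntermediateField.adjoin K₁ {j} = ⊤) (hπ' : Irreducible π')
    (hκR : ∀ x : R', κ (algebraMap R' K' x) = algebraMap R KN (φ x))
    (hικ : ∀ x : K', ι (algebraMap K' F x) = algebraMap KN EN (κ x)) (hκt : κ j' = j)
    (hφπ : φ π' ∈ Ideal.span {π})
    (hφres : ∀ r : R, ∃ r' : R', r - φ r' ∈ Ideal.span {π})
    (𝔪₂ : Ideal ↥(chartOne R EN j)) (h𝔪₂ : 𝔪₂.IsMaximal)
    (hπ𝔪₂ : algebraMap R ↥(chartOne R EN j) π ∈ 𝔪₂) :
    (𝔪₂.comap (chartBaseMap φ κ ι hκR hικ hκt)).IsMaximal := by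
  haveI := h𝔪₂.isPrime
  have hspan : ∀ r : R, r ∈ Ideal.span {π} → algebraMap R ↥(chartOne R EN j) r ∈ 𝔪₂ := by
    intro r hr
    rw [Ideal.mem_span_singleton] at hr
    obtain ⟨c, rfl⟩ := hr
    rw [map_mul]
    exact Ideal.mul_mem_right _ _ hπ𝔪₂
  refine comap_chartBaseMap_isMaximal φ κ ι hπ' hκR hικ hκt 𝔪₂ (hspan _ hφπ) ?_
  intro b
  obtain ⟨c, hc⟩ := exists_sub_mem_of_isMaximal_chartOne (K₁ := K₁) hπ hu hK 𝔪₂ hπ𝔪₂ b
  obtain ⟨r', hr'⟩ := hφres c
  refine ⟨r', ?_⟩
  have h1 := hspan _ hr'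
  rw [map_sub] at h1
  have := 𝔪₂.add_mem hc h1
  rwa [sub_add_sub_cancel] at this

end Max

end Fermat.Agent.RB
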