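/-
RB [BB3] = (KEY-H), package N [NODEQ-port] — helper7 — part 1: **coordinates, base change to `Ω` and
(RAT-fin) for the Legendre hosts `legEL K M q` of level `Γ₁(M) ∩ Γ₀(M q)`**
(port of `W1/BCD_helper7_Host`, `W1/BCD_helper7_HostRat` with `F₁ M 1 → F₁ M q`).

* `legHost_le_adjoin_image` : `legHost L F₀` is generated over `L` by the image of `legHost K F₀`;
* `finite_legEL_adjoin_t` : `EN₁ / K(λ)` is finite; `legLCoord`, `legLCoordBar`, `legLCoordBase` :
  the Legendre coordinate `λ` on `EN₁`;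
* `legHostBC F₀ K₁ : legHost K₁ F₀ →+* legHost Ω F₀`, `legELBC M L K₁` (coefficientwise), with the
  literal hypotheses `hφ` (`legHostBC_algebraMap`), `hgen` (`closure_range_legHostBC`) of
  `restrictBC`; `legHostBC_legHostIncl`;
* `hasPrincipalDivisors_legEL`, `deg_eq_one_legEL` (over `Ω`);
* `exists_finset_forall_isRationalPlace_legEL`, `IsBase.exists_ge_isRationalPlace_legEL` :
  **(RAT-fin)**.
-/
import Mathlib
import Fermat.Agent.RB.KEYH_helper7_AtBases
import Fermat.Agent.RB.KEYH_helper8_BC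
import Fermat.Agent.W1.BCD_helper7_HostRat

set_option autoImplicit false
set_option linter.unusedSectionVars false
set_option linter.unusedVariables false
set_option linter.style.haveILetI false
set_option synthInstance.maxHeartbeats 200000

open HahnSeries IntermediateField AlgebraicCurve ModularCurve Polynomial

namespace Fermat.Agent.RB

open Fermat.Agent.JA Fermat.Agent.Igusa Fermat.Agent.SS Fermat.Agent.FF Fermat.Agent.MP

open scoped Fermat.Agent.JA.Host

/-- `Ω = AlgebraicClosure ℚ`. -/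
local notation "Ω" => AlgebraicClosure ℚ

noncomputable section

section Generation

variable {K L : Type*} [Field K] [Field L] [Algebra ℚ K] [Algebra ℚ L] (φ : K →+* L)
  (F₀ : IntermediateField ℚ (LaurentSeries ℚ))

/-- `F_w(L)` is generated over `L` by the image of `F_w(K)`. -/
theorem hostW_le_adjoin_image (w : ℕ) [NeZero w] :
    hostW L w F₀ ≤
      IntermediateField.adjoin L (⇑(coeffMap φ) '' (hostW K w F₀ : Set (LaurentSeries K))) := by
  have h1 : laurentBaseChange L F₀ ≤ (IntermediateField.adjoin L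
      (⇑(coeffMap φ) '' (hostW K w F₀ : Set (LaurentSeries K)))).comap (qExpandAlgHomC L w) := by
    show IntermediateField.adjoin L _ ≤ _
    rw [IntermediateField.adjoin_le_iff]
    rintro _ ⟨z, hz, rfl⟩
    show qExpandAlgHomC L w (coeffEmb L z) ∈ IntermediateField.adjoin L
      (⇑(coeffMap φ) '' (hostW K w F₀ : Set (LaurentSeries K)))
    rw [qExpandAlgHomC_apply]
    refine IntermediateField.subset_adjoin L _ ⟨qExpand K w (coeffEmb K z), ?_, ?_⟩
    · exact qExpand_mem_hostImage (coeffEmb_mem_laurentBaseChange K hz)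
    · rw [coeffMap_qExpand, coeffMap_coeffEmb_hom]
  exact IntermediateField.map_le_iff_le_comap.mpr h1

/-- **`legHost L F₀` is generated over `L` by the image of `legHost K F₀`.** -/
theorem legHost_le_adjoin_image :
    legHost L F₀ ≤
      IntermediateField.adjoin L (⇑(coeffMap φ) '' (legHost K F₀ : Set (LaurentSeries K))) := by
  refine sup_le ?_ (sup_le ?_ ?_)
  · rw [adjoin_simple_le_iff]
    exact IntermediateField.subset_adjoin L _ ⟨legT K, Host.mem_Etu_t _ _ _, coeffMap_legT φ⟩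
  · refine (hostW_le_adjoin_image φ F₀ 2).trans (IntermediateField.adjoin.mono L _ _ ?_)
    exact Set.image_mono fun x hx => hostW_le_legHost F₀ hx
  · rw [adjoin_simple_le_iff]
    exact one_mem _

end Generation

section Concrete

variable (K : Type) [Field K] [Algebra ℚ K] [Algebra K ℂ] [IsScalarTower ℚ K ℂ]
  {M q : ℕ} [NeZero M] [NeZero q] [NeZero (M * q)] [W1.W1Api M]

set_option maxHeartbeats 1600000 in
/-- `EN₁ / K(λ)` is finite. -/
theorem finite_legEL_adjoin_t (hq : q.Prime) (hqM : ¬ q ∣ M) (hM : M ≠ 1) :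
    Module.Finite ↥K⟮legT K⟯ ↥(legEL K M q) := by
  haveI : Fact (legEL K M 1 ≤ legEL K M q) := ⟨legEL_one_le K M q⟩
  haveI : Module.Finite ↥K⟮legT K⟯ ↥(legEL K M 1) := W1.finite_legE K M
  haveI : Module.Finite ↥(legEL K M 1) ↥(legEL K M q) := (degA_legEL K hq hqM hM).1
  exact Module.Finite.trans ↥(legEL K M 1) ↥(legEL K M q)

/-- the Legendre coordinate `λ` on `EN₁ = legEL K M q`. -/
def legLCoord (hq : q.Prime) (hqM : ¬ q ∣ M) (hM : M ≠ 1) : FF.Coord K ↥(legEL K M q) :=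
  haveI := finite_legEL_adjoin_t K hq hqM hM
  coordOfHost (legEL K M q) (legT K) (transcendental_legT K)

theorem coe_legLCoord_x (hq : q.Prime) (hqM : ¬ q ∣ M) (hM : M ≠ 1) :
    (((legLCoord K hq hqM hM).x : ↥(legEL K M q)) : LaurentSeries K) = legT K := rfl

end Concrete

section Bar

variable {M q : ℕ} [NeZero M] [NeZero q] [NeZero (M * q)]

/-- the embedding `Ω → ℂ`. -/
@[reducible] def omegaToComplex : Algebra Ω ℂ :=
  ((IsAlgClosed.lift : Ω →ₐ[ℚ] ℂ) : Ω →+* ℂ).toAlgebra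

theorem isScalarTower_omegaToComplex :
    letI := omegaToComplex
    IsScalarTower ℚ Ω ℂ := by
  letI := omegaToComplex
  exact IsScalarTower.of_algebraMap_eq (fun r => by
    rw [eq_ratCast, eq_ratCast, map_ratCast])

/-- the Legendre coordinate on `EN₁(Ω)`. -/
def legLCoordBar (hq : q.Prime) (hqM : ¬ q ∣ M) (hM : M ≠ 1) : FF.Coord Ω ↥(legEL Ω M q) :=
  letI := omegaToComplex
  haveI := isScalarTower_omegaToComplex
  haveI : W1.W1Api M := W1.w1Api_of_ne_one_h2 M hM
  legLCoord Ω hq hqM hM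

/-- the Legendre coordinate on `EN₁(K₁)`, `K₁ ⊆ Ω`. -/
def legLCoordBase (K₁ : IntermediateField ℚ Ω) (hq : q.Prime) (hqM : ¬ q ∣ M) (hM : M ≠ 1) :
    FF.Coord ↥K₁ ↥(legEL ↥K₁ M q) :=
  letI := baseToComplex K₁
  haveI := isScalarTower_baseToComplex K₁
  haveI : W1.W1Api M := W1.w1Api_of_ne_one_h2 M hM
  legLCoord ↥K₁ hq hqM hM

/-- all places of `EN₁(Ω)` have degree one. -/
theorem deg_eq_one_legEL (hq : q.Prime) (hqM : ¬ q ∣ M) (hM : M ≠ 1)
    (P : Place Ω ↥(legEL Ω M q)) : P.deg = 1 :=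
  (legLCoordBar hq hqM hM).deg_eq_one P

instance charZero_legHost (F₀ : IntermediateField ℚ (LaurentSeries ℚ)) :
    CharZero ↥(legHost Ω F₀) :=
  charZero_of_injective_algebraMap (algebraMap Ω ↥(legHost Ω F₀)).injective

theorem hasPrincipalDivisors_legEL (hq : q.Prime) (hqM : ¬ q ∣ M) (hM : M ≠ 1) :
    HasPrincipalDivisors Ω ↥(legEL Ω M q) :=
  (legLCoordBar hq hqM hM).hasPrincipalDivisors

end Bar

section BC

variable (F₀ : IntermediateField ℚ (LaurentSeries ℚ)) (K₁ : IntermediateField ℚ Ω)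

/-- coefficientwise base change `legHost K₁ F₀ → legHost Ω F₀`. -/
def legHostBC : ↥(legHost ↥K₁ F₀) →+* ↥(legHost Ω F₀) :=
  coeffHom (algebraMap ↥K₁ Ω) (legHost ↥K₁ F₀) (legHost Ω F₀)
    (fun _ hx => coeffMap_mem_legHost (algebraMap ↥K₁ Ω) F₀ hx)

theorem coe_legHostBC (x : ↥(legHost ↥K₁ F₀)) :
    ((legHostBC F₀ K₁ x : ↥(legHost Ω F₀)) : LaurentSeries Ω) =
      coeffMap (algebraMap ↥K₁ Ω) (x : LaurentSeries ↥K₁) := rfl

/-- `hφ` of `restrictBC` for `legHostBC`. -/
theorem legHostBC_algebraMap (a : ↥K₁) :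
    legHostBC F₀ K₁ (algebraMap ↥K₁ ↥(legHost ↥K₁ F₀) a) =
      algebraMap Ω ↥(legHost Ω F₀) (algebraMap ↥K₁ Ω a) :=
  coeffHom_algebraMap _ _ _ _ a

/-- `hgen` of `restrictBC` for `legHostBC`. -/
theorem closure_range_legHostBC :
    Subfield.closure (Set.range (legHostBC F₀ K₁) ∪
      Set.range (algebraMap Ω ↥(legHost Ω F₀))) = ⊤ :=
  closure_range_coeffHom _ _ _ _ (legHost_le_adjoin_image (algebraMap ↥K₁ Ω) F₀)

/-- base change to `Ω` factors through `legHostIncl`. -/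
theorem legHostBC_legHostIncl {K' K₂ : IntermediateField ℚ Ω} (hle : K' ≤ K₂)
    (x : ↥(legHost ↥K' F₀)) :
    legHostBC F₀ K₂ (legHostIncl hle F₀ x) = legHostBC F₀ K' x := by
  apply Subtype.ext
  rw [coe_legHostBC, coe_legHostIncl, coe_legHostBC, coeffMap_coeffMap]
  rfl

/-- `legHost K₂ F₀` is generated by `K₂` and the image of `legHost K' F₀`. -/
theorem closure_range_legHostIncl {K' K₂ : IntermediateField ℚ Ω} (hle : K' ≤ K₂) :
    Subfield.closure (Set.range (legHostIncl hle F₀) ∪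
      Set.range (algebraMap ↥K₂ ↥(legHost ↥K₂ F₀))) = ⊤ :=
  closure_range_coeffHom _ _ _ _ (legHost_le_adjoin_image (baseIncl hle) F₀)

/-- coefficientwise base change `legEL K₁ M L → legEL Ω M L`. -/
abbrev legELBC (M L : ℕ) : ↥(legEL ↥K₁ M L) →+* ↥(legEL Ω M L) :=
  legHostBC (W1.F₁ M L) K₁

end BC

section RatFin

variable {M q : ℕ} [NeZero M] [NeZero q] [NeZero (M * q)] (K₀ : IntermediateField ℚ Ω)

/-- **(RAT-fin) for `EN₁`**: finitely many places of `EN₁(Ω)` restrict to rational places of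
`EN₁(K₁)` for every `K₁ ⊇ K₀` containing a suitable finite set. -/
theorem exists_finset_forall_isRationalPlace_legEL (hq : q.Prime) (hqM : ¬ q ∣ M) (hM : M ≠ 1)
    (s : Finset (Place Ω ↥(legEL Ω M q))) :
    ∃ t : Finset Ω, ∀ K₁ : IntermediateField ℚ Ω, K₀ ≤ K₁ → (∀ c ∈ t, c ∈ K₁) → ∀ P ∈ s,
      IsRationalPlace (restrictBC (legELBC K₁ M q) (legHostBC_algebraMap (W1.F₁ M q) K₁)
        (closure_range_legHostBC (W1.F₁ M q) K₁) P) :=
  exists_finset_forall_isRationalPlace_tower (fun K _ _ => legEL K M q)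
    (fun _ _ _ _ _ _ φ _ hx => coeffMap_mem_legHost φ (W1.F₁ M q) hx)
    (fun _ _ _ _ _ _ φ => legHost_le_adjoin_image φ (W1.F₁ M q)) K₀
    (legLCoordBase K₀ hq hqM hM) (deg_eq_one_legEL hq hqM hM) s

variable {K₀} {ℓ : ℕ}

/-- **(RAT-fin) at a base, `EN₁`.** -/
theorem _root_.Fermat.Agent.JA.IsBase.exists_ge_isRationalPlace_legEL (hK₀ : IsBase ℓ K₀)
    (hq : q.Prime) (hqM : ¬ q ∣ M) (hM : M ≠ 1) (s : Finset (Place Ω ↥(legEL Ω M q))) :
    ∃ K₁ : IntermediateField ℚ Ω, IsBase ℓ K₁ ∧ K₀ ≤ K₁ ∧ ∀ P ∈ s,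
      IsRationalPlace (restrictBC (legELBC K₁ M q) (legHostBC_algebraMap (W1.F₁ M q) K₁)
        (closure_range_legHostBC (W1.F₁ M q) K₁) P) := by
  obtain ⟨t, ht⟩ := exists_finset_forall_isRationalPlace_legEL K₀ hq hqM hM s
  obtain ⟨K₁, h1, h2, h3⟩ := hK₀.exists_ge_forall_mem t
  exact ⟨K₁, h1, h2, ht K₁ h2 h3⟩

end RatFin

end

end Fermat.Agent.RB
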