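/-
RB [BB3] = (KEY-H), package A [SSM1], slice (helper8): **coefficientwise base change of the hosts
between two bases `K' ≤ K₂ ⊂ Ω`** (port of MP `KPDESC_helper2_SheetBC` from `legE` to arbitrary
coefficient-compatible hosts, in particular helper7's `legHost K F₀` / `legEL K M L`).

* `comap_gaussValSub_coeffHom` : for ANY two hosts `E₁ ⊂ L₁⸨x⸩`, `E₂ ⊂ L₂⸨x⸩` inside the Gauss fields
  and a coefficient map `τ : L₁ → L₂` over a local homomorphism `τR : R₁ → R₂` of discrete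
  valuation rings, the Gauss sheet of `E₂` pulls back to the Gauss sheet of `E₁`;
* `legHostIncl hle F₀ : legHost K' F₀ →+* legHost K₂ F₀`, its basic API, compatibility with the
  degeneracy maps (`hostA`-type inclusions, `x ↦ x^q`) and with the coefficientwise Galois action;
* `comap_gaussValSub_legHost` : base change of the sheet `W_∞`;
* `comap_W0_of_ssModel` : base change of the sheet `W_0`, from two abstract `SSModel`s (through MP
  `comap_zero_eq_of_isTwoSheet`).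
-/
import Mathlib
import Fermat.Agent.MP.KPDESC_helper2_SheetBC
import Fermat.Agent.RB.KEYH_helper7_Host

set_option autoImplicit false
set_option linter.unusedSectionVars false
set_option linter.unusedVariables false
set_option linter.style.haveILetI false
set_option synthInstance.maxHeartbeats 400000

open HahnSeries IntermediateField AlgebraicCurve ModularCurve IsLocalRing

namespace Fermat.Agent.RB

open Fermat.Agent.JA Fermat.Agent.FF Fermat.Agent.SS Fermat.Agent.Igusa Fermat.Agent.MP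

/-- `Ω = AlgebraicClosure ℚ`. -/
local notation "Ω" => AlgebraicClosure ℚ

section Gauss

variable {R₁ : Type*} [CommRing R₁] [IsDomain R₁] [IsDiscreteValuationRing R₁]
  {L₁ : Type*} [Field L₁] [Algebra R₁ L₁] [IsFractionRing R₁ L₁]
  {R₂ : Type*} [CommRing R₂] [IsDomain R₂] [IsDiscreteValuationRing R₂]
  {L₂ : Type*} [Field L₂] [Algebra R₂ L₂] [IsFractionRing R₂ L₂]
  (τ : L₁ →+* L₂) (τR : R₁ →+* R₂)
  (hτ : ∀ r : R₁, τ (algebraMap R₁ L₁ r) = algebraMap R₂ L₂ (τR r))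
  {E₁ : IntermediateField L₁ (LaurentSeries L₁)} {E₂ : IntermediateField L₂ (LaurentSeries L₂)}
  (hE₁ : E₁ ≤ gaussField R₁ L₁) (hE₂ : E₂ ≤ gaussField R₂ L₂)
  (h : ∀ x ∈ E₁, coeffMap τ x ∈ E₂)

include hτ in
theorem coeffHom_mem_gaussValSub {x : ↥E₁} (hx : x ∈ gaussValSub R₁ L₁ E₁ hE₁) :
    coeffHom τ E₁ E₂ h x ∈ gaussValSub R₂ L₂ E₂ hE₂ := by
  show ((coeffHom τ E₁ E₂ h x : ↥E₂) : LaurentSeries L₂) ∈ gaussInt R₂ L₂
  rw [coe_coeffHom]
  exact coeffMap_mem_gaussInt_hom τ τR hτ hx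

include hτ in
/-- **base change of the Gauss sheet** along a coefficient map over a local homomorphism of
discrete valuation rings (`ϖ₂ ∣ τR ϖ₁`). -/
theorem comap_gaussValSub_coeffHom {ϖ₁ : R₁} (hϖ₁ : Irreducible ϖ₁) {ϖ₂ : R₂}
    (hϖ₂ : Irreducible ϖ₂) (hdvd : ϖ₂ ∣ τR ϖ₁) :
    (gaussValSub R₂ L₂ E₂ hE₂).comap (coeffHom τ E₁ E₂ h) = gaussValSub R₁ L₁ E₁ hE₁ := by
  refine comap_eq_of_local _ _ _ (fun x hx => coeffHom_mem_gaussValSub τ τR hτ hE₁ hE₂ h hx) ?_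
  intro x hx
  have hxmem : x ∈ gaussValSub R₁ L₁ E₁ hE₁ :=
    (ValuationSubring.valuation_le_one_iff _ _).1 hx.le
  have h1 : (⟨x, hxmem⟩ : ↥(gaussValSub R₁ L₁ E₁ hE₁)) ∈
      IsLocalRing.maximalIdeal ↥(gaussValSub R₁ L₁ E₁ hE₁) :=
    (ValuationSubring.valuation_lt_one_iff _ _).2 hx
  rw [maximalIdeal_gaussValSub hϖ₁ E₁ hE₁, Ideal.mem_span_singleton] at h1
  obtain ⟨y, hy⟩ := h1
  have hxy : x = algebraMap L₁ ↥E₁ (algebraMap R₁ L₁ ϖ₁) * (y : ↥E₁) := congrArg Subtype.val hy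
  obtain ⟨w, hw⟩ := hdvd
  have hιx : coeffHom τ E₁ E₂ h x =
      algebraMap L₂ ↥E₂ (algebraMap R₂ L₂ ϖ₂) *
        (algebraMap L₂ ↥E₂ (algebraMap R₂ L₂ w) * coeffHom τ E₁ E₂ h (y : ↥E₁)) := by
    rw [hxy, map_mul, coeffHom_algebraMap, hτ, hw, map_mul, map_mul, mul_assoc]
  have hmem2 : (algebraMap L₂ ↥E₂ (algebraMap R₂ L₂ w) * coeffHom τ E₁ E₂ h (y : ↥E₁)) ∈
      gaussValSub R₂ L₂ E₂ hE₂ :=
    (gaussValSub R₂ L₂ E₂ hE₂).mul_mem _ _ (gaussValSubC E₂ hE₂ w).2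
      (coeffHom_mem_gaussValSub τ τR hτ hE₁ hE₂ h y.2)
  have hmem3 : coeffHom τ E₁ E₂ h x ∈ gaussValSub R₂ L₂ E₂ hE₂ :=
    coeffHom_mem_gaussValSub τ τR hτ hE₁ hE₂ h hxmem
  have h3 : (⟨coeffHom τ E₁ E₂ h x, hmem3⟩ : ↥(gaussValSub R₂ L₂ E₂ hE₂)) ∈
      IsLocalRing.maximalIdeal _ := by
    rw [maximalIdeal_gaussValSub hϖ₂ E₂ hE₂, Ideal.mem_span_singleton]
    exact ⟨⟨_, hmem2⟩, Subtype.ext hιx⟩
  exact (ValuationSubring.valuation_lt_one_iff (gaussValSub R₂ L₂ E₂ hE₂)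
    ⟨coeffHom τ E₁ E₂ h x, hmem3⟩).1 h3

end Gauss

section LegHost

variable {K' K₂ : IntermediateField ℚ Ω} (hle : K' ≤ K₂)
  (F₀ : IntermediateField ℚ (LaurentSeries ℚ))

/-- the coefficientwise map `legHost K' F₀ → legHost K₂ F₀` of the Legendre hosts. -/
noncomputable def legHostIncl : ↥(legHost ↥K' F₀) →+* ↥(legHost ↥K₂ F₀) :=
  coeffHom (baseIncl hle) (legHost ↥K' F₀) (legHost ↥K₂ F₀)
    (fun _ hx => coeffMap_mem_legHost (baseIncl hle) F₀ hx)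

theorem coe_legHostIncl (x : ↥(legHost ↥K' F₀)) :
    ((legHostIncl hle F₀ x : ↥(legHost ↥K₂ F₀)) : LaurentSeries ↥K₂) =
      coeffMap (baseIncl hle) (x : LaurentSeries ↥K') := rfl

theorem legHostIncl_algebraMap (c : ↥K') :
    legHostIncl hle F₀ (algebraMap ↥K' ↥(legHost ↥K' F₀) c) =
      algebraMap ↥K₂ ↥(legHost ↥K₂ F₀) (baseIncl hle c) :=
  coeffHom_algebraMap _ _ _ _ c

theorem legHostIncl_injective : Function.Injective (legHostIncl hle F₀) :=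
  (legHostIncl hle F₀).injective

/-- compatibility with inclusions of hosts (the degeneracy map `A`). -/
theorem legHostIncl_inclusion {F₀ F₀' : IntermediateField ℚ (LaurentSeries ℚ)} (hF : F₀ ≤ F₀')
    (x : ↥(legHost ↥K' F₀)) :
    legHostIncl hle F₀' (IntermediateField.inclusion (legHost_mono hF) x) =
      IntermediateField.inclusion (legHost_mono hF) (legHostIncl hle F₀ x) := by
  apply Subtype.ext
  rw [coe_legHostIncl, IntermediateField.coe_inclusion, IntermediateField.coe_inclusion,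
    coe_legHostIncl]

/-- compatibility with the dilation `x ↦ x ^ ℓ` (the degeneracy map `B`), coordinatewise. -/
theorem coe_legHostIncl_of_coe_eq_qExpand {F₀ F₀' : IntermediateField ℚ (LaurentSeries ℚ)}
    (ℓ : ℕ) [NeZero ℓ] {x : ↥(legHost ↥K' F₀)} {y : ↥(legHost ↥K' F₀')}
    (hy : (y : LaurentSeries ↥K') = qExpand ↥K' ℓ (x : LaurentSeries ↥K')) :
    ((legHostIncl hle F₀' y : ↥(legHost ↥K₂ F₀')) : LaurentSeries ↥K₂) =
      qExpand ↥K₂ ℓ ((legHostIncl hle F₀ x : ↥(legHost ↥K₂ F₀)) : LaurentSeries ↥K₂) := by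
  rw [coe_legHostIncl, hy, coeffMap_qExpand, coe_legHostIncl]

variable (A : ValuationSubring Ω)
  [IsDiscreteValuationRing ↥(baseRing A K')] [IsDiscreteValuationRing ↥(baseRing A K₂)]

theorem legHostIncl_algebraMap_baseRing (r : ↥(baseRing A K')) :
    legHostIncl hle F₀ (algebraMap ↥K' ↥(legHost ↥K' F₀) (algebraMap ↥(baseRing A K') ↥K' r)) =
      algebraMap ↥K₂ ↥(legHost ↥K₂ F₀)
        (algebraMap ↥(baseRing A K₂) ↥K₂ (baseRingIncl hle A r)) := by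
  rw [legHostIncl_algebraMap, baseIncl_algebraMap_baseRing]

/-- **base change of the sheet `W_∞` of a Legendre host.** -/
theorem comap_gaussValSub_legHost
    (hE' : legHost ↥K' F₀ ≤ gaussField ↥(baseRing A K') ↥K')
    (hE₂ : legHost ↥K₂ F₀ ≤ gaussField ↥(baseRing A K₂) ↥K₂) :
    (gaussValSub ↥(baseRing A K₂) ↥K₂ (legHost ↥K₂ F₀) hE₂).comap (legHostIncl hle F₀) =
      gaussValSub ↥(baseRing A K') ↥K' (legHost ↥K' F₀) hE' := by
  obtain ⟨ϖ', hϖ'⟩ := IsDiscreteValuationRing.exists_irreducible ↥(baseRing A K')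
  obtain ⟨ϖ₂, hϖ₂⟩ := IsDiscreteValuationRing.exists_irreducible ↥(baseRing A K₂)
  exact comap_gaussValSub_coeffHom (baseIncl hle) (baseRingIncl hle A) (fun r => rfl) hE' hE₂ _
    hϖ' hϖ₂ (dvd_baseRingIncl_of_irreducible hle A hϖ' hϖ₂)

end LegHost

section W0

variable {q : ℕ} {A : ValuationSubring Ω} {K' K₂ : IntermediateField ℚ Ω} (hle : K' ≤ K₂)
  [IsDiscreteValuationRing ↥(baseRing A K')] [CharZero ↥(baseRing A K')]
  [IsFractionRing ↥(baseRing A K') ↥K']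
  [IsDiscreteValuationRing ↥(baseRing A K₂)] [CharZero ↥(baseRing A K₂)]
  [IsFractionRing ↥(baseRing A K₂) ↥K₂]
  (F₀ : IntermediateField ℚ (LaurentSeries ℚ))
  -- the model over `K'`
  {KM' : Type*} [Field KM'] [Algebra ↥K' KM'] [Algebra ↥(baseRing A K') KM']
  [IsScalarTower ↥(baseRing A K') ↥K' KM']
  {EM' : Type*} [Field EM'] [Algebra KM' EM'] [Algebra ↥K' EM'] [IsScalarTower ↥K' KM' EM']
  [Algebra ↥(baseRing A K') EM'] [IsScalarTower ↥(baseRing A K') KM' EM']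
  {KN' : Type*} [Field KN'] [Algebra ↥K' KN'] [Algebra ↥(baseRing A K') KN']
  [IsScalarTower ↥(baseRing A K') ↥K' KN']
  [Algebra KN' ↥(legHost ↥K' F₀)] [IsScalarTower ↥K' KN' ↥(legHost ↥K' F₀)]
  [Algebra ↥(baseRing A K') ↥(legHost ↥K' F₀)]
  [IsScalarTower ↥(baseRing A K') KN' ↥(legHost ↥K' F₀)]
  [FiniteDimensional KN' ↥(legHost ↥K' F₀)]
  -- the model over `K₂`
  {KM₂ : Type*} [Field KM₂] [Algebra ↥K₂ KM₂] [Algebra ↥(baseRing A K₂) KM₂]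
  [IsScalarTower ↥(baseRing A K₂) ↥K₂ KM₂]
  {EM₂ : Type*} [Field EM₂] [Algebra KM₂ EM₂] [Algebra ↥K₂ EM₂] [IsScalarTower ↥K₂ KM₂ EM₂]
  [Algebra ↥(baseRing A K₂) EM₂] [IsScalarTower ↥(baseRing A K₂) KM₂ EM₂]
  {KN₂ : Type*} [Field KN₂] [Algebra ↥K₂ KN₂] [Algebra ↥(baseRing A K₂) KN₂]
  [IsScalarTower ↥(baseRing A K₂) ↥K₂ KN₂]
  [Algebra KN₂ ↥(legHost ↥K₂ F₀)] [IsScalarTower ↥K₂ KN₂ ↥(legHost ↥K₂ F₀)]
  [Algebra ↥(baseRing A K₂) ↥(legHost ↥K₂ F₀)]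
  [IsScalarTower ↥(baseRing A K₂) KN₂ ↥(legHost ↥K₂ F₀)]
  [FiniteDimensional KN₂ ↥(legHost ↥K₂ F₀)]

/-- **base change of the sheet `W_0`** between two abstract `SSModel`s on the Legendre hosts
`legHost K' F₀`, `legHost K₂ F₀` whose sheets `W_∞` are the Gauss valuation subrings, whose
coordinates `j` are `j(x²)` and whose `B jM` are `j(x^{2q})`. -/
theorem comap_W0_of_ssModel
    (hE' : legHost ↥K' F₀ ≤ gaussField ↥(baseRing A K') ↥K')
    (hE₂ : legHost ↥K₂ F₀ ≤ gaussField ↥(baseRing A K₂) ↥K₂)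
    {ϖ' : ↥(baseRing A K')} (hϖ' : Irreducible ϖ') {ϖ₂ : ↥(baseRing A K₂)}
    (hϖ₂ : Irreducible ϖ₂)
    {n' : ℕ} {S' : Finset ↥(baseRing A K')} {t' : KM'} {jM' : EM'} {j' : KN'}
    {Ad' Bd' : EM' →+* ↥(legHost ↥K' F₀)} {VM' : ValuationSubring EM'}
    {Winf' W0' : ValuationSubring ↥(legHost ↥K' F₀)}
    (h' : SSModel ↥K' ϖ' q n' S' t' jM' j' Ad' Bd' VM' Winf' W0')
    {n₂ : ℕ} {S₂ : Finset ↥(baseRing A K₂)} {t₂ : KM₂} {jM₂ : EM₂} {j₂ : KN₂}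
    {Ad₂ Bd₂ : EM₂ →+* ↥(legHost ↥K₂ F₀)} {VM₂ : ValuationSubring EM₂}
    {Winf₂ W0₂ : ValuationSubring ↥(legHost ↥K₂ F₀)}
    (h₂ : SSModel ↥K₂ ϖ₂ q n₂ S₂ t₂ jM₂ j₂ Ad₂ Bd₂ VM₂ Winf₂ W0₂)
    (hWinf' : Winf' = gaussValSub ↥(baseRing A K') ↥K' (legHost ↥K' F₀) hE')
    (hWinf₂ : Winf₂ = gaussValSub ↥(baseRing A K₂) ↥K₂ (legHost ↥K₂ F₀) hE₂)
    (hR' : ∀ r : ↥(baseRing A K'), algebraMap ↥(baseRing A K') ↥(legHost ↥K' F₀) r =
      algebraMap ↥K' ↥(legHost ↥K' F₀) (algebraMap ↥(baseRing A K') ↥K' r))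
    (hR₂ : ∀ r : ↥(baseRing A K₂), algebraMap ↥(baseRing A K₂) ↥(legHost ↥K₂ F₀) r =
      algebraMap ↥K₂ ↥(legHost ↥K₂ F₀) (algebraMap ↥(baseRing A K₂) ↥K₂ r))
    (hj' : ((algebraMap KN' ↥(legHost ↥K' F₀) j' : ↥(legHost ↥K' F₀)) : LaurentSeries ↥K') =
      jqNModC ↥K' 2)
    (hj₂ : ((algebraMap KN₂ ↥(legHost ↥K₂ F₀) j₂ : ↥(legHost ↥K₂ F₀)) : LaurentSeries ↥K₂) =
      jqNModC ↥K₂ 2)
    [NeZero q]
    (hB' : ((Bd' jM' : ↥(legHost ↥K' F₀)) : LaurentSeries ↥K') =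
      qExpand ↥K' q (jqNModC ↥K' 2))
    (hB₂ : ((Bd₂ jM₂ : ↥(legHost ↥K₂ F₀)) : LaurentSeries ↥K₂) =
      qExpand ↥K₂ q (jqNModC ↥K₂ 2)) :
    W0₂.comap (legHostIncl hle F₀) = W0' := by
  have hιR : ∀ r : ↥(baseRing A K'),
      legHostIncl hle F₀ (algebraMap ↥(baseRing A K') ↥(legHost ↥K' F₀) r) =
        algebraMap ↥(baseRing A K₂) ↥(legHost ↥K₂ F₀) (baseRingIncl hle A r) := by
    intro r
    rw [hR', hR₂]
    exact legHostIncl_algebraMap_baseRing hle F₀ A r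
  have hinj₂ : Function.Injective (algebraMap ↥(baseRing A K₂) ↥(legHost ↥K₂ F₀)) := by
    have : algebraMap ↥(baseRing A K₂) ↥(legHost ↥K₂ F₀) =
        (algebraMap ↥K₂ ↥(legHost ↥K₂ F₀)).comp (algebraMap ↥(baseRing A K₂) ↥K₂) :=
      RingHom.ext hR₂
    rw [this]
    exact (algebraMap ↥K₂ ↥(legHost ↥K₂ F₀)).injective.comp
      (IsFractionRing.injective ↥(baseRing A K₂) ↥K₂)
  have hιj : legHostIncl hle F₀ (algebraMap KN' ↥(legHost ↥K' F₀) j') =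
      algebraMap KN₂ ↥(legHost ↥K₂ F₀) j₂ := by
    apply Subtype.ext
    rw [coe_legHostIncl, hj', hj₂, coeffMap_jqNModC]
  have hιb : legHostIncl hle F₀ (Bd' jM') = Bd₂ jM₂ := by
    apply Subtype.ext
    rw [coe_legHostIncl, hB', hB₂, coeffMap_qExpand, coeffMap_jqNModC]
  have hkinf : Winf₂.valuation (legHostIncl hle F₀ (Bd' jM') -
      algebraMap KN₂ ↥(legHost ↥K₂ F₀) j₂ ^ q) < 1 := by
    rw [hιb]
    have := h₂.kron_j_inf
    rw [h₂.A_j] at this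
    exact this
  have hkzero : W0₂.valuation (algebraMap KN₂ ↥(legHost ↥K₂ F₀) j₂ -
      legHostIncl hle F₀ (Bd' jM') ^ q) < 1 := by
    rw [hιb]
    have := h₂.kron_j_zero
    rw [h₂.A_j] at this
    exact this
  have hinf : Winf₂.comap (legHostIncl hle F₀) = Winf' := by
    rw [hWinf', hWinf₂]
    exact comap_gaussValSub_legHost hle F₀ A hE' hE₂
  exact comap_zero_eq_of_isTwoSheet h'.two h₂.two hϖ' hϖ₂ (baseRingIncl hle A)
    (baseRingIncl_injective hle A) (dvd_baseRingIncl_of_irreducible hle A hϖ' hϖ₂)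
    (legHostIncl hle F₀) hιR hinj₂ hιj h₂.q_prime.two_le _ hkinf hkzero hinf

end W0

end Fermat.Agent.RB
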