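/-
RB [BB3] = (KEY-H), package A [SSM1], slice (helper8): **wrappers in helper7's names** for the
Legendre hosts of level `Γ₁(M)` / `Γ₁(M) ∩ Γ₀(M q)` at every base:

* `ssModelAut_legL` : the coefficientwise action of an inertia element on `EN₁ = legEL K₁ M q` is an
  `SSModelAut` of helper7's model `legLModelAtBases`;
* `legELIncl hle M L : legEL K' M L →+* legEL K₂ M L`, `comap_legWinfL`, `comap_legW0L` : base
  change `K' ≤ K₂` of the hosts and of the two sheets.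
-/
import Mathlib
import Fermat.Agent.RB.KEYH_helper7_AtBases
import Fermat.Agent.RB.KEYH_helper8_Aut
import Fermat.Agent.RB.KEYH_helper8_BC

set_option autoImplicit false
set_option linter.unusedSectionVars false
set_option linter.unusedVariables false
set_option linter.style.haveILetI false
set_option synthInstance.maxHeartbeats 400000

open HahnSeries IntermediateField AlgebraicCurve ModularCurve Polynomial

namespace Fermat.Agent.RB

open Fermat.Agent.JA Fermat.Agent.Igusa Fermat.Agent.SS Fermat.Agent.FF Fermat.Agent.MP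

open scoped Fermat.Agent.JA.Host

/-- `Ω = AlgebraicClosure ℚ`. -/
local notation "Ω" => AlgebraicClosure ℚ

/-- the absolute Galois group. -/
local notation "GQ" => (AlgebraicClosure ℚ ≃ₐ[ℚ] AlgebraicClosure ℚ)

noncomputable section

section Aut

set_option maxHeartbeats 1600000 in
/-- **the coefficientwise action of an inertia element on `EN₁ = legEL K₁ M q` is an `SSModelAut`
of helper7's model at every base.** -/
theorem ssModelAut_legL (M q : ℕ) [NeZero M] [NeZero q] [NeZero (M * q)] (hM : M ≠ 1)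
    (hq : q.Prime) (hq2 : q ≠ 2) (hqM : ¬ q ∣ M)
    (A : ValuationSubring Ω) (hA : A.LiesOverPrime q)
    (K₁ : IntermediateField ℚ Ω) [Normal ℚ ↥K₁] (hK₁ : IsBase q K₁)
    [IsDiscreteValuationRing ↥(baseRing A K₁)] [CharZero ↥(baseRing A K₁)]
    [DecidableEq ↥(baseRing A K₁)] (ϖ : ↥(baseRing A K₁)) (hϖ : Irreducible ϖ)
    (h2 : IsUnit (2 : ↥(baseRing A K₁))) (x y : ℤ) (hbez : (q : ℤ) * x + M * y = 1)
    {σ : GQ} (hσ : σ ∈ A.inertiaSubgroupIn ℚ) :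
    letI := baseToComplex K₁
    SSModelAut ϖ (AdjoinSimple.gen ↥K₁ (jqNModC ↥K₁ 2))
      (legWinfL ↥(baseRing A K₁) ↥K₁ h2 M q) (legW0L ↥(baseRing A K₁) ↥K₁ hbez hq)
      (coeffRingAut (coeffStable_legHost (K := ↥K₁) (W1.F₁ M q)) (resGal K₁ σ) :
        ↥(legEL ↥K₁ M q) →+* ↥(legEL ↥K₁ M q)) := by
  letI := baseToComplex K₁
  haveI : FiniteDimensional ↥(↥K₁)⟮jqNModC ↥K₁ 2⟯ ↥(legEL ↥K₁ M q) :=
    finite_legEL_adjoin_j_base K₁ hq hqM hM
  have h := legLModelAtBases M q hM hq hq2 hqM A hA K₁ hK₁ ϖ hϖ h2 x y hbez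
  refine ssModelAut_legEL (KM := ↥(↥K₁)⟮legT ↥K₁⟯) (KN := ↥(↥K₁)⟮jqNModC ↥K₁ 2⟯) h2 hϖ h rfl rfl
    ?_ ?_ ?_ hσ
  · intro f
    rw [RingHom.coe_coe, coe_hostB]
  · rw [Host.coe_algebraMap, AdjoinSimple.coe_gen]
  · intro r
    exact IsScalarTower.algebraMap_apply ↥(baseRing A K₁) ↥K₁ ↥(legEL ↥K₁ M q) r

end Aut

section BC

variable {K' K₂ : IntermediateField ℚ Ω} (hle : K' ≤ K₂)

/-- the coefficientwise map `legEL K' M L → legEL K₂ M L`. -/
def legELIncl (M L : ℕ) : ↥(legEL ↥K' M L) →+* ↥(legEL ↥K₂ M L) :=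
  legHostIncl hle (W1.F₁ M L)

theorem coe_legELIncl (M L : ℕ) (f : ↥(legEL ↥K' M L)) :
    ((legELIncl hle M L f : ↥(legEL ↥K₂ M L)) : LaurentSeries ↥K₂) =
      coeffMap (baseIncl hle) (f : LaurentSeries ↥K') := rfl

theorem legELIncl_algebraMap (M L : ℕ) (c : ↥K') :
    legELIncl hle M L (algebraMap ↥K' ↥(legEL ↥K' M L) c) =
      algebraMap ↥K₂ ↥(legEL ↥K₂ M L) (baseIncl hle c) :=
  legHostIncl_algebraMap hle _ c

theorem legELIncl_legJL (M L : ℕ) :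
    legELIncl hle M L (legJL ↥K' M L) = legJL ↥K₂ M L := by
  apply Subtype.ext
  rw [coe_legELIncl, coe_legJL, coe_legJL, coeffMap_jqNModC]

/-- compatibility with the degeneracy map `A`. -/
theorem legELIncl_legAL (M q : ℕ) (f : ↥(legEL ↥K' M 1)) :
    legELIncl hle M q ((legAL ↥K' M q : ↥(legEL ↥K' M 1) →+* ↥(legEL ↥K' M q)) f) =
      (legAL ↥K₂ M q : ↥(legEL ↥K₂ M 1) →+* ↥(legEL ↥K₂ M q)) (legELIncl hle M 1 f) := by
  apply Subtype.ext
  rw [coe_legELIncl, RingHom.coe_coe, RingHom.coe_coe, coe_hostA, coe_hostA, coe_legELIncl]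

/-- compatibility with the degeneracy map `B`. -/
theorem legELIncl_legBL (M q : ℕ) [NeZero q] [NeZero (M * q)] (hq : q.Prime) (hq2 : q ≠ 2)
    (f : ↥(legEL ↥K' M 1)) :
    legELIncl hle M q ((legBL ↥K' M q hq hq2 : ↥(legEL ↥K' M 1) →+* ↥(legEL ↥K' M q)) f) =
      (legBL ↥K₂ M q hq hq2 : ↥(legEL ↥K₂ M 1) →+* ↥(legEL ↥K₂ M q)) (legELIncl hle M 1 f) := by
  apply Subtype.ext
  rw [coe_legELIncl, RingHom.coe_coe, RingHom.coe_coe, coe_hostB, coe_hostB, coe_legELIncl,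
    coeffMap_qExpand]

variable (A : ValuationSubring Ω)
  [IsDiscreteValuationRing ↥(baseRing A K')] [IsDiscreteValuationRing ↥(baseRing A K₂)]
  [CharZero ↥(baseRing A K')] [CharZero ↥(baseRing A K₂)]

/-- **base change of the sheet `W_∞`.** -/
theorem comap_legWinfL (h2' : IsUnit (2 : ↥(baseRing A K'))) (h2 : IsUnit (2 : ↥(baseRing A K₂)))
    (M L : ℕ) :
    (legWinfL ↥(baseRing A K₂) ↥K₂ h2 M L).comap (legELIncl hle M L) =
      legWinfL ↥(baseRing A K') ↥K' h2' M L :=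
  comap_gaussValSub_legHost hle (W1.F₁ M L) A _ _

set_option maxHeartbeats 1600000 in
/-- **base change of the sheet `W_0`.** -/
theorem comap_legW0L {M q : ℕ} [NeZero M] [NeZero q] [NeZero (M * q)] (hM : M ≠ 1)
    (hq : q.Prime) (hq2 : q ≠ 2) (hqM : ¬ q ∣ M) (hA : A.LiesOverPrime q)
    (hK' : IsBase q K') (hK₂ : IsBase q K₂) {x y : ℤ} (hbez : (q : ℤ) * x + M * y = 1) :
    (letI := baseToComplex K₂; legW0L ↥(baseRing A K₂) ↥K₂ hbez hq).comap (legELIncl hle M q) =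
      (letI := baseToComplex K'; legW0L ↥(baseRing A K') ↥K' hbez hq) := by
  classical
  haveI : Fact q.Prime := ⟨hq⟩
  obtain ⟨ϖ', hϖ'⟩ := IsDiscreteValuationRing.exists_irreducible ↥(baseRing A K')
  obtain ⟨ϖ₂, hϖ₂⟩ := IsDiscreteValuationRing.exists_irreducible ↥(baseRing A K₂)
  have h2' : IsUnit (2 : ↥(baseRing A K')) := isUnit_ofNat_baseRing hA K' Nat.prime_two hq2
  have h2 : IsUnit (2 : ↥(baseRing A K₂)) := isUnit_ofNat_baseRing hA K₂ Nat.prime_two hq2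
  haveI : FiniteDimensional ↥(↥K')⟮jqNModC ↥K' 2⟯ ↥(legEL ↥K' M q) :=
    finite_legEL_adjoin_j_base K' hq hqM hM
  haveI : FiniteDimensional ↥(↥K₂)⟮jqNModC ↥K₂ 2⟯ ↥(legEL ↥K₂ M q) :=
    finite_legEL_adjoin_j_base K₂ hq hqM hM
  have h' := legLModelAtBases M q hM hq hq2 hqM A hA K' hK' ϖ' hϖ' h2' x y hbez
  have h₂ := legLModelAtBases M q hM hq hq2 hqM A hA K₂ hK₂ ϖ₂ hϖ₂ h2 x y hbez
  refine comap_W0_of_ssModel (q := q) (A := A) hle (W1.F₁ M q)
    (KM' := ↥(↥K')⟮legT ↥K'⟯) (KN' := ↥(↥K')⟮jqNModC ↥K' 2⟯)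
    (KM₂ := ↥(↥K₂)⟮legT ↥K₂⟯) (KN₂ := ↥(↥K₂)⟮jqNModC ↥K₂ 2⟯)
    (legEL_le_gaussField ↥(baseRing A K') ↥K' h2' M q)
    (legEL_le_gaussField ↥(baseRing A K₂) ↥K₂ h2 M q) hϖ' hϖ₂ h' h₂ rfl rfl
    (fun r => IsScalarTower.algebraMap_apply ↥(baseRing A K') ↥K' ↥(legEL ↥K' M q) r)
    (fun r => IsScalarTower.algebraMap_apply ↥(baseRing A K₂) ↥K₂ ↥(legEL ↥K₂ M q) r)
    ?_ ?_ ?_ ?_
  · rw [Host.coe_algebraMap, AdjoinSimple.coe_gen]
  · rw [Host.coe_algebraMap, AdjoinSimple.coe_gen]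
  · rw [RingHom.coe_coe, coe_hostB, coe_legJL]
  · rw [RingHom.coe_coe, coe_hostB, coe_legJL]

end BC

end

end Fermat.Agent.RB
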