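/-
RB [BB3] = (KEY-H), packages A/N — helper7 — complements on the hosts `legEL`:

* `legL_jint`, `legL_jint_base` : **`hjint`**: `j` is integral over `R[j_q]` on `EN₁` (port of
  `SSModelLeg.jint`);
* `finrank_le_of_closure_range`, `finrank_legHostIncl_le` : **the degree bound**
  `[legHost K₂ F₀ : legHost K' F₀] ≤ [K₂ : K']` for `K' ≤ K₂` finite;
* `legHostIncl_coeffRingAut` : the coefficientwise Galois actions over two normal bases `K' ≤ K₂`
  are compatible; `legELIncl_inclN`, `legELIncl_inclM`;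
* `IsBase.exists_ge_isGalBase_legEL` : (T0) a Galois base over which finitely many places of
  `EN₁(Ω)` are rational.
-/
import Mathlib
import Fermat.Agent.RB.KEYH_helper7_NodeHost
import Fermat.Agent.RB.KEYH_helper8_BCL
import Fermat.Agent.SS.BASE_helper1_Leg

set_option autoImplicit false
set_option linter.unusedSectionVars false
set_option linter.unusedVariables false
set_option linter.style.haveILetI false
set_option synthInstance.maxHeartbeats 200000

open HahnSeries IntermediateField AlgebraicCurve ModularCurve Polynomial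

namespace Fermat.Agent.RB

open Fermat.Agent.JA Fermat.Agent.Igusa Fermat.Agent.SS Fermat.Agent.FF Fermat.Agent.MP

open scoped Fermat.Agent.JA.Host

/-- `Ω = AlgebraicClosure ℚ`. -/
local notation "Ω" => AlgebraicClosure ℚ

/-- the absolute Galois group. -/
local notation "GQ" => (AlgebraicClosure ℚ ≃ₐ[ℚ] AlgebraicClosure ℚ)

noncomputable section

section JInt

variable (R : Type*) [CommRing R] [IsDomain R] [IsDiscreteValuationRing R] [CharZero R]
  [DecidableEq R]
  (K : Type) [Field K] [Algebra R K] [IsFractionRing R K] [Algebra ℚ K] [Algebra K ℂ]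
  [IsScalarTower ℚ K ℂ]
  {M q : ℕ} [NeZero M] [NeZero q] [NeZero (M * q)] [W1.W1Api M] {x y : ℤ} {π : R}

/-- **`hjint` on the hosts of level `Γ₁(M)` / `Γ₁(M) ∩ Γ₀(M q)`**: `j` is integral over
`R[j_q]`. -/
theorem legL_jint (hπ : Irreducible π) {h2 : IsUnit (2 : R)}
    {hbez : (q : ℤ) * x + M * y = 1} {hq : q.Prime} {hq2 : q ≠ 2}
    (h : SSModelLeg R K π h2 hbez hq hq2) :
    IsIntegral ↥(Algebra.adjoin R
        {(legBL K M q hq hq2 : ↥(legEL K M 1) →+* ↥(legEL K M q)) (legJL K M 1)})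
      ((legAL K M q : ↥(legEL K M 1) →+* ↥(legEL K M q)) (legJL K M 1)) := by
  have h0 := SSModelLeg.jint R K hπ h
  have h1 := isIntegral_adjoin_map (inclN K M q : ↥(legE K (M * q)) →+* ↥(legEL K M q))
    (fun r => by
      rw [IsScalarTower.algebraMap_apply R K ↥(legE K (M * q)),
        IsScalarTower.algebraMap_apply R K ↥(legEL K M q)]
      exact (inclN K M q).commutes _) h0
  have eA : (inclN K M q : ↥(legE K (M * q)) →+* ↥(legEL K M q))
      (legHostA K M q (legJE K M) : ↥(legE K (M * q))) =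
      (legAL K M q : ↥(legEL K M 1) →+* ↥(legEL K M q)) (legJL K M 1) := by
    apply Subtype.ext
    rw [RingHom.coe_coe, RingHom.coe_coe, coe_inclN, coe_legHostA, coe_hostA, coe_legJE,
      coe_legJL]
  have eB : (inclN K M q : ↥(legE K (M * q)) →+* ↥(legEL K M q))
      (legHostB K M q hq hq2 (legJE K M) : ↥(legE K (M * q))) =
      (legBL K M q hq hq2 : ↥(legEL K M 1) →+* ↥(legEL K M q)) (legJL K M 1) := by
    apply Subtype.ext
    rw [RingHom.coe_coe, RingHom.coe_coe, coe_inclN, coe_legHostB, coe_hostB, coe_legJE,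
      coe_legJL]
  rwa [eA, eB] at h1

end JInt

section JIntBase

attribute [local instance] baseToComplex

/-- **`hjint` on `EN₁` at every base.** -/
theorem legL_jint_base (M q : ℕ) [NeZero M] [NeZero q] [NeZero (M * q)] (hM : M ≠ 1)
    (hq : q.Prime) (hq2 : q ≠ 2) (hqM : ¬ q ∣ M)
    (A : ValuationSubring Ω) (hA : A.LiesOverPrime q)
    (K₁ : IntermediateField ℚ Ω) (hK₁ : IsBase q K₁)
    [IsDiscreteValuationRing ↥(baseRing A K₁)] [CharZero ↥(baseRing A K₁)] :
    IsIntegral ↥(Algebra.adjoin ↥(baseRing A K₁)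
        {(legBL ↥K₁ M q hq hq2 : ↥(legEL ↥K₁ M 1) →+* ↥(legEL ↥K₁ M q)) (legJL ↥K₁ M 1)})
      ((legAL ↥K₁ M q : ↥(legEL ↥K₁ M 1) →+* ↥(legEL ↥K₁ M q)) (legJL ↥K₁ M 1)) := by
  classical
  haveI : Fact q.Prime := ⟨hq⟩
  haveI := isScalarTower_baseToComplex K₁
  haveI : W1.W1Api M := W1.w1Api_of_ne_one_h2 M hM
  obtain ⟨ϖ, hϖ⟩ := IsDiscreteValuationRing.exists_irreducible ↥(baseRing A K₁)
  have h2 : IsUnit (2 : ↥(baseRing A K₁)) := isUnit_ofNat_baseRing hA K₁ Nat.prime_two hq2
  obtain ⟨x, y, hbez⟩ := exists_bezout_of_prime_of_not_dvd hq hqM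
  have hmodel : SSModelLeg ↥(baseRing A K₁) ↥K₁ ϖ h2 hbez hq hq2 :=
    ssModelLeg ↥(baseRing A K₁) ↥K₁ hϖ h2 hbez hq hq2
      (natCast_mem_span_uniformizer_baseRing hA K₁ hϖ)
      (Fermat.Agent.JA.geoHyps_legE_baseRing hA M hqM hK₁ hq2 hϖ)
  exact legL_jint ↥(baseRing A K₁) ↥K₁ hϖ hmodel

end JIntBase

section Degree

/-- **the degree bound of a base change**: if `E₂` is generated, as a field, by the constants `k₂`
and the image of `E` (an extension of `k`), and `k₂ / k` is finite, then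
`[E₂ : E] ≤ [k₂ : k]`. -/
theorem finrank_le_of_closure_range {k k₂ E E₂ : Type*} [Field k] [Field k₂] [Field E] [Field E₂]
    [Algebra k k₂] [Algebra k E] [Algebra k₂ E₂] [FiniteDimensional k k₂]
    (ι : E →+* E₂) (hι : ∀ c : k, ι (algebraMap k E c) = algebraMap k₂ E₂ (algebraMap k k₂ c))
    (hgen : Subfield.closure (Set.range ι ∪ Set.range (algebraMap k₂ E₂)) = ⊤) :
    letI := ι.toAlgebra
    Module.Finite E E₂ ∧ Module.finrank E E₂ ≤ Module.finrank k k₂ := by
  letI algE : Algebra E E₂ := ι.toAlgebra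
  letI algk : Algebra k E₂ := ((algebraMap k₂ E₂).comp (algebraMap k k₂)).toAlgebra
  haveI : IsScalarTower k E E₂ := IsScalarTower.of_algebraMap_eq (fun c => (hι c).symm)
  haveI : IsScalarTower k k₂ E₂ := IsScalarTower.of_algebraMap_eq (fun c => rfl)
  set L : IntermediateField k E₂ := (IsScalarTower.toAlgHom k k₂ E₂).fieldRange with hL
  let eL : k₂ ≃ₐ[k] ↥L := AlgEquiv.ofInjectiveField (IsScalarTower.toAlgHom k k₂ E₂)
  haveI : Module.Finite k ↥L := Module.Finite.equiv eL.toLinearEquiv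
  haveI : Algebra.IsAlgebraic k ↥L := Algebra.IsAlgebraic.of_finite k ↥L
  have h1 := IntermediateField.adjoin_rank_le_of_isAlgebraic_right E L
  have htop : IntermediateField.adjoin E (L : Set E₂) = ⊤ := by
    rw [eq_top_iff]
    intro z _
    have hz : z ∈ Subfield.closure (Set.range ι ∪ Set.range (algebraMap k₂ E₂)) := by
      rw [hgen]; exact Subfield.mem_top z
    have hle : Subfield.closure (Set.range ι ∪ Set.range (algebraMap k₂ E₂)) ≤
        (IntermediateField.adjoin E (L : Set E₂)).toSubfield := by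
      rw [Subfield.closure_le]
      rintro w (⟨a, rfl⟩ | ⟨c, rfl⟩)
      · exact (IntermediateField.adjoin E (L : Set E₂)).algebraMap_mem a
      · exact IntermediateField.subset_adjoin E _ ⟨c, rfl⟩
    exact hle hz
  rw [htop, IntermediateField.rank_top'] at h1
  have hlt : Module.rank k ↥L < Cardinal.aleph0 := Module.rank_lt_aleph0 k ↥L
  have hfin : Module.Finite E E₂ := Module.rank_lt_aleph0_iff.mp (lt_of_le_of_lt h1 hlt)
  refine ⟨hfin, ?_⟩
  have h2 : Module.finrank E E₂ ≤ Module.finrank k ↥L := Cardinal.toNat_le_toNat h1 hlt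
  rwa [eL.symm.toLinearEquiv.finrank_eq] at h2

variable {K' K₂ : IntermediateField ℚ Ω} (hle : K' ≤ K₂)
  (F₀ : IntermediateField ℚ (LaurentSeries ℚ))

/-- **the degree bound `[legHost K₂ F₀ : legHost K' F₀] ≤ [K₂ : K']`.** -/
theorem finrank_legHostIncl_le
    (hfin : letI := (baseIncl hle).toAlgebra; FiniteDimensional ↥K' ↥K₂) :
    letI := (baseIncl hle).toAlgebra
    letI := (legHostIncl hle F₀).toAlgebra
    Module.Finite ↥(legHost ↥K' F₀) ↥(legHost ↥K₂ F₀) ∧
      Module.finrank ↥(legHost ↥K' F₀) ↥(legHost ↥K₂ F₀) ≤ Module.finrank ↥K' ↥K₂ := by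
  letI := (baseIncl hle).toAlgebra
  haveI := hfin
  exact finrank_le_of_closure_range (legHostIncl hle F₀) (legHostIncl_algebraMap hle F₀)
    (closure_range_legHostIncl F₀ hle)

end Degree

section Compat

attribute [local instance] baseToComplex

variable {K' K₂ : IntermediateField ℚ Ω} (hle : K' ≤ K₂) {M q : ℕ} [NeZero M] [NeZero q]
  [NeZero (M * q)]

/-- the inclusion `E_{Mq} → EN₁` of the `Γ₀`-host is compatible with the base change. -/
theorem legELIncl_inclN (f : ↥(legE ↥K' (M * q))) :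
    legELIncl hle M q (inclN ↥K' M q f) = inclN ↥K₂ M q (legIncl hle (M * q) f) := by
  apply Subtype.ext
  rw [coe_legELIncl, coe_inclN, coe_inclN, coe_legIncl]

/-- the inclusion `E_M → EM₁` of the `Γ₀`-host is compatible with the base change. -/
theorem legELIncl_inclM (f : ↥(legE ↥K' M)) :
    legELIncl hle M 1 (inclM ↥K' M f) = inclM ↥K₂ M (legIncl hle M f) := by
  apply Subtype.ext
  rw [coe_legELIncl, coe_inclM, coe_inclM, coe_legIncl]

/-- the coefficientwise Galois actions over two normal bases are compatible. -/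
theorem legHostIncl_coeffRingAut [Normal ℚ ↥K'] [Normal ℚ ↥K₂]
    (F₀ : IntermediateField ℚ (LaurentSeries ℚ)) (σ : GQ) (f : ↥(legHost ↥K' F₀)) :
    legHostIncl hle F₀ (coeffRingAut (coeffStable_legHost (K := ↥K') F₀) (resGal K' σ) f) =
      coeffRingAut (coeffStable_legHost (K := ↥K₂) F₀) (resGal K₂ σ) (legHostIncl hle F₀ f) := by
  apply Subtype.ext
  rw [coe_legHostIncl, coe_coeffRingAut_apply, coe_coeffRingAut_apply, coe_legHostIncl,
    coeffMap_coeffMap, coeffMap_coeffMap]
  refine coeffMap_congr (RingHom.ext fun c => ?_) _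
  apply Subtype.ext
  rw [RingHom.comp_apply, RingHom.comp_apply, coe_baseIncl, RingHom.coe_coe, RingHom.coe_coe,
    coe_resGal, coe_resGal, coe_baseIncl]

end Compat

section GalBase

variable {M q : ℕ} [NeZero M] [NeZero q] [NeZero (M * q)] {K₀ : IntermediateField ℚ Ω} {ℓ : ℕ}

/-- **(T0) for `EN₁`**: over a given base there is a Galois base `K₁` containing finitely many
given constants over which finitely many given places of `EN₁(Ω)` are rational. -/
theorem _root_.Fermat.Agent.JA.IsBase.exists_ge_isGalBase_legEL (hK₀ : IsBase ℓ K₀)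
    (hq : q.Prime) (hqM : ¬ q ∣ M) (hM : M ≠ 1) (t : Finset Ω)
    (s : Finset (Place Ω ↥(legEL Ω M q))) :
    ∃ K₁ : IntermediateField ℚ Ω, IsGalBase ℓ K₁ ∧ K₀ ≤ K₁ ∧ (∀ c ∈ t, c ∈ K₁) ∧
      ∀ P ∈ s, IsRationalPlace (restrictBC (legELBC K₁ M q)
        (legHostBC_algebraMap (W1.F₁ M q) K₁) (closure_range_legHostBC (W1.F₁ M q) K₁) P) := by
  classical
  obtain ⟨s₂, hs₂⟩ := exists_finset_forall_isRationalPlace_legEL K₀ hq hqM hM s
  obtain ⟨K₁, hK₁, hle, hmem⟩ := hK₀.exists_ge_isGalBase_forall_mem (t ∪ s₂)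
  exact ⟨K₁, hK₁, hle, fun c hc => hmem c (Finset.mem_union_left _ hc),
    hs₂ K₁ hle fun c hc => hmem c (Finset.mem_union_right _ hc)⟩

end GalBase

end

end Fermat.Agent.RB
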