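/-
RB [BB3] = (KEY-H), package D [SHAPE+BCH] — helper5 — part 12: **the base change data of
`kummer_cover_of_ssModel_baseChange` on the Legendre hosts `legEL`**, bases `K' ≤ K₂ ⊂ Ω`.

* `legKNIncl hle : K'(j) →+* K₂(j)` (= `κ`), `legKNIncl_algebraMap` (`hκR`),
  `legELIncl_algebraMap_KN` (`hικ`), `legKNIncl_gen` (`hκt`);
* `legL_hresinf`, `legL_hres0` : `hresinf`, `hres0` (the residue fields of the two sheets do not
  change) for `[K₂ : K'] ≤ e`, `ϖ' = ϖ ^ e ε₀`;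
* `legL_hmax` : `hmax`.
-/
import Mathlib
import Fermat.Agent.RB.KEYH_helper5_BCRes
import Fermat.Agent.RB.KEYH_helper7_BCDeg

set_option autoImplicit false
set_option linter.unusedSectionVars false
set_option linter.unusedVariables false
set_option linter.style.haveILetI false
set_option synthInstance.maxHeartbeats 400000

open HahnSeries IntermediateField AlgebraicCurve ModularCurve Polynomial

namespace Fermat.Agent.RB

open Fermat.Agent.JA Fermat.Agent.Igusa Fermat.Agent.SS Fermat.Agent.FF Fermat.Agent.MP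

open scoped Fermat.Agent.JA.Host

/-- `Ω = AlgebraicClosure ℚ`. -/
local notation "Ω" => AlgebraicClosure ℚ

noncomputable section

attribute [local instance] baseToComplex

section KN

variable {K' K₂ : IntermediateField ℚ Ω} (hle : K' ≤ K₂)

/-- the coefficientwise map `K'(j) → K₂(j)`. -/
def legKNIncl : ↥(↥K')⟮jqNModC ↥K' 2⟯ →+* ↥(↥K₂)⟮jqNModC ↥K₂ 2⟯ :=
  coeffHom (baseIncl hle) (↥K')⟮jqNModC ↥K' 2⟯ (↥K₂)⟮jqNModC ↥K₂ 2⟯ (fun x hx => by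
    have := coeffMap_mem_adjoin_simple (baseIncl hle) hx
    rwa [coeffMap_jqNModC] at this)

theorem coe_legKNIncl (c : ↥(↥K')⟮jqNModC ↥K' 2⟯) :
    ((legKNIncl hle c : ↥(↥K₂)⟮jqNModC ↥K₂ 2⟯) : LaurentSeries ↥K₂) =
      coeffMap (baseIncl hle) (c : LaurentSeries ↥K') := rfl

/-- `hκt`. -/
theorem legKNIncl_gen :
    legKNIncl hle (AdjoinSimple.gen ↥K' (jqNModC ↥K' 2)) = AdjoinSimple.gen ↥K₂ (jqNModC ↥K₂ 2) := by
  apply Subtype.ext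
  rw [coe_legKNIncl, AdjoinSimple.coe_gen, AdjoinSimple.coe_gen, coeffMap_jqNModC]

/-- `hικ`. -/
theorem legELIncl_algebraMap_KN (M L : ℕ) [NeZero M] [NeZero L] [NeZero (M * L)]
    [Fact ((↥K')⟮jqNModC ↥K' 2⟯ ≤ legEL ↥K' M L)] [Fact ((↥K₂)⟮jqNModC ↥K₂ 2⟯ ≤ legEL ↥K₂ M L)]
    (c : ↥(↥K')⟮jqNModC ↥K' 2⟯) :
    legELIncl hle M L (algebraMap ↥(↥K')⟮jqNModC ↥K' 2⟯ ↥(legEL ↥K' M L) c) =
      algebraMap ↥(↥K₂)⟮jqNModC ↥K₂ 2⟯ ↥(legEL ↥K₂ M L) (legKNIncl hle c) := by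
  apply Subtype.ext
  rw [coe_legELIncl, Host.coe_algebraMap, Host.coe_algebraMap, coe_legKNIncl]

variable (A : ValuationSubring Ω)

/-- `hκR`. -/
theorem legKNIncl_algebraMap (r : ↥(baseRing A K')) :
    legKNIncl hle (algebraMap ↥(baseRing A K') ↥(↥K')⟮jqNModC ↥K' 2⟯ r) =
      algebraMap ↥(baseRing A K₂) ↥(↥K₂)⟮jqNModC ↥K₂ 2⟯ (baseRingIncl hle A r) := by
  rw [IsScalarTower.algebraMap_apply ↥(baseRing A K') ↥K' ↥(↥K')⟮jqNModC ↥K' 2⟯,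
    IsScalarTower.algebraMap_apply ↥(baseRing A K₂) ↥K₂ ↥(↥K₂)⟮jqNModC ↥K₂ 2⟯]
  exact coeffHom_algebraMap _ _ _ _ _

end KN

section Res

variable (M q : ℕ) [NeZero M] [NeZero q] [NeZero (M * q)] (hM : M ≠ 1)
  (hq : q.Prime) (hq2 : q ≠ 2) (hqM : ¬ q ∣ M)
  (A : ValuationSubring Ω) (hA : A.LiesOverPrime q)
  {K' K₂ : IntermediateField ℚ Ω} (hle : K' ≤ K₂) (hK' : IsBase q K') (hK₂ : IsBase q K₂)
  [IsDiscreteValuationRing ↥(baseRing A K')] [CharZero ↥(baseRing A K')]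
  [DecidableEq ↥(baseRing A K')]
  [IsDiscreteValuationRing ↥(baseRing A K₂)] [CharZero ↥(baseRing A K₂)]
  [DecidableEq ↥(baseRing A K₂)]
  (ϖ' : ↥(baseRing A K')) (hϖ' : Irreducible ϖ') (ϖ : ↥(baseRing A K₂)) (hϖ : Irreducible ϖ)
  (h2' : IsUnit (2 : ↥(baseRing A K'))) (h2 : IsUnit (2 : ↥(baseRing A K₂)))
  (x y : ℤ) (hbez : (q : ℤ) * x + M * y = 1)

/-- the base change of the hosts on the constants of the base rings. -/
theorem legELIncl_algebraMap_baseRing (L : ℕ) (r : ↥(baseRing A K')) :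
    legELIncl hle M L (algebraMap ↥(baseRing A K') ↥(legEL ↥K' M L) r) =
      algebraMap ↥(baseRing A K₂) ↥(legEL ↥K₂ M L) (baseRingIncl hle A r) := by
  rw [IsScalarTower.algebraMap_apply ↥(baseRing A K') ↥K' ↥(legEL ↥K' M L),
    IsScalarTower.algebraMap_apply ↥(baseRing A K₂) ↥K₂ ↥(legEL ↥K₂ M L)]
  exact legHostIncl_algebraMap_baseRing hle (W1.F₁ M L) A r

include hq hA hK' hϖ in
/-- the two base rings have the same residue field. -/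
theorem exists_sub_baseRingIncl_mem_span (r : ↥(baseRing A K₂)) :
    ∃ r' : ↥(baseRing A K'), r - baseRingIncl hle A r' ∈ Ideal.span {ϖ} := by
  haveI : Fact q.Prime := ⟨hq⟩
  obtain ⟨x', hx'⟩ := (residueField_map_baseRingIncl_bijective hA hK'.flatBase_le hle).2
    (IsLocalRing.residue _ r)
  obtain ⟨r', rfl⟩ := IsLocalRing.residue_surjective x'
  refine ⟨r', ?_⟩
  rw [← hϖ.maximalIdeal_eq, ← IsLocalRing.residue_eq_zero_iff, map_sub, sub_eq_zero, ← hx']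
  rfl

variable (hfin : letI := (baseIncl hle).toAlgebra; FiniteDimensional ↥K' ↥K₂)
  {e : ℕ} (he : 0 < e) (hdeg : letI := (baseIncl hle).toAlgebra; Module.finrank ↥K' ↥K₂ ≤ e)
  {ε₀ : (↥(baseRing A K₂))ˣ} (hφπ : baseRingIncl hle A ϖ' = ϖ ^ e * (ε₀ : ↥(baseRing A K₂)))

include hM hq hq2 hqM hA hK' hK₂ hϖ' hϖ hfin he hdeg hφπ in
set_option maxHeartbeats 1600000 in
/-- **`hresinf` and `hres0` on the Legendre hosts**: a totally ramified base change `K' ≤ K₂`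
(`[K₂ : K'] ≤ e`, `ϖ' = ϖ ^ e ε₀`) does not change the residue fields of the two sheets. -/
theorem legL_hres :
    (∀ z ∈ legWinfL ↥(baseRing A K₂) ↥K₂ h2 M q, ∃ a ∈ legWinfL ↥(baseRing A K') ↥K' h2' M q,
      (legWinfL ↥(baseRing A K₂) ↥K₂ h2 M q).valuation (z - legELIncl hle M q a) < 1) ∧
    (∀ z ∈ legW0L ↥(baseRing A K₂) ↥K₂ hbez hq, ∃ a ∈ legW0L ↥(baseRing A K') ↥K' hbez hq,
      (legW0L ↥(baseRing A K₂) ↥K₂ hbez hq).valuation (z - legELIncl hle M q a) < 1) := by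
  haveI : FiniteDimensional ↥(↥K')⟮jqNModC ↥K' 2⟯ ↥(legEL ↥K' M q) :=
    finite_legEL_adjoin_j_base K' hq hqM hM
  haveI : FiniteDimensional ↥(↥K₂)⟮jqNModC ↥K₂ 2⟯ ↥(legEL ↥K₂ M q) :=
    finite_legEL_adjoin_j_base K₂ hq hqM hM
  have h' := legLModelAtBases M q hM hq hq2 hqM A hA K' hK' ϖ' hϖ' h2' x y hbez
  have h₂ := legLModelAtBases M q hM hq hq2 hqM A hA K₂ hK₂ ϖ hϖ h2 x y hbez
  obtain ⟨hfinE, hdegE⟩ := finrank_legHostIncl_le hle (W1.F₁ M q) hfin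
  have hπE : algebraMap ↥(baseRing A K₂) ↥(legEL ↥K₂ M q) ϖ ≠ 0 :=
    algebraMap_pi_ne_zero (K₁ := ↥K₂) (K := ↥(↥K₂)⟮jqNModC ↥K₂ 2⟯) hϖ
  have hrel : algebraMap ↥(baseRing A K₂) ↥(legEL ↥K₂ M q) ϖ ^ e *
      algebraMap ↥(baseRing A K₂) ↥(legEL ↥K₂ M q) (ε₀ : ↥(baseRing A K₂)) =
      legELIncl hle M q (algebraMap ↥(baseRing A K') ↥(legEL ↥K' M q) ϖ') := by
    rw [legELIncl_algebraMap_baseRing, hφπ, map_mul, map_pow]
  have hε : ∀ W : ValuationSubring ↥(legEL ↥K₂ M q),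
      (∀ b ∈ chartOne ↥(baseRing A K₂) ↥(legEL ↥K₂ M q)
        (AdjoinSimple.gen ↥K₂ (jqNModC ↥K₂ 2)), b ∈ W) →
      algebraMap ↥(baseRing A K₂) ↥(legEL ↥K₂ M q) (ε₀ : ↥(baseRing A K₂)) ∈ W ∧
      (algebraMap ↥(baseRing A K₂) ↥(legEL ↥K₂ M q) (ε₀ : ↥(baseRing A K₂)))⁻¹ ∈ W := by
    intro W hW
    refine ⟨hW _ (Subalgebra.algebraMap_mem _ _), ?_⟩
    have h3 : (algebraMap ↥(baseRing A K₂) ↥(legEL ↥K₂ M q) (ε₀ : ↥(baseRing A K₂)))⁻¹ =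
        algebraMap ↥(baseRing A K₂) ↥(legEL ↥K₂ M q) ((ε₀⁻¹ : (↥(baseRing A K₂))ˣ) :
          ↥(baseRing A K₂)) := by
      exact (eq_inv_of_mul_eq_one_left (by rw [← map_mul, Units.inv_mul, map_one])).symm
    rw [h3]
    exact hW _ (Subalgebra.algebraMap_mem _ _)
  have hπnu : ∀ W : ValuationSubring ↥(legEL ↥K₂ M q),
      IsGaussAt ↥(baseRing A K₂) ϖ (AdjoinSimple.gen ↥K₂ (jqNModC ↥K₂ 2))
        (W.comap (algebraMap ↥(↥K₂)⟮jqNModC ↥K₂ 2⟯ ↥(legEL ↥K₂ M q))) →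
      (algebraMap ↥(baseRing A K₂) ↥(legEL ↥K₂ M q) ϖ)⁻¹ ∉ W := by
    intro W hG
    obtain ⟨-, hlt⟩ := val_pi_lt_one (K₁ := ↥K₂) hϖ hG
    rwa [← TwoExt.val_lt_one_iff_inv_not_mem W hπE]
  constructor
  · have hWV : ∀ f : ↥(legEL ↥K' M q), legELIncl hle M q f ∈ legWinfL ↥(baseRing A K₂) ↥K₂ h2 M q ↔
        f ∈ legWinfL ↥(baseRing A K') ↥K' h2' M q := by
      intro f
      rw [← comap_legWinfL hle A h2' h2 M q]
      rfl
    obtain ⟨hε1, hε2⟩ := hε _ h₂.two.chart_le_inf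
    exact exists_sub_val_lt_one_of_baseChange (K₁' := ↥K') hϖ' h'.j_transcendental h'.j_adjoin
      h'.two.gauss_inf h'.two.e_inf (legELIncl hle M q) hWV hfinE he (hdegE.trans hdeg)
      (h₂.two.chart_le_inf _ (Subalgebra.algebraMap_mem _ _)) (hπnu _ h₂.two.gauss_inf)
      hε1 hε2 hrel
  · have hWV : ∀ f : ↥(legEL ↥K' M q), legELIncl hle M q f ∈ legW0L ↥(baseRing A K₂) ↥K₂ hbez hq ↔
        f ∈ legW0L ↥(baseRing A K') ↥K' hbez hq := by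
      intro f
      rw [← comap_legW0L hle A hM hq hq2 hqM hA hK' hK₂ hbez]
      rfl
    obtain ⟨hε1, hε2⟩ := hε _ h₂.two.chart_le_zero
    exact exists_sub_val_lt_one_of_baseChange (K₁' := ↥K') hϖ' h'.j_transcendental h'.j_adjoin
      h'.two.gauss_zero h'.two.e_zero (legELIncl hle M q) hWV hfinE he (hdegE.trans hdeg)
      (h₂.two.chart_le_zero _ (Subalgebra.algebraMap_mem _ _)) (hπnu _ h₂.two.gauss_zero)
      hε1 hε2 hrel

include hM hq hq2 hqM hA hK' hK₂ hϖ' hϖ he hφπ h2 hbez in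
set_option maxHeartbeats 1600000 in
/-- **`hmax` on the Legendre hosts**: a closed point of the special fibre of the big chart lies
over a closed point of the small chart. -/
theorem legL_hmax :
    haveI : FiniteDimensional ↥(↥K₂)⟮jqNModC ↥K₂ 2⟯ ↥(legEL ↥K₂ M q) :=
      finite_legEL_adjoin_j_base K₂ hq hqM hM
    ∀ 𝔪₂ : Ideal ↥(chartOne ↥(baseRing A K₂) ↥(legEL ↥K₂ M q)
        (AdjoinSimple.gen ↥K₂ (jqNModC ↥K₂ 2))), 𝔪₂.IsMaximal →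
      algebraMap ↥(baseRing A K₂) ↥(chartOne ↥(baseRing A K₂) ↥(legEL ↥K₂ M q)
        (AdjoinSimple.gen ↥K₂ (jqNModC ↥K₂ 2))) ϖ ∈ 𝔪₂ →
      (𝔪₂.comap (chartBaseMap (baseRingIncl hle A) (legKNIncl hle) (legELIncl hle M q)
        (legKNIncl_algebraMap hle A) (legELIncl_algebraMap_KN hle M q)
        (legKNIncl_gen hle))).IsMaximal := by
  haveI : FiniteDimensional ↥(↥K₂)⟮jqNModC ↥K₂ 2⟯ ↥(legEL ↥K₂ M q) :=
    finite_legEL_adjoin_j_base K₂ hq hqM hM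
  have h₂ := legLModelAtBases M q hM hq hq2 hqM A hA K₂ hK₂ ϖ hϖ h2 x y hbez
  haveI : Fact q.Prime := ⟨hq⟩
  haveI := hK₂.isAlgClosed_residueField hA
  intro 𝔪₂ h𝔪₂ hπ𝔪₂
  refine comap_chartBaseMap_isMaximal_of_pi_mem (K₁ := ↥K₂) (baseRingIncl hle A) (legKNIncl hle)
    (legELIncl hle M q) hϖ h₂.j_transcendental h₂.j_adjoin hϖ' _ _ _ ?_
    (exists_sub_baseRingIncl_mem_span q hq A hA hle hK' ϖ hϖ) 𝔪₂ h𝔪₂ hπ𝔪₂
  rw [hφπ, Ideal.mem_span_singleton]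
  exact Dvd.dvd.mul_right (dvd_pow_self ϖ he.ne') _

end Res

end

end Fermat.Agent.RB
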