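/-
RB (S43), kill-test (ii) — helper8 — **(C): the valuation subring of a closed point of a sheet, from
chart data.**

`A` a noetherian ring (a chart), `𝔭₀ ⊆ 𝔪₀` a prime (a sheet) and a maximal ideal (a closed point),
`x₀` a branch uniformizer of `(𝔭₀, 𝔪₀)`, `φ : A → κ` a ring homomorphism to a field with kernel `𝔭₀`
such that every element of `κ` is a fraction of values of `φ`.  Then

  `pointVal = {β ∈ κ | ∃ a s, s ∉ 𝔪₀ ∧ β · φ s = φ a}`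

is a valuation subring of `κ` (the local ring of the sheet at the closed point), it contains `φ A`,
`φ a` is a non-unit iff `a ∈ 𝔪₀`, and `φ x₀` generates its maximal ideal.
-/
import Mathlib
import Fermat.Agent.SS.DVRFORM_helper1

set_option autoImplicit false
set_option linter.unusedSectionVars false
set_option linter.style.haveILetI false

namespace Fermat.Agent.RB

open Fermat.Agent.SS

section Abar

variable {A : Type*} [CommRing A] [IsNoetherianRing A] {κ : Type*} [Field κ] (φ : A →+* κ)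
  {𝔭₀ 𝔪₀ : Ideal A} [h𝔭₀ : 𝔭₀.IsPrime] [h𝔪₀ : 𝔪₀.IsMaximal]

/-- the carrier of the valuation subring of the closed point `𝔪₀`. -/
def pointSet (φ : A →+* κ) (𝔪₀ : Ideal A) : Set κ :=
  {β | ∃ a s : A, s ∉ 𝔪₀ ∧ β * φ s = φ a}

theorem map_mem_pointSet (a : A) : φ a ∈ pointSet φ 𝔪₀ :=
  ⟨a, 1, fun h => h𝔪₀.ne_top ((Ideal.eq_top_iff_one _).mpr h), by rw [map_one, mul_one]⟩

/-- **the valuation subring of the closed point `𝔪₀` of the sheet `𝔭₀`.** -/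
def pointVal (h𝔭 : RingHom.ker φ = 𝔭₀) (hle : 𝔭₀ ≤ 𝔪₀)
    (hfrac : ∀ β : κ, ∃ a s : A, φ s ≠ 0 ∧ β * φ s = φ a)
    {x₀ : A} (hx : IsBranchUniformizer 𝔭₀ 𝔪₀ x₀) : ValuationSubring κ where
  carrier := pointSet φ 𝔪₀
  mul_mem' := by
    rintro β γ ⟨a, s, hs, h1⟩ ⟨b, t, ht, h2⟩
    refine ⟨a * b, s * t, fun h => (h𝔪₀.isPrime.mem_or_mem h).elim hs ht, ?_⟩
    rw [map_mul, map_mul, ← h1, ← h2]; ring
  one_mem' := by
    have := map_mem_pointSet (𝔪₀ := 𝔪₀) φ 1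
    rwa [map_one] at this
  add_mem' := by
    rintro β γ ⟨a, s, hs, h1⟩ ⟨b, t, ht, h2⟩
    refine ⟨a * t + b * s, s * t, fun h => (h𝔪₀.isPrime.mem_or_mem h).elim hs ht, ?_⟩
    rw [map_add, map_mul, map_mul, map_mul, ← h1, ← h2]; ring
  zero_mem' := by
    have := map_mem_pointSet (𝔪₀ := 𝔪₀) φ 0
    rwa [map_zero] at this
  neg_mem' := by
    rintro β ⟨a, s, hs, h1⟩
    exact ⟨-a, s, hs, by rw [map_neg, ← h1]; ring⟩
  mem_or_inv_mem' := by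
    intro β
    by_cases hβ : β = 0
    · left
      rw [hβ]
      have := map_mem_pointSet (𝔪₀ := 𝔪₀) φ 0
      rwa [map_zero] at this
    obtain ⟨a, s', hs', hβs⟩ := hfrac β
    have ha0 : φ a ≠ 0 := by rw [← hβs]; exact mul_ne_zero hβ hs'
    have ha𝔭 : a ∉ 𝔭₀ := fun h => ha0 ((RingHom.mem_ker).mp (h𝔭 ▸ h))
    have hs𝔭 : s' ∉ 𝔭₀ := fun h => hs' ((RingHom.mem_ker).mp (h𝔭 ▸ h))
    obtain ⟨k₁, s₁, e₁, hs₁, he₁, h₁⟩ := hx.exists_pow_mul_sub_mem hle a ha𝔭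
    obtain ⟨k₂, s₂, e₂, hs₂, he₂, h₂⟩ := hx.exists_pow_mul_sub_mem hle s' hs𝔭
    rw [← h𝔭, RingHom.mem_ker, map_sub, sub_eq_zero, map_mul, map_mul, map_pow] at h₁ h₂
    have hne : ∀ c : A, c ∉ 𝔪₀ → φ c ≠ 0 := fun c hc h0 =>
      hc (hle (h𝔭 ▸ (RingHom.mem_ker).mpr h0))
    have hx0 : φ x₀ ≠ 0 := fun h0 => hx.notMem (h𝔭 ▸ (RingHom.mem_ker).mpr h0)
    rcases le_total k₂ k₁ with hk | hk
    · left
      refine ⟨e₁ * s₂ * x₀ ^ (k₁ - k₂), s₁ * e₂,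
        fun h => (h𝔪₀.isPrime.mem_or_mem h).elim hs₁ he₂, ?_⟩
      have hpow : φ x₀ ^ k₁ = φ x₀ ^ (k₁ - k₂) * φ x₀ ^ k₂ := by
        rw [← pow_add, Nat.sub_add_cancel hk]
      have key : β * φ (s₁ * e₂) * (φ s' * φ s₂) = φ (e₁ * s₂ * x₀ ^ (k₁ - k₂)) * (φ s' * φ s₂) := by
        simp only [map_mul, map_pow]
        calc β * (φ s₁ * φ e₂) * (φ s' * φ s₂)
            = (β * φ s') * φ s₁ * (φ e₂ * φ s₂) := by ring
          _ = (φ s₁ * φ a) * φ s₂ * φ e₂ := by rw [hβs]; ring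
          _ = (φ e₁ * φ x₀ ^ k₁) * φ s₂ * φ e₂ := by rw [h₁]
          _ = φ e₁ * φ s₂ * φ x₀ ^ (k₁ - k₂) * (φ e₂ * φ x₀ ^ k₂) := by rw [hpow]; ring
          _ = φ e₁ * φ s₂ * φ x₀ ^ (k₁ - k₂) * (φ s₂ * φ s') := by rw [h₂]
          _ = φ e₁ * φ s₂ * φ x₀ ^ (k₁ - k₂) * (φ s' * φ s₂) := by ring
      exact mul_right_cancel₀ (mul_ne_zero hs' (hne s₂ hs₂)) key
    · right
      refine ⟨s₁ * e₂ * x₀ ^ (k₂ - k₁), e₁ * s₂,
        fun h => (h𝔪₀.isPrime.mem_or_mem h).elim he₁ hs₂, ?_⟩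
      have hpow : φ x₀ ^ k₂ = φ x₀ ^ (k₂ - k₁) * φ x₀ ^ k₁ := by
        rw [← pow_add, Nat.sub_add_cancel hk]
      have hβa : β = φ a * (φ s')⁻¹ := by
        rw [← hβs, mul_assoc, mul_inv_cancel₀ hs', mul_one]
      have key : β⁻¹ * φ (e₁ * s₂) * (φ a * φ s₁) =
          φ (s₁ * e₂ * x₀ ^ (k₂ - k₁)) * (φ a * φ s₁) := by
        simp only [map_mul, map_pow]
        have hinv : β⁻¹ * φ a = φ s' := by
          rw [hβa, mul_inv, inv_inv, mul_comm (φ a)⁻¹, mul_assoc, inv_mul_cancel₀ ha0, mul_one]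
        calc β⁻¹ * (φ e₁ * φ s₂) * (φ a * φ s₁)
            = (β⁻¹ * φ a) * φ e₁ * (φ s₂ * φ s₁) := by ring
          _ = φ e₁ * φ s₁ * (φ s₂ * φ s') := by rw [hinv]; ring
          _ = φ e₁ * φ s₁ * (φ e₂ * φ x₀ ^ k₂) := by rw [h₂]
          _ = φ s₁ * φ e₂ * φ x₀ ^ (k₂ - k₁) * (φ e₁ * φ x₀ ^ k₁) := by rw [hpow]; ring
          _ = φ s₁ * φ e₂ * φ x₀ ^ (k₂ - k₁) * (φ s₁ * φ a) := by rw [h₁]
          _ = φ s₁ * φ e₂ * φ x₀ ^ (k₂ - k₁) * (φ a * φ s₁) := by ring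
      exact mul_right_cancel₀ (mul_ne_zero ha0 (hne s₁ hs₁)) key

variable (h𝔭 : RingHom.ker φ = 𝔭₀) (hle : 𝔭₀ ≤ 𝔪₀)
  (hfrac : ∀ β : κ, ∃ a s : A, φ s ≠ 0 ∧ β * φ s = φ a)
  {x₀ : A} (hx : IsBranchUniformizer 𝔭₀ 𝔪₀ x₀)

theorem mem_pointVal_iff (β : κ) :
    β ∈ pointVal φ h𝔭 hle hfrac hx ↔ ∃ a s : A, s ∉ 𝔪₀ ∧ β * φ s = φ a := Iff.rfl

theorem map_mem_pointVal (a : A) : φ a ∈ pointVal φ h𝔭 hle hfrac hx :=
  map_mem_pointSet φ a

/-- `φ a` is a non-unit of `pointVal` iff `a ∈ 𝔪₀`. -/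
theorem valuation_map_lt_one_iff (a : A) :
    (pointVal φ h𝔭 hle hfrac hx).valuation (φ a) < 1 ↔ a ∈ 𝔪₀ := by
  constructor
  · intro hlt
    by_contra ha
    have hne : φ a ≠ 0 := fun h0 => ha (hle (h𝔭 ▸ (RingHom.mem_ker).mpr h0))
    have hinv : (φ a)⁻¹ ∈ pointVal φ h𝔭 hle hfrac hx :=
      ⟨1, a, ha, by rw [map_one, inv_mul_cancel₀ hne]⟩
    have h1 : (pointVal φ h𝔭 hle hfrac hx).valuation (φ a)⁻¹ ≤ 1 :=
      (ValuationSubring.valuation_le_one_iff _ _).mpr hinv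
    rw [map_inv₀] at h1
    have h2 : (pointVal φ h𝔭 hle hfrac hx).valuation (φ a) ≠ 0 :=
      (Valuation.ne_zero_iff _).mpr hne
    have h3 : 1 ≤ (pointVal φ h𝔭 hle hfrac hx).valuation (φ a) := by
      rwa [inv_le_one₀ (zero_lt_iff.mpr h2)] at h1
    exact absurd hlt (not_lt.mpr h3)
  · intro ha
    by_cases h0 : φ a = 0
    · rw [h0, map_zero]; exact zero_lt_one
    rw [Fermat.Agent.SS.TwoExt.val_lt_one_iff_inv_not_mem _ h0]
    rintro ⟨b, s, hs, hbs⟩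
    apply hs
    have h1 : φ s = φ (a * b) := by
      rw [map_mul, ← hbs, ← mul_assoc, mul_inv_cancel₀ h0, one_mul]
    have h2 : s - a * b ∈ 𝔭₀ := by
      rw [← h𝔭, RingHom.mem_ker, map_sub, h1, sub_self]
    have : s = (s - a * b) + a * b := by ring
    rw [this]
    exact 𝔪₀.add_mem (hle h2) (𝔪₀.mul_mem_right _ ha)

theorem valuation_map_eq_one {s : A} (hs : s ∉ 𝔪₀) :
    (pointVal φ h𝔭 hle hfrac hx).valuation (φ s) = 1 := by
  have h1 : (pointVal φ h𝔭 hle hfrac hx).valuation (φ s) ≤ 1 :=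
    (ValuationSubring.valuation_le_one_iff _ _).mpr (map_mem_pointVal φ h𝔭 hle hfrac hx s)
  rcases lt_or_eq_of_le h1 with h | h
  · exact absurd ((valuation_map_lt_one_iff φ h𝔭 hle hfrac hx s).mp h) hs
  · exact h

include h𝔭 hx in
theorem map_uniformizer_ne_zero : φ x₀ ≠ 0 :=
  fun h0 => hx.notMem (h𝔭 ▸ (RingHom.mem_ker).mpr h0)

theorem valuation_map_uniformizer_lt_one :
    (pointVal φ h𝔭 hle hfrac hx).valuation (φ x₀) < 1 :=
  (valuation_map_lt_one_iff φ h𝔭 hle hfrac hx x₀).mpr hx.mem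

/-- **`φ x₀` generates the maximal ideal of `pointVal`** (in the shape of `kummer_one_ext`). -/
theorem valuation_le_uniformizer (β : κ)
    (hβ : (pointVal φ h𝔭 hle hfrac hx).valuation β < 1) :
    (pointVal φ h𝔭 hle hfrac hx).valuation β ≤ (pointVal φ h𝔭 hle hfrac hx).valuation (φ x₀) := by
  set V := pointVal φ h𝔭 hle hfrac hx with hV
  have hmem : β ∈ V := (ValuationSubring.valuation_le_one_iff _ _).mp hβ.le
  obtain ⟨a, s, hs, hβs⟩ := hmem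
  have hvs : V.valuation (φ s) = 1 := valuation_map_eq_one φ h𝔭 hle hfrac hx hs
  have hva : V.valuation (φ a) = V.valuation β := by
    rw [← hβs, map_mul, hvs, mul_one]
  have ha : a ∈ 𝔪₀ := (valuation_map_lt_one_iff φ h𝔭 hle hfrac hx a).mp (hva ▸ hβ)
  obtain ⟨a', s', hs', h'⟩ := hx.gen a ha
  rw [← h𝔭, RingHom.mem_ker, map_sub, sub_eq_zero, map_mul, map_mul] at h'
  have hvs' : V.valuation (φ s') = 1 := valuation_map_eq_one φ h𝔭 hle hfrac hx hs'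
  have hva' : V.valuation (φ a') ≤ 1 :=
    (ValuationSubring.valuation_le_one_iff _ _).mpr (map_mem_pointVal φ h𝔭 hle hfrac hx a')
  calc V.valuation β = V.valuation (φ s') * V.valuation (φ a) := by rw [hvs', one_mul, hva]
    _ = V.valuation (φ a') * V.valuation (φ x₀) := by rw [← map_mul, h', map_mul]
    _ ≤ 1 * V.valuation (φ x₀) := mul_le_mul_left hva' _
    _ = V.valuation (φ x₀) := one_mul _

end Abar

end Fermat.Agent.RB
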