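/-
RB (S43), kill-test (ii) — helper8 — **branch uniformizers of a Kummer cover, in `IsBranchUniformizer`
currency** (wrappers around `KUMBR_helper8_Hom` / `KUMBR_helper8_EtaleHom`).

`i : A → B` (chart of the host → chart of its Kummer cover), `φ : A → κ`, `ψ : B → κ'` the
reductions along a sheet and the sheet above it (`ker φ = 𝔭₀`, `ker ψ = 𝔭'`), `𝔪' ⊇ 𝔭'` a prime of
`B`, `𝔪₀ = i⁻¹ 𝔪'`, `x₀` a branch uniformizer of `(𝔭₀, 𝔪₀)`.

* `isBranchUniformizer_of_pow_eq` (node type): `ψ (i a · z ^ m) = ψ (i (b x₀))` ⇒ `z` is a branch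
  uniformizer of `(𝔭', 𝔪')`;
* `isBranchUniformizer_of_pow_eq_unit` (étale type): `ψ (i a · z ^ m) = ψ (i b)`, `z ≡ i ζ (𝔪')` ⇒
  `i x₀` is a branch uniformizer of `(𝔭', 𝔪')`;
* `prime_of_generator`, `isUnit_of_valuation_eq_one` : the hypotheses on `D` when `D = ↥Ā` is a
  valuation subring of `κ` whose maximal ideal is generated by `φ x₀`.
-/
import Mathlib
import Fermat.Agent.SS.MODLOC_helper5_Core
import Fermat.Agent.RB.KUMBR_helper8_EtaleHom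

set_option autoImplicit false
set_option linter.unusedSectionVars false
set_option linter.style.haveILetI false

namespace Fermat.Agent.RB

open Fermat.Agent.SS

section Wrap

variable {A B : Type*} [CommRing A] [CommRing B] (i : A →+* B)
  {κ κ' : Type*} [Field κ] [Field κ'] [Algebra κ κ'] [FiniteDimensional κ κ']
  [Algebra.IsSeparable κ κ']
  (φ : A →+* κ) (ψ : B →+* κ')
  {D : Type*} [CommRing D] [IsDomain D] [IsIntegrallyClosed D] [Algebra D κ] [IsFractionRing D κ]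
  [Algebra D κ'] [IsScalarTower D κ κ']
  (ι : A →+* D)

/-- the `gen` clause of a branch uniformizer, in terms of the reduction `φ`. -/
theorem IsBranchUniformizer.gen_hom {𝔭₀ 𝔪₀ : Ideal A} {x₀ : A} (hx : IsBranchUniformizer 𝔭₀ 𝔪₀ x₀)
    (h𝔭₀ : RingHom.ker φ = 𝔭₀) :
    ∀ y ∈ 𝔪₀, ∃ t e : A, t ∉ 𝔪₀ ∧ φ (t * y) = φ (e * x₀) := by
  intro y hy
  obtain ⟨e, t, ht, hte⟩ := hx.gen y hy
  refine ⟨t, e, ht, ?_⟩
  rw [← h𝔭₀, RingHom.mem_ker, map_sub] at hte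
  exact sub_eq_zero.mp hte

/-- **node type**: an `m`-th root of `x₀ · unit` is a branch uniformizer of the cover. -/
theorem isBranchUniformizer_of_pow_eq
    {𝔭₀ : Ideal A} {𝔭' 𝔪' : Ideal B} [h𝔪' : 𝔪'.IsPrime]
    (h𝔭₀ : RingHom.ker φ = 𝔭₀) (h𝔭' : RingHom.ker ψ = 𝔭') (hle : 𝔭' ≤ 𝔪')
    (hψi : ∀ a : A, ψ (i a) = algebraMap κ κ' (φ a))
    (hιφ : ∀ a : A, algebraMap D κ (ι a) = φ a)
    (hint : ∀ w : B, i.IsIntegralElem w)
    (hunit : ∀ s : A, s ∉ 𝔪'.comap i → IsUnit (ι s))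
    (hsurj : ∀ d : D, ∃ a' t : A, t ∉ 𝔪'.comap i ∧ d * ι t = ι a')
    {x₀ : A} (hx : IsBranchUniformizer 𝔭₀ (𝔪'.comap i) x₀) (hx₀ : Prime (ι x₀))
    {m : ℕ} (hm : 0 < m) (hmA : (m : A) ∉ 𝔪'.comap i)
    {a b : A} (ha : a ∉ 𝔪'.comap i) (hb : b ∉ 𝔪'.comap i) {z : B}
    (hz : ψ (i a * z ^ m) = ψ (i (b * x₀)))
    (hdeg : Module.finrank κ κ' ≤ m) :
    IsBranchUniformizer 𝔭' 𝔪' z := by
  haveI : (𝔪'.comap i).IsPrime := Ideal.comap_isPrime i 𝔪'
  have hgen₀ := IsBranchUniformizer.gen_hom φ hx h𝔭₀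
  have hker : RingHom.ker ψ ≤ 𝔪' := h𝔭'.symm ▸ hle
  have hia : i a ∉ 𝔪' := fun h => ha (Ideal.mem_comap.mpr h)
  have hψa : ψ (i a) ≠ 0 := fun h => hia (hker ((RingHom.mem_ker).mpr h))
  have hb𝔭 : ψ (i b) ≠ 0 := fun h =>
    hb (Ideal.mem_comap.mpr (hker ((RingHom.mem_ker).mpr h)))
  have hx₀ψ : ψ (i x₀) ≠ 0 := by
    rw [hψi]
    intro h
    have h1 : φ x₀ = 0 := (map_eq_zero_iff _ (algebraMap κ κ').injective).mp h
    exact hx.notMem (h𝔭₀ ▸ (RingHom.mem_ker).mpr h1)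
  refine ⟨?_, ?_, ?_⟩
  · -- `z ∈ 𝔪'`
    have h0 : i a * z ^ m - i (b * x₀) ∈ 𝔪' :=
      hker (by rw [RingHom.mem_ker, map_sub, hz, sub_self])
    have hx₀𝔪 : i x₀ ∈ 𝔪' := Ideal.mem_comap.mp hx.mem
    have h1 : i a * z ^ m ∈ 𝔪' := by
      have : i a * z ^ m = (i a * z ^ m - i (b * x₀)) + i b * i x₀ := by rw [map_mul]; ring
      rw [this]
      exact 𝔪'.add_mem h0 (𝔪'.mul_mem_left _ hx₀𝔪)
    exact h𝔪'.mem_of_pow_mem m ((h𝔪'.mem_or_mem h1).resolve_left hia)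
  · -- `z ∉ 𝔭'`
    intro hz𝔭
    rw [← h𝔭', RingHom.mem_ker] at hz𝔭
    have : ψ (i (b * x₀)) = 0 := by
      rw [← hz, map_mul, map_pow, hz𝔭, zero_pow hm.ne', mul_zero]
    rw [map_mul, map_mul] at this
    rcases mul_eq_zero.mp this with h | h
    · exact hb𝔭 h
    · exact hx₀ψ h
  · intro w hw
    obtain ⟨s, c, hs, hsc⟩ := exists_mul_eq_mul_of_mem_of_pow_eq_hom i φ ψ ι (𝔪'.comap i) hψi hιφ
      hint hunit hsurj hx₀ hgen₀ hm hmA ha hb hz hdeg 𝔪' hker rfl w hw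
    refine ⟨c, i s, fun h => hs (Ideal.mem_comap.mpr h), ?_⟩
    rw [← h𝔭', RingHom.mem_ker, map_sub, hsc, sub_self]

/-- **étale type**: a branch uniformizer of the host stays one on the cover where the Kummer
function is a unit times an `m`-th power. -/
theorem isBranchUniformizer_of_pow_eq_unit
    {𝔭₀ : Ideal A} {𝔭' 𝔪' : Ideal B} [h𝔪' : 𝔪'.IsPrime]
    (h𝔭₀ : RingHom.ker φ = 𝔭₀) (h𝔭' : RingHom.ker ψ = 𝔭') (hle : 𝔭' ≤ 𝔪')
    (hψi : ∀ a : A, ψ (i a) = algebraMap κ κ' (φ a))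
    (hιφ : ∀ a : A, algebraMap D κ (ι a) = φ a)
    (hint : ∀ w : B, i.IsIntegralElem w)
    (hunit : ∀ s : A, s ∉ 𝔪'.comap i → IsUnit (ι s))
    (hsurj : ∀ d : D, ∃ a' t : A, t ∉ 𝔪'.comap i ∧ d * ι t = ι a')
    {x₀ : A} (hx : IsBranchUniformizer 𝔭₀ (𝔪'.comap i) x₀)
    {m : ℕ} (hm : 0 < m) (hmA : (m : A) ∉ 𝔪'.comap i)
    {a b : A} (ha : a ∉ 𝔪'.comap i) (hb : b ∉ 𝔪'.comap i) {z : B}
    (hz : ψ (i a * z ^ m) = ψ (i b))
    (hdeg : Module.finrank κ κ' = m) (htop : Algebra.adjoin κ ({ψ z} : Set κ') = ⊤)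
    {ζ : A} (hζ : z - i ζ ∈ 𝔪') :
    IsBranchUniformizer 𝔭' 𝔪' (i x₀) := by
  haveI : (𝔪'.comap i).IsPrime := Ideal.comap_isPrime i 𝔪'
  have hgen₀ := IsBranchUniformizer.gen_hom φ hx h𝔭₀
  have hker : RingHom.ker ψ ≤ 𝔪' := h𝔭'.symm ▸ hle
  refine ⟨Ideal.mem_comap.mp hx.mem, ?_, ?_⟩
  · intro h
    rw [← h𝔭', RingHom.mem_ker, hψi] at h
    have h1 : φ x₀ = 0 := (map_eq_zero_iff _ (algebraMap κ κ').injective).mp h
    exact hx.notMem (h𝔭₀ ▸ (RingHom.mem_ker).mpr h1)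
  · intro w hw
    obtain ⟨s, c, hs, hsc⟩ := exists_mul_eq_mul_of_mem_of_pow_eq_unit_hom i φ ψ ι (𝔪'.comap i)
      hψi hιφ hint hunit hsurj hgen₀ hm hmA ha hb hz hdeg htop 𝔪' hker rfl hζ w hw
    refine ⟨c, s, hs, ?_⟩
    rw [← h𝔭', RingHom.mem_ker, map_sub, hsc, sub_self]

end Wrap

section Val

variable {κ : Type*} [Field κ] (Abar : ValuationSubring κ)

/-- a generator of the maximal ideal of a valuation subring is a prime element. -/
theorem prime_of_generator {x : ↥Abar} (hx0 : x ≠ 0) (hx : Abar.valuation (x : κ) < 1)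
    (hgen : ∀ β : κ, Abar.valuation β < 1 → Abar.valuation β ≤ Abar.valuation (x : κ)) :
    Prime x := by
  have hmax : IsLocalRing.maximalIdeal ↥Abar = Ideal.span {x} := by
    apply le_antisymm
    · intro β hβ
      have hβ' : Abar.valuation (β : κ) < 1 := (ValuationSubring.valuation_lt_one_iff Abar β).mp hβ
      have hle := hgen _ hβ'
      rw [Ideal.mem_span_singleton]
      have hx0' : (x : κ) ≠ 0 := fun h => hx0 (Subtype.ext h)
      have hmem : (β : κ) * (x : κ)⁻¹ ∈ Abar := by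
        rw [← ValuationSubring.valuation_le_one_iff, map_mul, map_inv₀]
        have hv0 : Abar.valuation (x : κ) ≠ 0 := (Valuation.ne_zero_iff _).mpr hx0'
        calc Abar.valuation (β : κ) * (Abar.valuation (x : κ))⁻¹
            ≤ Abar.valuation (x : κ) * (Abar.valuation (x : κ))⁻¹ := mul_le_mul_left hle _
          _ = 1 := mul_inv_cancel₀ hv0
      refine ⟨⟨(β : κ) * (x : κ)⁻¹, hmem⟩, Subtype.ext ?_⟩
      show (β : κ) = (x : κ) * ((β : κ) * (x : κ)⁻¹)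
      field_simp
    · rw [Ideal.span_singleton_le_iff_mem]
      exact (ValuationSubring.valuation_lt_one_iff Abar x).mpr hx
  rw [← Ideal.span_singleton_prime hx0, ← hmax]
  exact (IsLocalRing.maximalIdeal.isMaximal _).isPrime

/-- elements of valuation one are units of the valuation subring. -/
theorem isUnit_of_valuation_eq_one {x : ↥Abar} (hx : Abar.valuation (x : κ) = 1) : IsUnit x :=
  (ValuationSubring.valuation_eq_one_iff Abar x).mpr hx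

end Val

end Fermat.Agent.RB
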