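/-
RB (S43), kill-test (ii) — helper8 — **branch uniformizers of a Kummer cover from chart data only**
(`KUMBR_helper8_Chart` with `D := pointVal`, the valuation subring of the closed point).

* `isBranchUniformizer_kummer_node` : at a point of the sheet where the Kummer function is
  `x₀ · unit · (m-th power)` (`x₀` a branch uniformizer: a node), the `m`-th root `z` of `x₀ · unit`
  is a branch uniformizer of the cover at every point above;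
* `isBranchUniformizer_kummer_unit` : where the Kummer function is `unit · (m-th power)`, `x₀` stays
  a branch uniformizer of the cover.
-/
import Mathlib
import Fermat.Agent.RB.KUMBR_helper8_Abar
import Fermat.Agent.RB.KUMBR_helper8_Chart

set_option autoImplicit false
set_option linter.unusedSectionVars false
set_option linter.style.haveILetI false

namespace Fermat.Agent.RB

open Fermat.Agent.SS

section Final

variable {A B : Type*} [CommRing A] [IsNoetherianRing A] [CommRing B] (i : A →+* B)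
  {κ κ' : Type*} [Field κ] [Field κ'] [Algebra κ κ'] [FiniteDimensional κ κ']
  [Algebra.IsSeparable κ κ']
  (φ : A →+* κ) (ψ : B →+* κ')

/-- **node type, chart data only.** -/
theorem isBranchUniformizer_kummer_node
    {𝔭₀ : Ideal A} [h𝔭₀p : 𝔭₀.IsPrime] {𝔭' 𝔪' : Ideal B} [h𝔪' : 𝔪'.IsPrime]
    [h𝔪₀ : (𝔪'.comap i).IsMaximal]
    (h𝔭₀ : RingHom.ker φ = 𝔭₀) (h𝔭' : RingHom.ker ψ = 𝔭') (hle : 𝔭' ≤ 𝔪')
    (hle₀ : 𝔭₀ ≤ 𝔪'.comap i)
    (hfrac : ∀ β : κ, ∃ a s : A, φ s ≠ 0 ∧ β * φ s = φ a)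
    (hψi : ∀ a : A, ψ (i a) = algebraMap κ κ' (φ a))
    (hint : ∀ w : B, i.IsIntegralElem w)
    {x₀ : A} (hx : IsBranchUniformizer 𝔭₀ (𝔪'.comap i) x₀)
    {m : ℕ} (hm : 0 < m) (hmA : (m : A) ∉ 𝔪'.comap i)
    {a b : A} (ha : a ∉ 𝔪'.comap i) (hb : b ∉ 𝔪'.comap i) {z : B}
    (hz : ψ (i a * z ^ m) = ψ (i (b * x₀)))
    (hdeg : Module.finrank κ κ' ≤ m) :
    IsBranchUniformizer 𝔭' 𝔪' z := by
  set V := pointVal φ h𝔭₀ hle₀ hfrac hx with hV
  letI : Algebra ↥V κ' := ((algebraMap κ κ').comp (algebraMap ↥V κ)).toAlgebra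
  haveI : IsScalarTower ↥V κ κ' := IsScalarTower.of_algebraMap_eq (fun _ => rfl)
  set ι : A →+* ↥V := φ.codRestrict V.toSubring (fun a => map_mem_pointVal φ h𝔭₀ hle₀ hfrac hx a)
    with hι
  have hιφ : ∀ a : A, algebraMap ↥V κ (ι a) = φ a := fun a => rfl
  have hunit : ∀ s : A, s ∉ 𝔪'.comap i → IsUnit (ι s) := fun s hs =>
    isUnit_of_valuation_eq_one V (valuation_map_eq_one φ h𝔭₀ hle₀ hfrac hx hs)
  have hsurj : ∀ d : ↥V, ∃ a' t : A, t ∉ 𝔪'.comap i ∧ d * ι t = ι a' := by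
    intro d
    obtain ⟨a', t, ht, hd⟩ := d.2
    exact ⟨a', t, ht, Subtype.ext hd⟩
  have hx₀ : Prime (ι x₀) := by
    refine prime_of_generator V ?_ (valuation_map_uniformizer_lt_one φ h𝔭₀ hle₀ hfrac hx)
      (valuation_le_uniformizer φ h𝔭₀ hle₀ hfrac hx)
    intro h0
    exact map_uniformizer_ne_zero φ h𝔭₀ hx (congrArg Subtype.val h0)
  exact isBranchUniformizer_of_pow_eq i φ ψ ι h𝔭₀ h𝔭' hle hψi hιφ hint hunit hsurj hx hx₀ hm hmA
    ha hb hz hdeg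

/-- **étale type, chart data only.** -/
theorem isBranchUniformizer_kummer_unit
    {𝔭₀ : Ideal A} [h𝔭₀p : 𝔭₀.IsPrime] {𝔭' 𝔪' : Ideal B} [h𝔪' : 𝔪'.IsPrime]
    [h𝔪₀ : (𝔪'.comap i).IsMaximal]
    (h𝔭₀ : RingHom.ker φ = 𝔭₀) (h𝔭' : RingHom.ker ψ = 𝔭') (hle : 𝔭' ≤ 𝔪')
    (hle₀ : 𝔭₀ ≤ 𝔪'.comap i)
    (hfrac : ∀ β : κ, ∃ a s : A, φ s ≠ 0 ∧ β * φ s = φ a)
    (hψi : ∀ a : A, ψ (i a) = algebraMap κ κ' (φ a))
    (hint : ∀ w : B, i.IsIntegralElem w)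
    {x₀ : A} (hx : IsBranchUniformizer 𝔭₀ (𝔪'.comap i) x₀)
    {m : ℕ} (hm : 0 < m) (hmA : (m : A) ∉ 𝔪'.comap i)
    {a b : A} (ha : a ∉ 𝔪'.comap i) (hb : b ∉ 𝔪'.comap i) {z : B}
    (hz : ψ (i a * z ^ m) = ψ (i b))
    (hdeg : Module.finrank κ κ' = m) (htop : Algebra.adjoin κ ({ψ z} : Set κ') = ⊤)
    {ζ : A} (hζ : z - i ζ ∈ 𝔪') :
    IsBranchUniformizer 𝔭' 𝔪' (i x₀) := by
  set V := pointVal φ h𝔭₀ hle₀ hfrac hx with hV
  letI : Algebra ↥V κ' := ((algebraMap κ κ').comp (algebraMap ↥V κ)).toAlgebra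
  haveI : IsScalarTower ↥V κ κ' := IsScalarTower.of_algebraMap_eq (fun _ => rfl)
  set ι : A →+* ↥V := φ.codRestrict V.toSubring (fun a => map_mem_pointVal φ h𝔭₀ hle₀ hfrac hx a)
    with hι
  have hιφ : ∀ a : A, algebraMap ↥V κ (ι a) = φ a := fun a => rfl
  have hunit : ∀ s : A, s ∉ 𝔪'.comap i → IsUnit (ι s) := fun s hs =>
    isUnit_of_valuation_eq_one V (valuation_map_eq_one φ h𝔭₀ hle₀ hfrac hx hs)
  have hsurj : ∀ d : ↥V, ∃ a' t : A, t ∉ 𝔪'.comap i ∧ d * ι t = ι a' := by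
    intro d
    obtain ⟨a', t, ht, hd⟩ := d.2
    exact ⟨a', t, ht, Subtype.ext hd⟩
  exact isBranchUniformizer_of_pow_eq_unit i φ ψ ι h𝔭₀ h𝔭' hle hψi hιφ hint hunit hsurj hx hm hmA
    ha hb hz hdeg htop hζ

end Final

end Fermat.Agent.RB
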