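/-
RB (S43), kill-test (ii) — helper8 — **(C) in SS currency: the valuation subring of a closed point
of a sheet inside the residue field of the sheet** (the `Abar` of helper5's `kummer_one_ext`).

`B ⊆ E` a noetherian chart, `W ⊇ B` a sheet (valuation subring of `E`) with sheet ideal `𝔭`
(`b ∈ 𝔭 ↔ W.valuation b < 1`), `B_𝔭 = W` (`hloc`), `𝔪 ⊇ 𝔭` a closed point at which the sheet has a
branch uniformizer.  With `κ = ResidueField ↥W` and `sheetRes : B → κ` the reduction: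

* `sheetPointVal` : the valuation subring of `κ` of the closed point (`pointVal` of `sheetRes`);
* `exists_pointVal_of_isLocBranch` : the package consumed by `kummer_one_ext`: for a local branch
  uniformizer `ζ` (helper4's `IsLocBranch W (locRing B 𝔪) (locMax B 𝔪) ζ`), the residue of `ζ`
  generates the maximal ideal of `Abar`, residues of elements of `locRing B 𝔪` lie in `Abar`, units
  have valuation one, elements of `locMax B 𝔪` have valuation `< 1`.
-/
import Mathlib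
import Fermat.Agent.SS.EXPORT_helper4_Loc
import Fermat.Agent.RB.KUMBR_helper8_Abar

set_option autoImplicit false
set_option linter.unusedSectionVars false
set_option linter.style.haveILetI false

namespace Fermat.Agent.RB

open Fermat.Agent.SS IsLocalRing

section Sheet

variable {R : Type*} [CommRing R] {E : Type*} [Field E] [Algebra R E]
  {B : Subalgebra R E} {W : ValuationSubring E}

/-- the reduction of the chart `B` along the sheet `W`. -/
noncomputable def sheetRes (hBW : ∀ b ∈ B, b ∈ W) : ↥B →+* ResidueField ↥W :=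
  (residue ↥W).comp ((B.val : ↥B →+* E).codRestrict W (fun b => hBW b b.2))

theorem sheetRes_apply (hBW : ∀ b ∈ B, b ∈ W) (b : ↥B) :
    sheetRes hBW b = residue ↥W ⟨(b : E), hBW b b.2⟩ := rfl

theorem sheetRes_eq_zero_iff (hBW : ∀ b ∈ B, b ∈ W) (b : ↥B) :
    sheetRes hBW b = 0 ↔ W.valuation (b : E) < 1 := by
  rw [sheetRes_apply, residue_eq_zero_iff, ValuationSubring.valuation_lt_one_iff]

theorem ker_sheetRes (hBW : ∀ b ∈ B, b ∈ W) {𝔭 : Ideal ↥B}
    (h𝔭 : ∀ b : ↥B, b ∈ 𝔭 ↔ W.valuation (b : E) < 1) : RingHom.ker (sheetRes hBW) = 𝔭 := by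
  ext b
  rw [RingHom.mem_ker, sheetRes_eq_zero_iff, h𝔭]

theorem sheetRes_frac (hBW : ∀ b ∈ B, b ∈ W) {𝔭 : Ideal ↥B}
    (h𝔭 : ∀ b : ↥B, b ∈ 𝔭 ↔ W.valuation (b : E) < 1)
    (hloc : ∀ x ∈ W, ∃ r s : ↥B, s ∉ 𝔭 ∧ x * (s : E) = (r : E)) (β : ResidueField ↥W) :
    ∃ a s : ↥B, sheetRes hBW s ≠ 0 ∧ β * sheetRes hBW s = sheetRes hBW a := by
  obtain ⟨w, rfl⟩ := residue_surjective β
  obtain ⟨r, s, hs, hrs⟩ := hloc w w.2
  refine ⟨r, s, fun h0 => hs ((h𝔭 s).mpr ((sheetRes_eq_zero_iff hBW s).mp h0)), ?_⟩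
  rw [sheetRes_apply, sheetRes_apply, ← map_mul]
  congr 1
  exact Subtype.ext hrs

variable [IsNoetherianRing ↥B] {𝔭 𝔪 : Ideal ↥B} [h𝔭p : 𝔭.IsPrime] [h𝔪 : 𝔪.IsMaximal]

/-- **the valuation subring of the closed point `𝔪` of the sheet `W`**, inside the residue field of
`W`. -/
noncomputable def sheetPointVal (hBW : ∀ b ∈ B, b ∈ W)
    (h𝔭 : ∀ b : ↥B, b ∈ 𝔭 ↔ W.valuation (b : E) < 1) (hle : 𝔭 ≤ 𝔪)
    (hloc : ∀ x ∈ W, ∃ r s : ↥B, s ∉ 𝔭 ∧ x * (s : E) = (r : E))
    {x₀ : ↥B} (hx : IsBranchUniformizer 𝔭 𝔪 x₀) : ValuationSubring (ResidueField ↥W) :=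
  pointVal (sheetRes hBW) (ker_sheetRes hBW h𝔭) hle (sheetRes_frac hBW h𝔭 hloc) hx

variable (hBW : ∀ b ∈ B, b ∈ W) (h𝔭 : ∀ b : ↥B, b ∈ 𝔭 ↔ W.valuation (b : E) < 1) (hle : 𝔭 ≤ 𝔪)
  (hloc : ∀ x ∈ W, ∃ r s : ↥B, s ∉ 𝔭 ∧ x * (s : E) = (r : E))
  {x₀ : ↥B} (hx : IsBranchUniformizer 𝔭 𝔪 x₀)

include hBW h𝔭 hle in
/-- the local ring of the chart at a point of the sheet lies in the sheet. -/
theorem mem_of_mem_locRing {e : E} (he : e ∈ locRing B 𝔪) : e ∈ W := by
  obtain ⟨r, s, hs, hrs⟩ := he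
  have hvs : W.valuation (s : E) = 1 := valuation_eq_one_of_notMem hBW h𝔭 (fun h => hs (hle h))
  rw [← ValuationSubring.valuation_le_one_iff]
  have h1 : W.valuation e = W.valuation (r : E) := by rw [← hrs, map_mul, hvs, mul_one]
  rw [h1]
  exact (ValuationSubring.valuation_le_one_iff _ _).mpr (hBW _ r.2)

/-- residues of elements of the local ring of the chart lie in the valuation subring of the
point. -/
theorem residue_mem_sheetPointVal {e : E} (he : e ∈ locRing B 𝔪) (heW : e ∈ W) :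
    residue ↥W ⟨e, heW⟩ ∈ sheetPointVal hBW h𝔭 hle hloc hx := by
  obtain ⟨r, s, hs, hrs⟩ := he
  refine ⟨r, s, hs, ?_⟩
  rw [sheetRes_apply, sheetRes_apply, ← map_mul]
  congr 1
  exact Subtype.ext hrs

/-- residues of elements of the maximal ideal of the local ring are non-units. -/
theorem valuation_residue_lt_one_of_mem_locMax {e : E} (he : e ∈ locMax B 𝔪) (heW : e ∈ W) :
    (sheetPointVal hBW h𝔭 hle hloc hx).valuation (residue ↥W ⟨e, heW⟩) < 1 := by
  obtain ⟨r, s, hr, hs, hrs⟩ := he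
  have h1 : residue ↥W ⟨e, heW⟩ * sheetRes hBW s = sheetRes hBW r := by
    rw [sheetRes_apply, sheetRes_apply, ← map_mul]
    congr 1
    exact Subtype.ext hrs
  have hvs : (sheetPointVal hBW h𝔭 hle hloc hx).valuation (sheetRes hBW s) = 1 :=
    valuation_map_eq_one (sheetRes hBW) (ker_sheetRes hBW h𝔭) hle (sheetRes_frac hBW h𝔭 hloc) hx hs
  have hvr : (sheetPointVal hBW h𝔭 hle hloc hx).valuation (sheetRes hBW r) < 1 :=
    (valuation_map_lt_one_iff (sheetRes hBW) (ker_sheetRes hBW h𝔭) hle (sheetRes_frac hBW h𝔭 hloc)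
      hx r).mpr hr
  have h2 := congrArg (sheetPointVal hBW h𝔭 hle hloc hx).valuation h1
  rw [map_mul, hvs, mul_one] at h2
  rw [h2]
  exact hvr

/-- residues of units of the local ring are units. -/
theorem valuation_residue_eq_one_of_unit {e : E} (he : e ∈ locRing B 𝔪)
    (he' : e⁻¹ ∈ locRing B 𝔪) (he0 : e ≠ 0) (heW : e ∈ W) :
    (sheetPointVal hBW h𝔭 hle hloc hx).valuation (residue ↥W ⟨e, heW⟩) = 1 := by
  have hnot : e ∉ locMax B 𝔪 := fun h => inv_notMem_locRing h he0 he'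
  obtain ⟨r, s, hs, hrs⟩ := he
  have hr : r ∉ 𝔪 := fun hr => hnot ⟨r, s, hr, hs, hrs⟩
  have h1 : residue ↥W ⟨e, heW⟩ * sheetRes hBW s = sheetRes hBW r := by
    rw [sheetRes_apply, sheetRes_apply, ← map_mul]
    congr 1
    exact Subtype.ext hrs
  have hvs : (sheetPointVal hBW h𝔭 hle hloc hx).valuation (sheetRes hBW s) = 1 :=
    valuation_map_eq_one (sheetRes hBW) (ker_sheetRes hBW h𝔭) hle (sheetRes_frac hBW h𝔭 hloc) hx hs
  have hvr : (sheetPointVal hBW h𝔭 hle hloc hx).valuation (sheetRes hBW r) = 1 :=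
    valuation_map_eq_one (sheetRes hBW) (ker_sheetRes hBW h𝔭) hle (sheetRes_frac hBW h𝔭 hloc) hx hr
  have h2 := congrArg (sheetPointVal hBW h𝔭 hle hloc hx).valuation h1
  rw [map_mul, hvs, mul_one] at h2
  rw [h2]
  exact hvr

/-- conversely, an element of `W` whose residue lies in the valuation subring of the point is
congruent to an element of the local ring of the chart modulo the maximal ideal of `W`. -/
theorem exists_of_residue_mem_sheetPointVal {e : E} (heW : e ∈ W)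
    (he : residue ↥W ⟨e, heW⟩ ∈ sheetPointVal hBW h𝔭 hle hloc hx) :
    ∃ r s : ↥B, s ∉ 𝔪 ∧ W.valuation (e * (s : E) - (r : E)) < 1 := by
  obtain ⟨r, s, hs, hrs⟩ := he
  refine ⟨r, s, hs, ?_⟩
  rw [sheetRes_apply, sheetRes_apply, ← map_mul, ← sub_eq_zero, ← map_sub, residue_eq_zero_iff,
    ValuationSubring.valuation_lt_one_iff] at hrs
  exact hrs

end Sheet

section Package

variable {R : Type*} [CommRing R] {E : Type*} [Field E] [Algebra R E]
  {B : Subalgebra R E} {W : ValuationSubring E}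
  [IsNoetherianRing ↥B] {𝔭 𝔪 : Ideal ↥B} [h𝔭p : 𝔭.IsPrime] [h𝔪 : 𝔪.IsMaximal]

/-- **(C), the package consumed by `kummer_one_ext`**: at a closed point `𝔪` of the sheet `W` with a
local branch uniformizer `ζ`, there is a valuation subring `Abar` of the residue field of `W` whose
maximal ideal is generated by the residue of `ζ`, containing the residues of the local ring of the
chart at `𝔪`, in which the residues of the units of that local ring are units and the residues of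
its maximal ideal are non-units. -/
theorem exists_pointVal_of_isLocBranch (hBW : ∀ b ∈ B, b ∈ W)
    (h𝔭 : ∀ b : ↥B, b ∈ 𝔭 ↔ W.valuation (b : E) < 1) (hle : 𝔭 ≤ 𝔪)
    (hloc : ∀ x ∈ W, ∃ r s : ↥B, s ∉ 𝔭 ∧ x * (s : E) = (r : E))
    {ζ : E} (hζ : IsLocBranch W (locRing B 𝔪) (locMax B 𝔪) ζ) :
    ∃ (Abar : ValuationSubring (ResidueField ↥W)) (hζW : ζ ∈ W),
      Abar.valuation (residue ↥W ⟨ζ, hζW⟩) < 1 ∧ residue ↥W ⟨ζ, hζW⟩ ≠ 0 ∧
      (∀ β : ResidueField ↥W, Abar.valuation β < 1 →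
        Abar.valuation β ≤ Abar.valuation (residue ↥W ⟨ζ, hζW⟩)) ∧
      (∀ (e : E) (heW : e ∈ W), e ∈ locRing B 𝔪 → residue ↥W ⟨e, heW⟩ ∈ Abar) ∧
      (∀ (e : E) (heW : e ∈ W), e ∈ locRing B 𝔪 → e⁻¹ ∈ locRing B 𝔪 → e ≠ 0 →
        Abar.valuation (residue ↥W ⟨e, heW⟩) = 1) ∧
      (∀ (e : E) (heW : e ∈ W), e ∈ locMax B 𝔪 → Abar.valuation (residue ↥W ⟨e, heW⟩) < 1) ∧
      (∀ (e : E) (heW : e ∈ W), residue ↥W ⟨e, heW⟩ ∈ Abar →
        ∃ r s : ↥B, s ∉ 𝔪 ∧ W.valuation (e * (s : E) - (r : E)) < 1) := by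
  obtain ⟨z, s, hs, hzs, hz⟩ := hζ.exists_isBranchUniformizer hBW h𝔭 hle
  have hζL : ζ ∈ locRing B 𝔪 := locMax_subset_locRing hζ.mem
  have hζW : ζ ∈ W := mem_of_mem_locRing hBW h𝔭 hle hζL
  set Abar := sheetPointVal hBW h𝔭 hle hloc hz with hAbar
  have h1 : residue ↥W ⟨ζ, hζW⟩ * sheetRes hBW s = sheetRes hBW z := by
    rw [sheetRes_apply, sheetRes_apply, ← map_mul]
    congr 1
    exact Subtype.ext hzs
  have hvs : Abar.valuation (sheetRes hBW s) = 1 :=
    valuation_map_eq_one (sheetRes hBW) (ker_sheetRes hBW h𝔭) hle (sheetRes_frac hBW h𝔭 hloc) hz hs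
  have hval : Abar.valuation (residue ↥W ⟨ζ, hζW⟩) = Abar.valuation (sheetRes hBW z) := by
    have h2 := congrArg Abar.valuation h1
    rwa [map_mul, hvs, mul_one] at h2
  refine ⟨Abar, hζW, ?_, ?_, ?_, ?_, ?_, ?_, ?_⟩
  · rw [hval]
    exact valuation_map_uniformizer_lt_one (sheetRes hBW) (ker_sheetRes hBW h𝔭) hle
      (sheetRes_frac hBW h𝔭 hloc) hz
  · intro h0
    have h3 : W.valuation ζ < 1 := by
      rw [residue_eq_zero_iff, ValuationSubring.valuation_lt_one_iff] at h0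
      exact h0
    exact hζ.val h3
  · intro β hβ
    rw [hval]
    exact valuation_le_uniformizer (sheetRes hBW) (ker_sheetRes hBW h𝔭) hle
      (sheetRes_frac hBW h𝔭 hloc) hz β hβ
  · intro e heW he
    exact residue_mem_sheetPointVal hBW h𝔭 hle hloc hz he heW
  · intro e heW he he' he0
    exact valuation_residue_eq_one_of_unit hBW h𝔭 hle hloc hz he he' he0 heW
  · intro e heW he
    exact valuation_residue_lt_one_of_mem_locMax hBW h𝔭 hle hloc hz he heW
  · intro e heW he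
    exact exists_of_residue_mem_sheetPointVal hBW h𝔭 hle hloc hz heW he

end Package

end Fermat.Agent.RB
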