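/-
RB (S43), kill-test (ii) — helper8 — **the étale-type clause of a Kummer cover, in SS currency.**

`B ⊆ E` a noetherian chart of the host, `B' ⊆ E'` the chart of the Kummer cover `E' = E(u)`
(`B'` integral over `B`), `W ⊆ E` a sheet, `W' ⊆ E'` its extension, `𝔭, 𝔭'` the sheet ideals,
`𝔪' ⊇ 𝔭'` a closed point of the cover over the closed point `𝔪` of `B`, at which the Kummer
generator is `ε · (m-th power)` with `ε` a unit of `locRing B 𝔪`: `u' ^ m = ε`.  If the residue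
field of `W'` has degree `m` over that of `W` and is generated by the residue of `u'`, and the
residue field of `𝔪'` is that of the base, then **a branch uniformizer of `(𝔭, 𝔪)` stays a branch
uniformizer of `(𝔭', 𝔪')`** (`exists_isBranchUniformizer_of_kummer_unit`).

Glue lemmas for the assembly: `finrank_eq_and_adjoin_eq_top_of_sum_pow`,
`adjoin_eq_top_of_mem_adjoin`, `adjoin_mul_algebraMap_eq_top`, `isSeparable_of_pow_eq_of_adjoin_eq_top`.
-/
import Mathlib
import Fermat.Agent.SS.EXPORT_helper4_Loc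
import Fermat.Agent.SS.VAL2_helper7_TwoExt
import Fermat.Agent.RB.KUMBR_helper8_Final
import Fermat.Agent.RB.KUMBR_helper8_Sheet

set_option autoImplicit false
set_option linter.unusedSectionVars false
set_option linter.style.haveILetI false

namespace Fermat.Agent.RB

open Fermat.Agent.SS Fermat.Agent.SS.TwoExt IsLocalRing

section Glue

variable {κ κ' : Type*} [Field κ] [Field κ'] [Algebra κ κ']

theorem adjoin_eq_top_of_mem_adjoin {ξ η : κ'} (htop : Algebra.adjoin κ ({ξ} : Set κ') = ⊤)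
    (hmem : ξ ∈ Algebra.adjoin κ ({η} : Set κ')) : Algebra.adjoin κ ({η} : Set κ') = ⊤ := by
  rw [eq_top_iff, ← htop]
  apply Algebra.adjoin_le
  rintro x hx
  rw [Set.mem_singleton_iff] at hx
  rw [hx]
  exact hmem

theorem adjoin_eq_top_of_eq_mul_pow {ξ η : κ'} (htop : Algebra.adjoin κ ({ξ} : Set κ') = ⊤)
    {c : κ} {s : ℕ} (h : ξ = algebraMap κ κ' c * η ^ s) :
    Algebra.adjoin κ ({η} : Set κ') = ⊤ := by
  refine adjoin_eq_top_of_mem_adjoin htop ?_
  rw [h]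
  have h1 : η ∈ Algebra.adjoin κ ({η} : Set κ') := Algebra.subset_adjoin rfl
  exact mul_mem (algebraMap_mem (Algebra.adjoin κ ({η} : Set κ')) c) (pow_mem h1 s)

theorem adjoin_mul_algebraMap_eq_top {θ : κ'} {c : κ} (hc : c ≠ 0)
    (htop : Algebra.adjoin κ ({θ} : Set κ') = ⊤) :
    Algebra.adjoin κ ({θ * algebraMap κ κ' c} : Set κ') = ⊤ := by
  refine adjoin_eq_top_of_mem_adjoin htop ?_
  have h1 : θ * algebraMap κ κ' c ∈ Algebra.adjoin κ ({θ * algebraMap κ κ' c} : Set κ') :=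
    Algebra.subset_adjoin rfl
  have h3 : (θ * algebraMap κ κ' c) * algebraMap κ κ' c⁻¹ ∈
      Algebra.adjoin κ ({θ * algebraMap κ κ' c} : Set κ') :=
    mul_mem h1 (algebraMap_mem (Algebra.adjoin κ ({θ * algebraMap κ κ' c} : Set κ')) c⁻¹)
  rwa [mul_assoc, ← map_mul, mul_inv_cancel₀ hc, map_one, mul_one] at h3

theorem finrank_eq_and_adjoin_eq_top_of_sum_pow {m : ℕ} (ξ : κ')
    (hindep : ∀ c : Fin m → κ, ∑ i, algebraMap κ κ' (c i) * ξ ^ (i : ℕ) = 0 → ∀ i, c i = 0)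
    (hspan : ∀ y : κ', ∃ c : Fin m → κ, y = ∑ i, algebraMap κ κ' (c i) * ξ ^ (i : ℕ)) :
    Module.finrank κ κ' = m ∧ Algebra.adjoin κ ({ξ} : Set κ') = ⊤ := by
  constructor
  · have hli : LinearIndependent κ (fun i : Fin m => ξ ^ (i : ℕ)) := by
      rw [Fintype.linearIndependent_iff]
      intro c hc
      apply hindep c
      rw [← hc]
      refine Finset.sum_congr rfl fun i _ => ?_
      rw [Algebra.smul_def]
    have hsp : ⊤ ≤ Submodule.span κ (Set.range (fun i : Fin m => ξ ^ (i : ℕ))) := by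
      intro y _
      obtain ⟨c, rfl⟩ := hspan y
      refine Submodule.sum_mem _ fun i _ => ?_
      rw [← Algebra.smul_def]
      exact Submodule.smul_mem _ _ (Submodule.subset_span ⟨i, rfl⟩)
    have hb := Module.finrank_eq_card_basis (Module.Basis.mk hli hsp)
    rw [hb, Fintype.card_fin]
  · rw [eq_top_iff]
    intro y _
    obtain ⟨c, rfl⟩ := hspan y
    have h1 : ξ ∈ Algebra.adjoin κ ({ξ} : Set κ') := Algebra.subset_adjoin rfl
    refine sum_mem fun i _ => ?_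
    exact mul_mem (algebraMap_mem (Algebra.adjoin κ ({ξ} : Set κ')) (c i)) (pow_mem h1 _)

theorem isSeparable_of_pow_eq_of_adjoin_eq_top [FiniteDimensional κ κ'] {m : ℕ}
    (hmκ : (m : κ) ≠ 0) {θ : κ'} {c : κ} (hc : c ≠ 0) (hθ : θ ^ m = algebraMap κ κ' c)
    (htop : Algebra.adjoin κ ({θ} : Set κ') = ⊤) : Algebra.IsSeparable κ κ' := by
  have hint : IsIntegral κ θ := Algebra.IsIntegral.isIntegral θ
  have hsep : IsSeparable κ θ := by
    have h1 : (Polynomial.X ^ m - Polynomial.C c : Polynomial κ).Separable :=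
      Polynomial.separable_X_pow_sub_C c hmκ hc
    have h2 : minpoly κ θ ∣ Polynomial.X ^ m - Polynomial.C c := by
      apply minpoly.dvd
      rw [map_sub, map_pow, Polynomial.aeval_X, Polynomial.aeval_C, hθ, sub_self]
    exact h1.of_dvd h2
  have htop' : IntermediateField.adjoin κ ({θ} : Set κ') = ⊤ := by
    apply IntermediateField.toSubalgebra_injective
    rw [IntermediateField.adjoin_simple_toSubalgebra_of_isAlgebraic hint.isAlgebraic, htop,
      IntermediateField.top_toSubalgebra]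
  haveI : Algebra.IsSeparable κ ↥(IntermediateField.adjoin κ ({θ} : Set κ')) :=
    (IntermediateField.isSeparable_adjoin_simple_iff_isSeparable κ κ').mpr hsep
  refine ⟨fun y => ?_⟩
  have hy : y ∈ IntermediateField.adjoin κ ({θ} : Set κ') := by
    rw [htop']; exact IntermediateField.mem_top
  exact IntermediateField.isSeparable_of_mem_isSeparable κ κ' hy

end Glue

section EtaleSS

variable {R : Type*} [CommRing R] {E E' : Type*} [Field E] [Field E'] [Algebra R E]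
  [Algebra R E'] [Algebra E E']

/-- **the étale-type clause**: where the Kummer generator is a unit times an `m`-th power, a branch
uniformizer of the sheet stays a branch uniformizer of the sheet above.  `i : B → B'` is the map of
charts induced by `E → E'` (`hi`), compatible with the base (`hRi`). -/
theorem exists_isBranchUniformizer_of_kummer_unit
    {B : Subalgebra R E} [IsNoetherianRing ↥B] {B' : Subalgebra R E'}
    (i : ↥B →+* ↥B') (hi : ∀ b : ↥B, ((i b : ↥B') : E') = algebraMap E E' (b : E))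
    (hRi : ∀ c : R, i (algebraMap R ↥B c) = algebraMap R ↥B' c)
    (hint : ∀ w : ↥B', i.IsIntegralElem w)
    {W : ValuationSubring E} {W' : ValuationSubring E'} (hext : IsExt W W')
    (hBW : ∀ b ∈ B, b ∈ W) (hB'W' : ∀ b ∈ B', b ∈ W')
    {𝔭 : Ideal ↥B} [h𝔭p : 𝔭.IsPrime] (h𝔭 : ∀ b : ↥B, b ∈ 𝔭 ↔ W.valuation (b : E) < 1)
    {𝔭' : Ideal ↥B'} (h𝔭' : ∀ b : ↥B', b ∈ 𝔭' ↔ W'.valuation (b : E') < 1)
    (hloc : ∀ x ∈ W, ∃ r s : ↥B, s ∉ 𝔭 ∧ x * (s : E) = (r : E))
    {𝔪' : Ideal ↥B'} [h𝔪' : 𝔪'.IsPrime] [h𝔪 : (𝔪'.comap i).IsMaximal] (hle' : 𝔭' ≤ 𝔪')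
    [Algebra (ResidueField ↥W) (ResidueField ↥W')]
    (hres : ∀ a : ↥W, algebraMap (ResidueField ↥W) (ResidueField ↥W') (residue ↥W a) =
      residue ↥W' ⟨algebraMap E E' (a : E), (hext.mem_iff _).mpr a.2⟩)
    {m : ℕ} (hm : 0 < m) (hm𝔪 : (m : ↥B) ∉ 𝔪'.comap i)
    {ζ ε : E} (hζ : IsLocBranch W (locRing B (𝔪'.comap i)) (locMax B (𝔪'.comap i)) ζ)
    (hε : ε ∈ locRing B (𝔪'.comap i)) (hε' : ε⁻¹ ∈ locRing B (𝔪'.comap i)) (hε0 : ε ≠ 0)
    {u' : E'} (hu' : u' ^ m = algebraMap E E' ε) (hu'W' : u' ∈ W')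
    (hroot : ∀ (e : E') (b : ↥B), e ^ m = algebraMap E E' (b : E) → e ∈ B')
    (hdeg : Module.finrank (ResidueField ↥W) (ResidueField ↥W') = m)
    (htop : Algebra.adjoin (ResidueField ↥W)
      ({residue ↥W' ⟨u', hu'W'⟩} : Set (ResidueField ↥W')) = ⊤)
    (hres1 : ∀ w : ↥B', ∃ c : R, w - algebraMap R ↥B' c ∈ 𝔪') :
    ∃ x₀ : ↥B, IsBranchUniformizer 𝔭 (𝔪'.comap i) x₀ ∧ IsBranchUniformizer 𝔭' 𝔪' (i x₀) := by
  set φ := sheetRes hBW with hφ
  set ψ := sheetRes hB'W' with hψ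
  have hkφ : RingHom.ker φ = 𝔭 := ker_sheetRes hBW h𝔭
  have hkψ : RingHom.ker ψ = 𝔭' := ker_sheetRes hB'W' h𝔭'
  have hfrac := sheetRes_frac hBW h𝔭 hloc
  have hle₀ : 𝔭 ≤ 𝔪'.comap i := by
    intro b hb
    rw [Ideal.mem_comap]
    apply hle'
    rw [h𝔭', hi, hext.val_lt_one_iff]
    exact (h𝔭 b).mp hb
  have hψi : ∀ a : ↥B, ψ (i a) = algebraMap (ResidueField ↥W) (ResidueField ↥W') (φ a) := by
    intro a
    show sheetRes hB'W' (i a) = algebraMap _ _ (sheetRes hBW a)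
    rw [sheetRes_apply, sheetRes_apply, hres]
    congr 1
    exact Subtype.ext (hi a)
  obtain ⟨z₀, s₀, hs₀, hzs₀, hz₀⟩ := hζ.exists_isBranchUniformizer hBW h𝔭 hle₀
  -- `ε = r / s`
  have hεnot : ε ∉ locMax B (𝔪'.comap i) := fun h => inv_notMem_locRing h hε0 hε'
  obtain ⟨r, s, hs, hrs⟩ := hε
  have hr : r ∉ 𝔪'.comap i := fun hr => hεnot ⟨r, s, hr, hs, hrs⟩
  -- the integral root
  have hzpow : (u' * algebraMap E E' (s : E)) ^ m =
      algebraMap E E' ((r * s ^ (m - 1) : ↥B) : E) := by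
    rw [mul_pow, hu', ← map_pow, ← map_mul]
    congr 1
    show ε * (s : E) ^ m = (r : E) * (s : E) ^ (m - 1)
    rw [← hrs, mul_assoc, ← pow_succ', Nat.sub_add_cancel hm]
  set z : ↥B' := ⟨u' * algebraMap E E' (s : E), hroot _ _ hzpow⟩ with hz
  have hzm : z ^ m = i (r * s ^ (m - 1)) := by
    apply Subtype.ext
    rw [hi]
    exact hzpow
  have hrel : ψ (i 1 * z ^ m) = ψ (i (r * s ^ (m - 1))) := by rw [map_one, one_mul, hzm]
  have hb : r * s ^ (m - 1) ∉ 𝔪'.comap i := fun h =>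
    (h𝔪.isPrime.mem_or_mem h).elim hr (fun h' => hs (h𝔪.isPrime.mem_of_pow_mem _ h'))
  have h1 : (1 : ↥B) ∉ 𝔪'.comap i := fun h => h𝔪.ne_top ((Ideal.eq_top_iff_one _).mpr h)
  have hne : ∀ c : ↥B, c ∉ 𝔪'.comap i → φ c ≠ 0 := fun c hc h0 =>
    hc (hle₀ (hkφ ▸ (RingHom.mem_ker).mpr h0))
  have hψz : ψ z = residue ↥W' ⟨u', hu'W'⟩ *
      algebraMap (ResidueField ↥W) (ResidueField ↥W') (φ s) := by
    rw [← hψi]
    show sheetRes hB'W' z = residue ↥W' ⟨u', hu'W'⟩ * sheetRes hB'W' (i s)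
    rw [sheetRes_apply, sheetRes_apply, ← map_mul]
    congr 1
    apply Subtype.ext
    show u' * algebraMap E E' (s : E) = u' * ((i s : ↥B') : E')
    rw [hi]
  have htop' : Algebra.adjoin (ResidueField ↥W) ({ψ z} : Set (ResidueField ↥W')) = ⊤ := by
    rw [hψz]; exact adjoin_mul_algebraMap_eq_top (hne s hs) htop
  obtain ⟨c, hc⟩ := hres1 z
  have hζ' : z - i (algebraMap R ↥B c) ∈ 𝔪' := by
    rw [hRi]; exact hc
  haveI : FiniteDimensional (ResidueField ↥W) (ResidueField ↥W') :=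
    Module.finite_of_finrank_pos (hdeg ▸ hm)
  have hmκ : ((m : ℕ) : ResidueField ↥W) ≠ 0 := by
    have := hne (m : ↥B) hm𝔪
    rwa [map_natCast] at this
  have hθ : (ψ z) ^ m = algebraMap (ResidueField ↥W) (ResidueField ↥W') (φ (r * s ^ (m - 1))) := by
    rw [← map_pow, hzm, hψi]
  haveI : Algebra.IsSeparable (ResidueField ↥W) (ResidueField ↥W') :=
    isSeparable_of_pow_eq_of_adjoin_eq_top hmκ (hne _ hb) hθ htop'
  exact ⟨z₀, hz₀, isBranchUniformizer_kummer_unit i φ ψ hkφ hkψ hle' hle₀ hfrac hψi hint hz₀ hm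
    hm𝔪 h1 hb hrel hdeg htop' hζ'⟩

end EtaleSS

end Fermat.Agent.RB
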