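/-
RB / [BB3] kill-test — helper5 — **KUMEXT, part 1: Eisenstein, elementary form** (Mathlib only).

`A` a valuation subring of a field `k`, `t ≠ 0` a generator of its maximal ideal (every non-unit of
`A` has valuation `≤ v t`), `ε` a unit of `A`.  If `ξ ^ m = ε t` in an extension field `k'`, then
`1, ξ, …, ξ^(m-1)` are linearly independent over `k`.

This is the residue-field input of the "Kummer cover of a node" lemma: on the branch `C_∞` through
a node, `t` = the branch uniformizer, and `ξ` = the residue of `x' = (u / h)^s x^t'`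
(`x' ^ m = ε^s x`).  With helper7's `one_ext` it gives: the valuation of the sheet has exactly one
extension to the Kummer extension, unramified, of residue degree `m`.
-/
import Mathlib

set_option autoImplicit false
set_option linter.unusedSectionVars false
set_option linter.style.haveILetI false

namespace Fermat.Agent.RB

section Aux

variable {O : Type*} [CommRing O] {E' : Type*} [Field E'] [Algebra O E']
  {Γ : Type*} [LinearOrderedCommGroupWithZero Γ] (ν : Valuation E' Γ)

/-- an element integral over a ring of `ν`-integers is a `ν`-integer. -/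
theorem valuation_le_one_of_isIntegral_kumext (hνO : ∀ a : O, ν (algebraMap O E' a) ≤ 1) {x : E'}
    (hx : IsIntegral O x) : ν x ≤ 1 := by
  let g : O →+* ν.integer := (algebraMap O E').codRestrict ν.integer hνO
  have hcomp : algebraMap O E' = (ν.integer.subtype).comp g := by
    ext a; rfl
  have hx' : (ν.integer.subtype).IsIntegralElem x := by
    have : (algebraMap O E').IsIntegralElem x := hx
    rw [hcomp] at this
    exact RingHom.IsIntegralElem.of_comp this
  exact (Valuation.integer.integers ν).mem_of_integral hx'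

end Aux

section Eis

variable {k : Type*} [Field k] {k' : Type*} [Field k'] [Algebra k k']

/-- **Eisenstein, elementary form**: `1, ξ, …, ξ^(m-1)` are linearly independent over `k` when
`ξ ^ m = ε t`, `t` a generator of the maximal ideal of a valuation subring `A` of `k` and `ε` a unit
of `A`. -/
theorem eq_zero_of_sum_pow_eq_zero_of_eisenstein (A : ValuationSubring k) {t ε : k}
    (ht : A.valuation t < 1) (ht0 : t ≠ 0)
    (hgen : ∀ β : k, A.valuation β < 1 → A.valuation β ≤ A.valuation t)
    (hε : A.valuation ε = 1)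
    {m : ℕ} (ξ : k') (hξ : ξ ^ m = algebraMap k k' (ε * t))
    (c : Fin m → k) (hc : ∑ i, algebraMap k k' (c i) * ξ ^ (i : ℕ) = 0) : ∀ i, c i = 0 := by
  classical
  by_contra hne
  push Not at hne
  obtain ⟨j₀, hj₀⟩ := hne
  have hm : 0 < m := Nat.pos_of_ne_zero (fun h => by subst h; exact j₀.elim0)
  set v := A.valuation with hv
  -- the coefficient of maximal valuation
  obtain ⟨j, -, hj⟩ := Finset.exists_max_image Finset.univ (fun i => v (c i))
    ⟨j₀, Finset.mem_univ _⟩
  have hcj : c j ≠ 0 := by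
    intro h
    have h1 := hj j₀ (Finset.mem_univ _)
    rw [h, map_zero] at h1
    exact hj₀ ((map_eq_zero v).1 (le_antisymm h1 zero_le))
  have hvcj : v (c j) ≠ 0 := (map_ne_zero v).2 hcj
  set b : Fin m → k := fun i => c i / c j with hb
  have hb1 : ∀ i, v (b i) ≤ 1 := by
    intro i
    rw [hb]
    simp only [map_div₀]
    exact div_le_one_of_le₀ (hj i (Finset.mem_univ _)) zero_le
  have hbj : b j = 1 := by rw [hb]; exact div_self hcj
  have hbsum : ∑ i, algebraMap k k' (b i) * ξ ^ (i : ℕ) = 0 := by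
    have h1 : ∑ i, algebraMap k k' (b i) * ξ ^ (i : ℕ) =
        algebraMap k k' (c j)⁻¹ * ∑ i, algebraMap k k' (c i) * ξ ^ (i : ℕ) := by
      rw [Finset.mul_sum]
      refine Finset.sum_congr rfl fun i _ => ?_
      rw [hb]
      simp only [div_eq_mul_inv, map_mul]
      ring
    rw [h1, hc, mul_zero]
  -- the first unit coefficient
  obtain ⟨i₀, hi₀mem, hi₀min⟩ := Finset.exists_min_image
    (Finset.univ.filter (fun i : Fin m => v (b i) = 1)) (fun i => (i : ℕ))
    ⟨j, by rw [Finset.mem_filter]; exact ⟨Finset.mem_univ _, by rw [hbj, map_one]⟩⟩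
  have hi₀ : v (b i₀) = 1 := (Finset.mem_filter.1 hi₀mem).2
  have hlt : ∀ i : Fin m, (i : ℕ) < (i₀ : ℕ) → v (b i) < 1 := by
    intro i hi
    refine lt_of_le_of_ne (hb1 i) (fun h => ?_)
    have := hi₀min i (by rw [Finset.mem_filter]; exact ⟨Finset.mem_univ _, h⟩)
    omega
  have hi₀m : (i₀ : ℕ) < m := i₀.2
  -- the terms of `θ`
  set T : Fin m → k' := fun i =>
    if (i : ℕ) < (i₀ : ℕ) then algebraMap k k' (b i / t) * ξ ^ ((i : ℕ) + (m - 1 - (i₀ : ℕ)))
    else if (i : ℕ) = (i₀ : ℕ) then 0
    else algebraMap k k' (b i * ε) * ξ ^ ((i : ℕ) - (i₀ : ℕ) - 1) with hT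
  have hterm : ∀ i : Fin m, i ≠ i₀ →
      algebraMap k k' (b i) * ξ ^ ((i : ℕ) + (m - 1 - (i₀ : ℕ))) = algebraMap k k' t * T i := by
    intro i hi
    have hi' : (i : ℕ) ≠ (i₀ : ℕ) := fun h => hi (Fin.ext h)
    rw [hT]
    by_cases h1 : (i : ℕ) < (i₀ : ℕ)
    · simp only [h1, if_true]
      rw [← mul_assoc, ← map_mul, mul_div_cancel₀ _ ht0]
    · have h2 : (i₀ : ℕ) < (i : ℕ) := by omega
      simp only [h1, if_false, hi']
      have hexp : (i : ℕ) + (m - 1 - (i₀ : ℕ)) = m + ((i : ℕ) - (i₀ : ℕ) - 1) := by omega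
      rw [hexp, pow_add, hξ]
      simp only [map_mul]
      ring
  set θ : k' := ∑ i, T i with hθ
  -- the key relation
  have hkey : algebraMap k k' (b i₀) * ξ ^ (m - 1) + algebraMap k k' t * θ = 0 := by
    have h1 : ξ ^ (m - 1 - (i₀ : ℕ)) * ∑ i, algebraMap k k' (b i) * ξ ^ (i : ℕ) = 0 := by
      rw [hbsum, mul_zero]
    rw [Finset.mul_sum] at h1
    have h2 : ∀ i : Fin m, ξ ^ (m - 1 - (i₀ : ℕ)) * (algebraMap k k' (b i) * ξ ^ (i : ℕ)) =
        if i = i₀ then algebraMap k k' (b i₀) * ξ ^ (m - 1) else algebraMap k k' t * T i := by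
      intro i
      by_cases h : i = i₀
      · subst h
        simp only [if_true]
        have : m - 1 - (i : ℕ) + (i : ℕ) = m - 1 := by omega
        rw [mul_left_comm, ← pow_add, this]
      · simp only [h, if_false]
        rw [← hterm i h, pow_add]
        ring
    rw [Finset.sum_congr rfl (fun i _ => h2 i)] at h1
    have hT0 : T i₀ = 0 := by
      rw [hT]
      simp
    have h3 : ∑ i : Fin m, (if i = i₀ then algebraMap k k' (b i₀) * ξ ^ (m - 1)
        else algebraMap k k' t * T i) =
        algebraMap k k' (b i₀) * ξ ^ (m - 1) + algebraMap k k' t * θ := by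
      rw [hθ, Finset.mul_sum]
      rw [← Finset.add_sum_erase Finset.univ _ (Finset.mem_univ i₀)]
      rw [← Finset.add_sum_erase Finset.univ (fun i => algebraMap k k' t * T i)
        (Finset.mem_univ i₀)]
      simp only [if_true, hT0, mul_zero, zero_add]
      congr 1
      refine Finset.sum_congr rfl fun i hi => ?_
      have : i ≠ i₀ := (Finset.mem_erase.1 hi).1
      simp [this]
    rw [h3] at h1
    exact h1
  -- integrality over `A`
  letI : Algebra ↥A k' := ((algebraMap k k').comp (algebraMap ↥A k)).toAlgebra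
  haveI : IsScalarTower ↥A k k' := IsScalarTower.of_algebraMap_eq (fun _ => rfl)
  have hmemA : ∀ a : k, v a ≤ 1 → IsIntegral ↥A (algebraMap k k' a) := by
    intro a ha
    have haA : a ∈ A := (A.valuation_le_one_iff a).1 ha
    have : algebraMap k k' a = algebraMap ↥A k' ⟨a, haA⟩ := rfl
    rw [this]
    exact isIntegral_algebraMap
  have hεt : v (ε * t) ≤ 1 := by
    rw [map_mul, hε, one_mul]; exact ht.le
  have hξint : IsIntegral ↥A ξ := by
    refine IsIntegral.of_pow hm ?_
    rw [hξ]
    exact hmemA _ hεt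
  have hvt0 : v t ≠ 0 := (map_ne_zero v).2 ht0
  have hTint : ∀ i, IsIntegral ↥A (T i) := by
    intro i
    rw [hT]
    beta_reduce
    by_cases h1 : (i : ℕ) < (i₀ : ℕ)
    · rw [if_pos h1]
      refine IsIntegral.mul (hmemA _ ?_) (hξint.pow _)
      rw [map_div₀]
      exact div_le_one_of_le₀ (hgen _ (hlt i h1)) zero_le
    · by_cases h2 : (i : ℕ) = (i₀ : ℕ)
      · rw [if_neg h1, if_pos h2]
        exact isIntegral_zero
      · rw [if_neg h1, if_neg h2]
        refine IsIntegral.mul (hmemA _ ?_) (hξint.pow _)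
        rw [map_mul, hε, mul_one]
        exact hb1 i
  have hθint : IsIntegral ↥A θ := IsIntegral.sum _ (fun i _ => hTint i)
  -- `θ ^ m` lies in `k`
  set ρ : k := (-1) ^ m * b i₀ ^ m * (ε * t) ^ (m - 1) / t ^ m with hρ
  have hρθ : θ ^ m = algebraMap k k' ρ := by
    have h1 : algebraMap k k' (b i₀) * ξ ^ (m - 1) = -(algebraMap k k' t * θ) :=
      eq_neg_of_add_eq_zero_left hkey
    have h2 : (algebraMap k k' (b i₀) * ξ ^ (m - 1)) ^ m =
        algebraMap k k' (b i₀ ^ m * (ε * t) ^ (m - 1)) := by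
      rw [mul_pow, ← pow_mul, mul_comm (m - 1) m, pow_mul, hξ]
      simp only [map_mul, map_pow]
    have h3 : (-(algebraMap k k' t * θ)) ^ m = algebraMap k k' ((-1) ^ m * t ^ m) * θ ^ m := by
      rw [neg_pow, mul_pow, map_mul, map_pow, map_pow, map_neg, map_one]
      ring
    rw [h1, h3] at h2
    have ht' : algebraMap k k' ((-1) ^ m * t ^ m) ≠ 0 := by
      rw [Ne, map_eq_zero]
      exact mul_ne_zero (pow_ne_zero _ (by norm_num)) (pow_ne_zero _ ht0)
    have h4 : θ ^ m = (algebraMap k k' ((-1) ^ m * t ^ m))⁻¹ *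
        algebraMap k k' (b i₀ ^ m * (ε * t) ^ (m - 1)) := by
      rw [← h2, ← mul_assoc, inv_mul_cancel₀ ht', one_mul]
    rw [h4, ← map_inv₀, ← map_mul, hρ]
    congr 1
    have h5 : ((-1 : k) ^ m)⁻¹ = (-1) ^ m := by
      rw [← inv_pow]; norm_num
    rw [mul_inv, h5]
    field_simp
  have hρint : IsIntegral ↥A ρ := by
    have h1 : IsIntegral ↥A (algebraMap k k' ρ) := by
      rw [← hρθ]; exact hθint.pow m
    exact (isIntegral_algebraMap_iff (algebraMap k k').injective).1 h1
  have hρle : v ρ ≤ 1 :=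
    valuation_le_one_of_isIntegral_kumext v
      (fun a => (A.valuation_le_one_iff _).2 a.2) hρint
  -- but `v ρ = (v t)⁻¹ > 1`
  have hvρ : v ρ = (v t)⁻¹ := by
    have h1 : v ((-1 : k) ^ m) = 1 := by
      rw [map_pow, Valuation.map_neg, map_one, one_pow]
    have h2 : v t ^ m = v t ^ (m - 1) * v t := by
      rw [← pow_succ]
      congr 1
      omega
    rw [hρ, map_div₀, map_mul, map_mul, h1, map_pow, hi₀, one_pow, map_pow, map_mul, hε, one_mul,
      one_mul, one_mul, map_pow, h2, div_mul_eq_div_div, div_self (pow_ne_zero _ hvt0), one_div]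
  rw [hvρ] at hρle
  have : 1 < (v t)⁻¹ := (one_lt_inv₀ (zero_lt_iff.2 hvt0)).2 ht
  exact absurd hρle (not_le.2 this)

end Eis

end Fermat.Agent.RB
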