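/-
RB / [BB3] kill-test — helper5 — **KUMEXT, part 2: a sheet has exactly one extension to a Kummer
extension which is Eisenstein at one closed point of the sheet.**

`O` a discrete valuation subring of `F` (a sheet of the model), `L / F` finite separable of degree
`≤ m`, `V` an extension of `O` to `L`.  Let `Ā` be a valuation subring of the residue field of `O`
(a closed point of the sheet where the sheet is smooth), `x, ε ∈ O` with `x̄` a generator of the
maximal ideal of `Ā` and `ε̄` a unit of `Ā`, and `x' ∈ L` with `x' ^ m = ε x`.  Then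
(helper7's `one_ext` fed with `eq_zero_of_sum_pow_eq_zero_of_eisenstein`):

* `[L : F] = m`, `V` is the ONLY extension of `O` to `L`, it is unramified (`e = 1`), its residue
  field is spanned by the residues of `1, x', …, x'^(m-1)` (`f = m`), and `V` is the integral
  closure of `O` in `L`.
-/
import Mathlib
import Fermat.Agent.SS.VAL2_helper7_TwoExt
import Fermat.Agent.RB.KUMEXT_helper5_Eis

set_option autoImplicit false
set_option linter.unusedSectionVars false
set_option linter.style.haveILetI false

namespace Fermat.Agent.RB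

open IsLocalRing Fermat.Agent.SS.TwoExt

section ExtHom

variable {F L : Type*} [Field F] [Field L] [Algebra F L]
  {O : ValuationSubring F} {V : ValuationSubring L}

/-- the inclusion of a valuation subring into an extension. -/
def extHom (h : IsExt O V) : ↥O →+* ↥V :=
  ((algebraMap F L).comp O.subtype).codRestrict V.toSubring (fun a => (h.mem_iff _).mpr a.2)

theorem coe_extHom (h : IsExt O V) (a : ↥O) :
    ((extHom h a : ↥V) : L) = algebraMap F L (a : F) := rfl

instance isLocalHom_extHom (h : IsExt O V) : IsLocalHom (extHom h) := by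
  refine ⟨fun a ha => ?_⟩
  rw [ValuationSubring.valuation_eq_one_iff] at ha ⊢
  rw [coe_extHom] at ha
  by_contra hne
  have hlt : O.valuation (a : F) < 1 :=
    lt_of_le_of_ne ((ValuationSubring.valuation_le_one_iff _ _).2 a.2) hne
  have := (h.val_lt_one_iff (a : F)).2 hlt
  rw [ha] at this
  exact lt_irrefl _ this

/-- the residue field extension of an extension of valuation subrings. -/
noncomputable def resExt (h : IsExt O V) : ResidueField ↥O →+* ResidueField ↥V :=
  ResidueField.map (extHom h)

theorem resExt_residue (h : IsExt O V) (a : ↥O) :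
    resExt h (residue ↥O a) = residue ↥V (extHom h a) := rfl

end ExtHom

section One

variable {F L : Type*} [Field F] [Field L] [Algebra F L]
  {O : ValuationSubring F} [IsDiscreteValuationRing ↥O] [FiniteDimensional F L]
  [Algebra.IsSeparable F L]

/-- **the one-extension lemma for a Kummer extension, Eisenstein at a closed point of the sheet.** -/
theorem kummer_one_ext {V : ValuationSubring L} (h : IsExt O V) {m : ℕ} (hm : 0 < m)
    (hdeg : Module.finrank F L ≤ m)
    (Abar : ValuationSubring (ResidueField ↥O)) (x ε : ↥O)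
    (hx : Abar.valuation (residue ↥O x) < 1) (hx0 : residue ↥O x ≠ 0)
    (hgen : ∀ β : ResidueField ↥O, Abar.valuation β < 1 →
      Abar.valuation β ≤ Abar.valuation (residue ↥O x))
    (hε : Abar.valuation (residue ↥O ε) = 1)
    (x' : L) (hx' : x' ^ m = algebraMap F L ((ε : F) * (x : F))) :
    Module.finrank F L = m ∧
    (∀ V' : ValuationSubring L, IsExt O V' → V' = V) ∧
    (∀ ϖ : ↥O, Irreducible ϖ → ∀ y : L, V.valuation y < 1 →
      y * (algebraMap F L (ϖ : F))⁻¹ ∈ V) ∧
    (∀ y ∈ V, ∃ a : Fin m → ↥O,
      V.valuation (y - ∑ i, algebraMap F L (a i : F) * x' ^ (i : ℕ)) < 1) ∧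
    (∀ y : L, y ∈ V → IsIntegral ↥O y) := by
  -- `x'` is integral over `O`
  have hx'int : IsIntegral ↥O x' := by
    refine IsIntegral.of_pow hm ?_
    rw [hx']
    have : algebraMap F L ((ε : F) * (x : F)) = algebraMap ↥O L (ε * x) := rfl
    rw [this]
    exact isIntegral_algebraMap
  have hx'V : x' ∈ V := intCl_le h x' hx'int
  refine one_ext h hm hdeg (fun i => x' ^ (i : ℕ)) (fun i => hx'int.pow _) ?_
  intro a ha
  -- pass to the residue fields
  letI : Algebra (ResidueField ↥O) (ResidueField ↥V) := (resExt h).toAlgebra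
  set ξ : ResidueField ↥V := residue ↥V ⟨x', hx'V⟩ with hξ
  have hξm : ξ ^ m = algebraMap (ResidueField ↥O) (ResidueField ↥V)
      (residue ↥O ε * residue ↥O x) := by
    rw [hξ, ← map_pow, ← map_mul]
    show _ = resExt h (residue ↥O (ε * x))
    rw [resExt_residue]
    congr 1
    apply Subtype.ext
    show x' ^ m = _
    rw [hx']
    rfl
  have hsum : ∑ i, algebraMap (ResidueField ↥O) (ResidueField ↥V) (residue ↥O (a i)) *
      ξ ^ (i : ℕ) = 0 := by
    have h1 : ∑ i, algebraMap (ResidueField ↥O) (ResidueField ↥V) (residue ↥O (a i)) *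
        ξ ^ (i : ℕ) = residue ↥V (∑ i, extHom h (a i) * (⟨x', hx'V⟩ : ↥V) ^ (i : ℕ)) := by
      rw [map_sum]
      refine Finset.sum_congr rfl fun i _ => ?_
      rw [map_mul, map_pow]
      rfl
    rw [h1, residue_eq_zero_iff]
    have h2 : ((∑ i, extHom h (a i) * (⟨x', hx'V⟩ : ↥V) ^ (i : ℕ) : ↥V) : L) =
        ∑ i, algebraMap F L (a i : F) * x' ^ (i : ℕ) := by
      rw [AddSubmonoidClass.coe_finsetSum]
      rfl
    refine (ValuationSubring.valuation_lt_one_iff V _).2 ?_
    rw [h2]
    exact ha
  have hzero := eq_zero_of_sum_pow_eq_zero_of_eisenstein Abar hx hx0 hgen hε ξ hξm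
    (fun i => residue ↥O (a i)) hsum
  intro i
  exact (residue_eq_zero_iff _).1 (hzero i)

end One

end Fermat.Agent.RB
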