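/-
RB [BB3] = (KEY-H), package D [SHAPE+BCH] — helper5 — part 9: **helper8's étale-type clause
(`KUMBR_helper8_EtaleChart.exists_isBranchUniformizer_of_isEtaleAt`) with the Eisenstein point of the
sheet taken in the chart of ANOTHER coordinate.**

Needed for the chart `j⁻¹` of the Kummer cover: when `j = 0` is the only supersingular value
(`r = 3, 5`) the chart `j⁻¹` contains no node, but the residue extension of the sheets (degree `m`,
generated by the residue of `u / (π ^ a h)`) is a chart-independent fact, proved at a node of the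
chart `j`.  The proof is helper8's, verbatim, with the coordinate of the Eisenstein point renamed.
-/
import Mathlib
import Fermat.Agent.RB.KUMBR_helper8_EtaleChart

set_option autoImplicit false
set_option linter.unusedSectionVars false
set_option linter.unusedVariables false
set_option linter.style.haveILetI false

namespace Fermat.Agent.RB

open Fermat.Agent.SS Fermat.Agent.JA Fermat.Agent.SS.TwoExt IsLocalRing

section Chart

variable {R : Type*} [CommRing R] [IsDomain R] [IsDiscreteValuationRing R] [CharZero R]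
  {K₁ : Type*} [Field K₁] [Algebra R K₁] [IsFractionRing R K₁]
  {K : Type*} [Field K] [Algebra K₁ K] [Algebra R K] [IsScalarTower R K₁ K]
  {E : Type*} [Field E] [Algebra K E] [Algebra R E] [IsScalarTower R K E] [FiniteDimensional K E]
  {E' : Type*} [Field E'] [Algebra K E'] [Algebra R E'] [IsScalarTower R K E']
  [FiniteDimensional K E'] [Algebra E E'] [IsScalarTower K E E']
  {π : R} {t : K}

include K₁ in
/-- **the étale-type clause of `isModelChart_kummer`**, the Eisenstein point of the sheet being taken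
in the chart of another coordinate `tE` (e.g. `t = tE⁻¹`: the chart `tE⁻¹` may have no node). -/
theorem exists_isBranchUniformizer_of_isEtaleAt_gen (hπ : Irreducible π) (hu : Transcendental K₁ t)
    (hK : IntermediateField.adjoin K₁ {t} = ⊤) [IsAlgClosed (ResidueField R)]
    {tE : K} (huE : Transcendental K₁ tE) (hKE : IntermediateField.adjoin K₁ {tE} = ⊤)
    {W W₂ : ValuationSubring E} {V : ValuationSubring E'} (hext : IsExt W V)
    (hG : IsGaussAt R π t (W.comap (algebraMap K E)))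
    (hGE : IsGaussAt R π tE (W.comap (algebraMap K E)))
    {m : ℕ} (hm : 0 < m) (hmR : IsUnit (m : R)) (hdeg : Module.finrank E E' ≤ m)
    {f : E} {u : E'} (hu' : u ^ m = algebraMap E E' f)
    (𝔪E : Ideal ↥(chartOne R E tE)) [h𝔪Ep : 𝔪E.IsPrime] (h𝔪E : 𝔪E.IsMaximal)
    (hleE : sheetIdeal tE W (chart_le_of_isGaussAt hGE) ≤ 𝔪E) {node : Prop}
    (hE : IsEisensteinAt W W₂ (locRing (chartOne R E tE) 𝔪E) (locMax (chartOne R E tE) 𝔪E)
      (algebraMap R E π) m f node)
    (𝔪' : Ideal ↥(chartOne R E' t)) [h𝔪'p : 𝔪'.IsPrime] (h𝔪' : 𝔪'.IsMaximal)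
    (hle' : sheetIdeal t V (chart_le_of_isGaussAt (isGaussAt_of_isExt hext hG)) ≤ 𝔪')
    (hét : IsEtaleAt W
      (locRing (chartOne R E t) (𝔪'.comap (chartMap (R := R) (F := E) (L := E') t)))
      (locMax (chartOne R E t) (𝔪'.comap (chartMap (R := R) (F := E) (L := E') t)))
      (algebraMap R E π) m f) :
    ∃ z, IsBranchUniformizer
      (sheetIdeal t V (chart_le_of_isGaussAt (isGaussAt_of_isExt hext hG))) 𝔪' z := by
  classical
  obtain ⟨k, ζE, εE, hE', aE, hk, hζE, hεE, hhE, hfE, -⟩ := hE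
  obtain ⟨ζ, ε, h, a, hζ, hε, hh, hf⟩ := hét
  have hπE : algebraMap R E π ≠ 0 := algebraMap_pi_ne_zero (K₁ := K₁) (K := K) hπ
  have hζE0 : ζE ≠ 0 := by
    intro h0
    apply hζE.val
    rw [h0, map_zero]
    exact zero_lt_one
  obtain ⟨n, u', c, hu'm, hxEm, hcm⟩ :=
    exists_kummer_generators hm hk hπE hζE0 hεE.2.2 hhE hε.2.2 hh hfE hf hu'
  set xE : E' := algebraMap E E' c * u' ^ n with hxE
  -- instances
  haveI : IsDiscreteValuationRing ↥W := isDiscreteValuationRing_sheet (K₁ := K₁) hπ hu hK hG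
  have hinj : Function.Injective (algebraMap R K) := by
    rw [IsScalarTower.algebraMap_eq R K₁ K]
    exact (algebraMap K₁ K).injective.comp (IsFractionRing.injective R K₁)
  haveI : CharZero K := charZero_of_injective_algebraMap hinj
  haveI : CharZero E := charZero_of_injective_algebraMap (algebraMap K E).injective
  haveI : FiniteDimensional E E' := FiniteDimensional.right K E E'
  haveI : Algebra.IsSeparable E E' := Algebra.IsAlgebraic.isSeparable_of_perfectField
  haveI : IsNoetherianRing ↥(chartOne R E t) := isNoetherianRing_chartOne (K₁ := K₁) t hu hK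
  have hG' := isGaussAt_of_isExt hext hG
  have hBW : ∀ b ∈ chartOne R E t, b ∈ W := chart_le_of_isGaussAt hG
  have hBV : ∀ b ∈ chartOne R E' t, b ∈ V := chart_le_of_isGaussAt hG'
  have h𝔭 := mem_sheetIdeal_iff t W hBW
  have h𝔭' := mem_sheetIdeal_iff t V hBV
  -- the Eisenstein point upstairs: the residue extension
  have hGE' := isGaussAt_of_isExt hext hGE
  have hBWE : ∀ b ∈ chartOne R E tE, b ∈ W := chart_le_of_isGaussAt hGE
  have hBVE : ∀ b ∈ chartOne R E' tE, b ∈ V := chart_le_of_isGaussAt hGE'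
  obtain ⟨𝔪E', h𝔪E', hleE', hcomapE⟩ := exists_isMaximal_comap_eq hext hBWE hBVE 𝔪E h𝔪E hleE
  haveI := h𝔪E'.isPrime
  subst hcomapE
  have hnode := isKummerNode_of_chart hπ huE hKE hext hGE 𝔪E' h𝔪E' hleE' hζE (hεE.pow n) hm hxEm
  have hεζ : εE ^ n * ζE ∈ W := by
    have h1 := hnode.leV _ (hnode.le _ ((locRing (chartOne R E tE) _).mul_mem (hεE.pow n).1
      (locMax_subset_locRing hζE.mem)))
    exact (hext.mem_iff _).mp h1
  have hspan := hnode.span_of_one_ext hεζ hdeg
  have hxEV : xE ∈ V := hnode.leV _ hnode.x'_mem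
  -- the étale point
  haveI := h𝔪'
  haveI h𝔪max : (𝔪'.comap (chartMap (R := R) (F := E) (L := E') t)).IsMaximal :=
    Ideal.isMaximal_comap_of_isIntegral_of_isMaximal' _ (chartMap_isIntegral t) 𝔪'
  have hle : sheetIdeal t W hBW ≤ 𝔪'.comap (chartMap (R := R) (F := E) (L := E') t) :=
    sheetIdeal_le_comap hext hBW hBV 𝔪' hle'
  have hUW : ∀ υ : E, IsLUnit (locRing (chartOne R E t)
      (𝔪'.comap (chartMap (R := R) (F := E) (L := E') t))) υ → W.valuation υ = 1 := by
    intro υ hυ
    exact val_eq_one_of_mem_of_inv_mem W hυ.2.2 (mem_of_mem_locRing hBW h𝔭 hle hυ.1)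
      (mem_of_mem_locRing hBW h𝔭 hle hυ.2.1)
  have hvε : W.valuation ε = 1 := hUW ε hε
  have hvιε : V.valuation (algebraMap E E' ε) = 1 := by
    refine val_eq_one_of_mem_of_inv_mem V ((map_ne_zero _).mpr hε.2.2) ?_ ?_
    · exact (hext.mem_iff _).mpr ((ValuationSubring.valuation_le_one_iff _ _).mp hvε.le)
    · rw [← map_inv₀]
      refine (hext.mem_iff _).mpr ((ValuationSubring.valuation_le_one_iff _ _).mp ?_)
      rw [map_inv₀, hvε, inv_one]
  have hvu' : V.valuation u' = 1 := by
    have h1 : V.valuation u' ^ m = 1 := by rw [← map_pow, hu'm, hvιε]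
    exact (pow_eq_one_iff.mp h1).resolve_right hm.ne'
  have hu'V : u' ∈ V := (ValuationSubring.valuation_le_one_iff _ _).mp hvu'.le
  -- `c` is a unit of `W`
  have hvεE : W.valuation εE = 1 := by
    have h1 := hnode.leV _ (hnode.le _ hεE.1)
    have h2 := hnode.leV _ (hnode.le _ hεE.2.1)
    exact val_eq_one_of_mem_of_inv_mem W hεE.2.2 ((hext.mem_iff _).mp h1) ((hext.mem_iff _).mp h2)
  have hvζE : W.valuation ζE = 1 := by
    have h1 := hnode.leV _ (hnode.le _ (locMax_subset_locRing hζE.mem))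
    exact le_antisymm ((ValuationSubring.valuation_le_one_iff _ _).mpr ((hext.mem_iff _).mp h1))
      (not_lt.mp hζE.val)
  have hvc : W.valuation c = 1 := by
    have h1 := congrArg W.valuation hcm
    simp only [map_mul, map_pow, hvε, hvεE, hvζE, one_pow, mul_one] at h1
    exact (pow_eq_one_iff.mp h1).resolve_right hm.ne'
  have hcW : c ∈ W := (ValuationSubring.valuation_le_one_iff _ _).mp hvc.le
  -- the residue fields
  letI : Algebra (ResidueField ↥W) (ResidueField ↥V) := (resExt hext).toAlgebra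
  have hres : ∀ a : ↥W, algebraMap (ResidueField ↥W) (ResidueField ↥V) (residue ↥W a) =
      residue ↥V ⟨algebraMap E E' (a : E), (hext.mem_iff _).mpr a.2⟩ := fun a => rfl
  set ξ : ResidueField ↥V := residue ↥V ⟨xE, hxEV⟩ with hξ
  have hsumcoe : ∀ a : Fin m → ↥W,
      ((∑ i, (⟨algebraMap E E' (a i : E), (hext.mem_iff _).mpr (a i).2⟩ : ↥V) *
        (⟨xE, hxEV⟩ : ↥V) ^ (i : ℕ) : ↥V) : E') =
      ∑ i, algebraMap E E' (a i : E) * xE ^ (i : ℕ) := by
    intro a
    rw [AddSubmonoidClass.coe_finsetSum]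
    rfl
  have hsumres : ∀ a : Fin m → ↥W,
      ∑ i, algebraMap (ResidueField ↥W) (ResidueField ↥V) (residue ↥W (a i)) * ξ ^ (i : ℕ) =
      residue ↥V (∑ i, (⟨algebraMap E E' (a i : E), (hext.mem_iff _).mpr (a i).2⟩ : ↥V) *
        (⟨xE, hxEV⟩ : ↥V) ^ (i : ℕ)) := by
    intro a
    rw [map_sum]
    refine Finset.sum_congr rfl fun i _ => ?_
    rw [map_mul, map_pow, hres]
  have hindepκ : ∀ b : Fin m → ResidueField ↥W,
      ∑ i, algebraMap (ResidueField ↥W) (ResidueField ↥V) (b i) * ξ ^ (i : ℕ) = 0 →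
      ∀ i, b i = 0 := by
    intro b hb
    choose a ha using fun i => residue_surjective (b i)
    have h1 : ∑ i, algebraMap (ResidueField ↥W) (ResidueField ↥V) (residue ↥W (a i)) *
        ξ ^ (i : ℕ) = 0 := by
      rw [← hb]
      refine Finset.sum_congr rfl fun i _ => ?_
      rw [ha i]
    rw [hsumres, residue_eq_zero_iff, ValuationSubring.valuation_lt_one_iff, hsumcoe] at h1
    have h2 := hnode.indep (fun i => (a i : E)) (fun i => (a i).2) h1
    intro i
    rw [← ha i, residue_eq_zero_iff, ValuationSubring.valuation_lt_one_iff]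
    exact h2 i
  have hspanκ : ∀ y : ResidueField ↥V, ∃ b : Fin m → ResidueField ↥W,
      y = ∑ i, algebraMap (ResidueField ↥W) (ResidueField ↥V) (b i) * ξ ^ (i : ℕ) := by
    intro y
    obtain ⟨y₀, rfl⟩ := residue_surjective y
    obtain ⟨a, ha, hya⟩ := hspan (y₀ : E') y₀.2
    refine ⟨fun i => residue ↥W ⟨a i, ha i⟩, ?_⟩
    rw [hsumres (fun i => ⟨a i, ha i⟩), ← sub_eq_zero, ← map_sub, residue_eq_zero_iff,
      ValuationSubring.valuation_lt_one_iff]
    have h2 : ((y₀ - ∑ i, (⟨algebraMap E E' (a i), (hext.mem_iff _).mpr (ha i)⟩ : ↥V) *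
        (⟨xE, hxEV⟩ : ↥V) ^ (i : ℕ) : ↥V) : E') =
        (y₀ : E') - ∑ i, algebraMap E E' (a i) * xE ^ (i : ℕ) := by
      have := hsumcoe (fun i => ⟨a i, ha i⟩)
      rw [AddSubgroupClass.coe_sub, this]
    rw [h2]
    exact hya
  obtain ⟨hdegκ, htopξ⟩ := finrank_eq_and_adjoin_eq_top_of_sum_pow ξ hindepκ hspanκ
  -- the residue of `u'` generates
  have hξu : ξ = algebraMap (ResidueField ↥W) (ResidueField ↥V) (residue ↥W ⟨c, hcW⟩) *
      residue ↥V ⟨u', hu'V⟩ ^ n := by
    rw [hres, ← map_pow, ← map_mul]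
    rfl
  have htop : Algebra.adjoin (ResidueField ↥W)
      ({residue ↥V ⟨u', hu'V⟩} : Set (ResidueField ↥V)) = ⊤ :=
    adjoin_eq_top_of_eq_mul_pow htopξ hξu
  -- the remaining chart hypotheses
  have hm𝔪 : ((m : ℕ) : ↥(chartOne R E t)) ∉
      𝔪'.comap (chartMap (R := R) (F := E) (L := E') t) := by
    intro hmem
    have h1 : IsUnit ((m : ℕ) : ↥(chartOne R E t)) := by
      have := hmR.map (algebraMap R ↥(chartOne R E t))
      rwa [map_natCast] at this
    exact h𝔪max.ne_top (Ideal.eq_top_of_isUnit_mem _ hmem h1)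
  have hroot : ∀ (e : E') (b : ↥(chartOne R E t)), e ^ m = algebraMap E E' (b : E) →
      e ∈ chartOne R E' t := by
    intro e b he
    apply mem_chartOne_of_isIntegral
    refine IsIntegral.of_pow hm ?_
    have h1 : e ^ m = algebraMap ↥(chartOne R E' t) E' (chartMap t b) := he
    rw [h1]
    exact isIntegral_algebraMap
  have hπ𝔪' : algebraMap R ↥(chartOne R E' t) π ∈ 𝔪' := by
    apply hle'
    rw [h𝔭']
    have hπE' : algebraMap R E' π ≠ 0 := algebraMap_pi_ne_zero (K₁ := K₁) (K := K) hπ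
    show V.valuation (algebraMap R E' π) < 1
    rw [TwoExt.val_lt_one_iff_inv_not_mem V hπE']
    intro hmem
    apply hG'.2.1
    change algebraMap K E' ((algebraMap R K π)⁻¹) ∈ V
    rwa [map_inv₀, ← IsScalarTower.algebraMap_apply]
  have hres1 : ∀ w : ↥(chartOne R E' t), ∃ r : R, w - algebraMap R ↥(chartOne R E' t) r ∈ 𝔪' :=
    fun w => exists_sub_mem_of_isMaximal_chartOne (K₁ := K₁) hπ hu hK 𝔪' hπ𝔪' w
  obtain ⟨x₀, -, hx₀⟩ := exists_isBranchUniformizer_of_kummer_unit
    (chartMap (R := R) (F := E) (L := E') t) (fun b => coe_chartMap t b)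
    (fun r => chartMap_algebraMap t r) (chartMap_isIntegral t) hext hBW hBV h𝔭 h𝔭'
    (fun x hx => exists_mul_eq_of_mem_of_isGaussAt hπ hu hK hG x hx) hle' hres hm hm𝔪 hζ hε.1
    hε.2.1 hε.2.2 hu'm hu'V hroot hdegκ htop hres1
  exact ⟨_, hx₀⟩

end Chart

end Fermat.Agent.RB
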