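/-
RB [BB3] = (KEY-H), package D [SHAPE+BCH] — helper5 — part 2: **the étale shape of the Kummer
generator at the smooth closed points of the special fibre** (any base, ramified or not).

`f ∈ E` with `m ∣ ord_P f` at ALL places `P` of `E / K₁`, and of order `m j` along the sheet `W`
(`W.valuation (f π^{-m j}) = 1`).  At a closed point `𝔪` of the chart lying on the sheet `W` only
(`IsModelChart` gives a branch uniformizer `z`): `f = ε · γ ^ m` with `ε` a unit of the local ring at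
`𝔪` — `IsEtaleAt W (locRing B 𝔪) (locMax B 𝔪) π m f` of `KUMEXT_helper5_Chart`.
No rationality of the divisor of `f`, no Hensel hypothesis (NP `exists_kummer_at_smoothQ`).
-/
import Mathlib
import Fermat.Agent.NP.SMOOTHQ_helper5_Fact
import Fermat.Agent.SS.UNODE_helper6_Abs
import Fermat.Agent.RB.KUMEXT_helper5_Chart
import Fermat.Agent.SS.GLUE_helper3_C

set_option autoImplicit false
set_option linter.unusedSectionVars false
set_option linter.unusedVariables false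
set_option linter.style.haveILetI false

open AlgebraicCurve

namespace Fermat.Agent.RB

open Fermat.Agent.JA Fermat.Agent.SS Fermat.Agent.NP Fermat.Agent.FF

section Abstract

variable {R₁ : Type*} [CommRing R₁] [IsDomain R₁] [IsDiscreteValuationRing R₁]
variable {B : Type*} [CommRing B] [IsDomain B] [IsNoetherianRing B] [IsIntegrallyClosed B]
  [Algebra R₁ B]
variable {E : Type*} [Field E] [Algebra B E] [IsFractionRing B E]

/-- `exists_kummer_at_smoothQ` with the local ring `Localization.AtPrime 𝔪` instantiated. -/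
theorem exists_local_root_of_smooth {ϖ : R₁} (hπne : algebraMap R₁ B ϖ ≠ 0)
    {𝔭 𝔭' : Ideal B} [h𝔭 : 𝔭.IsPrime] (hπ : algebraMap R₁ B ϖ ∈ 𝔭)
    (hinf : 𝔭 ⊓ 𝔭' ≤ Ideal.span {algebraMap R₁ B ϖ})
    (𝔪 : Ideal B) (h𝔪 : 𝔪.IsMaximal) (hle : 𝔭 ≤ 𝔪) (hnle : ¬ 𝔭' ≤ 𝔪)
    {z : B} (hz : IsBranchUniformizer 𝔭 𝔪 z)
    {m : ℕ} (hm : m ≠ 0) {g : E} (hg : g ≠ 0)
    (hdiv : ∀ 𝔮 : Ideal B, 𝔮.IsPrime → 𝔮.height = 1 → algebraMap R₁ B ϖ ∉ 𝔮 → 𝔮 ≤ 𝔪 →
      IsKummerAtPrimeQ m g 𝔮)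
    (j : ℤ) (hgπ : IsUnitAtPrime 𝔭
      (g * (algebraMap B E (algebraMap R₁ B ϖ) ^ ((m : ℤ) * j))⁻¹)) :
    ∃ γ : E, γ ≠ 0 ∧ IsUnitAtPrime 𝔪 (g * (γ ^ m)⁻¹) := by
  haveI := h𝔪
  have hS : 𝔪.primeCompl ≤ nonZeroDivisors B := by
    intro s hs
    exact mem_nonZeroDivisors_of_ne_zero (fun h0 => hs (h0 ▸ 𝔪.zero_mem))
  haveI : IsIntegrallyClosed (Localization.AtPrime 𝔪) :=
    isIntegrallyClosed_of_isLocalization (Localization.AtPrime 𝔪) 𝔪.primeCompl hS
  have hunits : ∀ s : 𝔪.primeCompl, IsUnit (algebraMap B E s) := fun s =>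
    Localization.map_isUnit_of_le E 𝔪.primeCompl hS s
  letI : Algebra (Localization.AtPrime 𝔪) E :=
    (IsLocalization.lift (M := 𝔪.primeCompl) (S := Localization.AtPrime 𝔪) hunits).toAlgebra
  haveI : IsScalarTower B (Localization.AtPrime 𝔪) E :=
    IsScalarTower.of_algebraMap_eq (fun b => (IsLocalization.lift_eq hunits b).symm)
  haveI : IsFractionRing (Localization.AtPrime 𝔪) E :=
    IsFractionRing.isFractionRing_of_isDomain_of_isLocalization 𝔪.primeCompl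
      (Localization.AtPrime 𝔪) E
  exact exists_kummer_at_smoothQ (R := Localization.AtPrime 𝔪) 𝔪 hπne hπ hinf hle hnle hz hm hg
    hdiv j hgπ

end Abstract

section Chart

variable {R : Type*} [CommRing R] [IsDomain R] [IsDiscreteValuationRing R] [CharZero R]
  {K₁ : Type*} [Field K₁] [Algebra R K₁] [IsFractionRing R K₁]
  {K : Type*} [Field K] [Algebra K₁ K] [Algebra R K] [IsScalarTower R K₁ K]
  {E : Type*} [Field E] [Algebra K E] [Algebra K₁ E] [IsScalarTower K₁ K E] [Algebra R E]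
  [IsScalarTower R K E] [FiniteDimensional K E]
  {π : R} {t : K}

/-- a unit at the prime `𝔪` of the chart is a unit of the local ring (local currency). -/
theorem isLUnit_of_isUnitAtPrime {𝔪 : Ideal ↥(chartOne R E t)} [𝔪.IsPrime] {ε : E}
    (h : IsUnitAtPrime 𝔪 ε) : IsLUnit (locRing (chartOne R E t) 𝔪) ε := by
  obtain ⟨r, s, hr, hs, hrs⟩ := h
  have hrs' : ε * (s : E) = (r : E) := hrs
  have hs0 : (s : E) ≠ 0 := fun h0 => hs (by
    have : s = 0 := Subtype.ext h0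
    rw [this]; exact 𝔪.zero_mem)
  have hr0 : (r : E) ≠ 0 := fun h0 => hr (by
    have : r = 0 := Subtype.ext h0
    rw [this]; exact 𝔪.zero_mem)
  have hε0 : ε ≠ 0 := by
    rintro rfl
    rw [zero_mul] at hrs'
    exact hr0 hrs'.symm
  refine ⟨⟨r, s, hs, hrs'⟩, ⟨s, r, hr, ?_⟩, hε0⟩
  rw [← hrs']
  field_simp

include K₁ in
/-- **the étale shape at a smooth closed point**: `W` one of the sheets of a model chart
(`𝔭 = sheetIdeal t W`, `𝔭'` the ideal of the other sheet). -/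
theorem isEtaleAt_of_smooth (hπ : Irreducible π) (hu : Transcendental K₁ t)
    (hK : IntermediateField.adjoin K₁ {t} = ⊤) {W : ValuationSubring E}
    (hG : IsGaussAt R π t (W.comap (algebraMap K E)))
    {𝔭' : Ideal ↥(chartOne R E t)}
    (hinf : sheetIdeal t W (chart_le_of_isGaussAt hG) ⊓ 𝔭' ≤
      Ideal.span {algebraMap R ↥(chartOne R E t) π})
    (𝔪 : Ideal ↥(chartOne R E t)) [h𝔪p : 𝔪.IsPrime] (h𝔪 : 𝔪.IsMaximal)
    (hle : sheetIdeal t W (chart_le_of_isGaussAt hG) ≤ 𝔪) (hnle : ¬ 𝔭' ≤ 𝔪)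
    {z : ↥(chartOne R E t)}
    (hz : IsBranchUniformizer (sheetIdeal t W (chart_le_of_isGaussAt hG)) 𝔪 z)
    {m : ℕ} (hm : m ≠ 0) {f : E} (hf : f ≠ 0)
    (hord : ∀ P : Place K₁ E, (m : ℤ) ∣ P.ord f)
    (j : ℤ) (hfW : W.valuation (f * (algebraMap R E π ^ ((m : ℤ) * j))⁻¹) = 1) :
    IsEtaleAt W (locRing (chartOne R E t) 𝔪) (locMax (chartOne R E t) 𝔪) (algebraMap R E π) m
      f := by
  haveI : IsScalarTower R K₁ E := isScalarTower_base_const R K₁ K E
  haveI : IsIntegrallyClosed ↥(chartOne R E t) := isIntegrallyClosed_chartOne (K₁ := K₁) t hK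
  haveI : IsNoetherianRing ↥(chartOne R E t) := isNoetherianRing_chartOne (K₁ := K₁) t hu hK
  haveI : IsFractionRing ↥(chartOne R E t) E := isFractionRing_chartOne (K₁ := K₁) t hK
  have hBW : ∀ b ∈ chartOne R E t, b ∈ W := chart_le_of_isGaussAt hG
  have hπE : algebraMap R E π ≠ 0 := algebraMap_pi_ne_zero (K₁ := K₁) (K := K) hπ
  have hπne : algebraMap R ↥(chartOne R E t) π ≠ 0 := by
    intro h0
    apply hπE
    have := congrArg (fun w : ↥(chartOne R E t) => (w : E)) h0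
    simpa using this
  have hπ𝔭 : algebraMap R ↥(chartOne R E t) π ∈ sheetIdeal t W hBW := by
    rw [mem_sheetIdeal_iff]
    change W.valuation (algebraMap R E π) < 1
    rw [TwoExt.val_lt_one_iff_inv_not_mem W hπE]
    intro hmem
    apply hG.2.1
    change algebraMap K E ((algebraMap R K π)⁻¹) ∈ W
    rwa [map_inv₀, ← IsScalarTower.algebraMap_apply]
  -- the unit along the sheet
  have hx0 : f * (algebraMap R E π ^ ((m : ℤ) * j))⁻¹ ≠ 0 :=
    mul_ne_zero hf (inv_ne_zero (zpow_ne_zero _ hπE))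
  have hxW : f * (algebraMap R E π ^ ((m : ℤ) * j))⁻¹ ∈ W :=
    (ValuationSubring.valuation_le_one_iff _ _).mp hfW.le
  have hxW' : (f * (algebraMap R E π ^ ((m : ℤ) * j))⁻¹)⁻¹ ∈ W := by
    rw [← ValuationSubring.valuation_le_one_iff, map_inv₀, hfW, inv_one]
  have hgπ := isUnitAtPrime_sheetIdeal_of_isGaussAt hπ hu hK hG hx0 hxW hxW'
  have hdiv : ∀ 𝔮 : Ideal ↥(chartOne R E t), 𝔮.IsPrime → 𝔮.height = 1 →
      algebraMap R ↥(chartOne R E t) π ∉ 𝔮 → 𝔮 ≤ 𝔪 → IsKummerAtPrimeQ m f 𝔮 := by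
    intro 𝔮 h𝔮 hht hπ𝔮 _
    haveI := h𝔮
    exact isKummerAtPrimeQ_of_place (K₁ := K₁) hπ 𝔮 hht hπ𝔮 (fun P _ _ => hord P)
  obtain ⟨γ, hγ, hunit⟩ := exists_local_root_of_smooth (R₁ := R) (B := ↥(chartOne R E t)) (E := E)
    hπne hπ𝔭 hinf 𝔪 h𝔪 hle hnle hz hm hf hdiv j hgπ
  have hζ := hz.isLocBranch hBW (mem_sheetIdeal_iff t W hBW) hle
  refine ⟨(z : E), f * (γ ^ m)⁻¹, γ, 0, hζ, isLUnit_of_isUnitAtPrime hunit, hγ, ?_⟩
  rw [mul_zero, zpow_zero, one_mul]
  field_simp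

end Chart

end Fermat.Agent.RB
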