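/-
RB [BB3] = (KEY-H), package D [SHAPE+BCH] — helper5 — part 6: **assembly of the local shapes.**

Over the big base: the chart `t` of `E` is a model chart (`hmod`), `f ∈ E` has `m ∣ ord_P f` at all
places and orders `m jinf`, `m j0` along the two sheets, and is Eisenstein-shaped along both sheets
at every node (`hnode`, from `isEisensteinAt_of_isNodeShape`).  Then the hypotheses `hloc_inf`,
`hloc_zero` of `isModelChart_kummer` hold (`hloc_of_nodes`), hence the chart `t` of the Kummer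
cover `E' = E(f^{1/m})` is a model chart (`isModelChart_kummer_of_nodes`).
-/
import Mathlib
import Fermat.Agent.RB.KEYH_helper5_Smooth
import Fermat.Agent.RB.KEYH_helper5_NodeBC
import Fermat.Agent.RB.KEYH_helper5_EtaleGen
import Fermat.Agent.SS.XFER_helper3

set_option autoImplicit false
set_option linter.unusedSectionVars false
set_option linter.unusedVariables false
set_option linter.style.haveILetI false

open AlgebraicCurve

namespace Fermat.Agent.RB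

open Fermat.Agent.SS Fermat.Agent.JA Fermat.Agent.SS.TwoExt Fermat.Agent.FF IsLocalRing

section Assemble

variable {R : Type*} [CommRing R] [IsDomain R] [IsDiscreteValuationRing R] [CharZero R]
  {K₁ : Type*} [Field K₁] [Algebra R K₁] [IsFractionRing R K₁]
  {K : Type*} [Field K] [Algebra K₁ K] [Algebra R K] [IsScalarTower R K₁ K]
  {E : Type*} [Field E] [Algebra K E] [Algebra K₁ E] [IsScalarTower K₁ K E] [Algebra R E]
  [IsScalarTower R K E] [FiniteDimensional K E]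
  {π : R} {t : K}

include K₁ in
/-- **the local shapes of the Kummer generator at all closed points of the special fibre.** -/
theorem hloc_of_nodes (hπ : Irreducible π) (hu : Transcendental K₁ t)
    (hK : IntermediateField.adjoin K₁ {t} = ⊤) {Winf W0 : ValuationSubring E}
    (two : IsTwoSheet π t Winf W0)
    (hmod : IsModelChart E π (sheetIdeal t Winf two.chart_le_inf)
      (sheetIdeal t W0 two.chart_le_zero))
    {m : ℕ} (hm : m ≠ 0) {f : E} (hf : f ≠ 0) (hord : ∀ P : Place K₁ E, (m : ℤ) ∣ P.ord f)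
    (jinf j0 : ℤ) (hfinf : Winf.valuation (f * (algebraMap R E π ^ ((m : ℤ) * jinf))⁻¹) = 1)
    (hf0 : W0.valuation (f * (algebraMap R E π ^ ((m : ℤ) * j0))⁻¹) = 1)
    (hnode : ∀ (𝔪 : Ideal ↥(chartOne R E t)) [𝔪.IsPrime], 𝔪.IsMaximal →
      sheetIdeal t Winf two.chart_le_inf ≤ 𝔪 → sheetIdeal t W0 two.chart_le_zero ≤ 𝔪 →
      IsEisensteinAt Winf W0 (locRing (chartOne R E t) 𝔪) (locMax (chartOne R E t) 𝔪)
        (algebraMap R E π) m f (sheetIdeal t W0 two.chart_le_zero ≤ 𝔪) ∧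
      IsEisensteinAt W0 Winf (locRing (chartOne R E t) 𝔪) (locMax (chartOne R E t) 𝔪)
        (algebraMap R E π) m f (sheetIdeal t Winf two.chart_le_inf ≤ 𝔪)) :
    (∀ (𝔪 : Ideal ↥(chartOne R E t)) [𝔪.IsPrime], 𝔪.IsMaximal →
      sheetIdeal t Winf two.chart_le_inf ≤ 𝔪 →
      IsEisensteinAt Winf W0 (locRing (chartOne R E t) 𝔪) (locMax (chartOne R E t) 𝔪)
        (algebraMap R E π) m f (sheetIdeal t W0 two.chart_le_zero ≤ 𝔪) ∨
      (¬ sheetIdeal t W0 two.chart_le_zero ≤ 𝔪 ∧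
        IsEtaleAt Winf (locRing (chartOne R E t) 𝔪) (locMax (chartOne R E t) 𝔪)
          (algebraMap R E π) m f)) ∧
    (∀ (𝔪 : Ideal ↥(chartOne R E t)) [𝔪.IsPrime], 𝔪.IsMaximal →
      sheetIdeal t W0 two.chart_le_zero ≤ 𝔪 →
      IsEisensteinAt W0 Winf (locRing (chartOne R E t) 𝔪) (locMax (chartOne R E t) 𝔪)
        (algebraMap R E π) m f (sheetIdeal t Winf two.chart_le_inf ≤ 𝔪) ∨
      (¬ sheetIdeal t Winf two.chart_le_inf ≤ 𝔪 ∧
        IsEtaleAt W0 (locRing (chartOne R E t) 𝔪) (locMax (chartOne R E t) 𝔪)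
          (algebraMap R E π) m f)) := by
  constructor
  · intro 𝔪 _ h𝔪 hle
    by_cases h0 : sheetIdeal t W0 two.chart_le_zero ≤ 𝔪
    · exact Or.inl (hnode 𝔪 h𝔪 hle h0).1
    · refine Or.inr ⟨h0, ?_⟩
      obtain ⟨z, hz⟩ := hmod.branch_inf 𝔪 h𝔪 (hle hmod.mem_inf) hle h0
      exact isEtaleAt_of_smooth (K₁ := K₁) hπ hu hK two.gauss_inf hmod.inf_le 𝔪 h𝔪 hle h0 hz hm hf
        hord jinf hfinf
  · intro 𝔪 _ h𝔪 hle
    by_cases h0 : sheetIdeal t Winf two.chart_le_inf ≤ 𝔪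
    · exact Or.inl (hnode 𝔪 h𝔪 h0 hle).2
    · refine Or.inr ⟨h0, ?_⟩
      obtain ⟨z, hz⟩ := hmod.branch_zero 𝔪 h𝔪 (hle hmod.mem_zero) hle h0
      have hinf' : sheetIdeal t W0 two.chart_le_zero ⊓ sheetIdeal t Winf two.chart_le_inf ≤
          Ideal.span {algebraMap R ↥(chartOne R E t) π} := by
        rw [inf_comm]; exact hmod.inf_le
      exact isEtaleAt_of_smooth (K₁ := K₁) hπ hu hK two.gauss_zero hinf' 𝔪 h𝔪 hle h0 hz hm hf
        hord j0 hf0

variable {E' : Type*} [Field E'] [Algebra K E'] [Algebra R E'] [IsScalarTower R K E']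
  [FiniteDimensional K E'] [Algebra E E'] [IsScalarTower K E E']

/-- weakening of the node clause of an Eisenstein shape. -/
theorem IsEisensteinAt.imp_node {W W₂ : ValuationSubring E} {L : Subalgebra R E} {M : Set E}
    {ϖ : E} {m : ℕ} {f : E} {node node' : Prop} (h : IsEisensteinAt W W₂ L M ϖ m f node)
    (himp : node' → node) : IsEisensteinAt W W₂ L M ϖ m f node' := by
  obtain ⟨k, ζ, ε, h', a, hk, hζ, hε, hh, hf, hn⟩ := h
  exact ⟨k, ζ, ε, h', a, hk, hζ, hε, hh, hf, fun hn' => hn (himp hn')⟩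

include K₁ in
/-- **the model chart of a Kummer cover** (`isModelChart_kummer` with the unit clause only at the
nodes, as in `IsModelChart.node`). -/
theorem isModelChart_kummer_gen (hπ : Irreducible π) (hu : Transcendental K₁ t)
    (hK : IntermediateField.adjoin K₁ {t} = ⊤) {Winf W0 : ValuationSubring E}
    (two : IsTwoSheet π t Winf W0) {Winf' W0' : ValuationSubring E'}
    (hexti : IsExt Winf Winf') (hextz : IsExt W0 W0') (two' : IsTwoSheet π t Winf' W0')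
    {m : ℕ} (hm : 0 < m) (hdeg : Module.finrank E E' ≤ m) {f : E} {u : E'}
    (hu' : u ^ m = algebraMap E E' f)
    (hloc_inf : ∀ (𝔪 : Ideal ↥(chartOne R E t)) [𝔪.IsPrime], 𝔪.IsMaximal →
      sheetIdeal t Winf two.chart_le_inf ≤ 𝔪 →
      IsEisensteinAt Winf W0 (locRing (chartOne R E t) 𝔪) (locMax (chartOne R E t) 𝔪)
        (algebraMap R E π) m f (sheetIdeal t W0 two.chart_le_zero ≤ 𝔪) ∨
      (¬ sheetIdeal t W0 two.chart_le_zero ≤ 𝔪 ∧
        IsEtaleAt Winf (locRing (chartOne R E t) 𝔪) (locMax (chartOne R E t) 𝔪)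
          (algebraMap R E π) m f))
    (hloc_zero : ∀ (𝔪 : Ideal ↥(chartOne R E t)) [𝔪.IsPrime], 𝔪.IsMaximal →
      sheetIdeal t W0 two.chart_le_zero ≤ 𝔪 →
      IsEisensteinAt W0 Winf (locRing (chartOne R E t) 𝔪) (locMax (chartOne R E t) 𝔪)
        (algebraMap R E π) m f (sheetIdeal t Winf two.chart_le_inf ≤ 𝔪) ∨
      (¬ sheetIdeal t Winf two.chart_le_inf ≤ 𝔪 ∧
        IsEtaleAt W0 (locRing (chartOne R E t) 𝔪) (locMax (chartOne R E t) 𝔪)
          (algebraMap R E π) m f))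
    (hét_inf : ∀ (𝔪' : Ideal ↥(chartOne R E' t)) [𝔪'.IsPrime], 𝔪'.IsMaximal →
      sheetIdeal t Winf' two'.chart_le_inf ≤ 𝔪' →
      IsEtaleAt Winf (locRing (chartOne R E t) (𝔪'.comap (chartMap (R := R) (F := E) (L := E') t)))
        (locMax (chartOne R E t) (𝔪'.comap (chartMap (R := R) (F := E) (L := E') t)))
        (algebraMap R E π) m f →
      ∃ z, IsBranchUniformizer (sheetIdeal t Winf' two'.chart_le_inf) 𝔪' z)
    (hét_zero : ∀ (𝔪' : Ideal ↥(chartOne R E' t)) [𝔪'.IsPrime], 𝔪'.IsMaximal →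
      sheetIdeal t W0' two'.chart_le_zero ≤ 𝔪' →
      IsEtaleAt W0 (locRing (chartOne R E t) (𝔪'.comap (chartMap (R := R) (F := E) (L := E') t)))
        (locMax (chartOne R E t) (𝔪'.comap (chartMap (R := R) (F := E) (L := E') t)))
        (algebraMap R E π) m f →
      ∃ z, IsBranchUniformizer (sheetIdeal t W0' two'.chart_le_zero) 𝔪' z)
    (hunit' : ∀ 𝔪' : Ideal ↥(chartOne R E' t), 𝔪'.IsMaximal →
      sheetIdeal t Winf' two'.chart_le_inf ≤ 𝔪' → sheetIdeal t W0' two'.chart_le_zero ≤ 𝔪' →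
      ∃ (v : E') (c : ℕ), 1 ≤ c ∧
      IsUnitAtPrime (sheetIdeal t Winf' two'.chart_le_inf) v ∧
      IsUnitAtPrime (sheetIdeal t W0' two'.chart_le_zero)
        (v * (algebraMap ↥(chartOne R E' t) E' (algebraMap R ↥(chartOne R E' t) π) ^ c)⁻¹) ∧
      ∀ 𝔮 : Ideal ↥(chartOne R E' t), 𝔮.IsPrime → 𝔮.height = 1 →
        algebraMap R ↥(chartOne R E' t) π ∉ 𝔮 → 𝔮 ≤ 𝔪' → IsUnitAtPrime 𝔮 v) :
    IsModelChart E' π (sheetIdeal t Winf' two'.chart_le_inf)
      (sheetIdeal t W0' two'.chart_le_zero) := by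
  refine ⟨inferInstance, inferInstance, two'.pi_mem_inf (K₁ := K₁) hπ,
    two'.pi_mem_zero (K₁ := K₁) hπ, two'.inf_le_span hπ hu hK, ?_, ?_, ?_⟩
  · intro 𝔪' h𝔪' _ hinf' _
    haveI := h𝔪'.isPrime
    have h𝔪max : (𝔪'.comap (chartMap (R := R) (F := E) (L := E') t)).IsMaximal :=
      Ideal.isMaximal_comap_of_isIntegral_of_isMaximal' _ (chartMap_isIntegral t) 𝔪'
    have hlei := sheetIdeal_le_comap hexti two.chart_le_inf two'.chart_le_inf 𝔪' hinf'
    rcases hloc_inf _ h𝔪max hlei with hE | ⟨-, hét⟩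
    · obtain ⟨z, hz, -⟩ := exists_isBranchUniformizer_of_isEisensteinAt (K₁ := K₁) hπ hu hK hexti
        hextz two.gauss_inf two.chart_le_zero two'.chart_le_zero hm hdeg hu' 𝔪' h𝔪' hinf' hE
      exact ⟨z, hz⟩
    · exact hét_inf 𝔪' h𝔪' hinf' hét
  · intro 𝔪' h𝔪' _ h0' _
    haveI := h𝔪'.isPrime
    have h𝔪max : (𝔪'.comap (chartMap (R := R) (F := E) (L := E') t)).IsMaximal :=
      Ideal.isMaximal_comap_of_isIntegral_of_isMaximal' _ (chartMap_isIntegral t) 𝔪'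
    have hlez := sheetIdeal_le_comap hextz two.chart_le_zero two'.chart_le_zero 𝔪' h0'
    rcases hloc_zero _ h𝔪max hlez with hE | ⟨-, hét⟩
    · obtain ⟨z, hz, -⟩ := exists_isBranchUniformizer_of_isEisensteinAt (K₁ := K₁) hπ hu hK hextz
        hexti two.gauss_zero two.chart_le_inf two'.chart_le_inf hm hdeg hu' 𝔪' h𝔪' h0' hE
      exact ⟨z, hz⟩
    · exact hét_zero 𝔪' h𝔪' h0' hét
  · intro 𝔪' h𝔪' hinf' h0'
    haveI := h𝔪'.isPrime
    have h𝔪max : (𝔪'.comap (chartMap (R := R) (F := E) (L := E') t)).IsMaximal :=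
      Ideal.isMaximal_comap_of_isIntegral_of_isMaximal' _ (chartMap_isIntegral t) 𝔪'
    have hlei := sheetIdeal_le_comap hexti two.chart_le_inf two'.chart_le_inf 𝔪' hinf'
    have hlez := sheetIdeal_le_comap hextz two.chart_le_zero two'.chart_le_zero 𝔪' h0'
    have hEi : IsEisensteinAt Winf W0 _ _ (algebraMap R E π) m f _ :=
      (hloc_inf _ h𝔪max hlei).resolve_right (fun h => h.1 hlez)
    have hEz : IsEisensteinAt W0 Winf _ _ (algebraMap R E π) m f _ :=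
      (hloc_zero _ h𝔪max hlez).resolve_right (fun h => h.1 hlei)
    obtain ⟨x, hx, hx0⟩ := exists_isBranchUniformizer_of_isEisensteinAt (K₁ := K₁) hπ hu hK hexti
      hextz two.gauss_inf two.chart_le_zero two'.chart_le_zero hm hdeg hu' 𝔪' h𝔪' hinf' hEi
    obtain ⟨y, hy, hyinf⟩ := exists_isBranchUniformizer_of_isEisensteinAt (K₁ := K₁) hπ hu hK hextz
      hexti two.gauss_zero two.chart_le_inf two'.chart_le_inf hm hdeg hu' 𝔪' h𝔪' h0' hEz
    obtain ⟨v, c, hc, hv1, hv2, hv3⟩ := hunit' 𝔪' h𝔪' hinf' h0'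
    exact ⟨x, y, hx, hx0 hlez, hy, hyinf hlei, v, c, hc, hv1, hv2, hv3⟩

include K₁ in
/-- **the model chart of a Kummer cover, from the node shapes**: étale clauses by helper8's
`exists_isBranchUniformizer_of_isEtaleAt`, the Eisenstein point on each sheet is a
node `𝔪N` of the chart of a coordinate `tE` (`tE = t` or `t = tE⁻¹`). -/
theorem isModelChart_kummer_of_nodes (hπ : Irreducible π) (hu : Transcendental K₁ t)
    (hK : IntermediateField.adjoin K₁ {t} = ⊤) [IsAlgClosed (ResidueField R)]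
    {Winf W0 : ValuationSubring E} (two : IsTwoSheet π t Winf W0)
    (hmod : IsModelChart E π (sheetIdeal t Winf two.chart_le_inf)
      (sheetIdeal t W0 two.chart_le_zero))
    {Winf' W0' : ValuationSubring E'}
    (hexti : IsExt Winf Winf') (hextz : IsExt W0 W0') (two' : IsTwoSheet π t Winf' W0')
    {m : ℕ} (hm : 0 < m) (hmR : IsUnit (m : R)) (hdeg : Module.finrank E E' ≤ m) {f : E} {u : E'}
    (hu' : u ^ m = algebraMap E E' f) (hf : f ≠ 0) (hord : ∀ P : Place K₁ E, (m : ℤ) ∣ P.ord f)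
    (jinf j0 : ℤ) (hfinf : Winf.valuation (f * (algebraMap R E π ^ ((m : ℤ) * jinf))⁻¹) = 1)
    (hf0 : W0.valuation (f * (algebraMap R E π ^ ((m : ℤ) * j0))⁻¹) = 1)
    (hnode : ∀ (𝔪 : Ideal ↥(chartOne R E t)) [𝔪.IsPrime], 𝔪.IsMaximal →
      sheetIdeal t Winf two.chart_le_inf ≤ 𝔪 → sheetIdeal t W0 two.chart_le_zero ≤ 𝔪 →
      IsEisensteinAt Winf W0 (locRing (chartOne R E t) 𝔪) (locMax (chartOne R E t) 𝔪)
        (algebraMap R E π) m f (sheetIdeal t W0 two.chart_le_zero ≤ 𝔪) ∧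
      IsEisensteinAt W0 Winf (locRing (chartOne R E t) 𝔪) (locMax (chartOne R E t) 𝔪)
        (algebraMap R E π) m f (sheetIdeal t Winf two.chart_le_inf ≤ 𝔪))
    {tE : K} (huE : Transcendental K₁ tE) (hKE : IntermediateField.adjoin K₁ {tE} = ⊤)
    (twoE : IsTwoSheet π tE Winf W0)
    (𝔪N : Ideal ↥(chartOne R E tE)) [𝔪N.IsPrime] (h𝔪N : 𝔪N.IsMaximal)
    (hinfN : sheetIdeal tE Winf twoE.chart_le_inf ≤ 𝔪N)
    (hzeroN : sheetIdeal tE W0 twoE.chart_le_zero ≤ 𝔪N) {nodei nodez : Prop}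
    (hEi : IsEisensteinAt Winf W0 (locRing (chartOne R E tE) 𝔪N) (locMax (chartOne R E tE) 𝔪N)
      (algebraMap R E π) m f nodei)
    (hEz : IsEisensteinAt W0 Winf (locRing (chartOne R E tE) 𝔪N) (locMax (chartOne R E tE) 𝔪N)
      (algebraMap R E π) m f nodez)
    (hunit' : ∀ 𝔪' : Ideal ↥(chartOne R E' t), 𝔪'.IsMaximal →
      sheetIdeal t Winf' two'.chart_le_inf ≤ 𝔪' → sheetIdeal t W0' two'.chart_le_zero ≤ 𝔪' →
      ∃ (v : E') (c : ℕ), 1 ≤ c ∧
      IsUnitAtPrime (sheetIdeal t Winf' two'.chart_le_inf) v ∧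
      IsUnitAtPrime (sheetIdeal t W0' two'.chart_le_zero)
        (v * (algebraMap ↥(chartOne R E' t) E' (algebraMap R ↥(chartOne R E' t) π) ^ c)⁻¹) ∧
      ∀ 𝔮 : Ideal ↥(chartOne R E' t), 𝔮.IsPrime → 𝔮.height = 1 →
        algebraMap R ↥(chartOne R E' t) π ∉ 𝔮 → 𝔮 ≤ 𝔪' → IsUnitAtPrime 𝔮 v) :
    IsModelChart E' π (sheetIdeal t Winf' two'.chart_le_inf)
      (sheetIdeal t W0' two'.chart_le_zero) := by
  obtain ⟨h1, h2⟩ := hloc_of_nodes (K₁ := K₁) hπ hu hK two hmod hm.ne' hf hord jinf j0 hfinf hf0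
    hnode
  exact isModelChart_kummer_gen (K₁ := K₁) hπ hu hK two hexti hextz two' hm hdeg hu' h1 h2
    (fun 𝔪' _ h𝔪' hle' hét => exists_isBranchUniformizer_of_isEtaleAt_gen (K₁ := K₁) hπ hu hK
      huE hKE hexti two.gauss_inf twoE.gauss_inf hm hmR hdeg hu' 𝔪N h𝔪N hinfN hEi 𝔪' h𝔪' hle' hét)
    (fun 𝔪' _ h𝔪' hle' hét => exists_isBranchUniformizer_of_isEtaleAt_gen (K₁ := K₁) hπ hu hK
      huE hKE hextz two.gauss_zero twoE.gauss_zero hm hmR hdeg hu' 𝔪N h𝔪N hzeroN hEz 𝔪' h𝔪' hle'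
      hét)
    hunit'

include K₁ in
/-- **transfer of the node shapes from the chart `t` to the chart `t⁻¹`** (the nodes of the chart
`t⁻¹` are not cusps: `hcusp`). -/
theorem hnode_inv_of_hnode (hπ : Irreducible π) (hu : Transcendental K₁ t)
    (hK : IntermediateField.adjoin K₁ {t} = ⊤) [IsAlgClosed (ResidueField R)]
    {Winf W0 : ValuationSubring E} (two : IsTwoSheet π t Winf W0)
    (two2 : IsTwoSheet π t⁻¹ Winf W0) {m : ℕ} {f : E}
    (hnode : ∀ (𝔪 : Ideal ↥(chartOne R E t)) [𝔪.IsPrime], 𝔪.IsMaximal →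
      sheetIdeal t Winf two.chart_le_inf ≤ 𝔪 → sheetIdeal t W0 two.chart_le_zero ≤ 𝔪 →
      IsEisensteinAt Winf W0 (locRing (chartOne R E t) 𝔪) (locMax (chartOne R E t) 𝔪)
        (algebraMap R E π) m f (sheetIdeal t W0 two.chart_le_zero ≤ 𝔪) ∧
      IsEisensteinAt W0 Winf (locRing (chartOne R E t) 𝔪) (locMax (chartOne R E t) 𝔪)
        (algebraMap R E π) m f (sheetIdeal t Winf two.chart_le_inf ≤ 𝔪))
    (hcusp : ∀ 𝔪' : Ideal ↥(chartOne R E t⁻¹), 𝔪'.IsMaximal →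
      sheetIdeal t⁻¹ Winf two2.chart_le_inf ≤ 𝔪' → sheetIdeal t⁻¹ W0 two2.chart_le_zero ≤ 𝔪' →
      (⟨algebraMap K E t⁻¹, algebraMap_coord_mem_chartOne t⁻¹⟩ : ↥(chartOne R E t⁻¹)) ∉ 𝔪') :
    ∀ (𝔪' : Ideal ↥(chartOne R E t⁻¹)) [𝔪'.IsPrime], 𝔪'.IsMaximal →
      sheetIdeal t⁻¹ Winf two2.chart_le_inf ≤ 𝔪' → sheetIdeal t⁻¹ W0 two2.chart_le_zero ≤ 𝔪' →
      IsEisensteinAt Winf W0 (locRing (chartOne R E t⁻¹) 𝔪') (locMax (chartOne R E t⁻¹) 𝔪')
        (algebraMap R E π) m f (sheetIdeal t⁻¹ W0 two2.chart_le_zero ≤ 𝔪') ∧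
      IsEisensteinAt W0 Winf (locRing (chartOne R E t⁻¹) 𝔪') (locMax (chartOne R E t⁻¹) 𝔪')
        (algebraMap R E π) m f (sheetIdeal t⁻¹ Winf two2.chart_le_inf ≤ 𝔪') := by
  intro 𝔪' _ h𝔪' hinf' h0'
  haveI := h𝔪'
  have hx := hcusp 𝔪' h𝔪' hinf' h0'
  have hu0 : t ≠ 0 := by
    rintro rfl
    exact hu isAlgebraic_zero
  have hu' : Transcendental K₁ t⁻¹ := transcendental_inv_of_transcendental hu
  have hK' : IntermediateField.adjoin K₁ {t⁻¹} = ⊤ := adjoin_inv_eq_top hK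
  have hπ𝔪' : algebraMap R ↥(chartOne R E t⁻¹) π ∈ 𝔪' := hinf' (two2.pi_mem_inf (K₁ := K₁) hπ)
  have hle : chartOne R E t ≤ locRing (chartOne R E t⁻¹) 𝔪' := chartOne_le_locRing_inv t hu0 𝔪' hx
  obtain ⟨hL, hM⟩ := locRing_chartOne_inv_eq (R := R) (E := E) t hu0 𝔪' hx
  have hres : ∀ b : ↥(chartOne R E t⁻¹), ∃ c : R, b - algebraMap R ↥(chartOne R E t⁻¹) c ∈ 𝔪' :=
    exists_sub_mem_of_isMaximal_chartOne hπ hu' hK' 𝔪' hπ𝔪'
  obtain ⟨hmax₁, -⟩ := locComap_isMaximal hres hle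
  haveI := hmax₁.isPrime
  have hinf_iff := sheet_le_iff_of_locRing_eq hL hM two.chart_le_inf two2.chart_le_inf
    (mem_sheetIdeal_iff t Winf two.chart_le_inf) (mem_sheetIdeal_iff t⁻¹ Winf two2.chart_le_inf)
  have hzero_iff := sheet_le_iff_of_locRing_eq hL hM two.chart_le_zero two2.chart_le_zero
    (mem_sheetIdeal_iff t W0 two.chart_le_zero) (mem_sheetIdeal_iff t⁻¹ W0 two2.chart_le_zero)
  obtain ⟨h1, h2⟩ := hnode _ hmax₁ (hinf_iff.mpr hinf') (hzero_iff.mpr h0')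
  rw [hL, hM] at h1 h2
  exact ⟨h1.imp_node (fun _ => hzero_iff.mpr h0'), h2.imp_node (fun _ => hinf_iff.mpr hinf')⟩

end Assemble

end Fermat.Agent.RB
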