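/-
RB [BB3] = (KEY-H), package D [SHAPE+BCH] — helper5 — part 8: **a Kummer cover of a two-sheeted
model with Eisenstein nodes is a two-sheeted model** (both charts).

`E` with the two-sheeted model (`two`, `hmod₁` for the chart `t`, `hmod₂` for the chart `t⁻¹`, node
unit `U`), `E' = E(u)`, `u ^ m = f`, `[E' : E] ≤ m`, `m ∣ ord_P f` at all places, orders `m jinf`,
`m j0` along the sheets, Eisenstein shape along both sheets at every node of the chart `t`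
(`hnode`), at least one node `𝔪N`, the nodes of the chart `t⁻¹` are not cusps.  Then `E'` has two
sheets `Winf'`, `W0'` over `Winf`, `W0`, and both charts of `E'` are model charts.

* `hunit_of_nodeUnit`, `hunit_inv_of_nodeUnit` : the unit clause for `E'` from the node unit of `E`;
* `kummer_cover_model` : the theorem.
-/
import Mathlib
import Fermat.Agent.RB.KEYH_helper5_Assemble
import Fermat.Agent.SS.UNODE_helper6_Main
import Fermat.Agent.SS.HART_helper4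

set_option autoImplicit false
set_option linter.unusedSectionVars false
set_option linter.unusedVariables false
set_option linter.style.haveILetI false

open AlgebraicCurve

namespace Fermat.Agent.RB

open Fermat.Agent.SS Fermat.Agent.JA Fermat.Agent.SS.TwoExt Fermat.Agent.FF IsLocalRing

section Cover

variable {R : Type*} [CommRing R] [IsDomain R] [IsDiscreteValuationRing R] [CharZero R]
  {K₁ : Type*} [Field K₁] [Algebra R K₁] [IsFractionRing R K₁]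
  {K : Type*} [Field K] [Algebra K₁ K] [Algebra R K] [IsScalarTower R K₁ K]
  {E : Type*} [Field E] [Algebra K E] [Algebra K₁ E] [IsScalarTower K₁ K E] [Algebra R E]
  [IsScalarTower R K E] [FiniteDimensional K E]
  {E' : Type*} [Field E'] [Algebra K E'] [Algebra K₁ E'] [IsScalarTower K₁ K E'] [Algebra R E']
  [IsScalarTower R K E'] [FiniteDimensional K E'] [Algebra E E'] [IsScalarTower K E E']
  {π : R} {t : K}

/-- integrality over `K₁[t]` goes up from `E` to `E'`. -/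
theorem isIntegral_adjoin_map {U : E}
    (hint : IsIntegral (Algebra.adjoin K₁ {algebraMap K E t}) U) :
    IsIntegral (Algebra.adjoin K₁ {algebraMap K E' t}) (algebraMap E E' U) := by
  have hK₁ : ∀ x : K₁, algebraMap E E' (algebraMap K₁ E x) = algebraMap K₁ E' x := by
    intro x
    rw [IsScalarTower.algebraMap_apply K₁ K E, ← IsScalarTower.algebraMap_apply K E E',
      ← IsScalarTower.algebraMap_apply K₁ K E']
  have ht : algebraMap E E' (algebraMap K E t) = algebraMap K E' t :=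
    (IsScalarTower.algebraMap_apply K E E' t).symm
  let ψ : ↥(Algebra.adjoin K₁ {algebraMap K E t}) →+* ↥(Algebra.adjoin K₁ {algebraMap K E' t}) :=
    { toFun := fun a => ⟨algebraMap E E' (a : E),
        map_mem_adjoin_of_baseChange (RingHom.id K₁) (algebraMap E E') hK₁ ht a.2⟩
      map_one' := Subtype.ext (map_one _)
      map_mul' := fun a b => Subtype.ext (map_mul _ _ _)
      map_zero' := Subtype.ext (map_zero _)
      map_add' := fun a b => Subtype.ext (map_add _ _ _) }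
  have hcomp : (algebraMap ↥(Algebra.adjoin K₁ {algebraMap K E' t}) E').comp ψ =
      (algebraMap E E').comp (algebraMap ↥(Algebra.adjoin K₁ {algebraMap K E t}) E) := by
    ext z
    rfl
  exact IsIntegral.map_of_comp_eq ψ (algebraMap E E') hcomp hint

include K₁ in
/-- **the unit clause for the chart `t` of `E'`** from the node unit `U` of `E`. -/
theorem hunit_of_nodeUnit (hπ : Irreducible π) (hu : Transcendental K₁ t)
    (hK : IntermediateField.adjoin K₁ {t} = ⊤) {Winf W0 : ValuationSubring E}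
    {Winf' W0' : ValuationSubring E'} (hexti : IsExt Winf Winf') (hextz : IsExt W0 W0')
    (two' : IsTwoSheet π t Winf' W0')
    {U : E} (hU0 : U ≠ 0) {c : ℕ} (hc : 1 ≤ c) (hUinf : U ∈ Winf) (hUinf' : U⁻¹ ∈ Winf)
    (hUzero : U * (algebraMap R E π ^ c)⁻¹ ∈ W0)
    (hUzero' : (U * (algebraMap R E π ^ c)⁻¹)⁻¹ ∈ W0)
    (hint : IsIntegral (Algebra.adjoin K₁ {algebraMap K E t}) U)
    (hint' : IsIntegral (Algebra.adjoin K₁ {algebraMap K E t}) U⁻¹) :
    ∀ 𝔪' : Ideal ↥(chartOne R E' t), 𝔪'.IsMaximal →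
      sheetIdeal t Winf' two'.chart_le_inf ≤ 𝔪' → sheetIdeal t W0' two'.chart_le_zero ≤ 𝔪' →
      ∃ (v : E') (c : ℕ), 1 ≤ c ∧
      IsUnitAtPrime (sheetIdeal t Winf' two'.chart_le_inf) v ∧
      IsUnitAtPrime (sheetIdeal t W0' two'.chart_le_zero)
        (v * (algebraMap ↥(chartOne R E' t) E' (algebraMap R ↥(chartOne R E' t) π) ^ c)⁻¹) ∧
      ∀ 𝔮 : Ideal ↥(chartOne R E' t), 𝔮.IsPrime → 𝔮.height = 1 →
        algebraMap R ↥(chartOne R E' t) π ∉ 𝔮 → 𝔮 ≤ 𝔪' → IsUnitAtPrime 𝔮 v := by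
  intro 𝔪' _ _ _
  have e1 : algebraMap E E' (algebraMap R E π) = algebraMap R E' π :=
    algebraMap_algebraMap_eq (K := K) π
  have e2 : algebraMap E E' U * (algebraMap R E' π ^ c)⁻¹ =
      algebraMap E E' (U * (algebraMap R E π ^ c)⁻¹) := by
    rw [map_mul, map_inv₀, map_pow, e1]
  obtain ⟨v, c', hc', hv1, hv2, hv3⟩ := two'.exists_nodeUnit hπ hu hK
    ((_root_.map_ne_zero (algebraMap E E')).mpr hU0) hc ((hexti.mem_iff _).mpr hUinf)
    (by rw [← map_inv₀]; exact (hexti.mem_iff _).mpr hUinf')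
    (by rw [e2]; exact (hextz.mem_iff _).mpr hUzero)
    (by rw [e2, ← map_inv₀]; exact (hextz.mem_iff _).mpr hUzero')
    (isIntegral_adjoin_map hint) (by rw [← map_inv₀]; exact isIntegral_adjoin_map hint')
  exact ⟨v, c', hc', hv1, hv2, fun 𝔮 h𝔮 _ hπ𝔮 _ => hv3 𝔮 h𝔮 hπ𝔮⟩

include K₁ in
/-- **the unit clause for the chart `t⁻¹` of `E'`** from the node unit `U` of `E`, at the closed
points which are not cusps. -/
theorem hunit_inv_of_nodeUnit (hπ : Irreducible π) (hu : Transcendental K₁ t)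
    (hK : IntermediateField.adjoin K₁ {t} = ⊤) {Winf W0 : ValuationSubring E}
    {Winf' W0' : ValuationSubring E'} (hexti : IsExt Winf Winf') (hextz : IsExt W0 W0')
    (two2' : IsTwoSheet π t⁻¹ Winf' W0')
    {U : E} (hU0 : U ≠ 0) {c : ℕ} (hc : 1 ≤ c) (hUinf : U ∈ Winf) (hUinf' : U⁻¹ ∈ Winf)
    (hUzero : U * (algebraMap R E π ^ c)⁻¹ ∈ W0)
    (hUzero' : (U * (algebraMap R E π ^ c)⁻¹)⁻¹ ∈ W0)
    (hint : IsIntegral (Algebra.adjoin K₁ {algebraMap K E t}) U)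
    (hint' : IsIntegral (Algebra.adjoin K₁ {algebraMap K E t}) U⁻¹)
    (hcusp' : ∀ 𝔪' : Ideal ↥(chartOne R E' t⁻¹), 𝔪'.IsMaximal →
      sheetIdeal t⁻¹ Winf' two2'.chart_le_inf ≤ 𝔪' → sheetIdeal t⁻¹ W0' two2'.chart_le_zero ≤ 𝔪' →
      (⟨algebraMap K E' t⁻¹, algebraMap_coord_mem_chartOne t⁻¹⟩ : ↥(chartOne R E' t⁻¹)) ∉ 𝔪') :
    ∀ 𝔪' : Ideal ↥(chartOne R E' t⁻¹), 𝔪'.IsMaximal →
      sheetIdeal t⁻¹ Winf' two2'.chart_le_inf ≤ 𝔪' → sheetIdeal t⁻¹ W0' two2'.chart_le_zero ≤ 𝔪' →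
      ∃ (v : E') (c : ℕ), 1 ≤ c ∧
      IsUnitAtPrime (sheetIdeal t⁻¹ Winf' two2'.chart_le_inf) v ∧
      IsUnitAtPrime (sheetIdeal t⁻¹ W0' two2'.chart_le_zero)
        (v * (algebraMap ↥(chartOne R E' t⁻¹) E' (algebraMap R ↥(chartOne R E' t⁻¹) π) ^ c)⁻¹) ∧
      ∀ 𝔮 : Ideal ↥(chartOne R E' t⁻¹), 𝔮.IsPrime → 𝔮.height = 1 →
        algebraMap R ↥(chartOne R E' t⁻¹) π ∉ 𝔮 → 𝔮 ≤ 𝔪' → IsUnitAtPrime 𝔮 v := by
  intro 𝔪' h𝔪' hinf' h0'
  have hx := hcusp' 𝔪' h𝔪' hinf' h0'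
  have hu' : Transcendental K₁ t⁻¹ := transcendental_inv_of_transcendental hu
  have hK' : IntermediateField.adjoin K₁ {t⁻¹} = ⊤ := adjoin_inv_eq_top hK
  have e1 : algebraMap E E' (algebraMap R E π) = algebraMap R E' π :=
    algebraMap_algebraMap_eq (K := K) π
  have e2 : algebraMap E E' U * (algebraMap R E' π ^ c)⁻¹ =
      algebraMap E E' (U * (algebraMap R E π ^ c)⁻¹) := by
    rw [map_mul, map_inv₀, map_pow, e1]
  obtain ⟨v, c', hc', hv1, hv2, hv3⟩ := two2'.exists_nodeUnit_inv hπ hu' hK'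
    ((_root_.map_ne_zero (algebraMap E E')).mpr hU0) hc ((hexti.mem_iff _).mpr hUinf)
    (by rw [← map_inv₀]; exact (hexti.mem_iff _).mpr hUinf')
    (by rw [e2]; exact (hextz.mem_iff _).mpr hUzero)
    (by rw [e2, ← map_inv₀]; exact (hextz.mem_iff _).mpr hUzero')
    (isIntegral_adjoin_map hint) (by rw [← map_inv₀]; exact isIntegral_adjoin_map hint')
  exact ⟨v, c', hc', hv1, hv2, fun 𝔮 h𝔮 _ hπ𝔮 hle => hv3 𝔮 h𝔮 hπ𝔮 (fun hm => hx (hle hm))⟩

/-- the Eisenstein generator of a Kummer extension, in explicit form: `x' = u ^ s · w` with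
`w = (ϖ ^ a h) ^ (-s) ζ ^ t'` in the base field. -/
theorem exists_pow_eq_of_coprime_explicit {F F' : Type*} [Field F] [Field F'] [Algebra F F']
    {ϖ f ζ ε h : F} {a k : ℤ} {m : ℕ} (hm : 0 < m)
    (hk : IsCoprime k (m : ℤ)) (hϖ : ϖ ≠ 0) (hζ : ζ ≠ 0) (hε : ε ≠ 0) (hh : h ≠ 0)
    (hf : f = ϖ ^ ((m : ℤ) * a) * ε * ζ ^ k * h ^ m) {u : F'} (hu : u ^ m = algebraMap F F' f) :
    ∃ (s : ℤ) (w : F), w ≠ 0 ∧ (u ^ s * algebraMap F F' w) ^ m = algebraMap F F' (ε ^ s * ζ) := by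
  obtain ⟨s, t', hst⟩ := hk
  set ι := algebraMap F F' with hι
  have hιϖ : ι ϖ ≠ 0 := (_root_.map_ne_zero ι).mpr hϖ
  have hιζ : ι ζ ≠ 0 := (_root_.map_ne_zero ι).mpr hζ
  have hιε : ι ε ≠ 0 := (_root_.map_ne_zero ι).mpr hε
  have hιh : ι h ≠ 0 := (_root_.map_ne_zero ι).mpr hh
  have hf0 : f ≠ 0 := by
    rw [hf]
    exact mul_ne_zero (mul_ne_zero (mul_ne_zero (zpow_ne_zero _ hϖ) hε) (zpow_ne_zero _ hζ))
      (pow_ne_zero _ hh)
  have hu0 : u ≠ 0 := by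
    intro h0
    rw [h0, zero_pow hm.ne'] at hu
    exact (_root_.map_ne_zero ι).mpr hf0 hu.symm
  set u₁ : F' := u * (ι ϖ ^ a * ι h)⁻¹ with hu₁
  have hu₁m : u₁ ^ m = ι ε * ι ζ ^ k := by
    rw [hu₁, mul_pow, hu, hf, map_mul, map_mul, map_mul, map_zpow₀, map_zpow₀, map_pow, inv_pow,
      mul_pow, ← zpow_natCast (ι ϖ ^ a) m, ← zpow_mul, mul_comm a (m : ℤ)]
    have h1 : ι ϖ ^ ((m : ℤ) * a) ≠ 0 := zpow_ne_zero _ hιϖ
    have h2 : ι h ^ m ≠ 0 := pow_ne_zero _ hιh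
    field_simp
  have hform : u ^ s * ι ((ϖ ^ a * h) ^ (-s) * ζ ^ t') = u₁ ^ s * ι ζ ^ t' := by
    have e1 : ι ((ϖ ^ a * h) ^ (-s) * ζ ^ t') = ((ι ϖ ^ a * ι h) ^ s)⁻¹ * ι ζ ^ t' := by
      rw [map_mul, map_zpow₀, map_zpow₀, map_mul, map_zpow₀, zpow_neg]
    rw [e1, hu₁, mul_zpow u, inv_zpow]
    ring
  refine ⟨s, (ϖ ^ a * h) ^ (-s) * ζ ^ t',
    mul_ne_zero (zpow_ne_zero _ (mul_ne_zero (zpow_ne_zero _ hϖ) hh)) (zpow_ne_zero _ hζ), ?_⟩
  rw [hform, mul_pow, ← zpow_natCast (u₁ ^ s) m, ← zpow_mul, mul_comm s (m : ℤ), zpow_mul,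
    zpow_natCast, hu₁m, ← zpow_natCast (ι ζ ^ t') m, ← zpow_mul, mul_zpow, ← zpow_mul, map_mul,
    map_zpow₀, mul_assoc, ← zpow_add₀ hιζ]
  have : k * s + t' * (m : ℤ) = 1 := by rw [mul_comm k s]; exact hst
  rw [this, zpow_one]

/-- valuations of images under an extension of valuation subrings. -/
theorem IsExt_val_eq_one {W : ValuationSubring E} {V : ValuationSubring E'} (hext : IsExt W V)
    {x : E} (hx : W.valuation x = 1) : V.valuation (algebraMap E E' x) = 1 := by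
  have hx0 : x ≠ 0 := fun h => by rw [h, map_zero] at hx; exact zero_ne_one hx
  have h1 : V.valuation (algebraMap E E' x) ≤ 1 :=
    (ValuationSubring.valuation_le_one_iff _ _).mpr
      ((hext.mem_iff x).mpr ((ValuationSubring.valuation_le_one_iff _ _).mp hx.le))
  have h2 : V.valuation (algebraMap E E' x⁻¹) ≤ 1 :=
    (ValuationSubring.valuation_le_one_iff _ _).mpr
      ((hext.mem_iff x⁻¹).mpr ((ValuationSubring.valuation_le_one_iff _ _).mp (by
        rw [map_inv₀, hx, inv_one])))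
  rw [map_inv₀, map_inv₀, inv_le_one₀ (zero_lt_iff.mpr ((Valuation.ne_zero_iff _).mpr
    ((_root_.map_ne_zero _).mpr hx0)))] at h2
  exact le_antisymm h1 h2

include K₁ in
/-- **a Kummer cover of a two-sheeted model with Eisenstein nodes is a two-sheeted model.** -/
theorem kummer_cover_model (hπ : Irreducible π) (hu : Transcendental K₁ t)
    (hK : IntermediateField.adjoin K₁ {t} = ⊤) [IsAlgClosed (ResidueField R)]
    {Winf W0 : ValuationSubring E} (two : IsTwoSheet π t Winf W0)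
    (hmod₁ : IsModelChart E π (sheetIdeal t Winf two.chart_le_inf)
      (sheetIdeal t W0 two.chart_le_zero))
    (hmod₂ : IsModelChart E π (sheetIdeal t⁻¹ Winf (two.inv hπ).chart_le_inf)
      (sheetIdeal t⁻¹ W0 (two.inv hπ).chart_le_zero))
    {m : ℕ} (hm : 0 < m) (hmR : IsUnit (m : R)) (hdeg : Module.finrank E E' ≤ m) {f : E} {u : E'}
    (hu' : u ^ m = algebraMap E E' f) (hf : f ≠ 0) (hord : ∀ P : Place K₁ E, (m : ℤ) ∣ P.ord f)
    (jinf j0 : ℤ) (hfinf : Winf.valuation (f * (algebraMap R E π ^ ((m : ℤ) * jinf))⁻¹) = 1)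
    (hf0 : W0.valuation (f * (algebraMap R E π ^ ((m : ℤ) * j0))⁻¹) = 1)
    (hnode : ∀ (𝔪 : Ideal ↥(chartOne R E t)) [𝔪.IsPrime], 𝔪.IsMaximal →
      sheetIdeal t Winf two.chart_le_inf ≤ 𝔪 → sheetIdeal t W0 two.chart_le_zero ≤ 𝔪 →
      IsEisensteinAt Winf W0 (locRing (chartOne R E t) 𝔪) (locMax (chartOne R E t) 𝔪)
        (algebraMap R E π) m f (sheetIdeal t W0 two.chart_le_zero ≤ 𝔪) ∧
      IsEisensteinAt W0 Winf (locRing (chartOne R E t) 𝔪) (locMax (chartOne R E t) 𝔪)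
        (algebraMap R E π) m f (sheetIdeal t Winf two.chart_le_inf ≤ 𝔪))
    (𝔪N : Ideal ↥(chartOne R E t)) [𝔪N.IsPrime] (h𝔪N : 𝔪N.IsMaximal)
    (hinfN : sheetIdeal t Winf two.chart_le_inf ≤ 𝔪N)
    (hzeroN : sheetIdeal t W0 two.chart_le_zero ≤ 𝔪N)
    (hcusp : ∀ 𝔪' : Ideal ↥(chartOne R E t⁻¹), 𝔪'.IsMaximal →
      sheetIdeal t⁻¹ Winf (two.inv hπ).chart_le_inf ≤ 𝔪' →
      sheetIdeal t⁻¹ W0 (two.inv hπ).chart_le_zero ≤ 𝔪' →
      (⟨algebraMap K E t⁻¹, algebraMap_coord_mem_chartOne t⁻¹⟩ : ↥(chartOne R E t⁻¹)) ∉ 𝔪')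
    {U : E} (hU0 : U ≠ 0) {c : ℕ} (hc : 1 ≤ c) (hUinf : U ∈ Winf) (hUinf' : U⁻¹ ∈ Winf)
    (hUzero : U * (algebraMap R E π ^ c)⁻¹ ∈ W0)
    (hUzero' : (U * (algebraMap R E π ^ c)⁻¹)⁻¹ ∈ W0)
    (hint : IsIntegral (Algebra.adjoin K₁ {algebraMap K E t}) U)
    (hint' : IsIntegral (Algebra.adjoin K₁ {algebraMap K E t}) U⁻¹) :
    ∃ (Winf' W0' : ValuationSubring E') (two' : IsTwoSheet π t Winf' W0'),
      IsExt Winf Winf' ∧ IsExt W0 W0' ∧
      IsModelChart E' π (sheetIdeal t Winf' two'.chart_le_inf)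
        (sheetIdeal t W0' two'.chart_le_zero) ∧
      IsModelChart E' π (sheetIdeal t⁻¹ Winf' (two'.inv hπ).chart_le_inf)
        (sheetIdeal t⁻¹ W0' (two'.inv hπ).chart_le_zero) ∧
      Module.finrank E E' = m ∧
      (∃ (xi' : E') (si : ℤ) (wi : E), wi ≠ 0 ∧ xi' = u ^ si * algebraMap E E' wi ∧
        Winf'.valuation xi' = 1 ∧
        ∀ y ∈ Winf', ∃ a : Fin m → E, (∀ i, a i ∈ Winf) ∧
          Winf'.valuation (y - ∑ i, algebraMap E E' (a i) * xi' ^ (i : ℕ)) < 1) ∧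
      (∃ (xz' : E') (sz : ℤ) (wz : E), wz ≠ 0 ∧ xz' = u ^ sz * algebraMap E E' wz ∧
        W0'.valuation xz' = 1 ∧
        ∀ y ∈ W0', ∃ a : Fin m → E, (∀ i, a i ∈ W0) ∧
          W0'.valuation (y - ∑ i, algebraMap E E' (a i) * xz' ^ (i : ℕ)) < 1) := by
  have hπE : algebraMap R E π ≠ 0 := algebraMap_pi_ne_zero (K₁ := K₁) (K := K) hπ
  have hu'' : Transcendental K₁ t⁻¹ := transcendental_inv_of_transcendental hu
  have hK'' : IntermediateField.adjoin K₁ {t⁻¹} = ⊤ := adjoin_inv_eq_top hK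
  obtain ⟨hEi, hEz⟩ := hnode 𝔪N h𝔪N hinfN hzeroN
  -- the Eisenstein generators at the node `𝔪N`
  obtain ⟨ki, ζi, εi, hi, ai, hki, hζi, hεi, hhi, hfi, -⟩ := hEi
  obtain ⟨kz, ζz, εz, hz, az, hkz, hζz, hεz, hhz, hfz, -⟩ := hEz
  have hζi0 : ζi ≠ 0 := fun h0 => hζi.val (by rw [h0, map_zero]; exact zero_lt_one)
  have hζz0 : ζz ≠ 0 := fun h0 => hζz.val (by rw [h0, map_zero]; exact zero_lt_one)
  obtain ⟨si, wi, hwi, hxi⟩ := exists_pow_eq_of_coprime_explicit hm hki hπE hζi0 hεi.2.2 hhi hfi hu'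
  obtain ⟨sz, wz, hwz, hxz⟩ := exists_pow_eq_of_coprime_explicit hm hkz hπE hζz0 hεz.2.2 hhz hfz hu'
  obtain ⟨Winf', W0', hexti, hextz, two', hfin, hspani, hspanz⟩ :=
    isTwoSheet_kummer (K₁ := K₁) hπ hu hK two hm hdeg 𝔪N h𝔪N hinfN hζi (hεi.zpow si) hxi
      𝔪N h𝔪N hzeroN hζz (hεz.zpow sz) hxz
  -- the valuations of the generators
  have hLinf : ∀ e ∈ locRing (chartOne R E t) 𝔪N, e ∈ Winf :=
    fun e he => locRing_le_sheet two.chart_le_inf 𝔪N hinfN he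
  have hLzero : ∀ e ∈ locRing (chartOne R E t) 𝔪N, e ∈ W0 :=
    fun e he => locRing_le_sheet two.chart_le_zero 𝔪N hzeroN he
  have hvζi : Winf.valuation ζi = 1 :=
    le_antisymm ((ValuationSubring.valuation_le_one_iff _ _).mpr
      (hLinf _ (locMax_subset_locRing hζi.mem))) (not_lt.mp hζi.val)
  have hvζz : W0.valuation ζz = 1 :=
    le_antisymm ((ValuationSubring.valuation_le_one_iff _ _).mpr
      (hLzero _ (locMax_subset_locRing hζz.mem))) (not_lt.mp hζz.val)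
  have hvxi : Winf'.valuation (u ^ si * algebraMap E E' wi) = 1 := by
    have h1 : Winf'.valuation (u ^ si * algebraMap E E' wi) ^ m = 1 := by
      rw [← map_pow, hxi]
      apply IsExt_val_eq_one hexti
      rw [map_mul, (hεi.zpow si).val_eq_one hLinf, hvζi, one_mul]
    exact (pow_eq_one_iff.mp h1).resolve_right hm.ne'
  have hvxz : W0'.valuation (u ^ sz * algebraMap E E' wz) = 1 := by
    have h1 : W0'.valuation (u ^ sz * algebraMap E E' wz) ^ m = 1 := by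
      rw [← map_pow, hxz]
      apply IsExt_val_eq_one hextz
      rw [map_mul, (hεz.zpow sz).val_eq_one hLzero, hvζz, one_mul]
    exact (pow_eq_one_iff.mp h1).resolve_right hm.ne'
  -- the chart `t`
  have hmod₁' := isModelChart_kummer_of_nodes (K₁ := K₁) hπ hu hK two hmod₁ hexti hextz two' hm hmR
    hdeg hu' hf hord jinf j0 hfinf hf0 hnode hu hK two 𝔪N h𝔪N hinfN hzeroN
    (hnode 𝔪N h𝔪N hinfN hzeroN).1 (hnode 𝔪N h𝔪N hinfN hzeroN).2
    (hunit_of_nodeUnit (K₁ := K₁) hπ hu hK hexti hextz two' hU0 hc hUinf hUinf' hUzero hUzero'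
      hint hint')
  -- the chart `t⁻¹`
  have hnode₂ := hnode_inv_of_hnode (K₁ := K₁) hπ hu hK two (two.inv hπ) hnode hcusp
  have hcusp' : ∀ 𝔪' : Ideal ↥(chartOne R E' t⁻¹), 𝔪'.IsMaximal →
      sheetIdeal t⁻¹ Winf' (two'.inv hπ).chart_le_inf ≤ 𝔪' →
      sheetIdeal t⁻¹ W0' (two'.inv hπ).chart_le_zero ≤ 𝔪' →
      (⟨algebraMap K E' t⁻¹, algebraMap_coord_mem_chartOne t⁻¹⟩ : ↥(chartOne R E' t⁻¹)) ∉ 𝔪' := by
    intro 𝔪' h𝔪' hinf' h0' hmem
    haveI := h𝔪'.isPrime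
    have h𝔪max : (𝔪'.comap (chartMap (R := R) (F := E) (L := E') t⁻¹)).IsMaximal :=
      Ideal.isMaximal_comap_of_isIntegral_of_isMaximal' _ (chartMap_isIntegral t⁻¹) 𝔪'
    refine hcusp _ h𝔪max
      (sheetIdeal_le_comap hexti (two.inv hπ).chart_le_inf (two'.inv hπ).chart_le_inf 𝔪' hinf')
      (sheetIdeal_le_comap hextz (two.inv hπ).chart_le_zero (two'.inv hπ).chart_le_zero 𝔪' h0') ?_
    rw [Ideal.mem_comap]
    have : chartMap (R := R) (F := E) (L := E') t⁻¹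
        ⟨algebraMap K E t⁻¹, algebraMap_coord_mem_chartOne t⁻¹⟩ =
        ⟨algebraMap K E' t⁻¹, algebraMap_coord_mem_chartOne t⁻¹⟩ := by
      apply Subtype.ext
      rw [coe_chartMap]
      exact (IsScalarTower.algebraMap_apply K E E' t⁻¹).symm
    rw [this]
    exact hmem
  have hmod₂' := isModelChart_kummer_of_nodes (K₁ := K₁) hπ hu'' hK'' (two.inv hπ) hmod₂ hexti hextz
    (two'.inv hπ) hm hmR hdeg hu' hf hord jinf j0 hfinf hf0 hnode₂ hu hK two 𝔪N h𝔪N hinfN hzeroN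
    (hnode 𝔪N h𝔪N hinfN hzeroN).1 (hnode 𝔪N h𝔪N hinfN hzeroN).2
    (hunit_inv_of_nodeUnit (K₁ := K₁) hπ hu hK hexti hextz (two'.inv hπ) hU0 hc hUinf hUinf'
      hUzero hUzero' hint hint' hcusp')
  exact ⟨Winf', W0', two', hexti, hextz, hmod₁', hmod₂', hfin,
    ⟨_, si, wi, hwi, rfl, hvxi, hspani⟩, ⟨_, sz, wz, hwz, rfl, hvxz, hspanz⟩⟩

end Cover

end Fermat.Agent.RB
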