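/-
RB [BB3] = (KEY-H), package D [SHAPE+BCH] — helper5 — part 9: **the Kummer cover of an `SSModel`**
(instantiation of `kummer_cover_model`).

* `kummer_cover_of_ssModel` : `kummer_cover_model` with the model charts, the cusp clause and the
  node unit taken from an `SSModel` `h` of the base field `E = EN` (big base `R`), chart `j`.
  Remaining hypotheses: the Kummer data (`hdeg`, `hu'`, `hord` = package B), the orders along the
  sheets (`hfinf`, `hf0` = package C), the Eisenstein shape at the nodes (`hnode`).  The node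
  needed by `kummer_cover_model` comes from `ssModel_exists_node_chart` ([NE]).
* `kummer_cover_of_ssModel_baseChange` : the same with `hnode`, `hfinf`, `hf0` produced from a SMALL
  base `R'` (unramified) through `hshape_of_isNodeFact` (package N: `hnodes'`) and
  `hnode_of_baseChange` ([BCH]): `φ π' = π ^ e ε₀`, `m ∣ e`.
-/
import Mathlib
import Fermat.Agent.RB.KEYH_helper5_Cover
import Fermat.Agent.RB.KEYH_helper5_NodeBig
import Fermat.Agent.RB.KEYH_helper5_NodeEx
import Fermat.Agent.SS.EXPORT_helper4_Two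

set_option autoImplicit false
set_option linter.unusedSectionVars false
set_option linter.unusedVariables false
set_option linter.style.haveILetI false

open AlgebraicCurve

namespace Fermat.Agent.RB

open Fermat.Agent.SS Fermat.Agent.JA Fermat.Agent.SS.TwoExt Fermat.Agent.FF IsLocalRing
  Fermat.Agent.MW.NAdic Fermat.Agent.MP Fermat.Agent.NP

section Inst

variable {R : Type*} [CommRing R] [IsDomain R] [IsDiscreteValuationRing R] [CharZero R]
  {K₁ : Type*} [Field K₁] [Algebra R K₁] [IsFractionRing R K₁]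
  {KM : Type*} [Field KM] [Algebra K₁ KM] [Algebra R KM] [IsScalarTower R K₁ KM]
  {EM : Type*} [Field EM] [Algebra KM EM] [Algebra K₁ EM] [IsScalarTower K₁ KM EM] [Algebra R EM]
  [IsScalarTower R KM EM]
  {KN : Type*} [Field KN] [Algebra K₁ KN] [Algebra R KN] [IsScalarTower R K₁ KN]
  {EN : Type*} [Field EN] [Algebra KN EN] [Algebra K₁ EN] [IsScalarTower K₁ KN EN] [Algebra R EN]
  [IsScalarTower R KN EN] [FiniteDimensional KN EN]
  {E' : Type*} [Field E'] [Algebra KN E'] [Algebra K₁ E'] [IsScalarTower K₁ KN E'] [Algebra R E']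
  [IsScalarTower R KN E'] [FiniteDimensional KN E'] [Algebra EN E'] [IsScalarTower KN EN E']
  {π : R} {q n : ℕ} {S : Finset R} {t : KM} {jM : EM} {j : KN} {A B : EM →+* EN}
  {VM : ValuationSubring EM} {Winf W0 : ValuationSubring EN}

/-- **the Kummer cover of an `SSModel`.** -/
theorem kummer_cover_of_ssModel [IsAlgClosed (ResidueField R)]
    (h : SSModel K₁ π q n S t jM j A B VM Winf W0) (hπ : Irreducible π)
    (hjint : IsIntegral ↥(Algebra.adjoin R {B jM}) (A jM))
    {m : ℕ} (hm : 0 < m) (hmR : IsUnit (m : R)) (hdeg : Module.finrank EN E' ≤ m) {f : EN} {u : E'}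
    (hu' : u ^ m = algebraMap EN E' f) (hf : f ≠ 0) (hord : ∀ P : Place K₁ EN, (m : ℤ) ∣ P.ord f)
    (jinf j0 : ℤ) (hfinf : Winf.valuation (f * (algebraMap R EN π ^ ((m : ℤ) * jinf))⁻¹) = 1)
    (hf0 : W0.valuation (f * (algebraMap R EN π ^ ((m : ℤ) * j0))⁻¹) = 1)
    (hnode : ∀ (𝔪 : Ideal ↥(chartOne R EN j)) [𝔪.IsPrime], 𝔪.IsMaximal →
      sheetIdeal j Winf h.two.chart_le_inf ≤ 𝔪 → sheetIdeal j W0 h.two.chart_le_zero ≤ 𝔪 →
      IsEisensteinAt Winf W0 (locRing (chartOne R EN j) 𝔪) (locMax (chartOne R EN j) 𝔪)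
        (algebraMap R EN π) m f (sheetIdeal j W0 h.two.chart_le_zero ≤ 𝔪) ∧
      IsEisensteinAt W0 Winf (locRing (chartOne R EN j) 𝔪) (locMax (chartOne R EN j) 𝔪)
        (algebraMap R EN π) m f (sheetIdeal j Winf h.two.chart_le_inf ≤ 𝔪)) :
    ∃ (Winf' W0' : ValuationSubring E') (two' : IsTwoSheet π j Winf' W0'),
      IsExt Winf Winf' ∧ IsExt W0 W0' ∧
      IsModelChart E' π (sheetIdeal j Winf' two'.chart_le_inf)
        (sheetIdeal j W0' two'.chart_le_zero) ∧
      IsModelChart E' π (sheetIdeal j⁻¹ Winf' (two'.inv hπ).chart_le_inf)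
        (sheetIdeal j⁻¹ W0' (two'.inv hπ).chart_le_zero) ∧
      Module.finrank EN E' = m ∧
      (∃ (xi' : E') (si : ℤ) (wi : EN), wi ≠ 0 ∧ xi' = u ^ si * algebraMap EN E' wi ∧
        Winf'.valuation xi' = 1 ∧
        ∀ y ∈ Winf', ∃ a : Fin m → EN, (∀ i, a i ∈ Winf) ∧
          Winf'.valuation (y - ∑ i, algebraMap EN E' (a i) * xi' ^ (i : ℕ)) < 1) ∧
      (∃ (xz' : E') (sz : ℤ) (wz : EN), wz ≠ 0 ∧ xz' = u ^ sz * algebraMap EN E' wz ∧
        W0'.valuation xz' = 1 ∧
        ∀ y ∈ W0', ∃ a : Fin m → EN, (∀ i, a i ∈ W0) ∧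
          W0'.valuation (y - ∑ i, algebraMap EN E' (a i) * xz' ^ (i : ℕ)) < 1) := by
  obtain ⟨U, c, hc, hU0, hUinf, hUinf', hUzero, hUzero', hint, hint'⟩ := h.unit
  rw [h.A_j] at hint hint'
  obtain ⟨𝔪N, h𝔪N, hinfN, hzeroN⟩ := ssModel_exists_node_chart h hπ
  haveI := h𝔪N.isPrime
  refine kummer_cover_model (K₁ := K₁) hπ h.j_transcendental h.j_adjoin h.two
    (h.isModelChart_one hπ) (h.isModelChart_two hπ hjint (h.two.inv hπ)) hm hmR hdeg hu' hf hord
    jinf j0 hfinf hf0 hnode 𝔪N h𝔪N hinfN hzeroN ?_ hU0 hc hUinf hUinf' hUzero hUzero' hint hint'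
  intro 𝔪' h𝔪' hinf' h0' hx
  haveI := h𝔪'.isPrime
  exact h.not_crossing_of_cusp hπ (h.two.inv hπ) 𝔪' hx hinf' h0'

end Inst

section InstBC

variable
  -- the small base
  {R' : Type*} [CommRing R'] [IsDomain R'] [IsDiscreteValuationRing R'] [CharZero R']
  {K₁' : Type*} [Field K₁'] [Algebra R' K₁'] [IsFractionRing R' K₁']
  {K' : Type*} [Field K'] [Algebra K₁' K'] [Algebra R' K'] [IsScalarTower R' K₁' K']
  {F : Type*} [Field F] [Algebra K' F] [Algebra K₁' F] [IsScalarTower K₁' K' F] [Algebra R' F]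
  [IsScalarTower R' K' F] [FiniteDimensional K' F]
  {π' : R'} {j' : K'}
  -- the big base
  {R : Type*} [CommRing R] [IsDomain R] [IsDiscreteValuationRing R] [CharZero R]
  {K₁ : Type*} [Field K₁] [Algebra R K₁] [IsFractionRing R K₁]
  {KM : Type*} [Field KM] [Algebra K₁ KM] [Algebra R KM] [IsScalarTower R K₁ KM]
  {EM : Type*} [Field EM] [Algebra KM EM] [Algebra K₁ EM] [IsScalarTower K₁ KM EM] [Algebra R EM]
  [IsScalarTower R KM EM]
  {KN : Type*} [Field KN] [Algebra K₁ KN] [Algebra R KN] [IsScalarTower R K₁ KN]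
  {EN : Type*} [Field EN] [Algebra KN EN] [Algebra K₁ EN] [IsScalarTower K₁ KN EN] [Algebra R EN]
  [IsScalarTower R KN EN] [FiniteDimensional KN EN]
  {E' : Type*} [Field E'] [Algebra KN E'] [Algebra K₁ E'] [IsScalarTower K₁ KN E'] [Algebra R E']
  [IsScalarTower R KN E'] [FiniteDimensional KN E'] [Algebra EN E'] [IsScalarTower KN EN E']
  {π : R} {q n : ℕ} {S : Finset R} {t : KM} {jM : EM} {j : KN} {A B : EM →+* EN}
  {VM : ValuationSubring EM} {Winf W0 : ValuationSubring EN}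
  (φ : R' →+* R) (κ : K' →+* KN) (ι : F →+* EN)

/-- the valuation of the image of a unit along a sheet. -/
theorem val_map_eq_one_of_comap {E E₂ : Type*} [Field E] [Field E₂] (ι : E →+* E₂)
    {W : ValuationSubring E} {V : ValuationSubring E₂} (hWV : ∀ x : E, ι x ∈ V ↔ x ∈ W) {x : E}
    (hx : W.valuation x = 1) : V.valuation (ι x) = 1 := by
  have h1 : ¬ V.valuation (ι x) < 1 := by
    rw [val_map_lt_one_iff_of_comap ι hWV, hx]
    exact lt_irrefl _
  have h2 : V.valuation (ι x) ≤ 1 :=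
    (ValuationSubring.valuation_le_one_iff _ _).mpr
      ((hWV x).mpr ((ValuationSubring.valuation_le_one_iff _ _).mp hx.le))
  exact le_antisymm h2 (not_lt.mp h1)

set_option maxHeartbeats 800000 in
/-- **the Kummer cover of an `SSModel` over a big base, the node shapes coming from a small
base.** -/
theorem kummer_cover_of_ssModel_baseChange [IsAlgClosed (ResidueField R)]
    (h : SSModel K₁ π q n S t jM j A B VM Winf W0) (hπ : Irreducible π)
    (hjint : IsIntegral ↥(Algebra.adjoin R {B jM}) (A jM))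
    -- the small base and the base change
    (hπ' : Irreducible π') (hu₀ : Transcendental K₁' j')
    (hK₀ : IntermediateField.adjoin K₁' {j'} = ⊤)
    {Winf' W0' : ValuationSubring F} (two' : IsTwoSheet π' j' Winf' W0')
    (hfr' : IsFractionRing ↥(chartOne R' F j') F)
    (hκR : ∀ x : R', κ (algebraMap R' K' x) = algebraMap R KN (φ x))
    (hικ : ∀ x : K', ι (algebraMap K' F x) = algebraMap KN EN (κ x)) (hκt : κ j' = j)
    (hWVinf : ∀ x : F, ι x ∈ Winf ↔ x ∈ Winf') (hWV0 : ∀ x : F, ι x ∈ W0 ↔ x ∈ W0')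
    (hresinf : ∀ z ∈ Winf, ∃ a ∈ Winf', Winf.valuation (z - ι a) < 1)
    (hres0 : ∀ z ∈ W0, ∃ a ∈ W0', W0.valuation (z - ι a) < 1)
    {e : ℕ} {ε₀ : Rˣ} (hφπ : φ π' = π ^ e * (ε₀ : R)) {m : ℕ} (hme : m ∣ e)
    (hmax : ∀ 𝔪₂ : Ideal ↥(chartOne R EN j), 𝔪₂.IsMaximal →
      sheetIdeal j Winf h.two.chart_le_inf ≤ 𝔪₂ → sheetIdeal j W0 h.two.chart_le_zero ≤ 𝔪₂ →
      (𝔪₂.comap (chartBaseMap φ κ ι hκR hικ hκt)).IsMaximal)
    -- the Kummer data
    (hm : 0 < m) (hmR : IsUnit (m : R)) (hdeg : Module.finrank EN E' ≤ m) {f' : F} {u : E'}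
    (hu' : u ^ m = algebraMap EN E' (ι f')) (hf : f' ≠ 0)
    (hord : ∀ P : Place K₁ EN, (m : ℤ) ∣ P.ord (ι f'))
    -- the orders along the sheets of the small base
    {ainf a0 : ℤ} (hinf' : Winf'.valuation (f' * (algebraMap R' F π' ^ ainf)⁻¹) = 1)
    (h0' : W0'.valuation (f' * (algebraMap R' F π' ^ a0)⁻¹) = 1)
    (hcop : IsCoprime (a0 - ainf) (m : ℤ))
    -- the node factorisations over the small base
    (hnodes' : ∀ (𝔪 : Ideal ↥(chartOne R' F j')) [𝔪.IsPrime], 𝔪.IsMaximal →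
      sheetIdeal j' Winf' two'.chart_le_inf ≤ 𝔪 → sheetIdeal j' W0' two'.chart_le_zero ≤ 𝔪 →
      ∃ (X : F) (c : ℕ) (k : ℤ),
        IsNodeCoord π' hfr' (sheetIdeal j' Winf' two'.chart_le_inf)
          (sheetIdeal j' W0' two'.chart_le_zero) 𝔪 X c ∧
        IsNodeFact K₁' (locSub (chartOne R' F j') 𝔪) m X f' k) :
    ∃ (Winf'' W0'' : ValuationSubring E') (two'' : IsTwoSheet π j Winf'' W0''),
      IsExt Winf Winf'' ∧ IsExt W0 W0'' ∧
      IsModelChart E' π (sheetIdeal j Winf'' two''.chart_le_inf)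
        (sheetIdeal j W0'' two''.chart_le_zero) ∧
      IsModelChart E' π (sheetIdeal j⁻¹ Winf'' (two''.inv hπ).chart_le_inf)
        (sheetIdeal j⁻¹ W0'' (two''.inv hπ).chart_le_zero) ∧
      Module.finrank EN E' = m ∧
      (∃ (xi' : E') (si : ℤ) (wi : EN), wi ≠ 0 ∧ xi' = u ^ si * algebraMap EN E' wi ∧
        Winf''.valuation xi' = 1 ∧
        ∀ y ∈ Winf'', ∃ a : Fin m → EN, (∀ i, a i ∈ Winf) ∧
          Winf''.valuation (y - ∑ i, algebraMap EN E' (a i) * xi' ^ (i : ℕ)) < 1) ∧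
      (∃ (xz' : E') (sz : ℤ) (wz : EN), wz ≠ 0 ∧ xz' = u ^ sz * algebraMap EN E' wz ∧
        W0''.valuation xz' = 1 ∧
        ∀ y ∈ W0'', ∃ a : Fin m → EN, (∀ i, a i ∈ W0) ∧
          W0''.valuation (y - ∑ i, algebraMap EN E' (a i) * xz' ^ (i : ℕ)) < 1) := by
  obtain ⟨e', rfl⟩ := hme
  have hπE : algebraMap R EN π ≠ 0 := algebraMap_pi_ne_zero (K₁ := K₁) (K := KN) hπ
  have hε₀E : algebraMap R EN (ε₀ : R) ≠ 0 := by
    intro h0
    have h1 : algebraMap R EN ((ε₀ : R) * ((ε₀⁻¹ : Rˣ) : R)) = 0 := by rw [map_mul, h0, zero_mul]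
    rw [Units.mul_inv, map_one] at h1
    exact one_ne_zero h1
  -- the image of the uniformizer
  have hιπ : ι (algebraMap R' F π') =
      algebraMap R EN π ^ (m * e') * algebraMap R EN (ε₀ : R) := by
    rw [IsScalarTower.algebraMap_apply R' K' F, hικ, hκR, ← IsScalarTower.algebraMap_apply R KN EN,
      hφπ, map_mul, map_pow]
  -- units of `R` are units of the sheets
  have hεval : ∀ W : ValuationSubring EN, (∀ b ∈ chartOne R EN j, b ∈ W) →
      W.valuation (algebraMap R EN (ε₀ : R)) = 1 := by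
    intro W hW
    have h1 : algebraMap R EN (ε₀ : R) ∈ W := hW _ (Subalgebra.algebraMap_mem _ _)
    have h2 : algebraMap R EN ((ε₀⁻¹ : Rˣ) : R) ∈ W := hW _ (Subalgebra.algebraMap_mem _ _)
    have h3 : algebraMap R EN (ε₀ : R) * algebraMap R EN ((ε₀⁻¹ : Rˣ) : R) = 1 := by
      rw [← map_mul, Units.mul_inv, map_one]
    have h4 := congrArg W.valuation h3
    rw [map_mul, map_one] at h4
    have h5 := (ValuationSubring.valuation_le_one_iff _ _).mpr h1
    have h6 := (ValuationSubring.valuation_le_one_iff _ _).mpr h2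
    rcases lt_or_eq_of_le h5 with h7 | h7
    · exfalso
      have : W.valuation (algebraMap R EN (ε₀ : R)) *
          W.valuation (algebraMap R EN ((ε₀⁻¹ : Rˣ) : R)) < 1 := by
        calc _ ≤ W.valuation (algebraMap R EN (ε₀ : R)) * 1 := mul_le_mul_right h6 _
          _ < 1 := by rw [mul_one]; exact h7
      rw [h4] at this
      exact lt_irrefl _ this
    · exact h7
  -- the orders along the sheets of the big base
  have key : ∀ (W : ValuationSubring EN) (W' : ValuationSubring F),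
      (∀ b ∈ chartOne R EN j, b ∈ W) → (∀ x : F, ι x ∈ W ↔ x ∈ W') → ∀ a : ℤ,
      W'.valuation (f' * (algebraMap R' F π' ^ a)⁻¹) = 1 →
      W.valuation (ι f' * (algebraMap R EN π ^ ((m : ℤ) * ((e' : ℤ) * a)))⁻¹) = 1 := by
    intro W W' hW hWW' a ha
    have h1 := val_map_eq_one_of_comap ι hWW' ha
    rw [map_mul, map_inv₀, map_zpow₀, hιπ, mul_zpow, ← zpow_natCast, ← zpow_mul, mul_inv,
      ← mul_assoc, map_mul, map_inv₀, map_zpow₀, hεval W hW, one_zpow, inv_one, mul_one] at h1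
    have h2 : ((m * e' : ℕ) : ℤ) * a = (m : ℤ) * ((e' : ℤ) * a) := by push_cast; ring
    rw [h2] at h1
    exact h1
  have hfinf := key Winf Winf' h.two.chart_le_inf hWVinf ainf hinf'
  have hf0 := key W0 W0' h.two.chart_le_zero hWV0 a0 h0'
  -- the node shapes
  have hshape := hshape_of_isNodeFact (K₁ := K₁') hπ' hu₀ hK₀ two' hfr' hinf' h0' hcop hnodes'
  have hnode := hnode_of_baseChange (K₁ := K₁') φ κ ι hπ' hu₀ hK₀ hκR hικ hκt two'
    h.two.chart_le_inf h.two.chart_le_zero hWVinf hWV0 hresinf hres0 hπE hε₀E hφπ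
    (Dvd.intro e' rfl) hmax hshape
  exact kummer_cover_of_ssModel h hπ hjint hm hmR hdeg hu' ((_root_.map_ne_zero ι).mpr hf) hord
    ((e' : ℤ) * ainf) ((e' : ℤ) * a0) hfinf hf0 hnode

end InstBC

end Fermat.Agent.RB
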