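/-
RB [BB3] = (KEY-H), package N [NODEQ-port] — helper7 — part 2: **[NODEQ] on the Legendre hosts
`EN₁ = legEL K' M q` of level `Γ₁(M) ∩ Γ₀(M q)` over a small base `K' ≤ K₁`**
(port of `MP/NODEQ_helper1_Leg`, `MP/PLHOST_helper6_LegUnit`).

* `NodeUnit.map` : the node unit data go up along an extension of two-sheeted hosts;
  `legL_nodeUnit` : the node unit `Δ(τ)/Δ(qτ)` of `EN₁`;
* `legL_hens_of_rat` : (HENS) on `EN₁` over the small base;
* `legEL_isNodeFact_of_rat` : the node factorisation `f = c · X ^ k · v · G ^ m` at a node;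
* `legL_hnodes` : **the `hnodes` hypothesis of helper5's `hshape_of_isNodeFact`** at every node of
  the chart `j` of `EN₁(K')`: node coordinate in normal form + node factorisation.
-/
import Mathlib
import Fermat.Agent.RB.KEYH_helper7_NodeHost
import Fermat.Agent.MP.NODEQ_helper1_Leg
import Fermat.Agent.MP.PLHOST_helper6_LegUnit
import Fermat.Agent.MP.PLHOST_helper6_NodeS

set_option autoImplicit false
set_option linter.unusedSectionVars false
set_option linter.unusedVariables false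
set_option linter.style.haveILetI false
set_option synthInstance.maxHeartbeats 200000

open HahnSeries IntermediateField AlgebraicCurve ModularCurve Polynomial IsLocalRing

namespace Fermat.Agent.RB

open Fermat.Agent.JA Fermat.Agent.Igusa Fermat.Agent.SS Fermat.Agent.FF Fermat.Agent.MP
  Fermat.Agent.S35 Fermat.Agent.NP Fermat.Agent.MW Fermat.Agent.MW.NAdic

open scoped Fermat.Agent.JA.Host

/-- `Ω = AlgebraicClosure ℚ`. -/
local notation "Ω" => AlgebraicClosure ℚ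

/-- the absolute Galois group. -/
local notation "GQ" => (AlgebraicClosure ℚ ≃ₐ[ℚ] AlgebraicClosure ℚ)

noncomputable section

section UnitMap

variable {R : Type*} [CommRing R] {K₁ : Type*} [Field K₁]
  {EN : Type*} [Field EN] [Algebra K₁ EN] [Algebra R EN]
  {EN' : Type*} [Field EN'] [Algebra K₁ EN'] [Algebra R EN']

/-- **the node unit data go up** along an extension of hosts whose sheets restrict to the sheets. -/
theorem NodeUnit.map {π : R} {J U : EN} {c : ℕ} {Winf W0 : ValuationSubring EN}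
    {Winf' W0' : ValuationSubring EN'} (ι : EN →ₐ[K₁] EN')
    (hιR : ∀ r : R, ι (algebraMap R EN r) = algebraMap R EN' r)
    (hinf : Winf'.comap (ι : EN →+* EN') = Winf) (h0 : W0'.comap (ι : EN →+* EN') = W0)
    (hU : NodeUnit K₁ π J U c Winf W0) : NodeUnit K₁ π (ι J) (ι U) c Winf' W0' := by
  have hmemI : ∀ x : EN, ι x ∈ Winf' ↔ x ∈ Winf := fun x => by
    rw [← hinf, ValuationSubring.mem_comap, RingHom.coe_coe]
  have hmem0 : ∀ x : EN, ι x ∈ W0' ↔ x ∈ W0 := fun x => by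
    rw [← h0, ValuationSubring.mem_comap, RingHom.coe_coe]
  have hmap : ∀ x ∈ Algebra.adjoin K₁ {J}, ι x ∈ Algebra.adjoin K₁ {ι J} := by
    intro x hx
    have := AlgHom.map_adjoin_singleton ι J
    rw [← this]
    exact ⟨x, hx, rfl⟩
  set φ₀ : ↥(Algebra.adjoin K₁ {J}) →+* ↥(Algebra.adjoin K₁ {ι J}) :=
    ((ι : EN →+* EN').comp (algebraMap ↥(Algebra.adjoin K₁ {J}) EN)).codRestrict
      (Algebra.adjoin K₁ {ι J}) (fun y => hmap _ y.2) with hφ₀
  have hint : ∀ x : EN, IsIntegral ↥(Algebra.adjoin K₁ {J}) x →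
      IsIntegral ↥(Algebra.adjoin K₁ {ι J}) (ι x) := fun x hx =>
    IsIntegral.map_of_comp_eq φ₀ (ι : EN →+* EN') (RingHom.ext fun s => rfl) hx
  have hπ : ι (U * (algebraMap R EN π ^ c)⁻¹) = ι U * (algebraMap R EN' π ^ c)⁻¹ := by
    rw [map_mul, map_inv₀, map_pow, hιR]
  refine ⟨(_root_.map_ne_zero ι).mpr hU.ne_zero, hU.one_le, (hmemI _).mpr hU.mem_inf, ?_, ?_, ?_,
    hint _ hU.int, ?_⟩
  · rw [← map_inv₀]
    exact (hmemI _).mpr hU.inv_mem_inf
  · rw [← hπ]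
    exact (hmem0 _).mpr hU.mem_zero
  · rw [← hπ, ← map_inv₀]
    exact (hmem0 _).mpr hU.inv_mem_zero
  · rw [← map_inv₀]
    exact hint _ hU.int_inv

end UnitMap

section Unit

variable (R : Type*) [CommRing R] [IsDomain R] [IsDiscreteValuationRing R] [CharZero R]
  [DecidableEq R]
  (K : Type) [Field K] [Algebra R K] [IsFractionRing R K] [Algebra ℚ K] [Algebra K ℂ]
  [IsScalarTower ℚ K ℂ]
  {M q : ℕ} [NeZero M] [NeZero q] [NeZero (M * q)] [W1.W1Api M] {x y : ℤ}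

/-- **the node unit of `EN₁`**: the host image of `Δ(τ)/Δ(qτ)`, with `c = 12 e` for `q = u π^e`. -/
theorem legL_nodeUnit {π : R} (hπ : Irreducible π) (h2 : IsUnit (2 : R))
    (h : (q : ℤ) * x + M * y = 1) (hq : q.Prime) {e : ℕ} {u : Rˣ} (he : 1 ≤ e)
    (hu : (q : R) = u * π ^ e) :
    NodeUnit K π ((legAL K M q : ↥(legEL K M 1) →+* ↥(legEL K M q)) (legJL K M 1))
      (inclN K M q (fullToLegE K (M * q) (modUnit K (M * q) q (Dvd.intro_left M rfl))))
      (12 * e) (legWinfL R K h2 M q) (legW0L R K h hq) := by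
  have h0 := ssModelLeg_nodeUnit R K (M := M) hπ h2 h hq he hu
  have h1 := NodeUnit.map (inclN K M q) (fun r => ?_) (legWinfL_comap_inclN R K h2)
    (legW0L_comap R K h hq) h0
  · have e1 : inclN K M q ((legHostA K M q : ↥(legE K M) →+* ↥(legE K (M * q))) (legJE K M)) =
        (legAL K M q : ↥(legEL K M 1) →+* ↥(legEL K M q)) (legJL K M 1) := by
      apply Subtype.ext
      rw [coe_inclN, RingHom.coe_coe, RingHom.coe_coe, coe_legHostA, coe_hostA, coe_legJE,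
        coe_legJL]
    rwa [e1] at h1
  · rw [IsScalarTower.algebraMap_apply R K ↥(legE K (M * q)),
      IsScalarTower.algebraMap_apply R K ↥(legEL K M q)]
    exact (inclN K M q).commutes _

end Unit

section Hens

variable (F₀ : IntermediateField ℚ (LaurentSeries ℚ)) (A : ValuationSubring Ω)
  {K' K₁ : IntermediateField ℚ Ω} (hle : K' ≤ K₁)
  (h1 : ∀ σ : GQ, (∀ c ∈ K', σ c = c) → ∀ c ∈ K₁, (c ∈ A ↔ σ c ∈ A))

include hle h1 in
/-- **(HENS) on a Legendre host over the small base**: at a geometric point whose restriction to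
the host over `K₁` is rational, the `A`-integrality of the values of the functions of the host over
`K'` is invariant under `Gal(Ω/K')`. -/
theorem legL_hens_of_rat {Q : Place Ω ↥(legHost Ω F₀)}
    (hrat : IsRationalPlace (restrictBC (legHostBC F₀ K₁) (legHostBC_algebraMap F₀ K₁)
      (closure_range_legHostBC F₀ K₁) Q))
    (σ : Ω ≃ₐ[↥K'] Ω) {z : ↥(legHost ↥K' F₀)} {c : Ω}
    (hc : HasValueAt Q (legHostBC F₀ K' z) c) : c ∈ A ↔ σ c ∈ A := by
  have hmem : legHostIncl hle F₀ z ∈ (restrictBC (legHostBC F₀ K₁) (legHostBC_algebraMap F₀ K₁)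
      (closure_range_legHostBC F₀ K₁) Q).toValuationSubring := by
    rw [mem_restrictBC_iff, legHostBC_legHostIncl]
    exact hc.mem
  obtain ⟨c₁, hc₁⟩ := hrat _ hmem
  have hv : HasValueAt (restrictBC (legHostBC F₀ K₁) (legHostBC_algebraMap F₀ K₁)
      (closure_range_legHostBC F₀ K₁) Q) (legHostIncl hle F₀ z) c₁ := HasValueAt.iff_ord.mpr hc₁
  rw [hasValueAt_restrictBC_iff, legHostBC_legHostIncl] at hv
  have hcc : c = algebraMap ↥K₁ Ω c₁ := hc.unique hv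
  have hfix : ∀ c' ∈ K', (σ.restrictScalars ℚ) c' = c' := by
    intro c' hc'
    exact σ.commutes ⟨c', hc'⟩
  have h2 := h1 (σ.restrictScalars ℚ) hfix (c₁ : Ω) c₁.2
  rw [hcc]
  exact h2

end Hens

section LegNode

variable {m : ℕ} (F₀ : IntermediateField ℚ (LaurentSeries ℚ)) (A : ValuationSubring Ω)
  {K' K₁ : IntermediateField ℚ Ω}
  [IsDiscreteValuationRing ↥(baseRing A K')]
  [IsAlgClosed (ResidueField ↥(baseRing A K'))]
  {KM : Type*} [Field KM] [Algebra ↥K' KM] [Algebra ↥(baseRing A K') KM]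
  [IsScalarTower ↥(baseRing A K') ↥K' KM]
  {EM : Type*} [Field EM] [Algebra KM EM] [Algebra ↥K' EM] [IsScalarTower ↥K' KM EM]
  [Algebra ↥(baseRing A K') EM] [IsScalarTower ↥(baseRing A K') KM EM]
  {KN : Type*} [Field KN] [Algebra ↥K' KN] [Algebra ↥(baseRing A K') KN]
  [IsScalarTower ↥(baseRing A K') ↥K' KN]
  [Algebra KN ↥(legHost ↥K' F₀)] [IsScalarTower ↥K' KN ↥(legHost ↥K' F₀)]
  [IsScalarTower ↥(baseRing A K') KN ↥(legHost ↥K' F₀)] [FiniteDimensional KN ↥(legHost ↥K' F₀)]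
  {π : ↥(baseRing A K')} {q n : ℕ} {S : Finset ↥(baseRing A K')} {t : KM} {jM : EM} {j : KN}
  {A' B' : EM →+* ↥(legHost ↥K' F₀)}
  {VM : ValuationSubring EM} {Winf W0 : ValuationSubring ↥(legHost ↥K' F₀)}

/-- **[NODEQ] on a Legendre host over the small base `K' ≤ K₁`**, abstract in the `SSModel`:
a function `f` with `m ∣` all orders over `K'` and support rational over `K₁` is
`c · X ^ k · v · G ^ m` at every node of the chart `j`. -/
theorem legHost_isNodeFact_of_rat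
    (hPD : HasPrincipalDivisors Ω ↥(legHost Ω F₀))
    (hdeg : ∀ Q : Place Ω ↥(legHost Ω F₀), Q.deg = 1)
    (h : SSModel ↥K' π q n S t jM j A' B' VM Winf W0) (hπ : Irreducible π)
    (hle : K' ≤ K₁)
    (h1 : ∀ σ : GQ, (∀ c ∈ K', σ c = c) → ∀ c ∈ K₁, (c ∈ A ↔ σ c ∈ A))
    (𝔪 : Ideal ↥(chartOne ↥(baseRing A K') ↥(legHost ↥K' F₀) j)) [h𝔪 : 𝔪.IsMaximal]
    (hinf : sheetIdeal j Winf h.two.chart_le_inf ≤ 𝔪)
    (h0 : sheetIdeal j W0 h.two.chart_le_zero ≤ 𝔪)
    {X : ↥(legHost ↥K' F₀)} {c : ℕ}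
    (hX : haveI := h𝔪.isPrime; IsNodeCoord π (isFractionRing_chartOne (K₁ := ↥K') j h.j_adjoin)
      (sheetIdeal j Winf h.two.chart_le_inf) (sheetIdeal j W0 h.two.chart_le_zero) 𝔪 X c)
    (f : ↥(legHost ↥K' F₀)) (hf : f ≠ 0)
    (hord : ∀ P : Place ↥K' ↥(legHost ↥K' F₀), (m : ℤ) ∣ P.ord f)
    (hrat : ∀ Q : Place Ω ↥(legHost Ω F₀), Q.ord (legHostBC F₀ K' f) ≠ 0 →
      IsRationalPlace (restrictBC (legHostBC F₀ K₁) (legHostBC_algebraMap F₀ K₁)
        (closure_range_legHostBC F₀ K₁) Q))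
    (ainf : ℤ)
    (hginf : f * (algebraMap ↥(baseRing A K') ↥(legHost ↥K' F₀) π ^ ainf)⁻¹ ∈ Winf)
    (hginf' : (f * (algebraMap ↥(baseRing A K') ↥(legHost ↥K' F₀) π ^ ainf)⁻¹)⁻¹ ∈ Winf) :
    haveI := h𝔪.isPrime
    ∃ k : ℤ, IsNodeFact ↥K' (locSub (chartOne ↥(baseRing A K') ↥(legHost ↥K' F₀) j) 𝔪) m X f k := by
  haveI := h𝔪.isPrime
  haveI : HasPrincipalDivisors Ω ↥(legHost Ω F₀) := hPD
  refine SSModel.isNodeFact_of_hens h hπ 𝔪 hinf h0 hX A
    (algebraMap_mem_iff_mem_range_baseRing A) (legHostBC F₀ K') (legHostBC_algebraMap F₀ K')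
    (closure_range_legHostBC F₀ K')
    (fun Q => isRationalPlace_of_deg_eq_one Q (hdeg Q)) hf
    (fun P _ => hord P) ?_ ainf hginf hginf'
  intro P _ hPord Q hQP σ z _ c hc
  refine legL_hens_of_rat F₀ A hle h1 (hrat Q ?_) σ hc
  rw [← ord_restrictBC (legHostBC F₀ K') (legHostBC_algebraMap F₀ K')
    (closure_range_legHostBC F₀ K'), hQP]
  exact hPord

end LegNode

section HNodes

attribute [local instance] baseToComplex

set_option maxHeartbeats 1600000 in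
/-- **N [NODEQ-port]: the `hnodes` hypothesis of `hshape_of_isNodeFact` on `EN₁ = legEL K' M q`
over the small base `K' ≤ K₁`**: at every node of the chart `j` there are a node coordinate in
normal form and the node factorisation `f = c · X ^ k · v · G ^ m`. -/
theorem legL_hnodes (M q : ℕ) [NeZero M] [NeZero q] [NeZero (M * q)] (hM : M ≠ 1)
    (hq : q.Prime) (hq2 : q ≠ 2) (hqM : ¬ q ∣ M)
    (A : ValuationSubring Ω) (hA : A.LiesOverPrime q)
    {K' K₁ : IntermediateField ℚ Ω} (hK' : IsBase q K') (hle : K' ≤ K₁)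
    (h1 : ∀ σ : GQ, (∀ c ∈ K', σ c = c) → ∀ c ∈ K₁, (c ∈ A ↔ σ c ∈ A))
    [IsDiscreteValuationRing ↥(baseRing A K')] [CharZero ↥(baseRing A K')]
    [DecidableEq ↥(baseRing A K')] (ϖ : ↥(baseRing A K')) (hϖ : Irreducible ϖ)
    (h2 : IsUnit (2 : ↥(baseRing A K'))) (x y : ℤ) (hbez : (q : ℤ) * x + M * y = 1)
    {m : ℕ} (f : ↥(legEL ↥K' M q)) (hf : f ≠ 0)
    (hord : ∀ P : Place ↥K' ↥(legEL ↥K' M q), (m : ℤ) ∣ P.ord f)
    (hrat : ∀ Q : Place Ω ↥(legEL Ω M q), Q.ord (legELBC K' M q f) ≠ 0 →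
      IsRationalPlace (restrictBC (legELBC K₁ M q) (legHostBC_algebraMap (W1.F₁ M q) K₁)
        (closure_range_legHostBC (W1.F₁ M q) K₁) Q))
    (ainf : ℤ)
    (hginf : f * (algebraMap ↥(baseRing A K') ↥(legEL ↥K' M q) ϖ ^ ainf)⁻¹ ∈
      legWinfL ↥(baseRing A K') ↥K' h2 M q)
    (hginf' : (f * (algebraMap ↥(baseRing A K') ↥(legEL ↥K' M q) ϖ ^ ainf)⁻¹)⁻¹ ∈
      legWinfL ↥(baseRing A K') ↥K' h2 M q) :
    haveI : FiniteDimensional ↥(↥K')⟮jqNModC ↥K' 2⟯ ↥(legEL ↥K' M q) :=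
      finite_legEL_adjoin_j_base K' hq hqM hM
    ∀ (two : IsTwoSheet ϖ (AdjoinSimple.gen ↥K' (jqNModC ↥K' 2))
      (legWinfL ↥(baseRing A K') ↥K' h2 M q) (legW0L ↥(baseRing A K') ↥K' hbez hq))
    (hfr : IsFractionRing ↥(chartOne ↥(baseRing A K') ↥(legEL ↥K' M q)
      (AdjoinSimple.gen ↥K' (jqNModC ↥K' 2))) ↥(legEL ↥K' M q))
    (𝔪 : Ideal ↥(chartOne ↥(baseRing A K') ↥(legEL ↥K' M q)
      (AdjoinSimple.gen ↥K' (jqNModC ↥K' 2)))) [𝔪.IsPrime], 𝔪.IsMaximal →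
    sheetIdeal (AdjoinSimple.gen ↥K' (jqNModC ↥K' 2))
      (legWinfL ↥(baseRing A K') ↥K' h2 M q) two.chart_le_inf ≤ 𝔪 →
    sheetIdeal (AdjoinSimple.gen ↥K' (jqNModC ↥K' 2))
      (legW0L ↥(baseRing A K') ↥K' hbez hq) two.chart_le_zero ≤ 𝔪 →
    ∃ (X : ↥(legEL ↥K' M q)) (c : ℕ) (k : ℤ),
      IsNodeCoord ϖ hfr
        (sheetIdeal (AdjoinSimple.gen ↥K' (jqNModC ↥K' 2))
          (legWinfL ↥(baseRing A K') ↥K' h2 M q) two.chart_le_inf)
        (sheetIdeal (AdjoinSimple.gen ↥K' (jqNModC ↥K' 2))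
          (legW0L ↥(baseRing A K') ↥K' hbez hq) two.chart_le_zero) 𝔪 X c ∧
      IsNodeFact ↥K' (locSub (chartOne ↥(baseRing A K') ↥(legEL ↥K' M q)
        (AdjoinSimple.gen ↥K' (jqNModC ↥K' 2))) 𝔪) m X f k := by
  haveI : Fact q.Prime := ⟨hq⟩
  haveI := isScalarTower_baseToComplex K'
  haveI : W1.W1Api M := W1.w1Api_of_ne_one_h2 M hM
  haveI : FiniteDimensional ↥(↥K')⟮jqNModC ↥K' 2⟯ ↥(legEL ↥K' M q) :=
    finite_legEL_adjoin_j_base K' hq hqM hM
  haveI := hK'.isAlgClosed_residueField hA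
  have h := legLModelAtBases M q hM hq hq2 hqM A hA K' hK' ϖ hϖ h2 x y hbez
  intro two hfr 𝔪 _ h𝔪 hinf h0
  -- `q = u ϖ ^ e`, `e ≥ 1`
  have hqϖ := natCast_mem_span_uniformizer_baseRing hA K' hϖ
  have hq0 : ((q : ℕ) : ↥(baseRing A K')) ≠ 0 := Nat.cast_ne_zero.mpr hq.ne_zero
  obtain ⟨e, u, hu⟩ := IsDiscreteValuationRing.eq_unit_mul_pow_irreducible hq0 hϖ
  have he : 1 ≤ e := by
    rcases Nat.eq_zero_or_pos e with h0 | h0
    · exfalso
      rw [h0, pow_zero, mul_one] at hu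
      have hu' : IsUnit ((q : ℕ) : ↥(baseRing A K')) := hu ▸ Units.isUnit _
      obtain ⟨z, hz⟩ := Ideal.mem_span_singleton.mp hqϖ
      rw [hz] at hu'
      exact hϖ.not_isUnit (isUnit_of_mul_isUnit_left hu')
    · exact h0
  have hUnode := legL_nodeUnit ↥(baseRing A K') ↥K' (M := M) hϖ h2 hbez hq he hu
  haveI : 𝔪.IsMaximal := h𝔪
  obtain ⟨X, c, hX, -⟩ := SSModel.exists_isNodeCoord_gen h hϖ hUnode 𝔪 hinf h0
  obtain ⟨k, hk⟩ := legHost_isNodeFact_of_rat (W1.F₁ M q) A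
    (hasPrincipalDivisors_legEL hq hqM hM) (deg_eq_one_legEL hq hqM hM) h hϖ hle h1 𝔪 hinf h0 hX
    f hf hord hrat ainf hginf hginf'
  exact ⟨X, c, k, hX, hk⟩

end HNodes

end

end Fermat.Agent.RB
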