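/-
Project RB, package C [VAL] (KEY-H) — helper8 — **Gauss sums: the inertia argument** (C-IV).

* `coprime_of_inertia_smul` : abstract lemma (valuation subring `V`, endomorphism `σ` trivial on the
  residue field, `σ G = ω G`, `ω` a primitive `m`-th root of unity, `G ^ m = ε ϖ ^ j₀`) ⟹ `(j₀, m) = 1`.
* cyclotomic units, `r = (1 - ζ) ^ (r - 1) ε`; a cyclotomic extension `L = F(ζ_r)` of a field `F` with a
  discrete valuation unramified at `r` is totally ramified (`cyclo_totally_ramified`, via helper7's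
  `residue_eq_of_totally_ramified`), its Galois group is all of `(ℤ/r)ˣ` and acts trivially on the residue
  field (`exists_aut_autToPow_eq`, `valuation_aut_sub_lt_one`).
* `gaussSum_pow_eq_of_injective` : for a faithful `F`-rational character `χ` of `(ℤ/r)ˣ`:
  `g(χ) ^ (r - 1) = ε r ^ j₀` with `ε ∈ Oˣ` and `(j₀, r - 1) = 1`.
-/
import Mathlib
import Fermat.Agent.RB.UNITNODE_helper7_Res

set_option autoImplicit false
set_option linter.style.haveILetI false
set_option linter.unusedSectionVars false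

namespace Fermat.Agent.RB

/-- **abstract inertia lemma**: if an endomorphism `σ` acting trivially on the residue field of the
valuation subring `V` multiplies `G` by a primitive `m`-th root of unity (`m` a unit of `V`) and
fixes `ϖ`, and `G ^ m = ε * ϖ ^ j₀` with `ε` a unit, then `j₀` is prime to `m`. -/
theorem coprime_of_inertia_smul {K : Type*} [Field K] (V : ValuationSubring K) (σ : K →+* K)
    (hσ : ∀ z ∈ V, V.valuation (σ z - z) < 1) {G ϖ ε ω : K} {m j₀ : ℕ}
    (hω : IsPrimitiveRoot ω m) (hm : V.valuation (m : K) = 1)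
    (hG : σ G = ω * G) (hϖ : σ ϖ = ϖ) (hϖ0 : ϖ ≠ 0)
    (hrel : G ^ m = ε * ϖ ^ j₀) (hε : V.valuation ε = 1) : Nat.Coprime j₀ m := by
  have hm0 : m ≠ 0 := by
    rintro rfl
    simp at hm
  set g := Nat.gcd j₀ m with hg
  have hg0 : g ≠ 0 := fun h => hm0 (Nat.gcd_eq_zero_iff.mp h).2
  obtain ⟨m', hm'⟩ : g ∣ m := Nat.gcd_dvd_right _ _
  obtain ⟨j', hj'⟩ : g ∣ j₀ := Nat.gcd_dvd_left _ _
  set b : K := G ^ m' / ϖ ^ j' with hb
  have hbg : b ^ g = ε := by
    rw [hb, div_pow, ← pow_mul, ← pow_mul, mul_comm m', ← hm', mul_comm j', ← hj', hrel,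
      mul_div_assoc, div_self (pow_ne_zero _ hϖ0), mul_one]
  have hvb : V.valuation b = 1 := by
    have h1 : V.valuation b ^ g = 1 := by rw [← map_pow, hbg, hε]
    exact (pow_eq_one_iff.mp h1).resolve_right hg0
  have hbV : b ∈ V := (ValuationSubring.valuation_le_one_iff V b).mp hvb.le
  have hσb : σ b = ω ^ m' * b := by
    rw [hb, map_div₀, map_pow, map_pow, hG, hϖ, mul_pow, mul_div_assoc]
  have hω' : IsPrimitiveRoot (ω ^ m') g := hω.pow (Nat.pos_of_ne_zero hm0) (by rw [hm', mul_comm])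
  have h1 : V.valuation (ω ^ m' - 1) < 1 := by
    have h2 := hσ b hbV
    rw [hσb, ← sub_one_mul, map_mul, hvb, mul_one] at h2
    exact h2
  have hω'V : ω ^ m' ∈ V := by
    rw [← ValuationSubring.valuation_le_one_iff]
    have h2 : V.valuation (ω ^ m') ^ g = 1 := by rw [← map_pow, hω'.pow_eq_one, map_one]
    exact ((pow_eq_one_iff.mp h2).resolve_right hg0).le
  -- `g` is a unit of `V`
  have hgV : V.valuation (g : K) = 1 := by
    have h3 : V.valuation (g : K) * V.valuation (m' : K) = 1 := by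
      rw [← map_mul, ← Nat.cast_mul, ← hm', hm]
    have h4 : V.valuation (g : K) ≤ 1 :=
      (ValuationSubring.valuation_le_one_iff V _).mpr (natCast_mem V g)
    have h5 : V.valuation (m' : K) ≤ 1 :=
      (ValuationSubring.valuation_le_one_iff V _).mpr (natCast_mem V m')
    rcases h4.lt_or_eq with h6 | h6
    · exact absurd h3 ((mul_le_of_le_one_right' h5).trans_lt h6).ne
    · exact h6
  -- hence `ω ^ m' = 1`
  have hone : ω ^ m' = 1 := by
    by_contra hne
    have h2 : (ω ^ m' - 1) * ∑ j ∈ Finset.range g, (ω ^ m') ^ j = 0 := by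
      rw [mul_comm, geom_sum_mul, hω'.pow_eq_one, sub_self]
    have h3 : ∑ j ∈ Finset.range g, (ω ^ m') ^ j = 0 :=
      (mul_eq_zero.mp h2).resolve_left (sub_ne_zero.mpr hne)
    have h4 : V.valuation (∑ j ∈ Finset.range g, ((ω ^ m') ^ j - 1)) < 1 := by
      refine Valuation.map_sum_lt _ one_ne_zero fun j _ => ?_
      rw [← mul_geom_sum, map_mul]
      have hqV : ∑ i ∈ Finset.range j, (ω ^ m') ^ i ∈ V :=
        sum_mem fun i _ => pow_mem hω'V i
      exact (mul_le_of_le_one_right'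
        ((ValuationSubring.valuation_le_one_iff V _).mpr hqV)).trans_lt h1
    rw [Finset.sum_sub_distrib, h3, Finset.sum_const, Finset.card_range, nsmul_eq_mul, mul_one,
      zero_sub, Valuation.map_neg, hgV] at h4
    exact lt_irrefl _ h4
  exact hω'.unique (hone ▸ IsPrimitiveRoot.one)


/-- an element which lies in a valuation subring together with its inverse has valuation `1`. -/
theorem valuation_eq_one_of_mem_inv_mem_rb {K : Type*} [Field K] (V : ValuationSubring K) {x : K}
    (hx0 : x ≠ 0) (hx : x ∈ V) (hx' : x⁻¹ ∈ V) : V.valuation x = 1 := by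
  have h1 := (ValuationSubring.valuation_le_one_iff V _).mpr hx
  have h2 := (ValuationSubring.valuation_le_one_iff V _).mpr hx'
  have h3 : V.valuation x * V.valuation x⁻¹ = 1 := by
    rw [← map_mul, mul_inv_cancel₀ hx0, map_one]
  rcases h1.lt_or_eq with h4 | h4
  · exact absurd h3 ((mul_le_of_le_one_right' h2).trans_lt h4).ne
  · exact h4

section CycloVal

variable {L : Type*} [Field L] {r : ℕ} {ζ : L}

/-- a root of unity lies in every valuation subring. -/
theorem mem_valSubring_of_pow_eq_one_rb (V : ValuationSubring L) {n : ℕ} (hn : n ≠ 0) {x : L}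
    (hx : x ^ n = 1) : x ∈ V := by
  rw [← ValuationSubring.valuation_le_one_iff]
  have h2 : V.valuation x ^ n = 1 := by rw [← map_pow, hx, map_one]
  exact ((pow_eq_one_iff.mp h2).resolve_right hn).le

/-- the cyclotomic units `(1 - ζ ^ i) / (1 - ζ)`, `r ∤ i`, as geometric sums. -/
theorem valuation_geom_sum_eq_one (V : ValuationSubring L) (hr : r.Prime)
    (hζ : IsPrimitiveRoot ζ r) {i : ℕ} (hi : ¬ r ∣ i) :
    V.valuation (∑ k ∈ Finset.range i, ζ ^ k) = 1 := by
  have hζV : ζ ∈ V := mem_valSubring_of_pow_eq_one_rb V hr.ne_zero hζ.pow_eq_one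
  have h1 : ∑ k ∈ Finset.range i, ζ ^ k ∈ V := sum_mem fun k _ => pow_mem hζV k
  -- the inverse is again a geometric sum
  have hcop : Nat.Coprime i r := (Nat.Coprime.symm ((Nat.Prime.coprime_iff_not_dvd hr).mpr hi))
  obtain ⟨i', -, hi'⟩ := Nat.exists_mul_mod_eq_one_of_coprime hcop hr.one_lt
  have h2 : ∑ k ∈ Finset.range i', (ζ ^ i) ^ k ∈ V :=
    sum_mem fun k _ => pow_mem (pow_mem hζV i) k
  have hζ1 : ζ - 1 ≠ 0 := sub_ne_zero.mpr (hζ.ne_one hr.one_lt)
  have h3 : (∑ k ∈ Finset.range i, ζ ^ k) * (∑ k ∈ Finset.range i', (ζ ^ i) ^ k) = 1 := by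
    have h4 : (ζ ^ i) ^ i' = ζ := by
      rw [← pow_mul, ← Nat.div_add_mod (i * i') r, hi', pow_add, pow_mul, hζ.pow_eq_one, one_pow,
        one_mul, pow_one]
    apply mul_left_cancel₀ hζ1
    rw [← mul_assoc, mul_geom_sum, mul_geom_sum, h4, mul_one]
  have h5 : V.valuation (∑ k ∈ Finset.range i, ζ ^ k) *
      V.valuation (∑ k ∈ Finset.range i', (ζ ^ i) ^ k) = 1 := by rw [← map_mul, h3, map_one]
  have h6 := (ValuationSubring.valuation_le_one_iff V _).mpr h1
  have h7 := (ValuationSubring.valuation_le_one_iff V _).mpr h2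
  rcases h6.lt_or_eq with h8 | h8
  · exact absurd h5 ((mul_le_of_le_one_right' h7).trans_lt h8).ne
  · exact h8

/-- `r = (1 - ζ) ^ (r - 1) * ε` with `ε` a unit of every valuation subring. -/
theorem exists_one_sub_pow_mul_eq_prime (V : ValuationSubring L) (hr : r.Prime)
    (hζ : IsPrimitiveRoot ζ r) :
    ∃ ε : L, V.valuation ε = 1 ∧ (1 - ζ) ^ (r - 1) * ε = (r : L) := by
  refine ⟨∏ k ∈ Finset.range (r - 1), ∑ l ∈ Finset.range (k + 1), ζ ^ l, ?_, ?_⟩
  · rw [map_prod]
    refine Finset.prod_eq_one fun k hk => valuation_geom_sum_eq_one V hr hζ ?_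
    intro h
    have := Nat.le_of_dvd (Nat.succ_pos k) h
    have := Finset.mem_range.mp hk
    omega
  · have h1 : IsPrimitiveRoot ζ (r - 1 + 1) := by rwa [Nat.sub_add_cancel hr.one_le]
    have h2 := h1.prod_one_sub_pow_eq_order
    have h3 : ((r - 1 : ℕ) : L) + 1 = (r : L) := by
      rw [← Nat.cast_succ, Nat.succ_eq_add_one, Nat.sub_add_cancel hr.one_le]
    rw [h3] at h2
    rw [← h2]
    have h4 : ∀ k ∈ Finset.range (r - 1), (1 - ζ ^ (k + 1)) =
        (1 - ζ) * ∑ l ∈ Finset.range (k + 1), ζ ^ l := fun k _ => (mul_neg_geom_sum _ _).symm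
    rw [Finset.prod_congr rfl h4, Finset.prod_mul_distrib, Finset.prod_const, Finset.card_range]

end CycloVal

section CycloExt

open Polynomial

variable {F L : Type*} [Field F] [Field L] [Algebra F L]
  {r : ℕ} [hr : Fact r.Prime] [IsCyclotomicExtension {r} F L]
  {ζ : L} (hζ : IsPrimitiveRoot ζ r)

include hζ in
theorem finrank_cyclo_le : Module.finrank F L ≤ r - 1 := by
  rw [(hζ.powerBasis F).finrank, IsPrimitiveRoot.powerBasis_dim]
  have h1 : minpoly F ζ ∣ cyclotomic r F := by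
    apply minpoly.dvd
    rw [aeval_def, eval₂_eq_eval_map, map_cyclotomic]
    exact hζ.isRoot_cyclotomic hr.out.pos
  have h2 := natDegree_le_of_dvd h1 (cyclotomic_ne_zero r F)
  rwa [natDegree_cyclotomic, Nat.totient_prime hr.out] at h2

variable [CharZero F] {O : ValuationSubring F} {V : ValuationSubring L}
  (hOV : ∀ a : F, a ∈ O → algebraMap F L a ∈ V)
  (hO : ∀ a : F, a ≠ 0 → ∃ (j : ℤ) (u : F), u ∈ O ∧ u⁻¹ ∈ O ∧ a = u * (r : F) ^ j)
  (hrV : V.valuation (r : L) < 1)

include hζ hOV hO hrV in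
theorem cyclo_totally_ramified :
    Module.finrank F L = r - 1 ∧
    (∀ z ∈ V, ∃ a : Fin (r - 1) → F, (∀ i, a i ∈ O) ∧
      z = ∑ i, algebraMap F L (a i) * (1 - ζ) ^ (i : ℕ)) := by
  have : FiniteDimensional F L := IsCyclotomicExtension.finiteDimensional {r} F L
  obtain ⟨ε, hε, hrel⟩ := exists_one_sub_pow_mul_eq_prime V hr.out hζ
  have hζV : ζ ∈ V := mem_valSubring_of_pow_eq_one_rb V hr.out.ne_zero hζ.pow_eq_one
  have hπV : 1 - ζ ∈ V := sub_mem (one_mem _) hζV
  have hr1 : 0 < r - 1 := Nat.sub_pos_of_lt hr.out.one_lt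
  have hπlt : V.valuation (1 - ζ) < 1 := by
    rcases ((ValuationSubring.valuation_le_one_iff V _).mpr hπV).lt_or_eq with h | h
    · exact h
    · exfalso
      have : V.valuation (r : L) = 1 := by rw [← hrel, map_mul, map_pow, h, one_pow, hε, one_mul]
      exact hrV.ne this
  have hπ0 : (1 - ζ) ≠ 0 := sub_ne_zero.mpr (hζ.ne_one hr.out.one_lt).symm
  have hεV : ε ∈ V := (ValuationSubring.valuation_le_one_iff V _).mp hε.le
  have hεV' : ε⁻¹ ∈ V := by
    rw [← ValuationSubring.valuation_le_one_iff, map_inv₀, hε, inv_one]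
  have hπnu : (1 - ζ)⁻¹ ∉ V := by
    intro h
    have h1 := (ValuationSubring.valuation_le_one_iff V _).mpr h
    have h3 : V.valuation (1 - ζ) * V.valuation (1 - ζ)⁻¹ = 1 := by
      rw [← map_mul, mul_inv_cancel₀ hπ0, map_one]
    exact absurd h3 ((mul_le_of_le_one_right' h1).trans_lt hπlt).ne
  have hrF : (r : F) ≠ 0 := Nat.cast_ne_zero.mpr hr.out.ne_zero
  have hrel' : (1 - ζ) ^ (r - 1) * ε = algebraMap F L (r : F) := by rw [hrel, map_natCast]
  obtain ⟨h1, h2, -, -⟩ := residue_eq_of_totally_ramified hOV hrF (natCast_mem O r) hO hr1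
    (finrank_cyclo_le hζ) hπV hπnu hεV hεV' hrel'
  exact ⟨h1, h2⟩


include hζ hOV hO hrV in
/-- every automorphism of a totally ramified cyclotomic extension acts trivially on the residue
field. -/
theorem valuation_aut_sub_lt_one (f : L ≃ₐ[F] L) {z : L} (hz : z ∈ V) :
    V.valuation (f z - z) < 1 := by
  obtain ⟨-, hexp⟩ := cyclo_totally_ramified hζ hOV hO hrV
  obtain ⟨a, haO, rfl⟩ := hexp z hz
  obtain ⟨ε, hε, hrel⟩ := exists_one_sub_pow_mul_eq_prime V hr.out hζ
  have hζV : ζ ∈ V := mem_valSubring_of_pow_eq_one_rb V hr.out.ne_zero hζ.pow_eq_one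
  have hπV : 1 - ζ ∈ V := sub_mem (one_mem _) hζV
  have hπlt : V.valuation (1 - ζ) < 1 := by
    rcases ((ValuationSubring.valuation_le_one_iff V _).mpr hπV).lt_or_eq with h | h
    · exact h
    · exfalso
      have : V.valuation (r : L) = 1 := by rw [← hrel, map_mul, map_pow, h, one_pow, hε, one_mul]
      exact hrV.ne this
  have : NeZero r := ⟨hr.out.ne_zero⟩
  have hfπ : V.valuation (f (1 - ζ)) < 1 := by
    rw [map_sub, map_one, ← hζ.autToPow_spec F f, ← mul_neg_geom_sum, map_mul]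
    have h1 : ∑ k ∈ Finset.range ((hζ.autToPow F f : ZMod r).val), ζ ^ k ∈ V :=
      sum_mem fun k _ => pow_mem hζV k
    exact (mul_le_of_le_one_right'
      ((ValuationSubring.valuation_le_one_iff V _).mpr h1)).trans_lt hπlt
  rw [map_sum, ← Finset.sum_sub_distrib]
  refine Valuation.map_sum_lt _ one_ne_zero fun i _ => ?_
  rw [map_mul, AlgEquiv.commutes, ← mul_sub, map_mul, map_pow]
  have h1 : V.valuation (algebraMap F L (a i)) ≤ 1 :=
    (ValuationSubring.valuation_le_one_iff V _).mpr (hOV _ (haO i))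
  have h2 : V.valuation (f (1 - ζ) ^ (i : ℕ) - (1 - ζ) ^ (i : ℕ)) < 1 := by
    rcases Nat.eq_zero_or_pos (i : ℕ) with h0 | h0
    · rw [h0, pow_zero, pow_zero, sub_self, map_zero]
      exact zero_lt_one
    · refine Valuation.map_sub_lt _ ?_ ?_
      · rw [map_pow]
        exact pow_lt_one₀ zero_le hfπ h0.ne'
      · rw [map_pow]
        exact pow_lt_one₀ zero_le hπlt h0.ne'
  exact (mul_le_of_le_one_left' h1).trans_lt h2

include hζ hOV hO hrV in
/-- in a totally ramified cyclotomic extension every power map is realised by an automorphism. -/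
theorem exists_aut_autToPow_eq [NeZero r] (d : (ZMod r)ˣ) :
    ∃ f : L ≃ₐ[F] L, hζ.autToPow F f = d := by
  obtain ⟨hfin, -⟩ := cyclo_totally_ramified hζ hOV hO hrV
  have : FiniteDimensional F L := IsCyclotomicExtension.finiteDimensional {r} F L
  have : IsGalois F L := IsCyclotomicExtension.isGalois {r} F L
  have hcard : Nat.card (ZMod r)ˣ ≤ Nat.card (L ≃ₐ[F] L) := by
    rw [IsGalois.card_aut_eq_finrank, hfin, Nat.card_eq_fintype_card, ZMod.card_units_eq_totient,
      Nat.totient_prime hr.out]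
  exact ((hζ.autToPow_injective F).bijective_of_nat_card_le hcard).2 d

end CycloExt

section Gauss

open Polynomial

variable {F L : Type*} [Field F] [Field L] [Algebra F L]
  {r : ℕ} [hr : Fact r.Prime] [NeZero r] [IsCyclotomicExtension {r} F L]
  {ζ : L} (hζ : IsPrimitiveRoot ζ r)

/-- an automorphism multiplies a Gauss sum with `F`-rational multiplicative character by a value
of the inverse character. -/
theorem aut_gaussSum (χ : MulChar (ZMod r) L) (hχF : ∀ a, χ a ∈ Set.range (algebraMap F L))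
    (f : L ≃ₐ[F] L) :
    f (gaussSum χ (AddChar.zmodChar r hζ.pow_eq_one)) =
      χ⁻¹ (hζ.autToPow F f : ZMod r) * gaussSum χ (AddChar.zmodChar r hζ.pow_eq_one) := by
  rw [← gaussSum_mulShift_eq, gaussSum, gaussSum, map_sum]
  refine Finset.sum_congr rfl fun a _ => ?_
  rw [map_mul]
  congr 1
  · obtain ⟨c, hc⟩ := hχF a
    rw [← hc, AlgEquiv.commutes]
  · rw [AddChar.mulShift_apply, AddChar.zmodChar_apply, map_pow, ← hζ.autToPow_spec F f, ← pow_mul,
      ← AddChar.zmodChar_apply' hζ.pow_eq_one, Nat.cast_mul, ZMod.natCast_zmod_val,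
      ZMod.natCast_zmod_val]

variable [CharZero F] {O : ValuationSubring F} {V : ValuationSubring L}
  (hOV : ∀ a : F, a ∈ O → algebraMap F L a ∈ V)
  (hO : ∀ a : F, a ≠ 0 → ∃ (j : ℤ) (u : F), u ∈ O ∧ u⁻¹ ∈ O ∧ a = u * (r : F) ^ j)
  (hrV : V.valuation (r : L) < 1)

include hOV hO hrV in
/-- **the `(r-1)`-st power of the Gauss sum of a faithful character has valuation prime to `r-1`**
(over a base `F ∋ χ` unramified at `r`). -/
theorem gaussSum_pow_eq_of_injective (χ : MulChar (ZMod r) L)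
    (hχF : ∀ a, χ a ∈ Set.range (algebraMap F L))
    (hχ : Function.Injective fun d : (ZMod r)ˣ => χ (d : ZMod r)) (hr2 : r ≠ 2) :
    ∃ (j₀ : ℕ) (ε : F), ε ≠ 0 ∧ ε ∈ O ∧ ε⁻¹ ∈ O ∧
      gaussSum χ (AddChar.zmodChar r hζ.pow_eq_one) ^ (r - 1) =
        algebraMap F L (ε * (r : F) ^ j₀) ∧ Nat.Coprime j₀ (r - 1) := by
  classical
  have : FiniteDimensional F L := IsCyclotomicExtension.finiteDimensional {r} F L
  have : IsGalois F L := IsCyclotomicExtension.isGalois {r} F L
  have : CharZero L := charZero_of_injective_algebraMap (algebraMap F L).injective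
  have hζV : ζ ∈ V := mem_valSubring_of_pow_eq_one_rb V hr.out.ne_zero hζ.pow_eq_one
  have hr1 : r - 1 ≠ 0 := (Nat.sub_pos_of_lt hr.out.one_lt).ne'
  -- `χ ≠ 1`
  have hχ1 : χ ≠ 1 := by
    intro h
    obtain ⟨d, hd⟩ : ∃ d : (ZMod r)ˣ, d ≠ 1 := by
      by_contra hcon
      push Not at hcon
      have h1 : Fintype.card (ZMod r)ˣ ≤ 1 :=
        Fintype.card_le_one_iff.mpr fun a b => by rw [hcon a, hcon b]
      rw [ZMod.card_units_eq_totient, Nat.totient_prime hr.out] at h1
      have := hr.out.two_le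
      omega
    apply hd
    apply hχ
    simp only [h, Units.val_one, map_one]
    exact MulChar.one_apply_coe d
  have hG0 : gaussSum χ (AddChar.zmodChar r hζ.pow_eq_one) ≠ 0 :=
    gaussSum_ne_zero_of_nontrivial
      (by rw [ZMod.card]; exact Nat.cast_ne_zero.mpr hr.out.ne_zero) hχ1
      (AddChar.zmodChar_primitive_of_primitive_root r hζ)
  -- values of `χ` at units are roots of unity
  have hχpow : ∀ (ξ : MulChar (ZMod r) L) (d : (ZMod r)ˣ), ξ (d : ZMod r) ^ (r - 1) = 1 := by
    intro ξ d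
    rw [← map_pow, ← Units.val_pow_eq_pow_val, ZMod.units_pow_card_sub_one_eq_one, Units.val_one,
      map_one]
  have hGV : gaussSum χ (AddChar.zmodChar r hζ.pow_eq_one) ∈ V := by
    refine sum_mem fun a _ => mul_mem ?_ ?_
    · by_cases ha : IsUnit a
      · obtain ⟨d, rfl⟩ := ha
        exact mem_valSubring_of_pow_eq_one_rb V hr1 (hχpow χ d)
      · rw [MulChar.map_nonunit χ ha]
        exact zero_mem _
    · rw [AddChar.zmodChar_apply]
      exact pow_mem hζV _
  -- the power is fixed by the Galois group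
  have hfix : ∀ f : L ≃ₐ[F] L, f (gaussSum χ (AddChar.zmodChar r hζ.pow_eq_one) ^ (r - 1)) =
      gaussSum χ (AddChar.zmodChar r hζ.pow_eq_one) ^ (r - 1) := by
    intro f
    rw [map_pow, aut_gaussSum hζ χ hχF f, mul_pow, hχpow, one_mul]
  obtain ⟨a, ha⟩ := (IsGalois.mem_range_algebraMap_iff_fixed _).mpr hfix
  have ha0 : a ≠ 0 := by
    rintro rfl
    rw [map_zero] at ha
    exact pow_ne_zero _ hG0 ha.symm
  obtain ⟨j, u, hu, hu', hau⟩ := hO a ha0
  have hu0 : u ≠ 0 := by
    rintro rfl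
    rw [zero_mul] at hau
    exact ha0 hau
  have huV : V.valuation (algebraMap F L u) = 1 :=
    valuation_eq_one_of_mem_inv_mem_rb V ((_root_.map_ne_zero _).mpr hu0) (hOV u hu)
      (by rw [← map_inv₀]; exact hOV _ hu')
  have hrL0 : V.valuation (r : L) ≠ 0 :=
    (Valuation.ne_zero_iff _).mpr (Nat.cast_ne_zero.mpr hr.out.ne_zero)
  -- `0 ≤ j`
  have hj : 0 ≤ j := by
    by_contra hneg
    push Not at hneg
    obtain ⟨k, hk⟩ : ∃ k : ℕ, j = -((k : ℤ) + 1) := ⟨(-j - 1).toNat, by omega⟩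
    have h1 : V.valuation (gaussSum χ (AddChar.zmodChar r hζ.pow_eq_one) ^ (r - 1)) ≤ 1 :=
      (ValuationSubring.valuation_le_one_iff V _).mpr (pow_mem hGV _)
    rw [← ha, hau, map_mul, map_mul, huV, one_mul, map_zpow₀, map_natCast, map_zpow₀, hk,
      zpow_neg, ← Nat.cast_succ, zpow_natCast] at h1
    have h2 : V.valuation (r : L) ^ (k + 1) < 1 := pow_lt_one₀ zero_le hrV (Nat.succ_ne_zero k)
    have h3 : (1 : ValuationSubring.ValueGroup V) < (V.valuation (r : L) ^ (k + 1))⁻¹ :=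
      (one_lt_inv₀ (zero_lt_iff.mpr (pow_ne_zero _ hrL0))).mpr h2
    exact (not_le.mpr h3) h1
  lift j to ℕ using hj
  rw [zpow_natCast] at hau
  refine ⟨j, u, hu0, hu, hu', by rw [← ha, hau], ?_⟩
  -- a generator of `(ℤ/r)ˣ` and the corresponding automorphism
  obtain ⟨d₀, hd₀⟩ := IsCyclic.exists_generator (α := (ZMod r)ˣ)
  have hord : orderOf d₀ = r - 1 := by
    rw [orderOf_eq_card_of_forall_mem_zpowers hd₀, Nat.card_eq_fintype_card,
      ZMod.card_units_eq_totient, Nat.totient_prime hr.out]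
  let φ : (ZMod r)ˣ →* L := (χ⁻¹).toMonoidHom.comp (Units.coeHom (ZMod r))
  have hφ : Function.Injective φ := by
    intro d d' h
    apply hχ
    have h1 : (χ⁻¹) (d : ZMod r) = (χ⁻¹) (d' : ZMod r) := h
    rw [MulChar.inv_apply_eq_inv', MulChar.inv_apply_eq_inv'] at h1
    exact inv_injective h1
  have hω : IsPrimitiveRoot ((χ⁻¹) (d₀ : ZMod r)) (r - 1) := by
    have h1 := IsPrimitiveRoot.orderOf (φ d₀)
    rwa [orderOf_injective φ hφ d₀, hord] at h1
  obtain ⟨f₀, hf₀⟩ := exists_aut_autToPow_eq hζ hOV hO hrV d₀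
  have hm : V.valuation ((r - 1 : ℕ) : L) = 1 := by
    rw [Nat.cast_pred hr.out.pos, Valuation.map_sub_swap]
    exact Valuation.map_one_sub_of_lt _ hrV
  refine coprime_of_inertia_smul V (f₀ : L →+* L)
    (fun z hz => valuation_aut_sub_lt_one hζ hOV hO hrV f₀ hz) hω hm
    (G := gaussSum χ (AddChar.zmodChar r hζ.pow_eq_one)) (ϖ := (r : L))
    (ε := algebraMap F L u) ?_ ?_ (Nat.cast_ne_zero.mpr hr.out.ne_zero) ?_ huV
  · have := aut_gaussSum hζ χ hχF f₀
    rw [hf₀] at this
    exact this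
  · exact map_natCast f₀ r
  · rw [← ha, hau, map_mul, map_pow, map_natCast]

end Gauss

end Fermat.Agent.RB
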