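/-
Project RB, package C [VAL] (KEY-H) — helper8 — **Gauss sums over `flatBase r`** (C-IV, concrete):
inside `Ω = ℚ̄` with a valuation subring `A` over `r`, the Gauss sum `g(χ)` of a faithful character of
`(ℤ/r)ˣ` satisfies `g(χ) ^ (r - 1) = ε r ^ j₀` with `ε` a unit of `A ∩ flatBase r` and
`(j₀, r - 1) = 1`.
-/
import Fermat.Agent.JA.BASE_helper1_Flat
import Fermat.Agent.RB.VAL_helper8_Gauss

set_option autoImplicit false
set_option linter.style.haveILetI false
set_option linter.unusedSectionVars false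

namespace Fermat.Agent.RB

open Fermat.Agent.JA Fermat.Agent.TW.Kill

/-- `Ω = AlgebraicClosure ℚ`. -/
local notation "Ω" => AlgebraicClosure ℚ

theorem valuation_comap_lt_one_iff {K L : Type*} [Field K] [Field L] (A : ValuationSubring L)
    (f : K →+* L) (x : K) : (A.comap f).valuation x < 1 ↔ A.valuation (f x) < 1 := by
  rw [← ValuationSubring.mem_nonunits_iff, ← ValuationSubring.mem_nonunits_iff,
    ValuationSubring.mem_nonunits_iff_or, ValuationSubring.mem_nonunits_iff_or,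
    ValuationSubring.mem_comap, map_inv₀, map_eq_zero]

variable {r : ℕ} [hr : Fact r.Prime] {A : ValuationSubring Ω}

/-- values of a character of `(ℤ/r)ˣ` lie in `flatBase r`. -/
theorem mulChar_mem_flatBase (χ : MulChar (ZMod r) Ω) (a : ZMod r) : χ a ∈ flatBase r := by
  by_cases ha : IsUnit a
  · obtain ⟨d, rfl⟩ := ha
    refine root_mem_flatBase (n := r - 1) (Nat.sub_pos_of_lt hr.out.one_lt) ?_ ?_
    · intro h
      have := Nat.le_of_dvd (Nat.sub_pos_of_lt hr.out.one_lt) h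
      have := hr.out.one_lt
      omega
    · rw [← map_pow, ← Units.val_pow_eq_pow_val, ZMod.units_pow_card_sub_one_eq_one, Units.val_one,
        map_one]
  · rw [MulChar.map_nonunit χ ha]
    exact zero_mem _

/-- **the Gauss sum of a faithful character of `(ℤ/r)ˣ`**: `g(χ) ^ (r - 1) = ε r ^ j₀`, `ε` a unit of
`A ∩ flatBase r`, `(j₀, r - 1) = 1`. -/
theorem gaussSum_pow_eq_flatBase [NeZero r] (hA : A.LiesOverPrime r) {ζ : Ω}
    (hζ : IsPrimitiveRoot ζ r) (χ : MulChar (ZMod r) Ω)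
    (hχ : Function.Injective fun d : (ZMod r)ˣ => χ (d : ZMod r)) (hr2 : r ≠ 2) :
    ∃ (j₀ : ℕ) (ε : Ω), ε ∈ flatBase r ∧ A.valuation ε = 1 ∧
      gaussSum χ (AddChar.zmodChar r hζ.pow_eq_one) ^ (r - 1) = ε * (r : Ω) ^ j₀ ∧
      Nat.Coprime j₀ (r - 1) := by
  classical
  let F : IntermediateField ℚ Ω := flatBase r
  let L : IntermediateField ↥F Ω := IntermediateField.adjoin ↥F {ζ}
  let ζL : ↥L := ⟨ζ, IntermediateField.mem_adjoin_simple_self ↥F ζ⟩
  have hζL : IsPrimitiveRoot ζL r := IsPrimitiveRoot.coe_submonoidClass_iff.mp hζ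
  haveI : IsCyclotomicExtension {r} ↥F ↥L :=
    hζ.intermediateField_adjoin_isCyclotomicExtension ↥F
  let O : ValuationSubring ↥F := A.comap (algebraMap ↥F Ω)
  let V : ValuationSubring ↥L := A.comap (algebraMap ↥L Ω)
  have hOV : ∀ a : ↥F, a ∈ O → algebraMap ↥F ↥L a ∈ V := fun a ha => ha
  have hrΩ : A.valuation (r : Ω) < 1 := valuation_prime_lt_one hA
  have hrΩ0 : A.valuation (r : Ω) ≠ 0 := valuation_prime_ne_zero
  have hO : ∀ a : ↥F, a ≠ 0 → ∃ (j : ℤ) (u : ↥F), u ∈ O ∧ u⁻¹ ∈ O ∧ a = u * (r : ↥F) ^ j := by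
    intro a ha
    have ha' : (a : Ω) ≠ 0 := fun h => ha (Subtype.ext h)
    obtain ⟨j, hj⟩ := exists_valuation_eq_zpow_of_mem_flatBase hA a.2 ha'
    have hr0 : (r : ↥F) ≠ 0 := Nat.cast_ne_zero.mpr hr.out.ne_zero
    refine ⟨j, a / (r : ↥F) ^ j, ?_, ?_, ?_⟩
    · change algebraMap ↥F Ω (a / (r : ↥F) ^ j) ∈ A
      rw [← ValuationSubring.valuation_le_one_iff, map_div₀, map_div₀, map_zpow₀, map_natCast,
        map_zpow₀]
      change A.valuation (a : Ω) / _ ≤ 1
      rw [hj, div_self (zpow_ne_zero _ hrΩ0)]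
    · change algebraMap ↥F Ω (a / (r : ↥F) ^ j)⁻¹ ∈ A
      rw [← ValuationSubring.valuation_le_one_iff, map_inv₀, map_inv₀, map_div₀, map_div₀,
        map_zpow₀, map_natCast, map_zpow₀]
      change (A.valuation (a : Ω) / _)⁻¹ ≤ 1
      rw [hj, div_self (zpow_ne_zero _ hrΩ0), inv_one]
    · rw [div_mul_cancel₀ _ (zpow_ne_zero _ hr0)]
  have hrV : V.valuation (r : ↥L) < 1 := by
    rw [valuation_comap_lt_one_iff, map_natCast]
    exact hrΩ
  -- the character with values in `L`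
  let χL : MulChar (ZMod r) ↥L :=
    { toFun := fun a => algebraMap ↥F ↥L ⟨χ a, mulChar_mem_flatBase χ a⟩
      map_one' := by
        have : (⟨χ 1, mulChar_mem_flatBase χ 1⟩ : ↥F) = 1 := Subtype.ext (map_one χ)
        rw [this, map_one]
      map_mul' := fun a b => by
        have : (⟨χ (a * b), mulChar_mem_flatBase χ (a * b)⟩ : ↥F) =
            ⟨χ a, mulChar_mem_flatBase χ a⟩ * ⟨χ b, mulChar_mem_flatBase χ b⟩ :=
          Subtype.ext (map_mul χ a b)
        rw [this, map_mul]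
      map_nonunit' := fun a ha => by
        have : (⟨χ a, mulChar_mem_flatBase χ a⟩ : ↥F) = 0 := Subtype.ext (χ.map_nonunit ha)
        rw [this, map_zero] }
  have hχL : ∀ a, ((χL a : ↥L) : Ω) = χ a := fun a => rfl
  have hχLF : ∀ a, χL a ∈ Set.range (algebraMap ↥F ↥L) := fun a => ⟨_, rfl⟩
  have hχLinj : Function.Injective fun d : (ZMod r)ˣ => χL (d : ZMod r) := by
    intro d d' h
    apply hχ
    have h1 : ((χL (d : ZMod r) : ↥L) : Ω) = ((χL (d' : ZMod r) : ↥L) : Ω) := congrArg _ h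
    rwa [hχL, hχL] at h1
  obtain ⟨j₀, ε, hε0, hε, hε', hrel, hcop⟩ :=
    gaussSum_pow_eq_of_injective hζL hOV hO hrV χL hχLF hχLinj hr2
  refine ⟨j₀, (ε : Ω), ε.2, ?_, ?_, hcop⟩
  · exact valuation_eq_one_of_mem_inv_mem_rb A (fun h => hε0 (Subtype.ext h)) hε hε'
  · have h1 := congrArg (algebraMap ↥L Ω) hrel
    rw [map_pow] at h1
    have h2 : algebraMap ↥L Ω (gaussSum χL (AddChar.zmodChar r hζL.pow_eq_one)) =
        gaussSum χ (AddChar.zmodChar r hζ.pow_eq_one) := by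
      rw [gaussSum, gaussSum, map_sum]
      refine Finset.sum_congr rfl fun a _ => ?_
      rw [map_mul, AddChar.zmodChar_apply, AddChar.zmodChar_apply, map_pow]
      rfl
    rw [h2] at h1
    rw [h1]
    change ((ε * (r : ↥F) ^ j₀ : ↥F) : Ω) = _
    push_cast
    rfl

end Fermat.Agent.RB
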