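/-
Project RB, package C [VAL] (KEY-H) — helper8 — **the constant `c = g(ψ) r⁻⁴` is not a unit** of
`R₁ = A ∩ K₁` (`K₁ ⊂ Ω = ℚ̄` any intermediate field containing `ζ_r` and the values of the faithful
character `ψ`, `r ≠ 2`): the hypothesis `hc` of `resolvent_sheet_units`.
-/
import Fermat.Agent.RB.VAL_helper8_GaussOmega
import Fermat.Agent.JA.BASE_helper1_Val

set_option autoImplicit false
set_option linter.style.haveILetI false
set_option linter.unusedSectionVars false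

namespace Fermat.Agent.RB

open Fermat.Agent.JA Fermat.Agent.TW.Kill

/-- `Ω = AlgebraicClosure ℚ`. -/
local notation "Ω" => AlgebraicClosure ℚ

variable {r : ℕ} [hr : Fact r.Prime] {A : ValuationSubring Ω}

/-- the Gauss sum in `K₁` maps to the Gauss sum in `Ω`. -/
theorem coe_gaussSum_zmodChar [NeZero r] {K₁ : IntermediateField ℚ Ω} (ψ : MulChar (ZMod r) ↥K₁)
    {ζ : ↥K₁} (hζr : ζ ^ r = 1) (hζΩ : (ζ : Ω) ^ r = 1) :
    ((gaussSum ψ (AddChar.zmodChar r hζr) : ↥K₁) : Ω) =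
      gaussSum (ψ.ringHomComp (algebraMap ↥K₁ Ω)) (AddChar.zmodChar r hζΩ) := by
  have h1 : ((gaussSum ψ (AddChar.zmodChar r hζr) : ↥K₁) : Ω) =
      algebraMap ↥K₁ Ω (gaussSum ψ (AddChar.zmodChar r hζr)) := rfl
  rw [h1, gaussSum, gaussSum, map_sum]
  refine Finset.sum_congr rfl fun a _ => ?_
  rw [map_mul, AddChar.zmodChar_apply, AddChar.zmodChar_apply, map_pow, MulChar.ringHomComp_apply]
  rfl

/-- **`c = g(ψ) r⁻⁴` is not a unit of `A ∩ K₁`.** -/
theorem gaussConst_not_unit [NeZero r] (hA : A.LiesOverPrime r) (hr2 : r ≠ 2)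
    {K₁ : IntermediateField ℚ Ω} {ζ : ↥K₁} (hζ : IsPrimitiveRoot ζ r)
    (ψR : MulChar (ZMod r) ↥(baseRing A K₁))
    (hψ : Function.Injective fun d : (ZMod r)ˣ => ψR (d : ZMod r)) :
    ¬ ∃ a : (↥(baseRing A K₁))ˣ, algebraMap ↥(baseRing A K₁) ↥K₁ (a : ↥(baseRing A K₁)) =
      gaussSum (ψR.ringHomComp (algebraMap ↥(baseRing A K₁) ↥K₁))
        (AddChar.zmodChar r hζ.pow_eq_one) * ((r : ↥K₁)⁻¹) ^ 4 := by
  rintro ⟨a, ha⟩
  set ψ := ψR.ringHomComp (algebraMap ↥(baseRing A K₁) ↥K₁) with hψdef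
  set χ : MulChar (ZMod r) Ω := ψ.ringHomComp (algebraMap ↥K₁ Ω) with hχdef
  have hζΩ : IsPrimitiveRoot (ζ : Ω) r := IsPrimitiveRoot.coe_submonoidClass_iff.mpr hζ
  have hχinj : Function.Injective fun d : (ZMod r)ˣ => χ (d : ZMod r) := by
    intro d d' h
    apply hψ
    simp only [hχdef, hψdef, MulChar.ringHomComp_apply] at h
    have h1 : (algebraMap ↥(baseRing A K₁) ↥K₁) (ψR (d : ZMod r)) =
        (algebraMap ↥(baseRing A K₁) ↥K₁) (ψR (d' : ZMod r)) :=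
      (algebraMap ↥K₁ Ω).injective h
    exact Subtype.ext h1
  obtain ⟨j₀, ε, -, hε, hrel, hcop⟩ := gaussSum_pow_eq_flatBase hA hζΩ χ hχinj hr2
  have hG := coe_gaussSum_zmodChar ψ hζ.pow_eq_one hζΩ.pow_eq_one
  rw [← hχdef] at hG
  have hrΩ : A.valuation (r : Ω) < 1 := valuation_prime_lt_one hA
  have hrΩ0 : A.valuation (r : Ω) ≠ 0 := valuation_prime_ne_zero
  -- the valuation of `c`
  have hva : A.valuation (((a : ↥(baseRing A K₁)) : ↥K₁) : Ω) = 1 :=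
    (isUnit_baseRing_iff _).mp a.isUnit
  have hac : ((((a : ↥(baseRing A K₁)) : ↥K₁)) : Ω) =
      gaussSum χ (AddChar.zmodChar r hζΩ.pow_eq_one) * (((r : Ω))⁻¹) ^ 4 := by
    have h1 : ((a : ↥(baseRing A K₁)) : ↥K₁) =
        algebraMap ↥(baseRing A K₁) ↥K₁ (a : ↥(baseRing A K₁)) := rfl
    rw [h1, ha, ← hG]
    push_cast
    rfl
  rw [hac, map_mul, map_pow, map_inv₀] at hva
  have hvG : A.valuation (gaussSum χ (AddChar.zmodChar r hζΩ.pow_eq_one)) =
      A.valuation (r : Ω) ^ 4 := by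
    have h4 : (A.valuation (r : Ω))⁻¹ ^ 4 ≠ 0 := pow_ne_zero _ (inv_ne_zero hrΩ0)
    rw [← mul_right_cancel_iff_of_pos (zero_lt_iff.mpr h4), hva, ← mul_pow,
      mul_inv_cancel₀ hrΩ0, one_pow]
  have hpow : A.valuation (r : Ω) ^ (4 * (r - 1)) = A.valuation (r : Ω) ^ j₀ := by
    have h1 := congrArg A.valuation hrel
    rw [map_pow, hvG, map_mul, hε, one_mul, map_pow, ← pow_mul] at h1
    exact h1
  have hj : 4 * (r - 1) = j₀ :=
    pow_right_injective₀ (zero_lt_iff.mpr hrΩ0) hrΩ.ne hpow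
  rw [← hj] at hcop
  have h2 : r - 1 = 1 := by
    have h3 : Nat.Coprime (r - 1) (r - 1) :=
      Nat.Coprime.coprime_dvd_left (Dvd.intro_left 4 rfl) hcop
    rwa [Nat.coprime_self] at h3
  have := hr.out.two_le
  omega

end Fermat.Agent.RB
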