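/-
Project RB, package C [VAL] (KEY-H) — helper8 — (C-V) **the second sheet `w₀ = Gauss ∘ W_r` on the
good subfield `F1good k M' r` of the function field of `X₁(M' r)`**, and its identification with
the sheet `W0` of any two-sheeted host:

* `alF1L_mem_gaussField` : the transform lands in `Frac R((q))`;
* `w0F1` : the valuation subring `{z | alF1 z Gauss-integral}` of `F1good k M' r`;
* `comap_eq_w0_of_only` : on a host `E` (a field containing a copy `θ : F' → E` of a subfield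
  `F' ≤ F1good` with `j ∈ F'`) whose only valuation subrings Gauss at `j` are `Winf` (coefficientwise)
  and `W0`: `θ z ∈ W0 ↔ alF1 z` Gauss-integral, provided some `z₀ ∈ F'` is a Gauss unit whose
  transform is not.
-/
import Fermat.Agent.RB.VAL_helper8_Unit
import Fermat.Agent.SS.FIELD_helper3_Gauss
import Fermat.Agent.SS.FIELD_helper6_W0
import Fermat.Agent.SS.VAL2_helper7_Chev

set_option autoImplicit false
set_option linter.unusedSectionVars false
set_option linter.style.haveILetI false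

open ModularCurve

namespace Fermat.Agent.RB

open Fermat.Agent.W1 Fermat.Agent.Igusa Fermat.Agent.JA Fermat.Agent.SS

noncomputable section

open Complex Real

variable {R : Type*} [CommRing R] [IsDomain R] [IsDiscreteValuationRing R]
  {k : Type*} [Field k] [Algebra ℚ k] [Algebra R k] [IsFractionRing R k]
  {M' r : ℕ} (ι : k →+* ℂ) [NeZero M'] [NeZero r]
  [NeZero (M' * r)] {x y : ℤ} (h : (r : ℤ) * x + M' * y = 1) (hr : r.Prime) {ζ : k}
  (hζ : ι ζ = cexp (2 * π * I / r))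

/-! ### the transform lands in `Frac R((q))` -/

theorem alSer_mem_gaussField (ζR : R) (hζR : algebraMap R k ζR = ζ) (a₀ : ZMod M') (b : ZMod r) :
    alSer k ζ M' r a₀ b ∈ gaussField R k := by
  rw [alSer]
  refine mul_mem ?_ (mul_mem ?_ ?_)
  · have h1 : qExpand k r (phiMult k) = emb R k (qExpand R r (phiMult R)) := by
      rw [emb_qExpand, emb, coeffMap_phiMult]
    rw [h1]
    exact emb_mem_gaussField R k _
  · have h1 : (HahnSeries.C (((r : k)⁻¹) ^ 4) : LaurentSeries k) =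
        algebraMap k (LaurentSeries k) (((r : k)⁻¹) ^ 4) := by
      rw [algebraMap_laurentSeries_eq_single, HahnSeries.C_apply]
    rw [h1]
    exact (gaussField R k).algebraMap_mem _
  · have h1 : HahnSeries.ofPowerSeries ℤ k (twSer k M' a₀ (ζ ^ b.val) (ζ ^ (-b).val)) =
        emb R k (HahnSeries.ofPowerSeries ℤ R (twSer R M' a₀ (ζR ^ b.val) (ζR ^ (-b).val))) := by
      rw [emb, coeffMap_ofPowerSeries, map_twSer, map_pow, map_pow, hζR]
    rw [h1]
    exact emb_mem_gaussField R k _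

include hr in
theorem alF1L_mem_gaussField (ζR : R) (hζR : algebraMap R k ζR = ζ) (z : ↥(F1good k M' r)) :
    alF1L ι h hr hζ z ∈ gaussField R k := by
  obtain ⟨z, hz⟩ := z
  have hz' : z ∈ IntermediateField.adjoin k (goodJ k M' r ∪ goodPhi k M' r) := hz
  revert hz
  refine IntermediateField.adjoin_induction k
    (p := fun z _ => ∀ hz : z ∈ F1good k M' r, alF1L ι h hr hζ ⟨z, hz⟩ ∈ gaussField R k)
    ?_ ?_ ?_ ?_ ?_ hz'
  · rintro s (⟨d, hd, hdvd, rfl⟩ | ⟨a, ha, rfl⟩) hs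
    · rcases dvd_or_eq_mul_of_dvd_mul hr hdvd with hd' | ⟨d₀, hd₀, rfl⟩
      · haveI : NeZero (d * r) := ⟨mul_ne_zero (NeZero.ne d) (NeZero.ne r)⟩
        rw [alF1L_apply, alF1_jd_of_dvd ι h hr hζ hd' hs, coeffEmb_qExpand_jq']
        exact gaussInt_le_gaussField (qExpand_jqModC_mem_gaussInt R k (d * r))
      · haveI : NeZero d₀ := ⟨fun h0 => NeZero.ne (d₀ * r) (by rw [h0, zero_mul])⟩
        rw [alF1L_apply, alF1_jd_mul ι h hr hζ hd₀ hs, coeffEmb_qExpand_jq']
        exact gaussInt_le_gaussField (qExpand_jqModC_mem_gaussInt R k d₀)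
    · rw [alF1L_apply, alF1_phi ι h hr hζ a ha hs]
      exact alSer_mem_gaussField ζR hζR _ _
  · intro c hs
    have h1 : (⟨algebraMap k (LaurentSeries k) c, hs⟩ :
        ↥(F1good k M' r)) = algebraMap k ↥(F1good k M' r) c := rfl
    rw [h1, alF1L_apply, alF1_algebraMap]
    exact (gaussField R k).algebraMap_mem _
  · intro a b ha hb h1 h2 hs
    have ha' : a ∈ F1good k M' r := ha
    have hb' : b ∈ F1good k M' r := hb
    have e : (⟨a + b, hs⟩ : ↥(F1good k M' r)) = ⟨a, ha'⟩ + ⟨b, hb'⟩ := rfl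
    rw [e, map_add]
    exact add_mem (h1 ha') (h2 hb')
  · intro a ha h1 hs
    have ha' : a ∈ F1good k M' r := ha
    have e : (⟨a⁻¹, hs⟩ : ↥(F1good k M' r)) = (⟨a, ha'⟩ : ↥(F1good k M' r))⁻¹ := rfl
    rw [e, map_inv₀]
    exact inv_mem (h1 ha')
  · intro a b ha hb h1 h2 hs
    have ha' : a ∈ F1good k M' r := ha
    have hb' : b ∈ F1good k M' r := hb
    have e : (⟨a * b, hs⟩ : ↥(F1good k M' r)) = ⟨a, ha'⟩ * ⟨b, hb'⟩ := rfl
    rw [e, map_mul]
    exact mul_mem (h1 ha') (h2 hb')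

/-! ### constants -/

omit [Algebra ℚ k] in
/-- a constant which is a Gauss unit is a unit of `R`. -/
theorem exists_unit_of_C_mem_gaussInt {c : k}
    (h1 : (HahnSeries.C c : LaurentSeries k) ∈ gaussInt R k)
    (h2 : (HahnSeries.C c : LaurentSeries k)⁻¹ ∈ gaussInt R k) (hc0 : c ≠ 0) :
    ∃ a : Rˣ, algebraMap R k (a : R) = c := by
  have hC0 : (HahnSeries.C c : LaurentSeries k) ≠ 0 := by
    intro h0
    have := congrArg (fun s => HahnSeries.coeff s 0) h0
    simp only [coeffV_zero_C, HahnSeries.coeff_zero] at this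
    exact hc0 this
  have hmul : (⟨HahnSeries.C c, h1⟩ : gaussInt R k) * ⟨_, h2⟩ = 1 := by
    apply Subtype.ext
    show (HahnSeries.C c : LaurentSeries k) * _ = 1
    exact mul_inv_cancel₀ hC0
  have key : ∀ (a : R) (d : k), algebraMap R k a = d →
      ∀ hd : (HahnSeries.C d : LaurentSeries k) ∈ gaussInt R k,
      gaussRed R k ⟨_, hd⟩ ≠ 0 → IsUnit a := by
    intro a d had hd hne
    by_contra hau
    apply hne
    have e : (⟨HahnSeries.C d, hd⟩ : gaussInt R k) =
        ⟨emb R k (HahnSeries.C a), emb_mem_gaussInt R k _⟩ := by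
      apply Subtype.ext
      show (HahnSeries.C d : LaurentSeries k) = emb R k (HahnSeries.C a)
      rw [emb_C, had]
    rw [e, gaussRed_emb, red_C]
    have : IsLocalRing.residue R a = 0 := by
      rw [IsLocalRing.residue_eq_zero_iff]
      exact (IsLocalRing.mem_maximalIdeal a).mpr hau
    rw [this, map_zero]
  have hne1 : gaussRed R k ⟨_, h1⟩ ≠ 0 := by
    intro h0
    have := congrArg (gaussRed R k) hmul
    rw [map_mul, h0, zero_mul, map_one] at this
    exact zero_ne_one this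
  have hne2 : gaussRed R k ⟨_, h2⟩ ≠ 0 := by
    intro h0
    have := congrArg (gaussRed R k) hmul
    rw [map_mul, h0, mul_zero, map_one] at this
    exact zero_ne_one this
  rcases ValuationRing.isInteger_or_isInteger R c with ⟨a, ha⟩ | ⟨a, ha⟩
  · obtain ⟨u, hu⟩ := key a c ha h1 hne1
    exact ⟨u, by rw [hu, ha]⟩
  · have h2' : (HahnSeries.C c⁻¹ : LaurentSeries k) ∈ gaussInt R k := by
      rw [map_inv₀]
      exact h2
    have hne2' : gaussRed R k ⟨_, h2'⟩ ≠ 0 := by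
      have e : (⟨HahnSeries.C c⁻¹, h2'⟩ : gaussInt R k) = ⟨_, h2⟩ := by
        apply Subtype.ext
        show (HahnSeries.C c⁻¹ : LaurentSeries k) = _
        rw [map_inv₀]
      rw [e]
      exact hne2
    obtain ⟨u, hu⟩ := key a c⁻¹ ha h2' hne2'
    refine ⟨u⁻¹, ?_⟩
    have h3 : algebraMap R k (u : R) = c⁻¹ := by rw [hu, ha]
    have h4 : algebraMap R k ((u⁻¹ : Rˣ) : R) * algebraMap R k (u : R) = 1 := by
      rw [← map_mul, Units.inv_mul, map_one]
    rw [h3] at h4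
    exact (eq_inv_of_mul_eq_one_left h4).trans (inv_inv c)

/-! ### the second sheet -/

include hr in
/-- **identification of the second sheet of a host**: if the only valuation subrings of the host
`E` which are Gauss at `j` are `Winf` (containing the coefficientwise Gauss-integral elements) and
`W0`, and some `z₀` is a Gauss unit whose transform is not, then `W0` restricts to
`w₀ = Gauss ∘ W_r`. -/
theorem mem_sheet_zero_iff_of_only {ϖ : R} (hϖ : Irreducible ϖ) (ζR : R)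
    (hζR : algebraMap R k ζR = ζ)
    (F' : IntermediateField k (LaurentSeries k)) (hF' : F' ≤ F1good k M' r)
    (hj : jqModC k ∈ F')
    (E : IntermediateField k (LaurentSeries k)) (θ : ↥F' →ₐ[k] ↥E)
    {Winf W0 : ValuationSubring ↥E}
    (only : ∀ W : ValuationSubring ↥E, IsGaussAt R ϖ (θ ⟨jqModC k, hj⟩) W → W = Winf ∨ W = W0)
    (hWinf : ∀ z : ↥F', (z : LaurentSeries k) ∈ gaussInt R k → θ z ∈ Winf)
    (z₀ : ↥F') (hz₀ : (z₀ : LaurentSeries k) ∈ gaussInt R k)
    (hz₀' : (z₀ : LaurentSeries k)⁻¹ ∈ gaussInt R k)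
    (hsep : ¬ (alF1L ι h hr hζ (IntermediateField.inclusion hF' z₀) ∈ gaussInt R k ∧
      (alF1L ι h hr hζ (IntermediateField.inclusion hF' z₀))⁻¹ ∈ gaussInt R k))
    (z : ↥F') :
    θ z ∈ W0 ↔ alF1L ι h hr hζ (IntermediateField.inclusion hF' z) ∈ gaussInt R k := by
  set g : ↥F' →+* LaurentSeries k :=
    (alF1L ι h hr hζ).comp (IntermediateField.inclusion hF' : ↥F' →+* ↥(F1good k M' r)) with hg
  have hgF : ∀ f : ↥F', g f ∈ gaussField R k := fun f =>
    alF1L_mem_gaussField ι h hr hζ ζR hζR _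
  set O : ValuationSubring ↥F' :=
    (gaussValSub R k (gaussField R k) le_rfl).comap (g.codRestrict (gaussField R k) hgF) with hO
  have hOmem : ∀ f : ↥F', f ∈ O ↔ g f ∈ gaussInt R k := fun f => Iff.rfl
  obtain ⟨V, hV⟩ := Fermat.Agent.SS.exists_valuationSubring_comap_eq (θ : ↥F' →+* ↥E) O
  have hVmem : ∀ f : ↥F', θ f ∈ V ↔ g f ∈ gaussInt R k := by
    intro f
    rw [← hOmem, ← hV]
    rfl
  have hgC : ∀ c : k, g (algebraMap k ↥F' c) = HahnSeries.C c := by
    intro c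
    have h1 : (IntermediateField.inclusion hF' : ↥F' →+* ↥(F1good k M' r))
        (algebraMap k ↥F' c) = algebraMap k ↥(F1good k M' r) c := rfl
    rw [hg, RingHom.comp_apply, h1, alF1L_apply, alF1_algebraMap, algebraMap_laurentSeries_eq_single,
      HahnSeries.C_apply]
  have hϖV : (algebraMap k ↥E (algebraMap R k ϖ))⁻¹ ∉ V := by
    intro hmem
    have h1 : (algebraMap k ↥E (algebraMap R k ϖ))⁻¹ =
        θ ((algebraMap k ↥F' (algebraMap R k ϖ))⁻¹) := by
      rw [map_inv₀, AlgHom.commutes]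
    rw [h1, hVmem, map_inv₀, hgC] at hmem
    exact inv_uniformizer_notMem_gaussInt hϖ hmem
  have hjg : g ⟨jqModC k, hj⟩ = jqNModC k (1 * r) := by
    haveI : NeZero (1 * r) := ⟨by rw [one_mul]; exact NeZero.ne r⟩
    have e1 : jqModC k = coeffEmb k (qExpand ℚ 1 jq) := by
      rw [coeffEmb_qExpand_jq', qExpand_one_apply]
    have hs : coeffEmb k (qExpand ℚ 1 jq) ∈ F1good k M' r := by
      rw [← e1]
      exact hF' hj
    have e2 : (IntermediateField.inclusion hF' : ↥F' →+* ↥(F1good k M' r)) ⟨jqModC k, hj⟩ =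
        ⟨coeffEmb k (qExpand ℚ 1 jq), hs⟩ := by
      apply Subtype.ext
      exact e1
    rw [hg, RingHom.comp_apply, e2, alF1L_apply, alF1_jd_of_dvd ι h hr hζ (one_dvd M') hs,
      coeffEmb_qExpand_jq', jqNModC]
  have hG : IsGaussAt R ϖ (θ ⟨jqModC k, hj⟩) V := by
    haveI : NeZero (1 * r) := ⟨by rw [one_mul]; exact NeZero.ne r⟩
    refine isGaussAt_of_ringHom_of_isPrimeSeries hϖ g hgC E θ V (fun f hf => (hVmem f).mpr hf)
      hϖV _ ?_
    rw [hjg]
    exact isPrimeSeries_jqNModC R k (1 * r)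
  rcases only V hG with hVW | hVW
  · exfalso
    apply hsep
    have h1 : θ z₀ ∈ V := by rw [hVW]; exact hWinf z₀ hz₀
    have h2 : θ z₀⁻¹ ∈ V := by
      rw [hVW]
      exact hWinf z₀⁻¹ (by rw [IntermediateField.coe_inv]; exact hz₀')
    rw [hVmem] at h1 h2
    rw [map_inv₀] at h2
    exact ⟨h1, h2⟩
  · rw [← hVW]
    exact hVmem z

/-! ### the orders of the resolvent along the two sheets -/

omit [Algebra ℚ k] in
theorem exists_unit_of_pow_eq {c : k} {n : ℕ} (hn : 0 < n)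
    (hcn : ∃ a : Rˣ, algebraMap R k (a : R) = c ^ n) : ∃ a : Rˣ, algebraMap R k (a : R) = c := by
  obtain ⟨a, ha⟩ := hcn
  have hint : IsIntegral R c := by
    refine ⟨Polynomial.X ^ n - Polynomial.C (a : R), Polynomial.monic_X_pow_sub_C _ hn.ne', ?_⟩
    rw [Polynomial.eval₂_sub, Polynomial.eval₂_pow, Polynomial.eval₂_X, Polynomial.eval₂_C, ha,
      sub_self]
  obtain ⟨b, hb⟩ := IsIntegrallyClosed.algebraMap_eq_of_integral hint
  have hbn : b ^ n = (a : R) := by
    apply IsFractionRing.injective R k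
    rw [map_pow, hb, ha]
  have hbu : IsUnit b := by
    have : IsUnit (b ^ n) := by rw [hbn]; exact a.isUnit
    exact (isUnit_pow_iff hn.ne').mp this
  obtain ⟨u, hu⟩ := hbu
  exact ⟨u, by rw [hu, hb]⟩

include h hr hζ in
/-- **(C-V) the orders of the resolvent along the two sheets of a host**: `u ^ n` is a unit of
`Winf`, and `u ^ n / c ^ n` is a unit of `W0`, `c = g(ψ) r⁻⁴`. -/
theorem resolvent_sheet_units {ϖ : R} (hϖ : Irreducible ϖ) (ζR : R)
    (hζR : algebraMap R k ζR = ζ) (hζr : ζ ^ r = 1) (hM' : 3 ≤ M')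
    (ψR : MulChar (ZMod r) R) (hψR : ψR ≠ 1)
    (hc : ¬ ∃ a : Rˣ, algebraMap R k (a : R) =
      gaussSum (ψR.ringHomComp (algebraMap R k)) (AddChar.zmodChar r hζr) * ((r : k)⁻¹) ^ 4)
    {n : ℕ} (hn : 0 < n)
    (F' : IntermediateField k (LaurentSeries k)) (hF' : F' ≤ F1good k M' r)
    (hj : jqModC k ∈ F')
    (hun : uSer k M' r x y (ψR.ringHomComp (algebraMap R k)) ^ n ∈ F')
    (E : IntermediateField k (LaurentSeries k)) (θ : ↥F' →ₐ[k] ↥E)
    {Winf W0 : ValuationSubring ↥E}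
    (only : ∀ W : ValuationSubring ↥E, IsGaussAt R ϖ (θ ⟨jqModC k, hj⟩) W → W = Winf ∨ W = W0)
    (hWinf : ∀ z : ↥F', (z : LaurentSeries k) ∈ gaussInt R k → θ z ∈ Winf) :
    θ ⟨_, hun⟩ ∈ Winf ∧ (θ ⟨_, hun⟩)⁻¹ ∈ Winf ∧
      θ ⟨_, hun⟩ * (algebraMap k ↥E ((gaussSum (ψR.ringHomComp (algebraMap R k))
        (AddChar.zmodChar r hζr) * ((r : k)⁻¹) ^ 4) ^ n))⁻¹ ∈ W0 ∧
      (θ ⟨_, hun⟩ * (algebraMap k ↥E ((gaussSum (ψR.ringHomComp (algebraMap R k))
        (AddChar.zmodChar r hζr) * ((r : k)⁻¹) ^ 4) ^ n))⁻¹)⁻¹ ∈ W0 := by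
  haveI : Fact (1 < r) := ⟨hr.one_lt⟩
  set ψ := ψR.ringHomComp (algebraMap R k) with hψdef
  set c : k := gaussSum ψ (AddChar.zmodChar r hζr) * ((r : k)⁻¹) ^ 4 with hcdef
  have hψ : ψ ≠ 1 := (MulChar.ringHomComp_ne_one_iff (IsFractionRing.injective R k)).mpr hψR
  have hψinv : ψ⁻¹ = ψR⁻¹.ringHomComp (algebraMap R k) := MulChar.ringHomComp_inv ψR _
  obtain ⟨hu1, hu2⟩ := uSer_gaussUnit k hM' h ψR
  have hyu : IsUnit (((y : ℤ) : ZMod r)) := by
    have h1 : (((M' : ℤ) * y : ℤ) : ZMod r) = 1 := by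
      have h2 : ((M' : ℤ) * y : ℤ) = 1 - r * x := by linarith
      rw [h2]
      push_cast
      rw [ZMod.natCast_self]
      ring
    push_cast at h1
    exact IsUnit.of_mul_eq_one _ (by rw [mul_comm]; exact h1)
  obtain ⟨hU1, hU2⟩ := u0Ser_gaussUnit k hM' ψR⁻¹ hyu
  rw [← hψinv] at hU1 hU2
  set U₀ := u0Ser k M' r ψ⁻¹ ((y : ℤ) : ZMod r) with hU₀
  have hu : uSer k M' r x y ψ ∈ F1good k M' r := uSer_mem_F1good h (by omega) ψ
  have hal := alF1L_uSer ι h hr hζ (by omega) hζr ψ hψ hu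
  rw [← hcdef, ← hU₀] at hal
  -- the element `u ^ n`
  set z₀ : ↥F' := ⟨_, hun⟩ with hz₀def
  have hz₀incl : (IntermediateField.inclusion hF' z₀ : ↥(F1good k M' r)) =
      (⟨uSer k M' r x y ψ, hu⟩ : ↥(F1good k M' r)) ^ n := by
    apply Subtype.ext
    rfl
  have halz : alF1L ι h hr hζ (IntermediateField.inclusion hF' z₀) =
      (HahnSeries.C c * U₀) ^ n := by
    rw [hz₀incl, map_pow, hal]
  have hz₀1 : (z₀ : LaurentSeries k) ∈ gaussInt R k := pow_mem hu1 n
  have hz₀2 : (z₀ : LaurentSeries k)⁻¹ ∈ gaussInt R k := by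
    show (uSer k M' r x y ψ ^ n)⁻¹ ∈ gaussInt R k
    rw [← inv_pow]
    exact pow_mem hu2 n
  have hu0 : uSer k M' r x y ψ ≠ 0 := by
    intro h0
    have h1 := coeff_zero_uSer (A := k) M' r x y hM' h ψ
    rw [h0, HahnSeries.coeff_zero] at h1
    exact zero_ne_one h1
  have hCU0 : HahnSeries.C c * U₀ ≠ 0 := by
    rw [← hal]
    intro h0
    have h1 : (⟨uSer k M' r x y ψ, hu⟩ : ↥(F1good k M' r)) = 0 :=
      (map_eq_zero (alF1L ι h hr hζ)).mp h0
    exact hu0 (congrArg Subtype.val h1)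
  have hC0 : (HahnSeries.C c : LaurentSeries k) ≠ 0 := left_ne_zero_of_mul hCU0
  have hU0 : U₀ ≠ 0 := right_ne_zero_of_mul hCU0
  have hc0 : c ≠ 0 := by
    rintro h0
    apply hC0
    rw [h0, map_zero]
  -- separation
  have hsep : ¬ (alF1L ι h hr hζ (IntermediateField.inclusion hF' z₀) ∈ gaussInt R k ∧
      (alF1L ι h hr hζ (IntermediateField.inclusion hF' z₀))⁻¹ ∈ gaussInt R k) := by
    rintro ⟨h1, h2⟩
    rw [halz] at h1 h2
    apply hc
    apply exists_unit_of_pow_eq hn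
    have e1 : (HahnSeries.C (c ^ n) : LaurentSeries k) =
        (HahnSeries.C c * U₀) ^ n * (U₀⁻¹) ^ n := by
      rw [map_pow, mul_pow, mul_assoc, ← mul_pow, mul_inv_cancel₀ hU0, one_pow, mul_one]
    have e2 : (HahnSeries.C (c ^ n) : LaurentSeries k)⁻¹ =
        ((HahnSeries.C c * U₀) ^ n)⁻¹ * U₀ ^ n := by
      rw [map_pow, mul_pow, mul_inv, mul_assoc, inv_mul_cancel₀ (pow_ne_zero n hU0), mul_one]
    exact exists_unit_of_C_mem_gaussInt
      (by rw [e1]; exact mul_mem h1 (pow_mem hU2 n))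
      (by rw [e2]; exact mul_mem h2 (pow_mem hU1 n)) (pow_ne_zero n hc0)
  have key := mem_sheet_zero_iff_of_only ι h hr hζ hϖ ζR hζR F' hF' hj E θ only hWinf z₀ hz₀1 hz₀2
    hsep
  refine ⟨hWinf z₀ hz₀1, ?_, ?_, ?_⟩
  · rw [← map_inv₀]
    exact hWinf z₀⁻¹ (by rw [IntermediateField.coe_inv]; exact hz₀2)
  · have e : θ z₀ * (algebraMap k ↥E (c ^ n))⁻¹ = θ (z₀ * (algebraMap k ↥F' (c ^ n))⁻¹) := by
      rw [map_mul, map_inv₀, AlgHom.commutes]
    rw [e, key]
    have h2 : alF1L ι h hr hζ ((IntermediateField.inclusion hF') ((algebraMap k ↥F') (c ^ n))) =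
        HahnSeries.C (c ^ n) := by
      rw [AlgHom.commutes, alF1L_apply, alF1_algebraMap, algebraMap_laurentSeries_eq_single,
        HahnSeries.C_apply]
    simp only [map_mul, map_inv₀]
    rw [halz, h2]
    have e3 : (HahnSeries.C c * U₀) ^ n * (HahnSeries.C (c ^ n) : LaurentSeries k)⁻¹ = U₀ ^ n := by
      rw [map_pow, mul_pow, mul_comm, ← mul_assoc, inv_mul_cancel₀ (pow_ne_zero n hC0), one_mul]
    rw [e3]
    exact pow_mem hU1 n
  · have e : (θ z₀ * (algebraMap k ↥E (c ^ n))⁻¹)⁻¹ =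
        θ ((z₀ * (algebraMap k ↥F' (c ^ n))⁻¹)⁻¹) := by
      rw [map_inv₀, map_mul, map_inv₀, AlgHom.commutes]
    rw [e, key]
    have h2 : alF1L ι h hr hζ ((IntermediateField.inclusion hF') ((algebraMap k ↥F') (c ^ n))) =
        HahnSeries.C (c ^ n) := by
      rw [AlgHom.commutes, alF1L_apply, alF1_algebraMap, algebraMap_laurentSeries_eq_single,
        HahnSeries.C_apply]
    simp only [map_mul, map_inv₀]
    rw [halz, h2]
    have e3 : ((HahnSeries.C c * U₀) ^ n * (HahnSeries.C (c ^ n) : LaurentSeries k)⁻¹)⁻¹ =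
        (U₀⁻¹) ^ n := by
      rw [map_pow, mul_pow, mul_comm, ← mul_assoc, inv_mul_cancel₀ (pow_ne_zero n hC0), one_mul,
        inv_pow]
    rw [e3]
    exact pow_mem hU2 n

end

end Fermat.Agent.RB
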