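/-
Project RB, package C [VAL] (KEY-H) — helper8 — (C-V, host form) **`resolvent_sheet_units` on a
host `E ⊆ k((x))`, `q = x^w`**: `E ⊇ hostImage k w F'`, `Winf` = the coefficientwise Gauss valuation
subring of `E`, `W0` the other valuation subring Gauss at `j(x^w)`.
-/
import Fermat.Agent.RB.VAL_helper8_W0
import Fermat.Agent.JA.HOST_helper3_Emb

set_option autoImplicit false
set_option linter.unusedSectionVars false
set_option linter.style.haveILetI false

open ModularCurve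

namespace Fermat.Agent.RB

open Fermat.Agent.W1 Fermat.Agent.Igusa Fermat.Agent.JA Fermat.Agent.SS

noncomputable section

open Complex Real

variable {R : Type*} [CommRing R] [IsDomain R] [IsDiscreteValuationRing R]
  {k : Type*} [Field k] [Algebra ℚ k] [Algebra R k] [IsFractionRing R k]
  {M' r : ℕ} (ι : k →+* ℂ) [NeZero M'] [NeZero r]
  [NeZero (M' * r)] {x y : ℤ} (h : (r : ℤ) * x + M' * y = 1) (hr : r.Prime) {ζ : k}
  (hζ : ι ζ = cexp (2 * π * I / r))

/-- the embedding of a subfield of `k((q))` into a host containing its image under `q = x^w`. -/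
def hostTheta (w : ℕ) [NeZero w] (F' E : IntermediateField k (LaurentSeries k))
    (hE : hostImage k w F' ≤ E) : ↥F' →ₐ[k] ↥E :=
  (IntermediateField.inclusion hE).comp (hostImageEquiv k w F' : ↥F' →ₐ[k] ↥(hostImage k w F'))

theorem coe_hostTheta (w : ℕ) [NeZero w] (F' E : IntermediateField k (LaurentSeries k))
    (hE : hostImage k w F' ≤ E) (z : ↥F') :
    ((hostTheta w F' E hE z : ↥E) : LaurentSeries k) = qExpand k w (z : LaurentSeries k) := rfl

omit [Algebra ℚ k] [IsFractionRing R k] in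
theorem uSer_ne_zero_rb [Fact (1 < r)] (hM' : 3 ≤ M') (h : (r : ℤ) * x + M' * y = 1)
    (ψ : MulChar (ZMod r) k) : uSer k M' r x y ψ ≠ 0 := by
  intro h0
  have h1 := coeff_zero_uSer (A := k) M' r x y hM' h ψ
  rw [h0, HahnSeries.coeff_zero] at h1
  exact zero_ne_one h1

include h hr hζ in
omit [Algebra R k] [IsFractionRing R k] in
/-- the constant `c = g(ψ) r⁻⁴` is nonzero. -/
theorem gaussConst_ne_zero_rb (hζr : ζ ^ r = 1) (hM' : 3 ≤ M') (ψ : MulChar (ZMod r) k)
    (hψ : ψ ≠ 1) : gaussSum ψ (AddChar.zmodChar r hζr) * ((r : k)⁻¹) ^ 4 ≠ 0 := by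
  haveI : Fact (1 < r) := ⟨hr.one_lt⟩
  intro h0
  have hu : uSer k M' r x y ψ ∈ F1good k M' r := uSer_mem_F1good h (by omega) ψ
  have hal := alF1L_uSer ι h hr hζ (by omega) hζr ψ hψ hu
  rw [h0, map_zero, zero_mul] at hal
  have h1 : (⟨uSer k M' r x y ψ, hu⟩ : ↥(F1good k M' r)) = 0 :=
    (map_eq_zero (alF1L ι h hr hζ)).mp hal
  exact uSer_ne_zero_rb hM' h ψ (congrArg Subtype.val h1)

include h hr hζ in
/-- **(C-V) on a host**: the orders of the resolvent along the two sheets. -/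
theorem resolvent_sheet_units_host {ϖ : R} (hϖ : Irreducible ϖ) (ζR : R)
    (hζR : algebraMap R k ζR = ζ) (hζr : ζ ^ r = 1) (hM' : 3 ≤ M')
    (ψR : MulChar (ZMod r) R) (hψR : ψR ≠ 1)
    (hc : ¬ ∃ a : Rˣ, algebraMap R k (a : R) =
      gaussSum (ψR.ringHomComp (algebraMap R k)) (AddChar.zmodChar r hζr) * ((r : k)⁻¹) ^ 4)
    {n : ℕ} (hn : 0 < n)
    (F' : IntermediateField k (LaurentSeries k)) (hF' : F' ≤ F1good k M' r)
    (hj : jqModC k ∈ F')
    (hun : uSer k M' r x y (ψR.ringHomComp (algebraMap R k)) ^ n ∈ F')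
    (w : ℕ) [NeZero w] (E : IntermediateField k (LaurentSeries k))
    (hE : hostImage k w F' ≤ E) (hEg : E ≤ gaussField R k) (hjE : jqNModC k w ∈ E)
    {W0 : ValuationSubring ↥E}
    (only : ∀ W : ValuationSubring ↥E, IsGaussAt R ϖ (⟨jqNModC k w, hjE⟩ : ↥E) W →
      W = gaussValSub R k E hEg ∨ W = W0) :
    (gaussValSub R k E hEg).valuation (hostTheta w F' E hE ⟨_, hun⟩) = 1 ∧
      W0.valuation (hostTheta w F' E hE ⟨_, hun⟩ *
        (algebraMap k ↥E ((gaussSum (ψR.ringHomComp (algebraMap R k))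
          (AddChar.zmodChar r hζr) * ((r : k)⁻¹) ^ 4) ^ n))⁻¹) = 1 := by
  have hθj : hostTheta w F' E hE ⟨jqModC k, hj⟩ = ⟨jqNModC k w, hjE⟩ := by
    apply Subtype.ext
    rw [coe_hostTheta]
    rfl
  have hWinf : ∀ z : ↥F', (z : LaurentSeries k) ∈ gaussInt R k →
      hostTheta w F' E hE z ∈ gaussValSub R k E hEg := by
    intro z hz
    rw [mem_gaussValSub_iff, coe_hostTheta]
    exact (gaussHomQExpand R k w).map_mem_gaussInt hz
  obtain ⟨h1, h2, h3, h4⟩ := resolvent_sheet_units ι h hr hζ hϖ ζR hζR hζr hM' ψR hψR hc hn F' hF'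
    hj hun E (hostTheta w F' E hE) (by rw [hθj]; exact only) hWinf
  haveI : Fact (1 < r) := ⟨hr.one_lt⟩
  have hψ : ψR.ringHomComp (algebraMap R k) ≠ 1 :=
    (MulChar.ringHomComp_ne_one_iff (IsFractionRing.injective R k)).mpr hψR
  have hz0 : hostTheta w F' E hE ⟨_, hun⟩ ≠ 0 := by
    rw [Ne, map_eq_zero]
    intro h0
    exact pow_ne_zero n (uSer_ne_zero_rb hM' h _) (congrArg Subtype.val h0)
  have hc0 : algebraMap k ↥E ((gaussSum (ψR.ringHomComp (algebraMap R k))
      (AddChar.zmodChar r hζr) * ((r : k)⁻¹) ^ 4) ^ n) ≠ 0 := by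
    rw [Ne, map_eq_zero]
    exact pow_ne_zero n (gaussConst_ne_zero_rb ι h hr hζ hζr hM' _ hψ)
  constructor
  · have ha := (ValuationSubring.valuation_le_one_iff _ _).mpr h1
    have hb := (ValuationSubring.valuation_le_one_iff _ _).mpr h2
    rw [map_inv₀] at hb
    have h0 : 0 < (gaussValSub R k E hEg).valuation (hostTheta w F' E hE ⟨_, hun⟩) :=
      zero_lt_iff.mpr ((Valuation.ne_zero_iff _).mpr hz0)
    exact le_antisymm ha ((inv_le_one₀ h0).mp hb)
  · have ha := (ValuationSubring.valuation_le_one_iff _ _).mpr h3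
    have hb := (ValuationSubring.valuation_le_one_iff _ _).mpr h4
    rw [map_inv₀] at hb
    have h0 : 0 < W0.valuation (hostTheta w F' E hE ⟨_, hun⟩ *
        (algebraMap k ↥E ((gaussSum (ψR.ringHomComp (algebraMap R k))
          (AddChar.zmodChar r hζr) * ((r : k)⁻¹) ^ 4) ^ n))⁻¹) :=
      zero_lt_iff.mpr ((Valuation.ne_zero_iff _).mpr (mul_ne_zero hz0 (inv_ne_zero hc0)))
    exact le_antisymm ha ((inv_le_one₀ h0).mp hb)

end

end Fermat.Agent.RB
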