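/-
RB [BB3] = (KEY-H), package C [VAL] — helper8 — **host glue: the orders of the Kummer generator
`f = u ^ n` along the two sheets of helper7's Legendre host `EN₁ = legEL K₁ M' r`** (big base:
`ζ_r ∈ K₁`).

* `F1low k M' r = F1good k M' r ⊓ k·F₁(M', r)`, with `jqModC_mem_F1low`, `uSer_pow_mem_F1low`,
  `hostImage_F1low_le_legEL`;
* `val_resolvent_legL` : for `f ∈ EN₁` with `f = (u ^ n)(x²)`, `u = uSer ψ`, `ψ` a faithful character
  of `(ℤ/r)ˣ` with values in `R₁ = A ∩ K₁`: `W_∞(f) = 1` and `W_0(f / c ^ n) = 1`,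
  `c = g(ψ) r⁻⁴`.
-/
import Mathlib
import Fermat.Agent.RB.VAL_helper8_Host
import Fermat.Agent.RB.VAL_helper8_Const
import Fermat.Agent.RB.FIELD1_helper8_Bridge
import Fermat.Agent.RB.KEYH_helper7_AtBases
import Fermat.Agent.NP.BRIDGE_helper5_Base

set_option autoImplicit false
set_option linter.unusedSectionVars false
set_option linter.unusedVariables false
set_option linter.style.haveILetI false
set_option synthInstance.maxHeartbeats 400000

open HahnSeries IntermediateField AlgebraicCurve ModularCurve Polynomial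

namespace Fermat.Agent.RB

open Fermat.Agent.JA Fermat.Agent.Igusa Fermat.Agent.SS Fermat.Agent.FF Fermat.Agent.W1

open scoped Fermat.Agent.JA.Host

/-- `Ω = AlgebraicClosure ℚ`. -/
local notation "Ω" => AlgebraicClosure ℚ

noncomputable section

section Low

variable (k : Type*) [Field k] [Algebra ℚ k] (M' r : ℕ)

/-- the part of `F1good k M' r` inside `k·F₁(M', r)`. -/
def F1low : IntermediateField k (LaurentSeries k) :=
  F1good k M' r ⊓ laurentBaseChange k (F₁ M' r)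

theorem F1low_le_F1good : F1low k M' r ≤ F1good k M' r := inf_le_left

theorem F1low_le_raise : F1low k M' r ≤ laurentBaseChange k (F₁ M' r) := inf_le_right

theorem jqModC_mem_F1low [NeZero M'] [NeZero r] : jqModC k ∈ F1low k M' r := by
  refine ⟨?_, ?_⟩
  · have e1 : jqModC k = coeffEmb k (qExpand ℚ 1 jq) := by
      rw [coeffEmb_qExpand_jq', qExpand_one_apply]
    exact IntermediateField.subset_adjoin k _ (Or.inl ⟨1, inferInstance, one_dvd _, e1⟩)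
  · show jqModC k ∈ laurentBaseChange k (F₁ M' r)
    rw [laurentBaseChange_F₁_eq_F₁C]
    exact jqModC_mem_F₁C k M' r

theorem hostImage_F1low_le_legEL : hostImage k 2 (F1low k M' r) ≤ legEL k M' r := by
  refine le_trans ?_ (hostW_le_legHost (K := k) (F₁ M' r))
  rintro _ ⟨g, hg, rfl⟩
  exact ⟨g, F1low_le_raise k M' r hg, rfl⟩

variable {k M' r}

theorem uSer_pow_mem_F1low [Algebra k ℂ] [IsScalarTower ℚ k ℂ] [NeZero M'] [NeZero r]
    [NeZero (M' * r)] {x y : ℤ} (h : (r : ℤ) * x + M' * y = 1) (hM' : 2 ≤ M')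
    (hcop : Nat.Coprime M' r) (ψ : MulChar (ZMod r) k) (n : ℕ)
    (hn : ∀ s : (ZMod r)ˣ, ψ (s : ZMod r) ^ n = 1) :
    uSer k M' r x y ψ ^ n ∈ F1low k M' r :=
  ⟨pow_mem (uSer_mem_F1good (k := k) h hM' ψ) n, uSer_pow_mem_raise h hM' hcop ψ n hn⟩

end Low

section Big

open Complex Real

set_option maxHeartbeats 1600000 in
/-- **(C-V) on helper7's host `EN₁ = legEL K₁ M' r`, big base**: the orders of `f = (u ^ n)(x²)`
along the two sheets. -/
theorem val_resolvent_legL (M' r : ℕ) [NeZero M'] [NeZero r] [NeZero (M' * r)] (hM' : 3 ≤ M')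
    (hr : r.Prime) (hr2 : r ≠ 2) (hrM : ¬ r ∣ M')
    (A : ValuationSubring Ω) (hA : A.LiesOverPrime r)
    (K₁ : IntermediateField ℚ Ω) (hK₁ : IsBase r K₁)
    [IsDiscreteValuationRing ↥(baseRing A K₁)] [CharZero ↥(baseRing A K₁)]
    [DecidableEq ↥(baseRing A K₁)] (ϖ : ↥(baseRing A K₁)) (hϖ : Irreducible ϖ)
    (h2 : IsUnit (2 : ↥(baseRing A K₁))) (x y : ℤ) (hbez : (r : ℤ) * x + M' * y = 1)
    (ζR : ↥(baseRing A K₁))
    (hζ : (letI := baseToComplex K₁; algebraMap ↥K₁ ℂ (algebraMap ↥(baseRing A K₁) ↥K₁ ζR)) =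
      cexp (2 * π * I / r))
    (hζr : (algebraMap ↥(baseRing A K₁) ↥K₁ ζR) ^ r = 1)
    (ψR : MulChar (ZMod r) ↥(baseRing A K₁))
    (hψ : Function.Injective fun d : (ZMod r)ˣ => ψR (d : ZMod r))
    {n : ℕ} (hn : 0 < n) (hψn : ∀ s : (ZMod r)ˣ, ψR (s : ZMod r) ^ n = 1)
    (f : ↥(legEL ↥K₁ M' r))
    (hf : (f : LaurentSeries ↥K₁) = qExpand ↥K₁ 2
      (uSer ↥K₁ M' r x y (ψR.ringHomComp (algebraMap ↥(baseRing A K₁) ↥K₁)) ^ n)) :
    letI := baseToComplex K₁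
    (legWinfL ↥(baseRing A K₁) ↥K₁ h2 M' r).valuation f = 1 ∧
      (legW0L ↥(baseRing A K₁) ↥K₁ hbez hr).valuation (f *
        (algebraMap ↥K₁ ↥(legEL ↥K₁ M' r)
          ((gaussSum (ψR.ringHomComp (algebraMap ↥(baseRing A K₁) ↥K₁))
            (AddChar.zmodChar r hζr) * ((r : ↥K₁)⁻¹) ^ 4) ^ n))⁻¹) = 1 := by
  letI := baseToComplex K₁
  haveI := isScalarTower_baseToComplex K₁
  haveI : Fact r.Prime := ⟨hr⟩
  haveI : Fact (1 < r) := ⟨hr.one_lt⟩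
  have hM1 : M' ≠ 1 := by omega
  have hcop : Nat.Coprime M' r := ((Nat.Prime.coprime_iff_not_dvd hr).mpr hrM).symm
  haveI : FiniteDimensional ↥(↥K₁)⟮jqNModC ↥K₁ 2⟯ ↥(legEL ↥K₁ M' r) :=
    finite_legEL_adjoin_j_base K₁ hr hrM hM1
  have hmodel := legLModelAtBases M' r hM1 hr hr2 hrM A hA K₁ hK₁ ϖ hϖ h2 x y hbez
  set ψ := ψR.ringHomComp (algebraMap ↥(baseRing A K₁) ↥K₁) with hψdef
  set ζ : ↥K₁ := algebraMap ↥(baseRing A K₁) ↥K₁ ζR with hζdef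
  -- `ζ` is a primitive root
  have hζprim : IsPrimitiveRoot ζ r := by
    have h1 : IsPrimitiveRoot (algebraMap ↥K₁ ℂ ζ) r := by
      rw [hζ]
      exact Complex.isPrimitiveRoot_exp r hr.ne_zero
    exact IsPrimitiveRoot.of_map_of_injective h1 (algebraMap ↥K₁ ℂ).injective
  have hψR1 : ψR ≠ 1 := by
    intro h1
    obtain ⟨d, hd⟩ : ∃ d : (ZMod r)ˣ, d ≠ 1 := by
      haveI : Nontrivial (ZMod r)ˣ := by
        rw [← Fintype.one_lt_card_iff_nontrivial, ZMod.card_units_eq_totient,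
          Nat.totient_prime hr]
        have := hr.two_le
        have := hr2
        omega
      exact exists_ne 1
    apply hd
    apply hψ
    show ψR (d : ZMod r) = ψR ((1 : (ZMod r)ˣ) : ZMod r)
    rw [h1, MulChar.one_apply_coe, MulChar.one_apply_coe]
  have hc := gaussConst_not_unit hA hr2 hζprim ψR hψ
  have hψn' : ∀ s : (ZMod r)ˣ, ψ (s : ZMod r) ^ n = 1 := by
    intro s
    rw [hψdef, MulChar.ringHomComp_apply, ← map_pow, hψn s, map_one]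
  have hun : uSer ↥K₁ M' r x y ψ ^ n ∈ F1low ↥K₁ M' r :=
    uSer_pow_mem_F1low hbez (by omega) hcop ψ n hψn'
  have hjE : jqNModC ↥K₁ 2 ∈ legEL ↥K₁ M' r := (legJL ↥K₁ M' r).2
  have only : ∀ W : ValuationSubring ↥(legEL ↥K₁ M' r),
      IsGaussAt ↥(baseRing A K₁) ϖ (⟨jqNModC ↥K₁ 2, hjE⟩ : ↥(legEL ↥K₁ M' r)) W →
      W = gaussValSub ↥(baseRing A K₁) ↥K₁ (legEL ↥K₁ M' r)
        (legEL_le_gaussField ↥(baseRing A K₁) ↥K₁ h2 M' r) ∨
      W = legW0L ↥(baseRing A K₁) ↥K₁ hbez hr := by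
    intro W hW
    refine hmodel.two.only W ?_
    rw [isGaussAt_comap_ringHom_iff (algebraMap ↥(↥K₁)⟮jqNModC ↥K₁ 2⟯ ↥(legEL ↥K₁ M' r))
      (fun a => (IsScalarTower.algebraMap_apply ↥(baseRing A K₁) ↥(↥K₁)⟮jqNModC ↥K₁ 2⟯
        ↥(legEL ↥K₁ M' r) a).symm)]
    have e : algebraMap ↥(↥K₁)⟮jqNModC ↥K₁ 2⟯ ↥(legEL ↥K₁ M' r)
        (AdjoinSimple.gen ↥K₁ (jqNModC ↥K₁ 2)) = ⟨jqNModC ↥K₁ 2, hjE⟩ := by
      apply Subtype.ext
      rw [Host.coe_algebraMap, AdjoinSimple.coe_gen]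
    rw [e]
    exact hW
  obtain ⟨h1, h2'⟩ := resolvent_sheet_units_host (R := ↥(baseRing A K₁)) (k := ↥K₁)
    (algebraMap ↥K₁ ℂ) hbez hr hζ hϖ ζR rfl hζr hM' ψR hψR1 hc hn (F1low ↥K₁ M' r)
    (F1low_le_F1good ↥K₁ M' r) (jqModC_mem_F1low ↥K₁ M' r) hun 2 (legEL ↥K₁ M' r)
    (hostImage_F1low_le_legEL ↥K₁ M' r) (legEL_le_gaussField ↥(baseRing A K₁) ↥K₁ h2 M' r) hjE only
  have hfθ : f = hostTheta 2 (F1low ↥K₁ M' r) (legEL ↥K₁ M' r)
      (hostImage_F1low_le_legEL ↥K₁ M' r) ⟨_, hun⟩ := by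
    apply Subtype.ext
    rw [hf, coe_hostTheta]
  rw [hfθ]
  exact ⟨h1, h2'⟩

end Big

section BigD

open Complex Real

/-- a unit of the base ring is a unit of every valuation subring of a host containing the
constants of `R`. -/
theorem valuation_algebraMap_unit_eq_one {R E : Type*} [CommRing R] [Field E] [Algebra R E]
    (W : ValuationSubring E) (hW : ∀ a : R, algebraMap R E a ∈ W) (ε : Rˣ) :
    W.valuation (algebraMap R E (ε : R)) = 1 := by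
  have h1 : W.valuation (algebraMap R E (ε : R)) ≤ 1 :=
    (ValuationSubring.valuation_le_one_iff _ _).mpr (hW _)
  have h2 : W.valuation (algebraMap R E ((ε⁻¹ : Rˣ) : R)) ≤ 1 :=
    (ValuationSubring.valuation_le_one_iff _ _).mpr (hW _)
  have h3 : W.valuation (algebraMap R E (ε : R)) * W.valuation (algebraMap R E ((ε⁻¹ : Rˣ) : R))
      = 1 := by
    rw [← map_mul, ← map_mul, Units.mul_inv, map_one, map_one]
  refine le_antisymm h1 ?_
  by_contra hlt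
  rw [not_le] at hlt
  have : W.valuation (algebraMap R E (ε : R)) * W.valuation (algebraMap R E ((ε⁻¹ : Rˣ) : R))
      < 1 := by
    calc _ ≤ W.valuation (algebraMap R E (ε : R)) * 1 := by gcongr
      _ < 1 := by rwa [mul_one]
  exact absurd h3 (ne_of_lt this)

set_option maxHeartbeats 1600000 in
/-- **(C-V), big base, in the form consumed by helper5's `kummer_cover_model`** (`hfinf` with
`jinf = 0`, `hf0`). -/
theorem val_resolvent_legL_big (M' r : ℕ) [NeZero M'] [NeZero r] [NeZero (M' * r)] (hM' : 3 ≤ M')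
    (hr : r.Prime) (hr2 : r ≠ 2) (hrM : ¬ r ∣ M')
    (A : ValuationSubring Ω) (hA : A.LiesOverPrime r)
    (K₁ : IntermediateField ℚ Ω) (hK₁ : IsBase r K₁)
    [IsDiscreteValuationRing ↥(baseRing A K₁)] [CharZero ↥(baseRing A K₁)]
    [DecidableEq ↥(baseRing A K₁)] (ϖ : ↥(baseRing A K₁)) (hϖ : Irreducible ϖ)
    (h2 : IsUnit (2 : ↥(baseRing A K₁))) (x y : ℤ) (hbez : (r : ℤ) * x + M' * y = 1)
    (ζR : ↥(baseRing A K₁))
    (hζ : (letI := baseToComplex K₁; algebraMap ↥K₁ ℂ (algebraMap ↥(baseRing A K₁) ↥K₁ ζR)) =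
      cexp (2 * π * I / r))
    (ψR : MulChar (ZMod r) ↥(baseRing A K₁))
    (hψ : Function.Injective fun d : (ZMod r)ˣ => ψR (d : ZMod r))
    {n : ℕ} (hn : 0 < n) (hψn : ∀ s : (ZMod r)ˣ, ψR (s : ZMod r) ^ n = 1)
    (f : ↥(legEL ↥K₁ M' r))
    (hf : (f : LaurentSeries ↥K₁) = qExpand ↥K₁ 2
      (uSer ↥K₁ M' r x y (ψR.ringHomComp (algebraMap ↥(baseRing A K₁) ↥K₁)) ^ n)) :
    letI := baseToComplex K₁
    ∃ j0 : ℤ,
      (legWinfL ↥(baseRing A K₁) ↥K₁ h2 M' r).valuation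
        (f * (algebraMap ↥(baseRing A K₁) ↥(legEL ↥K₁ M' r) ϖ ^ ((n : ℤ) * 0))⁻¹) = 1 ∧
      (legW0L ↥(baseRing A K₁) ↥K₁ hbez hr).valuation
        (f * (algebraMap ↥(baseRing A K₁) ↥(legEL ↥K₁ M' r) ϖ ^ ((n : ℤ) * j0))⁻¹) = 1 := by
  letI := baseToComplex K₁
  haveI := isScalarTower_baseToComplex K₁
  have hM1 : M' ≠ 1 := by omega
  haveI : FiniteDimensional ↥(↥K₁)⟮jqNModC ↥K₁ 2⟯ ↥(legEL ↥K₁ M' r) :=
    finite_legEL_adjoin_j_base K₁ hr hrM hM1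
  have hmodel := legLModelAtBases M' r hM1 hr hr2 hrM A hA K₁ hK₁ ϖ hϖ h2 x y hbez
  have hζr : (algebraMap ↥(baseRing A K₁) ↥K₁ ζR) ^ r = 1 :=
    pow_eq_one_of_map_eq_exp (algebraMap ↥K₁ ℂ) hζ
  obtain ⟨h1, h2'⟩ := val_resolvent_legL M' r hM' hr hr2 hrM A hA K₁ hK₁ ϖ hϖ h2 x y hbez ζR hζ hζr
    ψR hψ hn hψn f hf
  set c : ↥K₁ := gaussSum (ψR.ringHomComp (algebraMap ↥(baseRing A K₁) ↥K₁))
    (AddChar.zmodChar r hζr) * ((r : ↥K₁)⁻¹) ^ 4 with hcdef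
  have hc0 : c ≠ 0 := by
    intro h0
    rw [h0, zero_pow hn.ne', map_zero, inv_zero, mul_zero, map_zero] at h2'
    exact zero_ne_one h2'
  obtain ⟨j, ε, hcε⟩ := Fermat.Agent.NP.exists_zpow_mul_unit_base ↥K₁ hϖ hc0
  refine ⟨j, ?_, ?_⟩
  · rw [mul_zero, zpow_zero, inv_one, mul_one]
    exact h1
  · -- constants of `R` lie in `W₀`
    have hW0R : ∀ a : ↥(baseRing A K₁),
        algebraMap ↥(baseRing A K₁) ↥(legEL ↥K₁ M' r) a ∈ legW0L ↥(baseRing A K₁) ↥K₁ hbez hr := by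
      intro a
      have := hmodel.two.gauss_zero.1 (Polynomial.C a)
      rw [Polynomial.aeval_C] at this
      have h3 : algebraMap ↥(↥K₁)⟮jqNModC ↥K₁ 2⟯ ↥(legEL ↥K₁ M' r)
          (algebraMap ↥(baseRing A K₁) ↥(↥K₁)⟮jqNModC ↥K₁ 2⟯ a) ∈
          legW0L ↥(baseRing A K₁) ↥K₁ hbez hr := this
      rwa [← IsScalarTower.algebraMap_apply] at h3
    have hε1 := valuation_algebraMap_unit_eq_one (legW0L ↥(baseRing A K₁) ↥K₁ hbez hr) hW0R (ε ^ n)
    have hϖE : algebraMap ↥(baseRing A K₁) ↥(legEL ↥K₁ M' r) ϖ ≠ 0 := by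
      rw [IsScalarTower.algebraMap_apply ↥(baseRing A K₁) ↥K₁ ↥(legEL ↥K₁ M' r), Ne, map_eq_zero,
        map_eq_zero_iff _ (IsFractionRing.injective ↥(baseRing A K₁) ↥K₁)]
      exact hϖ.ne_zero
    have hcn : algebraMap ↥K₁ ↥(legEL ↥K₁ M' r) (c ^ n) =
        algebraMap ↥(baseRing A K₁) ↥(legEL ↥K₁ M' r) ϖ ^ ((n : ℤ) * j) *
          algebraMap ↥(baseRing A K₁) ↥(legEL ↥K₁ M' r) ((ε ^ n : (↥(baseRing A K₁))ˣ) :
            ↥(baseRing A K₁)) := by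
      rw [hcε, mul_pow, map_mul, map_pow, map_zpow₀, map_pow, Units.val_pow_eq_pow_val, map_pow,
        ← IsScalarTower.algebraMap_apply ↥(baseRing A K₁) ↥K₁ ↥(legEL ↥K₁ M' r),
        ← IsScalarTower.algebraMap_apply ↥(baseRing A K₁) ↥K₁ ↥(legEL ↥K₁ M' r), ← zpow_natCast,
        ← zpow_mul, mul_comm j (n : ℤ)]
    have hεE : algebraMap ↥(baseRing A K₁) ↥(legEL ↥K₁ M' r) ((ε ^ n : (↥(baseRing A K₁))ˣ) :
        ↥(baseRing A K₁)) ≠ 0 := by
      intro h0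
      rw [h0, map_zero] at hε1
      exact zero_ne_one hε1
    have e : f * (algebraMap ↥(baseRing A K₁) ↥(legEL ↥K₁ M' r) ϖ ^ ((n : ℤ) * j))⁻¹ =
        f * (algebraMap ↥K₁ ↥(legEL ↥K₁ M' r) (c ^ n))⁻¹ *
          algebraMap ↥(baseRing A K₁) ↥(legEL ↥K₁ M' r) ((ε ^ n : (↥(baseRing A K₁))ˣ) :
            ↥(baseRing A K₁)) := by
      rw [hcn, mul_inv, mul_assoc, mul_assoc, inv_mul_cancel₀ hεE, mul_one]
    rw [e, map_mul, h2', hε1, one_mul]

end BigD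

end

end Fermat.Agent.RB
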