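/-
RB [BB3] = (KEY-H), package C [VAL] — helper8 — **host glue, small base: the orders of the Kummer
generator `f = u ^ (r - 1)` along the two sheets of helper7's Legendre host
`EN₁(K') = legEL K' M' r`**, for a base `K'` whose ramification index `e` over `r` is prime to
`r - 1` (e.g. `K' = flatBase r`, `e = 1`).

* `exists_root_map_eq_exp` : a primitive `r`-th root of unity `ζ ∈ Ω` with image `exp(2πi/r)` in `ℂ`;
* `val_resolvent_legL_small` : `W_∞(f) = 1`, `W_0(f / ϖ' ^ a0) = 1` with `(a0, r - 1) = 1`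
  (the inputs `hinf`, `h0`, `hcop` of helper5's `hshape_of_isNodeFact`, `ainf = 0`, `m = r - 1`);
* `val_resolvent_legL_flat` : the case `K' = flatBase r`, `ϖ' = r`.
-/
import Mathlib
import Fermat.Agent.RB.VAL_helper8_LegL
import Fermat.Agent.RB.KEYH_helper8_BCL

set_option autoImplicit false
set_option linter.unusedSectionVars false
set_option linter.unusedVariables false
set_option linter.style.haveILetI false
set_option synthInstance.maxHeartbeats 400000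

open HahnSeries IntermediateField AlgebraicCurve ModularCurve Polynomial

namespace Fermat.Agent.RB

open Fermat.Agent.JA Fermat.Agent.Igusa Fermat.Agent.SS Fermat.Agent.FF Fermat.Agent.W1
  Fermat.Agent.MP Fermat.Agent.TW.Kill

open scoped Fermat.Agent.JA.Host

/-- `Ω = AlgebraicClosure ℚ`. -/
local notation "Ω" => AlgebraicClosure ℚ

noncomputable section

section Root

open Complex Real

/-- a primitive `r`-th root of unity of `Ω` with image `exp(2πi/r)` in `ℂ`. -/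
theorem exists_root_map_eq_exp (r : ℕ) [NeZero r] :
    ∃ ζ : Ω, (IsAlgClosed.lift : Ω →ₐ[ℚ] ℂ) ζ = cexp (2 * π * I / r) ∧ IsPrimitiveRoot ζ r := by
  haveI : NeZero ((r : ℕ) : Ω) := ⟨by exact_mod_cast NeZero.ne r⟩
  obtain ⟨ζ₀, hζ₀⟩ := HasEnoughRootsOfUnity.exists_primitiveRoot Ω r
  have hinj : Function.Injective (IsAlgClosed.lift : Ω →ₐ[ℚ] ℂ) :=
    (IsAlgClosed.lift : Ω →ₐ[ℚ] ℂ).toRingHom.injective
  have h1 : IsPrimitiveRoot ((IsAlgClosed.lift : Ω →ₐ[ℚ] ℂ) ζ₀) r := hζ₀.map_of_injective hinj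
  have hexp : IsPrimitiveRoot (cexp (2 * π * I / r)) r :=
    Complex.isPrimitiveRoot_exp r (NeZero.ne r)
  obtain ⟨k, -, hk⟩ := h1.eq_pow_of_pow_eq_one hexp.pow_eq_one
  refine ⟨ζ₀ ^ k, by rw [map_pow, hk], ?_⟩
  refine IsPrimitiveRoot.of_map_of_injective (f := (IsAlgClosed.lift : Ω →ₐ[ℚ] ℂ)) ?_ hinj
  rw [map_pow, hk]
  exact hexp

end Root

section Comap

/-- valuations of units along a pull-back of valuation subrings. -/
theorem valuation_eq_one_of_comap_eq {K L : Type*} [Field K] [Field L] {V : ValuationSubring L}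
    {W : ValuationSubring K} (φ : K →+* L) (h : V.comap φ = W) {x : K}
    (hx : V.valuation (φ x) = 1) : W.valuation x = 1 := by
  subst h
  have h1 : (V.comap φ).valuation x ≤ 1 := by
    rw [ValuationSubring.valuation_le_one_iff, ValuationSubring.mem_comap,
      ← ValuationSubring.valuation_le_one_iff]
    exact hx.le
  refine le_antisymm h1 (not_lt.mp fun hlt => ?_)
  rw [valuation_comap_lt_one_iff, hx] at hlt
  exact lt_irrefl _ hlt

end Comap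

section Small

open Complex Real

set_option maxHeartbeats 1600000 in
/-- **(C-V), small base**: the orders of `f = (u ^ (r - 1))(x²)` along the two sheets of
`EN₁(K') = legEL K' M' r`, for a base `K'` with `r = ε ϖ' ^ e`, `(e, r - 1) = 1`: `W_∞(f) = 1`,
`W_0(f / ϖ' ^ a0) = 1`, `(a0, r - 1) = 1`. -/
theorem val_resolvent_legL_small (M' r : ℕ) [NeZero M'] [NeZero r] [NeZero (M' * r)] (hM' : 3 ≤ M')
    (hr : r.Prime) (hr2 : r ≠ 2) (hrM : ¬ r ∣ M')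
    (A : ValuationSubring Ω) (hA : A.LiesOverPrime r)
    (K' : IntermediateField ℚ Ω) (hK' : IsBase r K')
    [IsDiscreteValuationRing ↥(baseRing A K')] [CharZero ↥(baseRing A K')]
    (ϖ' : ↥(baseRing A K')) (hϖ' : Irreducible ϖ')
    (h2' : IsUnit (2 : ↥(baseRing A K'))) (x y : ℤ) (hbez : (r : ℤ) * x + M' * y = 1)
    (e : ℕ) (ε : (↥(baseRing A K'))ˣ) (hre : (r : ↥(baseRing A K')) = ε * ϖ' ^ e)
    (hecop : Nat.Coprime e (r - 1))
    (ψR : MulChar (ZMod r) ↥(baseRing A K'))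
    (hψ : Function.Injective fun d : (ZMod r)ˣ => ψR (d : ZMod r))
    (f : ↥(legEL ↥K' M' r))
    (hf : (f : LaurentSeries ↥K') = qExpand ↥K' 2
      (uSer ↥K' M' r x y (ψR.ringHomComp (algebraMap ↥(baseRing A K') ↥K')) ^ (r - 1))) :
    letI := baseToComplex K'
    ∃ a0 : ℤ, IsCoprime (a0 - 0) ((r - 1 : ℕ) : ℤ) ∧
      (legWinfL ↥(baseRing A K') ↥K' h2' M' r).valuation
        (f * (algebraMap ↥(baseRing A K') ↥(legEL ↥K' M' r) ϖ' ^ (0 : ℤ))⁻¹) = 1 ∧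
      (legW0L ↥(baseRing A K') ↥K' hbez hr).valuation
        (f * (algebraMap ↥(baseRing A K') ↥(legEL ↥K' M' r) ϖ' ^ a0)⁻¹) = 1 := by
  classical
  letI := baseToComplex K'
  haveI : Fact r.Prime := ⟨hr⟩
  have hM1 : M' ≠ 1 := by omega
  obtain ⟨ζ, hζexp, hζprim⟩ := exists_root_map_eq_exp r
  haveI : FiniteDimensional ℚ ↥ℚ⟮ζ⟯ :=
    IntermediateField.adjoin.finiteDimensional (Algebra.IsIntegral.isIntegral ζ)
  obtain ⟨K₁, hK₁def⟩ : ∃ K₁ : IntermediateField ℚ Ω, K₁ = K' ⊔ ℚ⟮ζ⟯ := ⟨_, rfl⟩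
  have hle : K' ≤ K₁ := hK₁def ▸ le_sup_left
  have hK₁ : IsBase r K₁ := hK₁def ▸ hK'.sup_of_finiteDimensional ℚ⟮ζ⟯
  haveI : IsDiscreteValuationRing ↥(baseRing A K₁) := hK₁.isDiscreteValuationRing hA
  haveI : CharZero ↥(baseRing A K₁) := charZero_valuationSubring_of_algebraRat _
  letI := baseToComplex K₁
  obtain ⟨ϖ₁, hϖ₁⟩ := IsDiscreteValuationRing.exists_irreducible ↥(baseRing A K₁)
  have h2 : IsUnit (2 : ↥(baseRing A K₁)) := isUnit_ofNat_baseRing hA K₁ Nat.prime_two hr2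
  have hζK₁ : ζ ∈ K₁ := hK₁def ▸ (le_sup_right : ℚ⟮ζ⟯ ≤ K' ⊔ ℚ⟮ζ⟯) (mem_adjoin_simple_self ℚ ζ)
  have hζA : A.valuation ζ ≤ 1 := (ValuationSubring.valuation_le_one_iff _ _).mpr
    (mem_valSubring_of_pow_eq_one_rb A hr.ne_zero hζprim.pow_eq_one)
  obtain ⟨ζR, hζRdef⟩ : ∃ ζR : ↥(baseRing A K₁), ζR = ⟨⟨ζ, hζK₁⟩, mem_baseRing_iff.mpr hζA⟩ :=
    ⟨_, rfl⟩
  have hζ : algebraMap ↥K₁ ℂ (algebraMap ↥(baseRing A K₁) ↥K₁ ζR) = cexp (2 * π * I / r) := by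
    rw [hζRdef]
    exact hζexp
  have hζr : (algebraMap ↥(baseRing A K₁) ↥K₁ ζR) ^ r = 1 := by
    rw [hζRdef]
    apply Subtype.ext
    show ζ ^ r = 1
    exact hζprim.pow_eq_one
  obtain ⟨ψR₁, hψR₁def⟩ : ∃ ψR₁ : MulChar (ZMod r) ↥(baseRing A K₁),
      ψR₁ = ψR.ringHomComp (baseRingIncl hle A) := ⟨_, rfl⟩
  have hψ₁ : Function.Injective fun d : (ZMod r)ˣ => ψR₁ (d : ZMod r) := by
    intro d d' h
    apply hψ
    apply baseRingIncl_injective hle A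
    have h' : ψR₁ (d : ZMod r) = ψR₁ (d' : ZMod r) := h
    rw [hψR₁def, MulChar.ringHomComp_apply, MulChar.ringHomComp_apply] at h'
    exact h'
  have hψn : ∀ s : (ZMod r)ˣ, ψR₁ (s : ZMod r) ^ (r - 1) = 1 := by
    intro s
    rw [← map_pow, ← Units.val_pow_eq_pow_val, ZMod.units_pow_card_sub_one_eq_one, Units.val_one,
      map_one]
  have hn : 0 < r - 1 := by have := hr.two_le; omega
  obtain ⟨f₁, hf₁def⟩ : ∃ f₁ : ↥(legEL ↥K₁ M' r), f₁ = legELIncl hle M' r f := ⟨_, rfl⟩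
  have hψeq : ψR₁.ringHomComp (algebraMap ↥(baseRing A K₁) ↥K₁) =
      (ψR.ringHomComp (algebraMap ↥(baseRing A K') ↥K')).ringHomComp (baseIncl hle) := by
    rw [hψR₁def]
    ext a
    rfl
  have hf₁ : (f₁ : LaurentSeries ↥K₁) = qExpand ↥K₁ 2
      (uSer ↥K₁ M' r x y (ψR₁.ringHomComp (algebraMap ↥(baseRing A K₁) ↥K₁)) ^ (r - 1)) := by
    rw [hf₁def, coe_legELIncl, hf, coeffMap_qExpand, map_pow, coeffMap_uSer, hψeq]
  obtain ⟨h1, h0⟩ := val_resolvent_legL M' r hM' hr hr2 hrM A hA K₁ hK₁ ϖ₁ hϖ₁ h2 x y hbez ζR hζ hζr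
    ψR₁ hψ₁ hn hψn f₁ hf₁
  -- the Gauss sum
  obtain ⟨ψ₁, hψ₁def⟩ : ∃ ψ₁ : MulChar (ZMod r) ↥K₁,
      ψ₁ = ψR₁.ringHomComp (algebraMap ↥(baseRing A K₁) ↥K₁) := ⟨_, rfl⟩
  obtain ⟨χ, hχdef⟩ : ∃ χ : MulChar (ZMod r) Ω, χ = ψ₁.ringHomComp (algebraMap ↥K₁ Ω) := ⟨_, rfl⟩
  have hχinj : Function.Injective fun d : (ZMod r)ˣ => χ (d : ZMod r) := by
    intro d d' h
    apply hψ₁
    have h' : χ (d : ZMod r) = χ (d' : ZMod r) := h
    rw [hχdef, hψ₁def, MulChar.ringHomComp_apply, MulChar.ringHomComp_apply,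
      MulChar.ringHomComp_apply, MulChar.ringHomComp_apply] at h'
    have h1 : (algebraMap ↥(baseRing A K₁) ↥K₁) (ψR₁ (d : ZMod r)) =
        (algebraMap ↥(baseRing A K₁) ↥K₁) (ψR₁ (d' : ZMod r)) :=
      (algebraMap ↥K₁ Ω).injective h'
    exact Subtype.ext h1
  have hζΩr : ((algebraMap ↥(baseRing A K₁) ↥K₁ ζR : ↥K₁) : Ω) ^ r = 1 := by
    rw [hζRdef]
    exact hζprim.pow_eq_one
  have hζΩprim : IsPrimitiveRoot ((algebraMap ↥(baseRing A K₁) ↥K₁ ζR : ↥K₁) : Ω) r := by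
    rw [hζRdef]
    exact hζprim
  obtain ⟨j₀, ε', -, hε', hrel, hcop⟩ := gaussSum_pow_eq_flatBase hA hζΩprim χ hχinj hr2
  have hG := coe_gaussSum_zmodChar ψ₁ hζr hζΩr
  rw [← hχdef] at hG
  rw [← hψ₁def] at h0
  obtain ⟨c, hcdef⟩ : ∃ c : ↥K₁, c = gaussSum ψ₁ (AddChar.zmodChar r hζr) * ((r : ↥K₁)⁻¹) ^ 4 :=
    ⟨_, rfl⟩
  rw [← hcdef] at h0
  have hrΩ : A.valuation (r : Ω) < 1 := valuation_prime_lt_one hA
  have hrΩ0 : A.valuation (r : Ω) ≠ 0 := valuation_prime_ne_zero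
  -- the valuation of `c ^ (r - 1)`
  have hvc : A.valuation ((c ^ (r - 1) : ↥K₁) : Ω) =
      A.valuation (r : Ω) ^ ((j₀ : ℤ) - 4 * ((r - 1 : ℕ) : ℤ)) := by
    have h3 : ((c ^ (r - 1) : ↥K₁) : Ω) =
        gaussSum χ (AddChar.zmodChar r hζΩr) ^ (r - 1) * (((r : Ω))⁻¹) ^ (4 * (r - 1)) := by
      rw [hcdef, mul_pow, ← pow_mul, ← hG]
      push_cast
      rfl
    rw [h3, hrel, map_mul, map_mul, hε', one_mul, map_pow, map_pow, map_inv₀,
      zpow_sub₀ hrΩ0, zpow_natCast, inv_pow, div_eq_mul_inv]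
    congr 2
  -- the valuation of `r` in terms of `ϖ'`
  have hvr : A.valuation (r : Ω) = A.valuation (((ϖ' : ↥(baseRing A K')) : ↥K') : Ω) ^ e := by
    have h3 : (r : Ω) = ((((ε : ↥(baseRing A K')) : ↥(baseRing A K')) : ↥K') : Ω) *
        (((ϖ' : ↥(baseRing A K')) : ↥K') : Ω) ^ e := by
      have h4 := congrArg (fun z : ↥(baseRing A K') => ((z : ↥K') : Ω)) hre
      push_cast at h4
      exact h4
    rw [h3, map_mul, (isUnit_baseRing_iff _).mp ε.isUnit, one_mul, map_pow]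
  obtain ⟨j, hjdef⟩ : ∃ j : ℤ, j = (j₀ : ℤ) - 4 * ((r - 1 : ℕ) : ℤ) := ⟨_, rfl⟩
  rw [← hjdef] at hvc
  have hϖ'0 : (((ϖ' : ↥(baseRing A K')) : ↥K') : Ω) ≠ 0 := by
    intro h
    apply hϖ'.ne_zero
    apply Subtype.ext
    apply Subtype.ext
    exact h
  refine ⟨(e : ℤ) * j, ?_, ?_, ?_⟩
  · rw [sub_zero]
    refine IsCoprime.mul_left (Nat.isCoprime_iff_coprime.mpr hecop) ?_
    rw [hjdef]
    have h3 : IsCoprime (j₀ : ℤ) ((r - 1 : ℕ) : ℤ) := Nat.isCoprime_iff_coprime.mpr hcop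
    have h4 : (j₀ : ℤ) - 4 * ((r - 1 : ℕ) : ℤ) = (j₀ : ℤ) + ((r - 1 : ℕ) : ℤ) * (-4) := by ring
    rw [h4]
    exact h3.add_mul_left_left (-4)
  · rw [zpow_zero, inv_one, mul_one]
    refine valuation_eq_one_of_comap_eq (legELIncl hle M' r)
      (comap_legWinfL hle A h2' h2 M' r) ?_
    rw [← hf₁def]
    exact h1
  · refine valuation_eq_one_of_comap_eq (legELIncl hle M' r)
      (comap_legW0L hle A hM1 hr hr2 hrM hA hK' hK₁ hbez) ?_
    haveI : FiniteDimensional ↥(↥K₁)⟮jqNModC ↥K₁ 2⟯ ↥(legEL ↥K₁ M' r) :=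
      finite_legEL_adjoin_j_base K₁ hr hrM hM1
    have hmodel := legLModelAtBases M' r hM1 hr hr2 hrM A hA K₁ hK₁ ϖ₁ hϖ₁ h2 x y hbez
    have hW0R : ∀ a : ↥(baseRing A K₁),
        algebraMap ↥(baseRing A K₁) ↥(legEL ↥K₁ M' r) a ∈ legW0L ↥(baseRing A K₁) ↥K₁ hbez hr := by
      intro a
      have := hmodel.two.gauss_zero.1 (Polynomial.C a)
      rw [Polynomial.aeval_C] at this
      have h3 : algebraMap ↥(↥K₁)⟮jqNModC ↥K₁ 2⟯ ↥(legEL ↥K₁ M' r)
          (algebraMap ↥(baseRing A K₁) ↥(↥K₁)⟮jqNModC ↥K₁ 2⟯ a) ∈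
          legW0L ↥(baseRing A K₁) ↥K₁ hbez hr := this
      rwa [← IsScalarTower.algebraMap_apply] at h3
    obtain ⟨b, hbdef⟩ : ∃ b : ↥K₁, b = baseIncl hle (algebraMap ↥(baseRing A K') ↥K' ϖ') := ⟨_, rfl⟩
    have hbΩ : (b : Ω) = (((ϖ' : ↥(baseRing A K')) : ↥K') : Ω) := by rw [hbdef]; rfl
    have hb0 : b ≠ 0 := by
      intro h
      apply hϖ'0
      rw [← hbΩ, h]
      rfl
    have hc0 : c ≠ 0 := by
      intro hc
      rw [hc, zero_pow hn.ne', map_zero, inv_zero, mul_zero, map_zero] at h0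
      exact zero_ne_one h0
    obtain ⟨η₀, hη₀def⟩ : ∃ η₀ : ↥K₁, η₀ = c ^ (r - 1) * (b ^ ((e : ℤ) * j))⁻¹ := ⟨_, rfl⟩
    have hvη : A.valuation ((η₀ : ↥K₁) : Ω) = 1 := by
      have h3 : ((η₀ : ↥K₁) : Ω) = ((c ^ (r - 1) : ↥K₁) : Ω) * ((b : Ω) ^ ((e : ℤ) * j))⁻¹ := by
        rw [hη₀def]
        show algebraMap ↥K₁ Ω (c ^ (r - 1) * (b ^ ((e : ℤ) * j))⁻¹) =
          algebraMap ↥K₁ Ω (c ^ (r - 1)) * ((algebraMap ↥K₁ Ω b) ^ ((e : ℤ) * j))⁻¹
        rw [map_mul, map_inv₀, map_zpow₀]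
      rw [h3, map_mul, hvc, map_inv₀, map_zpow₀, hbΩ, zpow_mul, zpow_natCast, ← hvr,
        mul_inv_cancel₀ (zpow_ne_zero _ hrΩ0)]
    obtain ⟨η, hηdef⟩ : ∃ η : ↥(baseRing A K₁), η = ⟨η₀, mem_baseRing_iff.mpr hvη.le⟩ := ⟨_, rfl⟩
    have hηu : IsUnit η := by
      rw [isUnit_baseRing_iff, hηdef]
      exact hvη
    have hη1 := valuation_algebraMap_unit_eq_one (legW0L ↥(baseRing A K₁) ↥K₁ hbez hr) hW0R
      hηu.unit
    rw [IsUnit.unit_spec] at hη1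
    have hηE : algebraMap ↥(baseRing A K₁) ↥(legEL ↥K₁ M' r) η =
        algebraMap ↥K₁ ↥(legEL ↥K₁ M' r) (c ^ (r - 1)) *
          (algebraMap ↥K₁ ↥(legEL ↥K₁ M' r) b ^ ((e : ℤ) * j))⁻¹ := by
      rw [IsScalarTower.algebraMap_apply ↥(baseRing A K₁) ↥K₁ ↥(legEL ↥K₁ M' r)]
      have h3 : algebraMap ↥(baseRing A K₁) ↥K₁ η = η₀ := by rw [hηdef]; rfl
      rw [h3, hη₀def, map_mul, map_inv₀, map_zpow₀]
    have hcE : algebraMap ↥K₁ ↥(legEL ↥K₁ M' r) (c ^ (r - 1)) ≠ 0 :=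
      (_root_.map_ne_zero _).mpr (pow_ne_zero _ hc0)
    have e1 : legELIncl hle M' r
        (f * (algebraMap ↥(baseRing A K') ↥(legEL ↥K' M' r) ϖ' ^ ((e : ℤ) * j))⁻¹) =
        f₁ * (algebraMap ↥K₁ ↥(legEL ↥K₁ M' r) (c ^ (r - 1)))⁻¹ *
          algebraMap ↥(baseRing A K₁) ↥(legEL ↥K₁ M' r) η := by
      rw [hηE, map_mul, map_inv₀, map_zpow₀,
        IsScalarTower.algebraMap_apply ↥(baseRing A K') ↥K' ↥(legEL ↥K' M' r),
        legELIncl_algebraMap, ← hbdef, ← hf₁def, mul_assoc, ← mul_assoc _ _ (_)⁻¹,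
        inv_mul_cancel₀ hcE, one_mul]
    rw [e1, map_mul, h0, one_mul]
    exact hη1

end Small

section Flat

open Complex Real

/-- **(C-V), `K' = flatBase r`, `ϖ' = r`** (the small base of [NODEQ]). -/
theorem val_resolvent_legL_flat (M' r : ℕ) [NeZero M'] [NeZero r] [NeZero (M' * r)] (hM' : 3 ≤ M')
    (hr : r.Prime) (hr2 : r ≠ 2) (hrM : ¬ r ∣ M')
    (A : ValuationSubring Ω) (hA : A.LiesOverPrime r)
    [IsDiscreteValuationRing ↥(baseRing A (flatBase r))] [CharZero ↥(baseRing A (flatBase r))]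
    (h2' : IsUnit (2 : ↥(baseRing A (flatBase r)))) (x y : ℤ) (hbez : (r : ℤ) * x + M' * y = 1)
    (ψR : MulChar (ZMod r) ↥(baseRing A (flatBase r)))
    (hψ : Function.Injective fun d : (ZMod r)ˣ => ψR (d : ZMod r))
    (f : ↥(legEL ↥(flatBase r) M' r))
    (hf : (f : LaurentSeries ↥(flatBase r)) = qExpand ↥(flatBase r) 2
      (uSer ↥(flatBase r) M' r x y
        (ψR.ringHomComp (algebraMap ↥(baseRing A (flatBase r)) ↥(flatBase r))) ^ (r - 1))) :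
    letI := baseToComplex (flatBase r)
    ∃ a0 : ℤ, IsCoprime (a0 - 0) ((r - 1 : ℕ) : ℤ) ∧
      (legWinfL ↥(baseRing A (flatBase r)) ↥(flatBase r) h2' M' r).valuation
        (f * (algebraMap ↥(baseRing A (flatBase r)) ↥(legEL ↥(flatBase r) M' r)
          ((r : ℕ) : ↥(baseRing A (flatBase r))) ^ (0 : ℤ))⁻¹) = 1 ∧
      (legW0L ↥(baseRing A (flatBase r)) ↥(flatBase r) hbez hr).valuation
        (f * (algebraMap ↥(baseRing A (flatBase r)) ↥(legEL ↥(flatBase r) M' r)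
          ((r : ℕ) : ↥(baseRing A (flatBase r))) ^ a0)⁻¹) = 1 := by
  haveI : Fact r.Prime := ⟨hr⟩
  exact val_resolvent_legL_small M' r hM' hr hr2 hrM A hA (flatBase r) isBase_flatBase
    ((r : ℕ) : ↥(baseRing A (flatBase r))) (irreducible_prime_flatBase hA) h2' x y hbez 1 1
    (by rw [Units.val_one, one_mul, pow_one]) (Nat.coprime_one_left _) ψR hψ f hf

end Flat

section Char

/-- a faithful character of `(ℤ/r)ˣ` with values in a domain containing a primitive `(r - 1)`-th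
root of unity. -/
theorem exists_faithful_mulChar {R : Type*} [CommRing R] [IsDomain R] {r : ℕ} [hr : Fact r.Prime]
    {ω : R} (hω : IsPrimitiveRoot ω (r - 1)) :
    ∃ ψ : MulChar (ZMod r) R, Function.Injective fun d : (ZMod r)ˣ => ψ (d : ZMod r) := by
  haveI : NeZero (r - 1) := ⟨by have := hr.out.two_le; omega⟩
  have hcard : Nat.card (ZMod r)ˣ = Nat.card ↥(rootsOfUnity (r - 1) R) := by
    rw [Nat.card_eq_fintype_card, ZMod.card_units_eq_totient,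
      Nat.totient_prime hr.out, hω.card_rootsOfUnity]
  let e : (ZMod r)ˣ ≃* ↥(rootsOfUnity (r - 1) R) := mulEquivOfCyclicCardEq hcard
  refine ⟨MulChar.ofUnitHom ((rootsOfUnity (r - 1) R).subtype.comp e.toMonoidHom), ?_⟩
  intro d d' h
  have h' : (MulChar.ofUnitHom ((rootsOfUnity (r - 1) R).subtype.comp e.toMonoidHom))
      (d : ZMod r) = (MulChar.ofUnitHom ((rootsOfUnity (r - 1) R).subtype.comp e.toMonoidHom))
      (d' : ZMod r) := h
  rw [MulChar.ofUnitHom_coe, MulChar.ofUnitHom_coe] at h'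
  have h3 := Units.ext h'
  exact e.injective (Subtype.ext h3)

/-- a faithful character of `(ℤ/r)ˣ` with values in `R' = A ∩ K'`, for every base `K'`. -/
theorem exists_faithful_mulChar_baseRing {r : ℕ} [hr : Fact r.Prime] (A : ValuationSubring Ω)
    {K' : IntermediateField ℚ Ω} (hK' : IsBase r K') :
    ∃ ψR : MulChar (ZMod r) ↥(baseRing A K'),
      Function.Injective fun d : (ZMod r)ˣ => ψR (d : ZMod r) := by
  have hpos : 0 < r - 1 := by have := hr.out.two_le; omega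
  haveI : NeZero (r - 1) := ⟨hpos.ne'⟩
  haveI : NeZero (((r - 1 : ℕ) : ℕ) : Ω) := ⟨by exact_mod_cast hpos.ne'⟩
  obtain ⟨ω, hω⟩ := HasEnoughRootsOfUnity.exists_primitiveRoot Ω (r - 1)
  have hnd : ¬ r ∣ r - 1 := fun h => by
    have := Nat.le_of_dvd hpos h
    have := hr.out.two_le
    omega
  have hωK : ω ∈ K' := hK'.root_mem hpos hnd hω.pow_eq_one
  have hωA : A.valuation ω ≤ 1 := (ValuationSubring.valuation_le_one_iff _ _).mpr
    (mem_valSubring_of_pow_eq_one_rb A hpos.ne' hω.pow_eq_one)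
  have hprim : IsPrimitiveRoot
      (⟨⟨ω, hωK⟩, mem_baseRing_iff.mpr hωA⟩ : ↥(baseRing A K')) (r - 1) := by
    refine IsPrimitiveRoot.of_map_of_injective
      (f := ((algebraMap ↥K' Ω).comp (algebraMap ↥(baseRing A K') ↥K'))) ?_
      ((algebraMap ↥K' Ω).injective.comp (IsFractionRing.injective ↥(baseRing A K') ↥K'))
    exact hω
  exact exists_faithful_mulChar hprim

end Char

end

end Fermat.Agent.RB
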