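/-
RB [BB3] = (KEY-H), package D [SHAPE+BCH] — helper5 — part 13: **(O10) the CONCRETE Kummer cover
`E'' = legEL K₁ (M' r) 1` of `EN₁ = legEL K₁ M' r`** (instantiation of
`kummer_cover_of_ssModel_baseChange`).

* `legResU K ψ` : the resolvent `u(x²) ∈ legEL K (M' r) 1`, `u = ∑ ψ(t) φ_{a(t)}` (helper8's `uSer`);
  `legResF K ψ = (u ^ (r-1))(x²) ∈ legEL K M' r`; `legResU_pow`, `legELIncl_legResF`,
  `dvd_ord_legResF`;
* `finite_legEL_raise_adjoin_j_base` : `E''` is finite over `K₁(j)`;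
* `legL_kummer_cover` : the model of `E''`: two sheets `Winf''`, `W0''` over those of `EN₁`, the two
  model charts, `[E'' : EN₁] = r - 1`, the two spanning clauses — for a totally ramified base change
  `K' ≤ K₁` (`[K₁ : K'] ≤ e`, `ϖ' = ϖ ^ e ε₀`, `(r-1) ∣ e`), `K'` with `r = ε' ϖ' ^ e'`,
  `(e', r-1) = 1`, a faithful character `ψR` of `(ℤ/r)ˣ` with values in `R' = A ∩ K'`, the
  locality clause `h1` and the rationality `hrat` of the support of `f` (helper7's N).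
-/
import Mathlib
import Fermat.Agent.RB.KEYH_helper5_Inst
import Fermat.Agent.RB.KEYH_helper5_BCLeg
import Fermat.Agent.RB.KEYH_helper7_NodeFact
import Fermat.Agent.RB.FIELD1_helper5_Host
import Fermat.Agent.RB.FIELD1_helper8_Bridge
import Fermat.Agent.RB.VAL_helper8_LegLS

set_option autoImplicit false
set_option linter.unusedSectionVars false
set_option linter.unusedVariables false
set_option linter.style.haveILetI false
set_option synthInstance.maxHeartbeats 400000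

open HahnSeries IntermediateField AlgebraicCurve ModularCurve Polynomial

namespace Fermat.Agent.RB

open Fermat.Agent.JA Fermat.Agent.Igusa Fermat.Agent.SS Fermat.Agent.FF Fermat.Agent.MP
  Fermat.Agent.W1 Fermat.Agent.SS.TwoExt

open scoped Fermat.Agent.JA.Host

/-- `Ω = AlgebraicClosure ℚ`. -/
local notation "Ω" => AlgebraicClosure ℚ

/-- the absolute Galois group. -/
local notation "GQ" => (AlgebraicClosure ℚ ≃ₐ[ℚ] AlgebraicClosure ℚ)

noncomputable section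

section Res

variable (K : Type) [Field K] [Algebra ℚ K] [Algebra K ℂ] [IsScalarTower ℚ K ℂ]
  {M' r : ℕ} [NeZero M'] [NeZero r] [NeZero (M' * r)] {x y : ℤ}

/-- the resolvent `u(x²)` in the host `E'' = legEL K (M' r) 1`. -/
def legResU (hbez : (r : ℤ) * x + M' * y = 1) (hM' : 2 ≤ M') (ψ : MulChar (ZMod r) K) :
    ↥(legEL K (M' * r) 1) :=
  legHostEmb K (F₁ (M' * r) 1) ⟨uSer K M' r x y ψ, uSer_mem_raise hbez hM' ψ⟩

theorem coe_legResU (hbez : (r : ℤ) * x + M' * y = 1) (hM' : 2 ≤ M') (ψ : MulChar (ZMod r) K) :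
    ((legResU K hbez hM' ψ : ↥(legEL K (M' * r) 1)) : LaurentSeries K) =
      qExpand K 2 (uSer K M' r x y ψ) := rfl

/-- the function `f = (u ^ φ(r))(x²)` in the host `EN₁ = legEL K M' r`. -/
def legResF (hbez : (r : ℤ) * x + M' * y = 1) (hM' : 2 ≤ M') (hcop : Nat.Coprime M' r)
    (ψ : MulChar (ZMod r) K) : ↥(legEL K M' r) :=
  legHostEmb K (F₁ M' r)
    ⟨uSer K M' r x y ψ ^ Nat.totient r, uSer_pow_totient_mem_raise hbez hM' hcop ψ⟩

theorem coe_legResF (hbez : (r : ℤ) * x + M' * y = 1) (hM' : 2 ≤ M') (hcop : Nat.Coprime M' r)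
    (ψ : MulChar (ZMod r) K) :
    ((legResF K hbez hM' hcop ψ : ↥(legEL K M' r)) : LaurentSeries K) =
      qExpand K 2 (uSer K M' r x y ψ ^ Nat.totient r) := rfl

/-- **the Kummer equation `u ^ φ(r) = f`.** -/
theorem legResU_pow (hbez : (r : ℤ) * x + M' * y = 1) (hM' : 2 ≤ M') (hcop : Nat.Coprime M' r)
    (ψ : MulChar (ZMod r) K) (hM1 : M' ≠ 1) :
    legResU K hbez hM' ψ ^ Nat.totient r =
      IntermediateField.inclusion (legEL_raise_le K M' r hM1) (legResF K hbez hM' hcop ψ) :=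
  legHostEmb_pow_eq K M' r hM1 _ _ rfl

end Res

section BC

attribute [local instance] baseToComplex

variable {K' K₁ : IntermediateField ℚ Ω} (hle : K' ≤ K₁)
  {M' r : ℕ} [NeZero M'] [NeZero r] [NeZero (M' * r)] {x y : ℤ}

/-- the base change of `f`. -/
theorem legELIncl_legResF (hbez : (r : ℤ) * x + M' * y = 1) (hM' : 2 ≤ M')
    (hcop : Nat.Coprime M' r) (ψ : MulChar (ZMod r) ↥K') :
    haveI := isScalarTower_baseToComplex K'
    haveI := isScalarTower_baseToComplex K₁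
    legELIncl hle M' r (legResF ↥K' hbez hM' hcop ψ) =
      legResF ↥K₁ hbez hM' hcop (ψ.ringHomComp (baseIncl hle)) := by
  haveI := isScalarTower_baseToComplex K'
  haveI := isScalarTower_baseToComplex K₁
  apply Subtype.ext
  rw [coe_legELIncl, coe_legResF, coe_legResF, coeffMap_qExpand, map_pow, coeffMap_uSer]

/-- **`φ(r)` divides all orders of `f`** (package B). -/
theorem dvd_ord_legResF (K₁ : IntermediateField ℚ Ω) (hM' : 5 ≤ M') (hr : r.Prime)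
    (hcop : Nat.Coprime M' r) (hbez : (r : ℤ) * x + M' * y = 1) (ψ : MulChar (ZMod r) ↥K₁) :
    haveI := isScalarTower_baseToComplex K₁
    legResF ↥K₁ hbez (by omega) hcop ψ ≠ 0 →
    ∀ P : Place ↥K₁ ↥(legEL ↥K₁ M' r),
      ((Nat.totient r : ℕ) : ℤ) ∣ P.ord (legResF ↥K₁ hbez (by omega) hcop ψ) := by
  haveI := isScalarTower_baseToComplex K₁
  intro hne P
  letI := omegaToComplex
  haveI := isScalarTower_omegaToComplex
  refine dvd_ord_legEL_of_pow_eq ↥K₁ M' r Ω hM' hr hcop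
    ⟨uSer ↥K₁ M' r x y ψ ^ Nat.totient r, uSer_pow_totient_mem_raise hbez (by omega) hcop ψ⟩ ?_
    ⟨uSer ↥K₁ M' r x y ψ, uSer_mem_raise hbez (by omega) ψ⟩ rfl P
  intro h0
  apply hne
  rw [legResF, h0, map_zero]

end BC

section Main

attribute [local instance] baseToComplex

/-- `E'' = legEL K₁ (M' r) 1` is finite over `K₁(j)`. -/
theorem finite_legEL_raise_adjoin_j_base (K₁ : IntermediateField ℚ Ω) {M' r : ℕ} [NeZero M']
    [NeZero r] [NeZero (M' * r)] (hr : r.Prime) (hrM : ¬ r ∣ M') (hM1 : M' ≠ 1) :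
    Module.Finite ↥(↥K₁)⟮jqNModC ↥K₁ 2⟯ ↥(legEL ↥K₁ (M' * r) 1) := by
  haveI := isScalarTower_baseToComplex K₁
  have hcop : Nat.Coprime M' r := ((Nat.Prime.coprime_iff_not_dvd hr).mpr hrM).symm
  haveI : Fact (legEL ↥K₁ M' r ≤ legEL ↥K₁ (M' * r) 1) := ⟨legEL_raise_le ↥K₁ M' r hM1⟩
  haveI : Module.Finite ↥(↥K₁)⟮jqNModC ↥K₁ 2⟯ ↥(legEL ↥K₁ M' r) :=
    finite_legEL_adjoin_j_base K₁ hr hrM hM1
  haveI : Module.Finite ↥(legEL ↥K₁ M' r) ↥(legEL ↥K₁ (M' * r) 1) :=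
    finite_legEL_raise ↥K₁ M' r hcop hM1
  exact Module.Finite.trans ↥(legEL ↥K₁ M' r) ↥(legEL ↥K₁ (M' * r) 1)

set_option maxHeartbeats 3200000 in
/-- **(O10) the model of the Kummer cover `E'' = legEL K₁ (M' r) 1` of `EN₁ = legEL K₁ M' r`.** -/
theorem legL_kummer_cover (M' r : ℕ) [NeZero M'] [NeZero r] [NeZero (M' * r)] (hM' : 5 ≤ M')
    (hr : r.Prime) (hr2 : r ≠ 2) (hrM : ¬ r ∣ M')
    (A : ValuationSubring Ω) (hA : A.LiesOverPrime r)
    {K' K₁ : IntermediateField ℚ Ω} (hle : K' ≤ K₁) (hK' : IsBase r K') (hK₁ : IsBase r K₁)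
    [IsDiscreteValuationRing ↥(baseRing A K')] [CharZero ↥(baseRing A K')]
    [DecidableEq ↥(baseRing A K')]
    [IsDiscreteValuationRing ↥(baseRing A K₁)] [CharZero ↥(baseRing A K₁)]
    [DecidableEq ↥(baseRing A K₁)]
    (ϖ' : ↥(baseRing A K')) (hϖ' : Irreducible ϖ') (ϖ : ↥(baseRing A K₁)) (hϖ : Irreducible ϖ)
    (h2' : IsUnit (2 : ↥(baseRing A K'))) (h2 : IsUnit (2 : ↥(baseRing A K₁)))
    (x y : ℤ) (hbez : (r : ℤ) * x + M' * y = 1)
    -- the base change is totally ramified of degree `e`, `(r - 1) ∣ e`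
    (hfin : letI := (baseIncl hle).toAlgebra; FiniteDimensional ↥K' ↥K₁)
    {e : ℕ} (he : 0 < e) (hdeg : letI := (baseIncl hle).toAlgebra; Module.finrank ↥K' ↥K₁ ≤ e)
    {ε₀ : (↥(baseRing A K₁))ˣ} (hφπ : baseRingIncl hle A ϖ' = ϖ ^ e * (ε₀ : ↥(baseRing A K₁)))
    (hme : (r - 1) ∣ e)
    -- the small base is unramified up to a ramification prime to `r - 1`
    (e' : ℕ) (ε' : (↥(baseRing A K'))ˣ) (hre : (r : ↥(baseRing A K')) = ε' * ϖ' ^ e')
    (hecop : Nat.Coprime e' (r - 1))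
    -- the character
    (ψR : MulChar (ZMod r) ↥(baseRing A K'))
    (hψ : Function.Injective fun d : (ZMod r)ˣ => ψR (d : ZMod r))
    -- N: locality of `K₁ / K'`, rationality of the support of `f`
    (h1 : ∀ σ : GQ, (∀ c ∈ K', σ c = c) → ∀ c ∈ K₁, (c ∈ A ↔ σ c ∈ A))
    (hrat : haveI := isScalarTower_baseToComplex K'
      ∀ Q : Place Ω ↥(legEL Ω M' r),
        Q.ord (legELBC K' M' r (legResF ↥K' hbez (by omega)
          ((Nat.Prime.coprime_iff_not_dvd hr).mpr hrM).symm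
          (ψR.ringHomComp (algebraMap ↥(baseRing A K') ↥K')))) ≠ 0 →
        IsRationalPlace (restrictBC (legELBC K₁ M' r) (legHostBC_algebraMap (W1.F₁ M' r) K₁)
          (closure_range_legHostBC (W1.F₁ M' r) K₁) Q)) :
    haveI := isScalarTower_baseToComplex K₁
    haveI : Fact (legEL ↥K₁ M' r ≤ legEL ↥K₁ (M' * r) 1) :=
      ⟨legEL_raise_le ↥K₁ M' r (by omega)⟩
    haveI : FiniteDimensional ↥(↥K₁)⟮jqNModC ↥K₁ 2⟯ ↥(legEL ↥K₁ M' r) :=
      finite_legEL_adjoin_j_base K₁ hr hrM (by omega)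
    haveI : FiniteDimensional ↥(↥K₁)⟮jqNModC ↥K₁ 2⟯ ↥(legEL ↥K₁ (M' * r) 1) :=
      finite_legEL_raise_adjoin_j_base K₁ hr hrM (by omega)
    ∃ (Winf'' W0'' : ValuationSubring ↥(legEL ↥K₁ (M' * r) 1))
      (two'' : IsTwoSheet ϖ (AdjoinSimple.gen ↥K₁ (jqNModC ↥K₁ 2)) Winf'' W0''),
      IsExt (legWinfL ↥(baseRing A K₁) ↥K₁ h2 M' r) Winf'' ∧
      IsExt (legW0L ↥(baseRing A K₁) ↥K₁ hbez hr) W0'' ∧
      IsModelChart ↥(legEL ↥K₁ (M' * r) 1) ϖ
        (sheetIdeal (AdjoinSimple.gen ↥K₁ (jqNModC ↥K₁ 2)) Winf'' two''.chart_le_inf)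
        (sheetIdeal (AdjoinSimple.gen ↥K₁ (jqNModC ↥K₁ 2)) W0'' two''.chart_le_zero) ∧
      IsModelChart ↥(legEL ↥K₁ (M' * r) 1) ϖ
        (sheetIdeal (AdjoinSimple.gen ↥K₁ (jqNModC ↥K₁ 2))⁻¹ Winf'' (two''.inv hϖ).chart_le_inf)
        (sheetIdeal (AdjoinSimple.gen ↥K₁ (jqNModC ↥K₁ 2))⁻¹ W0'' (two''.inv hϖ).chart_le_zero) ∧
      Module.finrank ↥(legEL ↥K₁ M' r) ↥(legEL ↥K₁ (M' * r) 1) = r - 1 ∧
      (∃ (xi' : ↥(legEL ↥K₁ (M' * r) 1)) (si : ℤ) (wi : ↥(legEL ↥K₁ M' r)), wi ≠ 0 ∧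
        xi' = legResU ↥K₁ hbez (by omega)
          ((ψR.ringHomComp (baseRingIncl hle A)).ringHomComp
            (algebraMap ↥(baseRing A K₁) ↥K₁)) ^ si *
          algebraMap ↥(legEL ↥K₁ M' r) ↥(legEL ↥K₁ (M' * r) 1) wi ∧
        Winf''.valuation xi' = 1 ∧
        ∀ z ∈ Winf'', ∃ a : Fin (r - 1) → ↥(legEL ↥K₁ M' r),
          (∀ i, a i ∈ legWinfL ↥(baseRing A K₁) ↥K₁ h2 M' r) ∧
          Winf''.valuation (z - ∑ i, algebraMap ↥(legEL ↥K₁ M' r) ↥(legEL ↥K₁ (M' * r) 1) (a i) *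
            xi' ^ (i : ℕ)) < 1) ∧
      (∃ (xz' : ↥(legEL ↥K₁ (M' * r) 1)) (sz : ℤ) (wz : ↥(legEL ↥K₁ M' r)), wz ≠ 0 ∧
        xz' = legResU ↥K₁ hbez (by omega)
          ((ψR.ringHomComp (baseRingIncl hle A)).ringHomComp
            (algebraMap ↥(baseRing A K₁) ↥K₁)) ^ sz *
          algebraMap ↥(legEL ↥K₁ M' r) ↥(legEL ↥K₁ (M' * r) 1) wz ∧
        W0''.valuation xz' = 1 ∧
        ∀ z ∈ W0'', ∃ a : Fin (r - 1) → ↥(legEL ↥K₁ M' r),
          (∀ i, a i ∈ legW0L ↥(baseRing A K₁) ↥K₁ hbez hr) ∧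
          W0''.valuation (z - ∑ i, algebraMap ↥(legEL ↥K₁ M' r) ↥(legEL ↥K₁ (M' * r) 1) (a i) *
            xz' ^ (i : ℕ)) < 1) := by
  classical
  haveI : Fact r.Prime := ⟨hr⟩
  haveI := isScalarTower_baseToComplex K'
  haveI := isScalarTower_baseToComplex K₁
  have hM1 : M' ≠ 1 := by omega
  have hM2 : 2 ≤ M' := by omega
  have hcop : Nat.Coprime M' r := ((Nat.Prime.coprime_iff_not_dvd hr).mpr hrM).symm
  have htot : Nat.totient r = r - 1 := Nat.totient_prime hr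
  have hr1 : 0 < r - 1 := by have := hr.two_le; omega
  haveI : Fact (legEL ↥K₁ M' r ≤ legEL ↥K₁ (M' * r) 1) := ⟨legEL_raise_le ↥K₁ M' r hM1⟩
  haveI : FiniteDimensional ↥(↥K')⟮jqNModC ↥K' 2⟯ ↥(legEL ↥K' M' r) :=
    finite_legEL_adjoin_j_base K' hr hrM hM1
  haveI : FiniteDimensional ↥(↥K₁)⟮jqNModC ↥K₁ 2⟯ ↥(legEL ↥K₁ M' r) :=
    finite_legEL_adjoin_j_base K₁ hr hrM hM1
  haveI : FiniteDimensional ↥(↥K₁)⟮jqNModC ↥K₁ 2⟯ ↥(legEL ↥K₁ (M' * r) 1) :=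
    finite_legEL_raise_adjoin_j_base K₁ hr hrM hM1
  haveI := hK₁.isAlgClosed_residueField hA
  -- the two models
  have h' := legLModelAtBases M' r hM1 hr hr2 hrM A hA K' hK' ϖ' hϖ' h2' x y hbez
  have h := legLModelAtBases M' r hM1 hr hr2 hrM A hA K₁ hK₁ ϖ hϖ h2 x y hbez
  have hjint := legL_jint_base M' r hM1 hr hr2 hrM A hA K₁ hK₁
  have hfr' := isFractionRing_chartOne (R := ↥(baseRing A K')) (K₁ := ↥K')
    (E := ↥(legEL ↥K' M' r)) (AdjoinSimple.gen ↥K' (jqNModC ↥K' 2)) h'.j_adjoin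
  -- the characters
  set ψ' : MulChar (ZMod r) ↥K' := ψR.ringHomComp (algebraMap ↥(baseRing A K') ↥K') with hψ'
  set ψ₁ : MulChar (ZMod r) ↥K₁ := (ψR.ringHomComp (baseRingIncl hle A)).ringHomComp
    (algebraMap ↥(baseRing A K₁) ↥K₁) with hψ₁
  have hψ'₁ : ψ'.ringHomComp (baseIncl hle) = ψ₁ := by
    ext a
    rfl
  -- the functions
  set f' : ↥(legEL ↥K' M' r) := legResF ↥K' hbez hM2 hcop ψ' with hf'
  have hιf' : legELIncl hle M' r f' = legResF ↥K₁ hbez hM2 hcop ψ₁ := by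
    rw [hf', legELIncl_legResF hle hbez hM2 hcop ψ', hψ'₁]
  have hf'coe : (f' : LaurentSeries ↥K') = qExpand ↥K' 2 (uSer ↥K' M' r x y ψ' ^ (r - 1)) := by
    rw [hf', coe_legResF, htot]
  -- package C on the small base
  obtain ⟨a0, hcopa, hinf', h0'⟩ := val_resolvent_legL_small M' r (by omega) hr hr2 hrM A hA K' hK'
    ϖ' hϖ' h2' x y hbez e' ε' hre hecop ψR hψ f' hf'coe
  have hf'0 : f' ≠ 0 := by
    intro h0
    rw [h0, zero_mul, map_zero] at hinf'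
    exact zero_ne_one hinf'
  have hιf'0 : legResF ↥K₁ hbez hM2 hcop ψ₁ ≠ 0 := by
    rw [← hιf']
    exact (map_ne_zero (legELIncl hle M' r)).mpr hf'0
  -- package B
  have hord₁ : ∀ P : Place ↥K₁ ↥(legEL ↥K₁ M' r),
      ((r - 1 : ℕ) : ℤ) ∣ P.ord (legELIncl hle M' r f') := by
    intro P
    rw [hιf', ← htot]
    exact dvd_ord_legResF K₁ hM' hr hcop hbez ψ₁ hιf'0 P
  have hord' : ∀ P : Place ↥K' ↥(legEL ↥K' M' r), ((r - 1 : ℕ) : ℤ) ∣ P.ord f' := by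
    intro P
    rw [← htot]
    exact dvd_ord_legResF K' hM' hr hcop hbez ψ' hf'0 P
  -- the Kummer equation
  have hu' : legResU ↥K₁ hbez hM2 ψ₁ ^ (r - 1) =
      algebraMap ↥(legEL ↥K₁ M' r) ↥(legEL ↥K₁ (M' * r) 1) (legELIncl hle M' r f') := by
    rw [hιf', ← htot, legResU_pow ↥K₁ hbez hM2 hcop ψ₁ hM1]
    rfl
  have hdegE : Module.finrank ↥(legEL ↥K₁ M' r) ↥(legEL ↥K₁ (M' * r) 1) ≤ r - 1 := by
    rw [← htot]
    exact finrank_legEL_raise_le ↥K₁ M' r hcop hM1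
  have hmR : IsUnit (((r - 1 : ℕ) : ℕ) : ↥(baseRing A K₁)) := by
    refine isUnit_natCast_baseRing hA (K₁ := K₁) (n := r - 1) (fun hdvd => ?_)
    have := Nat.le_of_dvd hr1 hdvd
    omega
  -- package N
  have hnodes := legL_hnodes M' r hM1 hr hr2 hrM A hA hK' hle h1 ϖ' hϖ' h2' x y hbez
    (m := r - 1) f' hf'0 hord' hrat 0
    ((ValuationSubring.valuation_le_one_iff _ _).mp hinf'.le)
    ((ValuationSubring.valuation_le_one_iff _ _).mp (by rw [map_inv₀, hinf', inv_one]))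
  -- [BCH]
  obtain ⟨hresinf, hres0⟩ := legL_hres M' r hM1 hr hr2 hrM A hA hle hK' hK₁ ϖ' hϖ' ϖ hϖ h2' h2
    x y hbez hfin he hdeg hφπ
  have hmax := legL_hmax M' r hM1 hr hr2 hrM A hA hle hK' hK₁ ϖ' hϖ' ϖ hϖ h2 x y hbez he hφπ
  have hWVinf : ∀ f : ↥(legEL ↥K' M' r),
      legELIncl hle M' r f ∈ legWinfL ↥(baseRing A K₁) ↥K₁ h2 M' r ↔
        f ∈ legWinfL ↥(baseRing A K') ↥K' h2' M' r := by
    intro f
    rw [← comap_legWinfL hle A h2' h2 M' r]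
    rfl
  have hWV0 : ∀ f : ↥(legEL ↥K' M' r),
      legELIncl hle M' r f ∈ legW0L ↥(baseRing A K₁) ↥K₁ hbez hr ↔
        f ∈ legW0L ↥(baseRing A K') ↥K' hbez hr := by
    intro f
    rw [← comap_legW0L hle A hM1 hr hr2 hrM hA hK' hK₁ hbez]
    rfl
  exact kummer_cover_of_ssModel_baseChange (K₁' := ↥K') (K₁ := ↥K₁)
    (baseRingIncl hle A) (legKNIncl hle) (legELIncl hle M' r) h hϖ hjint hϖ'
    h'.j_transcendental h'.j_adjoin h'.two hfr' (legKNIncl_algebraMap hle A)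
    (legELIncl_algebraMap_KN hle M' r) (legKNIncl_gen hle) hWVinf hWV0 hresinf hres0 hφπ hme
    (fun 𝔪₂ h𝔪₂ hinf _ => hmax 𝔪₂ h𝔪₂ (hinf (h.two.pi_mem_inf (K₁ := ↥K₁) hϖ)))
    hr1 hmR hdegE hu' hf'0 hord₁ hinf' h0' hcopa
    (fun 𝔪 _ h𝔪 hi hz => hnodes h'.two hfr' 𝔪 h𝔪 hi hz)

end Main

end

end Fermat.Agent.RB
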