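/-
RB [BB3] = (KEY-H), item (O8) — helper7 — part 1 (abstract): **the degree of a totally ramified
extension of discrete valuation rings is at most the ramification index.**

`A ⊆ B` discrete valuation rings with fraction fields `K ⊆ L`, `L / K` finite separable, `B` integral
over `A` (i.e. `B` is the only valuation ring of `L` above `A`), every residue class of `B` is
represented in `A` (residue degree one), `ϖ = π ^ e · unit`.  Then `[L : K] ≤ e`
(`B` is the integral closure of `A` in `L`, hence a free `A`-module of rank `[L : K]`; by Nakayama it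
is generated by `1, π, …, π ^ (e - 1)`).
-/
import Mathlib

set_option autoImplicit false
set_option linter.unusedSectionVars false
set_option linter.unusedVariables false
set_option linter.style.haveILetI false

open IsLocalRing

namespace Fermat.Agent.RB

section Expansion

variable {A B : Type*} [CommRing A] [CommRing B] [Algebra A B] [IsLocalRing B]

/-- `π`-adic expansion with digits in `A` (residue degree one). -/
theorem exists_expansion_of_residue_surjective
    (hres : ∀ b : B, ∃ a : A, b - algebraMap A B a ∈ maximalIdeal B)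
    {π : B} (hπ : maximalIdeal B = Ideal.span {π}) (n : ℕ) (b : B) :
    ∃ (a : Fin n → A) (b' : B), b = ∑ i, algebraMap A B (a i) * π ^ (i : ℕ) + π ^ n * b' := by
  induction n generalizing b with
  | zero => exact ⟨Fin.elim0, b, by simp⟩
  | succ n ih =>
    obtain ⟨a₀, ha₀⟩ := hres b
    rw [hπ, Ideal.mem_span_singleton] at ha₀
    obtain ⟨b₁, hb₁⟩ := ha₀
    obtain ⟨a, b', hb'⟩ := ih b₁
    refine ⟨Fin.cons a₀ a, b', ?_⟩
    rw [Fin.sum_univ_succ]
    have h1 : b = algebraMap A B a₀ + π * b₁ := by rw [← hb₁]; ring
    rw [h1, hb']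
    simp only [Fin.cons_zero, Fin.val_zero, pow_zero, mul_one, Fin.cons_succ, Fin.val_succ]
    rw [mul_add, Finset.mul_sum]
    have h2 : ∀ i : Fin n, π * (algebraMap A B (a i) * π ^ (i : ℕ)) =
        algebraMap A B (a i) * π ^ ((i : ℕ) + 1) := fun i => by ring
    rw [Finset.sum_congr rfl (fun i _ => h2 i)]
    ring

end Expansion

section Degree

variable {A B K L : Type*} [CommRing A] [IsDomain A] [IsDiscreteValuationRing A]
  [CommRing B] [IsDomain B] [IsDiscreteValuationRing B]
  [Field K] [Field L] [Algebra A K] [IsFractionRing A K] [Algebra B L] [IsFractionRing B L]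
  [Algebra K L] [Algebra A B] [Algebra A L] [IsScalarTower A K L] [IsScalarTower A B L]
  [FiniteDimensional K L] [Algebra.IsSeparable K L]

/-- **`[L : K] ≤ e`** for a totally ramified extension `B / A` of discrete valuation rings. -/
theorem finrank_le_of_totally_ramified (hint : Algebra.IsIntegral A B)
    (hres : ∀ b : B, ∃ a : A, b - algebraMap A B a ∈ maximalIdeal B)
    {ϖ : A} (hϖ : Irreducible ϖ) {π : B} (hπ : Irreducible π) {e : ℕ} {ε : Bˣ}
    (he : algebraMap A B ϖ = π ^ e * (ε : B)) : Module.finrank K L ≤ e := by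
  -- `B` is the integral closure of `A` in `L`
  haveI : IsIntegralClosure B A L :=
    ⟨IsFractionRing.injective B L, fun {x} => ⟨fun hx =>
      IsIntegrallyClosed.isIntegral_iff.mp (hx.tower_top (A := B)),
      fun ⟨b, hb⟩ => hb ▸ (hint.isIntegral b).algebraMap⟩⟩
  haveI : Module.IsTorsionFree A L := .trans_faithfulSMul A K L
  haveI hfin : Module.Finite A B := IsIntegralClosure.finite A K L B
  have hrank : Module.finrank A B = Module.finrank K L := IsIntegralClosure.rank A K L B
  -- Nakayama
  have hspan : Submodule.span A (Set.range fun i : Fin e => π ^ (i : ℕ)) = ⊤ := by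
    rw [eq_top_iff]
    refine Submodule.le_of_le_smul_of_le_jacobson_bot (I := maximalIdeal A)
      (Module.Finite.fg_top) (IsLocalRing.maximalIdeal_le_jacobson ⊥) ?_
    intro b _
    obtain ⟨a, b', hb⟩ := exists_expansion_of_residue_surjective hres hπ.maximalIdeal_eq e b
    rw [hb]
    refine Submodule.add_mem_sup (Submodule.sum_mem _ fun i _ => ?_) ?_
    · rw [← Algebra.smul_def]
      exact Submodule.smul_mem _ _ (Submodule.subset_span ⟨i, rfl⟩)
    · have h1 : π ^ e * b' = ϖ • (((ε⁻¹ : Bˣ) : B) * b') := by
        rw [Algebra.smul_def, he]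
        have : (ε : B) * ((ε⁻¹ : Bˣ) : B) = 1 := Units.mul_inv ε
        calc π ^ e * b' = π ^ e * ((ε : B) * ((ε⁻¹ : Bˣ) : B)) * b' := by rw [this, mul_one]
          _ = π ^ e * (ε : B) * (((ε⁻¹ : Bˣ) : B) * b') := by ring
      rw [h1]
      exact Submodule.smul_mem_smul ((IsLocalRing.mem_maximalIdeal _).mpr hϖ.not_isUnit)
        Submodule.mem_top
  rw [← hrank]
  have := finrank_le_of_span_eq_top (R := A) hspan
  rwa [Fintype.card_fin] at this

end Degree

end Fermat.Agent.RB
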