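/-
RB [BB3] = (KEY-H), item (O8) — helper7 — part 2: **the choice of the small base `K'` inside a
Galois base `K₁`**: `K' = Fix_{K₁}(I_A)`, the inertia field of `A` in `K₁` (helper2's `fixIn`).

For a Galois base `K₁ ∋ ζ_r` and `K' = inertiaBase A K₁`:
* `isBase_inertiaBase`, `inertiaBase_le`, `inertiaBase_h1` (the clause (h1) of `legL_hnodes`);
* `irreducible_prime_inertiaBase` : `r` is a uniformizer of `R' = A ∩ K'`;
* `isIntegral_baseRingIncl_fixIn` : `R = A ∩ K₁` is integral over `R'` (the orbit polynomial);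
* `finiteDimensional_baseIncl` : `K₁ / K'` is finite;
* `finrank_baseIncl_le` : `[K₁ : K'] ≤ e` when `ϖ' = π ^ e · unit` (total ramification);
* `sub_one_dvd_of_primitiveRoot_mem` : `(r - 1) ∣ e` when `ζ_r ∈ K₁`;
* `exists_inertiaBase_package` : everything in one statement.
-/
import Mathlib
import Fermat.Agent.RB.KEYH_helper7_Ram
import Fermat.Agent.MP.KPDESC_helper2_Fix
import Fermat.Agent.MP.KPDESC_helper2_SheetBC
import Fermat.Agent.S35.DESC_helper2_Unr
import Fermat.Agent.TW.CycloRam_helper6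

set_option autoImplicit false
set_option linter.unusedSectionVars false
set_option linter.unusedVariables false
set_option linter.style.haveILetI false
set_option synthInstance.maxHeartbeats 200000

open IntermediateField Polynomial

namespace Fermat.Agent.RB

open Fermat.Agent.JA Fermat.Agent.SS Fermat.Agent.MP

/-- `Ω = AlgebraicClosure ℚ`. -/
local notation "Ω" => AlgebraicClosure ℚ

/-- the absolute Galois group. -/
local notation "GQ" => (AlgebraicClosure ℚ ≃ₐ[ℚ] AlgebraicClosure ℚ)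

noncomputable section

section Integral

variable {r : ℕ} [hr : Fact r.Prime] {A : ValuationSubring Ω} {K₁ : IntermediateField ℚ Ω}
  [Normal ℚ ↥K₁] {H : Subgroup GQ}

/-- an element of `R = A ∩ K₁` whose image in `Ω` is fixed by `H` comes from `R' = A ∩ K'`. -/
theorem exists_baseRingIncl_eq_of_fixed (b : ↥(baseRing A K₁))
    (hb : ∀ τ ∈ H, τ ((b : ↥K₁) : Ω) = ((b : ↥K₁) : Ω)) :
    ∃ a : ↥(baseRing A (fixIn K₁ H)), MP.baseRingIncl (fixIn_le K₁ H) A a = b := by
  have hmem : ((b : ↥K₁) : Ω) ∈ fixIn K₁ H := mem_fixIn.2 ⟨(b : ↥K₁).2, hb⟩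
  refine ⟨⟨⟨((b : ↥K₁) : Ω), hmem⟩, mem_baseRing_iff.2 (mem_baseRing_iff.1 b.2)⟩, ?_⟩
  apply Subtype.ext
  apply Subtype.ext
  rfl

/-- **`R = A ∩ K₁` is integral over `R' = A ∩ Fix_{K₁}(H)`** for `H ≤ I_A` (with finite image in
`Aut(K₁)`): every `b ∈ R` is a root of its orbit polynomial. -/
theorem isIntegral_baseRingIncl_fixIn (hH : H ≤ A.inertiaSubgroupIn ℚ)
    (hfin : Finite ↥(H.map (resGal K₁))) :
    (MP.baseRingIncl (fixIn_le K₁ H) A).IsIntegral := by
  classical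
  intro b
  haveI := hfin
  haveI : Fintype ↥(H.map (resGal K₁)) := Fintype.ofFinite _
  set G : Subgroup (↥K₁ ≃ₐ[ℚ] ↥K₁) := H.map (resGal K₁) with hG
  -- the conjugates of `b` lie in `R`
  have hmemG : ∀ g : ↥G, (g : ↥K₁ ≃ₐ[ℚ] ↥K₁) (b : ↥K₁) ∈ baseRing A K₁ := by
    intro g
    obtain ⟨τ, hτ, hτg⟩ := Subgroup.mem_map.1 g.2
    rw [← hτg]
    exact resGal_mem_baseRing (hH hτ) b.2
  -- the orbit polynomial over `R`
  set Q : (↥(baseRing A K₁))[X] :=
    ∏ g : ↥G, (X - C (⟨(g : ↥K₁ ≃ₐ[ℚ] ↥K₁) (b : ↥K₁), hmemG g⟩ : ↥(baseRing A K₁))) with hQ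
  have hQmonic : Q.Monic := monic_prod_of_monic _ _ fun g _ => monic_X_sub_C _
  have hQroot : Q.eval b = 0 := by
    rw [hQ, eval_prod]
    refine Finset.prod_eq_zero (Finset.mem_univ (1 : ↥G)) ?_
    rw [eval_sub, eval_X, eval_C, sub_eq_zero]
    apply Subtype.ext
    rfl
  -- its image over `K₁` is the characteristic polynomial of the action
  have hQmap : Q.map (algebraMap ↥(baseRing A K₁) ↥K₁) =
      MulSemiringAction.charpoly ↥G (b : ↥K₁) := by
    rw [hQ, Polynomial.map_prod, MulSemiringAction.charpoly_eq]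
    refine Finset.prod_congr rfl fun g _ => ?_
    rw [Polynomial.map_sub, map_X, map_C]
    rfl
  -- the coefficients come from `R'`
  have hcoeff : ∀ n : ℕ, ∃ a : ↥(baseRing A (fixIn K₁ H)),
      MP.baseRingIncl (fixIn_le K₁ H) A a = Q.coeff n := by
    intro n
    refine exists_baseRingIncl_eq_of_fixed (Q.coeff n) fun τ hτ => ?_
    have h1 : ((Q.coeff n : ↥(baseRing A K₁)) : ↥K₁) =
        (MulSemiringAction.charpoly ↥G (b : ↥K₁)).coeff n := by
      rw [← hQmap, coeff_map]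
      rfl
    have h2 := MulSemiringAction.smul_coeff_charpoly (b : ↥K₁) n
      (⟨resGal K₁ τ, Subgroup.mem_map_of_mem _ hτ⟩ : ↥G)
    rw [← h1] at h2
    have h3 := congrArg (fun x : ↥K₁ => (x : Ω)) h2
    have h4 : (((⟨resGal K₁ τ, Subgroup.mem_map_of_mem _ hτ⟩ : ↥G) •
        ((Q.coeff n : ↥(baseRing A K₁)) : ↥K₁) : ↥K₁) : Ω) =
        τ (((Q.coeff n : ↥(baseRing A K₁)) : ↥K₁) : Ω) := coe_resGal K₁ τ _
    rw [← h4]
    exact h3
  have hlift : Q ∈ Polynomial.lifts (MP.baseRingIncl (fixIn_le K₁ H) A) := by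
    rw [Polynomial.lifts_iff_coeff_lifts]
    intro n
    obtain ⟨a, ha⟩ := hcoeff n
    exact ⟨a, ha⟩
  obtain ⟨Q', hQ', -, hQ'monic⟩ := Polynomial.lifts_and_degree_eq_and_monic hlift hQmonic
  refine ⟨Q', hQ'monic, ?_⟩
  rw [← Polynomial.eval_map, hQ', hQroot]

end Integral

section Finite

/-- `K₂ / K'` is finite as soon as `K₂ ≤ K' ⊔ F₁` with `F₁ / F` finite (general fields). -/
theorem finiteDimensional_inclusion_of_le_sup {F E : Type*} [Field F] [Field E] [Algebra F E]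
    [CharZero F] [Algebra.IsAlgebraic F E] {K' K₂ : IntermediateField F E} (hle : K' ≤ K₂)
    (F₁ : IntermediateField F E) [FiniteDimensional F ↥F₁] (h2 : K₂ ≤ K' ⊔ F₁) :
    letI := (IntermediateField.inclusion hle).toRingHom.toAlgebra
    FiniteDimensional ↥K' ↥K₂ := by
  classical
  letI := (IntermediateField.inclusion hle).toRingHom.toAlgebra
  -- `F₁ = F(α)`
  obtain ⟨α, hα⟩ := Field.exists_primitive_element F ↥F₁
  have hFα : F₁ = IntermediateField.adjoin F {(α : E)} := by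
    have h := congrArg IntermediateField.lift hα
    rw [IntermediateField.lift_adjoin_simple, IntermediateField.lift_top] at h
    exact h.symm
  have hsup : K' ⊔ F₁ = IntermediateField.restrictScalars F
      (IntermediateField.adjoin ↥K' {(α : E)}) := by
    rw [IntermediateField.restrictScalars_adjoin_eq_sup, ← hFα]
  haveI : FiniteDimensional ↥K' ↥(IntermediateField.adjoin ↥K' {(α : E)}) :=
    IntermediateField.adjoin.finiteDimensional
      ((Algebra.IsAlgebraic.isAlgebraic (α : E)).isIntegral)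
  -- the `K'`-linear injection `K₂ → K'(α)`
  have hmem : ∀ x : ↥K₂, (x : E) ∈ IntermediateField.adjoin ↥K' {(α : E)} := by
    intro x
    have h3 := h2 x.2
    rw [hsup] at h3
    exact h3
  let φ : ↥K₂ →ₗ[↥K'] ↥(IntermediateField.adjoin ↥K' {(α : E)}) :=
    { toFun := fun x => ⟨(x : E), hmem x⟩
      map_add' := fun x y => rfl
      map_smul' := fun c x => by
        apply Subtype.ext
        rfl }
  exact FiniteDimensional.of_injective φ fun x y hxy =>
    Subtype.ext (congrArg (fun z : ↥(IntermediateField.adjoin ↥K' {(α : E)}) => (z : E)) hxy)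

variable {K' K₂ : IntermediateField ℚ Ω} (hle : K' ≤ K₂) {r : ℕ}

/-- **a base is finite over every sub-base.** -/
theorem finiteDimensional_baseIncl (hK' : flatBase r ≤ K') (hK₂ : IsBase r K₂) :
    letI := (baseIncl hle).toAlgebra
    FiniteDimensional ↥K' ↥K₂ := by
  obtain ⟨F, hF, rfl⟩ := hK₂
  haveI := hF
  exact finiteDimensional_inclusion_of_le_sup hle F (sup_le_sup_right hK' F)

end Finite

section Degree

variable {r : ℕ} [hr : Fact r.Prime] {A : ValuationSubring Ω}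

/-- **residue degree one**: for bases `K' ≤ K₂` every residue class of `A ∩ K₂` is represented in
`A ∩ K'`. -/
theorem exists_sub_baseRingIncl_mem_maximalIdeal {K' K₂ : IntermediateField ℚ Ω} (hle : K' ≤ K₂)
    (hA : A.LiesOverPrime r) (hK' : flatBase r ≤ K') (b : ↥(baseRing A K₂)) :
    ∃ a : ↥(baseRing A K'), b - MP.baseRingIncl hle A a ∈
      IsLocalRing.maximalIdeal ↥(baseRing A K₂) := by
  obtain ⟨x, hx⟩ := (JA.residueField_map_baseRingIncl_bijective hA hK' hle).2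
    (IsLocalRing.residue _ b)
  obtain ⟨a, rfl⟩ := IsLocalRing.residue_surjective x
  refine ⟨a, ?_⟩
  have h1 : IsLocalRing.residue ↥(baseRing A K₂) (JA.baseRingIncl A hle a) =
      IsLocalRing.residue ↥(baseRing A K₂) b := hx
  have h2 : IsLocalRing.residue ↥(baseRing A K₂) (b - JA.baseRingIncl A hle a) = 0 := by
    rw [map_sub, h1, sub_self]
  exact (IsLocalRing.residue_eq_zero_iff _).1 h2

variable {K₁ : IntermediateField ℚ Ω} [Normal ℚ ↥K₁] {H : Subgroup GQ}

/-- **`[K₁ : Fix_{K₁}(H)] ≤ e`** for `H ≤ I_A`, when a uniformizer of `R' = A ∩ Fix_{K₁}(H)` is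
`π ^ e · unit` in `R = A ∩ K₁` (total ramification). -/
theorem finrank_baseIncl_fixIn_le (hA : A.LiesOverPrime r) (hH : H ≤ A.inertiaSubgroupIn ℚ)
    (hK₁ : IsBase r K₁) {ϖ' : ↥(baseRing A (fixIn K₁ H))} (hϖ' : Irreducible ϖ')
    {π : ↥(baseRing A K₁)} (hπ : Irreducible π) {e : ℕ} {ε : (↥(baseRing A K₁))ˣ}
    (he : MP.baseRingIncl (fixIn_le K₁ H) A ϖ' = π ^ e * (ε : ↥(baseRing A K₁))) :
    letI := (baseIncl (fixIn_le K₁ H)).toAlgebra
    Module.finrank ↥(fixIn K₁ H) ↥K₁ ≤ e := by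
  have hK' : IsBase r (fixIn K₁ H) := isBase_fixIn hA hH hK₁
  haveI := hK'.isDiscreteValuationRing hA
  haveI := hK₁.isDiscreteValuationRing hA
  letI : Algebra ↥(fixIn K₁ H) ↥K₁ := (baseIncl (fixIn_le K₁ H)).toAlgebra
  letI : Algebra ↥(baseRing A (fixIn K₁ H)) ↥(baseRing A K₁) :=
    (MP.baseRingIncl (fixIn_le K₁ H) A).toAlgebra
  letI : Algebra ↥(baseRing A (fixIn K₁ H)) ↥K₁ :=
    ((baseIncl (fixIn_le K₁ H)).comp
      (algebraMap ↥(baseRing A (fixIn K₁ H)) ↥(fixIn K₁ H))).toAlgebra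
  haveI : IsScalarTower ↥(baseRing A (fixIn K₁ H)) ↥(fixIn K₁ H) ↥K₁ :=
    IsScalarTower.of_algebraMap_eq fun x => rfl
  haveI : IsScalarTower ↥(baseRing A (fixIn K₁ H)) ↥(baseRing A K₁) ↥K₁ :=
    IsScalarTower.of_algebraMap_eq fun x => rfl
  haveI : FiniteDimensional ↥(fixIn K₁ H) ↥K₁ :=
    finiteDimensional_baseIncl (fixIn_le K₁ H) hK'.flatBase_le hK₁
  have hint : Algebra.IsIntegral ↥(baseRing A (fixIn K₁ H)) ↥(baseRing A K₁) :=
    algebraMap_isIntegral_iff.mp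
      (isIntegral_baseRingIncl_fixIn hH (finite_map_resGal_of_le_inertia hA hH hK₁))
  exact finrank_le_of_totally_ramified (K := ↥(fixIn K₁ H)) (L := ↥K₁) hint
    (exists_sub_baseRingIncl_mem_maximalIdeal (fixIn_le K₁ H) hA hK'.flatBase_le) hϖ' hπ he

end Degree

section Cyclo

variable {r : ℕ} [hr : Fact r.Prime] {A : ValuationSubring Ω} {K' K₁ : IntermediateField ℚ Ω}
  (hle : K' ≤ K₁)

/-- the valuation of a uniformizer of `A ∩ K₁` lies strictly between `0` and `1`. -/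
theorem valuation_irreducible_baseRing {K : IntermediateField ℚ Ω} {π : ↥(baseRing A K)}
    (hπ : Irreducible π) :
    0 < A.valuation (((π : ↥K) : Ω)) ∧ A.valuation (((π : ↥K) : Ω)) < 1 := by
  constructor
  · rw [zero_lt_iff, Valuation.ne_zero_iff]
    intro h
    apply hπ.ne_zero
    apply Subtype.ext
    apply Subtype.ext
    exact h
  · rw [← mem_maximalIdeal_baseRing_iff]
    exact (IsLocalRing.mem_maximalIdeal _).2 hπ.not_isUnit

/-- **`(r - 1) ∣ e`** as soon as `ζ_r ∈ K₁`, where `r = π ^ e · unit` in `R = A ∩ K₁`. -/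
theorem sub_one_dvd_of_primitiveRoot_mem (hA : A.LiesOverPrime r)
    [IsDiscreteValuationRing ↥(baseRing A K₁)] {ζ : Ω} (hζ : IsPrimitiveRoot ζ r) (hζK : ζ ∈ K₁)
    {π : ↥(baseRing A K₁)} (hπ : Irreducible π) {e : ℕ} {ε : (↥(baseRing A K₁))ˣ}
    (he : MP.baseRingIncl hle A ((r : ℕ) : ↥(baseRing A K')) = π ^ e * (ε : ↥(baseRing A K₁))) :
    (r - 1) ∣ e := by
  obtain ⟨hcpos, hc1⟩ := valuation_irreducible_baseRing hπ
  set c := A.valuation (((π : ↥K₁) : Ω)) with hc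
  have hvε : A.valuation ((((ε : ↥(baseRing A K₁)) : ↥K₁)) : Ω) = 1 :=
    (isUnit_baseRing_iff _).1 ε.isUnit
  -- the valuation of `r`
  have hvr : A.valuation ((r : ℕ) : Ω) = c ^ e := by
    have h1 := congrArg (fun x : ↥(baseRing A K₁) => A.valuation (((x : ↥K₁)) : Ω)) he
    have h2 : (((MP.baseRingIncl hle A ((r : ℕ) : ↥(baseRing A K')) : ↥(baseRing A K₁)) : ↥K₁) : Ω)
        = ((r : ℕ) : Ω) := by
      rw [coe_baseRingIncl, coe_baseIncl]
      simp
    have h3 : (((π ^ e * (ε : ↥(baseRing A K₁)) : ↥(baseRing A K₁)) : ↥K₁) : Ω) =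
        (((π : ↥K₁) : Ω)) ^ e * ((((ε : ↥(baseRing A K₁)) : ↥K₁)) : Ω) := by
      push_cast
      rfl
    simp only [h2, h3] at h1
    rw [h1, map_mul, map_pow, hvε, mul_one]
  -- the valuation of `ζ - 1`
  have hζA : ζ ∈ A := Fermat.Agent.TW.mem_of_isIntegral_int A (hζ.isIntegral hr.out.pos)
  have hζmem : (⟨ζ, hζK⟩ : ↥K₁) ∈ baseRing A K₁ :=
    mem_baseRing_iff.2 ((A.valuation_le_one_iff _).2 hζA)
  set ζR : ↥(baseRing A K₁) := ⟨⟨ζ, hζK⟩, hζmem⟩ with hζR
  have hcoe : (((ζR - 1 : ↥(baseRing A K₁)) : ↥K₁) : Ω) = ζ - 1 := by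
    push_cast
    rfl
  have h0 : ζR - 1 ≠ 0 := by
    intro h
    rw [h] at hcoe
    have h1 : ζ = 1 := by
      have : (0 : Ω) = ζ - 1 := hcoe
      exact (sub_eq_zero.1 this.symm)
    exact hζ.ne_one hr.out.one_lt h1
  obtain ⟨n, u, hu⟩ := IsDiscreteValuationRing.eq_unit_mul_pow_irreducible h0 hπ
  have hvu : A.valuation ((((u : ↥(baseRing A K₁)) : ↥K₁)) : Ω) = 1 :=
    (isUnit_baseRing_iff _).1 u.isUnit
  have hvζ : A.valuation (ζ - 1) = c ^ n := by
    rw [← hcoe, hu]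
    have h3 : ((((u : ↥(baseRing A K₁)) * π ^ n : ↥(baseRing A K₁)) : ↥K₁) : Ω) =
        ((((u : ↥(baseRing A K₁)) : ↥K₁)) : Ω) * (((π : ↥K₁) : Ω)) ^ n := by
      push_cast
      rfl
    rw [h3, map_mul, map_pow, hvu, one_mul]
  have h4 := Fermat.Agent.TW.valuation_sub_one_pow_eq (P := A) hr.out hζ
  rw [hvζ, hvr, ← pow_mul] at h4
  have hinj : Function.Injective (fun k : ℕ => c ^ k) :=
    pow_right_injective₀ hcpos (ne_of_lt hc1)
  have h5 : n * (r - 1) = e := hinj h4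
  exact Dvd.intro_left n h5

end Cyclo

section Package

variable {r : ℕ} [hr : Fact r.Prime] (A : ValuationSubring Ω) (K₁ : IntermediateField ℚ Ω)

/-- **the small base**: the inertia field `K' = Fix_{K₁}(I_A)` of `A` in `K₁`. -/
def inertiaBase : IntermediateField ℚ Ω := fixIn K₁ (A.inertiaSubgroupIn ℚ)

theorem inertiaBase_le : inertiaBase A K₁ ≤ K₁ := fixIn_le K₁ _

theorem inertiaBase_le_fixedField :
    inertiaBase A K₁ ≤ IntermediateField.fixedField (A.inertiaSubgroupIn ℚ) := inf_le_right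

variable {A K₁}

theorem isBase_inertiaBase (hA : A.LiesOverPrime r) (hK₁ : IsBase r K₁) :
    IsBase r (inertiaBase A K₁) := isBase_fixIn hA le_rfl hK₁

/-- **`r` is a uniformizer of `R' = A ∩ K'`.** -/
theorem irreducible_prime_inertiaBase (hA : A.LiesOverPrime r) :
    Irreducible ((r : ℕ) : ↥(baseRing A (inertiaBase A K₁))) :=
  Fermat.Agent.S35.irreducible_prime_of_le_fixedField hA (inertiaBase_le_fixedField A K₁)

/-- **(h1)** for `K' = inertiaBase A K₁`. -/
theorem inertiaBase_mem_iff [Normal ℚ ↥K₁] (hA : A.LiesOverPrime r) (hK₁ : IsBase r K₁) (σ : GQ)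
    (hσ : ∀ c ∈ inertiaBase A K₁, σ c = c) : ∀ c ∈ K₁, (c ∈ A ↔ σ c ∈ A) :=
  mem_iff_map_mem_of_fixing_fixIn hA le_rfl hK₁ σ hσ

/-- `K₁ / K'` is finite. -/
theorem finiteDimensional_inertiaBase (hA : A.LiesOverPrime r) (hK₁ : IsBase r K₁) :
    letI := (baseIncl (inertiaBase_le A K₁)).toAlgebra
    FiniteDimensional ↥(inertiaBase A K₁) ↥K₁ :=
  finiteDimensional_baseIncl (inertiaBase_le A K₁) (isBase_inertiaBase hA hK₁).flatBase_le hK₁

/-- **(O8) the package for `K' = inertiaBase A K₁ ≤ K₁`**, `K₁` a Galois base containing `ζ_r`: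
`K'` is a base, (h1) holds, `r` is a uniformizer of `R'`, `K₁ / K'` is finite, and for every
uniformizer `π` of `R`: `r = π ^ e · ε₀` with `(r - 1) ∣ e` and `[K₁ : K'] ≤ e`. -/
theorem inertiaBase_package (hA : A.LiesOverPrime r) (hK₁ : IsGalBase r K₁) {ζ : Ω}
    (hζ : IsPrimitiveRoot ζ r) (hζK : ζ ∈ K₁) {π : ↥(baseRing A K₁)} (hπ : Irreducible π) :
    IsBase r (inertiaBase A K₁) ∧
      (∀ σ : GQ, (∀ c ∈ inertiaBase A K₁, σ c = c) → ∀ c ∈ K₁, (c ∈ A ↔ σ c ∈ A)) ∧
      Irreducible ((r : ℕ) : ↥(baseRing A (inertiaBase A K₁))) ∧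
      (letI := (baseIncl (inertiaBase_le A K₁)).toAlgebra
       FiniteDimensional ↥(inertiaBase A K₁) ↥K₁) ∧
      ∃ (e : ℕ) (ε₀ : (↥(baseRing A K₁))ˣ),
        MP.baseRingIncl (inertiaBase_le A K₁) A ((r : ℕ) : ↥(baseRing A (inertiaBase A K₁))) =
          π ^ e * (ε₀ : ↥(baseRing A K₁)) ∧
        (r - 1) ∣ e ∧
        (letI := (baseIncl (inertiaBase_le A K₁)).toAlgebra
         Module.finrank ↥(inertiaBase A K₁) ↥K₁ ≤ e) := by
  haveI := hK₁.normal
  have hB := hK₁.isBase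
  haveI := hB.isDiscreteValuationRing hA
  have hirr : Irreducible ((r : ℕ) : ↥(baseRing A (inertiaBase A K₁))) :=
    irreducible_prime_inertiaBase hA
  refine ⟨isBase_inertiaBase hA hB, inertiaBase_mem_iff hA hB, hirr,
    finiteDimensional_inertiaBase hA hB, ?_⟩
  -- `r = π ^ e · ε₀`
  have h0 : MP.baseRingIncl (inertiaBase_le A K₁) A
      ((r : ℕ) : ↥(baseRing A (inertiaBase A K₁))) ≠ 0 := by
    intro h
    have h1 := MP.baseRingIncl_injective (inertiaBase_le A K₁) A (h.trans (map_zero _).symm)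
    exact hirr.ne_zero h1
  obtain ⟨e, u, hu⟩ := IsDiscreteValuationRing.eq_unit_mul_pow_irreducible h0 hπ
  have he : MP.baseRingIncl (inertiaBase_le A K₁) A
      ((r : ℕ) : ↥(baseRing A (inertiaBase A K₁))) = π ^ e * (u : ↥(baseRing A K₁)) := by
    rw [hu, mul_comm]
  exact ⟨e, u, he, sub_one_dvd_of_primitiveRoot_mem (inertiaBase_le A K₁) hA hζ hζK hπ he,
    finrank_baseIncl_fixIn_le hA le_rfl hB hirr hπ he⟩

end Package

end

end Fermat.Agent.RB
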