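/-
RB [BB3] = (KEY-H), package D [SHAPE+BCH] — helper5 — part 14: **(O11a) the model of the Kummer
cover `E'' = legEL K₁ (M' r) 1` at EVERY sufficiently large Galois base `K₁`.**

A faithful character `ψF` of `(ℤ/r)ˣ` with values in `A ∩ flatBase r` is fixed once and for all;
`legPsi A K₁ ψF` is its image in `A ∩ K₁` for every base `K₁`.  The function
`f = (u ^ (r-1))(x²)` over `Ω` (`legResF Ω … ψΩ`) does not depend on the base, hence neither does
its (finite) support; `K₀` is a base containing `ζ_r` and a finite set over which the support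
becomes rational (helper7's (RAT-fin)).  For every Galois base `K₁ ⊇ K₀` the small base is
`K' = inertiaBase A K₁` (helper7's (O8) package).

* `legELBC_legResF` : base change of `f` to `Ω`;
* `legL_kummer_cover_galBase` : the statement.
-/
import Mathlib
import Fermat.Agent.RB.KEYH_helper5_LegInst
import Fermat.Agent.RB.KEYH_helper7_Bases
import Fermat.Agent.JA.O1_helper9_YData

set_option autoImplicit false
set_option linter.unusedSectionVars false
set_option linter.unusedVariables false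
set_option linter.style.haveILetI false
set_option synthInstance.maxHeartbeats 400000

open HahnSeries IntermediateField AlgebraicCurve ModularCurve Polynomial

namespace Fermat.Agent.RB

open Fermat.Agent.JA Fermat.Agent.Igusa Fermat.Agent.SS Fermat.Agent.FF Fermat.Agent.MP
  Fermat.Agent.W1 Fermat.Agent.SS.TwoExt

open scoped Fermat.Agent.JA.Host

/-- `Ω = AlgebraicClosure ℚ`. -/
local notation "Ω" => AlgebraicClosure ℚ

/-- the absolute Galois group. -/
local notation "GQ" => (AlgebraicClosure ℚ ≃ₐ[ℚ] AlgebraicClosure ℚ)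

noncomputable section

attribute [local instance] baseToComplex

section Psi

variable (A : ValuationSubring Ω) {r : ℕ}

/-- the image in `A ∩ K₁` of a character with values in `A ∩ flatBase r`. -/
def legPsi {K₁ : IntermediateField ℚ Ω} (hK₁ : flatBase r ≤ K₁)
    (ψF : MulChar (ZMod r) ↥(baseRing A (flatBase r))) : MulChar (ZMod r) ↥(baseRing A K₁) :=
  ψF.ringHomComp (baseRingIncl hK₁ A)

theorem legPsi_injective {K₁ : IntermediateField ℚ Ω} (hK₁ : flatBase r ≤ K₁)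
    (ψF : MulChar (ZMod r) ↥(baseRing A (flatBase r)))
    (hψ : Function.Injective fun d : (ZMod r)ˣ => ψF (d : ZMod r)) :
    Function.Injective fun d : (ZMod r)ˣ => legPsi A hK₁ ψF (d : ZMod r) := by
  intro d d' h
  apply hψ
  exact baseRingIncl_injective hK₁ A h

end Psi

section BCOmega

variable (K₁ : IntermediateField ℚ Ω) {M' r : ℕ} [NeZero M'] [NeZero r] [NeZero (M' * r)]
  {x y : ℤ}

/-- the base change of `f` to `Ω`. -/
theorem legELBC_legResF (hbez : (r : ℤ) * x + M' * y = 1) (hM' : 2 ≤ M')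
    (hcop : Nat.Coprime M' r) (ψ : MulChar (ZMod r) ↥K₁) :
    letI := omegaToComplex
    haveI := isScalarTower_omegaToComplex
    haveI := isScalarTower_baseToComplex K₁
    legELBC K₁ M' r (legResF ↥K₁ hbez hM' hcop ψ) =
      legResF Ω hbez hM' hcop (ψ.ringHomComp (algebraMap ↥K₁ Ω)) := by
  letI := omegaToComplex
  haveI := isScalarTower_omegaToComplex
  haveI := isScalarTower_baseToComplex K₁
  apply Subtype.ext
  rw [coe_legHostBC, coe_legResF, coe_legResF, coeffMap_qExpand, map_pow, coeffMap_uSer]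

end BCOmega

section Main

set_option maxHeartbeats 3200000 in
/-- **(O11a) the model of the Kummer cover `E'' = legEL K₁ (M' r) 1` of `EN₁ = legEL K₁ M' r` at
every Galois base `K₁ ⊇ K₀`.** -/
theorem legL_kummer_cover_galBase (M' r : ℕ) [NeZero M'] [NeZero r] [NeZero (M' * r)]
    (hM' : 5 ≤ M') (hr : r.Prime) (hr2 : r ≠ 2) (hrM : ¬ r ∣ M')
    (A : ValuationSubring Ω) (hA : A.LiesOverPrime r)
    (x y : ℤ) (hbez : (r : ℤ) * x + M' * y = 1)
    (ψF : MulChar (ZMod r) ↥(baseRing A (flatBase r)))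
    (hψ : Function.Injective fun d : (ZMod r)ˣ => ψF (d : ZMod r)) :
    ∃ K₀ : IntermediateField ℚ Ω, IsBase r K₀ ∧ (∀ ζ : Ω, ζ ^ r = 1 → ζ ∈ K₀) ∧
      ∀ K₁ : IntermediateField ℚ Ω, IsGalBase r K₁ → K₀ ≤ K₁ → ∀ (hflat : flatBase r ≤ K₁)
        [IsDiscreteValuationRing ↥(baseRing A K₁)] [CharZero ↥(baseRing A K₁)]
        [DecidableEq ↥(baseRing A K₁)] (ϖ : ↥(baseRing A K₁)) (hϖ : Irreducible ϖ)
        (h2 : IsUnit (2 : ↥(baseRing A K₁))),
      haveI := isScalarTower_baseToComplex K₁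
      haveI : Fact (legEL ↥K₁ M' r ≤ legEL ↥K₁ (M' * r) 1) :=
        ⟨legEL_raise_le ↥K₁ M' r (by omega)⟩
      haveI : FiniteDimensional ↥(↥K₁)⟮jqNModC ↥K₁ 2⟯ ↥(legEL ↥K₁ M' r) :=
        finite_legEL_adjoin_j_base K₁ hr hrM (by omega)
      haveI : FiniteDimensional ↥(↥K₁)⟮jqNModC ↥K₁ 2⟯ ↥(legEL ↥K₁ (M' * r) 1) :=
        finite_legEL_raise_adjoin_j_base K₁ hr hrM (by omega)
      ∃ (Winf'' W0'' : ValuationSubring ↥(legEL ↥K₁ (M' * r) 1))
        (two'' : IsTwoSheet ϖ (AdjoinSimple.gen ↥K₁ (jqNModC ↥K₁ 2)) Winf'' W0''),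
        IsExt (legWinfL ↥(baseRing A K₁) ↥K₁ h2 M' r) Winf'' ∧
        IsExt (legW0L ↥(baseRing A K₁) ↥K₁ hbez hr) W0'' ∧
        IsModelChart ↥(legEL ↥K₁ (M' * r) 1) ϖ
          (sheetIdeal (AdjoinSimple.gen ↥K₁ (jqNModC ↥K₁ 2)) Winf'' two''.chart_le_inf)
          (sheetIdeal (AdjoinSimple.gen ↥K₁ (jqNModC ↥K₁ 2)) W0'' two''.chart_le_zero) ∧
        IsModelChart ↥(legEL ↥K₁ (M' * r) 1) ϖ
          (sheetIdeal (AdjoinSimple.gen ↥K₁ (jqNModC ↥K₁ 2))⁻¹ Winf''
            (two''.inv hϖ).chart_le_inf)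
          (sheetIdeal (AdjoinSimple.gen ↥K₁ (jqNModC ↥K₁ 2))⁻¹ W0''
            (two''.inv hϖ).chart_le_zero) ∧
        Module.finrank ↥(legEL ↥K₁ M' r) ↥(legEL ↥K₁ (M' * r) 1) = r - 1 ∧
        (∃ (xi' : ↥(legEL ↥K₁ (M' * r) 1)) (si : ℤ) (wi : ↥(legEL ↥K₁ M' r)), wi ≠ 0 ∧
          xi' = legResU ↥K₁ hbez (by omega)
            ((legPsi A hflat ψF).ringHomComp (algebraMap ↥(baseRing A K₁) ↥K₁)) ^ si *
            algebraMap ↥(legEL ↥K₁ M' r) ↥(legEL ↥K₁ (M' * r) 1) wi ∧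
          Winf''.valuation xi' = 1 ∧
          ∀ z ∈ Winf'', ∃ a : Fin (r - 1) → ↥(legEL ↥K₁ M' r),
            (∀ i, a i ∈ legWinfL ↥(baseRing A K₁) ↥K₁ h2 M' r) ∧
            Winf''.valuation (z - ∑ i,
              algebraMap ↥(legEL ↥K₁ M' r) ↥(legEL ↥K₁ (M' * r) 1) (a i) * xi' ^ (i : ℕ)) < 1) ∧
        (∃ (xz' : ↥(legEL ↥K₁ (M' * r) 1)) (sz : ℤ) (wz : ↥(legEL ↥K₁ M' r)), wz ≠ 0 ∧
          xz' = legResU ↥K₁ hbez (by omega)
            ((legPsi A hflat ψF).ringHomComp (algebraMap ↥(baseRing A K₁) ↥K₁)) ^ sz *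
            algebraMap ↥(legEL ↥K₁ M' r) ↥(legEL ↥K₁ (M' * r) 1) wz ∧
          W0''.valuation xz' = 1 ∧
          ∀ z ∈ W0'', ∃ a : Fin (r - 1) → ↥(legEL ↥K₁ M' r),
            (∀ i, a i ∈ legW0L ↥(baseRing A K₁) ↥K₁ hbez hr) ∧
            W0''.valuation (z - ∑ i,
              algebraMap ↥(legEL ↥K₁ M' r) ↥(legEL ↥K₁ (M' * r) 1) (a i) * xz' ^ (i : ℕ)) < 1) := by
  classical
  haveI : Fact r.Prime := ⟨hr⟩
  letI := omegaToComplex
  haveI := isScalarTower_omegaToComplex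
  have hM1 : M' ≠ 1 := by omega
  have hM2 : 2 ≤ M' := by omega
  have hcop : Nat.Coprime M' r := ((Nat.Prime.coprime_iff_not_dvd hr).mpr hrM).symm
  -- the function over `Ω` and its support
  set ψΩ : MulChar (ZMod r) Ω := (ψF.ringHomComp
    (algebraMap ↥(baseRing A (flatBase r)) ↥(flatBase r))).ringHomComp
      (algebraMap ↥(flatBase r) Ω) with hψΩ
  set fΩ : ↥(legEL Ω M' r) := legResF Ω hbez hM2 hcop ψΩ with hfΩ
  haveI := hasPrincipalDivisors_legEL (M := M') hr hrM hM1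
  set s : Finset (Place Ω ↥(legEL Ω M' r)) :=
    (finite_setOf_ord_ne_zero (K := Ω) fΩ).toFinset with hs
  obtain ⟨t, ht⟩ := exists_finset_forall_isRationalPlace_legEL (flatBase r) hr hrM hM1 s
  haveI : NeZero ((r : ℕ) : Ω) := ⟨by exact_mod_cast hr.ne_zero⟩
  obtain ⟨ζ, hζ⟩ := HasEnoughRootsOfUnity.exists_primitiveRoot Ω r
  obtain ⟨K₀, hK₀, hle₀, hmem⟩ := (isBase_flatBase (ℓ := r)).exists_ge_forall_mem (insert ζ t)
  refine ⟨K₀, hK₀, ?_, ?_⟩
  · intro ξ hξ
    obtain ⟨i, -, rfl⟩ := hζ.eq_pow_of_pow_eq_one hξ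
    exact pow_mem (hmem ζ (Finset.mem_insert_self _ _)) i
  intro K₁ hK₁ h0 hflat _ _ _ ϖ hϖ h2
  haveI := isScalarTower_baseToComplex K₁
  obtain ⟨hK', h1, hirr, hfin, e, ε₀, hφπ, hme, hdeg⟩ := inertiaBase_package hA hK₁ hζ
    (h0 (hmem ζ (Finset.mem_insert_self _ _))) hϖ
  haveI := hK'.isDiscreteValuationRing hA
  haveI : CharZero ↥(baseRing A (inertiaBase A K₁)) := charZero_valuationSubring_of_algebraRat _
  haveI := isScalarTower_baseToComplex (inertiaBase A K₁)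
  have h2' : IsUnit (2 : ↥(baseRing A (inertiaBase A K₁))) :=
    isUnit_ofNat_baseRing hA (inertiaBase A K₁) Nat.prime_two hr2
  have he : 0 < e := by
    letI := (baseIncl (inertiaBase_le A K₁)).toAlgebra
    haveI := hfin
    exact lt_of_lt_of_le Module.finrank_pos hdeg
  have hψeq : (legPsi A hK'.flatBase_le ψF).ringHomComp (baseRingIncl (inertiaBase_le A K₁) A) =
      legPsi A hflat ψF := by
    ext a
    rfl
  have hψΩeq : ((legPsi A hK'.flatBase_le ψF).ringHomComp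
      (algebraMap ↥(baseRing A (inertiaBase A K₁)) ↥(inertiaBase A K₁))).ringHomComp
        (algebraMap ↥(inertiaBase A K₁) Ω) = ψΩ := by
    ext a
    rfl
  have hrat : ∀ Q : Place Ω ↥(legEL Ω M' r),
      Q.ord (legELBC (inertiaBase A K₁) M' r (legResF ↥(inertiaBase A K₁) hbez hM2 hcop
        ((legPsi A hK'.flatBase_le ψF).ringHomComp
          (algebraMap ↥(baseRing A (inertiaBase A K₁)) ↥(inertiaBase A K₁))))) ≠ 0 →
      IsRationalPlace (restrictBC (legELBC K₁ M' r) (legHostBC_algebraMap (W1.F₁ M' r) K₁)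
        (closure_range_legHostBC (W1.F₁ M' r) K₁) Q) := by
    intro Q hQ
    rw [legELBC_legResF (inertiaBase A K₁) hbez hM2 hcop, hψΩeq] at hQ
    refine ht K₁ hflat (fun c hc => h0 (hmem c (Finset.mem_insert_of_mem hc))) Q ?_
    rw [hs, Set.Finite.mem_toFinset]
    exact hQ
  have key := legL_kummer_cover M' r hM' hr hr2 hrM A hA (inertiaBase_le A K₁) hK' hK₁.isBase
    ((r : ℕ) : ↥(baseRing A (inertiaBase A K₁))) hirr ϖ hϖ h2' h2 x y hbez hfin he hdeg hφπ hme
    1 1 (by rw [Units.val_one, one_mul, pow_one]) (Nat.coprime_one_left _)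
    (legPsi A hK'.flatBase_le ψF) (legPsi_injective A hK'.flatBase_le ψF hψ) h1 hrat
  rw [hψeq] at key
  exact key

end Main

end

end Fermat.Agent.RB
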