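/-
RB [BB3] = (KEY-H), package E [REC-σ] — helper8 — part 9: **the literal of the concrete host glue**
(`LegLEFacts`): from the model of the Kummer cover `E'' = legEL K₁ (M' r) 1` of
`EN₁ = legEL K₁ M' r` (the conclusion of helper5's `legL_kummer_cover_galBase`) to the diamond
automorphism `δ` with its dictionary and the seven `E`-facts, in the shapes of helper4's
`DESC1.hostThetaAt_of_sheets`.
-/
import Mathlib
import Fermat.Agent.RB.KEYH_helper5_LegInst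
import Fermat.Agent.RB.KEYH_helper8_Aut
import Fermat.Agent.RB.DESC1_helper4_Iface

set_option autoImplicit false
set_option linter.unusedSectionVars false
set_option linter.unusedVariables false
set_option linter.style.haveILetI false
set_option synthInstance.maxHeartbeats 400000

open HahnSeries IntermediateField AlgebraicCurve ModularCurve Polynomial

namespace Fermat.Agent.RB

open Fermat.Agent.JA Fermat.Agent.Igusa Fermat.Agent.SS Fermat.Agent.FF Fermat.Agent.MP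
  Fermat.Agent.W1 Fermat.Agent.SS.TwoExt Fermat.Agent.TW.Kill

open scoped Fermat.Agent.JA.Host

/-- `Ω = AlgebraicClosure ℚ`. -/
local notation "Ω" => AlgebraicClosure ℚ

/-- the absolute Galois group. -/
local notation "GQ" => (AlgebraicClosure ℚ ≃ₐ[ℚ] AlgebraicClosure ℚ)

noncomputable section

attribute [local instance] baseToComplex

set_option maxHeartbeats 3200000 in
/-- **the concrete host glue, as a statement.** -/
def LegLEFacts : Prop :=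
  ∀ (M' r : ℕ) [NeZero M'] [NeZero r] [NeZero (M' * r)]
    (hM' : 5 ≤ M') (hr : r.Prime) (hr2 : r ≠ 2) (hrM : ¬ r ∣ M')
    (A : ValuationSubring Ω) (hA : A.LiesOverPrime r)
    (K₁ : IntermediateField ℚ Ω) [Normal ℚ ↥K₁] (hK₁ : IsBase r K₁)
    [IsDiscreteValuationRing ↥(baseRing A K₁)] [CharZero ↥(baseRing A K₁)]
    [DecidableEq ↥(baseRing A K₁)] (ϖ : ↥(baseRing A K₁)) (hϖ : Irreducible ϖ)
    (h2 : IsUnit (2 : ↥(baseRing A K₁))) (x y : ℤ) (hbez : (r : ℤ) * x + M' * y = 1)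
    (hζK : ∀ ζ : Ω, ζ ^ r = 1 → ζ ∈ K₁)
    (ψR : MulChar (ZMod r) ↥(baseRing A K₁))
    (hψ : Function.Injective fun d : (ZMod r)ˣ => ψR (d : ZMod r))
    {σ : GQ} (hσ : σ ∈ A.inertiaSubgroupIn ℚ),
    haveI := isScalarTower_baseToComplex K₁
    haveI : Fact (legEL ↥K₁ M' r ≤ legEL ↥K₁ (M' * r) 1) :=
      ⟨legEL_raise_le ↥K₁ M' r (by omega)⟩
    haveI : FiniteDimensional ↥(↥K₁)⟮jqNModC ↥K₁ 2⟯ ↥(legEL ↥K₁ M' r) :=
      finite_legEL_adjoin_j_base K₁ hr hrM (by omega)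
    haveI : FiniteDimensional ↥(↥K₁)⟮jqNModC ↥K₁ 2⟯ ↥(legEL ↥K₁ (M' * r) 1) :=
      finite_legEL_raise_adjoin_j_base K₁ hr hrM (by omega)
    ∀ (Winf'' W0'' : ValuationSubring ↥(legEL ↥K₁ (M' * r) 1))
      (two'' : IsTwoSheet ϖ (AdjoinSimple.gen ↥K₁ (jqNModC ↥K₁ 2)) Winf'' W0''),
      IsExt (legWinfL ↥(baseRing A K₁) ↥K₁ h2 M' r) Winf'' →
      IsExt (legW0L ↥(baseRing A K₁) ↥K₁ hbez hr) W0'' →
      Module.finrank ↥(legEL ↥K₁ M' r) ↥(legEL ↥K₁ (M' * r) 1) = r - 1 →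
      (∃ (xi' : ↥(legEL ↥K₁ (M' * r) 1)) (si : ℤ) (wi : ↥(legEL ↥K₁ M' r)), wi ≠ 0 ∧
        xi' = legResU ↥K₁ hbez (by omega)
          (ψR.ringHomComp (algebraMap ↥(baseRing A K₁) ↥K₁)) ^ si *
          algebraMap ↥(legEL ↥K₁ M' r) ↥(legEL ↥K₁ (M' * r) 1) wi ∧
        Winf''.valuation xi' = 1 ∧
        ∀ z ∈ Winf'', ∃ a : Fin (r - 1) → ↥(legEL ↥K₁ M' r),
          (∀ i, a i ∈ legWinfL ↥(baseRing A K₁) ↥K₁ h2 M' r) ∧
          Winf''.valuation (z - ∑ i,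
            algebraMap ↥(legEL ↥K₁ M' r) ↥(legEL ↥K₁ (M' * r) 1) (a i) * xi' ^ (i : ℕ)) < 1) →
      (∃ (xz' : ↥(legEL ↥K₁ (M' * r) 1)) (sz : ℤ) (wz : ↥(legEL ↥K₁ M' r)), wz ≠ 0 ∧
        xz' = legResU ↥K₁ hbez (by omega)
          (ψR.ringHomComp (algebraMap ↥(baseRing A K₁) ↥K₁)) ^ sz *
          algebraMap ↥(legEL ↥K₁ M' r) ↥(legEL ↥K₁ (M' * r) 1) wz ∧
        W0''.valuation xz' = 1 ∧
        ∀ z ∈ W0'', ∃ a : Fin (r - 1) → ↥(legEL ↥K₁ M' r),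
          (∀ i, a i ∈ legW0L ↥(baseRing A K₁) ↥K₁ hbez hr) ∧
          W0''.valuation (z - ∑ i,
            algebraMap ↥(legEL ↥K₁ M' r) ↥(legEL ↥K₁ (M' * r) 1) (a i) * xz' ^ (i : ℕ)) < 1) →
      ∃ δ : ↥(legEL ↥K₁ (M' * r) 1) ≃ₐ[↥K₁] ↥(legEL ↥K₁ (M' * r) 1),
        (∀ z : ↥(laurentBaseChange ↥K₁ (F₁ (M' * r) 1)),
          δ (legHostEmb ↥K₁ (F₁ (M' * r) 1) z) =
            legHostEmb ↥K₁ (F₁ (M' * r) 1)
              (diaAlg (k := ↥K₁) (M' * r) 1 (cyc (M' * r) σ)⁻¹ z)) ∧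
        (∀ z : ↥(legEL ↥K₁ (M' * r) 1), z ∈ Winf'' ↔
          coeffRingAut (coeffStable_legHost (K := ↥K₁) (F₁ (M' * r) 1)) (resGal K₁ σ) z ∈
            Winf'') ∧
        (∀ z : ↥(legEL ↥K₁ (M' * r) 1), z ∈ W0'' ↔
          coeffRingAut (coeffStable_legHost (K := ↥K₁) (F₁ (M' * r) 1)) (resGal K₁ σ) z ∈
            W0'') ∧
        (∀ z ∈ Winf'', Winf''.valuation
          (coeffRingAut (coeffStable_legHost (K := ↥K₁) (F₁ (M' * r) 1)) (resGal K₁ σ) z - z) <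
            1) ∧
        (∀ z : ↥(legEL ↥K₁ (M' * r) 1), z ∈ Winf'' ↔ δ z ∈ Winf'') ∧
        (∀ z : ↥(legEL ↥K₁ (M' * r) 1), z ∈ W0'' ↔ δ z ∈ W0'') ∧
        (∀ z : ↥(legEL ↥K₁ (M' * r) 1),
          δ (coeffRingAut (coeffStable_legHost (K := ↥K₁) (F₁ (M' * r) 1)) (resGal K₁ σ) z) =
            coeffRingAut (coeffStable_legHost (K := ↥K₁) (F₁ (M' * r) 1)) (resGal K₁ σ) (δ z)) ∧
        (∀ z ∈ W0'', W0''.valuation
          (coeffRingAut (coeffStable_legHost (K := ↥K₁) (F₁ (M' * r) 1)) (resGal K₁ σ) z - δ z) <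
            1)

end

end Fermat.Agent.RB
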