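/-
RB [BB3] = (KEY-H), package D [SHAPE+BCH] — helper5 — part 15: **the final wiring of the host
literal `DESC1.LegThetaBase`** of package G (helper4) from

* `legL_kummer_cover_galBase` (helper5, (O11a)): the model of the Kummer cover
  `E'' = legEL K₁ (M' r) 1` of `EN₁ = legEL K₁ M' r` at every sufficiently large Galois base;
* `LegLEFacts` (helper8, package E): the diamond automorphism `δ`, its dictionary and the seven
  `E`-facts on the sheets of that model;
* `DESC1.hostThetaAt_of_sheets` (helper4, (O11b)): `HostThetaAt` from the sheets and the `E`-facts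
  (= helper5's `pow_of_inertia_diamond`).
-/
import Mathlib
import Fermat.Agent.RB.KEYH_helper5_LegGal
import Fermat.Agent.RB.DESC1_helper4_Unit
import Fermat.Agent.RB.RECS_helper8_HostLit
import Fermat.Agent.RB.VAL_helper8_LegLS

set_option autoImplicit false
set_option linter.unusedSectionVars false
set_option linter.unusedVariables false
set_option linter.style.haveILetI false
set_option synthInstance.maxHeartbeats 400000

open HahnSeries IntermediateField AlgebraicCurve ModularCurve Polynomial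

namespace Fermat.Agent.RB

open Fermat.Agent.JA Fermat.Agent.Igusa Fermat.Agent.SS Fermat.Agent.FF Fermat.Agent.MP
  Fermat.Agent.W1 Fermat.Agent.SS.TwoExt Fermat.Agent.TW.Kill

open scoped Fermat.Agent.JA.Host

/-- `Ω = AlgebraicClosure ℚ`. -/
local notation "Ω" => AlgebraicClosure ℚ

/-- the absolute Galois group. -/
local notation "GQ" => (AlgebraicClosure ℚ ≃ₐ[ℚ] AlgebraicClosure ℚ)

noncomputable section

attribute [local instance] baseToComplex

set_option maxHeartbeats 3200000 in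
/-- **the host literal `LegThetaBase` of package G from the concrete host glue `LegLEFacts` of
package E.** -/
theorem legThetaBase_of_facts (h : LegLEFacts) : DESC1.LegThetaBase := by
  intro M' r _ _ _ hM' hr hr2 hcop A hA σ hσ p hp hp5 hpr n
  classical
  haveI : Fact r.Prime := ⟨hr⟩
  have hrM : ¬ r ∣ M' := by
    rw [← Nat.Prime.coprime_iff_not_dvd hr]
    exact hcop.symm
  -- a Bézout relation
  obtain ⟨x, y, hbez⟩ : ∃ x y : ℤ, (r : ℤ) * x + M' * y = 1 := by
    have h1 : IsCoprime (r : ℤ) (M' : ℤ) := Nat.isCoprime_iff_coprime.mpr hcop.symm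
    obtain ⟨a, b, hab⟩ := h1
    exact ⟨a, b, by linarith⟩
  -- the faithful character over the flat base
  obtain ⟨ψF, hψF⟩ := exists_faithful_mulChar_baseRing (r := r) A (isBase_flatBase (ℓ := r))
  obtain ⟨K₀, hK₀, hroots, H⟩ :=
    legL_kummer_cover_galBase M' r hM' hr hr2 hrM A hA x y hbez ψF hψF
  refine ⟨K₀, hK₀, fun K₁ _ hK₁ hle => ?_⟩
  have hflat : flatBase r ≤ K₁ := hK₁.flatBase_le
  haveI := hK₁.isBase.isDiscreteValuationRing hA
  haveI : CharZero ↥(baseRing A K₁) := charZero_valuationSubring_of_algebraRat _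
  obtain ⟨ϖ, hϖ⟩ := IsDiscreteValuationRing.exists_irreducible ↥(baseRing A K₁)
  have h2 : IsUnit (2 : ↥(baseRing A K₁)) := isUnit_ofNat_baseRing hA K₁ Nat.prime_two hr2
  haveI := isScalarTower_baseToComplex K₁
  haveI : Fact (legEL ↥K₁ M' r ≤ legEL ↥K₁ (M' * r) 1) :=
    ⟨legEL_raise_le ↥K₁ M' r (by omega)⟩
  haveI : FiniteDimensional ↥(↥K₁)⟮jqNModC ↥K₁ 2⟯ ↥(legEL ↥K₁ M' r) :=
    finite_legEL_adjoin_j_base K₁ hr hrM (by omega)
  haveI : FiniteDimensional ↥(↥K₁)⟮jqNModC ↥K₁ 2⟯ ↥(legEL ↥K₁ (M' * r) 1) :=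
    finite_legEL_raise_adjoin_j_base K₁ hr hrM (by omega)
  obtain ⟨Winf'', W0'', two'', hexti, hext0, hmod₁, hmod₂, hfr, hspani, hspan0⟩ :=
    H K₁ hK₁ hle hflat ϖ hϖ h2
  obtain ⟨δ, hdict, hsinf, hs0, hres, hdinf, hd0, hcomm, hres0⟩ :=
    h M' r hM' hr hr2 hrM A hA K₁ hK₁.isBase ϖ hϖ h2 x y hbez
      (fun ζ hζ => hle (hroots ζ hζ)) (legPsi A hflat ψF) (legPsi_injective A hflat ψF hψF) hσ
      Winf'' W0'' two'' hexti hext0 hfr hspani hspan0
  have hrm : ¬ r ∣ p ^ n := by
    intro hd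
    have h1 : r ∣ p := hr.dvd_of_dvd_pow hd
    exact hpr ((Nat.prime_dvd_prime_iff_eq hr hp).mp h1).symm
  exact DESC1.hostThetaAt_of_sheets M' r hr A hA K₁ hK₁.isBase ϖ hϖ hσ (pow_pos hp.pos n) hrm
    two'' hmod₁ hmod₂ hsinf hs0 hres δ hdict hdinf hd0 hcomm hres0

end

end Fermat.Agent.RB
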