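/-
PROJECT RB, block [MAZ] (Mazur's principle at `q ≠ p`), package P7 [TORIC-FROB] — helper6 — part 2:
**the Frobenius and the Atkin–Lehner involution act in the same way on the crossing points.**

`SSModelAL A B Winf W0 w` : an involution `w` of the level-`N` field, `R`-linear, swapping the
degeneracy maps (`w ∘ A = B`, `w ∘ B = A`) and the two sheets (the Atkin–Lehner involution `w_q`).

For a Frobenius `sN` of the model (`SSModelFrob`) and a crossing point `𝔫` of the chart `j`:

* `SSModelAL.map_mem_chartOne` : `w` preserves the chart `j`;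
* **`SSModel.frob_sub_al_pow_mem`** : `sN x ≡ (w x) ^ q` modulo `𝔫` for every `x` of the chart — the
  two-map Frobenius congruence (Eichler–Shimura at a supersingular point);
* `SSModel.frob_mem_iff_al_mem` : `sN x ∈ 𝔫 ↔ w x ∈ 𝔫` — the node identification;
* `alPull hw h hπ 𝔫` : the crossing point `𝔫' = w⁻¹ 𝔫 = sN⁻¹ 𝔫`, and the transport of the local rings
  `al_map_mem_locRing`, `frob_map_mem_locRing` and of the congruence `frob_sub_al_pow_mem_locMax`.
-/
import Mathlib
import Fermat.Agent.RB.MAZ_helper6_Res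
import Fermat.Agent.S35.NODEFROB_helper5_Model

set_option autoImplicit false
set_option linter.unusedSectionVars false
set_option linter.style.haveILetI false

namespace Fermat.Agent.RB

open Fermat.Agent.SS Fermat.Agent.JA Fermat.Agent.S35

section Val

variable {E : Type*} [Field E]

/-- a ring endomorphism mapping a valuation subring onto another one (in both directions) maps the
maximal ideal onto the maximal ideal. -/
theorem valuation_map_lt_one_iff_of_swap (V V' : ValuationSubring E) (s : E →+* E)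
    (hs : ∀ x : E, x ∈ V ↔ s x ∈ V') (x : E) : V'.valuation (s x) < 1 ↔ V.valuation x < 1 := by
  by_cases hx : x = 0
  · subst hx; simp
  · have hsx : s x ≠ 0 := (map_ne_zero s).mpr hx
    rw [sinfemb_valuation_lt_one_iff _ hx, sinfemb_valuation_lt_one_iff _ hsx, ← map_inv₀, ← hs]

/-- the same for the units. -/
theorem valuation_map_eq_one_iff_of_swap (V V' : ValuationSubring E) (s : E →+* E)
    (hs : ∀ x : E, x ∈ V ↔ s x ∈ V') (x : E) : V'.valuation (s x) = 1 ↔ V.valuation x = 1 := by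
  have h1 : V'.valuation (s x) ≤ 1 ↔ V.valuation x ≤ 1 := by
    rw [V'.valuation_le_one_iff, V.valuation_le_one_iff, ← hs x]
  have h2 := valuation_map_lt_one_iff_of_swap V V' s hs x
  constructor
  · intro h
    exact le_antisymm (h1.mp h.le) (not_lt.mp fun h3 => (h2.mpr h3).ne h)
  · intro h
    exact le_antisymm (h1.mpr h.le) (not_lt.mp fun h3 => (h2.mp h3).ne h)

end Val

section Chart

variable {R : Type*} [CommRing R] {K : Type*} [Field K] [Algebra R K]
  {E : Type*} [Field E] [Algebra K E] [Algebra R E] [IsScalarTower R K E]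

/-- a ring endomorphism mapping the constants to constants and the coordinate into the chart maps
the chart into itself. -/
theorem map_mem_chartOne_of_coord_mem (u : K) (σ : E →+* E)
    (hσu : σ (algebraMap K E u) ∈ chartOne R E u)
    (hσR : ∀ r : R, ∃ r' : R, σ (algebraMap R E r) = algebraMap R E r')
    {x : E} (hx : x ∈ chartOne R E u) : σ x ∈ chartOne R E u := by
  rw [mem_chartOne_iff] at hx
  have hmem : ∀ a : ↥(Algebra.adjoin R {u}), σ (algebraMap K E (a : K)) ∈ chartOne R E u := by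
    rintro ⟨a, ha⟩
    induction ha using Algebra.adjoin_induction with
    | mem y hy =>
      rw [Set.mem_singleton_iff] at hy
      subst hy
      exact hσu
    | algebraMap r =>
      obtain ⟨r', hr'⟩ := hσR r
      have : algebraMap K E (algebraMap R K r) = algebraMap R E r :=
        (IsScalarTower.algebraMap_apply R K E r).symm
      show σ (algebraMap K E (algebraMap R K r)) ∈ chartOne R E u
      rw [this, hr']
      exact Subalgebra.algebraMap_mem _ r'
    | add y z _ _ hy hz =>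
      show σ (algebraMap K E (y + z)) ∈ chartOne R E u
      rw [map_add, map_add]
      exact Subalgebra.add_mem _ hy hz
    | mul y z _ _ hy hz =>
      show σ (algebraMap K E (y * z)) ∈ chartOne R E u
      rw [map_mul, map_mul]
      exact Subalgebra.mul_mem _ hy hz
  set φ₀ : ↥(Algebra.adjoin R {u}) →+* ↥(chartOne R E u) :=
    ((σ.comp (algebraMap K E)).comp (Algebra.adjoin R {u}).val.toRingHom).codRestrict
      (chartOne R E u) hmem with hφ₀
  have h1 : IsIntegral ↥(chartOne R E u) (σ x) :=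
    IsIntegral.map_of_comp_eq φ₀ σ (RingHom.ext fun a => rfl) hx
  exact sinfemb_mem_chartOne_of_isIntegral u h1

end Chart

section AL

variable {R : Type*} [CommRing R]
  {EM : Type*} [Field EM] [Algebra R EM]
  {EN : Type*} [Field EN] [Algebra R EN]

/-- **the Atkin–Lehner involution of the model**: an `R`-linear involution of the level-`N` field
swapping the degeneracy maps and the two sheets. -/
structure SSModelAL (A B : EM →+* EN) (Winf W0 : ValuationSubring EN) (w : EN →+* EN) : Prop where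
  map_R : ∀ r : R, w (algebraMap R EN r) = algebraMap R EN r
  map_A : ∀ x : EM, w (A x) = B x
  map_B : ∀ x : EM, w (B x) = A x
  invol : ∀ x : EN, w (w x) = x
  mem_inf : ∀ x : EN, x ∈ W0 ↔ w x ∈ Winf

variable {A B : EM →+* EN} {Winf W0 : ValuationSubring EN} {w : EN →+* EN}

theorem SSModelAL.mem_zero (hw : SSModelAL (R := R) A B Winf W0 w) (x : EN) :
    x ∈ Winf ↔ w x ∈ W0 := by
  rw [hw.mem_inf (w x), hw.invol]

theorem SSModelAL.valuation_inf_lt_one_iff (hw : SSModelAL (R := R) A B Winf W0 w) (x : EN) :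
    Winf.valuation (w x) < 1 ↔ W0.valuation x < 1 :=
  valuation_map_lt_one_iff_of_swap W0 Winf w hw.mem_inf x

theorem SSModelAL.valuation_zero_lt_one_iff (hw : SSModelAL (R := R) A B Winf W0 w) (x : EN) :
    W0.valuation (w x) < 1 ↔ Winf.valuation x < 1 :=
  valuation_map_lt_one_iff_of_swap Winf W0 w hw.mem_zero x

end AL

section Model

variable {R : Type*} [CommRing R] [IsDomain R] [IsDiscreteValuationRing R] [CharZero R]
  {K₁ : Type*} [Field K₁] [Algebra R K₁] [IsFractionRing R K₁]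
  {KM : Type*} [Field KM] [Algebra K₁ KM] [Algebra R KM] [IsScalarTower R K₁ KM]
  {EM : Type*} [Field EM] [Algebra KM EM] [Algebra K₁ EM] [IsScalarTower K₁ KM EM] [Algebra R EM]
  [IsScalarTower R KM EM]
  {KN : Type*} [Field KN] [Algebra K₁ KN] [Algebra R KN] [IsScalarTower R K₁ KN]
  {EN : Type*} [Field EN] [Algebra KN EN] [Algebra K₁ EN] [IsScalarTower K₁ KN EN] [Algebra R EN]
  [IsScalarTower R KN EN] [FiniteDimensional KN EN]
  {π : R} {q n : ℕ} {S : Finset R} {t : KM} {jM : EM} {j : KN} {A B : EM →+* EN}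
  {VM : ValuationSubring EM} {Winf W0 : ValuationSubring EN}
  {sR : R →+* R} {sM : EM →+* EM} {sN : EN →+* EN} {w : EN →+* EN}

/-- the Atkin–Lehner involution preserves the chart `j`. -/
theorem SSModelAL.map_mem_chartOne (hw : SSModelAL (R := R) A B Winf W0 w)
    (h : SSModel K₁ π q n S t jM j A B VM Winf W0) (hπ : Irreducible π) {x : EN}
    (hx : x ∈ chartOne R EN j) : w x ∈ chartOne R EN j := by
  refine map_mem_chartOne_of_coord_mem j w ?_ (fun r => ⟨r, hw.map_R r⟩) hx
  rw [← h.A_j, hw.map_A]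
  exact h.jq_mem_chartOne hπ

/-- the Frobenius preserves the chart `j`. -/
theorem frob_map_mem_chartOne (hF : SSModelFrob π q j A B VM Winf W0 sR sM sN) {x : EN}
    (hx : x ∈ chartOne R EN j) : sN x ∈ chartOne R EN j :=
  map_mem_chartOne_of_ringHom j sN hF.map_j (fun r => ⟨sR r, hF.map_R_N r⟩) hx

/-- the Atkin–Lehner involution as an endomorphism of the chart `j`. -/
noncomputable def alChartHom (hw : SSModelAL (R := R) A B Winf W0 w)
    (h : SSModel K₁ π q n S t jM j A B VM Winf W0) (hπ : Irreducible π) :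
    ↥(chartOne R EN j) →+* ↥(chartOne R EN j) :=
  (w.comp (chartOne R EN j).val.toRingHom).codRestrict (chartOne R EN j)
    (fun x => hw.map_mem_chartOne h hπ x.2)

@[simp] theorem coe_alChartHom (hw : SSModelAL (R := R) A B Winf W0 w)
    (h : SSModel K₁ π q n S t jM j A B VM Winf W0) (hπ : Irreducible π)
    (x : ↥(chartOne R EN j)) : ((alChartHom hw h hπ x : ↥(chartOne R EN j)) : EN) = w x := rfl

theorem alChartHom_alChartHom (hw : SSModelAL (R := R) A B Winf W0 w)
    (h : SSModel K₁ π q n S t jM j A B VM Winf W0) (hπ : Irreducible π)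
    (x : ↥(chartOne R EN j)) : alChartHom hw h hπ (alChartHom hw h hπ x) = x :=
  Subtype.ext (hw.invol x)

theorem alChartHom_surjective (hw : SSModelAL (R := R) A B Winf W0 w)
    (h : SSModel K₁ π q n S t jM j A B VM Winf W0) (hπ : Irreducible π) :
    Function.Surjective (alChartHom hw h hπ) :=
  fun x => ⟨alChartHom hw h hπ x, alChartHom_alChartHom hw h hπ x⟩

/-- **the crossing point `w⁻¹ 𝔫`.** -/
noncomputable def alPull (hw : SSModelAL (R := R) A B Winf W0 w)
    (h : SSModel K₁ π q n S t jM j A B VM Winf W0) (hπ : Irreducible π)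
    (𝔫 : Ideal ↥(chartOne R EN j)) : Ideal ↥(chartOne R EN j) :=
  𝔫.comap (alChartHom hw h hπ)

theorem mem_alPull_iff (hw : SSModelAL (R := R) A B Winf W0 w)
    (h : SSModel K₁ π q n S t jM j A B VM Winf W0) (hπ : Irreducible π)
    (𝔫 : Ideal ↥(chartOne R EN j)) (x : ↥(chartOne R EN j)) :
    x ∈ alPull hw h hπ 𝔫 ↔ alChartHom hw h hπ x ∈ 𝔫 := Iff.rfl

instance alPull_isMaximal (hw : SSModelAL (R := R) A B Winf W0 w)
    (h : SSModel K₁ π q n S t jM j A B VM Winf W0) (hπ : Irreducible π)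
    (𝔫 : Ideal ↥(chartOne R EN j)) [h𝔫 : 𝔫.IsMaximal] : (alPull hw h hπ 𝔫).IsMaximal :=
  Ideal.comap_isMaximal_of_surjective _ (alChartHom_surjective hw h hπ)

theorem inf_le_alPull (hw : SSModelAL (R := R) A B Winf W0 w)
    (h : SSModel K₁ π q n S t jM j A B VM Winf W0) (hπ : Irreducible π)
    (𝔫 : Ideal ↥(chartOne R EN j)) (h0 : sheetIdeal j W0 h.two.chart_le_zero ≤ 𝔫) :
    sheetIdeal j Winf h.two.chart_le_inf ≤ alPull hw h hπ 𝔫 := by
  intro b hb
  rw [mem_sheetIdeal_iff] at hb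
  rw [mem_alPull_iff]
  apply h0
  rw [mem_sheetIdeal_iff, coe_alChartHom]
  exact (hw.valuation_zero_lt_one_iff _).mpr hb

theorem zero_le_alPull (hw : SSModelAL (R := R) A B Winf W0 w)
    (h : SSModel K₁ π q n S t jM j A B VM Winf W0) (hπ : Irreducible π)
    (𝔫 : Ideal ↥(chartOne R EN j)) (hinf : sheetIdeal j Winf h.two.chart_le_inf ≤ 𝔫) :
    sheetIdeal j W0 h.two.chart_le_zero ≤ alPull hw h hπ 𝔫 := by
  intro b hb
  rw [mem_sheetIdeal_iff] at hb
  rw [mem_alPull_iff]
  apply hinf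
  rw [mem_sheetIdeal_iff, coe_alChartHom]
  exact (hw.valuation_inf_lt_one_iff _).mpr hb

/-- the image of the lower chart under `A` lies in the chart `j`. -/
theorem A_mem_chartOne (h : SSModel K₁ π q n S t jM j A B VM Winf W0)
    (a : ↥(chartOne R EM t)) : A (a : EM) ∈ chartOne R EN j :=
  mem_chartOne_of_isIntegral_adjoin j h.A_t_mem (sinfemb_isIntegral_map A h.A_algebraMap t a.2)

/-- the image of the lower chart under `B` lies in the chart `j`. -/
theorem B_mem_chartOne (h : SSModel K₁ π q n S t jM j A B VM Winf W0) (hπ : Irreducible π)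
    (a : ↥(chartOne R EM t)) : B (a : EM) ∈ chartOne R EN j :=
  mem_chartOne_of_isIntegral_adjoin j (h.B_t_mem (h.jq_mem_chartOne hπ))
    (sinfemb_isIntegral_map B h.B_algebraMap t a.2)

/-- **the two-map Frobenius congruence at a crossing point**: `sN x ≡ (w x) ^ q` modulo `𝔫`, for
every element `x` of the chart `j`. -/
theorem _root_.Fermat.Agent.SS.SSModel.frob_sub_al_pow_mem
    [IsAlgClosed (IsLocalRing.ResidueField R)]
    (h : SSModel K₁ π q n S t jM j A B VM Winf W0) (hπ : Irreducible π)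
    (hF : SSModelFrob π q j A B VM Winf W0 sR sM sN) (hw : SSModelAL (R := R) A B Winf W0 w)
    (𝔫 : Ideal ↥(chartOne R EN j)) [h𝔫 : 𝔫.IsMaximal]
    (hinf : sheetIdeal j Winf h.two.chart_le_inf ≤ 𝔫)
    (h0 : sheetIdeal j W0 h.two.chart_le_zero ≤ 𝔫) (x : ↥(chartOne R EN j)) :
    (⟨sN x, frob_map_mem_chartOne hF x.2⟩ : ↥(chartOne R EN j)) -
      alChartHom hw h hπ x ^ q ∈ 𝔫 := by
  haveI h𝔫p : 𝔫.IsPrime := h𝔫.isPrime
  have hjq := h.jq_mem_chartOne hπ
  -- the residue of `x` along `C_0` at the point `w⁻¹ 𝔫`, with a unit denominator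
  obtain ⟨b, s, -, hsu, hxs⟩ := h.exists_unit_denominator_zero hjq (alPull hw h hπ 𝔫)
    (zero_le_alPull hw h hπ 𝔫 hinf) x
  -- the elements of the chart involved
  set As : ↥(chartOne R EN j) := ⟨A (s : EM), A_mem_chartOne h s⟩ with hAs
  set Ab : ↥(chartOne R EN j) := ⟨A (b : EM), A_mem_chartOne h b⟩ with hAb
  set Bs : ↥(chartOne R EN j) := ⟨B (s : EM), B_mem_chartOne h hπ s⟩ with hBs
  set Bb : ↥(chartOne R EN j) := ⟨B (b : EM), B_mem_chartOne h hπ b⟩ with hBb
  set FBs : ↥(chartOne R EN j) := ⟨sN (B (s : EM)), frob_map_mem_chartOne hF Bs.2⟩ with hFBs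
  set FBb : ↥(chartOne R EN j) := ⟨sN (B (b : EM)), frob_map_mem_chartOne hF Bb.2⟩ with hFBb
  set Fx : ↥(chartOne R EN j) := ⟨sN x, frob_map_mem_chartOne hF x.2⟩ with hFx
  set wx : ↥(chartOne R EN j) := alChartHom hw h hπ x with hwx
  -- `A s ∉ 𝔫`
  have hAs𝔫 : As ∉ 𝔫 := by
    intro hcon
    apply hsu
    have h1 : Bs ∈ alPull hw h hπ 𝔫 := by
      rw [mem_alPull_iff]
      have : alChartHom hw h hπ Bs = As := Subtype.ext (hw.map_B _)
      rw [this]; exact hcon
    exact (coe_mem_locMax_iff Bs).mpr h1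
  -- (1) `w x · A s - A b ∈ 𝔭∞ ⊆ 𝔫`
  have e1 : wx * As - Ab ∈ 𝔫 := by
    apply hinf
    rw [mem_sheetIdeal_iff]
    have : ((wx * As - Ab : ↥(chartOne R EN j)) : EN) = w ((x : EN) * B (s : EM) - B (b : EM)) := by
      rw [map_sub, map_mul, hw.map_B, hw.map_B]; rfl
    rw [this]
    exact (hw.valuation_inf_lt_one_iff _).mpr hxs
  -- (2) `sN x · sN (B s) - sN (B b) ∈ 𝔭0 ⊆ 𝔫`
  have e2 : Fx * FBs - FBb ∈ 𝔫 := by
    apply h0
    rw [mem_sheetIdeal_iff]
    have : ((Fx * FBs - FBb : ↥(chartOne R EN j)) : EN) =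
        sN ((x : EN) * B (s : EM) - B (b : EM)) := by
      rw [map_sub, map_mul]; rfl
    rw [this]
    exact (valuation_map_lt_one_iff W0 sN hF.mem_zero _).mpr hxs
  -- (3) the Kronecker congruences along `C_∞`
  haveI : FiniteDimensional KM EM := h.geo.finite
  have hVM : ∀ a : ↥(chartOne R EM t), (a : EM) ∈ VM := fun a => by
    have := chart_le_of_isGaussAt h.gauss_M (a : EM) a.2
    exact this
  have e3 : As ^ q - FBs ∈ 𝔫 := by
    apply hinf
    rw [mem_sheetIdeal_iff]
    have : ((As ^ q - FBs : ↥(chartOne R EN j)) : EN) = A (s : EM) ^ q - B (sM (s : EM)) := by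
      rw [← hF.comm_B]; rfl
    rw [this]
    exact hF.kron_inf _ (hVM s)
  have e4 : Ab ^ q - FBb ∈ 𝔫 := by
    apply hinf
    rw [mem_sheetIdeal_iff]
    have : ((Ab ^ q - FBb : ↥(chartOne R EN j)) : EN) = A (b : EM) ^ q - B (sM (b : EM)) := by
      rw [← hF.comm_B]; rfl
    rw [this]
    exact hF.kron_inf _ (hVM b)
  -- (4) `(w x · A s) ^ q - (A b) ^ q ∈ 𝔫`
  have e5 : (wx * As) ^ q - Ab ^ q ∈ 𝔫 :=
    Ideal.mem_of_dvd _ (sub_dvd_pow_sub_pow _ _ q) e1
  -- conclusion
  have key : (Fx - wx ^ q) * As ^ q =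
      (Fx * FBs - FBb) + Fx * (As ^ q - FBs) - ((wx * As) ^ q - Ab ^ q) - (Ab ^ q - FBb) := by
    ring
  have h6 : (Fx - wx ^ q) * As ^ q ∈ 𝔫 := by
    rw [key]
    exact 𝔫.sub_mem (𝔫.sub_mem (𝔫.add_mem e2 (𝔫.mul_mem_left _ e3)) e5) e4
  rcases h𝔫p.mem_or_mem h6 with h7 | h7
  · exact h7
  · exact absurd (h𝔫p.mem_of_pow_mem q h7) hAs𝔫

/-- **the node identification**: the Frobenius and the Atkin–Lehner involution pull a crossing point
back to the same crossing point. -/
theorem _root_.Fermat.Agent.SS.SSModel.frob_mem_iff_al_mem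
    [IsAlgClosed (IsLocalRing.ResidueField R)]
    (h : SSModel K₁ π q n S t jM j A B VM Winf W0) (hπ : Irreducible π)
    (hF : SSModelFrob π q j A B VM Winf W0 sR sM sN) (hw : SSModelAL (R := R) A B Winf W0 w)
    (𝔫 : Ideal ↥(chartOne R EN j)) [h𝔫 : 𝔫.IsMaximal]
    (hinf : sheetIdeal j Winf h.two.chart_le_inf ≤ 𝔫)
    (h0 : sheetIdeal j W0 h.two.chart_le_zero ≤ 𝔫) (x : ↥(chartOne R EN j)) :
    (⟨sN x, frob_map_mem_chartOne hF x.2⟩ : ↥(chartOne R EN j)) ∈ 𝔫 ↔ x ∈ alPull hw h hπ 𝔫 := by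
  haveI h𝔫p : 𝔫.IsPrime := h𝔫.isPrime
  have h1 := h.frob_sub_al_pow_mem hπ hF hw 𝔫 hinf h0 x
  have hq : q ≠ 0 := h.q_prime.ne_zero
  rw [mem_alPull_iff]
  constructor
  · intro h2
    have h3 : alChartHom hw h hπ x ^ q ∈ 𝔫 := by
      have := 𝔫.sub_mem h2 h1
      rwa [sub_sub_cancel] at this
    exact h𝔫p.mem_of_pow_mem q h3
  · intro h2
    have h3 : alChartHom hw h hπ x ^ q ∈ 𝔫 := 𝔫.pow_mem_of_mem h2 q (Nat.pos_of_ne_zero hq)
    have := 𝔫.add_mem h1 h3
    rwa [sub_add_cancel] at this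

end Model

end Fermat.Agent.RB
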