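/-
PROJECT RB, block [MAZ] (Mazur's principle at `q ≠ p`), package P7 [TORIC-FROB] — helper6 — part 3:
**the toric closed datum of `G = s g · (w g) ^ Q` at a crossing point**, for a Frobenius-type
endomorphism `s` (preserving the two sheets) and an Atkin–Lehner-type endomorphism `w` (swapping the
two sheets) which both move the crossing point `𝔪'` to the crossing point `𝔪`, and satisfy there the
two-map Frobenius congruence `s e ≡ (w e) ^ Q`.

This generalises helper5's `toricDatumAt_of_fixed_crossing` (`G = s g / g ^ Q`, `s` fixing `𝔪`).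

* `map_notMem_locMax_of_map_mem` : units go to units;
* `map_sub_map_pow_mem_locMax` : the two-map congruence on the local rings from the constants;
* `cross_closed_datum` : `Γ = s γ · (w γ) ^ Q` is a local root of `G` at `𝔪`;
* `exists_cross_roots` : the roots `Λ_∞ = s λ_∞ · (w λ_0) ^ Q`, `Λ_0 = s λ_0 · (w λ_∞) ^ Q` of `G` along
  the two sheets, divided by `Γ`, are congruent to units `w_∞ ≡ w_0` of the local ring at `𝔪`;
* `IsTwoSheet.toricDatumAt_of_moved_crossing` : the `ToricDatumAt`.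
-/
import Mathlib
import Fermat.Agent.RB.MAZ_helper6_TwoMap

set_option autoImplicit false
set_option linter.unusedSectionVars false
set_option linter.style.haveILetI false

open AlgebraicCurve

namespace Fermat.Agent.RB

open Fermat.Agent.SS Fermat.Agent.JA Fermat.Agent.S35

section Cross

variable {R : Type*} [CommRing R] {E : Type*} [Field E] [Algebra R E]
  {B : Subalgebra R E}

/-- units of the source local ring go to units of the target local ring. -/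
theorem map_notMem_locMax_of_map_mem {𝔪 𝔪' : Ideal ↥B} [h𝔪 : 𝔪.IsPrime] [h𝔪' : 𝔪'.IsPrime]
    (s : E →+* E) (hsO : ∀ e ∈ locRing B 𝔪', s e ∈ locRing B 𝔪) {v : E}
    (hv : v ∈ locRing B 𝔪') (hv' : v ∉ locMax B 𝔪') : s v ∉ locMax B 𝔪 := by
  intro hcon
  have hv0 : v ≠ 0 := fun h0 => hv' (h0 ▸ zero_mem_locMax)
  have h1 : s v⁻¹ ∈ locRing B 𝔪 := hsO _ (inv_mem_locRing hv hv')
  have h2 := mul_mem_locMax h1 hcon
  rw [← map_mul, inv_mul_cancel₀ hv0, map_one] at h2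
  exact one_notMem_locMax h2

/-- **the two-map Frobenius congruence on the local rings**, from the residue field of constants. -/
theorem map_sub_map_pow_mem_locMax {𝔪 𝔪' : Ideal ↥B} [h𝔪 : 𝔪.IsPrime] [h𝔪' : 𝔪'.IsMaximal]
    (hres' : ∀ b : ↥B, ∃ c : R, b - algebraMap R ↥B c ∈ 𝔪')
    {π : R} (hπ𝔪 : algebraMap R ↥B π ∈ 𝔪)
    (s w : E →+* E) (sR : R →+* R) (Q : ℕ)
    (hsR : ∀ r : R, s (algebraMap R E r) = algebraMap R E (sR r))
    (hwR : ∀ r : R, w (algebraMap R E r) = algebraMap R E r)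
    (hfrob : ∀ r : R, sR r - r ^ Q ∈ Ideal.span {π})
    (hsM : ∀ e ∈ locMax B 𝔪', s e ∈ locMax B 𝔪)
    (hwO : ∀ e ∈ locRing B 𝔪', w e ∈ locRing B 𝔪)
    (hwM : ∀ e ∈ locMax B 𝔪', w e ∈ locMax B 𝔪)
    {e : E} (he : e ∈ locRing B 𝔪') : s e - w e ^ Q ∈ locMax B 𝔪 := by
  haveI : 𝔪'.IsPrime := h𝔪'.isPrime
  obtain ⟨c, hc⟩ := exists_sub_algebraMap_mem_locMax hres' he
  have hcO : algebraMap R E c ∈ locRing B 𝔪 := (locRing B 𝔪).algebraMap_mem c
  have h1 : s (algebraMap R E c) - algebraMap R E c ^ Q ∈ locMax B 𝔪 := by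
    rw [hsR, ← map_pow, ← map_sub]
    obtain ⟨d, hd⟩ := Ideal.mem_span_singleton.mp (hfrob c)
    rw [hd, map_mul]
    have h2 : algebraMap R E π ∈ locMax B 𝔪 :=
      (coe_mem_locMax_iff (algebraMap R ↥B π)).mpr hπ𝔪
    rw [mul_comm]
    exact mul_mem_locMax ((locRing B 𝔪).algebraMap_mem d) h2
  have h2 : s (e - algebraMap R E c) ∈ locMax B 𝔪 := hsM _ hc
  have h3 : w e - algebraMap R E c ∈ locMax B 𝔪 := by
    have := hwM _ hc
    rwa [map_sub, hwR] at this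
  have h4 := pow_sub_pow_mem_locMax (hwO e he) hcO h3 Q
  have : s e - w e ^ Q = (s (algebraMap R E c) - algebraMap R E c ^ Q) +
      s (e - algebraMap R E c) - (w e ^ Q - algebraMap R E c ^ Q) := by
    rw [map_sub]; ring
  rw [this]
  exact sub_mem_locMax (add_mem_locMax h1 h2) h4

/-- **the local root of `G = s g · (w g) ^ Q` at the crossing point `𝔪`.** -/
theorem cross_closed_datum {𝔪 𝔪' : Ideal ↥B} [h𝔪 : 𝔪.IsPrime] [h𝔪' : 𝔪'.IsPrime]
    (s w : E →+* E) (Q : ℕ)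
    (hsO : ∀ e ∈ locRing B 𝔪', s e ∈ locRing B 𝔪)
    (hwO : ∀ e ∈ locRing B 𝔪', w e ∈ locRing B 𝔪)
    {m : ℕ} {g γ : E} (hγ : γ ≠ 0)
    (hv : g / γ ^ m ∈ locRing B 𝔪') (hv' : g / γ ^ m ∉ locMax B 𝔪') :
    (s g * w g ^ Q) / (s γ * w γ ^ Q) ^ m ∈ locRing B 𝔪 ∧
      (s g * w g ^ Q) / (s γ * w γ ^ Q) ^ m ∉ locMax B 𝔪 := by
  set v := g / γ ^ m with hvdef
  have hγm : γ ^ m ≠ 0 := pow_ne_zero _ hγ
  have hsγ : s γ ≠ 0 := (map_ne_zero s).mpr hγ
  have hwγ : w γ ≠ 0 := (map_ne_zero w).mpr hγ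
  have h1 : (s g * w g ^ Q) / (s γ * w γ ^ Q) ^ m = s v * w v ^ Q := by
    rw [hvdef, map_div₀, map_div₀, map_pow, map_pow, div_pow, mul_pow, ← pow_mul, ← pow_mul,
      mul_comm Q m]
    have h2 : s γ ^ m ≠ 0 := pow_ne_zero _ hsγ
    have h3 : w γ ^ (m * Q) ≠ 0 := pow_ne_zero _ hwγ
    field_simp
  rw [h1]
  have hsv : s v ∉ locMax B 𝔪 := map_notMem_locMax_of_map_mem s hsO hv hv'
  have hwv : w v ∉ locMax B 𝔪 := map_notMem_locMax_of_map_mem w hwO hv hv'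
  refine ⟨(locRing B 𝔪).mul_mem (hsO v hv) (pow_mem (hwO v hv) Q), ?_⟩
  intro hcon
  -- the product of two units is a unit
  have hp : (locComap B 𝔪 (locRing B 𝔪) le_rfl).IsPrime := locComap_isPrime le_rfl
  have h2 : (⟨s v, hsO v hv⟩ : ↥(locRing B 𝔪)) * (⟨w v, hwO v hv⟩ : ↥(locRing B 𝔪)) ^ Q ∈
      locComap B 𝔪 (locRing B 𝔪) le_rfl := hcon
  rcases hp.mem_or_mem h2 with h3 | h3
  · exact hsv h3
  · exact hwv (hp.mem_of_pow_mem Q h3)

end Cross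

section Val

variable {E : Type*} [Field E]

/-- products of congruent elements of the valuation ring are congruent. -/
theorem valuation_mul_sub_mul_lt_one (W : ValuationSubring E) {a a' b b' : E}
    (ha' : W.valuation a' ≤ 1) (hb : W.valuation b ≤ 1)
    (haa : W.valuation (a - a') < 1) (hbb : W.valuation (b - b') < 1) :
    W.valuation (a * b - a' * b') < 1 := by
  have h1 : a * b - a' * b' = (a - a') * b + a' * (b - b') := by ring
  rw [h1]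
  refine Valuation.map_add_lt _ ?_ ?_
  · rw [map_mul]
    calc W.valuation (a - a') * W.valuation b ≤ W.valuation (a - a') * 1 :=
          mul_le_mul_right hb _
      _ < 1 := by rw [mul_one]; exact haa
  · rw [map_mul]
    calc W.valuation a' * W.valuation (b - b') ≤ 1 * W.valuation (b - b') :=
          mul_le_mul_left ha' _
      _ < 1 := by rw [one_mul]; exact hbb

end Val

section Sheet

variable {R : Type*} [CommRing R] {E : Type*} [Field E] [Algebra R E]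
  {B : Subalgebra R E} [IsNoetherianRing ↥B] {Winf W0 : ValuationSubring E}

/-- **the roots of `G = s g · (w g) ^ Q` along the two sheets through the crossing point `𝔪`**,
divided by the local root `Γ = s γ · (w γ) ^ Q`, are congruent to units `w_∞`, `w_0` of the local ring
at `𝔪` which are congruent to each other modulo the maximal ideal. -/
theorem exists_cross_roots
    (hBinf : ∀ b ∈ B, b ∈ Winf) (hB0 : ∀ b ∈ B, b ∈ W0)
    {𝔭inf 𝔭0 : Ideal ↥B} [h𝔭infp : 𝔭inf.IsPrime] [h𝔭0p : 𝔭0.IsPrime]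
    (h𝔭inf : ∀ b : ↥B, b ∈ 𝔭inf ↔ Winf.valuation (b : E) < 1)
    (h𝔭0 : ∀ b : ↥B, b ∈ 𝔭0 ↔ W0.valuation (b : E) < 1)
    (hlocinf : ∀ x ∈ Winf, ∃ r s : ↥B, s ∉ 𝔭inf ∧ x * (s : E) = (r : E))
    (hloc0 : ∀ x ∈ W0, ∃ r s : ↥B, s ∉ 𝔭0 ∧ x * (s : E) = (r : E))
    {𝔪 𝔪' : Ideal ↥B} [h𝔪 : 𝔪.IsPrime] [h𝔪' : 𝔪'.IsMaximal]
    (hleinf' : 𝔭inf ≤ 𝔪') (hle0' : 𝔭0 ≤ 𝔪') {zinf z0 : ↥B}
    (hzinf : IsBranchUniformizer 𝔭inf 𝔪' zinf) (hz0 : IsBranchUniformizer 𝔭0 𝔪' z0)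
    (hleinf : 𝔭inf ≤ 𝔪) (hle0 : 𝔭0 ≤ 𝔪)
    (s w : E →+* E) (Q : ℕ)
    (hsinf : ∀ x : E, x ∈ Winf ↔ s x ∈ Winf) (hs0 : ∀ x : E, x ∈ W0 ↔ s x ∈ W0)
    (hwinf : ∀ x : E, x ∈ W0 ↔ w x ∈ Winf) (hw0 : ∀ x : E, x ∈ Winf ↔ w x ∈ W0)
    (hsO : ∀ e ∈ locRing B 𝔪', s e ∈ locRing B 𝔪)
    (hwO : ∀ e ∈ locRing B 𝔪', w e ∈ locRing B 𝔪)
    (hcong : ∀ e ∈ locRing B 𝔪', s e - w e ^ Q ∈ locMax B 𝔪)
    {m : ℕ} (hm : m ≠ 0) {g γ linf l0 : E} (hγ : γ ≠ 0)
    (hv : g / γ ^ m ∈ locRing B 𝔪') (hv' : g / γ ^ m ∉ locMax B 𝔪')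
    (hlinf : Winf.valuation linf = 1) (hginf : Winf.valuation (g - linf ^ m) < 1)
    (hl0 : W0.valuation l0 = 1) (hg0 : W0.valuation (g - l0 ^ m) < 1) :
    ∃ winf w0 : E, winf ∈ locRing B 𝔪 ∧ winf ∉ locMax B 𝔪 ∧ w0 ∈ locRing B 𝔪 ∧
      w0 ∉ locMax B 𝔪 ∧ winf - w0 ∈ locMax B 𝔪 ∧
      Winf.valuation ((s linf * w l0 ^ Q) / (s γ * w γ ^ Q) - winf) < 1 ∧
      W0.valuation ((s l0 * w linf ^ Q) / (s γ * w γ ^ Q) - w0) < 1 := by
  haveI : 𝔪'.IsPrime := h𝔪'.isPrime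
  obtain ⟨hγinf, rinf, hrinf, hrinf', hρinf⟩ :=
    exists_div_cong_of_closed_datum hBinf h𝔭inf hlocinf hleinf' hzinf hm hγ hv hv' hlinf hginf
  obtain ⟨hγ0, r0, hr0, hr0', hρ0⟩ :=
    exists_div_cong_of_closed_datum hB0 h𝔭0 hloc0 hle0' hz0 hm hγ hv hv' hl0 hg0
  have hsγ : s γ ≠ 0 := (map_ne_zero s).mpr hγ
  have hwγ : w γ ≠ 0 := (map_ne_zero w).mpr hγ
  -- units of the target local ring
  have hsrinf : s rinf ∈ locRing B 𝔪 := hsO _ hrinf
  have hsr0 : s r0 ∈ locRing B 𝔪 := hsO _ hr0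
  have hwrinf : w rinf ∈ locRing B 𝔪 := hwO _ hrinf
  have hwr0 : w r0 ∈ locRing B 𝔪 := hwO _ hr0
  have hsrinf' : s rinf ∉ locMax B 𝔪 := map_notMem_locMax_of_map_mem s hsO hrinf hrinf'
  have hsr0' : s r0 ∉ locMax B 𝔪 := map_notMem_locMax_of_map_mem s hsO hr0 hr0'
  have hwrinf' : w rinf ∉ locMax B 𝔪 := map_notMem_locMax_of_map_mem w hwO hrinf hrinf'
  have hwr0' : w r0 ∉ locMax B 𝔪 := map_notMem_locMax_of_map_mem w hwO hr0 hr0'
  have hp : (locComap B 𝔪 (locRing B 𝔪) le_rfl).IsPrime := locComap_isPrime le_rfl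
  have hunit : ∀ a b : E, a ∈ locRing B 𝔪 → b ∈ locRing B 𝔪 → a ∉ locMax B 𝔪 →
      b ∉ locMax B 𝔪 → a * b ^ Q ∉ locMax B 𝔪 := by
    intro a b ha hb ha' hb' hcon
    have h2 : (⟨a, ha⟩ : ↥(locRing B 𝔪)) * (⟨b, hb⟩ : ↥(locRing B 𝔪)) ^ Q ∈
        locComap B 𝔪 (locRing B 𝔪) le_rfl := hcon
    rcases hp.mem_or_mem h2 with h3 | h3
    · exact ha' h3
    · exact hb' (hp.mem_of_pow_mem Q h3)
  -- valuations of the units
  have vinf : ∀ {a : E}, a ∈ locRing B 𝔪 → a ∉ locMax B 𝔪 → Winf.valuation a = 1 :=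
    fun ha ha' => valuation_eq_one_of_locRing_unit hBinf h𝔭inf hleinf ha ha'
  have v0 : ∀ {a : E}, a ∈ locRing B 𝔪 → a ∉ locMax B 𝔪 → W0.valuation a = 1 :=
    fun ha ha' => valuation_eq_one_of_locRing_unit hB0 h𝔭0 hle0 ha ha'
  have hρinf1 : Winf.valuation (linf / γ) = 1 := by rw [map_div₀, hlinf, hγinf, div_one]
  have hρ01 : W0.valuation (l0 / γ) = 1 := by rw [map_div₀, hl0, hγ0, div_one]
  refine ⟨s rinf * w r0 ^ Q, s r0 * w rinf ^ Q,
    (locRing B 𝔪).mul_mem hsrinf (pow_mem hwr0 Q), hunit _ _ hsrinf hwr0 hsrinf' hwr0',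
    (locRing B 𝔪).mul_mem hsr0 (pow_mem hwrinf Q), hunit _ _ hsr0 hwrinf hsr0' hwrinf', ?_, ?_, ?_⟩
  · have : s rinf * w r0 ^ Q - s r0 * w rinf ^ Q =
        (s rinf - w rinf ^ Q) * w r0 ^ Q - (s r0 - w r0 ^ Q) * w rinf ^ Q := by ring
    rw [this]
    refine sub_mem_locMax ?_ ?_
    · rw [mul_comm]; exact mul_mem_locMax (pow_mem hwr0 Q) (hcong _ hrinf)
    · rw [mul_comm]; exact mul_mem_locMax (pow_mem hwrinf Q) (hcong _ hr0)
  · have h1 : (s linf * w l0 ^ Q) / (s γ * w γ ^ Q) = s (linf / γ) * w (l0 / γ) ^ Q := by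
      rw [map_div₀, map_div₀, div_pow]
      have : w γ ^ Q ≠ 0 := pow_ne_zero _ hwγ
      field_simp
    rw [h1]
    refine valuation_mul_sub_mul_lt_one Winf (vinf hsrinf hsrinf').le ?_ ?_ ?_
    · rw [map_pow]
      refine pow_le_one' ?_ Q
      exact ((valuation_map_eq_one_iff_of_swap W0 Winf w hwinf _).mpr hρ01).le
    · rw [← map_sub]
      exact (valuation_map_lt_one_iff Winf s hsinf _).mpr hρinf
    · refine valuation_pow_sub_pow_lt_one Winf ?_ (vinf hwr0 hwr0').le ?_ Q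
      · exact ((valuation_map_eq_one_iff_of_swap W0 Winf w hwinf _).mpr hρ01).le
      · rw [← map_sub]
        exact (valuation_map_lt_one_iff_of_swap W0 Winf w hwinf _).mpr hρ0
  · have h1 : (s l0 * w linf ^ Q) / (s γ * w γ ^ Q) = s (l0 / γ) * w (linf / γ) ^ Q := by
      rw [map_div₀, map_div₀, div_pow]
      have : w γ ^ Q ≠ 0 := pow_ne_zero _ hwγ
      field_simp
    rw [h1]
    refine valuation_mul_sub_mul_lt_one W0 (v0 hsr0 hsr0').le ?_ ?_ ?_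
    · rw [map_pow]
      refine pow_le_one' ?_ Q
      exact ((valuation_map_eq_one_iff_of_swap Winf W0 w hw0 _).mpr hρinf1).le
    · rw [← map_sub]
      exact (valuation_map_lt_one_iff W0 s hs0 _).mpr hρ0
    · refine valuation_pow_sub_pow_lt_one W0 ?_ (v0 hwrinf hwrinf').le ?_ Q
      · exact ((valuation_map_eq_one_iff_of_swap Winf W0 w hw0 _).mpr hρinf1).le
      · rw [← map_sub]
        exact (valuation_map_lt_one_iff_of_swap Winf W0 w hw0 _).mpr hρinf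

end Sheet

end Fermat.Agent.RB
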