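/-
PROJECT RB, block [MAZ] (Mazur's principle at `q ≠ p`), package P7 [TORIC-FROB] — helper6 — part 4:
**the toric closed data of `G = Φ g · (w g) ^ q` on both charts of a semistable model**, for the
Frobenius `Φ = sN` (`SSModelFrob`) and the Atkin–Lehner involution `w` (`SSModelAL`).

* `IsTwoSheet.toricDatumAt_of_moved_crossing` : the chart form of `exists_cross_roots`;
* `toric_frob_al` : `G ≡ (Φ λ · (w λ') ^ q) ^ m` along a sheet `W` preserved by `Φ` onto which `w` maps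
  the sheet `W'`;
* `al_map_mem_locRing`, `frob_map_mem_locRing` : `w`, `Φ` map the local ring at `w⁻¹ 𝔫` to the local
  ring at `𝔫`;
* `SSModel.toricDatumAt_frob_al_one`, `SSModel.toricDatumAt_frob_al_two` : `ToricDatumAt` at EVERY
  closed point of the special fibre of the charts `j`, `j⁻¹`.
-/
import Mathlib
import Fermat.Agent.RB.MAZ_helper6_Cross

set_option autoImplicit false
set_option linter.unusedSectionVars false
set_option linter.style.haveILetI false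

open AlgebraicCurve

namespace Fermat.Agent.RB

open Fermat.Agent.SS Fermat.Agent.JA Fermat.Agent.S35 Polynomial

section Chart

variable {R : Type*} [CommRing R] [IsDomain R] [IsDiscreteValuationRing R] [CharZero R]
  {K₁ : Type*} [Field K₁] [Algebra R K₁] [IsFractionRing R K₁]
  {K : Type*} [Field K] [Algebra K₁ K] [Algebra R K] [IsScalarTower R K₁ K]
  {E : Type*} [Field E] [Algebra K E] [Algebra K₁ E] [IsScalarTower K₁ K E] [Algebra R E]
  [IsScalarTower R K E] [FiniteDimensional K E]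
  {π : R} {u : K} {Winf W0 : ValuationSubring E}

/-- **the toric closed datum of `G = s g · (w g) ^ Q` at a crossing point `𝔫`** to which `s` and `w`
move the crossing point `𝔫'`. -/
theorem _root_.Fermat.Agent.SS.IsTwoSheet.toricDatumAt_of_moved_crossing
    (h2 : IsTwoSheet π u Winf W0)
    (hπ : Irreducible π) (hu : Transcendental K₁ u) (hK : IntermediateField.adjoin K₁ {u} = ⊤)
    (hmod : IsModelChart E π (sheetIdeal u Winf h2.chart_le_inf)
      (sheetIdeal u W0 h2.chart_le_zero))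
    [IsAlgClosed (IsLocalRing.ResidueField R)]
    {m : ℕ} (hm : m ≠ 0) {g linf l0 : E} (hg : g ≠ 0)
    (hordg : ∀ P : Place K₁ E, P.ord g = 0 ∨ (IsRationalPlace P ∧ (m : ℤ) ∣ P.ord g))
    (hlinf : Winf.valuation linf = 1) (hginf : Winf.valuation (g - linf ^ m) < 1)
    (hl0 : W0.valuation l0 = 1) (hg0 : W0.valuation (g - l0 ^ m) < 1)
    (s w : E →+* E) (Q : ℕ)
    (hsinf : ∀ x : E, x ∈ Winf ↔ s x ∈ Winf) (hs0 : ∀ x : E, x ∈ W0 ↔ s x ∈ W0)
    (hwinf : ∀ x : E, x ∈ W0 ↔ w x ∈ Winf) (hw0 : ∀ x : E, x ∈ Winf ↔ w x ∈ W0)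
    (𝔫 𝔫' : Ideal ↥(chartOne R E u)) [h𝔫 : 𝔫.IsMaximal] [h𝔫' : 𝔫'.IsMaximal]
    (hinf : sheetIdeal u Winf h2.chart_le_inf ≤ 𝔫) (h0 : sheetIdeal u W0 h2.chart_le_zero ≤ 𝔫)
    (hinf' : sheetIdeal u Winf h2.chart_le_inf ≤ 𝔫')
    (h0' : sheetIdeal u W0 h2.chart_le_zero ≤ 𝔫')
    (hsO : ∀ e ∈ locRing (chartOne R E u) 𝔫', s e ∈ locRing (chartOne R E u) 𝔫)
    (hwO : ∀ e ∈ locRing (chartOne R E u) 𝔫', w e ∈ locRing (chartOne R E u) 𝔫)
    (hcong : ∀ e ∈ locRing (chartOne R E u) 𝔫', s e - w e ^ Q ∈ locMax (chartOne R E u) 𝔫) :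
    ToricDatumAt (chartOne R E u) (sheetIdeal u Winf h2.chart_le_inf)
      (sheetIdeal u W0 h2.chart_le_zero) 𝔫 Winf W0 m (s g * w g ^ Q)
      (s linf * w l0 ^ Q) (s l0 * w linf ^ Q) := by
  haveI : IsIntegrallyClosed ↥(chartOne R E u) := isIntegrallyClosed_chartOne (K₁ := K₁) u hK
  haveI : IsNoetherianRing ↥(chartOne R E u) := isNoetherianRing_chartOne (K₁ := K₁) u hu hK
  haveI : IsFractionRing ↥(chartOne R E u) E := isFractionRing_chartOne (K₁ := K₁) u hK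
  haveI : 𝔫.IsPrime := h𝔫.isPrime
  haveI : 𝔫'.IsPrime := h𝔫'.isPrime
  have hπ𝔫' : algebraMap R ↥(chartOne R E u) π ∈ 𝔫' := hinf' (h2.pi_mem_inf (K₁ := K₁) hπ)
  have hg01 : W0.valuation g = 1 := by
    refine valuation_eq_one_of_sub_lt_one W0 (a := l0 ^ m) ?_ hg0
    rw [map_pow, hl0, one_pow]
  have hk := h2.isKummerOnChart_of_toric hπ hu hK hg hordg hlinf hginf hg01
  have hinjE : Function.Injective (algebraMap R E) := by
    rw [IsScalarTower.algebraMap_eq R K E, IsScalarTower.algebraMap_eq R K₁ K]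
    exact (algebraMap K E).injective.comp
      ((algebraMap K₁ K).injective.comp (IsFractionRing.injective R K₁))
  have hπne : algebraMap R ↥(chartOne R E u) π ≠ 0 := by
    intro h0
    have := congrArg (fun w : ↥(chartOne R E u) => (w : E)) h0
    exact hπ.ne_zero (hinjE (by rw [map_zero]; exact this))
  obtain ⟨γ, hγ, c, d, hc, hd, hgd⟩ := hmod.closed_datum hπ hπne hm hg hk 𝔫' h𝔫' hπ𝔫'
  have hgd' : g * (d : E) = γ ^ m * (c : E) := hgd
  obtain ⟨hv, hv'⟩ := div_pow_mem_locRing_of_closed_datum hγ hc hd hgd'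
  obtain ⟨x, y, hx, -, hy, -, -⟩ := hmod.node 𝔫' h𝔫' hinf' h0'
  have hsγ : s γ ≠ 0 := (map_ne_zero s).mpr hγ
  have hwγ : w γ ≠ 0 := (map_ne_zero w).mpr hγ
  have hΓ : s γ * w γ ^ Q ≠ 0 := mul_ne_zero hsγ (pow_ne_zero _ hwγ)
  obtain ⟨hG1, hG2⟩ := cross_closed_datum s w Q hsO hwO hγ hv hv'
  obtain ⟨winf, w0, hwinf1, hwinf2, hw01, hw02, hww, hcinf, hc0⟩ :=
    exists_cross_roots h2.chart_le_inf h2.chart_le_zero
      (mem_sheetIdeal_iff u Winf h2.chart_le_inf) (mem_sheetIdeal_iff u W0 h2.chart_le_zero)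
      (h2.exists_mul_eq_of_mem_inf hπ hu hK) (h2.exists_mul_eq_of_mem_zero hπ hu hK)
      hinf' h0' hx hy hinf h0 s w Q hsinf hs0 hwinf hw0 hsO hwO hcong hm hγ hv hv'
      hlinf hginf hl0 hg0
  exact ⟨s γ * w γ ^ Q, winf, w0, hΓ, exists_closed_datum_of_div_pow_mem hΓ hG1 hG2,
    fun _ => ⟨hwinf1, hwinf2, hcinf⟩, fun _ => ⟨hw01, hw02, hc0⟩, fun _ _ => hww⟩

end Chart

section Gen

variable {E : Type*} [Field E]

/-- **the toric datum of `s g · (w g') ^ Q` on a sheet `W` preserved by `s`, onto which `w` maps the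
sheet `W'`.** -/
theorem toric_frob_al (W W' : ValuationSubring E) (s w : E →+* E)
    (hsW : ∀ x : E, x ∈ W ↔ s x ∈ W) (hwW : ∀ x : E, x ∈ W' ↔ w x ∈ W)
    (Q m : ℕ) {g lam lam' : E} (hlam : W.valuation lam = 1) (hglam : W.valuation (g - lam ^ m) < 1)
    (hlam' : W'.valuation lam' = 1) (hglam' : W'.valuation (g - lam' ^ m) < 1) :
    W.valuation (s lam * w lam' ^ Q) = 1 ∧
      W.valuation (s g * w g ^ Q - (s lam * w lam' ^ Q) ^ m) < 1 := by
  have hslam : W.valuation (s lam) = 1 := (valuation_map_eq_one_iff W s hsW lam).mpr hlam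
  have hwlam : W.valuation (w lam') = 1 :=
    (valuation_map_eq_one_iff_of_swap W' W w hwW lam').mpr hlam'
  have hlm : W.valuation (lam ^ m) = 1 := by rw [map_pow, hlam, one_pow]
  have hlm' : W'.valuation (lam' ^ m) = 1 := by rw [map_pow, hlam', one_pow]
  have hg1 : W.valuation g = 1 := valuation_eq_one_of_sub_lt_one W hlm hglam
  have hg1' : W'.valuation g = 1 := valuation_eq_one_of_sub_lt_one W' hlm' hglam'
  have hwg : W.valuation (w g) = 1 := (valuation_map_eq_one_iff_of_swap W' W w hwW g).mpr hg1'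
  refine ⟨by rw [map_mul, hslam, map_pow, hwlam, one_pow, mul_one], ?_⟩
  have h1 : (s lam * w lam' ^ Q) ^ m = s (lam ^ m) * w (lam' ^ m) ^ Q := by
    rw [mul_pow, map_pow, map_pow, ← pow_mul, ← pow_mul, mul_comm Q m]
  rw [h1]
  refine valuation_mul_sub_mul_lt_one W ?_ ?_ ?_ ?_
  · exact ((valuation_map_eq_one_iff W s hsW _).mpr hlm).le
  · rw [map_pow, hwg, one_pow]
  · rw [← map_sub]; exact (valuation_map_lt_one_iff W s hsW _).mpr hglam
  · refine valuation_pow_sub_pow_lt_one W hwg.le ?_ ?_ Q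
    · exact ((valuation_map_eq_one_iff_of_swap W' W w hwW _).mpr hlm').le
    · rw [← map_sub]; exact (valuation_map_lt_one_iff_of_swap W' W w hwW _).mpr hglam'

end Gen

section Model

variable {R : Type*} [CommRing R] [IsDomain R] [IsDiscreteValuationRing R] [CharZero R]
  {K₁ : Type*} [Field K₁] [Algebra R K₁] [IsFractionRing R K₁]
  {KM : Type*} [Field KM] [Algebra K₁ KM] [Algebra R KM] [IsScalarTower R K₁ KM]
  {EM : Type*} [Field EM] [Algebra KM EM] [Algebra K₁ EM] [IsScalarTower K₁ KM EM] [Algebra R EM]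
  [IsScalarTower R KM EM]
  {KN : Type*} [Field KN] [Algebra K₁ KN] [Algebra R KN] [IsScalarTower R K₁ KN]
  {EN : Type*} [Field EN] [Algebra KN EN] [Algebra K₁ EN] [IsScalarTower K₁ KN EN] [Algebra R EN]
  [IsScalarTower R KN EN] [FiniteDimensional KN EN]
  {π : R} {q n : ℕ} {S : Finset R} {t : KM} {jM : EM} {j : KN} {A B : EM →+* EN}
  {VM : ValuationSubring EM} {Winf W0 : ValuationSubring EN}
  {sR : R →+* R} {sM : EM →+* EM} {sN : EN →+* EN} {w : EN →+* EN}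

/-- `w` maps the local ring at `w⁻¹ 𝔫` to the local ring at `𝔫`, and the maximal ideal to the
maximal ideal. -/
theorem al_map_mem_locRing (hw : SSModelAL (R := R) A B Winf W0 w)
    (h : SSModel K₁ π q n S t jM j A B VM Winf W0) (hπ : Irreducible π)
    (𝔫 : Ideal ↥(chartOne R EN j)) [h𝔫 : 𝔫.IsMaximal] :
    (∀ e ∈ locRing (chartOne R EN j) (alPull hw h hπ 𝔫), w e ∈ locRing (chartOne R EN j) 𝔫) ∧
    (∀ e ∈ locMax (chartOne R EN j) (alPull hw h hπ 𝔫), w e ∈ locMax (chartOne R EN j) 𝔫) := by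
  haveI : 𝔫.IsPrime := h𝔫.isPrime
  constructor
  · rintro e ⟨r, d, hd, hrd⟩
    refine ⟨alChartHom hw h hπ r, alChartHom hw h hπ d, hd, ?_⟩
    rw [coe_alChartHom, coe_alChartHom, ← map_mul, hrd]
  · rintro e ⟨r, d, hr, hd, hrd⟩
    refine ⟨alChartHom hw h hπ r, alChartHom hw h hπ d, hr, hd, ?_⟩
    rw [coe_alChartHom, coe_alChartHom, ← map_mul, hrd]

/-- the Frobenius maps the local ring at `w⁻¹ 𝔫` to the local ring at the crossing point `𝔫`, and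
the maximal ideal to the maximal ideal. -/
theorem frob_map_mem_locRing [IsAlgClosed (IsLocalRing.ResidueField R)]
    (h : SSModel K₁ π q n S t jM j A B VM Winf W0) (hπ : Irreducible π)
    (hF : SSModelFrob π q j A B VM Winf W0 sR sM sN) (hw : SSModelAL (R := R) A B Winf W0 w)
    (𝔫 : Ideal ↥(chartOne R EN j)) [h𝔫 : 𝔫.IsMaximal]
    (hinf : sheetIdeal j Winf h.two.chart_le_inf ≤ 𝔫)
    (h0 : sheetIdeal j W0 h.two.chart_le_zero ≤ 𝔫) :
    (∀ e ∈ locRing (chartOne R EN j) (alPull hw h hπ 𝔫), sN e ∈ locRing (chartOne R EN j) 𝔫) ∧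
    (∀ e ∈ locMax (chartOne R EN j) (alPull hw h hπ 𝔫), sN e ∈ locMax (chartOne R EN j) 𝔫) := by
  haveI : 𝔫.IsPrime := h𝔫.isPrime
  have key := h.frob_mem_iff_al_mem hπ hF hw 𝔫 hinf h0
  constructor
  · rintro e ⟨r, d, hd, hrd⟩
    refine ⟨⟨sN r, frob_map_mem_chartOne hF r.2⟩, ⟨sN d, frob_map_mem_chartOne hF d.2⟩,
      fun hcon => hd ((key d).mp hcon), ?_⟩
    show sN e * sN (d : EN) = sN (r : EN)
    rw [← map_mul, hrd]
  · rintro e ⟨r, d, hr, hd, hrd⟩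
    refine ⟨⟨sN r, frob_map_mem_chartOne hF r.2⟩, ⟨sN d, frob_map_mem_chartOne hF d.2⟩,
      (key r).mpr hr, fun hcon => hd ((key d).mp hcon), ?_⟩
    show sN e * sN (d : EN) = sN (r : EN)
    rw [← map_mul, hrd]

/-- **the two-map Frobenius congruence on the local rings at the crossing points.** -/
theorem frob_sub_al_pow_mem_locMax [IsAlgClosed (IsLocalRing.ResidueField R)]
    (h : SSModel K₁ π q n S t jM j A B VM Winf W0) (hπ : Irreducible π)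
    (hF : SSModelFrob π q j A B VM Winf W0 sR sM sN) (hw : SSModelAL (R := R) A B Winf W0 w)
    (𝔫 : Ideal ↥(chartOne R EN j)) [h𝔫 : 𝔫.IsMaximal]
    (hinf : sheetIdeal j Winf h.two.chart_le_inf ≤ 𝔫)
    (h0 : sheetIdeal j W0 h.two.chart_le_zero ≤ 𝔫)
    {e : EN} (he : e ∈ locRing (chartOne R EN j) (alPull hw h hπ 𝔫)) :
    sN e - w e ^ q ∈ locMax (chartOne R EN j) 𝔫 := by
  haveI : 𝔫.IsPrime := h𝔫.isPrime
  have hπ𝔫 : algebraMap R ↥(chartOne R EN j) π ∈ 𝔫 := hinf (h.two.pi_mem_inf (K₁ := K₁) hπ)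
  have hπ𝔫' : algebraMap R ↥(chartOne R EN j) π ∈ alPull hw h hπ 𝔫 :=
    inf_le_alPull hw h hπ 𝔫 h0 (h.two.pi_mem_inf (K₁ := K₁) hπ)
  have hres' := h.two.exists_sub_mem_of_isMaximal hπ h.j_transcendental h.j_adjoin
    (alPull hw h hπ 𝔫) hπ𝔫'
  obtain ⟨-, hsM⟩ := frob_map_mem_locRing h hπ hF hw 𝔫 hinf h0
  obtain ⟨hwO, hwM⟩ := al_map_mem_locRing hw h hπ 𝔫
  exact map_sub_map_pow_mem_locMax hres' hπ𝔫 sN w sR q hF.map_R_N hw.map_R hF.frob_R hsM hwO hwM he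

/-- **the toric closed data of `Φ g · (w g) ^ q` on the chart `j`.** -/
theorem _root_.Fermat.Agent.SS.SSModel.toricDatumAt_frob_al_one
    [IsAlgClosed (IsLocalRing.ResidueField R)]
    (h : SSModel K₁ π q n S t jM j A B VM Winf W0) (hπ : Irreducible π)
    (hF : SSModelFrob π q j A B VM Winf W0 sR sM sN) (hw : SSModelAL (R := R) A B Winf W0 w)
    {m : ℕ} (hm : m ≠ 0) {g linf l0 : EN} (hg : g ≠ 0)
    (hordg : ∀ P : Place K₁ EN, P.ord g = 0 ∨ (IsRationalPlace P ∧ (m : ℤ) ∣ P.ord g))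
    (hordG : ∀ P : Place K₁ EN, P.ord (sN g * w g ^ q) = 0 ∨
      (IsRationalPlace P ∧ (m : ℤ) ∣ P.ord (sN g * w g ^ q)))
    (hlinf : Winf.valuation linf = 1) (hginf : Winf.valuation (g - linf ^ m) < 1)
    (hl0 : W0.valuation l0 = 1) (hg0 : W0.valuation (g - l0 ^ m) < 1)
    (𝔫 : Ideal ↥(chartOne R EN j)) [h𝔫 : 𝔫.IsMaximal]
    (hπ𝔫 : algebraMap R ↥(chartOne R EN j) π ∈ 𝔫) :
    ToricDatumAt (chartOne R EN j) (sheetIdeal j Winf h.two.chart_le_inf)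
      (sheetIdeal j W0 h.two.chart_le_zero) 𝔫 Winf W0 m (sN g * w g ^ q)
      (sN linf * w l0 ^ q) (sN l0 * w linf ^ q) := by
  haveI : 𝔫.IsPrime := h𝔫.isPrime
  have hu := h.j_transcendental
  have hK := h.j_adjoin
  have hmod := h.isModelChart_one hπ
  have hG : sN g * w g ^ q ≠ 0 :=
    mul_ne_zero ((map_ne_zero sN).mpr hg) (pow_ne_zero _ ((map_ne_zero w).mpr hg))
  by_cases hc : sheetIdeal j Winf h.two.chart_le_inf ≤ 𝔫 ∧ sheetIdeal j W0 h.two.chart_le_zero ≤ 𝔫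
  · obtain ⟨hsO, -⟩ := frob_map_mem_locRing h hπ hF hw 𝔫 hc.1 hc.2
    obtain ⟨hwO, -⟩ := al_map_mem_locRing hw h hπ 𝔫
    exact h.two.toricDatumAt_of_moved_crossing hπ hu hK hmod hm hg hordg hlinf hginf hl0 hg0
      sN w q hF.mem_inf hF.mem_zero hw.mem_inf hw.mem_zero 𝔫 (alPull hw h hπ 𝔫) hc.1 hc.2
      (inf_le_alPull hw h hπ 𝔫 hc.2) (zero_le_alPull hw h hπ 𝔫 hc.1) hsO hwO
      (fun e he => frob_sub_al_pow_mem_locMax h hπ hF hw 𝔫 hc.1 hc.2 he)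
  · obtain ⟨hL1, hL2⟩ := toric_frob_al Winf W0 sN w hF.mem_inf hw.mem_inf q m hlinf hginf hl0 hg0
    obtain ⟨hL3, hL4⟩ := toric_frob_al W0 Winf sN w hF.mem_zero hw.mem_zero q m hl0 hg0 hlinf hginf
    exact h.two.toricDatumAt_of_not_crossing hπ hu hK hmod hm hG hordG hL1 hL2 hL3 hL4 𝔫 hπ𝔫 hc

/-- **the toric closed data of `Φ g · (w g) ^ q` on the chart `j⁻¹`.** -/
theorem _root_.Fermat.Agent.SS.SSModel.toricDatumAt_frob_al_two
    [IsAlgClosed (IsLocalRing.ResidueField R)]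
    (h : SSModel K₁ π q n S t jM j A B VM Winf W0) (hπ : Irreducible π)
    (hjint : IsIntegral ↥(Algebra.adjoin R {B jM}) (A jM))
    (hF : SSModelFrob π q j A B VM Winf W0 sR sM sN) (hw : SSModelAL (R := R) A B Winf W0 w)
    {m : ℕ} (hm : m ≠ 0) {g linf l0 : EN} (hg : g ≠ 0)
    (hordg : ∀ P : Place K₁ EN, P.ord g = 0 ∨ (IsRationalPlace P ∧ (m : ℤ) ∣ P.ord g))
    (hordG : ∀ P : Place K₁ EN, P.ord (sN g * w g ^ q) = 0 ∨
      (IsRationalPlace P ∧ (m : ℤ) ∣ P.ord (sN g * w g ^ q)))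
    (hlinf : Winf.valuation linf = 1) (hginf : Winf.valuation (g - linf ^ m) < 1)
    (hl0 : W0.valuation l0 = 1) (hg0 : W0.valuation (g - l0 ^ m) < 1)
    (𝔫 : Ideal ↥(chartOne R EN j⁻¹)) [h𝔫 : 𝔫.IsMaximal]
    (hπ𝔫 : algebraMap R ↥(chartOne R EN j⁻¹) π ∈ 𝔫) :
    ToricDatumAt (chartOne R EN j⁻¹) (sheetIdeal j⁻¹ Winf (h.two.inv hπ).chart_le_inf)
      (sheetIdeal j⁻¹ W0 (h.two.inv hπ).chart_le_zero) 𝔫 Winf W0 m (sN g * w g ^ q)
      (sN linf * w l0 ^ q) (sN l0 * w linf ^ q) := by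
  haveI : 𝔫.IsPrime := h𝔫.isPrime
  have hu := h.j_transcendental
  have hK := h.j_adjoin
  have hu' := transcendental_inv_of_transcendental hu
  have hK' := adjoin_inv_eq_top hK
  have h2 := h.two.inv hπ
  have hmod := h.isModelChart_two hπ hjint h2
  have hG : sN g * w g ^ q ≠ 0 :=
    mul_ne_zero ((map_ne_zero sN).mpr hg) (pow_ne_zero _ ((map_ne_zero w).mpr hg))
  have hj0 : j ≠ 0 := by
    rintro rfl
    exact hu isAlgebraic_zero
  by_cases hc : sheetIdeal j⁻¹ Winf h2.chart_le_inf ≤ 𝔫 ∧ sheetIdeal j⁻¹ W0 h2.chart_le_zero ≤ 𝔫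
  · -- the crossing point lies in the chart `j`
    have hx : (⟨algebraMap KN EN j⁻¹, algebraMap_coord_mem_chartOne j⁻¹⟩ :
        ↥(chartOne R EN j⁻¹)) ∉ 𝔫 := fun hx => h.not_crossing_of_cusp hπ h2 𝔫 hx hc.1 hc.2
    obtain ⟨hLeq, hMeq⟩ := locRing_chartOne_inv_eq (R := R) (E := EN) j hj0 𝔫 hx
    have hres := h2.exists_sub_mem_of_isMaximal hπ hu' hK' 𝔫 hπ𝔫
    obtain ⟨hmax₁, -⟩ := locComap_isMaximal hres
      (chartOne_le_locRing_inv (R := R) (E := EN) j hj0 𝔫 hx)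
    set 𝔫₁ := locComap (chartOne R EN j⁻¹) 𝔫 (chartOne R EN j)
      (chartOne_le_locRing_inv (R := R) (E := EN) j hj0 𝔫 hx) with h𝔫₁
    haveI : 𝔫₁.IsMaximal := hmax₁
    haveI : 𝔫₁.IsPrime := hmax₁.isPrime
    have hinf₁ : sheetIdeal j Winf h.two.chart_le_inf ≤ 𝔫₁ := by
      rw [sheet_le_iff h.two.chart_le_inf (mem_sheetIdeal_iff j Winf h.two.chart_le_inf),
        hLeq, hMeq]
      exact (sheet_le_iff h2.chart_le_inf (mem_sheetIdeal_iff j⁻¹ Winf h2.chart_le_inf)).mp hc.1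
    have h0₁ : sheetIdeal j W0 h.two.chart_le_zero ≤ 𝔫₁ := by
      rw [sheet_le_iff h.two.chart_le_zero (mem_sheetIdeal_iff j W0 h.two.chart_le_zero),
        hLeq, hMeq]
      exact (sheet_le_iff h2.chart_le_zero (mem_sheetIdeal_iff j⁻¹ W0 h2.chart_le_zero)).mp hc.2
    have hπ𝔫₁ : algebraMap R ↥(chartOne R EN j) π ∈ 𝔫₁ :=
      hinf₁ (h.two.pi_mem_inf (K₁ := K₁) hπ)
    obtain ⟨Γ, winf, w0, hΓ, ⟨c, d, hc', hd', hGd⟩, h1, h2', h3⟩ :=
      h.toricDatumAt_frob_al_one hπ hF hw hm hg hordg hordG hlinf hginf hl0 hg0 𝔫₁ hπ𝔫₁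
    obtain ⟨hv, hv'⟩ := div_pow_mem_locRing_of_closed_datum hΓ hc' hd' hGd
    rw [hLeq] at hv
    rw [hMeq] at hv'
    obtain ⟨a1, a2, a3⟩ := h1 hinf₁
    obtain ⟨b1, b2, b3⟩ := h2' h0₁
    have a4 := h3 hinf₁ h0₁
    rw [hLeq] at a1 b1
    rw [hMeq] at a2 b2 a4
    exact ⟨Γ, winf, w0, hΓ, exists_closed_datum_of_div_pow_mem hΓ hv hv',
      fun _ => ⟨a1, a2, a3⟩, fun _ => ⟨b1, b2, b3⟩, fun _ _ => a4⟩
  · obtain ⟨hL1, hL2⟩ := toric_frob_al Winf W0 sN w hF.mem_inf hw.mem_inf q m hlinf hginf hl0 hg0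
    obtain ⟨hL3, hL4⟩ := toric_frob_al W0 Winf sN w hF.mem_zero hw.mem_zero q m hl0 hg0 hlinf hginf
    exact h2.toricDatumAt_of_not_crossing hπ hu' hK' hmod hm hG hordG hL1 hL2 hL3 hL4 𝔫 hπ𝔫 hc

end Model

end Fermat.Agent.RB
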