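/-
PROJECT RB, block [MAZ] (Mazur's principle at `q ≠ p`), package P7 [TORIC-FROB] — helper6 — part 5:
**the toric Frobenius relation on a semistable model.**

`SSModel` (+ `hπ`, `hjint`, `k` algebraically closed, `m`, `ζ`, `lc`), `Φ = sN` the Frobenius of the
model (`SSModelFrob`), `w` the Atkin–Lehner involution (`SSModelAL`); `g ≠ 0` with rational
`m`-divisible divisor, toric: `g ≡ λ_∞ ^ m` on `C_∞`, `g ≡ λ_0 ^ m` on `C_0` with `λ_∞`, `λ_0` units of
the sheets; `G = Φ g · (w g) ^ q` has rational `m`-divisible divisor and leading coefficient `1`.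
Then `G` is an `m`-th power: on the toric part of `J_0(M q)[m]`, `Frob_q + q · w_q = 0`.

* `SSModel.toric_frob_al_pow` : the theorem.
-/
import Mathlib
import Fermat.Agent.RB.MAZ_helper6_Model
import Fermat.Agent.S35.TORIC_helper5

set_option autoImplicit false
set_option linter.unusedSectionVars false
set_option linter.style.haveILetI false

open AlgebraicCurve

namespace Fermat.Agent.RB

open Fermat.Agent.SS Fermat.Agent.JA Fermat.Agent.S35 Polynomial

section Model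

variable {R : Type*} [CommRing R] [IsDomain R] [IsDiscreteValuationRing R] [CharZero R]
  {K₁ : Type*} [Field K₁] [Algebra R K₁] [IsFractionRing R K₁]
  {KM : Type*} [Field KM] [Algebra K₁ KM] [Algebra R KM] [IsScalarTower R K₁ KM]
  {EM : Type*} [Field EM] [Algebra KM EM] [Algebra K₁ EM] [IsScalarTower K₁ KM EM] [Algebra R EM]
  [IsScalarTower R KM EM]
  {KN : Type*} [Field KN] [Algebra K₁ KN] [Algebra R KN] [IsScalarTower R K₁ KN]
  {EN : Type*} [Field EN] [Algebra KN EN] [Algebra K₁ EN] [IsScalarTower K₁ KN EN] [Algebra R EN]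
  [IsScalarTower R KN EN] [FiniteDimensional KN EN]
  {π : R} {q n : ℕ} {S : Finset R} {t : KM} {jM : EM} {j : KN} {A B : EM →+* EN}
  {VM : ValuationSubring EM} {Winf W0 : ValuationSubring EN}
  {sR : R →+* R} {sM : EM →+* EM} {sN : EN →+* EN} {w : EN →+* EN}

/-- **the toric Frobenius relation `Frob_q + q · w_q = 0`, in function-field form.** -/
theorem _root_.Fermat.Agent.SS.SSModel.toric_frob_al_pow
    [IsAlgClosed (IsLocalRing.ResidueField R)]
    (h : SSModel K₁ π q n S t jM j A B VM Winf W0) (hπ : Irreducible π)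
    (hjint : IsIntegral ↥(Algebra.adjoin R {B jM}) (A jM))
    {m : ℕ} (hm : 0 < m) (hmR : IsUnit (m : R)) (ζ : R) (hζ : IsPrimitiveRoot ζ m)
    (lc : ENˣ →* K₁ˣ) (hlc : ∀ c : K₁ˣ, lc (Units.map (algebraMap K₁ EN).toMonoidHom c) = c)
    (hF : SSModelFrob π q j A B VM Winf W0 sR sM sN) (hw : SSModelAL (R := R) A B Winf W0 w)
    (g : EN) (hg : g ≠ 0)
    (hordg : ∀ P : Place K₁ EN, P.ord g = 0 ∨ (IsRationalPlace P ∧ (m : ℤ) ∣ P.ord g))
    (hordG : ∀ P : Place K₁ EN, P.ord (sN g * w g ^ q) = 0 ∨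
      (IsRationalPlace P ∧ (m : ℤ) ∣ P.ord (sN g * w g ^ q)))
    (linf l0 : EN) (hlinf : Winf.valuation linf = 1) (hl0 : W0.valuation l0 = 1)
    (hginf : Winf.valuation (g - linf ^ m) < 1) (hg0 : W0.valuation (g - l0 ^ m) < 1)
    (hlc1 : ∀ u : ENˣ, (u : EN) = sN g * w g ^ q → lc u = 1) :
    ∃ u : EN, sN g * w g ^ q = u ^ m := by
  obtain ⟨hL1, hL2⟩ := toric_frob_al Winf W0 sN w hF.mem_inf hw.mem_inf q m hlinf hginf hl0 hg0
  obtain ⟨hL3, hL4⟩ := toric_frob_al W0 Winf sN w hF.mem_zero hw.mem_zero q m hl0 hg0 hlinf hginf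
  exact toric_pow_of_model (K₁ := K₁) j h.j_transcendental h.j_adjoin π hπ hm hmR ζ hζ h.const lc hlc
    h.two (h.isModelChart_one hπ) (h.isModelChart_two hπ hjint (h.two.inv hπ))
    (sN g * w g ^ q) (sN linf * w l0 ^ q) (sN l0 * w linf ^ q) hL1 hL2 hL3 hL4
    (fun 𝔫 h𝔫 hπ𝔫 => by
      haveI := h𝔫
      exact h.toricDatumAt_frob_al_one hπ hF hw hm.ne' hg hordg hordG hlinf hginf hl0 hg0 𝔫 hπ𝔫)
    (fun 𝔫 h𝔫 hπ𝔫 => by
      haveI := h𝔫
      exact h.toricDatumAt_frob_al_two hπ hjint hF hw hm.ne' hg hordg hordG hlinf hginf hl0 hg0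
        𝔫 hπ𝔫)
    hlc1

end Model

end Fermat.Agent.RB
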