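/-
PROJECT RB, block [MAZ], package P7 [TORIC-FROB] — helper6 — part 7:
**helper5's toric gluing theorem with the leading coefficient an `m`-th power** (instead of `1`).

`toric_pow_of_model` (S35/TORICKUM_helper5_Final) pins the constant of the Kummer extension by
`lc G = 1`.  For `G = Φ g · (w g) ^ q` the leading coefficient at `∞` involves the leading coefficient
of `g` at the cusp `0`, which is not controlled; but it becomes an `m`-th power after a finite
extension of the base, and that is all the gluing argument needs: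

* `toric_final_aux_of_lc_pow`, `toric_pow_of_model_of_lc_pow` : the theorems with
  `hlc1 : ∃ c : K₁ˣ, ∀ u, (u : F) = G → lc u = c ^ m`;
* `SSModel.toric_frob_al_pow_of_lc_pow` : the toric Frobenius relation in that form.
-/
import Mathlib
import Fermat.Agent.RB.MAZ_helper6_Toric

set_option autoImplicit false
set_option linter.unusedSectionVars false
set_option linter.style.haveILetI false

open AlgebraicCurve

namespace Fermat.Agent.RB

open Fermat.Agent.SS Fermat.Agent.JA Fermat.Agent.S35 Polynomial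

section Final

variable {R : Type*} [CommRing R] [IsDomain R] [IsDiscreteValuationRing R] [CharZero R]
  {K₁ : Type*} [Field K₁] [Algebra R K₁] [IsFractionRing R K₁]
  {K : Type*} [Field K] [Algebra K₁ K] [Algebra R K] [IsScalarTower R K₁ K]
  {F : Type*} [Field F] [Algebra K F] [Algebra K₁ F] [IsScalarTower K₁ K F] [Algebra R F]
  [IsScalarTower R K F] [FiniteDimensional K F]
  {π : R} {t : K} {Winf W0 : ValuationSubring F}

/-- the final theorem for an abstract splitting field `L` of `X ^ m - G`, the leading coefficient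
of `G` an `m`-th power. -/
theorem toric_final_aux_of_lc_pow {L : Type*} [Field L] [Algebra K L] [Algebra K₁ L]
    [IsScalarTower K₁ K L]
    [Algebra R L] [IsScalarTower R K L] [Algebra F L] [IsScalarTower K F L] [IsScalarTower K₁ F L]
    [FiniteDimensional K L]
    (t : K) (ht : Transcendental K₁ t) (hK : IntermediateField.adjoin K₁ {t} = ⊤)
    (π : R) (hπ : Irreducible π) {m : ℕ} (hm : 0 < m) (hmR : IsUnit (m : R)) (ζ : R)
    (hζ : IsPrimitiveRoot ζ m)
    (hM4 : ∀ x : F, IsAlgebraic K₁ x → x ∈ Set.range (algebraMap K₁ F))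
    (lc : Fˣ →* K₁ˣ) (hlc : ∀ c : K₁ˣ, lc (Units.map (algebraMap K₁ F).toMonoidHom c) = c)
    {Winf W0 : ValuationSubring F} (two : IsTwoSheet π t Winf W0)
    (hRED₁ : ∀ x ∈ chartOne R F t, ∀ (N : ℕ), ∀ y ∈ chartOne R F t,
      x ^ N = algebraMap R F π * y → ∃ z ∈ chartOne R F t, x = algebraMap R F π * z)
    (hRED₂ : ∀ x ∈ chartOne R F t⁻¹, ∀ (N : ℕ), ∀ y ∈ chartOne R F t⁻¹,
      x ^ N = algebraMap R F π * y → ∃ z ∈ chartOne R F t⁻¹, x = algebraMap R F π * z)
    (G Linf L0 : F)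
    (hLinf : Winf.valuation Linf = 1) (hGinf : Winf.valuation (G - Linf ^ m) < 1)
    (hL0 : W0.valuation L0 = 1) (hG0 : W0.valuation (G - L0 ^ m) < 1)
    (hd₁ : ∀ (𝔫 : Ideal ↥(chartOne R F t)) (h𝔫 : 𝔫.IsMaximal),
      algebraMap R ↥(chartOne R F t) π ∈ 𝔫 →
      @ToricDatumAt R _ F _ _ (chartOne R F t) (sheetIdeal t Winf two.chart_le_inf)
        (sheetIdeal t W0 two.chart_le_zero) 𝔫 h𝔫.isPrime Winf W0 m G Linf L0)
    (hd₂ : ∀ (𝔫 : Ideal ↥(chartOne R F t⁻¹)) (h𝔫 : 𝔫.IsMaximal),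
      algebraMap R ↥(chartOne R F t⁻¹) π ∈ 𝔫 →
      @ToricDatumAt R _ F _ _ (chartOne R F t⁻¹) (sheetIdeal t⁻¹ Winf (two.inv hπ).chart_le_inf)
        (sheetIdeal t⁻¹ W0 (two.inv hπ).chart_le_zero) 𝔫 h𝔫.isPrime Winf W0 m G Linf L0)
    (hlc1 : ∃ c : K₁ˣ, ∀ u : Fˣ, (u : F) = G → lc u = c ^ m)
    [IsSplittingField F L (X ^ m - C G)] :
    ∃ u : F, G = u ^ m := by
  have hπp : Prime π := hπ.prime
  have hG : G ≠ 0 := by
    intro h
    rw [h, zero_sub, Valuation.map_neg, map_pow, hLinf, one_pow] at hGinf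
    exact lt_irrefl _ hGinf
  have hinjF : Function.Injective (algebraMap R F) :=
    algebraMap_injective_of_tower (K₁ := K₁) (K := K)
  have hinjL : Function.Injective (algebraMap R L) :=
    algebraMap_injective_of_tower (K₁ := K₁) (K := K)
  have hπL : algebraMap R L π ≠ 0 := by
    rw [Ne, map_eq_zero_iff _ hinjL]; exact hπp.ne_zero
  have hζF : IsPrimitiveRoot (algebraMap R F ζ) m := hζ.map_of_injective hinjF
  have hζK₁ : IsPrimitiveRoot (algebraMap R K₁ ζ) m :=
    hζ.map_of_injective (IsFractionRing.injective R K₁)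
  haveI : FiniteDimensional F L := IsSplittingField.finiteDimensional L (X ^ m - C G)
  have hmF : (m : F) ≠ 0 := by
    haveI : NeZero m := ⟨hm.ne'⟩
    exact (hζF.neZero' (R := F)).out
  haveI : IsGalois F L := IsGalois.of_separable_splitting_field
    (p := X ^ m - C G) (separable_X_pow_sub_C _ hmF hG)
  obtain ⟨α, hα, hfix⟩ := exists_root_fixing (L := L) hm (algebraMap R F ζ) hζF G hG
  have ht' : Transcendental K₁ t⁻¹ := transcendental_inv_of_transcendental ht
  have hK' : IntermediateField.adjoin K₁ {t⁻¹} = ⊤ := adjoin_inv_eq_top hK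
  have two' := two.inv hπ
  -- the rescaled root, with leading coefficient `1`
  obtain ⟨c, hc⟩ := hlc1
  set cF : F := algebraMap K₁ F (c : K₁) with hcF
  have hcF0 : cF ≠ 0 := (_root_.map_ne_zero _).mpr c.ne_zero
  set cL : L := algebraMap F L cF with hcL
  have hcL0 : cL ≠ 0 := (_root_.map_ne_zero _).mpr hcF0
  set G' : Fˣ := Units.mk0 G hG * (Units.map (algebraMap K₁ F).toMonoidHom c)⁻¹ ^ m with hG'
  have hG'val : (G' : F) = G / cF ^ m := by
    rw [hG']
    simp only [Units.val_mul, Units.val_mk0, Units.val_pow_eq_pow_val, Units.val_inv_eq_inv_val,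
      Units.coe_map, MonoidHom.coe_coe, RingHom.toMonoidHom_eq_coe]
    rw [div_eq_mul_inv, inv_pow]
  have hlcG' : lc G' = 1 := by
    rw [hG', map_mul, map_pow, map_inv, hlc, hc _ rfl]
    exact mul_inv_cancel _
  have hα' : (α / cL) ^ m = algebraMap F L (G' : F) := by
    rw [div_pow, hα, hG'val, map_div₀, map_pow]
  have hfix' : ∀ g : L ≃ₐ[F] L, g (α / cL) = α / cL → g = 1 := by
    intro g hg
    apply hfix g
    rw [map_div₀, hcL, AlgEquiv.commutes] at hg
    have hcL0' : algebraMap F L cF ≠ 0 := hcL0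
    field_simp at hg
    exact hg
  have D : ToricKumData K₁ t π m ζ Winf W0 G Linf L0 α :=
    { ht := ht
      hK := hK
      hπ := hπ
      hm := hm
      hmR := hmR
      hζ := hζ
      two := two
      hLinf := hLinf
      hGinf := hGinf
      hL0 := hL0
      hG0 := hG0
      hd₁ := hd₁
      hd₂ := hd₂
      hα := hα
      hM4 := fun x hx => mem_range_of_isAlgebraic_kummer hM4 lc hlc (algebraMap R K₁ ζ) hζK₁ hm
        (α / cL) G' hα' hlcG' hfix' x hx
      hRED₁ := fun x hx N y hy hxy => chartOne_reduced_of_kummer (K₁ := K₁) (F := F) t ht hK π hπL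
        hm hmR α G hα hG hfix hRED₁
        (two.sheet_datum_of_toric hπ ht hK hLinf hGinf hL0 hG0) x hx N y hy hxy
      hRED₂ := fun x hx N y hy hxy => chartOne_reduced_of_kummer (K₁ := K₁) (F := F) t⁻¹ ht' hK' π
        hπL hm hmR α G hα hG hfix hRED₂
        (two'.sheet_datum_of_toric hπ ht' hK' hLinf hGinf hL0 hG0) x hx N y hy hxy
      hT₁ := coord_not_mem_minimalPrimes_lift (K₁ := K₁) (F := F) t ht hK π hπL
        (coord_not_mem_of_mem_minimalPrimes (K₁ := K₁) t ht hK π hπp)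
      hT₂ := coord_not_mem_minimalPrimes_lift (K₁ := K₁) (F := F) t⁻¹ ht' hK' π hπL
        (coord_not_mem_of_mem_minimalPrimes (K₁ := K₁) t⁻¹ ht' hK' π hπp) }
  have hmem : α ∈ (⊥ : IntermediateField F L) :=
    (IsGalois.mem_bot_iff_fixed α).2 (fun τ => D.fixed τ)
  obtain ⟨u, hu⟩ := IntermediateField.mem_bot.1 hmem
  refine ⟨u, (algebraMap F L).injective ?_⟩
  rw [map_pow, hu, hα]

/-- **the toric gluing theorem, the leading coefficient an `m`-th power.** -/
theorem toric_pow_of_model_of_lc_pow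
    (t : K) (ht : Transcendental K₁ t) (hK : IntermediateField.adjoin K₁ {t} = ⊤)
    (π : R) (hπ : Irreducible π) {m : ℕ} (hm : 0 < m) (hmR : IsUnit (m : R)) (ζ : R)
    (hζ : IsPrimitiveRoot ζ m)
    (hM4 : ∀ x : F, IsAlgebraic K₁ x → x ∈ Set.range (algebraMap K₁ F))
    (lc : Fˣ →* K₁ˣ) (hlc : ∀ c : K₁ˣ, lc (Units.map (algebraMap K₁ F).toMonoidHom c) = c)
    {Winf W0 : ValuationSubring F} (two : IsTwoSheet π t Winf W0)
    (hmod₁ : IsModelChart F π (sheetIdeal t Winf two.chart_le_inf)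
      (sheetIdeal t W0 two.chart_le_zero))
    (hmod₂ : IsModelChart F π (sheetIdeal t⁻¹ Winf (two.inv hπ).chart_le_inf)
      (sheetIdeal t⁻¹ W0 (two.inv hπ).chart_le_zero))
    (G Linf L0 : F)
    (hLinf : Winf.valuation Linf = 1) (hGinf : Winf.valuation (G - Linf ^ m) < 1)
    (hL0 : W0.valuation L0 = 1) (hG0 : W0.valuation (G - L0 ^ m) < 1)
    (hd₁ : ∀ (𝔫 : Ideal ↥(chartOne R F t)) (h𝔫 : 𝔫.IsMaximal),
      algebraMap R ↥(chartOne R F t) π ∈ 𝔫 →
      @ToricDatumAt R _ F _ _ (chartOne R F t) (sheetIdeal t Winf two.chart_le_inf)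
        (sheetIdeal t W0 two.chart_le_zero) 𝔫 h𝔫.isPrime Winf W0 m G Linf L0)
    (hd₂ : ∀ (𝔫 : Ideal ↥(chartOne R F t⁻¹)) (h𝔫 : 𝔫.IsMaximal),
      algebraMap R ↥(chartOne R F t⁻¹) π ∈ 𝔫 →
      @ToricDatumAt R _ F _ _ (chartOne R F t⁻¹) (sheetIdeal t⁻¹ Winf (two.inv hπ).chart_le_inf)
        (sheetIdeal t⁻¹ W0 (two.inv hπ).chart_le_zero) 𝔫 h𝔫.isPrime Winf W0 m G Linf L0)
    (hlc1 : ∃ c : K₁ˣ, ∀ u : Fˣ, (u : F) = G → lc u = c ^ m) :
    ∃ u : F, G = u ^ m := by
  haveI : IsScalarTower R K (X ^ m - C G : F[X]).SplittingField :=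
    IsScalarTower.of_algebraMap_eq fun r => by
      rw [IsScalarTower.algebraMap_apply R F (X ^ m - C G : F[X]).SplittingField,
        IsScalarTower.algebraMap_apply R K F,
        ← IsScalarTower.algebraMap_apply K F (X ^ m - C G : F[X]).SplittingField]
  haveI : IsScalarTower K₁ K (X ^ m - C G : F[X]).SplittingField :=
    IsScalarTower.of_algebraMap_eq fun r => by
      rw [IsScalarTower.algebraMap_apply K₁ F (X ^ m - C G : F[X]).SplittingField,
        IsScalarTower.algebraMap_apply K₁ K F,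
        ← IsScalarTower.algebraMap_apply K F (X ^ m - C G : F[X]).SplittingField]
  haveI : FiniteDimensional K (X ^ m - C G : F[X]).SplittingField :=
    Module.Finite.trans F _
  exact toric_final_aux_of_lc_pow (L := (X ^ m - C G : F[X]).SplittingField) t ht hK π hπ hm hmR ζ
    hζ hM4 lc hlc two (hmod₁.reduced_chartOne t) (hmod₂.reduced_chartOne t⁻¹) G Linf L0 hLinf hGinf
    hL0 hG0 hd₁ hd₂ hlc1

end Final

section Model

variable {R : Type*} [CommRing R] [IsDomain R] [IsDiscreteValuationRing R] [CharZero R]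
  {K₁ : Type*} [Field K₁] [Algebra R K₁] [IsFractionRing R K₁]
  {KM : Type*} [Field KM] [Algebra K₁ KM] [Algebra R KM] [IsScalarTower R K₁ KM]
  {EM : Type*} [Field EM] [Algebra KM EM] [Algebra K₁ EM] [IsScalarTower K₁ KM EM] [Algebra R EM]
  [IsScalarTower R KM EM]
  {KN : Type*} [Field KN] [Algebra K₁ KN] [Algebra R KN] [IsScalarTower R K₁ KN]
  {EN : Type*} [Field EN] [Algebra KN EN] [Algebra K₁ EN] [IsScalarTower K₁ KN EN] [Algebra R EN]
  [IsScalarTower R KN EN] [FiniteDimensional KN EN]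
  {π : R} {q n : ℕ} {S : Finset R} {t : KM} {jM : EM} {j : KN} {A B : EM →+* EN}
  {VM : ValuationSubring EM} {Winf W0 : ValuationSubring EN}
  {sR : R →+* R} {sM : EM →+* EM} {sN : EN →+* EN} {w : EN →+* EN}

/-- **the toric Frobenius relation `Frob_q + q · w_q = 0`, in function-field form**, the leading
coefficient of `G = Φ g · (w g) ^ q` an `m`-th power. -/
theorem _root_.Fermat.Agent.SS.SSModel.toric_frob_al_pow_of_lc_pow
    [IsAlgClosed (IsLocalRing.ResidueField R)]
    (h : SSModel K₁ π q n S t jM j A B VM Winf W0) (hπ : Irreducible π)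
    (hjint : IsIntegral ↥(Algebra.adjoin R {B jM}) (A jM))
    {m : ℕ} (hm : 0 < m) (hmR : IsUnit (m : R)) (ζ : R) (hζ : IsPrimitiveRoot ζ m)
    (lc : ENˣ →* K₁ˣ) (hlc : ∀ c : K₁ˣ, lc (Units.map (algebraMap K₁ EN).toMonoidHom c) = c)
    (hF : SSModelFrob π q j A B VM Winf W0 sR sM sN) (hw : SSModelAL (R := R) A B Winf W0 w)
    (g : EN) (hg : g ≠ 0)
    (hordg : ∀ P : Place K₁ EN, P.ord g = 0 ∨ (IsRationalPlace P ∧ (m : ℤ) ∣ P.ord g))
    (hordG : ∀ P : Place K₁ EN, P.ord (sN g * w g ^ q) = 0 ∨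
      (IsRationalPlace P ∧ (m : ℤ) ∣ P.ord (sN g * w g ^ q)))
    (linf l0 : EN) (hlinf : Winf.valuation linf = 1) (hl0 : W0.valuation l0 = 1)
    (hginf : Winf.valuation (g - linf ^ m) < 1) (hg0 : W0.valuation (g - l0 ^ m) < 1)
    (hlc1 : ∃ c : K₁ˣ, ∀ u : ENˣ, (u : EN) = sN g * w g ^ q → lc u = c ^ m) :
    ∃ u : EN, sN g * w g ^ q = u ^ m := by
  obtain ⟨hL1, hL2⟩ := toric_frob_al Winf W0 sN w hF.mem_inf hw.mem_inf q m hlinf hginf hl0 hg0
  obtain ⟨hL3, hL4⟩ := toric_frob_al W0 Winf sN w hF.mem_zero hw.mem_zero q m hl0 hg0 hlinf hginf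
  exact toric_pow_of_model_of_lc_pow (K₁ := K₁) j h.j_transcendental h.j_adjoin π hπ hm hmR ζ hζ
    h.const lc hlc
    h.two (h.isModelChart_one hπ) (h.isModelChart_two hπ hjint (h.two.inv hπ))
    (sN g * w g ^ q) (sN linf * w l0 ^ q) (sN l0 * w linf ^ q) hL1 hL2 hL3 hL4
    (fun 𝔫 h𝔫 hπ𝔫 => by
      haveI := h𝔫
      exact h.toricDatumAt_frob_al_one hπ hF hw hm.ne' hg hordg hordG hlinf hginf hl0 hg0 𝔫 hπ𝔫)
    (fun 𝔫 h𝔫 hπ𝔫 => by
      haveI := h𝔫
      exact h.toricDatumAt_frob_al_two hπ hjint hF hw hm.ne' hg hordg hordG hlinf hginf hl0 hg0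
        𝔫 hπ𝔫)
    hlc1

end Model

end Fermat.Agent.RB
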