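/-
PROJECT RB, block [MAZ] (Mazur's principle at `q ≠ p`), package P7 [TORIC-FROB] — helper6 — part 6:
**the Frobenius and the Atkin–Lehner involution on the Legendre hosts.**

`R` a discrete valuation ring with fraction field `K ⊇ ℚ` and residue characteristic `q` (odd,
`q ∤ M`), `τ ∈ Aut(K/ℚ)` an abstract Frobenius lift (`τ` induces the bijective `τR` on `R`,
`τR r ≡ r ^ q mod π`).  On helper7's Legendre model `SSModelLeg` (hosts `legE K M ⇉ legE K (M q)`):

* `ssModelFrob_leg` : the coefficientwise actions of `τ` form an `SSModelFrob` (all Kronecker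
  congruences `A(c)^q ≡ B(τ c)` on `C_∞`, `B(c)^q ≡ A(τ c)` on `C_0`);
* `ssModelAL_leg` : the host-level Atkin–Lehner involution `legAL` is an `SSModelAL`;
* `leg_toric_frob_al_pow` : **the toric Frobenius relation on the Legendre host** — `G = τ g · (w g)^q`
  is an `m`-th power for toric `g`.
-/
import Mathlib
import Fermat.Agent.RB.MAZ_helper6_Toric
import Fermat.Agent.S35.FROBSHEET_helper6_Host
import Fermat.Agent.S35.FROBKRON_helper6_Gauss
import Fermat.Agent.S36.HOST11_helper6_Leg

set_option autoImplicit false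
set_option linter.unusedSectionVars false
set_option linter.style.haveILetI false
set_option synthInstance.maxHeartbeats 200000

open HahnSeries IntermediateField ModularCurve Fermat.Agent.Igusa Fermat.Agent.JA Fermat.Agent.SS
open Fermat.Agent.S35 Fermat.Agent.S36

namespace Fermat.Agent.RB

open scoped Fermat.Agent.JA.Host

noncomputable section

section Host

variable (R : Type*) [CommRing R] [IsDomain R] [IsDiscreteValuationRing R] [CharZero R]
  (K : Type*) [Field K] [Algebra R K] [IsFractionRing R K] [Algebra ℚ K] [Algebra K ℂ]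
  {M q : ℕ} [NeZero M] [NeZero q] [NeZero (M * q)] [NeZero (M * q * q)]
  [NeZero (4 * M)] [NeZero (4 * M * q)] [NeZero (4 * M * q * q)]
  {x y x' y' : ℤ}

/-- **the host-level Atkin–Lehner involution is an `SSModelAL`.** -/
theorem ssModelAL_leg [DecidableEq R] {π : R} (hπ : Irreducible π) {h2 : IsUnit (2 : R)}
    (hbez : (q : ℤ) * x + M * y = 1) (h' : (q : ℤ) * x' + ((4 * M : ℕ) : ℤ) * y' = 1)
    (hq : q.Prime) (hq2 : q ≠ 2) (h : SSModelLeg R K π h2 hbez hq hq2) :
    SSModelAL (R := R) (legHostA K M q : ↥(legE K M) →+* ↥(legE K (M * q)))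
      (legHostB K M q hq hq2 : ↥(legE K M) →+* ↥(legE K (M * q)))
      (legWinf R K h2 (M * q)) (legW0 R K hbez hq)
      ((legAL K hbez h' hq hq2 : _ ≃ₐ[K] _) : ↥(legE K (M * q)) →+* ↥(legE K (M * q))) := by
  have hmemA : ∀ c : ↥(legE K M),
      ((legHostA K M q c : ↥(legE K (M * q))) : LaurentSeries K) ∈ legE K M := by
    intro c
    rw [coe_legHostA]
    exact c.2
  have hA : ∀ c : ↥(legE K M), legAL K hbez h' hq hq2 (legHostA K M q c) =
      legHostB K M q hq hq2 c := by
    intro c
    apply Subtype.ext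
    rw [coe_legHostB]
    have := coe_alEtu_of_mem K 2 (4 * M) hbez h' hq (leg_dvd_four M) (legT K) (legT_mem_keyFq K)
      (qExpand_legT_mem_legE K hq hq2 (Dvd.intro_left M rfl)) (legHostA K M q c) (hmemA c)
    rw [coe_legHostA] at this
    exact this
  refine
    { map_R := fun r => ?_
      map_A := hA
      map_B := fun c => ?_
      invol := fun z => ?_
      mem_inf := fun z => ?_ }
  · rw [IsScalarTower.algebraMap_apply R K ↥(legE K (M * q))]
    exact (legAL K hbez h' hq hq2).commutes _
  · exact alEtu_eq_of_coe_eq_qExpand K 2 (4 * M) hbez h' hq (leg_dvd_four M) (legT K)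
      (legT_mem_keyFq K) (qExpand_legT_mem_legE K hq hq2 (Dvd.intro_left M rfl))
      (legHostA K M q c) (legHostB K M q hq hq2 c) (hmemA c)
      (by rw [coe_legHostB, coe_legHostA])
  · exact alEtu_alEtu K 2 (4 * M) hbez h' hq (leg_dvd_four M) (legT K) (legT_mem_keyFq K)
      (qExpand_legT_mem_legE K hq hq2 (Dvd.intro_left M rfl)) z
  · rw [legW0_eq_comap_legAL R K hbez h' hq hq2 hπ h]
    rfl

/-- **the Frobenius action on the Legendre model**: all fields of `SSModelFrob`, for an abstract
Frobenius lift `(τ, τR)`. -/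
theorem ssModelFrob_leg [DecidableEq R] {π : R} (hπ : Irreducible π) {h2 : IsUnit (2 : R)}
    (hbez : (q : ℤ) * x + M * y = 1) (h' : (q : ℤ) * x' + ((4 * M : ℕ) : ℤ) * y' = 1)
    (hq : q.Prime) (hq2 : q ≠ 2) (hqπ : (q : R) ∈ Ideal.span {π})
    (h : SSModelLeg R K π h2 hbez hq hq2)
    (τ : K ≃ₐ[ℚ] K) (τR : R →+* R)
    (hτ : ∀ r : R, τ (algebraMap R K r) = algebraMap R K (τR r))
    (hfrob : ∀ r : R, τR r - r ^ q ∈ Ideal.span {π}) (hbij : Function.Bijective τR) :
    SSModelFrob π q (AdjoinSimple.gen K (jqNModC K 2))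
      (legHostA K M q : ↥(legE K M) →+* ↥(legE K (M * q)))
      (legHostB K M q hq hq2 : ↥(legE K M) →+* ↥(legE K (M * q)))
      (legWinf R K h2 M) (legWinf R K h2 (M * q)) (legW0 R K hbez hq) τR
      ((coeffRingAut (coeffStable_legE K M) τ : ↥(legE K M) ≃+* ↥(legE K M)) :
        ↥(legE K M) →+* ↥(legE K M))
      ((coeffRingAut (coeffStable_legE K (M * q)) τ :
        ↥(legE K (M * q)) ≃+* ↥(legE K (M * q))) : ↥(legE K (M * q)) →+* ↥(legE K (M * q))) := by
  haveI : CharP (IsLocalRing.ResidueField R) q := charP_residueField_of_mem_span hπ hq hqπ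
  haveI : ExpChar (IsLocalRing.ResidueField R) q := ExpChar.prime hq
  have hfrob' : ∀ r : R, τR r - r ^ q ∈ IsLocalRing.maximalIdeal R := by
    intro r
    rw [(IsDiscreteValuationRing.irreducible_iff_uniformizer π).1 hπ]
    exact hfrob r
  have hΨ := ssFrobAut_leg R K hπ hqπ h τ τR hτ hfrob hbij
  have hw := ssModelAL_leg R K hπ hbez h' hq hq2 h
  have hcommA : ∀ c : ↥(legE K M),
      coeffRingAut (coeffStable_legE K (M * q)) τ (legHostA K M q c) =
        legHostA K M q (coeffRingAut (coeffStable_legE K M) τ c) := by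
    intro c
    apply Subtype.ext
    rw [coe_coeffRingAut_apply, coe_legHostA, coe_legHostA, coe_coeffRingAut_apply]
  have hcommB : ∀ c : ↥(legE K M),
      coeffRingAut (coeffStable_legE K (M * q)) τ (legHostB K M q hq hq2 c) =
        legHostB K M q hq hq2 (coeffRingAut (coeffStable_legE K M) τ c) := by
    intro c
    apply Subtype.ext
    rw [coe_coeffRingAut_apply, coe_legHostB, coe_legHostB, coe_coeffRingAut_apply,
      coeffMap_qExpand]
  have hkinf : ∀ c ∈ legWinf R K h2 M, (legWinf R K h2 (M * q)).valuation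
      ((legHostA K M q : ↥(legE K M) →+* ↥(legE K (M * q))) c ^ q -
        (legHostB K M q hq hq2 : ↥(legE K M) →+* ↥(legE K (M * q)))
          (coeffRingAut (coeffStable_legE K M) τ c)) < 1 := fun c hc =>
    valuation_pow_sub_dilate_frob_lt_one q (τ : K →+* K) τR hτ hfrob'
      ((coeffRingAut (coeffStable_legE K M) τ : ↥(legE K M) ≃+* ↥(legE K M)) :
        ↥(legE K M) →+* ↥(legE K M))
      (fun _ => rfl) (legHostA K M q : ↥(legE K M) →+* ↥(legE K (M * q)))
      (legHostB K M q hq hq2 : ↥(legE K M) →+* ↥(legE K (M * q)))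
      (fun f => coe_legHostA K M q f) (fun f => coe_legHostB K M q hq hq2 f) hc
  exact
    { frob_R := hfrob
      map_R_M := fun r => by
        rw [IsScalarTower.algebraMap_apply R K ↥(legE K M), RingEquiv.coe_toRingHom,
          coeffRingAut_algebraMap, hτ, ← IsScalarTower.algebraMap_apply R K ↥(legE K M)]
      map_R_N := hΨ.map_R
      map_j := hΨ.map_j
      bij_R := hbij
      bij_M := (coeffRingAut (coeffStable_legE K M) τ).bijective
      bij_N := hΨ.bij
      comm_A := hcommA
      comm_B := hcommB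
      mem_VM := fun f => frob_mem_gaussValSub_iff q (τ : K →+* K) τR hτ hfrob'
        ((coeffRingAut (coeffStable_legE K M) τ : ↥(legE K M) ≃+* ↥(legE K M)) :
          ↥(legE K M) →+* ↥(legE K M)) (fun _ => rfl) f
      mem_inf := hΨ.mem_inf
      mem_zero := hΨ.mem_zero
      kron_inf := hkinf
      kron_zero := fun c hc => by
        have h1 := hkinf c hc
        rw [← hw.valuation_inf_lt_one_iff]
        have h2 : ((legAL K hbez h' hq hq2 : _ ≃ₐ[K] _) :
            ↥(legE K (M * q)) →+* ↥(legE K (M * q)))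
            ((legHostB K M q hq hq2 : ↥(legE K M) →+* ↥(legE K (M * q))) c ^ q -
              (legHostA K M q : ↥(legE K M) →+* ↥(legE K (M * q)))
                (coeffRingAut (coeffStable_legE K M) τ c)) =
            (legHostA K M q : ↥(legE K M) →+* ↥(legE K (M * q))) c ^ q -
              (legHostB K M q hq hq2 : ↥(legE K M) →+* ↥(legE K (M * q)))
                (coeffRingAut (coeffStable_legE K M) τ c) := by
          rw [map_sub, map_pow, hw.map_B, hw.map_A]
        exact lt_of_eq_of_lt (congrArg _ h2) h1 }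

end Host

end

end Fermat.Agent.RB
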