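/-
RB — helper6 — [MAZ], package P3 (part 1): **compatibilities of the Atkin–Lehner involutions**
(level field over a base `K`, level field over `Ω`, Legendre host).

* `legAL_fullToLegE` : on the image of `F_{Mq}(K)` in the Legendre host, the host involution `legAL`
  is the Atkin–Lehner involution `atkinLehnerN` of `F_{Mq}(K)`;
* `keyFqBC_atkinLehnerN` : `atkinLehnerN` over a base `K₁ ⊂ Ω` (any embedding `K₁ → ℂ`, any Bézout
  data) base-changes to `atkinLehnerBar` over `Ω`;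
* `keyFqBC_frob_mul_al` : the base change of `φ̄ F₁ · (W F₁) ^ q`.
-/
import Mathlib
import Fermat.Agent.RB.MAZ_helper6_ALJ
import Fermat.Agent.S36.HOST11_helper6_Leg
import Fermat.Agent.SS.IBASE_helper1_Act
import Fermat.Agent.JA.BCD_helper9_HostRat

set_option autoImplicit false
set_option linter.unusedSectionVars false
set_option linter.unusedVariables false
set_option linter.style.haveILetI false
set_option synthInstance.maxHeartbeats 200000

open HahnSeries IntermediateField AlgebraicCurve ModularCurve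

namespace Fermat.Agent.RB

open Fermat.Agent.JA Fermat.Agent.FF Fermat.Agent.SS Fermat.Agent.S35 Fermat.Agent.S36
  Fermat.Agent.X0N

/-- `Ω = AlgebraicClosure ℚ`. -/
local notation "Ω" => AlgebraicClosure ℚ

/-- the absolute Galois group. -/
local notation "GQ" => (AlgebraicClosure ℚ ≃ₐ[ℚ] AlgebraicClosure ℚ)

section Host

variable (K : Type*) [Field K] [Algebra ℚ K] [Algebra K ℂ]
  {M q : ℕ} [NeZero M] [NeZero q] [NeZero (M * q)] [NeZero (4 * M)] [NeZero (4 * M * q)]
  {x y x' y' : ℤ}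

/-- **`legAL ∘ fullToLegE = fullToLegE ∘ W_q`.** -/
theorem legAL_fullToLegE (hbez : (q : ℤ) * x + M * y = 1)
    (h' : (q : ℤ) * x' + ((4 * M : ℕ) : ℤ) * y' = 1) (hq : q.Prime) (hq2 : q ≠ 2)
    (F : ↥(keyFq K (M * q))) :
    legAL K hbez h' hq hq2 (fullToLegE K (M * q) F) =
      fullToLegE K (M * q) (atkinLehnerN (algebraMap K ℂ) hbez hq F) := by
  apply Subtype.ext
  rw [coe_fullToLegE]
  exact coe_alEtu_of_coe_eq K 2 (4 * M) hbez h' hq (leg_dvd_four M) (legT K) (legT_mem_keyFq K)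
    (qExpand_legT_mem_legE K hq hq2 (Dvd.intro_left M rfl)) (fullToLegE K (M * q) F) F
    (coe_fullToLegE K (M * q) F)

end Host

section BC

variable {M q : ℕ} [NeZero M] [NeZero q] [NeZero (M * q)] (K₁ : IntermediateField ℚ Ω)
  (ι : ↥K₁ →+* ℂ) {x y : ℤ}

theorem keyFqBC_keyFqA (a : ↥(keyFq ↥K₁ M)) :
    keyFqBC (M * q) K₁ (keyFqA ↥K₁ M q a) = heckeAlphaBar Ω M q (keyFqBC M K₁ a) :=
  Subtype.ext (by rw [coe_keyFqBC, coe_keyFqA, coe_heckeAlphaBar, coe_keyFqBC])

theorem keyFqBC_keyFqB (a : ↥(keyFq ↥K₁ M)) :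
    keyFqBC (M * q) K₁ (keyFqB ↥K₁ M q a) = heckeBetaBar Ω M q (keyFqBC M K₁ a) :=
  Subtype.ext (by
    rw [coe_keyFqBC, coe_keyFqB, coe_heckeBetaBar, coe_keyFqBC, coeffMap_qExpand])

/-- **the Atkin–Lehner involution commutes with base change to `Ω`.** -/
theorem keyFqBC_atkinLehnerN (hbez : (q : ℤ) * x + M * y = 1) (hq : q.Prime) (hqM : ¬ q ∣ M)
    (F : ↥(keyFq ↥K₁ (M * q))) :
    keyFqBC (M * q) K₁ (atkinLehnerN ι hbez hq F) =
      atkinLehnerBar M q hq hqM (keyFqBC (M * q) K₁ F) := by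
  have key : (keyFqBC (M * q) K₁).comp (atkinLehnerN ι hbez hq) =
      (atkinLehnerBar M q hq hqM).comp (keyFqBC (M * q) K₁) := by
    apply keyFq_ringHom_ext ↥K₁ hq
    · intro a
      simp only [RingHom.comp_apply]
      rw [atkinLehnerN_keyFqA ↥K₁ ι hbez hq a, keyFqBC_keyFqB, keyFqBC_keyFqA,
        atkinLehnerBar_alpha]
    · intro b
      simp only [RingHom.comp_apply]
      rw [atkinLehnerN_keyFqB ↥K₁ ι hbez hq b, keyFqBC_keyFqB, keyFqBC_keyFqA,
        atkinLehnerBar_beta]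
  exact RingHom.congr_fun key F

end BC

end Fermat.Agent.RB
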