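/-
RB — helper6 — [MAZ], package P3 (part 2): **(KEY-TORIC) on `J₀(M q)`** — the descent of the host
statement `legMaz_at_base` (P7) to the Jacobian.

For a class `x = [D] ∈ J₀(M q)[m]` (`q` odd, `q ∤ M`, `q ∤ m`) with a toric Kummer function `f`
(`IsToricRep M q m A f`, `div f = m D`) and a Frobenius lift `φ` at `A ∣ q`:
`legDeg (M q) • (φ x + q • w_q x) = 0`; if `m` is prime to the degree of the Legendre host,
`φ x + q • w_q x = 0` (`keyToricStatement`).

Chain: `G_Ω = φ̄ f · (W f) ^ q` over `Ω`; a Galois base `K₁ ⊇ K₀` containing an `m`-th root of the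
leading coefficient of `G_Ω`, over which `f` is defined and the supports of `f`, `G_Ω` on the host
are rational; `legMaz_at_base`; the norm from the host to `F_{Mq}(K₁)`; base change to `Ω`;
`pic0_frob_add_al_eq_zero_of_kummer`.
-/
import Mathlib
import Fermat.Agent.RB.MAZ_helper6_Base
import Fermat.Agent.RB.MAZ_helper6_Iface
import Fermat.Agent.RB.MAZ_helper6_Compat
import Fermat.Agent.SS.TOPB_lead_Leg
import Fermat.Agent.SS.MODELS_helper7_AtBases

set_option autoImplicit false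
set_option linter.unusedSectionVars false
set_option linter.unusedVariables false
set_option linter.style.haveILetI false
set_option synthInstance.maxHeartbeats 400000

open HahnSeries IntermediateField AlgebraicCurve ModularCurve

namespace Fermat.Agent.RB

open Fermat.Agent.JA Fermat.Agent.FF Fermat.Agent.SS Fermat.Agent.S35 Fermat.Agent.S36
  Fermat.Agent.X0N

/-- `Ω = AlgebraicClosure ℚ`. -/
local notation "Ω" => AlgebraicClosure ℚ

/-- the absolute Galois group. -/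
local notation "GQ" => (AlgebraicClosure ℚ ≃ₐ[ℚ] AlgebraicClosure ℚ)

section Desc

variable (M q : ℕ) [NeZero M] [NeZero q] [NeZero (M * q)]

set_option maxHeartbeats 6400000 in
/-- **(KEY-TORIC), with the degree of the host.** -/
theorem legDeg_smul_frob_add_al_eq_zero (hq : q.Prime) (hq2 : q ≠ 2) (hqM : ¬ q ∣ M)
    (A : ValuationSubring Ω) (hA : A.LiesOverPrime q) (φ : GQ) (hφ : A.IsFrobeniusAt φ q)
    {m : ℕ} (hm : 0 < m) (hqm : ¬ q ∣ m)
    (D : Divisor.degZero (K := Ω) (F := ↥(modularFunctionFieldBar (M * q))))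
    (f : ↥(modularFunctionFieldBar (M * q))) (hf : f ≠ 0)
    (hfD : ∀ v : Place Ω ↥(modularFunctionFieldBar (M * q)),
      v.ord f = (m : ℤ) * (D : Divisor Ω ↥(modularFunctionFieldBar (M * q))) v)
    (htor : IsToricRep M q m A f) :
    legDeg (M * q) • (φ • (Pic0.mk D : JZero (M * q)) +
      q • atkinLehnerJ hq hqM (Pic0.mk D : JZero (M * q))) = 0 := by
  classical
  haveI : Fact q.Prime := ⟨hq⟩
  haveI : NeZero (M * q * q) := ⟨mul_ne_zero (NeZero.ne (M * q)) (NeZero.ne q)⟩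
  haveI : NeZero (4 * M) := ⟨mul_ne_zero (by norm_num) (NeZero.ne M)⟩
  haveI : NeZero (4 * M * q) := ⟨mul_ne_zero (NeZero.ne (4 * M)) (NeZero.ne q)⟩
  haveI : NeZero (4 * M * q * q) := ⟨mul_ne_zero (NeZero.ne (4 * M * q)) (NeZero.ne q)⟩
  obtain ⟨K₀, hK₀, htor⟩ := htor
  -- the function `G_Ω = φ̄ f · (W f) ^ q` over `Ω`
  set gφ : SemilinearAut Ω ↥(modularFunctionFieldBar (M * q)) :=
    arithmeticGalois (modularFunctionFieldFull (M * q)) φ with hgφ
  set w : SemilinearAut Ω ↥(modularFunctionFieldBar (M * q)) := alSemi hq hqM with hw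
  set GΩ : ↥(modularFunctionFieldBar (M * q)) := gφ • f * (w • f) ^ q with hGΩ
  have hdivf : IsDivOf f (m • (D : Divisor Ω ↥(modularFunctionFieldBar (M * q)))) :=
    ⟨hf, fun v => by rw [Finsupp.smul_apply, nsmul_eq_mul, hfD v]⟩
  have hdivG := isDivOf_frob_mul_al_pow gφ w hdivf q
  have hGΩ0 : GΩ ≠ 0 := hdivG.1
  have hdiv : ∀ v : Place Ω ↥(modularFunctionFieldBar (M * q)), ((m : ℕ) : ℤ) ∣ v.ord f :=
    fun v => ⟨_, hfD v⟩
  have hGdiv : ∀ v : Place Ω ↥(modularFunctionFieldBar (M * q)), ((m : ℕ) : ℤ) ∣ v.ord GΩ := by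
    intro v
    have e : (gφ • (m • (D : Divisor Ω ↥(modularFunctionFieldBar (M * q)))) +
        q • (w • (m • (D : Divisor Ω ↥(modularFunctionFieldBar (M * q))))) :
        Divisor Ω ↥(modularFunctionFieldBar (M * q))) =
        m • (gφ • (D : Divisor Ω ↥(modularFunctionFieldBar (M * q))) +
          q • (w • (D : Divisor Ω ↥(modularFunctionFieldBar (M * q))))) := by
      rw [smul_comm gφ m, smul_comm w m, smul_comm q m, ← smul_add]
    have h1 := hdivG.2 v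
    rw [e, Finsupp.smul_apply, nsmul_eq_mul] at h1
    exact ⟨_, h1.symm⟩
  -- an `m`-th root of the leading coefficient of `G_Ω`
  have hGΩL : ((GΩ : ↥(modularFunctionFieldBar (M * q))) : LaurentSeries Ω) ≠ 0 := fun h0 =>
    hGΩ0 (Subtype.ext h0)
  obtain ⟨μ, hμ⟩ := IsAlgClosed.exists_pow_nat_eq
    (((GΩ : ↥(modularFunctionFieldBar (M * q))) : LaurentSeries Ω).leadingCoeff) hm
  have hμ0 : μ ≠ 0 := by
    rintro rfl
    rw [zero_pow hm.ne'] at hμ
    exact HahnSeries.leadingCoeff_ne_zero.2 hGΩL hμ.symm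
  -- the divisors on the host over `Ω`
  haveI : HasPrincipalDivisors Ω ↥(legE Ω (M * q)) := up_hasPrincipalDivisors_legE (M * q)
  have hfE : fullToLegE Ω (M * q) f ≠ 0 := (map_ne_zero _).2 hf
  have hGE : fullToLegE Ω (M * q) GΩ ≠ 0 := (map_ne_zero _).2 hGΩ0
  obtain ⟨D1, hD1, -⟩ := HasPrincipalDivisors.exists_divisor (K := Ω) (fullToLegE Ω (M * q) f) hfE
  obtain ⟨D2, hD2, -⟩ := HasPrincipalDivisors.exists_divisor (K := Ω) (fullToLegE Ω (M * q) GΩ) hGE
  -- the Galois base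
  obtain ⟨K₁, hK₁, hle, htK, hdesc, hrat⟩ :=
    hK₀.exists_ge_isGalBase_legE (M * q) ({μ} : Finset Ω)
      (f := fun _ : Unit => ((f : ↥(modularFunctionFieldBar (M * q))) : LaurentSeries Ω))
      (fun _ => f.2) (D1.support ∪ D2.support)
  haveI := hK₁.normal
  obtain ⟨f₁, hf₁mem, hf₁⟩ := hdesc ()
  set F₁ : ↥(keyFq ↥K₁ (M * q)) := ⟨f₁, hf₁mem⟩ with hF₁def
  have hBC : keyFqBC (M * q) K₁ F₁ = f := Subtype.ext hf₁
  have hF₁0 : F₁ ≠ 0 := by
    intro h0
    apply hf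
    rw [← hBC, h0, map_zero]
  -- the instances at the base
  haveI : IsDiscreteValuationRing ↥(baseRing A K₁) := hK₁.isBase.isDiscreteValuationRing hA
  haveI : CharZero ↥(baseRing A K₁) := charZero_valuationSubring_of_algebraRat _
  obtain ⟨ϖ, hϖ⟩ := IsDiscreteValuationRing.exists_irreducible ↥(baseRing A K₁)
  have h2 : IsUnit (2 : ↥(baseRing A K₁)) := isUnit_ofNat_baseRing hA K₁ Nat.prime_two hq2
  obtain ⟨x, y, hbez⟩ := exists_bezout_of_prime_of_not_dvd hq hqM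
  have hq4M : ¬ q ∣ 4 * M := by
    intro h
    rcases (Nat.Prime.dvd_mul hq).1 h with h4 | hM
    · have h22 : q ∣ 2 * 2 := by simpa using h4
      rcases (Nat.Prime.dvd_mul hq).1 h22 with h | h <;>
        exact hq2 ((Nat.prime_dvd_prime_iff_eq hq Nat.prime_two).1 h)
    · exact hqM hM
  obtain ⟨x', y', h'⟩ := exists_bezout_of_prime_of_not_dvd hq hq4M
  letI instC : Algebra ↥K₁ ℂ := baseToComplex K₁
  -- the functions over `K₁`
  set g : ↥(legE ↥K₁ (M * q)) := fullToLegE ↥K₁ (M * q) F₁ with hgdef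
  have hg0 : g ≠ 0 := (map_ne_zero _).2 hF₁0
  set WF : ↥(keyFq ↥K₁ (M * q)) := atkinLehnerN (algebraMap ↥K₁ ℂ) hbez hq F₁ with hWF
  set GF : ↥(keyFq ↥K₁ (M * q)) :=
    keyFqGalois ↥K₁ (M * q) (resGal K₁ φ) • F₁ * WF ^ q with hGF
  have hBCG : keyFqBC (M * q) K₁ GF = GΩ := by
    rw [hGF, map_mul, map_pow, keyFqBC_keyFqGalois_smul, hWF,
      keyFqBC_atkinLehnerN K₁ (algebraMap ↥K₁ ℂ) hbez hq hqM, hBC]
    rfl
  have hhost : coeffRingAut (coeffStable_legE ↥K₁ (M * q)) (resGal K₁ φ) g *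
      legAL ↥K₁ hbez h' hq hq2 g ^ q = fullToLegE ↥K₁ (M * q) GF := by
    rw [hGF, map_mul, map_pow, fullToLegE_keyFqGalois_smul, hgdef,
      legAL_fullToLegE ↥K₁ hbez h' hq hq2 F₁]
    rfl
  -- the orders
  have hgBC : legBC (M * q) K₁ g =
      algebraMap Ω ↥(legE Ω (M * q)) 1 * fullToLegE Ω (M * q) f := by
    rw [hgdef, bcdeg_legBC_fullToLegE, hBC, map_one, one_mul]
  have hGBC : legBC (M * q) K₁ (fullToLegE ↥K₁ (M * q) GF) =
      algebraMap Ω ↥(legE Ω (M * q)) 1 * fullToLegE Ω (M * q) GΩ := by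
    rw [bcdeg_legBC_fullToLegE, hBCG, map_one, one_mul]
  have hordg : ∀ P : Place ↥K₁ ↥(legE ↥K₁ (M * q)),
      P.ord g = 0 ∨ (IsRationalPlace P ∧ (m : ℤ) ∣ P.ord g) := by
    intro P
    have h1 := ord_descended_leg (M * q) f hdiv D1 hD1 K₁
      (fun P hP => hrat P (Finset.mem_union_left _ hP)) g 1 one_ne_zero hgBC P
    by_cases h0 : P.ord g = 0
    · exact Or.inl h0
    · exact Or.inr ⟨h1.2 h0, h1.1⟩
  have hordG : ∀ P : Place ↥K₁ ↥(legE ↥K₁ (M * q)),
      P.ord (coeffRingAut (coeffStable_legE ↥K₁ (M * q)) (resGal K₁ φ) g *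
        legAL ↥K₁ hbez h' hq hq2 g ^ q) = 0 ∨
        (IsRationalPlace P ∧ (m : ℤ) ∣
          P.ord (coeffRingAut (coeffStable_legE ↥K₁ (M * q)) (resGal K₁ φ) g *
            legAL ↥K₁ hbez h' hq hq2 g ^ q)) := by
    intro P
    rw [hhost]
    have h1 := ord_descended_leg (M * q) GΩ hGdiv D2 hD2 K₁
      (fun P hP => hrat P (Finset.mem_union_right _ hP)) (fullToLegE ↥K₁ (M * q) GF) 1
      one_ne_zero hGBC P
    by_cases h0 : P.ord (fullToLegE ↥K₁ (M * q) GF) = 0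
    · exact Or.inl h0
    · exact Or.inr ⟨h1.2 h0, h1.1⟩
  -- toric
  obtain ⟨linf, l0, hlinf, hl0, hginf, hg0'⟩ := htor K₁ hK₁ hle F₁ hBC h2 x y hbez hq
  -- the leading coefficient
  have hμK : μ ∈ K₁ := htK μ (Finset.mem_singleton_self μ)
  have hlead : ∃ c : ↥K₁, c ≠ 0 ∧
      ((coeffRingAut (coeffStable_legE ↥K₁ (M * q)) (resGal K₁ φ) g *
        legAL ↥K₁ hbez h' hq hq2 g ^ q : ↥(legE ↥K₁ (M * q))) :
          LaurentSeries ↥K₁).leadingCoeff = c ^ m := by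
    refine ⟨⟨μ, hμK⟩, fun h0 => hμ0 (congrArg Subtype.val h0), ?_⟩
    rw [hhost, leadingCoeff_fullToLegE]
    apply (algebraMap ↥K₁ Ω).injective
    rw [← leadingCoeff_coeffMap_of_injective (f := algebraMap ↥K₁ Ω)
      (algebraMap ↥K₁ Ω).injective, ← coe_keyFqBC, hBCG, map_pow, ← hμ]
    rfl
  obtain ⟨u, hu⟩ := legMaz_at_base (instC := baseToComplex K₁) hq hq2 hA hK₁ hϖ h2 hbez h'
    (legModelAtBases M q hq hq2 hqM A hA K₁ hK₁ ϖ hϖ h2 x y hbez) hφ hm hqm g hg0 hordg hordG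
    linf l0 hlinf hl0 hginf hg0' hlead
  -- the norm to `F_{Mq}(K₁)`
  have hu' : (fullToLegE ↥K₁ (M * q)).toRingHom GF = u ^ m := by
    rw [← hu, hhost]
    rfl
  letI : Algebra ↥(keyFq ↥K₁ (M * q)) ↥(legE ↥K₁ (M * q)) :=
    (fullToLegE ↥K₁ (M * q)).toRingHom.toAlgebra
  haveI : FiniteDimensional ↥(keyFq ↥K₁ (M * q)) ↥(legE ↥K₁ (M * q)) :=
    finite_fullToLegE ↥K₁ (M * q)
  have hnorm := pow_finrank_eq_norm_pow (K := ↥(keyFq ↥K₁ (M * q))) (L := ↥(legE ↥K₁ (M * q)))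
    (x := GF) (u := u) (m := m) hu'
  have hdeg : Module.finrank ↥(keyFq ↥K₁ (M * q)) ↥(legE ↥K₁ (M * q)) = legDeg (M * q) :=
    (finrank_legE_base (M * q) K₁).symm
  rw [hdeg] at hnorm
  have h5 := congrArg (keyFqBC (M * q) K₁) hnorm
  rw [map_pow, map_pow, hBCG] at h5
  set Nu : ↥(modularFunctionFieldBar (M * q)) :=
    keyFqBC (M * q) K₁ (Algebra.norm ↥(keyFq ↥K₁ (M * q)) u) with hNu
  have hNu0 : Nu ≠ 0 := by
    intro h0
    rw [h0, zero_pow hm.ne'] at h5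
    exact hGΩ0 (pow_eq_zero_iff (legDeg_ne_zero (M * q)) |>.1 h5)
  exact pic0_frob_add_al_eq_zero_of_kummer gφ w hm.ne' D f hf hfD 1 Nu one_ne_zero hNu0
    (by rw [map_one, one_mul]; exact h5)

end Desc

end Fermat.Agent.RB
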