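/-
RB — helper6 — [MAZ], package P3 (part 3): **`keyToricStatement : KeyToricStatement`**, the degree of
the Legendre host (`legDeg N ≤ 6`, prime to every prime `p ≥ 5`), and
**`keyI3_of_newToric`** : [NODE-I] (`NewToric M q p`) gives lead's `S35.KeyI3 M q p`.
-/
import Mathlib
import Fermat.Agent.RB.MAZ_helper6_Desc
import Fermat.Agent.FG.EGAL_helper6_PullLeg
import Fermat.Agent.MW.DIV_helper1_Leg

set_option autoImplicit false
set_option linter.unusedSectionVars false
set_option linter.unusedVariables false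
set_option linter.style.haveILetI false
set_option synthInstance.maxHeartbeats 400000

open HahnSeries IntermediateField AlgebraicCurve ModularCurve Polynomial

namespace Fermat.Agent.RB

open Fermat.Agent.JA Fermat.Agent.FF Fermat.Agent.SS Fermat.Agent.S35 Fermat.Agent.S36
  Fermat.Agent.X0N Fermat.Agent.FG

/-- `Ω = AlgebraicClosure ℚ`. -/
local notation "Ω" => AlgebraicClosure ℚ

/-- the absolute Galois group. -/
local notation "GQ" => (AlgebraicClosure ℚ ≃ₐ[ℚ] AlgebraicClosure ℚ)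

section Degree

variable (N : ℕ) [NeZero N]

/-- **the degree of the Legendre host over the level field is at most `6`.** -/
theorem legDeg_le_six : legDeg N ≤ 6 := by
  letI := algebraAlong (fullToLegE Ω N)
  haveI : FiniteDimensional ↥(keyFq Ω N) ↥(legE Ω N) := finiteAlong_fullToLegE N
  have ht : IntermediateField.adjoin ↥(keyFq Ω N) {legTE Ω N} = ⊤ := adjoin_legTE_eq_top N
  have hpt : aeval (legTE Ω N) (legSextic N) = 0 := by
    rw [aeval_def, eval₂_eq_eval_map]
    exact legSextic_eval N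
  have hint : IsIntegral ↥(keyFq Ω N) (legTE Ω N) := Algebra.IsIntegral.isIntegral _
  have h2 : Module.finrank ↥(keyFq Ω N) ↥(legE Ω N) =
      (minpoly ↥(keyFq Ω N) (legTE Ω N)).natDegree := by
    rw [← IntermediateField.adjoin.finrank hint, ht, IntermediateField.finrank_top']
  have h3 : legDeg N = Module.finrank ↥(keyFq Ω N) ↥(legE Ω N) := rfl
  rw [h3, h2]
  exact (natDegree_le_of_dvd (minpoly.dvd _ _ hpt) (legSextic_ne_zero N)).trans
    (Fermat.Agent.MW.legSextic_natDegree_le N)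

/-- the degree of the Legendre host is prime to every power of a prime `p ≥ 5`. -/
theorem legDeg_coprime_pow {p : ℕ} (hp : p.Prime) (hp5 : 5 ≤ p) (k : ℕ) :
    Nat.Coprime (legDeg N) (p ^ k) := by
  apply Nat.Coprime.pow_right
  rw [Nat.coprime_comm, Nat.Prime.coprime_iff_not_dvd hp]
  intro hdvd
  have h6 := legDeg_le_six N
  have hpos : 0 < legDeg N := Nat.pos_of_ne_zero (legDeg_ne_zero N)
  have hle := Nat.le_of_dvd hpos hdvd
  have h5 : p = 5 ∨ p = 6 := by omega
  rcases h5 with rfl | rfl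
  · have hc : Nat.Coprime (legDeg N) 5 := Fermat.Agent.MW.legDeg_coprime_five N
    exact (Nat.Prime.coprime_iff_not_dvd Nat.prime_five).1 hc.symm hdvd
  · exact absurd hp (by norm_num)

end Degree

section Abs

variable {G J : Type*} [Group G] [AddCommGroup J] [DistribMulAction G J]

/-- an element killed by two coprime integers vanishes. -/
theorem eq_zero_of_coprime_nsmul {y : J} {a b : ℕ} (hab : Nat.Coprime a b) (ha : a • y = 0)
    (hb : b • y = 0) : y = 0 := by
  have hgcd : Int.gcd a b = 1 := by exact_mod_cast hab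
  have h := Int.gcd_eq_gcd_ab (a : ℤ) (b : ℤ)
  rw [hgcd] at h
  calc y = (1 : ℤ) • y := (one_zsmul y).symm
    _ = ((a : ℤ) * Int.gcdA a b + (b : ℤ) * Int.gcdB a b) • y := by
        rw [← h]; norm_num
    _ = Int.gcdA a b • ((a : ℕ) • y) + Int.gcdB a b • ((b : ℕ) • y) := by
        rw [add_smul, mul_comm, mul_smul, mul_comm (b : ℤ), mul_smul, natCast_zsmul,
          natCast_zsmul]
    _ = 0 := by rw [ha, hb, smul_zero, smul_zero, add_zero]

/-- `m • (φ x + q • w x) = 0` if `m • x = 0`. -/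
theorem nsmul_frob_add_al_eq_zero (φ : G) (w : J →+ J) (q m : ℕ) {x : J} (hx : m • x = 0) :
    m • (φ • x + q • w x) = 0 := by
  rw [smul_add, smul_comm m φ, hx, smul_zero, smul_comm m q, ← map_nsmul, hx, map_zero,
    smul_zero, add_zero]

/-- from `φ z + q • w z = 0` (`w` an involution commuting with `φ`): `φ² z = q² z`. -/
theorem frob_sq_eq_of_frob_add_al (φ : G) (w : J →+ J) (hw : ∀ z, w (w z) = z)
    (hcomm : ∀ z, w (φ • z) = φ • w z) (q : ℕ) {z : J} (hR : φ • z + q • w z = 0) :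
    φ • φ • z = (q ^ 2) • z := by
  have hφz : φ • z = -(q • w z) := eq_neg_of_add_eq_zero_left hR
  calc φ • φ • z = φ • (-(q • w z)) := by rw [hφz]
    _ = -(q • (φ • w z)) := by rw [smul_neg, smul_comm φ q]
    _ = -(q • w (φ • z)) := by rw [hcomm]
    _ = -(q • w (-(q • w z))) := by rw [hφz]
    _ = q • (q • w (w z)) := by rw [map_neg, map_nsmul, smul_neg, neg_neg]
    _ = (q ^ 2) • z := by rw [hw, ← mul_smul, pow_two]

/-- `p ^ c • (φ² x − q² x)` in terms of `z = p ^ c • x`. -/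
theorem nsmul_frob_sq_sub (φ : G) (n a : ℕ) (x : J) :
    n • (φ • φ • x - a • x) = φ • φ • (n • x) - a • (n • x) := by
  rw [smul_sub, smul_comm n φ, smul_comm n φ, smul_comm n a]

end Abs

section Key

/-- **(KEY-TORIC)**. -/
theorem keyToricStatement : KeyToricStatement := by
  intro M q _ _ _ hq hq2 hqM A hA φ hφ m hm hqm hcop x hx
  obtain ⟨D, f, hf, rfl, hfD, htor⟩ := hx
  have h1 := legDeg_smul_frob_add_al_eq_zero M q hq hq2 hqM A hA φ hφ hm hqm D f hf hfD htor
  -- `m • x = 0`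
  have hmx : m • (Pic0.mk D : JZero (M * q)) = 0 := by
    have h2 : (m • Pic0.mk D : JZero (M * q)) = Pic0.mk (m • D) := rfl
    rw [h2]
    refine (QuotientAddGroup.eq_zero_iff _).2 ?_
    rw [AddSubgroup.mem_addSubgroupOf]
    refine ⟨f, hf, fun v => ?_⟩
    show ((m • (D : Divisor Ω ↥(modularFunctionFieldBar (M * q)))) :
      Divisor Ω ↥(modularFunctionFieldBar (M * q))) v = _
    rw [Finsupp.smul_apply, nsmul_eq_mul, hfD v]
  have hmy := nsmul_frob_add_al_eq_zero φ (atkinLehnerJ hq hqM) q m hmx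
  exact eq_zero_of_coprime_nsmul hcop h1 hmy

/-- **(KEY-I3) from [NODE-I]**: lead's `S35.KeyI3 M q p` (`φ² = q²` up to a bounded power of `p` on
the `I_A`-fixed `q`-new `p`-power torsion of `J₀(M q)`). -/
theorem keyI3_of_newToric {M q p : ℕ} [NeZero M] [NeZero q] [NeZero (M * q)] (hq : q.Prime)
    (hq2 : q ≠ 2) (hp : p.Prime) (hp5 : 5 ≤ p) (hqp : q ≠ p) (hqM : ¬ q ∣ M)
    (H : NewToric M q p) : KeyI3 M q p := by
  obtain ⟨c, hc⟩ := H
  refine ⟨c, fun A hA φ hφ k x hx hI hα hβ => ?_⟩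
  have hqm : ¬ q ∣ p ^ k := fun h =>
    hqp ((Nat.prime_dvd_prime_iff_eq hq hp).1 (hq.dvd_of_dvd_pow h))
  have htor := hc A hA k x hx hI hα hβ
  have hR := keyToricStatement M q hq hq2 hqM A hA φ hφ (p ^ k) (pow_pos hp.pos k) hqm
    (legDeg_coprime_pow (M * q) hp hp5 k) _ htor
  have h1 := frob_sq_eq_of_frob_add_al φ (atkinLehnerJ hq hqM) (atkinLehnerJ_atkinLehnerJ hq hqM)
    (fun z => (smul_atkinLehnerJ hq hqM φ z).symm) q hR
  exact (nsmul_frob_sq_sub φ (p ^ c) (q ^ 2) x).trans (by rw [h1, sub_self])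

/-- **(KEY-I3), all levels `q ≠ 2`, `p ≥ 5`, from [NODE-I].** -/
theorem keyI3_of_newToricStatement (H : NewToricStatement) (M q p : ℕ) [NeZero M] [NeZero q]
    [NeZero (M * q)] (hq : q.Prime) (hq2 : q ≠ 2) (hp : p.Prime) (hp5 : 5 ≤ p) (hqp : q ≠ p)
    (hqM : ¬ q ∣ M) : KeyI3 M q p :=
  keyI3_of_newToric hq hq2 hp hp5 hqp hqM (H M q p hq hq2 hp hp5 hqp hqM)

end Key

end Fermat.Agent.RB
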