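/-
RB — helper6 — [MAZ]: **the assembly `KeyMazStatement ⇐ MazDescQ + LegMazBaseQ`**.

* `exists_degZero_of_kummer_mul` : changing a Kummer function by a constant and an `m`-th power does
  not change the class;
* `LegToricAt.of_le` : toric-ness goes up along an extension of bases `K' ≤ K₂`
  (`MP.comap_legWinf`, `MP.comap_legW0`);
* `keyMazStatement_of_parts`.
-/
import Mathlib
import Fermat.Agent.RB.MAZ_helper6_Parts
import Fermat.Agent.MP.KPDESC_helper2_SheetBC
import Fermat.Agent.MP.KPBASE_lead_Norm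

set_option autoImplicit false
set_option linter.unusedSectionVars false
set_option linter.unusedVariables false
set_option linter.style.haveILetI false
set_option synthInstance.maxHeartbeats 400000

open HahnSeries IntermediateField AlgebraicCurve ModularCurve IsLocalRing

namespace Fermat.Agent.RB

open Fermat.Agent.JA Fermat.Agent.FF Fermat.Agent.SS Fermat.Agent.S35 Fermat.Agent.MP
  Fermat.Agent.NP Fermat.Agent.GR Fermat.Agent.FG Fermat.Agent.X0N

/-- `Ω = AlgebraicClosure ℚ`. -/
local notation "Ω" => AlgebraicClosure ℚ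

/-- the absolute Galois group. -/
local notation "GQ" => (AlgebraicClosure ℚ ≃ₐ[ℚ] AlgebraicClosure ℚ)

section Abstract

variable {K F : Type*} [Field K] [Field F] [Algebra K F]

/-- **changing a Kummer function by a constant and an `m`-th power does not change the class.** -/
theorem exists_degZero_of_kummer_mul [HasPrincipalDivisors K F] {m : ℕ}
    (D : Divisor.degZero (K := K) (F := F)) (f : F) (hf : f ≠ 0)
    (hfD : ∀ v : Place K F, v.ord f = (m : ℤ) * (D : Divisor K F) v)
    (c : K) (hc : c ≠ 0) (w : F) (hw : w ≠ 0) :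
    ∃ D' : Divisor.degZero (K := K) (F := F), (Pic0.mk D' : Pic0 K F) = Pic0.mk D ∧
      ∀ v : Place K F, v.ord (algebraMap K F c * f * w ^ m) = (m : ℤ) * (D' : Divisor K F) v := by
  obtain ⟨E, hE, hdeg⟩ := HasPrincipalDivisors.exists_divisor (K := K) w hw
  set E₀ : Divisor.degZero (K := K) (F := F) := ⟨E, Divisor.mem_degZero.mpr hdeg⟩ with hE₀
  refine ⟨D + E₀, ?_, fun v => ?_⟩
  · have hprin : E₀ ∈ (Divisor.principal (K := K) (F := F)).addSubgroupOf
        (Divisor.degZero (K := K) (F := F)) := by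
      rw [AddSubgroup.mem_addSubgroupOf]
      exact ⟨w, hw, hE⟩
    have h5 : (Pic0.mk E₀ : Pic0 K F) = 0 := (QuotientAddGroup.eq_zero_iff _).2 hprin
    have h4 : (Pic0.mk (D + E₀) : Pic0 K F) = Pic0.mk D + Pic0.mk E₀ := rfl
    rw [h4, h5, add_zero]
  · have hc' : algebraMap K F c ≠ 0 := (map_ne_zero _).2 hc
    have hpow : v.ord (w ^ m) = (m : ℤ) * v.ord w := by
      have := v.ord_zpow w m
      rwa [zpow_natCast] at this
    rw [v.ord_mul (mul_ne_zero hc' hf) (pow_ne_zero m hw), v.ord_mul hc' hf,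
      place_ord_algebraMap_eq_zero v hc, zero_add, hpow, hfD v]
    have h2 : ((D + E₀ : Divisor.degZero (K := K) (F := F)) : Divisor K F) v =
        (D : Divisor K F) v + E v := by
      show ((D : Divisor K F) + E) v = _
      rw [Finsupp.add_apply]
    rw [h2, hE v]
    ring

end Abstract

section Transport

variable {M q m : ℕ} [NeZero M] [NeZero q] [NeZero (M * q)]

/-- **toric-ness goes up along an extension of bases.** -/
theorem LegToricAt.of_le (hq0 : q.Prime) (hq2 : q ≠ 2) (hqM : ¬ q ∣ M) {A : ValuationSubring Ω}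
    (hA : A.LiesOverPrime q) {K' K₂ : IntermediateField ℚ Ω} (hle : K' ≤ K₂)
    (hK' : IsBase q K') (hK₂ : IsBase q K₂) {g : ↥(legE ↥K' (M * q))}
    (h : LegToricAt M q m A K' g) : LegToricAt M q m A K₂ (legIncl hle (M * q) g) := by
  intro _ _ h2 x y hbez hq
  haveI : Fact q.Prime := ⟨hq0⟩
  haveI : IsDiscreteValuationRing ↥(baseRing A K') := hK'.isDiscreteValuationRing hA
  haveI : CharZero ↥(baseRing A K') := charZero_valuationSubring_of_algebraRat _
  have h2' : IsUnit (2 : ↥(baseRing A K')) := isUnit_ofNat_baseRing hA K' Nat.prime_two hq2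
  obtain ⟨linf, l0, h1, h2v, h3, h4⟩ := h h2' x y hbez hq
  have cinf := comap_legWinf hle A h2' h2 (M * q)
  have c0 := comap_legW0 hq hq2 hqM hA hle hK' hK₂ hbez
  refine ⟨legIncl hle (M * q) linf, legIncl hle (M * q) l0, ?_, ?_, ?_, ?_⟩
  · exact (kp_comap_val_eq_one_iff _ (legIncl hle (M * q)) cinf linf).mpr h1
  · exact (kp_comap_val_eq_one_iff _ (legIncl hle (M * q)) c0 l0).mpr h2v
  · have := (comap_val_lt_one_iff (legIncl hle (M * q)) cinf (g - linf ^ m)).mpr h3
    rwa [map_sub, map_pow] at this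
  · have := (comap_val_lt_one_iff (legIncl hle (M * q)) c0 (g - l0 ^ m)).mpr h4
    rwa [map_sub, map_pow] at this

end Transport

/-- **(KEY-MAZ) from the descent package and the base statement.** -/
theorem keyMazStatement_of_parts (hD : MazDescQ) (hB : LegMazBaseQ) : KeyMazStatement := by
  intro M q p _ _ _ hq hq2 hp hp5 hqp hqM A hA S a hS hpS h2S hnE x hpx hα hβ hT hI
  obtain ⟨D, f, hf, hDx, hfD, K₁, hK₁n, K', f₀, hBC, H, HAL⟩ :=
    hD M q p hq hq2 hp hp5 hqp hqM A hA S a hS hpS h2S hnE x hpx hT hI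
  haveI := hK₁n
  haveI : Fact q.Prime := ⟨hq⟩
  rcases hB M q p hq hq2 hp hp5 hqp hqM A hA K₁ K' S a f₀ H HAL with ⟨c, h, hc, hh, htor⟩ | hres
  · left
    haveI : HasPrincipalDivisors Ω ↥(modularFunctionFieldBar (M * q)) :=
      (Fermat.Agent.X0N.jCoordBar (M * q)).hasPrincipalDivisors
    have hhΩ : keyFqBC (M * q) K' h ≠ 0 := (map_ne_zero _).2 hh
    have hcΩ : algebraMap ↥K' Ω c ≠ 0 := (map_ne_zero _).2 hc
    obtain ⟨D', hD', hfD'⟩ := exists_degZero_of_kummer_mul D f hf hfD (algebraMap ↥K' Ω c) hcΩ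
      (keyFqBC (M * q) K' h) hhΩ
    have hF : keyFqBC (M * q) K' (algebraMap ↥K' ↥(keyFq ↥K' (M * q)) c * f₀ * h ^ p) =
        algebraMap Ω ↥(modularFunctionFieldBar (M * q)) (algebraMap ↥K' Ω c) * f *
          keyFqBC (M * q) K' h ^ p := by
      rw [map_mul, map_mul, map_pow, hBC, keyFqBC_algebraMap]
    refine ⟨D', _, ?_, hD'.trans hDx, hfD', K', H.base, ?_⟩
    · exact mul_ne_zero (mul_ne_zero ((map_ne_zero _).2 hcΩ) hf) (pow_ne_zero _ hhΩ)
    · intro K₂ hK₂ hle F₂ hF₂
      have e : legIncl hle (M * q) (fullToLegE ↥K' (M * q)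
          (algebraMap ↥K' ↥(keyFq ↥K' (M * q)) c * f₀ * h ^ p)) = fullToLegE ↥K₂ (M * q) F₂ := by
        haveI : IsDiscreteValuationRing ↥(baseRing A K') := H.base.isDiscreteValuationRing hA
        haveI : IsDiscreteValuationRing ↥(baseRing A K₂) :=
          hK₂.isBase.isDiscreteValuationRing hA
        exact legIncl_fullToLegE_of_keyFqBC_eq hle (M * q) _ F₂ (hF₂.trans hF.symm)
      have h1 : LegToricAt M q p A K₂ (legIncl hle (M * q) (fullToLegE ↥K' (M * q)
          (algebraMap ↥K' ↥(keyFq ↥K' (M * q)) c * f₀ * h ^ p))) :=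
        @LegToricAt.of_le M q p _ _ _ hq hq2 hqM A hA K' K₂ hle H.base hK₂.isBase _ htor
      exact @cast _ _ (congrArg (LegToricAt M q p A K₂) e) h1
  · exact Or.inr hres

end Fermat.Agent.RB
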