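/-
RB — helper7 — **[NEW-TORIC]: the intermediate literals `LegNewInfQ`, `LegNewBaseQ`** (drafted from
helper6's `LegMazInfQ`, `LegMazBaseQ`; exponent `r = p ^ k`, no Hecke relations, bounded powers of
`p` depending only on `(M, q, p, A)`).

* `LegNewInfQ`  : **[HALF∞]-NEW** over the small base: for `g ∈ F_{Mq}(K')` a unit along both sheets
  whose two degeneracy norms are constants times `p ^ k`-th powers, if for every `w₀ ∈ F_M(K')` with
  `g ≡ A(w₀)` along `W_∞` all the orders of the reduction `w̄₀` on the reduced host of level `M` are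
  divisible by `p ^ k`, then `g ^ (p ^ c₁) ≡ A(b) ^ (p ^ k)` along `W_∞` for a unit `b` of `V_M`;
  `c₁` depends only on `(M, q, p, A)`.  (= [NEW-ABEL] + `keyFqResInfP` + the lift
  `exists_powQ_approx_of_legρ_eq_pow`.)
* `LegNewBaseQ` : **[BASE]-NEW**: under `LegNewHyp` for `f₀` and `W_q f₀`, a constant multiple of
  `f₀ ^ (p ^ c) h ^ (p ^ k)` is toric over `K'`; `c` depends only on `(M, q, p, A)`.
-/
import Mathlib
import Fermat.Agent.RB.NEWT_helper6_Hyp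

set_option autoImplicit false
set_option linter.unusedSectionVars false
set_option linter.unusedVariables false
set_option linter.style.haveILetI false
set_option synthInstance.maxHeartbeats 400000

open HahnSeries IntermediateField AlgebraicCurve ModularCurve IsLocalRing

namespace Fermat.Agent.RB

open Fermat.Agent.JA Fermat.Agent.FF Fermat.Agent.SS Fermat.Agent.S35 Fermat.Agent.MP
  Fermat.Agent.NP Fermat.Agent.GR Fermat.Agent.FG Fermat.Agent.X0N

open scoped Fermat.Agent.JA.Host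

/-- `Ω = AlgebraicClosure ℚ`. -/
local notation "Ω" => AlgebraicClosure ℚ

/-- the absolute Galois group. -/
local notation "GQ" => (AlgebraicClosure ℚ ≃ₐ[ℚ] AlgebraicClosure ℚ)

/-- **[HALF∞]-NEW**: along `W_∞`, over the small base: a unit `g` along both sheets whose degeneracy
norms are constants times `p ^ k`-th powers and whose reductions along `W_∞` have all orders
divisible by `p ^ k` satisfies `g ^ (p ^ c₁) ≡ A(b) ^ (p ^ k)`, `b` a unit coming from level `M`;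
`c₁` depends only on `(M, q, p, A)`. -/
def LegNewInfQ : Prop :=
  ∀ (M : ℕ) [NeZero M] (q : ℕ) [NeZero q] [NeZero (M * q)] [Fact q.Prime] (hq2 : q ≠ 2),
    ¬ q ∣ M → ∀ (p : ℕ), p.Prime → p ≠ q →
  ∀ (A : ValuationSubring Ω) (hA : A.LiesOverPrime q), ∃ c₁ : ℕ,
  ∀ (K' : IntermediateField ℚ Ω) [IsDiscreteValuationRing ↥(baseRing A K')], IsBase q K' →
    Irreducible ((q : ℕ) : ↥(baseRing A K')) →
    (∀ σ ∈ A.decompositionSubgroup ℚ, ∀ z ∈ K', σ z ∈ K') →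
  ∀ (h2 : IsUnit (2 : ↥(baseRing A K'))) {x y : ℤ} (hbez : (q : ℤ) * x + M * y = 1) (k : ℕ)
    (g : ↥(keyFq ↥K' (M * q))),
    (legWinf ↥(baseRing A K') ↥K' h2 (M * q)).valuation (fullToLegE ↥K' (M * q) g) = 1 →
    (letI := baseToComplex K'
     legW0 ↥(baseRing A K') ↥K' hbez (Fact.out : q.Prime)).valuation
      (fullToLegE ↥K' (M * q) g) = 1 →
    (∃ (c : ↥K') (h : ↥(keyFq ↥K' M)), c ≠ 0 ∧ h ≠ 0 ∧
      (letI := (keyFqA ↥K' M q).toRingHom.toAlgebra; Algebra.norm ↥(keyFq ↥K' M) g) =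
        algebraMap ↥K' ↥(keyFq ↥K' M) c * h ^ (p ^ k)) →
    (∃ (c : ↥K') (h : ↥(keyFq ↥K' M)), c ≠ 0 ∧ h ≠ 0 ∧
      (letI := (keyFqB ↥K' M q).toRingHom.toAlgebra; Algebra.norm ↥(keyFq ↥K' M) g) =
        algebraMap ↥K' ↥(keyFq ↥K' M) c * h ^ (p ^ k)) →
    (∀ w₀ : ↥(keyFq ↥K' M),
      (legWinf ↥(baseRing A K') ↥K' h2 M).valuation (fullToLegE ↥K' M w₀) = 1 →
      (legWinf ↥(baseRing A K') ↥K' h2 (M * q)).valuation
        (fullToLegE ↥K' (M * q) g - legHostA ↥K' M q (fullToLegE ↥K' M w₀)) < 1 →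
      ∀ (hW : fullToLegE Ω M (keyFqBC M K' w₀) ∈ legWE hA M hq2)
        (Q : Place (ResidueField ↥A) (legEt hA M hq2)),
        ((p ^ k : ℕ) : ℤ) ∣ Q.ord (legρ hA M hq2 ⟨fullToLegE Ω M (keyFqBC M K' w₀), hW⟩)) →
    ∃ b : ↥(legE ↥K' M), (legWinf ↥(baseRing A K') ↥K' h2 M).valuation b = 1 ∧
      (legWinf ↥(baseRing A K') ↥K' h2 (M * q)).valuation
        (fullToLegE ↥K' (M * q) g ^ (p ^ c₁) - legHostA ↥K' M q b ^ (p ^ k)) < 1

/-- **[BASE]-NEW**: over the small base, a constant multiple of `f₀ ^ (p ^ c) h ^ (p ^ k)` is toric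
along both sheets; `c` depends only on `(M, q, p, A)`. -/
def LegNewBaseQ : Prop :=
  ∀ (M q p : ℕ) [NeZero M] [NeZero q] [NeZero (M * q)] (hq : q.Prime), q ≠ 2 → p.Prime → 5 ≤ p →
    q ≠ p → ¬ q ∣ M → ∀ (A : ValuationSubring Ω), A.LiesOverPrime q → ∃ c : ℕ,
  ∀ (k : ℕ) (K₁ : IntermediateField ℚ Ω) [Normal ℚ ↥K₁] (K' : IntermediateField ℚ Ω)
    (f₀ : ↥(keyFq ↥K' (M * q))), LegNewHyp q (p ^ k) M A K₁ K' f₀ →
    (∀ {x y : ℤ} (hbez : (q : ℤ) * x + M * y = 1),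
      LegNewHyp q (p ^ k) M A K₁ K'
        (letI := baseToComplex K'; atkinLehnerN (algebraMap ↥K' ℂ) hbez hq f₀)) →
    ∃ (c' : ↥K') (h : ↥(keyFq ↥K' (M * q))), c' ≠ 0 ∧ h ≠ 0 ∧
      LegToricAt M q (p ^ k) A K'
        (fullToLegE ↥K' (M * q)
          (algebraMap ↥K' ↥(keyFq ↥K' (M * q)) c' * f₀ ^ (p ^ c) * h ^ (p ^ k)))

end Fermat.Agent.RB
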