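/-
RB — helper7 — **[NEW-TORIC]: the assembly `NewToricAtStatement ⇐ NewDescQ + LegNewBaseQ`** (port of
helper6's `keyMazStatement_of_parts`).

`x ∈ J₀(M q)[p ^ k]`; `(D, f)` the descent package, `f₀` over the small base `K'`;
[BASE]-NEW gives `c' f₀ ^ (p ^ c) h ^ (p ^ k)` toric over `K'`; it is a Kummer function of
`p ^ c • x` (`exists_degZero_of_kummer_mul` applied to `(p ^ c • D, f ^ (p ^ c))`), and toric-ness
goes up to every Galois base `K₂ ≥ K'` (`LegToricAt.of_le`).
-/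
import Mathlib
import Fermat.Agent.RB.NEWT_helper7_Lit
import Fermat.Agent.RB.MAZ_helper6_Asm

set_option autoImplicit false
set_option linter.unusedSectionVars false
set_option linter.unusedVariables false
set_option linter.style.haveILetI false
set_option synthInstance.maxHeartbeats 400000

open HahnSeries IntermediateField AlgebraicCurve ModularCurve IsLocalRing

namespace Fermat.Agent.RB

open Fermat.Agent.JA Fermat.Agent.FF Fermat.Agent.SS Fermat.Agent.S35 Fermat.Agent.MP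
  Fermat.Agent.NP Fermat.Agent.GR Fermat.Agent.FG Fermat.Agent.X0N

/-- `Ω = AlgebraicClosure ℚ`. -/
local notation "Ω" => AlgebraicClosure ℚ

/-- the absolute Galois group. -/
local notation "GQ" => (AlgebraicClosure ℚ ≃ₐ[ℚ] AlgebraicClosure ℚ)

section Abstract

variable {K F : Type*} [Field K] [Field F] [Algebra K F]

/-- the `n`-th power of a Kummer function of `D` is a Kummer function of `n • D`. -/
theorem ord_pow_eq_mul_nsmul {m : ℕ} (D : Divisor.degZero (K := K) (F := F)) (f : F)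
    (hfD : ∀ v : Place K F, v.ord f = (m : ℤ) * (D : Divisor K F) v) (n : ℕ) (v : Place K F) :
    v.ord (f ^ n) = (m : ℤ) * ((n • D : Divisor.degZero (K := K) (F := F)) : Divisor K F) v := by
  have h1 : v.ord (f ^ n) = (n : ℤ) * v.ord f := by
    have := v.ord_zpow f n
    rwa [zpow_natCast] at this
  have h2 : ((n • D : Divisor.degZero (K := K) (F := F)) : Divisor K F) v =
      (n : ℤ) * (D : Divisor K F) v := by
    show ((n • (D : Divisor K F)) : Divisor K F) v = _
    rw [Finsupp.smul_apply, nsmul_eq_mul]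
  rw [h1, h2, hfD v]
  ring

end Abstract

/-- **[NODE-I] at every place from the descent package and the base statement.** -/
theorem newToricAtStatement_of_parts (hD : NewDescQ) (hB : LegNewBaseQ) : NewToricAtStatement := by
  intro M q p _ _ _ hq hq2 hp hp5 hqp hqM A hA
  obtain ⟨c, hc⟩ := hB M q p hq hq2 hp hp5 hqp hqM A hA
  refine ⟨c, fun k x hpx hI hα hβ => ?_⟩
  obtain ⟨D, f, hf, hDx, hfD, K₁, hK₁n, K', f₀, hBC, H, HAL⟩ :=
    hD M q p hq hq2 hp hqp hqM A hA k x hpx hI hα hβ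
  haveI := hK₁n
  haveI : Fact q.Prime := ⟨hq⟩
  obtain ⟨c', h, hc', hh, htor⟩ := hc k K₁ K' f₀ H HAL
  haveI : HasPrincipalDivisors Ω ↥(modularFunctionFieldBar (M * q)) :=
    (Fermat.Agent.X0N.jCoordBar (M * q)).hasPrincipalDivisors
  have hhΩ : keyFqBC (M * q) K' h ≠ 0 := (map_ne_zero _).2 hh
  have hcΩ : algebraMap ↥K' Ω c' ≠ 0 := (map_ne_zero _).2 hc'
  have hfc : f ^ (p ^ c) ≠ 0 := pow_ne_zero _ hf
  obtain ⟨D', hD', hfD'⟩ := exists_degZero_of_kummer_mul ((p ^ c) • D) (f ^ (p ^ c)) hfc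
    (ord_pow_eq_mul_nsmul D f hfD (p ^ c)) (algebraMap ↥K' Ω c') hcΩ (keyFqBC (M * q) K' h) hhΩ
  have hF : keyFqBC (M * q) K'
      (algebraMap ↥K' ↥(keyFq ↥K' (M * q)) c' * f₀ ^ (p ^ c) * h ^ (p ^ k)) =
      algebraMap Ω ↥(modularFunctionFieldBar (M * q)) (algebraMap ↥K' Ω c') * f ^ (p ^ c) *
        keyFqBC (M * q) K' h ^ (p ^ k) := by
    rw [map_mul, map_mul, map_pow, map_pow, hBC, keyFqBC_algebraMap]
  have hclass : (Pic0.mk D' : JZero (M * q)) = p ^ c • x := by
    rw [hD', ← hDx]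
    rfl
  refine ⟨D', _, ?_, hclass, hfD', K', H.base, ?_⟩
  · exact mul_ne_zero (mul_ne_zero ((map_ne_zero _).2 hcΩ) hfc) (pow_ne_zero _ hhΩ)
  · intro K₂ hK₂ hle F₂ hF₂
    have e : legIncl hle (M * q) (fullToLegE ↥K' (M * q)
        (algebraMap ↥K' ↥(keyFq ↥K' (M * q)) c' * f₀ ^ (p ^ c) * h ^ (p ^ k))) =
        fullToLegE ↥K₂ (M * q) F₂ := by
      haveI : IsDiscreteValuationRing ↥(baseRing A K') := H.base.isDiscreteValuationRing hA
      haveI : IsDiscreteValuationRing ↥(baseRing A K₂) :=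
        hK₂.isBase.isDiscreteValuationRing hA
      exact legIncl_fullToLegE_of_keyFqBC_eq hle (M * q) _ F₂ (hF₂.trans hF.symm)
    have h1 : LegToricAt M q (p ^ k) A K₂ (legIncl hle (M * q) (fullToLegE ↥K' (M * q)
        (algebraMap ↥K' ↥(keyFq ↥K' (M * q)) c' * f₀ ^ (p ^ c) * h ^ (p ^ k)))) :=
      @LegToricAt.of_le M q (p ^ k) _ _ _ hq hq2 hqM A hA K' K₂ hle H.base hK₂.isBase _ htor
    exact @cast _ _ (congrArg (LegToricAt M q (p ^ k) A K₂) e) h1

end Fermat.Agent.RB
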