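/-
RB — helper6 — [MAZ]: **[DESC-q]: `MazDescQ ⇐ KeyFqALHecke`** (port of helper4's
`MP.nonempty_peuPackage_core` to the inertia-fixed base).

`x ∈ J₀(M q)[p]` fixed by `I_A`, Hecke eigenclass.  The invariant pair `(D, f)` of `x`; a Galois base
`K₁` over which `f` is defined and the supports of `f` and `W_q f` on the Legendre host are
rational; the small base `K' = Fix_{K₁}(I_A)`: a base with (h1), **unramified** (`q` is a
uniformiser: `EC.exists_zpow_valuation_eq_of_fixed`); `f` is defined over `K'`; the Hecke relations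
over `K'` (`MP.exists_hecke_kummer`, `MP.exists_hecke_kummer_base`), transported to `W_q f₀` by
[AL-HECKE].
-/
import Mathlib
import Fermat.Agent.RB.MAZ_helper6_Parts
import Fermat.Agent.RB.MAZ_helper6_Compat
import Fermat.Agent.MP.DESC_helper4_Pack
import Fermat.Agent.EC.InertiaField_helper5

set_option autoImplicit false
set_option linter.unusedSectionVars false
set_option linter.unusedVariables false
set_option linter.style.haveILetI false
set_option synthInstance.maxHeartbeats 400000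

open HahnSeries IntermediateField AlgebraicCurve ModularCurve IsLocalRing

namespace Fermat.Agent.RB

open Fermat.Agent.JA Fermat.Agent.FF Fermat.Agent.SS Fermat.Agent.X0N Fermat.Agent.S35
  Fermat.Agent.S36 Fermat.Agent.NP Fermat.Agent.MP

/-- `Ω = AlgebraicClosure ℚ`. -/
local notation "Ω" => AlgebraicClosure ℚ

/-- the absolute Galois group. -/
local notation "GQ" => (AlgebraicClosure ℚ ≃ₐ[ℚ] AlgebraicClosure ℚ)

section Rel

variable (N : ℕ) [NeZero N] (K₀ : IntermediateField ℚ Ω) (F₀ : ↥(keyFq ↥K₀ N))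
  {f : ↥(modularFunctionFieldBar N)} (hBC : keyFqBC N K₀ F₀ = f)

include hBC in
/-- **the Hecke relations over a field of definition**, level `N`, exponent `m`. -/
theorem heckeRelK_of_bcQ {m : ℕ} (hm : 0 < m) (S : Set ℕ) (a : ℕ → ℤ)
    (D : Divisor.degZero (K := Ω) (F := ↥(modularFunctionFieldBar N))) (hf : f ≠ 0)
    (hfD : ∀ v : Place Ω ↥(modularFunctionFieldBar N),
      v.ord f = (m : ℤ) * (D : Divisor Ω ↥(modularFunctionFieldBar N)) v)
    (hT : ∀ (ℓ : ℕ) (hℓ : ℓ.Prime), ℓ ∉ S →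
      heckeOperatorBar N ⟨ℓ, hℓ⟩ (Pic0.mk D : JZero N) = a ℓ • (Pic0.mk D : JZero N)) :
    HeckeRelK ↥K₀ N m S a F₀ := by
  intro ℓ hℓ hℓS
  haveI : NeZero ℓ := ⟨hℓ.ne_zero⟩
  haveI : NeZero (N * ℓ) := ⟨Nat.mul_ne_zero (NeZero.ne N) hℓ.ne_zero⟩
  have hdiv : IsDivOf f (m • (D : Divisor Ω ↥(modularFunctionFieldBar N))) :=
    ⟨hf, fun v => by rw [Finsupp.smul_apply, nsmul_eq_mul, hfD v]⟩
  have hF₀ : F₀ ≠ 0 := by
    intro h0
    apply hf
    rw [← hBC, h0, map_zero]
  obtain ⟨c, u, hc, hu, hrel⟩ := exists_hecke_kummer N ℓ hℓ (a ℓ) D hdiv (hT ℓ hℓ hℓS)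
  exact exists_hecke_kummer_base N ℓ hℓ hm (a ℓ) K₀ F₀ hF₀ c u hc hu (by rw [hBC]; exact hrel)

end Rel

section Unram

variable {q : ℕ} [hq : Fact q.Prime] {A : ValuationSubring Ω}

/-- **a base fixed pointwise by the inertia group is unramified**: `q` is a uniformiser. -/
theorem irreducible_natCast_baseRing_of_fixed (hA : A.LiesOverPrime q)
    {K' : IntermediateField ℚ Ω} (hK' : IsBase q K')
    (hfix : ∀ z ∈ K', ∀ τ ∈ A.inertiaSubgroupIn ℚ, τ z = z) :
    Irreducible ((q : ℕ) : ↥(baseRing A K')) := by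
  haveI : IsDiscreteValuationRing ↥(baseRing A K') := hK'.isDiscreteValuationRing hA
  obtain ⟨ϖ, hϖ⟩ := IsDiscreteValuationRing.exists_irreducible ↥(baseRing A K')
  have hq0 : ((q : ℕ) : ↥(baseRing A K')) ≠ 0 := by
    have : CharZero ↥(baseRing A K') := charZero_valuationSubring_of_algebraRat _
    exact Nat.cast_ne_zero.mpr hq.out.ne_zero
  obtain ⟨e, u, hu⟩ := IsDiscreteValuationRing.eq_unit_mul_pow_irreducible hq0 hϖ
  -- the valuations
  set φ : ↥(baseRing A K') →+* Ω := (algebraMap ↥K' Ω).comp (baseRing A K').subtype with hφ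
  have hφq : φ ((q : ℕ) : ↥(baseRing A K')) = (q : Ω) := map_natCast φ q
  set c := A.valuation (φ ϖ) with hc
  have hc1 : c < 1 := (mem_maximalIdeal_baseRing_iff ϖ).mp
    ((IsLocalRing.mem_maximalIdeal ϖ).mpr hϖ.not_isUnit)
  have hϖ0 : φ ϖ ≠ 0 := by
    intro h0
    have hφinj : Function.Injective φ :=
      (algebraMap ↥K' Ω).injective.comp Subtype.val_injective
    exact hϖ.ne_zero (hφinj (by rw [h0, map_zero]))
  have hc0 : c ≠ 0 := (Valuation.ne_zero_iff _).mpr hϖ0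
  have hvu : A.valuation (φ (u : ↥(baseRing A K'))) = 1 :=
    (isUnit_baseRing_iff (u : ↥(baseRing A K'))).mp u.isUnit
  have hvq : A.valuation (q : Ω) = c ^ e := by
    rw [← hφq, hu, map_mul, map_pow, map_mul, map_pow, hvu, one_mul]
  obtain ⟨m, hm⟩ := Fermat.Agent.EC.exists_zpow_valuation_eq_of_fixed hq.out hA (φ ϖ) hϖ0
    (fun σ hσ => hfix _ ((ϖ : ↥K')).2 σ hσ)
  rw [hvq, ← zpow_natCast, ← zpow_mul] at hm
  have hem : ((e : ℕ) : ℤ) * m = 1 := by
    have h1 : c ^ (1 : ℤ) = c ^ (((e : ℕ) : ℤ) * m) := by rw [zpow_one]; exact hm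
    exact (zpow_right_injective₀ (zero_lt_iff.mpr hc0) (ne_of_lt hc1) h1).symm
  have he : e = 1 := by
    rcases Int.eq_one_or_neg_one_of_mul_eq_one hem with h | h
    · exact_mod_cast h
    · exfalso
      have : (0 : ℤ) ≤ (e : ℤ) := Int.natCast_nonneg e
      omega
  rw [hu, he, pow_one]
  exact (irreducible_units_mul u).mpr hϖ

end Unram

section Main

set_option maxHeartbeats 6400000 in
/-- **[DESC-q] from [AL-HECKE].** -/
theorem mazDescQ_of (HAL : KeyFqALHecke) : MazDescQ := by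
  intro M q p _ _ _ hq hq2 hp hp5 hqp hqM A hA S a hS hpS h2S hnE x hpx hT hI
  classical
  haveI : Fact q.Prime := ⟨hq⟩
  -- the invariant pair
  obtain ⟨D, f, hf, hDx, hfD, hlc, -, hfinv⟩ := exists_invariant_pair (M * q) p x hpx
    {σ : GQ | σ • x = x} (fun σ hσ => hσ)
  have hdiv : ∀ v : Place Ω ↥(modularFunctionFieldBar (M * q)), ((p : ℕ) : ℤ) ∣ v.ord f :=
    fun v => ⟨_, hfD v⟩
  -- the Atkin–Lehner transform of `f`
  set f' : ↥(modularFunctionFieldBar (M * q)) := atkinLehnerBar M q hq hqM f with hf'def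
  have hf' : f' ≠ 0 := by
    rw [hf'def, ← alSemi_smul hq hqM]
    exact (smul_ne_zero_iff_ne (alSemi hq hqM)).mpr hf
  have hdivD : IsDivOf f (p • (D : Divisor Ω ↥(modularFunctionFieldBar (M * q)))) :=
    ⟨hf, fun v => by rw [Finsupp.smul_apply, nsmul_eq_mul, hfD v]⟩
  have hdiv' : ∀ v : Place Ω ↥(modularFunctionFieldBar (M * q)), ((p : ℕ) : ℤ) ∣ v.ord f' := by
    intro v
    have h1 := (hdivD.smul (alSemi hq hqM)).2 v
    rw [smul_comm (alSemi hq hqM) p, Finsupp.smul_apply, nsmul_eq_mul] at h1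
    rw [hf'def, ← alSemi_smul hq hqM, ← h1]
    exact ⟨_, rfl⟩
  -- the divisors of `f`, `f'` on the host over `Ω`
  haveI : HasPrincipalDivisors Ω ↥(legE Ω (M * q)) := up_hasPrincipalDivisors_legE (M * q)
  have hfE : fullToLegE Ω (M * q) f ≠ 0 := (_root_.map_ne_zero _).2 hf
  have hfE' : fullToLegE Ω (M * q) f' ≠ 0 := (_root_.map_ne_zero _).2 hf'
  obtain ⟨DE, hDE, -⟩ := HasPrincipalDivisors.exists_divisor (K := Ω) (fullToLegE Ω (M * q) f) hfE
  obtain ⟨DE', hDE', -⟩ :=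
    HasPrincipalDivisors.exists_divisor (K := Ω) (fullToLegE Ω (M * q) f') hfE'
  -- the Galois base
  obtain ⟨K₁, hK₁, -, -, hdesc, hrat⟩ :=
    (isBase_flatBase (ℓ := q)).exists_ge_isGalBase_legE (M * q) (∅ : Finset Ω)
      (f := fun _ : Unit => ((f : ↥(modularFunctionFieldBar (M * q))) : LaurentSeries Ω))
      (fun _ => f.2) (DE.support ∪ DE'.support)
  haveI := hK₁.normal
  obtain ⟨f₁, hf₁mem, hf₁⟩ := hdesc ()
  set F₁ : ↥(keyFq ↥K₁ (M * q)) := ⟨f₁, hf₁mem⟩ with hF₁def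
  have hBC1 : keyFqBC (M * q) K₁ F₁ = f := Subtype.ext hf₁
  -- rationality of the supports over `K₁`
  have hord₁ : LegOrdCond K₁ (M * q) p (fullToLegE ↥K₁ (M * q) F₁) := by
    intro P
    have hg₁BC : legBC (M * q) K₁ (fullToLegE ↥K₁ (M * q) F₁) =
        algebraMap Ω ↥(legE Ω (M * q)) 1 * fullToLegE Ω (M * q) f := by
      rw [bcdeg_legBC_fullToLegE, hBC1, map_one, one_mul]
    have h1 := ord_descended_leg (M * q) f hdiv DE hDE K₁
      (fun P hP => hrat P (Finset.mem_union_left _ hP)) (fullToLegE ↥K₁ (M * q) F₁) 1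
      one_ne_zero hg₁BC P
    by_cases h0 : P.ord (fullToLegE ↥K₁ (M * q) F₁) = 0
    · exact Or.inl h0
    · exact Or.inr ⟨h1.2 h0, h1.1⟩
  have hord₁' : ∀ {x y : ℤ} (hbez : (q : ℤ) * x + M * y = 1),
      LegOrdCond K₁ (M * q) p (fullToLegE ↥K₁ (M * q)
        (letI := baseToComplex K₁; atkinLehnerN (algebraMap ↥K₁ ℂ) hbez hq F₁)) := by
    intro x y hbez P
    letI := baseToComplex K₁
    have hg₁BC : legBC (M * q) K₁ (fullToLegE ↥K₁ (M * q)
        (atkinLehnerN (algebraMap ↥K₁ ℂ) hbez hq F₁)) =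
        algebraMap Ω ↥(legE Ω (M * q)) 1 * fullToLegE Ω (M * q) f' := by
      rw [bcdeg_legBC_fullToLegE, keyFqBC_atkinLehnerN K₁ (algebraMap ↥K₁ ℂ) hbez hq hqM, hBC1,
        map_one, one_mul]
    have h1 := ord_descended_leg (M * q) f' hdiv' DE' hDE' K₁
      (fun P hP => hrat P (Finset.mem_union_right _ hP)) _ 1 one_ne_zero hg₁BC P
    by_cases h0 : P.ord (fullToLegE ↥K₁ (M * q)
        (atkinLehnerN (algebraMap ↥K₁ ℂ) hbez hq F₁)) = 0
    · exact Or.inl h0
    · exact Or.inr ⟨h1.2 h0, h1.1⟩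
  -- the small base
  set H : Subgroup GQ := A.inertiaSubgroupIn ℚ with hHdef
  have hHflat : ∀ τ ∈ H, ∀ b ∈ flatBase q, τ b = b :=
    fun τ hτ b hb => inertia_apply_of_mem_flatBase hA hτ hb
  set K' : IntermediateField ℚ Ω := fixIn K₁ H with hK'def
  have hK' : IsBase q K' := isBase_fixIn hA le_rfl hK₁.isBase
  have hunram : Irreducible ((q : ℕ) : ↥(baseRing A K')) :=
    irreducible_natCast_baseRing_of_fixed hA hK'
      (fun z hz τ hτ => apply_eq_of_mem_fixIn hτ hz)
  -- `f` over the small base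
  obtain ⟨F', hF'⟩ := exists_keyFq_descent_fixIn q (M * q) hK₁.flatBase_le hHflat F₁
    (fun τ hτ => by
      rw [hBC1]
      exact hfinv τ (hI τ hτ))
  rw [hBC1] at hF'
  have hF'0 : F' ≠ 0 := by
    intro h0
    apply hf
    rw [← hF', h0, map_zero]
  have hheck : HeckeRelK ↥K' (M * q) p S a F' :=
    heckeRelK_of_bcQ (M * q) K' F' hF' hp.pos S a D hf hfD (fun ℓ hℓ hℓS => by
      rw [hDx]; exact hT ℓ hℓ hℓS)
  refine ⟨D, f, hf, hDx, hfD, K₁, hK₁.normal, K', F', hF', ?_, ?_⟩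
  · exact
      { galBase := hK₁
        base := hK'
        le := fixIn_le K₁ H
        h1 := mem_iff_map_mem_of_fixing_fixIn hA le_rfl hK₁.isBase
        unram := hunram
        bad := hS
        pS := hpS
        twoS := h2S
        nonEis := hnE
        ne_zero := hF'0
        ordΩ := fun v => by rw [hF']; exact hdiv v
        rat := ⟨F₁, by rw [hBC1, hF'], hord₁⟩
        hecke := hheck }
  · intro x y hbez
    letI := baseToComplex K'
    have hBCW : keyFqBC (M * q) K' (atkinLehnerN (algebraMap ↥K' ℂ) hbez hq F') = f' := by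
      rw [keyFqBC_atkinLehnerN K' (algebraMap ↥K' ℂ) hbez hq hqM, hF']
    exact
      { galBase := hK₁
        base := hK'
        le := fixIn_le K₁ H
        h1 := mem_iff_map_mem_of_fixing_fixIn hA le_rfl hK₁.isBase
        unram := hunram
        bad := hS
        pS := hpS
        twoS := h2S
        nonEis := hnE
        ne_zero := (_root_.map_ne_zero (atkinLehnerN (algebraMap ↥K' ℂ) hbez hq)).mpr hF'0
        ordΩ := fun v => by rw [hBCW]; exact hdiv' v
        rat := ⟨(letI := baseToComplex K₁; atkinLehnerN (algebraMap ↥K₁ ℂ) hbez hq F₁), by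
          rw [hBCW]
          letI := baseToComplex K₁
          rw [keyFqBC_atkinLehnerN K₁ (algebraMap ↥K₁ ℂ) hbez hq hqM, hBC1], hord₁' hbez⟩
        hecke := by
          intro ℓ hℓ hℓS
          haveI : NeZero ℓ := ⟨hℓ.ne_zero⟩
          haveI : NeZero (M * q * ℓ) := ⟨Nat.mul_ne_zero (NeZero.ne (M * q)) hℓ.ne_zero⟩
          have hℓMq : ¬ ℓ ∣ M * q := fun h => hℓS (hS ℓ hℓ h)
          obtain ⟨c, u, hc, hu, hrel⟩ := hheck ℓ hℓ hℓS
          refine ⟨c, atkinLehnerN (algebraMap ↥K' ℂ) hbez hq u, hc,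
            (_root_.map_ne_zero (atkinLehnerN (algebraMap ↥K' ℂ) hbez hq)).mpr hu, ?_⟩
          rw [HAL ↥K' M q hq hqM hbez ℓ hℓ hℓMq F', hrel, map_mul, map_mul, map_zpow₀, map_pow,
            atkinLehnerN_algebraMap] }

end Main

end Fermat.Agent.RB
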