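/-
RB — helper7 — **[NEW-TORIC] (L1) [NEW-DESC]: `NewDescQ`** (port of helper6's `mazDescQ_of` to the
exponent `p ^ k`, without Hecke relations, with the two degeneracy norms and the stability of the
small base under the decomposition group).

`x ∈ J₀(M q)[p ^ k]` fixed by `I_A`, killed by both degeneracy pushforwards.  The invariant pair
`(D, f)` of `x`; a Galois base `K₁` over which `f` is defined and the supports of `f` and `W_q f` on
the Legendre host are rational; the small base `K' = Fix_{K₁}(I_A)`; `f` is defined over `K'`; the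
degeneracy norms of `f₀` are constants times `p ^ k`-th powers (`exists_normAlong_eq_of_degPush_eq_zero`
+ descent of roots); those of `W_q f₀` are the swapped ones (`normAlong_ringEquiv_aux`).
-/
import Mathlib
import Fermat.Agent.RB.NEWT_helper6_Hyp
import Fermat.Agent.RB.MAZ_helper6_DescQ
import Fermat.Agent.MP.RQ4Q_helper3_Hecke
import Fermat.Agent.NP.ALG33_helper2_Main
import Fermat.Agent.S35.TOPF_helper8_JZero
import Fermat.Agent.S35.NORMBC_helper8_Key

set_option autoImplicit false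
set_option linter.unusedSectionVars false
set_option linter.unusedVariables false
set_option linter.style.haveILetI false
set_option synthInstance.maxHeartbeats 400000

open HahnSeries IntermediateField AlgebraicCurve ModularCurve IsLocalRing

namespace Fermat.Agent.RB

open Fermat.Agent.JA Fermat.Agent.FF Fermat.Agent.SS Fermat.Agent.X0N Fermat.Agent.S35
  Fermat.Agent.S36 Fermat.Agent.NP Fermat.Agent.MP

/-- `Ω = AlgebraicClosure ℚ`. -/
local notation "Ω" => AlgebraicClosure ℚ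

/-- the absolute Galois group. -/
local notation "GQ" => (AlgebraicClosure ℚ ≃ₐ[ℚ] AlgebraicClosure ℚ)

section Norms

variable (M q : ℕ) [NeZero M] [NeZero q] [NeZero (M * q)]
  (K₀ : IntermediateField ℚ Ω) (F₀ : ↥(keyFq ↥K₀ (M * q)))

/-- descent of "the norm along `α` is a constant times an `m`-th power". -/
theorem exists_normA_of_normAlong_bar (hq : q.Prime) {m : ℕ} (hm : 0 < m)
    (hN : ∃ (a : Ω) (h : ↥(modularFunctionFieldBar M)), a ≠ 0 ∧ h ≠ 0 ∧
      normAlong (heckeAlphaBar Ω M q) (keyFqBC (M * q) K₀ F₀) =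
        algebraMap Ω ↥(modularFunctionFieldBar M) a * h ^ m) :
    ∃ (c : ↥K₀) (h : ↥(keyFq ↥K₀ M)), c ≠ 0 ∧ h ≠ 0 ∧
      (letI := (keyFqA ↥K₀ M q).toRingHom.toAlgebra; Algebra.norm ↥(keyFq ↥K₀ M) F₀) =
        algebraMap ↥K₀ ↥(keyFq ↥K₀ M) c * h ^ m := by
  obtain ⟨b, h, hb, hh, hN⟩ := hN
  rw [norm_keyFqA_eq_normAlong]
  exact exists_base_root K₀ M hm (normAlong (heckeAlphaBar ↥K₀ M q) F₀) b h hb hh (by
    rw [keyFqBC_normAlong_heckeAlphaBar M q K₀ hq]
    exact hN)

/-- descent of "the norm along `β` is a constant times an `m`-th power". -/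
theorem exists_normB_of_normAlong_bar (hq : q.Prime) {m : ℕ} (hm : 0 < m)
    (hN : ∃ (a : Ω) (h : ↥(modularFunctionFieldBar M)), a ≠ 0 ∧ h ≠ 0 ∧
      normAlong (heckeBetaBar Ω M q) (keyFqBC (M * q) K₀ F₀) =
        algebraMap Ω ↥(modularFunctionFieldBar M) a * h ^ m) :
    ∃ (c : ↥K₀) (h : ↥(keyFq ↥K₀ M)), c ≠ 0 ∧ h ≠ 0 ∧
      (letI := (keyFqB ↥K₀ M q).toRingHom.toAlgebra; Algebra.norm ↥(keyFq ↥K₀ M) F₀) =
        algebraMap ↥K₀ ↥(keyFq ↥K₀ M) c * h ^ m := by
  obtain ⟨b, h, hb, hh, hN⟩ := hN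
  rw [norm_keyFqB_eq_normAlong]
  exact exists_base_root K₀ M hm (normAlong (heckeBetaBar ↥K₀ M q) F₀) b h hb hh (by
    rw [keyFqBC_normAlong_heckeBetaBar M q K₀ hq]
    exact hN)

variable {M q}

/-- the norm along `α` of `W_q z` is the norm along `β` of `z`. -/
theorem normAlong_alpha_atkinLehnerBar (hq : q.Prime) (hqM : ¬ q ∣ M)
    (z : ↥(modularFunctionFieldBar (M * q))) :
    normAlong (heckeAlphaBar Ω M q) (atkinLehnerBar M q hq hqM z) =
      normAlong (heckeBetaBar Ω M q) z :=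
  RQ4Q.normAlong_ringEquiv_aux (heckeBetaBar Ω M q) (heckeAlphaBar Ω M q)
    (atkinLehnerBarEquiv hq hqM) (fun x => atkinLehnerBar_beta hq hqM x) z

/-- the norm along `β` of `W_q z` is the norm along `α` of `z`. -/
theorem normAlong_beta_atkinLehnerBar (hq : q.Prime) (hqM : ¬ q ∣ M)
    (z : ↥(modularFunctionFieldBar (M * q))) :
    normAlong (heckeBetaBar Ω M q) (atkinLehnerBar M q hq hqM z) =
      normAlong (heckeAlphaBar Ω M q) z :=
  RQ4Q.normAlong_ringEquiv_aux (heckeAlphaBar Ω M q) (heckeBetaBar Ω M q)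
    (atkinLehnerBarEquiv hq hqM) (fun x => atkinLehnerBar_alpha hq hqM x) z

end Norms

section Stab

variable {A : ValuationSubring Ω} {K₁ : IntermediateField ℚ Ω} [Normal ℚ ↥K₁]

/-- **the inertia field of `A` in a normal `K₁` is stable under the decomposition group.** -/
theorem map_mem_fixIn_of_mem_decomposition {σ : GQ} (hσ : σ ∈ A.decompositionSubgroup ℚ) {z : Ω}
    (hz : z ∈ fixIn K₁ (A.inertiaSubgroupIn ℚ)) : σ z ∈ fixIn K₁ (A.inertiaSubgroupIn ℚ) := by
  refine map_mem_fixIn (fun τ hτ => ?_) hz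
  have h := conj_mem_inertiaSubgroupIn_of_mem_decomposition (inv_mem hσ) hτ
  rwa [inv_inv] at h

end Stab

section Main

set_option maxHeartbeats 6400000 in
/-- **[NEW-DESC].** -/
theorem newDescQ : NewDescQ := by
  intro M q p _ _ _ hq hq2 hp hqp hqM A hA k x hpx hI hα hβ
  classical
  haveI : Fact q.Prime := ⟨hq⟩
  have hm : 0 < p ^ k := pow_pos hp.pos k
  -- the invariant pair
  obtain ⟨D, f, hf, hDx, hfD, hlc, -, hfinv⟩ := exists_invariant_pair (M * q) (p ^ k) x hpx
    {σ : GQ | σ • x = x} (fun σ hσ => hσ)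
  have hdiv : ∀ v : Place Ω ↥(modularFunctionFieldBar (M * q)),
      ((p ^ k : ℕ) : ℤ) ∣ v.ord f := fun v => ⟨_, hfD v⟩
  -- the Atkin–Lehner transform of `f`
  set f' : ↥(modularFunctionFieldBar (M * q)) := atkinLehnerBar M q hq hqM f with hf'def
  have hf' : f' ≠ 0 := by
    rw [hf'def, ← alSemi_smul hq hqM]
    exact (smul_ne_zero_iff_ne (alSemi hq hqM)).mpr hf
  have hdivD : IsDivOf f ((p ^ k) • (D : Divisor Ω ↥(modularFunctionFieldBar (M * q)))) :=
    ⟨hf, fun v => by rw [Finsupp.smul_apply, nsmul_eq_mul, hfD v]⟩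
  have hdiv' : ∀ v : Place Ω ↥(modularFunctionFieldBar (M * q)),
      ((p ^ k : ℕ) : ℤ) ∣ v.ord f' := by
    intro v
    have h1 := (hdivD.smul (alSemi hq hqM)).2 v
    rw [smul_comm (alSemi hq hqM) (p ^ k), Finsupp.smul_apply, nsmul_eq_mul] at h1
    rw [hf'def, ← alSemi_smul hq hqM, ← h1]
    exact ⟨_, rfl⟩
  -- the norms over `Ω`
  have hNα : ∃ (a : Ω) (h : ↥(modularFunctionFieldBar M)), a ≠ 0 ∧ h ≠ 0 ∧
      normAlong (heckeAlphaBar Ω M q) f =
        algebraMap Ω ↥(modularFunctionFieldBar M) a * h ^ (p ^ k) :=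
    exists_normAlong_eq_of_degPush_eq_zero M q (heckeAlphaBar Ω M q) D f hf hfD
      (by rw [hDx]; exact hα)
  have hNβ : ∃ (a : Ω) (h : ↥(modularFunctionFieldBar M)), a ≠ 0 ∧ h ≠ 0 ∧
      normAlong (heckeBetaBar Ω M q) f =
        algebraMap Ω ↥(modularFunctionFieldBar M) a * h ^ (p ^ k) :=
    exists_normAlong_eq_of_degPush_eq_zero M q (heckeBetaBar Ω M q) D f hf hfD
      (by rw [hDx]; exact hβ)
  have hNα' : ∃ (a : Ω) (h : ↥(modularFunctionFieldBar M)), a ≠ 0 ∧ h ≠ 0 ∧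
      normAlong (heckeAlphaBar Ω M q) f' =
        algebraMap Ω ↥(modularFunctionFieldBar M) a * h ^ (p ^ k) := by
    rw [hf'def, normAlong_alpha_atkinLehnerBar hq hqM]
    exact hNβ
  have hNβ' : ∃ (a : Ω) (h : ↥(modularFunctionFieldBar M)), a ≠ 0 ∧ h ≠ 0 ∧
      normAlong (heckeBetaBar Ω M q) f' =
        algebraMap Ω ↥(modularFunctionFieldBar M) a * h ^ (p ^ k) := by
    rw [hf'def, normAlong_beta_atkinLehnerBar hq hqM]
    exact hNα
  -- the divisors of `f`, `f'` on the host over `Ω`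
  haveI : HasPrincipalDivisors Ω ↥(legE Ω (M * q)) := up_hasPrincipalDivisors_legE (M * q)
  have hfE : fullToLegE Ω (M * q) f ≠ 0 := (_root_.map_ne_zero _).2 hf
  have hfE' : fullToLegE Ω (M * q) f' ≠ 0 := (_root_.map_ne_zero _).2 hf'
  obtain ⟨DE, hDE, -⟩ := HasPrincipalDivisors.exists_divisor (K := Ω) (fullToLegE Ω (M * q) f) hfE
  obtain ⟨DE', hDE', -⟩ :=
    HasPrincipalDivisors.exists_divisor (K := Ω) (fullToLegE Ω (M * q) f') hfE'
  -- the Galois base
  obtain ⟨K₁, hK₁, -, -, hdesc, hrat⟩ :=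
    (isBase_flatBase (ℓ := q)).exists_ge_isGalBase_legE (M * q) (∅ : Finset Ω)
      (f := fun _ : Unit => ((f : ↥(modularFunctionFieldBar (M * q))) : LaurentSeries Ω))
      (fun _ => f.2) (DE.support ∪ DE'.support)
  haveI := hK₁.normal
  obtain ⟨f₁, hf₁mem, hf₁⟩ := hdesc ()
  set F₁ : ↥(keyFq ↥K₁ (M * q)) := ⟨f₁, hf₁mem⟩ with hF₁def
  have hBC1 : keyFqBC (M * q) K₁ F₁ = f := Subtype.ext hf₁
  -- rationality of the supports over `K₁`
  have hord₁ : LegOrdCond K₁ (M * q) (p ^ k) (fullToLegE ↥K₁ (M * q) F₁) := by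
    intro P
    have hg₁BC : legBC (M * q) K₁ (fullToLegE ↥K₁ (M * q) F₁) =
        algebraMap Ω ↥(legE Ω (M * q)) 1 * fullToLegE Ω (M * q) f := by
      rw [bcdeg_legBC_fullToLegE, hBC1, map_one, one_mul]
    have h1 := ord_descended_leg (M * q) f hdiv DE hDE K₁
      (fun P hP => hrat P (Finset.mem_union_left _ hP)) (fullToLegE ↥K₁ (M * q) F₁) 1
      one_ne_zero hg₁BC P
    by_cases h0 : P.ord (fullToLegE ↥K₁ (M * q) F₁) = 0
    · exact Or.inl h0
    · exact Or.inr ⟨h1.2 h0, h1.1⟩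
  have hord₁' : ∀ {x y : ℤ} (hbez : (q : ℤ) * x + M * y = 1),
      LegOrdCond K₁ (M * q) (p ^ k) (fullToLegE ↥K₁ (M * q)
        (letI := baseToComplex K₁; atkinLehnerN (algebraMap ↥K₁ ℂ) hbez hq F₁)) := by
    intro x y hbez P
    letI := baseToComplex K₁
    have hg₁BC : legBC (M * q) K₁ (fullToLegE ↥K₁ (M * q)
        (atkinLehnerN (algebraMap ↥K₁ ℂ) hbez hq F₁)) =
        algebraMap Ω ↥(legE Ω (M * q)) 1 * fullToLegE Ω (M * q) f' := by
      rw [bcdeg_legBC_fullToLegE, keyFqBC_atkinLehnerN K₁ (algebraMap ↥K₁ ℂ) hbez hq hqM, hBC1,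
        map_one, one_mul]
    have h1 := ord_descended_leg (M * q) f' hdiv' DE' hDE' K₁
      (fun P hP => hrat P (Finset.mem_union_right _ hP)) _ 1 one_ne_zero hg₁BC P
    by_cases h0 : P.ord (fullToLegE ↥K₁ (M * q)
        (atkinLehnerN (algebraMap ↥K₁ ℂ) hbez hq F₁)) = 0
    · exact Or.inl h0
    · exact Or.inr ⟨h1.2 h0, h1.1⟩
  -- the small base
  set H : Subgroup GQ := A.inertiaSubgroupIn ℚ with hHdef
  have hHflat : ∀ τ ∈ H, ∀ b ∈ flatBase q, τ b = b :=
    fun τ hτ b hb => inertia_apply_of_mem_flatBase hA hτ hb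
  set K' : IntermediateField ℚ Ω := fixIn K₁ H with hK'def
  have hK' : IsBase q K' := isBase_fixIn hA le_rfl hK₁.isBase
  have hunram : Irreducible ((q : ℕ) : ↥(baseRing A K')) :=
    irreducible_natCast_baseRing_of_fixed hA hK'
      (fun z hz τ hτ => apply_eq_of_mem_fixIn hτ hz)
  have hstab : ∀ σ ∈ A.decompositionSubgroup ℚ, ∀ z ∈ K', σ z ∈ K' :=
    fun σ hσ z hz => map_mem_fixIn_of_mem_decomposition hσ hz
  -- `f` over the small base
  obtain ⟨F', hF'⟩ := exists_keyFq_descent_fixIn q (M * q) hK₁.flatBase_le hHflat F₁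
    (fun τ hτ => by
      rw [hBC1]
      exact hfinv τ (hI τ hτ))
  rw [hBC1] at hF'
  have hF'0 : F' ≠ 0 := by
    intro h0
    apply hf
    rw [← hF', h0, map_zero]
  refine ⟨D, f, hf, hDx, hfD, K₁, hK₁.normal, K', F', hF', ?_, ?_⟩
  · exact
      { galBase := hK₁
        base := hK'
        le := fixIn_le K₁ H
        h1 := mem_iff_map_mem_of_fixing_fixIn hA le_rfl hK₁.isBase
        unram := hunram
        stab := hstab
        ne_zero := hF'0
        ordΩ := fun v => by rw [hF']; exact hdiv v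
        rat := ⟨F₁, by rw [hBC1, hF'], hord₁⟩
        normA := exists_normA_of_normAlong_bar M q K' F' hq hm (by rw [hF']; exact hNα)
        normB := exists_normB_of_normAlong_bar M q K' F' hq hm (by rw [hF']; exact hNβ) }
  · intro x y hbez
    letI := baseToComplex K'
    have hBCW : keyFqBC (M * q) K' (atkinLehnerN (algebraMap ↥K' ℂ) hbez hq F') = f' := by
      rw [keyFqBC_atkinLehnerN K' (algebraMap ↥K' ℂ) hbez hq hqM, hF']
    exact
      { galBase := hK₁
        base := hK'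
        le := fixIn_le K₁ H
        h1 := mem_iff_map_mem_of_fixing_fixIn hA le_rfl hK₁.isBase
        unram := hunram
        stab := hstab
        ne_zero := (_root_.map_ne_zero (atkinLehnerN (algebraMap ↥K' ℂ) hbez hq)).mpr hF'0
        ordΩ := fun v => by rw [hBCW]; exact hdiv' v
        rat := ⟨(letI := baseToComplex K₁; atkinLehnerN (algebraMap ↥K₁ ℂ) hbez hq F₁), by
          rw [hBCW]
          letI := baseToComplex K₁
          rw [keyFqBC_atkinLehnerN K₁ (algebraMap ↥K₁ ℂ) hbez hq hqM, hBC1], hord₁' hbez⟩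
        normA := exists_normA_of_normAlong_bar M q K' _ hq hm (by rw [hBCW]; exact hNα')
        normB := exists_normB_of_normAlong_bar M q K' _ hq hm (by rw [hBCW]; exact hNβ') }

end Main

end Fermat.Agent.RB
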