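/-
RB — helper6 — [MAZ]: **[HALF∞]: `LegMazInfQ ⇐ LegMazOrdQ + LegRoldQ`** (port of lead's
`MP.legPeuInfP_of` with the exponent `p` separated from the residue characteristic `q`).

`f₀ ∈ F_{Mq}(K')`; `f₁ = f₀ ϖ ^ (-a∞)` a unit of the Gauss valuation; `w₀ ∈ F_M(K')` with
`f₁ ≡ A w₀` (`MP.keyFqResInfP`).  Let `w̄ ∈ Ẽ_M` be the reduction of `w₀` on the Legendre host.
* **Case 1** `w̄ = g ^ p`: `g` lifts to `V_M(K')` (`FG.legPsi_surjective`), so `w₀ ≡ b ^ p`.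
* **Case 2** `w̄` is not a `p`-th power: [ROLD-q], with the orders from [ORD-q] and the reduced
  Hecke relations from `MP.legRedHeckeP`.
-/
import Mathlib
import Fermat.Agent.RB.MAZ_helper6_Parts
import Fermat.Agent.MP.KPBASE_lead_Inf
import Fermat.Agent.MP.KEYFQ_helper8_ResInfP
import Fermat.Agent.MP.ORD_helper1_RedHecke
import Fermat.Agent.MP.REDINF_helper8_RhoBaseP

set_option autoImplicit false
set_option linter.unusedSectionVars false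
set_option linter.unusedVariables false
set_option linter.style.haveILetI false
set_option synthInstance.maxHeartbeats 400000

open HahnSeries IntermediateField AlgebraicCurve ModularCurve IsLocalRing

namespace Fermat.Agent.RB

open Fermat.Agent.JA Fermat.Agent.FF Fermat.Agent.SS Fermat.Agent.S35 Fermat.Agent.S36
  Fermat.Agent.MP Fermat.Agent.NP Fermat.Agent.GR Fermat.Agent.FG Fermat.Agent.X0N
  Fermat.Agent.Igusa

open scoped Fermat.Agent.JA.Host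

/-- `Ω = AlgebraicClosure ℚ`. -/
local notation "Ω" => AlgebraicClosure ℚ

section CaseOne

variable {q : ℕ} [Fact q.Prime] {A : ValuationSubring Ω} (hA : A.LiesOverPrime q)
  (M : ℕ) [NeZero M] {K' : IntermediateField ℚ Ω}

set_option maxHeartbeats 1600000 in
include hA in
/-- **Case 1**: if the reduction of `w ∈ V_M` is an `m`-th power in `Ẽ`, then `w` is congruent to
an `m`-th power of `V_M`. -/
theorem exists_powQ_approx_of_legρ_eq_pow (hqM : ¬ q ∣ M) (hK' : IsBase q K') (hq2 : q ≠ 2)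
    [IsDiscreteValuationRing ↥(baseRing A K')] (h2 : IsUnit (2 : ↥(baseRing A K')))
    (w : ↥(legE ↥K' M)) (hw : w ∈ legWinf ↥(baseRing A K') ↥K' h2 M)
    (hW : legBC M K' w ∈ legWE hA M hq2) (m : ℕ) (g : legEt hA M hq2)
    (hg : legρ hA M hq2 ⟨legBC M K' w, hW⟩ = g ^ m) :
    ∃ b ∈ legWinf ↥(baseRing A K') ↥K' h2 M,
      (legWinf ↥(baseRing A K') ↥K' h2 M).valuation (w - b ^ m) < 1 := by
  classical
  haveI : CharZero ↥(baseRing A K') := charZero_valuationSubring_of_algebraRat _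
  obtain ⟨ϖ, hϖ⟩ := IsDiscreteValuationRing.exists_irreducible ↥(baseRing A K')
  have hgeo := geoHyps_legE_baseRing hA M hqM hK' hq2 hϖ
  obtain ⟨𝒢t, h𝒢t⟩ := exists_isGaussAt ϖ hϖ _ hgeo.transcendental hgeo.adjoin_eq_top
  haveI : IsLocalRing ↥(legW₁ M 𝒢t) := hgeo.isLocalRing 𝒢t h𝒢t
  obtain ⟨y, rfl⟩ := legPsi_surjective hA M hqM hK' hq2 hϖ 𝒢t h𝒢t g
  obtain ⟨b, rfl⟩ := residue_surjective y
  have hint : ∀ x : ↥(legE ↥K' M), IsIntegral ↥𝒢t x ↔ x ∈ legWinf ↥(baseRing A K') ↥K' h2 M :=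
    fun x => isIntegral_legE_iff_mem_gaussInt hA M hqM hK' hq2 hϖ 𝒢t h𝒢t x
  have hwint : IsIntegral ↥𝒢t w := (hint w).2 hw
  have e1 := legPsi_residue_mk hA M hqM hK' hq2 hϖ 𝒢t h𝒢t ⟨w, hwint⟩ hW
  obtain ⟨bE, hbE⟩ : ∃ bE : ↥(legE ↥K' M), bE = (b : ↥(legE ↥K' M)) := ⟨_, rfl⟩
  have hbint : IsIntegral ↥𝒢t bE := hbE ▸ b.2
  have hbV : bE ∈ legWinf ↥(baseRing A K') ↥K' h2 M := (hint _).1 hbint
  have hbW : legBC M K' bE ∈ legWE hA M hq2 := (legBC_mem_legWE_iff hA M K' hq2 bE).2 hbV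
  have e_b : legPsi hA M hqM hK' hq2 hϖ 𝒢t h𝒢t (residue _ b) =
      legρ hA M hq2 ⟨legBC M K' bE, hbW⟩ := by
    subst hbE
    exact legPsi_residue_mk hA M hqM hK' hq2 hϖ 𝒢t h𝒢t b hbW
  have hbpint : IsIntegral ↥𝒢t (bE ^ m) := hbint.pow m
  have hbpW : legBC M K' (bE ^ m) ∈ legWE hA M hq2 := by
    rw [map_pow]
    exact pow_mem hbW m
  have e_bp := legPsi_residue_mk hA M hqM hK' hq2 hϖ 𝒢t h𝒢t ⟨bE ^ m, hbpint⟩ hbpW
  have e_pow : legρ hA M hq2 ⟨legBC M K' (bE ^ m), hbpW⟩ =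
      legρ hA M hq2 ⟨legBC M K' bE, hbW⟩ ^ m := by
    rw [← map_pow]
    congr 1
    exact Subtype.ext (map_pow _ _ _)
  have hg' : legPsi hA M hqM hK' hq2 hϖ 𝒢t h𝒢t (residue _ (⟨w, hwint⟩ : ↥(legW₁ M 𝒢t))) =
      legPsi hA M hqM hK' hq2 hϖ 𝒢t h𝒢t (residue _ (⟨bE ^ m, hbpint⟩ : ↥(legW₁ M 𝒢t))) :=
    e1.trans (hg.trans ((congrArg (fun z => z ^ m) e_b).trans (e_pow.symm.trans e_bp.symm)))
  have e2 := legPsi_injective hA M hqM hK' hq2 hϖ 𝒢t h𝒢t hg'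
  have e3 : ((⟨w, hwint⟩ : ↥(legW₁ M 𝒢t)) - ⟨bE ^ m, hbpint⟩) ∈ maximalIdeal ↥(legW₁ M 𝒢t) :=
    Ideal.Quotient.eq.1 e2
  refine ⟨bE, hbV, ?_⟩
  by_contra hge
  rw [not_lt] at hge
  obtain ⟨z, hz⟩ : ∃ z : ↥(legE ↥K' M), z = w - bE ^ m := ⟨_, rfl⟩
  rw [← hz] at hge
  have hzmem : z ∈ legWinf ↥(baseRing A K') ↥K' h2 M := by
    rw [hz]
    exact sub_mem hw (pow_mem hbV m)
  have hz1 : (legWinf ↥(baseRing A K') ↥K' h2 M).valuation z = 1 :=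
    le_antisymm ((ValuationSubring.valuation_le_one_iff _ _).2 hzmem) hge
  have hz0 : z ≠ 0 := by
    rintro h0
    rw [h0, map_zero] at hz1
    exact zero_ne_one hz1
  have hzinv : z⁻¹ ∈ legWinf ↥(baseRing A K') ↥K' h2 M := by
    rw [← ValuationSubring.valuation_le_one_iff, map_inv₀, hz1, inv_one]
  have hzi : IsIntegral ↥𝒢t z⁻¹ := (hint _).2 hzinv
  have hunit : IsUnit ((⟨w, hwint⟩ : ↥(legW₁ M 𝒢t)) - ⟨bE ^ m, hbpint⟩) := by
    refine IsUnit.of_mul_eq_one ⟨z⁻¹, hzi⟩ (Subtype.ext ?_)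
    show (w - bE ^ m) * z⁻¹ = 1
    rw [← hz]
    exact mul_inv_cancel₀ hz0
  exact (mem_maximalIdeal _).1 e3 hunit

end CaseOne

section Main

set_option maxHeartbeats 6400000 in
/-- **[HALF∞]** from [ORD-q] and [ROLD-q]. -/
theorem legMazInfQ_of (HO : LegMazOrdQ) (HR : LegRoldQ) : LegMazInfQ := by
  intro M _ q _ _ _ hq2 hqM p hp hp5 hpq A hA K₁ _ K' _ S a f₀ H ϖ hϖ h2
  classical
  have hq : q.Prime := Fact.out
  haveI : CharZero ↥(baseRing A K') := charZero_valuationSubring_of_algebraRat _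
  obtain ⟨x, y, hbez⟩ := exists_bezout_of_prime_of_not_dvd hq hqM
  letI := baseToComplex K'
  haveI : IsAlgClosed (ResidueField ↥(baseRing A K')) := H.base.isAlgClosed_residueField hA
  have hqϖ := natCast_mem_span_uniformizer_baseRing hA K' hϖ
  have hmodel : SSModelLeg ↥(baseRing A K') ↥K' ϖ h2 hbez hq hq2 :=
    ssModelLeg ↥(baseRing A K') ↥K' hϖ h2 hbez hq hq2 hqϖ
      (geoHyps_legE_baseRing hA M hqM H.base hq2 hϖ)
  haveI : FiniteDimensional ↥(↥K')⟮jqNModC ↥K' 2⟯ ↥(legE ↥K' (M * q)) :=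
    finite_legE_adjoin_j ↥K' (M * q)
  have h' := SSModelLeg.ssModel ↥(baseRing A K') ↥K' hmodel
  -- `q = ε ϖ ^ e₁`
  have hq0 : ((q : ℕ) : ↥(baseRing A K')) ≠ 0 := Nat.cast_ne_zero.mpr hq.ne_zero
  obtain ⟨e₁, ε, hqe⟩ := IsDiscreteValuationRing.eq_unit_mul_pow_irreducible hq0 hϖ
  have he₁ : 0 < e₁ := by
    rcases Nat.eq_zero_or_pos e₁ with h0 | h0
    · exfalso
      rw [h0, pow_zero, mul_one] at hqe
      have hu : IsUnit ((q : ℕ) : ↥(baseRing A K')) := hqe ▸ Units.isUnit _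
      obtain ⟨z, hz⟩ := Ideal.mem_span_singleton.mp hqϖ
      rw [hz] at hu
      exact hϖ.not_isUnit (isUnit_of_mul_isUnit_left hu)
    · exact h0
  -- the function on the host and its order along `W_∞`
  have hf : fullToLegE ↥K' (M * q) f₀ ≠ 0 :=
    (_root_.map_ne_zero (fullToLegE ↥K' (M * q))).mpr H.ne_zero
  obtain ⟨ainf, hfa⟩ := SSModel.exists_zpow_val_eq_one_inf h' he₁ hqe hf
  have hRN : ∀ r : ↥(baseRing A K'), algebraMap ↥(baseRing A K') ↥(legE ↥K' (M * q)) r =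
      algebraMap ↥K' ↥(legE ↥K' (M * q)) (algebraMap ↥(baseRing A K') ↥K' r) :=
    fun r => IsScalarTower.algebraMap_apply ↥(baseRing A K') ↥K' ↥(legE ↥K' (M * q)) r
  have hϖK : algebraMap ↥(baseRing A K') ↥K' ϖ ≠ 0 := by
    rw [Ne, map_eq_zero_iff _ (IsFractionRing.injective ↥(baseRing A K') ↥K')]
    exact hϖ.ne_zero
  obtain ⟨d, hd⟩ : ∃ d : ↥K', d = algebraMap ↥(baseRing A K') ↥K' ϖ ^ ainf := ⟨_, rfl⟩
  have hd0 : d ≠ 0 := hd ▸ zpow_ne_zero ainf hϖK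
  have hdE : algebraMap ↥K' ↥(legE ↥K' (M * q)) d =
      algebraMap ↥(baseRing A K') ↥(legE ↥K' (M * q)) ϖ ^ ainf := by
    rw [hd, map_zpow₀, ← hRN]
  -- the Gauss unit at the level of `F_{Mq}`
  obtain ⟨f₁, hf₁⟩ : ∃ f₁ : ↥(keyFq ↥K' (M * q)),
      f₁ = f₀ * (algebraMap ↥K' ↥(keyFq ↥K' (M * q)) d)⁻¹ := ⟨_, rfl⟩
  have hf₁E : fullToLegE ↥K' (M * q) f₁ = fullToLegE ↥K' (M * q) f₀ *
      (algebraMap ↥(baseRing A K') ↥(legE ↥K' (M * q)) ϖ ^ ainf)⁻¹ := by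
    rw [hf₁, map_mul, map_inv₀, AlgHom.commutes, hdE]
  have hf₁v : (keyFqWinf ↥(baseRing A K') ↥K' (M * q)).valuation f₁ = 1 := by
    have h1 := kp_comap_val_eq_one_iff (legWinf ↥(baseRing A K') ↥K' h2 (M * q))
      (fullToLegE ↥K' (M * q) : ↥(keyFq ↥K' (M * q)) →+* ↥(legE ↥K' (M * q)))
      (xport_legWinf_comap ↥(baseRing A K') ↥K' h2 (M * q)) f₁
    refine h1.mp ?_
    show (legWinf ↥(baseRing A K') ↥K' h2 (M * q)).valuation (fullToLegE ↥K' (M * q) f₁) = 1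
    rw [hf₁E]
    exact hfa
  have hf₁mem : f₁ ∈ keyFqWinf ↥(baseRing A K') ↥K' (M * q) := kp_mem_of_val_eq_one _ hf₁v
  obtain ⟨w₀, hw₀, hres⟩ := keyFqResInfP M q hqM A hA K' H.base f₁ hf₁mem
  -- on the host
  have hresE : (legWinf ↥(baseRing A K') ↥K' h2 (M * q)).valuation
      (fullToLegE ↥K' (M * q) f₀ *
        (algebraMap ↥(baseRing A K') ↥(legE ↥K' (M * q)) ϖ ^ ainf)⁻¹ -
        legHostA ↥K' M q (fullToLegE ↥K' M w₀)) < 1 := by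
    have h1 := (comap_val_lt_one_iff
      (fullToLegE ↥K' (M * q) : ↥(keyFq ↥K' (M * q)) →+* ↥(legE ↥K' (M * q)))
      (xport_legWinf_comap ↥(baseRing A K') ↥K' h2 (M * q)) (f₁ - keyFqA ↥K' M q w₀)).mpr hres
    have h2' : (fullToLegE ↥K' (M * q) : ↥(keyFq ↥K' (M * q)) →+* ↥(legE ↥K' (M * q)))
        (f₁ - keyFqA ↥K' M q w₀) = fullToLegE ↥K' (M * q) f₀ *
        (algebraMap ↥(baseRing A K') ↥(legE ↥K' (M * q)) ϖ ^ ainf)⁻¹ -
        legHostA ↥K' M q (fullToLegE ↥K' M w₀) := by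
      show fullToLegE ↥K' (M * q) (f₁ - keyFqA ↥K' M q w₀) = _
      rw [map_sub, hf₁E, xport_fullToLegE_keyFqA]
    rwa [h2'] at h1
  have hAWv : (legWinf ↥(baseRing A K') ↥K' h2 (M * q)).valuation
      (legHostA ↥K' M q (fullToLegE ↥K' M w₀)) = 1 := kp_val_eq_one_of_sub_lt _ hfa hresE
  have hWv : (legWinf ↥(baseRing A K') ↥K' h2 M).valuation (fullToLegE ↥K' M w₀) = 1 :=
    (kp_comap_val_eq_one_iff (legWinf ↥(baseRing A K') ↥K' h2 (M * q))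
      (legHostA ↥K' M q : ↥(legE ↥K' M) →+* ↥(legE ↥K' (M * q))) h'.comap_A_inf
      (fullToLegE ↥K' M w₀)).mp hAWv
  have hWmem : fullToLegE ↥K' M w₀ ∈ legWinf ↥(baseRing A K') ↥K' h2 M :=
    kp_mem_of_val_eq_one _ hWv
  have hBC : legBC M K' (fullToLegE ↥K' M w₀) = fullToLegE Ω M (keyFqBC M K' w₀) :=
    bcdeg_legBC_fullToLegE M K' w₀
  have hWE' : legBC M K' (fullToLegE ↥K' M w₀) ∈ legWE hA M hq2 :=
    (legBC_mem_legWE_iff hA M K' hq2 _).2 hWmem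
  have hWE : fullToLegE Ω M (keyFqBC M K' w₀) ∈ legWE hA M hq2 := hBC ▸ hWE'
  by_cases hcase : ∃ g : legEt hA M hq2,
      legρ hA M hq2 ⟨fullToLegE Ω M (keyFqBC M K' w₀), hWE⟩ = g ^ p
  · -- Case 1
    left
    obtain ⟨g, hg⟩ := hcase
    have hg' : legρ hA M hq2 ⟨legBC M K' (fullToLegE ↥K' M w₀), hWE'⟩ = g ^ p := by
      rw [← hg]
      congr 1
      exact Subtype.ext hBC
    obtain ⟨b, hb, hbv⟩ := exists_powQ_approx_of_legρ_eq_pow hA M hqM H.base hq2 h2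
      (fullToLegE ↥K' M w₀) hWmem hWE' p g hg'
    have hAb : (legWinf ↥(baseRing A K') ↥K' h2 (M * q)).valuation
        (legHostA ↥K' M q (fullToLegE ↥K' M w₀) - legHostA ↥K' M q b ^ p) < 1 := by
      have h1 := (comap_val_lt_one_iff
        (legHostA ↥K' M q : ↥(legE ↥K' M) →+* ↥(legE ↥K' (M * q))) h'.comap_A_inf
        (fullToLegE ↥K' M w₀ - b ^ p)).mpr hbv
      have h2' : (legHostA ↥K' M q : ↥(legE ↥K' M) →+* ↥(legE ↥K' (M * q)))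
          (fullToLegE ↥K' M w₀ - b ^ p) =
          legHostA ↥K' M q (fullToLegE ↥K' M w₀) - legHostA ↥K' M q b ^ p := by
        show legHostA ↥K' M q (fullToLegE ↥K' M w₀ - b ^ p) = _
        rw [map_sub, map_pow]
      rwa [h2'] at h1
    have hfin := kp_val_sub_lt_trans _ hresE hAb
    have hbp1 : (legWinf ↥(baseRing A K') ↥K' h2 M).valuation (b ^ p) = 1 :=
      kp_val_eq_one_of_sub_lt _ hWv hbv
    have hb1 : (legWinf ↥(baseRing A K') ↥K' h2 M).valuation b = 1 := by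
      rw [map_pow] at hbp1
      exact (pow_eq_one_iff_of_nonneg zero_le hp.ne_zero).mp hbp1
    exact ⟨ainf, b, hb1, hfin⟩
  · -- Case 2
    right
    obtain ⟨ρ, res, hres', hρ, hρR, hρapp⟩ := legRhoBaseP M q hq2 hqM A hA K' H.base h2
    refine HR M q hq2 hqM p hp hp5 hpq A hA S a
      (fun ℓ hℓ hℓM => H.bad ℓ hℓ (dvd_mul_of_dvd_left hℓM q))
      (H.bad q hq (dvd_mul_left q M)) H.pS H.twoS (keyFqBC M K' w₀) hWE hcase
      (fun Q => HO M q hq2 hqM p hp hp5 hpq A hA K₁ K' S a f₀ H ϖ hϖ h2 ainf w₀ hWv hresE hWE Q)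
      ?_
    intro ℓ hℓ hℓ2 hℓS
    haveI : NeZero ℓ := ⟨hℓ.ne_zero⟩
    haveI : NeZero (M * ℓ) := ⟨Nat.mul_ne_zero (NeZero.ne M) hℓ.ne_zero⟩
    haveI : NeZero (M * q * ℓ) := ⟨Nat.mul_ne_zero (NeZero.ne (M * q)) hℓ.ne_zero⟩
    have hℓMq : ¬ ℓ ∣ M * q := fun h => hℓS (H.bad ℓ hℓ h)
    obtain ⟨cH, uH, hcH, huH, hrel⟩ := H.hecke ℓ hℓ hℓS
    have hhost : legHeckeP ↥K' (M * q) ℓ hℓ hℓ2 (fullToLegE ↥K' (M * q) f₀) =
        algebraMap ↥K' ↥(legE ↥K' (M * q)) cH * fullToLegE ↥K' (M * q) f₀ ^ (a ℓ) *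
          fullToLegE ↥K' (M * q) uH ^ p := by
      rw [legHeckeP_fullToLegE_base (M * q) ℓ hℓ hℓ2 hℓMq K' f₀, hrel, map_mul, map_mul,
        map_zpow₀, map_pow, AlgHom.commutes]
    obtain ⟨c, u, hc, hu, hT⟩ := legRedHeckeP M q hq hq2 hqM A hA K' H.base ϖ hϖ h2 ℓ hℓ hℓ2 hℓMq
      ρ hρapp (a ℓ) p (fullToLegE ↥K' (M * q) f₀) hf
      ⟨cH, fullToLegE ↥K' (M * q) uH, hcH,
        (_root_.map_ne_zero (fullToLegE ↥K' (M * q))).mpr huH, hhost⟩ ainf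
      (fullToLegE ↥K' M w₀) hWmem hfa hresE
    have hρw : ρ ⟨fullToLegE ↥K' M w₀, hWmem⟩ =
        legρ hA M hq2 ⟨fullToLegE Ω M (keyFqBC M K' w₀), hWE⟩ := by
      rw [hρapp _ hWmem hWE']
      congr 1
      exact Subtype.ext hBC
    rw [hρw] at hT
    exact ⟨c, u, hc, hu, hT⟩

end Main

end Fermat.Agent.RB
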