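/-
RB — helper7 — **[NEW-TORIC] [BASE]-NEW, abstract part**: the normalisation to a unit along both
sheets, in a field with two valuation subrings.

`F ϖ ^ (-a∞)` a unit along `W_∞`, `F ϖ ^ (-a₀)` a unit along `W_0`, `e (a₀ - a∞) = r k`, `U` a unit
along `W_∞` with `U ϖ ^ (-c)` a unit along `W_0`, `n = c t = 1 + r s`:
`G = ϖ ^ (-n e a∞) F ^ e (F ^ (e s) U ^ (-t k)) ^ r` is a unit along both sheets; moreover
`G = (F ϖ ^ (-a∞)) ^ (e n) (U ^ (-t k)) ^ r`.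
-/
import Mathlib

set_option autoImplicit false
set_option linter.unusedSectionVars false
set_option linter.unusedVariables false
set_option linter.style.haveILetI false

namespace Fermat.Agent.RB

section Abstract

variable {E : Type*} [Field E]

/-- the normalised function in the `W_∞`-adapted form. -/
theorem newNorm_eq_inf {ϖ U F : E} (hϖ : ϖ ≠ 0) {r n s t e : ℕ} (hn : n = 1 + r * s)
    (ainf k : ℤ) :
    (ϖ ^ ((n : ℤ) * ((e : ℤ) * ainf)))⁻¹ * F ^ e * (F ^ (e * s) * U ^ (-((t : ℤ) * k))) ^ r =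
      (F * (ϖ ^ ainf)⁻¹) ^ (e * n) * (U ^ (-((t : ℤ) * k))) ^ r := by
  set u : E := U ^ (-((t : ℤ) * k)) with hu
  set A : E := ϖ ^ ainf with hA
  have e1 : ϖ ^ ((n : ℤ) * ((e : ℤ) * ainf)) = A ^ (e * n) := by
    rw [hA, ← zpow_natCast (ϖ ^ ainf) (e * n), ← zpow_mul]
    congr 1
    push_cast
    ring
  have hen : e * n = e + e * s * r := by rw [hn]; ring
  rw [e1, mul_pow, mul_pow, inv_pow, ← pow_mul, hen, pow_add]
  ring

/-- the normalised function in the `W_0`-adapted form. -/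
theorem newNorm_eq_zero {ϖ U F : E} (hϖ : ϖ ≠ 0) {c r n s t e : ℕ} (hn : n = 1 + r * s)
    (hnt : n = c * t) {ainf a0 k : ℤ} (hk : (e : ℤ) * (a0 - ainf) = r * k) :
    (ϖ ^ ((n : ℤ) * ((e : ℤ) * ainf)))⁻¹ * F ^ e * (F ^ (e * s) * U ^ (-((t : ℤ) * k))) ^ r =
      (F * (ϖ ^ a0)⁻¹) ^ (e * n) * ((U * (ϖ ^ c)⁻¹) ^ (-((t : ℤ) * k))) ^ r := by
  rw [newNorm_eq_inf hϖ hn ainf k]
  set u : E := U ^ (-((t : ℤ) * k)) with hu
  -- `(U ϖ^(-c))^(-t k) = u ϖ^(c t k)`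
  have e3 : (U * (ϖ ^ c)⁻¹) ^ (-((t : ℤ) * k)) = u * ϖ ^ ((n : ℤ) * k) := by
    rw [mul_zpow, inv_zpow, zpow_neg (ϖ ^ c), inv_inv, ← zpow_natCast ϖ c, ← zpow_mul,
      ← mul_assoc]
    have : ((c : ℤ) * (t : ℤ)) = (n : ℤ) := by rw [hnt]; push_cast; ring
    rw [this]
  -- `ϖ^(a0 e n) = ϖ^(ainf e n) ϖ^(n r k)`
  have e4 : (ϖ ^ a0) ^ (e * n) = (ϖ ^ ainf) ^ (e * n) * (ϖ ^ ((n : ℤ) * k)) ^ r := by
    rw [← zpow_natCast (ϖ ^ a0), ← zpow_mul, ← zpow_natCast (ϖ ^ ainf), ← zpow_mul,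
      ← zpow_natCast (ϖ ^ ((n : ℤ) * k)), ← zpow_mul, ← zpow_add₀ hϖ]
    congr 1
    push_cast
    have h1 : a0 * ((e : ℤ) * n) = (n : ℤ) * ((e : ℤ) * (a0 - ainf)) + ainf * ((e : ℤ) * n) := by
      ring
    rw [h1, hk]
    ring
  rw [e3, mul_pow, mul_pow, inv_pow, inv_pow, e4, mul_pow u, mul_inv]
  have hB : (ϖ ^ ((n : ℤ) * k)) ^ r ≠ 0 := pow_ne_zero _ (zpow_ne_zero _ hϖ)
  field_simp

/-- **the normalised function is a unit along both sheets.** -/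
theorem newNorm_val (Winf W0 : ValuationSubring E) {ϖ U F : E} (hϖ : ϖ ≠ 0) {c r n s t e : ℕ}
    (hn : n = 1 + r * s) (hnt : n = c * t) {ainf a0 k : ℤ}
    (hk : (e : ℤ) * (a0 - ainf) = r * k)
    (hUinf : Winf.valuation U = 1) (hU0 : W0.valuation (U * (ϖ ^ c)⁻¹) = 1)
    (hFinf : Winf.valuation (F * (ϖ ^ ainf)⁻¹) = 1) (hF0 : W0.valuation (F * (ϖ ^ a0)⁻¹) = 1) :
    Winf.valuation ((ϖ ^ ((n : ℤ) * ((e : ℤ) * ainf)))⁻¹ * F ^ e *
        (F ^ (e * s) * U ^ (-((t : ℤ) * k))) ^ r) = 1 ∧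
      W0.valuation ((ϖ ^ ((n : ℤ) * ((e : ℤ) * ainf)))⁻¹ * F ^ e *
        (F ^ (e * s) * U ^ (-((t : ℤ) * k))) ^ r) = 1 := by
  constructor
  · rw [newNorm_eq_inf hϖ hn ainf k, map_mul, map_pow, map_pow, map_zpow₀, hFinf, hUinf, one_pow,
      one_zpow, one_pow, one_mul]
  · rw [newNorm_eq_zero hϖ hn hnt hk, map_mul, map_pow, map_pow, map_zpow₀, hF0, hU0, one_pow,
      one_zpow, one_pow, one_mul]


/-- **the Atkin–Lehner transform of the normalised function**: if `W U = Qc ^ 12 U⁻¹`, then `W` of the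
normalised function of `(F, a∞, k)` is the normalised function of `(W F, a₀, -k)`. -/
theorem newNorm_AL {Qc U Wf : E} (hQ : Qc ≠ 0) {r n s t e : ℕ} (hnt : n = 12 * 1 * t)
    {ainf a0 k : ℤ} (hk : (e : ℤ) * (a0 - ainf) = r * k) :
    (Qc ^ ((n : ℤ) * ((e : ℤ) * ainf)))⁻¹ * Wf ^ e *
        (Wf ^ (e * s) * (Qc ^ 12 * U⁻¹) ^ (-((t : ℤ) * k))) ^ r =
      (Qc ^ ((n : ℤ) * ((e : ℤ) * a0)))⁻¹ * Wf ^ e *
        (Wf ^ (e * s) * U ^ (-((t : ℤ) * -k))) ^ r := by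
  have e1 : (Qc ^ 12 * U⁻¹) ^ (-((t : ℤ) * k)) =
      (Qc ^ ((n : ℤ) * k))⁻¹ * U ^ (-((t : ℤ) * -k)) := by
    rw [mul_zpow, inv_zpow', ← zpow_natCast Qc 12, ← zpow_mul, ← zpow_neg]
    congr 2
    · rw [hnt]; push_cast; ring
    · ring
  have e2 : Qc ^ ((n : ℤ) * ((e : ℤ) * a0)) =
      Qc ^ ((n : ℤ) * ((e : ℤ) * ainf)) * (Qc ^ ((n : ℤ) * k)) ^ r := by
    rw [← zpow_natCast (Qc ^ ((n : ℤ) * k)), ← zpow_mul, ← zpow_add₀ hQ]
    congr 1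
    linear_combination (n : ℤ) * hk
  rw [e1, e2, mul_pow, mul_pow, mul_pow, inv_pow, mul_inv]
  ring

/-- **the norm of the normalised function is a constant times an `r`-th power.** -/
theorem exists_norm_newNorm {K F L : Type*} [Field K] [Field F] [Field L] [Algebra K F]
    [Algebra K L] (φ : F →ₐ[K] L) {f₀ : L} {r : ℕ}
    (h : ∃ (c : K) (h : F), c ≠ 0 ∧ h ≠ 0 ∧
      (letI := φ.toRingHom.toAlgebra; Algebra.norm F f₀) = algebraMap K F c * h ^ r)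
    {c₀ : K} (hc₀ : c₀ ≠ 0) (e : ℕ) {X : L} (hX : X ≠ 0) :
    ∃ (c : K) (h : F), c ≠ 0 ∧ h ≠ 0 ∧
      (letI := φ.toRingHom.toAlgebra
       Algebra.norm F (algebraMap K L c₀ * f₀ ^ e * X ^ r)) = algebraMap K F c * h ^ r := by
  letI := φ.toRingHom.toAlgebra
  obtain ⟨c, h, hc, hh, e1⟩ := h
  have hNX : Algebra.norm F X ≠ 0 := (IsUnit.map (Algebra.norm F) (isUnit_iff_ne_zero.mpr hX)).ne_zero
  refine ⟨c₀ ^ Module.finrank F L * c ^ e, h ^ e * Algebra.norm F X,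
    mul_ne_zero (pow_ne_zero _ hc₀) (pow_ne_zero _ hc), mul_ne_zero (pow_ne_zero _ hh) hNX, ?_⟩
  have e2 : algebraMap K L c₀ = algebraMap F L (algebraMap K F c₀) := (φ.commutes c₀).symm
  rw [map_mul, map_mul, map_pow, map_pow, e1, e2, Algebra.norm_algebraMap, map_mul, map_pow,
    map_pow]
  ring

end Abstract

end Fermat.Agent.RB
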