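/-
RB — helper7 — **[NEW-TORIC] [BASE]-NEW: `LegNewBaseQ ⇐ LegNewDictQ + LegNewDeltaQ + LegNewInfQ`**
(port of helper6's `legMazBaseQ_of`, exponent `r = p ^ k`, bounded powers of `p`).

Over the small base `K'` (`q` a uniformiser of `R' = A ∩ K'`): `F = fullToLegE f₀`, orders `a∞`, `a₀`
along the two sheets; (D2) `e (a₀ - a∞) = r k'`, `e = p ^ c₀`; with the node unit `U_q` and
`n = 12 t = 1 + r s` the function `G = q ^ (-n e a∞) f₀ ^ e (f₀ ^ (e s) U_q ^ (-t k')) ^ r` is a unit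
along both sheets (`newNorm_val`), its degeneracy norms are constants times `r`-th powers, and by
(D1) the reduction of `G` along `W_∞` has all orders divisible by `r`; [HALF∞]-NEW for `G` and for
`W_q G` (= the normalised function of `W_q f₀`) gives that `G ^ (p ^ c₁)` is toric; `c = c₀ + c₁`.
-/
import Mathlib
import Fermat.Agent.RB.NEWT_helper7_Lit
import Fermat.Agent.RB.NEWT_helper7_Lit2
import Fermat.Agent.RB.NEWT_helper7_Norm
import Fermat.Agent.RB.MAZ_helper6_BaseQ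
import Fermat.Agent.RB.MAZ_helper6_InfQ
import Fermat.Agent.RB.MAZ_helper6_DictQ
import Fermat.Agent.SS.UNODEHOST_helper6_AL
import Fermat.Agent.S35.XPORT_helper7_Main

set_option autoImplicit false
set_option linter.unusedSectionVars false
set_option linter.unusedVariables false
set_option linter.style.haveILetI false
set_option synthInstance.maxHeartbeats 400000

open HahnSeries IntermediateField AlgebraicCurve ModularCurve IsLocalRing

namespace Fermat.Agent.RB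

open Fermat.Agent.JA Fermat.Agent.FF Fermat.Agent.SS Fermat.Agent.S35 Fermat.Agent.S36
  Fermat.Agent.MP Fermat.Agent.NP Fermat.Agent.GR Fermat.Agent.FG Fermat.Agent.X0N
  Fermat.Agent.Igusa Fermat.Agent.MW Fermat.Agent.MW.NAdic

open scoped Fermat.Agent.JA.Host

/-- `Ω = AlgebraicClosure ℚ`. -/
local notation "Ω" => AlgebraicClosure ℚ

/-- the absolute Galois group. -/
local notation "GQ" => (AlgebraicClosure ℚ ≃ₐ[ℚ] AlgebraicClosure ℚ)

section Arith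

/-- `r ∣ e n nf - r z` from (D1) and (D2). -/
theorem dvd_redOrd_of_dict {r e n : ℕ} (hr12 : IsCoprime (12 : ℤ) (r : ℤ)) {δ k nf nU z : ℤ}
    (hk : (e : ℤ) * δ = r * k)
    (h : (r : ℤ) ∣ 12 * nf - δ * nU ∨ (r : ℤ) ∣ nf) :
    (r : ℤ) ∣ (e : ℤ) * n * nf - r * z := by
  refine dvd_sub ?_ (dvd_mul_right _ _)
  rcases h with h | h
  · -- `r ∣ 12 e nf`
    have h1 : (r : ℤ) ∣ 12 * ((e : ℤ) * nf) := by
      have h2 : (r : ℤ) ∣ (e : ℤ) * (12 * nf - δ * nU) := Dvd.dvd.mul_left h _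
      have h3 : (e : ℤ) * (12 * nf - δ * nU) = 12 * ((e : ℤ) * nf) - r * (k * nU) := by
        have : (e : ℤ) * (12 * nf - δ * nU) = 12 * ((e : ℤ) * nf) - ((e : ℤ) * δ) * nU := by ring
        rw [this, hk]
        ring
      rw [h3] at h2
      have h4 := dvd_add h2 (dvd_mul_right (r : ℤ) (k * nU))
      rwa [sub_add_cancel] at h4
    have h5 : (r : ℤ) ∣ (e : ℤ) * nf := hr12.symm.dvd_of_dvd_mul_left h1
    have : (e : ℤ) * n * nf = (n : ℤ) * ((e : ℤ) * nf) := by ring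
    rw [this]
    exact Dvd.dvd.mul_left h5 _
  · exact Dvd.dvd.mul_left h _

/-- `12` is prime to `p ^ k` for `p ≥ 5`. -/
theorem isCoprime_twelve_pow {p : ℕ} (hp : p.Prime) (hp5 : 5 ≤ p) (k : ℕ) :
    IsCoprime (12 : ℤ) ((p ^ k : ℕ) : ℤ) := by
  have h1 : Nat.Coprime 12 p := by
    rw [Nat.coprime_comm, Nat.Prime.coprime_iff_not_dvd hp]
    intro h
    have h12 : (12 : ℕ) = 2 ^ 2 * 3 := by norm_num
    rw [h12] at h
    rcases (Nat.Prime.dvd_mul hp).mp h with h1 | h1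
    · have := (Nat.prime_dvd_prime_iff_eq hp Nat.prime_two).mp (hp.dvd_of_dvd_pow h1)
      omega
    · have := (Nat.prime_dvd_prime_iff_eq hp Nat.prime_three).mp h1
      omega
  have h2 : Nat.Coprime 12 (p ^ k) := Nat.Coprime.pow_right k h1
  have h3 := Nat.isCoprime_iff_coprime.mpr h2
  exact_mod_cast h3

/-- `n = 12 t = 1 + r s` for `r` prime to `12`. -/
theorem exists_twelve_mul_eq {r : ℕ} (hr : Nat.Coprime 12 r) :
    ∃ n s t : ℕ, n = 1 + r * s ∧ n = 12 * 1 * t := by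
  rcases Nat.lt_or_ge 1 r with h1 | h1
  · obtain ⟨t, -, ht⟩ := Nat.exists_mul_mod_eq_one_of_coprime hr h1
    refine ⟨12 * 1 * t, (12 * 1 * t) / r, t, ?_, rfl⟩
    have h2 := Nat.div_add_mod (12 * 1 * t) r
    have h3 : (12 * 1 * t) % r = 1 := by rw [mul_one]; exact ht
    omega
  · rcases Nat.eq_zero_or_pos r with h0 | h0
    · subst h0
      simp at hr
    · have : r = 1 := by omega
      subst this
      exact ⟨12, 11, 1, by norm_num, by norm_num⟩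

end Arith

section Package

variable {M : ℕ} [NeZero M] {q : ℕ} [NeZero q] [NeZero (M * q)]

/-- **the normalised function** `q ^ (-n e a∞) f₀ ^ e (f₀ ^ (e s) U_q ^ (-t k')) ^ r`. -/
noncomputable def newNormFn (K' : IntermediateField ℚ Ω) (f₀ : ↥(keyFq ↥K' (M * q)))
    (r e n s t : ℕ) (ainf k' : ℤ) : ↥(keyFq ↥K' (M * q)) :=
  algebraMap ↥K' ↥(keyFq ↥K' (M * q)) (((q : ℕ) : ↥K') ^ ((n : ℤ) * ((e : ℤ) * ainf)))⁻¹ *
    f₀ ^ e *
    (f₀ ^ (e * s) * modUnit ↥K' (M * q) q (Dvd.intro_left M rfl) ^ (-((t : ℤ) * k'))) ^ r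

variable {A : ValuationSubring Ω}

/-- the image of the normalised function on the Legendre host. -/
theorem fullToLegE_newNormFn (K' : IntermediateField ℚ Ω) (f₀ : ↥(keyFq ↥K' (M * q)))
    (r e n s t : ℕ) (ainf k' : ℤ) :
    fullToLegE ↥K' (M * q) (newNormFn K' f₀ r e n s t ainf k') =
      (algebraMap ↥(baseRing A K') ↥(legE ↥K' (M * q)) ((q : ℕ) : ↥(baseRing A K')) ^
          ((n : ℤ) * ((e : ℤ) * ainf)))⁻¹ *
        fullToLegE ↥K' (M * q) f₀ ^ e *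
        (fullToLegE ↥K' (M * q) f₀ ^ (e * s) *
          fullToLegE ↥K' (M * q) (modUnit ↥K' (M * q) q (Dvd.intro_left M rfl)) ^
            (-((t : ℤ) * k'))) ^ r := by
  have hϖEK : algebraMap ↥K' ↥(legE ↥K' (M * q)) ((q : ℕ) : ↥K') =
      algebraMap ↥(baseRing A K') ↥(legE ↥K' (M * q)) ((q : ℕ) : ↥(baseRing A K')) := by
    rw [map_natCast, map_natCast]
  rw [newNormFn, map_mul, map_mul, map_pow, AlgHom.commutes, map_pow, map_mul, map_pow,
    map_zpow₀, map_inv₀, map_zpow₀, hϖEK]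

end Package

section PackageMain

variable {M : ℕ} [NeZero M] {q : ℕ} [NeZero q] [NeZero (M * q)] [Fact q.Prime]
  {A : ValuationSubring Ω}

set_option maxHeartbeats 6400000 in
/-- **the normalised function is a unit along both sheets and its reductions along `W_∞` have all
orders divisible by `p ^ k`** (from (D1)). -/
theorem newNormFn_package (hA : A.LiesOverPrime q) (hq2 : q ≠ 2) (hqM : ¬ q ∣ M) {p : ℕ}
    (hp : p.Prime) (hp5 : 5 ≤ p) (hpq : p ≠ q) (HD1 : LegNewDictQ) {k : ℕ}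
    {K₁ : IntermediateField ℚ Ω} [Normal ℚ ↥K₁] {K' : IntermediateField ℚ Ω}
    [IsDiscreteValuationRing ↥(baseRing A K')] {f₀ : ↥(keyFq ↥K' (M * q))}
    (H : LegNewHyp q (p ^ k) M A K₁ K' f₀) (h2 : IsUnit (2 : ↥(baseRing A K'))) {x y : ℤ}
    (hbez : (q : ℤ) * x + M * y = 1) {e n s t : ℕ} (hn : n = 1 + p ^ k * s)
    (hnt : n = 12 * 1 * t) {ainf a0 k' : ℤ}
    (hk : (e : ℤ) * (a0 - ainf) = ((p ^ k : ℕ) : ℤ) * k')
    (hfinf : (legWinf ↥(baseRing A K') ↥K' h2 (M * q)).valuation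
      (fullToLegE ↥K' (M * q) f₀ *
        (algebraMap ↥(baseRing A K') ↥(legE ↥K' (M * q)) ((q : ℕ) : ↥(baseRing A K')) ^
          ainf)⁻¹) = 1)
    (hf0 : (letI := baseToComplex K'
      legW0 ↥(baseRing A K') ↥K' hbez (Fact.out : q.Prime)).valuation
      (fullToLegE ↥K' (M * q) f₀ *
        (algebraMap ↥(baseRing A K') ↥(legE ↥K' (M * q)) ((q : ℕ) : ↥(baseRing A K')) ^
          a0)⁻¹) = 1) :
    (legWinf ↥(baseRing A K') ↥K' h2 (M * q)).valuation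
        (fullToLegE ↥K' (M * q) (newNormFn K' f₀ (p ^ k) e n s t ainf k')) = 1 ∧
      (letI := baseToComplex K'
       legW0 ↥(baseRing A K') ↥K' hbez (Fact.out : q.Prime)).valuation
        (fullToLegE ↥K' (M * q) (newNormFn K' f₀ (p ^ k) e n s t ainf k')) = 1 ∧
      ∀ w' : ↥(keyFq ↥K' M),
        (legWinf ↥(baseRing A K') ↥K' h2 M).valuation (fullToLegE ↥K' M w') = 1 →
        (legWinf ↥(baseRing A K') ↥K' h2 (M * q)).valuation
          (fullToLegE ↥K' (M * q) (newNormFn K' f₀ (p ^ k) e n s t ainf k') -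
            legHostA ↥K' M q (fullToLegE ↥K' M w')) < 1 →
        ∀ (hW : fullToLegE Ω M (keyFqBC M K' w') ∈ legWE hA M hq2)
          (Q : Place (ResidueField ↥A) (legEt hA M hq2)),
          ((p ^ k : ℕ) : ℤ) ∣
            Q.ord (legρ hA M hq2 ⟨fullToLegE Ω M (keyFqBC M K' w'), hW⟩) := by
  classical
  have hq : q.Prime := Fact.out
  haveI : CharZero ↥(baseRing A K') := charZero_valuationSubring_of_algebraRat _
  letI := baseToComplex K'
  have hK' : IsBase q K' := H.base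
  haveI : IsAlgClosed (ResidueField ↥(baseRing A K')) := hK'.isAlgClosed_residueField hA
  have hϖ : Irreducible ((q : ℕ) : ↥(baseRing A K')) := H.unram
  set ϖ : ↥(baseRing A K') := ((q : ℕ) : ↥(baseRing A K')) with hϖdef
  have hqϖ : ((q : ℕ) : ↥(baseRing A K')) ∈ Ideal.span {ϖ} := Ideal.mem_span_singleton_self _
  have hmodel : SSModelLeg ↥(baseRing A K') ↥K' ϖ h2 hbez hq hq2 :=
    ssModelLeg ↥(baseRing A K') ↥K' hϖ h2 hbez hq hq2 hqϖ
      (geoHyps_legE_baseRing hA M hqM hK' hq2 hϖ)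
  haveI : FiniteDimensional ↥(↥K')⟮jqNModC ↥K' 2⟯ ↥(legE ↥K' (M * q)) :=
    finite_legE_adjoin_j ↥K' (M * q)
  have h' := SSModelLeg.ssModel ↥(baseRing A K') ↥K' hmodel
  -- notation
  set F : ↥(legE ↥K' (M * q)) := fullToLegE ↥K' (M * q) f₀ with hFdef
  have hF : F ≠ 0 := (_root_.map_ne_zero (fullToLegE ↥K' (M * q))).mpr H.ne_zero
  set ϖE : ↥(legE ↥K' (M * q)) := algebraMap ↥(baseRing A K') ↥(legE ↥K' (M * q)) ϖ with hϖEdef
  have hϖE0 : ϖE ≠ 0 := by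
    rw [hϖEdef, hϖdef, map_natCast]
    exact Nat.cast_ne_zero.mpr hq.ne_zero
  set Winf : ValuationSubring ↥(legE ↥K' (M * q)) :=
    legWinf ↥(baseRing A K') ↥K' h2 (M * q) with hWinfdef
  set W0 : ValuationSubring ↥(legE ↥K' (M * q)) :=
    legW0 ↥(baseRing A K') ↥K' hbez hq with hW0def
  set VM : ValuationSubring ↥(legE ↥K' M) := legWinf ↥(baseRing A K') ↥K' h2 M with hVMdef
  set UE : ↥(legE ↥K' (M * q)) :=
    fullToLegE ↥K' (M * q) (modUnit ↥K' (M * q) q (Dvd.intro_left M rfl)) with hUEdef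
  have hUnode := ssModelLeg_nodeUnit ↥(baseRing A K') ↥K' (M := M) (e := 1) (u := 1) hϖ h2 hbez
    hq le_rfl (by rw [Units.val_one, one_mul, pow_one])
  have vU : Winf.valuation UE = 1 :=
    val_eq_one_of_mem_of_inv_mem Winf hUnode.ne_zero hUnode.mem_inf hUnode.inv_mem_inf
  have vV : W0.valuation (UE * (ϖE ^ (12 * 1))⁻¹) = 1 :=
    val_eq_one_of_mem_of_inv_mem W0
      (mul_ne_zero hUnode.ne_zero (inv_ne_zero (pow_ne_zero _ hϖE0))) hUnode.mem_zero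
      hUnode.inv_mem_zero
  set G : ↥(legE ↥K' (M * q)) :=
    fullToLegE ↥K' (M * q) (newNormFn K' f₀ (p ^ k) e n s t ainf k') with hGdef
  have hGeq : G = (ϖE ^ ((n : ℤ) * ((e : ℤ) * ainf)))⁻¹ * F ^ e *
      (F ^ (e * s) * UE ^ (-((t : ℤ) * k'))) ^ (p ^ k) :=
    fullToLegE_newNormFn (A := A) K' f₀ (p ^ k) e n s t ainf k'
  have hval := newNorm_val Winf W0 (U := UE) (F := F) hϖE0 hn hnt hk vU vV hfinf hf0
  rw [← hGeq] at hval
  refine ⟨hval.1, hval.2, ?_⟩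
  intro w' hw' hlink' hW' Q
  -- the reduction maps
  obtain ⟨ρ, res, hres, hρ, hρR, hρapp⟩ := legRhoBaseP M q hq2 hqM A hA K' hK' h2
  obtain ⟨ι, hker, hιA, hιR⟩ := SSModel.exists_redInf h' ρ hρ res hρR
  have hπ1 := SSModel.valuation_pi_inf_lt_one h' hϖ
  have hcomapA := legWinf_comap_legHostA_gen (A := A) M q K' h2
  -- the reductions of `F ϖ ^ (-a∞)` and of `U`
  have hRN : ∀ r : ↥(baseRing A K'), algebraMap ↥(baseRing A K') ↥(legE ↥K' (M * q)) r =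
      algebraMap ↥K' ↥(legE ↥K' (M * q)) (algebraMap ↥(baseRing A K') ↥K' r) :=
    fun r => IsScalarTower.algebraMap_apply ↥(baseRing A K') ↥K' ↥(legE ↥K' (M * q)) r
  have hϖK : algebraMap ↥(baseRing A K') ↥K' ϖ ≠ 0 := by
    rw [Ne, map_eq_zero_iff _ (IsFractionRing.injective ↥(baseRing A K') ↥K')]
    exact hϖ.ne_zero
  obtain ⟨d, hd⟩ : ∃ d : ↥K', d = algebraMap ↥(baseRing A K') ↥K' ϖ ^ ainf := ⟨_, rfl⟩
  have hdE : algebraMap ↥K' ↥(legE ↥K' (M * q)) d = ϖE ^ ainf := by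
    rw [hd, map_zpow₀, ← hRN]
  obtain ⟨f₁, hf₁⟩ : ∃ f₁ : ↥(keyFq ↥K' (M * q)),
      f₁ = f₀ * (algebraMap ↥K' ↥(keyFq ↥K' (M * q)) d)⁻¹ := ⟨_, rfl⟩
  have hf₁E : fullToLegE ↥K' (M * q) f₁ = F * (ϖE ^ ainf)⁻¹ := by
    rw [hf₁, map_mul, map_inv₀, AlgHom.commutes, hdE]
  have hxport := xport_legWinf_comap ↥(baseRing A K') ↥K' h2 (M * q)
  have hf₁v : (keyFqWinf ↥(baseRing A K') ↥K' (M * q)).valuation f₁ = 1 := by
    refine (kp_comap_val_eq_one_iff Winf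
      (fullToLegE ↥K' (M * q) : ↥(keyFq ↥K' (M * q)) →+* ↥(legE ↥K' (M * q))) hxport f₁).mp ?_
    show Winf.valuation (fullToLegE ↥K' (M * q) f₁) = 1
    rw [hf₁E]
    exact hfinf
  obtain ⟨w₀, -, hres₀⟩ := keyFqResInfP M q hqM A hA K' hK' f₁ (kp_mem_of_val_eq_one _ hf₁v)
  have hUv : (keyFqWinf ↥(baseRing A K') ↥K' (M * q)).valuation
      (modUnit ↥K' (M * q) q (Dvd.intro_left M rfl)) = 1 :=
    (kp_comap_val_eq_one_iff Winf
      (fullToLegE ↥K' (M * q) : ↥(keyFq ↥K' (M * q)) →+* ↥(legE ↥K' (M * q))) hxport _).mp vU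
  obtain ⟨wU, -, hresU⟩ := keyFqResInfP M q hqM A hA K' hK' _ (kp_mem_of_val_eq_one _ hUv)
  -- on the host
  have tohost : ∀ (g : ↥(keyFq ↥K' (M * q))) (w : ↥(keyFq ↥K' M)),
      (keyFqWinf ↥(baseRing A K') ↥K' (M * q)).valuation (g - keyFqA ↥K' M q w) < 1 →
      Winf.valuation (fullToLegE ↥K' (M * q) g - legHostA ↥K' M q (fullToLegE ↥K' M w)) < 1 := by
    intro g w hgw
    have h1 := (comap_val_lt_one_iff
      (fullToLegE ↥K' (M * q) : ↥(keyFq ↥K' (M * q)) →+* ↥(legE ↥K' (M * q))) hxport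
      (g - keyFqA ↥K' M q w)).mpr hgw
    have h2' : (fullToLegE ↥K' (M * q) : ↥(keyFq ↥K' (M * q)) →+* ↥(legE ↥K' (M * q)))
        (g - keyFqA ↥K' M q w) =
        fullToLegE ↥K' (M * q) g - legHostA ↥K' M q (fullToLegE ↥K' M w) := by
      show fullToLegE ↥K' (M * q) (g - keyFqA ↥K' M q w) = _
      rw [map_sub, xport_fullToLegE_keyFqA]
    rwa [h2'] at h1
  have hlink₀ : Winf.valuation (F * (ϖE ^ ainf)⁻¹ - legHostA ↥K' M q (fullToLegE ↥K' M w₀)) < 1 := by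
    have := tohost f₁ w₀ hres₀
    rwa [hf₁E] at this
  have hlinkU : Winf.valuation (UE - legHostA ↥K' M q (fullToLegE ↥K' M wU)) < 1 :=
    tohost _ wU hresU
  have unitV : ∀ (z : ↥(legE ↥K' (M * q))) (w : ↥(keyFq ↥K' M)), Winf.valuation z = 1 →
      Winf.valuation (z - legHostA ↥K' M q (fullToLegE ↥K' M w)) < 1 →
      VM.valuation (fullToLegE ↥K' M w) = 1 := by
    intro z w hz hzw
    have h1 : Winf.valuation (legHostA ↥K' M q (fullToLegE ↥K' M w)) = 1 :=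
      kp_val_eq_one_of_sub_lt _ hz hzw
    exact (kp_comap_val_eq_one_iff Winf (legHostA ↥K' M q).toRingHom hcomapA
      (fullToLegE ↥K' M w)).mp h1
  have hw₀ : VM.valuation (fullToLegE ↥K' M w₀) = 1 := unitV _ w₀ hfinf hlink₀
  have hwU : VM.valuation (fullToLegE ↥K' M wU) = 1 := unitV _ wU vU hlinkU
  have memV : ∀ w : ↥(keyFq ↥K' M), VM.valuation (fullToLegE ↥K' M w) = 1 →
      fullToLegE ↥K' M w ∈ VM := fun w hw => kp_mem_of_val_eq_one _ hw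
  have hBC : ∀ w : ↥(keyFq ↥K' M),
      legBC M K' (fullToLegE ↥K' M w) = fullToLegE Ω M (keyFqBC M K' w) :=
    fun w => bcdeg_legBC_fullToLegE M K' w
  have memWE : ∀ w : ↥(keyFq ↥K' M), VM.valuation (fullToLegE ↥K' M w) = 1 →
      fullToLegE Ω M (keyFqBC M K' w) ∈ legWE hA M hq2 := by
    intro w hw
    rw [← hBC w]
    exact (legBC_mem_legWE_iff hA M K' hq2 _).2 (memV w hw)
  have hρw : ∀ (w : ↥(keyFq ↥K' M)) (hw : VM.valuation (fullToLegE ↥K' M w) = 1)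
      (hW : fullToLegE Ω M (keyFqBC M K' w) ∈ legWE hA M hq2),
      ρ ⟨fullToLegE ↥K' M w, memV w hw⟩ =
        legρ hA M hq2 ⟨fullToLegE Ω M (keyFqBC M K' w), hW⟩ := by
    intro w hw hW
    have hWE' : legBC M K' (fullToLegE ↥K' M w) ∈ legWE hA M hq2 :=
      (legBC_mem_legWE_iff hA M K' hq2 _).2 (memV w hw)
    rw [hρapp _ (memV w hw) hWE']
    congr 1
    exact Subtype.ext (hBC w)
  -- the reduced orders
  have hfm : F * (ϖE ^ ainf)⁻¹ ∈ Winf := kp_mem_of_val_eq_one _ hfinf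
  have hnf : RedOrd Winf ϖE ι Q F (Q.ord (ρ ⟨fullToLegE ↥K' M w₀, memV w₀ hw₀⟩)) :=
    ⟨ainf, hfm, hfinf, by rw [hιA ⟨_, hfm⟩ ⟨fullToLegE ↥K' M w₀, memV w₀ hw₀⟩ hlink₀]⟩
  have hnU : RedOrd Winf ϖE ι Q UE (Q.ord (ρ ⟨fullToLegE ↥K' M wU, memV wU hwU⟩)) := by
    have h1 := RedOrd.of_valuation_eq_one (π := ϖE) (ι := ι) (Q := Q) hUnode.mem_inf vU
    rwa [hιA ⟨UE, hUnode.mem_inf⟩ ⟨fullToLegE ↥K' M wU, memV wU hwU⟩ hlinkU] at h1
  have hGm : G ∈ Winf := kp_mem_of_val_eq_one _ hval.1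
  have hnG' : RedOrd Winf ϖE ι Q G (Q.ord (ρ ⟨fullToLegE ↥K' M w', memV w' hw'⟩)) := by
    have h1 := RedOrd.of_valuation_eq_one (π := ϖE) (ι := ι) (Q := Q) hGm hval.1
    rwa [hιA ⟨G, hGm⟩ ⟨fullToLegE ↥K' M w', memV w' hw'⟩ hlink'] at h1
  have hnG := ((((RedOrd.pi_zpow (W := Winf) (ι := ι) (Q := Q) hϖE0
      ((n : ℤ) * ((e : ℤ) * ainf))).inv hϖE0).mul hϖE0 (hnf.pow hϖE0 e)).mul hϖE0
      ((((hnf.pow hϖE0 (e * s)).mul hϖE0 (hnU.zpow hϖE0 (-((t : ℤ) * k')))).pow hϖE0 (p ^ k))))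
  rw [← hGeq] at hnG
  have huniq := RedOrd.unique hϖE0 hπ1 hnG' hnG
  -- (D1)
  have hD1 := HD1 M q hq2 hqM p hp hp5 hpq A hA k K₁ K' f₀ H ϖ hϖ h2 hbez ainf a0 w₀ wU hw₀ hwU
    hlink₀ hlinkU hf0 (memWE w₀ hw₀) (memWE wU hwU) Q
  rw [← hρw w₀ hw₀ (memWE w₀ hw₀), ← hρw wU hwU (memWE wU hwU)] at hD1
  rw [← hρw w' hw' hW', huniq]
  have hfin := dvd_redOrd_of_dict (r := p ^ k) (e := e) (n := n) (isCoprime_twelve_pow hp hp5 k)
    (z := (t : ℤ) * k' * Q.ord (ρ ⟨fullToLegE ↥K' M wU, memV wU hwU⟩)) hk hD1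
  have e1 : -0 + (e : ℤ) * Q.ord (ρ ⟨fullToLegE ↥K' M w₀, memV w₀ hw₀⟩) +
      ((p ^ k : ℕ) : ℤ) * (((e * s : ℕ) : ℤ) * Q.ord (ρ ⟨fullToLegE ↥K' M w₀, memV w₀ hw₀⟩) +
        -((t : ℤ) * k') * Q.ord (ρ ⟨fullToLegE ↥K' M wU, memV wU hwU⟩)) =
      (e : ℤ) * n * Q.ord (ρ ⟨fullToLegE ↥K' M w₀, memV w₀ hw₀⟩) -
        ((p ^ k : ℕ) : ℤ) * ((t : ℤ) * k' *
          Q.ord (ρ ⟨fullToLegE ↥K' M wU, memV wU hwU⟩)) := by
    rw [hn]
    push_cast
    ring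
  rw [e1]
  exact hfin

end PackageMain

end Fermat.Agent.RB
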