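/-
RB — helper7 — **[NEW-TORIC] [HALF∞]-NEW: `LegNewInfQ ⇐ LegNewAbelQ`** (port of helper6's
`legMazInfQ_of`, Case 1, with [NEW-ABEL] in place of [ROLD-q]).

`g ∈ F_{Mq}(K')` a unit along both sheets; `w₀ ∈ F_M(K')` with `g ≡ A w₀` along `W_∞`
(`MP.keyFqResInfP`); `w̄ ∈ Ẽ_M` the reduction of `w₀` on the Legendre host; by [NEW-ABEL]
`w̄ ^ (p ^ c₁) = h̄ ^ (p ^ k)`; `h̄` lifts to `V_M(K')` (`exists_powQ_approx_of_legρ_eq_pow`), so
`w₀ ^ (p ^ c₁) ≡ b ^ (p ^ k)` and `g ^ (p ^ c₁) ≡ A(b) ^ (p ^ k)`.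
-/
import Mathlib
import Fermat.Agent.RB.NEWT_helper7_Lit
import Fermat.Agent.RB.MAZ_helper6_InfQ
import Fermat.Agent.S35.XPORT_helper7_Main

set_option autoImplicit false
set_option linter.unusedSectionVars false
set_option linter.unusedVariables false
set_option linter.style.haveILetI false
set_option synthInstance.maxHeartbeats 400000

open HahnSeries IntermediateField AlgebraicCurve ModularCurve IsLocalRing

namespace Fermat.Agent.RB

open Fermat.Agent.JA Fermat.Agent.FF Fermat.Agent.SS Fermat.Agent.S35 Fermat.Agent.S36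
  Fermat.Agent.MP Fermat.Agent.NP Fermat.Agent.GR Fermat.Agent.FG Fermat.Agent.X0N
  Fermat.Agent.Igusa

open scoped Fermat.Agent.JA.Host

/-- `Ω = AlgebraicClosure ℚ`. -/
local notation "Ω" => AlgebraicClosure ℚ

section Main

set_option maxHeartbeats 3200000 in
/-- **[HALF∞]-NEW** from [NEW-ABEL]. -/
theorem legNewInfQ_of (HA : LegNewAbelQ) : LegNewInfQ := by
  intro M _ q _ _ _ hq2 hqM p hp hpq A hA
  obtain ⟨c₁, hc₁⟩ := HA M q hq2 hqM p hp hpq A hA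
  refine ⟨c₁, ?_⟩
  intro K' _ hK' hunram hstab h2 x y hbez k g hginf hg0 hNA hNB hORD
  classical
  have hq : q.Prime := Fact.out
  haveI : CharZero ↥(baseRing A K') := charZero_valuationSubring_of_algebraRat _
  letI := baseToComplex K'
  -- the valuations at the level of `F_{Mq}`
  have hgF : (keyFqWinf ↥(baseRing A K') ↥K' (M * q)).valuation g = 1 :=
    (kp_comap_val_eq_one_iff (legWinf ↥(baseRing A K') ↥K' h2 (M * q))
      (fullToLegE ↥K' (M * q) : ↥(keyFq ↥K' (M * q)) →+* ↥(legE ↥K' (M * q)))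
      (xport_legWinf_comap ↥(baseRing A K') ↥K' h2 (M * q)) g).mp hginf
  have hgF0 : (keyFqW0 ↥(baseRing A K') ↥K' (algebraMap ↥K' ℂ) hbez hq).valuation g = 1 :=
    (kp_comap_val_eq_one_iff (legW0 ↥(baseRing A K') ↥K' hbez hq)
      (fullToLegE ↥K' (M * q) : ↥(keyFq ↥K' (M * q)) →+* ↥(legE ↥K' (M * q)))
      (xport_legW0_comap ↥(baseRing A K') ↥K' hbez hq) g).mp hg0
  have hgmem : g ∈ keyFqWinf ↥(baseRing A K') ↥K' (M * q) := kp_mem_of_val_eq_one _ hgF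
  obtain ⟨w₀, hw₀, hres⟩ := keyFqResInfP M q hqM A hA K' hK' g hgmem
  -- on the host
  have hcomapA := legWinf_comap_legHostA_gen (A := A) M q K' h2
  have hresE : (legWinf ↥(baseRing A K') ↥K' h2 (M * q)).valuation
      (fullToLegE ↥K' (M * q) g - legHostA ↥K' M q (fullToLegE ↥K' M w₀)) < 1 := by
    have h1 := (comap_val_lt_one_iff
      (fullToLegE ↥K' (M * q) : ↥(keyFq ↥K' (M * q)) →+* ↥(legE ↥K' (M * q)))
      (xport_legWinf_comap ↥(baseRing A K') ↥K' h2 (M * q)) (g - keyFqA ↥K' M q w₀)).mpr hres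
    have h2' : (fullToLegE ↥K' (M * q) : ↥(keyFq ↥K' (M * q)) →+* ↥(legE ↥K' (M * q)))
        (g - keyFqA ↥K' M q w₀) = fullToLegE ↥K' (M * q) g -
        legHostA ↥K' M q (fullToLegE ↥K' M w₀) := by
      show fullToLegE ↥K' (M * q) (g - keyFqA ↥K' M q w₀) = _
      rw [map_sub, xport_fullToLegE_keyFqA]
    rwa [h2'] at h1
  have hAWv : (legWinf ↥(baseRing A K') ↥K' h2 (M * q)).valuation
      (legHostA ↥K' M q (fullToLegE ↥K' M w₀)) = 1 := kp_val_eq_one_of_sub_lt _ hginf hresE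
  have hWv : (legWinf ↥(baseRing A K') ↥K' h2 M).valuation (fullToLegE ↥K' M w₀) = 1 :=
    (kp_comap_val_eq_one_iff (legWinf ↥(baseRing A K') ↥K' h2 (M * q))
      (legHostA ↥K' M q).toRingHom hcomapA (fullToLegE ↥K' M w₀)).mp hAWv
  have hWmem : fullToLegE ↥K' M w₀ ∈ legWinf ↥(baseRing A K') ↥K' h2 M :=
    kp_mem_of_val_eq_one _ hWv
  have hBC : legBC M K' (fullToLegE ↥K' M w₀) = fullToLegE Ω M (keyFqBC M K' w₀) :=
    bcdeg_legBC_fullToLegE M K' w₀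
  have hWE' : legBC M K' (fullToLegE ↥K' M w₀) ∈ legWE hA M hq2 :=
    (legBC_mem_legWE_iff hA M K' hq2 _).2 hWmem
  have hWE : fullToLegE Ω M (keyFqBC M K' w₀) ∈ legWE hA M hq2 := hBC ▸ hWE'
  -- [NEW-ABEL]
  obtain ⟨hbar, hhbar⟩ := hc₁ K' hK' hunram hstab hbez k g hgF hgF0 hNA hNB w₀ hres hWE
    (fun Q => hORD w₀ hWv hresE hWE Q)
  -- the lift
  have hWpmem : fullToLegE ↥K' M w₀ ^ (p ^ c₁) ∈ legWinf ↥(baseRing A K') ↥K' h2 M :=
    pow_mem hWmem _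
  have hWpE' : legBC M K' (fullToLegE ↥K' M w₀ ^ (p ^ c₁)) ∈ legWE hA M hq2 := by
    rw [map_pow]
    exact pow_mem hWE' _
  have hg' : legρ hA M hq2 ⟨legBC M K' (fullToLegE ↥K' M w₀ ^ (p ^ c₁)), hWpE'⟩ =
      hbar ^ (p ^ k) := by
    rw [← hhbar]
    have e : (⟨legBC M K' (fullToLegE ↥K' M w₀ ^ (p ^ c₁)), hWpE'⟩ : ↥(legWE hA M hq2)) =
        ⟨fullToLegE Ω M (keyFqBC M K' w₀), hWE⟩ ^ (p ^ c₁) := by
      apply Subtype.ext
      show legBC M K' (fullToLegE ↥K' M w₀ ^ (p ^ c₁)) =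
        (fullToLegE Ω M (keyFqBC M K' w₀)) ^ (p ^ c₁)
      rw [map_pow, hBC]
    rw [e, map_pow]
  obtain ⟨b, hb, hbv⟩ := exists_powQ_approx_of_legρ_eq_pow hA M hqM hK' hq2 h2
    (fullToLegE ↥K' M w₀ ^ (p ^ c₁)) hWpmem hWpE' (p ^ k) hbar hg'
  -- transport along `A`
  have hAb : (legWinf ↥(baseRing A K') ↥K' h2 (M * q)).valuation
      (legHostA ↥K' M q (fullToLegE ↥K' M w₀) ^ (p ^ c₁) - legHostA ↥K' M q b ^ (p ^ k)) < 1 := by
    have h1 := (comap_val_lt_one_iff (legHostA ↥K' M q).toRingHom hcomapA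
      (fullToLegE ↥K' M w₀ ^ (p ^ c₁) - b ^ (p ^ k))).mpr hbv
    have h2' : (legHostA ↥K' M q).toRingHom (fullToLegE ↥K' M w₀ ^ (p ^ c₁) - b ^ (p ^ k)) =
        legHostA ↥K' M q (fullToLegE ↥K' M w₀) ^ (p ^ c₁) - legHostA ↥K' M q b ^ (p ^ k) := by
      show legHostA ↥K' M q (fullToLegE ↥K' M w₀ ^ (p ^ c₁) - b ^ (p ^ k)) = _
      rw [map_sub, map_pow, map_pow]
    rwa [h2'] at h1
  have hpow : (legWinf ↥(baseRing A K') ↥K' h2 (M * q)).valuation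
      (fullToLegE ↥K' (M * q) g ^ (p ^ c₁) -
        legHostA ↥K' M q (fullToLegE ↥K' M w₀) ^ (p ^ c₁)) < 1 :=
    kp_val_pow_sub_pow_lt _ (kp_mem_of_val_eq_one _ hginf) (kp_mem_of_val_eq_one _ hAWv) hresE _
  have hfin := kp_val_sub_lt_trans _ hpow hAb
  -- `b` is a unit
  have hWp1 : (legWinf ↥(baseRing A K') ↥K' h2 M).valuation
      (fullToLegE ↥K' M w₀ ^ (p ^ c₁)) = 1 := by
    rw [map_pow, hWv, one_pow]
  have hbp1 : (legWinf ↥(baseRing A K') ↥K' h2 M).valuation (b ^ (p ^ k)) = 1 :=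
    kp_val_eq_one_of_sub_lt _ hWp1 hbv
  have hb1 : (legWinf ↥(baseRing A K') ↥K' h2 M).valuation b = 1 := by
    rw [map_pow] at hbp1
    exact (pow_eq_one_iff_of_nonneg zero_le (pow_pos hp.pos k).ne').mp hbp1
  exact ⟨b, hb1, hfin⟩

end Main

end Fermat.Agent.RB
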