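/-
RB — lead — **[NEW-ABEL], part 3: the base plug for a `D_A`-stable (not necessarily normal) base.**

`K'` an intermediate field of `Ω / ℚ` stable under `φ` and `φ⁻¹`, `φ` a Frobenius element at `A`:
the restriction `τ' = φ|K'`, the induced automorphism `τR` of `R' = A ∩ K'`, `τR r ≡ r ^ q`.
(Companion of helper8's `S35.frobBaseRingAut`, which needs `K₁` normal.)
-/
import Mathlib
import Fermat.Agent.S35.FROBPLUG_helper8

set_option autoImplicit false
set_option linter.unusedSectionVars false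
set_option linter.unusedVariables false
set_option linter.style.haveILetI false

open IntermediateField

namespace Fermat.Agent.RB

open Fermat.Agent.JA Fermat.Agent.SS Fermat.Agent.S35

/-- `Ω = AlgebraicClosure ℚ`. -/
local notation "Ω" => AlgebraicClosure ℚ

/-- the absolute Galois group. -/
local notation "GQ" => (AlgebraicClosure ℚ ≃ₐ[ℚ] AlgebraicClosure ℚ)

section Res

variable (K' : IntermediateField ℚ Ω) (φ : GQ) (h1 : ∀ z ∈ K', φ z ∈ K')
  (h2 : ∀ z ∈ K', φ⁻¹ z ∈ K')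

/-- **the restriction of `φ` to a `φ^{±1}`-stable intermediate field.** -/
noncomputable def newAbelRes : ↥K' ≃ₐ[ℚ] ↥K' where
  toFun z := ⟨φ (z : Ω), h1 _ z.2⟩
  invFun z := ⟨φ⁻¹ (z : Ω), h2 _ z.2⟩
  left_inv z := by
    apply Subtype.ext
    show φ⁻¹ (φ (z : Ω)) = z
    rw [← AlgEquiv.mul_apply, inv_mul_cancel, AlgEquiv.one_apply]
  right_inv z := by
    apply Subtype.ext
    show φ (φ⁻¹ (z : Ω)) = z
    rw [← AlgEquiv.mul_apply, mul_inv_cancel, AlgEquiv.one_apply]
  map_mul' x y := Subtype.ext (map_mul φ (x : Ω) (y : Ω))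
  map_add' x y := Subtype.ext (map_add φ (x : Ω) (y : Ω))
  commutes' r := Subtype.ext (φ.commutes r)

@[simp] theorem coe_newAbelRes (z : ↥K') :
    ((newAbelRes K' φ h1 h2 z : ↥K') : Ω) = φ (z : Ω) := rfl

theorem algebraMap_newAbelRes (z : ↥K') :
    algebraMap ↥K' Ω (newAbelRes K' φ h1 h2 z) = φ (algebraMap ↥K' Ω z) := rfl

variable {A : ValuationSubring Ω} {q : ℕ}

theorem newAbelRes_mem_baseRing_iff (hφ : A.IsFrobeniusAt φ q) {c : ↥K'} :
    newAbelRes K' φ h1 h2 c ∈ baseRing A K' ↔ c ∈ baseRing A K' := by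
  rw [mem_baseRing_iff, mem_baseRing_iff, A.valuation_le_one_iff, A.valuation_le_one_iff,
    coe_newAbelRes]
  exact frobenius_map_mem_iff hφ

/-- **the automorphism of `R' = A ∩ K'`** induced by a Frobenius element `φ` at `A`. -/
noncomputable def newAbelBaseAut (hφ : A.IsFrobeniusAt φ q) :
    ↥(baseRing A K') ≃+* ↥(baseRing A K') where
  toFun c := ⟨newAbelRes K' φ h1 h2 c, (newAbelRes_mem_baseRing_iff K' φ h1 h2 hφ).mpr c.2⟩
  invFun c := ⟨(newAbelRes K' φ h1 h2).symm c, by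
    have h3 : newAbelRes K' φ h1 h2 ((newAbelRes K' φ h1 h2).symm (c : ↥K')) = c :=
      (newAbelRes K' φ h1 h2).apply_symm_apply _
    have h4 := c.2
    rw [← h3] at h4
    exact (newAbelRes_mem_baseRing_iff K' φ h1 h2 hφ).mp h4⟩
  left_inv c := Subtype.ext ((newAbelRes K' φ h1 h2).symm_apply_apply _)
  right_inv c := Subtype.ext ((newAbelRes K' φ h1 h2).apply_symm_apply _)
  map_mul' x y := Subtype.ext (map_mul (newAbelRes K' φ h1 h2) (x : ↥K') (y : ↥K'))
  map_add' x y := Subtype.ext (map_add (newAbelRes K' φ h1 h2) (x : ↥K') (y : ↥K'))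

@[simp] theorem coe_newAbelBaseAut (hφ : A.IsFrobeniusAt φ q) (c : ↥(baseRing A K')) :
    ((newAbelBaseAut K' φ h1 h2 hφ c : ↥(baseRing A K')) : ↥K') =
      newAbelRes K' φ h1 h2 (c : ↥K') := rfl

/-- compatibility (the hypothesis `hτ` of the Frobenius packages). -/
theorem newAbelRes_algebraMap_base (hφ : A.IsFrobeniusAt φ q) (r : ↥(baseRing A K')) :
    newAbelRes K' φ h1 h2 (algebraMap ↥(baseRing A K') ↥K' r) =
      algebraMap ↥(baseRing A K') ↥K'
        ((newAbelBaseAut K' φ h1 h2 hφ : ↥(baseRing A K') →+* ↥(baseRing A K')) r) := rfl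

/-- **`τR r ≡ r ^ q`** modulo the maximal ideal of `R'`. -/
theorem newAbelBaseAut_sub_pow_mem_maximalIdeal (hφ : A.IsFrobeniusAt φ q)
    (c : ↥(baseRing A K')) :
    newAbelBaseAut K' φ h1 h2 hφ c - c ^ q ∈ IsLocalRing.maximalIdeal ↥(baseRing A K') := by
  rw [mem_maximalIdeal_baseRing_iff]
  have hc : ((c : ↥K') : Ω) ∈ A := (A.valuation_le_one_iff _).mp (valuation_coe_le_one c)
  have h3 := (frobenius_map_mem_and_sub_mem hφ hc).2
  rw [ValuationSubring.mem_nonunits_iff] at h3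
  have h4 : (((newAbelBaseAut K' φ h1 h2 hφ c - c ^ q : ↥(baseRing A K')) : ↥K') : Ω) =
      φ ((c : ↥K') : Ω) - ((c : ↥K') : Ω) ^ q := rfl
  rw [h4]
  exact h3

/-- **`τR r − r ^ q ∈ (ϖ)`** for a uniformizer `ϖ` of `R'`. -/
theorem newAbelBaseAut_sub_pow_mem [IsDiscreteValuationRing ↥(baseRing A K')]
    (hφ : A.IsFrobeniusAt φ q) {ϖ : ↥(baseRing A K')} (hϖ : Irreducible ϖ)
    (r : ↥(baseRing A K')) :
    (newAbelBaseAut K' φ h1 h2 hφ : ↥(baseRing A K') →+* ↥(baseRing A K')) r - r ^ q ∈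
      Ideal.span {ϖ} := by
  rw [← hϖ.maximalIdeal_eq]
  exact newAbelBaseAut_sub_pow_mem_maximalIdeal K' φ h1 h2 hφ r

end Res

end Fermat.Agent.RB
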