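/-
RB — lead — **[NEW-ABEL], part 1: the norm step at the F-level for a GIVEN unit `g`** (helper6's
package [NEW-TORIC], leaf L4).

`R` a discrete valuation ring with fraction field `K ⊇ ℚ`, residue characteristic `q ∤ M`, `(τ, τR)`
a Frobenius lift, units of `R` being `m`-th powers modulo the maximal ideal.  For `g ∈ F_{Mq}(K)` a
unit along both sheets whose norms along the two degeneracy maps are CONSTANTS times `m`-th powers,
and `a ∈ F_M(K)` with `g ≡ A(a)` along `W_∞`:  `s (s a) / a ≡ u ^ m` on `V_M`, `u` a unit of `V_M`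
(`s` the coefficientwise action of `τ`).

* `newAbel_key_rel`          : the abstract valuation computation (the internal `hkey` of helper9's
  `ntwo_half_rel`);
* `newAbel_pow_cong_const`   : a unit of the form `c · h ^ m` (`c` a constant) is congruent to an
  `m`-th power;
* `newAbel_keyFq_normKey_gen`: the F-level statement.
-/
import Mathlib
import Fermat.Agent.S35.NORMF_helper8_Gen
import Fermat.Agent.S35.NTWO_helper9_Rel

set_option autoImplicit false
set_option linter.unusedSectionVars false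
set_option linter.unusedVariables false
set_option linter.style.haveILetI false
set_option synthInstance.maxHeartbeats 200000

open ModularCurve Fermat.Agent.Igusa Fermat.Agent.JA Fermat.Agent.SS Fermat.Agent.X0N
  Fermat.Agent.S35

namespace Fermat.Agent.RB

section Abs

variable {EM : Type*} [Field EM] {VM : ValuationSubring EM} {sM : EM →+* EM}

/-- **the key congruence of the norm step**: from `h₁ ^ m ≡ a · s b` and `h₂ ^ m ≡ b · s a`
(`a`, `b` units) one gets `(s h₂ / h₁) ^ m ≡ s (s a) / a`. -/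
theorem newAbel_key_rel (hsM : ∀ x : EM, x ∈ VM ↔ sM x ∈ VM) {m : ℕ} (hm : 0 < m)
    {a₁ b₁ h₁ h₂ : EM} (ha₁u : VM.valuation a₁ = 1) (hb₁u : VM.valuation b₁ = 1)
    (hX : VM.valuation (h₁ ^ m - a₁ * sM b₁) < 1)
    (hY : VM.valuation (h₂ ^ m - b₁ * sM a₁) < 1) :
    ∃ u : EM, VM.valuation u = 1 ∧ VM.valuation (u ^ m - sM (sM a₁) / a₁) < 1 := by
  have ha₁V : a₁ ∈ VM := ntwo_mem_of_val_eq_one VM ha₁u
  have hsa₁u : VM.valuation (sM a₁) = 1 := (valuation_map_eq_one_iff VM sM hsM a₁).2 ha₁u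
  have hsb₁u : VM.valuation (sM b₁) = 1 := (valuation_map_eq_one_iff VM sM hsM b₁).2 hb₁u
  have hssa₁u : VM.valuation (sM (sM a₁)) = 1 :=
    (valuation_map_eq_one_iff VM sM hsM (sM a₁)).2 hsa₁u
  have hXu : VM.valuation (h₁ ^ m) = 1 := by
    refine ntwo_val_eq_one_of_cong VM ?_ hX
    rw [map_mul, ha₁u, hsb₁u, one_mul]
  have hYu : VM.valuation (h₂ ^ m) = 1 := by
    refine ntwo_val_eq_one_of_cong VM ?_ hY
    rw [map_mul, hb₁u, hsa₁u, one_mul]
  have hh₁u : VM.valuation h₁ = 1 := ntwo_val_pow_eq_one VM hm hXu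
  have hh₂u : VM.valuation h₂ = 1 := ntwo_val_pow_eq_one VM hm hYu
  have hsh₂u : VM.valuation (sM h₂) = 1 := (valuation_map_eq_one_iff VM sM hsM h₂).2 hh₂u
  have hsY : VM.valuation (sM h₂ ^ m - sM b₁ * sM (sM a₁)) < 1 := by
    have := (valuation_map_lt_one_iff VM sM hsM _).2 hY
    rwa [map_sub, map_pow, map_mul] at this
  refine ⟨sM h₂ / h₁, by rw [map_div₀, hsh₂u, hh₁u, div_one], ?_⟩
  have ha₁0 : a₁ ≠ 0 := by
    rintro rfl; simp at ha₁u
  have hX0 : h₁ ^ m ≠ 0 := by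
    intro h0; rw [h0] at hXu; simp at hXu
  have e : (sM h₂ / h₁) ^ m - sM (sM a₁) / a₁ =
      ((sM h₂ ^ m - sM b₁ * sM (sM a₁)) * a₁ -
        (h₁ ^ m - a₁ * sM b₁) * sM (sM a₁)) / (h₁ ^ m * a₁) := by
    rw [div_pow]
    field_simp
    ring
  rw [e]
  refine ntwo_val_div_lt VM (by rw [map_mul, hXu, ha₁u, one_mul]) ?_
  refine Valuation.map_sub_lt _ ?_ ?_
  · rw [mul_comm]; exact ntwo_val_mul_lt VM ha₁V hsY
  · rw [mul_comm]; exact ntwo_val_mul_lt VM (ntwo_mem_of_val_eq_one VM hssa₁u) hX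

end Abs

section Const

variable {R : Type*} [CommRing R] [IsDomain R] [IsDiscreteValuationRing R]
  {K : Type*} [Field K] [Algebra R K] [IsFractionRing R K]
  {E : Type*} [Field E] [Algebra K E]

/-- every nonzero element of `Frac R` is a power of the uniformizer times a unit. -/
theorem newAbel_exists_zpow_mul_unit {π : R} (hπ : Irreducible π) {x : K} (hx : x ≠ 0) :
    ∃ (n : ℤ) (u : Rˣ), x = algebraMap R K π ^ n * algebraMap R K u := by
  obtain ⟨r, s, hs, rfl⟩ := IsFractionRing.div_surjective (A := R) x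
  have hs0 : s ≠ 0 := nonZeroDivisors.ne_zero hs
  have hr0 : r ≠ 0 := by
    rintro rfl
    simp at hx
  obtain ⟨i, u, hu⟩ := IsDiscreteValuationRing.eq_unit_mul_pow_irreducible hr0 hπ
  obtain ⟨j, v, hv⟩ := IsDiscreteValuationRing.eq_unit_mul_pow_irreducible hs0 hπ
  have hinj := IsFractionRing.injective R K
  have hπK : algebraMap R K π ≠ 0 := (map_ne_zero_iff _ hinj).2 hπ.ne_zero
  have hvK : algebraMap R K (v : R) ≠ 0 := (map_ne_zero_iff _ hinj).2 v.ne_zero
  refine ⟨(i : ℤ) - j, u * v⁻¹, ?_⟩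
  rw [hu, hv, zpow_sub₀ hπK, zpow_natCast, zpow_natCast, Units.val_mul, map_mul, map_mul, map_mul,
    map_pow, map_pow]
  have hvinv : algebraMap R K ((v⁻¹ : Rˣ) : R) = (algebraMap R K (v : R))⁻¹ := by
    apply eq_inv_of_mul_eq_one_left
    rw [← map_mul, Units.inv_mul, map_one]
  rw [hvinv]
  have hπj : algebraMap R K π ^ j ≠ 0 := pow_ne_zero _ hπK
  field_simp

/-- every nonzero element of the fraction field of a discrete valuation subring is a power of the
uniformizer times a unit. -/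
theorem newAbel_exists_zpow_mul_val_one (V : ValuationSubring E) [IsDiscreteValuationRing ↥V]
    {ϖ : ↥V} (hϖ : Irreducible ϖ) {h : E} (hh : h ≠ 0) :
    ∃ (i : ℤ) (w : E), V.valuation w = 1 ∧ h = (ϖ : E) ^ i * w := by
  have hint : ∀ g : E, g ∈ V → g ≠ 0 → ∃ (n : ℕ) (w : E), V.valuation w = 1 ∧
      g = (ϖ : E) ^ n * w := by
    intro g hgV hg0
    have hg0' : (⟨g, hgV⟩ : ↥V) ≠ 0 := fun h0 => hg0 (congrArg Subtype.val h0)
    obtain ⟨n, u, hu⟩ := IsDiscreteValuationRing.eq_unit_mul_pow_irreducible hg0' hϖ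
    have hg : g = ((u : ↥V) : E) * (ϖ : E) ^ n := congrArg Subtype.val hu
    exact ⟨n, ((u : ↥V) : E), (V.valuation_eq_one_iff _).1 u.isUnit, by rw [hg, mul_comm]⟩
  rcases V.mem_or_inv_mem h with h1 | h1
  · obtain ⟨n, w, hw, e⟩ := hint h h1 hh
    exact ⟨n, w, hw, by rw [zpow_natCast]; exact e⟩
  · obtain ⟨n, w, hw, e⟩ := hint h⁻¹ h1 (inv_ne_zero hh)
    refine ⟨-(n : ℤ), w⁻¹, by rw [map_inv₀, hw, inv_one], ?_⟩
    rw [zpow_neg, zpow_natCast, ← mul_inv, ← e, inv_inv]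

/-- **a unit of the form `c · h ^ m`, `c` a constant, is congruent to an `m`-th power**, if the
units of `R` are `m`-th powers modulo the maximal ideal. -/
theorem newAbel_pow_cong_const (V : ValuationSubring E) [IsDiscreteValuationRing ↥V] {π : R}
    (hπ : Irreducible π) (hRV : ∀ r : R, algebraMap K E (algebraMap R K r) ∈ V)
    (hπV : Irreducible (⟨algebraMap K E (algebraMap R K π), hRV π⟩ : ↥V))
    {m : ℕ} (hm : 0 < m)
    (hroot : ∀ ε : R, IsUnit ε → ∃ ε₀ : R, ε - ε₀ ^ m ∈ IsLocalRing.maximalIdeal R)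
    {c : K} (hc : c ≠ 0) {h : E} (hu : V.valuation (algebraMap K E c * h ^ m) = 1) :
    ∃ h₁ : E, V.valuation (h₁ ^ m - algebraMap K E c * h ^ m) < 1 := by
  set ϖ : E := algebraMap K E (algebraMap R K π) with hϖdef
  have hϖlt : V.valuation ϖ < 1 := normf_val_irreducible_lt_one V hπV
  have hϖ0 : ϖ ≠ 0 := by
    intro h0
    exact hπV.ne_zero (Subtype.ext h0)
  have hϖpos : 0 < V.valuation ϖ := zero_lt_iff.2 ((Valuation.ne_zero_iff _).2 hϖ0)
  have hh : h ≠ 0 := by
    rintro rfl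
    rw [zero_pow hm.ne', mul_zero, map_zero] at hu
    exact zero_ne_one hu
  obtain ⟨j, ε, hcε⟩ := newAbel_exists_zpow_mul_unit hπ hc
  obtain ⟨i, w, hw, hhw⟩ := newAbel_exists_zpow_mul_val_one V hπV hh
  have hεV : V.valuation (algebraMap K E (algebraMap R K (ε : R))) = 1 := by
    have h1 : algebraMap K E (algebraMap R K (ε : R)) *
        algebraMap K E (algebraMap R K ((ε⁻¹ : Rˣ) : R)) = 1 := by
      rw [← map_mul, ← map_mul, Units.mul_inv, map_one, map_one]
    have h2 : V.valuation (algebraMap K E (algebraMap R K (ε : R))) ≤ 1 :=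
      (V.valuation_le_one_iff _).2 (hRV _)
    have h3 : V.valuation (algebraMap K E (algebraMap R K ((ε⁻¹ : Rˣ) : R))) ≤ 1 :=
      (V.valuation_le_one_iff _).2 (hRV _)
    have h4 : V.valuation (algebraMap K E (algebraMap R K (ε : R))) *
        V.valuation (algebraMap K E (algebraMap R K ((ε⁻¹ : Rˣ) : R))) = 1 := by
      rw [← map_mul, h1, map_one]
    refine le_antisymm h2 ?_
    calc (1 : V.ValueGroup) = _ := h4.symm
      _ ≤ V.valuation (algebraMap K E (algebraMap R K (ε : R))) * 1 := mul_le_mul' le_rfl h3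
      _ = _ := mul_one _
  -- `c h ^ m = ϖ ^ (j + m i) · ε w ^ m`
  have hhw' : h = ϖ ^ i * w := hhw
  have hc' : algebraMap K E c = ϖ ^ j * algebraMap K E (algebraMap R K (ε : R)) := by
    rw [hcε, map_mul, map_zpow₀]
  have e1 : algebraMap K E c * h ^ m =
      ϖ ^ (j + (m : ℤ) * i) * (algebraMap K E (algebraMap R K (ε : R)) * w ^ m) := by
    rw [hc', hhw', mul_pow, ← zpow_natCast (ϖ ^ i) m, ← zpow_mul, zpow_add₀ hϖ0,
      mul_comm (m : ℤ) i]
    ring
  have hexp : j + (m : ℤ) * i = 0 := by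
    have h1 := hu
    rw [e1, map_mul, map_zpow₀, map_mul, hεV, map_pow, hw, one_pow, mul_one, mul_one] at h1
    exact (zpow_eq_one_iff_right₀ hϖpos.le hϖlt.ne).1 h1
  rw [hexp, zpow_zero, one_mul] at e1
  obtain ⟨ε₀, hε₀⟩ := hroot (ε : R) ε.isUnit
  refine ⟨algebraMap K E (algebraMap R K ε₀) * w, ?_⟩
  rw [e1, mul_pow, ← sub_mul, ← map_pow, ← map_pow, ← map_sub, ← map_sub, map_mul, map_pow, hw,
    one_pow, mul_one]
  rw [hπ.maximalIdeal_eq, Ideal.mem_span_singleton] at hε₀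
  obtain ⟨d, hd⟩ := hε₀
  have h5 : ε₀ ^ m - (ε : R) = π * (-d) := by
    rw [mul_neg, ← hd]; ring
  rw [h5, map_mul, map_mul]
  exact ntwo_val_mul_lt V (hRV _) hϖlt |> fun h6 => by rwa [mul_comm] at h6

end Const

section Main

variable {R : Type*} [CommRing R] [IsDomain R] [IsDiscreteValuationRing R]
  {K : Type*} [Field K] [Algebra R K] [IsFractionRing R K] [Algebra ℚ K]
  (ι : K →+* ℂ) {M q : ℕ} [NeZero M] [NeZero q] [NeZero (M * q)] {x y : ℤ}
  (h : (q : ℤ) * x + M * y = 1) (hq : q.Prime)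
  (τ : K ≃ₐ[ℚ] K) (τR : R →+* R)
  (hτ : ∀ r : R, τ (algebraMap R K r) = algebraMap R K (τR r))

local notation "kR" => IsLocalRing.ResidueField R

/-- the constants of `R` are integral for the Gauss valuation of the level field. -/
theorem newAbel_algebraMap_mem_keyFqWinf (N : ℕ) [NeZero N] (r : R) :
    algebraMap K ↥(keyFq K N) (algebraMap R K r) ∈ keyFqWinf R K N :=
  (gaussValSubC (keyFq K N) (laurentBaseChange_full_le_gaussField R K N) r).2

set_option maxHeartbeats 1600000 in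
include hτ in
/-- **the NORM step at the F-level for a given unit `g`**, norms = constants times `m`-th powers. -/
theorem newAbel_keyFq_normKey_gen (hqM : ¬ q ∣ M) (hchar : (q : kR) = 0) {π : R}
    (hπ : Irreducible π)
    (hfrobπ : ∀ r : R, τR r - r ^ q ∈ Ideal.span {π}) (hbij : Function.Bijective τR)
    {m : ℕ} (hm : 0 < m)
    (hroot : ∀ ε : R, IsUnit ε → ∃ ε₀ : R, ε - ε₀ ^ m ∈ IsLocalRing.maximalIdeal R)
    {g : ↥(keyFq K (M * q))} (hginf : (keyFqWinf R K (M * q)).valuation g = 1)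
    (hg0 : (keyFqW0 R K ι h hq).valuation g = 1)
    (hNA : ∃ (c : K) (hA : ↥(keyFq K M)), c ≠ 0 ∧ hA ≠ 0 ∧
      (letI := (keyFqA K M q).toRingHom.toAlgebra; Algebra.norm ↥(keyFq K M) g) =
        algebraMap K ↥(keyFq K M) c * hA ^ m)
    (hNB : ∃ (c : K) (hB : ↥(keyFq K M)), c ≠ 0 ∧ hB ≠ 0 ∧
      (letI := (keyFqB K M q).toRingHom.toAlgebra; Algebra.norm ↥(keyFq K M) g) =
        algebraMap K ↥(keyFq K M) c * hB ^ m)
    (a : ↥(keyFq K M)) (ha : (keyFqWinf R K (M * q)).valuation (g - keyFqA K M q a) < 1) :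
    ∃ u : ↥(keyFq K M), (keyFqWinf R K M).valuation u = 1 ∧
      (keyFqWinf R K M).valuation
        (u ^ m - coeffRingAut (coeffStable_keyFq K M) τ
          (coeffRingAut (coeffStable_keyFq K M) τ a) / a) < 1 := by
  classical
  haveI : CharZero K := algebraRat.charZero K
  haveI : CharP kR q := charP_of_prime_of_natCast_eq_zero hq hchar
  haveI : ExpChar kR q := ExpChar.prime hq
  have hfrob' : ∀ r : R, τR r - r ^ q ∈ IsLocalRing.maximalIdeal R := by
    intro r
    rw [(IsDiscreteValuationRing.irreducible_iff_uniformizer π).1 hπ]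
    exact hfrobπ r
  have hEM : keyFq K M ≤ gaussField R K := laurentBaseChange_full_le_gaussField R K M
  have hEN : keyFq K (M * q) ≤ gaussField R K := laurentBaseChange_full_le_gaussField R K (M * q)
  have hle : keyFq K M ≤ keyFq K (M * q) := keyFq_le_of_dvd K (dvd_mul_right M q)
  have hB : ∀ f ∈ keyFq K M, qExpand K q f ∈ keyFq K (M * q) :=
    fun _ hf => qExpand_mem_keyFq K (by rw [mul_comm]) hf
  -- the model
  have hF := keyFq_ssModelFrob ι h hq τ τR hτ hπ (j := (1 : K)) (by rw [map_one, map_one])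
    hfrobπ hbij
  -- restrictions of the sheets
  have cAinf : (keyFqWinf R K (M * q)).comap
      (keyFqA K M q : ↥(keyFq K M) →+* ↥(keyFq K (M * q))) = keyFqWinf R K M :=
    comap_hostA_gaussValSub (R := R) (keyFq K M) (keyFq K (M * q)) hle hEM hEN
  have cBinf : (keyFqWinf R K (M * q)).comap
      (keyFqB K M q : ↥(keyFq K M) →+* ↥(keyFq K (M * q))) = keyFqWinf R K M :=
    comap_hostB_gaussValSub (R := R) (keyFq K M) (keyFq K (M * q)) q hB hEM hEN
  have cA0 := keyFqW0_comap_keyFqA (R := R) ι h hq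
  have cB0 := keyFqW0_comap_keyFqB (R := R) ι h hq
  -- the coordinate `j`
  have hJc : ((jGen K M : ↥(keyFq K M)) : LaurentSeries K) = jqModC K :=
    coeffEmb_jq_eq_jqModC K
  have hJ : ((jGen K M : ↥(keyFq K M)) : LaurentSeries K) ∈ gaussInt R K := by
    rw [hJc]; exact jqModC_mem_gaussInt R K
  have hJred : gaussRed R K ⟨((jGen K M : ↥(keyFq K M)) : LaurentSeries K), hJ⟩ = jqModC kR := by
    have e : (⟨((jGen K M : ↥(keyFq K M)) : LaurentSeries K), hJ⟩ : gaussInt R K) =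
        ⟨jqModC K, jqModC_mem_gaussInt R K⟩ := Subtype.ext hJc
    rw [e, gaussRed_jqModC]
  have hJo : (gaussRed R K ⟨((jGen K M : ↥(keyFq K M)) : LaurentSeries K), hJ⟩).order =
      -((1 : ℕ) : ℤ) := by
    rw [hJred]
    have := order_jqNModC_field kR 1
    rwa [jqNModC, qExpand_one_apply] at this
  have hJ0 : gaussRed R K ⟨((jGen K M : ↥(keyFq K M)) : LaurentSeries K), hJ⟩ ≠ 0 := by
    intro h0
    rw [h0, HahnSeries.order_zero] at hJo
    simp at hJo
  have hkron : (keyFqW0 R K ι h hq).valuation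
      (hostA (keyFq K M) (keyFq K (M * q)) hle (jGen K M) -
        hostB (keyFq K M) (keyFq K (M * q)) q hB (jGen K M) ^ q) < 1 := by
    have h1 := hF.kron_zero (jGen K M) hJ
    have hs : ((coeffRingAut (coeffStable_keyFq K M) τ : ↥(keyFq K M) ≃+* ↥(keyFq K M)) :
        ↥(keyFq K M) →+* ↥(keyFq K M)) (jGen K M) = jGen K M := coeffRingAut_jGen_keyFq τ
    rw [hs, Valuation.map_sub_swap] at h1
    exact h1
  -- degrees
  obtain ⟨hfinA, hdegA⟩ := deg2_finrank_keyFq ι hq hqM hle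
  obtain ⟨hfinB, hdegB⟩ := keyFq_finrank_along_keyFqB ι hq hqM
  -- the two sheets
  obtain ⟨-, -, -, -, -, res_inf, res_zero⟩ := host_two_sheet (R := R) (keyFq K M)
    (keyFq K (M * q)) hle q hB hEM hEN hq hchar hπ 1 (Nat.coprime_one_left q) (jGen K M) hJ hJo hJ0
    hfinA hdegA.le hfinB hdegB.le (keyFqW0 R K ι h hq) cA0 cB0 hkron
  -- norm reductions
  have hNAred : ∀ f : ↥(keyFq K (M * q)), f ∈ keyFqWinf R K (M * q) → f ∈ keyFqW0 R K ι h hq →
      ∀ a₁ a₂ : ↥(keyFq K M), (keyFqWinf R K (M * q)).valuation (f - keyFqA K M q a₁) < 1 →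
      (keyFqW0 R K ι h hq).valuation (f ^ q - keyFqA K M q a₂) < 1 →
      (keyFqWinf R K M).valuation
        (hostNormA (keyFq K M) (keyFq K (M * q)) hle f - a₁ * a₂) < 1 :=
    fun f hfinf hf0 a₁ a₂ hc₁ hc₂ =>
      (host_norm_reduction_A (R := R) (keyFq K M) (keyFq K (M * q)) hle q hB hEM hEN hq hchar 1
        (Nat.coprime_one_left q) (jGen K M) hJ hJo hJ0 hfinA hdegA.le (keyFqW0 R K ι h hq) cA0 cB0
        hkron hfinf hf0 hc₁ hc₂).2
  have hNBred : ∀ f : ↥(keyFq K (M * q)), f ∈ keyFqWinf R K (M * q) → f ∈ keyFqW0 R K ι h hq →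
      ∀ a₁ a₂ : ↥(keyFq K M), (keyFqW0 R K ι h hq).valuation (f - keyFqB K M q a₁) < 1 →
      (keyFqWinf R K (M * q)).valuation (f ^ q - keyFqB K M q a₂) < 1 →
      (keyFqWinf R K M).valuation
        (hostNormB (keyFq K M) (keyFq K (M * q)) q hB f - a₁ * a₂) < 1 :=
    fun f hfinf hf0 a₁ a₂ hc₁ hc₂ =>
      (host_norm_reduction_B (R := R) (keyFq K M) (keyFq K (M * q)) hle q hB hEM hEN hq hchar 1
        (Nat.coprime_one_left q) (jGen K M) hJ hJo hJ0 hfinB hdegB.le (keyFqW0 R K ι h hq) cB0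
        hkron hfinf hf0 hc₁ hc₂).2
  -- the two reductions of `g`
  set sM : ↥(keyFq K M) →+* ↥(keyFq K M) :=
    ((coeffRingAut (coeffStable_keyFq K M) τ : ↥(keyFq K M) ≃+* ↥(keyFq K M)) :
      ↥(keyFq K M) →+* ↥(keyFq K M)) with hsM
  have hgWinf : g ∈ keyFqWinf R K (M * q) := ntwo_mem_of_val_eq_one _ hginf
  have hgW0 : g ∈ keyFqW0 R K ι h hq := ntwo_mem_of_val_eq_one _ hg0
  obtain ⟨b, hbV, hb⟩ := res_zero g hgW0
  have hau : (keyFqWinf R K M).valuation a = 1 := by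
    rw [← ntwo_comap_eq_one cAinf]
    exact ntwo_val_eq_one_of_cong _ hginf (ntwo_val_symm _ ha)
  have haV : a ∈ keyFqWinf R K M := ntwo_mem_of_val_eq_one _ hau
  have hbu : (keyFqWinf R K M).valuation b = 1 := by
    rw [← ntwo_comap_eq_one cB0]
    exact ntwo_val_eq_one_of_cong _ hg0 (ntwo_val_symm _ hb)
  have hsau : (keyFqWinf R K M).valuation (sM a) = 1 :=
    (valuation_map_eq_one_iff _ sM hF.mem_VM a).2 hau
  have hsbu : (keyFqWinf R K M).valuation (sM b) = 1 :=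
    (valuation_map_eq_one_iff _ sM hF.mem_VM b).2 hbu
  -- the `q`-th powers
  have hq₂ : (keyFqW0 R K ι h hq).valuation (g ^ q - keyFqA K M q (sM b)) < 1 :=
    ntwo_val_trans _ (ntwo_pow_cong _ hgW0 ((ntwo_comap_mem cB0 b).2 hbV) hb q)
      (hF.kron_zero b hbV)
  have hq₁ : (keyFqWinf R K (M * q)).valuation (g ^ q - keyFqB K M q (sM a)) < 1 :=
    ntwo_val_trans _ (ntwo_pow_cong _ hgWinf ((ntwo_comap_mem cAinf a).2 haV) ha q)
      (hF.kron_inf a haV)
  have hX := hNAred g hgWinf hgW0 a (sM b) ha hq₂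
  have hY := hNBred g hgWinf hgW0 b (sM a) hb hq₁
  -- the constants
  haveI : IsDiscreteValuationRing ↥(keyFqWinf R K M) :=
    isDiscreteValuationRing_gaussValSub (keyFq K M) hEM
  have hπV : Irreducible (⟨algebraMap K ↥(keyFq K M) (algebraMap R K π),
      newAbel_algebraMap_mem_keyFqWinf M π⟩ : ↥(keyFqWinf R K M)) :=
    irreducible_gaussValSubC hπ (keyFq K M) hEM
  obtain ⟨cA, hA, hcA, -, hNA⟩ := hNA
  obtain ⟨cB, hB', hcB, -, hNB⟩ := hNB
  have hNAg : hostNormA (keyFq K M) (keyFq K (M * q)) hle g =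
      algebraMap K ↥(keyFq K M) cA * hA ^ m := hNA
  have hNBg : hostNormB (keyFq K M) (keyFq K (M * q)) q hB g =
      algebraMap K ↥(keyFq K M) cB * hB' ^ m := hNB
  rw [hNAg] at hX
  rw [hNBg] at hY
  have hXu : (keyFqWinf R K M).valuation (algebraMap K ↥(keyFq K M) cA * hA ^ m) = 1 := by
    refine ntwo_val_eq_one_of_cong _ ?_ hX
    rw [map_mul, hau, hsbu, one_mul]
  have hYu : (keyFqWinf R K M).valuation (algebraMap K ↥(keyFq K M) cB * hB' ^ m) = 1 := by
    refine ntwo_val_eq_one_of_cong _ ?_ hY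
    rw [map_mul, hbu, hsau, one_mul]
  obtain ⟨h₁, hh₁⟩ := newAbel_pow_cong_const (keyFqWinf R K M) hπ
    (newAbel_algebraMap_mem_keyFqWinf M) hπV hm hroot hcA hXu
  obtain ⟨h₂, hh₂⟩ := newAbel_pow_cong_const (keyFqWinf R K M) hπ
    (newAbel_algebraMap_mem_keyFqWinf M) hπV hm hroot hcB hYu
  exact newAbel_key_rel (sM := sM) hF.mem_VM hm hau hbu (ntwo_val_trans _ hh₁ hX)
    (ntwo_val_trans _ hh₂ hY)

end Main

end Fermat.Agent.RB
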