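/-
RB — lead — **[NEW-ABEL], part 2: FINPIC on the reduced Legendre host.**

`A ∣ q` a place of `Ω = ℚ̄`, `φ` a Frobenius element at `A`, `Φ₂` the reduction of `φ²` on the
reduced Legendre host `legEt` of level `M` (`q ∤ M`, `q` odd).  For a prime `p` there is `c₁` such
that for every `k` and every `ā ≠ 0` in `legEt` all of whose orders are divisible by `p ^ k` and with
`Φ₂ ā = ā · ū ^ (p ^ k)`, the function `ā ^ (p ^ c₁)` is a `p ^ k`-th power
(helper6's FINPIC (F2) `exists_pow_eq_pow_of_frobFixed`, in the setting of helper1's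
`MW.exists_nsmul_mem_kerRed_leg`).
-/
import Mathlib
import Fermat.Agent.S35.FINPIC_helper6_Main
import Fermat.Agent.MW.DIV_helper1_Leg

set_option autoImplicit false
set_option linter.unusedSectionVars false
set_option linter.unusedVariables false
set_option linter.style.haveILetI false

namespace Fermat.Agent.RB

open Polynomial AlgebraicCurve ModularCurve IsLocalRing IntermediateField
open Fermat.Agent.FF Fermat.Agent.FF.RR Fermat.Agent.FG Fermat.Agent.JA Fermat.Agent.SS
  Fermat.Agent.S35 Fermat.Agent.MW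

/-- `Ω = AlgebraicClosure ℚ`. -/
local notation "Ω" => AlgebraicClosure ℚ

/-- the absolute Galois group. -/
local notation "GQ" => (AlgebraicClosure ℚ ≃ₐ[ℚ] AlgebraicClosure ℚ)

section Coord

variable {k κ : Type*} [Field k] [IsAlgClosed k] [Field κ] [Algebra k κ]

/-- FINPIC (F2) for a separating coordinate. -/
theorem newAbel_exists_pow_of_coord (c : Coord k κ)
    (hsep : Algebra.IsSeparable k⟮c.x⟯ κ)
    (φ : κ ≃+* κ) (σ : k ≃+* k)
    (h : ∀ a : k, φ (algebraMap k κ a) = algebraMap k κ (σ a))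
    (hx : φ c.x = c.x)
    (hfix : ∀ i : ℕ, 1 ≤ i → {a : k | (⇑σ)^[i] a = a}.Finite)
    (P₀ : Place k κ) (hP₀ : semiMap φ σ h P₀ = P₀) (p : ℕ) (hp : p.Prime) :
    ∃ c₁ : ℕ, ∀ (n : ℕ) (f : κ), f ≠ 0 → (∀ v : Place k κ, ((p : ℤ) ^ n) ∣ v.ord f) →
      (∃ g : κ, φ f = f * g ^ (p ^ n)) → ∃ h' : κ, f ^ (p ^ c₁) = h' ^ (p ^ n) := by
  obtain ⟨i1, i2, i3, i4, i5, i6, i7, hxF⟩ := exists_typeclass_setting_of_isSeparable c hsep
  exact exists_pow_eq_pow_of_frobFixed φ σ h (by rw [hxF]; exact hx) hfix P₀ hP₀ p hp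

end Coord

section Leg

variable {q : ℕ} [Fact q.Prime] {A : ValuationSubring Ω} (hA : A.LiesOverPrime q)
  (M : ℕ) [NeZero M] (hqM : ¬ q ∣ M) (hq2 : q ≠ 2)

/-- the square of a Frobenius element lies in the decomposition group. -/
theorem newAbel_sq_mem_decomp {φ : GQ} (hφ : A.IsFrobeniusAt φ q) :
    φ * φ ∈ A.decompositionSubgroup ℚ :=
  mul_mem hφ.mem_decompositionSubgroup hφ.mem_decompositionSubgroup

/-- a Frobenius element acts as the `q`-th power on the residue field. -/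
theorem newAbel_residue_frob {φ : GQ} (hφ : A.IsFrobeniusAt φ q) (a : ↥A) (ha : φ (a : Ω) ∈ A) :
    residue ↥A ⟨φ (a : Ω), ha⟩ = residue ↥A a ^ q := by
  have h := hφ.smul_residue_eq (residue ↥A a)
  rw [← IsLocalRing.ResidueField.residue_smul] at h
  rw [← h]
  rfl

/-- **FINPIC on the reduced Legendre host**, for the reduction of the square of a Frobenius. -/
theorem newAbel_legEt_pow {φ : GQ} (hφ : A.IsFrobeniusAt φ q) (p : ℕ) (hp : p.Prime) :
    ∃ c₁ : ℕ, ∀ (n : ℕ) (f : legEt hA M hq2), f ≠ 0 →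
      (∀ v : Place (ResidueField ↥A) (legEt hA M hq2), ((p : ℤ) ^ n) ∣ v.ord f) →
      (∃ g : legEt hA M hq2,
        redAutOf (legGoodRed hA M hqM hq2)
          (legGoodRed_isAut hA M hqM hq2 (newAbel_sq_mem_decomp hφ)) • f = f * g ^ (p ^ n)) →
      ∃ h' : legEt hA M hq2, f ^ (p ^ c₁) = h' ^ (p ^ n) := by
  haveI : IsAlgClosed (ResidueField ↥A) := isAlgClosed_residueField A
  set X := legGoodRed hA M hqM hq2 with hX
  have hg := legGoodRed_isAut hA M hqM hq2 (newAbel_sq_mem_decomp hφ)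
  set Φ := redAutOf X hg with hΦ
  have hq1 : 1 < q := (Fact.out : q.Prime).one_lt
  have hσ : ∀ c : ResidueField ↥A, SemilinearAut.baseAut Φ c = c ^ (q ^ 2) := by
    intro c
    obtain ⟨a, rfl⟩ := residue_surjective c
    rw [hΦ, baseAut_redAutOf_residue]
    have h1 : φ (a : Ω) ∈ A :=
      (apply_mem_iff_of_mem_decompositionSubgroup hφ.mem_decompositionSubgroup (a : Ω)).mpr a.2
    have h2 : φ (φ (a : Ω)) ∈ A :=
      (apply_mem_iff_of_mem_decompositionSubgroup hφ.mem_decompositionSubgroup _).mpr h1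
    have e1 : residue ↥A ⟨φ (φ (a : Ω)), h2⟩ = residue ↥A a ^ (q ^ 2) := by
      rw [newAbel_residue_frob hφ ⟨φ (a : Ω), h1⟩ h2, newAbel_residue_frob hφ a h1, ← pow_mul,
        pow_two]
    rw [← e1]
    rfl
  exact newAbel_exists_pow_of_coord
    (⟨X.τb, X.transcendental_τb, X.τ_finite_red⟩ : Coord (ResidueField ↥A) (legEt hA M hq2))
    X.τ_separable_red (SemilinearAut.toRingAut Φ) (SemilinearAut.baseAut Φ)
    (SemilinearAut.commutes Φ) (redAutOf_smul_τb X hg)
    (frobLike_fixed_finite (SemilinearAut.baseAut Φ) (q ^ 2) hσ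
      (Nat.one_lt_pow (by norm_num) hq1))
    X.cuspb (semiMap_redAutOf_cuspb X hg) p hp

end Leg

end Fermat.Agent.RB
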