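/-
RB — lead — **[NEW-ABEL] (helper6's package [NEW-TORIC], leaf L4): `legNewAbelQ : LegNewAbelQ`.**

Over the unramified small base `K'` (stable under the decomposition group of `A`), with
`τ' = φ|K'` for a Frobenius element `φ` at `A`:
(i)   `NEWT_lead_AbelF`  : `u ^ r ≡ s (s a) / a` on `V_M(K')`, `u` a unit (`s` = coefficientwise `τ'`);
(ii)  here: reduction to the reduced Legendre host: `Φ₂ ā = ā · ū ^ r` (`Φ₂` = reduction of `φ²`);
(iii) `NEWT_lead_AbelRed`: FINPIC ⇒ `ā ^ (p ^ c₁)` is an `r`-th power, `c₁ = c₁(M, q, p, A)`.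
-/
import Mathlib
import Fermat.Agent.RB.NEWT_helper6_Hyp
import Fermat.Agent.RB.NEWT_lead_AbelF
import Fermat.Agent.RB.NEWT_lead_AbelRed
import Fermat.Agent.RB.NEWT_lead_AbelBase
import Fermat.Agent.S35.XPORT_helper7_Main
import Fermat.Agent.MP.REDINF_helper8_Host
import Fermat.Agent.JA.O1_helper2_Compat

set_option autoImplicit false
set_option linter.unusedSectionVars false
set_option linter.unusedVariables false
set_option linter.style.haveILetI false
set_option synthInstance.maxHeartbeats 400000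

open HahnSeries IntermediateField AlgebraicCurve ModularCurve IsLocalRing

namespace Fermat.Agent.RB

open Fermat.Agent.JA Fermat.Agent.FF Fermat.Agent.SS Fermat.Agent.S35 Fermat.Agent.MP
  Fermat.Agent.NP Fermat.Agent.GR Fermat.Agent.FG Fermat.Agent.X0N Fermat.Agent.MW

open scoped Fermat.Agent.JA.Host

/-- `Ω = AlgebraicClosure ℚ`. -/
local notation "Ω" => AlgebraicClosure ℚ

/-- the absolute Galois group. -/
local notation "GQ" => (AlgebraicClosure ℚ ≃ₐ[ℚ] AlgebraicClosure ℚ)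

section Transport

variable {q : ℕ} [Fact q.Prime] {A : ValuationSubring Ω} (hA : A.LiesOverPrime q)
  (M : ℕ) [NeZero M] (hq2 : q ≠ 2) (K' : IntermediateField ℚ Ω)
  [IsDiscreteValuationRing ↥(baseRing A K')] [CharZero ↥(baseRing A K')]
  (h2 : IsUnit (2 : ↥(baseRing A K')))

/-- `F_M(K') → F_M(Ω) → E_M(Ω)` is `F_M(K') → E_M(K') → E_M(Ω)`. -/
theorem newAbel_theta_eq (z : ↥(keyFq ↥K' M)) :
    fullToLegE Ω M (keyFqBC M K' z) = legBC M K' (fullToLegE ↥K' M z) :=
  (legBC_fullToLegE M K' z).symm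

/-- `W_∞` of the Legendre host over `K'` restricted to the level field. -/
theorem newAbel_legWinf_comap :
    (legWinf ↥(baseRing A K') ↥K' h2 M).comap
        (fullToLegE ↥K' M : ↥(keyFq ↥K' M) →+* ↥(legE ↥K' M)) =
      keyFqWinf ↥(baseRing A K') ↥K' M := by
  ext f
  exact xport_qExpand_mem_gaussInt_iff ↥(baseRing A K') ↥K' 2 M f

/-- integral functions of the level field over `K'` are integral on the host over `K'`. -/
theorem newAbel_mem_legWinf {z : ↥(keyFq ↥K' M)}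
    (hz : z ∈ keyFqWinf ↥(baseRing A K') ↥K' M) :
    fullToLegE ↥K' M z ∈ legWinf ↥(baseRing A K') ↥K' h2 M :=
  (comap_mem_iff _ (newAbel_legWinf_comap M K' h2) z).2 hz

include h2 in
/-- integral functions of the level field over `K'` are integral on the host over `Ω`. -/
theorem newAbel_theta_mem {z : ↥(keyFq ↥K' M)} (hz : z ∈ keyFqWinf ↥(baseRing A K') ↥K' M) :
    fullToLegE Ω M (keyFqBC M K' z) ∈ legWE hA M hq2 := by
  rw [newAbel_theta_eq]
  exact legBC_mem_legWE_of_mem_legWinf hA M hq2 K' h2 _ (newAbel_mem_legWinf M K' h2 hz)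

/-- the reduction of an integral function of the level field over `K'`. -/
theorem newAbel_legρ_eq {z : ↥(keyFq ↥K' M)} (hz : z ∈ keyFqWinf ↥(baseRing A K') ↥K' M)
    (hW : fullToLegE Ω M (keyFqBC M K' z) ∈ legWE hA M hq2) :
    legρ hA M hq2 ⟨fullToLegE Ω M (keyFqBC M K' z), hW⟩ =
      legRhoBase hA M hq2 K' h2 ⟨fullToLegE ↥K' M z, newAbel_mem_legWinf M K' h2 hz⟩ := by
  rw [legRhoBase_apply]
  congr 1
  exact Subtype.ext (newAbel_theta_eq M K' z)

include h2 in
/-- the reduction vanishes exactly on the functions of valuation `< 1`. -/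
theorem newAbel_legρ_eq_zero_iff {z : ↥(keyFq ↥K' M)}
    (hz : z ∈ keyFqWinf ↥(baseRing A K') ↥K' M)
    (hW : fullToLegE Ω M (keyFqBC M K' z) ∈ legWE hA M hq2) :
    legρ hA M hq2 ⟨fullToLegE Ω M (keyFqBC M K' z), hW⟩ = 0 ↔
      (keyFqWinf ↥(baseRing A K') ↥K' M).valuation z < 1 := by
  rw [newAbel_legρ_eq hA M hq2 K' h2 hz hW, legRhoBase_eq_zero_iff]
  exact comap_val_lt_one_iff _ (newAbel_legWinf_comap M K' h2) z

/-- the coefficientwise action of `τ' = φ|K'` on the level field over `K'` is the Galois action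
of `φ` on the host over `Ω`. -/
theorem newAbel_theta_galois (φ : GQ) (τ' : ↥K' ≃ₐ[ℚ] ↥K')
    (hτφ : ∀ a : ↥K', algebraMap ↥K' Ω (τ' a) = φ (algebraMap ↥K' Ω a)) (z : ↥(keyFq ↥K' M)) :
    fullToLegE Ω M (keyFqBC M K' (coeffRingAut (coeffStable_keyFq ↥K' M) τ' z)) =
      legGalois Ω M φ • fullToLegE Ω M (keyFqBC M K' z) := by
  rw [newAbel_theta_eq, newAbel_theta_eq]
  have h1 : fullToLegE ↥K' M (coeffRingAut (coeffStable_keyFq ↥K' M) τ' z) =
      coeffRingAut (coeffStable_legE ↥K' M) τ' (fullToLegE ↥K' M z) := by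
    apply Subtype.ext
    rw [coe_fullToLegE, coe_coeffRingAut_apply, coe_coeffRingAut_apply, coe_fullToLegE,
      coeffMap_qExpand]
  rw [h1]
  exact coeffHom_coeffGalois_smul (algebraMap ↥K' Ω) (coeffStable_legE ↥K' M)
    (coeffStable_legE Ω M) _ hτφ (fullToLegE ↥K' M z)

end Transport

set_option maxHeartbeats 3200000 in
/-- **[NEW-ABEL]**. -/
theorem legNewAbelQ : LegNewAbelQ := by
  intro M _ q _ _ _ hq2 hqM p hp hpq A hA
  have hq : q.Prime := Fact.out
  obtain ⟨φ, hφ⟩ := Fermat.Agent.TW.Kill.exists_isFrobeniusAt A hq hA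
  obtain ⟨c₁, hc₁⟩ := newAbel_legEt_pow hA M hqM hq2 hφ p hp
  refine ⟨c₁, ?_⟩
  intro K' _ hK' hunr hstab x y hbez k g hginf hg0 hNA hNB a ha hW hord
  classical
  haveI : CharZero ↥(baseRing A K') := charZero_valuationSubring_of_algebraRat _
  have h2 : IsUnit (2 : ↥(baseRing A K')) := isUnit_ofNat_baseRing hA K' Nat.prime_two hq2
  letI := baseToComplex K'
  have hdec := hφ.mem_decompositionSubgroup
  have hs1 : ∀ z ∈ K', φ z ∈ K' := hstab φ hdec
  have hs2 : ∀ z ∈ K', φ⁻¹ z ∈ K' := hstab φ⁻¹ (inv_mem hdec)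
  set τ' := newAbelRes K' φ hs1 hs2 with hτ'
  set τR : ↥(baseRing A K') →+* ↥(baseRing A K') :=
    (newAbelBaseAut K' φ hs1 hs2 hφ : ↥(baseRing A K') →+* ↥(baseRing A K')) with hτR
  have hτ : ∀ r : ↥(baseRing A K'), τ' (algebraMap ↥(baseRing A K') ↥K' r) =
      algebraMap ↥(baseRing A K') ↥K' (τR r) :=
    fun r => newAbelRes_algebraMap_base K' φ hs1 hs2 hφ r
  have hqmem : ((q : ℕ) : ↥(baseRing A K')) ∈ maximalIdeal ↥(baseRing A K') := by
    rw [hunr.maximalIdeal_eq]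
    exact Ideal.subset_span rfl
  have hchar : ((q : ℕ) : ResidueField ↥(baseRing A K')) = 0 := by
    rw [← map_natCast (residue ↥(baseRing A K')), residue_eq_zero_iff]
    exact hqmem
  have hfrobπ := newAbelBaseAut_sub_pow_mem K' φ hs1 hs2 hφ hunr
  have hfrob' : ∀ r : ↥(baseRing A K'), τR r - r ^ q ∈ maximalIdeal ↥(baseRing A K') :=
    fun r => newAbelBaseAut_sub_pow_mem_maximalIdeal K' φ hs1 hs2 hφ r
  have hbij : Function.Bijective τR := (newAbelBaseAut K' φ hs1 hs2 hφ).bijective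
  have hm : 0 < p ^ k := pow_pos hp.pos k
  haveI : IsAlgClosed (ResidueField ↥(baseRing A K')) := hK'.isAlgClosed_residueField hA
  have hroot : ∀ ε : ↥(baseRing A K'), IsUnit ε →
      ∃ ε₀ : ↥(baseRing A K'), ε - ε₀ ^ (p ^ k) ∈ maximalIdeal ↥(baseRing A K') := by
    intro ε hε
    obtain ⟨z, hz⟩ := IsAlgClosed.exists_pow_nat_eq (residue ↥(baseRing A K') ε) hm
    obtain ⟨ε₀, rfl⟩ := residue_surjective z
    refine ⟨ε₀, ?_⟩
    rw [← residue_eq_zero_iff, map_sub, map_pow, hz, sub_self]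
  -- (i) the F-level norm step
  obtain ⟨u, hu1, hu2⟩ := newAbel_keyFq_normKey_gen (algebraMap ↥K' ℂ) hbez hq τ' τR hτ hqM hchar
    hunr hfrobπ hbij hm hroot hginf hg0 hNA hNB a ha
  -- memberships
  haveI : CharP (ResidueField ↥(baseRing A K')) q := charP_of_prime_of_natCast_eq_zero hq hchar
  haveI : ExpChar (ResidueField ↥(baseRing A K')) q := ExpChar.prime hq
  set V := keyFqWinf ↥(baseRing A K') ↥K' M with hV
  set s := coeffRingAut (coeffStable_keyFq ↥K' M) τ' with hs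
  have hcA : (keyFqWinf ↥(baseRing A K') ↥K' (M * q)).comap
      (keyFqA ↥K' M q : ↥(keyFq ↥K' M) →+* ↥(keyFq ↥K' (M * q))) = V :=
    comap_hostA_gaussValSub (R := ↥(baseRing A K')) (keyFq ↥K' M) (keyFq ↥K' (M * q))
      (keyFq_le_of_dvd ↥K' (dvd_mul_right M q))
      (laurentBaseChange_full_le_gaussField ↥(baseRing A K') ↥K' M)
      (laurentBaseChange_full_le_gaussField ↥(baseRing A K') ↥K' (M * q))
  have hau : V.valuation a = 1 := by
    rw [← ntwo_comap_eq_one hcA]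
    exact ntwo_val_eq_one_of_cong _ hginf (ntwo_val_symm _ ha)
  have haV : a ∈ V := ntwo_mem_of_val_eq_one _ hau
  have huV : u ∈ V := ntwo_mem_of_val_eq_one _ hu1
  have hsV : ∀ z : ↥(keyFq ↥K' M), z ∈ V ↔ s z ∈ V :=
    fun z => keyFq_mem_Winf_iff τ' τR hτ hfrob' M z
  have hssaV : s (s a) ∈ V := (hsV _).1 ((hsV _).1 haV)
  have ha0 : a ≠ 0 := by
    rintro rfl
    simp at hau
  -- the difference
  have hd : V.valuation (u ^ (p ^ k) * a - s (s a)) < 1 := by
    have e : u ^ (p ^ k) * a - s (s a) = a * (u ^ (p ^ k) - s (s a) / a) := by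
      field_simp
    rw [e]
    exact ntwo_val_mul_lt V haV hu2
  have hdV : u ^ (p ^ k) * a - s (s a) ∈ V := ntwo_mem_of_val_lt_one V hd
  -- (ii) reduction
  have hWu := newAbel_theta_mem hA M hq2 K' h2 huV
  have hWssa := newAbel_theta_mem hA M hq2 K' h2 hssaV
  have hWd := newAbel_theta_mem hA M hq2 K' h2 hdV
  set abar := legρ hA M hq2 ⟨fullToLegE Ω M (keyFqBC M K' a), hW⟩ with habar
  set ubar := legρ hA M hq2 ⟨fullToLegE Ω M (keyFqBC M K' u), hWu⟩ with hubar
  have h0 := (newAbel_legρ_eq_zero_iff hA M hq2 K' h2 hdV hWd).2 hd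
  have hred : ubar ^ (p ^ k) * abar =
      legρ hA M hq2 ⟨fullToLegE Ω M (keyFqBC M K' (s (s a))), hWssa⟩ := by
    have e : (⟨fullToLegE Ω M (keyFqBC M K' (u ^ (p ^ k) * a - s (s a))), hWd⟩ :
        ↥(legWE hA M hq2)) =
        ⟨fullToLegE Ω M (keyFqBC M K' u), hWu⟩ ^ (p ^ k) *
          ⟨fullToLegE Ω M (keyFqBC M K' a), hW⟩ -
          ⟨fullToLegE Ω M (keyFqBC M K' (s (s a))), hWssa⟩ := by
      apply Subtype.ext
      simp only [map_sub, map_mul, map_pow]
      rfl
    rw [e, map_sub, map_mul, map_pow, sub_eq_zero] at h0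
    exact h0
  have habar0 : abar ≠ 0 := by
    intro h1
    have := (newAbel_legρ_eq_zero_iff hA M hq2 K' h2 haV hW).1 h1
    rw [hau] at this
    exact lt_irrefl _ this
  -- the Galois action
  have hτφ : ∀ c : ↥K', algebraMap ↥K' Ω (τ' c) = φ (algebraMap ↥K' Ω c) := fun c => rfl
  have hgal : fullToLegE Ω M (keyFqBC M K' (s (s a))) =
      legGalois Ω M (φ * φ) • fullToLegE Ω M (keyFqBC M K' a) := by
    rw [map_mul, mul_smul, ← newAbel_theta_galois M K' φ τ' hτφ a,
      ← newAbel_theta_galois M K' φ τ' hτφ (s a)]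
  have hΦ : redAutOf (legGoodRed hA M hqM hq2)
      (legGoodRed_isAut hA M hqM hq2 (newAbel_sq_mem_decomp hφ)) • abar =
      abar * ubar ^ (p ^ k) := by
    have h1 := redAutOf_smul (legGoodRed hA M hqM hq2)
      (legGoodRed_isAut hA M hqM hq2 (newAbel_sq_mem_decomp hφ))
      ⟨fullToLegE Ω M (keyFqBC M K' a), hW⟩
    rw [mul_comm, hred]
    refine h1.trans ?_
    show legρ hA M hq2 _ = legρ hA M hq2 _
    congr 1
    exact Subtype.ext hgal.symm
  -- (iii) FINPIC
  refine hc₁ k abar habar0 (fun v => ?_) ⟨ubar, hΦ⟩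
  have := hord v
  rwa [Nat.cast_pow] at this

end Fermat.Agent.RB
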