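/-
RB — helper7 — **[NEW-TORIC] [HALF∞]-NEW, closed**: `legNewInfQ : LegNewInfQ`
(`legNewInfQ_of` applied to lead's `legNewAbelQ`).
-/
import Mathlib
import Fermat.Agent.RB.NEWT_helper7_InfQ
import Fermat.Agent.RB.NEWT_lead_Abel

set_option autoImplicit false

namespace Fermat.Agent.RB

/-- **[HALF∞]-NEW.** -/
theorem legNewInfQ : LegNewInfQ := legNewInfQ_of legNewAbelQ

end Fermat.Agent.RB
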