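/-
RB — helper7 — **[NEW-TORIC], closed wiring**:
`newToricAtStatement_of_dict_delta : LegNewDictQ → LegNewDeltaQ → NewToricAtStatement`
(`newDescQ` + `legNewInfQ` + `legNewBaseQ_of` + `newToricAtStatement_of_parts`).
-/
import Mathlib
import Fermat.Agent.RB.NEWT_helper7_Asm
import Fermat.Agent.RB.NEWT_helper7_Desc
import Fermat.Agent.RB.NEWT_helper7_InfQT
import Fermat.Agent.RB.NEWT_helper7_BaseQMain

set_option autoImplicit false

namespace Fermat.Agent.RB

/-- **[BASE]-NEW from (D1) and (D2).** -/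
theorem legNewBaseQ_of_dict_delta (HD1 : LegNewDictQ) (HD2 : LegNewDeltaQ) : LegNewBaseQ :=
  legNewBaseQ_of HD1 HD2 legNewInfQ

/-- **[NODE-I] at every place from (D1) and (D2).** -/
theorem newToricAtStatement_of_dict_delta (HD1 : LegNewDictQ) (HD2 : LegNewDeltaQ) :
    NewToricAtStatement :=
  newToricAtStatement_of_parts newDescQ (legNewBaseQ_of_dict_delta HD1 HD2)

end Fermat.Agent.RB
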