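/-
RB [BB3] = (KEY-H), package B/E — helper8 — **the resolvent generates the level-raising extension.**

* `adjoin_eq_top_of_smul_ne` : a finite group `G` acting on a field `L`, `u ∈ L` with trivial
  stabiliser ⇒ `L = L^G(u)` (Galois correspondence);
* `laurentBaseChange_raise_le_sup` : `k·F₁(M' r, 1) ≤ k·F₁(M', r) ⊔ k(u)`, `u = uSer ψ` the resolvent
  of a faithful character `ψ` of `(ℤ/r)ˣ` (helper5's `diaRAction`, `mem_F₁_raise_of_diaR_fixed` +
  `diaR_uSer`);
* `legEL_raise_eq_sup` : on helper7's hosts, `legEL K (M' r) 1 = legEL K M' r ⊔ K(u(x²))`;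
* `adjoin_eq_top_of_eq_sup` : the inclusion-algebra form `(↥A)⟮u⟯ = ⊤` of `B = A ⊔ K(u)`, and
  `legEL_raise_adjoin_eq_top`;
* `ringHom_ext_legEL_raise` : ring homomorphisms out of `E''` are determined on `EN₁` and `u`.
-/
import Mathlib
import Fermat.Agent.RB.FIELD1_helper8_Bridge
import Fermat.Agent.RB.FIELD1_helper5_Host
import Fermat.Agent.RB.VAL_helper8_Host

set_option autoImplicit false
set_option linter.unusedSectionVars false
set_option linter.unusedVariables false
set_option linter.style.haveILetI false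
set_option synthInstance.maxHeartbeats 400000

open HahnSeries IntermediateField AlgebraicCurve ModularCurve

namespace Fermat.Agent.RB

open Fermat.Agent.JA Fermat.Agent.Igusa Fermat.Agent.W1

open scoped Fermat.Agent.JA.Host

noncomputable section

section Abstract

/-- a finite group acting on a field, `u` with trivial stabiliser: `u` generates the field over the
fixed field. -/
theorem adjoin_eq_top_of_smul_ne {G L : Type*} [Group G] [Finite G] [Field L]
    [MulSemiringAction G L] (u : L) (hu : ∀ g : G, g • u = u → g = 1) :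
    IntermediateField.adjoin ↥(FixedPoints.subfield G L) {u} = ⊤ := by
  haveI : IsGalois ↥(FixedPoints.subfield G L) L := IsGalois.of_fixed_field L G
  haveI : FiniteDimensional ↥(FixedPoints.subfield G L) L := inferInstance
  have h1 : (IntermediateField.adjoin ↥(FixedPoints.subfield G L) {u}).fixingSubgroup = ⊥ := by
    rw [eq_bot_iff]
    intro τ hτ
    obtain ⟨g, rfl⟩ := FixedPoints.toAlgAut_surjective G L τ
    have h2 : g • u = u :=
      (IntermediateField.mem_fixingSubgroup_iff _ _).mp hτ u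
        (IntermediateField.mem_adjoin_simple_self _ u)
    rw [hu g h2, map_one]
    exact Subgroup.mem_bot.mpr rfl
  rw [← IsGalois.fixedField_fixingSubgroup
    (IntermediateField.adjoin ↥(FixedPoints.subfield G L) {u}), h1,
    IntermediateField.fixedField_bot]

/-- the inclusion-algebra form of `B = A ⊔ K(u)`. -/
theorem adjoin_eq_top_of_eq_sup {K₁ H : Type*} [Field K₁] [Field H] [Algebra K₁ H]
    {A B : IntermediateField K₁ H} [hAB : Fact (A ≤ B)] (u : ↥B)
    (hB : B ≤ A ⊔ K₁⟮(u : H)⟯) : IntermediateField.adjoin ↥A {u} = ⊤ := by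
  set L : IntermediateField ↥A ↥B := IntermediateField.adjoin ↥A {u} with hL
  -- the image of `L` in `H`
  set T : IntermediateField K₁ H := (L.restrictScalars K₁).map B.val with hT
  have hAT : A ≤ T := by
    intro a ha
    refine ⟨algebraMap ↥A ↥B ⟨a, ha⟩, ?_, rfl⟩
    exact L.algebraMap_mem _
  have huT : (u : H) ∈ T := ⟨u, IntermediateField.mem_adjoin_simple_self ↥A u, rfl⟩
  have hBT : B ≤ T := by
    refine hB.trans (sup_le hAT ?_)
    rw [IntermediateField.adjoin_simple_le_iff]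
    exact huT
  rw [eq_top_iff]
  rintro ⟨b, hb⟩ -
  obtain ⟨l, hl, hlb⟩ := hBT hb
  have : l = ⟨b, hb⟩ := Subtype.ext hlb
  rw [← this]
  exact hl

end Abstract

section Concrete

variable {k : Type*} [Field k] [Algebra ℚ k] [Algebra k ℂ] [IsScalarTower ℚ k ℂ]
  {M' r : ℕ} [NeZero M'] [NeZero r] [NeZero (M' * r)] {x y : ℤ}

/-- the stabiliser of the resolvent of a faithful character is trivial. -/
theorem eq_one_of_diaR_uSer_eq (h : (r : ℤ) * x + M' * y = 1) (hM' : 3 ≤ M')
    (hr : r.Prime) (hcop : Nat.Coprime M' r) (ψ : MulChar (ZMod r) k)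
    (hψ : Function.Injective fun d : (ZMod r)ˣ => ψ (d : ZMod r)) (s : (ZMod r)ˣ)
    (hs : diaR M' r hcop s ⟨uSer k M' r x y ψ, uSer_mem_raise h (by omega) ψ⟩ =
      ⟨uSer k M' r x y ψ, uSer_mem_raise h (by omega) ψ⟩) : s = 1 := by
  haveI : Fact (1 < r) := ⟨hr.one_lt⟩
  set U : ↥(laurentBaseChange k (F₁ (M' * r) 1)) :=
    ⟨uSer k M' r x y ψ, uSer_mem_raise h (by omega) ψ⟩ with hU
  have hU0 : U ≠ 0 := fun h0 => uSer_ne_zero_rb hM' h ψ (congrArg Subtype.val h0)
  rw [hU, diaR_uSer h (by omega) hcop ψ s] at hs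
  have h1 : algebraMap k ↥(laurentBaseChange k (F₁ (M' * r) 1)) (ψ⁻¹ (s : ZMod r)) = 1 := by
    have h2 := hs
    rw [← hU] at h2
    exact mul_right_cancel₀ hU0 (h2.trans (one_mul U).symm)
  have h3 : ψ⁻¹ (s : ZMod r) = 1 :=
    (algebraMap k ↥(laurentBaseChange k (F₁ (M' * r) 1))).injective (h1.trans (map_one _).symm)
  rw [MulChar.inv_apply_eq_inv, Ring.inverse_eq_inv', inv_eq_one] at h3
  apply hψ
  show ψ (s : ZMod r) = ψ ((1 : (ZMod r)ˣ) : ZMod r)
  rw [h3, Units.val_one, map_one]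

/-- **`k·F₁(M' r, 1) = (k·F₁(M' r, 1))^{(ℤ/r)ˣ}(u)`**. -/
theorem adjoin_uSer_eq_top (h : (r : ℤ) * x + M' * y = 1) (hM' : 3 ≤ M')
    (hr : r.Prime) (hcop : Nat.Coprime M' r) (ψ : MulChar (ZMod r) k)
    (hψ : Function.Injective fun d : (ZMod r)ˣ => ψ (d : ZMod r)) :
    letI := diaRAction (k := k) M' r hcop
    IntermediateField.adjoin ↥(FixedPoints.subfield (ZMod r)ˣ
      ↥(laurentBaseChange k (F₁ (M' * r) 1)))
      {(⟨uSer k M' r x y ψ, uSer_mem_raise h (by omega) ψ⟩ :
        ↥(laurentBaseChange k (F₁ (M' * r) 1)))} = ⊤ := by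
  letI := diaRAction (k := k) M' r hcop
  exact adjoin_eq_top_of_smul_ne (G := (ZMod r)ˣ) _
    (fun s hs => eq_one_of_diaR_uSer_eq h hM' hr hcop ψ hψ s hs)

/-- ring homomorphisms out of `k·F₁(M' r, 1)` are determined by their values on `k·F₁(M', r)` and
on the resolvent `u`. -/
theorem ringHom_ext_laurentBaseChange_raise (h : (r : ℤ) * x + M' * y = 1) (hM' : 3 ≤ M')
    (hr : r.Prime) (hcop : Nat.Coprime M' r) (ψ : MulChar (ZMod r) k)
    (hψ : Function.Injective fun d : (ZMod r)ˣ => ψ (d : ZMod r))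
    {X : Type*} [Field X] (a b : ↥(laurentBaseChange k (F₁ (M' * r) 1)) →+* X)
    (hE : ∀ z : ↥(laurentBaseChange k (F₁ (M' * r) 1)),
      (z : LaurentSeries k) ∈ laurentBaseChange k (F₁ M' r) → a z = b z)
    (hab : a ⟨uSer k M' r x y ψ, uSer_mem_raise h (by omega) ψ⟩ =
      b ⟨uSer k M' r x y ψ, uSer_mem_raise h (by omega) ψ⟩) : a = b := by
  classical
  have hM1 : M' ≠ 1 := by omega
  letI := diaRAction (k := k) M' r hcop
  have htop := adjoin_uSer_eq_top h hM' hr hcop ψ hψ
  ext z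
  have hz : z ∈ IntermediateField.adjoin ↥(FixedPoints.subfield (ZMod r)ˣ
      ↥(laurentBaseChange k (F₁ (M' * r) 1)))
      {(⟨uSer k M' r x y ψ, uSer_mem_raise h (by omega) ψ⟩ :
        ↥(laurentBaseChange k (F₁ (M' * r) 1)))} := by
    rw [htop]; exact IntermediateField.mem_top
  induction hz using IntermediateField.adjoin_induction with
  | mem w hw =>
    rw [Set.mem_singleton_iff] at hw
    rw [hw]; exact hab
  | algebraMap w =>
    apply hE
    apply mem_F₁_raise_of_diaR_fixed M' r hcop hM1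
    intro s
    exact w.2 s
  | add w w' _ _ hw hw' => rw [map_add, map_add, hw, hw']
  | inv w _ hw => rw [map_inv₀, map_inv₀, hw]
  | mul w w' _ _ hw hw' => rw [map_mul, map_mul, hw, hw']

/-- **`k·F₁(M' r, 1) ≤ k·F₁(M', r) ⊔ k(u)`** for the resolvent of a faithful character. -/
theorem laurentBaseChange_raise_le_sup (h : (r : ℤ) * x + M' * y = 1) (hM' : 3 ≤ M')
    (hr : r.Prime) (hcop : Nat.Coprime M' r) (ψ : MulChar (ZMod r) k)
    (hψ : Function.Injective fun d : (ZMod r)ˣ => ψ (d : ZMod r)) :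
    laurentBaseChange k (F₁ (M' * r) 1) ≤
      laurentBaseChange k (F₁ M' r) ⊔ k⟮uSer k M' r x y ψ⟯ := by
  classical
  have hM1 : M' ≠ 1 := by omega
  letI := diaRAction (k := k) M' r hcop
  set U : ↥(laurentBaseChange k (F₁ (M' * r) 1)) :=
    ⟨uSer k M' r x y ψ, uSer_mem_raise h (by omega) ψ⟩ with hU
  have htop := adjoin_uSer_eq_top h hM' hr hcop ψ hψ
  -- the intermediate field of `L / L^G` cut out by the right-hand side
  set RHS : IntermediateField k (LaurentSeries k) :=
    laurentBaseChange k (F₁ M' r) ⊔ k⟮uSer k M' r x y ψ⟯ with hRHS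
  let T : IntermediateField ↥(FixedPoints.subfield (ZMod r)ˣ
      ↥(laurentBaseChange k (F₁ (M' * r) 1))) ↥(laurentBaseChange k (F₁ (M' * r) 1)) :=
    { carrier := {z | (z : LaurentSeries k) ∈ RHS}
      mul_mem' := fun {a b} ha hb => RHS.mul_mem ha hb
      add_mem' := fun {a b} ha hb => RHS.add_mem ha hb
      inv_mem' := fun a ha => RHS.inv_mem ha
      algebraMap_mem' := by
        intro c
        show ((c : ↥(laurentBaseChange k (F₁ (M' * r) 1))) : LaurentSeries k) ∈ RHS
        refine (le_sup_left : laurentBaseChange k (F₁ M' r) ≤ RHS) ?_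
        apply mem_F₁_raise_of_diaR_fixed M' r hcop hM1
        intro s
        exact c.2 s }
  have hUT : U ∈ T := by
    show ((U : ↥(laurentBaseChange k (F₁ (M' * r) 1))) : LaurentSeries k) ∈ RHS
    exact (le_sup_right : k⟮uSer k M' r x y ψ⟯ ≤ RHS)
      (IntermediateField.mem_adjoin_simple_self k _)
  have hle : IntermediateField.adjoin ↥(FixedPoints.subfield (ZMod r)ˣ
      ↥(laurentBaseChange k (F₁ (M' * r) 1))) {U} ≤ T := by
    rw [IntermediateField.adjoin_simple_le_iff]
    exact hUT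
  rw [htop] at hle
  intro z hz
  exact hle (show (⟨z, hz⟩ : ↥(laurentBaseChange k (F₁ (M' * r) 1))) ∈ ⊤ from
    IntermediateField.mem_top)

/-- **`E'' ≤ EN₁ ⊔ K(u(x²))`** on helper7's hosts. -/
theorem legEL_raise_le_sup (h : (r : ℤ) * x + M' * y = 1) (hM' : 3 ≤ M')
    (hr : r.Prime) (hcop : Nat.Coprime M' r) (ψ : MulChar (ZMod r) k)
    (hψ : Function.Injective fun d : (ZMod r)ˣ => ψ (d : ZMod r)) :
    legEL k (M' * r) 1 ≤ legEL k M' r ⊔ k⟮qExpand k 2 (uSer k M' r x y ψ)⟯ := by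
  have h1 : hostW k 2 (F₁ (M' * r) 1) ≤
      hostW k 2 (F₁ M' r) ⊔ k⟮qExpand k 2 (uSer k M' r x y ψ)⟯ := by
    have h2 := IntermediateField.map_mono (qExpandAlgHomC k 2)
      (laurentBaseChange_raise_le_sup h hM' hr hcop ψ hψ)
    rw [IntermediateField.map_sup, IntermediateField.adjoin_map, Set.image_singleton] at h2
    exact h2
  rw [legEL, legEL, legHost_eq_sup, legHost_eq_sup, sup_assoc]
  exact sup_le_sup_left h1 _

/-- **`E'' = EN₁ ⊔ K(u(x²))`.** -/
theorem legEL_raise_eq_sup (h : (r : ℤ) * x + M' * y = 1) (hM' : 3 ≤ M')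
    (hr : r.Prime) (hcop : Nat.Coprime M' r) (ψ : MulChar (ZMod r) k)
    (hψ : Function.Injective fun d : (ZMod r)ˣ => ψ (d : ZMod r)) :
    legEL k (M' * r) 1 = legEL k M' r ⊔ k⟮qExpand k 2 (uSer k M' r x y ψ)⟯ := by
  refine le_antisymm (legEL_raise_le_sup h hM' hr hcop ψ hψ) (sup_le ?_ ?_)
  · exact legEL_raise_le k M' r (by omega)
  · rw [IntermediateField.adjoin_simple_le_iff]
    exact hostW_le_legHost (K := k) (F₁ (M' * r) 1)
      (qExpand_mem_hostImage (uSer_mem_raise h (by omega) ψ))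

/-- **`EN₁(u) = E''`**, inclusion-algebra form. -/
theorem legEL_raise_adjoin_eq_top (h : (r : ℤ) * x + M' * y = 1) (hM' : 3 ≤ M')
    (hr : r.Prime) (hcop : Nat.Coprime M' r) (ψ : MulChar (ZMod r) k)
    (hψ : Function.Injective fun d : (ZMod r)ˣ => ψ (d : ZMod r))
    [Fact (legEL k M' r ≤ legEL k (M' * r) 1)] (u : ↥(legEL k (M' * r) 1))
    (hu : (u : LaurentSeries k) = qExpand k 2 (uSer k M' r x y ψ)) :
    IntermediateField.adjoin ↥(legEL k M' r) {u} = ⊤ := by
  apply adjoin_eq_top_of_eq_sup u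
  rw [hu]
  exact legEL_raise_le_sup h hM' hr hcop ψ hψ

/-- ring homomorphisms out of `E''` are determined by their values on `EN₁` and `u`. -/
theorem ringHom_ext_legEL_raise (h : (r : ℤ) * x + M' * y = 1) (hM' : 3 ≤ M')
    (hr : r.Prime) (hcop : Nat.Coprime M' r) (ψ : MulChar (ZMod r) k)
    (hψ : Function.Injective fun d : (ZMod r)ˣ => ψ (d : ZMod r))
    [Fact (legEL k M' r ≤ legEL k (M' * r) 1)] (u : ↥(legEL k (M' * r) 1))
    (hu : (u : LaurentSeries k) = qExpand k 2 (uSer k M' r x y ψ))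
    {X : Type*} [Field X] (a b : ↥(legEL k (M' * r) 1) →+* X)
    (hE : ∀ z : ↥(legEL k M' r), a (algebraMap ↥(legEL k M' r) ↥(legEL k (M' * r) 1) z) =
      b (algebraMap ↥(legEL k M' r) ↥(legEL k (M' * r) 1) z))
    (hab : a u = b u) : a = b := by
  have htop := legEL_raise_adjoin_eq_top h hM' hr hcop ψ hψ u hu
  ext z
  have hz : z ∈ IntermediateField.adjoin ↥(legEL k M' r) {u} := by
    rw [htop]; exact IntermediateField.mem_top
  induction hz using IntermediateField.adjoin_induction with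
  | mem w hw =>
    rw [Set.mem_singleton_iff] at hw
    rw [hw]; exact hab
  | algebraMap w => exact hE w
  | add w w' _ _ hw hw' => rw [map_add, map_add, hw, hw']
  | inv w _ hw => rw [map_inv₀, map_inv₀, hw]
  | mul w w' _ _ hw hw' => rw [map_mul, map_mul, hw, hw']

end Concrete

end

end Fermat.Agent.RB
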