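/-
RB [BB3] = (KEY-H), package D [SHAPE+BCH] — helper5 — part 16: two small facts on the coefficientwise
action on the hosts `EN₁ = legEL K₁ M' r ⊂ E'' = legEL K₁ (M' r) 1` (for package E):
* `coeffRingAut_algebraMap_legEL_raise` : it commutes with the inclusion `EN₁ → E''`;
* `coeffRingAut_legResU` : an automorphism fixing the values of `ψ` fixes the resolvent `u(x²)`.
-/
import Mathlib
import Fermat.Agent.RB.KEYH_helper5_LegInst
import Fermat.Agent.RB.RECS_helper8_Dia

set_option autoImplicit false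
set_option linter.unusedSectionVars false
set_option linter.unusedVariables false
set_option linter.style.haveILetI false
set_option synthInstance.maxHeartbeats 400000

open HahnSeries IntermediateField AlgebraicCurve ModularCurve Polynomial

namespace Fermat.Agent.RB

open Fermat.Agent.JA Fermat.Agent.Igusa Fermat.Agent.SS Fermat.Agent.FF Fermat.Agent.MP
  Fermat.Agent.W1 Fermat.Agent.SS.TwoExt Fermat.Agent.TW.Kill

open scoped Fermat.Agent.JA.Host

/-- `Ω = AlgebraicClosure ℚ`. -/
local notation "Ω" => AlgebraicClosure ℚ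

/-- the absolute Galois group. -/
local notation "GQ" => (AlgebraicClosure ℚ ≃ₐ[ℚ] AlgebraicClosure ℚ)

noncomputable section

attribute [local instance] baseToComplex

section Coeff

variable {K₁ : IntermediateField ℚ Ω} {M' r : ℕ} [NeZero M'] [NeZero r] [NeZero (M' * r)]
  {x y : ℤ}

/-- the coefficientwise action commutes with the inclusion `EN₁ → E''`. -/
theorem coeffRingAut_algebraMap_legEL_raise
    [Fact (legEL ↥K₁ M' r ≤ legEL ↥K₁ (M' * r) 1)] (τ : ↥K₁ ≃ₐ[ℚ] ↥K₁)
    (z : ↥(legEL ↥K₁ M' r)) :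
    haveI := isScalarTower_baseToComplex K₁
    coeffRingAut (coeffStable_legHost (K := ↥K₁) (F₁ (M' * r) 1)) τ
        (algebraMap ↥(legEL ↥K₁ M' r) ↥(legEL ↥K₁ (M' * r) 1) z) =
      algebraMap ↥(legEL ↥K₁ M' r) ↥(legEL ↥K₁ (M' * r) 1)
        (coeffRingAut (coeffStable_legHost (K := ↥K₁) (F₁ M' r)) τ z) := by
  haveI := isScalarTower_baseToComplex K₁
  apply Subtype.ext
  rw [coe_coeffRingAut_apply, Host.coe_algebraMap, Host.coe_algebraMap, coe_coeffRingAut_apply]

/-- the coefficientwise action of an automorphism fixing the values of `ψ` fixes the resolvent. -/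
theorem coeffRingAut_legResU (hbez : (r : ℤ) * x + M' * y = 1) (hM' : 2 ≤ M')
    (ψ : MulChar (ZMod r) ↥K₁) (τ : ↥K₁ ≃ₐ[ℚ] ↥K₁) (hτ : ∀ a, τ (ψ a) = ψ a) :
    haveI := isScalarTower_baseToComplex K₁
    coeffRingAut (coeffStable_legHost (K := ↥K₁) (F₁ (M' * r) 1)) τ
        (legResU ↥K₁ hbez hM' ψ) = legResU ↥K₁ hbez hM' ψ := by
  haveI := isScalarTower_baseToComplex K₁
  apply Subtype.ext
  rw [coe_coeffRingAut_apply, coe_legResU, coeffMap_qExpand,
    coeffMap_uSer_of_fixed (τ : ↥K₁ →+* ↥K₁) ψ hτ]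

end Coeff

end

end Fermat.Agent.RB
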