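/-
RB [BB3] = (KEY-H), package E [REC-σ] — helper8 — **the diamond automorphism on the Legendre host.**

* `exists_algEquiv_mul_of_adjoin_eq_top` : Kummer theory (Mathlib `autEquivRootsOfUnity`):
  `L = K(α)`, `α ^ [L:K] ∈ K`, `μ_{[L:K]} ⊂ K` ⇒ for `ν ^ [L:K] = 1` there is `δ ∈ Aut(L/K)` with `δ α = ν α`;
* `castHom_cyc`, `cyc_eq_crtUnitHom` : the cyclotomic character modulo
  `M' r` of an inertia element at `r ∤ M'` is `(1, cyc r σ)`;
* `exists_isPrimitiveRoot_of_faithful` : a faithful character of `(ℤ/r)ˣ` takes a primitive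
  `(r - 1)`-th root of unity as a value;
* **`exists_delta_legEL`** : if `[E'' : EN₁] = r - 1` (`E'' = legEL k (M' r) 1`, `EN₁ = legEL k M' r`),
  for every `s ∈ (ℤ/r)ˣ` there is an `EN₁`-automorphism `δ` of `E''` with `δ u = ψ⁻¹(s) u` and
  `δ (z(x²)) = (⟨(1, s)⟩ z)(x²)` for all `z ∈ k·F₁(M' r, 1)` (`diaR = diaU (crtUnitHom s) = diaAlg`).
-/
import Mathlib
import Fermat.Agent.RB.FIELD1_helper8_Gen
import Fermat.Agent.TW.Kill_helper1_Cyc
import Fermat.Agent.W1.TOP1_lead_Twist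

set_option autoImplicit false
set_option linter.unusedSectionVars false
set_option linter.unusedVariables false
set_option linter.style.haveILetI false
set_option synthInstance.maxHeartbeats 400000

open HahnSeries IntermediateField AlgebraicCurve ModularCurve Polynomial

namespace Fermat.Agent.RB

open Fermat.Agent.JA Fermat.Agent.Igusa Fermat.Agent.W1 Fermat.Agent.TW.Kill

open scoped Fermat.Agent.JA.Host

noncomputable section

section Kummer

/-- **Kummer theory**: `L = K(α)`, `α ^ [L : K] ∈ K`, `K ∋ μ_{[L:K]}`: for every `ν` with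
`ν ^ [L : K] = 1` there is a `K`-automorphism of `L` with `α ↦ ν α`. -/
theorem exists_algEquiv_mul_of_adjoin_eq_top {K L : Type*} [Field K] [Field L] [Algebra K L]
    [FiniteDimensional K L] (hK : (primitiveRoots (Module.finrank K L) K).Nonempty) {a : K}
    {α : L} (ha : α ^ Module.finrank K L = algebraMap K L a) (hα : K⟮α⟯ = ⊤)
    (ν : K) (hν : ν ^ Module.finrank K L = 1) :
    ∃ δ : L ≃ₐ[K] L, δ α = algebraMap K L ν * α := by
  have H := irreducible_X_pow_sub_C_of_root_adjoin_eq_top ha hα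
  haveI := isSplittingField_X_pow_sub_C_of_root_adjoin_eq_top hK ha hα
  haveI : NeZero (Module.finrank K L) := ⟨Module.finrank_pos.ne'⟩
  refine ⟨(autEquivRootsOfUnity hK H L).symm (rootsOfUnity.mkOfPowEq ν hν), ?_⟩
  have h1 := autEquivRootsOfUnity_smul hK H L ha
    ((autEquivRootsOfUnity hK H L).symm (rootsOfUnity.mkOfPowEq ν hν))
  rw [MulEquiv.apply_symm_apply] at h1
  rw [← h1]
  show ((rootsOfUnity.mkOfPowEq ν hν : rootsOfUnity (Module.finrank K L) K) : Kˣ) • α = _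
  rw [Units.smul_def, rootsOfUnity.coe_mkOfPowEq, Algebra.smul_def]

end Kummer

section Cyc

/-- `Ω = AlgebraicClosure ℚ`. -/
local notation "Ω" => AlgebraicClosure ℚ

/-- the absolute Galois group. -/
local notation "GQ" => (AlgebraicClosure ℚ ≃ₐ[ℚ] AlgebraicClosure ℚ)

/-- compatibility of the cyclotomic characters. -/
theorem castHom_cyc {m m' : ℕ} [NeZero m] [NeZero m'] (hd : m ∣ m') (σ : GQ) :
    ZMod.castHom hd (ZMod m) ((cyc m' σ : (ZMod m')ˣ) : ZMod m') =
      ((cyc m σ : (ZMod m)ˣ) : ZMod m) := by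
  symm
  apply cyc_unique
  intro t ht
  have ht' : t ^ m' = 1 := by
    obtain ⟨d, rfl⟩ := hd
    rw [pow_mul, ht, one_pow]
  rw [cyc_spec' m' σ ht', ZMod.castHom_apply, ← ZMod.natCast_val, ZMod.val_natCast]
  exact pow_eq_pow_mod _ ht

/-- on the inertia at `r ∤ M'`: `cyc (M' r) σ = (1, cyc r σ)`. -/
theorem cyc_eq_crtUnitHom {M' r : ℕ} [NeZero M'] [NeZero r] [NeZero (M' * r)] [Fact r.Prime]
    (hcop : Nat.Coprime M' r) {A : ValuationSubring Ω} (hA : A.LiesOverPrime r) {σ : GQ}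
    (hσ : σ ∈ A.inertiaSubgroupIn ℚ) (hrM : ¬ r ∣ M') :
    cyc (M' * r) σ = crtUnitHom hcop (cyc r σ) := by
  have h1 : ZMod.castHom (dvd_mul_right M' r) (ZMod M')
      ((cyc (M' * r) σ : (ZMod (M' * r))ˣ) : ZMod (M' * r)) = 1 := by
    rw [castHom_cyc, Fermat.Agent.W1.cyc_eq_one_of_mem_inertia M' (Fact.out : r.Prime) hrM hA hσ,
      Units.val_one]
  rw [eq_crtUnitHom_of_castHom_eq_one hcop (cyc (M' * r) σ) h1]
  congr 1
  apply Units.ext
  exact castHom_cyc (dvd_mul_left r M') σ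

end Cyc

section Prim

/-- a faithful character of `(ℤ/r)ˣ` takes a primitive `(r - 1)`-th root of unity as a value. -/
theorem exists_isPrimitiveRoot_of_faithful {k : Type*} [Field k] {r : ℕ} [hr : Fact r.Prime]
    (ψ : MulChar (ZMod r) k) (hψ : Function.Injective fun d : (ZMod r)ˣ => ψ (d : ZMod r)) :
    ∃ g : (ZMod r)ˣ, IsPrimitiveRoot (ψ (g : ZMod r)) (r - 1) := by
  obtain ⟨g, hg⟩ := IsCyclic.exists_generator (α := (ZMod r)ˣ)
  refine ⟨g, ?_⟩
  let f : (ZMod r)ˣ →* k := (Units.coeHom k).comp ψ.toUnitHom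
  have hf : ∀ d : (ZMod r)ˣ, f d = ψ (d : ZMod r) := fun d => MulChar.coe_toUnitHom ψ d
  have hfinj : Function.Injective f := by
    intro d d' hdd
    apply hψ
    show ψ (d : ZMod r) = ψ (d' : ZMod r)
    rw [← hf, ← hf, hdd]
  have h1 : orderOf (f g) = orderOf g := orderOf_injective f hfinj g
  have h2 : orderOf g = r - 1 := by
    rw [orderOf_eq_card_of_forall_mem_zpowers hg, Nat.card_eq_fintype_card,
      ZMod.card_units_eq_totient, Nat.totient_prime hr.out]
  rw [← hf, ← h2, ← h1]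
  exact IsPrimitiveRoot.orderOf (f g)

end Prim

section Host

variable {k : Type*} [Field k] [Algebra ℚ k] [Algebra k ℂ] [IsScalarTower ℚ k ℂ]
  {M' r : ℕ} [NeZero M'] [NeZero r] [NeZero (M' * r)] {x y : ℤ}

set_option maxHeartbeats 800000 in
/-- **the diamond automorphism on the host**: the `EN₁`-automorphism `δ` of `E'' = EN₁(u)` with
`δ u = ψ⁻¹(s) u` restricts to the diamond operator `⟨(1, s)⟩` on `K·F₁(M' r, 1)(x²)`. -/
theorem exists_delta_legEL (h : (r : ℤ) * x + M' * y = 1) (hM' : 3 ≤ M') (hr : r.Prime)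
    (hcop : Nat.Coprime M' r) (ψ : MulChar (ZMod r) k)
    (hψ : Function.Injective fun d : (ZMod r)ˣ => ψ (d : ZMod r))
    [Fact (legEL k M' r ≤ legEL k (M' * r) 1)]
    [FiniteDimensional ↥(legEL k M' r) ↥(legEL k (M' * r) 1)]
    (hfin : Module.finrank ↥(legEL k M' r) ↥(legEL k (M' * r) 1) = r - 1)
    (u : ↥(legEL k (M' * r) 1)) (hu : (u : LaurentSeries k) = qExpand k 2 (uSer k M' r x y ψ))
    (s : (ZMod r)ˣ) :
    ∃ δ : ↥(legEL k (M' * r) 1) ≃ₐ[↥(legEL k M' r)] ↥(legEL k (M' * r) 1),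
      δ u = algebraMap k ↥(legEL k (M' * r) 1) (ψ⁻¹ (s : ZMod r)) * u ∧
      ∀ z : ↥(laurentBaseChange k (F₁ (M' * r) 1)),
        δ (legHostEmb k (F₁ (M' * r) 1) z) =
          legHostEmb k (F₁ (M' * r) 1) (diaR M' r hcop s z) := by
  haveI : Fact r.Prime := ⟨hr⟩
  have hM1 : M' ≠ 1 := by omega
  -- the Kummer generator `f`
  have hfmem : qExpand k 2 (uSer k M' r x y ψ ^ (r - 1)) ∈ legEL k M' r := by
    refine hostW_le_legHost (K := k) (F₁ M' r) (qExpand_mem_hostImage ?_)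
    have := uSer_pow_totient_mem_raise h (by omega) hcop ψ
    rwa [Nat.totient_prime hr] at this
  have hgen := legEL_raise_adjoin_eq_top h hM' hr hcop ψ hψ u hu
  have hupow : u ^ Module.finrank ↥(legEL k M' r) ↥(legEL k (M' * r) 1) =
      algebraMap ↥(legEL k M' r) ↥(legEL k (M' * r) 1)
        ⟨qExpand k 2 (uSer k M' r x y ψ ^ (r - 1)), hfmem⟩ := by
    rw [hfin]
    apply Subtype.ext
    rw [SubmonoidClass.coe_pow, hu, Host.coe_algebraMap]
    exact (map_pow (qExpand k 2) _ _).symm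
  -- the roots of unity
  obtain ⟨g, hg⟩ := exists_isPrimitiveRoot_of_faithful ψ hψ
  have hK : (primitiveRoots (Module.finrank ↥(legEL k M' r) ↥(legEL k (M' * r) 1))
      ↥(legEL k M' r)).Nonempty := by
    rw [hfin]
    refine ⟨algebraMap k ↥(legEL k M' r) (ψ (g : ZMod r)), ?_⟩
    rw [mem_primitiveRoots (by have := hr.two_le; omega)]
    exact hg.map_of_injective (algebraMap k ↥(legEL k M' r)).injective
  have hν : (algebraMap k ↥(legEL k M' r) (ψ⁻¹ (s : ZMod r))) ^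
      Module.finrank ↥(legEL k M' r) ↥(legEL k (M' * r) 1) = 1 := by
    rw [hfin, ← map_pow, MulChar.inv_apply_eq_inv, Ring.inverse_eq_inv', inv_pow, ← map_pow,
      ← Units.val_pow_eq_pow_val, ZMod.units_pow_card_sub_one_eq_one, Units.val_one, map_one,
      inv_one, map_one]
  obtain ⟨δ, hδ⟩ := exists_algEquiv_mul_of_adjoin_eq_top hK hupow hgen _ hν
  have hδu : δ u = algebraMap k ↥(legEL k (M' * r) 1) (ψ⁻¹ (s : ZMod r)) * u := by
    rw [hδ, ← IsScalarTower.algebraMap_apply]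
  refine ⟨δ, hδu, ?_⟩
  have key := ringHom_ext_laurentBaseChange_raise h hM' hr hcop ψ hψ
    (((δ : ↥(legEL k (M' * r) 1) ≃ₐ[↥(legEL k M' r)] ↥(legEL k (M' * r) 1)) :
        ↥(legEL k (M' * r) 1) →+* ↥(legEL k (M' * r) 1)).comp
      ((legHostEmb k (F₁ (M' * r) 1) :
        ↥(laurentBaseChange k (F₁ (M' * r) 1)) →ₐ[k] ↥(legEL k (M' * r) 1)) :
        ↥(laurentBaseChange k (F₁ (M' * r) 1)) →+* ↥(legEL k (M' * r) 1)))
    (((legHostEmb k (F₁ (M' * r) 1) :
        ↥(laurentBaseChange k (F₁ (M' * r) 1)) →ₐ[k] ↥(legEL k (M' * r) 1)) :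
        ↥(laurentBaseChange k (F₁ (M' * r) 1)) →+* ↥(legEL k (M' * r) 1)).comp
      ((diaR (k := k) M' r hcop s :
        ↥(laurentBaseChange k (F₁ (M' * r) 1)) ≃ₐ[k] ↥(laurentBaseChange k (F₁ (M' * r) 1))) :
        ↥(laurentBaseChange k (F₁ (M' * r) 1)) →+* ↥(laurentBaseChange k (F₁ (M' * r) 1)))) ?_ ?_
  · intro z
    exact RingHom.congr_fun key z
  · intro z hz
    show δ (legHostEmb k (F₁ (M' * r) 1) z) =
      legHostEmb k (F₁ (M' * r) 1) (diaR M' r hcop s z)
    rw [diaR_eq_self_of_mem M' r hcop s z hz]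
    have h1 : legHostEmb k (F₁ (M' * r) 1) z =
        algebraMap ↥(legEL k M' r) ↥(legEL k (M' * r) 1)
          ⟨qExpand k 2 (z : LaurentSeries k),
            hostW_le_legHost (K := k) (F₁ M' r) (qExpand_mem_hostImage hz)⟩ :=
      Subtype.ext rfl
    rw [h1, δ.commutes]
  · show δ (legHostEmb k (F₁ (M' * r) 1) ⟨uSer k M' r x y ψ, uSer_mem_raise h (by omega) ψ⟩) =
      legHostEmb k (F₁ (M' * r) 1)
        (diaR M' r hcop s ⟨uSer k M' r x y ψ, uSer_mem_raise h (by omega) ψ⟩)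
    have hUu : legHostEmb k (F₁ (M' * r) 1)
        ⟨uSer k M' r x y ψ, uSer_mem_raise h (by omega) ψ⟩ = u :=
      Subtype.ext (by rw [coe_legHostEmb, hu])
    rw [hUu, hδu, diaR_uSer h (by omega) hcop ψ s, map_mul, AlgHom.commutes, hUu]

end Host

end

end Fermat.Agent.RB
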