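/-
RB (S43) / [BB3] package E [REC-σ] — helper8 — **the abstract reciprocity lemma** (Mathlib only).

`V` a valuation subring of `E'`, `σ δ : E' →+* E'` ring endomorphisms preserving `V` and its maximal
ideal.  The set `{x ∈ V | σ x ≡ δ x mod 𝔪_V}` is a subring of `V` containing `𝔪_V`.  Hence if it
contains the image of a valuation subring `W ⊆ E` and an element `u`, and the residue field of `V`
is spanned over that of `W` by the residues of `1, u, …, u^(m-1)` (the spanning clause of
`isTwoSheet_kummer`), then **`σ ≡ δ` on the whole residue field of `V`**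
(`valuation_map_sub_map_lt_one_of_span`).

Application: `σ` an inertia automorphism acting coefficientwise, `δ = id` on the sheet `∞` of the
Kummer cover (`u` has `σ`-fixed coefficients), `δ = ⟨d⟩^{∓1}` on the sheet `0`
(`σ u₀ = χ(d)^{∓1} u₀ = δ u₀` for `u₀ = u / G(χ̄)`).
-/
import Mathlib

set_option autoImplicit false
set_option linter.unusedSectionVars false

namespace Fermat.Agent.RB

section Rec

variable {E' : Type*} [Field E'] (V : ValuationSubring E') (σ δ : E' →+* E')

/-- the congruence `σ ≡ δ` modulo the maximal ideal of `V` is compatible with products. -/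
theorem valuation_map_sub_map_mul_lt_one
    (hσV : ∀ x ∈ V, σ x ∈ V) (hδV : ∀ x ∈ V, δ x ∈ V) {x y : E'} (hx : x ∈ V) (hy : y ∈ V)
    (hx' : V.valuation (σ x - δ x) < 1) (hy' : V.valuation (σ y - δ y) < 1) :
    V.valuation (σ (x * y) - δ (x * y)) < 1 := by
  have h1 : σ (x * y) - δ (x * y) = σ x * (σ y - δ y) + (σ x - δ x) * δ y := by
    rw [map_mul, map_mul]; ring
  rw [h1]
  refine Valuation.map_add_lt _ ?_ ?_
  · rw [map_mul]
    calc V.valuation (σ x) * V.valuation (σ y - δ y)
        ≤ 1 * V.valuation (σ y - δ y) :=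
          mul_le_mul_left ((ValuationSubring.valuation_le_one_iff _ _).mpr (hσV x hx)) _
      _ < 1 := by rw [one_mul]; exact hy'
  · rw [map_mul]
    calc V.valuation (σ x - δ x) * V.valuation (δ y)
        ≤ V.valuation (σ x - δ x) * 1 :=
          mul_le_mul_right ((ValuationSubring.valuation_le_one_iff _ _).mpr (hδV y hy)) _
      _ < 1 := by rw [mul_one]; exact hx'

/-- … and with powers. -/
theorem valuation_map_sub_map_pow_lt_one
    (hσV : ∀ x ∈ V, σ x ∈ V) (hδV : ∀ x ∈ V, δ x ∈ V) {x : E'} (hx : x ∈ V)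
    (hx' : V.valuation (σ x - δ x) < 1) (n : ℕ) :
    V.valuation (σ (x ^ n) - δ (x ^ n)) < 1 := by
  induction n with
  | zero => rw [pow_zero, map_one, map_one, sub_self, map_zero]; exact zero_lt_one
  | succ n ih =>
    rw [pow_succ]
    exact valuation_map_sub_map_mul_lt_one V σ δ hσV hδV (pow_mem hx n) hx ih hx'

/-- … and with finite sums. -/
theorem valuation_map_sub_map_sum_lt_one {ι : Type*} (s : Finset ι) (f : ι → E')
    (hf : ∀ i ∈ s, V.valuation (σ (f i) - δ (f i)) < 1) :
    V.valuation (σ (∑ i ∈ s, f i) - δ (∑ i ∈ s, f i)) < 1 := by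
  rw [map_sum, map_sum, ← Finset.sum_sub_distrib]
  exact Valuation.map_sum_lt _ one_ne_zero hf

variable {E : Type*} [Field E] [Algebra E E']

/-- **the abstract reciprocity lemma**: `σ ≡ δ` on the image of `W` and on `u`, and the residue
field of `V` is spanned by the residues of the `u ^ i` over that of `W` ⇒ `σ ≡ δ` on the residue
field of `V`. -/
theorem valuation_map_sub_map_lt_one_of_span (W : ValuationSubring E)
    (hσV : ∀ x ∈ V, σ x ∈ V) (hδV : ∀ x ∈ V, δ x ∈ V)
    (hσm : ∀ x : E', V.valuation x < 1 → V.valuation (σ x) < 1)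
    (hδm : ∀ x : E', V.valuation x < 1 → V.valuation (δ x) < 1)
    (hWV : ∀ a ∈ W, algebraMap E E' a ∈ V)
    (hW : ∀ a ∈ W, V.valuation (σ (algebraMap E E' a) - δ (algebraMap E E' a)) < 1)
    {m : ℕ} {u : E'} (huV : u ∈ V) (hu : V.valuation (σ u - δ u) < 1)
    (hspan : ∀ y ∈ V, ∃ a : Fin m → E, (∀ i, a i ∈ W) ∧
      V.valuation (y - ∑ i, algebraMap E E' (a i) * u ^ (i : ℕ)) < 1) :
    ∀ y ∈ V, V.valuation (σ y - δ y) < 1 := by
  intro y hy
  obtain ⟨a, ha, hya⟩ := hspan y hy
  set S : E' := ∑ i, algebraMap E E' (a i) * u ^ (i : ℕ) with hS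
  have hS' : V.valuation (σ S - δ S) < 1 := by
    refine valuation_map_sub_map_sum_lt_one V σ δ _ _ (fun i _ => ?_)
    exact valuation_map_sub_map_mul_lt_one V σ δ hσV hδV (hWV _ (ha i)) (pow_mem huV _)
      (hW _ (ha i)) (valuation_map_sub_map_pow_lt_one V σ δ hσV hδV huV hu _)
  have h1 : σ y - δ y = σ (y - S) + -(δ (y - S)) + (σ S - δ S) := by
    rw [map_sub, map_sub]; ring
  rw [h1]
  refine Valuation.map_add_lt _ (Valuation.map_add_lt _ (hσm _ hya) ?_) hS'
  rw [Valuation.map_neg]
  exact hδm _ hya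

/-- the special case `δ = id`: **`σ` is trivial on the residue field of `V`**. -/
theorem valuation_map_sub_lt_one_of_span (W : ValuationSubring E)
    (hσV : ∀ x ∈ V, σ x ∈ V)
    (hσm : ∀ x : E', V.valuation x < 1 → V.valuation (σ x) < 1)
    (hWV : ∀ a ∈ W, algebraMap E E' a ∈ V)
    (hW : ∀ a ∈ W, V.valuation (σ (algebraMap E E' a) - algebraMap E E' a) < 1)
    {m : ℕ} {u : E'} (huV : u ∈ V) (hu : V.valuation (σ u - u) < 1)
    (hspan : ∀ y ∈ V, ∃ a : Fin m → E, (∀ i, a i ∈ W) ∧
      V.valuation (y - ∑ i, algebraMap E E' (a i) * u ^ (i : ℕ)) < 1) :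
    ∀ y ∈ V, V.valuation (σ y - y) < 1 :=
  valuation_map_sub_map_lt_one_of_span V σ (RingHom.id E') W hσV (fun _ h => h) hσm
    (fun _ h => h) hWV hW huV hu hspan

end Rec

section Unit

variable {E' : Type*} [Field E'] (V : ValuationSubring E')

/-- the spanning clause is insensitive to multiplying the generator by a constant unit: if
`u = c · u₀` with `c` a unit of `V` coming from the base (e.g. a Gauss sum), the residues of the
`u₀ ^ i` span as well.  (Elementwise form: for `y ∈ V` apply the hypothesis and regroup.) -/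
theorem exists_sum_of_span_of_eq_mul {E : Type*} [Field E] [Algebra E E'] (W : ValuationSubring E)
    {m : ℕ} {u u₀ : E'} {c : E} (hc : c ∈ W) (hcu : u = algebraMap E E' c * u₀)
    (hspan : ∀ y ∈ V, ∃ a : Fin m → E, (∀ i, a i ∈ W) ∧
      V.valuation (y - ∑ i, algebraMap E E' (a i) * u ^ (i : ℕ)) < 1) :
    ∀ y ∈ V, ∃ a : Fin m → E, (∀ i, a i ∈ W) ∧
      V.valuation (y - ∑ i, algebraMap E E' (a i) * u₀ ^ (i : ℕ)) < 1 := by
  intro y hy
  obtain ⟨a, ha, hya⟩ := hspan y hy
  refine ⟨fun i => a i * c ^ (i : ℕ), fun i => W.mul_mem _ _ (ha i) (pow_mem hc _), ?_⟩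
  have h1 : ∑ i : Fin m, algebraMap E E' (a i * c ^ (i : ℕ)) * u₀ ^ (i : ℕ) =
      ∑ i : Fin m, algebraMap E E' (a i) * u ^ (i : ℕ) := by
    refine Finset.sum_congr rfl fun i _ => ?_
    rw [hcu, mul_pow, map_mul, map_pow]; ring
  rw [h1]
  exact hya

end Unit

end Fermat.Agent.RB
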