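/-
RB (S43) / [BB3] package E [REC-σ] — helper8 — **the two reciprocity congruences on a Kummer cover**
(Mathlib only + `RECS_helper8_Abs`).

`E'/E` the Kummer cover (`E' = E(u)`), `W ⊂ E`, `W' ⊂ E'` a sheet and its extension, `σ' : E' → E'`
extending the inertia endomorphism `σ` of `E` (trivial on the residue field of `W`), the residue
field of `W'` spanned by the powers of `ξ = u ^ s · w` (`w ∈ E`; the spanning clause of
`kummer_cover_model`).

* `rec_sigma_inf`  : `σ' u = u`, `u` a unit of `W'` ⇒ `σ' ≡ id` on the residue field of `W'`;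
* `rec_sigma_zero` : `δ'` trivial on `E`, `δ' u = ν u`, `σ' u = u`, `σ c = ν⁻¹ c` for a constant `c`
  with `u / c` a unit of `W'` ⇒ `σ' ≡ δ'` on the residue field of `W'`.
-/
import Mathlib
import Fermat.Agent.RB.RECS_helper8_Abs

set_option autoImplicit false
set_option linter.unusedSectionVars false

namespace Fermat.Agent.RB

section RecMain

variable {E E' : Type*} [Field E] [Field E'] [Algebra E E']
  {W : ValuationSubring E} {W' : ValuationSubring E'}

/-- an endomorphism preserving a valuation subring (in the `↔` form) preserves its maximal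
ideal. -/
theorem valuation_map_lt_one_of_mem_iff (τ : E' →+* E') (hτ : ∀ x : E', x ∈ W' ↔ τ x ∈ W')
    {x : E'} (hx : W'.valuation x < 1) : W'.valuation (τ x) < 1 := by
  by_cases hx0 : x = 0
  · rw [hx0, map_zero, map_zero]; exact zero_lt_one
  by_contra hlt
  have h1 : (τ x)⁻¹ ∈ W' := by
    rw [← ValuationSubring.valuation_le_one_iff, map_inv₀]
    exact inv_le_one_of_one_le₀ (not_lt.mp hlt)
  rw [← map_inv₀, ← hτ] at h1
  have h2 : W'.valuation x⁻¹ ≤ 1 := (ValuationSubring.valuation_le_one_iff _ _).mpr h1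
  rw [map_inv₀] at h2
  have h3 : 1 ≤ W'.valuation x := by
    have hv0 : 0 < W'.valuation x := zero_lt_iff.mpr ((Valuation.ne_zero_iff _).mpr hx0)
    exact (inv_le_one₀ hv0).mp h2
  exact absurd hx (not_lt.mpr h3)

/-- the valuation of the image of an element of the maximal ideal under an extension of
valuation subrings. -/
theorem valuation_algebraMap_lt_one_of_ext (hext : ∀ x : E, algebraMap E E' x ∈ W' ↔ x ∈ W)
    {x : E} (hx : W.valuation x < 1) : W'.valuation (algebraMap E E' x) < 1 := by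
  by_cases hx0 : x = 0
  · rw [hx0, map_zero, map_zero]; exact zero_lt_one
  by_contra hlt
  have h1 : (algebraMap E E' x)⁻¹ ∈ W' := by
    rw [← ValuationSubring.valuation_le_one_iff, map_inv₀]
    exact inv_le_one_of_one_le₀ (not_lt.mp hlt)
  rw [← map_inv₀, hext] at h1
  have h2 : W.valuation x⁻¹ ≤ 1 := (ValuationSubring.valuation_le_one_iff _ _).mpr h1
  rw [map_inv₀] at h2
  have h3 : 1 ≤ W.valuation x := by
    have hv0 : 0 < W.valuation x := zero_lt_iff.mpr ((Valuation.ne_zero_iff _).mpr hx0)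
    exact (inv_le_one₀ hv0).mp h2
  exact absurd hx (not_lt.mpr h3)

/-- an element of `E` whose image is a unit of `W'` is a unit of `W`. -/
theorem mem_of_valuation_algebraMap_eq_one (hext : ∀ x : E, algebraMap E E' x ∈ W' ↔ x ∈ W)
    {x : E} (hx : W'.valuation (algebraMap E E' x) = 1) : x ∈ W :=
  (hext x).mp ((ValuationSubring.valuation_le_one_iff _ _).mp hx.le)

/-- **(σ2)** the inertia endomorphism is trivial on the residue field of the sheet `∞` of the Kummer
cover. -/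
theorem rec_sigma_inf (hext : ∀ x : E, algebraMap E E' x ∈ W' ↔ x ∈ W)
    (σ : E →+* E) (σ' : E' →+* E') (hσσ' : ∀ x : E, σ' (algebraMap E E' x) = algebraMap E E' (σ x))
    (hσW : ∀ x ∈ W, W.valuation (σ x - x) < 1)
    (hσ'W' : ∀ x : E', x ∈ W' ↔ σ' x ∈ W')
    {u : E'} (hu : W'.valuation u = 1) (hσu : σ' u = u)
    {m : ℕ} {ξ : E'} {s : ℤ} {w : E} (hξ : ξ = u ^ s * algebraMap E E' w)
    (hξ1 : W'.valuation ξ = 1)
    (hspan : ∀ y ∈ W', ∃ a : Fin m → E, (∀ i, a i ∈ W) ∧
      W'.valuation (y - ∑ i, algebraMap E E' (a i) * ξ ^ (i : ℕ)) < 1) :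
    ∀ y ∈ W', W'.valuation (σ' y - y) < 1 := by
  have hw1 : W'.valuation (algebraMap E E' w) = 1 := by
    have h1 := hξ1
    rw [hξ, map_mul, map_zpow₀, hu, one_zpow, one_mul] at h1
    exact h1
  have hwW : w ∈ W := mem_of_valuation_algebraMap_eq_one hext hw1
  refine valuation_map_sub_lt_one_of_span W' σ' W (fun x hx => (hσ'W' x).mp hx)
    (fun x hx => valuation_map_lt_one_of_mem_iff σ' hσ'W' hx)
    (fun a ha => (hext a).mpr ha)
    (fun a ha => ?_)
    ((ValuationSubring.valuation_le_one_iff _ _).mp hξ1.le) ?_ hspan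
  · rw [hσσ', ← map_sub]
    exact valuation_algebraMap_lt_one_of_ext hext (hσW a ha)
  · have h1 : σ' ξ - ξ = u ^ s * algebraMap E E' (σ w - w) := by
      rw [hξ, map_mul, map_zpow₀, hσu, hσσ', map_sub]
      ring
    rw [h1, map_mul, map_zpow₀, hu, one_zpow, one_mul]
    exact valuation_algebraMap_lt_one_of_ext hext (hσW w hwW)

/-- **(σ3)** on the sheet `0` of the Kummer cover the inertia endomorphism agrees with the diamond
operator on the residue field. -/
theorem rec_sigma_zero (hext : ∀ x : E, algebraMap E E' x ∈ W' ↔ x ∈ W)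
    (σ : E →+* E) (σ' : E' →+* E') (hσσ' : ∀ x : E, σ' (algebraMap E E' x) = algebraMap E E' (σ x))
    (hσW : ∀ x ∈ W, W.valuation (σ x - x) < 1)
    (hσ'W' : ∀ x : E', x ∈ W' ↔ σ' x ∈ W')
    (δ' : E' →+* E') (hδE : ∀ x : E, δ' (algebraMap E E' x) = algebraMap E E' x)
    (hδ'W' : ∀ x : E', x ∈ W' ↔ δ' x ∈ W')
    {u : E'} {c ν : E} (hc0 : c ≠ 0) (hν : W.valuation ν = 1)
    (hu : W'.valuation (u * (algebraMap E E' c)⁻¹) = 1) (hσu : σ' u = u)
    (hδu : δ' u = algebraMap E E' ν * u) (hσc : σ c = ν⁻¹ * c)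
    {m : ℕ} {ξ : E'} {s : ℤ} {w : E} (hξ : ξ = u ^ s * algebraMap E E' w)
    (hξ1 : W'.valuation ξ = 1)
    (hspan : ∀ y ∈ W', ∃ a : Fin m → E, (∀ i, a i ∈ W) ∧
      W'.valuation (y - ∑ i, algebraMap E E' (a i) * ξ ^ (i : ℕ)) < 1) :
    ∀ y ∈ W', W'.valuation (σ' y - δ' y) < 1 := by
  have hν0 : ν ≠ 0 := by
    rintro rfl
    rw [map_zero] at hν
    exact zero_ne_one hν
  have hcE : algebraMap E E' c ≠ 0 := (map_ne_zero _).mpr hc0
  obtain ⟨u₀, hu₀⟩ : ∃ u₀ : E', u₀ = u * (algebraMap E E' c)⁻¹ := ⟨_, rfl⟩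
  obtain ⟨w₀, hw₀⟩ : ∃ w₀ : E, w₀ = c ^ s * w := ⟨_, rfl⟩
  rw [← hu₀] at hu
  have hξ' : ξ = u₀ ^ s * algebraMap E E' w₀ := by
    rw [hξ, hu₀, hw₀, mul_zpow, inv_zpow, map_mul, map_zpow₀]
    have : algebraMap E E' c ^ s ≠ 0 := zpow_ne_zero _ hcE
    field_simp
  have hw1 : W'.valuation (algebraMap E E' w₀) = 1 := by
    have h1 := hξ1
    rw [hξ', map_mul, map_zpow₀, hu, one_zpow, one_mul] at h1
    exact h1
  have hwW : w₀ ∈ W := mem_of_valuation_algebraMap_eq_one hext hw1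
  have hνW' : W'.valuation (algebraMap E E' ν) = 1 := by
    have h1 : algebraMap E E' ν ∈ W' :=
      (hext ν).mpr ((ValuationSubring.valuation_le_one_iff _ _).mp hν.le)
    have h2 : algebraMap E E' ν⁻¹ ∈ W' :=
      (hext ν⁻¹).mpr ((ValuationSubring.valuation_le_one_iff _ _).mp (by rw [map_inv₀, hν, inv_one]))
    have h3 := (ValuationSubring.valuation_le_one_iff _ _).mpr h1
    have h4 := (ValuationSubring.valuation_le_one_iff _ _).mpr h2
    rw [map_inv₀, map_inv₀] at h4
    have hv0 : 0 < W'.valuation (algebraMap E E' ν) :=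
      zero_lt_iff.mpr ((Valuation.ne_zero_iff _).mpr ((map_ne_zero _).mpr hν0))
    exact le_antisymm h3 ((inv_le_one₀ hv0).mp h4)
  -- the actions on `u₀` and `w₀`
  have hσu₀ : σ' u₀ = algebraMap E E' ν * u₀ := by
    rw [hu₀, map_mul, map_inv₀, hσu, hσσ', hσc, map_mul, map_inv₀]
    have : algebraMap E E' ν ≠ 0 := (map_ne_zero _).mpr hν0
    field_simp
  have hδu₀ : δ' u₀ = algebraMap E E' ν * u₀ := by
    rw [hu₀, map_mul, map_inv₀, hδu, hδE]
    ring
  refine valuation_map_sub_map_lt_one_of_span W' σ' δ' W (fun x hx => (hσ'W' x).mp hx)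
    (fun x hx => (hδ'W' x).mp hx)
    (fun x hx => valuation_map_lt_one_of_mem_iff σ' hσ'W' hx)
    (fun x hx => valuation_map_lt_one_of_mem_iff δ' hδ'W' hx)
    (fun a ha => (hext a).mpr ha)
    (fun a ha => ?_)
    ((ValuationSubring.valuation_le_one_iff _ _).mp hξ1.le) ?_ hspan
  · rw [hσσ', hδE, ← map_sub]
    exact valuation_algebraMap_lt_one_of_ext hext (hσW a ha)
  · have h1 : σ' ξ - δ' ξ = (algebraMap E E' ν * u₀) ^ s * algebraMap E E' (σ w₀ - w₀) := by
      rw [hξ', map_mul, map_mul, map_zpow₀, map_zpow₀, hσu₀, hδu₀, hσσ', hδE, map_sub]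
      ring
    rw [h1, map_mul, map_zpow₀, map_mul, hνW', hu, one_mul, one_zpow, one_mul]
    exact valuation_algebraMap_lt_one_of_ext hext (hσW w₀ hwW)

end RecMain

end Fermat.Agent.RB
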