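/-
RB (S43) / [BB3] package E [REC-σ] — helper8 — **an endomorphism of the Kummer cover extending an
endomorphism of the base host which preserves the sheets, preserves the sheets of the cover**
(hypotheses `hsinf`, `hs0`, `hdinf`, `hd0` of `pow_of_inertia_diamond`), from the `only` clause of
the two-sheet structure.

* `isGaussAt_comap_of_map` : the pull-back of a Gauss valuation subring along an endomorphism fixing
  the coordinate and acting on the base ring by `sR ≡ id mod π` is again Gauss;
* `mem_iff_map_mem_of_only` : the sheet-preservation statement.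
-/
import Mathlib
import Fermat.Agent.JA.GEO_lead_Spec

set_option autoImplicit false
set_option linter.unusedSectionVars false

open Polynomial

namespace Fermat.Agent.RB

open Fermat.Agent.JA

section Gauss

variable {R : Type*} [CommRing R] [IsDomain R] [IsDiscreteValuationRing R]
  {E : Type*} [Field E] [Algebra R E]

/-- the pull-back of a Gauss valuation subring along an endomorphism fixing the coordinate and
acting on the base ring by `sR ≡ id mod π`. -/
theorem isGaussAt_comap_of_map {π : R} (hπ : Irreducible π) {t : E} {W : ValuationSubring E}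
    (hW : IsGaussAt R π t W) (s : E →+* E) (sR : R →+* R)
    (hsR : ∀ a : R, s (algebraMap R E a) = algebraMap R E (sR a))
    (hfrob : ∀ a : R, sR a - a ∈ Ideal.span {π}) (hst : s t = t)
    (hinj : Function.Injective (algebraMap R E)) (hsinj : Function.Injective sR) :
    IsGaussAt R π t (W.comap s) := by
  have hmap : ∀ f : R[X], s (aeval t f) = aeval t (f.map sR) := by
    intro f
    induction f using Polynomial.induction_on' with
    | add p q hp hq => rw [map_add, map_add, hp, hq, Polynomial.map_add, map_add]
    | monomial n a =>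
      rw [Polynomial.map_monomial, aeval_monomial, aeval_monomial, map_mul, map_pow, hsR, hst]
  refine ⟨fun f => ?_, ?_, fun f hf => ?_⟩
  · show s (aeval t f) ∈ W
    rw [hmap]
    exact hW.1 _
  · show s (algebraMap R E π)⁻¹ ∉ W
    rw [map_inv₀, hsR]
    intro hmem
    obtain ⟨c, hc⟩ := Ideal.mem_span_singleton.mp (hfrob π)
    have h1 : sR π = π * (1 + c) := by
      have : sR π = π + π * c := by rw [← hc]; ring
      rw [this]; ring
    have h0 : algebraMap R E (sR π) ≠ 0 := by
      rw [Ne, map_eq_zero_iff _ hinj, map_eq_zero_iff _ hsinj]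
      exact hπ.ne_zero
    have h2 : (algebraMap R E π)⁻¹ =
        algebraMap R E (1 + c) * (algebraMap R E (sR π))⁻¹ := by
      rw [h1, map_mul, mul_inv, ← mul_assoc, mul_comm (algebraMap R E (1 + c)), mul_assoc,
        mul_inv_cancel₀, mul_one]
      intro h3
      apply h0
      rw [h1, map_mul, h3, mul_zero]
    apply hW.2.1
    rw [h2]
    refine W.mul_mem _ _ ?_ hmem
    have := hW.1 (C (1 + c))
    rwa [aeval_C] at this
  · show s (aeval t f)⁻¹ ∈ W
    rw [map_inv₀, hmap]
    apply hW.2.2
    intro hdiv
    apply hf
    rw [Polynomial.C_dvd_iff_dvd_coeff] at hdiv ⊢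
    intro i
    by_contra hi
    have hu : IsUnit (f.coeff i) := by
      by_contra hnu
      apply hi
      have h1 : f.coeff i ∈ IsLocalRing.maximalIdeal R := (IsLocalRing.mem_maximalIdeal _).mpr hnu
      rw [hπ.maximalIdeal_eq, Ideal.mem_span_singleton] at h1
      exact h1
    have h2 := hdiv i
    rw [Polynomial.coeff_map] at h2
    have h3 : IsUnit (sR (f.coeff i)) := hu.map sR
    exact hπ.not_isUnit (isUnit_of_dvd_unit h2 h3)

end Gauss

section Sheet

variable {E E' : Type*} [Field E] [Field E'] [Algebra E E']

/-- **sheet preservation on the cover**: `W₁ ≠ W₂` the sheets of `E`, `W₁'`, `W₂'` their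
extensions to `E'`, the only valuation subrings of `E'` with the property `Q`; an endomorphism `s'`
of `E'` extending an endomorphism `s` of `E` which preserves `W₁`, such that the pull-back of `W₁'`
has `Q`, preserves `W₁'`. -/
theorem mem_iff_map_mem_of_only {W₁ W₂ : ValuationSubring E} {W₁' W₂' : ValuationSubring E'}
    (hne : W₁ ≠ W₂)
    (hext₁ : ∀ x : E, algebraMap E E' x ∈ W₁' ↔ x ∈ W₁)
    (hext₂ : ∀ x : E, algebraMap E E' x ∈ W₂' ↔ x ∈ W₂)
    (s : E →+* E) (s' : E' →+* E') (hss' : ∀ x : E, s' (algebraMap E E' x) = algebraMap E E' (s x))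
    (hs : ∀ x : E, x ∈ W₁ ↔ s x ∈ W₁)
    (Q : ValuationSubring E' → Prop) (only : ∀ W : ValuationSubring E', Q W → W = W₁' ∨ W = W₂')
    (hQ : Q (W₁'.comap s')) : ∀ x : E', x ∈ W₁' ↔ s' x ∈ W₁' := by
  rcases only _ hQ with h | h
  · intro x
    conv_lhs => rw [← h]
    rfl
  · exfalso
    apply hne
    ext x
    rw [← hext₂ x, ← h, ValuationSubring.mem_comap, hss', hext₁, ← hs]

end Sheet

end Fermat.Agent.RB
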