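/-
RB [BB3] = (KEY-H), package E [REC-σ] — helper8 — **the abstract gluing of E**: on a Kummer cover
`E' = E(u)` of a two-sheeted host `E` (sheets `Winf`, `W0`; `Winf'`, `W0'` over them), an
inertia-type endomorphism `s` of `E'` extending `sE` of `E`, and an endomorphism `d` of `E'` trivial
on `E` with `d u = ν u`: ALL hypotheses of helper5's `pow_of_inertia_diamond` about `s`, `d`
(`hsinf`, `hs0`, `hres`, `hdinf`, `hd0`, `hcomm`, `hres0`) and the unit clause
`W'(s f / f) = 1` (`hginf`, `hg0` for `g₁ = s f / f`).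

Inputs: the two-sheet structures, the extension clauses, the two spanning clauses of helper5's
`kummer_cover_model`, and the reciprocity data `s u = u`, `sE c = ν⁻¹ c`, `W0'(u / c) = 1`.
-/
import Mathlib
import Fermat.Agent.RB.RECS_helper8_Main
import Fermat.Agent.RB.RECS_helper8_Sheet
import Fermat.Agent.RB.KEYH_helper5_Order
import Fermat.Agent.SS.MODEL_helper7_W0
import Fermat.Agent.S35.FROBIF_helper8

set_option autoImplicit false
set_option linter.unusedSectionVars false
set_option linter.unusedVariables false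
set_option linter.style.haveILetI false

namespace Fermat.Agent.RB

open Fermat.Agent.JA Fermat.Agent.SS Fermat.Agent.SS.TwoExt Fermat.Agent.S35

section Glue

variable {R : Type*} [CommRing R] [IsDomain R] [IsDiscreteValuationRing R] [CharZero R]
  {K₁ : Type*} [Field K₁] [Algebra R K₁] [IsFractionRing R K₁]
  {K : Type*} [Field K] [Algebra K₁ K] [Algebra R K] [IsScalarTower R K₁ K]
  {E : Type*} [Field E] [Algebra K E] [Algebra R E] [IsScalarTower R K E] [FiniteDimensional K E]
  {E' : Type*} [Field E'] [Algebra K E'] [Algebra R E'] [IsScalarTower R K E']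
  [FiniteDimensional K E'] [Algebra E E'] [IsScalarTower K E E']
  {π : R} {t : K} {Winf W0 : ValuationSubring E} {Winf' W0' : ValuationSubring E'}

include K₁ in
/-- an endomorphism of `E'` acting on `R` by `sR ≡ id`, fixing the coordinate, extending an
endomorphism of `E` which preserves the sheet `W₁`, preserves the sheet `W₁'` over it. -/
theorem sheet_mem_iff_of_extends (hπ : Irreducible π)
    {W₁ W₂ : ValuationSubring E} {W₁' W₂' : ValuationSubring E'} (hne : W₁ ≠ W₂)
    (hext₁ : IsExt W₁ W₁') (hext₂ : IsExt W₂ W₂')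
    (hgauss : IsGaussAt R π t (W₁'.comap (algebraMap K E')))
    (only : ∀ W : ValuationSubring E', IsGaussAt R π t (W.comap (algebraMap K E')) →
      W = W₁' ∨ W = W₂')
    (sE : E →+* E) (s : E' →+* E')
    (hss : ∀ z : E, s (algebraMap E E' z) = algebraMap E E' (sE z))
    (sR : R →+* R) (hsR : ∀ a : R, s (algebraMap R E' a) = algebraMap R E' (sR a))
    (hfrob : ∀ a : R, sR a - a ∈ Ideal.span {π}) (hsinj : Function.Injective sR)
    (hst : s (algebraMap K E' t) = algebraMap K E' t)
    (hsE : ∀ z : E, z ∈ W₁ ↔ sE z ∈ W₁) :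
    ∀ z : E', z ∈ W₁' ↔ s z ∈ W₁' := by
  have hinj : Function.Injective (algebraMap R E') := by
    rw [IsScalarTower.algebraMap_eq R K E', IsScalarTower.algebraMap_eq R K₁ K]
    exact (algebraMap K E').injective.comp
      ((algebraMap K₁ K).injective.comp (IsFractionRing.injective R K₁))
  have hθ : ∀ a : R, algebraMap K E' (algebraMap R K a) = algebraMap R E' a :=
    fun a => (IsScalarTower.algebraMap_apply R K E' a).symm
  refine mem_iff_map_mem_of_only hne hext₁.mem_iff hext₂.mem_iff sE s hss hsE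
    (fun W => IsGaussAt R π t (W.comap (algebraMap K E'))) only ?_
  rw [isGaussAt_comap_ringHom_iff (algebraMap K E') hθ]
  rw [isGaussAt_comap_ringHom_iff (algebraMap K E') hθ] at hgauss
  exact isGaussAt_comap_of_map hπ hgauss s sR hsR hfrob hst hinj hsinj

/-- an endomorphism of `E'` which is the identity on `E` preserves a sheet of `E'` (two-sheet
structure on `E'`, distinct sheets on `E`). -/
theorem sheet_mem_iff_of_fixes
    {W₁ W₂ : ValuationSubring E} {W₁' W₂' : ValuationSubring E'} (hne : W₁ ≠ W₂)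
    (hext₁ : IsExt W₁ W₁') (hext₂ : IsExt W₂ W₂')
    (hgauss : IsGaussAt R π t (W₁'.comap (algebraMap K E')))
    (only : ∀ W : ValuationSubring E', IsGaussAt R π t (W.comap (algebraMap K E')) →
      W = W₁' ∨ W = W₂')
    (d : E' →+* E') (hdE : ∀ z : E, d (algebraMap E E' z) = algebraMap E E' z) :
    ∀ z : E', z ∈ W₁' ↔ d z ∈ W₁' := by
  refine mem_iff_map_mem_of_only hne hext₁.mem_iff hext₂.mem_iff (RingHom.id E) d hdE
    (fun _ => Iff.rfl) (fun W => IsGaussAt R π t (W.comap (algebraMap K E'))) only ?_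
  have h1 : (W₁'.comap d).comap (algebraMap K E') = W₁'.comap (algebraMap K E') := by
    ext a
    rw [ValuationSubring.mem_comap, ValuationSubring.mem_comap, ValuationSubring.mem_comap,
      IsScalarTower.algebraMap_apply K E E', hdE]
  rw [h1]
  exact hgauss

include K₁ in
/-- **the unit clause**: an automorphism-like endomorphism `s` of `E'` preserving the sheet `W'`
and multiplying the uniformizer by a unit of `R` preserves the valuation along `W'`:
`W'(s f / f) = 1`. -/
theorem sheet_valuation_map_div_eq_one (hπ : Irreducible π) (hu : Transcendental K₁ t)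
    (hK : IntermediateField.adjoin K₁ {t} = ⊤) {W' : ValuationSubring E'}
    (hG : IsGaussAt R π t (W'.comap (algebraMap K E')))
    (he : ∀ x : E', W'.valuation x < 1 → x * (algebraMap R E' π)⁻¹ ∈ W')
    (s : E' →+* E') (hs : ∀ z : E', z ∈ W' ↔ s z ∈ W')
    (ε : Rˣ) (hsπ : s (algebraMap R E' π) = algebraMap R E' ((ε : R) * π))
    {f : E'} (hf : f ≠ 0) : W'.valuation (s f / f) = 1 := by
  obtain ⟨a, ha⟩ := exists_zpow_val_eq_one (K₁ := K₁) hπ hu hK hG he hf
  have hπE : algebraMap R E' π ≠ 0 := algebraMap_pi_ne_zero (K₁ := K₁) (K := K) hπ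
  have hW'R : ∀ b : R, algebraMap R E' b ∈ W' := by
    intro b
    have := hG.1 (Polynomial.C b)
    rw [Polynomial.aeval_C] at this
    have h3 : algebraMap K E' (algebraMap R K b) ∈ W' := this
    rwa [← IsScalarTower.algebraMap_apply] at h3
  have hε1 : W'.valuation (algebraMap R E' (ε : R)) = 1 := by
    have h1 : W'.valuation (algebraMap R E' (ε : R)) ≤ 1 :=
      (ValuationSubring.valuation_le_one_iff _ _).mpr (hW'R _)
    have h2 : W'.valuation (algebraMap R E' ((ε⁻¹ : Rˣ) : R)) ≤ 1 :=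
      (ValuationSubring.valuation_le_one_iff _ _).mpr (hW'R _)
    have h3 : W'.valuation (algebraMap R E' (ε : R)) *
        W'.valuation (algebraMap R E' ((ε⁻¹ : Rˣ) : R)) = 1 := by
      rw [← map_mul, ← map_mul, Units.mul_inv, map_one, map_one]
    refine le_antisymm h1 ?_
    by_contra hlt
    rw [not_le] at hlt
    have : W'.valuation (algebraMap R E' (ε : R)) *
        W'.valuation (algebraMap R E' ((ε⁻¹ : Rˣ) : R)) < 1 := by
      calc _ ≤ W'.valuation (algebraMap R E' (ε : R)) * 1 := by gcongr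
        _ < 1 := by rwa [mul_one]
    exact absurd h3 (ne_of_lt this)
  -- `v = f / π ^ a` is a unit of `W'`
  obtain ⟨v, hv⟩ : ∃ v : E', v = f * (algebraMap R E' π ^ a)⁻¹ := ⟨_, rfl⟩
  rw [← hv] at ha
  have hsv : W'.valuation (s v) = 1 := (valuation_map_eq_one_iff W' s hs v).mpr ha
  have hf' : f = v * algebraMap R E' π ^ a := by
    rw [hv, mul_assoc, inv_mul_cancel₀ (zpow_ne_zero _ hπE), mul_one]
  have hv0 : v ≠ 0 := fun h0 => by rw [h0, map_zero] at ha; exact zero_ne_one ha
  have hπa : algebraMap R E' π ^ a ≠ 0 := zpow_ne_zero _ hπE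
  have e1 : s f / f = (s v / v) * algebraMap R E' (ε : R) ^ a := by
    have h1 : s f = s v * (algebraMap R E' (ε : R) * algebraMap R E' π) ^ a := by
      rw [hf', map_mul, map_zpow₀, hsπ, map_mul]
    rw [h1, mul_zpow, hf', mul_div_mul_comm, mul_div_assoc, div_self hπa, mul_one]
  rw [e1, map_mul, map_div₀, hsv, ha, div_one, one_mul, map_zpow₀, hε1, one_zpow]

include K₁ in
/-- **E [REC-σ], abstract gluing.**  All hypotheses of `pow_of_inertia_diamond` about `s`, `d` on the
Kummer cover `E' = E(u)`, and the unit clause for `g₁ = s f / f`. -/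
theorem rec_sigma_glue (hπ : Irreducible π) (hu : Transcendental K₁ t)
    (hK : IntermediateField.adjoin K₁ {t} = ⊤)
    (two : IsTwoSheet π t Winf W0) (two' : IsTwoSheet π t Winf' W0')
    (hexti : IsExt Winf Winf') (hextz : IsExt W0 W0')
    (sE : E →+* E) (s : E' →+* E')
    (hss : ∀ z : E, s (algebraMap E E' z) = algebraMap E E' (sE z))
    (sR : R →+* R) (hsR : ∀ a : R, s (algebraMap R E' a) = algebraMap R E' (sR a))
    (hfrob : ∀ a : R, sR a - a ∈ Ideal.span {π}) (hsinj : Function.Injective sR)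
    (hst : s (algebraMap K E' t) = algebraMap K E' t)
    (hsEinf : ∀ z : E, z ∈ Winf ↔ sE z ∈ Winf) (hsE0 : ∀ z : E, z ∈ W0 ↔ sE z ∈ W0)
    (hresEinf : ∀ z ∈ Winf, Winf.valuation (sE z - z) < 1)
    (hresE0 : ∀ z ∈ W0, W0.valuation (sE z - z) < 1)
    (ε : Rˣ) (hsRπ : sR π = (ε : R) * π)
    {u : E'} (hsu : s u = u) (hui : Winf'.valuation u = 1) {m : ℕ}
    (hspani : ∃ (xi' : E') (si : ℤ) (wi : E), wi ≠ 0 ∧ xi' = u ^ si * algebraMap E E' wi ∧
      Winf'.valuation xi' = 1 ∧
      ∀ y ∈ Winf', ∃ a : Fin m → E, (∀ i, a i ∈ Winf) ∧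
        Winf'.valuation (y - ∑ i, algebraMap E E' (a i) * xi' ^ (i : ℕ)) < 1)
    (hspanz : ∃ (xz' : E') (sz : ℤ) (wz : E), wz ≠ 0 ∧ xz' = u ^ sz * algebraMap E E' wz ∧
      W0'.valuation xz' = 1 ∧
      ∀ y ∈ W0', ∃ a : Fin m → E, (∀ i, a i ∈ W0) ∧
        W0'.valuation (y - ∑ i, algebraMap E E' (a i) * xz' ^ (i : ℕ)) < 1)
    (d : E' →+* E') (hdE : ∀ z : E, d (algebraMap E E' z) = algebraMap E E' z)
    {c ν : E} (hc0 : c ≠ 0) (hν : W0.valuation ν = 1)
    (hu0 : W0'.valuation (u * (algebraMap E E' c)⁻¹) = 1)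
    (hdu : d u = algebraMap E E' ν * u) (hσc : sE c = ν⁻¹ * c) (hsν : sE ν = ν)
    (hgen : ∀ a b : E' →+* E', (∀ z : E, a (algebraMap E E' z) = b (algebraMap E E' z)) →
      a u = b u → a = b) :
    (∀ z : E', z ∈ Winf' ↔ s z ∈ Winf') ∧ (∀ z : E', z ∈ W0' ↔ s z ∈ W0') ∧
    (∀ z ∈ Winf', Winf'.valuation (s z - z) < 1) ∧
    (∀ z : E', z ∈ Winf' ↔ d z ∈ Winf') ∧ (∀ z : E', z ∈ W0' ↔ d z ∈ W0') ∧
    (∀ z : E', d (s z) = s (d z)) ∧
    (∀ z ∈ W0', W0'.valuation (s z - d z) < 1) ∧
    (∀ f : E', f ≠ 0 → Winf'.valuation (s f / f) = 1 ∧ W0'.valuation (s f / f) = 1) := by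
  have only' : ∀ W : ValuationSubring E', IsGaussAt R π t (W.comap (algebraMap K E')) →
      W = W0' ∨ W = Winf' := fun W hW => (two'.only W hW).symm
  have hsinf := sheet_mem_iff_of_extends (K₁ := K₁) hπ two.ne hexti hextz two'.gauss_inf two'.only
    sE s hss sR hsR hfrob hsinj hst hsEinf
  have hs0 := sheet_mem_iff_of_extends (K₁ := K₁) hπ two.ne.symm hextz hexti two'.gauss_zero only'
    sE s hss sR hsR hfrob hsinj hst hsE0
  have hdinf := sheet_mem_iff_of_fixes two.ne hexti hextz two'.gauss_inf two'.only d hdE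
  have hd0 := sheet_mem_iff_of_fixes two.ne.symm hextz hexti two'.gauss_zero only' d hdE
  obtain ⟨xi', si, wi, -, hxi, hxi1, hspi⟩ := hspani
  obtain ⟨xz', sz, wz, -, hxz, hxz1, hspz⟩ := hspanz
  have hres := rec_sigma_inf hexti.mem_iff sE s hss hresEinf hsinf hui hsu hxi hxi1 hspi
  have hres0 := rec_sigma_zero hextz.mem_iff sE s hss hresE0 hs0 d hdE hd0 hc0 hν hu0 hsu hdu hσc
    hxz hxz1 hspz
  have hcomm : ∀ z : E', d (s z) = s (d z) := by
    have h1 : d.comp s = s.comp d := by
      apply hgen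
      · intro z
        rw [RingHom.comp_apply, RingHom.comp_apply, hss, hdE, hdE, hss]
      · rw [RingHom.comp_apply, RingHom.comp_apply, hsu, hdu, map_mul, hss, hsν, hsu]
    exact fun z => RingHom.congr_fun h1 z
  have hsπ : s (algebraMap R E' π) = algebraMap R E' ((ε : R) * π) := by rw [hsR, hsRπ]
  refine ⟨hsinf, hs0, hres, hdinf, hd0, hcomm, hres0, fun f hf => ⟨?_, ?_⟩⟩
  · exact sheet_valuation_map_div_eq_one (K₁ := K₁) hπ hu hK two'.gauss_inf two'.e_inf s hsinf ε
      hsπ hf
  · exact sheet_valuation_map_div_eq_one (K₁ := K₁) hπ hu hK two'.gauss_zero two'.e_zero s hs0 ε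
      hsπ hf

end Glue

end Fermat.Agent.RB
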