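/-
RB [BB3] = (KEY-H), package E [REC-σ] — helper8 — part 10: **the concrete host glue**
`legL_E_facts : LegLEFacts`: the instantiation of the abstract `rec_sigma_glue` at the Kummer cover
`E'' = legEL K₁ (M' r) 1 = EN₁(u)` of `EN₁ = legEL K₁ M' r`, `u = legResU` the resolvent.

* `resGal_mulChar_apply` : inertia at `r` fixes the values of a character of `(ℤ/r)ˣ`;
* `resGal_gaussSum_mul` : `σ c = ψ(cyc σ)⁻¹ c` for `c = g(ψ) r⁻⁴`;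
* `val_legResU` : `W_∞''(u) = 1`, `W_0''(u / c) = 1`;
* `exists_delta_dict` : the diamond automorphism `δ` with its dictionary;
* `legL_E_facts`.
-/
import Mathlib
import Fermat.Agent.RB.RECS_helper8_HostLit
import Fermat.Agent.RB.RECS_helper8_Glue
import Fermat.Agent.RB.RECS_helper8_Delta
import Fermat.Agent.RB.RECS_helper8_Dia
import Fermat.Agent.RB.VAL_helper8_LegL
import Fermat.Agent.RB.KEYH_helper8_BCL
import Fermat.Agent.RB.KEYH_helper5_Cover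
import Fermat.Agent.RB.FIELD1_helper8_Gen
import Fermat.Agent.RB.KEYH_helper5_ThetaE

set_option autoImplicit false
set_option linter.unusedSectionVars false
set_option linter.unusedVariables false
set_option linter.style.haveILetI false
set_option synthInstance.maxHeartbeats 400000

open HahnSeries IntermediateField AlgebraicCurve ModularCurve Polynomial

namespace Fermat.Agent.RB

open Fermat.Agent.JA Fermat.Agent.Igusa Fermat.Agent.SS Fermat.Agent.FF Fermat.Agent.MP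
  Fermat.Agent.W1 Fermat.Agent.SS.TwoExt Fermat.Agent.TW.Kill

open scoped Fermat.Agent.JA.Host

/-- `Ω = AlgebraicClosure ℚ`. -/
local notation "Ω" => AlgebraicClosure ℚ

/-- the absolute Galois group. -/
local notation "GQ" => (AlgebraicClosure ℚ ≃ₐ[ℚ] AlgebraicClosure ℚ)

noncomputable section

attribute [local instance] baseToComplex

section Fixed

variable {r : ℕ} [Fact r.Prime] {A : ValuationSubring Ω} {σ : GQ}
  (K₁ : IntermediateField ℚ Ω) [Normal ℚ ↥K₁]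

/-- inertia at `r` fixes the values of a character of `(ℤ/r)ˣ`. -/
theorem resGal_mulChar_apply (hA : A.LiesOverPrime r) (hσ : σ ∈ A.inertiaSubgroupIn ℚ)
    (ψ : MulChar (ZMod r) ↥K₁) (a : ZMod r) : resGal K₁ σ (ψ a) = ψ a := by
  have hr : r.Prime := Fact.out
  have hr2 := hr.two_le
  by_cases ha : IsUnit a
  · obtain ⟨e, rfl⟩ := ha
    have h1 : ψ (e : ZMod r) ^ (r - 1) = 1 := by
      rw [← map_pow, ← Units.val_pow_eq_pow_val, ZMod.units_pow_card_sub_one_eq_one,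
        Units.val_one, map_one]
    apply Subtype.ext
    rw [coe_resGal]
    refine inertia_apply_root hA hσ (n := r - 1) (by omega) ?_ ?_
    · intro h
      have := Nat.le_of_dvd (by omega) h
      omega
    · rw [← SubmonoidClass.coe_pow, h1]
      rfl
  · rw [ψ.map_nonunit ha, map_zero]

/-- `σ c = ψ(cyc σ)⁻¹ c` for `c = g(ψ) r⁻⁴`. -/
theorem resGal_gaussSum_mul [NeZero r] (hA : A.LiesOverPrime r) (hσ : σ ∈ A.inertiaSubgroupIn ℚ)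
    (ψ : MulChar (ZMod r) ↥K₁) {ζ : ↥K₁} (hζ : ζ ^ r = 1) :
    resGal K₁ σ (gaussSum ψ (AddChar.zmodChar r hζ) * ((r : ↥K₁)⁻¹) ^ 4) =
      (ψ ((cyc r σ : (ZMod r)ˣ) : ZMod r))⁻¹ *
        (gaussSum ψ (AddChar.zmodChar r hζ) * ((r : ↥K₁)⁻¹) ^ 4) := by
  have hfζ : ((resGal K₁ σ : ↥K₁ ≃ₐ[ℚ] ↥K₁) : ↥K₁ →+* ↥K₁) ζ =
      ζ ^ (((cyc r σ : (ZMod r)ˣ) : ZMod r)).val := by
    apply Subtype.ext
    rw [RingHom.coe_coe, coe_resGal, SubmonoidClass.coe_pow]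
    refine cyc_spec' r σ ?_
    rw [← SubmonoidClass.coe_pow, hζ]
    rfl
  have h1 := map_gaussSum_of_map_pow ((resGal K₁ σ : ↥K₁ ≃ₐ[ℚ] ↥K₁) : ↥K₁ →+* ↥K₁) ψ
    (fun a => resGal_mulChar_apply K₁ hA hσ ψ a) hζ (cyc r σ) hfζ
  rw [RingHom.coe_coe] at h1
  rw [map_mul, map_pow, map_inv₀, map_natCast, h1, MulChar.inv_apply_eq_inv,
    Ring.inverse_eq_inv', mul_assoc]

end Fixed


section Val

open Complex Real

set_option maxHeartbeats 3200000 in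
/-- **`W_∞''(u) = 1` and `W_0''(u / c) = 1`**, `c = g(ψ) r⁻⁴`. -/
theorem val_legResU (M' r : ℕ) [NeZero M'] [NeZero r] [NeZero (M' * r)] (hM' : 3 ≤ M')
    (hr : r.Prime) (hr2 : r ≠ 2) (hrM : ¬ r ∣ M')
    (A : ValuationSubring Ω) (hA : A.LiesOverPrime r)
    (K₁ : IntermediateField ℚ Ω) (hK₁ : IsBase r K₁)
    [IsDiscreteValuationRing ↥(baseRing A K₁)] [CharZero ↥(baseRing A K₁)]
    [DecidableEq ↥(baseRing A K₁)] (ϖ : ↥(baseRing A K₁)) (hϖ : Irreducible ϖ)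
    (h2 : IsUnit (2 : ↥(baseRing A K₁))) (x y : ℤ) (hbez : (r : ℤ) * x + M' * y = 1)
    (ζR : ↥(baseRing A K₁))
    (hζ : algebraMap ↥K₁ ℂ (algebraMap ↥(baseRing A K₁) ↥K₁ ζR) = cexp (2 * π * I / r))
    (hζr : (algebraMap ↥(baseRing A K₁) ↥K₁ ζR) ^ r = 1)
    (ψR : MulChar (ZMod r) ↥(baseRing A K₁))
    (hψ : Function.Injective fun d : (ZMod r)ˣ => ψR (d : ZMod r))
    [Fact (legEL ↥K₁ M' r ≤ legEL ↥K₁ (M' * r) 1)]
    {Winf'' W0'' : ValuationSubring ↥(legEL ↥K₁ (M' * r) 1)}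
    (hexti : IsExt (legWinfL ↥(baseRing A K₁) ↥K₁ h2 M' r) Winf'')
    (hextz : IsExt (legW0L ↥(baseRing A K₁) ↥K₁ hbez hr) W0'') :
    haveI := isScalarTower_baseToComplex K₁
    Winf''.valuation (legResU ↥K₁ hbez (by omega)
      (ψR.ringHomComp (algebraMap ↥(baseRing A K₁) ↥K₁))) = 1 ∧
    W0''.valuation (legResU ↥K₁ hbez (by omega)
      (ψR.ringHomComp (algebraMap ↥(baseRing A K₁) ↥K₁)) *
      (algebraMap ↥(legEL ↥K₁ M' r) ↥(legEL ↥K₁ (M' * r) 1)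
        (algebraMap ↥K₁ ↥(legEL ↥K₁ M' r)
          (gaussSum (ψR.ringHomComp (algebraMap ↥(baseRing A K₁) ↥K₁))
            (AddChar.zmodChar r hζr) * ((r : ↥K₁)⁻¹) ^ 4)))⁻¹) = 1 := by
  haveI := isScalarTower_baseToComplex K₁
  haveI : Fact r.Prime := ⟨hr⟩
  have hM1 : M' ≠ 1 := by omega
  have hM2 : 2 ≤ M' := by omega
  have hcop : Nat.Coprime M' r := ((Nat.Prime.coprime_iff_not_dvd hr).mpr hrM).symm
  have htot : Nat.totient r = r - 1 := Nat.totient_prime hr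
  have hr1 : 0 < r - 1 := by have := hr.two_le; omega
  have hψn : ∀ s : (ZMod r)ˣ, ψR (s : ZMod r) ^ (r - 1) = 1 := by
    intro s
    rw [← map_pow, ← Units.val_pow_eq_pow_val, ZMod.units_pow_card_sub_one_eq_one,
      Units.val_one, map_one]
  obtain ⟨ψ₁, hψ₁⟩ : ∃ ψ₁ : MulChar (ZMod r) ↥K₁,
    ψ₁ = ψR.ringHomComp (algebraMap ↥(baseRing A K₁) ↥K₁) := ⟨_, rfl⟩
  obtain ⟨c₀, hc₀⟩ : ∃ c₀ : ↥K₁, c₀ = gaussSum (ψR.ringHomComp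
    (algebraMap ↥(baseRing A K₁) ↥K₁)) (AddChar.zmodChar r hζr) * ((r : ↥K₁)⁻¹) ^ 4 := ⟨_, rfl⟩
  obtain ⟨h1, h0⟩ := val_resolvent_legL M' r hM' hr hr2 hrM A hA K₁ hK₁ ϖ hϖ h2 x y hbez ζR hζ hζr
    ψR hψ hr1 hψn (legResF ↥K₁ hbez hM2 hcop (ψR.ringHomComp
      (algebraMap ↥(baseRing A K₁) ↥K₁))) (by rw [coe_legResF, htot])
  rw [← hc₀] at h0 ⊢
  rw [← hψ₁] at h1 h0 ⊢
  have hu' : legResU ↥K₁ hbez hM2 ψ₁ ^ (r - 1) =
      algebraMap ↥(legEL ↥K₁ M' r) ↥(legEL ↥K₁ (M' * r) 1) (legResF ↥K₁ hbez hM2 hcop ψ₁) := by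
    rw [← htot, legResU_pow ↥K₁ hbez hM2 hcop ψ₁ hM1]
    rfl
  refine ⟨?_, ?_⟩
  · have h3 : Winf''.valuation (legResU ↥K₁ hbez hM2 ψ₁) ^ (r - 1) = 1 := by
      rw [← map_pow, hu']
      exact IsExt_val_eq_one hexti h1
    exact eq_one_of_pow_eq_one' hr1.ne' h3
  · have h3 : W0''.valuation (legResU ↥K₁ hbez hM2 ψ₁ *
        (algebraMap ↥(legEL ↥K₁ M' r) ↥(legEL ↥K₁ (M' * r) 1)
          (algebraMap ↥K₁ ↥(legEL ↥K₁ M' r) c₀))⁻¹) ^ (r - 1) = 1 := by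
      rw [← map_pow, mul_pow, hu', inv_pow, ← map_pow, ← map_pow, ← map_inv₀, ← map_mul]
      exact IsExt_val_eq_one hextz h0
    exact eq_one_of_pow_eq_one' hr1.ne' h3

end Val

section Delta

set_option maxHeartbeats 1600000 in
/-- **the diamond automorphism `δ` of `E''` over `EN₁`, with `δ u = ψ(cyc σ) u` and its
dictionary.** -/
theorem exists_delta_dict (M' r : ℕ) [NeZero M'] [NeZero r] [NeZero (M' * r)] (hM' : 3 ≤ M')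
    (hr : r.Prime) (hrM : ¬ r ∣ M')
    (A : ValuationSubring Ω) (hA : A.LiesOverPrime r)
    (K₁ : IntermediateField ℚ Ω) (x y : ℤ) (hbez : (r : ℤ) * x + M' * y = 1)
    (ψ : MulChar (ZMod r) ↥K₁)
    (hψ : Function.Injective fun d : (ZMod r)ˣ => ψ (d : ZMod r))
    {σ : GQ} (hσ : σ ∈ A.inertiaSubgroupIn ℚ)
    [Fact (legEL ↥K₁ M' r ≤ legEL ↥K₁ (M' * r) 1)]
    (hfin : Module.finrank ↥(legEL ↥K₁ M' r) ↥(legEL ↥K₁ (M' * r) 1) = r - 1) :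
    haveI := isScalarTower_baseToComplex K₁
    ∃ δ : ↥(legEL ↥K₁ (M' * r) 1) ≃ₐ[↥(legEL ↥K₁ M' r)] ↥(legEL ↥K₁ (M' * r) 1),
      δ (legResU ↥K₁ hbez (by omega) ψ) =
        algebraMap ↥K₁ ↥(legEL ↥K₁ (M' * r) 1) (ψ ((cyc r σ : (ZMod r)ˣ) : ZMod r)) *
          legResU ↥K₁ hbez (by omega) ψ ∧
      ∀ z : ↥(laurentBaseChange ↥K₁ (F₁ (M' * r) 1)),
        δ (legHostEmb ↥K₁ (F₁ (M' * r) 1) z) =
          legHostEmb ↥K₁ (F₁ (M' * r) 1)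
            (diaAlg (k := ↥K₁) (M' * r) 1 (cyc (M' * r) σ)⁻¹ z) := by
  haveI := isScalarTower_baseToComplex K₁
  haveI : Fact r.Prime := ⟨hr⟩
  have hcop : Nat.Coprime M' r := ((Nat.Prime.coprime_iff_not_dvd hr).mpr hrM).symm
  have hr1 : 0 < r - 1 := by have := hr.two_le; omega
  haveI : FiniteDimensional ↥(legEL ↥K₁ M' r) ↥(legEL ↥K₁ (M' * r) 1) :=
    Module.finite_of_finrank_pos (by rw [hfin]; exact hr1)
  obtain ⟨δ, hδu, hδ⟩ := exists_delta_legEL hbez hM' hr hcop ψ hψ hfin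
    (legResU ↥K₁ hbez (by omega) ψ) rfl ((cyc r σ)⁻¹)
  refine ⟨δ, ?_, fun z => ?_⟩
  · rw [hδu, MulChar.inv_apply', Units.val_inv_eq_inv_val, inv_inv]
  · rw [hδ z, cyc_eq_crtUnitHom hcop hA hσ hrM, ← map_inv]
    rfl

end Delta

section SSide

set_option maxHeartbeats 1600000 in
/-- the coefficientwise action of an inertia element preserves the two sheets of `EN₁` (iff
forms). -/
theorem coeffRingAut_mem_legL_iff (M q : ℕ) [NeZero M] [NeZero q] [NeZero (M * q)] (hM : M ≠ 1)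
    (hq : q.Prime) (hq2 : q ≠ 2) (hqM : ¬ q ∣ M)
    (A : ValuationSubring Ω) (hA : A.LiesOverPrime q)
    (K₁ : IntermediateField ℚ Ω) [Normal ℚ ↥K₁] (hK₁ : IsBase q K₁)
    [IsDiscreteValuationRing ↥(baseRing A K₁)] [CharZero ↥(baseRing A K₁)]
    [DecidableEq ↥(baseRing A K₁)] (ϖ : ↥(baseRing A K₁)) (hϖ : Irreducible ϖ)
    (h2 : IsUnit (2 : ↥(baseRing A K₁))) (x y : ℤ) (hbez : (q : ℤ) * x + M * y = 1)
    {σ : GQ} (hσ : σ ∈ A.inertiaSubgroupIn ℚ) (z : ↥(legEL ↥K₁ M q)) :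
    (z ∈ legWinfL ↥(baseRing A K₁) ↥K₁ h2 M q ↔
      coeffRingAut (coeffStable_legHost (K := ↥K₁) (W1.F₁ M q)) (resGal K₁ σ) z ∈
        legWinfL ↥(baseRing A K₁) ↥K₁ h2 M q) ∧
    (z ∈ legW0L ↥(baseRing A K₁) ↥K₁ hbez hq ↔
      coeffRingAut (coeffStable_legHost (K := ↥K₁) (W1.F₁ M q)) (resGal K₁ σ) z ∈
        legW0L ↥(baseRing A K₁) ↥K₁ hbez hq) := by
  have h1 := ssModelAut_legL M q hM hq hq2 hqM A hA K₁ hK₁ ϖ hϖ h2 x y hbez hσ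
  have h2' := ssModelAut_legL M q hM hq hq2 hqM A hA K₁ hK₁ ϖ hϖ h2 x y hbez (inv_mem hσ)
  have h4 : coeffRingAut (coeffStable_legHost (K := ↥K₁) (W1.F₁ M q)) (resGal K₁ σ⁻¹)
      (coeffRingAut (coeffStable_legHost (K := ↥K₁) (W1.F₁ M q)) (resGal K₁ σ) z) = z :=
    coeffRingAut_inv_apply _ z
  refine ⟨⟨fun hz => h1.mem_inf z hz, fun hz => ?_⟩, ⟨fun hz => h1.mem_zero z hz, fun hz => ?_⟩⟩
  · have h3 := h2'.mem_inf _ hz
    rw [RingEquiv.coe_toRingHom, h4] at h3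
    exact h3
  · have h3 := h2'.mem_zero _ hz
    rw [RingEquiv.coe_toRingHom, h4] at h3
    exact h3

end SSide

section Main

open Complex Real

set_option maxHeartbeats 6400000 in
/-- **the concrete host glue.** -/
theorem legL_E_facts : LegLEFacts := by
  intro M' r _ _ _ hM' hr hr2 hrM A hA K₁ _ hK₁ _ _ _ ϖ hϖ h2 x y hbez hζK ψR hψ σ hσ Winf'' W0''
    two'' hexti hextz hfin hspani hspanz
  classical
  haveI := isScalarTower_baseToComplex K₁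
  haveI : Fact r.Prime := ⟨hr⟩
  have hM1 : M' ≠ 1 := by omega
  have hM2 : 2 ≤ M' := by omega
  have hM3 : 3 ≤ M' := by omega
  have hcop : Nat.Coprime M' r := ((Nat.Prime.coprime_iff_not_dvd hr).mpr hrM).symm
  haveI : Fact (legEL ↥K₁ M' r ≤ legEL ↥K₁ (M' * r) 1) := ⟨legEL_raise_le ↥K₁ M' r hM1⟩
  haveI : FiniteDimensional ↥(↥K₁)⟮jqNModC ↥K₁ 2⟯ ↥(legEL ↥K₁ M' r) :=
    finite_legEL_adjoin_j_base K₁ hr hrM hM1
  haveI : FiniteDimensional ↥(↥K₁)⟮jqNModC ↥K₁ 2⟯ ↥(legEL ↥K₁ (M' * r) 1) :=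
    finite_legEL_raise_adjoin_j_base K₁ hr hrM hM1
  -- the root of unity
  obtain ⟨ζ, hζexp, hζprim⟩ := exists_root_map_eq_exp r
  have hζK₁ : ζ ∈ K₁ := hζK ζ hζprim.pow_eq_one
  have hζA : A.valuation ζ ≤ 1 := (ValuationSubring.valuation_le_one_iff _ _).mpr
    (mem_valSubring_of_pow_eq_one_rb A hr.ne_zero hζprim.pow_eq_one)
  obtain ⟨ζR, hζRdef⟩ : ∃ ζR : ↥(baseRing A K₁), ζR = ⟨⟨ζ, hζK₁⟩, mem_baseRing_iff.mpr hζA⟩ :=
    ⟨_, rfl⟩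
  have hζ : algebraMap ↥K₁ ℂ (algebraMap ↥(baseRing A K₁) ↥K₁ ζR) = cexp (2 * π * I / r) := by
    rw [hζRdef]
    exact hζexp
  have hζr : (algebraMap ↥(baseRing A K₁) ↥K₁ ζR) ^ r = 1 := by
    rw [hζRdef]
    apply Subtype.ext
    show ζ ^ r = 1
    exact hζprim.pow_eq_one
  -- the character
  obtain ⟨ψ₁, hψ₁def⟩ : ∃ ψ₁ : MulChar (ZMod r) ↥K₁,
      ψ₁ = ψR.ringHomComp (algebraMap ↥(baseRing A K₁) ↥K₁) := ⟨_, rfl⟩
  have hψ₁ : Function.Injective fun d : (ZMod r)ˣ => ψ₁ (d : ZMod r) := by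
    intro d d' h
    apply hψ
    have h' : ψ₁ (d : ZMod r) = ψ₁ (d' : ZMod r) := h
    rw [hψ₁def, MulChar.ringHomComp_apply, MulChar.ringHomComp_apply] at h'
    exact IsFractionRing.injective ↥(baseRing A K₁) ↥K₁ h'
  -- the valuations of the resolvent
  obtain ⟨hui, hu0⟩ := val_legResU M' r hM3 hr hr2 hrM A hA K₁ hK₁ ϖ hϖ h2 x y hbez ζR hζ hζr ψR hψ
    hexti hextz
  obtain ⟨c₀, hc₀⟩ : ∃ c₀ : ↥K₁, c₀ = gaussSum (ψR.ringHomComp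
    (algebraMap ↥(baseRing A K₁) ↥K₁)) (AddChar.zmodChar r hζr) * ((r : ↥K₁)⁻¹) ^ 4 := ⟨_, rfl⟩
  rw [← hc₀] at hu0
  rw [← hψ₁def] at hui hu0 hspani hspanz hc₀
  -- the automorphism `δ`
  obtain ⟨δ, hδu, hδ⟩ := exists_delta_dict M' r hM3 hr hrM A hA K₁ x y hbez ψ₁ hψ₁ hσ hfin
  obtain ⟨u, hudef⟩ : ∃ u : ↥(legEL ↥K₁ (M' * r) 1), u = legResU ↥K₁ hbez hM2 ψ₁ := ⟨_, rfl⟩
  have hucoe : (u : LaurentSeries ↥K₁) = qExpand ↥K₁ 2 (uSer ↥K₁ M' r x y ψ₁) := by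
    rw [hudef]
    rfl
  -- the model of `EN₁`
  have hmodel := legLModelAtBases M' r hM1 hr hr2 hrM A hA K₁ hK₁ ϖ hϖ h2 x y hbez
  have haut := ssModelAut_legL M' r hM1 hr hr2 hrM A hA K₁ hK₁ ϖ hϖ h2 x y hbez hσ
  have hiff := coeffRingAut_mem_legL_iff M' r hM1 hr hr2 hrM A hA K₁ hK₁ ϖ hϖ h2 x y hbez hσ
  obtain ⟨hsR, hfrob⟩ := coeffRingAut_algebraMap_baseRing_rb
    (coeffStable_legHost (K := ↥K₁) (F₁ (M' * r) 1)) hϖ
    (fun a => IsScalarTower.algebraMap_apply ↥(baseRing A K₁) ↥K₁ ↥(legEL ↥K₁ (M' * r) 1) a) hσ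
  obtain ⟨ε, hε⟩ := exists_unit_baseRingAut_eq_mul (K₁ := K₁) hσ hϖ
  have hst : (coeffRingAut (coeffStable_legHost (K := ↥K₁) (F₁ (M' * r) 1)) (resGal K₁ σ) :
      ↥(legEL ↥K₁ (M' * r) 1) →+* ↥(legEL ↥K₁ (M' * r) 1))
      (algebraMap ↥(↥K₁)⟮jqNModC ↥K₁ 2⟯ ↥(legEL ↥K₁ (M' * r) 1)
        (AdjoinSimple.gen ↥K₁ (jqNModC ↥K₁ 2))) =
      algebraMap ↥(↥K₁)⟮jqNModC ↥K₁ 2⟯ ↥(legEL ↥K₁ (M' * r) 1)
        (AdjoinSimple.gen ↥K₁ (jqNModC ↥K₁ 2)) := by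
    apply Subtype.ext
    show coeffMap _ (jqNModC ↥K₁ 2) = jqNModC ↥K₁ 2
    rw [coeffMap_jqNModC]
  have hRW0 : ∀ a : ↥(baseRing A K₁),
      algebraMap ↥(baseRing A K₁) ↥(legEL ↥K₁ M' r) a ∈ legW0L ↥(baseRing A K₁) ↥K₁ hbez hr :=
    fun a => hmodel.two.chart_le_zero _ (Subalgebra.algebraMap_mem _ a)
  -- the constants
  obtain ⟨e, hedef⟩ : ∃ e : (ZMod r)ˣ, e = cyc r σ := ⟨_, rfl⟩
  have hνunit : IsUnit (ψR (e : ZMod r)) := e.isUnit.map ψR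
  obtain ⟨νR, hνR⟩ := hνunit
  have hνK : ψ₁ (e : ZMod r) = algebraMap ↥(baseRing A K₁) ↥K₁ (νR : ↥(baseRing A K₁)) := by
    rw [hψ₁def, MulChar.ringHomComp_apply, hνR]
  have hν : (legW0L ↥(baseRing A K₁) ↥K₁ hbez hr).valuation
      (algebraMap ↥K₁ ↥(legEL ↥K₁ M' r) (ψ₁ (e : ZMod r))) = 1 := by
    rw [hνK, ← IsScalarTower.algebraMap_apply ↥(baseRing A K₁) ↥K₁ ↥(legEL ↥K₁ M' r)]
    exact valuation_algebraMap_unit_eq_one _ hRW0 νR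
  have hc0 : algebraMap ↥K₁ ↥(legEL ↥K₁ M' r) c₀ ≠ 0 := by
    intro h0
    rw [h0, map_zero, inv_zero, mul_zero, map_zero] at hu0
    exact zero_ne_one hu0
  have hσc : (coeffRingAut (coeffStable_legHost (K := ↥K₁) (F₁ M' r)) (resGal K₁ σ) :
      ↥(legEL ↥K₁ M' r) →+* ↥(legEL ↥K₁ M' r)) (algebraMap ↥K₁ ↥(legEL ↥K₁ M' r) c₀) =
      (algebraMap ↥K₁ ↥(legEL ↥K₁ M' r) (ψ₁ (e : ZMod r)))⁻¹ *
        algebraMap ↥K₁ ↥(legEL ↥K₁ M' r) c₀ := by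
    rw [RingEquiv.coe_toRingHom, coeffRingAut_algebraMap, hc₀,
      resGal_gaussSum_mul K₁ hA hσ ψ₁ hζr, map_mul, map_inv₀, hedef]
  have hsν : (coeffRingAut (coeffStable_legHost (K := ↥K₁) (F₁ M' r)) (resGal K₁ σ) :
      ↥(legEL ↥K₁ M' r) →+* ↥(legEL ↥K₁ M' r))
      (algebraMap ↥K₁ ↥(legEL ↥K₁ M' r) (ψ₁ (e : ZMod r))) =
      algebraMap ↥K₁ ↥(legEL ↥K₁ M' r) (ψ₁ (e : ZMod r)) := by
    rw [RingEquiv.coe_toRingHom, coeffRingAut_algebraMap, resGal_mulChar_apply K₁ hA hσ ψ₁]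
  have hsu : (coeffRingAut (coeffStable_legHost (K := ↥K₁) (F₁ (M' * r) 1)) (resGal K₁ σ) :
      ↥(legEL ↥K₁ (M' * r) 1) →+* ↥(legEL ↥K₁ (M' * r) 1)) u = u := by
    rw [hudef]
    exact coeffRingAut_legResU hbez hM2 ψ₁ (resGal K₁ σ)
      (fun a => resGal_mulChar_apply K₁ hA hσ ψ₁ a)
  rw [← hudef] at hui hu0 hspani hspanz hδu
  have hdu : ((δ.restrictScalars ↥K₁ : ↥(legEL ↥K₁ (M' * r) 1) ≃ₐ[↥K₁] ↥(legEL ↥K₁ (M' * r) 1)) :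
      ↥(legEL ↥K₁ (M' * r) 1) →+* ↥(legEL ↥K₁ (M' * r) 1)) u =
      algebraMap ↥(legEL ↥K₁ M' r) ↥(legEL ↥K₁ (M' * r) 1)
        (algebraMap ↥K₁ ↥(legEL ↥K₁ M' r) (ψ₁ (e : ZMod r))) * u := by
    rw [← IsScalarTower.algebraMap_apply ↥K₁ ↥(legEL ↥K₁ M' r) ↥(legEL ↥K₁ (M' * r) 1), hedef]
    exact hδu
  have hglue := rec_sigma_glue (K₁ := ↥K₁) hϖ hmodel.j_transcendental hmodel.j_adjoin
    hmodel.two two'' hexti hextz
    (coeffRingAut (coeffStable_legHost (K := ↥K₁) (F₁ M' r)) (resGal K₁ σ) :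
      ↥(legEL ↥K₁ M' r) →+* ↥(legEL ↥K₁ M' r))
    (coeffRingAut (coeffStable_legHost (K := ↥K₁) (F₁ (M' * r) 1)) (resGal K₁ σ) :
      ↥(legEL ↥K₁ (M' * r) 1) →+* ↥(legEL ↥K₁ (M' * r) 1))
    (fun z => coeffRingAut_algebraMap_legEL_raise (resGal K₁ σ) z)
    (baseRingAut (K₁ := K₁) hσ).toRingHom hsR hfrob (baseRingAut (K₁ := K₁) hσ).injective hst
    (fun z => (hiff z).1) (fun z => (hiff z).2) haut.res_inf haut.res_zero ε hε hsu hui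
    hspani hspanz
    ((δ.restrictScalars ↥K₁ : ↥(legEL ↥K₁ (M' * r) 1) ≃ₐ[↥K₁] ↥(legEL ↥K₁ (M' * r) 1)) :
      ↥(legEL ↥K₁ (M' * r) 1) →+* ↥(legEL ↥K₁ (M' * r) 1))
    (fun z => δ.commutes z) hc0 hν hu0 hdu hσc hsν
    (fun a b hE hab => ringHom_ext_legEL_raise hbez hM3 hr hcop ψ₁ hψ₁ u hucoe a b hE hab)
  obtain ⟨hsinf, hs0, hres, hdinf, hd0, hcomm, hres0, -⟩ := hglue
  exact ⟨δ.restrictScalars ↥K₁, hδ, hsinf, hs0, hres, hdinf, hd0, hcomm, hres0⟩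

end Main

end

end Fermat.Agent.RB
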