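/-
PROJECT RB, block [REP_T] (helper1), part (B1): **a commutative algebra of endomorphisms of a finite
free module generated by residually scalar operators is local.**

`𝒪` a discrete valuation ring, `H ≠ 0` finite free over `𝒪`, `A` a commutative `𝒪`-algebra acting
faithfully on `H`, generated by elements `a` with `(a - c_a) ^ k H ⊆ 𝔪 H`.  Then `A` is a local
ring, `𝒪 → A` is local and surjective on residue fields, and `a ≡ c_a` modulo the maximal ideal.
-/
import Mathlib
import Fermat.Prelude.Thm_IsLocalRing_isAdicComplete_of_module_finite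

set_option autoImplicit false
set_option linter.unusedSectionVars false
set_option linter.unusedVariables false
set_option linter.style.haveILetI false

namespace Fermat.Agent.RB.REPT

open IsLocalRing Polynomial

section LocalEnd

variable {𝒪 : Type} [CommRing 𝒪] [IsDomain 𝒪] [IsDiscreteValuationRing 𝒪]
  {A : Type} [CommRing A] [Algebra 𝒪 A]
  {H : Type} [AddCommGroup H] [Module 𝒪 H] [Module A H] [IsScalarTower 𝒪 A H]
  [Module.Free 𝒪 H] [Module.Finite 𝒪 H]

/-- `x ∈ 𝔪 H ⇒ a • x ∈ 𝔪 H`. -/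
theorem smul_mem_maximalIdeal_smul_top (a : A) {x : H}
    (hx : x ∈ (maximalIdeal 𝒪 • ⊤ : Submodule 𝒪 H)) :
    a • x ∈ (maximalIdeal 𝒪 • ⊤ : Submodule 𝒪 H) := by
  refine Submodule.smul_induction_on (p := fun x => a • x ∈
    (maximalIdeal 𝒪 • ⊤ : Submodule 𝒪 H)) hx ?_ ?_
  · intro r hr n _
    rw [smul_comm]
    exact Submodule.smul_mem_smul hr Submodule.mem_top
  · intro x y hx hy
    rw [smul_add]
    exact Submodule.add_mem _ hx hy

variable (𝒪 A H) in
/-- the ideal of the elements of `A` acting as `0` on `H / 𝔪 H`. -/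
def redKer : Ideal A where
  carrier := {a | ∀ h : H, a • h ∈ (maximalIdeal 𝒪 • ⊤ : Submodule 𝒪 H)}
  add_mem' := fun {a b} ha hb h => by
    rw [add_smul]
    exact Submodule.add_mem _ (ha h) (hb h)
  zero_mem' := fun h => by
    rw [zero_smul]
    exact Submodule.zero_mem _
  smul_mem' := fun x a ha h => by
    rw [smul_eq_mul, mul_smul]
    exact smul_mem_maximalIdeal_smul_top x (ha h)

theorem mem_redKer {a : A} :
    a ∈ redKer 𝒪 A H ↔ ∀ h : H, a • h ∈ (maximalIdeal 𝒪 • ⊤ : Submodule 𝒪 H) := Iff.rfl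

theorem algebraMap_mem_redKer {r : 𝒪} (hr : r ∈ maximalIdeal 𝒪) :
    algebraMap 𝒪 A r ∈ redKer 𝒪 A H := by
  intro h
  rw [algebraMap_smul]
  exact Submodule.smul_mem_smul hr Submodule.mem_top

/-- coordinates of an element of `𝔪 H` lie in `𝔪`. -/
theorem repr_mem_of_mem_smul_top {ι : Type*} (bs : Module.Basis ι 𝒪 H) {x : H}
    (hx : x ∈ (maximalIdeal 𝒪 • ⊤ : Submodule 𝒪 H)) (i : ι) :
    bs.repr x i ∈ maximalIdeal 𝒪 := by
  refine Submodule.smul_induction_on (p := fun x => bs.repr x i ∈ maximalIdeal 𝒪) hx ?_ ?_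
  · intro r hr n _
    rw [map_smul, Finsupp.smul_apply, smul_eq_mul]
    exact Ideal.mul_mem_right _ _ hr
  · intro x y hx hy
    rw [map_add, Finsupp.add_apply]
    exact Ideal.add_mem _ hx hy

variable [FaithfulSMul A H]

/-- **`1 + a` is a unit for `a` in the radical of `redKer`.** -/
theorem isUnit_one_add_of_mem_radical_redKer {a : A} (ha : a ∈ (redKer 𝒪 A H).radical) :
    IsUnit (1 + a) := by
  classical
  obtain ⟨k, hk⟩ := ha
  let φ : A →ₐ[𝒪] Module.End 𝒪 H := Algebra.lsmul 𝒪 𝒪 H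
  have hφ : ∀ (x : A) (h : H), φ x h = x • h := fun x h => rfl
  have hφinj : Function.Injective φ := by
    intro x y hxy
    apply FaithfulSMul.eq_of_smul_eq_smul (α := H)
    intro h
    rw [← hφ, ← hφ, hxy]
  let bs := Module.Free.chooseBasis 𝒪 H
  let E : Module.End 𝒪 H ≃ₐ[𝒪] Matrix (Module.Free.ChooseBasisIndex 𝒪 H)
      (Module.Free.ChooseBasisIndex 𝒪 H) 𝒪 := LinearMap.toMatrixAlgEquiv bs
  -- the matrix of `a ^ k` has entries in `𝔪`
  have hent : (E (φ (a ^ k))).map (residue 𝒪) = 0 := by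
    ext i j
    rw [Matrix.map_apply, Matrix.zero_apply, residue_eq_zero_iff]
    show LinearMap.toMatrixAlgEquiv bs (φ (a ^ k)) i j ∈ maximalIdeal 𝒪
    rw [LinearMap.toMatrixAlgEquiv_apply]
    exact repr_mem_of_mem_smul_top bs (hk (bs j)) i
  -- the reduction of the matrix of `a` is nilpotent
  have hnil : IsNilpotent ((E (φ a)).map (residue 𝒪)) := by
    refine ⟨k, ?_⟩
    have h1 : ((E (φ a)).map (residue 𝒪)) ^ k = (E (φ (a ^ k))).map (residue 𝒪) := by
      rw [map_pow, map_pow]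
      exact (map_pow (RingHom.mapMatrix (residue 𝒪) :
        Matrix (Module.Free.ChooseBasisIndex 𝒪 H) (Module.Free.ChooseBasisIndex 𝒪 H) 𝒪 →+* _)
        (E (φ a)) k).symm
    rw [h1, hent]
  -- the determinant of `1 + a` is a unit
  have hdet : IsUnit (LinearMap.det (φ (1 + a))) := by
    have h1 : LinearMap.det (φ (1 + a)) = (E (φ (1 + a))).det := by
      show _ = (LinearMap.toMatrixAlgEquiv bs (φ (1 + a))).det
      exact (LinearMap.det_toMatrix bs (φ (1 + a))).symm
    rw [h1]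
    have h2 : residue 𝒪 (E (φ (1 + a))).det = ((E (φ (1 + a))).map (residue 𝒪)).det :=
      RingHom.map_det _ _
    have h3 : (E (φ (1 + a))).map (residue 𝒪) = 1 + (E (φ a)).map (residue 𝒪) := by
      rw [map_add, map_add, map_one, map_one]
      ext i j
      simp [Matrix.map_apply, Matrix.one_apply]
    have h4 : IsUnit (residue 𝒪 (E (φ (1 + a))).det) := by
      rw [h2, h3, ← Matrix.isUnit_iff_isUnit_det]
      exact hnil.isUnit_one_add
    by_contra hnu
    have h5 : (E (φ (1 + a))).det ∈ maximalIdeal 𝒪 := hnu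
    rw [← residue_eq_zero_iff] at h5
    rw [h5] at h4
    exact not_isUnit_zero h4
  -- Cayley–Hamilton
  set b : A := 1 + a with hb
  let P : 𝒪[X] := (φ b).charpoly
  have hP : aeval b P = 0 := by
    apply hφinj
    rw [map_zero, ← Polynomial.aeval_algHom_apply]
    exact LinearMap.aeval_self_charpoly (φ b)
  have hc0 : IsUnit (P.coeff 0) := by
    have h1 := LinearMap.det_eq_sign_charpoly_coeff (φ b)
    have h2 : IsUnit ((-1 : 𝒪) ^ Module.finrank 𝒪 H) := (isUnit_one.neg).pow _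
    rw [h1] at hdet
    exact (IsUnit.mul_iff.1 hdet).2
  have hdecomp : P = P.divX * X + C (P.coeff 0) := (Polynomial.divX_mul_X_add P).symm
  have h6 : aeval b P.divX * b + algebraMap 𝒪 A (P.coeff 0) = 0 := by
    have := hP
    rw [hdecomp, map_add, map_mul, aeval_X, aeval_C] at this
    exact this
  obtain ⟨u, hu⟩ := hc0
  refine IsUnit.of_mul_eq_one (-(algebraMap 𝒪 A ((u⁻¹ : 𝒪ˣ) : 𝒪)) * aeval b P.divX) ?_
  have h7 : aeval b P.divX * b = -algebraMap 𝒪 A (P.coeff 0) := eq_neg_of_add_eq_zero_left h6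
  calc b * (-(algebraMap 𝒪 A ((u⁻¹ : 𝒪ˣ) : 𝒪)) * aeval b P.divX)
      = -(algebraMap 𝒪 A ((u⁻¹ : 𝒪ˣ) : 𝒪)) * (aeval b P.divX * b) := by ring
    _ = algebraMap 𝒪 A (((u⁻¹ : 𝒪ˣ) : 𝒪) * P.coeff 0) := by rw [h7, map_mul]; ring
    _ = 1 := by rw [← hu, Units.inv_mul, map_one]


section Local

variable [Nontrivial H] (s : Set A) (hs : Algebra.adjoin 𝒪 s = ⊤)
  (hc : ∀ a ∈ s, ∃ r : 𝒪, a - algebraMap 𝒪 A r ∈ (redKer 𝒪 A H).radical)

include hs hc in
/-- every element is congruent to a scalar modulo the radical of `redKer`. -/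
theorem exists_sub_algebraMap_mem_radical_redKer (x : A) :
    ∃ r : 𝒪, x - algebraMap 𝒪 A r ∈ (redKer 𝒪 A H).radical := by
  have hx : x ∈ Algebra.adjoin 𝒪 s := by rw [hs]; trivial
  induction hx using Algebra.adjoin_induction with
  | mem a ha => exact hc a ha
  | algebraMap r => exact ⟨r, by rw [sub_self]; exact Ideal.zero_mem _⟩
  | add x y _ _ ihx ihy =>
    obtain ⟨r₁, h₁⟩ := ihx
    obtain ⟨r₂, h₂⟩ := ihy
    refine ⟨r₁ + r₂, ?_⟩
    have : x + y - algebraMap 𝒪 A (r₁ + r₂) =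
        (x - algebraMap 𝒪 A r₁) + (y - algebraMap 𝒪 A r₂) := by rw [map_add]; ring
    rw [this]
    exact Ideal.add_mem _ h₁ h₂
  | mul x y _ _ ihx ihy =>
    obtain ⟨r₁, h₁⟩ := ihx
    obtain ⟨r₂, h₂⟩ := ihy
    refine ⟨r₁ * r₂, ?_⟩
    have : x * y - algebraMap 𝒪 A (r₁ * r₂) =
        (x - algebraMap 𝒪 A r₁) * y + algebraMap 𝒪 A r₁ * (y - algebraMap 𝒪 A r₂) := by
      rw [map_mul]; ring
    rw [this]
    exact Ideal.add_mem _ (Ideal.mul_mem_right _ _ h₁) (Ideal.mul_mem_left _ _ h₂)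

/-- `A` is nontrivial -/
theorem nontrivial_of_nontrivial_module (A : Type) [CommRing A] (H : Type) [AddCommGroup H]
    [Module A H] [Nontrivial H] : Nontrivial A := by
  by_contra h
  rw [not_nontrivial_iff_subsingleton] at h
  obtain ⟨x, y, hxy⟩ := exists_pair_ne H
  apply hxy
  rw [← one_smul A x, ← one_smul A y, Subsingleton.elim (1 : A) 0, zero_smul, zero_smul]

/-- the radical of `redKer` is a proper ideal. -/
theorem radical_redKer_ne_top : (redKer 𝒪 A H).radical ≠ ⊤ := by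
  intro h
  have h1 : (-1 : A) ∈ (redKer 𝒪 A H).radical := by rw [h]; trivial
  have h2 := isUnit_one_add_of_mem_radical_redKer (𝒪 := 𝒪) (H := H) h1
  rw [add_neg_cancel] at h2
  haveI : Nontrivial A := nontrivial_of_nontrivial_module A H
  exact not_isUnit_zero h2

include hs hc in
/-- the units are exactly the elements outside the radical of `redKer`. -/
theorem isUnit_iff_notMem_radical_redKer (x : A) :
    IsUnit x ↔ x ∉ (redKer 𝒪 A H).radical := by
  constructor
  · intro hu hx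
    exact radical_redKer_ne_top (𝒪 := 𝒪) (A := A) (H := H) (Ideal.eq_top_of_isUnit_mem _ hx hu)
  · intro hx
    obtain ⟨r, hr⟩ := exists_sub_algebraMap_mem_radical_redKer s hs hc x
    have hru : IsUnit r := by
      by_contra hnu
      have h1 : r ∈ maximalIdeal 𝒪 := hnu
      have h2 : algebraMap 𝒪 A r ∈ (redKer 𝒪 A H).radical :=
        Ideal.le_radical (algebraMap_mem_redKer h1)
      apply hx
      have : x = (x - algebraMap 𝒪 A r) + algebraMap 𝒪 A r := by ring
      rw [this]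
      exact Ideal.add_mem _ hr h2
    obtain ⟨u, rfl⟩ := hru
    have h3 : x = algebraMap 𝒪 A (u : 𝒪) *
        (1 + algebraMap 𝒪 A ((u⁻¹ : 𝒪ˣ) : 𝒪) * (x - algebraMap 𝒪 A (u : 𝒪))) := by
      have h4 : algebraMap 𝒪 A (u : 𝒪) * algebraMap 𝒪 A ((u⁻¹ : 𝒪ˣ) : 𝒪) = 1 := by
        rw [← map_mul, Units.mul_inv, map_one]
      calc x = algebraMap 𝒪 A (u : 𝒪) + 1 * (x - algebraMap 𝒪 A (u : 𝒪)) := by ring
        _ = algebraMap 𝒪 A (u : 𝒪) + (algebraMap 𝒪 A (u : 𝒪) * algebraMap 𝒪 A ((u⁻¹ : 𝒪ˣ) : 𝒪)) *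
            (x - algebraMap 𝒪 A (u : 𝒪)) := by rw [h4]
        _ = _ := by ring
    rw [h3]
    exact ((u.isUnit).map (algebraMap 𝒪 A)).mul
      (isUnit_one_add_of_mem_radical_redKer (𝒪 := 𝒪) (H := H) (Ideal.mul_mem_left _ _ hr))

include hs hc in
/-- **`A` is a local ring.** -/
theorem isLocalRing_of_generators : IsLocalRing A := by
  haveI : Nontrivial A := nontrivial_of_nontrivial_module A H
  refine IsLocalRing.of_nonunits_add fun a b ha hb => ?_
  rw [mem_nonunits_iff, isUnit_iff_notMem_radical_redKer s hs hc, not_not] at ha hb ⊢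
  exact Ideal.add_mem _ ha hb

include hs hc in
theorem maximalIdeal_eq_radical_redKer [IsLocalRing A] :
    maximalIdeal A = (redKer 𝒪 A H).radical := by
  ext x
  rw [mem_maximalIdeal, mem_nonunits_iff, isUnit_iff_notMem_radical_redKer s hs hc, not_not]

include hs hc in
theorem isLocalHom_algebraMap_of_generators : IsLocalHom (algebraMap 𝒪 A) := by
  constructor
  intro r hr
  by_contra hnu
  have h1 : r ∈ maximalIdeal 𝒪 := hnu
  rw [isUnit_iff_notMem_radical_redKer s hs hc] at hr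
  exact hr (Ideal.le_radical (algebraMap_mem_redKer h1))

include hs hc in
theorem residue_surjective_of_generators [IsLocalRing A] :
    Function.Surjective (residue A ∘ algebraMap 𝒪 A) := by
  intro y
  obtain ⟨x, rfl⟩ := residue_surjective y
  obtain ⟨r, hr⟩ := exists_sub_algebraMap_mem_radical_redKer s hs hc x
  refine ⟨r, ?_⟩
  rw [Function.comp_apply, eq_comm, ← sub_eq_zero, ← map_sub, residue_eq_zero_iff,
    maximalIdeal_eq_radical_redKer s hs hc]
  exact hr

include hs hc in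
theorem residue_eq_of_sub_mem_radical_redKer [IsLocalRing A] {a : A} {r : 𝒪}
    (ha : a - algebraMap 𝒪 A r ∈ (redKer 𝒪 A H).radical) :
    residue A a = residue A (algebraMap 𝒪 A r) := by
  rw [← sub_eq_zero, ← map_sub, residue_eq_zero_iff, maximalIdeal_eq_radical_redKer s hs hc]
  exact ha

end Local

section Finiteness

omit [IsDomain 𝒪] [IsDiscreteValuationRing 𝒪] in
/-- `A` embeds into `End_𝒪 H`. -/
theorem lsmul_injective_of_faithful :
    Function.Injective (Algebra.lsmul 𝒪 𝒪 H : A →ₐ[𝒪] Module.End 𝒪 H) := by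
  intro x y hxy
  apply FaithfulSMul.eq_of_smul_eq_smul (α := H)
  intro h
  exact LinearMap.congr_fun hxy h

end Finiteness

end LocalEnd

section Finiteness2

variable {𝒪 : Type} [CommRing 𝒪] [IsDomain 𝒪] [IsDiscreteValuationRing 𝒪]
  {A : Type} [CommRing A] [Algebra 𝒪 A]

/-- `A` is finite over `𝒪`. -/
theorem finite_of_faithful (H : Type) [AddCommGroup H] [Module 𝒪 H] [Module A H]
    [IsScalarTower 𝒪 A H] [Module.Free 𝒪 H] [Module.Finite 𝒪 H] [FaithfulSMul A H] :
    Module.Finite 𝒪 A :=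
  Module.Finite.of_injective (Algebra.lsmul 𝒪 𝒪 H : A →ₐ[𝒪] Module.End 𝒪 H).toLinearMap
    (lsmul_injective_of_faithful (𝒪 := 𝒪) (A := A) (H := H))

/-- `A` is torsion-free over `𝒪`. -/
theorem isTorsionFree_of_faithful (H : Type) [AddCommGroup H] [Module 𝒪 H] [Module A H]
    [IsScalarTower 𝒪 A H] [Module.Free 𝒪 H] [Module.Finite 𝒪 H] [FaithfulSMul A H] :
    Module.IsTorsionFree 𝒪 A := by
  refine Module.IsTorsionFree.of_smul_eq_zero fun r x hrx => ?_
  by_cases hr : r = 0
  · exact Or.inl hr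
  · right
    apply lsmul_injective_of_faithful (𝒪 := 𝒪) (A := A) (H := H)
    rw [map_zero]
    have h1 : r • (Algebra.lsmul 𝒪 𝒪 H : A →ₐ[𝒪] Module.End 𝒪 H) x = 0 := by
      rw [← map_smul, hrx, map_zero]
    exact (smul_eq_zero.1 h1).resolve_left hr

end Finiteness2

end Fermat.Agent.RB.REPT
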