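/-
PROJECT RB — [TWMOD] second wave, [LEVEL0] (helper3), part 1: **the algebra generated by a
commuting family of residually scalar operators on a finite free module** over a discrete
valuation ring: it is a commutative local ring, finite and torsion-free over `𝒪`, with residue
field `k`, `𝒪 → ·` local, and the generators are congruent to their scalars modulo the maximal
ideal (all from helper1's `REPT_helper1_LocalEnd`).
-/
import Mathlib
import Fermat.Agent.RB.REPT_helper1_LocalEnd

set_option autoImplicit false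
set_option linter.unusedSectionVars false
set_option linter.unusedVariables false
set_option linter.style.haveILetI false

namespace Fermat.Agent.RB.L0

open IsLocalRing Fermat.Agent.RB.REPT

/-- a commuting family of operators on `H`. -/
structure OpFam (𝒪 : Type) [CommRing 𝒪] (H : Type) [AddCommGroup H] [Module 𝒪 H] (I : Type) where
  /-- the operators -/
  tt : I → Module.End 𝒪 H
  /-- they commute -/
  comm : ∀ i j, Commute (tt i) (tt j)

namespace OpFam

section Basic

variable {𝒪 : Type} [CommRing 𝒪] {H : Type} [AddCommGroup H] [Module 𝒪 H] {I : Type}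
  (X : OpFam 𝒪 H I)

/-- the algebra generated by the family. -/
def alg : Subalgebra 𝒪 (Module.End 𝒪 H) := Algebra.adjoin 𝒪 (Set.range X.tt)

theorem alg_comm : ∀ a ∈ X.alg, ∀ b ∈ X.alg, a * b = b * a := by
  intro a ha b hb
  have hgen : ∀ a ∈ Set.range X.tt, ∀ b ∈ Set.range X.tt, a * b = b * a := by
    rintro _ ⟨i, rfl⟩ _ ⟨j, rfl⟩
    exact (X.comm i j).eq
  have h1 := Algebra.adjoin_le_centralizer_centralizer 𝒪 (Set.range X.tt)
  exact Set.centralizer_centralizer_comm_of_comm hgen _ (h1 ha) _ (h1 hb)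

noncomputable instance algCommRing : CommRing X.alg :=
  { X.alg.toRing with mul_comm := fun a b => Subtype.ext (X.alg_comm a a.2 b b.2) }

/-- the generators, as elements of the algebra. -/
def gen (i : I) : X.alg := ⟨X.tt i, Algebra.subset_adjoin ⟨i, rfl⟩⟩

@[simp] theorem coe_gen (i : I) : ((X.gen i : X.alg) : Module.End 𝒪 H) = X.tt i := rfl

/-- the generating set inside the algebra. -/
def genSet : Set X.alg := (Subtype.val : X.alg → Module.End 𝒪 H) ⁻¹' (Set.range X.tt)

theorem adjoin_genSet : Algebra.adjoin 𝒪 X.genSet = ⊤ :=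
  Algebra.adjoin_adjoin_coe_preimage

theorem smul_def (a : X.alg) (h : H) : a • h = (a : Module.End 𝒪 H) h := rfl

end Basic

section Local

variable {𝒪 : Type} [CommRing 𝒪] [IsDomain 𝒪] [IsDiscreteValuationRing 𝒪]
  {H : Type} [AddCommGroup H] [Module 𝒪 H] [Module.Free 𝒪 H] [Module.Finite 𝒪 H] {I : Type}
  (X : OpFam 𝒪 H I) (c : I → 𝒪)
  (hres : ∀ i, ∃ k : ℕ, ∀ h : H,
    ((X.tt i - algebraMap 𝒪 (Module.End 𝒪 H) (c i)) ^ k) h ∈
      (maximalIdeal 𝒪 • ⊤ : Submodule 𝒪 H))

include hres in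
theorem gen_sub_mem_radical (i : I) :
    X.gen i - algebraMap 𝒪 X.alg (c i) ∈ (redKer 𝒪 X.alg H).radical := by
  obtain ⟨k, hk⟩ := hres i
  refine ⟨k, fun h => ?_⟩
  have h1 : (X.gen i - algebraMap 𝒪 X.alg (c i)) ^ k • h =
      ((X.tt i - algebraMap 𝒪 (Module.End 𝒪 H) (c i)) ^ k) h := rfl
  rw [h1]
  exact hk h

include hres in
theorem genSet_residual : ∀ a ∈ X.genSet, ∃ r : 𝒪,
    a - algebraMap 𝒪 X.alg r ∈ (redKer 𝒪 X.alg H).radical := by
  rintro ⟨a, ha⟩ ⟨i, hi⟩
  refine ⟨c i, ?_⟩
  have h0 : (⟨a, ha⟩ : X.alg) = X.gen i := Subtype.ext hi.symm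
  rw [h0]
  exact X.gen_sub_mem_radical c hres i

variable [Nontrivial H]

include hres in
theorem isLocalRing_alg : IsLocalRing X.alg :=
  isLocalRing_of_generators (𝒪 := 𝒪) (H := H) X.genSet X.adjoin_genSet (X.genSet_residual c hres)

include hres in
theorem isLocalHom_algebraMap_alg : IsLocalHom (algebraMap 𝒪 X.alg) :=
  isLocalHom_algebraMap_of_generators (𝒪 := 𝒪) (H := H) X.genSet X.adjoin_genSet
    (X.genSet_residual c hres)

include hres in
theorem residue_surjective_alg [IsLocalRing X.alg] :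
    Function.Surjective (residue X.alg ∘ algebraMap 𝒪 X.alg) :=
  residue_surjective_of_generators (𝒪 := 𝒪) (H := H) X.genSet X.adjoin_genSet
    (X.genSet_residual c hres)

include hres in
theorem residue_gen [IsLocalRing X.alg] (i : I) :
    residue X.alg (X.gen i) = residue X.alg (algebraMap 𝒪 X.alg (c i)) :=
  residue_eq_of_sub_mem_radical_redKer (𝒪 := 𝒪) (H := H) X.genSet X.adjoin_genSet
    (X.genSet_residual c hres) (X.gen_sub_mem_radical c hres i)

end Local

section Finite

variable {𝒪 : Type} [CommRing 𝒪] [IsDomain 𝒪] [IsDiscreteValuationRing 𝒪]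
  {H : Type} [AddCommGroup H] [Module 𝒪 H] [Module.Free 𝒪 H] [Module.Finite 𝒪 H] {I : Type}
  (X : OpFam 𝒪 H I)

theorem finite_alg : Module.Finite 𝒪 X.alg := finite_of_faithful H

theorem isTorsionFree_alg : Module.IsTorsionFree 𝒪 X.alg := isTorsionFree_of_faithful H

theorem flat_alg : Module.Flat 𝒪 X.alg := by
  haveI := X.isTorsionFree_alg
  infer_instance

theorem isReduced_alg (hred : ∀ t ∈ X.alg, IsNilpotent t → t = 0) : IsReduced X.alg := by
  refine ⟨fun t ht => ?_⟩
  apply Subtype.ext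
  refine hred t.1 t.2 ?_
  obtain ⟨n, hn⟩ := ht
  refine ⟨n, ?_⟩
  have := congrArg Subtype.val hn
  exact this

end Finite

end OpFam

section Intertwine

variable {𝒪 : Type*} [CommRing 𝒪] {T : Type*} [CommRing T] [Algebra 𝒪 T] {B : Type*} [CommRing B]
  [Algebra 𝒪 B] {M : Type*} [AddCommGroup M] [Module 𝒪 M]

/-- the subalgebra of the elements `s` of `T` acting on the vectors `Ξ i b` through
`ψ : T → B`: `g s (Ξ i b) = Ξ i (ψ s * b)`. -/
def intertwineSub (g : T →ₐ[𝒪] Module.End 𝒪 M) (ψ : T →ₐ[𝒪] B) {ι : Type*}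
    (Ξ : ι → B →ₗ[𝒪] M) : Subalgebra 𝒪 T where
  carrier := {s | ∀ (i : ι) (b : B), g s (Ξ i b) = Ξ i (ψ s * b)}
  mul_mem' := by
    intro a b ha hb i x
    rw [map_mul g, Module.End.mul_apply, hb, ha, map_mul ψ, mul_assoc]
  one_mem' := by
    intro i x
    rw [map_one g, Module.End.one_apply, map_one ψ, one_mul]
  add_mem' := by
    intro a b ha hb i x
    rw [map_add g, LinearMap.add_apply, ha, hb, map_add ψ, add_mul, map_add]
  zero_mem' := by
    intro i x
    rw [map_zero g, LinearMap.zero_apply, map_zero ψ, zero_mul, map_zero]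
  algebraMap_mem' := by
    intro r i x
    rw [AlgHom.commutes g, Module.algebraMap_end_apply, AlgHom.commutes ψ, ← Algebra.smul_def,
      map_smul]

theorem mem_intertwineSub {g : T →ₐ[𝒪] Module.End 𝒪 M} {ψ : T →ₐ[𝒪] B} {ι : Type*}
    {Ξ : ι → B →ₗ[𝒪] M} {s : T} :
    s ∈ intertwineSub g ψ Ξ ↔ ∀ (i : ι) (b : B), g s (Ξ i b) = Ξ i (ψ s * b) := Iff.rfl

end Intertwine

end Fermat.Agent.RB.L0
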