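/-
RB = S43 via Ihara avoidance, package [TWMOD] second wave (lead), part [SS-abs]: **a commutative
algebra of endomorphisms of a finite free module generated by commuting operators, each killed by
a polynomial which is squarefree over a field of characteristic `0`, is reduced.**
-/
import Mathlib

set_option autoImplicit false
set_option linter.unusedSectionVars false

namespace Fermat.Agent.RB.SSL

open Polynomial

section Abs

variable (𝒪 K : Type*) [CommRing 𝒪] [Field K] [Algebra 𝒪 K]
  (H : Type*) [AddCommGroup H] [Module 𝒪 H] [Module.Free 𝒪 H] [Module.Finite 𝒪 H]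

/-- the ring homomorphism `End_𝒪 H → End_K (K^ι)` given by a basis. -/
noncomputable def endToField :
    Module.End 𝒪 H →+* Module.End K (Module.Free.ChooseBasisIndex 𝒪 H → K) := by
  classical
  exact (Matrix.toLinAlgEquiv' : Matrix (Module.Free.ChooseBasisIndex 𝒪 H)
        (Module.Free.ChooseBasisIndex 𝒪 H) K ≃ₐ[K] _).toRingEquiv.toRingHom.comp
      ((algebraMap 𝒪 K).mapMatrix.comp
        (LinearMap.toMatrixAlgEquiv (Module.Free.chooseBasis 𝒪 H)).toRingEquiv.toRingHom)

theorem endToField_apply (x : Module.End 𝒪 H) :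
    endToField 𝒪 K H x = by
      classical
      exact (Matrix.toLinAlgEquiv' : Matrix (Module.Free.ChooseBasisIndex 𝒪 H)
        (Module.Free.ChooseBasisIndex 𝒪 H) K ≃ₐ[K] _)
        ((algebraMap 𝒪 K).mapMatrix
          (LinearMap.toMatrixAlgEquiv (Module.Free.chooseBasis 𝒪 H) x)) := rfl

variable {𝒪 K H}

theorem endToField_injective (hinj : Function.Injective (algebraMap 𝒪 K)) :
    Function.Injective (endToField 𝒪 K H) := by
  classical
  intro x y hxy
  rw [endToField_apply, endToField_apply] at hxy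
  have h1 := (Matrix.toLinAlgEquiv' : Matrix (Module.Free.ChooseBasisIndex 𝒪 H)
        (Module.Free.ChooseBasisIndex 𝒪 H) K ≃ₐ[K] _).injective hxy
  have h2 : Function.Injective ((algebraMap 𝒪 K).mapMatrix :
      Matrix (Module.Free.ChooseBasisIndex 𝒪 H) (Module.Free.ChooseBasisIndex 𝒪 H) 𝒪 → _) :=
    fun a b hab => Matrix.map_injective hinj hab
  exact (LinearMap.toMatrixAlgEquiv (Module.Free.chooseBasis 𝒪 H)).injective (h2 h1)

theorem endToField_algebraMap (r : 𝒪) :
    endToField 𝒪 K H (algebraMap 𝒪 _ r) = algebraMap K _ (algebraMap 𝒪 K r) := by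
  classical
  rw [endToField_apply, AlgEquiv.commutes,
    ← AlgEquiv.commutes (Matrix.toLinAlgEquiv' : Matrix (Module.Free.ChooseBasisIndex 𝒪 H)
        (Module.Free.ChooseBasisIndex 𝒪 H) K ≃ₐ[K] _)]
  congr 1
  ext i j
  rw [RingHom.mapMatrix_apply, Matrix.map_apply, Matrix.algebraMap_matrix_apply,
    Matrix.algebraMap_matrix_apply]
  split_ifs
  · rfl
  · rw [map_zero]

theorem endToField_aeval (a : Module.End 𝒪 H) (f : 𝒪[X]) :
    endToField 𝒪 K H (aeval a f) = aeval (endToField 𝒪 K H a) (f.map (algebraMap 𝒪 K)) := by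
  have hcomp : (endToField 𝒪 K H).comp (algebraMap 𝒪 (Module.End 𝒪 H)) =
      (algebraMap K (Module.End K (Module.Free.ChooseBasisIndex 𝒪 H → K))).comp
        (algebraMap 𝒪 K) :=
    RingHom.ext fun r => endToField_algebraMap (𝒪 := 𝒪) (K := K) (H := H) r
  rw [aeval_def, aeval_def, Polynomial.hom_eval₂, Polynomial.eval₂_map, hcomp]

variable [CharZero K]

/-- **[SS-abs]** -/
theorem eq_zero_of_isNilpotent_of_mem_adjoin (hinj : Function.Injective (algebraMap 𝒪 K))
    (G : Set (Module.End 𝒪 H)) (hcomm : ∀ a ∈ G, ∀ b ∈ G, Commute a b)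
    (hG : ∀ a ∈ G, ∃ f : 𝒪[X], Squarefree (f.map (algebraMap 𝒪 K)) ∧ aeval a f = 0)
    {t : Module.End 𝒪 H} (ht : t ∈ Algebra.adjoin 𝒪 G) (hnil : IsNilpotent t) : t = 0 := by
  classical
  have hcomm' : ∀ x ∈ Algebra.adjoin 𝒪 G, ∀ y ∈ Algebra.adjoin 𝒪 G, Commute x y := by
    intro x hx y hy
    refine Algebra.commute_of_mem_adjoin_of_forall_mem_commute hy fun b hb => ?_
    exact (Algebra.commute_of_mem_adjoin_of_forall_mem_commute hx
      (fun a ha => hcomm b hb a ha)).symm
  have key : ∀ t ∈ Algebra.adjoin 𝒪 G, (endToField 𝒪 K H t).IsSemisimple := by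
    intro t ht
    induction ht using Algebra.adjoin_induction with
    | mem a ha =>
      obtain ⟨f, hsq, hf⟩ := hG a ha
      refine Module.End.isSemisimple_of_squarefree_aeval_eq_zero hsq ?_
      rw [← endToField_aeval, hf, map_zero]
    | algebraMap r =>
      rw [endToField_algebraMap, Algebra.algebraMap_eq_smul_one]
      exact Module.End.IsSemisimple_smul _ Module.End.isSemisimple_id
    | add x y hx hy ihx ihy =>
      rw [map_add]
      exact Module.End.IsSemisimple.add_of_commute ((hcomm' x hx y hy).map _) ihx ihy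
    | mul x y hx hy ihx ihy =>
      rw [map_mul]
      exact Module.End.IsSemisimple.mul_of_commute ((hcomm' x hx y hy).map _) ihx ihy
  have h0 := Module.End.eq_zero_of_isNilpotent_isSemisimple (hnil.map _) (key t ht)
  exact endToField_injective hinj (by rw [h0, map_zero])

end Abs

end Fermat.Agent.RB.SSL
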