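/-
RB = S43 via Ihara avoidance, package [TWMOD] (helper2): **the primary part** of a module with
operators: the vectors on which every `T i - c i` is topologically nilpotent.
-/
import Mathlib

set_option autoImplicit false
set_option linter.unusedSectionVars false

namespace Fermat.Agent.RB.TWM

open IsLocalRing

section Primary

variable {O : Type*} [CommRing O] [IsLocalRing O] {P : Type*} [AddCommGroup P] [Module O P]
  {σ : Type*}

/-- **the primary part**: the vectors `x` such that every `T i - c i` is topologically nilpotent
on `x`. -/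
def primaryPart (T : σ → Module.End O P) (c : σ → O) : Submodule O P where
  carrier := {x | ∀ (i : σ) (n : ℕ), ∃ k : ℕ,
    ((T i - algebraMap O (Module.End O P) (c i)) ^ k) x ∈
      (maximalIdeal O ^ n • ⊤ : Submodule O P)}
  add_mem' := by
    intro x y hx hy i n
    obtain ⟨k, hk⟩ := hx i n
    obtain ⟨k', hk'⟩ := hy i n
    refine ⟨k + k', ?_⟩
    rw [map_add]
    refine Submodule.add_mem _ ?_ ?_
    · rw [add_comm, pow_add, Module.End.mul_apply]
      exact Submodule.smul_top_le_comap_smul_top _ _ hk
    · rw [pow_add, Module.End.mul_apply]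
      exact Submodule.smul_top_le_comap_smul_top _ _ hk'
  zero_mem' := fun i n => ⟨0, by rw [map_zero]; exact Submodule.zero_mem _⟩
  smul_mem' := by
    intro a x hx i n
    obtain ⟨k, hk⟩ := hx i n
    exact ⟨k, by rw [map_smul]; exact Submodule.smul_mem _ _ hk⟩

theorem mem_primaryPart {T : σ → Module.End O P} {c : σ → O} {x : P} :
    x ∈ primaryPart T c ↔ ∀ (i : σ) (n : ℕ), ∃ k : ℕ,
      ((T i - algebraMap O (Module.End O P) (c i)) ^ k) x ∈
        (maximalIdeal O ^ n • ⊤ : Submodule O P) := Iff.rfl

end Primary

end Fermat.Agent.RB.TWM
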