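/-
RB = S43 via Ihara avoidance, package [TWMOD] (helper2): **literal targets of the leaves**.

* `primaryPart T c` : the vectors on which every `T i - c i` is topologically nilpotent
  (by helper3's [PRIM] `mem_idemRange_iff_forall_pow_mem` this is the `𝔪`-part `idemRange (α ε)`);
* `T3Statement` : **[T3]**, one Taylor–Wiles prime: the primary part of `Hom_par(Γ₀(N), 𝒪)` is
  isomorphic to the primary part of `Hom_par(Γ₀(N q), 𝒪)` in which `U_q ≡ a`.
-/
import Mathlib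
import Fermat.Agent.LR.XFER_helper4_Hecke
import Fermat.Agent.RB.TWMOD_helper2_PrimDef

set_option autoImplicit false
set_option linter.unusedSectionVars false

namespace Fermat.Agent.RB.TWM

open CongruenceSubgroup ModularCurve.Period IsLocalRing
open scoped MatrixGroups
open Fermat.Agent.GR



/-- **[T3]** (one Taylor–Wiles prime).  `P` is the set of primes carrying Hecke conditions
(`q ∈ P`), `c` the system of constants at level `N`; at level `N q` the constant at `q` is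
replaced by a root `a` of `X² - c_q X + q` modulo `𝔪` which is simple (`2a - c_q` a unit) and
such that `a² - 1` and `(c_q - a)² - 1` are units.  The isomorphism intertwines the operators at
all primes `ℓ ≠ q`. -/
def T3Statement : Prop :=
  ∀ {𝒪 : Type} [CommRing 𝒪] [IsDomain 𝒪] [IsDiscreteValuationRing 𝒪]
    [IsAdicComplete (maximalIdeal 𝒪) 𝒪] [CharZero 𝒪]
    (N q : ℕ) [NeZero N] [NeZero (N * q)] (hq : q.Prime) (_ : ¬ q ∣ N)
    (_ : IsUnit (q : 𝒪))
    (P : Set Nat.Primes) (_ : (⟨q, hq⟩ : Nat.Primes) ∈ P) (c : Nat.Primes → 𝒪) (a : 𝒪)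
    (_ : a ^ 2 - c ⟨q, hq⟩ * a + (q : 𝒪) ∈ maximalIdeal 𝒪)
    (_ : IsUnit (2 * a - c ⟨q, hq⟩)) (_ : IsUnit (a ^ 2 - 1))
    (_ : IsUnit ((c ⟨q, hq⟩ - a) ^ 2 - 1)),
    ∃ φ : ↥(primaryPart (fun ℓ : P => heckeParP N (ℓ : Nat.Primes) 𝒪 𝒪)
          (fun ℓ : P => c ℓ)) ≃ₗ[𝒪]
        ↥(primaryPart (fun ℓ : P => heckeParP (N * q) (ℓ : Nat.Primes) 𝒪 𝒪)
          (fun ℓ : P => Function.update c ⟨q, hq⟩ a ℓ)),
      ∀ ℓ : Nat.Primes, (ℓ : ℕ) ≠ q →
        ∀ x y : ↥(primaryPart (fun ℓ : P => heckeParP N (ℓ : Nat.Primes) 𝒪 𝒪) (fun ℓ : P => c ℓ)),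
        (y : ↥(parabolicHoms 𝒪 (Gamma0 N) 𝒪)) = heckeParP N ℓ 𝒪 𝒪 x →
        ((φ y : _) : ↥(parabolicHoms 𝒪 (Gamma0 (N * q)) 𝒪)) =
          heckeParP (N * q) ℓ 𝒪 𝒪 (φ x)

/-- **[SS-big]**: the Hecke operators `T_ℓ`, `ℓ ∤ N`, on `Hom_par(Γ₀(N), K)`, `K` a field of
characteristic `0`, are semisimple (Petersson). -/
def SSBigStatement : Prop :=
  ∀ (N : ℕ) [NeZero N] (K : Type) [Field K] [CharZero K] (ℓ : Nat.Primes), ¬ (ℓ : ℕ) ∣ N →
    Module.End.IsSemisimple (heckeParP N ℓ K K)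

end Fermat.Agent.RB.TWM
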