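/-
RB = S43 via Ihara avoidance, package [TWMOD] (helper2): **literal targets of the second wave of
leaves**.

* `T3IterStatement` : **[T3-iter]**, the iteration of [T3] over a Taylor–Wiles set `Q`;
* `RedTStatement`   : **[RED-T]**, the coefficient ring `T` of a Hecke–Galois datum is reduced;
* `Level0Statement` : **[LEVEL0]**, the module `M0` of level `N` with its faithful `T`-action.
-/
import Mathlib
import Fermat.Prelude.Def_CuspForm_HeckeGaloisRepDatum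
import Fermat.Agent.RB.TWMOD_helper2_Targets
import Fermat.Agent.GR.MULT1_helper2_Occur

set_option autoImplicit false
set_option linter.unusedSectionVars false

namespace Fermat.Agent.RB.TWM

open CongruenceSubgroup ModularCurve.Period IsLocalRing
open scoped MatrixGroups
open Fermat.Agent.GR

/-- **[T3-iter]** (a Taylor–Wiles set).  `P` is the (fixed) set of primes carrying Hecke
conditions, containing every `Q j`; `c` the system of constants at level `N`; `c'` the system at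
level `Nt = N * ∏ Q j`: equal to `c` off `Q`, and at `Q j` a root `a j` of
`X² - c_{Q j} X + Q j` modulo `𝔪` which is simple and such that `a j ^ 2 - 1` is a unit.  The
isomorphism intertwines the operators at all primes `ℓ ∉ Q`. -/
def T3IterStatement : Prop :=
  ∀ {𝒪 : Type} [CommRing 𝒪] [IsDomain 𝒪] [IsDiscreteValuationRing 𝒪]
    [IsAdicComplete (maximalIdeal 𝒪) 𝒪] [CharZero 𝒪]
    (N : ℕ) [NeZero N] (r : ℕ) (Q : Fin r → ℕ) (_ : Function.Injective Q)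
    (hQ : ∀ j, (Q j).Prime) (_ : ∀ j, ¬ Q j ∣ N) (_ : ∀ j, IsUnit (Q j : 𝒪))
    (P : Set Nat.Primes) (_ : ∀ j, (⟨Q j, hQ j⟩ : Nat.Primes) ∈ P)
    (c c' : Nat.Primes → 𝒪) (a : Fin r → 𝒪)
    (_ : ∀ j, a j ^ 2 - c ⟨Q j, hQ j⟩ * a j + (Q j : 𝒪) ∈ maximalIdeal 𝒪)
    (_ : ∀ j, IsUnit (2 * a j - c ⟨Q j, hQ j⟩)) (_ : ∀ j, IsUnit (a j ^ 2 - 1))
    (_ : ∀ j, c' ⟨Q j, hQ j⟩ = a j)
    (_ : ∀ ℓ : Nat.Primes, (∀ j, Q j ≠ (ℓ : ℕ)) → c' ℓ = c ℓ)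
    (Nt : ℕ) [NeZero Nt] (_ : Nt = N * ∏ j, Q j),
    ∃ φ : ↥(primaryPart (fun ℓ : P => heckeParP N (ℓ : Nat.Primes) 𝒪 𝒪)
          (fun ℓ : P => c ℓ)) ≃ₗ[𝒪]
        ↥(primaryPart (fun ℓ : P => heckeParP Nt (ℓ : Nat.Primes) 𝒪 𝒪)
          (fun ℓ : P => c' ℓ)),
      ∀ ℓ : Nat.Primes, (∀ j, Q j ≠ (ℓ : ℕ)) →
        ∀ x y : ↥(primaryPart (fun ℓ : P => heckeParP N (ℓ : Nat.Primes) 𝒪 𝒪) (fun ℓ : P => c ℓ)),
        (y : ↥(parabolicHoms 𝒪 (Gamma0 N) 𝒪)) = heckeParP N ℓ 𝒪 𝒪 x →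
        ((φ y : _) : ↥(parabolicHoms 𝒪 (Gamma0 Nt) 𝒪)) = heckeParP Nt ℓ 𝒪 𝒪 (φ x)

/-- **[RED-T]**: the coefficient ring of a Hecke–Galois datum is reduced (it is `𝒪`-torsion free
and generated by the image of the reduced `ℤ`-finite ring `heckeAlgebra N 2 S`). -/
def RedTStatement : Prop :=
  ∀ {𝒪 : Type} [CommRing 𝒪] [IsDomain 𝒪] [IsDiscreteValuationRing 𝒪]
    [IsAdicComplete (maximalIdeal 𝒪) 𝒪] [CharZero 𝒪]
    (N : ℕ) [NeZero N] (S : Set ℕ)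
    (θ : CuspForm.heckeAlgebra N 2 S →+* ResidueField 𝒪)
    (T : Type) [CommRing T] [IsLocalRing T] [IsNoetherianRing T]
    [IsAdicComplete (maximalIdeal T) T] [Algebra 𝒪 T] [IsLocalHom (algebraMap 𝒪 T)]
    [Module.Finite 𝒪 T] [Module.Free 𝒪 T]
    (_ : CuspForm.HeckeGaloisRepDatum N S 𝒪 θ T), IsReduced T

/-- **[LEVEL0]**: the module of level `N`: the primary part `M0` of `Hom_par(Γ₀(N), 𝒪)` at the
system `c` lifting `θ` (conditions at all primes outside `S`) carries a FAITHFUL action of the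
coefficient ring `T` of the datum, through which `π (T_ℓ)` acts as the Hecke operator `T_ℓ`; it is
free of finite positive rank over `𝒪`. -/
def Level0Statement : Prop :=
  ∀ {𝒪 : Type} [CommRing 𝒪] [IsDomain 𝒪] [IsDiscreteValuationRing 𝒪]
    [IsAdicComplete (maximalIdeal 𝒪) 𝒪] [Finite (ResidueField 𝒪)] [CharZero 𝒪]
    (p : ℕ) [Fact p.Prime] (_ : 5 ≤ p) (_ : (p : 𝒪) ∈ maximalIdeal 𝒪)
    (N : ℕ) [NeZero N]
    (S : Finset ℕ) (_ : ∀ ℓ : ℕ, ℓ ∈ S ↔ ℓ.Prime ∧ (ℓ = p ∨ ℓ ∣ N))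
    (θ : CuspForm.heckeAlgebra N 2 (S : Set ℕ) →+* ResidueField 𝒪)
    (T : Type) [CommRing T] [IsLocalRing T] [IsNoetherianRing T]
    [IsAdicComplete (maximalIdeal T) T] [Algebra 𝒪 T] [IsLocalHom (algebraMap 𝒪 T)]
    [Module.Finite 𝒪 T] [Module.Free 𝒪 T]
    (datum : CuspForm.HeckeGaloisRepDatum N (S : Set ℕ) 𝒪 θ T)
    (_ : ∀ (B : Type) [CommRing B] [IsDomain B] [IsDiscreteValuationRing B] [Algebra 𝒪 B]
      [Module.Finite 𝒪 B] [IsLocalHom (algebraMap 𝒪 B)]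
      (χ : CuspForm.heckeAlgebra N 2 (S : Set ℕ) →+* B),
      (∀ t, residue B (χ t) = ResidueField.map (algebraMap 𝒪 B) (θ t)) →
        ∃ ψ : T →ₐ[𝒪] B, ∀ t, ψ (datum.π t) = χ t)
    (c : Nat.Primes → 𝒪)
    (_ : ∀ (ℓ : ℕ) (hℓ : ℓ.Prime) (hℓN : ¬ ℓ ∣ N) (hℓS : ℓ ∉ (S : Set ℕ)),
      residue 𝒪 (c ⟨ℓ, hℓ⟩) = θ (CuspForm.heckeAlgebra.T hℓ hℓN hℓS)),
    ∃ (_ : Module T ↥(primaryPart
          (fun ℓ : primesOutside (S : Set ℕ) => heckeParP N (ℓ : Nat.Primes) 𝒪 𝒪)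
          (fun ℓ : primesOutside (S : Set ℕ) => c ℓ)))
      (_ : IsScalarTower 𝒪 T ↥(primaryPart
          (fun ℓ : primesOutside (S : Set ℕ) => heckeParP N (ℓ : Nat.Primes) 𝒪 𝒪)
          (fun ℓ : primesOutside (S : Set ℕ) => c ℓ))),
      Module.Free 𝒪 ↥(primaryPart
          (fun ℓ : primesOutside (S : Set ℕ) => heckeParP N (ℓ : Nat.Primes) 𝒪 𝒪)
          (fun ℓ : primesOutside (S : Set ℕ) => c ℓ)) ∧
      Module.Finite 𝒪 ↥(primaryPart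
          (fun ℓ : primesOutside (S : Set ℕ) => heckeParP N (ℓ : Nat.Primes) 𝒪 𝒪)
          (fun ℓ : primesOutside (S : Set ℕ) => c ℓ)) ∧
      0 < Module.finrank 𝒪 ↥(primaryPart
          (fun ℓ : primesOutside (S : Set ℕ) => heckeParP N (ℓ : Nat.Primes) 𝒪 𝒪)
          (fun ℓ : primesOutside (S : Set ℕ) => c ℓ)) ∧
      (∀ t : T, (∀ m : ↥(primaryPart
          (fun ℓ : primesOutside (S : Set ℕ) => heckeParP N (ℓ : Nat.Primes) 𝒪 𝒪)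
          (fun ℓ : primesOutside (S : Set ℕ) => c ℓ)), t • m = 0) → t = 0) ∧
      ∀ (ℓ : ℕ) (hℓ : ℓ.Prime) (hℓN : ¬ ℓ ∣ N) (hℓS : ℓ ∉ (S : Set ℕ))
        (x : ↥(primaryPart
          (fun ℓ : primesOutside (S : Set ℕ) => heckeParP N (ℓ : Nat.Primes) 𝒪 𝒪)
          (fun ℓ : primesOutside (S : Set ℕ) => c ℓ))),
        ((datum.π (CuspForm.heckeAlgebra.T hℓ hℓN hℓS) • x : ↥(primaryPart
          (fun ℓ : primesOutside (S : Set ℕ) => heckeParP N (ℓ : Nat.Primes) 𝒪 𝒪)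
          (fun ℓ : primesOutside (S : Set ℕ) => c ℓ))) : ↥(parabolicHoms 𝒪 (Gamma0 N) 𝒪)) =
          heckeParP N ⟨ℓ, hℓ⟩ 𝒪 𝒪 (x : ↥(parabolicHoms 𝒪 (Gamma0 N) 𝒪))

end Fermat.Agent.RB.TWM
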