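/-
RB = S43 via Ihara avoidance, package [TWMOD] second wave (lead), part [RED-T]: **the coefficient
ring `T` of a Hecke–Galois datum (`S ⊇` the primes of `N`) is reduced.**

`A = heckeAlgebra N 2 S` is reduced (Petersson), torsion free and integral over `ℤ`: every `a ∈ A` is
killed by an integral polynomial which is squarefree over `ℚ`.  The multiplications by the `π a`
on the finite free `𝒪`-module `T` commute, generate `T`, and are killed by polynomials which are
squarefree over `Frac 𝒪`: [SS-abs].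
-/
import Mathlib
import Fermat.Agent.RB.SS_lead_Abs
import Fermat.Agent.RB.TWMOD_helper2_Targets2
import Fermat.Agent.GR.PET_helper5_Main

set_option autoImplicit false
set_option linter.unusedSectionVars false

namespace Fermat.Agent.RB.SSL

open Polynomial IsLocalRing
open Fermat.Agent.GR

/-- a rational polynomial has an integral multiple. -/
theorem exists_int_multiple (Q : ℚ[X]) :
    ∃ (Q' : ℤ[X]) (d : ℤ), d ≠ 0 ∧ Q'.map (Int.castRingHom ℚ) = C (d : ℚ) * Q := by
  obtain ⟨d, hd, hdQ⟩ := IsLocalization.integerNormalization_spec (nonZeroDivisors ℤ) Q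
  refine ⟨IsLocalization.integerNormalization (nonZeroDivisors ℤ) Q, d,
    nonZeroDivisors.ne_zero hd, ?_⟩
  have := hdQ
  simp only [algebraMap_int_eq, Algebra.smul_def, eq_intCast] at this ⊢
  exact this

/-- **an integral element of a reduced torsion free ring is killed by an integral polynomial which
is squarefree over `ℚ`.** -/
theorem exists_squarefree_aeval_eq_zero {A : Type*} [CommRing A] [IsReduced A]
    (htf : ∀ (n : ℤ) (x : A), n ≠ 0 → (n : A) * x = 0 → x = 0) (a : A) (ha : IsIntegral ℤ a) :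
    ∃ (P : ℚ[X]) (P' : ℤ[X]) (b : ℤ), Squarefree P ∧ b ≠ 0 ∧
      P'.map (Int.castRingHom ℚ) = C (b : ℚ) * P ∧ aeval a P' = 0 := by
  classical
  obtain ⟨g, hgm, hg⟩ := ha
  rw [← aeval_def] at hg
  set gQ : ℚ[X] := g.map (Int.castRingHom ℚ) with hgQ
  have hgQ0 : gQ ≠ 0 := (hgm.map _).ne_zero
  set P : ℚ[X] := UniqueFactorizationMonoid.radical gQ with hP
  obtain ⟨n, h, hh⟩ := UniqueFactorizationMonoid.exists_dvd_radical_self_pow hgQ0
  have hh' : P ^ n = gQ * h := hh
  obtain ⟨P', b, hb0, hbP⟩ := exists_int_multiple P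
  obtain ⟨h', d, hd0, hdh⟩ := exists_int_multiple h
  refine ⟨P, P', b, UniqueFactorizationMonoid.squarefree_radical, hb0, hbP, ?_⟩
  have hid : C (d : ℤ) * P' ^ n = C ((b : ℤ) ^ n) * (g * h') := by
    apply Polynomial.map_injective (Int.castRingHom ℚ) Int.cast_injective
    rw [Polynomial.map_mul, Polynomial.map_mul, Polynomial.map_mul, Polynomial.map_pow,
      Polynomial.map_C, Polynomial.map_C, hbP, hdh, ← hgQ, mul_pow, hh', eq_intCast, eq_intCast,
      Int.cast_pow, C_pow]
    ring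
  have h1 := congrArg (aeval a) hid
  rw [map_mul, map_mul, map_mul, map_pow, hg, zero_mul, mul_zero, aeval_C, algebraMap_int_eq,
    eq_intCast] at h1
  have h2 : (aeval a P') ^ n = 0 := htf d _ hd0 h1
  exact IsReduced.eq_zero _ ⟨n, h2⟩

/-- the image of a squarefree rational polynomial in a field of characteristic `0`, up to a
nonzero constant, is squarefree. -/
theorem squarefree_map_of_int {K : Type*} [Field K] [CharZero K] {P : ℚ[X]} (hP : Squarefree P)
    {P' : ℤ[X]} {b : ℤ} (hb : b ≠ 0) (hbP : P'.map (Int.castRingHom ℚ) = C (b : ℚ) * P) :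
    Squarefree (P'.map (Int.castRingHom K)) := by
  have h3 : (Int.castRingHom K) = (algebraMap ℚ K).comp (Int.castRingHom ℚ) :=
    RingHom.ext_int _ _
  have h4 : P'.map (Int.castRingHom K) = C (b : K) * P.map (algebraMap ℚ K) := by
    rw [h3, ← Polynomial.map_map, hbP, Polynomial.map_mul, Polynomial.map_C]
    simp
  have hsep : (P.map (algebraMap ℚ K)).Separable :=
    ((PerfectField.separable_iff_squarefree).mpr hP).map
  have hb' : (b : K) ≠ 0 := by exact_mod_cast hb
  have hassoc : Associated (P.map (algebraMap ℚ K)) (C (b : K) * P.map (algebraMap ℚ K)) :=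
    ⟨Units.map (C : K →+* K[X]).toMonoidHom (Units.mk0 (b : K) hb'), by
      rw [mul_comm]; rfl⟩
  rw [h4]
  exact hassoc.squarefree_iff.mp hsep.squarefree

section RedT

variable {𝒪 : Type} [CommRing 𝒪] [IsDomain 𝒪] [IsDiscreteValuationRing 𝒪]
  [IsAdicComplete (maximalIdeal 𝒪) 𝒪] [CharZero 𝒪]
  (N : ℕ) [NeZero N] (S : Set ℕ)
  (θ : CuspForm.heckeAlgebra N 2 S →+* ResidueField 𝒪)
  (T : Type) [CommRing T] [IsLocalRing T] [IsNoetherianRing T]
  [IsAdicComplete (maximalIdeal T) T] [Algebra 𝒪 T] [IsLocalHom (algebraMap 𝒪 T)]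
  [Module.Finite 𝒪 T] [Module.Free 𝒪 T]

/-- **[RED-T]**: the coefficient ring of a Hecke–Galois datum is reduced. -/
theorem isReduced_of_datum (hNS : ∀ q : ℕ, q.Prime → q ∣ N → q ∈ S)
    (datum : CuspForm.HeckeGaloisRepDatum N S 𝒪 θ T) : IsReduced T := by
  classical
  have hred : IsReduced ↥(CuspForm.heckeAlgebra N 2 S) := isReduced_heckeAlgebra N S hNS
  have htf : ∀ (n : ℤ) (x : ↥(CuspForm.heckeAlgebra N 2 S)), n ≠ 0 →
      (n : ↥(CuspForm.heckeAlgebra N 2 S)) * x = 0 → x = 0 := by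
    intro n x hn hx
    apply Subtype.ext
    have h1 := congrArg Subtype.val hx
    rw [MulMemClass.coe_mul, ZeroMemClass.coe_zero, SubringClass.coe_intCast, ← zsmul_eq_mul,
      ← Int.cast_smul_eq_zsmul ℂ] at h1
    have hn' : (n : ℂ) ≠ 0 := by exact_mod_cast hn
    rw [ZeroMemClass.coe_zero]
    exact (smul_eq_zero.mp h1).resolve_left hn'
  set K := FractionRing 𝒪 with hK
  set L : T →ₐ[𝒪] Module.End 𝒪 T := Algebra.lmul 𝒪 T with hL
  have hLinj : Function.Injective L := Algebra.lmul_injective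
  set G : Set (Module.End 𝒪 T) := Set.range fun a : CuspForm.heckeAlgebra N 2 S => L (datum.π a)
    with hG
  have hGcomm : ∀ x ∈ G, ∀ y ∈ G, Commute x y := by
    rintro _ ⟨a, rfl⟩ _ ⟨a', rfl⟩
    exact (Commute.all (datum.π a) (datum.π a')).map L
  have hGkill : ∀ x ∈ G, ∃ f : 𝒪[X], Squarefree (f.map (algebraMap 𝒪 K)) ∧ aeval x f = 0 := by
    rintro _ ⟨a, rfl⟩
    obtain ⟨P, P', b, hP, hb0, hbP, haP⟩ :=
      exists_squarefree_aeval_eq_zero htf a (isIntegral_heckeAlgebra S a)
    refine ⟨P'.map (Int.castRingHom 𝒪), ?_, ?_⟩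
    · rw [Polynomial.map_map]
      have : (algebraMap 𝒪 K).comp (Int.castRingHom 𝒪) = Int.castRingHom K := RingHom.ext_int _ _
      rw [this]
      exact squarefree_map_of_int hP hb0 hbP
    · rw [← algebraMap_int_eq, aeval_map_algebraMap]
      have h1 := Polynomial.aeval_algHom_apply ((L : T →+* Module.End 𝒪 T).comp datum.π).toIntAlgHom
        a P'
      rw [haP, map_zero] at h1
      exact h1
  have hmem : ∀ t : T, L t ∈ Algebra.adjoin 𝒪 G := by
    intro t
    have h1 : t ∈ Algebra.adjoin 𝒪 (Set.range datum.π) := by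
      rw [datum.adjoin_range_π]
      exact Algebra.mem_top
    have h2 : L t ∈ (Algebra.adjoin 𝒪 (Set.range datum.π)).map L := ⟨t, h1, rfl⟩
    rw [AlgHom.map_adjoin] at h2
    have h3 : L '' Set.range datum.π = G := by
      rw [hG]
      ext x
      constructor
      · rintro ⟨_, ⟨a, rfl⟩, rfl⟩
        exact ⟨a, rfl⟩
      · rintro ⟨a, rfl⟩
        exact ⟨_, ⟨a, rfl⟩, rfl⟩
    rw [h3] at h2
    exact h2
  refine ⟨fun t ht => ?_⟩
  apply hLinj
  rw [map_zero]
  exact eq_zero_of_isNilpotent_of_mem_adjoin (K := K) (IsFractionRing.injective 𝒪 K) G hGcomm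
    hGkill (hmem t) (ht.map L)

end RedT

/-- **[RED-T]**, literal form (helper2's `TWM.RedTStatement` with the necessary hypothesis that
`S` contains the primes of `N`; without it `heckeAlgebra N 2 S` contains the `U_q`, `q ∣ N`, and
is not reduced in general). -/
def RedTStatement' : Prop :=
  ∀ {𝒪 : Type} [CommRing 𝒪] [IsDomain 𝒪] [IsDiscreteValuationRing 𝒪]
    [IsAdicComplete (maximalIdeal 𝒪) 𝒪] [CharZero 𝒪]
    (N : ℕ) [NeZero N] (S : Set ℕ) (_ : ∀ q : ℕ, q.Prime → q ∣ N → q ∈ S)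
    (θ : CuspForm.heckeAlgebra N 2 S →+* ResidueField 𝒪)
    (T : Type) [CommRing T] [IsLocalRing T] [IsNoetherianRing T]
    [IsAdicComplete (maximalIdeal T) T] [Algebra 𝒪 T] [IsLocalHom (algebraMap 𝒪 T)]
    [Module.Finite 𝒪 T] [Module.Free 𝒪 T]
    (_ : CuspForm.HeckeGaloisRepDatum N S 𝒪 θ T), IsReduced T

theorem redTStatement' : RedTStatement' := by
  intro 𝒪 _ _ _ _ _ N _ S hNS θ T _ _ _ _ _ _ _ _ datum
  exact isReduced_of_datum N S θ T hNS datum

end Fermat.Agent.RB.SSL
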