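/-
RB = S43 via Ihara avoidance, package [TW] (lead), part [SS-big]: **the Hecke operators `T_ℓ`,
`ℓ ∤ N`, on `Hom_par(Γ₀(N), K)` (`K` a field of characteristic `0`) are semisimple**
(`SSBigStatement`).

Proof: the radical `P` of the characteristic polynomial `χ` of `T_ℓ` on the lattice
`Hom_par(Γ₀(N), ℤ)` is squarefree, `χ ∣ P ^ n`; a denominator-free multiple `P'` of `P` is
nilpotent at `T_ℓ ∈ 𝕋 ⊆ End S₂(Γ₀(N))`, and `𝕋` is reduced (Petersson), hence `P'(T_ℓ) = 0` on
`S₂(Γ₀(N))`, then on `Hom_par(Γ₀(N), ℂ)` (period pairs), on the lattice, and on `Hom_par(Γ₀(N), K)`.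
-/
import Mathlib
import Fermat.Agent.RB.TWMOD_helper2_Targets
import Fermat.Agent.GR.MULT1_helper2_Occur
import Fermat.Agent.GR.PET_helper5_Main
import Fermat.Agent.LR.RAISE_helper2_Hecke

set_option autoImplicit false
set_option linter.unusedSectionVars false

namespace Fermat.Agent.RB.TWL

open CongruenceSubgroup ModularCurve.Period Polynomial TensorProduct
open scoped MatrixGroups
open Fermat.Agent.GR Fermat.Agent.LR

/-- in a reduced subalgebra, a polynomial expression which is nilpotent vanishes. -/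
theorem aeval_eq_zero_of_pow_eq_zero_of_isReduced {E : Type*} [Ring E] [Algebra ℤ E]
    (𝕋 : Subalgebra ℤ E) [IsReduced ↥𝕋] {T : E} (hT : T ∈ 𝕋) (p : ℤ[X]) (n : ℕ)
    (h : aeval T p ^ n = 0) : aeval T p = 0 := by
  have hy : aeval T p ∈ 𝕋 :=
    (Algebra.adjoin_le (Set.singleton_subset_iff.mpr hT)) (aeval_mem_adjoin_singleton ℤ T)
  have hnil : IsNilpotent (⟨aeval T p, hy⟩ : ↥𝕋) := by
    refine ⟨n, Subtype.ext ?_⟩
    rw [SubmonoidClass.coe_pow, h, ZeroMemClass.coe_zero]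
  exact congrArg Subtype.val hnil.eq_zero

section SS

variable (N : ℕ) [NeZero N] (ℓ : Nat.Primes)

/-- an integral polynomial killing `T_ℓ` on `S₂(Γ₀(N))` kills it on `Hom_par(Γ₀(N), ℂ)`. -/
theorem aeval_heckeParP_complex_eq_zero (p : ℤ[X]) (hp : aeval (heckeOpP N ℓ) p = 0) :
    aeval (heckeParP N ℓ ℂ ℂ) p = 0 := by
  apply LinearMap.ext
  intro ψ
  obtain ⟨f, g, hfg⟩ := exists_periodHomPair_eq N ψ.2
  rw [LinearMap.zero_apply]
  -- the intertwiner `(f, g) ↦ Φ(f, g)`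
  let φ : CuspForm (Gamma0 N) 2 × CuspForm (Gamma0 N) 2 →+ ↥(parabolicHoms ℂ (Gamma0 N) ℂ) :=
    { toFun := fun m => ⟨ModularCurve.periodHomPair N m, periodHomPair_mem_parabolicHoms m.1 m.2⟩
      map_zero' := Subtype.ext (map_zero _)
      map_add' := fun m m' => Subtype.ext (map_add _ m m') }
  let T₂ : Module.End ℂ (CuspForm (Gamma0 N) 2 × CuspForm (Gamma0 N) 2) :=
    (heckeOpP N ℓ).prodMap (heckeOpP N ℓ)
  have hφ : ∀ m, φ (T₂ m) = heckeParP N ℓ ℂ ℂ (φ m) := by
    intro m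
    apply Subtype.ext
    rw [coe_heckeParP]
    exact periodHomPair_heckeOpP N ℓ m.1 m.2
  have h1 := aeval_int_intertwine T₂ (heckeParP N ℓ ℂ ℂ) φ hφ p (f, g)
  have hfst := aeval_int_intertwine T₂ (heckeOpP N ℓ)
    (LinearMap.fst ℂ (CuspForm (Gamma0 N) 2) (CuspForm (Gamma0 N) 2)).toAddMonoidHom
    (fun m => rfl) p (f, g)
  have hsnd := aeval_int_intertwine T₂ (heckeOpP N ℓ)
    (LinearMap.snd ℂ (CuspForm (Gamma0 N) 2) (CuspForm (Gamma0 N) 2)).toAddMonoidHom
    (fun m => rfl) p (f, g)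
  rw [hp, LinearMap.zero_apply] at hfst hsnd
  have h2 : aeval T₂ p (f, g) = 0 := Prod.ext hfst hsnd
  rw [h2, map_zero] at h1
  have h3 : φ (f, g) = ψ := Subtype.ext hfg
  rw [h3] at h1
  exact h1.symm

/-- an integral polynomial killing `T_ℓ` on `Hom_par(Γ₀(N), ℂ)` kills it on the lattice. -/
theorem aeval_heckeParP_int_eq_zero (p : ℤ[X]) (hp : aeval (heckeParP N ℓ ℂ ℂ) p = 0) :
    aeval (heckeParP N ℓ ℤ ℤ) p = 0 := by
  apply LinearMap.ext
  intro ψ
  rw [LinearMap.zero_apply]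
  apply castPar_injective N
  have h := aeval_int_intertwine (heckeParP N ℓ ℤ ℤ) (heckeParP N ℓ ℂ ℂ) (castPar N)
    (fun m => castPar_heckeZ N ℓ m) p ψ
  rw [hp, LinearMap.zero_apply] at h
  rw [h, map_zero]

/-- an integral polynomial killing `T_ℓ` on the lattice kills it on `Hom_par(Γ₀(N), F)`. -/
theorem aeval_heckeParP_field_eq_zero {F : Type*} [Field F] [CharZero F] (p : ℤ[X])
    (hp : aeval (heckeParP N ℓ ℤ ℤ) p = 0) : aeval (heckeParP N ℓ F F) p = 0 := by
  apply LinearMap.ext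
  intro ψ
  obtain ⟨x, rfl⟩ := (parTheta F (Gamma0 N) F).surjective ψ
  rw [LinearMap.zero_apply]
  induction x using TensorProduct.induction_on with
  | zero => rw [map_zero, map_zero]
  | tmul c ψ₀ =>
    rw [parTheta_tmul]
    have h := aeval_int_intertwine (heckeParP N ℓ ℤ ℤ) (heckeParP N ℓ F F) (parScalHom F c)
      (fun m => (heckeParP_parScal F ℓ c m).symm) p ψ₀
    rw [hp, LinearMap.zero_apply, map_zero] at h
    exact h.symm
  | add x y hx hy => rw [map_add, map_add, hx, hy, add_zero]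

/-- **a squarefree rational polynomial with an integral multiple killing `T_ℓ` on `S₂(Γ₀(N))`**,
`ℓ ∤ N`. -/
theorem exists_squarefree_aeval_heckeOpP_eq_zero (hℓN : ¬ (ℓ : ℕ) ∣ N) :
    ∃ (P : ℚ[X]) (P' : ℤ[X]) (b : ℤ), Squarefree P ∧ b ≠ 0 ∧
      P'.map (Int.castRingHom ℚ) = (b : ℚ) • P ∧ aeval (heckeOpP N ℓ) P' = 0 := by
  classical
  set S : Set ℕ := {q | q.Prime ∧ q ∣ N} with hS
  have hℓS : (ℓ : ℕ) ∉ S := fun h => hℓN h.2
  have hred : IsReduced ↥(CuspForm.heckeAlgebra N 2 S) :=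
    isReduced_heckeAlgebra N S (fun q hq hqN => ⟨hq, hqN⟩)
  set χ : ℤ[X] := (heckeParP N ℓ ℤ ℤ).charpoly with hχ
  have hχmonic : χ.Monic := LinearMap.charpoly_monic _
  set χQ : ℚ[X] := χ.map (Int.castRingHom ℚ) with hχQ
  have hχQ0 : χQ ≠ 0 := (hχmonic.map _).ne_zero
  set P : ℚ[X] := UniqueFactorizationMonoid.radical χQ with hP
  obtain ⟨n, hn⟩ := UniqueFactorizationMonoid.exists_dvd_radical_self_pow hχQ0
  obtain ⟨b, hb, hbP⟩ := IsLocalization.integerNormalization_spec (nonZeroDivisors ℤ) P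
  set P' : ℤ[X] := IsLocalization.integerNormalization (nonZeroDivisors ℤ) P with hP'
  have hb0 : b ≠ 0 := nonZeroDivisors.ne_zero hb
  have hbP' : P'.map (Int.castRingHom ℚ) = (b : ℚ) • P := by
    have := hbP
    simp only [algebraMap_int_eq, Algebra.smul_def, eq_intCast] at this ⊢
    exact this
  refine ⟨P, P', b, UniqueFactorizationMonoid.squarefree_radical, hb0, hbP', ?_⟩
  -- nilpotency
  set T := heckeOpP N ℓ with hT
  set PC : ℂ[X] := P.map (algebraMap ℚ ℂ) with hPC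
  have hcomp : (Int.castRingHom ℂ) = (algebraMap ℚ ℂ).comp (Int.castRingHom ℚ) :=
    RingHom.ext_int _ _
  have hχT : aeval T (χQ.map (algebraMap ℚ ℂ)) = 0 := by
    rw [hχQ, Polynomial.map_map, ← hcomp, ← algebraMap_int_eq, aeval_map_algebraMap]
    exact aeval_heckeOpP_charpoly ℓ
  have hPn : aeval T PC ^ n = 0 := by
    obtain ⟨Q, hQ⟩ := hn
    have hQ' : P ^ n = χQ * Q := hQ
    rw [← map_pow, hPC, ← Polynomial.map_pow, hQ', Polynomial.map_mul, map_mul, hχT,
      zero_mul]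
  have hP'T : aeval T P' = (b : ℂ) • aeval T PC := by
    rw [← aeval_map_algebraMap ℂ T P', algebraMap_int_eq, hcomp, ← Polynomial.map_map, hbP',
      Polynomial.map_smul, ← hPC, map_smul]
    simp
  have hnil : aeval T P' ^ n = 0 := by
    rw [hP'T, _root_.smul_pow, hPn, smul_zero]
  -- reducedness
  exact aeval_eq_zero_of_pow_eq_zero_of_isReduced (CuspForm.heckeAlgebra N 2 S)
    (heckeOpP_mem_heckeAlgebra S hℓS) P' n hnil

/-- **[SS-big]** the Hecke operators `T_ℓ`, `ℓ ∤ N`, on `Hom_par(Γ₀(N), K)` are semisimple. -/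
theorem ssBigStatement : Fermat.Agent.RB.TWM.SSBigStatement := by
  intro N _ K _ _ ℓ hℓN
  obtain ⟨P, P', b, hsq, hb0, hbP, hT⟩ := exists_squarefree_aeval_heckeOpP_eq_zero N ℓ hℓN
  have h1 := aeval_heckeParP_field_eq_zero N ℓ (F := K) P'
    (aeval_heckeParP_int_eq_zero N ℓ P' (aeval_heckeParP_complex_eq_zero N ℓ P' hT))
  set p : K[X] := P.map (algebraMap ℚ K) with hp
  have hsep : p.Separable := ((PerfectField.separable_iff_squarefree).mpr hsq).map
  refine Module.End.isSemisimple_of_squarefree_aeval_eq_zero hsep.squarefree ?_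
  have h2 : P'.map (Int.castRingHom K) = (b : K) • p := by
    have h3 : (Int.castRingHom K) = (algebraMap ℚ K).comp (Int.castRingHom ℚ) :=
      RingHom.ext_int _ _
    rw [h3, ← Polynomial.map_map, hbP, hp, Polynomial.map_smul]
    simp
  have h4 : aeval (heckeParP N ℓ K K) (P'.map (Int.castRingHom K)) = 0 := by
    rw [← algebraMap_int_eq, aeval_map_algebraMap]
    exact h1
  rw [h2, map_smul] at h4
  have hb0' : (b : K) ≠ 0 := by exact_mod_cast hb0
  exact (smul_eq_zero.mp h4).resolve_left hb0'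

end SS

end Fermat.Agent.RB.TWL
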