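/-
PROJECT RB — [TWMOD] second wave, [LEVEL0] (helper3), part 4: **the module `M0`** (the primary
part of `Hom_par(Γ₀(N), 𝒪)` for the Hecke operators away from `S` and the scalars `c ℓ`), its Hecke
operators `resOp ℓ`, the family `fam` and the properties of its algebra `𝕋₀ = (fam).alg`:
residually scalar generators (`fam_res`) and reducedness (`fam_isReduced`, from lead's [SS-abs] and
[SS-big]).
-/
import Mathlib
import Fermat.Agent.RB.LEVEL0_helper3_Alg
import Fermat.Agent.RB.T3_helper3_Statement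
import Fermat.Agent.RB.SS_lead_Abs
import Fermat.Agent.RB.SS_lead_RedT
import Fermat.Agent.RB.TW_lead_SSBig

set_option autoImplicit false
set_option linter.unusedSectionVars false
set_option linter.unusedVariables false
set_option linter.style.haveILetI false
set_option maxSynthPendingDepth 2

namespace Fermat.Agent.RB.L0

open CongruenceSubgroup ModularCurve.Period IsLocalRing Polynomial TensorProduct
  Fermat.Agent.GR Fermat.Agent.RB Fermat.Agent.RB.TWM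
open scoped MatrixGroups

section Kill

variable (N : ℕ) [NeZero N] (ℓ : Nat.Primes)

/-- an integral polynomial killing `T_ℓ` on the lattice kills it on `Hom_par(Γ₀(N), R)`, `R` any
torsion-free commutative ring. -/
theorem aeval_heckeParP_ring_eq_zero {R : Type*} [CommRing R] [IsAddTorsionFree R] (p : ℤ[X])
    (hp : aeval (heckeParP N ℓ ℤ ℤ) p = 0) : aeval (heckeParP N ℓ R R) p = 0 := by
  apply LinearMap.ext
  intro ψ
  obtain ⟨x, rfl⟩ := (parTheta R (Gamma0 N) R).surjective ψ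
  rw [LinearMap.zero_apply]
  induction x using TensorProduct.induction_on with
  | zero => rw [map_zero, map_zero]
  | tmul c ψ₀ =>
    rw [parTheta_tmul]
    have h := aeval_int_intertwine (heckeParP N ℓ ℤ ℤ) (heckeParP N ℓ R R) (parScalHom R c)
      (fun m => (heckeParP_parScal R ℓ c m).symm) p ψ₀
    rw [hp, LinearMap.zero_apply, map_zero] at h
    exact h.symm
  | add x y hx hy => rw [map_add, map_add, hx, hy, add_zero]

end Kill

section Uniform

variable {O : Type*} [CommRing O] [IsLocalRing O] {H : Type*} [AddCommGroup H] [Module O H]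
  [Module.Finite O H]

/-- pointwise nilpotence modulo `I` of an endomorphism of a finite module is uniform. -/
theorem exists_uniform_pow_mem_smul_top (s : Module.End O H) (I : Ideal O)
    (h : ∀ x : H, ∃ k : ℕ, (s ^ k) x ∈ (I • ⊤ : Submodule O H)) :
    ∃ k : ℕ, ∀ x : H, (s ^ k) x ∈ (I • ⊤ : Submodule O H) := by
  classical
  obtain ⟨G, hG⟩ := (Module.Finite.fg_top : (⊤ : Submodule O H).FG)
  choose k hk using h
  refine ⟨G.sup k, fun x => ?_⟩
  have hle : Submodule.span O (G : Set H) ≤ (I • ⊤ : Submodule O H).comap (s ^ G.sup k) := by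
    refine Submodule.span_le.2 fun g hg => ?_
    show (s ^ G.sup k) g ∈ (I • ⊤ : Submodule O H)
    have hkg : k g ≤ G.sup k := Finset.le_sup (f := k) hg
    obtain ⟨j, hj⟩ := Nat.exists_eq_add_of_le hkg
    have hpow : s ^ G.sup k = s ^ j * s ^ k g := by rw [hj, add_comm, pow_add]
    rw [hpow, Module.End.mul_apply]
    exact linearMap_apply_mem_smul_top (s ^ j) _ (hk g)
  have hx : x ∈ Submodule.span O (G : Set H) := by rw [hG]; trivial
  exact hle hx

end Uniform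

section M0

variable {𝒪 : Type} [CommRing 𝒪] [IsDomain 𝒪] [IsDiscreteValuationRing 𝒪] [CharZero 𝒪]
  (N : ℕ) [NeZero N] (S : Set ℕ) (c : Nat.Primes → 𝒪)

/-- **the module `M0`.** -/
noncomputable abbrev M0 : Submodule 𝒪 ↥(parabolicHoms 𝒪 (Gamma0 N) 𝒪) :=
  primaryPart (fun ℓ : primesOutside S => heckeParP N (ℓ : Nat.Primes) 𝒪 𝒪)
    (fun ℓ : primesOutside S => c ℓ)

instance free_M0 : Module.Free 𝒪 ↥(M0 N S c) :=
  @Module.free_of_finite_type_torsion_free' 𝒪 _ ↥(M0 N S c) _ _ _ _ _ _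

/-- `M0` is stable under all Hecke operators. -/
theorem heckeParP_mem_M0 (ℓ : Nat.Primes) {x : ↥(parabolicHoms 𝒪 (Gamma0 N) 𝒪)}
    (hx : x ∈ M0 N S c) : heckeParP N ℓ 𝒪 𝒪 x ∈ M0 N S c := by
  intro i
  have hcomm : Commute (heckeParP N (i : Nat.Primes) 𝒪 𝒪 -
      algebraMap 𝒪 (Module.End 𝒪 ↥(parabolicHoms 𝒪 (Gamma0 N) 𝒪)) (c i)) (heckeParP N ℓ 𝒪 𝒪) :=
    (heckeParP_commute_domain 𝒪 (i : Nat.Primes) ℓ).sub_left (Algebra.commute_algebraMap_left _ _)
  exact TopNil.apply_of_commute hcomm (hx i)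

/-- the Hecke operators on `M0`. -/
noncomputable def resOp (ℓ : Nat.Primes) : Module.End 𝒪 ↥(M0 N S c) :=
  (heckeParP N ℓ 𝒪 𝒪).restrict (fun x hx => heckeParP_mem_M0 N S c ℓ hx)

theorem coe_resOp (ℓ : Nat.Primes) (x : ↥(M0 N S c)) :
    ((resOp N S c ℓ x : ↥(M0 N S c)) : ↥(parabolicHoms 𝒪 (Gamma0 N) 𝒪)) =
      heckeParP N ℓ 𝒪 𝒪 (x : ↥(parabolicHoms 𝒪 (Gamma0 N) 𝒪)) := rfl

theorem resOp_commute (ℓ q : Nat.Primes) : Commute (resOp N S c ℓ) (resOp N S c q) := by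
  apply LinearMap.ext
  intro x
  apply Subtype.ext
  show heckeParP N ℓ 𝒪 𝒪 (heckeParP N q 𝒪 𝒪 (x : ↥(parabolicHoms 𝒪 (Gamma0 N) 𝒪))) =
    heckeParP N q 𝒪 𝒪 (heckeParP N ℓ 𝒪 𝒪 (x : ↥(parabolicHoms 𝒪 (Gamma0 N) 𝒪)))
  exact LinearMap.congr_fun (heckeParP_commute_domain 𝒪 ℓ q).eq _

/-- the family of the Hecke operators away from `S` on `M0`. -/
noncomputable def fam : OpFam 𝒪 ↥(M0 N S c) ↥(primesOutside S) where
  tt i := resOp N S c (i : Nat.Primes)
  comm i j := resOp_commute N S c _ _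

theorem fam_tt (i : ↥(primesOutside S)) : (fam N S c).tt i = resOp N S c (i : Nat.Primes) := rfl

/-- powers of the shifted operators on `M0` and on `Hom_par`. -/
theorem coe_resOp_sub_pow (ℓ : Nat.Primes) (r : 𝒪) (k : ℕ) (x : ↥(M0 N S c)) :
    ((((resOp N S c ℓ - algebraMap 𝒪 (Module.End 𝒪 ↥(M0 N S c)) r) ^ k) x : ↥(M0 N S c)) :
      ↥(parabolicHoms 𝒪 (Gamma0 N) 𝒪)) =
    ((heckeParP N ℓ 𝒪 𝒪 - algebraMap 𝒪 (Module.End 𝒪 ↥(parabolicHoms 𝒪 (Gamma0 N) 𝒪)) r) ^ k)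
      (x : ↥(parabolicHoms 𝒪 (Gamma0 N) 𝒪)) := by
  induction k generalizing x with
  | zero => simp
  | succ k ih =>
    rw [pow_succ, pow_succ, Module.End.mul_apply, Module.End.mul_apply, ih]
    rfl

/-- **`M0` is saturated** in `Hom_par(Γ₀(N), 𝒪)`. -/
theorem mem_smul_top_of_coe_mem (x : ↥(M0 N S c))
    (hx : (x : ↥(parabolicHoms 𝒪 (Gamma0 N) 𝒪)) ∈
      (maximalIdeal 𝒪 • ⊤ : Submodule 𝒪 ↥(parabolicHoms 𝒪 (Gamma0 N) 𝒪))) :
    x ∈ (maximalIdeal 𝒪 • ⊤ : Submodule 𝒪 ↥(M0 N S c)) := by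
  obtain ⟨ϖ, hϖ⟩ := IsDiscreteValuationRing.exists_irreducible 𝒪
  have hϖ0 : ϖ ≠ 0 := hϖ.ne_zero
  rw [hϖ.maximalIdeal_eq, Submodule.ideal_span_singleton_smul] at hx ⊢
  obtain ⟨v, -, hv⟩ := hx
  have hv' : ϖ • v = (x : ↥(parabolicHoms 𝒪 (Gamma0 N) 𝒪)) := hv
  have hvM : v ∈ M0 N S c := by
    intro i n
    obtain ⟨k, hk⟩ := x.2 i (n + 1)
    refine ⟨k, ?_⟩
    rw [← hv', map_smul, hϖ.maximalIdeal_eq, Ideal.span_singleton_pow,
      Submodule.ideal_span_singleton_smul] at hk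
    obtain ⟨w, -, hw⟩ := hk
    have hw' : ϖ ^ (n + 1) • w = ϖ • ((heckeParP N (i : Nat.Primes) 𝒪 𝒪 -
        algebraMap 𝒪 (Module.End 𝒪 ↥(parabolicHoms 𝒪 (Gamma0 N) 𝒪)) (c i)) ^ k) v := hw
    rw [pow_succ', mul_smul] at hw'
    have h1 := smul_right_injective ↥(parabolicHoms 𝒪 (Gamma0 N) 𝒪) hϖ0 hw'
    rw [← h1, hϖ.maximalIdeal_eq, Ideal.span_singleton_pow,
      Submodule.ideal_span_singleton_smul]
    exact ⟨w, Submodule.mem_top, rfl⟩
  refine ⟨⟨v, hvM⟩, Submodule.mem_top, ?_⟩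
  apply Subtype.ext
  exact hv'

/-- the generators of `𝕋₀` are residually scalar (pointwise). -/
theorem exists_pow_mem_smul_top (i : ↥(primesOutside S)) (x : ↥(M0 N S c)) :
    ∃ k : ℕ, (((fam N S c).tt i - algebraMap 𝒪 (Module.End 𝒪 ↥(M0 N S c)) (c i)) ^ k) x ∈
      (maximalIdeal 𝒪 • ⊤ : Submodule 𝒪 ↥(M0 N S c)) := by
  obtain ⟨k, hk⟩ := x.2 i 1
  refine ⟨k, ?_⟩
  apply mem_smul_top_of_coe_mem
  rw [fam_tt, coe_resOp_sub_pow]
  rw [pow_one] at hk
  exact hk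

/-- **the generators of `𝕋₀` are residually scalar** (uniformly). -/
theorem fam_res (i : ↥(primesOutside S)) : ∃ k : ℕ, ∀ x : ↥(M0 N S c),
    (((fam N S c).tt i - algebraMap 𝒪 (Module.End 𝒪 ↥(M0 N S c)) (c i)) ^ k) x ∈
      (maximalIdeal 𝒪 • ⊤ : Submodule 𝒪 ↥(M0 N S c)) :=
  exists_uniform_pow_mem_smul_top _ _ (exists_pow_mem_smul_top N S c i)

/-- integer polynomials in the Hecke operators on `M0` and on `Hom_par`. -/
theorem coe_aeval_resOp (ℓ : Nat.Primes) (p : ℤ[X]) (x : ↥(M0 N S c)) :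
    (((aeval (resOp N S c ℓ) p) x : ↥(M0 N S c)) : ↥(parabolicHoms 𝒪 (Gamma0 N) 𝒪)) =
      (aeval (heckeParP N ℓ 𝒪 𝒪) p) (x : ↥(parabolicHoms 𝒪 (Gamma0 N) 𝒪)) :=
  aeval_int_intertwine (resOp N S c ℓ) (heckeParP N ℓ 𝒪 𝒪)
    ((M0 N S c).subtype : ↥(M0 N S c) →+ ↥(parabolicHoms 𝒪 (Gamma0 N) 𝒪)) (fun m => rfl) p x

theorem aeval_resOp_eq_zero (ℓ : Nat.Primes) (p : ℤ[X])
    (h : aeval (heckeParP N ℓ 𝒪 𝒪) p = 0) : aeval (resOp N S c ℓ) p = 0 := by
  apply LinearMap.ext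
  intro x
  apply Subtype.ext
  rw [coe_aeval_resOp, h]
  rfl

/-- **`𝕋₀` is reduced.** -/
theorem fam_isReduced (hSN : ∀ ℓ : Nat.Primes, (ℓ : ℕ) ∉ S → ¬ (ℓ : ℕ) ∣ N) :
    IsReduced (fam N S c).alg := by
  refine (fam N S c).isReduced_alg fun t ht hnil => ?_
  have hinj : Function.Injective (algebraMap 𝒪 (FractionRing 𝒪)) :=
    IsFractionRing.injective 𝒪 (FractionRing 𝒪)
  refine SSL.eq_zero_of_isNilpotent_of_mem_adjoin (K := FractionRing 𝒪) hinj
    (Set.range (fam N S c).tt) ?_ ?_ ht hnil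
  · rintro _ ⟨i, rfl⟩ _ ⟨j, rfl⟩
    exact (fam N S c).comm i j
  · rintro _ ⟨i, rfl⟩
    obtain ⟨P, P', b, hsq, hb0, hbP, hT⟩ :=
      TWL.exists_squarefree_aeval_heckeOpP_eq_zero N (i : Nat.Primes) (hSN _ i.2)
    have h1 : aeval (heckeParP N (i : Nat.Primes) 𝒪 𝒪) P' = 0 :=
      aeval_heckeParP_ring_eq_zero N _ P'
        (TWL.aeval_heckeParP_int_eq_zero N _ P' (TWL.aeval_heckeParP_complex_eq_zero N _ P' hT))
    refine ⟨P'.map (Int.castRingHom 𝒪), ?_, ?_⟩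
    · rw [Polynomial.map_map]
      have : (algebraMap 𝒪 (FractionRing 𝒪)).comp (Int.castRingHom 𝒪) =
          Int.castRingHom (FractionRing 𝒪) := RingHom.ext_int _ _
      rw [this]
      refine SSL.squarefree_map_of_int hsq hb0 ?_
      rw [hbP, Polynomial.smul_eq_C_mul]
    · rw [← algebraMap_int_eq, aeval_map_algebraMap]
      exact aeval_resOp_eq_zero N S c _ P' h1

section Local

variable [Nontrivial ↥(M0 N S c)]

theorem fam_isLocalRing : IsLocalRing (fam N S c).alg :=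
  (fam N S c).isLocalRing_alg (fun i : ↥(primesOutside S) => c i) (fam_res N S c)

theorem fam_isLocalHom : IsLocalHom (algebraMap 𝒪 (fam N S c).alg) :=
  (fam N S c).isLocalHom_algebraMap_alg (fun i : ↥(primesOutside S) => c i) (fam_res N S c)

theorem fam_residue_surjective [IsLocalRing (fam N S c).alg] :
    Function.Surjective (residue (fam N S c).alg ∘ algebraMap 𝒪 (fam N S c).alg) :=
  (fam N S c).residue_surjective_alg (fun i : ↥(primesOutside S) => c i) (fam_res N S c)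

theorem fam_residue_gen [IsLocalRing (fam N S c).alg] (i : ↥(primesOutside S)) :
    residue (fam N S c).alg ((fam N S c).gen i) =
      residue (fam N S c).alg (algebraMap 𝒪 (fam N S c).alg (c i)) :=
  (fam N S c).residue_gen (fun i : ↥(primesOutside S) => c i) (fam_res N S c) i

end Local

/-- the generators of `𝕋₀`, indexed by all primes (`0` at the primes of `S`). -/
noncomputable def genP (ℓ : Nat.Primes) : (fam N S c).alg := by
  classical
  exact if h : (ℓ : ℕ) ∉ S then (fam N S c).gen ⟨ℓ, h⟩ else 0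

theorem genP_of_notMem (ℓ : Nat.Primes) (h : (ℓ : ℕ) ∉ S) :
    genP N S c ℓ = (fam N S c).gen ⟨ℓ, h⟩ := by
  classical
  rw [genP, dif_pos h]

theorem coe_genP (ℓ : Nat.Primes) (h : (ℓ : ℕ) ∉ S) :
    ((genP N S c ℓ : (fam N S c).alg) : Module.End 𝒪 ↥(M0 N S c)) = resOp N S c ℓ := by
  rw [genP_of_notMem N S c ℓ h]
  rfl

theorem fam_residue_genP [Nontrivial ↥(M0 N S c)] [IsLocalRing (fam N S c).alg]
    [IsLocalHom (algebraMap 𝒪 (fam N S c).alg)]
    (ℓ : Nat.Primes) (h : (ℓ : ℕ) ∉ S) :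
    residue (fam N S c).alg (genP N S c ℓ) =
      ResidueField.map (algebraMap 𝒪 (fam N S c).alg) (residue 𝒪 (c ℓ)) := by
  have h1 : residue (fam N S c).alg (genP N S c ℓ) =
      residue (fam N S c).alg ((fam N S c).gen ⟨ℓ, h⟩) :=
    congrArg (residue (fam N S c).alg) (genP_of_notMem N S c ℓ h)
  have h2 := fam_residue_gen N S c ⟨ℓ, h⟩
  have h3 : ResidueField.map (algebraMap 𝒪 (fam N S c).alg) (residue 𝒪 (c ℓ)) =
      residue (fam N S c).alg (algebraMap 𝒪 (fam N S c).alg (c ℓ)) :=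
    ResidueField.map_residue _ _
  exact h1.trans (h2.trans h3.symm)

theorem genSet_subset_image :
    (fam N S c).genSet ⊆ genP N S c '' {ℓ | (ℓ : ℕ) ∉ S} := by
  rintro x ⟨i, hi⟩
  refine ⟨(i : Nat.Primes), i.2, ?_⟩
  rw [genP_of_notMem N S c _ i.2]
  exact Subtype.ext hi

theorem adjoin_genP : Algebra.adjoin 𝒪 (genP N S c '' {ℓ | (ℓ : ℕ) ∉ S}) = ⊤ :=
  eq_top_iff.2 (le_of_eq_of_le (fam N S c).adjoin_genSet.symm
    (Algebra.adjoin_mono (genSet_subset_image N S c)))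

end M0

end Fermat.Agent.RB.L0
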