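/-
PROJECT RB — [TWMOD] second wave, [LEVEL0] (helper3), part 5: **every character `χ` of the Hecke
algebra lifting `θ`, with values in a discrete valuation ring `B` finite over `𝒪`, produces
elements of `M0`**: the maps `Ξ lam : B →ₗ[𝒪] M0` (`lam : B →ₗ[𝒪] 𝒪`), which intertwine
multiplication by `χ (T_ℓ)` with the Hecke operator `T_ℓ` on `M0` and are jointly injective.
-/
import Mathlib
import Fermat.Agent.RB.LEVEL0_helper3_M0
import Fermat.Agent.RB.LEVEL0_helper3_Eigen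

set_option autoImplicit false
set_option linter.unusedSectionVars false
set_option linter.unusedVariables false
set_option linter.style.haveILetI false
set_option maxSynthPendingDepth 2

namespace Fermat.Agent.RB.L0

open CongruenceSubgroup ModularCurve.Period IsLocalRing CuspForm
  Fermat.Agent.GR Fermat.Agent.RB Fermat.Agent.RB.TWM
open scoped MatrixGroups

section Pts

variable {𝒪 : Type} [CommRing 𝒪] [IsDomain 𝒪] [IsDiscreteValuationRing 𝒪] [CharZero 𝒪]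
  (N : ℕ) [NeZero N] (S : Set ℕ) (c : Nat.Primes → 𝒪)
  (θ : heckeAlgebra N 2 S →+* ResidueField 𝒪)
  {B : Type} [CommRing B] [IsDomain B] [IsDiscreteValuationRing B] [CharZero B] [Algebra 𝒪 B]
  [Module.Finite 𝒪 B] [IsLocalHom (algebraMap 𝒪 B)]

/-- **the dual projections of the lattice eigenvector of a character lifting `θ`.** -/
theorem exists_dualM0 (hinj : Function.Injective (algebraMap 𝒪 B))
    (hSN : ∀ ℓ : Nat.Primes, (ℓ : ℕ) ∉ S → ¬ (ℓ : ℕ) ∣ N)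
    (hc : ∀ (ℓ : ℕ) (hℓ : ℓ.Prime) (hℓN : ¬ ℓ ∣ N) (hℓS : ℓ ∉ S),
      residue 𝒪 (c ⟨ℓ, hℓ⟩) = θ (heckeAlgebra.T hℓ hℓN hℓS))
    (χ : heckeAlgebra N 2 S →+* B)
    (hχ : ∀ t, residue B (χ t) = ResidueField.map (algebraMap 𝒪 B) (θ t)) :
    ∃ Ξ : (B →ₗ[𝒪] 𝒪) → B →ₗ[𝒪] ↥(M0 N S c),
      (∀ (lam : B →ₗ[𝒪] 𝒪) (ℓ : Nat.Primes) (h : (ℓ : ℕ) ∉ S) (b : B),
        resOp N S c ℓ (Ξ lam b) = Ξ lam (χ (heckeGenS S ℓ h) * b)) ∧
      (∀ x : B, (∀ lam : B →ₗ[𝒪] 𝒪, Ξ lam x = 0) → x = 0) := by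
  classical
  obtain ⟨Φ, hΦ0, hΦpar, hΦeig⟩ := exists_lattice_eigenvector (N := N) S χ
  -- the eigenvalues are congruent to the `c ℓ`
  have hac : ∀ i : ↥(primesOutside S),
      χ (heckeGenS S (i : Nat.Primes) i.2) - algebraMap 𝒪 B (c i) ∈ maximalIdeal B := by
    intro i
    have hiN : ¬ ((i : Nat.Primes) : ℕ) ∣ N := hSN _ i.2
    have h1 : heckeGenS S (i : Nat.Primes) i.2 =
        heckeAlgebra.T (i : Nat.Primes).2 hiN i.2 :=
      heckeGenS_eq_T S (i : Nat.Primes).2 hiN i.2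
    rw [← residue_eq_zero_iff, map_sub, sub_eq_zero, hχ, h1,
      ← hc _ (i : Nat.Primes).2 hiN i.2, ResidueField.map_residue]
    rfl
  have hmem : ∀ (lam : B →ₗ[𝒪] 𝒪) (b : B), dualPar hΦpar lam b ∈ M0 N S c := fun lam b =>
    dualPar_mem_primaryPart hinj (fun i : ↥(primesOutside S) => (i : Nat.Primes))
      (fun i : ↥(primesOutside S) => c i)
      (fun i : ↥(primesOutside S) => χ (heckeGenS S (i : Nat.Primes) i.2)) hΦpar
      (fun i => hΦeig _ i.2) hac lam b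
  refine ⟨fun lam => (dualPar hΦpar lam).codRestrict (M0 N S c) (hmem lam), ?_, ?_⟩
  · intro lam ℓ h b
    apply Subtype.ext
    rw [coe_resOp]
    exact heckeParP_dualPar ℓ hΦpar (hΦeig ℓ h) lam b
  · intro x hx
    -- `B` is free over `𝒪`
    haveI : Module.IsTorsionFree 𝒪 B := by
      refine Module.IsTorsionFree.of_smul_eq_zero fun r y hry => ?_
      rw [Algebra.smul_def, mul_eq_zero] at hry
      rcases hry with h | h
      · left
        exact hinj (h.trans (map_zero _).symm)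
      · exact Or.inr h
    haveI : Module.Free 𝒪 B := Module.free_of_finite_type_torsion_free'
    obtain ⟨γ, hγ⟩ : ∃ γ, Φ γ ≠ 0 := by
      by_contra hne
      apply hΦ0
      ext γ
      by_contra hγ
      exact hne ⟨γ, hγ⟩
    have h1 : ∀ lam : B →ₗ[𝒪] 𝒪, lam (x * Φ γ) = 0 := by
      intro lam
      have h2 := congrArg (fun m : ↥(M0 N S c) =>
        ((m : ↥(parabolicHoms 𝒪 (Gamma0 N) 𝒪)) : Additive (Gamma0 N) →+ 𝒪) γ) (hx lam)
      exact h2
    have h3 := (Module.forall_dual_apply_eq_zero_iff 𝒪 (x * Φ γ)).1 h1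
    exact (mul_eq_zero.1 h3).resolve_right hγ

/-- `M0` is nontrivial as soon as there is a character lifting `θ`. -/
theorem nontrivial_M0 (hinj : Function.Injective (algebraMap 𝒪 B))
    (hSN : ∀ ℓ : Nat.Primes, (ℓ : ℕ) ∉ S → ¬ (ℓ : ℕ) ∣ N)
    (hc : ∀ (ℓ : ℕ) (hℓ : ℓ.Prime) (hℓN : ¬ ℓ ∣ N) (hℓS : ℓ ∉ S),
      residue 𝒪 (c ⟨ℓ, hℓ⟩) = θ (heckeAlgebra.T hℓ hℓN hℓS))
    (χ : heckeAlgebra N 2 S →+* B)
    (hχ : ∀ t, residue B (χ t) = ResidueField.map (algebraMap 𝒪 B) (θ t)) :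
    Nontrivial ↥(M0 N S c) := by
  obtain ⟨Ξ, -, hΞ⟩ := exists_dualM0 N S c θ hinj hSN hc χ hχ
  by_contra hnt
  rw [not_nontrivial_iff_subsingleton] at hnt
  exact one_ne_zero (hΞ (1 : B) fun lam => Subsingleton.elim _ _)

end Pts

end Fermat.Agent.RB.L0
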