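/-
PROJECT RB, block [REP_T] (helper1), part 12: an adic Galois representation over a noetherian local
domain with `p ∈ 𝔪` whose Frobenius determinants are `det ρ(Frob_q) = q` (`q ∉ T`) has cyclotomic
determinant; in particular `det ρ(complex conjugation) = -1`.
(Variant of lead's `DET_lead_Main`, without the non-scalar hypothesis.)
-/
import Mathlib
import Fermat.Agent.GR.DET_lead_Main
import Fermat.Agent.TW.Odd_helper1
import Fermat.Prelude.Def_GaloisRep_ComplexConjugation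

set_option autoImplicit false
set_option linter.unusedSectionVars false
set_option linter.unusedVariables false
set_option linter.style.haveILetI false

namespace Fermat.Agent.RB.REPT

open Polynomial IsLocalRing Fermat.Agent.GR Fermat.Agent.TW.Kill

local notation "Ω" => AlgebraicClosure ℚ
local notation "GQ" => (AlgebraicClosure ℚ ≃ₐ[ℚ] AlgebraicClosure ℚ)

section DetConj

variable {R : Type} [CommRing R] [IsLocalRing R] [IsDomain R] [IsNoetherianRing R]
  (ρ : GaloisRepAdic R) (p : ℕ) [Fact p.Prime]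

/-- **`det ρ = cyc` on all of `G_ℚ`, from the Frobenius determinants.** -/
theorem mem_detCycSubgroup_of_forall_det_frobenius (hp : (p : R) ∈ maximalIdeal R)
    (T : Finset ℕ) (hpT : p ∈ T)
    (hdetF : ∀ q : ℕ, q.Prime → q ∉ T → ∀ P : ValuationSubring Ω, P.LiesOverPrime q →
      ∀ φ : GQ, P.IsFrobeniusAt φ q → LinearMap.det (ρ.ρ φ) = (q : R)) (g : GQ) :
    g ∈ detCycSubgroup ρ p := by
  intro n
  refine mem_span_of_forall_mem_sup n fun m hnm => ?_
  set N := levelSubgroup ρ p m with hN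
  have hopen := levelSubgroup_isOpen ρ p m
  obtain ⟨q, hq, hqT, hall⟩ :=
    Fermat.Agent.Density.exists_prime_frobenius_conj_algClosure N hopen g T
  haveI : Fact q.Prime := ⟨hq⟩
  have hP₀ : (padicPlace q).LiesOverPrime q := padicPlace_liesOverPrime q
  obtain ⟨φ₀, hφ₀⟩ := exists_isFrobeniusAt (padicPlace q) hq hP₀
  obtain ⟨τ, hτ⟩ := (hall _ hP₀).2 φ₀ hφ₀
  haveI : IsGalois ℚ Ω := IsAlgClosure.isGalois ℚ Ω
  haveI : Finite (GQ ⧸ N) := Subgroup.quotient_finite_of_isOpen N hopen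
  obtain ⟨k, -, hk⟩ := Fermat.Agent.Density.exists_coprime_pow_eq_of_zpowers_eq
    (a := QuotientGroup.mk' N (τ * g * τ⁻¹)) (b := QuotientGroup.mk' N φ₀)
    (isOfFinOrder_of_finite _) hτ.symm
  rw [← map_pow] at hk
  set ν : GQ := (φ₀ ^ k)⁻¹ * (τ * g * τ⁻¹) with hν
  have hνN : ν ∈ N := by
    have := hk.symm
    rw [QuotientGroup.mk'_apply, QuotientGroup.mk'_apply, QuotientGroup.eq] at this
    exact this
  have hdecomp : τ * g * τ⁻¹ = φ₀ ^ k * ν := by rw [hν, mul_inv_cancel_left]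
  have hqp : q ≠ p := fun h => hqT (h ▸ hpT)
  have hφ₀mem : φ₀ ∈ detCycSubgroup ρ p := by
    intro n'
    rw [hdetF q hq hqT _ hP₀ φ₀ hφ₀]
    exact natCast_sub_natCast_mem_span (cycVal_frobenius p n' hq hqp hP₀ hφ₀)
  have hφk : φ₀ ^ k ∈ detCycSubgroup ρ p := Subgroup.pow_mem _ hφ₀mem k
  set J := maximalIdeal R ^ m with hJ
  have hspanJ : Ideal.span {((p ^ m : ℕ) : R)} ≤ J := span_pow_le_maximalIdeal_pow p hp m
  set X' := LinearMap.det (ρ.ρ (φ₀ ^ k)) with hX'
  set Y' := LinearMap.det (ρ.ρ ν) with hY'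
  have hD : LinearMap.det (ρ.ρ g) = X' * Y' := by
    have h1 : LinearMap.det (ρ.ρ (τ * g * τ⁻¹)) = LinearMap.det (ρ.ρ g) := by
      have e : ρ.ρ (τ * g * τ⁻¹) = ρ.ρ τ * ρ.ρ g * ρ.ρ τ⁻¹ := by rw [map_mul, map_mul]
      have e2 : LinearMap.det (ρ.ρ τ) * LinearMap.det (ρ.ρ τ⁻¹) = 1 := by
        rw [← map_mul, ← map_mul, mul_inv_cancel, map_one, map_one]
      rw [e, map_mul, map_mul, mul_right_comm, e2, one_mul]
    rw [← h1, hdecomp, map_mul, map_mul]
  have hY : Y' - 1 ∈ J := det_sub_one_mem_of_mem_levelSubgroup ρ p hνN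
  have hX : X' - (cycVal p m (φ₀ ^ k) : R) ∈ J := hspanJ (hφk m)
  have hcν : ((cycVal p m ν : ℕ) : R) - 1 ∈ J := by
    have := natCast_sub_natCast_mem_span (R := R)
      (cycVal_of_cyc_eq_one p m ((mem_levelSubgroup ρ p).1 hνN).2)
    rw [Nat.cast_one] at this
    exact hspanJ this
  have hcg : ((cycVal p m g : ℕ) : R) -
      ((cycVal p m (φ₀ ^ k) : ℕ) : R) * ((cycVal p m ν : ℕ) : R) ∈ J := by
    have h1 : cycVal p m g ≡ cycVal p m (φ₀ ^ k) * cycVal p m ν [MOD p ^ m] := by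
      refine (cycVal_conj p m τ g).trans ?_
      rw [hdecomp]
      exact cycVal_mul p m _ _
    have := natCast_sub_natCast_mem_span (R := R) h1
    rw [Nat.cast_mul] at this
    exact hspanJ this
  have hmain : LinearMap.det (ρ.ρ g) - ((cycVal p m g : ℕ) : R) ∈ J := by
    have : LinearMap.det (ρ.ρ g) - ((cycVal p m g : ℕ) : R) =
        X' * (Y' - 1) + (X' - (cycVal p m (φ₀ ^ k) : R)) -
          ((cycVal p m (φ₀ ^ k) : ℕ) : R) * (((cycVal p m ν : ℕ) : R) - 1) -
          (((cycVal p m g : ℕ) : R) -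
            ((cycVal p m (φ₀ ^ k) : ℕ) : R) * ((cycVal p m ν : ℕ) : R)) := by
      rw [hD]; ring
    rw [this]
    exact J.sub_mem (J.sub_mem (J.add_mem (J.mul_mem_left _ hY) hX) (J.mul_mem_left _ hcν)) hcg
  have hlast : ((cycVal p m g : ℕ) : R) - ((cycVal p n g : ℕ) : R) ∈
      Ideal.span {((p ^ n : ℕ) : R)} :=
    natCast_sub_natCast_mem_span (cycVal_modEq_of_le p hnm g)
  have : LinearMap.det (ρ.ρ g) - ((cycVal p n g : ℕ) : R) =
      (LinearMap.det (ρ.ρ g) - ((cycVal p m g : ℕ) : R)) +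
        (((cycVal p m g : ℕ) : R) - ((cycVal p n g : ℕ) : R)) := by ring
  rw [this]
  exact Submodule.add_mem_sup hmain hlast

/-- **`det ρ(c) = -1` for the complex conjugation `c`.** -/
theorem det_complexConjugation_eq_neg_one (hp : (p : R) ∈ maximalIdeal R)
    (T : Finset ℕ) (hpT : p ∈ T)
    (hdetF : ∀ q : ℕ, q.Prime → q ∉ T → ∀ P : ValuationSubring Ω, P.LiesOverPrime q →
      ∀ φ : GQ, P.IsFrobeniusAt φ q → LinearMap.det (ρ.ρ φ) = (q : R)) :
    LinearMap.det (ρ.ρ complexConjugation) = -1 := by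
  have hmem := mem_detCycSubgroup_of_forall_det_frobenius ρ p hp T hpT hdetF complexConjugation
  rw [← sub_eq_zero, sub_neg_eq_add]
  refine eq_zero_of_forall_exists_mem_pow fun n₀ => ⟨n₀, le_rfl, ?_⟩
  have h1 := hmem n₀
  have hpos : 0 < p ^ n₀ := pow_pos (Fact.out : p.Prime).pos n₀
  have h2 : p ^ n₀ - 1 ≡ cycVal p n₀ complexConjugation [MOD p ^ n₀] :=
    cycVal_unique p n₀ complexConjugation fun t ht =>
      Fermat.Agent.TW.Odd.complexConjugation_eq_pow hpos ht
  have h3 := natCast_sub_natCast_mem_span (R := R) h2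
  have h4 : ((p ^ n₀ - 1 : ℕ) : R) = ((p ^ n₀ : ℕ) : R) - 1 := by
    rw [Nat.cast_sub hpos, Nat.cast_one]
  have h5 : LinearMap.det (ρ.ρ complexConjugation) + 1 =
      (LinearMap.det (ρ.ρ complexConjugation) - ((cycVal p n₀ complexConjugation : ℕ) : R)) -
        (((p ^ n₀ - 1 : ℕ) : R) - ((cycVal p n₀ complexConjugation : ℕ) : R)) +
          ((p ^ n₀ : ℕ) : R) := by
    rw [h4]; ring
  rw [h5]
  refine span_pow_le_maximalIdeal_pow p hp n₀ ?_
  exact Ideal.add_mem _ (Ideal.sub_mem _ h1 h3) (Ideal.mem_span_singleton_self _)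

end DetConj

end Fermat.Agent.RB.REPT
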