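/-
PROJECT RB, block [REP_T] (helper1), part 4: full span of a matrix representation versus absolute
irreducibility, and the off-diagonal units of a full-span representation over a local ring.
-/
import Mathlib
import Fermat.Agent.S53.L1_helper1_Slice

set_option autoImplicit false
set_option linter.unusedSectionVars false
set_option linter.unusedVariables false
set_option linter.style.haveILetI false

namespace Fermat.Agent.RB.REPT

open Matrix IsLocalRing Fermat.Agent.S53 Fermat.Agent.S53.L1

open scoped TensorProduct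

local notation "GQ" => (AlgebraicClosure ℚ ≃ₐ[ℚ] AlgebraicClosure ℚ)

section OffDiagonal

variable {G : Type*} [Monoid G] {A : Type*} [CommRing A] [IsLocalRing A]

/-- a full-span representation over a local ring has a unit in each off-diagonal position. -/
theorem exists_isUnit_apply_of_fullSpan (r : G →* Mat2 A) (h : FullSpan r) (j k : Fin 2) :
    ∃ g : G, IsUnit (r g j k) := by
  by_contra hcon
  have hcon' : ∀ g, r g j k ∈ maximalIdeal A := fun g => by
    rw [mem_maximalIdeal, mem_nonunits_iff]
    exact fun hu => hcon ⟨g, hu⟩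
  let S : Submodule A (Mat2 A) :=
    { carrier := {X | X j k ∈ maximalIdeal A}
      add_mem' := fun {X Y} hX hY => by
        rw [Set.mem_ofPred_eq, Matrix.add_apply]; exact Ideal.add_mem _ hX hY
      zero_mem' := by rw [Set.mem_ofPred_eq, Matrix.zero_apply]; exact Ideal.zero_mem _
      smul_mem' := fun c X hX => by
        rw [Set.mem_ofPred_eq, Matrix.smul_apply, smul_eq_mul]; exact Ideal.mul_mem_left _ _ hX }
  have h1 : Submodule.span A (Set.range r) ≤ S := by
    rw [Submodule.span_le]
    rintro _ ⟨g, rfl⟩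
    exact hcon' g
  unfold FullSpan at h
  rw [h] at h1
  have h2 : (Matrix.single j k (1 : A) : Mat2 A) ∈ S := h1 Submodule.mem_top
  have h3 : (Matrix.single j k (1 : A) : Mat2 A) j k ∈ maximalIdeal A := h2
  rw [Matrix.single_apply_same] at h3
  exact (Ideal.ne_top_iff_one _).1 (Ideal.IsMaximal.ne_top inferInstance) h3

end OffDiagonal

section AbsIrr

variable {k : Type} [Field k]

/-- every matrix preserves a subspace preserved by a full-span family (after a field
extension). -/
theorem mulVec_mem_of_fullSpan {G : Type*} [Monoid G] {K : Type*} [Field K] (φ : k →+* K)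
    (rbar : G →* Mat2 k) (h : FullSpan rbar) (W : Submodule K (Fin 2 → K))
    (hW : ∀ g, ∀ x ∈ W, ((rbar g).map φ).mulVec x ∈ W) (Z : Mat2 K) :
    ∀ x ∈ W, Z.mulVec x ∈ W := by
  let S : Submodule K (Mat2 K) :=
    { carrier := {Y | ∀ x ∈ W, Y.mulVec x ∈ W}
      add_mem' := fun {X Y} hX hY x hx => by
        rw [Matrix.add_mulVec]; exact W.add_mem (hX x hx) (hY x hx)
      zero_mem' := fun x hx => by rw [Matrix.zero_mulVec]; exact W.zero_mem
      smul_mem' := fun c X hX x hx => by
        rw [Matrix.smul_mulVec]; exact W.smul_mem c (hX x hx) }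
  have h1 : ∀ X : Mat2 k, X.map φ ∈ S := by
    intro X
    have hX : X ∈ Submodule.span k (Set.range rbar) := by
      unfold FullSpan at h; rw [h]; trivial
    induction hX using Submodule.span_induction with
    | mem Y hY =>
      obtain ⟨g, rfl⟩ := hY
      exact hW g
    | zero =>
      have : (0 : Mat2 k).map φ = 0 := by ext; simp
      rw [this]; exact S.zero_mem
    | add Y Y' _ _ h1 h2 =>
      have : (Y + Y').map φ = Y.map φ + Y'.map φ := by ext; simp
      rw [this]; exact S.add_mem h1 h2
    | smul c Y _ h1 =>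
      have : (c • Y).map φ = φ c • Y.map φ := by ext; simp
      rw [this]; exact S.smul_mem _ h1
  have h2 : ∀ i j, (Matrix.single i j (1 : K) : Mat2 K) ∈ S := by
    intro i j
    have := h1 (Matrix.single i j (1 : k))
    rwa [Matrix.map_single, map_one] at this
  have h3 : Z ∈ S := by
    rw [Matrix.matrix_eq_sum_single Z]
    refine S.sum_mem fun i _ => S.sum_mem fun j _ => ?_
    have : Matrix.single i j (Z i j) = Z i j • (Matrix.single i j (1 : K) : Mat2 K) := by
      rw [Matrix.smul_single, smul_eq_mul, mul_one]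
    rw [this]
    exact S.smul_mem _ (h2 i j)
  exact h3

/-- a subspace of `K²` stable under all matrices is trivial. -/
theorem eq_bot_or_eq_top_of_forall_mulVec_mem {K : Type*} [Field K]
    (W : Submodule K (Fin 2 → K)) (hW : ∀ Z : Mat2 K, ∀ x ∈ W, Z.mulVec x ∈ W) :
    W = ⊥ ∨ W = ⊤ := by
  by_cases hbot : W = ⊥
  · exact Or.inl hbot
  · right
    obtain ⟨w, hw, hw0⟩ := (Submodule.ne_bot_iff W).1 hbot
    have : ∃ j, w j ≠ 0 := by
      by_contra hcon
      apply hw0
      ext j
      by_contra hj
      exact hcon ⟨j, hj⟩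
    obtain ⟨j, hj⟩ := this
    rw [eq_top_iff]
    intro v _
    have h1 := hW (Matrix.of fun a b => if b = j then v a * (w j)⁻¹ else 0) w hw
    have h2 : (Matrix.of fun a b => if b = j then v a * (w j)⁻¹ else 0 : Mat2 K).mulVec w = v := by
      ext a
      rw [Matrix.mulVec, dotProduct]
      simp only [Matrix.of_apply, ite_mul, zero_mul, Finset.sum_ite_eq', Finset.mem_univ, if_true]
      rw [mul_assoc, inv_mul_cancel₀ hj, mul_one]
    rwa [h2] at h1

/-- **full span implies absolute irreducibility.** -/
theorem isAbsolutelyIrreducible_of_fullSpan (ρbar : ResidualGaloisRep k)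
    (β : Module.Basis (Fin 2) k ρbar.V) (rbar : GQ →* Mat2 k)
    (hrbar : ∀ σ, rbar σ = LinearMap.toMatrix β β (ρbar.ρ σ)) (h : FullSpan rbar) :
    ρbar.IsAbsolutelyIrreducible := by
  intro W hW
  let βK : Module.Basis (Fin 2) (AlgebraicClosure k) (AlgebraicClosure k ⊗[k] ρbar.V) :=
    Algebra.TensorProduct.basis (AlgebraicClosure k) β
  let e : (AlgebraicClosure k ⊗[k] ρbar.V) ≃ₗ[AlgebraicClosure k] (Fin 2 → AlgebraicClosure k) :=
    βK.equivFun
  have hmat : ∀ σ (x : AlgebraicClosure k ⊗[k] ρbar.V),
      e ((ρbar.ρ σ).baseChange (AlgebraicClosure k) x) =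
        ((rbar σ).map (algebraMap k (AlgebraicClosure k))).mulVec (e x) := by
    intro σ x
    rw [hrbar σ, ← LinearMap.toMatrix_baseChange (AlgebraicClosure k) (ρbar.ρ σ) β β]
    exact (LinearMap.toMatrix_mulVec_repr βK βK _ x).symm
  have hW' : ∀ g, ∀ x ∈ W.map e.toLinearMap,
      ((rbar g).map (algebraMap k (AlgebraicClosure k))).mulVec x ∈ W.map e.toLinearMap := by
    rintro g _ ⟨x, hx, rfl⟩
    refine ⟨(ρbar.ρ g).baseChange (AlgebraicClosure k) x, hW g x hx, ?_⟩
    exact hmat g x
  have h1 := eq_bot_or_eq_top_of_forall_mulVec_mem (W.map e.toLinearMap)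
    (mulVec_mem_of_fullSpan (algebraMap k (AlgebraicClosure k)) rbar h _ hW')
  rcases h1 with h1 | h1
  · left
    exact Submodule.map_eq_bot_iff.1 h1
  · right
    exact Submodule.map_eq_top_iff.1 h1

end AbsIrr

end Fermat.Agent.RB.REPT
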