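/-
PROJECT RB, block [REP_T] (helper1), part 1: the commutative algebra of a local noetherian ring `R`
inside a finite product of finite local `R`-algebras.

* `mem_of_forall_sub_mem_smul`: submodules of finite modules are closed for the `𝔪`-adic topology
  (Krull's intersection theorem);
* `mem_pow_of_algebraMap_mem`: Artin–Rees: the `𝔪`-adic topology of `R` is induced by the one of a
  finite module containing it.
-/
import Mathlib

set_option autoImplicit false
set_option linter.unusedSectionVars false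
set_option linter.style.haveILetI false

namespace Fermat.Agent.RB.REPT

open IsLocalRing

section Closed

variable {R : Type*} [CommRing R] [IsLocalRing R] [IsNoetherianRing R]
  {M : Type*} [AddCommGroup M] [Module R M] [Module.Finite R M]

/-- **submodules of a finite module over a noetherian local ring are `𝔪`-adically closed.** -/
theorem mem_of_forall_sub_mem_smul (N : Submodule R M) (y : M)
    (h : ∀ n : ℕ, ∃ x ∈ N, y - x ∈ (maximalIdeal R ^ n) • (⊤ : Submodule R M)) : y ∈ N := by
  have h0 : N.mkQ y ∈ (⨅ n : ℕ, (maximalIdeal R ^ n) • (⊤ : Submodule R (M ⧸ N))) := by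
    rw [Submodule.mem_iInf]
    intro n
    obtain ⟨x, hx, hyx⟩ := h n
    have h1 : N.mkQ y = N.mkQ (y - x) := by
      rw [map_sub, Submodule.mkQ_apply, Submodule.mkQ_apply,
        (Submodule.Quotient.mk_eq_zero N).2 hx, sub_zero]
    rw [h1]
    have h2 := Submodule.mem_map_of_mem (f := N.mkQ) hyx
    rw [Submodule.map_smul'', Submodule.map_top, Submodule.range_mkQ] at h2
    exact h2
  rw [Ideal.iInf_pow_smul_eq_bot_of_isLocalRing _ (Ideal.IsMaximal.ne_top inferInstance)] at h0
  exact (Submodule.Quotient.mk_eq_zero N).1 h0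

/-- **Artin–Rees**: if the linear map `F : R → M` is injective then the `𝔪`-adic topology of `R` is
induced by the one of `M`. -/
theorem exists_forall_mem_pow_of_injective (F : R →ₗ[R] M) (hF : Function.Injective F) (n : ℕ) :
    ∃ n' : ℕ, ∀ x : R, F x ∈ (maximalIdeal R ^ n') • (⊤ : Submodule R M) →
      x ∈ maximalIdeal R ^ n := by
  obtain ⟨k, hk⟩ := Ideal.exists_pow_inf_eq_pow_smul (maximalIdeal R) (LinearMap.range F)
  refine ⟨n + k, fun x hx => ?_⟩
  have h1 : F x ∈ (maximalIdeal R ^ (n + k)) • (⊤ : Submodule R M) ⊓ LinearMap.range F :=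
    ⟨hx, LinearMap.mem_range_self F x⟩
  rw [hk (n + k) (Nat.le_add_left k n), Nat.add_sub_cancel] at h1
  have h2 : (maximalIdeal R ^ n) • ((maximalIdeal R ^ k) • (⊤ : Submodule R M) ⊓ LinearMap.range F)
      ≤ (maximalIdeal R ^ n) • LinearMap.range F :=
    Submodule.smul_mono le_rfl inf_le_right
  have h3 := h2 h1
  rw [LinearMap.range_eq_map, ← Submodule.map_smul''] at h3
  obtain ⟨z, hz, hzx⟩ := h3
  rw [smul_eq_mul, Ideal.mul_top] at hz
  rwa [← hF hzx]

end Closed

section Pi

variable {T : Type*} [CommRing T] {ι : Type*} [Finite ι] {B : ι → Type*}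
  [∀ i, AddCommGroup (B i)] [∀ i, Module T (B i)]

/-- an element of a finite product all of whose components lie in `I • ⊤` lies in `I • ⊤`. -/
theorem mem_smul_top_pi (I : Ideal T) (y : ∀ i, B i)
    (h : ∀ i, y i ∈ I • (⊤ : Submodule T (B i))) : y ∈ I • (⊤ : Submodule T (∀ i, B i)) := by
  classical
  haveI := Fintype.ofFinite ι
  rw [← Finset.univ_sum_single y]
  refine Submodule.sum_mem _ fun i _ => ?_
  have h1 := Submodule.mem_map_of_mem (f := LinearMap.single T B i) (h i)
  rw [Submodule.map_smul''] at h1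
  exact Submodule.smul_mono le_rfl le_top h1

end Pi

section Product

variable {T : Type*} [CommRing T] [IsLocalRing T] [IsNoetherianRing T]
  {ι : Type*} [Finite ι] {B : ι → Type*} [∀ i, CommRing (B i)] [∀ i, IsLocalRing (B i)]
  [∀ i, Algebra T (B i)]

/-- if `𝔪_i ^ e ⊆ 𝔪_T B_i` for all `i`, then `∏ 𝔪_i ^ (e n) ⊆ 𝔪_T ^ n (∏ B_i)`. -/
theorem mem_smul_top_of_forall_mem_pow (e : ℕ)
    (he : ∀ i, maximalIdeal (B i) ^ e ≤ (maximalIdeal T).map (algebraMap T (B i))) (n : ℕ)
    (y : ∀ i, B i) (h : ∀ i, y i ∈ maximalIdeal (B i) ^ (e * n)) :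
    y ∈ (maximalIdeal T ^ n) • (⊤ : Submodule T (∀ i, B i)) := by
  refine mem_smul_top_pi _ y fun i => ?_
  rw [Ideal.smul_top_eq_map, Submodule.restrictScalars_mem, Ideal.map_pow]
  have h1 := h i
  rw [pow_mul] at h1
  exact Ideal.pow_right_mono (he i) n h1

variable [∀ i, Module.Finite T (B i)]

/-- **closedness of the image of `T` in a finite product of finite local `T`-algebras.** -/
theorem exists_algebraMap_eq_of_forall_sub_mem (e : ℕ)
    (he : ∀ i, maximalIdeal (B i) ^ e ≤ (maximalIdeal T).map (algebraMap T (B i)))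
    (y : ∀ i, B i)
    (h : ∀ n : ℕ, ∃ x : T, ∀ i, y i - algebraMap T (B i) x ∈ maximalIdeal (B i) ^ n) :
    ∃ x : T, ∀ i, algebraMap T (B i) x = y i := by
  haveI := Fintype.ofFinite ι
  have h1 : y ∈ LinearMap.range (Algebra.linearMap T (∀ i, B i)) := by
    refine mem_of_forall_sub_mem_smul _ y fun n => ?_
    obtain ⟨x, hx⟩ := h (e * n)
    refine ⟨Algebra.linearMap T (∀ i, B i) x, LinearMap.mem_range_self _ x, ?_⟩
    exact mem_smul_top_of_forall_mem_pow e he n _ fun i => hx i
  obtain ⟨x, hx⟩ := h1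
  exact ⟨x, fun i => congrFun hx i⟩

/-- **uniformity**: the `𝔪_T`-adic topology of `T` is induced by the product topology. -/
theorem exists_forall_mem_pow_of_forall_algebraMap_mem (e : ℕ)
    (he : ∀ i, maximalIdeal (B i) ^ e ≤ (maximalIdeal T).map (algebraMap T (B i)))
    (hinj : ∀ x : T, (∀ i, algebraMap T (B i) x = 0) → x = 0) (n : ℕ) :
    ∃ n' : ℕ, ∀ x : T, (∀ i, algebraMap T (B i) x ∈ maximalIdeal (B i) ^ n') →
      x ∈ maximalIdeal T ^ n := by
  haveI := Fintype.ofFinite ι
  have hF : Function.Injective (Algebra.linearMap T (∀ i, B i)) := by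
    rw [injective_iff_map_eq_zero]
    intro x hx
    exact hinj x fun i => congrFun hx i
  obtain ⟨n', hn'⟩ := exists_forall_mem_pow_of_injective (Algebra.linearMap T (∀ i, B i)) hF n
  refine ⟨e * n', fun x hx => hn' x ?_⟩
  exact mem_smul_top_of_forall_mem_pow e he n' _ fun i => hx i

end Product

end Fermat.Agent.RB.REPT
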