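/-
PROJECT RB, block [REP_T] (helper1), part 6: adic Galois representations in matrix form — the matrix
of `ρ` in a basis, the representation attached to a continuous matrix representation, and the
comparison of base changes through matrices.
-/
import Mathlib
import Fermat.Agent.RB.REPT_helper1_Top
import Fermat.Agent.RB.REPT_helper1_Irr
import Fermat.Agent.GR.DET_lead_Main

set_option autoImplicit false
set_option linter.unusedSectionVars false
set_option linter.unusedVariables false
set_option linter.style.haveILetI false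

namespace Fermat.Agent.RB.REPT

open Polynomial IsLocalRing Fermat.Agent.S53 Fermat.Agent.S53.L1

open scoped TensorProduct

local notation "Ω" => AlgebraicClosure ℚ
local notation "GQ" => (AlgebraicClosure ℚ ≃ₐ[ℚ] AlgebraicClosure ℚ)

section Intertwine

variable {R : Type*} [CommRing R] {M N : Type*} [AddCommGroup M] [Module R M] [AddCommGroup N]
  [Module R N] {n : Type*} [Fintype n] [DecidableEq n]

/-- endomorphisms with the same matrix in two bases are intertwined by the equivalence of the
bases. -/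
theorem basis_equiv_intertwine (b : Module.Basis n R M) (b' : Module.Basis n R N)
    (φ : M →ₗ[R] M) (ψ : N →ₗ[R] N)
    (h : LinearMap.toMatrix b b φ = LinearMap.toMatrix b' b' ψ) (x : M) :
    b.equiv b' (Equiv.refl n) (φ x) = ψ (b.equiv b' (Equiv.refl n) x) := by
  have h1 : ((b.equiv b' (Equiv.refl n)).toLinearMap ∘ₗ φ) =
      (ψ ∘ₗ (b.equiv b' (Equiv.refl n)).toLinearMap) := by
    refine b.ext fun j => ?_
    rw [LinearMap.comp_apply, LinearMap.comp_apply]
    show b.equiv b' (Equiv.refl n) (φ (b j)) = ψ (b.equiv b' (Equiv.refl n) (b j))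
    rw [Module.Basis.equiv_apply, Equiv.refl_apply]
    have e1 : φ (b j) = ∑ i, LinearMap.toMatrix b b φ i j • b i := by
      simp_rw [LinearMap.toMatrix_apply]
      exact (b.sum_repr _).symm
    have e2 : ψ (b' j) = ∑ i, LinearMap.toMatrix b' b' ψ i j • b' i := by
      simp_rw [LinearMap.toMatrix_apply]
      exact (b'.sum_repr _).symm
    rw [e1, map_sum, e2]
    refine Finset.sum_congr rfl fun i _ => ?_
    rw [map_smul, Module.Basis.equiv_apply, Equiv.refl_apply, h]
  exact LinearMap.congr_fun h1 x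

end Intertwine

section MatRep

variable {A : Type} [CommRing A] [IsLocalRing A] (ρ : GaloisRepAdic A)
  (b : Module.Basis (Fin 2) A ρ.V)

/-- the matrix form of `ρ` in the basis `b`. -/
noncomputable def matRep : GQ →* Mat2 A :=
  ((LinearMap.toMatrixAlgEquiv b : Module.End A ρ.V ≃ₐ[A] Mat2 A) :
    Module.End A ρ.V →* Mat2 A).comp ρ.ρ

theorem matRep_apply (σ : GQ) : matRep ρ b σ = LinearMap.toMatrix b b (ρ.ρ σ) := rfl

theorem trace_matRep (σ : GQ) : (matRep ρ b σ).trace = LinearMap.trace A ρ.V (ρ.ρ σ) := by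
  rw [matRep_apply, LinearMap.trace_eq_matrix_trace A b]

theorem det_matRep (σ : GQ) : (matRep ρ b σ).det = LinearMap.det (ρ.ρ σ) := by
  rw [matRep_apply, LinearMap.det_toMatrix]

theorem charpoly_matRep (σ : GQ) : (matRep ρ b σ).charpoly = (ρ.ρ σ).charpoly := by
  rw [matRep_apply, LinearMap.charpoly_toMatrix]

/-- full span from absolute irreducibility of the residual representation. -/
theorem fullSpan_mapRep_residue_matRep (habs : ρ.residual.IsAbsolutelyIrreducible) :
    FullSpan (mapRep (residue A) (matRep ρ b)) := by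
  let β : Module.Basis (Fin 2) (ResidueField A) ρ.residual.V :=
    Algebra.TensorProduct.basis (ResidueField A) b
  refine fullSpan_of_absIrr ρ.residual β habs _ (fun σ => ?_)
  rw [mapRep_apply, matRep_apply]
  exact (LinearMap.toMatrix_baseChange (ResidueField A) (ρ.ρ σ) b b).symm

theorem fullSpan_matRep (habs : ρ.residual.IsAbsolutelyIrreducible) : FullSpan (matRep ρ b) :=
  fullSpan_of_residue _ (fullSpan_mapRep_residue_matRep ρ b habs)

/-- the entries of `ρ(σ) - 1` lie in `𝔪 ^ n` for `σ` in the level-`n` subgroup. -/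
theorem matRep_sub_one_apply_mem {n : ℕ} {σ : GQ}
    (h : ∀ v : ρ.V, ρ.ρ σ v - v ∈ (maximalIdeal A ^ n) • (⊤ : Submodule A ρ.V)) (j k : Fin 2) :
    (matRep ρ b σ - 1) j k ∈ maximalIdeal A ^ n := by
  have h1 := Fermat.Agent.GR.repr_mem_of_mem_smul_top b _ (h (b k)) j
  rw [map_sub, Finsupp.sub_apply, Module.Basis.repr_self, Finsupp.single_apply] at h1
  rw [Matrix.sub_apply, matRep_apply, LinearMap.toMatrix_apply, Matrix.one_apply]
  convert h1 using 2
  by_cases hjk : j = k
  · rw [if_pos hjk, if_pos hjk.symm]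
  · rw [if_neg hjk, if_neg (Ne.symm hjk)]

end MatRep

section OfMat

variable {T : Type} [CommRing T] [IsLocalRing T]

/-- the continuity condition for matrix representations. -/
def MatAdicCont (ρM : GQ →* Mat2 T) : Prop :=
  ∀ n : ℕ, ∃ L : IntermediateField ℚ Ω, FiniteDimensional ℚ L ∧
    ∀ σ : GQ, (∀ x ∈ L, σ x = x) → ∀ j k, (ρM σ - 1) j k ∈ maximalIdeal T ^ n

/-- the adic representation on `T²` attached to a continuous matrix representation. -/
noncomputable abbrev repOfMat (ρM : GQ →* Mat2 T) (hcont : MatAdicCont ρM) : GaloisRepAdic T where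
  V := Fin 2 → T
  finrank_eq := Module.finrank_fin_fun T
  ρ := ((Matrix.toLinAlgEquiv' : Mat2 T ≃ₐ[T] Module.End T (Fin 2 → T)) :
    Mat2 T →* Module.End T (Fin 2 → T)).comp ρM
  isAdicContinuous := by
    intro n
    obtain ⟨L, hL, h⟩ := hcont n
    refine ⟨L, hL, fun σ hσ v => ?_⟩
    have h1 : (Matrix.toLinAlgEquiv' (ρM σ)) v - v = (ρM σ - 1).mulVec v := by
      rw [Matrix.sub_mulVec, Matrix.one_mulVec]
      rfl
    show (Matrix.toLinAlgEquiv' (ρM σ)) v - v ∈ _
    rw [h1]
    refine mem_smul_top_pi (B := fun _ : Fin 2 => T) _ _ fun j => ?_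
    rw [smul_eq_mul, Ideal.mul_top]
    rw [Matrix.mulVec, dotProduct]
    exact Ideal.sum_mem _ fun k _ => Ideal.mul_mem_right _ _ (h σ hσ j k)

theorem repOfMat_ρ_apply (ρM : GQ →* Mat2 T) (hcont : MatAdicCont ρM) (σ : GQ) :
    (repOfMat ρM hcont).ρ σ = Matrix.toLin' (ρM σ) := rfl

/-- the matrix of `repOfMat` in the standard basis. -/
theorem matRep_repOfMat (ρM : GQ →* Mat2 T) (hcont : MatAdicCont ρM) (σ : GQ) :
    matRep (repOfMat ρM hcont) (Pi.basisFun T (Fin 2)) σ = ρM σ := by
  rw [matRep_apply, repOfMat_ρ_apply, LinearMap.toMatrix_eq_toMatrix', LinearMap.toMatrix'_toLin']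

theorem charpoly_repOfMat (ρM : GQ →* Mat2 T) (hcont : MatAdicCont ρM) (σ : GQ) :
    LinearMap.charpoly ((repOfMat ρM hcont).ρ σ) = (ρM σ).charpoly := by
  rw [← charpoly_matRep (repOfMat ρM hcont) (Pi.basisFun T (Fin 2)), matRep_repOfMat]

/-- absolute irreducibility of the residual representation of `repOfMat`. -/
theorem residual_repOfMat_isAbsolutelyIrreducible (ρM : GQ →* Mat2 T) (hcont : MatAdicCont ρM)
    (h : FullSpan (mapRep (residue T) ρM)) :
    (repOfMat ρM hcont).residual.IsAbsolutelyIrreducible := by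
  let β : Module.Basis (Fin 2) (ResidueField T) (repOfMat ρM hcont).residual.V :=
    Algebra.TensorProduct.basis (ResidueField T) (Pi.basisFun T (Fin 2))
  refine isAbsolutelyIrreducible_of_fullSpan _ β (mapRep (residue T) ρM) (fun σ => ?_) h
  rw [mapRep_apply, ← matRep_repOfMat ρM hcont σ, matRep_apply]
  exact (LinearMap.toMatrix_baseChange (ResidueField T) ((repOfMat ρM hcont).ρ σ)
    (Pi.basisFun T (Fin 2)) (Pi.basisFun T (Fin 2))).symm

end OfMat

section Compare

variable {T : Type} [CommRing T] [IsLocalRing T] {B : Type} [CommRing B] [IsLocalRing B]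

/-- **the base change of a matrix-form representation**: if the matrices of `ρT` (in a basis `bT`)
map to the matrices of `ρB` (in a basis `bB`), then `ρT ⊗ B ≅ ρB`. -/
theorem isEquiv_baseChangeAlong_of_map_eq (f : T →+* B) (hf : IsLocalHom f)
    (ρT : GaloisRepAdic T) (bT : Module.Basis (Fin 2) T ρT.V)
    (ρB : GaloisRepAdic B) (bB : Module.Basis (Fin 2) B ρB.V)
    (h : ∀ σ, (matRep ρT bT σ).map f = matRep ρB bB σ) :
    (ρT.baseChangeAlong f hf).IsEquiv ρB := by
  letI : Algebra T B := f.toAlgebra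
  let β : Module.Basis (Fin 2) B (B ⊗[T] ρT.V) := Algebra.TensorProduct.basis B bT
  refine ⟨⟨β.equiv bB (Equiv.refl _), fun σ x => ?_⟩⟩
  refine basis_equiv_intertwine β bB ((ρT.ρ σ).baseChange B) (ρB.ρ σ) ?_ x
  rw [LinearMap.toMatrix_baseChange, ← matRep_apply, ← matRep_apply, ← h σ]
  rfl

end Compare

end Fermat.Agent.RB.REPT
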