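/-
PROJECT RB, block [REP_T] (helper1), part 13: from `ρ_T ⊗_f k ≅ ρ̄` (as adic representations over
the field `k`, `f : T → k` the reduction) to the form used by S54:
`ρ_T.residual ≅ ρ̄ ⊗_φ (ResidueField T)`.
-/
import Mathlib
import Fermat.Agent.RB.REPT_helper1_MatRep

set_option autoImplicit false
set_option linter.unusedSectionVars false
set_option linter.unusedVariables false
set_option linter.style.haveILetI false

namespace Fermat.Agent.RB.REPT

open IsLocalRing

open scoped TensorProduct

local notation "GQ" => (AlgebraicClosure ℚ ≃ₐ[ℚ] AlgebraicClosure ℚ)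

section Residual

variable {T : Type} [CommRing T] [IsLocalRing T] {k : Type} [Field k]

theorem residual_isEquiv_baseChangeAlong_of_isEquiv (f : T →+* k) (hf : IsLocalHom f)
    (φ : k →+* ResidueField T) (hφ : ∀ x, φ (f x) = residue T x)
    (ρT : GaloisRepAdic T) (ρbar : ResidualGaloisRep k)
    (h : (ρT.baseChangeAlong f hf).IsEquiv (GaloisRepAdic.ofResidualGaloisRep ρbar)) :
    ρT.residual.IsEquiv (ρbar.baseChangeAlong φ) := by
  obtain ⟨E⟩ := h
  letI algTk : Algebra T k := f.toAlgebra
  let bT : Module.Basis (Fin 2) T ρT.V := Module.finBasisOfFinrankEq T ρT.V ρT.finrank_eq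
  let β₀ : Module.Basis (Fin 2) k (k ⊗[T] ρT.V) := Algebra.TensorProduct.basis k bT
  let e₀ : (k ⊗[T] ρT.V) ≃ₗ[k] ρbar.V := E.toLinearEquiv
  let bbar : Module.Basis (Fin 2) k ρbar.V := β₀.map e₀
  have hmat : ∀ σ : GQ, LinearMap.toMatrix bbar bbar (ρbar.ρ σ) =
      (LinearMap.toMatrix bT bT (ρT.ρ σ)).map f := by
    intro σ
    have h1 : LinearMap.toMatrix bbar bbar (ρbar.ρ σ) =
        LinearMap.toMatrix β₀ β₀ ((ρT.ρ σ).baseChange k) := by
      rw [LinearMap.toMatrix_map_left, LinearMap.toMatrix_map_right]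
      congr 1
      refine LinearMap.ext fun x => ?_
      have := E.map_apply σ x
      show e₀.symm (ρbar.ρ σ (e₀ x)) = (ρT.ρ σ).baseChange k x
      rw [LinearEquiv.symm_apply_eq]
      exact this.symm
    rw [h1, LinearMap.toMatrix_baseChange]
    rfl
  let β₁ : Module.Basis (Fin 2) (ResidueField T) (ResidueField T ⊗[T] ρT.V) :=
    Algebra.TensorProduct.basis (ResidueField T) bT
  letI algk : Algebra k (ResidueField T) := φ.toAlgebra
  let β₂ : Module.Basis (Fin 2) (ResidueField T) (ResidueField T ⊗[k] ρbar.V) :=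
    Algebra.TensorProduct.basis (ResidueField T) bbar
  have key : ∀ σ : GQ, LinearMap.toMatrix β₁ β₁ ((ρT.ρ σ).baseChange (ResidueField T)) =
      LinearMap.toMatrix β₂ β₂ ((ρbar.ρ σ).baseChange (ResidueField T)) := by
    intro σ
    rw [LinearMap.toMatrix_baseChange, LinearMap.toMatrix_baseChange, hmat σ]
    ext i j
    rw [Matrix.map_apply, Matrix.map_apply, Matrix.map_apply]
    exact (hφ _).symm
  exact ⟨⟨β₁.equiv β₂ (Equiv.refl _), fun σ x =>
    basis_equiv_intertwine β₁ β₂ ((ρT.ρ σ).baseChange (ResidueField T))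
      ((ρbar.ρ σ).baseChange (ResidueField T)) (key σ) x⟩⟩

end Residual

end Fermat.Agent.RB.REPT
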