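/-
PROJECT RB, block [REP_T] (helper1), part 14: **(A) the Hecke–Galois datum of a maximal ideal of the
Hecke algebra** `𝕋 = heckeAlgebra N 2 S` with absolutely irreducible residual representation.

`T := (𝒪 ⊗ 𝕋) ⧸ ⋂ ker ψ`, the intersection over all characteristic-zero points `ψ` lifting
`Θ = residue ⊗ θ`; the representation is glued (GL) from the representations at the points (S30).
-/
import Mathlib
import Fermat.Agent.RB.REPT_helper1_Assemble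
import Fermat.Agent.RB.REPT_helper1_DetConj
import Fermat.Agent.RB.REPT_helper1_Residual
import Fermat.Agent.GR.UPTS_helper2_Hecke
import Fermat.Prelude.Def_CuspForm_HeckeGaloisRepDatum

set_option autoImplicit false
set_option linter.unusedSectionVars false
set_option linter.unusedVariables false
set_option linter.style.haveILetI false

namespace Fermat.Agent.RB.REPT

open Polynomial IsLocalRing CuspForm Fermat.Agent.GR

open scoped TensorProduct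

local notation "Ω" => AlgebraicClosure ℚ
local notation "GQ" => (AlgebraicClosure ℚ ≃ₐ[ℚ] AlgebraicClosure ℚ)

/-- the `𝒪`-algebra `𝒪 ⊗ 𝕋`, `𝕋 = heckeAlgebra N 2 S`. -/
def HeckeTensor (N : ℕ) [NeZero N] (S : Finset ℕ) (𝒪 : Type) [CommRing 𝒪] : Type :=
  𝒪 ⊗[ℤ] ↥(heckeAlgebra N 2 (↑S : Set ℕ))

section Instances

variable (N : ℕ) [NeZero N] (S : Finset ℕ) (𝒪 : Type) [CommRing 𝒪]

noncomputable instance HeckeTensor.instCommRing : CommRing (HeckeTensor N S 𝒪) :=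
  inferInstanceAs (CommRing (𝒪 ⊗[ℤ] ↥(heckeAlgebra N 2 (↑S : Set ℕ))))

noncomputable instance HeckeTensor.instAlgebra : Algebra 𝒪 (HeckeTensor N S 𝒪) :=
  inferInstanceAs (Algebra 𝒪 (𝒪 ⊗[ℤ] ↥(heckeAlgebra N 2 (↑S : Set ℕ))))

instance HeckeTensor.instFinite : Module.Finite 𝒪 (HeckeTensor N S 𝒪) :=
  haveI := heckeAlgebra_moduleFinite N 2 (↑S : Set ℕ)
  inferInstanceAs (Module.Finite 𝒪 (𝒪 ⊗[ℤ] ↥(heckeAlgebra N 2 (↑S : Set ℕ))))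

instance HeckeTensor.instFree : Module.Free 𝒪 (HeckeTensor N S 𝒪) :=
  haveI := heckeAlgebra_moduleFree N 2 (↑S : Set ℕ)
  inferInstanceAs (Module.Free 𝒪 (𝒪 ⊗[ℤ] ↥(heckeAlgebra N 2 (↑S : Set ℕ))))

end Instances

section Hecke

variable {N : ℕ} [NeZero N] {S : Finset ℕ} {𝒪 : Type} [CommRing 𝒪]

/-- the inclusion `𝕋 → 𝒪 ⊗ 𝕋`. -/
noncomputable def heckeInc : ↥(heckeAlgebra N 2 (↑S : Set ℕ)) →+* HeckeTensor N S 𝒪 :=
  (Algebra.TensorProduct.includeRight : ↥(heckeAlgebra N 2 (↑S : Set ℕ)) →ₐ[ℤ]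
    (𝒪 ⊗[ℤ] ↥(heckeAlgebra N 2 (↑S : Set ℕ)))).toRingHom

/-- the lift of a ring homomorphism `χ : 𝕋 → B` to `𝒪 ⊗ 𝕋`, for an `𝒪`-algebra `B`. -/
noncomputable def heckeLift {B : Type} [CommRing B] [Algebra 𝒪 B]
    (χ : ↥(heckeAlgebra N 2 (↑S : Set ℕ)) →+* B) : HeckeTensor N S 𝒪 →ₐ[𝒪] B :=
  Algebra.TensorProduct.lift (Algebra.ofId 𝒪 B) χ.toIntAlgHom fun _ _ => Commute.all _ _

theorem heckeLift_heckeInc {B : Type} [CommRing B] [Algebra 𝒪 B]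
    (χ : ↥(heckeAlgebra N 2 (↑S : Set ℕ)) →+* B) (t : ↥(heckeAlgebra N 2 (↑S : Set ℕ))) :
    heckeLift χ (heckeInc t : HeckeTensor N S 𝒪) = χ t := by
  show Algebra.TensorProduct.lift (Algebra.ofId 𝒪 B) χ.toIntAlgHom _ (1 ⊗ₜ[ℤ] t) = χ t
  rw [Algebra.TensorProduct.lift_tmul, map_one, one_mul]
  rfl

/-- induction principle: `𝒪 ⊗ 𝕋` is spanned by the `a • inc t`. -/
theorem heckeTensor_induction {P : HeckeTensor N S 𝒪 → Prop}
    (h1 : ∀ (a : 𝒪) (t : ↥(heckeAlgebra N 2 (↑S : Set ℕ))), P (a • heckeInc t))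
    (hadd : ∀ x y, P x → P y → P (x + y)) (x : HeckeTensor N S 𝒪) : P x := by
  have h0 : P 0 := by
    have := h1 0 0
    rwa [zero_smul] at this
  refine TensorProduct.induction_on (motive := fun x : 𝒪 ⊗[ℤ] ↥(heckeAlgebra N 2 (↑S : Set ℕ)) =>
    P x) x h0 (fun a t => ?_) (fun x y hx hy => hadd x y hx hy)
  have h2 : (a ⊗ₜ[ℤ] t : 𝒪 ⊗[ℤ] ↥(heckeAlgebra N 2 (↑S : Set ℕ))) = a • (1 ⊗ₜ[ℤ] t) := by
    rw [TensorProduct.smul_tmul', smul_eq_mul, mul_one]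
  rw [h2]
  exact h1 a t

/-- two `𝒪`-algebra homomorphisms out of `𝒪 ⊗ 𝕋` agreeing on `𝕋` are equal. -/
theorem heckeTensor_algHom_apply_eq {B : Type} [CommRing B] [Algebra 𝒪 B]
    (f g : HeckeTensor N S 𝒪 →ₐ[𝒪] B) (h : ∀ t, f (heckeInc t) = g (heckeInc t))
    (x : HeckeTensor N S 𝒪) : f x = g x := by
  refine heckeTensor_induction (P := fun x => f x = g x) (fun a t => ?_)
    (fun x y hx hy => by rw [map_add, map_add, hx, hy]) x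
  rw [map_smul, map_smul, h t]

/-- the Hecke elements `T_ℓ` in `𝒪 ⊗ 𝕋` (zero at bad `ℓ`). -/
noncomputable def heckeT (ℓ : ℕ) : HeckeTensor N S 𝒪 := by
  classical
  exact if h : ℓ.Prime ∧ ¬ ℓ ∣ N ∧ ℓ ∉ (↑S : Set ℕ) then
    heckeInc (heckeAlgebra.T h.1 h.2.1 h.2.2) else 0

theorem heckeT_eq {ℓ : ℕ} (hℓ : ℓ.Prime) (hℓN : ¬ ℓ ∣ N) (hℓS : ℓ ∉ (↑S : Set ℕ)) :
    (heckeT ℓ : HeckeTensor N S 𝒪) = heckeInc (heckeAlgebra.T hℓ hℓN hℓS) := by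
  unfold heckeT
  rw [dif_pos ⟨hℓ, hℓN, hℓS⟩]

/-- the determinant elements `ℓ` in `𝒪 ⊗ 𝕋`. -/
noncomputable def heckeD (ℓ : ℕ) : HeckeTensor N S 𝒪 := algebraMap 𝒪 (HeckeTensor N S 𝒪) (ℓ : 𝒪)

theorem algHom_heckeD {B : Type} [CommRing B] [Algebra 𝒪 B] (f : HeckeTensor N S 𝒪 →ₐ[𝒪] B)
    (ℓ : ℕ) : f (heckeD ℓ) = (ℓ : B) := by
  rw [heckeD, AlgHom.commutes, map_natCast]

end Hecke

section PointRep

variable {N : ℕ} [NeZero N] {S : Finset ℕ}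
  {𝒪 : Type} [CommRing 𝒪] [IsDomain 𝒪] [IsDiscreteValuationRing 𝒪]
  [IsAdicComplete (maximalIdeal 𝒪) 𝒪] [CharZero 𝒪] [Finite (ResidueField 𝒪)]

/-- the Galois representation at a point of `𝒪 ⊗ 𝕋` (from S30). -/
theorem exists_pointRep (h30 : S30Statement) (p : ℕ) [Fact p.Prime] (hpS : p ∈ S)
    (hNS : ∀ q : ℕ, q.Prime → q ∣ N → q ∈ S) (hp𝒪 : (p : 𝒪) ∈ maximalIdeal 𝒪)
    (P : DVRPoint 𝒪 (HeckeTensor N S 𝒪)) :
    ∃ R : PointRep P,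
      (∀ (ℓ : ℕ), ℓ.Prime → ℓ ∉ S → ∀ A' : ValuationSubring Ω, A'.LiesOverPrime ℓ →
        ∀ σ : GQ, A'.IsFrobeniusAt σ ℓ → LinearMap.charpoly (R.ρ.ρ σ) =
          X ^ 2 - C (algebraMap P.B R.B' (P.ψ (heckeT ℓ))) * X
            + C (algebraMap P.B R.B' (P.ψ (heckeD ℓ)))) ∧
      LinearMap.det (R.ρ.ρ complexConjugation) = -1 ∧
      (∀ q : ℕ, q.Prime → ¬ q ∣ N → q ≠ p → R.ρ.IsUnramifiedAt q) := by
  have hpB : (p : P.B) ∈ maximalIdeal P.B := by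
    have h1 : (p : P.B) = algebraMap 𝒪 P.B (p : 𝒪) := by rw [map_natCast]
    rw [h1]
    exact map_nonunit (algebraMap 𝒪 P.B) _ hp𝒪
  have h30' := h30 p N S hpS hNS P.B hpB ((P.ψ : HeckeTensor N S 𝒪 →+* P.B).comp heckeInc)
  obtain ⟨𝒪'', i1, i2, i3, i4, i5, i6, i7, i8, i9, hinj, ρ, hchar, hunr⟩ := h30'
  have hchar' : ∀ (ℓ : ℕ), ℓ.Prime → ℓ ∉ S → ∀ A' : ValuationSubring Ω, A'.LiesOverPrime ℓ →
      ∀ σ : GQ, A'.IsFrobeniusAt σ ℓ → LinearMap.charpoly (ρ.ρ σ) =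
        X ^ 2 - C (algebraMap P.B 𝒪'' (P.ψ (heckeT ℓ))) * X
          + C (algebraMap P.B 𝒪'' (P.ψ (heckeD ℓ))) := by
    intro ℓ hℓ hℓS A' hA' σ hσ
    have hℓN : ¬ ℓ ∣ N := fun h => hℓS (hNS ℓ hℓ h)
    have hℓS' : ℓ ∉ (↑S : Set ℕ) := by simpa using hℓS
    rw [hchar ℓ hℓ hℓN hℓS' A' hA' σ hσ, heckeT_eq hℓ hℓN hℓS', algHom_heckeD,
      map_natCast (algebraMap P.B 𝒪'') ℓ]
    rfl
  have hp'' : (p : 𝒪'') ∈ maximalIdeal 𝒪'' := by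
    have h1 : (p : 𝒪'') = algebraMap P.B 𝒪'' (p : P.B) := by rw [map_natCast]
    rw [h1]
    exact map_nonunit (algebraMap P.B 𝒪'') _ hpB
  have hdet : LinearMap.det (ρ.ρ complexConjugation) = -1 := by
    refine det_complexConjugation_eq_neg_one ρ p hp'' S hpS ?_
    intro q hq hqS P' hP' φ hφ
    have h1 := hchar' q hq hqS P' hP' φ hφ
    rw [algHom_heckeD, map_natCast (algebraMap P.B 𝒪'') q] at h1
    exact det_of_charpoly h1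
  exact ⟨{ B' := 𝒪'', injective := hinj, ρ := ρ }, hchar', hdet, hunr⟩

end PointRep

end Fermat.Agent.RB.REPT
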