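/-
PROJECT RB, block [REP_T] (helper1), part 15: **(A) `exists_heckeGaloisRepDatum`** — the Prelude's
`HeckeGaloisRepDatum` for the Hecke algebra `heckeAlgebra N 2 S` at a maximal ideal with absolutely
irreducible (odd) residual representation `ρ̄`, together with `ρ_T.residual ≅ ρ̄ ⊗ k_T` (the
hypothesis `hres` of S54) and the transfer of unramifiedness.
-/
import Mathlib
import Fermat.Agent.RB.REPT_helper1_Hecke

set_option autoImplicit false
set_option linter.unusedSectionVars false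
set_option linter.unusedVariables false
set_option linter.style.haveILetI false

namespace Fermat.Agent.RB.REPT

open Polynomial IsLocalRing CuspForm Fermat.Agent.GR

open scoped TensorProduct

local notation "Ω" => AlgebraicClosure ℚ
local notation "GQ" => (AlgebraicClosure ℚ ≃ₐ[ℚ] AlgebraicClosure ℚ)

section Datum

variable {N : ℕ} [NeZero N] {S : Finset ℕ}
  {𝒪 : Type} [CommRing 𝒪] [IsDomain 𝒪] [IsDiscreteValuationRing 𝒪]
  [IsAdicComplete (maximalIdeal 𝒪) 𝒪] [CharZero 𝒪] [Finite (ResidueField 𝒪)]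

theorem isUnit_two_of_odd_prime_mem (p : ℕ) [Fact p.Prime] (hp2 : p ≠ 2)
    (hp𝒪 : (p : 𝒪) ∈ maximalIdeal 𝒪) : IsUnit (2 : 𝒪) := by
  by_contra h2
  have h2m : (2 : 𝒪) ∈ maximalIdeal 𝒪 := h2
  rcases (Fact.out : p.Prime).eq_two_or_odd' with h | ⟨k, hk⟩
  · exact hp2 h
  · have h1 : (1 : 𝒪) = (p : 𝒪) - 2 * (k : 𝒪) := by
      rw [hk]; push_cast; ring
    have : (1 : 𝒪) ∈ maximalIdeal 𝒪 := by
      rw [h1]
      exact Ideal.sub_mem _ hp𝒪 (Ideal.mul_mem_right _ _ h2m)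
    exact (Ideal.ne_top_iff_one _).1 (Ideal.IsMaximal.ne_top inferInstance) this

/-- **(A): the Hecke–Galois datum.** -/
theorem exists_heckeGaloisRepDatum (h30 : S30Statement) (p : ℕ) [Fact p.Prime] (hp2 : p ≠ 2)
    (hpS : p ∈ S) (hNS : ∀ q : ℕ, q.Prime → q ∣ N → q ∈ S) (hp𝒪 : (p : 𝒪) ∈ maximalIdeal 𝒪)
    (θ : ↥(heckeAlgebra N 2 (↑S : Set ℕ)) →+* ResidueField 𝒪)
    (ρbar : ResidualGaloisRep (ResidueField 𝒪)) (habs : ρbar.IsAbsolutelyIrreducible)
    (hbarchar : ∀ (ℓ : ℕ) (hℓ : ℓ.Prime) (hℓN : ¬ ℓ ∣ N) (hℓS : ℓ ∉ (↑S : Set ℕ)),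
      ∀ A' : ValuationSubring Ω, A'.LiesOverPrime ℓ → ∀ σ : GQ, A'.IsFrobeniusAt σ ℓ →
        LinearMap.charpoly (ρbar.ρ σ) =
          X ^ 2 - C (θ (heckeAlgebra.T hℓ hℓN hℓS)) * X + C ((ℓ : ResidueField 𝒪)))
    (hbardet : LinearMap.det (ρbar.ρ complexConjugation) = -1) :
    ∃ (T : Type) (_ : CommRing T) (_ : IsLocalRing T) (_ : IsNoetherianRing T)
      (_ : IsAdicComplete (maximalIdeal T) T) (_ : Algebra 𝒪 T) (_ : IsLocalHom (algebraMap 𝒪 T))
      (_ : Module.Finite 𝒪 T) (_ : Module.Free 𝒪 T)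
      (H : HeckeGaloisRepDatum N (↑S : Set ℕ) 𝒪 θ T),
      H.ρ.residual.IsEquiv (ρbar.baseChangeAlong (ResidueField.map (algebraMap 𝒪 T))) ∧
      (∀ q : ℕ, q.Prime → ¬ q ∣ N → q ≠ p → ρbar.IsUnramifiedAt q → H.ρ.IsUnramifiedAt q) ∧
      (∀ (B : Type) [CommRing B] [IsDomain B] [IsLocalRing B] [Algebra 𝒪 B]
        [IsLocalHom (algebraMap 𝒪 B)] (_ : Function.Injective (algebraMap 𝒪 B))
        (χ : ↥(heckeAlgebra N 2 (↑S : Set ℕ)) →+* B),
        (∀ t, residue B (χ t) = ResidueField.map (algebraMap 𝒪 B) (θ t)) →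
          ∃ ψ : T →ₐ[𝒪] B, ∀ t, ψ (H.π t) = χ t) := by
  have hΘinc : ∀ t, (heckeLift θ : HeckeTensor N S 𝒪 →ₐ[𝒪] ResidueField 𝒪) (heckeInc t) = θ t :=
    fun t => heckeLift_heckeInc θ t
  obtain ⟨J, hJfin, hJne, pt, hle, hpoint, hpointB⟩ :=
    exists_points_family (heckeLift θ : HeckeTensor N S 𝒪 →ₐ[𝒪] ResidueField 𝒪)
  haveI := hJfin
  haveI := hJne
  haveI hlocT : IsLocalRing (PointsQuot pt) := isLocalRing_pointsQuot pt (heckeLift θ) hle
  haveI hlocH : IsLocalHom (algebraMap 𝒪 (PointsQuot pt)) :=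
    isLocalHom_algebraMap_pointsQuot pt (heckeLift θ) hle
  choose rep hrepchar hrepdet hrepunr using fun j => exists_pointRep h30 p hpS hNS hp𝒪 (pt j)
  have h2 : IsUnit (2 : 𝒪) := isUnit_two_of_odd_prime_mem p hp2 hp𝒪
  have hbarchar' : ∀ (ℓ : ℕ), ℓ.Prime → ℓ ∉ S → ∀ A' : ValuationSubring Ω, A'.LiesOverPrime ℓ →
      ∀ σ : GQ, A'.IsFrobeniusAt σ ℓ → LinearMap.charpoly (ρbar.ρ σ) =
        X ^ 2 - C ((heckeLift θ : HeckeTensor N S 𝒪 →ₐ[𝒪] ResidueField 𝒪) (heckeT ℓ)) * X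
          + C ((heckeLift θ : HeckeTensor N S 𝒪 →ₐ[𝒪] ResidueField 𝒪) (heckeD ℓ)) := by
    intro ℓ hℓ hℓS A' hA' σ hσ
    have hℓN : ¬ ℓ ∣ N := fun h => hℓS (hNS ℓ hℓ h)
    have hℓS' : ℓ ∉ (↑S : Set ℕ) := by simpa using hℓS
    rw [hbarchar ℓ hℓ hℓN hℓS' A' hA' σ hσ, heckeT_eq hℓ hℓN hℓS', hΘinc, algHom_heckeD]
  obtain ⟨ρT, hloc, hequiv, hfrob, hirrT, hunr, htr⟩ := exists_galoisRepAdic_pointsQuot pt
    (heckeLift θ) hle h2 rep S heckeT heckeD hrepchar complexConjugation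
    complexConjugation_mul_self hrepdet ρbar habs hbarchar' hbardet
  haveI hnoeth : IsNoetherianRing (PointsQuot pt) := isNoetherianRing_pointsQuot pt
  haveI hcompl : IsAdicComplete (maximalIdeal (PointsQuot pt)) (PointsQuot pt) :=
    isAdicComplete_pointsQuot pt
  refine ⟨PointsQuot pt, inferInstance, hlocT, hnoeth, hcompl, inferInstance, hlocH, inferInstance,
    free_pointsQuot pt,
    { π := (Ideal.Quotient.mk (pointsIdeal pt)).comp heckeInc
      residue_π := fun t => ?_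
      adjoin_range_π := ?_
      exists_point := fun χ hχ => ?_
      residue_surjective := residue_surjective_pointsQuot pt (heckeLift θ) hle
      ρ := ρT
      charpoly_frob := fun ℓ hℓ hℓN hℓS A' hA' σ hσ => ?_
      residual_absIrr := hirrT }, ?_, ?_, ?_⟩
  · show residue (PointsQuot pt) (Ideal.Quotient.mk (pointsIdeal pt) (heckeInc t)) = _
    rw [residue_mk_pointsQuot pt (heckeLift θ) hle (heckeInc t), hΘinc]
  · rw [eq_top_iff]
    intro x _
    obtain ⟨y, rfl⟩ := Ideal.Quotient.mk_surjective x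
    refine heckeTensor_induction (P := fun y => Ideal.Quotient.mk (pointsIdeal pt) y ∈
      Algebra.adjoin 𝒪 (Set.range ((Ideal.Quotient.mk (pointsIdeal pt)).comp heckeInc)))
      (fun a t => ?_) (fun x y hx hy => ?_) y
    · have h1 : Ideal.Quotient.mk (pointsIdeal pt) (a • heckeInc t) =
          a • ((Ideal.Quotient.mk (pointsIdeal pt)).comp heckeInc) t := rfl
      rw [h1]
      exact Subalgebra.smul_mem _ (Algebra.subset_adjoin (Set.mem_range_self t)) a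
    · rw [map_add]
      exact Subalgebra.add_mem _ hx hy
  · have hψ : ∀ x, residue 𝒪 ((heckeLift χ : HeckeTensor N S 𝒪 →ₐ[𝒪] 𝒪) x) =
        (heckeLift θ : HeckeTensor N S 𝒪 →ₐ[𝒪] ResidueField 𝒪) x := by
      intro x
      refine heckeTensor_algHom_apply_eq
        ((Algebra.ofId 𝒪 (ResidueField 𝒪)).comp (heckeLift χ : HeckeTensor N S 𝒪 →ₐ[𝒪] 𝒪))
        (heckeLift θ) (fun t => ?_) x
      rw [AlgHom.comp_apply, heckeLift_heckeInc, hΘinc]
      exact hχ t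
    have hker := hpoint (heckeLift χ) hψ
    refine ⟨Ideal.Quotient.liftₐ (pointsIdeal pt) (heckeLift χ) fun x hx => hker hx, fun t => ?_⟩
    show (heckeLift χ : HeckeTensor N S 𝒪 →ₐ[𝒪] 𝒪) (heckeInc t) = χ t
    exact heckeLift_heckeInc χ t
  · have hℓS' : ℓ ∉ S := by simpa using hℓS
    rw [hfrob ℓ hℓ hℓS' A' hA' σ hσ, heckeT_eq hℓ hℓN hℓS]
    have h1 : Ideal.Quotient.mk (pointsIdeal pt) (heckeD ℓ) = ((ℓ : ℕ) : PointsQuot pt) :=
      algHom_heckeD (Ideal.Quotient.mkₐ 𝒪 (pointsIdeal pt)) ℓ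
    rw [h1]
    rfl
  · refine residual_isEquiv_baseChangeAlong_of_isEquiv
      (quotTheta pt (heckeLift θ) hle : PointsQuot pt →+* ResidueField 𝒪) (hloc none)
      (ResidueField.map (algebraMap 𝒪 (PointsQuot pt))) (fun x => ?_) ρT ρbar (hequiv none)
    obtain ⟨y, rfl⟩ := Ideal.Quotient.mk_surjective x
    exact (residue_mk_pointsQuot pt (heckeLift θ) hle y).symm
  · intro q hq hqN hqp hρbar P' hP' σ hσ
    exact hunr σ (fun j => hrepunr j q hq hqN hqp P' hP' σ hσ) (hρbar P' hP' σ hσ)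
  · intro B _ _ _ _ _ hinj χ hχ
    have hψ : ∀ x, residue B ((heckeLift χ : HeckeTensor N S 𝒪 →ₐ[𝒪] B) x) =
        ResidueField.map (algebraMap 𝒪 B)
          ((heckeLift θ : HeckeTensor N S 𝒪 →ₐ[𝒪] ResidueField 𝒪) x) := by
      intro x
      let f₁ : HeckeTensor N S 𝒪 →ₐ[𝒪] ResidueField B :=
        (IsScalarTower.toAlgHom 𝒪 B (ResidueField B)).comp
          (heckeLift χ : HeckeTensor N S 𝒪 →ₐ[𝒪] B)
      let κ : ResidueField 𝒪 →ₐ[𝒪] ResidueField B :=
        { (ResidueField.map (algebraMap 𝒪 B)) with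
          commutes' := fun a => by
            show ResidueField.map (algebraMap 𝒪 B) (residue 𝒪 a) = _
            rw [ResidueField.map_residue]
            rfl }
      let f₂ : HeckeTensor N S 𝒪 →ₐ[𝒪] ResidueField B :=
        κ.comp (heckeLift θ : HeckeTensor N S 𝒪 →ₐ[𝒪] ResidueField 𝒪)
      have := heckeTensor_algHom_apply_eq f₁ f₂ (fun t => ?_) x
      · exact this
      · show residue B ((heckeLift χ : HeckeTensor N S 𝒪 →ₐ[𝒪] B) (heckeInc t)) =
          ResidueField.map (algebraMap 𝒪 B)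
            ((heckeLift θ : HeckeTensor N S 𝒪 →ₐ[𝒪] ResidueField 𝒪) (heckeInc t))
        rw [heckeLift_heckeInc, hΘinc]
        exact hχ t
    have hker := hpointB B hinj (heckeLift χ) (by
      intro x hx
      rw [RingHom.mem_ker] at hx ⊢
      have hx' : (heckeLift χ : HeckeTensor N S 𝒪 →ₐ[𝒪] B) x = 0 := hx
      have h1 := hψ x
      rw [hx', map_zero] at h1
      exact (ResidueField.map (algebraMap 𝒪 B)).injective (h1.symm.trans (map_zero _).symm))
    refine ⟨Ideal.Quotient.liftₐ (pointsIdeal pt) (heckeLift χ) fun x hx => hker hx, fun t => ?_⟩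
    show (heckeLift χ : HeckeTensor N S 𝒪 →ₐ[𝒪] B) (heckeInc t) = χ t
    exact heckeLift_heckeInc χ t

end Datum

end Fermat.Agent.RB.REPT
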