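/-
PROJECT RB, block [REP_T] (helper1), part 16: the unconditional form of (A): the proved statement
S30 is plugged into `exists_heckeGaloisRepDatum`.
-/
import Mathlib
import Fermat.Agent.S30
import Fermat.Agent.RB.REPT_helper1_Datum

set_option autoImplicit false
set_option linter.unusedSectionVars false
set_option linter.unusedVariables false
set_option linter.style.haveILetI false

namespace Fermat.Agent.RB.REPT

open Polynomial IsLocalRing CuspForm Fermat.Agent.GR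

local notation "Ω" => AlgebraicClosure ℚ
local notation "GQ" => (AlgebraicClosure ℚ ≃ₐ[ℚ] AlgebraicClosure ℚ)

theorem s30Statement : S30Statement := Fermat.Agent.S30.result

variable {N : ℕ} [NeZero N] {S : Finset ℕ}
  {𝒪 : Type} [CommRing 𝒪] [IsDomain 𝒪] [IsDiscreteValuationRing 𝒪]
  [IsAdicComplete (maximalIdeal 𝒪) 𝒪] [CharZero 𝒪] [Finite (ResidueField 𝒪)]

/-- **(A), unconditional.** -/
theorem exists_heckeGaloisRepDatum' (p : ℕ) [Fact p.Prime] (hp2 : p ≠ 2)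
    (hpS : p ∈ S) (hNS : ∀ q : ℕ, q.Prime → q ∣ N → q ∈ S) (hp𝒪 : (p : 𝒪) ∈ maximalIdeal 𝒪)
    (θ : ↥(heckeAlgebra N 2 (↑S : Set ℕ)) →+* ResidueField 𝒪)
    (ρbar : ResidualGaloisRep (ResidueField 𝒪)) (habs : ρbar.IsAbsolutelyIrreducible)
    (hbarchar : ∀ (ℓ : ℕ) (hℓ : ℓ.Prime) (hℓN : ¬ ℓ ∣ N) (hℓS : ℓ ∉ (↑S : Set ℕ)),
      ∀ A' : ValuationSubring Ω, A'.LiesOverPrime ℓ → ∀ σ : GQ, A'.IsFrobeniusAt σ ℓ →
        LinearMap.charpoly (ρbar.ρ σ) =
          X ^ 2 - C (θ (heckeAlgebra.T hℓ hℓN hℓS)) * X + C ((ℓ : ResidueField 𝒪)))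
    (hbardet : LinearMap.det (ρbar.ρ complexConjugation) = -1) :
    ∃ (T : Type) (_ : CommRing T) (_ : IsLocalRing T) (_ : IsNoetherianRing T)
      (_ : IsAdicComplete (maximalIdeal T) T) (_ : Algebra 𝒪 T) (_ : IsLocalHom (algebraMap 𝒪 T))
      (_ : Module.Finite 𝒪 T) (_ : Module.Free 𝒪 T)
      (H : HeckeGaloisRepDatum N (↑S : Set ℕ) 𝒪 θ T),
      H.ρ.residual.IsEquiv (ρbar.baseChangeAlong (ResidueField.map (algebraMap 𝒪 T))) ∧
      (∀ q : ℕ, q.Prime → ¬ q ∣ N → q ≠ p → ρbar.IsUnramifiedAt q → H.ρ.IsUnramifiedAt q) ∧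
      (∀ (B : Type) [CommRing B] [IsDomain B] [IsLocalRing B] [Algebra 𝒪 B]
        [IsLocalHom (algebraMap 𝒪 B)] (_ : Function.Injective (algebraMap 𝒪 B))
        (χ : ↥(heckeAlgebra N 2 (↑S : Set ℕ)) →+* B),
        (∀ t, residue B (χ t) = ResidueField.map (algebraMap 𝒪 B) (θ t)) →
          ∃ ψ : T →ₐ[𝒪] B, ∀ t, ψ (H.π t) = χ t) :=
  exists_heckeGaloisRepDatum s30Statement p hp2 hpS hNS hp𝒪 θ ρbar habs hbarchar hbardet

end Fermat.Agent.RB.REPT
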