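/-
PROJECT RB, block [REP_T] (helper1), part 17: **(B), abstract part — quotients of the big datum.**

Let `(T, ρ_T)` be the FULL Hecke–Galois datum of level `N` (every point lifting `θ` factors through
`T`).  Let `A` be a finite flat reduced local `𝒪`-algebra with residue field `k`, generated by
elements `t ℓ` (`ℓ ∉ S` prime) such that every characteristic-zero point `x` of `A` "occurs at level
`N`": there is a character `χ_x` of `heckeAlgebra N 2 S` with `χ_x (T_ℓ) = x (t ℓ)`.  Then there is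
a surjective `𝒪`-algebra homomorphism `f : T → A` with `f (π T_ℓ) = t ℓ`, and
`ρ_A := ρ_T ⊗_f A` inherits all properties of `ρ_T`.
-/
import Mathlib
import Fermat.Agent.RB.REPT_helper1_Final

set_option autoImplicit false
set_option linter.unusedSectionVars false
set_option linter.unusedVariables false
set_option linter.style.haveILetI false

namespace Fermat.Agent.RB.REPT

open Polynomial IsLocalRing CuspForm Fermat.Agent.GR

local notation "Ω" => AlgebraicClosure ℚ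
local notation "GQ" => (AlgebraicClosure ℚ ≃ₐ[ℚ] AlgebraicClosure ℚ)

section HeckeExt

variable {N : ℕ} [NeZero N] {S : Set ℕ}

/-- ring homomorphisms out of the Hecke algebra away from `S ⊇ primes of N` are determined by
their values at the `T_ℓ`. -/
theorem heckeAlgebra_ringHom_ext (hNS : ∀ q : ℕ, q.Prime → q ∣ N → q ∈ S) {R : Type*} [Ring R]
    (f g : ↥(heckeAlgebra N 2 S) →+* R)
    (h : ∀ (ℓ : ℕ) (hℓ : ℓ.Prime) (hℓN : ¬ ℓ ∣ N) (hℓS : ℓ ∉ S),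
      f (heckeAlgebra.T hℓ hℓN hℓS) = g (heckeAlgebra.T hℓ hℓN hℓS)) : f = g := by
  have key : f.toIntAlgHom = g.toIntAlgHom := by
    refine AlgHom.adjoin_ext (s := heckeGenerators N 2 S) ?_
    rintro x (⟨ℓ, hℓ, hℓN, hℓS, rfl⟩ | ⟨q, hqN, hq, hqS, rfl⟩)
    · exact h ℓ hℓ hℓN hℓS
    · exact absurd (hNS q hq hqN) hqS
  ext x
  exact congrArg (fun φ : ↥(heckeAlgebra N 2 S) →ₐ[ℤ] R => φ x) key

/-- a ring homomorphism out of the Hecke algebra maps into a subring as soon as the `T_ℓ` do. -/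
theorem heckeAlgebra_map_mem (hNS : ∀ q : ℕ, q.Prime → q ∣ N → q ∈ S) {R : Type*} [Ring R]
    (f : ↥(heckeAlgebra N 2 S) →+* R) (U : Subring R)
    (h : ∀ (ℓ : ℕ) (hℓ : ℓ.Prime) (hℓN : ¬ ℓ ∣ N) (hℓS : ℓ ∉ S),
      f (heckeAlgebra.T hℓ hℓN hℓS) ∈ U) : ∀ s, f s ∈ U := by
  rintro ⟨s, hs⟩
  induction hs using Algebra.adjoin_induction with
  | mem x hx =>
    rcases hx with ⟨ℓ, hℓ, hℓN, hℓS, rfl⟩ | ⟨q, hqN, hq, hqS, rfl⟩
    · exact h ℓ hℓ hℓN hℓS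
    · exact absurd (hNS q hq hqN) hqS
  | algebraMap r =>
    have h1 : (⟨algebraMap ℤ _ r, Subalgebra.algebraMap_mem _ r⟩ :
        ↥(heckeAlgebra N 2 S)) = ((r : ℤ) : ↥(heckeAlgebra N 2 S)) := by
      apply Subtype.ext
      simp
    rw [h1, map_intCast]
    exact intCast_mem _ r
  | add x y hx hy ihx ihy =>
    have h1 : (⟨x + y, Subalgebra.add_mem _ hx hy⟩ : ↥(heckeAlgebra N 2 S)) =
        ⟨x, hx⟩ + ⟨y, hy⟩ := rfl
    rw [h1, map_add]
    exact Subring.add_mem _ ihx ihy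
  | mul x y hx hy ihx ihy =>
    have h1 : (⟨x * y, Subalgebra.mul_mem _ hx hy⟩ : ↥(heckeAlgebra N 2 S)) =
        ⟨x, hx⟩ * ⟨y, hy⟩ := rfl
    rw [h1, map_mul]
    exact Subring.mul_mem _ ihx ihy

/-- a ring homomorphism out of the Hecke algebra into a field `K` whose values at the `T_ℓ` lie in
the image of a subfield `k` factors through `k`. -/
theorem exists_heckeAlgebra_factor (hNS : ∀ q : ℕ, q.Prime → q ∣ N → q ∈ S) {k K : Type*}
    [Field k] [Field K] (ι : k →+* K) (f : ↥(heckeAlgebra N 2 S) →+* K)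
    (h : ∀ (ℓ : ℕ) (hℓ : ℓ.Prime) (hℓN : ¬ ℓ ∣ N) (hℓS : ℓ ∉ S),
      f (heckeAlgebra.T hℓ hℓN hℓS) ∈ ι.range) :
    ∃ f₀ : ↥(heckeAlgebra N 2 S) →+* k, ∀ s, ι (f₀ s) = f s := by
  have hmem := heckeAlgebra_map_mem hNS f ι.range h
  let e : k ≃+* ι.range := RingEquiv.ofLeftInverse (g := fun y => (ι.injective.hasLeftInverse.choose y))
    (fun x => ι.injective.hasLeftInverse.choose_spec x)
  refine ⟨(e.symm : ι.range →+* k).comp (f.codRestrict ι.range hmem), fun s => ?_⟩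
  have h1 : (e ((e.symm : ι.range →+* k) (f.codRestrict ι.range hmem s)) : K) = f s := by
    rw [RingHom.coe_coe, RingEquiv.apply_symm_apply]
    rfl
  exact h1

end HeckeExt

section LocalAlg

variable {𝒪 : Type} [CommRing 𝒪] [IsDomain 𝒪] [IsDiscreteValuationRing 𝒪]
  [IsAdicComplete (maximalIdeal 𝒪) 𝒪] [CharZero 𝒪] [Finite (ResidueField 𝒪)]
  {A : Type} [CommRing A] [IsLocalRing A] [Algebra 𝒪 A] [IsLocalHom (algebraMap 𝒪 A)]

/-- the reduction `Θ_A : A → k` of a local `𝒪`-algebra with residue field `k`. -/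
theorem exists_theta_of_residue_surjective
    (hsurj : Function.Surjective (residue A ∘ algebraMap 𝒪 A)) :
    ∃ Θ : A →ₐ[𝒪] ResidueField 𝒪, (∀ a, ResidueField.map (algebraMap 𝒪 A) (Θ a) = residue A a) ∧
      RingHom.ker (Θ : A →+* ResidueField 𝒪) = maximalIdeal A := by
  let κ : ResidueField 𝒪 →+* ResidueField A := ResidueField.map (algebraMap 𝒪 A)
  have hκsurj : Function.Surjective κ := by
    intro y
    obtain ⟨a, ha⟩ := hsurj y
    refine ⟨residue 𝒪 a, ?_⟩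
    show ResidueField.map (algebraMap 𝒪 A) (residue 𝒪 a) = y
    rw [ResidueField.map_residue]
    exact ha
  let e : ResidueField 𝒪 ≃+* ResidueField A := RingEquiv.ofBijective κ ⟨κ.injective, hκsurj⟩
  let Θ₀ : A →+* ResidueField 𝒪 := (e.symm : ResidueField A →+* ResidueField 𝒪).comp (residue A)
  have hΘ₀ : ∀ a, κ (Θ₀ a) = residue A a := fun a => e.apply_symm_apply (residue A a)
  let Θ : A →ₐ[𝒪] ResidueField 𝒪 :=
    { Θ₀ with
      commutes' := fun r => by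
        apply κ.injective
        show κ (Θ₀ (algebraMap 𝒪 A r)) = κ (residue 𝒪 r)
        rw [hΘ₀]
        show _ = ResidueField.map (algebraMap 𝒪 A) (residue 𝒪 r)
        rw [ResidueField.map_residue] }
  refine ⟨Θ, hΘ₀, ?_⟩
  ext a
  rw [RingHom.mem_ker, ← residue_eq_zero_iff, ← hΘ₀ a]
  show Θ₀ a = 0 ↔ κ (Θ₀ a) = 0
  constructor
  · intro h; rw [h, map_zero]
  · intro h; exact κ.injective (by rw [h, map_zero])

variable [Module.Finite 𝒪 A] [Module.Flat 𝒪 A]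

/-- a minimal prime of a flat `𝒪`-algebra lies over `0`. -/
theorem comap_eq_bot_of_mem_minimalPrimes {𝔭 : Ideal A} (h𝔭 : 𝔭 ∈ minimalPrimes A) :
    𝔭.comap (algebraMap 𝒪 A) = ⊥ := by
  rw [eq_bot_iff]
  intro a ha
  rw [Ideal.mem_bot]
  by_contra ha0
  have hnzd : algebraMap 𝒪 A a ∈ nonZeroDivisors A := by
    haveI : Module.IsTorsionFree 𝒪 A := inferInstance
    rw [mem_nonZeroDivisors_iff_right]
    intro x hx
    have h1 : a • x = 0 := by rw [Algebra.smul_def, mul_comm]; exact hx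
    exact (smul_eq_zero.mp h1).resolve_left ha0
  exact Set.disjoint_left.1 (Ideal.disjoint_nonZeroDivisors_of_mem_minimalPrimes h𝔭) ha hnzd

/-- **a finite flat reduced local `𝒪`-algebra embeds into the product of its characteristic-zero
points.** -/
theorem exists_points_family_injective [IsReduced A] (Θ : A →ₐ[𝒪] ResidueField 𝒪)
    (hΘ : RingHom.ker (Θ : A →+* ResidueField 𝒪) = maximalIdeal A) :
    ∃ (J : Type) (_ : Finite J) (_ : Nonempty J) (pt : J → DVRPoint 𝒪 A),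
      (∀ j, RingHom.ker ((pt j).ψ : A →+* (pt j).B) ≤ RingHom.ker (Θ : A →+* ResidueField 𝒪)) ∧
      ∀ a : A, (∀ j, (pt j).ψ a = 0) → a = 0 := by
  obtain ⟨J, hJ, hJne, pt, hle, -, hB⟩ := exists_points_family Θ
  refine ⟨J, hJ, hJne, pt, hle, ?_⟩
  have hbot : pointsIdeal pt = ⊥ := by
    rw [eq_bot_iff]
    have hnil : (⊥ : Ideal A) = sInf (minimalPrimes A) := by
      have h1 : sInf ((⊥ : Ideal A).minimalPrimes) = (⊥ : Ideal A).radical :=
        Ideal.sInf_minimalPrimes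
      have h2 : (⊥ : Ideal A).radical = ⊥ := nilradical_eq_zero A
      rw [← h2, ← h1]
    rw [hnil]
    refine le_sInf fun 𝔭 h𝔭 => ?_
    haveI h𝔭prime : 𝔭.IsPrime := h𝔭.1.1
    have h1 := hB (A ⧸ 𝔭) (by
      rw [injective_iff_map_eq_zero]
      intro r hr
      have h2 : r ∈ 𝔭.comap (algebraMap 𝒪 A) := by
        rw [Ideal.mem_comap]
        exact Ideal.Quotient.eq_zero_iff_mem.1 hr
      rw [comap_eq_bot_of_mem_minimalPrimes h𝔭, Ideal.mem_bot] at h2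
      exact h2) (Ideal.Quotient.mkₐ 𝒪 𝔭) (by
      intro x hx
      rw [hΘ]
      have hx' : x ∈ 𝔭 := by
        rw [RingHom.mem_ker] at hx
        exact Ideal.Quotient.eq_zero_iff_mem.1 hx
      exact IsLocalRing.le_maximalIdeal h𝔭prime.ne_top hx')
    intro x hx
    have := h1 hx
    rw [RingHom.mem_ker] at this
    exact Ideal.Quotient.eq_zero_iff_mem.1 this
  intro a ha
  have : a ∈ pointsIdeal pt := by
    rw [pointsIdeal, Ideal.mem_iInf]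
    intro j
    rw [RingHom.mem_ker]
    exact ha j
  rw [hbot, Ideal.mem_bot] at this
  exact this

end LocalAlg

section Quotient

variable {N : ℕ} [NeZero N] {S : Finset ℕ}
  {𝒪 : Type} [CommRing 𝒪] [IsDomain 𝒪] [IsDiscreteValuationRing 𝒪]
  [IsAdicComplete (maximalIdeal 𝒪) 𝒪] [CharZero 𝒪] [Finite (ResidueField 𝒪)]
  {θ : ↥(heckeAlgebra N 2 (↑S : Set ℕ)) →+* ResidueField 𝒪}
  {T : Type} [CommRing T] [IsLocalRing T] [IsNoetherianRing T]
  [IsAdicComplete (maximalIdeal T) T] [Algebra 𝒪 T] [IsLocalHom (algebraMap 𝒪 T)]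
  [Module.Finite 𝒪 T] [Module.Free 𝒪 T]
  {A : Type} [CommRing A] [IsLocalRing A] [Algebra 𝒪 A] [IsLocalHom (algebraMap 𝒪 A)]
  [Module.Finite 𝒪 A] [Module.Flat 𝒪 A] [IsReduced A]

/-- **the surjection `T → A`, from a jointly injective family of points of `A` which occur.** -/
theorem exists_surjective_algHom_of_family (H : HeckeGaloisRepDatum N (↑S : Set ℕ) 𝒪 θ T)
    (hfull : ∀ (B : Type) [CommRing B] [IsDomain B] [IsLocalRing B] [Algebra 𝒪 B]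
      [IsLocalHom (algebraMap 𝒪 B)] (_ : Function.Injective (algebraMap 𝒪 B))
      (χ : ↥(heckeAlgebra N 2 (↑S : Set ℕ)) →+* B),
      (∀ t, residue B (χ t) = ResidueField.map (algebraMap 𝒪 B) (θ t)) →
        ∃ ψ : T →ₐ[𝒪] B, ∀ t, ψ (H.π t) = χ t)
    (hNS : ∀ q : ℕ, q.Prime → q ∣ N → q ∈ S)
    (hsurj : Function.Surjective (residue A ∘ algebraMap 𝒪 A))
    (t : ℕ → A)
    (hgen : Algebra.adjoin 𝒪 (t '' {ℓ | ℓ.Prime ∧ ℓ ∉ S}) = ⊤)
    (hres : ∀ (ℓ : ℕ) (hℓ : ℓ.Prime) (hℓN : ¬ ℓ ∣ N) (hℓS : ℓ ∉ (↑S : Set ℕ)),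
      residue A (t ℓ) = ResidueField.map (algebraMap 𝒪 A) (θ (heckeAlgebra.T hℓ hℓN hℓS)))
    {J : Type} (pt : J → DVRPoint 𝒪 A) (hinj : ∀ a : A, (∀ j, (pt j).ψ a = 0) → a = 0)
    (hocc : ∀ j : J, ∃ χ : ↥(heckeAlgebra N 2 (↑S : Set ℕ)) →+* (pt j).B,
      ∀ (ℓ : ℕ) (hℓ : ℓ.Prime) (hℓN : ¬ ℓ ∣ N) (hℓS : ℓ ∉ (↑S : Set ℕ)),
        χ (heckeAlgebra.T hℓ hℓN hℓS) = (pt j).ψ (t ℓ)) :
    ∃ f : T →ₐ[𝒪] A, Function.Surjective f ∧
      ∀ (ℓ : ℕ) (hℓ : ℓ.Prime) (hℓN : ¬ ℓ ∣ N) (hℓS : ℓ ∉ (↑S : Set ℕ)),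
        f (H.π (heckeAlgebra.T hℓ hℓN hℓS)) = t ℓ := by
  classical
  obtain ⟨Θ, hΘres, hΘker⟩ := exists_theta_of_residue_surjective (𝒪 := 𝒪) (A := A) hsurj
  have hle : ∀ j, RingHom.ker ((pt j).ψ : A →+* (pt j).B) ≤
      RingHom.ker (Θ : A →+* ResidueField 𝒪) := by
    intro j
    rw [hΘker]
    refine IsLocalRing.le_maximalIdeal ?_
    rw [Ne, Ideal.eq_top_iff_one, RingHom.mem_ker]
    show ¬ (pt j).ψ 1 = 0
    rw [map_one]
    exact one_ne_zero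
  -- `Θ (t ℓ) = θ (T_ℓ)`
  have hΘt : ∀ (ℓ : ℕ) (hℓ : ℓ.Prime) (hℓN : ¬ ℓ ∣ N) (hℓS : ℓ ∉ (↑S : Set ℕ)),
      Θ (t ℓ) = θ (heckeAlgebra.T hℓ hℓN hℓS) := by
    intro ℓ hℓ hℓN hℓS
    apply (ResidueField.map (algebraMap 𝒪 A)).injective
    rw [hΘres, hres ℓ hℓ hℓN hℓS]
  -- the characters and the points of `T`
  choose χ hχ using hocc
  have hχlift : ∀ j s, residue (pt j).B (χ j s) =
      ResidueField.map (algebraMap 𝒪 (pt j).B) (θ s) := by
    intro j s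
    have := heckeAlgebra_ringHom_ext (S := (↑S : Set ℕ)) (fun q hq hqN => hNS q hq hqN)
      ((residue (pt j).B).comp (χ j)) ((ResidueField.map (algebraMap 𝒪 (pt j).B)).comp θ) (by
        intro ℓ hℓ hℓN hℓS
        show residue (pt j).B (χ j (heckeAlgebra.T hℓ hℓN hℓS)) =
          ResidueField.map (algebraMap 𝒪 (pt j).B) (θ (heckeAlgebra.T hℓ hℓN hℓS))
        rw [hχ j ℓ hℓ hℓN hℓS, (pt j).residue_ψ Θ (hle j), hΘt ℓ hℓ hℓN hℓS])
    exact congrArg (fun φ : ↥(heckeAlgebra N 2 (↑S : Set ℕ)) →+* ResidueField (pt j).B => φ s) this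
  choose ψ hψ using fun j => hfull (pt j).B (pt j).injective (χ j) (hχlift j)
  -- the two maps into the product
  let ι : A →ₐ[𝒪] (∀ j, (pt j).B) := AlgHom.pi fun j => (pt j).ψ
  let Ψ : T →ₐ[𝒪] (∀ j, (pt j).B) := AlgHom.pi ψ
  have hιinj : Function.Injective ι := by
    rw [injective_iff_map_eq_zero]
    intro a ha
    exact hinj a fun j => congrFun ha j
  have hΨT : ∀ (ℓ : ℕ) (hℓ : ℓ.Prime) (hℓN : ¬ ℓ ∣ N) (hℓS : ℓ ∉ (↑S : Set ℕ)),
      Ψ (H.π (heckeAlgebra.T hℓ hℓN hℓS)) = ι (t ℓ) := by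
    intro ℓ hℓ hℓN hℓS
    funext j
    show ψ j (H.π (heckeAlgebra.T hℓ hℓN hℓS)) = (pt j).ψ (t ℓ)
    rw [hψ j, hχ j ℓ hℓ hℓN hℓS]
  -- `Ψ (π s) ∈ range ι`
  have hπmem : ∀ s : ↥(heckeAlgebra N 2 (↑S : Set ℕ)), Ψ (H.π s) ∈ ι.range := by
    rintro ⟨s, hs⟩
    induction hs using Algebra.adjoin_induction with
    | mem x hx =>
      rcases hx with ⟨ℓ, hℓ, hℓN, hℓS, rfl⟩ | ⟨q, hqN, hq, hqS, rfl⟩
      · exact ⟨t ℓ, (hΨT ℓ hℓ hℓN hℓS).symm⟩
      · exact absurd (hNS q hq hqN) hqS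
    | algebraMap r =>
      have h1 : (⟨algebraMap ℤ _ r, Subalgebra.algebraMap_mem _ r⟩ :
          ↥(heckeAlgebra N 2 (↑S : Set ℕ))) = ((r : ℤ) : ↥(heckeAlgebra N 2 (↑S : Set ℕ))) := by
        apply Subtype.ext
        simp
      rw [h1, map_intCast, map_intCast]
      exact Subalgebra.intCast_mem _ r
    | add x y hx hy ihx ihy =>
      have h1 : (⟨x + y, Subalgebra.add_mem _ hx hy⟩ : ↥(heckeAlgebra N 2 (↑S : Set ℕ))) =
          ⟨x, hx⟩ + ⟨y, hy⟩ := rfl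
      rw [h1, map_add, map_add]
      exact Subalgebra.add_mem _ ihx ihy
    | mul x y hx hy ihx ihy =>
      have h1 : (⟨x * y, Subalgebra.mul_mem _ hx hy⟩ : ↥(heckeAlgebra N 2 (↑S : Set ℕ))) =
          ⟨x, hx⟩ * ⟨y, hy⟩ := rfl
      rw [h1, map_mul, map_mul]
      exact Subalgebra.mul_mem _ ihx ihy
  have hΨle : ∀ x : T, Ψ x ∈ ι.range := by
    intro x
    have hx : x ∈ Algebra.adjoin 𝒪 (Set.range H.π) := by rw [H.adjoin_range_π]; trivial
    induction hx using Algebra.adjoin_induction with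
    | mem y hy =>
      obtain ⟨s, rfl⟩ := hy
      exact hπmem s
    | algebraMap r => rw [AlgHom.commutes]; exact Subalgebra.algebraMap_mem _ r
    | add x y _ _ ihx ihy => rw [map_add]; exact Subalgebra.add_mem _ ihx ihy
    | mul x y _ _ ihx ihy => rw [map_mul]; exact Subalgebra.mul_mem _ ihx ihy
  -- the homomorphism
  let e : A ≃ₐ[𝒪] ι.range := AlgEquiv.ofInjective ι hιinj
  let f : T →ₐ[𝒪] A := (e.symm : ι.range →ₐ[𝒪] A).comp (Ψ.codRestrict ι.range hΨle)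
  have hιf : ∀ x, ι (f x) = Ψ x := by
    intro x
    have h1 : (e (f x) : ∀ j, (pt j).B) = Ψ x := by
      show ((e (e.symm (Ψ.codRestrict ι.range hΨle x)) : ι.range) : ∀ j, (pt j).B) = Ψ x
      rw [AlgEquiv.apply_symm_apply]
      rfl
    exact h1
  have hfT : ∀ (ℓ : ℕ) (hℓ : ℓ.Prime) (hℓN : ¬ ℓ ∣ N) (hℓS : ℓ ∉ (↑S : Set ℕ)),
      f (H.π (heckeAlgebra.T hℓ hℓN hℓS)) = t ℓ := by
    intro ℓ hℓ hℓN hℓS
    apply hιinj
    rw [hιf, hΨT]
  refine ⟨f, ?_, hfT⟩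
  -- surjectivity
  have hrange : f.range = ⊤ := by
    rw [eq_top_iff, ← hgen]
    refine Algebra.adjoin_le ?_
    rintro _ ⟨ℓ, ⟨hℓ, hℓS⟩, rfl⟩
    have hℓS' : ℓ ∉ (↑S : Set ℕ) := by simpa using hℓS
    have hℓN : ¬ ℓ ∣ N := fun h => hℓS (hNS ℓ hℓ h)
    exact ⟨_, hfT ℓ hℓ hℓN hℓS'⟩
  intro a
  have : a ∈ f.range := by rw [hrange]; trivial
  exact this

/-- **the surjection `T → A`** when every point of `A` occurs. -/
theorem exists_surjective_algHom_of_occurs (H : HeckeGaloisRepDatum N (↑S : Set ℕ) 𝒪 θ T)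
    (hfull : ∀ (B : Type) [CommRing B] [IsDomain B] [IsLocalRing B] [Algebra 𝒪 B]
      [IsLocalHom (algebraMap 𝒪 B)] (_ : Function.Injective (algebraMap 𝒪 B))
      (χ : ↥(heckeAlgebra N 2 (↑S : Set ℕ)) →+* B),
      (∀ t, residue B (χ t) = ResidueField.map (algebraMap 𝒪 B) (θ t)) →
        ∃ ψ : T →ₐ[𝒪] B, ∀ t, ψ (H.π t) = χ t)
    (hNS : ∀ q : ℕ, q.Prime → q ∣ N → q ∈ S)
    (hsurj : Function.Surjective (residue A ∘ algebraMap 𝒪 A))
    (t : ℕ → A)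
    (hgen : Algebra.adjoin 𝒪 (t '' {ℓ | ℓ.Prime ∧ ℓ ∉ S}) = ⊤)
    (hres : ∀ (ℓ : ℕ) (hℓ : ℓ.Prime) (hℓN : ¬ ℓ ∣ N) (hℓS : ℓ ∉ (↑S : Set ℕ)),
      residue A (t ℓ) = ResidueField.map (algebraMap 𝒪 A) (θ (heckeAlgebra.T hℓ hℓN hℓS)))
    (hocc : ∀ x : DVRPoint 𝒪 A, ∃ χ : ↥(heckeAlgebra N 2 (↑S : Set ℕ)) →+* x.B,
      ∀ (ℓ : ℕ) (hℓ : ℓ.Prime) (hℓN : ¬ ℓ ∣ N) (hℓS : ℓ ∉ (↑S : Set ℕ)),
        χ (heckeAlgebra.T hℓ hℓN hℓS) = x.ψ (t ℓ)) :
    ∃ f : T →ₐ[𝒪] A, Function.Surjective f ∧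
      ∀ (ℓ : ℕ) (hℓ : ℓ.Prime) (hℓN : ¬ ℓ ∣ N) (hℓS : ℓ ∉ (↑S : Set ℕ)),
        f (H.π (heckeAlgebra.T hℓ hℓN hℓS)) = t ℓ := by
  obtain ⟨Θ, hΘres, hΘker⟩ := exists_theta_of_residue_surjective (𝒪 := 𝒪) (A := A) hsurj
  obtain ⟨J, hJ, hJne, pt, hle, hinj⟩ := exists_points_family_injective Θ hΘker
  exact exists_surjective_algHom_of_family H hfull hNS hsurj t hgen hres pt hinj
    (fun j => hocc (pt j))

end Quotient


end Fermat.Agent.RB.REPT
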