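/-
PROJECT RB — [TWMOD] second wave, [LEVEL0] (helper3), part 2: **the surjection `T → A`**, variant of
helper1's `REPT.exists_surjective_algHom_of_family` whose fullness hypothesis only quantifies over
discrete valuation rings finite over `𝒪` (the form of helper2's literal `Level0Statement`), with the
generators indexed by `Nat.Primes`.
-/
import Mathlib
import Fermat.Agent.RB.REPT_helper1_Sub

set_option autoImplicit false
set_option linter.unusedSectionVars false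
set_option linter.unusedVariables false
set_option linter.style.haveILetI false

namespace Fermat.Agent.RB.L0

open Polynomial IsLocalRing CuspForm Fermat.Agent.GR Fermat.Agent.RB.REPT

section Quotient

variable {N : ℕ} [NeZero N] {S : Finset ℕ}
  {𝒪 : Type} [CommRing 𝒪] [IsDomain 𝒪] [IsDiscreteValuationRing 𝒪]
  [IsAdicComplete (maximalIdeal 𝒪) 𝒪] [CharZero 𝒪] [Finite (ResidueField 𝒪)]
  {θ : ↥(heckeAlgebra N 2 (↑S : Set ℕ)) →+* ResidueField 𝒪}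
  {T : Type} [CommRing T] [IsLocalRing T] [IsNoetherianRing T]
  [IsAdicComplete (maximalIdeal T) T] [Algebra 𝒪 T] [IsLocalHom (algebraMap 𝒪 T)]
  [Module.Finite 𝒪 T] [Module.Free 𝒪 T]
  {A : Type} [CommRing A] [IsLocalRing A] [Algebra 𝒪 A] [IsLocalHom (algebraMap 𝒪 A)]
  [Module.Finite 𝒪 A] [Module.Flat 𝒪 A] [IsReduced A]

/-- **the surjection `T → A`, from a jointly injective family of points of `A` which occur**
(fullness only for discrete valuation rings finite over `𝒪`). -/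
theorem exists_surjective_algHom_of_family_dvr (H : HeckeGaloisRepDatum N (↑S : Set ℕ) 𝒪 θ T)
    (hfull : ∀ (B : Type) [CommRing B] [IsDomain B] [IsDiscreteValuationRing B] [Algebra 𝒪 B]
      [Module.Finite 𝒪 B] [IsLocalHom (algebraMap 𝒪 B)]
      (χ : ↥(heckeAlgebra N 2 (↑S : Set ℕ)) →+* B),
      (∀ t, residue B (χ t) = ResidueField.map (algebraMap 𝒪 B) (θ t)) →
        ∃ ψ : T →ₐ[𝒪] B, ∀ t, ψ (H.π t) = χ t)
    (hNS : ∀ q : ℕ, q.Prime → q ∣ N → q ∈ S)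
    (hsurj : Function.Surjective (residue A ∘ algebraMap 𝒪 A))
    (t : Nat.Primes → A)
    (hgen : Algebra.adjoin 𝒪 (t '' {ℓ | (ℓ : ℕ) ∉ (S : Set ℕ)}) = ⊤)
    (hres : ∀ (ℓ : ℕ) (hℓ : ℓ.Prime) (hℓN : ¬ ℓ ∣ N) (hℓS : ℓ ∉ (↑S : Set ℕ)),
      residue A (t ⟨ℓ, hℓ⟩) =
        ResidueField.map (algebraMap 𝒪 A) (θ (heckeAlgebra.T hℓ hℓN hℓS)))
    {J : Type} (pt : J → DVRPoint 𝒪 A) (hinj : ∀ a : A, (∀ j, (pt j).ψ a = 0) → a = 0)
    (hocc : ∀ j : J, ∃ χ : ↥(heckeAlgebra N 2 (↑S : Set ℕ)) →+* (pt j).B,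
      ∀ (ℓ : ℕ) (hℓ : ℓ.Prime) (hℓN : ¬ ℓ ∣ N) (hℓS : ℓ ∉ (↑S : Set ℕ)),
        χ (heckeAlgebra.T hℓ hℓN hℓS) = (pt j).ψ (t ⟨ℓ, hℓ⟩)) :
    ∃ f : T →ₐ[𝒪] A, Function.Surjective f ∧
      ∀ (ℓ : ℕ) (hℓ : ℓ.Prime) (hℓN : ¬ ℓ ∣ N) (hℓS : ℓ ∉ (↑S : Set ℕ)),
        f (H.π (heckeAlgebra.T hℓ hℓN hℓS)) = t ⟨ℓ, hℓ⟩ := by
  classical
  obtain ⟨Θ, hΘres, hΘker⟩ := exists_theta_of_residue_surjective (𝒪 := 𝒪) (A := A) hsurj
  have hle : ∀ j, RingHom.ker ((pt j).ψ : A →+* (pt j).B) ≤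
      RingHom.ker (Θ : A →+* ResidueField 𝒪) := by
    intro j
    rw [hΘker]
    refine IsLocalRing.le_maximalIdeal ?_
    rw [Ne, Ideal.eq_top_iff_one, RingHom.mem_ker]
    show ¬ (pt j).ψ 1 = 0
    rw [map_one]
    exact one_ne_zero
  -- `Θ (t ℓ) = θ (T_ℓ)`
  have hΘt : ∀ (ℓ : ℕ) (hℓ : ℓ.Prime) (hℓN : ¬ ℓ ∣ N) (hℓS : ℓ ∉ (↑S : Set ℕ)),
      Θ (t ⟨ℓ, hℓ⟩) = θ (heckeAlgebra.T hℓ hℓN hℓS) := by
    intro ℓ hℓ hℓN hℓS
    apply (ResidueField.map (algebraMap 𝒪 A)).injective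
    rw [hΘres, hres ℓ hℓ hℓN hℓS]
  -- the characters and the points of `T`
  choose χ hχ using hocc
  have hχlift : ∀ j s, residue (pt j).B (χ j s) =
      ResidueField.map (algebraMap 𝒪 (pt j).B) (θ s) := by
    intro j s
    have := heckeAlgebra_ringHom_ext (S := (↑S : Set ℕ)) (fun q hq hqN => hNS q hq hqN)
      ((residue (pt j).B).comp (χ j)) ((ResidueField.map (algebraMap 𝒪 (pt j).B)).comp θ) (by
        intro ℓ hℓ hℓN hℓS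
        show residue (pt j).B (χ j (heckeAlgebra.T hℓ hℓN hℓS)) =
          ResidueField.map (algebraMap 𝒪 (pt j).B) (θ (heckeAlgebra.T hℓ hℓN hℓS))
        rw [hχ j ℓ hℓ hℓN hℓS, (pt j).residue_ψ Θ (hle j), hΘt ℓ hℓ hℓN hℓS])
    exact congrArg (fun φ : ↥(heckeAlgebra N 2 (↑S : Set ℕ)) →+* ResidueField (pt j).B => φ s) this
  choose ψ hψ using fun j => hfull (pt j).B (χ j) (hχlift j)
  -- the two maps into the product
  let ι : A →ₐ[𝒪] (∀ j, (pt j).B) := AlgHom.pi fun j => (pt j).ψ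
  let Ψ : T →ₐ[𝒪] (∀ j, (pt j).B) := AlgHom.pi ψ
  have hιinj : Function.Injective ι := by
    rw [injective_iff_map_eq_zero]
    intro a ha
    exact hinj a fun j => congrFun ha j
  have hΨT : ∀ (ℓ : ℕ) (hℓ : ℓ.Prime) (hℓN : ¬ ℓ ∣ N) (hℓS : ℓ ∉ (↑S : Set ℕ)),
      Ψ (H.π (heckeAlgebra.T hℓ hℓN hℓS)) = ι (t ⟨ℓ, hℓ⟩) := by
    intro ℓ hℓ hℓN hℓS
    funext j
    show ψ j (H.π (heckeAlgebra.T hℓ hℓN hℓS)) = (pt j).ψ (t ⟨ℓ, hℓ⟩)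
    rw [hψ j, hχ j ℓ hℓ hℓN hℓS]
  -- `Ψ (π s) ∈ range ι`
  have hπmem : ∀ s : ↥(heckeAlgebra N 2 (↑S : Set ℕ)), Ψ (H.π s) ∈ ι.range := by
    rintro ⟨s, hs⟩
    induction hs using Algebra.adjoin_induction with
    | mem x hx =>
      rcases hx with ⟨ℓ, hℓ, hℓN, hℓS, rfl⟩ | ⟨q, hqN, hq, hqS, rfl⟩
      · exact ⟨t ⟨ℓ, hℓ⟩, (hΨT ℓ hℓ hℓN hℓS).symm⟩
      · exact absurd (hNS q hq hqN) hqS
    | algebraMap r =>
      have h1 : (⟨algebraMap ℤ _ r, Subalgebra.algebraMap_mem _ r⟩ :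
          ↥(heckeAlgebra N 2 (↑S : Set ℕ))) = ((r : ℤ) : ↥(heckeAlgebra N 2 (↑S : Set ℕ))) := by
        apply Subtype.ext
        simp
      rw [h1, map_intCast, map_intCast]
      exact Subalgebra.intCast_mem _ r
    | add x y hx hy ihx ihy =>
      have h1 : (⟨x + y, Subalgebra.add_mem _ hx hy⟩ : ↥(heckeAlgebra N 2 (↑S : Set ℕ))) =
          ⟨x, hx⟩ + ⟨y, hy⟩ := rfl
      rw [h1, map_add, map_add]
      exact Subalgebra.add_mem _ ihx ihy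
    | mul x y hx hy ihx ihy =>
      have h1 : (⟨x * y, Subalgebra.mul_mem _ hx hy⟩ : ↥(heckeAlgebra N 2 (↑S : Set ℕ))) =
          ⟨x, hx⟩ * ⟨y, hy⟩ := rfl
      rw [h1, map_mul, map_mul]
      exact Subalgebra.mul_mem _ ihx ihy
  have hΨle : ∀ x : T, Ψ x ∈ ι.range := by
    intro x
    have hx : x ∈ Algebra.adjoin 𝒪 (Set.range H.π) := by rw [H.adjoin_range_π]; trivial
    induction hx using Algebra.adjoin_induction with
    | mem y hy =>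
      obtain ⟨s, rfl⟩ := hy
      exact hπmem s
    | algebraMap r => rw [AlgHom.commutes]; exact Subalgebra.algebraMap_mem _ r
    | add x y _ _ ihx ihy => rw [map_add]; exact Subalgebra.add_mem _ ihx ihy
    | mul x y _ _ ihx ihy => rw [map_mul]; exact Subalgebra.mul_mem _ ihx ihy
  -- the homomorphism
  let e : A ≃ₐ[𝒪] ι.range := AlgEquiv.ofInjective ι hιinj
  let f : T →ₐ[𝒪] A := (e.symm : ι.range →ₐ[𝒪] A).comp (Ψ.codRestrict ι.range hΨle)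
  have hιf : ∀ x, ι (f x) = Ψ x := by
    intro x
    have h1 : (e (f x) : ∀ j, (pt j).B) = Ψ x := by
      show ((e (e.symm (Ψ.codRestrict ι.range hΨle x)) : ι.range) : ∀ j, (pt j).B) = Ψ x
      rw [AlgEquiv.apply_symm_apply]
      rfl
    exact h1
  have hfT : ∀ (ℓ : ℕ) (hℓ : ℓ.Prime) (hℓN : ¬ ℓ ∣ N) (hℓS : ℓ ∉ (↑S : Set ℕ)),
      f (H.π (heckeAlgebra.T hℓ hℓN hℓS)) = t ⟨ℓ, hℓ⟩ := by
    intro ℓ hℓ hℓN hℓS
    apply hιinj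
    rw [hιf, hΨT]
  refine ⟨f, ?_, hfT⟩
  -- surjectivity
  have hrange : f.range = ⊤ := by
    rw [eq_top_iff, ← hgen]
    refine Algebra.adjoin_le ?_
    rintro _ ⟨ℓ, hℓS, rfl⟩
    have hℓS' : (ℓ : ℕ) ∉ (↑S : Set ℕ) := hℓS
    have hℓN : ¬ (ℓ : ℕ) ∣ N := fun h => hℓS' (by exact_mod_cast hNS ℓ ℓ.2 h)
    exact ⟨_, hfT ℓ ℓ.2 hℓN hℓS'⟩
  intro a
  have : a ∈ f.range := by rw [hrange]; trivial
  exact this

/-- **the surjection `T → A`** when every point of `A` occurs. -/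
theorem exists_surjective_algHom_of_occurs_dvr (H : HeckeGaloisRepDatum N (↑S : Set ℕ) 𝒪 θ T)
    (hfull : ∀ (B : Type) [CommRing B] [IsDomain B] [IsDiscreteValuationRing B] [Algebra 𝒪 B]
      [Module.Finite 𝒪 B] [IsLocalHom (algebraMap 𝒪 B)]
      (χ : ↥(heckeAlgebra N 2 (↑S : Set ℕ)) →+* B),
      (∀ t, residue B (χ t) = ResidueField.map (algebraMap 𝒪 B) (θ t)) →
        ∃ ψ : T →ₐ[𝒪] B, ∀ t, ψ (H.π t) = χ t)
    (hNS : ∀ q : ℕ, q.Prime → q ∣ N → q ∈ S)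
    (hsurj : Function.Surjective (residue A ∘ algebraMap 𝒪 A))
    (t : Nat.Primes → A)
    (hgen : Algebra.adjoin 𝒪 (t '' {ℓ | (ℓ : ℕ) ∉ (S : Set ℕ)}) = ⊤)
    (hres : ∀ (ℓ : ℕ) (hℓ : ℓ.Prime) (hℓN : ¬ ℓ ∣ N) (hℓS : ℓ ∉ (↑S : Set ℕ)),
      residue A (t ⟨ℓ, hℓ⟩) =
        ResidueField.map (algebraMap 𝒪 A) (θ (heckeAlgebra.T hℓ hℓN hℓS)))
    (hocc : ∀ x : DVRPoint 𝒪 A, ∃ χ : ↥(heckeAlgebra N 2 (↑S : Set ℕ)) →+* x.B,
      ∀ (ℓ : ℕ) (hℓ : ℓ.Prime) (hℓN : ¬ ℓ ∣ N) (hℓS : ℓ ∉ (↑S : Set ℕ)),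
        χ (heckeAlgebra.T hℓ hℓN hℓS) = x.ψ (t ⟨ℓ, hℓ⟩)) :
    ∃ f : T →ₐ[𝒪] A, Function.Surjective f ∧
      ∀ (ℓ : ℕ) (hℓ : ℓ.Prime) (hℓN : ¬ ℓ ∣ N) (hℓS : ℓ ∉ (↑S : Set ℕ)),
        f (H.π (heckeAlgebra.T hℓ hℓN hℓS)) = t ⟨ℓ, hℓ⟩ := by
  obtain ⟨Θ, hΘres, hΘker⟩ := exists_theta_of_residue_surjective (𝒪 := 𝒪) (A := A) hsurj
  obtain ⟨J, hJ, hJne, pt, hle, hinj⟩ := exists_points_family_injective Θ hΘker
  exact exists_surjective_algHom_of_family_dvr H hfull hNS hsurj t hgen hres pt hinj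
    (fun j => hocc (pt j))

end Quotient

end Fermat.Agent.RB.L0
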