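/-
PROJECT RB — [TWMOD] second wave, [LEVEL0] (helper3), part 6: **`TWM.level0Statement :
Level0Statement`** (helper2's literal, `RB/TWMOD_helper2_Targets2.lean`).

`M0` = the primary part of `Hom_par(Γ₀(N), 𝒪)`; `𝕋₀ = 𝒪[T_ℓ | M0]` is a finite flat reduced local
`𝒪`-algebra (parts 1, 4), all of whose points occur at level `N` (helper1's
`OCC.exists_character_of_point`), hence a quotient `f : T ↠ 𝕋₀` of the full datum (part 2); `M0`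
becomes a `T`-module through `f`.  Faithfulness and `M0 ≠ 0`: `T` is reduced (lead's [RED-T]) and
flat, so it embeds in the product of its points `ψ : T → B`; the dual projections `Ξ lam : B → M0`
of the lattice eigenvector of `ψ ∘ π` (parts 3, 5) satisfy `t • Ξ lam b = Ξ lam (ψ t * b)` and are
jointly injective.
-/
import Mathlib
import Fermat.Agent.RB.LEVEL0_helper3_Pts
import Fermat.Agent.RB.LEVEL0_helper3_Sub
import Fermat.Agent.RB.OCC_helper1_Level0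
import Fermat.Agent.RB.SS_lead_RedT
import Fermat.Agent.RB.TWMOD_helper2_Targets2

set_option autoImplicit false
set_option linter.unusedSectionVars false
set_option linter.unusedVariables false
set_option linter.style.haveILetI false
set_option maxSynthPendingDepth 2

namespace Fermat.Agent.RB.L0

open CongruenceSubgroup ModularCurve.Period IsLocalRing CuspForm
  Fermat.Agent.GR Fermat.Agent.RB Fermat.Agent.RB.TWM Fermat.Agent.RB.REPT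
open scoped MatrixGroups

section Main

variable {𝒪 : Type} [CommRing 𝒪] [IsDomain 𝒪] [IsDiscreteValuationRing 𝒪]
  [IsAdicComplete (maximalIdeal 𝒪) 𝒪] [Finite (ResidueField 𝒪)] [CharZero 𝒪]
  (N : ℕ) [NeZero N] (S : Finset ℕ) (c : Nat.Primes → 𝒪)
  (θ : heckeAlgebra N 2 (S : Set ℕ) →+* ResidueField 𝒪)
  (T : Type) [CommRing T] [IsLocalRing T] [IsNoetherianRing T]
  [IsAdicComplete (maximalIdeal T) T] [Algebra 𝒪 T] [IsLocalHom (algebraMap 𝒪 T)]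
  [Module.Finite 𝒪 T] [Module.Free 𝒪 T]
  (datum : HeckeGaloisRepDatum N (S : Set ℕ) 𝒪 θ T)

/-- the points of `T` lift `θ`. -/
theorem residue_point (Θ : T →ₐ[𝒪] ResidueField 𝒪)
    (hΘres : ∀ a, ResidueField.map (algebraMap 𝒪 T) (Θ a) = residue T a)
    (P : DVRPoint 𝒪 T)
    (hle : RingHom.ker (P.ψ : T →+* P.B) ≤ RingHom.ker (Θ : T →+* ResidueField 𝒪))
    (t : heckeAlgebra N 2 (S : Set ℕ)) :
    residue P.B (((P.ψ : T →+* P.B).comp datum.π) t) =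
      ResidueField.map (algebraMap 𝒪 P.B) (θ t) := by
  have h1 : Θ (datum.π t) = θ t := by
    apply (ResidueField.map (algebraMap 𝒪 T)).injective
    rw [hΘres, datum.residue_π]
  show residue P.B (P.ψ (datum.π t)) = _
  rw [P.residue_ψ Θ hle, h1]

include datum in
/-- **`M0 ≠ 0`.** -/
theorem nontrivial_M0_of_datum (hNS : ∀ q : ℕ, q.Prime → q ∣ N → q ∈ S)
    (hc : ∀ (ℓ : ℕ) (hℓ : ℓ.Prime) (hℓN : ¬ ℓ ∣ N) (hℓS : ℓ ∉ (S : Set ℕ)),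
      residue 𝒪 (c ⟨ℓ, hℓ⟩) = θ (heckeAlgebra.T hℓ hℓN hℓS)) :
    Nontrivial ↥(M0 N (S : Set ℕ) c) := by
  have hNS' : ∀ q : ℕ, q.Prime → q ∣ N → q ∈ (S : Set ℕ) := fun q hq hqN => by
    exact_mod_cast hNS q hq hqN
  have hSN : ∀ ℓ : Nat.Primes, (ℓ : ℕ) ∉ (S : Set ℕ) → ¬ (ℓ : ℕ) ∣ N :=
    fun ℓ h hd => h (hNS' ℓ ℓ.2 hd)
  haveI : IsReduced T := SSL.isReduced_of_datum N (S : Set ℕ) θ T hNS' datum
  obtain ⟨Θ, hΘres, hΘker⟩ := exists_theta_of_residue_surjective (𝒪 := 𝒪) (A := T)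
    datum.residue_surjective
  obtain ⟨J, hJ, ⟨j⟩, pt, hle, hinj⟩ := exists_points_family_injective Θ hΘker
  exact nontrivial_M0 N (S : Set ℕ) c θ (pt j).injective hSN hc
    (((pt j).ψ : T →+* (pt j).B).comp datum.π)
    (residue_point N S θ T datum Θ hΘres (pt j) (hle j))

/-- **the action of `T` on `M0`.** -/
theorem exists_algHom_M0 [Nontrivial ↥(M0 N (S : Set ℕ) c)]
    (hfull : ∀ (B : Type) [CommRing B] [IsDomain B] [IsDiscreteValuationRing B] [Algebra 𝒪 B]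
      [Module.Finite 𝒪 B] [IsLocalHom (algebraMap 𝒪 B)]
      (χ : heckeAlgebra N 2 (S : Set ℕ) →+* B),
      (∀ t, residue B (χ t) = ResidueField.map (algebraMap 𝒪 B) (θ t)) →
        ∃ ψ : T →ₐ[𝒪] B, ∀ t, ψ (datum.π t) = χ t)
    (hNS : ∀ q : ℕ, q.Prime → q ∣ N → q ∈ S)
    (hc : ∀ (ℓ : ℕ) (hℓ : ℓ.Prime) (hℓN : ¬ ℓ ∣ N) (hℓS : ℓ ∉ (S : Set ℕ)),
      residue 𝒪 (c ⟨ℓ, hℓ⟩) = θ (heckeAlgebra.T hℓ hℓN hℓS)) :
    ∃ g : T →ₐ[𝒪] Module.End 𝒪 ↥(M0 N (S : Set ℕ) c),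
      ∀ (ℓ : ℕ) (hℓ : ℓ.Prime) (hℓN : ¬ ℓ ∣ N) (hℓS : ℓ ∉ (S : Set ℕ)),
        g (datum.π (heckeAlgebra.T hℓ hℓN hℓS)) = resOp N (S : Set ℕ) c ⟨ℓ, hℓ⟩ := by
  classical
  have hNS' : ∀ q : ℕ, q.Prime → q ∣ N → q ∈ (S : Set ℕ) := fun q hq hqN => by
    exact_mod_cast hNS q hq hqN
  have hSN : ∀ ℓ : Nat.Primes, (ℓ : ℕ) ∉ (S : Set ℕ) → ¬ (ℓ : ℕ) ∣ N :=
    fun ℓ h hd => h (hNS' ℓ ℓ.2 hd)
  haveI : IsLocalRing (fam N (S : Set ℕ) c).alg := fam_isLocalRing N (S : Set ℕ) c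
  haveI : IsLocalHom (algebraMap 𝒪 (fam N (S : Set ℕ) c).alg) := fam_isLocalHom N (S : Set ℕ) c
  haveI : Module.Finite 𝒪 (fam N (S : Set ℕ) c).alg := (fam N (S : Set ℕ) c).finite_alg
  haveI : Module.Flat 𝒪 (fam N (S : Set ℕ) c).alg := (fam N (S : Set ℕ) c).flat_alg
  haveI : IsReduced (fam N (S : Set ℕ) c).alg := fam_isReduced N (S : Set ℕ) c hSN
  have hsurj : Function.Surjective (residue (fam N (S : Set ℕ) c).alg ∘
      algebraMap 𝒪 (fam N (S : Set ℕ) c).alg) := fam_residue_surjective N (S : Set ℕ) c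
  have hgen : Algebra.adjoin 𝒪 (genP N (S : Set ℕ) c '' {ℓ | (ℓ : ℕ) ∉ (S : Set ℕ)}) = ⊤ :=
    adjoin_genP N (S : Set ℕ) c
  have hrest : ∀ (ℓ : ℕ) (hℓ : ℓ.Prime) (hℓN : ¬ ℓ ∣ N) (hℓS : ℓ ∉ (S : Set ℕ)),
      residue (fam N (S : Set ℕ) c).alg (genP N (S : Set ℕ) c ⟨ℓ, hℓ⟩) =
        ResidueField.map (algebraMap 𝒪 (fam N (S : Set ℕ) c).alg)
          (θ (heckeAlgebra.T hℓ hℓN hℓS)) := by
    intro ℓ hℓ hℓN hℓS
    exact (fam_residue_genP N (S : Set ℕ) c ⟨ℓ, hℓ⟩ hℓS).trans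
      (congrArg (ResidueField.map (algebraMap 𝒪 (fam N (S : Set ℕ) c).alg)) (hc ℓ hℓ hℓN hℓS))
  have hocc : ∀ x : DVRPoint 𝒪 (fam N (S : Set ℕ) c).alg,
      ∃ χ : heckeAlgebra N 2 (S : Set ℕ) →+* x.B,
      ∀ (ℓ : ℕ) (hℓ : ℓ.Prime) (hℓN : ¬ ℓ ∣ N) (hℓS : ℓ ∉ (S : Set ℕ)),
        χ (heckeAlgebra.T hℓ hℓN hℓS) = x.ψ (genP N (S : Set ℕ) c ⟨ℓ, hℓ⟩) := by
    intro x
    haveI : Algebra.IsIntegral 𝒪 (fam N (S : Set ℕ) c).alg :=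
      Algebra.IsIntegral.of_finite 𝒪 (fam N (S : Set ℕ) c).alg
    refine OCC.exists_character_of_point (S : Set ℕ) hNS'
      ((parabolicHoms 𝒪 (Gamma0 N) 𝒪).subtype ∘ₗ (M0 N (S : Set ℕ) c).subtype) ?_
      (fun h => h.1.2) (fam N (S : Set ℕ) c).alg.val Subtype.val_injective
      (genP N (S : Set ℕ) c) ?_ x.ψ
    · exact (Subtype.val_injective).comp Subtype.val_injective
    · intro ℓ hℓS h
      show ((((genP N (S : Set ℕ) c ℓ : (fam N (S : Set ℕ) c).alg) :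
        Module.End 𝒪 ↥(M0 N (S : Set ℕ) c)) h : ↥(M0 N (S : Set ℕ) c)) :
          ↥(parabolicHoms 𝒪 (Gamma0 N) 𝒪)).1 = _
      rw [coe_genP N (S : Set ℕ) c ℓ hℓS]
      rfl
  obtain ⟨f, -, hf⟩ := exists_surjective_algHom_of_occurs_dvr datum hfull hNS hsurj
    (genP N (S : Set ℕ) c) hgen hrest hocc
  refine ⟨(fam N (S : Set ℕ) c).alg.val.comp f, fun ℓ hℓ hℓN hℓS => ?_⟩
  show ((f (datum.π (heckeAlgebra.T hℓ hℓN hℓS)) : (fam N (S : Set ℕ) c).alg) :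
    Module.End 𝒪 ↥(M0 N (S : Set ℕ) c)) = _
  rw [hf ℓ hℓ hℓN hℓS]
  exact coe_genP N (S : Set ℕ) c ⟨ℓ, hℓ⟩ hℓS

/-- a point of `T` vanishes on the kernel of the action on `M0`. -/
theorem point_eq_zero_of_algHom_eq_zero (hNS : ∀ q : ℕ, q.Prime → q ∣ N → q ∈ S)
    (hc : ∀ (ℓ : ℕ) (hℓ : ℓ.Prime) (hℓN : ¬ ℓ ∣ N) (hℓS : ℓ ∉ (S : Set ℕ)),
      residue 𝒪 (c ⟨ℓ, hℓ⟩) = θ (heckeAlgebra.T hℓ hℓN hℓS))
    (g : T →ₐ[𝒪] Module.End 𝒪 ↥(M0 N (S : Set ℕ) c))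
    (hg : ∀ (ℓ : ℕ) (hℓ : ℓ.Prime) (hℓN : ¬ ℓ ∣ N) (hℓS : ℓ ∉ (S : Set ℕ)),
      g (datum.π (heckeAlgebra.T hℓ hℓN hℓS)) = resOp N (S : Set ℕ) c ⟨ℓ, hℓ⟩)
    (Θ : T →ₐ[𝒪] ResidueField 𝒪)
    (hΘres : ∀ a, ResidueField.map (algebraMap 𝒪 T) (Θ a) = residue T a)
    (P : DVRPoint 𝒪 T)
    (hle : RingHom.ker (P.ψ : T →+* P.B) ≤ RingHom.ker (Θ : T →+* ResidueField 𝒪))
    (t : T) (ht : g t = 0) : P.ψ t = 0 := by
  have hNS' : ∀ q : ℕ, q.Prime → q ∣ N → q ∈ (S : Set ℕ) := fun q hq hqN => by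
    exact_mod_cast hNS q hq hqN
  have hSN : ∀ ℓ : Nat.Primes, (ℓ : ℕ) ∉ (S : Set ℕ) → ¬ (ℓ : ℕ) ∣ N :=
    fun ℓ h hd => h (hNS' ℓ ℓ.2 hd)
  obtain ⟨Ξ, hΞT, hΞinj⟩ := exists_dualM0 N (S : Set ℕ) c θ P.injective hSN hc
    ((P.ψ : T →+* P.B).comp datum.π) (residue_point N S θ T datum Θ hΘres P hle)
  -- the subalgebra of the elements acting through `ψ` on the `Ξ lam b`
  have hπ : ∀ s, datum.π s ∈ (intertwineSub g P.ψ Ξ).toSubring := by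
    refine heckeAlgebra_map_mem hNS' datum.π (intertwineSub g P.ψ Ξ).toSubring
      fun ℓ hℓ hℓN hℓS => ?_
    intro lam b
    rw [hg ℓ hℓ hℓN hℓS, hΞT lam ⟨ℓ, hℓ⟩ hℓS b, heckeGenS_eq_T (S : Set ℕ) hℓ hℓN hℓS]
    rfl
  have hU : (⊤ : Subalgebra 𝒪 T) ≤ intertwineSub g P.ψ Ξ := by
    rw [← datum.adjoin_range_π]
    refine Algebra.adjoin_le ?_
    rintro _ ⟨s, rfl⟩
    exact hπ s
  have htU : t ∈ intertwineSub g P.ψ Ξ := hU Algebra.mem_top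
  apply hΞinj
  intro lam
  have h1 := htU lam 1
  rw [ht, LinearMap.zero_apply, mul_one] at h1
  exact h1.symm

/-- **the action of `T` on `M0` is faithful.** -/
theorem eq_zero_of_algHom_eq_zero (hNS : ∀ q : ℕ, q.Prime → q ∣ N → q ∈ S)
    (hc : ∀ (ℓ : ℕ) (hℓ : ℓ.Prime) (hℓN : ¬ ℓ ∣ N) (hℓS : ℓ ∉ (S : Set ℕ)),
      residue 𝒪 (c ⟨ℓ, hℓ⟩) = θ (heckeAlgebra.T hℓ hℓN hℓS))
    (g : T →ₐ[𝒪] Module.End 𝒪 ↥(M0 N (S : Set ℕ) c))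
    (hg : ∀ (ℓ : ℕ) (hℓ : ℓ.Prime) (hℓN : ¬ ℓ ∣ N) (hℓS : ℓ ∉ (S : Set ℕ)),
      g (datum.π (heckeAlgebra.T hℓ hℓN hℓS)) = resOp N (S : Set ℕ) c ⟨ℓ, hℓ⟩)
    (t : T) (ht : g t = 0) : t = 0 := by
  have hNS' : ∀ q : ℕ, q.Prime → q ∣ N → q ∈ (S : Set ℕ) := fun q hq hqN => by
    exact_mod_cast hNS q hq hqN
  haveI : IsReduced T := SSL.isReduced_of_datum N (S : Set ℕ) θ T hNS' datum
  obtain ⟨Θ, hΘres, hΘker⟩ := exists_theta_of_residue_surjective (𝒪 := 𝒪) (A := T)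
    datum.residue_surjective
  obtain ⟨J, hJ, hJne, pt, hle, hinj⟩ := exists_points_family_injective Θ hΘker
  apply hinj
  intro j
  exact point_eq_zero_of_algHom_eq_zero N S c θ T datum hNS hc g hg Θ hΘres (pt j) (hle j) t ht

end Main

end Fermat.Agent.RB.L0

namespace Fermat.Agent.RB.TWM

open CongruenceSubgroup ModularCurve.Period IsLocalRing CuspForm
  Fermat.Agent.GR Fermat.Agent.RB Fermat.Agent.RB.L0

set_option maxHeartbeats 4000000 in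
/-- **[LEVEL0]** -/
theorem level0Statement : Level0Statement := by
  intro 𝒪 _ _ _ _ _ _ p _ hp5 hp𝒪 N _ S hS θ T _ _ _ _ _ _ _ _ datum hfull c hc
  have hNS : ∀ q : ℕ, q.Prime → q ∣ N → q ∈ S := fun q hq hqN => (hS q).2 ⟨hq, Or.inr hqN⟩
  haveI : Nontrivial ↥(M0 N (S : Set ℕ) c) := nontrivial_M0_of_datum N S c θ T datum hNS hc
  obtain ⟨g, hg⟩ := exists_algHom_M0 N S c θ T datum hfull hNS hc
  letI inst : Module T ↥(M0 N (S : Set ℕ) c) :=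
    Module.compHom _ (g : T →+* Module.End 𝒪 ↥(M0 N (S : Set ℕ) c))
  have hsmul : ∀ (t : T) (m : ↥(M0 N (S : Set ℕ) c)), t • m = g t m := fun t m => rfl
  refine ⟨inst, ⟨fun r t m => ?_⟩, inferInstance, inferInstance, Module.finrank_pos, ?_, ?_⟩
  · rw [hsmul, hsmul, map_smul]
    rfl
  · intro t ht
    refine eq_zero_of_algHom_eq_zero N S c θ T datum hNS hc g hg t ?_
    apply LinearMap.ext
    intro m
    rw [← hsmul, ht m]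
    rfl
  · intro ℓ hℓ hℓN hℓS x
    rw [hsmul, hg ℓ hℓ hℓN hℓS]
    rfl

end Fermat.Agent.RB.TWM
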