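/-
PROJECT RB — bridge [LGC-BR] (lead), part 5: **from occurrence in `Hom_par(Γ₀(M), L)` to a character
of the Hecke algebra of level `M`** (the converse of helper2's `eigenParOn_ne_bot_of_character`).

`D` a domain of characteristic zero, integral over `ℤ`, embedded in a field `L`; a system
`d : Nat.Primes → D` whose image in `L` occurs, at the primes outside `S`, in `Hom_par(Γ₀(M), L)`
(`S` containing the primes dividing `M`).  Then there is a ring homomorphism
`χ : 𝕋_S(M) → D` with `χ(T_ℓ) = d ℓ` for `ℓ ∉ S`.  (Embed `D` in `ℂ`, transfer the occurrence to `ℂ`,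
extend to a full system, take the eigenform and its eigencharacter; its values lie in `D` because
`𝕋_S(M)` is generated by the `T_ℓ`.)
-/
import Mathlib
import Fermat.Agent.S35.OCC_helper8
import Fermat.Agent.S58.COMPL_helper3

set_option autoImplicit false
set_option linter.unusedSectionVars false
set_option linter.unusedVariables false
set_option linter.style.haveILetI false

namespace Fermat.Agent.RB.LGCBR

open CongruenceSubgroup ModularFormClass Fermat.Agent.GR CuspForm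

section Old

variable {M : ℕ} [NeZero M]

/-- an embedding into `ℂ` of a characteristic-zero domain integral over `ℤ`. -/
theorem exists_embedding_complex (D : Type) [CommRing D] [IsDomain D] [CharZero D]
    [Algebra.IsIntegral ℤ D] : ∃ ι : D →+* ℂ, Function.Injective ι := by
  haveI : Algebra.IsAlgebraic ℤ D := Algebra.IsIntegral.isAlgebraic
  let ι : D →ₐ[ℤ] ℂ := IsAlgClosed.lift
  refine ⟨ι.toRingHom, ?_⟩
  rw [injective_iff_map_eq_zero]
  intro x hx
  have hker : RingHom.ker ι.toRingHom = ⊥ := by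
    apply Ideal.eq_bot_of_comap_eq_bot (R := ℤ)
    rw [eq_bot_iff]
    intro n hn
    rw [Ideal.mem_comap, RingHom.mem_ker] at hn
    have h1 : ι (algebraMap ℤ D n) = 0 := hn
    rw [AlgHom.commutes] at h1
    have h2 : (n : ℂ) = 0 := by simpa using h1
    rw [Ideal.mem_bot]
    exact_mod_cast h2
  have : x ∈ RingHom.ker ι.toRingHom := hx
  rw [hker] at this
  exact this

/-- **from occurrence to a character.** -/
theorem exists_character_of_eigenParOn (S : Set ℕ) (hMS : ∀ ℓ : ℕ, ℓ.Prime → ℓ ∣ M → ℓ ∈ S)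
    {D : Type} [CommRing D] [IsDomain D] [CharZero D] [Algebra.IsIntegral ℤ D]
    {L : Type*} [Field L] [CharZero L] (g : D →+* L) (hg : Function.Injective g)
    (d : Nat.Primes → D)
    (hocc : eigenParOn M L (primesOutside S) (fun ℓ => g (d ℓ)) ≠ ⊥) :
    ∃ χ : heckeAlgebra M 2 S →+* D,
      ∀ (ℓ : ℕ) (hℓ : ℓ.Prime) (hℓM : ¬ ℓ ∣ M) (hℓS : ℓ ∉ S),
        χ (heckeAlgebra.T hℓ hℓM hℓS) = d ⟨ℓ, hℓ⟩ := by
  classical
  obtain ⟨ι, hι⟩ := exists_embedding_complex D
  -- occurrence over `ℂ`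
  have hoccC : eigenParOn M ℂ (primesOutside S) (fun ℓ => ι (d ℓ)) ≠ ⊥ :=
    eigenParOn_ne_bot_of_domain (N := M) g ι hg hι (primesOutside S) d hocc
  obtain ⟨a', ha', haσ⟩ := exists_eigenPar_of_eigenParOn hoccC
  obtain ⟨f₀, hf₀, hf₀mem⟩ := exists_eigenForm_of_eigenPar_ne_bot ha'
  set lam : ℕ → ℂ := fun p => if hp : p.Prime then a' ⟨p, hp⟩ else 0 with hlam
  have hlamp : ∀ (p : ℕ) (hp : p.Prime), lam p = a' ⟨p, hp⟩ := fun p hp => dif_pos hp
  obtain ⟨g', hg', hg'q⟩ := Fermat.Agent.S49E.exists_isNormalizedEigenform_of_eigenvector f₀ hf₀ lam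
    (fun p hp hpN => by
      have := hf₀mem ⟨p, hp⟩
      rw [heckeOpP_of_not_dvd (ℓ := ⟨p, hp⟩) hpN] at this
      rw [hlamp p hp]
      exact this)
    (fun p hp hpN => by
      have := hf₀mem ⟨p, hp⟩
      rw [heckeOpP_of_dvd (ℓ := ⟨p, hp⟩) hpN] at this
      rw [hlamp p hp]
      exact this)
  -- the eigencharacter
  obtain ⟨chig, -, hchigT, -⟩ := Fermat.Agent.S58.exists_eigenChar hg' S
  have hval : ∀ (ℓ : ℕ) (hℓ : ℓ.Prime) (hℓM : ¬ ℓ ∣ M) (hℓS : ℓ ∉ S),
      chig (heckeAlgebra.T hℓ hℓM hℓS) = ι (d ⟨ℓ, hℓ⟩) := by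
    intro ℓ hℓ hℓM hℓS
    rw [hchigT ℓ hℓ hℓM hℓS, hg'q ℓ hℓ, hlamp ℓ hℓ]
    exact haσ ⟨ℓ, hℓ⟩ hℓS
  -- its values lie in the image of `D`
  have hrange : ∀ (t : Module.End ℂ (CuspForm (Gamma0 M) 2)) (ht : t ∈ heckeAlgebra M 2 S),
      chig ⟨t, ht⟩ ∈ ι.range := by
    intro t ht
    induction ht using Algebra.adjoin_induction with
    | mem x hx =>
      rcases hx with ⟨ℓ, hℓ, hℓM, hℓS, rfl⟩ | ⟨q, hqM, hq, hqS, rfl⟩
      · exact ⟨d ⟨ℓ, hℓ⟩, (hval ℓ hℓ hℓM hℓS).symm⟩
      · exact absurd (hMS q hq hqM) hqS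
    | algebraMap r =>
      refine ⟨(r : D), ?_⟩
      have e : (⟨algebraMap ℤ (Module.End ℂ (CuspForm (Gamma0 M) 2)) r,
          Subalgebra.algebraMap_mem _ r⟩ : heckeAlgebra M 2 S) = (r : heckeAlgebra M 2 S) := by
        apply Subtype.ext
        simp
      rw [e, map_intCast, map_intCast]
    | add x y hx hy ihx ihy =>
      have e : (⟨x + y, add_mem hx hy⟩ : heckeAlgebra M 2 S) = ⟨x, hx⟩ + ⟨y, hy⟩ := rfl
      rw [e, map_add]
      exact add_mem ihx ihy
    | mul x y hx hy ihx ihy =>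
      have e : (⟨x * y, mul_mem hx hy⟩ : heckeAlgebra M 2 S) = ⟨x, hx⟩ * ⟨y, hy⟩ := rfl
      rw [e, map_mul]
      exact mul_mem ihx ihy
  have hrange' : ∀ t : heckeAlgebra M 2 S, ∃ c : D, ι c = chig t := fun t => hrange t.1 t.2
  choose χ hχ using hrange'
  refine ⟨{ toFun := χ
            map_one' := hι (by rw [hχ, map_one, map_one])
            map_mul' := fun s t => hι (by rw [hχ, map_mul, map_mul, hχ, hχ])
            map_zero' := hι (by rw [hχ, map_zero, map_zero])
            map_add' := fun s t => hι (by rw [hχ, map_add, map_add, hχ, hχ]) }, ?_⟩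
  intro ℓ hℓ hℓM hℓS
  apply hι
  show ι (χ _) = _
  rw [hχ, hval]

end Old

end Fermat.Agent.RB.LGCBR
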