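/-
PROJECT RB — [TWMOD] (owner helper2) — **the CONTRACT between [TWMOD] and its consumers**
([REP_T](B) helper1, (KEY-H) helper5/7/8, GLUE helper9): what the module side of the Taylor–Wiles
construction delivers, WITHOUT any Galois representation.

For a set `Q` of Taylor–Wiles primes of level `n` put `Nt = N * ∏ Q`, `M = ∏ Σ * ∏ Q`,
`Nbig = (N / ∏ Σ) * M ^ 2`, `Sbig = S ∪ Q`.  [TWMOD] produces, for each of the two sides
(`z = 1`: trivial nebentypus at `Σ`;  `z = ζ`: nebentypus of order `p` at `Σ`):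

* a finite free `𝒪`-module `H` with commuting operators `Tt ℓ` (the TWISTED Hecke operators
  `[⟨ℓ⟩^{-1/2}] T_ℓ`, `ℓ ∉ Sbig`; junk (zero) for the other primes) and `g q` (the square roots of
  the diamond operators at the primes of `Q`), free of rank `d` over `𝒪[(ℤ/p^n)^r]` in the literal
  form of `TWSide.free`;
* `Occ`: the commutative `𝒪`-algebra `alg` generated by the `Tt ℓ` and the `g q` is REDUCED, the
  `Tt ℓ` are residually `θ(T_ℓ)`, and for every point `x : alg → B` (`B` a discrete valuation ring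
  finite over `𝒪`) and every algebraically closed field `F ⊇ B`:
  (OCC-a) the system `ℓ ↦ x(Tt ℓ)` occurs at level `Γ₀(Nbig)` with trivial nebentypus:
          a ring homomorphism `χ : heckeAlgebra Nbig 2 Sbig → B` with `χ(T_ℓ) = x(Tt ℓ)`
          (so REP_T(A) at level `Nbig` gives `ρ_x`, and S31/S32/S34 its local properties);
  (OCC-b) the UNTWISTED system occurs in `W1.eigenPar Nt F`: a system `a : HIdx Nt → F` and a
          character `ψh : (ℤ/Nt)ˣ → Fˣ` of `p`-power order ("`ψ^{1/2}`") with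
          `a(⟨u⟩) = ψh(u)²`, `a(T_ℓ) = ψh(ℓ) x(Tt ℓ)`, `x(g q) = ψh(uQ q)` where `uQ q ≡ 1` modulo
          `Nt / Q q`, and at `v ∈ Σ`: `ψh(uS v) = z`, and `ψh(u) ∈ z^ℤ` for `u ≡ 1 mod Nt / v`
          (so W1 + (KEY-H) give `ρ_a` with `tr ρ_a(σ) = 1 + ψh(a_σ)²` on inertia at `Q q`, `v`, and
          `ρ_x ≅ ρ_a ⊗ ψh⁻¹` has `tr ρ_x(σ) = ψh(a_σ) + ψh(a_σ)⁻¹`);
* the common reduction `Hbar` of the two sides modulo `lam`, compatible with `Tt`, `g`;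
* the control map `ctl : H₁ → M0` onto the module of level `N`, with kernel `∑ (g q - 1) H₁`,
  intertwining `Tt ℓ` with `datum.π (T_ℓ)`.

`TWModStatement` is the theorem [TWMOD] proves (with the extra hypotheses `hfull`, `hNE`, see
below); `TWProducerStatement` follows from it by [REP_T](B) + (KEY-H).
-/
import Mathlib
import Fermat.Prelude.Def_CuspForm_HeckeGaloisRepDatum
import Fermat.Agent.W1.TOP1_lead_LatRank

set_option autoImplicit false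

open Polynomial IsLocalRing

namespace Fermat.Agent.RB

/-- **one side of the module data**: module, twisted Hecke operators, square roots of the diamond
operators at `Q`, freeness over `𝒪[(ℤ/p^n)^r]`. -/
structure TWModSide (𝒪 : Type) [CommRing 𝒪] (p r d n : ℕ) : Type 1 where
  /-- the module -/
  H : Type
  [instAddCommGroup : AddCommGroup H]
  [instModule : Module 𝒪 H]
  /-- the twisted Hecke operators `[⟨ℓ⟩^{-1/2}] T_ℓ` -/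
  Tt : Nat.Primes → Module.End 𝒪 H
  /-- the (square roots of the) diamond operators at the Taylor–Wiles primes -/
  g : Fin r → Module.End 𝒪 H
  Tt_comm : ∀ ℓ ℓ', Commute (Tt ℓ) (Tt ℓ')
  g_comm : ∀ q q', Commute (g q) (g q')
  g_comm_Tt : ∀ q ℓ, Commute (g q) (Tt ℓ)
  g_pow : ∀ q, g q ^ (p ^ n) = 1
  /-- freeness of rank `d` over `𝒪[(ℤ/p^n)^r]`, literally as in `TWSide.free` -/
  b : Fin d → H
  free : Function.Bijective fun c : (Fin d × (Fin r → Fin (p ^ n))) →₀ 𝒪 =>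
    c.sum fun je a =>
      a • (((List.finRange r).map fun q => g q ^ ((je.2 q : Fin (p ^ n)) : ℕ)).prod (b je.1))

attribute [instance] TWModSide.instAddCommGroup TWModSide.instModule

namespace TWModSide

variable {𝒪 : Type} [CommRing 𝒪] {p r d n : ℕ} (X : TWModSide 𝒪 p r d n)

/-- the `𝒪`-algebra generated by the twisted Hecke operators and the `g q`. -/
def alg : Subalgebra 𝒪 (Module.End 𝒪 X.H) :=
  Algebra.adjoin 𝒪 (Set.range X.Tt ∪ Set.range X.g)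

theorem Tt_mem_alg (ℓ : Nat.Primes) : X.Tt ℓ ∈ X.alg :=
  Algebra.subset_adjoin (Or.inl ⟨ℓ, rfl⟩)

theorem g_mem_alg (q : Fin r) : X.g q ∈ X.alg :=
  Algebra.subset_adjoin (Or.inr ⟨q, rfl⟩)

/-- `Tt ℓ` as an element of `alg`. -/
def TtA (ℓ : Nat.Primes) : X.alg := ⟨X.Tt ℓ, X.Tt_mem_alg ℓ⟩

/-- `g q` as an element of `alg`. -/
def gA (q : Fin r) : X.alg := ⟨X.g q, X.g_mem_alg q⟩

end TWModSide

section

variable {𝒪 : Type} [CommRing 𝒪] [IsDomain 𝒪] [IsDiscreteValuationRing 𝒪]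

/-- **the occurrence contract of one side.**  `z = 1` on side 1, `z = ζ` on side 2. -/
structure TWModSide.Occ {p r d n : ℕ} (X : TWModSide 𝒪 p r d n) (lam z : 𝒪)
    {N : ℕ} [NeZero N] {S : Finset ℕ}
    (θ : CuspForm.heckeAlgebra N 2 (S : Set ℕ) →+* ResidueField 𝒪)
    (Sig : Finset ℕ) (Nt Nbig : ℕ) [NeZero Nt] [NeZero Nbig] (Sbig : Finset ℕ)
    (uQ : Fin r → (ZMod Nt)ˣ) (uS : ℕ → (ZMod Nt)ˣ) : Prop where
  /-- (SS) -/
  reduced : ∀ t : X.alg, t ^ 2 = 0 → t = 0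
  /-- the operators at the primes of `Sbig` are junk (zero) -/
  junk : ∀ ℓ : Nat.Primes, (ℓ : ℕ) ∈ Sbig → X.Tt ℓ = 0
  /-- the twisted Hecke operators are residually `θ(T_ℓ)` -/
  residual : ∀ (ℓ : ℕ) (hℓ : ℓ.Prime) (hℓN : ¬ ℓ ∣ N) (hℓS : ℓ ∉ (S : Set ℕ)), ℓ ∉ Sbig →
    ∀ c : 𝒪, residue 𝒪 c = θ (CuspForm.heckeAlgebra.T hℓ hℓN hℓS) →
      ∃ k : ℕ, ∀ h : X.H, ∃ h' : X.H,
        ((X.Tt ⟨ℓ, hℓ⟩ - algebraMap 𝒪 (Module.End 𝒪 X.H) c) ^ k) h = lam • h'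
  /-- (OCC-a) and (OCC-b) -/
  occ : ∀ (B : Type) [CommRing B] [IsDomain B] [IsDiscreteValuationRing B] [Algebra 𝒪 B]
    [Module.Finite 𝒪 B] (x : X.alg →ₐ[𝒪] B),
    (∃ χ : CuspForm.heckeAlgebra Nbig 2 (Sbig : Set ℕ) →+* B,
      ∀ (ℓ : ℕ) (hℓ : ℓ.Prime) (hℓN : ¬ ℓ ∣ Nbig) (hℓS : ℓ ∉ (Sbig : Set ℕ)),
        χ (CuspForm.heckeAlgebra.T hℓ hℓN hℓS) = x (X.TtA ⟨ℓ, hℓ⟩)) ∧
    ∀ (F : Type) [Field F] [IsAlgClosed F] [Algebra B F],
      Function.Injective (algebraMap B F) →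
      ∃ (a : Fermat.Agent.W1.HIdx Nt → F) (ψh : (ZMod Nt)ˣ →* Fˣ),
        Fermat.Agent.W1.eigenPar Nt F a ≠ ⊥ ∧
        (∃ m : ℕ, ∀ u, ψh u ^ (p ^ m) = 1) ∧
        (∀ u : (ZMod Nt)ˣ, a (Sum.inr u) = ((ψh u : Fˣ) : F) ^ 2) ∧
        (∀ (ℓ : ℕ) (hℓ : ℓ.Prime) (hℓN : ¬ ℓ ∣ Nt), ℓ ∉ Sbig →
          a (Sum.inl ⟨ℓ, hℓ⟩) =
            ((ψh (Fermat.Agent.DS48.primeUnit Nt hℓ hℓN) : Fˣ) : F) *
              algebraMap B F (x (X.TtA ⟨ℓ, hℓ⟩))) ∧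
        (∀ q : Fin r, algebraMap B F (x (X.gA q)) = ((ψh (uQ q) : Fˣ) : F)) ∧
        (∀ v ∈ Sig, ((ψh (uS v) : Fˣ) : F) = algebraMap B F (algebraMap 𝒪 B z) ∧
          ∀ u : (ZMod Nt)ˣ, (((u : ZMod Nt).val : ℕ) : ZMod (Nt / v)) = 1 →
            ∃ j : ℕ, ((ψh u : Fˣ) : F) = algebraMap B F (algebraMap 𝒪 B z) ^ j)

variable [IsAdicComplete (maximalIdeal 𝒪) 𝒪]
  {N : ℕ} [NeZero N] {S : Finset ℕ}
  {θ : CuspForm.heckeAlgebra N 2 (S : Set ℕ) →+* ResidueField 𝒪}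
  {T : Type} [CommRing T] [IsLocalRing T] [IsNoetherianRing T]
  [IsAdicComplete (maximalIdeal T) T] [Algebra 𝒪 T] [IsLocalHom (algebraMap 𝒪 T)]
  [Module.Finite 𝒪 T] [Module.Free 𝒪 T]

/-- **the module data of the Taylor–Wiles construction at `(n, Q)`**. -/
structure TWModLevel (p : ℕ) (datum : CuspForm.HeckeGaloisRepDatum N (S : Set ℕ) 𝒪 θ T)
    (Sig : Finset ℕ) (ζ lam : 𝒪) (r d : ℕ) (M0 : Type) [AddCommGroup M0] [Module 𝒪 M0]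
    [Module T M0] (n : ℕ) (Q : Fin r → ℕ) (Nt Nbig : ℕ) [NeZero Nt] [NeZero Nbig] : Type 1 where
  side₁ : TWModSide 𝒪 p r d n
  side₂ : TWModSide 𝒪 p r d n
  /-- `uQ q ≡ 1 mod Nt / Q q`: the class through which inertia at `Q q` is read -/
  uQ : Fin r → (ZMod Nt)ˣ
  uQ_spec : ∀ q, ((((uQ q : (ZMod Nt)ˣ) : ZMod Nt).val : ℕ) : ZMod (Nt / Q q)) = 1
  /-- `uS v ≡ 1 mod Nt / v` -/
  uS : ℕ → (ZMod Nt)ˣ
  uS_spec : ∀ v ∈ Sig, ((((uS v : (ZMod Nt)ˣ) : ZMod Nt).val : ℕ) : ZMod (Nt / v)) = 1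
  occ₁ : side₁.Occ lam 1 θ Sig Nt Nbig (S ∪ Finset.univ.image Q) uQ uS
  occ₂ : side₂.Occ lam ζ θ Sig Nt Nbig (S ∪ Finset.univ.image Q) uQ uS
  /-- the common reduction modulo `lam` -/
  Hbar : Type
  [instAddCommGroupBar : AddCommGroup Hbar]
  [instModuleBar : Module 𝒪 Hbar]
  gbar : Fin r → Module.End 𝒪 Hbar
  Ttbar : Nat.Primes → Module.End 𝒪 Hbar
  red₁ : side₁.H →ₗ[𝒪] Hbar
  red₂ : side₂.H →ₗ[𝒪] Hbar
  red₁_surjective : Function.Surjective red₁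
  red₂_surjective : Function.Surjective red₂
  ker_red₁ : ∀ x, red₁ x = 0 ↔ ∃ y, x = lam • y
  ker_red₂ : ∀ x, red₂ x = 0 ↔ ∃ y, x = lam • y
  red₁_g : ∀ q x, red₁ (side₁.g q x) = gbar q (red₁ x)
  red₂_g : ∀ q x, red₂ (side₂.g q x) = gbar q (red₂ x)
  red₁_Tt : ∀ ℓ x, red₁ (side₁.Tt ℓ x) = Ttbar ℓ (red₁ x)
  red₂_Tt : ∀ ℓ x, red₂ (side₂.Tt ℓ x) = Ttbar ℓ (red₂ x)
  /-- control -/
  ctl : side₁.H →ₗ[𝒪] M0
  ctl_surjective : Function.Surjective ctl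
  ker_ctl : ∀ x, ctl x = 0 ↔ x ∈ ⨆ q, LinearMap.range (side₁.g q - 1)
  ctl_Tt : ∀ (ℓ : ℕ) (hℓ : ℓ.Prime) (hℓN : ¬ ℓ ∣ N) (hℓS : ℓ ∉ (S : Set ℕ)),
    ℓ ∉ Finset.univ.image Q → ∀ x, ctl (side₁.Tt ⟨ℓ, hℓ⟩ x) =
      datum.π (CuspForm.heckeAlgebra.T hℓ hℓN hℓS) • ctl x

/-- **[TWMOD]** (owner helper2): the module side of `TWProducerStatement`.  Extra hypotheses:
`hfull` (every point of the Hecke algebra lifting `θ` with values in a discrete valuation ring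
finite over `𝒪` factors through `T`; true for the `T` of REP_T(A)) and `hNE` (`θ` is not
Eisenstein: from `datum.residual_absIrr` by Chebotarev).  The Taylor–Wiles primes enter only
through: `Q j` prime, `∉ S`, `≡ 1 mod p ^ n`, `≡ 1 mod p` (v1.1: needed at `n = 0`, where
otherwise `α² = 1` and level raising at `Q j` could occur), and the polynomial
`X² - θ(T_q) X + q` has two DISTINCT roots in the residue field. -/
def TWModStatement : Prop :=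
  ∀ {𝒪 : Type} [CommRing 𝒪] [IsDomain 𝒪] [IsDiscreteValuationRing 𝒪]
    [IsAdicComplete (maximalIdeal 𝒪) 𝒪] [Finite (ResidueField 𝒪)] [CharZero 𝒪]
    (p : ℕ) [Fact p.Prime] (_ : 5 ≤ p) (_ : (p : 𝒪) ∈ maximalIdeal 𝒪)
    (ζ : 𝒪) (_ : IsPrimitiveRoot ζ p) (lam : 𝒪) (_ : Irreducible lam)
    (N : ℕ) [NeZero N] (_ : Squarefree N) (_ : ¬ p ∣ N) (_ : 2 ∣ N)
    (S : Finset ℕ) (_ : ∀ ℓ : ℕ, ℓ ∈ S ↔ ℓ.Prime ∧ (ℓ = p ∨ ℓ ∣ N))
    (θ : CuspForm.heckeAlgebra N 2 (S : Set ℕ) →+* ResidueField 𝒪)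
    (T : Type) [CommRing T] [IsLocalRing T] [IsNoetherianRing T]
    [IsAdicComplete (maximalIdeal T) T] [Algebra 𝒪 T] [IsLocalHom (algebraMap 𝒪 T)]
    [Module.Finite 𝒪 T] [Module.Free 𝒪 T]
    (datum : CuspForm.HeckeGaloisRepDatum N (S : Set ℕ) 𝒪 θ T)
    (_ : ∀ (B : Type) [CommRing B] [IsDomain B] [IsDiscreteValuationRing B] [Algebra 𝒪 B]
      [Module.Finite 𝒪 B] [IsLocalHom (algebraMap 𝒪 B)]
      (χ : CuspForm.heckeAlgebra N 2 (S : Set ℕ) →+* B),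
      (∀ t, residue B (χ t) = ResidueField.map (algebraMap 𝒪 B) (θ t)) →
        ∃ ψ : T →ₐ[𝒪] B, ∀ t, ψ (datum.π t) = χ t)
    (_ : ∀ (D : ℕ), 0 < D → ∀ Bad : Finset ℕ, ∃ (ℓ : ℕ) (hℓ : ℓ.Prime) (hℓN : ¬ ℓ ∣ N)
      (hℓS : ℓ ∉ (S : Set ℕ)), ℓ ∉ Bad ∧ ℓ ≡ 1 [MOD D] ∧
        θ (CuspForm.heckeAlgebra.T hℓ hℓN hℓS) ≠ (ℓ : ResidueField 𝒪) + 1)
    (Sig : Finset ℕ) (_ : ∀ v ∈ Sig, v.Prime ∧ v ∣ N ∧ v ≠ 2 ∧ v ≡ 1 [MOD p]),
    ∃ (d : ℕ) (_ : 0 < d) (M0 : Type) (_ : AddCommGroup M0) (_ : Module 𝒪 M0) (_ : Module T M0)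
      (_ : IsScalarTower 𝒪 T M0) (_ : Module.Free 𝒪 M0) (_ : Module.Finite 𝒪 M0),
      Module.finrank 𝒪 M0 = d ∧ (∀ t : T, (∀ m : M0, t • m = 0) → t = 0) ∧
      ∀ (r n : ℕ) (Q : Fin r → ℕ), Function.Injective Q → (∀ j, (Q j).Prime) →
        (∀ j, Q j ∉ S) → (∀ j, p ^ n ∣ Q j - 1) → (∀ j, p ∣ Q j - 1) →
        (∀ j (hq : (Q j).Prime) (hqN : ¬ Q j ∣ N) (hqS : Q j ∉ (S : Set ℕ)),
          ∃ α β : ResidueField 𝒪, α ≠ β ∧
            α + β = θ (CuspForm.heckeAlgebra.T hq hqN hqS) ∧ α * β = (Q j : ResidueField 𝒪)) →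
        ∀ (Nt Nbig : ℕ) [NeZero Nt] [NeZero Nbig], Nt = N * ∏ j, Q j →
          Nbig = N / (∏ v ∈ Sig, v) * ((∏ v ∈ Sig, v) * ∏ j, Q j) ^ 2 →
          Nonempty (TWModLevel p datum Sig ζ lam r d M0 n Q Nt Nbig)

end

end Fermat.Agent.RB
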