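/-
PROJECT RB, block [REP_T] (helper1), part (B2): **the Hecke algebras of one side of the
Taylor–Wiles module data** (`TWModSide`, helper2's contract `IFACE_helper2_TWMod`):

* `X.alg = 𝒪[Tt ℓ, g q]` and `heckeAlg X Sbig = 𝒪[Tt ℓ : ℓ ∉ Sbig]` are commutative rings;
* under `residual` + `junk` + `g_pow` they are LOCAL, finite and torsion-free over `𝒪`, with residue
  field `k`, `𝒪 → ·` local, and `Tt ℓ ≡ θ(T_ℓ)`, `g q ≡ 1` modulo the maximal ideal.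
-/
import Mathlib
import Fermat.Agent.RB.IFACE_helper2_TWMod
import Fermat.Agent.RB.REPT_helper1_LocalEnd

set_option autoImplicit false
set_option linter.unusedSectionVars false
set_option linter.unusedVariables false
set_option linter.style.haveILetI false

namespace Fermat.Agent.RB.REPT

open IsLocalRing Polynomial

/-- a subalgebra all of whose elements commute, as a commutative ring. -/
@[reducible] def commRingOfComm {R E : Type*} [CommRing R] [Ring E] [Algebra R E]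
    (S : Subalgebra R E) (h : ∀ a ∈ S, ∀ b ∈ S, a * b = b * a) : CommRing S :=
  { S.toRing with mul_comm := fun a b => Subtype.ext (h a a.2 b b.2) }

section Side

variable {𝒪 : Type} [CommRing 𝒪] {p r d n : ℕ} (X : TWModSide 𝒪 p r d n)

/-- the standard vectors `∏ g_q^{e_q} b_j`. -/
def sideVec (je : Fin d × (Fin r → Fin (p ^ n))) : X.H :=
  ((List.finRange r).map fun q => X.g q ^ ((je.2 q : Fin (p ^ n)) : ℕ)).prod (X.b je.1)

/-- `H ≃ 𝒪^{d p^{nr}}`. -/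
noncomputable def sideEquiv : ((Fin d × (Fin r → Fin (p ^ n))) →₀ 𝒪) ≃ₗ[𝒪] X.H :=
  LinearEquiv.ofBijective (Finsupp.linearCombination 𝒪 (sideVec X)) (by
    have h := X.free
    have h1 : (fun c : (Fin d × (Fin r → Fin (p ^ n))) →₀ 𝒪 => c.sum fun je a =>
        a • (((List.finRange r).map fun q => X.g q ^ ((je.2 q : Fin (p ^ n)) : ℕ)).prod
          (X.b je.1))) = ⇑(Finsupp.linearCombination 𝒪 (sideVec X)) := by
      funext c
      rw [Finsupp.linearCombination_apply]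
      rfl
    rw [← h1]
    exact h)

instance side_free : Module.Free 𝒪 X.H := Module.Free.of_equiv (sideEquiv X)

instance side_finite : Module.Finite 𝒪 X.H := Module.Finite.equiv (sideEquiv X)

theorem side_nontrivial [Nontrivial 𝒪] (hd : 0 < d) (hp : 0 < p) : Nontrivial X.H := by
  haveI : Nonempty (Fin d) := ⟨⟨0, hd⟩⟩
  haveI : Nonempty (Fin (p ^ n)) := ⟨⟨0, pow_pos hp n⟩⟩
  haveI : Nontrivial ((Fin d × (Fin r → Fin (p ^ n))) →₀ 𝒪) := inferInstance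
  exact (sideEquiv X).injective.nontrivial

/-- the generators of `X.alg` commute. -/
theorem alg_gen_comm : ∀ a ∈ (Set.range X.Tt ∪ Set.range X.g), ∀ b ∈ (Set.range X.Tt ∪ Set.range X.g),
    a * b = b * a := by
  rintro a (⟨ℓ, rfl⟩ | ⟨q, rfl⟩) b (⟨ℓ', rfl⟩ | ⟨q', rfl⟩)
  · exact (X.Tt_comm ℓ ℓ').eq
  · exact ((X.g_comm_Tt q' ℓ).eq).symm
  · exact (X.g_comm_Tt q ℓ').eq
  · exact (X.g_comm q q').eq

theorem alg_comm : ∀ a ∈ X.alg, ∀ b ∈ X.alg, a * b = b * a := by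
  intro a ha b hb
  have h1 := Algebra.adjoin_le_centralizer_centralizer 𝒪 (Set.range X.Tt ∪ Set.range X.g)
  exact Set.centralizer_centralizer_comm_of_comm (alg_gen_comm X) _ (h1 ha) _ (h1 hb)

noncomputable instance algCommRing : CommRing X.alg := commRingOfComm X.alg (alg_comm X)

/-- the twisted Hecke operators away from `Sbig`. -/
def heckeSet (Sbig : Finset ℕ) : Set (Module.End 𝒪 X.H) :=
  {t | ∃ ℓ : Nat.Primes, (ℓ : ℕ) ∉ Sbig ∧ t = X.Tt ℓ}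

/-- **the Hecke algebra `T_i = 𝒪[Tt ℓ : ℓ ∉ Sbig]`.** -/
def heckeAlg (Sbig : Finset ℕ) : Subalgebra 𝒪 (Module.End 𝒪 X.H) :=
  Algebra.adjoin 𝒪 (heckeSet X Sbig)

theorem heckeAlg_le_alg (Sbig : Finset ℕ) : heckeAlg X Sbig ≤ X.alg := by
  refine Algebra.adjoin_mono ?_
  rintro _ ⟨ℓ, _, rfl⟩
  exact Or.inl ⟨ℓ, rfl⟩

theorem heckeAlg_comm (Sbig : Finset ℕ) :
    ∀ a ∈ heckeAlg X Sbig, ∀ b ∈ heckeAlg X Sbig, a * b = b * a :=
  fun a ha b hb => alg_comm X a (heckeAlg_le_alg X Sbig ha) b (heckeAlg_le_alg X Sbig hb)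

noncomputable instance heckeAlgCommRing (Sbig : Finset ℕ) : CommRing (heckeAlg X Sbig) :=
  commRingOfComm (heckeAlg X Sbig) (heckeAlg_comm X Sbig)

theorem Tt_mem_heckeAlg {Sbig : Finset ℕ} {ℓ : Nat.Primes} (hℓ : (ℓ : ℕ) ∉ Sbig) :
    X.Tt ℓ ∈ heckeAlg X Sbig :=
  Algebra.subset_adjoin ⟨ℓ, hℓ, rfl⟩

/-- `Tt ℓ` as an element of `heckeAlg`. -/
def TtH {Sbig : Finset ℕ} (ℓ : Nat.Primes) (hℓ : (ℓ : ℕ) ∉ Sbig) : heckeAlg X Sbig :=
  ⟨X.Tt ℓ, Tt_mem_heckeAlg X hℓ⟩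

/-- the inclusion `heckeAlg ⊆ alg`. -/
noncomputable def heckeIncl (Sbig : Finset ℕ) : heckeAlg X Sbig →ₐ[𝒪] X.alg :=
  Subalgebra.inclusion (heckeAlg_le_alg X Sbig)

theorem heckeIncl_injective (Sbig : Finset ℕ) : Function.Injective (heckeIncl X Sbig) :=
  Subalgebra.inclusion_injective _

end Side


section Local

open CuspForm

variable {𝒪 : Type} [CommRing 𝒪] [IsDomain 𝒪] [IsDiscreteValuationRing 𝒪]
  {p r d n : ℕ} (X : TWModSide 𝒪 p r d n) {lam z : 𝒪} {N : ℕ} [NeZero N] {S : Finset ℕ}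
  {θ : ↥(heckeAlgebra N 2 (↑S : Set ℕ)) →+* ResidueField 𝒪} {Sig : Finset ℕ} {Nt Nbig : ℕ}
  [NeZero Nt] [NeZero Nbig] {Sbig : Finset ℕ} {uQ : Fin r → (ZMod Nt)ˣ} {uS : ℕ → (ZMod Nt)ˣ}
  (O : X.Occ lam z θ Sig Nt Nbig Sbig uQ uS)
  (hlam : Irreducible lam) (hp : p.Prime) (hp𝒪 : (p : 𝒪) ∈ maximalIdeal 𝒪) (hd : 0 < d)
  (hSbig : ∀ ℓ : ℕ, ℓ.Prime → ℓ ∉ Sbig → ¬ ℓ ∣ N ∧ ℓ ∉ (↑S : Set ℕ))
  (hjunk : ∀ ℓ : Nat.Primes, (ℓ : ℕ) ∈ Sbig → X.Tt ℓ = 0)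

include hlam in
theorem lam_smul_mem (h : X.H) : lam • h ∈ (maximalIdeal 𝒪 • ⊤ : Submodule 𝒪 X.H) := by
  refine Submodule.smul_mem_smul ?_ Submodule.mem_top
  rw [hlam.maximalIdeal_eq]
  exact Ideal.mem_span_singleton_self lam

include O hlam hSbig in
/-- `Tt ℓ - c` is nilpotent modulo `𝔪` (in `alg`). -/
theorem TtA_sub_mem_radical {ℓ : Nat.Primes} (hℓ : (ℓ : ℕ) ∉ Sbig) (c : 𝒪)
    (hc : residue 𝒪 c = θ (heckeAlgebra.T ℓ.2 (hSbig ℓ ℓ.2 hℓ).1 (hSbig ℓ ℓ.2 hℓ).2)) :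
    X.TtA ℓ - algebraMap 𝒪 X.alg c ∈ (redKer 𝒪 X.alg X.H).radical := by
  obtain ⟨k, hk⟩ := O.residual ℓ ℓ.2 (hSbig ℓ ℓ.2 hℓ).1 (hSbig ℓ ℓ.2 hℓ).2 hℓ c hc
  refine ⟨k, fun h => ?_⟩
  obtain ⟨h', hh'⟩ := hk h
  have h1 : (X.TtA ℓ - algebraMap 𝒪 X.alg c) ^ k • h =
      ((X.Tt ⟨ℓ, ℓ.2⟩ - algebraMap 𝒪 (Module.End 𝒪 X.H) c) ^ k) h := rfl
  rw [h1, hh']
  exact lam_smul_mem X hlam h'

include hp hp𝒪 in
/-- `g q - 1` is nilpotent modulo `𝔪` (in `alg`). -/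
theorem gA_sub_one_mem_radical (q : Fin r) :
    X.gA q - algebraMap 𝒪 X.alg 1 ∈ (redKer 𝒪 X.alg X.H).radical := by
  rw [map_one]
  refine ⟨p ^ n, ?_⟩
  obtain ⟨w, hw⟩ := exists_add_pow_prime_pow_eq hp (X.gA q - 1) (1 : X.alg) n
  have h1 : X.gA q ^ p ^ n = 1 := Subtype.ext (X.g_pow q)
  rw [sub_add_cancel, h1, one_pow] at hw
  have h2 : (X.gA q - 1) ^ p ^ n = algebraMap 𝒪 X.alg (p : 𝒪) * (-((X.gA q - 1) * w)) := by
    rw [map_natCast]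
    linear_combination -hw
  rw [h2]
  exact Ideal.mul_mem_right _ _ (algebraMap_mem_redKer hp𝒪)

/-- the generating set of `alg`, inside `alg`. -/
def algGen : Set X.alg := (Subtype.val : X.alg → Module.End 𝒪 X.H) ⁻¹' (Set.range X.Tt ∪ Set.range X.g)

theorem adjoin_algGen : Algebra.adjoin 𝒪 (algGen X) = ⊤ :=
  Algebra.adjoin_adjoin_coe_preimage

include O hlam hSbig hjunk hp hp𝒪 in
theorem algGen_residual : ∀ a ∈ algGen X, ∃ c : 𝒪,
    a - algebraMap 𝒪 X.alg c ∈ (redKer 𝒪 X.alg X.H).radical := by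
  rintro ⟨a, ha⟩ (⟨ℓ, hℓ⟩ | ⟨q, hq⟩)
  · by_cases hS : (ℓ : ℕ) ∈ Sbig
    · refine ⟨0, ?_⟩
      have h0 : (⟨a, ha⟩ : X.alg) = 0 := Subtype.ext (by
        show a = 0
        have hℓ' : X.Tt ℓ = a := hℓ
        rw [← hℓ']
        exact hjunk ℓ hS)
      rw [h0, map_zero, sub_zero]
      exact Ideal.zero_mem _
    · obtain ⟨c, hc⟩ := residue_surjective
        (θ (heckeAlgebra.T ℓ.2 (hSbig ℓ ℓ.2 hS).1 (hSbig ℓ ℓ.2 hS).2))
      refine ⟨c, ?_⟩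
      have h0 : (⟨a, ha⟩ : X.alg) = X.TtA ℓ := Subtype.ext hℓ.symm
      rw [h0]
      exact TtA_sub_mem_radical X O hlam hSbig hS c hc
  · refine ⟨1, ?_⟩
    have h0 : (⟨a, ha⟩ : X.alg) = X.gA q := Subtype.ext hq.symm
    rw [h0]
    exact gA_sub_one_mem_radical X hp hp𝒪 q

section LocalAlg

include O hlam hSbig hjunk hp hp𝒪 hd

theorem isLocalRing_alg : IsLocalRing X.alg := by
  haveI : Nontrivial X.H := side_nontrivial X hd hp.pos
  exact isLocalRing_of_generators (𝒪 := 𝒪) (H := X.H) (algGen X) (adjoin_algGen X)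
    (algGen_residual X O hlam hp hp𝒪 hSbig hjunk)

theorem isLocalHom_algebraMap_alg : IsLocalHom (algebraMap 𝒪 X.alg) := by
  haveI : Nontrivial X.H := side_nontrivial X hd hp.pos
  exact isLocalHom_algebraMap_of_generators (𝒪 := 𝒪) (H := X.H) (algGen X) (adjoin_algGen X)
    (algGen_residual X O hlam hp hp𝒪 hSbig hjunk)

theorem residue_surjective_alg [IsLocalRing X.alg] :
    Function.Surjective (residue X.alg ∘ algebraMap 𝒪 X.alg) := by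
  haveI : Nontrivial X.H := side_nontrivial X hd hp.pos
  exact residue_surjective_of_generators (𝒪 := 𝒪) (H := X.H) (algGen X) (adjoin_algGen X)
    (algGen_residual X O hlam hp hp𝒪 hSbig hjunk)

/-- `Tt ℓ ≡ θ(T_ℓ)` in the residue field of `alg`. -/
theorem residue_TtA [IsLocalRing X.alg] [IsLocalHom (algebraMap 𝒪 X.alg)]
    {ℓ : Nat.Primes} (hℓ : (ℓ : ℕ) ∉ Sbig) :
    residue X.alg (X.TtA ℓ) =
      ResidueField.map (algebraMap 𝒪 X.alg)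
        (θ (heckeAlgebra.T ℓ.2 (hSbig ℓ ℓ.2 hℓ).1 (hSbig ℓ ℓ.2 hℓ).2)) := by
  haveI : Nontrivial X.H := side_nontrivial X hd hp.pos
  obtain ⟨c, hc⟩ := residue_surjective
    (θ (heckeAlgebra.T ℓ.2 (hSbig ℓ ℓ.2 hℓ).1 (hSbig ℓ ℓ.2 hℓ).2))
  rw [← hc, ResidueField.map_residue]
  exact residue_eq_of_sub_mem_radical_redKer (𝒪 := 𝒪) (H := X.H) (algGen X)
    (adjoin_algGen X) (algGen_residual X O hlam hp hp𝒪 hSbig hjunk)
    (TtA_sub_mem_radical X O hlam hSbig hℓ c hc)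

end LocalAlg

include O in
theorem isReduced_alg : IsReduced X.alg :=
  (isReduced_iff_pow_one_lt 2 one_lt_two).2 O.reduced

theorem finite_alg : Module.Finite 𝒪 X.alg := finite_of_faithful X.H

theorem isTorsionFree_alg : Module.IsTorsionFree 𝒪 X.alg := isTorsionFree_of_faithful X.H

/-! ### the Hecke algebra `heckeAlg` -/

/-- the generating set of `heckeAlg`, inside `heckeAlg`. -/
def heckeGen (Sbig : Finset ℕ) : Set (heckeAlg X Sbig) :=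
  (Subtype.val : heckeAlg X Sbig → Module.End 𝒪 X.H) ⁻¹' (heckeSet X Sbig)

omit [IsDomain 𝒪] [IsDiscreteValuationRing 𝒪] in
theorem adjoin_heckeGen (Sbig : Finset ℕ) : Algebra.adjoin 𝒪 (heckeGen X Sbig) = ⊤ :=
  Algebra.adjoin_adjoin_coe_preimage

include O hlam hSbig in
theorem TtH_sub_mem_radical {ℓ : Nat.Primes} (hℓ : (ℓ : ℕ) ∉ Sbig) (c : 𝒪)
    (hc : residue 𝒪 c = θ (heckeAlgebra.T ℓ.2 (hSbig ℓ ℓ.2 hℓ).1 (hSbig ℓ ℓ.2 hℓ).2)) :
    TtH X ℓ hℓ - algebraMap 𝒪 (heckeAlg X Sbig) c ∈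
      (redKer 𝒪 (heckeAlg X Sbig) X.H).radical := by
  obtain ⟨k, hk⟩ := O.residual ℓ ℓ.2 (hSbig ℓ ℓ.2 hℓ).1 (hSbig ℓ ℓ.2 hℓ).2 hℓ c hc
  refine ⟨k, fun h => ?_⟩
  obtain ⟨h', hh'⟩ := hk h
  have h1 : (TtH X ℓ hℓ - algebraMap 𝒪 (heckeAlg X Sbig) c) ^ k • h =
      ((X.Tt ⟨ℓ, ℓ.2⟩ - algebraMap 𝒪 (Module.End 𝒪 X.H) c) ^ k) h := rfl
  rw [h1, hh']
  exact lam_smul_mem X hlam h'

include O hlam hSbig in
theorem heckeGen_residual : ∀ a ∈ heckeGen X Sbig, ∃ c : 𝒪,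
    a - algebraMap 𝒪 (heckeAlg X Sbig) c ∈ (redKer 𝒪 (heckeAlg X Sbig) X.H).radical := by
  rintro ⟨a, ha⟩ ⟨ℓ, hℓS, hℓ⟩
  obtain ⟨c, hc⟩ := residue_surjective
    (θ (heckeAlgebra.T ℓ.2 (hSbig ℓ ℓ.2 hℓS).1 (hSbig ℓ ℓ.2 hℓS).2))
  refine ⟨c, ?_⟩
  have h0 : (⟨a, ha⟩ : heckeAlg X Sbig) = TtH X ℓ hℓS := Subtype.ext hℓ
  rw [h0]
  exact TtH_sub_mem_radical X O hlam hSbig hℓS c hc

section LocalHecke

include O hlam hSbig hp hd

theorem isLocalRing_heckeAlg : IsLocalRing (heckeAlg X Sbig) := by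
  haveI : Nontrivial X.H := side_nontrivial X hd hp.pos
  exact isLocalRing_of_generators (𝒪 := 𝒪) (H := X.H) (heckeGen X Sbig) (adjoin_heckeGen X Sbig)
    (heckeGen_residual X O hlam hSbig)

theorem isLocalHom_algebraMap_heckeAlg : IsLocalHom (algebraMap 𝒪 (heckeAlg X Sbig)) := by
  haveI : Nontrivial X.H := side_nontrivial X hd hp.pos
  exact isLocalHom_algebraMap_of_generators (𝒪 := 𝒪) (H := X.H) (heckeGen X Sbig)
    (adjoin_heckeGen X Sbig) (heckeGen_residual X O hlam hSbig)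

theorem residue_surjective_heckeAlg [IsLocalRing (heckeAlg X Sbig)] :
    Function.Surjective (residue (heckeAlg X Sbig) ∘ algebraMap 𝒪 (heckeAlg X Sbig)) := by
  haveI : Nontrivial X.H := side_nontrivial X hd hp.pos
  exact residue_surjective_of_generators (𝒪 := 𝒪) (H := X.H) (heckeGen X Sbig)
    (adjoin_heckeGen X Sbig) (heckeGen_residual X O hlam hSbig)

/-- `Tt ℓ ≡ θ(T_ℓ)` in the residue field of `heckeAlg`. -/
theorem residue_TtH [IsLocalRing (heckeAlg X Sbig)] [IsLocalHom (algebraMap 𝒪 (heckeAlg X Sbig))]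
    {ℓ : Nat.Primes} (hℓ : (ℓ : ℕ) ∉ Sbig) :
    residue (heckeAlg X Sbig) (TtH X ℓ hℓ) =
      ResidueField.map (algebraMap 𝒪 (heckeAlg X Sbig))
        (θ (heckeAlgebra.T ℓ.2 (hSbig ℓ ℓ.2 hℓ).1 (hSbig ℓ ℓ.2 hℓ).2)) := by
  haveI : Nontrivial X.H := side_nontrivial X hd hp.pos
  obtain ⟨c, hc⟩ := residue_surjective
    (θ (heckeAlgebra.T ℓ.2 (hSbig ℓ ℓ.2 hℓ).1 (hSbig ℓ ℓ.2 hℓ).2))
  rw [← hc, ResidueField.map_residue]
  exact residue_eq_of_sub_mem_radical_redKer (𝒪 := 𝒪) (H := X.H) (heckeGen X Sbig)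
    (adjoin_heckeGen X Sbig) (heckeGen_residual X O hlam hSbig)
    (TtH_sub_mem_radical X O hlam hSbig hℓ c hc)

end LocalHecke

include O in
theorem isReduced_heckeAlg : IsReduced (heckeAlg X Sbig) := by
  refine (isReduced_iff_pow_one_lt 2 one_lt_two).2 fun t ht => ?_
  apply heckeIncl_injective X Sbig
  rw [map_zero]
  apply O.reduced
  rw [← map_pow, ht, map_zero]

theorem finite_heckeAlg (Sbig : Finset ℕ) : Module.Finite 𝒪 (heckeAlg X Sbig) :=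
  finite_of_faithful X.H

theorem isTorsionFree_heckeAlg (Sbig : Finset ℕ) : Module.IsTorsionFree 𝒪 (heckeAlg X Sbig) :=
  isTorsionFree_of_faithful X.H

end Local

end Fermat.Agent.RB.REPT
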