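/-
RB = S43 via Ihara avoidance, package [TWMOD] (helper2), part T1a: **the groups `Γ_H`**.

* `chi0 N : Γ₀(N) →* (ℤ/N)ˣ`, the lower right entry; surjective;
* `chiD N M h : Γ₀(N) →* (ℤ/M)ˣ` for `M ∣ N`; surjective;
* for a homomorphism `π : (ℤ/M)ˣ →* Δ`: `chiOf N M h π = π ∘ chiD`, and
  `GammaH N M h π ≤ SL₂(ℤ)`, the image of its kernel:  `Γ₁(N) ≤ ±Γ₁(N) ≤ Γ_H ≤ Γ₀(N)`
  (the middle inclusion if `π (-1) = 1`), of finite index, stable under `J`-conjugation;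
* `kerEquivGammaH : (chiOf N M h π).ker ≃* ↥(GammaH N M h π)`.
-/
import Mathlib
import Fermat.Agent.W1.HGRP1_helper2_Main

set_option autoImplicit false
set_option linter.unusedSectionVars false

namespace Fermat.Agent.RB.TWM

open CongruenceSubgroup Matrix ModularCurve.Period
open scoped MatrixGroups
open Fermat.Agent.GR Fermat.Agent.W1 Fermat.Agent.W1.ES

/-! ### the character "lower right entry" -/

/-- the lower right entry modulo `N`, as a homomorphism `Γ₀(N) →* (ℤ/N)ˣ`. -/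
noncomputable def chi0 (N : ℕ) : ↥(Gamma0 N) →* (ZMod N)ˣ := (Gamma0Map N).toHomUnits

theorem coe_chi0 (N : ℕ) (γ : Gamma0 N) :
    ((chi0 N γ : (ZMod N)ˣ) : ZMod N) = ((((γ : SL(2, ℤ)) 1 1 : ℤ)) : ZMod N) := rfl

theorem chi0_surjective (N : ℕ) [NeZero N] : Function.Surjective (chi0 N) := fun u =>
  ⟨⟨DS48.sigmaOf N u, DS48.sigmaOf_mem u⟩, Units.ext (by
    rw [coe_chi0]
    exact DS48.sigmaOf_lowerRight u)⟩

/-- the lower right entry modulo a divisor `M` of `N`. -/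
noncomputable def chiD (N M : ℕ) (h : M ∣ N) : ↥(Gamma0 N) →* (ZMod M)ˣ :=
  (ZMod.unitsMap h).comp (chi0 N)

theorem coe_chiD (N M : ℕ) (h : M ∣ N) (γ : Gamma0 N) :
    ((chiD N M h γ : (ZMod M)ˣ) : ZMod M) = ((((γ : SL(2, ℤ)) 1 1 : ℤ)) : ZMod M) := by
  show ((ZMod.unitsMap h (chi0 N γ) : (ZMod M)ˣ) : ZMod M) = _
  rw [ZMod.unitsMap_def, Units.coe_map, MonoidHom.coe_coe, coe_chi0, map_intCast]

theorem chiD_surjective (N M : ℕ) [NeZero N] (h : M ∣ N) : Function.Surjective (chiD N M h) :=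
  (ZMod.unitsMap_surjective h).comp (chi0_surjective N)

/-- the upper left entry is the inverse of the lower right entry modulo `M`. -/
theorem upperLeft_mul_lowerRight (N M : ℕ) (h : M ∣ N) (γ : Gamma0 N) :
    ((((γ : SL(2, ℤ)) 0 0 : ℤ)) : ZMod M) * ((((γ : SL(2, ℤ)) 1 1 : ℤ)) : ZMod M) = 1 := by
  have h1 := SL2_det_eq (γ : SL(2, ℤ))
  have h2 : ((((γ : SL(2, ℤ)) 1 0 : ℤ)) : ZMod M) = 0 := by
    have h3 := γ.2
    rw [Gamma0_mem] at h3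
    have := congrArg (ZMod.castHom h (ZMod M)) h3
    simpa using this
  have h4 := congrArg (fun x : ℤ => (x : ZMod M)) h1
  simp only [Int.cast_sub, Int.cast_mul, Int.cast_one, h2, mul_zero, sub_zero] at h4
  exact h4

variable {Δ : Type*} [CommGroup Δ]

/-- **the character `χ : Γ₀(N) → Δ`** attached to `π : (ℤ/M)ˣ → Δ`. -/
noncomputable def chiOf (N M : ℕ) (h : M ∣ N) (π : (ZMod M)ˣ →* Δ) : ↥(Gamma0 N) →* Δ :=
  π.comp (chiD N M h)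

theorem chiOf_apply (N M : ℕ) (h : M ∣ N) (π : (ZMod M)ˣ →* Δ) (γ : Gamma0 N) :
    chiOf N M h π γ = π (chiD N M h γ) := rfl

theorem chiOf_surjective (N M : ℕ) [NeZero N] (h : M ∣ N) (π : (ZMod M)ˣ →* Δ)
    (hπ : Function.Surjective π) : Function.Surjective (chiOf N M h π) :=
  hπ.comp (chiD_surjective N M h)

/-- `χ` only depends on the lower right entry modulo `M`. -/
theorem chiOf_eq_of_lowerRight (N M : ℕ) (h : M ∣ N) (π : (ZMod M)ˣ →* Δ) {γ δ : Gamma0 N}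
    (hγδ : ((((γ : SL(2, ℤ)) 1 1 : ℤ)) : ZMod M) = ((((δ : SL(2, ℤ)) 1 1 : ℤ)) : ZMod M)) :
    chiOf N M h π γ = chiOf N M h π δ := by
  rw [chiOf_apply, chiOf_apply]
  congr 1
  apply Units.ext
  rw [coe_chiD, coe_chiD, hγδ]

/-- `χ` is trivial on `Γ₁(N)`. -/
theorem chiOf_eq_one_of_mem_Gamma1 (N M : ℕ) (h : M ∣ N) (π : (ZMod M)ˣ →* Δ) (γ : Gamma0 N)
    (hγ : (γ : SL(2, ℤ)) ∈ Gamma1 N) : chiOf N M h π γ = 1 := by
  rw [chiOf_apply]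
  have : chiD N M h γ = 1 := by
    apply Units.ext
    rw [coe_chiD, Units.val_one]
    rw [Gamma1_mem] at hγ
    have := congrArg (ZMod.castHom h (ZMod M)) hγ.2.1
    rwa [map_intCast, map_one] at this
  rw [this, map_one]

/-- `χ(-γ) = π(-1) χ(γ)`. -/
theorem chiD_neg (N M : ℕ) (h : M ∣ N) (γ : Gamma0 N) (hγ : -(γ : SL(2, ℤ)) ∈ Gamma0 N) :
    chiD N M h ⟨-(γ : SL(2, ℤ)), hγ⟩ = -chiD N M h γ := by
  apply Units.ext
  rw [Units.val_neg, coe_chiD, coe_chiD]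
  simp

/-! ### the group `Γ_H` -/

/-- **the group `Γ_H`**: the elements of `Γ₀(N)` whose lower right entry modulo `M` is in the
kernel of `π`. -/
noncomputable def GammaH (N M : ℕ) (h : M ∣ N) (π : (ZMod M)ˣ →* Δ) : Subgroup SL(2, ℤ) :=
  (chiOf N M h π).ker.map (Gamma0 N).subtype

theorem mem_GammaH {N M : ℕ} {h : M ∣ N} {π : (ZMod M)ˣ →* Δ} {γ : SL(2, ℤ)} :
    γ ∈ GammaH N M h π ↔ ∃ hγ : γ ∈ Gamma0 N, chiOf N M h π ⟨γ, hγ⟩ = 1 := by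
  constructor
  · rintro ⟨δ, hδ, rfl⟩
    exact ⟨δ.2, hδ⟩
  · rintro ⟨hγ, h1⟩
    exact ⟨⟨γ, hγ⟩, h1, rfl⟩

theorem GammaH_le_Gamma0 (N M : ℕ) (h : M ∣ N) (π : (ZMod M)ˣ →* Δ) :
    GammaH N M h π ≤ Gamma0 N := fun _ hγ => (mem_GammaH.mp hγ).1

theorem Gamma1_le_GammaH (N M : ℕ) (h : M ∣ N) (π : (ZMod M)ˣ →* Δ) :
    Gamma1 N ≤ GammaH N M h π := fun γ hγ =>
  mem_GammaH.mpr ⟨Gamma1_in_Gamma0 N hγ, chiOf_eq_one_of_mem_Gamma1 N M h π ⟨γ, _⟩ hγ⟩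

theorem neg_mem_GammaH {N M : ℕ} {h : M ∣ N} {π : (ZMod M)ˣ →* Δ} (hπ : π (-1) = 1)
    {γ : SL(2, ℤ)} (hγ : γ ∈ GammaH N M h π) : -γ ∈ GammaH N M h π := by
  obtain ⟨h0, h1⟩ := mem_GammaH.mp hγ
  refine mem_GammaH.mpr ⟨gamma0_neg_mem h0, ?_⟩
  rw [chiOf_apply, chiD_neg N M h ⟨γ, h0⟩ (gamma0_neg_mem h0)]
  have : -chiD N M h ⟨γ, h0⟩ = (-1) * chiD N M h ⟨γ, h0⟩ := by rw [neg_mul, one_mul]
  rw [this, map_mul, hπ, one_mul]
  exact h1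

theorem Gpm_le_GammaH (N M : ℕ) (h : M ∣ N) (π : (ZMod M)ˣ →* Δ) (hπ : π (-1) = 1) :
    Gpm N 1 ≤ GammaH N M h π := by
  intro γ hγ
  rcases mem_Gamma1_or_neg_of_mem_Gpm N γ hγ with h1 | h1
  · exact Gamma1_le_GammaH N M h π h1
  · have := neg_mem_GammaH hπ (Gamma1_le_GammaH N M h π h1)
    rwa [neg_neg] at this

/-- if `Δ` has odd order then `π(-1) = 1`. -/
theorem map_neg_one_eq_one_of_odd [Finite Δ] (hodd : Odd (Nat.card Δ)) {M : ℕ}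
    (π : (ZMod M)ˣ →* Δ) : π (-1) = 1 := by
  have h1 : π (-1) ^ 2 = 1 := by
    rw [← map_pow]
    simp
  have h2 : π (-1) ^ Nat.card Δ = 1 := pow_card_eq_one'
  obtain ⟨k, hk⟩ := hodd
  rw [hk, pow_succ, pow_mul, h1, one_pow, one_mul] at h2
  exact h2

instance finiteIndex_GammaH (N M : ℕ) [NeZero N] (h : M ∣ N) (π : (ZMod M)ˣ →* Δ) :
    (GammaH N M h π).FiniteIndex :=
  Subgroup.finiteIndex_of_le (Gamma1_le_GammaH N M h π)

instance jStable_GammaH (N M : ℕ) (h : M ∣ N) (π : (ZMod M)ˣ →* Δ) :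
    JStable (GammaH N M h π) := ⟨fun γ hγ => by
  obtain ⟨h0, h1⟩ := mem_GammaH.mp hγ
  refine mem_GammaH.mpr ⟨jConjSL_mem_Gamma0 h0, ?_⟩
  rw [← h1]
  apply chiOf_eq_of_lowerRight
  show (((((jConjSL γ : SL(2, ℤ)) : Matrix (Fin 2) (Fin 2) ℤ) 1 1 : ℤ)) : ZMod M) = _
  rw [jConjSL_coe, jConjMat_apply_one_one]⟩

/-- the kernel of `χ` is `Γ_H`. -/
noncomputable def kerEquivGammaH (N M : ℕ) (h : M ∣ N) (π : (ZMod M)ˣ →* Δ) :
    (chiOf N M h π).ker ≃* ↥(GammaH N M h π) :=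
  (chiOf N M h π).ker.equivMapOfInjective (Gamma0 N).subtype Subtype.val_injective

theorem coe_kerEquivGammaH (N M : ℕ) (h : M ∣ N) (π : (ZMod M)ˣ →* Δ)
    (γ : (chiOf N M h π).ker) :
    ((kerEquivGammaH N M h π γ : GammaH N M h π) : SL(2, ℤ)) = ((γ : Gamma0 N) : SL(2, ℤ)) :=
  rfl

end Fermat.Agent.RB.TWM
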