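/-
RB = S43 via Ihara avoidance, package [TWMOD] (helper2), part T1b: **Hecke data of the groups
between `Γ₁(N)` and `Γ₀(N)`**.

General principle: a system of representatives `S : W1.IntReps N p ι` of `Γ₁(N) \ Δ₁(N, p)`
(`Δ₁ = DS48.DeltaInt N p`: determinant `p`, `≡ (1 *; 0 *) mod N`) is a Hecke datum `datumOn S Γ'`
for EVERY group `Γ₁(N) ≤ Γ' ≤ Γ₀(N)`, and its cocycle satisfies

  **(HD0)**  `γ⁻¹ · c(γ, i) ∈ Γ₁(N)`,

hence **(HD)** `χ(c(γ, i)) = χ(γ)` for every character `χ` of `Γ₀(N)` trivial on `Γ₁(N)`.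
The data of the various `Γ'` are compatible with the inclusions, so restriction
`Hom(Γ', A) → Hom(Γ'', A)` is Hecke equivariant.
-/
import Mathlib
import Fermat.Agent.RB.TWMOD_helper2_Chi

set_option autoImplicit false
set_option linter.unusedSectionVars false

namespace Fermat.Agent.RB.TWM

open CongruenceSubgroup Matrix ModularCurve.Period
open scoped MatrixGroups
open Fermat.Agent.GR Fermat.Agent.W1 Fermat.Agent.W1.ES

/-! ### abstract compatibility of two Hecke data along a homomorphism -/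

section Abstract

variable {Γ₁ Γ₂ G ι : Type*} [Group Γ₁] [Group Γ₂] [Group G]
  (D₁ : HeckeDatum Γ₁ G ι) (D₂ : HeckeDatum Γ₂ G ι) (f : Γ₁ →* Γ₂)

/-- two Hecke data with the same representatives, along `f : Γ₁ → Γ₂` compatible with the
embeddings: the permutations and cocycles correspond. -/
theorem perm_cocycle_of_compat (he : ∀ γ, D₂.e (f γ) = D₁.e γ) (hα : ∀ i, D₂.α i = D₁.α i)
    (γ : Γ₁) (i : ι) :
    D₂.perm (f γ) i = D₁.perm γ i ∧ D₂.cocycle (f γ) i = f (D₁.cocycle γ i) := by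
  apply D₂.eq_of_eq
  rw [hα, he, D₁.spec γ i, ← he, ← hα]

/-- **restriction is Hecke equivariant.** -/
theorem heckeGrp_comp_of_compat [Fintype ι] {A : Type*} [AddCommGroup A]
    (he : ∀ γ, D₂.e (f γ) = D₁.e γ) (hα : ∀ i, D₂.α i = D₁.α i) (ψ : Additive Γ₂ →+ A) :
    (D₂.heckeGrp A ψ).comp (MonoidHom.toAdditive f) =
      D₁.heckeGrp A (ψ.comp (MonoidHom.toAdditive f)) := by
  refine AddMonoidHom.ext fun γ => ?_
  obtain ⟨γ, rfl⟩ := Additive.ofMul.surjective γ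
  show D₂.heckeGrp A ψ (Additive.ofMul (f γ)) = _
  rw [HeckeDatum.heckeGrp_apply, HeckeDatum.heckeGrp_apply]
  refine Finset.sum_congr rfl fun i _ => ?_
  rw [(perm_cocycle_of_compat D₁ D₂ f he hα γ i).2]
  rfl

end Abstract

/-! ### the datum of an intermediate group -/

theorem val_slEmb (Γ : Subgroup SL(2, ℤ)) (γ : Γ) :
    ((slEmb Γ γ : GL (Fin 2) ℝ) : Matrix (Fin 2) (Fin 2) ℝ) =
      ((γ : SL(2, ℤ)) : Matrix (Fin 2) (Fin 2) ℤ).map (Int.castRingHom ℝ) :=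
  val_mapGL_eq _

section DatumOn

variable {N p : ℕ} {ι : Type*} (S : IntReps N p ι)

/-- `A γ = (γ g) r_j` with `g ∈ Γ₁(N)`, for `A ∈ Δ₁` and `γ ∈ Γ₀(N)`. -/
theorem exists_conj_mul_eq {A : Matrix (Fin 2) (Fin 2) ℤ} (hA : A ∈ DS48.DeltaInt N p)
    {γ : SL(2, ℤ)} (hγ : γ ∈ Gamma0 N) :
    ∃ (j : ι) (g : SL(2, ℤ)), g ∈ Gamma1 N ∧
      A * (γ : Matrix (Fin 2) (Fin 2) ℤ) = ((γ * g : SL(2, ℤ)) : Matrix (Fin 2) (Fin 2) ℤ) *
        S.rZ j := by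
  obtain ⟨j, g, hg, h⟩ := S.ex _ (DS48.DeltaInt.conj_mem hA hγ)
  refine ⟨j, g, hg, ?_⟩
  rw [Matrix.SpecialLinearGroup.coe_mul, Matrix.mul_assoc, ← h, ← Matrix.mul_assoc,
    ← Matrix.mul_assoc, ← Matrix.SpecialLinearGroup.coe_mul, mul_inv_cancel,
    Matrix.SpecialLinearGroup.coe_one, Matrix.one_mul]

variable (Γ' : Subgroup SL(2, ℤ)) (h1 : Gamma1 N ≤ Γ') (h0 : Γ' ≤ Gamma0 N)

/-- **the Hecke datum of a group `Γ₁(N) ≤ Γ' ≤ Γ₀(N)`** attached to a system of representatives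
of `Γ₁(N) \ Δ₁`. -/
noncomputable def datumOn : HeckeDatum ↥Γ' (GL (Fin 2) ℝ) ι where
  e := slEmb Γ'
  e_inj := slEmb_injective Γ'
  α := S.r
  exists_eq γ i := by
    obtain ⟨j, g, hg, h⟩ := exists_conj_mul_eq S (S.mem i) (h0 γ.2)
    exact ⟨j, ⟨γ * g, Γ'.mul_mem γ.2 (h1 hg)⟩,
      (gl_mul_eq_iff_int (S.val_r i) (val_slEmb Γ' γ) (val_slEmb Γ' ⟨_, _⟩) (S.val_r j)).mpr h⟩
  index_eq i j γ' h :=
    S.uniq i j γ' ((gl_eq_mul_iff_int (S.val_r i) (val_slEmb Γ' γ') (S.val_r j)).mp h)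

@[simp] theorem datumOn_e : (datumOn S Γ' h1 h0).e = slEmb Γ' := rfl

@[simp] theorem datumOn_α (i : ι) : (datumOn S Γ' h1 h0).α i = S.r i := rfl

/-- **(HD0)**: `c(γ, i) ∈ γ Γ₁(N)`. -/
theorem datumOn_cocycle_mem (γ : Γ') (i : ι) :
    (γ : SL(2, ℤ))⁻¹ * ((datumOn S Γ' h1 h0).cocycle γ i : SL(2, ℤ)) ∈ Gamma1 N := by
  obtain ⟨j, g, hg, h⟩ := exists_conj_mul_eq S (S.mem i) (h0 γ.2)
  have h2 : (datumOn S Γ' h1 h0).α i * (datumOn S Γ' h1 h0).e γ =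
      (datumOn S Γ' h1 h0).e ⟨γ * g, Γ'.mul_mem γ.2 (h1 hg)⟩ * (datumOn S Γ' h1 h0).α j :=
    (gl_mul_eq_iff_int (S.val_r i) (val_slEmb Γ' γ) (val_slEmb Γ' ⟨_, _⟩) (S.val_r j)).mpr h
  rw [(datumOn S Γ' h1 h0).cocycle_eq h2]
  show (γ : SL(2, ℤ))⁻¹ * ((γ : SL(2, ℤ)) * g) ∈ Gamma1 N
  rwa [inv_mul_cancel_left]

/-- the determinants of the representatives are positive. -/
theorem det_datumOn_pos (hp : 0 < p) (i : ι) : 0 < ((datumOn S Γ' h1 h0).α i).val.det :=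
  S.det_r_pos hp i

include h1 in
/-- an element of `GL₂(ℝ)` with integral matrix in `Δ₁` lies in one of the cosets `Γ' r_j`. -/
theorem exists_eq_of_mem_on {x : GL (Fin 2) ℝ} {A : Matrix (Fin 2) (Fin 2) ℤ}
    (hx : (x : Matrix (Fin 2) (Fin 2) ℝ) = A.map (Int.castRingHom ℝ))
    (hA : A ∈ DS48.DeltaInt N p) :
    ∃ (j : ι) (δ : Γ'), x = slEmb Γ' δ * S.r j := by
  obtain ⟨j, g, hg, h⟩ := S.ex A hA
  exact ⟨j, ⟨g, h1 hg⟩, (gl_eq_mul_iff_int hx (val_slEmb Γ' ⟨g, h1 hg⟩) (S.val_r j)).mpr h⟩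

variable [Fintype ι]

/-- the operator preserves the parabolic homomorphisms. -/
theorem datumOn_mem_parabolicHoms (R : Type*) [Semiring R] {A : Type*} [AddCommGroup A]
    [Module R A] {ψ : Additive Γ' →+ A} (hψ : ψ ∈ parabolicHoms R Γ' A) :
    (datumOn S Γ' h1 h0).heckeGrp A ψ ∈ parabolicHoms R Γ' A :=
  W1.heckeGrp_mem_parabolicHoms (datumOn S Γ' h1 h0) rfl R hψ

/-- the operator commutes with the involution. -/
theorem datumOn_charInvolution [Γ'.FiniteIndex] [JStable Γ'] (R : Type*) [Semiring R]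
    {A : Type*} [AddCommGroup A] [Module R A] (ψ : Additive Γ' →+ A) :
    (datumOn S Γ' h1 h0).heckeGrp A (charInvolutionΓ Γ' R A ψ) =
      charInvolutionΓ Γ' R A ((datumOn S Γ' h1 h0).heckeGrp A ψ) := by
  refine heckeGrp_charInvolutionΓ (datumOn S Γ' h1 h0) rfl (fun i => ?_) R ψ
  have hx : ((UpperHalfPlane.J * (datumOn S Γ' h1 h0).α i * (UpperHalfPlane.J)⁻¹ :
      GL (Fin 2) ℝ) : Matrix (Fin 2) (Fin 2) ℝ) =
      (jConjMat (S.rZ i)).map (Int.castRingHom ℝ) := by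
    rw [Fermat.Agent.GR.J_inv, Units.val_mul, Units.val_mul, datumOn_α, S.val_r, val_conjJ_map]
  exact exists_eq_of_mem_on S Γ' h1 hx (DeltaInt_jConjMat_mem (S.mem i))

/-- **restriction to a smaller intermediate group is Hecke equivariant.** -/
theorem datumOn_comp_inclusion (Γ'' : Subgroup SL(2, ℤ)) (h1' : Gamma1 N ≤ Γ'')
    (hle : Γ'' ≤ Γ') {A : Type*} [AddCommGroup A] (ψ : Additive Γ' →+ A) :
    ((datumOn S Γ' h1 h0).heckeGrp A ψ).comp (MonoidHom.toAdditive (Subgroup.inclusion hle)) =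
      (datumOn S Γ'' h1' (hle.trans h0)).heckeGrp A
        (ψ.comp (MonoidHom.toAdditive (Subgroup.inclusion hle))) :=
  heckeGrp_comp_of_compat (datumOn S Γ'' h1' (hle.trans h0)) (datumOn S Γ' h1 h0)
    (Subgroup.inclusion hle) (fun _ => rfl) (fun _ => rfl) ψ

end DatumOn

/-! ### (HD) for the characters `χ = chiOf` -/

section HD

variable {N p : ℕ} {ι : Type*} (S : IntReps N p ι) {Δ : Type*} [CommGroup Δ]

/-- **(HD)**: `χ(c(γ, i)) = χ(γ)` for the datum of `Γ₀(N)` and every `χ = π ∘ (lower right entry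
mod M)`. -/
theorem chiOf_cocycle (M : ℕ) (h : M ∣ N) (π : (ZMod M)ˣ →* Δ) (γ : Gamma0 N) (i : ι) :
    chiOf N M h π ((datumOn S (Gamma0 N) (Gamma1_in_Gamma0 N) le_rfl).cocycle γ i) =
      chiOf N M h π γ := by
  set c := (datumOn S (Gamma0 N) (Gamma1_in_Gamma0 N) le_rfl).cocycle γ i with hc
  have hmem := datumOn_cocycle_mem S (Gamma0 N) (Gamma1_in_Gamma0 N) le_rfl γ i
  have h2 : chiOf N M h π (γ⁻¹ * c) = 1 :=
    chiOf_eq_one_of_mem_Gamma1 N M h π (γ⁻¹ * c) hmem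
  rw [map_mul, map_inv, inv_mul_eq_one] at h2
  exact h2.symm

end HD

/-! ### the standard data `T_ℓ`, `U_ℓ` -/

section Standard

variable (N : ℕ) [NeZero N] (Γ' : Subgroup SL(2, ℤ)) (h1 : Gamma1 N ≤ Γ') (h0 : Γ' ≤ Gamma0 N)

/-- **`T_ℓ`** (`ℓ ∤ N`) for `Γ₁(N) ≤ Γ' ≤ Γ₀(N)`: the cosets `Γ' (1 b; 0 ℓ)`,
`Γ' σ_ℓ (ℓ 0; 0 1)`. -/
noncomputable def datumT (ℓ : ℕ) (hℓ : ℓ.Prime) (hℓN : ¬ ℓ ∣ N) :
    HeckeDatum ↥Γ' (GL (Fin 2) ℝ) (Option (Fin ℓ)) :=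
  datumOn (intRepsT N hℓ hℓN) Γ' h1 h0

/-- **`U_ℓ`** (`ℓ ∣ N`) for `Γ₁(N) ≤ Γ' ≤ Γ₀(N)`: the cosets `Γ' (1 b; 0 ℓ)`. -/
noncomputable def datumU (ℓ : ℕ) (hℓ : ℓ.Prime) (hℓN : ℓ ∣ N) :
    HeckeDatum ↥Γ' (GL (Fin 2) ℝ) (Fin ℓ) :=
  datumOn (intRepsU N hℓ hℓN) Γ' h1 h0

end Standard

end Fermat.Agent.RB.TWM
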