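/-
RB = S43 via Ihara avoidance, package [TWMOD] (helper2), part T4a: **the operators of a group
`±Γ₁(N) ≤ Γ' ≤ Γ₀(N)` and their restriction to `±Γ₁(N) = W1.Gpm N 1`.**

* `heckeOnP N Γ' ℓ A` : `T_ℓ` (`ℓ ∤ N`) resp. `U_ℓ` (`ℓ ∣ N`) on `Hom(Γ', A)`;
* `diamondOnBy Γ' hn σ hσ A` : `ψ ↦ ψ ∘ (γ ↦ σ γ σ⁻¹)` for `σ ∈ Γ₀(N)` normalising `Γ'`;
  trivial for `σ ∈ Γ'`, multiplicative, commutes with the `heckeOnP`;
* `resGpm` : restriction `Hom(Γ', A) → Hom(±Γ₁(N), A)` intertwines these operators with W1's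
  `heckeGrpP`, `diamondGrpBy`; it is injective for torsion free `A` and preserves parabolicity.
-/
import Mathlib
import Fermat.Agent.RB.TWMOD_helper2_Hecke

set_option autoImplicit false
set_option linter.unusedSectionVars false

namespace Fermat.Agent.RB.TWM

open CongruenceSubgroup Matrix ModularCurve.Period
open scoped MatrixGroups
open Fermat.Agent.GR Fermat.Agent.W1 Fermat.Agent.W1.ES

section Ops

variable (N : ℕ) [NeZero N] (Γ' : Subgroup SL(2, ℤ)) (h1 : Gamma1 N ≤ Γ') (h0 : Γ' ≤ Gamma0 N)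

/-- **the Hecke operator at a prime `ℓ`** on `Hom(Γ', A)`: `U_ℓ` if `ℓ ∣ N`, `T_ℓ` otherwise. -/
noncomputable def heckeOnP (ℓ : Nat.Primes) (A : Type*) [AddCommGroup A] :
    (Additive Γ' →+ A) →+ (Additive Γ' →+ A) :=
  if h : (ℓ : ℕ) ∣ N then (datumU N Γ' h1 h0 ℓ ℓ.2 h).heckeGrp A
  else (datumT N Γ' h1 h0 ℓ ℓ.2 h).heckeGrp A

variable {N Γ'} {ℓ : Nat.Primes} {A : Type*} [AddCommGroup A]

theorem heckeOnP_of_dvd (h : (ℓ : ℕ) ∣ N) :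
    heckeOnP N Γ' h1 h0 ℓ A = (datumU N Γ' h1 h0 ℓ ℓ.2 h).heckeGrp A := by
  rw [heckeOnP, dif_pos h]

theorem heckeOnP_of_not_dvd (h : ¬ (ℓ : ℕ) ∣ N) :
    heckeOnP N Γ' h1 h0 ℓ A = (datumT N Γ' h1 h0 ℓ ℓ.2 h).heckeGrp A := by
  rw [heckeOnP, dif_neg h]

variable (ℓ)

/-- naturality in the coefficient group. -/
theorem heckeOnP_comp {B : Type*} [AddCommGroup B] (f : A →+ B) (ψ : Additive Γ' →+ A) :
    heckeOnP N Γ' h1 h0 ℓ B (f.comp ψ) = f.comp (heckeOnP N Γ' h1 h0 ℓ A ψ) := by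
  by_cases h : (ℓ : ℕ) ∣ N
  · rw [heckeOnP_of_dvd h1 h0 h, heckeOnP_of_dvd h1 h0 h, HeckeDatum.heckeGrp_comp]
  · rw [heckeOnP_of_not_dvd h1 h0 h, heckeOnP_of_not_dvd h1 h0 h, HeckeDatum.heckeGrp_comp]

theorem heckeOnP_mem_parabolicHoms (R : Type*) [Semiring R] [Module R A]
    {ψ : Additive Γ' →+ A} (hψ : ψ ∈ parabolicHoms R Γ' A) :
    heckeOnP N Γ' h1 h0 ℓ A ψ ∈ parabolicHoms R Γ' A := by
  by_cases h : (ℓ : ℕ) ∣ N
  · rw [heckeOnP_of_dvd h1 h0 h]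
    exact datumOn_mem_parabolicHoms _ Γ' h1 h0 R hψ
  · rw [heckeOnP_of_not_dvd h1 h0 h]
    exact datumOn_mem_parabolicHoms _ Γ' h1 h0 R hψ

theorem heckeOnP_charInvolution [Γ'.FiniteIndex] [JStable Γ'] (R : Type*) [Semiring R]
    [Module R A] (ψ : Additive Γ' →+ A) :
    heckeOnP N Γ' h1 h0 ℓ A (charInvolutionΓ Γ' R A ψ) =
      charInvolutionΓ Γ' R A (heckeOnP N Γ' h1 h0 ℓ A ψ) := by
  by_cases h : (ℓ : ℕ) ∣ N
  · rw [heckeOnP_of_dvd h1 h0 h]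
    exact datumOn_charInvolution _ Γ' h1 h0 R ψ
  · rw [heckeOnP_of_not_dvd h1 h0 h]
    exact datumOn_charInvolution _ Γ' h1 h0 R ψ

variable (N Γ') (A)

/-- the Hecke operator at `ℓ` as an `R`-linear endomorphism of `Hom(Γ', A)`. -/
noncomputable def heckeOnPₗ (R : Type*) [Semiring R] [Module R A] :
    (Additive Γ' →+ A) →ₗ[R] (Additive Γ' →+ A) where
  toFun := heckeOnP N Γ' h1 h0 ℓ A
  map_add' := map_add _
  map_smul' c ψ := by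
    by_cases h : (ℓ : ℕ) ∣ N
    · rw [heckeOnP_of_dvd h1 h0 h]
      exact ((datumU N Γ' h1 h0 ℓ ℓ.2 h).heckeGrpₗ A R).map_smul c ψ
    · rw [heckeOnP_of_not_dvd h1 h0 h]
      exact ((datumT N Γ' h1 h0 ℓ ℓ.2 h).heckeGrpₗ A R).map_smul c ψ

@[simp] theorem heckeOnPₗ_apply (R : Type*) [Semiring R] [Module R A] (ψ : Additive Γ' →+ A) :
    heckeOnPₗ N Γ' h1 h0 ℓ A R ψ = heckeOnP N Γ' h1 h0 ℓ A ψ := rfl

end Ops

/-! ### conjugation by `Γ₀(N)` -/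

section Conj

variable {N : ℕ} (Γ' : Subgroup SL(2, ℤ))
  (hn : ∀ σ ∈ Gamma0 N, ∀ γ ∈ Γ', σ * γ * σ⁻¹ ∈ Γ')

/-- conjugation by `σ ∈ Γ₀(N)` as an automorphism of a group `Γ'` normalised by `Γ₀(N)`. -/
def conjOn (σ : SL(2, ℤ)) (hσ : σ ∈ Gamma0 N) : ↥Γ' ≃* ↥Γ' where
  toFun γ := ⟨σ * γ * σ⁻¹, hn σ hσ γ γ.2⟩
  invFun γ := ⟨σ⁻¹ * γ * σ, by
    have := hn σ⁻¹ ((Gamma0 N).inv_mem hσ) γ γ.2
    rwa [inv_inv] at this⟩
  left_inv γ := Subtype.ext (by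
    show σ⁻¹ * (σ * (γ : SL(2, ℤ)) * σ⁻¹) * σ = γ
    group)
  right_inv γ := Subtype.ext (by
    show σ * (σ⁻¹ * (γ : SL(2, ℤ)) * σ) * σ⁻¹ = γ
    group)
  map_mul' γ δ := Subtype.ext (by
    show σ * ((γ : SL(2, ℤ)) * (δ : SL(2, ℤ))) * σ⁻¹ =
      σ * (γ : SL(2, ℤ)) * σ⁻¹ * (σ * (δ : SL(2, ℤ)) * σ⁻¹)
    group)

@[simp] theorem coe_conjOn (σ : SL(2, ℤ)) (hσ : σ ∈ Gamma0 N) (γ : Γ') :
    ((conjOn Γ' hn σ hσ γ : Γ') : SL(2, ℤ)) = σ * γ * σ⁻¹ := rfl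

theorem slEmb_conjOn (σ : SL(2, ℤ)) (hσ : σ ∈ Gamma0 N) (γ : Γ') :
    slEmb Γ' (conjOn Γ' hn σ hσ γ) =
      Matrix.SpecialLinearGroup.mapGL ℝ σ * slEmb Γ' γ *
        (Matrix.SpecialLinearGroup.mapGL ℝ σ)⁻¹ := by
  show Matrix.SpecialLinearGroup.mapGL ℝ (σ * (γ : SL(2, ℤ)) * σ⁻¹) =
    Matrix.SpecialLinearGroup.mapGL ℝ σ * Matrix.SpecialLinearGroup.mapGL ℝ (γ : SL(2, ℤ)) *
      (Matrix.SpecialLinearGroup.mapGL ℝ σ)⁻¹
  rw [map_mul, map_mul, map_inv]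

variable (A : Type*) [AddCommGroup A]

/-- `ψ ↦ ψ ∘ (γ ↦ σ γ σ⁻¹)` on `Hom(Γ', A)`, `σ ∈ Γ₀(N)`. -/
noncomputable def diamondOnBy (σ : SL(2, ℤ)) (hσ : σ ∈ Gamma0 N) :
    (Additive Γ' →+ A) →+ (Additive Γ' →+ A) where
  toFun ψ := ψ.comp (MonoidHom.toAdditive (conjOn Γ' hn σ hσ : Γ' →* Γ'))
  map_zero' := rfl
  map_add' _ _ := rfl

variable {A}

theorem diamondOnBy_apply (σ : SL(2, ℤ)) (hσ : σ ∈ Gamma0 N) (ψ : Additive Γ' →+ A) (γ : Γ') :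
    diamondOnBy Γ' hn A σ hσ ψ (Additive.ofMul γ) =
      ψ (Additive.ofMul (conjOn Γ' hn σ hσ γ)) := rfl

/-- conjugation by an element of `Γ'` is trivial on `Hom(Γ', A)`. -/
theorem diamondOnBy_of_mem {σ : SL(2, ℤ)} (hσ : σ ∈ Gamma0 N) (hσ' : σ ∈ Γ') :
    diamondOnBy Γ' hn A σ hσ = AddMonoidHom.id _ := by
  refine AddMonoidHom.ext fun ψ => AddMonoidHom.ext fun γ => ?_
  obtain ⟨γ, rfl⟩ := Additive.ofMul.surjective γ
  rw [diamondOnBy_apply, AddMonoidHom.id_apply]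
  set g : Γ' := ⟨σ, hσ'⟩ with hgdef
  have e : conjOn Γ' hn σ hσ γ = g * γ * g⁻¹ := Subtype.ext rfl
  rw [e, ofMul_mul, ofMul_mul, ofMul_inv, map_add, map_add, map_neg]
  abel

theorem diamondOnBy_mul {σ σ' : SL(2, ℤ)} (hσ : σ ∈ Gamma0 N) (hσ' : σ' ∈ Gamma0 N) :
    diamondOnBy Γ' hn A (σ * σ') ((Gamma0 N).mul_mem hσ hσ') =
      (diamondOnBy Γ' hn A σ' hσ').comp (diamondOnBy Γ' hn A σ hσ) := by
  refine AddMonoidHom.ext fun ψ => AddMonoidHom.ext fun γ => ?_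
  obtain ⟨γ, rfl⟩ := Additive.ofMul.surjective γ
  rw [AddMonoidHom.comp_apply, diamondOnBy_apply, diamondOnBy_apply, diamondOnBy_apply]
  congr 2
  apply Subtype.ext
  show σ * σ' * (γ : SL(2, ℤ)) * (σ * σ')⁻¹ = σ * (σ' * (γ : SL(2, ℤ)) * σ'⁻¹) * σ⁻¹
  group

/-- the operator only depends on the class of `σ` modulo `Γ'`. -/
theorem diamondOnBy_congr {σ σ' : SL(2, ℤ)} (hσ : σ ∈ Gamma0 N) (hσ' : σ' ∈ Gamma0 N)
    (h : σ⁻¹ * σ' ∈ Γ') : diamondOnBy Γ' hn A σ hσ = diamondOnBy Γ' hn A σ' hσ' := by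
  have h2 : σ' = σ * (σ⁻¹ * σ') := by group
  have h3 : σ⁻¹ * σ' ∈ Gamma0 N := (Gamma0 N).mul_mem ((Gamma0 N).inv_mem hσ) hσ'
  have h4 : diamondOnBy Γ' hn A σ' hσ' =
      diamondOnBy Γ' hn A (σ * (σ⁻¹ * σ')) ((Gamma0 N).mul_mem hσ h3) := by
    congr 1
  rw [h4, diamondOnBy_mul Γ' hn hσ h3, diamondOnBy_of_mem Γ' hn h3 h]
  rfl

theorem diamondOnBy_comp {B : Type*} [AddCommGroup B] (f : A →+ B) (σ : SL(2, ℤ))
    (hσ : σ ∈ Gamma0 N) (ψ : Additive Γ' →+ A) :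
    diamondOnBy Γ' hn B σ hσ (f.comp ψ) = f.comp (diamondOnBy Γ' hn A σ hσ ψ) := rfl

theorem diamondOnBy_mem_parabolicHoms (σ : SL(2, ℤ)) (hσ : σ ∈ Gamma0 N) (R : Type*)
    [Semiring R] [Module R A] {ψ : Additive Γ' →+ A} (hψ : ψ ∈ parabolicHoms R Γ' A) :
    diamondOnBy Γ' hn A σ hσ ψ ∈ parabolicHoms R Γ' A := by
  rw [mem_parabolicHoms_iff] at hψ ⊢
  intro γ hγ
  rw [diamondOnBy_apply]
  apply hψ
  rw [coe_conjOn, Matrix.SpecialLinearGroup.coe_mul, Matrix.SpecialLinearGroup.coe_mul,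
    Matrix.trace_mul_comm, ← Matrix.mul_assoc, ← Matrix.SpecialLinearGroup.coe_mul,
    inv_mul_cancel, Matrix.SpecialLinearGroup.coe_one, Matrix.one_mul]
  exact hγ

end Conj

/-! ### the diamonds commute with the Hecke operators -/

section Comm

variable {N p : ℕ} {ι : Type*} [Fintype ι] (S : IntReps N p ι) (Γ' : Subgroup SL(2, ℤ))
  (h1 : Gamma1 N ≤ Γ') (h0 : Γ' ≤ Gamma0 N)
  (hn : ∀ σ ∈ Gamma0 N, ∀ γ ∈ Γ', σ * γ * σ⁻¹ ∈ Γ') {A : Type*} [AddCommGroup A]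

/-- **the operator of a system of representatives commutes with conjugation by `Γ₀(N)`.** -/
theorem diamondOnBy_datumOn (σ : SL(2, ℤ)) (hσ : σ ∈ Gamma0 N) (ψ : Additive Γ' →+ A) :
    diamondOnBy Γ' hn A σ hσ ((datumOn S Γ' h1 h0).heckeGrp A ψ) =
      (datumOn S Γ' h1 h0).heckeGrp A (diamondOnBy Γ' hn A σ hσ ψ) := by
  refine (datumOn S Γ' h1 h0).heckeGrp_comp_mulEquiv (datumOn S Γ' h1 h0) (conjOn Γ' hn σ hσ)
    (MulAut.conj (Matrix.SpecialLinearGroup.mapGL ℝ σ)).toMonoidHom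
    (MulAut.conj (Matrix.SpecialLinearGroup.mapGL ℝ σ)).injective
    (fun γ => (slEmb_conjOn Γ' hn σ hσ γ).symm) (fun i => ?_) ψ
  have hx : ((Matrix.SpecialLinearGroup.mapGL ℝ σ * (datumOn S Γ' h1 h0).α i *
      (Matrix.SpecialLinearGroup.mapGL ℝ σ)⁻¹ : GL (Fin 2) ℝ) :
      Matrix (Fin 2) (Fin 2) ℝ) =
      ((σ : Matrix (Fin 2) (Fin 2) ℤ) * S.rZ i *
        ((σ⁻¹ : SL(2, ℤ)) : Matrix (Fin 2) (Fin 2) ℤ)).map (Int.castRingHom ℝ) := by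
    rw [← map_inv, Units.val_mul, Units.val_mul, datumOn_α, S.val_r, W1.val_mapGL, W1.val_mapGL,
      Matrix.map_mul, Matrix.map_mul]
  exact exists_eq_of_mem_on S Γ' h1 hx (DeltaInt_conj_mem (S.mem i) hσ)

end Comm

section Comm2

variable {N : ℕ} [NeZero N] (Γ' : Subgroup SL(2, ℤ))
  (h1 : Gamma1 N ≤ Γ') (h0 : Γ' ≤ Gamma0 N)
  (hn : ∀ σ ∈ Gamma0 N, ∀ γ ∈ Γ', σ * γ * σ⁻¹ ∈ Γ') {A : Type*} [AddCommGroup A]

/-- **the diamonds commute with the Hecke operators at all primes.** -/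
theorem diamondOnBy_heckeOnP (ℓ : Nat.Primes) (σ : SL(2, ℤ)) (hσ : σ ∈ Gamma0 N)
    (ψ : Additive Γ' →+ A) :
    diamondOnBy Γ' hn A σ hσ (heckeOnP N Γ' h1 h0 ℓ A ψ) =
      heckeOnP N Γ' h1 h0 ℓ A (diamondOnBy Γ' hn A σ hσ ψ) := by
  by_cases h : (ℓ : ℕ) ∣ N
  · rw [heckeOnP_of_dvd h1 h0 h]
    exact diamondOnBy_datumOn _ Γ' h1 h0 hn σ hσ ψ
  · rw [heckeOnP_of_not_dvd h1 h0 h]
    exact diamondOnBy_datumOn _ Γ' h1 h0 hn σ hσ ψ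

end Comm2

/-! ### restriction to `±Γ₁(N)` -/

section Res

variable {N : ℕ} [NeZero N] (Γ' : Subgroup SL(2, ℤ)) (h0 : Γ' ≤ Gamma0 N)
  (hpm : Gpm N 1 ≤ Γ') (A : Type*) [AddCommGroup A]

/-- restriction `Hom(Γ', A) → Hom(±Γ₁(N), A)`. -/
noncomputable def resGpm : (Additive Γ' →+ A) →+ (Additive (Gpm N 1) →+ A) where
  toFun ψ := ψ.comp (MonoidHom.toAdditive (Subgroup.inclusion hpm))
  map_zero' := rfl
  map_add' _ _ := rfl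

variable {A}

theorem resGpm_apply (ψ : Additive Γ' →+ A) (γ : Gpm N 1) :
    resGpm Γ' hpm A ψ (Additive.ofMul γ) = ψ (Additive.ofMul (Subgroup.inclusion hpm γ)) := rfl

theorem resGpm_comp {B : Type*} [AddCommGroup B] (f : A →+ B) (ψ : Additive Γ' →+ A) :
    resGpm Γ' hpm B (f.comp ψ) = f.comp (resGpm Γ' hpm A ψ) := rfl

theorem resGpm_mem_parabolicHoms (R : Type*) [Semiring R] [Module R A]
    {ψ : Additive Γ' →+ A} (hψ : ψ ∈ parabolicHoms R Γ' A) :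
    resGpm Γ' hpm A ψ ∈ parabolicHoms R (Gpm N 1) A := by
  rw [mem_parabolicHoms_iff] at hψ ⊢
  intro γ hγ
  exact hψ (Subgroup.inclusion hpm γ) hγ

/-- **restriction is injective for torsion free coefficients** (finite index). -/
theorem resGpm_injective [IsAddTorsionFree A] : Function.Injective (resGpm Γ' hpm A) := by
  rw [injective_iff_map_eq_zero]
  intro ψ hψ
  refine AddMonoidHom.ext fun γ => ?_
  obtain ⟨γ, rfl⟩ := Additive.ofMul.surjective γ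
  -- a power of `γ` lies in `Γ(N) ≤ ±Γ₁(N)`
  haveI : (Gpm N 1).FiniteIndex := inferInstance
  have hfin : ((Gpm N 1).subgroupOf Γ').FiniteIndex := Subgroup.instFiniteIndex_subgroupOf _ _
  obtain ⟨n, hn0, -, hn⟩ := Subgroup.exists_pow_mem_of_index_ne_zero
    (H := (Gpm N 1).subgroupOf Γ') Subgroup.FiniteIndex.index_ne_zero γ
  have hmem : ((γ ^ n : Γ') : SL(2, ℤ)) ∈ Gpm N 1 := hn
  have h2 := DFunLike.congr_fun hψ (Additive.ofMul (⟨_, hmem⟩ : Gpm N 1))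
  rw [resGpm_apply, AddMonoidHom.zero_apply] at h2
  have h3 : Subgroup.inclusion hpm (⟨_, hmem⟩ : Gpm N 1) = γ ^ n := Subtype.ext rfl
  rw [h3, ofMul_pow, map_nsmul] at h2
  rw [AddMonoidHom.zero_apply]
  exact (smul_eq_zero_iff_right (Nat.pos_iff_ne_zero.mp hn0)).mp h2

variable (h1 : Gamma1 N ≤ Γ')

/-- **restriction intertwines the Hecke operators at all primes with those of W1.** -/
theorem resGpm_heckeOnP (ℓ : Nat.Primes) (ψ : Additive Γ' →+ A) :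
    resGpm Γ' hpm A (heckeOnP N Γ' h1 h0 ℓ A ψ) = heckeGrpP N ℓ A (resGpm Γ' hpm A ψ) := by
  by_cases h : (ℓ : ℕ) ∣ N
  · rw [heckeOnP_of_dvd h1 h0 h, heckeGrpP_of_dvd A h]
    exact heckeGrp_comp_of_compat (W1.heckeDatumU N ℓ ℓ.2 h) (datumU N Γ' h1 h0 ℓ ℓ.2 h)
      (Subgroup.inclusion hpm) (fun _ => rfl) (fun _ => rfl) ψ
  · rw [heckeOnP_of_not_dvd h1 h0 h, heckeGrpP_of_not_dvd A h]
    exact heckeGrp_comp_of_compat (W1.heckeDatumT N ℓ ℓ.2 h) (datumT N Γ' h1 h0 ℓ ℓ.2 h)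
      (Subgroup.inclusion hpm) (fun _ => rfl) (fun _ => rfl) ψ

variable (hn : ∀ σ ∈ Gamma0 N, ∀ γ ∈ Γ', σ * γ * σ⁻¹ ∈ Γ')

/-- **restriction intertwines the diamonds.** -/
theorem resGpm_diamondOnBy (σ : SL(2, ℤ)) (hσ : σ ∈ Gamma0 N) (ψ : Additive Γ' →+ A) :
    resGpm Γ' hpm A (diamondOnBy Γ' hn A σ hσ ψ) =
      diamondGrpBy N A σ hσ (resGpm Γ' hpm A ψ) := by
  refine AddMonoidHom.ext fun γ => ?_
  obtain ⟨γ, rfl⟩ := Additive.ofMul.surjective γ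
  rw [diamondGrpBy_apply, resGpm_apply, resGpm_apply, diamondOnBy_apply]
  rfl

end Res

end Fermat.Agent.RB.TWM
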