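/-
RB = S43 via Ihara avoidance, package [TWMOD] (helper2): **literal targets of the package [TW]**
(the twisting transfer `Tw : Hom(Γ_H, A) → Hom(Γ₀(N M), A)`).

Setting: `M ∣ N`, `π σ : (ℤ/M)ˣ → Δ` with `σ² = π` ("`σ = π^{1/2}`"), `Γ_H = GammaH N M h π` the
kernel of `χ = chiOf N M h π : Γ₀(N) → Δ`, `γ ↦ π(lower right entry mod M)`.  The transfer datum
has index set `(ℤ/M)ˣ` and representatives `α_u = s_u · (1 u/M; 0 1)` with `s_u ∈ Γ₀(N)`,
`χ(s_u) = σ(u)`.  On the `ψ`-eigenspace of `Δ` this is the twist by the character `ψ ∘ σ`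
("`f ↦ ∑_u (ψσ)(u) f|(1 u/M; 0 1)`"), which kills the nebentypus.

* `IsTwDatum` : the specification of the datum;
* `TwExistsStatement`   [TW-A] : the datum exists;
* `TwParabolicStatement` [TW-B] : `Tw` preserves parabolic homomorphisms;
* `TwHeckeStatement`    [TW-C] : `T_ℓ^{(N M)} ∘ Tw = Tw ∘ T_ℓ ∘ ⟨g⟩`, `χ(g) σ(ℓ) = 1`, for `ℓ ∤ N M`;
* `TwInjStatement`      [TW-D] : `Tw` is injective on every eigenspace of `Δ`, over a field of
  characteristic `0`.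
-/
import Mathlib
import Fermat.Agent.RB.TWMOD_helper2_W1
import Fermat.Agent.GR.XFERD_helper4_Abstract
import Fermat.Agent.GR.MULT1_helper2_Ops

set_option autoImplicit false
set_option linter.unusedSectionVars false

namespace Fermat.Agent.RB.TWM

open CongruenceSubgroup Matrix ModularCurve.Period ModularForm
open scoped MatrixGroups
open Fermat.Agent.GR Fermat.Agent.W1

/-- the translation `(1 x; 0 1)`. -/
noncomputable def tMat (x : ℝ) : GL (Fin 2) ℝ :=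
  upperTriangularGL 1 x 1 (by rw [mul_one]; exact one_ne_zero)

section Spec

variable {Δ : Type*} [CommGroup Δ]

/-- **the specification of the twisting datum.** -/
structure IsTwDatum (N M : ℕ) (h : M ∣ N) (π σ : (ZMod M)ˣ →* Δ)
    (X : TransferDatum ↥(GammaH N M h π) ↥(Gamma0 (N * M)) (GL (Fin 2) ℝ) (ZMod M)ˣ) : Prop where
  e'_eq : X.e' = slEmb (GammaH N M h π)
  e_eq : X.e = slEmb (Gamma0 (N * M))
  α_eq : ∀ u : (ZMod M)ˣ, ∃ s : Gamma0 N, chiOf N M h π s = σ u ∧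
    X.α u = slEmb (Gamma0 N) s * tMat ((((u : ZMod M).val : ℕ) : ℝ) / (M : ℝ))

end Spec

/-- **[TW-A]**: the twisting datum exists. -/
def TwExistsStatement : Prop :=
  ∀ {Δ : Type} [CommGroup Δ] (N M : ℕ) [NeZero N] [NeZero M] (h : M ∣ N)
    (π σ : (ZMod M)ˣ →* Δ), Function.Surjective π → (∀ u, σ u ^ 2 = π u) →
    ∃ X : TransferDatum ↥(GammaH N M h π) ↥(Gamma0 (N * M)) (GL (Fin 2) ℝ) (ZMod M)ˣ,
      IsTwDatum N M h π σ X

/-- **[TW-B]**: the twisting transfer preserves the parabolic homomorphisms. -/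
def TwParabolicStatement : Prop :=
  ∀ {Δ : Type} [CommGroup Δ] (N M : ℕ) [NeZero N] [NeZero M] (h : M ∣ N)
    (π σ : (ZMod M)ˣ →* Δ)
    (X : TransferDatum ↥(GammaH N M h π) ↥(Gamma0 (N * M)) (GL (Fin 2) ℝ) (ZMod M)ˣ),
    IsTwDatum N M h π σ X →
    ∀ (R : Type) [Semiring R] (A : Type) [AddCommGroup A] [Module R A]
      (ψ : Additive ↥(GammaH N M h π) →+ A), ψ ∈ parabolicHoms R (GammaH N M h π) A →
      X.transferGrp A ψ ∈ parabolicHoms R (Gamma0 (N * M)) A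

/-- **[TW-C]**: the twisting transfer intertwines `T_ℓ ∘ ⟨g⟩` (`χ(g) σ(ℓ) = 1`) on `Hom(Γ_H, A)`
with `T_ℓ` on `Hom(Γ₀(N M), A)`, for the primes `ℓ ∤ N M`. -/
def TwHeckeStatement : Prop :=
  ∀ {Δ : Type} [CommGroup Δ] (N M : ℕ) [NeZero N] [NeZero M] [NeZero (N * M)] (h : M ∣ N)
    (π σ : (ZMod M)ˣ →* Δ), (∀ u, σ u ^ 2 = π u) →
    ∀ (hn : ∀ τ ∈ Gamma0 N, ∀ γ ∈ GammaH N M h π, τ * γ * τ⁻¹ ∈ GammaH N M h π)
    (X : TransferDatum ↥(GammaH N M h π) ↥(Gamma0 (N * M)) (GL (Fin 2) ℝ) (ZMod M)ˣ),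
    IsTwDatum N M h π σ X →
    ∀ (ℓ : Nat.Primes) (_ : ¬ (ℓ : ℕ) ∣ N * M) (hℓM : Nat.Coprime (ℓ : ℕ) M)
      (g : SL(2, ℤ)) (hg : g ∈ Gamma0 N),
      chiOf N M h π ⟨g, hg⟩ * σ (ZMod.unitOfCoprime (ℓ : ℕ) hℓM) = 1 →
      ∀ (A : Type) [AddCommGroup A] (F : Additive ↥(GammaH N M h π) →+ A),
        Fermat.Agent.GR.heckeGrpP (N * M) ℓ A (X.transferGrp A F) =
          X.transferGrp A
            (heckeOnP N (GammaH N M h π) (Gamma1_le_GammaH N M h π) (GammaH_le_Gamma0 N M h π) ℓ A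
              (diamondOnBy (GammaH N M h π) hn A g hg F))

/-- **[TW-D]**: the twisting transfer is injective on the eigenspaces of `Δ`, over a field of
characteristic `0`.  (`M` squarefree, prime to `N / M`, `Δ` of odd order.) -/
def TwInjStatement : Prop :=
  ∀ {Δ : Type} [CommGroup Δ] [Finite Δ] (_ : Odd (Nat.card Δ))
    (N M : ℕ) [NeZero N] [NeZero M] (h : M ∣ N) (_ : Squarefree M) (_ : Nat.Coprime M (N / M))
    (π σ : (ZMod M)ˣ →* Δ), Function.Surjective π → (∀ u, σ u ^ 2 = π u) →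
    ∀ (hn : ∀ τ ∈ Gamma0 N, ∀ γ ∈ GammaH N M h π, τ * γ * τ⁻¹ ∈ GammaH N M h π)
    (X : TransferDatum ↥(GammaH N M h π) ↥(Gamma0 (N * M)) (GL (Fin 2) ℝ) (ZMod M)ˣ),
    IsTwDatum N M h π σ X →
    ∀ (K : Type) [Field K] [CharZero K] (ψ : Δ →* Kˣ) (F : Additive ↥(GammaH N M h π) →+ K),
      (∀ (g : SL(2, ℤ)) (hg : g ∈ Gamma0 N),
        diamondOnBy (GammaH N M h π) hn K g hg F =
          ((ψ (chiOf N M h π ⟨g, hg⟩) : Kˣ) : K) • F) →
      X.transferGrp K F = 0 → F = 0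

end Fermat.Agent.RB.TWM
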