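/-
RB = S43 via Ihara avoidance, package [TWMOD] (helper2): **the realisation of a side inside
`Hom_par(Γ_H, 𝒪)`** — the interface between the construction of the sides ([SIDES], helper2) and
the proof of the occurrence contract `TWModSide.Occ` ([SS], [OCC]).

Setting: `M ∣ Nt`, `π σ : (ℤ/M)ˣ → Δ`, `σ² = π`, `Γ_H = GammaH Nt M hM π = ker (χ = chiOf …)`,
`Nbig = Nt * M`.  A side `X : TWModSide 𝒪 p r d n` is REALISED if there is an injective `𝒪`-linear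
map `ι : X.H → Hom(Γ_H, 𝒪)` with parabolic values, and an action `act : Δ → End(X.H)` through
elements of `X.alg`, such that
* `⟨g⟩ (ι h) = ι (act (χ g) h)` (`⟨g⟩ = diamondOnBy`, conjugation by `g ∈ Γ₀(Nt)`);
* `ι (Tt ℓ h) = T_ℓ (ι (act (σ ℓ)⁻¹ h))` for `ℓ ∉ Sbig` (`T_ℓ = heckeOnP`);
* `act (σ (uQ q)) = g q`;  at `v ∈ Σ`: `act (σ (uS v)) = z`, and `act (σ u) ∈ z^ℤ` for
  `u ≡ 1 mod Nt / v`.

* `SideReal`              : the structure;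
* `TWModSide.OccClause`   : the clause `occ` of `TWModSide.Occ`, as a `Prop`;
* `SideReducedStatement`  : **[SS]**  realised ⇒ `X.alg` is reduced;
* `SideOccStatement`      : **[OCC]** realised ⇒ `OccClause`.
-/
import Mathlib
import Fermat.Agent.RB.IFACE_helper2_TWMod
import Fermat.Agent.RB.TWMOD_helper2_TwSpec
import Fermat.Agent.RB.TWMOD_helper2_Targets

set_option autoImplicit false
set_option linter.unusedSectionVars false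

namespace Fermat.Agent.RB.TWM

open CongruenceSubgroup Matrix ModularCurve.Period IsLocalRing
open scoped MatrixGroups
open Fermat.Agent.GR Fermat.Agent.W1

/-- **a side realised inside `Hom_par(Γ_H, 𝒪)`.** -/
structure SideReal {𝒪 : Type} [CommRing 𝒪] {p r d n : ℕ} (X : TWModSide 𝒪 p r d n)
    {Δ : Type} [CommGroup Δ] (Nt M : ℕ) [NeZero Nt] (hM : M ∣ Nt) (π σ : (ZMod M)ˣ →* Δ)
    (hn : ∀ τ ∈ Gamma0 Nt, ∀ γ ∈ GammaH Nt M hM π, τ * γ * τ⁻¹ ∈ GammaH Nt M hM π)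
    (Sbig : Finset ℕ) (z : 𝒪) (Sig : Finset ℕ)
    (uQ : Fin r → (ZMod Nt)ˣ) (uS : ℕ → (ZMod Nt)ˣ) : Type where
  /-- the realisation -/
  ι : X.H →ₗ[𝒪] (Additive ↥(GammaH Nt M hM π) →+ 𝒪)
  ι_injective : Function.Injective ι
  ι_par : ∀ h, ι h ∈ parabolicHoms 𝒪 (GammaH Nt M hM π) 𝒪
  /-- the action of `Δ` -/
  act : Δ →* Module.End 𝒪 X.H
  act_mem : ∀ δ, act δ ∈ X.alg
  ι_dia : ∀ (g : SL(2, ℤ)) (hg : g ∈ Gamma0 Nt) (h : X.H),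
    diamondOnBy (GammaH Nt M hM π) hn 𝒪 g hg (ι h) = ι (act (chiOf Nt M hM π ⟨g, hg⟩) h)
  ι_Tt : ∀ (ℓ : Nat.Primes), (ℓ : ℕ) ∉ Sbig → ∀ (hℓM : Nat.Coprime (ℓ : ℕ) M) (h : X.H),
    ι (X.Tt ℓ h) =
      heckeOnP Nt (GammaH Nt M hM π) (Gamma1_le_GammaH Nt M hM π) (GammaH_le_Gamma0 Nt M hM π) ℓ 𝒪
        (ι (act (σ (ZMod.unitOfCoprime (ℓ : ℕ) hℓM))⁻¹ h))
  act_uQ : ∀ q, act (σ (ZMod.unitsMap hM (uQ q))) = X.g q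
  act_uS : ∀ v ∈ Sig, act (σ (ZMod.unitsMap hM (uS v))) = z • (1 : Module.End 𝒪 X.H)
  act_Sig : ∀ v ∈ Sig, ∀ u : (ZMod Nt)ˣ, (((u : ZMod Nt).val : ℕ) : ZMod (Nt / v)) = 1 →
    ∃ j : ℕ, act (σ (ZMod.unitsMap hM u)) = z ^ j • (1 : Module.End 𝒪 X.H)

section Clause

variable {𝒪 : Type} [CommRing 𝒪] [IsDomain 𝒪] [IsDiscreteValuationRing 𝒪]

/-- the clause `occ` of `TWModSide.Occ`. -/
def _root_.Fermat.Agent.RB.TWModSide.OccClause {p r d n : ℕ} (X : TWModSide 𝒪 p r d n) (z : 𝒪)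
    (Sig : Finset ℕ) (Nt Nbig : ℕ) [NeZero Nt] [NeZero Nbig] (Sbig : Finset ℕ)
    (uQ : Fin r → (ZMod Nt)ˣ) (uS : ℕ → (ZMod Nt)ˣ) : Prop :=
  ∀ (B : Type) [CommRing B] [IsDomain B] [IsDiscreteValuationRing B] [Algebra 𝒪 B]
    [Module.Finite 𝒪 B] (x : X.alg →ₐ[𝒪] B),
    (∃ χ : CuspForm.heckeAlgebra Nbig 2 (Sbig : Set ℕ) →+* B,
      ∀ (ℓ : ℕ) (hℓ : ℓ.Prime) (hℓN : ¬ ℓ ∣ Nbig) (hℓS : ℓ ∉ (Sbig : Set ℕ)),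
        χ (CuspForm.heckeAlgebra.T hℓ hℓN hℓS) = x (X.TtA ⟨ℓ, hℓ⟩)) ∧
    ∀ (F : Type) [Field F] [IsAlgClosed F] [Algebra B F],
      Function.Injective (algebraMap B F) →
      ∃ (a : Fermat.Agent.W1.HIdx Nt → F) (ψh : (ZMod Nt)ˣ →* Fˣ),
        Fermat.Agent.W1.eigenPar Nt F a ≠ ⊥ ∧
        (∃ m : ℕ, ∀ u, ψh u ^ (p ^ m) = 1) ∧
        (∀ u : (ZMod Nt)ˣ, a (Sum.inr u) = ((ψh u : Fˣ) : F) ^ 2) ∧
        (∀ (ℓ : ℕ) (hℓ : ℓ.Prime) (hℓN : ¬ ℓ ∣ Nt), ℓ ∉ Sbig →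
          a (Sum.inl ⟨ℓ, hℓ⟩) =
            ((ψh (Fermat.Agent.DS48.primeUnit Nt hℓ hℓN) : Fˣ) : F) *
              algebraMap B F (x (X.TtA ⟨ℓ, hℓ⟩))) ∧
        (∀ q : Fin r, algebraMap B F (x (X.gA q)) = ((ψh (uQ q) : Fˣ) : F)) ∧
        (∀ v ∈ Sig, ((ψh (uS v) : Fˣ) : F) = algebraMap B F (algebraMap 𝒪 B z) ∧
          ∀ u : (ZMod Nt)ˣ, (((u : ZMod Nt).val : ℕ) : ZMod (Nt / v)) = 1 →
            ∃ j : ℕ, ((ψh u : Fˣ) : F) = algebraMap B F (algebraMap 𝒪 B z) ^ j)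

/-- `Occ` from its clauses. -/
theorem _root_.Fermat.Agent.RB.TWModSide.Occ.of_clauses {p r d n : ℕ} {X : TWModSide 𝒪 p r d n}
    {lam z : 𝒪} {N : ℕ} [NeZero N] {S : Finset ℕ}
    {θ : CuspForm.heckeAlgebra N 2 (S : Set ℕ) →+* ResidueField 𝒪}
    {Sig : Finset ℕ} {Nt Nbig : ℕ} [NeZero Nt] [NeZero Nbig] {Sbig : Finset ℕ}
    {uQ : Fin r → (ZMod Nt)ˣ} {uS : ℕ → (ZMod Nt)ˣ}
    (hred : ∀ t : X.alg, t ^ 2 = 0 → t = 0)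
    (hjunk : ∀ ℓ : Nat.Primes, (ℓ : ℕ) ∈ Sbig → X.Tt ℓ = 0)
    (hres : ∀ (ℓ : ℕ) (hℓ : ℓ.Prime) (hℓN : ¬ ℓ ∣ N) (hℓS : ℓ ∉ (S : Set ℕ)), ℓ ∉ Sbig →
      ∀ c : 𝒪, residue 𝒪 c = θ (CuspForm.heckeAlgebra.T hℓ hℓN hℓS) →
        ∃ k : ℕ, ∀ h : X.H, ∃ h' : X.H,
          ((X.Tt ⟨ℓ, hℓ⟩ - algebraMap 𝒪 (Module.End 𝒪 X.H) c) ^ k) h = lam • h')
    (hocc : X.OccClause z Sig Nt Nbig Sbig uQ uS) :
    X.Occ lam z θ Sig Nt Nbig Sbig uQ uS :=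
  ⟨hred, hjunk, hres, hocc⟩

end Clause

/-- **[SS]**: the algebra of a realised side is reduced.  (`T_ℓ` on `Hom_par(Γ₀(Nbig), K)` is
semisimple [SS-big]; by [TW-C], [TW-D] so is `T_ℓ ⟨g⟩` on every `Δ`-eigenspace of
`Hom_par(Γ_H, K̄)`; the `g q` have finite order; a commutative algebra generated by commuting
semisimple operators is reduced.) -/
def SideReducedStatement : Prop :=
  TwExistsStatement → TwParabolicStatement → TwHeckeStatement → TwInjStatement → SSBigStatement →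
  ∀ {𝒪 : Type} [CommRing 𝒪] [IsDomain 𝒪] [IsDiscreteValuationRing 𝒪] [CharZero 𝒪]
    (p : ℕ) [Fact p.Prime] (_ : 5 ≤ p)
    {Δ : Type} [CommGroup Δ] [Finite Δ] (_ : IsPGroup p Δ)
    (Nt M Nbig : ℕ) [NeZero Nt] [NeZero M] [NeZero Nbig] (hM : M ∣ Nt) (_ : Squarefree M)
    (_ : Nat.Coprime M (Nt / M)) (_ : Nbig = Nt * M)
    (π σ : (ZMod M)ˣ →* Δ) (_ : Function.Surjective π) (_ : ∀ u, σ u ^ 2 = π u)
    (hn : ∀ τ ∈ Gamma0 Nt, ∀ γ ∈ GammaH Nt M hM π, τ * γ * τ⁻¹ ∈ GammaH Nt M hM π)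
    (Sbig : Finset ℕ) (_ : ∀ ℓ : ℕ, ℓ.Prime → ℓ ∣ Nbig → ℓ ∈ Sbig)
    {r d n : ℕ} (X : TWModSide 𝒪 p r d n) (z : 𝒪) (Sig : Finset ℕ)
    (uQ : Fin r → (ZMod Nt)ˣ) (uS : ℕ → (ZMod Nt)ˣ)
    (_ : SideReal X Nt M hM π σ hn Sbig z Sig uQ uS)
    (_ : ∀ ℓ : Nat.Primes, (ℓ : ℕ) ∈ Sbig → X.Tt ℓ = 0),
    ∀ t : X.alg, t ^ 2 = 0 → t = 0

/-- **[OCC]**: the occurrence clause of a realised side with reduced algebra. -/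
def SideOccStatement : Prop :=
  TwExistsStatement → TwParabolicStatement → TwHeckeStatement → TwInjStatement →
  ∀ {𝒪 : Type} [CommRing 𝒪] [IsDomain 𝒪] [IsDiscreteValuationRing 𝒪] [CharZero 𝒪]
    (p : ℕ) [Fact p.Prime] (_ : 5 ≤ p)
    {Δ : Type} [CommGroup Δ] [Finite Δ] (_ : IsPGroup p Δ)
    (Nt M Nbig : ℕ) [NeZero Nt] [NeZero M] [NeZero Nbig] (hM : M ∣ Nt) (_ : Squarefree M)
    (_ : Nat.Coprime M (Nt / M)) (_ : Nbig = Nt * M) (_ : Nt ≠ 1)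
    (π σ : (ZMod M)ˣ →* Δ) (_ : Function.Surjective π) (_ : ∀ u, σ u ^ 2 = π u)
    (hn : ∀ τ ∈ Gamma0 Nt, ∀ γ ∈ GammaH Nt M hM π, τ * γ * τ⁻¹ ∈ GammaH Nt M hM π)
    (Sbig : Finset ℕ) (_ : ∀ ℓ : ℕ, ℓ.Prime → ℓ ∣ Nbig → ℓ ∈ Sbig)
    {r d n : ℕ} (X : TWModSide 𝒪 p r d n) (z : 𝒪) (Sig : Finset ℕ)
    (uQ : Fin r → (ZMod Nt)ˣ) (uS : ℕ → (ZMod Nt)ˣ)
    (_ : SideReal X Nt M hM π σ hn Sbig z Sig uQ uS)
    (_ : ∀ t : X.alg, t ^ 2 = 0 → t = 0),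
    X.OccClause z Sig Nt Nbig Sbig uQ uS

end Fermat.Agent.RB.TWM
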