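/-
PROJECT RB — [TWMOD] second wave, package [OCC] (helper1), part 3: **(EV) for a realised side**:
for a point `x : X.alg → B` and an algebraically closed field `F ⊇ B` there are a character
`χ : X.alg → F` with the same kernel as `x` and a non-zero parabolic `Φ ∈ Hom(Γ_H, F)` which is an
eigenvector of the diamonds `⟨g⟩` (eigenvalue `χ(act (χ_H g))`) and of the Hecke operators `T_ℓ`,
`ℓ ∉ Sbig` (eigenvalue `χ(Tt ℓ · act (σ ℓ))`).
-/
import Mathlib
import Fermat.Agent.RB.OCC_helper1_Eigen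
import Fermat.Agent.RB.TWMOD_helper2_Real
import Fermat.Agent.RB.REPT_helper1_TWAlg

set_option autoImplicit false
set_option linter.unusedSectionVars false
set_option linter.unusedVariables false
set_option linter.style.haveILetI false

namespace Fermat.Agent.RB.OCC

open CongruenceSubgroup Matrix ModularCurve.Period IsLocalRing
open scoped MatrixGroups
open Fermat.Agent.GR Fermat.Agent.W1 Fermat.Agent.RB.TWM Fermat.Agent.RB.REPT

/-- a discrete valuation ring finite over a discrete valuation ring contains it. -/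
theorem algebraMap_injective_of_finite_dvr {𝒪 B : Type*} [CommRing 𝒪] [IsDomain 𝒪]
    [IsDiscreteValuationRing 𝒪] [CommRing B] [IsDomain B] [IsDiscreteValuationRing B]
    [Algebra 𝒪 B] [Module.Finite 𝒪 B] : Function.Injective (algebraMap 𝒪 B) := by
  rw [RingHom.injective_iff_ker_eq_bot]
  by_contra hker
  haveI : (RingHom.ker (algebraMap 𝒪 B)).IsPrime := RingHom.ker_isPrime _
  have hmax : (RingHom.ker (algebraMap 𝒪 B)).IsMaximal := Ideal.IsPrime.isMaximal inferInstance hker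
  haveI : (⊥ : Ideal B).IsPrime := Ideal.isPrime_bot
  have hbot : (⊥ : Ideal B).IsMaximal :=
    Ideal.isMaximal_of_isIntegral_of_isMaximal_comap (R := 𝒪) ⊥ hmax
  exact IsDiscreteValuationRing.not_isField B (Ring.isField_iff_maximal_bot.2 hbot)

section Side

variable {𝒪 : Type} [CommRing 𝒪] [IsDomain 𝒪] [IsDiscreteValuationRing 𝒪]
  {p r d n : ℕ} {X : TWModSide 𝒪 p r d n}
  {Δ : Type} [CommGroup Δ] {Nt M : ℕ} [NeZero Nt] {hM : M ∣ Nt} {π σ : (ZMod M)ˣ →* Δ}
  {hn : ∀ τ ∈ Gamma0 Nt, ∀ γ ∈ GammaH Nt M hM π, τ * γ * τ⁻¹ ∈ GammaH Nt M hM π}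
  {Sbig : Finset ℕ} {z : 𝒪} {Sig : Finset ℕ} {uQ : Fin r → (ZMod Nt)ˣ} {uS : ℕ → (ZMod Nt)ˣ}
  (real : SideReal X Nt M hM π σ hn Sbig z Sig uQ uS)

instance group_fg_GammaH : Group.FG ↥(GammaH Nt M hM π) :=
  Subgroup.fg_of_index_ne_zero (GammaH Nt M hM π)

/-- `act δ` as an element of `X.alg`. -/
def actA (δ : Δ) : X.alg := ⟨real.act δ, real.act_mem δ⟩

theorem actA_mul (δ δ' : Δ) : actA real (δ * δ') = actA real δ * actA real δ' :=
  Subtype.ext (map_mul real.act δ δ')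

theorem actA_one : actA real (1 : Δ) = 1 := Subtype.ext (map_one real.act)

/-- `δ ↦ act δ` as a monoid homomorphism to `X.alg`. -/
def actHom : Δ →* X.alg where
  toFun := actA real
  map_one' := actA_one real
  map_mul' := actA_mul real

@[simp] theorem actHom_apply (δ : Δ) : actHom real δ = actA real δ := rfl

variable {B : Type} [CommRing B] [IsDomain B] [IsDiscreteValuationRing B] [Algebra 𝒪 B]
  [Module.Finite 𝒪 B] (x : X.alg →ₐ[𝒪] B)
  {F : Type} [Field F] [IsAlgClosed F] [Algebra B F]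

/-- **(EV) up to conjugation of the character.** -/
theorem exists_eigen_side (hBF : Function.Injective (algebraMap B F)) :
    ∃ (χ : X.alg →+* F) (Φ : Additive ↥(GammaH Nt M hM π) →+ F), Φ ≠ 0 ∧
      RingHom.ker χ = RingHom.ker ((algebraMap B F).comp (x : X.alg →+* B)) ∧
      (∀ c : 𝒪, χ (algebraMap 𝒪 X.alg c) = algebraMap B F (algebraMap 𝒪 B c)) ∧
      Φ ∈ parabolicHoms F (GammaH Nt M hM π) F ∧
      (∀ (g : SL(2, ℤ)) (hg : g ∈ Gamma0 Nt),
        diamondOnBy (GammaH Nt M hM π) hn F g hg Φ =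
          χ (actA real (chiOf Nt M hM π ⟨g, hg⟩)) • Φ) ∧
      (∀ (ℓ : Nat.Primes), (ℓ : ℕ) ∉ Sbig → ∀ (hℓM : Nat.Coprime (ℓ : ℕ) M),
        heckeOnP Nt (GammaH Nt M hM π) (Gamma1_le_GammaH Nt M hM π) (GammaH_le_Gamma0 Nt M hM π)
            ℓ F Φ =
          χ (X.TtA ℓ * actA real (σ (ZMod.unitOfCoprime (ℓ : ℕ) hℓM))) • Φ) := by
  classical
  letI : Algebra 𝒪 F := ((algebraMap B F).comp (algebraMap 𝒪 B)).toAlgebra
  haveI : IsScalarTower 𝒪 B F := IsScalarTower.of_algebraMap_eq fun _ => rfl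
  have hinj : Function.Injective (algebraMap 𝒪 F) :=
    hBF.comp algebraMap_injective_of_finite_dvr
  haveI : Module.Finite 𝒪 X.alg := finite_alg X
  haveI : Algebra.IsIntegral 𝒪 X.alg := Algebra.IsIntegral.of_finite 𝒪 X.alg
  obtain ⟨χ, Φ, hΦ0, hker, hχ𝒪, hspan, heig⟩ :=
    exists_eigen_character (𝒪 := 𝒪) (F := F) (G := ↥(GammaH Nt M hM π)) (R := X.alg) hinj
      real.ι real.ι_injective X.alg.val Subtype.val_injective
      ((algebraMap B F).comp (x : X.alg →+* B)) (fun c => by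
        show algebraMap B F (x (algebraMap 𝒪 X.alg c)) = _
        rw [AlgHom.commutes]
        rfl)
  refine ⟨χ, Φ, hΦ0, hker, hχ𝒪, ?_, ?_, ?_⟩
  · -- parabolic
    refine Submodule.span_le.2 ?_ hspan
    rintro _ ⟨h, rfl⟩
    exact comp_mem_parabolicHoms (R := 𝒪) (S := F) (algebraMap 𝒪 F : 𝒪 →+ F) (real.ι_par h)
  · intro g hg
    refine heig (actA real (chiOf Nt M hM π ⟨g, hg⟩))
      (diamondOnBy (GammaH Nt M hM π) hn F g hg) (fun c ψ => rfl) (fun h => ?_)
    show diamondOnBy (GammaH Nt M hM π) hn F g hg ((algebraMap 𝒪 F : 𝒪 →+ F).comp (real.ι h)) = _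
    rw [diamondOnBy_comp, real.ι_dia g hg h]
    rfl
  · intro ℓ hℓ hℓM
    refine heig (X.TtA ℓ * actA real (σ (ZMod.unitOfCoprime (ℓ : ℕ) hℓM)))
      (heckeOnP Nt (GammaH Nt M hM π) (Gamma1_le_GammaH Nt M hM π) (GammaH_le_Gamma0 Nt M hM π)
        ℓ F) (fun c ψ => ?_) (fun h => ?_)
    · exact (heckeOnPₗ Nt (GammaH Nt M hM π) (Gamma1_le_GammaH Nt M hM π)
        (GammaH_le_Gamma0 Nt M hM π) ℓ F F).map_smul c ψ
    · show heckeOnP Nt (GammaH Nt M hM π) _ _ ℓ F ((algebraMap 𝒪 F : 𝒪 →+ F).comp (real.ι h)) = _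
      rw [heckeOnP_comp]
      have h1 := real.ι_Tt ℓ hℓ hℓM (real.act (σ (ZMod.unitOfCoprime (ℓ : ℕ) hℓM)) h)
      have h2 : real.act (σ (ZMod.unitOfCoprime (ℓ : ℕ) hℓM))⁻¹
          (real.act (σ (ZMod.unitOfCoprime (ℓ : ℕ) hℓM)) h) = h := by
        rw [← Module.End.mul_apply, ← map_mul, inv_mul_cancel, map_one, Module.End.one_apply]
      rw [h2] at h1
      rw [← h1]
      rfl

end Side

end Fermat.Agent.RB.OCC
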