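/-
PROJECT RB — [TWMOD] second wave, package [OCC] (helper1), part 4: **(OCC-b)**: the untwisted
system of a point of a realised side occurs in `W1.eigenPar Nt F`.
-/
import Mathlib
import Fermat.Agent.RB.OCC_helper1_Side
import Fermat.Agent.W1.MULT1_helper2_ESInst
import Fermat.Agent.W1.MULT1_helper2_Occur

set_option autoImplicit false
set_option linter.unusedSectionVars false
set_option linter.unusedVariables false
set_option linter.style.haveILetI false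

namespace Fermat.Agent.RB.OCC

open CongruenceSubgroup Matrix ModularCurve.Period IsLocalRing
open scoped MatrixGroups
open Fermat.Agent.GR Fermat.Agent.W1 Fermat.Agent.RB.TWM Fermat.Agent.RB.REPT

section B

variable {𝒪 : Type} [CommRing 𝒪] [IsDomain 𝒪] [IsDiscreteValuationRing 𝒪] [CharZero 𝒪]
  {p r d n : ℕ} [Fact p.Prime] {X : TWModSide 𝒪 p r d n}
  {Δ : Type} [CommGroup Δ] [Finite Δ] {Nt M : ℕ} [NeZero Nt] [NeZero M] {hM : M ∣ Nt}
  {π σ : (ZMod M)ˣ →* Δ}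
  {hn : ∀ τ ∈ Gamma0 Nt, ∀ γ ∈ GammaH Nt M hM π, τ * γ * τ⁻¹ ∈ GammaH Nt M hM π}
  {Sbig : Finset ℕ} {z : 𝒪} {Sig : Finset ℕ} {uQ : Fin r → (ZMod Nt)ˣ} {uS : ℕ → (ZMod Nt)ˣ}
  (real : SideReal X Nt M hM π σ hn Sbig z Sig uQ uS)
  {B : Type} [CommRing B] [IsDomain B] [IsDiscreteValuationRing B] [Algebra 𝒪 B]
  [Module.Finite 𝒪 B] (x : X.alg →ₐ[𝒪] B)
  {F : Type} [Field F] [IsAlgClosed F] [Algebra B F]

/-- the character `δ ↦ x(act δ)` of `Δ`. -/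
noncomputable def psiDelta : Δ →* Fˣ :=
  ((((algebraMap B F).comp (x : X.alg →+* B)) : X.alg →* F).comp (actHom real)).toHomUnits

theorem coe_psiDelta (δ : Δ) :
    ((psiDelta real x δ : Fˣ) : F) = algebraMap B F (x (actA real δ)) := rfl

theorem chiOf_sigmaOf (u : (ZMod Nt)ˣ) :
    chiOf Nt M hM π ⟨DS48.sigmaOf Nt u, DS48.sigmaOf_mem u⟩ = π (ZMod.unitsMap hM u) := by
  rw [chiOf_apply]
  congr 1
  apply Units.ext
  rw [coe_chiD, ZMod.unitsMap_def, Units.coe_map, MonoidHom.coe_coe]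
  have h1 := DS48.sigmaOf_lowerRight u
  have h2 := congrArg (ZMod.castHom hM (ZMod M)) h1
  rw [map_intCast] at h2
  exact h2

theorem unitsMap_primeUnit {ℓ : ℕ} (hℓ : ℓ.Prime) (hℓN : ¬ ℓ ∣ Nt) (hℓM : Nat.Coprime ℓ M) :
    ZMod.unitsMap hM (DS48.primeUnit Nt hℓ hℓN) = ZMod.unitOfCoprime ℓ hℓM := by
  apply Units.ext
  rw [ZMod.unitsMap_def, Units.coe_map, MonoidHom.coe_coe, DS48.coe_primeUnit, map_natCast,
    ZMod.coe_unitOfCoprime]

/-- the two embeddings of `X.alg ⧸ ker χ` into `F`. -/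
theorem exists_two_embeddings (χ : X.alg →+* F)
    (hker : RingHom.ker χ = RingHom.ker ((algebraMap B F).comp (x : X.alg →+* B))) :
    ∃ (gχ gx : (X.alg ⧸ RingHom.ker χ) →+* F), Function.Injective gχ ∧ Function.Injective gx ∧
      (∀ t : X.alg, gχ (Ideal.Quotient.mk _ t) = χ t) ∧
      (∀ t : X.alg, gx (Ideal.Quotient.mk _ t) = algebraMap B F (x t)) := by
  refine ⟨RingHom.kerLift χ, Ideal.Quotient.lift (RingHom.ker χ)
    ((algebraMap B F).comp (x : X.alg →+* B)) (fun s hs => by rw [hker] at hs; exact hs),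
    RingHom.kerLift_injective χ, RingHom.lift_injective_of_ker_le_ideal _ _ hker.ge,
    fun t => rfl, fun t => rfl⟩

include real in
/-- **(OCC-b)** -/
theorem occ_b (hodd : Odd (Nat.card Δ)) (hpΔ : IsPGroup p Δ) (hNt1 : Nt ≠ 1)
    (hσ : ∀ u, σ u ^ 2 = π u)
    (hBF : Function.Injective (algebraMap B F)) :
    ∃ (a : HIdx Nt → F) (ψh : (ZMod Nt)ˣ →* Fˣ),
      W1.eigenPar Nt F a ≠ ⊥ ∧
      (∃ m : ℕ, ∀ u, ψh u ^ (p ^ m) = 1) ∧
      (∀ u : (ZMod Nt)ˣ, a (Sum.inr u) = ((ψh u : Fˣ) : F) ^ 2) ∧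
      (∀ (ℓ : ℕ) (hℓ : ℓ.Prime) (hℓN : ¬ ℓ ∣ Nt), ℓ ∉ Sbig →
        a (Sum.inl ⟨ℓ, hℓ⟩) =
          ((ψh (DS48.primeUnit Nt hℓ hℓN) : Fˣ) : F) *
            algebraMap B F (x (X.TtA ⟨ℓ, hℓ⟩))) ∧
      (∀ q : Fin r, algebraMap B F (x (X.gA q)) = ((ψh (uQ q) : Fˣ) : F)) ∧
      (∀ v ∈ Sig, ((ψh (uS v) : Fˣ) : F) = algebraMap B F (algebraMap 𝒪 B z) ∧
        ∀ u : (ZMod Nt)ˣ, (((u : ZMod Nt).val : ℕ) : ZMod (Nt / v)) = 1 →
          ∃ j : ℕ, ((ψh u : Fˣ) : F) = algebraMap B F (algebraMap 𝒪 B z) ^ j) := by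
  classical
  obtain ⟨χ, Φ, hΦ0, hker, hχ𝒪, hpar, hdia, hhecke⟩ := exists_eigen_side real x hBF
  obtain ⟨gχ, gx, hgχ, hgx, hgχm, hgxm⟩ := exists_two_embeddings x χ hker
  haveI : (RingHom.ker χ).IsPrime := RingHom.ker_isPrime χ
  haveI : IsDomain (X.alg ⧸ RingHom.ker χ) := Ideal.Quotient.isDomain _
  have hinj𝒪F : Function.Injective ((algebraMap B F).comp (algebraMap 𝒪 B)) :=
    hBF.comp algebraMap_injective_of_finite_dvr
  haveI : CharZero F := charZero_of_injective_ringHom hinj𝒪F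
  have hπ1 : π (-1) = 1 := map_neg_one_eq_one_of_odd hodd π
  have hpm : Gpm Nt 1 ≤ GammaH Nt M hM π := Gpm_le_GammaH Nt M hM π hπ1
  have hcop : ∀ ℓ : Nat.Primes, ¬ (ℓ : ℕ) ∣ Nt → Nat.Coprime (ℓ : ℕ) M := fun ℓ h =>
    (Nat.Prime.coprime_iff_not_dvd ℓ.2).2 fun h' => h (h'.trans hM)
  -- the restriction to `±Γ₁(Nt)`
  set Ψ := resGpm (GammaH Nt M hM π) hpm F Φ with hΨ
  have hΨ0 : Ψ ≠ 0 := fun h0 => hΦ0 (resGpm_injective (GammaH Nt M hM π) hpm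
    (h0.trans (map_zero _).symm))
  have hΨpar : Ψ ∈ parabolicHoms F (Gpm Nt 1) F := resGpm_mem_parabolicHoms _ hpm F hpar
  have hres_smul : ∀ (c : F) (ψ : Additive ↥(GammaH Nt M hM π) →+ F),
      resGpm (GammaH Nt M hM π) hpm F (c • ψ) = c • resGpm (GammaH Nt M hM π) hpm F ψ :=
    fun c ψ => rfl
  -- the system with values in the quotient
  set σset : Set (HIdx Nt) := {i | ∀ ℓ : Nat.Primes, i = Sum.inl ℓ →
    (ℓ : ℕ) ∉ Sbig ∧ ¬ (ℓ : ℕ) ∣ Nt} with hσset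
  set dsys : HIdx Nt → (X.alg ⧸ RingHom.ker χ) := Sum.elim
    (fun ℓ => if h : ¬ (ℓ : ℕ) ∣ Nt then
      Ideal.Quotient.mk _ (X.TtA ℓ * actA real (σ (ZMod.unitOfCoprime (ℓ : ℕ) (hcop ℓ h)))) else 0)
    (fun u => Ideal.Quotient.mk _ (actA real (π (ZMod.unitsMap hM u)))) with hdsys
  have hocc : W1.eigenParOn Nt F σset (fun i => gχ (dsys i)) ≠ ⊥ := by
    rw [Submodule.ne_bot_iff]
    refine ⟨Ψ, ⟨hΨpar, ?_⟩, hΨ0⟩
    rintro (ℓ | u) hi
    · obtain ⟨hℓS, hℓN⟩ := hi ℓ rfl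
      show heckeGrpP Nt ℓ F Ψ = gχ (dite _ _ _) • Ψ
      rw [dif_pos hℓN, hgχm, hΨ, ← resGpm_heckeOnP (GammaH Nt M hM π) (GammaH_le_Gamma0 Nt M hM π)
        hpm (Gamma1_le_GammaH Nt M hM π) ℓ Φ, hhecke ℓ hℓS (hcop ℓ hℓN), hres_smul]
    · show diamondGrpBy Nt F (DS48.sigmaOf Nt u) (DS48.sigmaOf_mem u) Ψ = gχ _ • Ψ
      rw [hΨ, ← resGpm_diamondOnBy (GammaH Nt M hM π) hpm hn, hdia, hres_smul, chiOf_sigmaOf]
      show _ = gχ (Ideal.Quotient.mk _ (actA real (π (ZMod.unitsMap hM u)))) • _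
      rw [hgχm]
  have hocc' := W1.eigenParOn_ne_bot_of_domain (M := Nt) gχ gx hgχ hgx σset dsys hocc
  haveI : ESHyp Nt := esHyp_of_ne_one Nt hNt1
  obtain ⟨a, ha, haσ⟩ := W1.exists_eigenPar_of_eigenParOn hocc'
  -- the character
  set ψΔ : Δ →* Fˣ := psiDelta real x with hψΔ
  refine ⟨a, ψΔ.comp (σ.comp (ZMod.unitsMap hM)), ha, ?_, ?_, ?_, ?_, ?_⟩
  · obtain ⟨m, hm⟩ := IsPGroup.iff_card.1 hpΔ
    refine ⟨m, fun u => ?_⟩
    rw [MonoidHom.comp_apply, ← map_pow, ← hm, pow_card_eq_one', map_one]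
  · intro u
    have hmem : (Sum.inr u : HIdx Nt) ∈ σset := fun ℓ h => by cases h
    rw [haσ _ hmem]
    show gx (Ideal.Quotient.mk _ (actA real (π (ZMod.unitsMap hM u)))) = _
    have e : actA real (π (ZMod.unitsMap hM u)) = actA real (σ (ZMod.unitsMap hM u)) ^ 2 := by
      rw [← hσ]
      exact Subtype.ext (map_pow real.act _ 2)
    rw [hgxm, e, map_pow, map_pow]
    rfl
  · intro ℓ hℓ hℓN hℓS
    have hmem : (Sum.inl ⟨ℓ, hℓ⟩ : HIdx Nt) ∈ σset := by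
      intro ℓ' h
      have : (⟨ℓ, hℓ⟩ : Nat.Primes) = ℓ' := Sum.inl_injective h
      subst this
      exact ⟨hℓS, hℓN⟩
    rw [haσ _ hmem]
    show gx (dite _ _ _) = _
    rw [dif_pos (show ¬ ((⟨ℓ, hℓ⟩ : Nat.Primes) : ℕ) ∣ Nt from hℓN), hgxm, map_mul, map_mul,
      MonoidHom.comp_apply, coe_psiDelta, MonoidHom.comp_apply,
      unitsMap_primeUnit hℓ hℓN (hcop ⟨ℓ, hℓ⟩ hℓN), mul_comm]
  · intro q
    rw [MonoidHom.comp_apply, coe_psiDelta, MonoidHom.comp_apply]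
    congr 2
    exact Subtype.ext (real.act_uQ q).symm
  · intro v hv
    have hz : ∀ j : ℕ, algebraMap B F (x (⟨z ^ j • (1 : Module.End 𝒪 X.H),
        Subalgebra.smul_mem _ (Subalgebra.one_mem _) _⟩ : X.alg)) =
        algebraMap B F (algebraMap 𝒪 B z) ^ j := by
      intro j
      have e : (⟨z ^ j • (1 : Module.End 𝒪 X.H),
          Subalgebra.smul_mem _ (Subalgebra.one_mem _) _⟩ : X.alg) =
          algebraMap 𝒪 X.alg (z ^ j) := by
        apply Subtype.ext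
        show z ^ j • (1 : Module.End 𝒪 X.H) = algebraMap 𝒪 (Module.End 𝒪 X.H) (z ^ j)
        rw [Algebra.algebraMap_eq_smul_one]
      rw [e, AlgHom.commutes, map_pow, map_pow]
    refine ⟨?_, fun u hu => ?_⟩
    · rw [MonoidHom.comp_apply, coe_psiDelta, MonoidHom.comp_apply]
      have h1 := hz 1
      rw [pow_one (algebraMap B F (algebraMap 𝒪 B z))] at h1
      rw [← h1]
      congr 2
      apply Subtype.ext
      show real.act _ = z ^ 1 • (1 : Module.End 𝒪 X.H)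
      rw [pow_one]
      exact real.act_uS v hv
    · obtain ⟨j, hj⟩ := real.act_Sig v hv u hu
      refine ⟨j, ?_⟩
      rw [MonoidHom.comp_apply, coe_psiDelta, MonoidHom.comp_apply, ← hz j]
      congr 2
      exact Subtype.ext hj

end B

end Fermat.Agent.RB.OCC
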