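/-
PROJECT RB — [TWMOD] second wave, package [OCC] (helper1), part 5: **(OCC-a)**: the twisted system
`ℓ ↦ x(Tt ℓ)` of a point of a realised side is a character of the Hecke algebra of level
`Γ₀(Nt * M)`, through the twisting transfer [TW-A..D].
-/
import Mathlib
import Fermat.Agent.RB.OCC_helper1_B
import Fermat.Agent.RB.LGCBR_lead_Old

set_option autoImplicit false
set_option linter.unusedSectionVars false
set_option linter.unusedVariables false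
set_option linter.style.haveILetI false

namespace Fermat.Agent.RB.OCC

open CongruenceSubgroup Matrix ModularCurve.Period IsLocalRing Polynomial
open scoped MatrixGroups
open Fermat.Agent.GR Fermat.Agent.W1 Fermat.Agent.RB.TWM Fermat.Agent.RB.REPT

/-- an eigenvalue of a Hecke operator on a non-zero parabolic homomorphism is integral. -/
theorem exists_monic_of_eigen {N : ℕ} [NeZero N] {F : Type*} [Field F] [CharZero F]
    (ℓ : Nat.Primes) {ψ : Additive (Gamma0 N) →+ F} (hψ : ψ ∈ parabolicHoms F (Gamma0 N) F)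
    (hψ0 : ψ ≠ 0) {c : F} (h : GR.heckeGrpP N ℓ F ψ = c • ψ) :
    ∃ P : ℤ[X], P.Monic ∧ Polynomial.eval₂ (Int.castRingHom F) c P = 0 := by
  have h0 := aeval_heckeParP_charpoly (N := N) (F := F) ℓ
  have hv0 : (⟨ψ, hψ⟩ : ↥(parabolicHoms F (Gamma0 N) F)) ≠ 0 :=
    fun h0 => hψ0 (congrArg Subtype.val h0)
  have hev : Module.End.HasEigenvector (GR.heckeParP N ℓ F F) c
      (⟨ψ, hψ⟩ : ↥(parabolicHoms F (Gamma0 N) F)) := by
    refine ⟨?_, hv0⟩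
    rw [Module.End.mem_eigenspace_iff]
    apply Subtype.ext
    rw [GR.coe_heckeParP]
    exact h
  have h1 := Module.End.aeval_apply_of_hasEigenvector
    (p := ((GR.heckeParP N ℓ ℤ ℤ).charpoly).map (Int.castRingHom F)) hev
  have h1' : aeval (GR.heckeParP N ℓ F F)
      (((GR.heckeParP N ℓ ℤ ℤ).charpoly).map (Int.castRingHom F)) =
      aeval (GR.heckeParP N ℓ F F) ((GR.heckeParP N ℓ ℤ ℤ).charpoly) := by
    rw [← algebraMap_int_eq]
    exact Polynomial.aeval_map_algebraMap F _ _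
  rw [h1', h0, LinearMap.zero_apply] at h1
  have h2 : (((GR.heckeParP N ℓ ℤ ℤ).charpoly).map (Int.castRingHom F)).eval c = 0 := by
    rcases smul_eq_zero.1 h1.symm with h3 | h3
    · exact h3
    · exact absurd h3 hv0
  refine ⟨(GR.heckeParP N ℓ ℤ ℤ).charpoly, LinearMap.charpoly_monic _, ?_⟩
  rw [← Polynomial.eval_map]
  exact h2

section A

variable {𝒪 : Type} [CommRing 𝒪] [IsDomain 𝒪] [IsDiscreteValuationRing 𝒪] [CharZero 𝒪]
  {p r d n : ℕ} [Fact p.Prime] {X : TWModSide 𝒪 p r d n}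
  {Δ : Type} [CommGroup Δ] [Finite Δ] {Nt M : ℕ} [NeZero Nt] [NeZero M] [NeZero (Nt * M)]
  {hM : M ∣ Nt} {π σ : (ZMod M)ˣ →* Δ}
  {hn : ∀ τ ∈ Gamma0 Nt, ∀ γ ∈ GammaH Nt M hM π, τ * γ * τ⁻¹ ∈ GammaH Nt M hM π}
  {Sbig : Finset ℕ} {z : 𝒪} {Sig : Finset ℕ} {uQ : Fin r → (ZMod Nt)ˣ} {uS : ℕ → (ZMod Nt)ˣ}
  (real : SideReal X Nt M hM π σ hn Sbig z Sig uQ uS)
  {B : Type} [CommRing B] [IsDomain B] [IsDiscreteValuationRing B] [Algebra 𝒪 B]
  [Module.Finite 𝒪 B] (x : X.alg →ₐ[𝒪] B)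

include real in
/-- **(OCC-a)** -/
theorem occ_a (hA : TwExistsStatement) (hB : TwParabolicStatement) (hC : TwHeckeStatement)
    (hD : TwInjStatement) (hodd : Odd (Nat.card Δ)) (hMsq : Squarefree M)
    (hMcop : Nat.Coprime M (Nt / M)) (hπ : Function.Surjective π) (hσ : ∀ u, σ u ^ 2 = π u)
    (hSbig : ∀ ℓ : ℕ, ℓ.Prime → ℓ ∣ Nt * M → ℓ ∈ Sbig) :
    ∃ χ₀ : CuspForm.heckeAlgebra (Nt * M) 2 (Sbig : Set ℕ) →+* B,
      ∀ (ℓ : ℕ) (hℓ : ℓ.Prime) (hℓN : ¬ ℓ ∣ Nt * M) (hℓS : ℓ ∉ (Sbig : Set ℕ)),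
        χ₀ (CuspForm.heckeAlgebra.T hℓ hℓN hℓS) = x (X.TtA ⟨ℓ, hℓ⟩) := by
  classical
  -- the coefficient field
  set F := AlgebraicClosure (FractionRing B) with hF
  have hBF : Function.Injective (algebraMap B F) := by
    rw [IsScalarTower.algebraMap_eq B (FractionRing B) F]
    exact (algebraMap (FractionRing B) F).injective.comp (IsFractionRing.injective B _)
  obtain ⟨χ, Φ, hΦ0, hker, hχ𝒪, hpar, hdia, hhecke⟩ := exists_eigen_side real x (F := F) hBF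
  obtain ⟨gχ, gx, hgχ, hgx, hgχm, hgxm⟩ := exists_two_embeddings x χ hker
  haveI : (RingHom.ker χ).IsPrime := RingHom.ker_isPrime χ
  haveI : IsDomain (X.alg ⧸ RingHom.ker χ) := Ideal.Quotient.isDomain _
  have hinj𝒪B : Function.Injective (algebraMap 𝒪 B) := algebraMap_injective_of_finite_dvr
  haveI : CharZero B := charZero_of_injective_ringHom hinj𝒪B
  haveI : CharZero F := charZero_of_injective_ringHom hBF
  -- the twisting transfer
  obtain ⟨Xtw, hXtw⟩ := hA Nt M hM π σ hπ hσ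
  set Tw := Xtw.transferGrp F Φ with hTw
  have hTwpar : Tw ∈ parabolicHoms F (Gamma0 (Nt * M)) F := hB Nt M hM π σ Xtw hXtw F F Φ hpar
  -- the character of `Δ`
  set ψχ : Δ →* Fˣ := ((χ : X.alg →* F).comp (actHom real)).toHomUnits with hψχ
  have hTw0 : Tw ≠ 0 := by
    intro h0
    refine hΦ0 (hD hodd Nt M hM hMsq hMcop π σ hπ hσ hn Xtw hXtw F ψχ Φ (fun g hg => ?_) h0)
    rw [hdia g hg]
    rfl
  have hcop : ∀ ℓ : Nat.Primes, (ℓ : ℕ) ∉ Sbig → ¬ (ℓ : ℕ) ∣ Nt * M ∧ Nat.Coprime (ℓ : ℕ) M := by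
    intro ℓ hℓS
    have h1 : ¬ (ℓ : ℕ) ∣ Nt * M := fun h => hℓS (hSbig ℓ ℓ.2 h)
    exact ⟨h1, (Nat.Prime.coprime_iff_not_dvd ℓ.2).2 fun h' => h1 (Dvd.dvd.mul_left h' Nt)⟩
  have heigTw : ∀ ℓ : Nat.Primes, (ℓ : ℕ) ∉ Sbig →
      GR.heckeGrpP (Nt * M) ℓ F Tw = χ (X.TtA ℓ) • Tw := by
    intro ℓ hℓS
    obtain ⟨hℓN, hℓM⟩ := hcop ℓ hℓS
    obtain ⟨⟨g, hg⟩, hgχH⟩ := chiOf_surjective Nt M hM π hπ (σ (ZMod.unitOfCoprime (ℓ : ℕ) hℓM))⁻¹
    have h1 := hC Nt M hM π σ hσ hn Xtw hXtw ℓ hℓN hℓM g hg (by rw [hgχH, inv_mul_cancel]) F Φ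
    rw [hTw, h1, hdia g hg, hgχH]
    have h2 := (heckeOnPₗ Nt (GammaH Nt M hM π) (Gamma1_le_GammaH Nt M hM π)
      (GammaH_le_Gamma0 Nt M hM π) ℓ F F).map_smul
      (χ (actA real (σ (ZMod.unitOfCoprime (ℓ : ℕ) hℓM))⁻¹)) Φ
    rw [heckeOnPₗ_apply, heckeOnPₗ_apply] at h2
    rw [h2, hhecke ℓ hℓS hℓM, smul_smul, ← map_mul]
    have h3 := (Xtw.transferGrpₗ F F).map_smul
      (χ (actA real (σ (ZMod.unitOfCoprime (ℓ : ℕ) hℓM))⁻¹ *
        (X.TtA ℓ * actA real (σ (ZMod.unitOfCoprime (ℓ : ℕ) hℓM))))) Φ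
    rw [TransferDatum.transferGrpₗ_apply, TransferDatum.transferGrpₗ_apply] at h3
    rw [h3]
    congr 2
    rw [mul_comm (X.TtA ℓ), ← mul_assoc, ← actA_mul, inv_mul_cancel, actA_one, one_mul]
  -- occurrence with the character `χ`, then with `x`
  have hocc : GR.eigenParOn (Nt * M) F (primesOutside (Sbig : Set ℕ))
      (fun ℓ => gχ (Ideal.Quotient.mk _ (X.TtA ℓ))) ≠ ⊥ := by
    rw [Submodule.ne_bot_iff]
    refine ⟨Tw, ⟨hTwpar, fun ℓ hℓ => ?_⟩, hTw0⟩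
    show _ = gχ (Ideal.Quotient.mk _ (X.TtA ℓ)) • Tw
    rw [hgχm]
    exact heigTw ℓ (fun h => hℓ (Finset.mem_coe.2 h))
  have hocc' := GR.eigenParOn_ne_bot_of_domain (N := Nt * M) gχ gx hgχ hgx
    (primesOutside (Sbig : Set ℕ)) (fun ℓ => Ideal.Quotient.mk _ (X.TtA ℓ)) hocc
  -- integrality of the eigenvalues
  obtain ⟨ψ, hψ, hψ0⟩ := (Submodule.ne_bot_iff _).1 hocc'
  have hint : ∀ ℓ : Nat.Primes, (ℓ : ℕ) ∉ Sbig → IsIntegral ℤ (x (X.TtA ℓ)) := by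
    intro ℓ hℓS
    have h1 : GR.heckeGrpP (Nt * M) ℓ F ψ = gx (Ideal.Quotient.mk _ (X.TtA ℓ)) • ψ :=
      hψ.2 ℓ (fun h => hℓS (Finset.mem_coe.1 h))
    rw [hgxm] at h1
    obtain ⟨P, hPm, hP0⟩ := exists_monic_of_eigen ℓ hψ.1 hψ0 h1
    refine ⟨P, hPm, ?_⟩
    apply hBF
    rw [map_zero, algebraMap_int_eq, Polynomial.hom_eval₂]
    have e : (algebraMap B F).comp (Int.castRingHom B) = Int.castRingHom F :=
      RingHom.ext_int _ _
    rw [e]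
    exact hP0
  -- the character
  set D₀ := integralClosure ℤ B with hD₀
  set dsys : Nat.Primes → D₀ := fun ℓ =>
    if h : (ℓ : ℕ) ∉ Sbig then ⟨x (X.TtA ℓ), hint ℓ h⟩ else 0 with hdsys
  have hg₀ : Function.Injective ((algebraMap B F).comp (D₀.val : D₀ →+* B)) :=
    hBF.comp Subtype.val_injective
  haveI : CharZero D₀ := (D₀.val : D₀ →+* B).charZero
  have hocc'' : GR.eigenParOn (Nt * M) F (primesOutside (Sbig : Set ℕ))
      (fun ℓ => ((algebraMap B F).comp (D₀.val : D₀ →+* B)) (dsys ℓ)) ≠ ⊥ := by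
    have e : GR.eigenParOn (Nt * M) F (primesOutside (Sbig : Set ℕ))
        (fun ℓ => ((algebraMap B F).comp (D₀.val : D₀ →+* B)) (dsys ℓ)) =
        GR.eigenParOn (Nt * M) F (primesOutside (Sbig : Set ℕ))
          (fun ℓ => gx (Ideal.Quotient.mk _ (X.TtA ℓ))) := by
      refine eigenParOn_congr fun ℓ hℓ => ?_
      have hℓS : (ℓ : ℕ) ∉ Sbig := fun h => hℓ (Finset.mem_coe.2 h)
      rw [hgxm, hdsys]
      simp only
      rw [dif_pos hℓS]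
      rfl
    rw [e]
    exact hocc'
  obtain ⟨χ₀, hχ₀⟩ := LGCBR.exists_character_of_eigenParOn (M := Nt * M) (Sbig : Set ℕ)
    (fun ℓ hℓ hd => Finset.mem_coe.2 (hSbig ℓ hℓ hd)) _ hg₀ dsys hocc''
  refine ⟨(D₀.val : D₀ →+* B).comp χ₀, fun ℓ hℓ hℓN hℓS => ?_⟩
  rw [RingHom.comp_apply, hχ₀ ℓ hℓ hℓN hℓS, hdsys]
  simp only
  rw [dif_pos (fun h => hℓS (Finset.mem_coe.2 h))]
  rfl

end A

end Fermat.Agent.RB.OCC
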