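/-
PROJECT RB — [TWMOD] second wave, package [OCC] (helper1), FINAL: **`SideOccStatement`** — the
occurrence clause of a realised side (helper2's literal of RB/TWMOD_helper2_Real.lean).
-/
import Mathlib
import Fermat.Agent.RB.OCC_helper1_A

set_option autoImplicit false
set_option linter.unusedSectionVars false
set_option linter.unusedVariables false
set_option linter.style.haveILetI false

namespace Fermat.Agent.RB.OCC

open CongruenceSubgroup Matrix ModularCurve.Period IsLocalRing
open scoped MatrixGroups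
open Fermat.Agent.GR Fermat.Agent.W1 Fermat.Agent.RB.TWM Fermat.Agent.RB.REPT

/-- a finite `p`-group with `p` odd has odd order. -/
theorem odd_card_of_isPGroup {p : ℕ} [Fact p.Prime] (hp : p ≠ 2) {Δ : Type*} [Group Δ]
    [Finite Δ] (h : IsPGroup p Δ) : Odd (Nat.card Δ) := by
  obtain ⟨m, hm⟩ := IsPGroup.iff_card.1 h
  rw [hm]
  exact Odd.pow ((Fact.out : p.Prime).odd_of_ne_two hp)

/-- **[OCC]** -/
theorem sideOccStatement : SideOccStatement := by
  intro hA hB hC hD 𝒪 _ _ _ _ p _ hp5 Δ _ _ hΔ Nt M Nbig _ _ _ hM hMsq hMcop hNbig hNt1 π σ hπ hσ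
    hn Sbig hSbig r d n X z Sig uQ uS real hred
  subst hNbig
  have hodd : Odd (Nat.card Δ) := odd_card_of_isPGroup (by omega) hΔ
  intro B _ _ _ _ _ x
  refine ⟨occ_a real x hA hB hC hD hodd hMsq hMcop hπ hσ hSbig, ?_⟩
  intro F _ _ _ hBF
  exact occ_b real x hodd hΔ hNt1 hσ hBF

end Fermat.Agent.RB.OCC
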