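/-
RB = S43 via Ihara avoidance, package [TWMOD] second wave (lead), part [SS] 1: **the action of `Δ`
on `Hom(Γ_H, F)` by the diamond operators, as a representation `Δ →* End_F Hom(Γ_H, F)`.**
-/
import Mathlib
import Fermat.Agent.RB.TWMOD_helper2_TwSpec

set_option autoImplicit false
set_option linter.unusedSectionVars false

namespace Fermat.Agent.RB.SSL

open CongruenceSubgroup Matrix ModularCurve.Period
open scoped MatrixGroups
open Fermat.Agent.GR Fermat.Agent.W1 Fermat.Agent.RB.TWM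

section Dia

variable {Δ : Type*} [CommGroup Δ] (Nt M : ℕ) [NeZero Nt] (hM : M ∣ Nt) (π : (ZMod M)ˣ →* Δ)
  (hn : ∀ τ ∈ Gamma0 Nt, ∀ γ ∈ GammaH Nt M hM π, τ * γ * τ⁻¹ ∈ GammaH Nt M hM π)
  (F : Type*) [Field F]

/-- the diamond operator of `g ∈ Γ₀(Nt)` as an `F`-linear endomorphism of `Hom(Γ_H, F)`. -/
noncomputable def diaLin (g : Gamma0 Nt) :
    Module.End F (Additive ↥(GammaH Nt M hM π) →+ F) where
  toFun := diamondOnBy (GammaH Nt M hM π) hn F (g : SL(2, ℤ)) g.2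
  map_add' := map_add _
  map_smul' _ _ := rfl

theorem diaLin_apply (g : Gamma0 Nt) (ψ : Additive ↥(GammaH Nt M hM π) →+ F) :
    diaLin Nt M hM π hn F g ψ = diamondOnBy (GammaH Nt M hM π) hn F (g : SL(2, ℤ)) g.2 ψ := rfl

/-- the operator only depends on `χ(g)`. -/
theorem diaLin_congr {g g' : Gamma0 Nt} (h : chiOf Nt M hM π g = chiOf Nt M hM π g') :
    diaLin Nt M hM π hn F g = diaLin Nt M hM π hn F g' := by
  refine LinearMap.ext fun ψ => ?_
  rw [diaLin_apply, diaLin_apply]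
  have h1 : ((g : SL(2, ℤ))⁻¹ * (g' : SL(2, ℤ))) ∈ GammaH Nt M hM π := by
    refine mem_GammaH.mpr ⟨(g⁻¹ * g').2, ?_⟩
    have : (⟨(g : SL(2, ℤ))⁻¹ * (g' : SL(2, ℤ)), (g⁻¹ * g').2⟩ : Gamma0 Nt) = g⁻¹ * g' := rfl
    rw [this, map_mul, map_inv, h, inv_mul_cancel]
  rw [diamondOnBy_congr (GammaH Nt M hM π) hn g.2 g'.2 h1]

theorem diaLin_mul (g g' : Gamma0 Nt) :
    diaLin Nt M hM π hn F (g * g') = diaLin Nt M hM π hn F g' * diaLin Nt M hM π hn F g := by
  refine LinearMap.ext fun ψ => ?_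
  rw [Module.End.mul_apply, diaLin_apply, diaLin_apply, diaLin_apply]
  have := diamondOnBy_mul (GammaH Nt M hM π) hn (A := F) g.2 g'.2
  exact DFunLike.congr_fun this ψ

theorem diaLin_of_chiOf_eq_one {g : Gamma0 Nt} (h : chiOf Nt M hM π g = 1) :
    diaLin Nt M hM π hn F g = 1 := by
  refine LinearMap.ext fun ψ => ?_
  rw [diaLin_apply, diamondOnBy_of_mem (GammaH Nt M hM π) hn g.2 (mem_GammaH.mpr ⟨g.2, h⟩)]
  rfl

variable (hπ : Function.Surjective π)

/-- a lift of `δ ∈ Δ` to `Γ₀(Nt)`. -/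
noncomputable def gOf (δ : Δ) : Gamma0 Nt := (chiOf_surjective Nt M hM π hπ δ).choose

theorem chiOf_gOf (δ : Δ) : chiOf Nt M hM π (gOf Nt M hM π hπ δ) = δ :=
  (chiOf_surjective Nt M hM π hπ δ).choose_spec

/-- **the representation of `Δ` on `Hom(Γ_H, F)`.** -/
noncomputable def diaRep : Δ →* Module.End F (Additive ↥(GammaH Nt M hM π) →+ F) where
  toFun δ := diaLin Nt M hM π hn F (gOf Nt M hM π hπ δ)
  map_one' := diaLin_of_chiOf_eq_one Nt M hM π hn F (chiOf_gOf Nt M hM π hπ 1)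
  map_mul' δ δ' := by
    have h1 : diaLin Nt M hM π hn F (gOf Nt M hM π hπ (δ * δ')) =
        diaLin Nt M hM π hn F (gOf Nt M hM π hπ δ' * gOf Nt M hM π hπ δ) := by
      apply diaLin_congr
      rw [map_mul, chiOf_gOf, chiOf_gOf, chiOf_gOf, mul_comm]
    rw [h1, diaLin_mul]

theorem diaRep_apply (δ : Δ) :
    diaRep Nt M hM π hn F hπ δ = diaLin Nt M hM π hn F (gOf Nt M hM π hπ δ) := rfl

/-- the diamond operator of `g` is `diaRep (χ g)`. -/
theorem diaLin_eq_diaRep (g : Gamma0 Nt) :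
    diaLin Nt M hM π hn F g = diaRep Nt M hM π hn F hπ (chiOf Nt M hM π g) := by
  rw [diaRep_apply]
  apply diaLin_congr
  rw [chiOf_gOf]

theorem diaLin_comm (g g' : Gamma0 Nt) :
    diaLin Nt M hM π hn F g * diaLin Nt M hM π hn F g' =
      diaLin Nt M hM π hn F g' * diaLin Nt M hM π hn F g := by
  rw [← diaLin_mul, ← diaLin_mul]
  apply diaLin_congr
  rw [map_mul, map_mul, mul_comm]

end Dia

end Fermat.Agent.RB.SSL
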