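/-
RB = S43 via Ihara avoidance, package [TWMOD] second wave (lead), part [EIG]: **the decomposition
of a representation of a finite abelian group `Δ` on a vector space over a field with enough roots
of unity into eigenvectors**, in the form: an additive subgroup containing all the eigenvectors in
the span of the orbit of `v` contains `v`.
-/
import Mathlib

set_option autoImplicit false
set_option linter.unusedSectionVars false

namespace Fermat.Agent.RB.SSL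

open Finset

section Eig

variable {Δ : Type*} [CommGroup Δ] [Finite Δ] {F : Type*} [Field F]
  [HasEnoughRootsOfUnity F (Monoid.exponent Δ)]

/-- orthogonality of the characters of a finite abelian group: the second relation. -/
theorem sum_monoidHom_apply_eq_zero [Fintype (Δ →* Fˣ)] {δ : Δ} (hδ : δ ≠ 1) :
    ∑ ψ : Δ →* Fˣ, ((ψ δ : Fˣ) : F) = 0 := by
  obtain ⟨φ, hφ⟩ := CommGroup.exists_apply_ne_one_of_hasEnoughRootsOfUnity Δ F hδ
  have h1 : ((φ δ : Fˣ) : F) * ∑ ψ : Δ →* Fˣ, ((ψ δ : Fˣ) : F) =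
      ∑ ψ : Δ →* Fˣ, ((ψ δ : Fˣ) : F) := by
    rw [Finset.mul_sum]
    refine Fintype.sum_equiv (Equiv.mulLeft φ) _ _ fun ψ => ?_
    rw [Equiv.coe_mulLeft, MonoidHom.mul_apply, Units.val_mul]
  have h2 : (((φ δ : Fˣ) : F) - 1) * ∑ ψ : Δ →* Fˣ, ((ψ δ : Fˣ) : F) = 0 := by
    rw [sub_mul, one_mul, h1, sub_self]
  rcases mul_eq_zero.mp h2 with h3 | h3
  · exfalso
    apply hφ
    apply Units.ext
    rw [Units.val_one]
    exact sub_eq_zero.mp h3
  · exact h3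

theorem sum_monoidHom_apply_one [Fintype (Δ →* Fˣ)] :
    ∑ ψ : Δ →* Fˣ, ((ψ (1 : Δ) : Fˣ) : F) = (Nat.card Δ : F) := by
  have h1 : ∀ ψ : Δ →* Fˣ, ((ψ (1 : Δ) : Fˣ) : F) = 1 := fun ψ => by
    rw [map_one, Units.val_one]
  rw [Finset.sum_congr rfl fun ψ _ => h1 ψ, Finset.sum_const, Finset.card_univ, nsmul_eq_mul,
    mul_one, ← Nat.card_eq_fintype_card, CommGroup.card_monoidHom_of_hasEnoughRootsOfUnity]

variable {V : Type*} [AddCommGroup V] [Module F V] (D : Δ →* Module.End F V)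

/-- **the eigenvector decomposition**: an additive subgroup `S` of `V` containing all the
eigenvectors of `Δ` which lie in the span of the orbit of `v` contains `v`. -/
theorem mem_of_forall_eigenvector_mem (hcard : (Nat.card Δ : F) ≠ 0) (S : AddSubgroup V) (v : V)
    (h : ∀ (ψ : Δ →* Fˣ) (w : V), w ∈ Submodule.span F (Set.range fun δ : Δ => D δ v) →
      (∀ δ : Δ, D δ w = ((ψ δ : Fˣ) : F) • w) → w ∈ S) : v ∈ S := by
  classical
  haveI : Fintype Δ := Fintype.ofFinite Δ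
  have : Finite (Δ →* Fˣ) :=
    Finite.of_equiv Δ
      (CommGroup.monoidHom_mulEquiv_of_hasEnoughRootsOfUnity Δ F).some.symm.toEquiv
  haveI : Fintype (Δ →* Fˣ) := Fintype.ofFinite _
  set n : F := (Nat.card Δ : F) with hn
  -- the projectors
  set e : (Δ →* Fˣ) → V := fun ψ => n⁻¹ • ∑ δ : Δ, (((ψ δ)⁻¹ : Fˣ) : F) • D δ v with he
  have hspan : ∀ ψ, e ψ ∈ Submodule.span F (Set.range fun δ : Δ => D δ v) := by
    intro ψ
    refine Submodule.smul_mem _ _ (Submodule.sum_mem _ fun δ _ => Submodule.smul_mem _ _ ?_)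
    exact Submodule.subset_span ⟨δ, rfl⟩
  have heig : ∀ ψ (γ : Δ), D γ (e ψ) = ((ψ γ : Fˣ) : F) • e ψ := by
    intro ψ γ
    show D γ (n⁻¹ • ∑ δ : Δ, (((ψ δ)⁻¹ : Fˣ) : F) • D δ v) =
      ((ψ γ : Fˣ) : F) • (n⁻¹ • ∑ δ : Δ, (((ψ δ)⁻¹ : Fˣ) : F) • D δ v)
    have hL : D γ (n⁻¹ • ∑ δ : Δ, (((ψ δ)⁻¹ : Fˣ) : F) • D δ v) =
        n⁻¹ • ∑ δ : Δ, (((ψ δ)⁻¹ : Fˣ) : F) • D (γ * δ) v := by
      simp only [map_smul, map_sum, map_mul, Module.End.mul_apply]
    have hR : ((ψ γ : Fˣ) : F) • (n⁻¹ • ∑ δ : Δ, (((ψ δ)⁻¹ : Fˣ) : F) • D δ v) =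
        n⁻¹ • ∑ δ : Δ, (((ψ γ : Fˣ) : F) * (((ψ δ)⁻¹ : Fˣ) : F)) • D δ v := by
      rw [smul_comm, Finset.smul_sum]
      simp only [smul_smul]
    rw [hL, hR]
    congr 1
    refine Fintype.sum_equiv (Equiv.mulLeft γ) _ _ fun δ => ?_
    rw [Equiv.coe_mulLeft]
    congr 1
    rw [map_mul, mul_inv, Units.val_mul, ← mul_assoc, ← Units.val_mul, mul_inv_cancel,
      Units.val_one, one_mul]
  -- the sum of the projectors
  have hsum : ∑ ψ : Δ →* Fˣ, e ψ = v := by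
    show ∑ ψ : Δ →* Fˣ, n⁻¹ • ∑ δ : Δ, (((ψ δ)⁻¹ : Fˣ) : F) • D δ v = v
    rw [← Finset.smul_sum, Finset.sum_comm]
    have h1 : ∀ δ : Δ, ∑ ψ : Δ →* Fˣ, (((ψ δ)⁻¹ : Fˣ) : F) • D δ v =
        (if δ = 1 then n else 0) • D δ v := by
      intro δ
      rw [← Finset.sum_smul]
      congr 1
      have h2 : ∀ ψ : Δ →* Fˣ, (((ψ δ)⁻¹ : Fˣ) : F) = ((ψ δ⁻¹ : Fˣ) : F) := fun ψ => by
        rw [map_inv]
      rw [Finset.sum_congr rfl fun ψ _ => h2 ψ]
      by_cases hδ : δ = 1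
      · rw [if_pos hδ, hδ, inv_one, sum_monoidHom_apply_one]
      · rw [if_neg hδ]
        exact sum_monoidHom_apply_eq_zero (fun h => hδ (inv_eq_one.mp h))
    rw [Finset.sum_congr rfl fun δ _ => h1 δ]
    simp only [ite_smul, zero_smul]
    rw [Finset.sum_ite_eq' Finset.univ (1 : Δ), if_pos (Finset.mem_univ _), map_one, smul_smul,
      inv_mul_cancel₀ hcard, one_smul]
    rfl
  rw [← hsum]
  exact AddSubgroup.sum_mem _ fun ψ _ => h ψ (e ψ) (hspan ψ) (heig ψ)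

end Eig

end Fermat.Agent.RB.SSL
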