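/-
RB = S43 via Ihara avoidance, package [TW] (lead), part 0: **rational matrices in `GL₂(ℝ)`**:
`IsQMat k x A` says `k • x = A` for the integral matrix `A`; products and equalities of such
elements are products and equalities of integral matrices.  The translations `tMat (a / M)` are
`M⁻¹ (M a; 0 M)`.
-/
import Mathlib
import Fermat.Agent.RB.TWMOD_helper2_TwSpec
import Fermat.Agent.GR.XFERD_helper4_Gamma0

set_option autoImplicit false
set_option linter.unusedSectionVars false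
set_option linter.unnecessarySeqFocus false

namespace Fermat.Agent.RB.TWL

open CongruenceSubgroup Matrix ModularCurve.Period ModularForm
open scoped MatrixGroups
open Fermat.Agent.GR Fermat.Agent.W1 Fermat.Agent.RB.TWM

/-- `x ∈ GL₂(ℝ)` is `k⁻¹ A` for the integral matrix `A`. -/
def IsQMat (k : ℤ) (x : GL (Fin 2) ℝ) (A : Matrix (Fin 2) (Fin 2) ℤ) : Prop :=
  (k : ℝ) • (x : Matrix (Fin 2) (Fin 2) ℝ) = A.map (Int.castRingHom ℝ)

theorem IsQMat.mul {k k' : ℤ} {x y : GL (Fin 2) ℝ} {A B : Matrix (Fin 2) (Fin 2) ℤ}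
    (hx : IsQMat k x A) (hy : IsQMat k' y B) : IsQMat (k * k') (x * y) (A * B) := by
  unfold IsQMat at *
  rw [Units.val_mul, Matrix.map_mul, ← hx, ← hy, Matrix.smul_mul, Matrix.mul_smul, smul_smul,
    Int.cast_mul]

theorem IsQMat.of_eq {k k' : ℤ} {x : GL (Fin 2) ℝ} {A : Matrix (Fin 2) (Fin 2) ℤ}
    (hx : IsQMat k x A) (hk : k = k') : IsQMat k' x A := hk ▸ hx

theorem IsQMat.eq_iff {k : ℤ} {x y : GL (Fin 2) ℝ} {A B : Matrix (Fin 2) (Fin 2) ℤ} (hk : k ≠ 0)
    (hx : IsQMat k x A) (hy : IsQMat k y B) : x = y ↔ A = B := by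
  unfold IsQMat at *
  constructor
  · intro h
    subst h
    exact Matrix.map_injective (Int.castRingHom ℝ).injective_int (hx.symm.trans hy)
  · intro h
    subst h
    apply Units.ext
    have hk' : (k : ℝ) ≠ 0 := by exact_mod_cast hk
    exact smul_right_injective _ hk' (hx.trans hy.symm)

theorem isQMat_of_val {x : GL (Fin 2) ℝ} {A : Matrix (Fin 2) (Fin 2) ℤ}
    (h : (x : Matrix (Fin 2) (Fin 2) ℝ) = A.map (Int.castRingHom ℝ)) : IsQMat 1 x A := by
  unfold IsQMat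
  rw [Int.cast_one, one_smul, h]

theorem isQMat_mapGL (γ : SL(2, ℤ)) :
    IsQMat 1 (Matrix.SpecialLinearGroup.mapGL ℝ γ) (γ : Matrix (Fin 2) (Fin 2) ℤ) :=
  isQMat_of_val (val_mapGL_eq γ)

theorem isQMat_slEmb (Γ : Subgroup SL(2, ℤ)) (γ : Γ) :
    IsQMat 1 (slEmb Γ γ) ((γ : SL(2, ℤ)) : Matrix (Fin 2) (Fin 2) ℤ) :=
  isQMat_of_val (val_slEmb Γ γ)

theorem isQMat_tMat (M : ℕ) (hM : M ≠ 0) (a : ℕ) :
    IsQMat (M : ℤ) (tMat ((a : ℝ) / (M : ℝ))) (utZ M a M) := by
  have hM' : (M : ℝ) ≠ 0 := by exact_mod_cast hM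
  unfold IsQMat tMat
  rw [val_upperTriangularGL]
  ext i j
  fin_cases i <;> fin_cases j <;> simp [utZ] <;> field_simp

theorem isQMat_tMat_int (M : ℕ) (hM : M ≠ 0) (a : ℤ) :
    IsQMat (M : ℤ) (tMat ((a : ℝ) / (M : ℝ))) (utZ M a M) := by
  have hM' : (M : ℝ) ≠ 0 := by exact_mod_cast hM
  unfold IsQMat tMat
  rw [val_upperTriangularGL]
  ext i j
  fin_cases i <;> fin_cases j <;> simp [utZ] <;> field_simp

theorem val_tMat (x : ℝ) : ((tMat x : GL (Fin 2) ℝ) : Matrix (Fin 2) (Fin 2) ℝ) = !![1, x; 0, 1] :=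
  rfl

theorem tMat_add (x y : ℝ) : tMat (x + y) = tMat x * tMat y := by
  apply Units.ext
  rw [Units.val_mul, val_tMat, val_tMat, val_tMat]
  ext i j
  fin_cases i <;> fin_cases j <;> simp [Matrix.mul_apply, Fin.sum_univ_two, add_comm]

theorem tMat_zero : tMat 0 = 1 := by
  apply Units.ext
  rw [val_tMat, Units.val_one]
  ext i j
  fin_cases i <;> fin_cases j <;> simp

theorem tMat_intCast (n : ℤ) :
    tMat (n : ℝ) = Matrix.SpecialLinearGroup.mapGL ℝ (upperUni n) := by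
  apply Units.ext
  rw [val_tMat]
  refine Eq.trans ?_ (val_mapGL_eq (upperUni n)).symm
  ext i j
  fin_cases i <;> fin_cases j <;> simp [upperUni]

end Fermat.Agent.RB.TWL
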