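/-
RB = S43 via Ihara avoidance, package [TW] (lead), part A: **the twisting datum exists**
(`TwExistsStatement`).
-/
import Mathlib
import Fermat.Agent.RB.TW_lead_Mat

set_option autoImplicit false
set_option linter.unusedSectionVars false
set_option linter.unnecessarySeqFocus false

namespace Fermat.Agent.RB.TWL

open CongruenceSubgroup Matrix ModularCurve.Period ModularForm
open scoped MatrixGroups
open Fermat.Agent.GR Fermat.Agent.W1 Fermat.Agent.RB.TWM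

/-- **the integral core of the twisting datum**: for `γ ∈ Γ₀(N M)` (`M ∣ N`) and `U' ≡ d² U`
modulo `M` (`d` the lower right entry of `γ`), `(M U; 0 M) γ = m (M U'; 0 M)` with `m ∈ Γ₀(N)`
of lower right entry `≡ d` modulo `M`. -/
theorem exists_tw_conj (N M : ℕ) (h : M ∣ N) (γ : SL(2, ℤ)) (hγ : γ ∈ Gamma0 (N * M))
    (U U' : ℤ) (hU : ((U' : ℤ) : ZMod M) = ((γ 1 1 : ℤ) : ZMod M) ^ 2 * ((U : ℤ) : ZMod M)) :
    ∃ m : SL(2, ℤ), m ∈ Gamma0 N ∧ ((m 1 1 : ℤ) : ZMod M) = ((γ 1 1 : ℤ) : ZMod M) ∧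
      utZ M U M * (γ : Matrix (Fin 2) (Fin 2) ℤ) = (m : Matrix (Fin 2) (Fin 2) ℤ) * utZ M U' M := by
  obtain ⟨N₀, rfl⟩ := h
  have hc : ((M * N₀ * M : ℕ) : ℤ) ∣ γ 1 0 := (mem_Gamma0_iff_dvd γ).mp hγ
  obtain ⟨c₀, hc₀⟩ := hc
  push_cast at hc₀
  set a := γ 0 0 with ha
  set b := γ 0 1 with hb
  set c := γ 1 0 with hcdef
  set d := γ 1 1 with hd
  have hdet : a * d - b * c = 1 := SL2_det_eq γ
  set c₁ : ℤ := (M : ℤ) * (N₀ * c₀) with hc₁
  have hcc₁ : c = M * c₁ := by rw [hc₀, hc₁]; ring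
  -- `a d ≡ 1`
  have had : ((a : ℤ) : ZMod M) * ((d : ℤ) : ZMod M) = 1 := by
    have := congrArg (fun x : ℤ => (x : ZMod M)) hdet
    simp only [Int.cast_sub, Int.cast_mul, Int.cast_one] at this
    rw [hcc₁] at this
    simpa using this
  have hdvd : (M : ℤ) ∣ U * d - (a + U * c₁) * U' := by
    rw [← ZMod.intCast_zmod_eq_zero_iff_dvd]
    push_cast
    rw [hU, hc₁]
    push_cast
    have : ((M : ℕ) : ZMod M) = 0 := ZMod.natCast_self M
    rw [this]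
    linear_combination (-(d : ZMod M) * (U : ZMod M)) * had
  obtain ⟨k, hk⟩ := hdvd
  have hdetm : (!![a + U * c₁, b + k; c, d - c₁ * U'] : Matrix (Fin 2) (Fin 2) ℤ).det = 1 := by
    rw [Matrix.det_fin_two_of]
    linear_combination hdet + c₁ * hk - k * hcc₁
  let m : SL(2, ℤ) := ⟨!![a + U * c₁, b + k; c, d - c₁ * U'], hdetm⟩
  have hm00 : m 0 0 = a + U * c₁ := rfl
  have hm01 : m 0 1 = b + k := rfl
  have hm10 : m 1 0 = c := rfl
  have hm11 : m 1 1 = d - c₁ * U' := rfl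
  refine ⟨m, ?_, ?_, ?_⟩
  · rw [mem_Gamma0_iff_dvd, hm10, hc₀]
    push_cast
    exact ⟨M * c₀, by ring⟩
  · rw [hm11, hc₁]
    push_cast
    have : ((M : ℕ) : ZMod M) = 0 := ZMod.natCast_self M
    rw [this]
    ring
  · rw [utZ_mul_eq_iff, hm00, hm01, hm10, hm11]
    refine ⟨?_, ?_, ?_, ?_⟩
    · show (M : ℤ) * a + U * c = (a + U * c₁) * M
      rw [hcc₁]; ring
    · show (M : ℤ) * b + U * d = (a + U * c₁) * U' + (b + k) * M
      linear_combination hk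
    · show (M : ℤ) * c = c * M
      ring
    · show (M : ℤ) * d = c * U' + (d - c₁ * U') * M
      rw [hcc₁]; ring

section Datum

variable {Δ : Type*} [CommGroup Δ] (N M : ℕ) [NeZero N] [NeZero M] (h : M ∣ N)
  (π σ : (ZMod M)ˣ →* Δ) (hσ : ∀ u, σ u ^ 2 = π u)
  (s : (ZMod M)ˣ → Gamma0 N) (hs : ∀ u, chiOf N M h π (s u) = σ u)

/-- the representatives `α_u = s_u (1 u/M; 0 1)`. -/
noncomputable def twAlpha (u : (ZMod M)ˣ) : GL (Fin 2) ℝ :=
  slEmb (Gamma0 N) (s u) * tMat ((((u : ZMod M).val : ℕ) : ℝ) / (M : ℝ))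

theorem isQMat_twAlpha (u : (ZMod M)ˣ) :
    IsQMat (M : ℤ) (twAlpha N M s u)
      (((s u : Gamma0 N) : SL(2, ℤ)) * utZ M ((u : ZMod M).val : ℕ) M) :=
  ((isQMat_slEmb (Gamma0 N) (s u)).mul (isQMat_tMat M (NeZero.ne M) _)).of_eq (one_mul _)

/-- the lower right entry modulo `M` of an element of `Γ₀(N M)`. -/
noncomputable def chiBig : ↥(Gamma0 (N * M)) →* (ZMod M)ˣ := chiD (N * M) M (dvd_mul_left M N)

theorem coe_chiBig (γ : Gamma0 (N * M)) :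
    ((chiBig N M γ : (ZMod M)ˣ) : ZMod M) = ((((γ : SL(2, ℤ)) 1 1 : ℤ)) : ZMod M) :=
  coe_chiD _ _ _ γ

include hσ hs in
/-- the twisting relation: `α_u γ = γ' α_{d² u}` with `γ' ∈ Γ_H`. -/
theorem exists_twAlpha_mul (γ : Gamma0 (N * M)) (u : (ZMod M)ˣ) :
    ∃ γ' : ↥(GammaH N M h π), twAlpha N M s u * slEmb (Gamma0 (N * M)) γ =
      slEmb (GammaH N M h π) γ' * twAlpha N M s (chiBig N M γ ^ 2 * u) := by
  set u' : (ZMod M)ˣ := chiBig N M γ ^ 2 * u with hu'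
  have hU : ((((u' : ZMod M).val : ℕ) : ℤ) : ZMod M) =
      (((((γ : SL(2, ℤ)) 1 1 : ℤ)) : ZMod M)) ^ 2 * ((((u : ZMod M).val : ℕ) : ℤ) : ZMod M) := by
    rw [Int.cast_natCast, Int.cast_natCast, ZMod.natCast_zmod_val, ZMod.natCast_zmod_val, hu',
      Units.val_mul, Units.val_pow_eq_pow_val, coe_chiBig]
  obtain ⟨m, hm0, hm11, hm⟩ := exists_tw_conj N M h (γ : SL(2, ℤ)) γ.2 _ _ hU
  -- the element `γ' = s_u m s_{u'}⁻¹`
  have hχm : chiOf N M h π ⟨m, hm0⟩ = π (chiBig N M γ) := by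
    rw [chiOf_apply]
    congr 1
    apply Units.ext
    rw [coe_chiD, coe_chiBig]
    exact hm11
  set g : Gamma0 N := s u * ⟨m, hm0⟩ * (s u')⁻¹ with hg
  have hχg : chiOf N M h π g = 1 := by
    rw [hg, map_mul, map_mul, map_inv, hs, hs, hχm, hu', map_mul, map_pow, ← hσ (chiBig N M γ)]
    rw [mul_comm (σ (chiBig N M γ) ^ 2) (σ u), mul_inv_cancel]
  have hgH : (g : SL(2, ℤ)) ∈ GammaH N M h π := mem_GammaH.mpr ⟨g.2, hχg⟩
  refine ⟨⟨(g : SL(2, ℤ)), hgH⟩, ?_⟩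
  have h1 : IsQMat (M : ℤ) (twAlpha N M s u * slEmb (Gamma0 (N * M)) γ)
      ((((s u : Gamma0 N) : SL(2, ℤ)) * utZ M ((u : ZMod M).val : ℕ) M) *
        ((γ : SL(2, ℤ)) : Matrix (Fin 2) (Fin 2) ℤ)) :=
    ((isQMat_twAlpha N M s u).mul (isQMat_slEmb _ γ)).of_eq (mul_one _)
  have h2 : IsQMat (M : ℤ) (slEmb (GammaH N M h π) ⟨(g : SL(2, ℤ)), hgH⟩ * twAlpha N M s u')
      (((g : SL(2, ℤ)) : Matrix (Fin 2) (Fin 2) ℤ) *
        (((s u' : Gamma0 N) : SL(2, ℤ)) * utZ M ((u' : ZMod M).val : ℕ) M)) :=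
    ((isQMat_slEmb (GammaH N M h π) ⟨(g : SL(2, ℤ)), hgH⟩).mul (isQMat_twAlpha N M s u')).of_eq
      (one_mul _)
  rw [h1.eq_iff (by exact_mod_cast NeZero.ne M) h2]
  have hgval : ((g : SL(2, ℤ)) : Matrix (Fin 2) (Fin 2) ℤ) =
      ((s u : Gamma0 N) : SL(2, ℤ)) * (m : Matrix (Fin 2) (Fin 2) ℤ) *
        (((s u' : Gamma0 N)⁻¹ : Gamma0 N) : SL(2, ℤ)) := by
    rw [hg]
    simp only [Subgroup.coe_mul, Matrix.SpecialLinearGroup.coe_mul]
  have hinv : ((((s u' : Gamma0 N)⁻¹ : Gamma0 N) : SL(2, ℤ)) : Matrix (Fin 2) (Fin 2) ℤ) *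
      (((s u' : Gamma0 N) : SL(2, ℤ)) : Matrix (Fin 2) (Fin 2) ℤ) = 1 := by
    rw [← Matrix.SpecialLinearGroup.coe_mul, ← Subgroup.coe_mul, inv_mul_cancel]
    rfl
  have hassoc : ∀ (A B C D E : Matrix (Fin 2) (Fin 2) ℤ),
      A * B * C * (D * E) = A * (B * ((C * D) * E)) := by
    intro A B C D E
    simp only [Matrix.mul_assoc]
  rw [hgval, Matrix.mul_assoc _ (utZ _ _ _) _, hm, hassoc, hinv, Matrix.one_mul]

/-- distinctness of the cosets. -/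
theorem twAlpha_index_eq (i j : (ZMod M)ˣ) (γ' : ↥(GammaH N M h π))
    (hij : twAlpha N M s i = slEmb (GammaH N M h π) γ' * twAlpha N M s j) : i = j := by
  have h2 : IsQMat (M : ℤ) (slEmb (GammaH N M h π) γ' * twAlpha N M s j)
      (((γ' : SL(2, ℤ)) : Matrix (Fin 2) (Fin 2) ℤ) *
        (((s j : Gamma0 N) : SL(2, ℤ)) * utZ M ((j : ZMod M).val : ℕ) M)) :=
    ((isQMat_slEmb (GammaH N M h π) γ').mul (isQMat_twAlpha N M s j)).of_eq (one_mul _)
  have h3 := ((isQMat_twAlpha N M s i).eq_iff (by exact_mod_cast NeZero.ne M) h2).mp hij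
  -- `g = s_i⁻¹ γ' s_j`
  set g : SL(2, ℤ) := ((s i : Gamma0 N) : SL(2, ℤ))⁻¹ * (γ' : SL(2, ℤ)) *
    ((s j : Gamma0 N) : SL(2, ℤ)) with hg
  have h4 : utZ M ((i : ZMod M).val : ℕ) M * ((1 : SL(2, ℤ)) : Matrix (Fin 2) (Fin 2) ℤ) =
      (g : Matrix (Fin 2) (Fin 2) ℤ) * utZ M ((j : ZMod M).val : ℕ) M := by
    have hassoc : ∀ (A B C D : Matrix (Fin 2) (Fin 2) ℤ),
        A * B * C * D = A * (B * (C * D)) := by
      intro A B C D
      simp only [Matrix.mul_assoc]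
    rw [Matrix.SpecialLinearGroup.coe_one, Matrix.mul_one, hg,
      Matrix.SpecialLinearGroup.coe_mul, Matrix.SpecialLinearGroup.coe_mul, hassoc, ← h3,
      ← Matrix.mul_assoc, ← Matrix.SpecialLinearGroup.coe_mul, inv_mul_cancel,
      Matrix.SpecialLinearGroup.coe_one, Matrix.one_mul]
  rw [utZ_mul_eq_iff] at h4
  obtain ⟨h00, h01, -, -⟩ := h4
  have hM0 : (M : ℤ) ≠ 0 := by exact_mod_cast NeZero.ne M
  simp only [Matrix.SpecialLinearGroup.coe_one, Matrix.one_apply_eq, Matrix.one_apply_ne,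
    ne_eq, zero_ne_one, one_ne_zero, not_false_eq_true, mul_one, mul_zero, add_zero,
    zero_add] at h00 h01
  have hg00 : g 0 0 = 1 := by
    have : (M : ℤ) * 1 = M * g 0 0 := by rw [mul_one, mul_comm]; exact h00
    exact (mul_left_cancel₀ hM0 this).symm
  rw [hg00, one_mul] at h01
  apply Units.ext
  have h5 := congrArg (fun x : ℤ => (x : ZMod M)) h01
  simp only [Int.cast_add, Int.cast_mul, Int.cast_natCast, ZMod.natCast_zmod_val,
    ZMod.natCast_self, mul_zero, add_zero] at h5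
  exact h5

/-- **the twisting datum.** -/
noncomputable def twDatum :
    TransferDatum ↥(GammaH N M h π) ↥(Gamma0 (N * M)) (GL (Fin 2) ℝ) (ZMod M)ˣ where
  e' := slEmb (GammaH N M h π)
  e'_inj := slEmb_injective _
  e := slEmb (Gamma0 (N * M))
  α := twAlpha N M s
  exists_eq γ i := by
    obtain ⟨γ', hγ'⟩ := exists_twAlpha_mul N M h π σ hσ s hs γ i
    exact ⟨_, γ', hγ'⟩
  index_eq i j γ' hij := twAlpha_index_eq N M h π s i j γ' hij

theorem isTwDatum_twDatum : IsTwDatum N M h π σ (twDatum N M h π σ hσ s hs) where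
  e'_eq := rfl
  e_eq := rfl
  α_eq u := ⟨s u, hs u, rfl⟩

end Datum

/-- **[TW-A]** the twisting datum exists. -/
theorem twExistsStatement : TwExistsStatement := by
  intro Δ _ N M _ _ h π σ hπ hσ
  have hsur := chiOf_surjective N M h π hπ
  choose s hs using fun u : (ZMod M)ˣ => hsur (σ u)
  exact ⟨twDatum N M h π σ hσ s hs, isTwDatum_twDatum N M h π σ hσ s hs⟩

end Fermat.Agent.RB.TWL
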