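/-
RB = S43 via Ihara avoidance, package [TW] (lead), part C0: abstract tools for the commutation of
the twisting transfer with the Hecke operators:
* `transferGrp_heckeGrp_comm_of_exists_rev` : the coset-union principle with the existence in the
  direction `Γ' α_a β'_b ⊆ ⋃ Γ' β_k α_i` (only ONE family has to be shown pairwise distinct);
* `conjDatum` : the Hecke datum `x β_k` for `x` normalising `Γ`; its operator is
  `ψ ↦ T (ψ ∘ conj x)`.
-/
import Mathlib
import Fermat.Agent.RB.TW_lead_Mat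

set_option autoImplicit false
set_option linter.unusedSectionVars false

namespace Fermat.Agent.RB.TWL

open Fermat.Agent.GR

section Rev

variable {Γ' Γ G ι κ' κ : Type*} [Group Γ'] [Group Γ] [Group G] [Fintype ι] [Fintype κ']
  [Fintype κ] {A : Type*} [AddCommGroup A] (X : TransferDatum Γ' Γ G ι)

/-- **the transfer intertwines the Hecke operators**, reverse existence form: every `α_a β'_b`
lies in some `Γ' β_k α_i`, the cosets `Γ' α_a β'_b` are pairwise distinct, and `T'`, `T` have the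
same degree. -/
theorem transferGrp_heckeGrp_comm_of_exists_rev (D' : HeckeDatum Γ' G κ')
    (D : HeckeDatum Γ G κ) (hD' : D'.e = X.e') (hD : D.e = X.e)
    (hcard : Fintype.card κ' = Fintype.card κ)
    (hex : ∀ (a : ι) (b : κ), ∃ (k : κ') (i : ι) (δ : Γ'),
      D'.α k * X.α i = X.e' δ * (X.α a * D.α b))
    (hdistR : ∀ (a a₂ : ι) (b b₂ : κ) (γ' : Γ'),
      X.α a * D.α b = X.e' γ' * (X.α a₂ * D.α b₂) → a = a₂ ∧ b = b₂)
    (ψ : Additive Γ' →+ A) :
    X.transferGrp A (D'.heckeGrp A ψ) = D.heckeGrp A (X.transferGrp A ψ) := by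
  classical
  choose fk fi fδ hf using hex
  set π₀ : ι × κ → κ' × ι := fun p => (fk p.1 p.2, fi p.1 p.2) with hπ₀
  have hinj : Function.Injective π₀ := by
    rintro ⟨a, b⟩ ⟨a₂, b₂⟩ h
    have hk : fk a b = fk a₂ b₂ := congrArg Prod.fst h
    have hi : fi a b = fi a₂ b₂ := congrArg Prod.snd h
    have h1 := hf a b
    have h2 := hf a₂ b₂
    rw [hk, hi, h2] at h1
    have h3 : X.α a * D.α b = X.e' ((fδ a b)⁻¹ * fδ a₂ b₂) * (X.α a₂ * D.α b₂) := by
      rw [map_mul, map_inv, mul_assoc, h1, ← mul_assoc, inv_mul_cancel, one_mul]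
    obtain ⟨h4, h5⟩ := hdistR _ _ _ _ _ h3
    exact Prod.ext h4 h5
  have hbij : Function.Bijective π₀ := by
    rw [Fintype.bijective_iff_injective_and_card]
    refine ⟨hinj, ?_⟩
    rw [Fintype.card_prod, Fintype.card_prod, hcard, mul_comm]
  set e : ι × κ ≃ κ' × ι := Equiv.ofBijective π₀ hbij with he
  refine X.transferGrp_heckeGrp_comm D' D hD' hD e.symm
    (fun p => fδ (e.symm p).1 (e.symm p).2) (fun p => ?_) hdistR ψ
  obtain ⟨q, rfl⟩ := e.surjective p
  rw [Equiv.symm_apply_apply]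
  exact hf q.1 q.2

end Rev

section ConjDatum

variable {Γ G ι : Type*} [Group Γ] [Group G] (D : HeckeDatum Γ G ι) (x : G) (θ : Γ ≃* Γ)
  (hθ : ∀ γ, D.e (θ γ) = x * D.e γ * x⁻¹)

/-- **the Hecke datum `x β_k`** for an element `x` of the ambient group inducing the automorphism
`θ` of `Γ`. -/
def conjDatum : HeckeDatum Γ G ι where
  e := D.e
  e_inj := D.e_inj
  α i := x * D.α i
  exists_eq γ i := ⟨D.perm γ i, θ (D.cocycle γ i), by
    rw [hθ, mul_assoc, D.spec γ i]
    group⟩
  index_eq i j γ' h := by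
    apply D.index_eq i j (θ.symm γ')
    have h1 : D.e γ' = x * D.e (θ.symm γ') * x⁻¹ := by rw [← hθ, θ.apply_symm_apply]
    rw [h1] at h
    have h2 : x * D.α i = x * (D.e (θ.symm γ') * D.α j) := by
      rw [h]
      group
    exact mul_left_cancel h2

@[simp] theorem conjDatum_e : (conjDatum D x θ hθ).e = D.e := rfl

@[simp] theorem conjDatum_α (i : ι) : (conjDatum D x θ hθ).α i = x * D.α i := rfl

theorem conjDatum_cocycle (γ : Γ) (i : ι) :
    (conjDatum D x θ hθ).cocycle γ i = θ (D.cocycle γ i) := by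
  apply (conjDatum D x θ hθ).cocycle_eq (j := D.perm γ i)
  show x * D.α i * D.e γ = D.e (θ (D.cocycle γ i)) * (x * D.α (D.perm γ i))
  rw [hθ, mul_assoc, D.spec γ i]
  group

theorem conjDatum_heckeGrp [Fintype ι] {A : Type*} [AddCommGroup A] (ψ : Additive Γ →+ A) :
    (conjDatum D x θ hθ).heckeGrp A ψ =
      D.heckeGrp A (ψ.comp (MonoidHom.toAdditive (θ : Γ →* Γ))) := by
  refine AddMonoidHom.ext fun γ => ?_
  rw [HeckeDatum.heckeGrp_apply', HeckeDatum.heckeGrp_apply']
  refine Finset.sum_congr rfl fun i _ => ?_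
  rw [conjDatum_cocycle]
  rfl

end ConjDatum

end Fermat.Agent.RB.TWL
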