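/-
RB = S43 via Ihara avoidance, package [TW] (lead), part C1: the integral matrix identities behind
`T_ℓ ∘ Tw = Tw ∘ T_ℓ ∘ ⟨g⟩`:
* `(M A; 0 M) (1 q; 0 ℓ) = (1 n; 0 1) (1 q'; 0 ℓ) (M I; 0 M)` for `I ≡ ℓ A` modulo `M`;
* `(M A; 0 M) (ℓ 0; 0 1) = (1 n; 0 1) (ℓ 0; 0 1) (M I; 0 M)` for `A = ℓ I + n M`;
* the cosets `SL₂(ℤ) (M A; 0 M) β_b` (`A < M`, `β_b` the representatives of `T_ℓ`) are pairwise
  distinct.
-/
import Mathlib
import Fermat.Agent.RB.TW_lead_Mat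

set_option autoImplicit false
set_option linter.unusedSectionVars false
set_option linter.unnecessarySeqFocus false

namespace Fermat.Agent.RB.TWL

open CongruenceSubgroup Matrix ModularCurve.Period ModularForm
open scoped MatrixGroups
open Fermat.Agent.GR Fermat.Agent.W1 Fermat.Agent.RB.TWM

theorem utZ_congr {a b d a' b' d' : ℤ} (ha : a = a') (hb : b = b') (hd : d = d') :
    utZ a b d = utZ a' b' d' := by rw [ha, hb, hd]

theorem val_upperUni (n : ℤ) : ((upperUni n : SL(2, ℤ)) : Matrix (Fin 2) (Fin 2) ℤ) = utZ 1 n 1 :=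
  rfl

theorem heckeRepZ_some (ℓ : ℕ) (q : Fin ℓ) : heckeRepZ ℓ (some q) = utZ 1 ((q : ℕ) : ℤ) ℓ := rfl

theorem heckeRepZ_none (ℓ : ℕ) : heckeRepZ ℓ none = utZ ℓ 0 1 := rfl

/-- `(M A; 0 M) (1 q; 0 ℓ) = (1 n; 0 1) (1 q'; 0 ℓ) (M I; 0 M)` for `I ≡ ℓ A` modulo `M`. -/
theorem exists_utZ_tw_mul_some (M ℓ : ℕ) (hℓ : 0 < ℓ) (A I : ℤ) (q : Fin ℓ)
    (hI : (M : ℤ) ∣ ℓ * A - I) :
    ∃ (q' : Fin ℓ) (n : ℤ), utZ M A M * heckeRepZ ℓ (some q) =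
      ((upperUni n : SL(2, ℤ)) : Matrix (Fin 2) (Fin 2) ℤ) * heckeRepZ ℓ (some q') * utZ M I M := by
  obtain ⟨j, hj⟩ := hI
  have hℓ' : (0 : ℤ) < (ℓ : ℤ) := by exact_mod_cast hℓ
  set t : ℤ := ((q : ℕ) : ℤ) + j with ht
  have h0 : 0 ≤ t % (ℓ : ℤ) := Int.emod_nonneg _ hℓ'.ne'
  have h1 : t % (ℓ : ℤ) < ℓ := Int.emod_lt_of_pos _ hℓ'
  have h2 : ((t % (ℓ : ℤ)).toNat : ℤ) = t % (ℓ : ℤ) := Int.toNat_of_nonneg h0
  have h3 : (t % (ℓ : ℤ)).toNat < ℓ := by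
    have : ((t % (ℓ : ℤ)).toNat : ℤ) < ℓ := by rw [h2]; exact h1
    exact_mod_cast this
  refine ⟨⟨(t % (ℓ : ℤ)).toNat, h3⟩, t / (ℓ : ℤ), ?_⟩
  rw [heckeRepZ_some, heckeRepZ_some, val_upperUni, utZ_mul_utZ, utZ_mul_utZ, utZ_mul_utZ]
  have h4 : t % (ℓ : ℤ) + (ℓ : ℤ) * (t / (ℓ : ℤ)) = t := Int.emod_add_mul_ediv t ℓ
  refine utZ_congr (by ring) ?_ (by ring)
  show (M : ℤ) * ((q : ℕ) : ℤ) + A * ℓ = 1 * 1 * I +
    (1 * (((t % (ℓ : ℤ)).toNat : ℕ) : ℤ) + t / (ℓ : ℤ) * ℓ) * M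
  rw [h2]
  have h5 : t % (ℓ : ℤ) + t / (ℓ : ℤ) * ℓ = t := by rw [mul_comm (t / (ℓ : ℤ))]; exact h4
  have h6 : 1 * (t % (ℓ : ℤ)) + t / (ℓ : ℤ) * ℓ = t := by rw [one_mul]; exact h5
  rw [h6, ht]
  linear_combination hj

/-- `(M A; 0 M) (ℓ 0; 0 1) = (1 n; 0 1) (ℓ 0; 0 1) (M I; 0 M)` for `A = ℓ I + n M`. -/
theorem utZ_tw_mul_none (M ℓ : ℕ) (A I n : ℤ) (hI : A = ℓ * I + n * M) :
    utZ M A M * heckeRepZ ℓ none =
      ((upperUni n : SL(2, ℤ)) : Matrix (Fin 2) (Fin 2) ℤ) * heckeRepZ ℓ none * utZ M I M := by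
  rw [heckeRepZ_none, val_upperUni, utZ_mul_utZ, utZ_mul_utZ, utZ_mul_utZ]
  refine utZ_congr (by ring) ?_ (by ring)
  rw [hI]
  ring

/-- **the cosets `SL₂(ℤ) (M A; 0 M) β_b` are pairwise distinct.** -/
theorem tw_hecke_dist (M ℓ : ℕ) (hM : M ≠ 0) (hℓ : ℓ.Prime) (hcop : Nat.Coprime ℓ M) (A A₂ : ℕ)
    (hA : A < M) (hA₂ : A₂ < M) (b b₂ : Option (Fin ℓ)) (g : SL(2, ℤ))
    (h : utZ M A M * heckeRepZ ℓ b =
      (g : Matrix (Fin 2) (Fin 2) ℤ) * (utZ M A₂ M * heckeRepZ ℓ b₂)) : A = A₂ ∧ b = b₂ := by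
  have hM0 : (M : ℤ) ≠ 0 := by exact_mod_cast hM
  have hℓpos : (0 : ℤ) < (ℓ : ℤ) := by exact_mod_cast hℓ.pos
  have hp : ∀ b : Option (Fin ℓ), 0 < repA ℓ b := by
    intro b; cases b
    · exact hℓpos
    · exact one_pos
  rw [heckeRepZ, heckeRepZ, utZ_mul_utZ, utZ_mul_utZ] at h
  have h' : utZ (M * repA ℓ b) (M * repB ℓ b + A * repD ℓ b) (M * repD ℓ b) *
      ((1 : SL(2, ℤ)) : Matrix (Fin 2) (Fin 2) ℤ) = (g : Matrix (Fin 2) (Fin 2) ℤ) *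
      utZ (M * repA ℓ b₂) (M * repB ℓ b₂ + A₂ * repD ℓ b₂) (M * repD ℓ b₂) := by
    rw [Matrix.SpecialLinearGroup.coe_one, Matrix.mul_one]
    exact h
  rw [utZ_mul_eq_iff] at h'
  simp only [Matrix.SpecialLinearGroup.coe_one, Matrix.one_apply_eq, Matrix.one_apply_ne,
    ne_eq, zero_ne_one, one_ne_zero, not_false_eq_true, mul_one, mul_zero, add_zero,
    zero_add] at h'
  obtain ⟨e1, e2, e3, e4⟩ := h'
  have hg10 : g 1 0 = 0 := by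
    have h5 : g 1 0 * ((M : ℤ) * repA ℓ b₂) = 0 := e3.symm
    rcases mul_eq_zero.mp h5 with h6 | h6
    · exact h6
    · exact absurd h6 (mul_ne_zero hM0 (hp b₂).ne')
  have hdet := SL2_det_eq g
  rw [hg10, mul_zero, sub_zero] at hdet
  rw [hg10, zero_mul, zero_add] at e4
  have e1' : repA ℓ b = g 0 0 * repA ℓ b₂ := by
    have : (M : ℤ) * repA ℓ b = M * (g 0 0 * repA ℓ b₂) := by rw [e1]; ring
    exact mul_left_cancel₀ hM0 this
  have hg00pos : 0 < g 0 0 := by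
    by_contra hneg
    rw [not_lt] at hneg
    have := hp b
    rw [e1'] at this
    have h7 : g 0 0 * repA ℓ b₂ ≤ 0 := mul_nonpos_of_nonpos_of_nonneg hneg (hp b₂).le
    omega
  have hg00 : g 0 0 = 1 := by
    rcases Int.eq_one_or_neg_one_of_mul_eq_one' hdet with ⟨h8, -⟩ | ⟨h8, -⟩
    · exact h8
    · omega
  have hg11 : g 1 1 = 1 := by rw [hg00, one_mul] at hdet; exact hdet
  rw [hg00, one_mul] at e1' e2
  rw [hg11, one_mul] at e4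
  have hℓ1 : (ℓ : ℤ) ≠ 1 := by
    have := hℓ.one_lt
    intro h9
    have : ℓ = 1 := by exact_mod_cast h9
    omega
  -- a congruence modulo `M` between naturals `< M` is an equality
  have hmod : ∀ z : ℤ, (A : ℤ) = A₂ + z * M → A = A₂ := by
    intro z hz
    have h10 : ((A : ℤ)) % M = (A₂ : ℤ) % M := by rw [hz, Int.add_mul_emod_self_right]
    rw [Int.emod_eq_of_lt (by positivity) (by exact_mod_cast hA),
      Int.emod_eq_of_lt (by positivity) (by exact_mod_cast hA₂)] at h10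
    exact_mod_cast h10
  cases b with
  | none =>
    cases b₂ with
    | none =>
      simp only [repB, repD, mul_zero, mul_one, zero_add] at e2
      exact ⟨hmod (g 0 1) (by linear_combination e2), rfl⟩
    | some q₂ =>
      exfalso
      simp only [repA] at e1'
      exact hℓ1 e1'
  | some q =>
    cases b₂ with
    | none =>
      exfalso
      simp only [repA] at e1'
      exact hℓ1 e1'.symm
    | some q₂ =>
      simp only [repB, repD] at e2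
      -- `M ∣ ℓ (A - A₂)`
      have h11 : (M : ℤ) ∣ (ℓ : ℤ) * ((A : ℤ) - A₂) :=
        ⟨((q₂ : ℕ) : ℤ) - ((q : ℕ) : ℤ) + g 0 1 * ℓ, by linear_combination e2⟩
      have hcop' : IsCoprime (M : ℤ) (ℓ : ℤ) := by
        rw [Int.isCoprime_iff_gcd_eq_one, Int.gcd_natCast_natCast]
        exact hcop.symm
      obtain ⟨z, hz⟩ := hcop'.dvd_of_dvd_mul_left h11
      have hAA : A = A₂ := hmod z (by linear_combination hz)
      subst hAA
      refine ⟨rfl, ?_⟩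
      have h12 : (M : ℤ) * (((q : ℕ) : ℤ) - ((q₂ : ℕ) : ℤ)) = M * (g 0 1 * ℓ) := by
        linear_combination e2
      have h13 := mul_left_cancel₀ hM0 h12
      rw [fin_eq_of_dvd_sub q q₂ ⟨g 0 1, by rw [h13]; ring⟩]

end Fermat.Agent.RB.TWL
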