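/-
RB = S43 via Ihara avoidance, package [TW] (lead), part C: **the twisting transfer intertwines
`T_ℓ ∘ ⟨g⟩` (`χ(g) σ(ℓ) = 1`) with `T_ℓ`**, `ℓ ∤ N M` (`TwHeckeStatement`).
-/
import Mathlib
import Fermat.Agent.RB.TW_lead_Exists
import Fermat.Agent.RB.TW_lead_HeckeAbs
import Fermat.Agent.RB.TW_lead_HeckeInt

set_option autoImplicit false
set_option linter.unusedSectionVars false
set_option linter.unnecessarySeqFocus false

namespace Fermat.Agent.RB.TWL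

open CongruenceSubgroup Matrix ModularCurve.Period ModularForm
open scoped MatrixGroups
open Fermat.Agent.GR Fermat.Agent.W1 Fermat.Agent.RB.TWM

section Step1

variable (M ℓ : ℕ) [NeZero M]

theorem exists_tMat_mul_heckeRep_some (hℓ : ℓ ≠ 0) (A I : ℕ) (q : Fin ℓ)
    (hI : (M : ℤ) ∣ (ℓ : ℤ) * (A : ℤ) - (I : ℤ)) :
    ∃ (q' : Fin ℓ) (n : ℤ), tMat ((A : ℝ) / (M : ℝ)) * heckeRep ℓ (some q) =
      Matrix.SpecialLinearGroup.mapGL ℝ (upperUni n) * heckeRep ℓ (some q') *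
        tMat ((I : ℝ) / (M : ℝ)) := by
  obtain ⟨q', n, h⟩ := exists_utZ_tw_mul_some M ℓ (Nat.pos_of_ne_zero hℓ) A I q hI
  refine ⟨q', n, ?_⟩
  have h1 : IsQMat (M : ℤ) (tMat ((A : ℝ) / (M : ℝ)) * heckeRep ℓ (some q))
      (utZ M A M * heckeRepZ ℓ (some q)) :=
    ((isQMat_tMat M (NeZero.ne M) A).mul (isQMat_of_val (val_heckeRep hℓ _))).of_eq (mul_one _)
  have h2 : IsQMat (M : ℤ) (Matrix.SpecialLinearGroup.mapGL ℝ (upperUni n) *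
      heckeRep ℓ (some q') * tMat ((I : ℝ) / (M : ℝ)))
      (((upperUni n : SL(2, ℤ)) : Matrix (Fin 2) (Fin 2) ℤ) * heckeRepZ ℓ (some q') *
        utZ M I M) :=
    (((isQMat_mapGL _).mul (isQMat_of_val (val_heckeRep hℓ _))).mul
      (isQMat_tMat M (NeZero.ne M) I)).of_eq (by ring)
  exact (h1.eq_iff (by exact_mod_cast NeZero.ne M) h2).mpr h

theorem tMat_mul_heckeRep_none (hℓ : ℓ ≠ 0) (A I : ℕ) (n : ℤ)
    (hI : (A : ℤ) = (ℓ : ℤ) * (I : ℤ) + n * (M : ℤ)) :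
    tMat ((A : ℝ) / (M : ℝ)) * heckeRep ℓ none =
      Matrix.SpecialLinearGroup.mapGL ℝ (upperUni n) * heckeRep ℓ none *
        tMat ((I : ℝ) / (M : ℝ)) := by
  have h := utZ_tw_mul_none M ℓ A I n hI
  have h1 : IsQMat (M : ℤ) (tMat ((A : ℝ) / (M : ℝ)) * heckeRep ℓ none)
      (utZ M A M * heckeRepZ ℓ none) :=
    ((isQMat_tMat M (NeZero.ne M) A).mul (isQMat_of_val (val_heckeRep hℓ _))).of_eq (mul_one _)
  have h2 : IsQMat (M : ℤ) (Matrix.SpecialLinearGroup.mapGL ℝ (upperUni n) *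
      heckeRep ℓ none * tMat ((I : ℝ) / (M : ℝ)))
      (((upperUni n : SL(2, ℤ)) : Matrix (Fin 2) (Fin 2) ℤ) * heckeRepZ ℓ none *
        utZ M I M) :=
    (((isQMat_mapGL _).mul (isQMat_of_val (val_heckeRep hℓ _))).mul
      (isQMat_tMat M (NeZero.ne M) I)).of_eq (by ring)
  exact (h1.eq_iff (by exact_mod_cast NeZero.ne M) h2).mpr h

end Step1

section Main

variable {Δ : Type*} [CommGroup Δ] (N M : ℕ) [NeZero N] [NeZero M] (h : M ∣ N)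
  (π σ : (ZMod M)ˣ →* Δ)

theorem chiOf_sigmaP (ℓ : ℕ) (hℓ : ℓ.Prime) (hℓN : ¬ ℓ ∣ N) (hℓM : Nat.Coprime ℓ M) :
    chiOf N M h π ⟨sigmaP N hℓ hℓN, sigmaP_mem N hℓ hℓN⟩ = π (ZMod.unitOfCoprime ℓ hℓM) := by
  rw [chiOf_apply]
  congr 1
  apply Units.ext
  rw [coe_chiD, ZMod.coe_unitOfCoprime]
  have := congrArg (ZMod.castHom h (ZMod M)) (sigmaP_lowerRight N hℓ hℓN)
  rwa [map_intCast, map_natCast] at this

theorem upperUni_mem_Gamma1 (n : ℤ) : upperUni n ∈ Gamma1 N := by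
  rw [Gamma1_mem]
  refine ⟨?_, ?_, ?_⟩ <;> simp [upperUni]

theorem chiOf_upperUni (n : ℤ) : chiOf N M h π ⟨upperUni n, upperUni_mem N n⟩ = 1 :=
  chiOf_eq_one_of_mem_Gamma1 N M h π _ (upperUni_mem_Gamma1 N n)

/-- **the existence half of the coset comparison**:
`α_a β'_b = w β_k α_i` with `w ∈ Γ₀(N)`, `χ(w) = σ(ℓ)⁻¹`. -/
theorem tw_hex_core (hσ : ∀ u, σ u ^ 2 = π u)
    (s : (ZMod M)ˣ → Gamma0 N) (hs : ∀ u, chiOf N M h π (s u) = σ u)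
    (ℓ : ℕ) (hℓ : ℓ.Prime) (hℓN : ¬ ℓ ∣ N) (hℓM : Nat.Coprime ℓ M) (a : (ZMod M)ˣ)
    (b : Option (Fin ℓ)) :
    ∃ (k : Option (Fin ℓ)) (i : (ZMod M)ˣ) (w : Gamma0 N),
      chiOf N M h π w = (σ (ZMod.unitOfCoprime ℓ hℓM))⁻¹ ∧
      twAlpha N M s a * heckeRep ℓ b =
        slEmb (Gamma0 N) w * (DS48.heckeRep ℓ (sigmaP N hℓ hℓN) k * twAlpha N M s i) := by
  set uℓ := ZMod.unitOfCoprime ℓ hℓM with huℓ
  set S := intRepsT N hℓ hℓN with hS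
  set D₀ := datumOn S (Gamma0 N) (Gamma1_in_Gamma0 N) le_rfl with hD₀
  have key : ∃ (i : (ZMod M)ˣ) (b' : Option (Fin ℓ)) (n : ℤ) (ε : Gamma0 N),
      σ a * chiOf N M h π ε * (σ i)⁻¹ = (σ uℓ)⁻¹ ∧
      tMat ((((a : ZMod M).val : ℕ) : ℝ) / (M : ℝ)) * heckeRep ℓ b =
        Matrix.SpecialLinearGroup.mapGL ℝ (upperUni n) * (slEmb (Gamma0 N) ε * S.r b') *
          tMat ((((i : ZMod M).val : ℕ) : ℝ) / (M : ℝ)) := by
    cases b with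
    | none =>
      set i : (ZMod M)ˣ := uℓ⁻¹ * a with hi
      have hdvd : (M : ℤ) ∣ (((a : ZMod M).val : ℕ) : ℤ) - (ℓ : ℤ) * (((i : ZMod M).val : ℕ) : ℤ) := by
        rw [← ZMod.intCast_zmod_eq_zero_iff_dvd]
        push_cast
        rw [ZMod.natCast_zmod_val, ZMod.natCast_zmod_val, hi, Units.val_mul,
          ← ZMod.coe_unitOfCoprime ℓ hℓM, ← huℓ, ← mul_assoc, Units.mul_inv, one_mul, sub_self]
      obtain ⟨n, hn⟩ := hdvd
      set σℓ : Gamma0 N := ⟨sigmaP N hℓ hℓN, sigmaP_mem N hℓ hℓN⟩ with hσℓ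
      refine ⟨i, none, n, σℓ⁻¹, ?_, ?_⟩
      · rw [map_inv, hσℓ, chiOf_sigmaP N M h π ℓ hℓ hℓN hℓM, ← huℓ, ← hσ uℓ, hi, map_mul, map_inv,
          _root_.mul_inv_rev, inv_inv, mul_mul_mul_comm, mul_inv_cancel, one_mul, pow_two,
          _root_.mul_inv_rev, inv_mul_cancel_right]
      · rw [tMat_mul_heckeRep_none M ℓ hℓ.ne_zero (a : ZMod M).val (i : ZMod M).val n
          (by linear_combination hn)]
        congr 2
        show heckeDiagMatrix ℓ = slEmb (Gamma0 N) σℓ⁻¹ *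
          (Matrix.SpecialLinearGroup.mapGL ℝ (sigmaP N hℓ hℓN) * heckeDiagMatrix ℓ)
        rw [map_inv, ← mul_assoc]
        have : slEmb (Gamma0 N) σℓ = Matrix.SpecialLinearGroup.mapGL ℝ (sigmaP N hℓ hℓN) := rfl
        rw [this, inv_mul_cancel, one_mul]
    | some q =>
      set i : (ZMod M)ˣ := uℓ * a with hi
      have hdvd : (M : ℤ) ∣ (ℓ : ℤ) * (((a : ZMod M).val : ℕ) : ℤ) - (((i : ZMod M).val : ℕ) : ℤ) := by
        rw [← ZMod.intCast_zmod_eq_zero_iff_dvd]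
        push_cast
        rw [ZMod.natCast_zmod_val, ZMod.natCast_zmod_val, hi, Units.val_mul,
          ← ZMod.coe_unitOfCoprime ℓ hℓM, ← huℓ, sub_self]
      obtain ⟨q', n, hq'⟩ := exists_tMat_mul_heckeRep_some M ℓ hℓ.ne_zero _ _ q hdvd
      refine ⟨i, some q', n, 1, ?_, ?_⟩
      · rw [map_one, mul_one, hi, map_mul, _root_.mul_inv_rev, mul_inv_cancel_left]
      · rw [hq', map_one, one_mul]
        rfl
  obtain ⟨i, b', n, ε, hχ, hkey⟩ := key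
  set c := D₀.cocycle (s i)⁻¹ b' with hc
  set k := D₀.perm (s i)⁻¹ b' with hk
  have hspec : S.r b' * slEmb (Gamma0 N) (s i)⁻¹ = slEmb (Gamma0 N) c * S.r k := D₀.spec (s i)⁻¹ b'
  have hχc : chiOf N M h π c = (σ i)⁻¹ := by
    rw [hc, hD₀, chiOf_cocycle, map_inv, hs]
  have hSr : S.r b' = slEmb (Gamma0 N) c * S.r k * slEmb (Gamma0 N) (s i) := by
    rw [← hspec, map_inv, inv_mul_cancel_right]
  refine ⟨k, i, s a * ⟨upperUni n, upperUni_mem N n⟩ * ε * c, ?_, ?_⟩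
  · rw [map_mul, map_mul, map_mul, hs, chiOf_upperUni, mul_one, hχc]
    exact hχ
  · have hT : slEmb (Gamma0 N) ⟨upperUni n, upperUni_mem N n⟩ =
        Matrix.SpecialLinearGroup.mapGL ℝ (upperUni n) := rfl
    have hr : DS48.heckeRep ℓ (sigmaP N hℓ hℓN) k = S.r k := rfl
    rw [hr]
    unfold twAlpha
    rw [mul_assoc (slEmb (Gamma0 N) (s a)), hkey, hSr, map_mul, map_mul, map_mul, hT]
    group

/-- **the distinctness half of the coset comparison.** -/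
theorem tw_hdistR (s : (ZMod M)ˣ → Gamma0 N) (ℓ : ℕ) (hℓ : ℓ.Prime) (hℓM : Nat.Coprime ℓ M)
    (a a₂ : (ZMod M)ˣ) (b b₂ : Option (Fin ℓ)) (γ' : SL(2, ℤ))
    (hh : twAlpha N M s a * heckeRep ℓ b =
      Matrix.SpecialLinearGroup.mapGL ℝ γ' * (twAlpha N M s a₂ * heckeRep ℓ b₂)) :
    a = a₂ ∧ b = b₂ := by
  have h1 : IsQMat (M : ℤ) (twAlpha N M s a * heckeRep ℓ b)
      ((((s a : Gamma0 N) : SL(2, ℤ)) * utZ M ((a : ZMod M).val : ℕ) M) * heckeRepZ ℓ b) :=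
    ((isQMat_twAlpha N M s a).mul (isQMat_of_val (val_heckeRep hℓ.ne_zero _))).of_eq (mul_one _)
  have h2 : IsQMat (M : ℤ) (Matrix.SpecialLinearGroup.mapGL ℝ γ' *
      (twAlpha N M s a₂ * heckeRep ℓ b₂))
      ((γ' : Matrix (Fin 2) (Fin 2) ℤ) * ((((s a₂ : Gamma0 N) : SL(2, ℤ)) *
        utZ M ((a₂ : ZMod M).val : ℕ) M) * heckeRepZ ℓ b₂)) :=
    ((isQMat_mapGL γ').mul ((isQMat_twAlpha N M s a₂).mul
      (isQMat_of_val (val_heckeRep hℓ.ne_zero _)))).of_eq (by ring)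
  have h3 := (h1.eq_iff (by exact_mod_cast NeZero.ne M) h2).mp hh
  set g : SL(2, ℤ) := ((s a : Gamma0 N) : SL(2, ℤ))⁻¹ * γ' * ((s a₂ : Gamma0 N) : SL(2, ℤ))
    with hg
  have h4 : utZ M ((a : ZMod M).val : ℕ) M * heckeRepZ ℓ b =
      (g : Matrix (Fin 2) (Fin 2) ℤ) * (utZ M ((a₂ : ZMod M).val : ℕ) M * heckeRepZ ℓ b₂) := by
    have hassoc : ∀ (P Q R T V : Matrix (Fin 2) (Fin 2) ℤ),
        P * Q * R * (T * V) = P * (Q * (R * T * V)) := by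
      intro P Q R T V
      simp only [Matrix.mul_assoc]
    rw [hg, Matrix.SpecialLinearGroup.coe_mul, Matrix.SpecialLinearGroup.coe_mul, hassoc, ← h3,
      ← Matrix.mul_assoc, ← Matrix.mul_assoc, ← Matrix.SpecialLinearGroup.coe_mul, inv_mul_cancel,
      Matrix.SpecialLinearGroup.coe_one, Matrix.one_mul]
  obtain ⟨h5, h6⟩ := tw_hecke_dist M ℓ (NeZero.ne M) hℓ hℓM _ _ (ZMod.val_lt _) (ZMod.val_lt _)
    b b₂ g h4
  exact ⟨Units.ext (ZMod.val_injective M h5), h6⟩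

end Main

/-- **[TW-C]** the twisting transfer intertwines `T_ℓ ∘ ⟨g⟩` with `T_ℓ`. -/
theorem twHeckeStatement : TwHeckeStatement := by
  intro Δ _ N M _ _ _ h π σ hσ hn X hX ℓ hℓNM hℓM g hg hgσ A _ F
  have hℓN : ¬ (ℓ : ℕ) ∣ N := fun hd => hℓNM (Dvd.dvd.mul_right hd M)
  rw [Fermat.Agent.GR.heckeGrpP_of_not_dvd A hℓNM, heckeOnP_of_not_dvd _ _ hℓN]
  set D₁ := datumT N (GammaH N M h π) (Gamma1_le_GammaH N M h π) (GammaH_le_Gamma0 N M h π)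
    ℓ ℓ.2 hℓN with hD₁
  set x : GL (Fin 2) ℝ := Matrix.SpecialLinearGroup.mapGL ℝ g with hx
  set θ := conjOn (GammaH N M h π) hn g hg with hθdef
  have hθ : ∀ γ, D₁.e (θ γ) = x * D₁.e γ * x⁻¹ := fun γ => slEmb_conjOn _ hn g hg γ
  have hop : (conjDatum D₁ x θ hθ).heckeGrp A F =
      D₁.heckeGrp A (diamondOnBy (GammaH N M h π) hn A g hg F) := conjDatum_heckeGrp D₁ x θ hθ F
  rw [← hop]
  symm
  choose s hs hα using hX.α_eq
  have hα' : ∀ u, X.α u = twAlpha N M s u := hα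
  refine transferGrp_heckeGrp_comm_of_exists_rev X (conjDatum D₁ x θ hθ)
    (GR.heckeDatumT (N * M) ℓ ℓ.2 hℓNM) hX.e'_eq.symm (by rw [hX.e_eq]; rfl) rfl ?_ ?_ F
  · intro a b
    obtain ⟨k, i, w, hχw, hw⟩ := tw_hex_core N M h π σ hσ s hs ℓ ℓ.2 hℓN hℓM a b
    -- `δ = g w⁻¹`
    set δ₀ : Gamma0 N := ⟨g, hg⟩ * w⁻¹ with hδ₀
    have hδχ : chiOf N M h π δ₀ = 1 := by
      rw [hδ₀, map_mul, map_inv, hχw, inv_inv]
      exact hgσ
    have hδH : (δ₀ : SL(2, ℤ)) ∈ GammaH N M h π := mem_GammaH.mpr ⟨δ₀.2, hδχ⟩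
    refine ⟨k, i, ⟨(δ₀ : SL(2, ℤ)), hδH⟩, ?_⟩
    rw [hX.e'_eq, hα', hα']
    show x * DS48.heckeRep ℓ (sigmaP N ℓ.2 hℓN) k * twAlpha N M s i =
      slEmb (Gamma0 N) δ₀ * (twAlpha N M s a * heckeRep ℓ b)
    rw [hw, hδ₀, map_mul, map_inv]
    have : slEmb (Gamma0 N) ⟨g, hg⟩ = x := rfl
    rw [this]
    group
  · intro a a₂ b b₂ γ' hh
    rw [hX.e'_eq, hα', hα'] at hh
    exact tw_hdistR N M s ℓ ℓ.2 hℓM a a₂ b b₂ (γ' : SL(2, ℤ)) hh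

end Fermat.Agent.RB.TWL
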