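/-
RB = S43 via Ihara avoidance, package [TW] (lead), part D2: **the Chinese remainder theorem for the
units of `ℤ/M`, `M` squarefree, in explicit form**.

`PIdx M` = the primes of `M`; `E : PIdx M → ℕ` with `E r ≡ 1 (r)`, `E r ≡ 0 (r')` for `r' ≠ r`;
`crtB E x = ∑_r E r · x_r` and `crtPhi : (Π r, (ℤ/r)ˣ) ≃* (ℤ/M)ˣ`, `x ↦ crtB E x mod M`; the product
of the polynomials `∑_y c_r(y) X^{E r · y}` is `∑_x (∏_r c_r(x_r)) X^{crtB E x}`.
-/
import Mathlib

set_option autoImplicit false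
set_option linter.unusedSectionVars false

namespace Fermat.Agent.RB.TWL

open Finset Polynomial

/-- the primes of `M`. -/
abbrev PIdx (M : ℕ) : Type := {r : ℕ // r ∈ M.primeFactors}

instance PIdx.fact_prime {M : ℕ} (r : PIdx M) : Fact (r : ℕ).Prime :=
  ⟨Nat.prime_of_mem_primeFactors r.2⟩

theorem PIdx.dvd {M : ℕ} (r : PIdx M) : (r : ℕ) ∣ M := Nat.dvd_of_mem_primeFactors r.2

/-- an integer divisible by all the primes of the squarefree `M` is divisible by `M`. -/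
theorem dvd_of_forall_pidx_dvd {M : ℕ} (hsq : Squarefree M) (z : ℤ)
    (h : ∀ r : PIdx M, ((r : ℕ) : ℤ) ∣ z) : (M : ℤ) ∣ z := by
  have h1 : ∏ p ∈ M.primeFactors, p ∣ z.natAbs := by
    refine Finset.prod_primes_dvd z.natAbs (fun p hp => (Nat.prime_of_mem_primeFactors hp).prime)
      (fun p hp => ?_)
    exact Int.natCast_dvd.mp (h ⟨p, hp⟩)
  rw [Nat.prod_primeFactors_of_squarefree hsq] at h1
  exact Int.natCast_dvd.mpr h1

/-- two elements of `ℤ/M` (`M` squarefree) with the same reductions modulo all primes of `M` are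
equal. -/
theorem zmod_ext_of_forall_pidx {M : ℕ} [NeZero M] (hsq : Squarefree M) (u u' : ZMod M)
    (h : ∀ r : PIdx M, ZMod.castHom r.dvd (ZMod r) u = ZMod.castHom r.dvd (ZMod r) u') :
    u = u' := by
  rw [← ZMod.natCast_zmod_val u, ← ZMod.natCast_zmod_val u', ← Int.cast_natCast u.val,
    ← Int.cast_natCast u'.val, ZMod.intCast_eq_intCast_iff_dvd_sub]
  apply dvd_of_forall_pidx_dvd hsq
  intro r
  have h1 := h r
  rw [← ZMod.natCast_zmod_val u, ← ZMod.natCast_zmod_val u', map_natCast, map_natCast,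
    ← Int.cast_natCast u.val, ← Int.cast_natCast u'.val,
    ZMod.intCast_eq_intCast_iff_dvd_sub] at h1
  exact h1

section CRT

variable {M : ℕ} [NeZero M] (E : PIdx M → ℕ)

/-- the explicit lift `∑_r E r · x_r`. -/
noncomputable def crtB (x : ∀ r : PIdx M, (ZMod r)ˣ) : ℕ :=
  ∑ r : PIdx M, E r * ((x r : (ZMod r)ˣ) : ZMod r).val

variable (hE1 : ∀ r : PIdx M, ((E r : ℕ) : ZMod r) = 1)
  (hE0 : ∀ r r' : PIdx M, r ≠ r' → (r : ℕ) ∣ E r')

include hE1 hE0 in
theorem crtB_cast (x : ∀ r : PIdx M, (ZMod r)ˣ) (r : PIdx M) :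
    ((crtB E x : ℕ) : ZMod r) = ((x r : (ZMod r)ˣ) : ZMod r) := by
  classical
  unfold crtB
  rw [Nat.cast_sum, Finset.sum_eq_single r]
  · rw [Nat.cast_mul, hE1 r, one_mul, ZMod.natCast_zmod_val]
  · intro r' _ hr'
    rw [Nat.cast_mul, (ZMod.natCast_eq_zero_iff _ _).mpr (hE0 r r' (Ne.symm hr')), zero_mul]
  · intro h
    exact absurd (mem_univ r) h

include hE1 hE0 in
theorem crtB_coprime (x : ∀ r : PIdx M, (ZMod r)ˣ) : Nat.Coprime (crtB E x) M := by
  apply Nat.Coprime.symm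
  apply Nat.coprime_of_dvd
  intro k hk hkM hkb
  have hkmem : k ∈ M.primeFactors := Nat.mem_primeFactors.mpr ⟨hk, hkM, NeZero.ne M⟩
  haveI : Fact k.Prime := ⟨hk⟩
  have h1 := crtB_cast E hE1 hE0 x ⟨k, hkmem⟩
  rw [(ZMod.natCast_eq_zero_iff _ _).mpr hkb] at h1
  exact (x ⟨k, hkmem⟩).ne_zero h1.symm

/-- the explicit Chinese remainder map on units. -/
noncomputable def crtPhi (x : ∀ r : PIdx M, (ZMod r)ˣ) : (ZMod M)ˣ :=
  ZMod.unitOfCoprime (crtB E x) (crtB_coprime E hE1 hE0 x)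

theorem coe_crtPhi (x : ∀ r : PIdx M, (ZMod r)ˣ) :
    ((crtPhi E hE1 hE0 x : (ZMod M)ˣ) : ZMod M) = ((crtB E x : ℕ) : ZMod M) :=
  ZMod.coe_unitOfCoprime _ _

theorem castHom_crtPhi (x : ∀ r : PIdx M, (ZMod r)ˣ) (r : PIdx M) :
    ZMod.castHom r.dvd (ZMod r) ((crtPhi E hE1 hE0 x : (ZMod M)ˣ) : ZMod M) =
      ((x r : (ZMod r)ˣ) : ZMod r) := by
  rw [coe_crtPhi, map_natCast, crtB_cast E hE1 hE0]

theorem val_crtPhi (x : ∀ r : PIdx M, (ZMod r)ˣ) :
    ((crtPhi E hE1 hE0 x : (ZMod M)ˣ) : ZMod M).val = crtB E x % M := by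
  rw [coe_crtPhi, ZMod.val_natCast]

variable (hsq : Squarefree M)

include hsq in
theorem crtPhi_mul (x y : ∀ r : PIdx M, (ZMod r)ˣ) :
    crtPhi E hE1 hE0 (x * y) = crtPhi E hE1 hE0 x * crtPhi E hE1 hE0 y := by
  apply Units.ext
  apply zmod_ext_of_forall_pidx hsq
  intro r
  rw [Units.val_mul, map_mul, castHom_crtPhi, castHom_crtPhi, castHom_crtPhi, Pi.mul_apply,
    Units.val_mul]

include hsq in
theorem crtPhi_one : crtPhi E hE1 hE0 1 = 1 := by
  apply Units.ext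
  apply zmod_ext_of_forall_pidx hsq
  intro r
  rw [castHom_crtPhi, Units.val_one, map_one, Pi.one_apply, Units.val_one]

/-- the Chinese remainder map as a homomorphism. -/
noncomputable def crtPhiHom : (∀ r : PIdx M, (ZMod r)ˣ) →* (ZMod M)ˣ where
  toFun := crtPhi E hE1 hE0
  map_one' := crtPhi_one E hE1 hE0 hsq
  map_mul' := crtPhi_mul E hE1 hE0 hsq

@[simp] theorem crtPhiHom_apply (x : ∀ r : PIdx M, (ZMod r)ˣ) :
    crtPhiHom E hE1 hE0 hsq x = crtPhi E hE1 hE0 x := rfl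

include hsq in
theorem crtPhi_bijective : Function.Bijective (crtPhi E hE1 hE0) := by
  constructor
  · intro x y h
    funext r
    apply Units.ext
    rw [← castHom_crtPhi E hE1 hE0 x r, ← castHom_crtPhi E hE1 hE0 y r, h]
  · intro u
    refine ⟨fun r => ZMod.unitsMap r.dvd u, ?_⟩
    apply Units.ext
    apply zmod_ext_of_forall_pidx hsq
    intro r
    rw [castHom_crtPhi]
    rfl

include hsq in
/-- a character of `(ℤ/M)ˣ` is the product of its components. -/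
theorem map_crtPhi_eq_prod {G : Type*} [CommMonoid G] (f : (ZMod M)ˣ →* G)
    (x : ∀ r : PIdx M, (ZMod r)ˣ) :
    f (crtPhi E hE1 hE0 x) =
      ∏ r : PIdx M, f (crtPhi E hE1 hE0 (Pi.mulSingle r (x r))) := by
  classical
  have h1 : x = ∏ r : PIdx M, Pi.mulSingle r (x r) := (Finset.univ_prod_mulSingle x).symm
  conv_lhs => rw [h1]
  rw [← crtPhiHom_apply E hE1 hE0 hsq, map_prod, map_prod]
  rfl

end CRT

section Poly

variable {M : ℕ} (E : PIdx M → ℕ) {K : Type*} [CommRing K]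

/-- **the product of the one-prime polynomials.** -/
theorem prod_sum_C_mul_X_pow (c : ∀ r : PIdx M, (ZMod r)ˣ → K) :
    ∏ r : PIdx M, ∑ y : (ZMod r)ˣ, C (c r y) * X ^ (E r * ((y : (ZMod r)ˣ) : ZMod r).val) =
      ∑ x : (∀ r : PIdx M, (ZMod r)ˣ), C (∏ r : PIdx M, c r (x r)) * (X : K[X]) ^ crtB E x := by
  classical
  rw [Finset.prod_univ_sum]
  refine Finset.sum_congr ?_ fun x _ => ?_
  · ext x
    simp
  · rw [Finset.prod_mul_distrib, ← map_prod, Finset.prod_pow_eq_pow_sum]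
    rfl

end Poly

end Fermat.Agent.RB.TWL
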