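/-
RB = S43 via Ihara avoidance, package [TW] (lead), part D5: **the arithmetic of the exponents**
`E_r = (N/r) · ((N/r)⁻¹ mod r)` (`r` a prime of the squarefree `M ∣ N`, `(M, N/M) = 1`), the explicit
Chinese remainder map `phiM` built on them, and two small general lemmas.
-/
import Mathlib
import Fermat.Agent.RB.TW_lead_InjCRT

set_option autoImplicit false
set_option linter.unusedSectionVars false

namespace Fermat.Agent.RB.TWL

open Finset Polynomial

section General

variable {K : Type*} [Field K] {V : Type*} [AddCommGroup V] [Module K V]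

theorem pow_apply_eq_of_mod' (m : ℕ) (T : Module.End K V) (w : V) (hT : (T ^ m) w = w) (n : ℕ) :
    (T ^ n) w = (T ^ (n % m)) w := by
  conv_lhs => rw [← Nat.mod_add_div n m]
  rw [pow_add, Module.End.mul_apply, pow_mul]
  congr 1
  generalize n / m = k
  induction k with
  | zero => simp
  | succ k ih => rw [pow_succ, Module.End.mul_apply, hT, ih]

theorem pow_apply_eq_self (T : Module.End K V) (w : V) (hT : T w = w) (n : ℕ) :
    (T ^ n) w = w := by
  induction n with
  | zero => simp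
  | succ n ih => rw [pow_succ, Module.End.mul_apply, hT, ih]

/-- a sum over a finite commutative ring of a function vanishing off the units. -/
theorem sum_units_eq_sum {R : Type*} [CommRing R] [Fintype R] [DecidableEq R]
    (g : R → V) (hg : ∀ c : R, ¬ IsUnit c → g c = 0) :
    ∑ y : Rˣ, g (y : R) = ∑ c : R, g c := by
  classical
  have h1 : ∑ y : Rˣ, g (y : R) =
      ∑ c ∈ (Finset.univ : Finset Rˣ).map ⟨Units.val, Units.val_injective⟩, g c := by
    rw [Finset.sum_map]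
    rfl
  rw [h1]
  refine Finset.sum_subset (Finset.subset_univ _) fun c _ hc => hg c ?_
  intro hu
  apply hc
  rw [Finset.mem_map]
  exact ⟨hu.unit, Finset.mem_univ _, rfl⟩

end General

section Arith

variable (N M : ℕ) [NeZero N] [NeZero M] (h : M ∣ N) (hsq : Squarefree M)
  (hcop : Nat.Coprime M (N / M))

include h in
theorem pidx_dvd_N (r : PIdx M) : (r : ℕ) ∣ N := dvd_trans r.dvd h

theorem pidx_pos {M : ℕ} (r : PIdx M) : 0 < (r : ℕ) := (Nat.prime_of_mem_primeFactors r.2).pos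

theorem div_eq_div_mul_div {ρ M N : ℕ} (hρ : 0 < ρ) (hM : 0 < M) (h1 : ρ ∣ M) (h2 : M ∣ N) :
    N / ρ = (M / ρ) * (N / M) := by
  obtain ⟨a, rfl⟩ := h1
  obtain ⟨b, rfl⟩ := h2
  rw [Nat.mul_div_cancel_left _ hM, Nat.mul_div_cancel_left _ hρ, mul_assoc,
    Nat.mul_div_cancel_left _ hρ]

include h in
theorem div_pidx_eq (r : PIdx M) : N / (r : ℕ) = (M / (r : ℕ)) * (N / M) :=
  div_eq_div_mul_div (pidx_pos r) (Nat.pos_of_ne_zero (NeZero.ne M)) r.dvd h

include h hsq hcop in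
theorem pidx_coprime (r : PIdx M) : Nat.Coprime (r : ℕ) (N / (r : ℕ)) := by
  rw [div_pidx_eq N M h r]
  apply Nat.Coprime.mul_right
  · apply Nat.coprime_of_squarefree_mul
    rw [Nat.mul_div_cancel' r.dvd]
    exact hsq
  · exact Nat.Coprime.coprime_dvd_left r.dvd hcop

include h in
theorem div_dvd_div_pidx (r : PIdx M) : (N / M) ∣ N / (r : ℕ) := by
  rw [div_pidx_eq N M h r]
  exact dvd_mul_left _ _

include h in
theorem pidx_dvd_div (r r' : PIdx M) (hne : r ≠ r') : (r : ℕ) ∣ N / (r' : ℕ) := by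
  have h1 : (r : ℕ) ∣ (r' : ℕ) * (N / (r' : ℕ)) := by
    rw [Nat.mul_div_cancel' (pidx_dvd_N N M h r')]
    exact pidx_dvd_N N M h r
  have hp : (r : ℕ).Prime := Nat.prime_of_mem_primeFactors r.2
  have hp' : (r' : ℕ).Prime := Nat.prime_of_mem_primeFactors r'.2
  rcases (Nat.Prime.dvd_mul hp).mp h1 with h2 | h2
  · exfalso
    apply hne
    apply Subtype.ext
    exact (Nat.prime_dvd_prime_iff_eq hp hp').mp h2
  · exact h2

/-- the exponent `E_r`: `≡ 1` modulo `r`, divisible by `N / r`. -/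
noncomputable def eOf (r : PIdx M) : ℕ :=
  (N / (r : ℕ)) * ((((N / (r : ℕ) : ℕ) : ZMod r))⁻¹).val

theorem div_dvd_eOf (r : PIdx M) : N / (r : ℕ) ∣ eOf N M r := dvd_mul_right _ _

include h hsq hcop in
theorem eOf_cast (r : PIdx M) : ((eOf N M r : ℕ) : ZMod r) = 1 := by
  unfold eOf
  rw [Nat.cast_mul, ZMod.natCast_zmod_val]
  apply mul_inv_cancel₀
  intro h0
  rw [ZMod.natCast_eq_zero_iff] at h0
  have hp : (r : ℕ).Prime := Nat.prime_of_mem_primeFactors r.2
  have := Nat.Coprime.eq_one_of_dvd (pidx_coprime N M h hsq hcop r) h0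
  exact hp.one_lt.ne' this

include h in
theorem pidx_dvd_eOf (r r' : PIdx M) (hne : r ≠ r') : (r : ℕ) ∣ eOf N M r' :=
  dvd_trans (pidx_dvd_div N M h r r' hne) (div_dvd_eOf N M r')

include h in
theorem M_dvd_eOf_mul (r : PIdx M) : M ∣ eOf N M r * (r : ℕ) := by
  unfold eOf
  rw [mul_right_comm, Nat.div_mul_cancel (pidx_dvd_N N M h r)]
  exact dvd_trans h (dvd_mul_right _ _)

include h in
theorem div_M_dvd_eOf (r : PIdx M) : (N / M) ∣ eOf N M r :=
  dvd_trans (div_dvd_div_pidx N M h r) (div_dvd_eOf N M r)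

/-- the explicit Chinese remainder map for the exponents `E_r`. -/
noncomputable def phiM : (∀ r : PIdx M, (ZMod r)ˣ) → (ZMod M)ˣ :=
  crtPhi (eOf N M) (eOf_cast N M h hsq hcop) (pidx_dvd_eOf N M h)

theorem castHom_phiM (x : ∀ r : PIdx M, (ZMod r)ˣ) (r : PIdx M) :
    ZMod.castHom r.dvd (ZMod r) ((phiM N M h hsq hcop x : (ZMod M)ˣ) : ZMod M) =
      ((x r : (ZMod r)ˣ) : ZMod r) :=
  castHom_crtPhi _ _ _ x r

theorem val_phiM (x : ∀ r : PIdx M, (ZMod r)ˣ) :
    ((phiM N M h hsq hcop x : (ZMod M)ˣ) : ZMod M).val = crtB (eOf N M) x % M :=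
  val_crtPhi _ _ _ x

/-- `phiM` as a homomorphism. -/
noncomputable def phiMHom : (∀ r : PIdx M, (ZMod r)ˣ) →* (ZMod M)ˣ :=
  crtPhiHom (eOf N M) (eOf_cast N M h hsq hcop) (pidx_dvd_eOf N M h) hsq

@[simp] theorem phiMHom_apply (x : ∀ r : PIdx M, (ZMod r)ˣ) :
    phiMHom N M h hsq hcop x = phiM N M h hsq hcop x := rfl

theorem phiM_bijective : Function.Bijective (phiM N M h hsq hcop) :=
  crtPhi_bijective _ _ _ hsq

theorem map_phiM_eq_prod {G : Type*} [CommMonoid G] (f : (ZMod M)ˣ →* G)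
    (x : ∀ r : PIdx M, (ZMod r)ˣ) :
    f (phiM N M h hsq hcop x) =
      ∏ r : PIdx M, f (phiM N M h hsq hcop (Pi.mulSingle r (x r))) :=
  map_crtPhi_eq_prod _ _ _ hsq f x

end Arith

end Fermat.Agent.RB.TWL
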