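/-
RB = S43 via Ihara avoidance, package [TW] (lead), part D1: **the linear algebra of one prime**.

`r` prime, `K` a field in which `r ≠ 0`, `χ` a multiplicative character of `ℤ/r` with values in
`K`, `T` an endomorphism of a `K`-vector space and `w` a vector with `T ^ r w = w` and
`∑_c χ(c) T^c w = 0`.  Then `w = 0` if `χ = 1` (and `r - 1 ≠ 0` in `K`), and `T w = w` if `χ ≠ 1`
(by the Jacobi sum identity `∑_x χ⁻¹(c - x) χ(u - x) = r [u = c] - 1`).
-/
import Mathlib

set_option autoImplicit false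
set_option linter.unusedSectionVars false

namespace Fermat.Agent.RB.TWL

open Finset

section Jacobi

variable {r : ℕ} [Fact r.Prime] {K : Type*} [Field K]

/-- the Jacobi-type identity off the diagonal. -/
theorem sum_inv_sub_mul_sub_of_ne (χ : MulChar (ZMod r) K) (hχ : χ ≠ 1) {u c : ZMod r}
    (huc : u ≠ c) : ∑ x : ZMod r, χ⁻¹ (c - x) * χ (u - x) = -1 := by
  set e : ZMod r := u - c with he
  have he0 : e ≠ 0 := sub_ne_zero.mpr huc
  have hχinv : χ⁻¹ ≠ 1 := fun h => hχ (inv_eq_one.mp h)
  have hJ := jacobiSum_nontrivial_inv hχinv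
  rw [inv_inv, jacobiSum] at hJ
  -- substitute `x = c + e z`
  have hsub : ∑ x : ZMod r, χ⁻¹ (c - x) * χ (u - x) =
      ∑ z : ZMod r, χ⁻¹ (c - (c + e * z)) * χ (u - (c + e * z)) := by
    symm
    refine Fintype.sum_bijective (fun z : ZMod r => c + e * z) ?_ _ _ (fun z => rfl)
    constructor
    · intro z z' h
      exact mul_left_cancel₀ he0 (add_left_cancel h)
    · intro x
      exact ⟨e⁻¹ * (x - c), by
        show c + e * (e⁻¹ * (x - c)) = x
        rw [← mul_assoc, mul_inv_cancel₀ he0, one_mul, add_sub_cancel]⟩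
  rw [hsub]
  have hterm : ∀ z : ZMod r, χ⁻¹ (c - (c + e * z)) * χ (u - (c + e * z)) =
      χ⁻¹ (-1) * (χ⁻¹ z * χ (1 - z)) := by
    intro z
    have h1 : c - (c + e * z) = (-1) * e * z := by ring
    have h2 : u - (c + e * z) = e * (1 - z) := by rw [he]; ring
    rw [h1, h2, map_mul, map_mul, map_mul]
    have h3 : χ⁻¹ e * χ e = 1 := by
      rw [← MulChar.mul_apply, inv_mul_cancel]
      exact MulChar.one_apply (isUnit_iff_ne_zero.mpr he0)
    calc χ⁻¹ (-1) * χ⁻¹ e * χ⁻¹ z * (χ e * χ (1 - z))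
        = χ⁻¹ (-1) * (χ⁻¹ e * χ e) * (χ⁻¹ z * χ (1 - z)) := by ring
      _ = _ := by rw [h3, mul_one]
  rw [Finset.sum_congr rfl fun z _ => hterm z, ← Finset.mul_sum, hJ]
  have h4 : χ⁻¹ (-1) * χ⁻¹ (-1) = 1 := by
    rw [← map_mul]
    simp
  linear_combination -h4

/-- the Jacobi-type identity on the diagonal. -/
theorem sum_inv_sub_mul_sub_self (χ : MulChar (ZMod r) K) (c : ZMod r) :
    ∑ x : ZMod r, χ⁻¹ (c - x) * χ (c - x) = (r : K) - 1 := by
  classical
  have h1 : ∑ x : ZMod r, χ⁻¹ (c - x) * χ (c - x) = ∑ y : ZMod r, (1 : MulChar (ZMod r) K) y := by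
    refine Fintype.sum_bijective (fun x : ZMod r => c - x) ?_ _ _ (fun x => ?_)
    · constructor
      · intro x x' h
        exact sub_right_injective h
      · intro y
        exact ⟨c - y, sub_sub_cancel c y⟩
    · rw [← MulChar.mul_apply, inv_mul_cancel]
  rw [h1, MulChar.sum_one_eq_card_units, ZMod.card_units_eq_totient, Nat.totient_prime Fact.out,
    Nat.cast_sub (Fact.out : r.Prime).one_le, Nat.cast_one]

variable {W : Type*} [AddCommGroup W] [Module K W]

/-- **a nontrivial character detects constancy**: if all translates of `a : ℤ/r → W` are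
orthogonal to the nontrivial character `χ`, then `r • a c = ∑ a` for all `c`. -/
theorem smul_eq_sum_of_forall_sum_eq_zero (χ : MulChar (ZMod r) K) (hχ : χ ≠ 1)
    (a : ZMod r → W) (h : ∀ x : ZMod r, ∑ u : ZMod r, χ u • a (u + x) = 0) (c : ZMod r) :
    (r : K) • a c = ∑ u : ZMod r, a u := by
  classical
  -- reindex
  have h' : ∀ x : ZMod r, ∑ u : ZMod r, χ (u - x) • a u = 0 := by
    intro x
    rw [← h x]
    symm
    refine Fintype.sum_bijective (fun u : ZMod r => u + x) ?_ _ _ (fun u => ?_)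
    · exact ⟨fun u u' h => add_right_cancel h, fun y => ⟨y - x, sub_add_cancel y x⟩⟩
    · rw [add_sub_cancel_right]
  have h2 : ∑ x : ZMod r, χ⁻¹ (c - x) • ∑ u : ZMod r, χ (u - x) • a u = 0 := by
    refine Finset.sum_eq_zero fun x _ => ?_
    rw [h' x, smul_zero]
  simp only [Finset.smul_sum, smul_smul] at h2
  rw [Finset.sum_comm] at h2
  simp only [← Finset.sum_smul] at h2
  have h3 : ∀ u : ZMod r, (∑ x : ZMod r, χ⁻¹ (c - x) * χ (u - x)) • a u =
      (if u = c then (r : K) • a u else 0) - a u := by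
    intro u
    by_cases huc : u = c
    · rw [if_pos huc, huc, sum_inv_sub_mul_sub_self, sub_smul, one_smul]
    · rw [if_neg huc, sum_inv_sub_mul_sub_of_ne χ hχ huc, neg_smul, one_smul, zero_sub]
  rw [Finset.sum_congr rfl fun u _ => h3 u, Finset.sum_sub_distrib, Finset.sum_ite_eq' univ c,
    if_pos (mem_univ c), sub_eq_zero] at h2
  exact h2

end Jacobi

section OnePrime

variable {r : ℕ} [Fact r.Prime] {K : Type*} [Field K] {V : Type*} [AddCommGroup V] [Module K V]

theorem pow_apply_eq_of_mod (T : Module.End K V) (w : V) (hT : (T ^ r) w = w) (n : ℕ) :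
    (T ^ n) w = (T ^ (n % r)) w := by
  conv_lhs => rw [← Nat.mod_add_div n r]
  rw [pow_add, Module.End.mul_apply, pow_mul]
  congr 1
  generalize n / r = k
  induction k with
  | zero => simp
  | succ k ih => rw [pow_succ, Module.End.mul_apply, hT, ih]

/-- the orbit map `c ↦ T^c w` of `ℤ/r`. -/
theorem pow_val_add (T : Module.End K V) (w : V) (hT : (T ^ r) w = w) (x c : ZMod r) :
    (T ^ x.val) ((T ^ c.val) w) = (T ^ (c + x).val) w := by
  rw [← Module.End.mul_apply, ← pow_add, ZMod.val_add, pow_apply_eq_of_mod T w hT (x.val + c.val),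
    add_comm]

/-- **one prime, nontrivial character**: `∑_c χ(c) T^c w = 0` implies `T w = w`. -/
theorem apply_eq_self_of_sum_eq_zero (hr : (r : K) ≠ 0) (T : Module.End K V) (w : V)
    (hT : (T ^ r) w = w) (χ : MulChar (ZMod r) K) (hχ : χ ≠ 1)
    (h : ∑ c : ZMod r, χ c • (T ^ c.val) w = 0) : T w = w := by
  set a : ZMod r → V := fun c => (T ^ c.val) w with ha
  have hshift : ∀ x : ZMod r, ∑ u : ZMod r, χ u • a (u + x) = 0 := by
    intro x
    have h1 := congrArg (T ^ x.val) h
    rw [map_sum, map_zero] at h1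
    rw [← h1]
    refine Finset.sum_congr rfl fun u _ => ?_
    rw [map_smul, pow_val_add T w hT]
  have h0 := smul_eq_sum_of_forall_sum_eq_zero χ hχ a hshift 0
  have h1 := smul_eq_sum_of_forall_sum_eq_zero χ hχ a hshift 1
  have h2 : a 1 = a 0 := by
    have h3 : (r : K) • a 1 = (r : K) • a 0 := by rw [h0, h1]
    exact smul_right_injective V hr h3
  have hr1 : 1 < r := (Fact.out : r.Prime).one_lt
  have : Fact (1 < r) := ⟨hr1⟩
  simpa [ha, ZMod.val_one, ZMod.val_zero] using h2

/-- **one prime, trivial character**: `∑_{c ≠ 0} T^c w = 0` implies `w = 0`. -/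
theorem eq_zero_of_sum_units_eq_zero (hr : ((r : K) - 1) ≠ 0) (T : Module.End K V) (w : V)
    (hT : (T ^ r) w = w)
    (h : ∑ c : ZMod r, (1 : MulChar (ZMod r) K) c • (T ^ c.val) w = 0) : w = 0 := by
  classical
  set a : ZMod r → V := fun c => (T ^ c.val) w with ha
  have ha0 : a 0 = w := by simp [ha]
  have hterm : ∀ c : ZMod r, (1 : MulChar (ZMod r) K) c • a c = a c - (if c = 0 then a c else 0) := by
    intro c
    by_cases hc : c = 0
    · rw [if_pos hc, hc, MulChar.map_zero, zero_smul, sub_self]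
    · rw [if_neg hc, MulChar.one_apply (isUnit_iff_ne_zero.mpr hc), one_smul, sub_zero]
  have hS : ∑ c : ZMod r, a c = w := by
    have h1 : ∑ c : ZMod r, (1 : MulChar (ZMod r) K) c • a c = 0 := h
    rw [Finset.sum_congr rfl fun c _ => hterm c, Finset.sum_sub_distrib,
      Finset.sum_ite_eq' univ (0 : ZMod r), if_pos (mem_univ _), sub_eq_zero, ha0] at h1
    exact h1
  -- `T` fixes the sum
  have hTS : T (∑ c : ZMod r, a c) = ∑ c : ZMod r, a c := by
    rw [map_sum]
    refine Fintype.sum_bijective (fun c : ZMod r => c + 1) ?_ _ _ (fun c => ?_)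
    · exact ⟨fun u u' h => add_right_cancel h, fun y => ⟨y - 1, sub_add_cancel y 1⟩⟩
    · have hr1 : 1 < r := (Fact.out : r.Prime).one_lt
      have : Fact (1 < r) := ⟨hr1⟩
      have := pow_val_add T w hT 1 c
      rw [ZMod.val_one, pow_one] at this
      exact this
  rw [hS] at hTS
  -- all `a c = w`
  have hac : ∀ c : ZMod r, a c = w := by
    intro c
    show (T ^ c.val) w = w
    generalize c.val = n
    induction n with
    | zero => simp
    | succ n ih => rw [pow_succ, Module.End.mul_apply, hTS, ih]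
  have h2 : ∑ c : ZMod r, (1 : MulChar (ZMod r) K) c • a c = ((r : K) - 1) • w := by
    rw [Finset.sum_congr rfl fun c _ => by rw [hac c], ← Finset.sum_smul,
      MulChar.sum_one_eq_card_units, ZMod.card_units_eq_totient, Nat.totient_prime Fact.out,
      Nat.cast_sub (Fact.out : r.Prime).one_le, Nat.cast_one]
  have h3 : ((r : K) - 1) • w = 0 := by rw [← h2]; exact h
  exact (smul_eq_zero.mp h3).resolve_left hr

end OnePrime

end Fermat.Agent.RB.TWL
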