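/-
RB = S43 via Ihara avoidance, package [TW] (lead), part D4: **from `Hom(Γ_H, K)` to
`Hom(Γ(N), K)`**.  For `F : Γ_H → K` with `⟨g⟩ F = ψ(χ g) F` put `v = F ∘ κ` on `Γ(N)` (`κ` the
conjugation by `diag(1, M)`).  Then
* (a) `cj s v = ψ(χ(κ s)) v` for `s ∈ Γ⁰(M) ⊓ Γ₀(N/M)`;
* (b) `Tw F = 0` implies `∑_u ψ(σ u) · cj (1 u; 0 1) v = 0`;
* (c) `v = 0` implies `F = 0`.
-/
import Mathlib
import Fermat.Agent.RB.TW_lead_Exists
import Fermat.Agent.RB.TW_lead_InjGrp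
import Fermat.Agent.RB.TW_lead_HeckeInt

set_option autoImplicit false
set_option linter.unusedSectionVars false
set_option linter.unnecessarySeqFocus false

namespace Fermat.Agent.RB.TWL

open CongruenceSubgroup Matrix ModularCurve.Period ModularForm
open scoped MatrixGroups
open Fermat.Agent.GR Fermat.Agent.W1 Fermat.Agent.RB.TWM

section Core

variable {Δ : Type*} [CommGroup Δ] (N M : ℕ) [NeZero N] [NeZero M] (h : M ∣ N)
  (π σ : (ZMod M)ˣ →* Δ)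

include h in
theorem Gamma_le_SGrp : Gamma N ≤ SGrp M (N / M) := by
  intro γ hγ
  rw [mem_Gamma_iff_dvd] at hγ
  rw [mem_SGrp]
  refine ⟨dvd_trans (by exact_mod_cast h) hγ.2.1, dvd_trans ?_ hγ.2.2.1⟩
  exact_mod_cast Nat.div_dvd_of_dvd h

/-- the lower right entry of `κ s` modulo `M`. -/
theorem coe_chiD_kappaS (s : SGrp M (N / M)) :
    ((chiD N M h (kappaS h s) : (ZMod M)ˣ) : ZMod M) = ((((s : SL(2, ℤ)) 1 1 : ℤ)) : ZMod M) := by
  rw [coe_chiD]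
  rfl

theorem chiOf_kappaS_eq_one (s : SGrp M (N / M))
    (hs : ((((s : SL(2, ℤ)) 1 1 : ℤ)) : ZMod M) = 1) : chiOf N M h π (kappaS h s) = 1 := by
  rw [chiOf_apply]
  have : chiD N M h (kappaS h s) = 1 := by
    apply Units.ext
    rw [coe_chiD_kappaS, hs, Units.val_one]
  rw [this, map_one]

include h in
theorem lowerRight_of_mem_Gamma {γ : SL(2, ℤ)} (hγ : γ ∈ Gamma N) :
    (((γ 1 1 : ℤ)) : ZMod M) = 1 := by
  rw [Gamma_mem] at hγ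
  have := congrArg (ZMod.castHom h (ZMod M)) hγ.2.2.2
  rwa [map_intCast, map_one] at this

/-- `κ` maps `Γ(N)` into `Γ_H`. -/
theorem kappaS_mem_GammaH (γ : Gamma N) :
    ((kappaS h (Subgroup.inclusion (Gamma_le_SGrp N M h) γ) : Gamma0 N) : SL(2, ℤ)) ∈
      GammaH N M h π :=
  mem_GammaH.mpr ⟨(kappaS h _).2, chiOf_kappaS_eq_one N M h π _ (lowerRight_of_mem_Gamma N M h γ.2)⟩

/-- `κ : Γ(N) →* Γ_H`. -/
noncomputable def toH : ↥(Gamma N) →* ↥(GammaH N M h π) :=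
  ((Gamma0 N).subtype.comp ((kappaS h).comp (Subgroup.inclusion (Gamma_le_SGrp N M h)))).codRestrict
    (GammaH N M h π) (fun γ => kappaS_mem_GammaH N M h π γ)

theorem coe_toH (γ : Gamma N) :
    ((toH N M h π γ : GammaH N M h π) : SL(2, ℤ)) =
      kappa M ⟨(γ : SL(2, ℤ)), (Gamma_le_SGrp N M h γ.2).1⟩ := rfl

variable (hn : ∀ τ ∈ Gamma0 N, ∀ γ ∈ GammaH N M h π, τ * γ * τ⁻¹ ∈ GammaH N M h π)
  (K : Type*) [Field K] (ψ : Δ →* Kˣ) (F : Additive ↥(GammaH N M h π) →+ K)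

/-- the vector `v = F ∘ κ` of `Hom(Γ(N), K)`. -/
noncomputable def vOf : Additive ↥(Gamma N) →+ K :=
  F.comp (MonoidHom.toAdditive (toH N M h π))

theorem vOf_apply (γ : Gamma N) :
    vOf N M h π K F (Additive.ofMul γ) = F (Additive.ofMul (toH N M h π γ)) := rfl

/-- the eigenvalue of `s ∈ Γ⁰(M) ⊓ Γ₀(N/M)`. -/
noncomputable def evS (s : SGrp M (N / M)) : K := ((ψ (chiOf N M h π (kappaS h s)) : Kˣ) : K)

variable (hF : ∀ (g : SL(2, ℤ)) (hg : g ∈ Gamma0 N),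
  diamondOnBy (GammaH N M h π) hn K g hg F = ((ψ (chiOf N M h π ⟨g, hg⟩) : Kˣ) : K) • F)

include hF in
/-- **(a)** `cj s v = ψ(χ(κ s)) v`. -/
theorem cj_vOf (s : SGrp M (N / M)) :
    cj N K (s : SL(2, ℤ)) (vOf N M h π K F) = evS N M h π K ψ s • vOf N M h π K F := by
  refine AddMonoidHom.ext fun γ => ?_
  obtain ⟨γ, rfl⟩ := Additive.ofMul.surjective γ
  rw [cj_apply, vOf_apply, AddMonoidHom.smul_apply, vOf_apply]
  have h1 : toH N M h π ((MulAut.conjNormal (s : SL(2, ℤ)) : MulAut ↥(Gamma N)) γ) =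
      conjOn (GammaH N M h π) hn ((kappaS h s : Gamma0 N) : SL(2, ℤ)) (kappaS h s).2
        (toH N M h π γ) := by
    apply Subtype.ext
    rw [coe_conjOn, coe_toH, coe_toH, coe_kappaS]
    have h2 : (⟨(((MulAut.conjNormal (s : SL(2, ℤ)) : MulAut ↥(Gamma N)) γ : Gamma N) : SL(2, ℤ)),
        (Gamma_le_SGrp N M h ((MulAut.conjNormal (s : SL(2, ℤ)) : MulAut ↥(Gamma N)) γ).2).1⟩ :
          GammaUp M) =
        ⟨(s : SL(2, ℤ)), s.2.1⟩ * ⟨(γ : SL(2, ℤ)), (Gamma_le_SGrp N M h γ.2).1⟩ *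
          ⟨(s : SL(2, ℤ)), s.2.1⟩⁻¹ := by
      apply Subtype.ext
      rw [MulAut.conjNormal_apply]
      rfl
    rw [h2, map_mul, map_mul, map_inv]
  rw [h1]
  have h3 := hF ((kappaS h s : Gamma0 N) : SL(2, ℤ)) (kappaS h s).2
  have h4 := DFunLike.congr_fun h3 (Additive.ofMul (toH N M h π γ))
  rw [diamondOnBy_apply, AddMonoidHom.smul_apply] at h4
  exact h4

theorem evS_eq_one (s : SGrp M (N / M))
    (hs : ((((s : SL(2, ℤ)) 1 1 : ℤ)) : ZMod M) = 1) : evS N M h π K ψ s = 1 := by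
  rw [evS, chiOf_kappaS_eq_one N M h π s hs, map_one, Units.val_one]

theorem upperUni_mem_SGrp {b : ℤ} (hb : (M : ℤ) ∣ b) : upperUni b ∈ SGrp M (N / M) := by
  rw [mem_SGrp]
  exact ⟨hb, by show ((N / M : ℕ) : ℤ) ∣ (0 : ℤ); exact dvd_zero _⟩

theorem lowerUni_mem_SGrp {c : ℤ} (hc : ((N / M : ℕ) : ℤ) ∣ c) : lowerUni c ∈ SGrp M (N / M) := by
  rw [mem_SGrp]
  exact ⟨by show (M : ℤ) ∣ (0 : ℤ); exact dvd_zero _, hc⟩

include hF in
/-- `T₁ ^ M v = v`. -/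
theorem cj_upperUni_mul_vOf {b : ℤ} (hb : (M : ℤ) ∣ b) :
    cj N K (upperUni b) (vOf N M h π K F) = vOf N M h π K F := by
  have h1 := cj_vOf N M h π hn K ψ F hF ⟨upperUni b, upperUni_mem_SGrp N M hb⟩
  rw [evS_eq_one N M h π K ψ _ (by show (((1 : ℤ)) : ZMod M) = 1; simp), one_smul] at h1
  exact h1

/-- `(M U; 0 M) κ(g) = κ(t_U g t_U⁻¹) (M U; 0 M)`. -/
theorem utZ_tw_mul_kappa (g g₁ : GammaUp M) (U : ℤ)
    (hg₁ : (g₁ : SL(2, ℤ)) = upperUni U * (g : SL(2, ℤ)) * (upperUni U)⁻¹) :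
    utZ M U M * (kappa M g : Matrix (Fin 2) (Fin 2) ℤ) =
      (kappa M g₁ : Matrix (Fin 2) (Fin 2) ℤ) * utZ M U M := by
  have e1 : utZ M U M = utZ 1 0 M * ((upperUni U : SL(2, ℤ)) : Matrix (Fin 2) (Fin 2) ℤ) *
      utZ M 0 1 := by
    rw [val_upperUni, utZ_mul_utZ, utZ_mul_utZ]
    exact utZ_congr (by ring) (by ring) (by ring)
  have e2 : ((upperUni U : SL(2, ℤ)) : Matrix (Fin 2) (Fin 2) ℤ) *
      ((g : SL(2, ℤ)) : Matrix (Fin 2) (Fin 2) ℤ) =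
      ((g₁ : SL(2, ℤ)) : Matrix (Fin 2) (Fin 2) ℤ) *
        ((upperUni U : SL(2, ℤ)) : Matrix (Fin 2) (Fin 2) ℤ) := by
    rw [← Matrix.SpecialLinearGroup.coe_mul, ← Matrix.SpecialLinearGroup.coe_mul, hg₁,
      inv_mul_cancel_right]
  calc utZ M U M * (kappa M g : Matrix (Fin 2) (Fin 2) ℤ)
      = utZ 1 0 M * ((upperUni U : SL(2, ℤ)) : Matrix (Fin 2) (Fin 2) ℤ) *
          (utZ M 0 1 * (kappa M g : Matrix (Fin 2) (Fin 2) ℤ)) := by
        rw [e1]; simp only [Matrix.mul_assoc]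
    _ = utZ 1 0 M * (((upperUni U : SL(2, ℤ)) : Matrix (Fin 2) (Fin 2) ℤ) *
          ((g : SL(2, ℤ)) : Matrix (Fin 2) (Fin 2) ℤ)) * utZ M 0 1 := by
        rw [← mul_utZ_eq_utZ_mul_kappa]; simp only [Matrix.mul_assoc]
    _ = utZ 1 0 M * ((g₁ : SL(2, ℤ)) : Matrix (Fin 2) (Fin 2) ℤ) *
          ((upperUni U : SL(2, ℤ)) : Matrix (Fin 2) (Fin 2) ℤ) * utZ M 0 1 := by
        rw [e2]; simp only [Matrix.mul_assoc]
    _ = (kappa M g₁ : Matrix (Fin 2) (Fin 2) ℤ) * (utZ 1 0 M *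
          ((upperUni U : SL(2, ℤ)) : Matrix (Fin 2) (Fin 2) ℤ) * utZ M 0 1) := by
        rw [utZ_mul_kappa]; simp only [Matrix.mul_assoc]
    _ = _ := by rw [← e1]

theorem kappa_mem_Gamma0_mul (γ : Gamma N) :
    kappa M ⟨(γ : SL(2, ℤ)), (Gamma_le_SGrp N M h γ.2).1⟩ ∈ Gamma0 (N * M) := by
  rw [mem_Gamma0_iff_dvd, kappa_one_zero]
  have h1 := (mem_Gamma_iff_dvd.mp γ.2).2.2.1
  push_cast
  rw [mul_comm (N : ℤ)]
  exact mul_dvd_mul_left _ h1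

include hF in
/-- **(b)** `Tw F = 0` implies `∑_u ψ(σ u) cj (1 u; 0 1) v = 0`. -/
theorem sum_cj_vOf_eq_zero
    (X : TransferDatum ↥(GammaH N M h π) ↥(Gamma0 (N * M)) (GL (Fin 2) ℝ) (ZMod M)ˣ)
    (hX : IsTwDatum N M h π σ X) (hTw : X.transferGrp K F = 0) :
    ∑ u : (ZMod M)ˣ, ((ψ (σ u) : Kˣ) : K) •
      cj N K (upperUni (((u : ZMod M).val : ℕ) : ℤ)) (vOf N M h π K F) = 0 := by
  choose s hs hα using hX.α_eq
  refine AddMonoidHom.ext fun γ => ?_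
  obtain ⟨γ, rfl⟩ := Additive.ofMul.surjective γ
  rw [AddMonoidHom.finsetSum_apply, AddMonoidHom.zero_apply]
  set γ' : Gamma0 (N * M) := ⟨kappa M ⟨(γ : SL(2, ℤ)), (Gamma_le_SGrp N M h γ.2).1⟩,
    kappa_mem_Gamma0_mul N M h γ⟩ with hγ'
  have h0 := DFunLike.congr_fun hTw (Additive.ofMul γ')
  rw [X.transferGrp_apply, AddMonoidHom.zero_apply] at h0
  rw [← h0]
  refine Finset.sum_congr rfl fun u _ => ?_
  set U : ℕ := (u : ZMod M).val with hU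
  set γ₁ : Gamma N := (MulAut.conjNormal (upperUni (U : ℤ)) : MulAut ↥(Gamma N)) γ with hγ₁
  set γ'' : GammaH N M h π := conjOn (GammaH N M h π) hn ((s u : Gamma0 N) : SL(2, ℤ)) (s u).2
    (toH N M h π γ₁) with hγ''
  have hrel : X.α u * X.e γ' = X.e' γ'' * X.α u := by
    rw [hX.e_eq, hX.e'_eq]
    have hαu : X.α u = twAlpha N M s u := hα u
    rw [hαu]
    have q1 : IsQMat (M : ℤ) (twAlpha N M s u * slEmb (Gamma0 (N * M)) γ')
        ((((s u : Gamma0 N) : SL(2, ℤ)) * utZ M (U : ℕ) M) *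
          ((γ' : SL(2, ℤ)) : Matrix (Fin 2) (Fin 2) ℤ)) :=
      ((isQMat_twAlpha N M s u).mul (isQMat_slEmb _ γ')).of_eq (mul_one _)
    have q2 : IsQMat (M : ℤ) (slEmb (GammaH N M h π) γ'' * twAlpha N M s u)
        (((γ'' : SL(2, ℤ)) : Matrix (Fin 2) (Fin 2) ℤ) *
          (((s u : Gamma0 N) : SL(2, ℤ)) * utZ M (U : ℕ) M)) :=
      ((isQMat_slEmb (GammaH N M h π) γ'').mul (isQMat_twAlpha N M s u)).of_eq (one_mul _)
    rw [q1.eq_iff (by exact_mod_cast NeZero.ne M) q2]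
    have hkey := utZ_tw_mul_kappa M ⟨(γ : SL(2, ℤ)), (Gamma_le_SGrp N M h γ.2).1⟩
      ⟨(γ₁ : SL(2, ℤ)), (Gamma_le_SGrp N M h γ₁.2).1⟩ (U : ℤ)
      (by rw [hγ₁, MulAut.conjNormal_apply])
    have hval : ((γ'' : SL(2, ℤ)) : Matrix (Fin 2) (Fin 2) ℤ) =
        ((s u : Gamma0 N) : SL(2, ℤ)) *
          (kappa M ⟨(γ₁ : SL(2, ℤ)), (Gamma_le_SGrp N M h γ₁.2).1⟩ :
            Matrix (Fin 2) (Fin 2) ℤ) * (((s u : Gamma0 N) : SL(2, ℤ))⁻¹ : SL(2, ℤ)) := by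
      rw [hγ'', coe_conjOn, coe_toH, Matrix.SpecialLinearGroup.coe_mul,
        Matrix.SpecialLinearGroup.coe_mul]
    have hinv : ((((s u : Gamma0 N) : SL(2, ℤ))⁻¹ : SL(2, ℤ)) : Matrix (Fin 2) (Fin 2) ℤ) *
        (((s u : Gamma0 N) : SL(2, ℤ)) : Matrix (Fin 2) (Fin 2) ℤ) = 1 := by
      rw [← Matrix.SpecialLinearGroup.coe_mul, inv_mul_cancel, Matrix.SpecialLinearGroup.coe_one]
    have hassoc : ∀ (A B C D E : Matrix (Fin 2) (Fin 2) ℤ),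
        A * B * C * (D * E) = A * (B * ((C * D) * E)) := by
      intro A B C D E
      simp only [Matrix.mul_assoc]
    rw [hval, hassoc, hinv, Matrix.one_mul, ← hkey, Matrix.mul_assoc]
  rw [X.cocycle_eq hrel, hγ'']
  have h3 := hF ((s u : Gamma0 N) : SL(2, ℤ)) (s u).2
  have h4 := DFunLike.congr_fun h3 (Additive.ofMul (toH N M h π γ₁))
  rw [diamondOnBy_apply, AddMonoidHom.smul_apply] at h4
  rw [h4, AddMonoidHom.smul_apply, cj_apply, vOf_apply]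
  have h5 : (⟨((s u : Gamma0 N) : SL(2, ℤ)), (s u).2⟩ : Gamma0 N) = s u := rfl
  rw [h5, hs u]

/-- **(c)** `v = 0` implies `F = 0`. -/
theorem eq_zero_of_vOf_eq_zero [CharZero K] (hv : vOf N M h π K F = 0) : F = 0 := by
  -- `F` vanishes on `Γ(N M)`
  have h1 : ∀ δ : GammaH N M h π, (δ : SL(2, ℤ)) ∈ Gamma (N * M) → F (Additive.ofMul δ) = 0 := by
    intro δ hδ
    rw [mem_Gamma_iff_dvd] at hδ
    push_cast at hδ
    obtain ⟨h00, h01, h10, h11⟩ := hδ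
    have hdvd : (M : ℤ) ∣ (δ : SL(2, ℤ)) 1 0 := dvd_trans (dvd_mul_left _ _) h10
    set γ₀ : SL(2, ℤ) := xferdConjDiagInv M (δ : SL(2, ℤ)) hdvd with hγ₀
    have hγ₀mem : γ₀ ∈ Gamma N := by
      rw [mem_Gamma_iff_dvd]
      refine ⟨dvd_trans (dvd_mul_right _ _) h00, ?_, ?_, dvd_trans (dvd_mul_right _ _) h11⟩
      · show (N : ℤ) ∣ (M : ℤ) * (δ : SL(2, ℤ)) 0 1
        exact Dvd.dvd.mul_left (dvd_trans (dvd_mul_right _ _) h01) _
      · show (N : ℤ) ∣ (δ : SL(2, ℤ)) 1 0 / (M : ℤ)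
        obtain ⟨k, hk⟩ := h10
        rw [hk, mul_comm (N : ℤ) (M : ℤ), mul_assoc,
          Int.mul_ediv_cancel_left _ (by exact_mod_cast NeZero.ne M : (M : ℤ) ≠ 0)]
        exact dvd_mul_right _ _
    have h2 : toH N M h π ⟨γ₀, hγ₀mem⟩ = δ := by
      apply Subtype.ext
      rw [coe_toH]
      apply utZ_diag_cancel (NeZero.ne M)
      rw [← utZ_mul_kappa]
      exact utZ_mul_xferdConjDiagInv M (δ : SL(2, ℤ)) hdvd
    have h3 := DFunLike.congr_fun hv (Additive.ofMul (⟨γ₀, hγ₀mem⟩ : Gamma N))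
    rw [vOf_apply, h2, AddMonoidHom.zero_apply] at h3
    exact h3
  refine AddMonoidHom.ext fun δ => ?_
  obtain ⟨δ, rfl⟩ := Additive.ofMul.surjective δ
  have : NeZero (N * M) := ⟨Nat.mul_ne_zero (NeZero.ne N) (NeZero.ne M)⟩
  have hfin : ((Gamma (N * M)).subgroupOf (GammaH N M h π)).FiniteIndex :=
    Subgroup.instFiniteIndex_subgroupOf _ _
  obtain ⟨n, hn0, -, hnmem⟩ := Subgroup.exists_pow_mem_of_index_ne_zero
    (H := (Gamma (N * M)).subgroupOf (GammaH N M h π)) Subgroup.FiniteIndex.index_ne_zero δ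
  have h2 : ((δ ^ n : GammaH N M h π) : SL(2, ℤ)) ∈ Gamma (N * M) := hnmem
  have h3 := h1 (δ ^ n) h2
  rw [ofMul_pow, map_nsmul, nsmul_eq_mul] at h3
  rw [AddMonoidHom.zero_apply]
  rcases mul_eq_zero.mp h3 with h4 | h4
  · exact absurd h4 (Nat.cast_ne_zero.mpr (Nat.pos_iff_ne_zero.mp hn0))
  · exact h4

end Core

end Fermat.Agent.RB.TWL
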