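/-
RB = S43 via Ihara avoidance, package [TW] (lead), part D6: **the twisting transfer is injective on
the eigenspaces** (`TwInjStatement`).

`v ∈ Hom(Γ(N), K)` with `cj s v = g(χ(κ s)) v` (`s ∈ Γ⁰(M) ⊓ Γ₀(N/M)`) and
`∑_u f(u) T₁^u v = 0`, `f² = g`, `f` of odd order: then `v = 0`.  The sum is the value at `T₁` of
the product over the primes `r ∣ M` of the polynomials `τ_r = ∑_y f_r(y) X^{E_r y}`; one peels off
the primes one at a time.  At one prime: if `f_r = 1` then `w = 0` directly, otherwise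
`T₁^{E_r} w = w`, and an element `δ = u(E) l(c) u(E b)` of `Γ(N/r)` with lower right entry `≡ y`
modulo `r` gives `g_r(y) w = w`.
-/
import Mathlib
import Fermat.Agent.RB.TW_lead_InjCore
import Fermat.Agent.RB.TW_lead_InjChar
import Fermat.Agent.RB.TW_lead_InjArith

set_option autoImplicit false
set_option linter.unusedSectionVars false
set_option linter.unnecessarySeqFocus false

namespace Fermat.Agent.RB.TWL

open CongruenceSubgroup Matrix ModularCurve.Period ModularForm Finset Polynomial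
open scoped MatrixGroups
open Fermat.Agent.GR Fermat.Agent.W1 Fermat.Agent.RB.TWM

section Entries

theorem uLu_zero_one (a c b : ℤ) :
    (upperUni a * lowerUni c * upperUni b) 0 1 = (1 + a * c) * b + a := by
  show ((upperUni a * lowerUni c * upperUni b : SL(2, ℤ)) : Matrix (Fin 2) (Fin 2) ℤ) 0 1 = _
  rw [Matrix.SpecialLinearGroup.coe_mul, Matrix.SpecialLinearGroup.coe_mul]
  simp [upperUni, lowerUni, Matrix.mul_apply, Fin.sum_univ_two]

theorem uLu_one_zero (a c b : ℤ) :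
    (upperUni a * lowerUni c * upperUni b) 1 0 = c := by
  show ((upperUni a * lowerUni c * upperUni b : SL(2, ℤ)) : Matrix (Fin 2) (Fin 2) ℤ) 1 0 = _
  rw [Matrix.SpecialLinearGroup.coe_mul, Matrix.SpecialLinearGroup.coe_mul]
  simp [upperUni, lowerUni, Matrix.mul_apply, Fin.sum_univ_two]

theorem uLu_one_one (a c b : ℤ) :
    (upperUni a * lowerUni c * upperUni b) 1 1 = c * b + 1 := by
  show ((upperUni a * lowerUni c * upperUni b : SL(2, ℤ)) : Matrix (Fin 2) (Fin 2) ℤ) 1 1 = _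
  rw [Matrix.SpecialLinearGroup.coe_mul, Matrix.SpecialLinearGroup.coe_mul]
  simp [upperUni, lowerUni, Matrix.mul_apply, Fin.sum_univ_two]

end Entries

section Main

variable (N M : ℕ) [NeZero N] [NeZero M] (h : M ∣ N) (hsq : Squarefree M)
  (hcop : Nat.Coprime M (N / M)) (K : Type*) [Field K] (f g : (ZMod M)ˣ →* Kˣ)

/-- the eigenvalue of `s ∈ Γ⁰(M) ⊓ Γ₀(N/M)`. -/
noncomputable def gS (s : SGrp M (N / M)) : K := ((g (chiD N M h (kappaS h s)) : Kˣ) : K)

theorem gS_eq_one (s : SGrp M (N / M))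
    (hs : ((((s : SL(2, ℤ)) 1 1 : ℤ)) : ZMod M) = 1) : gS N M h K g s = 1 := by
  have : chiD N M h (kappaS h s) = 1 := by
    apply Units.ext
    rw [coe_chiD_kappaS, hs, Units.val_one]
  rw [gS, this, map_one, Units.val_one]

/-- the coefficients of the one-prime polynomial. -/
noncomputable def cOf (r : PIdx M) (y : (ZMod r)ˣ) : K :=
  ((f (phiM N M h hsq hcop (Pi.mulSingle r y)) : Kˣ) : K)

/-- the one-prime polynomial `τ_r = ∑_y f_r(y) X^{E_r y}`. -/
noncomputable def tauP (r : PIdx M) : K[X] :=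
  ∑ y : (ZMod r)ˣ, C (cOf N M h hsq hcop K f r y) *
    X ^ (eOf N M r * ((y : (ZMod r)ˣ) : ZMod r).val)

theorem aeval_tauP_apply (r : PIdx M) (w : Additive ↥(Gamma N) →+ K) :
    aeval (cj N K (upperUni 1)) (tauP N M h hsq hcop K f r) w =
      ∑ y : (ZMod r)ˣ, cOf N M h hsq hcop K f r y •
        ((cj N K (upperUni 1)) ^ (eOf N M r * ((y : (ZMod r)ˣ) : ZMod r).val)) w := by
  unfold tauP
  rw [map_sum, LinearMap.sum_apply]
  refine Finset.sum_congr rfl fun y _ => ?_
  rw [map_mul, aeval_C, map_pow, aeval_X, Module.End.mul_apply, Module.algebraMap_end_apply]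

include h hsq hcop in
theorem commute_cj_pow (r r' : PIdx M) (hne : r ≠ r') {s : SL(2, ℤ)}
    (hs : s ∈ Gamma (N / (r : ℕ))) (k : ℕ) :
    Commute (cj N K s) ((cj N K (upperUni 1)) ^ (eOf N M r' * k)) := by
  have hu : upperUni (((eOf N M r' * k : ℕ)) : ℤ) ∈ Gamma (r : ℕ) :=
    upperUni_mem_Gamma (by exact_mod_cast dvd_mul_of_dvd_left (pidx_dvd_eOf N M h r r' hne) k)
  have hc := commutator_mem_Gamma (pidx_coprime N M h hsq hcop r).symm hs hu
  rw [Nat.div_mul_cancel (pidx_dvd_N N M h r)] at hc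
  refine LinearMap.ext fun w => ?_
  rw [Module.End.mul_apply, Module.End.mul_apply, ← cj_upperUni_natCast, ← cj_upperUni_natCast]
  exact (cj_comm_of_commutator_mem hc w).symm

theorem commute_cj_aeval_tauP (r r' : PIdx M) (hne : r ≠ r') {s : SL(2, ℤ)}
    (hs : s ∈ Gamma (N / (r : ℕ))) :
    Commute (cj N K s) (aeval (cj N K (upperUni 1)) (tauP N M h hsq hcop K f r')) := by
  unfold tauP
  rw [map_sum]
  refine Commute.sum_right _ _ _ fun y _ => ?_
  rw [map_mul, aeval_C, map_pow, aeval_X]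
  exact (Algebra.commute_algebraMap_right _ _).mul_right
    (commute_cj_pow N M h hsq hcop K r r' hne hs _)

theorem commute_cj_aeval_prod (r : PIdx M) (S : Finset (PIdx M)) (hS : r ∉ S) {s : SL(2, ℤ)}
    (hs : s ∈ Gamma (N / (r : ℕ))) :
    Commute (cj N K s)
      (aeval (cj N K (upperUni 1)) (∏ r' ∈ S, tauP N M h hsq hcop K f r')) := by
  refine Finset.prod_induction _
    (fun q => Commute (cj N K s) (aeval (cj N K (upperUni 1)) q)) ?_ ?_ ?_
  · intro a b ha hb
    rw [map_mul]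
    exact ha.mul_right hb
  · rw [map_one]
    exact Commute.one_right _
  · intro r' hr'
    exact commute_cj_aeval_tauP N M h hsq hcop K f r r' (by rintro rfl; exact hS hr') hs

/-- **one prime.** -/
theorem eq_zero_of_aeval_tauP [CharZero K] (hfg : ∀ u, f u ^ 2 = g u) (n : ℕ) (hn : Odd n)
    (hfn : ∀ u, f u ^ n = 1) (r : PIdx M) (w : Additive ↥(Gamma N) →+ K)
    (hP : ∀ s : SGrp M (N / M), (s : SL(2, ℤ)) ∈ Gamma (N / (r : ℕ)) →
      cj N K (s : SL(2, ℤ)) w = gS N M h K g s • w)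
    (h0 : aeval (cj N K (upperUni 1)) (tauP N M h hsq hcop K f r) w = 0) : w = 0 := by
  classical
  set E : ℕ := eOf N M r with hE
  set T : Module.End K (Additive ↥(Gamma N) →+ K) := (cj N K (upperUni 1)) ^ E with hTdef
  have hr : (r : ℕ).Prime := Nat.prime_of_mem_primeFactors r.2
  have hNrE : ((N / (r : ℕ) : ℕ) : ℤ) ∣ (E : ℤ) := by exact_mod_cast div_dvd_eOf N M r
  have hNME : ((N / M : ℕ) : ℤ) ∣ (E : ℤ) := by exact_mod_cast div_M_dvd_eOf N M h r
  -- fixed by the elements with lower right entry `1`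
  have hfix : ∀ s : SL(2, ℤ), s ∈ SGrp M (N / M) → s ∈ Gamma (N / (r : ℕ)) →
      (((s 1 1 : ℤ)) : ZMod M) = 1 → cj N K s w = w := by
    intro s hs1 hs2 hs3
    have h1 : cj N K s w = gS N M h K g ⟨s, hs1⟩ • w := hP ⟨s, hs1⟩ hs2
    rw [gS_eq_one N M h K g ⟨s, hs1⟩ hs3, one_smul] at h1
    exact h1
  -- `T ^ r w = w`
  have hT : (T ^ (r : ℕ)) w = w := by
    rw [hTdef, ← pow_mul, ← cj_upperUni_natCast]
    apply hfix
    · apply upperUni_mem_SGrp
      exact_mod_cast M_dvd_eOf_mul N M h r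
    · apply upperUni_mem_Gamma
      push_cast
      exact Dvd.dvd.mul_right hNrE _
    · show (((1 : ℤ)) : ZMod M) = 1
      simp
  -- the character
  set χ : MulChar (ZMod r) K := MulChar.ofUnitHom
    (f.comp ((phiMHom N M h hsq hcop).comp
      (MonoidHom.mulSingle (fun r : PIdx M => (ZMod r)ˣ) r))) with hχdef
  have hχy : ∀ y : (ZMod r)ˣ, χ (y : ZMod r) = cOf N M h hsq hcop K f r y := by
    intro y
    rw [hχdef, MulChar.ofUnitHom_coe]
    rfl
  have hsum' : ∑ y : (ZMod r)ˣ, χ (y : ZMod r) • (T ^ ((y : (ZMod r)ˣ) : ZMod r).val) w = 0 := by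
    rw [aeval_tauP_apply] at h0
    rw [← h0]
    refine Finset.sum_congr rfl fun y _ => ?_
    rw [hχy, hTdef, ← pow_mul]
  have hsum : ∑ c : ZMod r, χ c • (T ^ c.val) w = 0 := by
    have h1 := sum_units_eq_sum (fun c : ZMod r => χ c • (T ^ c.val) w)
      (fun c hc => by rw [MulChar.map_nonunit χ hc, zero_smul])
    rw [← h1]
    exact hsum'
  have hrK : ((r : ℕ) : K) ≠ 0 := Nat.cast_ne_zero.mpr hr.ne_zero
  have hrK1 : ((r : ℕ) : K) - 1 ≠ 0 := by
    rw [sub_ne_zero]
    exact_mod_cast hr.one_lt.ne'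
  by_cases hχ : χ = 1
  · rw [hχ] at hsum
    exact eq_zero_of_sum_units_eq_zero hrK1 T w hT hsum
  · have hTw : T w = w := apply_eq_self_of_sum_eq_zero hrK T w hT χ hχ hsum
    -- a unit `y` with `g (φ (single r y)) ≠ 1`
    obtain ⟨y, hy⟩ : ∃ y : (ZMod r)ˣ, g (phiM N M h hsq hcop (Pi.mulSingle r y)) ≠ 1 := by
      by_contra hall
      simp only [not_exists, not_not] at hall
      apply hχ
      apply MulChar.ext
      intro y
      rw [hχy, MulChar.one_apply_coe]
      have h1 : f (phiM N M h hsq hcop (Pi.mulSingle r y)) ^ 2 = 1 := by rw [hfg, hall]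
      have h2 := hfn (phiM N M h hsq hcop (Pi.mulSingle r y))
      obtain ⟨k, hk⟩ := hn
      rw [hk, pow_succ, pow_mul, h1, one_pow, one_mul] at h2
      show ((f _ : Kˣ) : K) = 1
      rw [h2, Units.val_one]
    set yv : ℕ := (((y⁻¹ : (ZMod r)ˣ) : (ZMod r)ˣ) : ZMod r).val with hyv
    set b : ℕ := (-((y : (ZMod r)ˣ) : ZMod r)).val with hb
    set c : ℤ := (E : ℤ) * ((yv : ℤ) - 1) with hc
    set δ : SL(2, ℤ) := upperUni (E : ℤ) * lowerUni c * upperUni (((E * b : ℕ)) : ℤ) with hδ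
    have hE1 : ((E : ℕ) : ZMod r) = 1 := eOf_cast N M h hsq hcop r
    have hyvc : ((yv : ℕ) : ZMod r) = ((y⁻¹ : (ZMod r)ˣ) : ZMod r) := ZMod.natCast_zmod_val _
    have hbc : ((b : ℕ) : ZMod r) = -((y : (ZMod r)ˣ) : ZMod r) := ZMod.natCast_zmod_val _
    have hyy : ((y⁻¹ : (ZMod r)ˣ) : ZMod r) * ((y : (ZMod r)ˣ) : ZMod r) = 1 := Units.inv_mul y
    have hcc : ((c : ℤ) : ZMod r) = ((y⁻¹ : (ZMod r)ˣ) : ZMod r) - 1 := by
      rw [hc, Int.cast_mul, Int.cast_sub, Int.cast_natCast, Int.cast_natCast, Int.cast_one, hE1,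
        hyvc, one_mul]
    have hE0 : ∀ r'' : PIdx M, r'' ≠ r → ((E : ℕ) : ZMod r'') = 0 := fun r'' hrr =>
      (ZMod.natCast_eq_zero_iff _ _).mpr (pidx_dvd_eOf N M h r'' r hrr)
    have hu1 : upperUni (E : ℤ) ∈ Gamma (N / (r : ℕ)) := upperUni_mem_Gamma hNrE
    have hu2 : lowerUni c ∈ Gamma (N / (r : ℕ)) :=
      lowerUni_mem_Gamma (Dvd.dvd.mul_right hNrE _)
    have hu3 : upperUni (((E * b : ℕ)) : ℤ) ∈ Gamma (N / (r : ℕ)) :=
      upperUni_mem_Gamma (by push_cast; exact Dvd.dvd.mul_right hNrE _)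
    have hδΓ : δ ∈ Gamma (N / (r : ℕ)) := Subgroup.mul_mem _ (Subgroup.mul_mem _ hu1 hu2) hu3
    have hδ01 : δ 0 1 = (1 + (E : ℤ) * c) * (((E * b : ℕ)) : ℤ) + (E : ℤ) := uLu_zero_one _ _ _
    have hδ10 : δ 1 0 = c := uLu_one_zero _ _ _
    have hδ11 : δ 1 1 = c * (((E * b : ℕ)) : ℤ) + 1 := uLu_one_one _ _ _
    -- the lower right entry modulo the primes of `M`
    have hδ11r : ∀ r'' : PIdx M, (((δ 1 1 : ℤ)) : ZMod r'') =
        (((Pi.mulSingle r y : ∀ r : PIdx M, (ZMod r)ˣ) r'' : (ZMod r'')ˣ) : ZMod r'') := by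
      intro r''
      by_cases hrr : r'' = r
      · subst hrr
        rw [Pi.mulSingle_eq_same, hδ11]
        push_cast
        rw [hcc, hE1, hbc]
        linear_combination (-1 : ZMod r'') * hyy
      · rw [Pi.mulSingle_eq_of_ne hrr, Units.val_one, hδ11]
        push_cast
        rw [hE0 r'' hrr]
        ring
    have hδS : δ ∈ SGrp M (N / M) := by
      rw [mem_SGrp]
      refine ⟨?_, ?_⟩
      · apply dvd_of_forall_pidx_dvd hsq
        intro r''
        rw [← ZMod.intCast_zmod_eq_zero_iff_dvd, hδ01]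
        by_cases hrr : r'' = r
        · subst hrr
          push_cast
          rw [hcc, hE1, hbc]
          linear_combination (-1 : ZMod r'') * hyy
        · push_cast
          rw [hE0 r'' hrr]
          ring
      · rw [hδ10, hc]
        exact Dvd.dvd.mul_right hNME _
    -- `δ` fixes `w`
    have hcjδ : cj N K δ w = w := by
      rw [hδ, cj_mul, cj_mul]
      have e1 : cj N K (upperUni (E : ℤ)) w = w := by
        rw [cj_upperUni_natCast]
        exact hTw
      have e2 : cj N K (lowerUni c) w = w :=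
        hfix _ (lowerUni_mem_SGrp N M (Dvd.dvd.mul_right hNME _)) hu2
          (by show (((1 : ℤ)) : ZMod M) = 1; simp)
      have e3 : cj N K (upperUni (((E * b : ℕ)) : ℤ)) w = w := by
        rw [cj_upperUni_natCast, pow_mul]
        exact pow_apply_eq_self T w hTw b
      rw [e1, e2, e3]
    have hev : cj N K δ w = gS N M h K g ⟨δ, hδS⟩ • w := hP ⟨δ, hδS⟩ hδΓ
    rw [hcjδ] at hev
    have hgS : gS N M h K g ⟨δ, hδS⟩ =
        ((g (phiM N M h hsq hcop (Pi.mulSingle r y)) : Kˣ) : K) := by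
      unfold gS
      congr 2
      apply Units.ext
      rw [coe_chiD_kappaS]
      apply zmod_ext_of_forall_pidx hsq
      intro r''
      rw [map_intCast, castHom_phiM]
      exact hδ11r r''
    have hne1 : gS N M h K g ⟨δ, hδS⟩ ≠ 1 := by
      rw [hgS]
      intro h1
      apply hy
      exact Units.ext (by rw [h1, Units.val_one])
    have h3 : (gS N M h K g ⟨δ, hδS⟩ - 1) • w = 0 := by
      rw [sub_smul, one_smul, ← hev, sub_self]
    exact (smul_eq_zero.mp h3).resolve_left (sub_ne_zero.mpr hne1)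

/-- **peeling off the primes.** -/
theorem eq_zero_of_aeval_prod [CharZero K] (hfg : ∀ u, f u ^ 2 = g u) (n : ℕ) (hn : Odd n)
    (hfn : ∀ u, f u ^ n = 1) (S : Finset (PIdx M)) :
    ∀ w : Additive ↥(Gamma N) →+ K,
      (∀ r ∈ S, ∀ s : SGrp M (N / M), (s : SL(2, ℤ)) ∈ Gamma (N / (r : ℕ)) →
        cj N K (s : SL(2, ℤ)) w = gS N M h K g s • w) →
      aeval (cj N K (upperUni 1)) (∏ r ∈ S, tauP N M h hsq hcop K f r) w = 0 → w = 0 := by
  classical
  induction S using Finset.induction_on with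
  | empty =>
    intro w _ h0
    simpa using h0
  | insert r₀ S hr₀ ih =>
    intro w hP h0
    rw [Finset.prod_insert hr₀, map_mul, Module.End.mul_apply] at h0
    have hP' : ∀ s : SGrp M (N / M), (s : SL(2, ℤ)) ∈ Gamma (N / (r₀ : ℕ)) →
        cj N K (s : SL(2, ℤ))
          (aeval (cj N K (upperUni 1)) (∏ r ∈ S, tauP N M h hsq hcop K f r) w) =
        gS N M h K g s •
          (aeval (cj N K (upperUni 1)) (∏ r ∈ S, tauP N M h hsq hcop K f r) w) := by
      intro s hs
      have hcomm := commute_cj_aeval_prod N M h hsq hcop K f r₀ S hr₀ hs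
      have h1 := LinearMap.congr_fun hcomm.eq w
      rw [Module.End.mul_apply, Module.End.mul_apply] at h1
      rw [h1, hP r₀ (Finset.mem_insert_self _ _) s hs, map_smul]
    have hw'0 := eq_zero_of_aeval_tauP N M h hsq hcop K f g hfg n hn hfn r₀ _ hP' h0
    exact ih w (fun r hr => hP r (Finset.mem_insert_of_mem hr)) hw'0

include hsq hcop in
/-- **the abstract form of the injectivity of the twisting transfer.** -/
theorem eq_zero_of_twist_sum_eq_zero [CharZero K] (hfg : ∀ u, f u ^ 2 = g u) (n : ℕ) (hn : Odd n)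
    (hfn : ∀ u, f u ^ n = 1) (v : Additive ↥(Gamma N) →+ K)
    (ha : ∀ s : SGrp M (N / M), cj N K (s : SL(2, ℤ)) v = gS N M h K g s • v)
    (hb : ∑ u : (ZMod M)ˣ, ((f u : Kˣ) : K) •
      cj N K (upperUni (((u : ZMod M).val : ℕ) : ℤ)) v = 0) : v = 0 := by
  classical
  apply eq_zero_of_aeval_prod N M h hsq hcop K f g hfg n hn hfn Finset.univ v
    (fun r _ s _ => ha s)
  have hTM : ((cj N K (upperUni 1)) ^ M) v = v := by
    rw [← cj_upperUni_natCast]
    have h1 : cj N K (upperUni (M : ℤ)) v = _ :=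
      ha ⟨upperUni (M : ℤ), upperUni_mem_SGrp N M (dvd_refl _)⟩
    rw [gS_eq_one N M h K g _ (by show (((1 : ℤ)) : ZMod M) = 1; simp), one_smul] at h1
    exact h1
  have hprod : ∏ r : PIdx M, tauP N M h hsq hcop K f r =
      ∑ x : (∀ r : PIdx M, (ZMod r)ˣ), C (∏ r : PIdx M, cOf N M h hsq hcop K f r (x r)) *
        (X : K[X]) ^ crtB (eOf N M) x :=
    prod_sum_C_mul_X_pow (eOf N M) (fun r y => cOf N M h hsq hcop K f r y)
  rw [hprod, map_sum, LinearMap.sum_apply, ← hb,
    ← (phiM_bijective N M h hsq hcop).sum_comp (fun u : (ZMod M)ˣ => ((f u : Kˣ) : K) •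
      cj N K (upperUni (((u : ZMod M).val : ℕ) : ℤ)) v)]
  refine Finset.sum_congr rfl fun x _ => ?_
  rw [map_mul, aeval_C, map_pow, aeval_X, Module.End.mul_apply, Module.algebraMap_end_apply]
  congr 1
  · exact (map_phiM_eq_prod N M h hsq hcop ((Units.coeHom K).comp f) x).symm
  · rw [cj_upperUni_natCast, val_phiM, ← pow_apply_eq_of_mod' M _ v hTM]

end Main

/-- **[TW-D]**: the twisting transfer is injective on the eigenspaces of `Δ`, over a field of
characteristic `0`. -/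
theorem twInjStatement : TwInjStatement := by
  intro Δ _ _ hodd N M _ _ h hsq hcop π σ _ hσ hn X hX K _ _ ψ F hF hTw
  apply eq_zero_of_vOf_eq_zero N M h π K F
  apply eq_zero_of_twist_sum_eq_zero N M h hsq hcop K (ψ.comp σ) (ψ.comp π) ?_ (Nat.card Δ) hodd
    ?_ _ ?_ ?_
  · intro u
    rw [MonoidHom.comp_apply, MonoidHom.comp_apply, ← map_pow, hσ]
  · intro u
    rw [MonoidHom.comp_apply, ← map_pow, pow_card_eq_one', map_one]
  · intro s
    exact cj_vOf N M h π hn K ψ F hF s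
  · exact sum_cj_vOf_eq_zero N M h π σ hn K ψ F hF X hX hTw

end Fermat.Agent.RB.TWL
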