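/-
RB = S43 via Ihara avoidance, package [TW] (lead), part B: **the twisting transfer preserves the
parabolic homomorphisms** (`TwParabolicStatement`).
-/
import Mathlib
import Fermat.Agent.RB.TW_lead_Mat

set_option autoImplicit false
set_option linter.unusedSectionVars false

namespace Fermat.Agent.RB.TWL

open CongruenceSubgroup Matrix ModularCurve.Period ModularForm
open scoped MatrixGroups
open Fermat.Agent.GR Fermat.Agent.W1 Fermat.Agent.RB.TWM

/-- **a transfer between two subgroups of `SL₂(ℤ)` inside `GL₂(ℝ)` preserves the parabolic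
homomorphisms** (any coefficient group). -/
theorem transferGrp_mem_parabolicHoms_sl {Γ' Γ : Subgroup SL(2, ℤ)} {ι : Type*} [Fintype ι]
    (X : TransferDatum ↥Γ' ↥Γ (GL (Fin 2) ℝ) ι) (hX' : X.e' = slEmb Γ') (hX : X.e = slEmb Γ)
    (R : Type*) [Semiring R] {A : Type*} [AddCommGroup A] [Module R A]
    {ψ : Additive ↥Γ' →+ A} (hψ : ψ ∈ parabolicHoms R Γ' A) :
    X.transferGrp A ψ ∈ parabolicHoms R Γ A := by
  rw [mem_parabolicHoms_iff] at hψ ⊢
  intro γ hγ
  apply X.transferGrp_apply_eq_zero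
  intro i m hm hi
  apply hψ
  have h1 := X.e'_cocycle_of_perm_eq hi
  rw [hX', hX] at h1
  have h2 : ((slEmb Γ' (X.cocycle (γ ^ m) i) : GL (Fin 2) ℝ) :
      Matrix (Fin 2) (Fin 2) ℝ).trace =
      ((slEmb Γ (γ ^ m) : GL (Fin 2) ℝ) : Matrix (Fin 2) (Fin 2) ℝ).trace := by
    rw [h1, Units.val_mul, Units.val_mul]
    exact Matrix.trace_units_conj (X.α i) _
  rw [trace_slEmb, trace_slEmb] at h2
  have h3 : (((X.cocycle (γ ^ m) i : Γ') : SL(2, ℤ)) : Matrix (Fin 2) (Fin 2) ℤ).trace =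
      (((γ ^ m : Γ) : SL(2, ℤ)) : Matrix (Fin 2) (Fin 2) ℤ).trace := by
    exact_mod_cast h2
  rw [h3, SubgroupClass.coe_pow]
  exact trace_pow_sq_eq_four _ hγ m

/-- **[TW-B]** the twisting transfer preserves the parabolic homomorphisms. -/
theorem twParabolicStatement : TwParabolicStatement := by
  intro Δ _ N M _ _ h π σ X hX R _ A _ _ ψ hψ
  exact transferGrp_mem_parabolicHoms_sl X hX.e'_eq hX.e_eq R hψ

end Fermat.Agent.RB.TWL
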