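/-
RB = S43 via Ihara avoidance, package [TWMOD] second wave (lead), part [SS] 2: **an integral
polynomial killing `T_ℓ` on `Hom_par(Γ₀(Nt M), F)` kills `𝒯_ℓ = T_ℓ ∘ ⟨g⟩` (`χ(g) σ(ℓ) = 1`) on
`Hom_par(Γ_H, F)`**, `F` a field of characteristic `0` with enough roots of unity.

Every parabolic `Φ` is a sum of parabolic `Δ`-eigenvectors `w` [EIG]; `P'(𝒯_ℓ) w` is again an
eigenvector, and `Tw (P'(𝒯_ℓ) w) = P'(T_ℓ) (Tw w) = 0` by [TW-C], [TW-B]; so `P'(𝒯_ℓ) w = 0` by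
[TW-D].
-/
import Mathlib
import Fermat.Agent.RB.SS_lead_Dia
import Fermat.Agent.RB.SS_lead_Eig
import Fermat.Agent.RB.TW_lead_Par
import Fermat.Agent.RB.TW_lead_Hecke
import Fermat.Agent.RB.TW_lead_Inj
import Fermat.Agent.GR.MULT1_helper2_Occur

set_option autoImplicit false
set_option linter.unusedSectionVars false

namespace Fermat.Agent.RB.SSL

open CongruenceSubgroup Matrix ModularCurve.Period Polynomial
open scoped MatrixGroups
open Fermat.Agent.GR Fermat.Agent.W1 Fermat.Agent.RB.TWM Fermat.Agent.RB.TWL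

section Kill

variable {Δ : Type} [CommGroup Δ] [Finite Δ] (Nt M : ℕ) [NeZero Nt] [NeZero M] [NeZero (Nt * M)]
  (hM : M ∣ Nt) (hsq : Squarefree M) (hcop : Nat.Coprime M (Nt / M))
  (π σ : (ZMod M)ˣ →* Δ) (hπ : Function.Surjective π) (hσ : ∀ u, σ u ^ 2 = π u)
  (hn : ∀ τ ∈ Gamma0 Nt, ∀ γ ∈ GammaH Nt M hM π, τ * γ * τ⁻¹ ∈ GammaH Nt M hM π)
  (F : Type) [Field F] [CharZero F]

/-- the operator `𝒯_ℓ = T_ℓ ∘ ⟨g⟩` on `Hom(Γ_H, F)`. -/
noncomputable def tLin (ℓ : Nat.Primes) (g : Gamma0 Nt) :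
    Module.End F (Additive ↥(GammaH Nt M hM π) →+ F) :=
  heckeOnPₗ Nt (GammaH Nt M hM π) (Gamma1_le_GammaH Nt M hM π) (GammaH_le_Gamma0 Nt M hM π) ℓ F F *
    diaLin Nt M hM π hn F g

theorem tLin_apply (ℓ : Nat.Primes) (g : Gamma0 Nt) (ψ : Additive ↥(GammaH Nt M hM π) →+ F) :
    tLin Nt M hM π hn F ℓ g ψ =
      heckeOnP Nt (GammaH Nt M hM π) (Gamma1_le_GammaH Nt M hM π) (GammaH_le_Gamma0 Nt M hM π) ℓ F
        (diamondOnBy (GammaH Nt M hM π) hn F (g : SL(2, ℤ)) g.2 ψ) := rfl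

/-- `𝒯_ℓ` commutes with the diamonds. -/
theorem diaLin_tLin (ℓ : Nat.Primes) (g g' : Gamma0 Nt)
    (ψ : Additive ↥(GammaH Nt M hM π) →+ F) :
    diaLin Nt M hM π hn F g' (tLin Nt M hM π hn F ℓ g ψ) =
      tLin Nt M hM π hn F ℓ g (diaLin Nt M hM π hn F g' ψ) := by
  rw [tLin_apply, tLin_apply, diaLin_apply,
    diamondOnBy_heckeOnP (GammaH Nt M hM π) (Gamma1_le_GammaH Nt M hM π)
      (GammaH_le_Gamma0 Nt M hM π) hn ℓ (g' : SL(2, ℤ)) g'.2]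
  congr 1
  have h1 := LinearMap.congr_fun (diaLin_comm Nt M hM π hn F g' g) ψ
  exact h1

include hsq hcop hπ hσ in
/-- **the main step of [SS].** -/
theorem aeval_tLin_eq_zero_of_par [HasEnoughRootsOfUnity F (Monoid.exponent Δ)]
    (hodd : Odd (Nat.card Δ))
    (X : TransferDatum ↥(GammaH Nt M hM π) ↥(Gamma0 (Nt * M)) (GL (Fin 2) ℝ) (ZMod M)ˣ)
    (hX : IsTwDatum Nt M hM π σ X)
    (ℓ : Nat.Primes) (hℓ : ¬ (ℓ : ℕ) ∣ Nt * M) (hℓM : Nat.Coprime (ℓ : ℕ) M) (g : Gamma0 Nt)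
    (hg : chiOf Nt M hM π g * σ (ZMod.unitOfCoprime (ℓ : ℕ) hℓM) = 1)
    (P' : ℤ[X]) (hP' : aeval (Fermat.Agent.GR.heckeParP (Nt * M) ℓ F F) P' = 0)
    (Φ : Additive ↥(GammaH Nt M hM π) →+ F)
    (hΦ : Φ ∈ parabolicHoms F (GammaH Nt M hM π) F) :
    aeval (tLin Nt M hM π hn F ℓ g) P' Φ = 0 := by
  classical
  have hcard : (Nat.card Δ : F) ≠ 0 := Nat.cast_ne_zero.mpr Nat.card_pos.ne'
  set 𝒯 := tLin Nt M hM π hn F ℓ g with h𝒯
  set S : AddSubgroup (Additive ↥(GammaH Nt M hM π) →+ F) :=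
    ((aeval 𝒯 P' : Module.End F (Additive ↥(GammaH Nt M hM π) →+ F)).toAddMonoidHom).ker with hS
  have hmem : Φ ∈ S := by
    refine mem_of_forall_eigenvector_mem (diaRep Nt M hM π hn F hπ) hcard S Φ ?_
    intro ψ w hw heig
    rw [hS, AddMonoidHom.mem_ker]
    show aeval 𝒯 P' w = 0
    have hwpar : w ∈ parabolicHoms F (GammaH Nt M hM π) F := by
      refine (Submodule.span_le.mpr ?_) hw
      rintro _ ⟨δ, rfl⟩
      exact diamondOnBy_mem_parabolicHoms (GammaH Nt M hM π) hn _ _ F hΦ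
    apply twInjStatement hodd Nt M hM hsq hcop π σ hπ hσ hn X hX F ψ (aeval 𝒯 P' w)
    · intro γ hγ
      have h1 : diamondOnBy (GammaH Nt M hM π) hn F γ hγ (aeval 𝒯 P' w) =
          diaRep Nt M hM π hn F hπ (chiOf Nt M hM π ⟨γ, hγ⟩) (aeval 𝒯 P' w) := by
        rw [← diaLin_eq_diaRep]
        rfl
      rw [h1]
      have h2 := aeval_int_intertwine 𝒯 𝒯
        (diaRep Nt M hM π hn F hπ (chiOf Nt M hM π ⟨γ, hγ⟩)).toAddMonoidHom
        (fun m => diaLin_tLin Nt M hM π hn F ℓ g _ m) P' w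
      have h3 : diaRep Nt M hM π hn F hπ (chiOf Nt M hM π ⟨γ, hγ⟩) (aeval 𝒯 P' w) =
          aeval 𝒯 P' (diaRep Nt M hM π hn F hπ (chiOf Nt M hM π ⟨γ, hγ⟩) w) := h2
      rw [h3, heig, map_smul]
    · have h3 := aeval_int_intertwine 𝒯 (Fermat.Agent.GR.heckeGrpPₗ (Nt * M) ℓ F F) (X.transferGrp F)
        (fun m => (twHeckeStatement Nt M hM π σ hσ hn X hX ℓ hℓ hℓM (g : SL(2, ℤ)) g.2 hg F
          m).symm) P' w
      rw [h3]
      have hTwpar : X.transferGrp F w ∈ parabolicHoms F (Gamma0 (Nt * M)) F :=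
        twParabolicStatement Nt M hM π σ X hX F F w hwpar
      have h4 := aeval_int_intertwine (Fermat.Agent.GR.heckeParP (Nt * M) ℓ F F)
        (Fermat.Agent.GR.heckeGrpPₗ (Nt * M) ℓ F F)
        (parabolicHoms F (Gamma0 (Nt * M)) F).subtype.toAddMonoidHom (fun m => rfl) P'
        ⟨_, hTwpar⟩
      rw [hP', LinearMap.zero_apply, map_zero] at h4
      exact h4.symm
  exact hmem

end Kill

end Fermat.Agent.RB.SSL
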