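/-
RB = S43 via Ihara avoidance, package [TWMOD] second wave (lead), part [SS] 3:
**`SideReducedStatement`: the algebra of a realised side is reduced.**

The generators `Tt ℓ` (`ℓ ∉ Sbig`) are killed by an integral polynomial which is squarefree over
`ℚ` (through `ι`, the coefficient embedding `𝒪 → F = \bar K` and `aeval_tLin_eq_zero_of_par`); the
`Tt ℓ`, `ℓ ∈ Sbig`, are zero; the `g q` are killed by `X^{p^n} - 1`; conclude by [SS-abs].
-/
import Mathlib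
import Fermat.Agent.RB.SS_lead_Kill
import Fermat.Agent.RB.SS_lead_Abs
import Fermat.Agent.RB.SS_lead_RedT
import Fermat.Agent.RB.TW_lead_SSBig
import Fermat.Agent.RB.TW_lead_Exists
import Fermat.Agent.RB.TWMOD_helper2_Real
import Fermat.Agent.RB.REPT_helper1_TWAlg

set_option autoImplicit false
set_option linter.unusedSectionVars false

namespace Fermat.Agent.RB.SSL

open CongruenceSubgroup Matrix ModularCurve.Period Polynomial IsLocalRing
open scoped MatrixGroups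
open Fermat.Agent.GR Fermat.Agent.W1 Fermat.Agent.RB.TWM Fermat.Agent.RB.TWL

section Side

variable {𝒪 : Type} [CommRing 𝒪] [IsDomain 𝒪] [CharZero 𝒪]
  {Δ : Type} [CommGroup Δ] [Finite Δ] (Nt M : ℕ) [NeZero Nt] [NeZero M] [NeZero (Nt * M)]
  (hM : M ∣ Nt) (hsq : Squarefree M) (hcop : Nat.Coprime M (Nt / M))
  (π σ : (ZMod M)ˣ →* Δ) (hπ : Function.Surjective π) (hσ : ∀ u, σ u ^ 2 = π u)
  (hn : ∀ τ ∈ Gamma0 Nt, ∀ γ ∈ GammaH Nt M hM π, τ * γ * τ⁻¹ ∈ GammaH Nt M hM π)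
  (Sbig : Finset ℕ)
  {p r d n : ℕ} (Y : TWModSide 𝒪 p r d n) (z : 𝒪) (Sig : Finset ℕ)
  (uQ : Fin r → (ZMod Nt)ˣ) (uS : ℕ → (ZMod Nt)ˣ)
  (R : SideReal Y Nt M hM π σ hn Sbig z Sig uQ uS)

/-- the realisation followed by a coefficient map. -/
noncomputable def jIota {F : Type} [Field F] (j : 𝒪 →+* F) :
    Y.H →+ (Additive ↥(GammaH Nt M hM π) →+ F) where
  toFun m := j.toAddMonoidHom.comp (R.ι m)
  map_zero' := by rw [map_zero, AddMonoidHom.comp_zero]
  map_add' a b := by rw [map_add, AddMonoidHom.comp_add]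

theorem jIota_apply {F : Type} [Field F] (j : 𝒪 →+* F) (m : Y.H) :
    jIota Nt M hM π σ hn Sbig Y z Sig uQ uS R j m = j.toAddMonoidHom.comp (R.ι m) := rfl

theorem jIota_injective {F : Type} [Field F] (j : 𝒪 →+* F) (hj : Function.Injective j) :
    Function.Injective (jIota Nt M hM π σ hn Sbig Y z Sig uQ uS R j) := by
  intro a b hab
  apply R.ι_injective
  refine AddMonoidHom.ext fun γ => hj ?_
  have := DFunLike.congr_fun hab γ
  exact this

theorem jIota_par {F : Type} [Field F] (j : 𝒪 →+* F) (m : Y.H) :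
    jIota Nt M hM π σ hn Sbig Y z Sig uQ uS R j m ∈ parabolicHoms F (GammaH Nt M hM π) F := by
  have h1 := R.ι_par m
  rw [mem_parabolicHoms_iff] at h1 ⊢
  intro γ hγ
  rw [jIota_apply, AddMonoidHom.comp_apply, h1 γ hγ, map_zero]

/-- `jι (Tt ℓ m) = 𝒯_ℓ (jι m)`. -/
theorem jIota_Tt {F : Type} [Field F] [CharZero F] (j : 𝒪 →+* F) (ℓ : Nat.Primes) (hℓS : (ℓ : ℕ) ∉ Sbig)
    (hℓM : Nat.Coprime (ℓ : ℕ) M) (g : Gamma0 Nt)
    (hg : chiOf Nt M hM π g = (σ (ZMod.unitOfCoprime (ℓ : ℕ) hℓM))⁻¹) (m : Y.H) :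
    jIota Nt M hM π σ hn Sbig Y z Sig uQ uS R j (Y.Tt ℓ m) =
      tLin Nt M hM π hn F ℓ g (jIota Nt M hM π σ hn Sbig Y z Sig uQ uS R j m) := by
  rw [jIota_apply, jIota_apply, tLin_apply, R.ι_Tt ℓ hℓS hℓM m, ← hg]
  have h1 := R.ι_dia (g : SL(2, ℤ)) g.2 m
  have h2 : (⟨(g : SL(2, ℤ)), g.2⟩ : Gamma0 Nt) = g := rfl
  rw [h2] at h1
  rw [← h1, ← heckeOnP_comp]
  rfl

include hM hsq hcop hπ hσ hn R in
/-- **`Tt ℓ`, `ℓ ∉ Sbig`, is killed by an integral polynomial which is squarefree over `ℚ`.** -/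
theorem exists_kill_Tt (hodd : Odd (Nat.card Δ))
    (hSbig : ∀ ℓ : ℕ, ℓ.Prime → ℓ ∣ Nt * M → ℓ ∈ Sbig) (ℓ : Nat.Primes) (hℓS : (ℓ : ℕ) ∉ Sbig) :
    ∃ f : 𝒪[X], Squarefree (f.map (algebraMap 𝒪 (FractionRing 𝒪))) ∧ aeval (Y.Tt ℓ) f = 0 := by
  classical
  have hℓN : ¬ (ℓ : ℕ) ∣ Nt * M := fun h => hℓS (hSbig ℓ ℓ.2 h)
  have hℓM : Nat.Coprime (ℓ : ℕ) M :=
    (Nat.Prime.coprime_iff_not_dvd ℓ.2).mpr fun h => hℓN (Dvd.dvd.mul_left h Nt)
  obtain ⟨P, P', b, hsqP, hb0, hbP, hT⟩ :=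
    exists_squarefree_aeval_heckeOpP_eq_zero (Nt * M) ℓ hℓN
  have hbP' : P'.map (Int.castRingHom ℚ) = C (b : ℚ) * P := by rw [hbP, smul_eq_C_mul]
  refine ⟨P'.map (Int.castRingHom 𝒪), ?_, ?_⟩
  · rw [Polynomial.map_map]
    have : (algebraMap 𝒪 (FractionRing 𝒪)).comp (Int.castRingHom 𝒪) =
        Int.castRingHom (FractionRing 𝒪) := RingHom.ext_int _ _
    rw [this]
    exact squarefree_map_of_int hsqP hb0 hbP'
  · rw [← algebraMap_int_eq, aeval_map_algebraMap]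
    -- the algebraically closed field
    set K := FractionRing 𝒪 with hK
    set F := AlgebraicClosure K with hF
    set j : 𝒪 →+* F := algebraMap 𝒪 F with hj
    have hjinj : Function.Injective j := by
      rw [hj, IsScalarTower.algebraMap_eq 𝒪 K F]
      exact (algebraMap K F).injective.comp (IsFractionRing.injective 𝒪 K)
    have : CharZero F := charZero_of_injective_algebraMap (algebraMap K F).injective
    have : NeZero ((Monoid.exponent Δ : ℕ) : F) :=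
      ⟨Nat.cast_ne_zero.mpr Monoid.exponent_ne_zero_of_finite⟩
    have : HasEnoughRootsOfUnity F (Monoid.exponent Δ) := inferInstance
    have hPF : aeval (Fermat.Agent.GR.heckeParP (Nt * M) ℓ F F) P' = 0 :=
      aeval_heckeParP_field_eq_zero (Nt * M) ℓ P'
        (aeval_heckeParP_int_eq_zero (Nt * M) ℓ P'
          (aeval_heckeParP_complex_eq_zero (Nt * M) ℓ P' hT))
    obtain ⟨Xtw, hXtw⟩ := twExistsStatement Nt M hM π σ hπ hσ
    set g : Gamma0 Nt := gOf Nt M hM π hπ (σ (ZMod.unitOfCoprime (ℓ : ℕ) hℓM))⁻¹ with hg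
    have hgχ : chiOf Nt M hM π g = (σ (ZMod.unitOfCoprime (ℓ : ℕ) hℓM))⁻¹ :=
      chiOf_gOf Nt M hM π hπ _
    have hgχ' : chiOf Nt M hM π g * σ (ZMod.unitOfCoprime (ℓ : ℕ) hℓM) = 1 := by
      rw [hgχ, inv_mul_cancel]
    refine LinearMap.ext fun m => ?_
    rw [LinearMap.zero_apply]
    apply jIota_injective Nt M hM π σ hn Sbig Y z Sig uQ uS R j hjinj
    rw [map_zero]
    have h1 := aeval_int_intertwine (Y.Tt ℓ) (tLin Nt M hM π hn F ℓ g)
      (jIota Nt M hM π σ hn Sbig Y z Sig uQ uS R j)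
      (fun m => jIota_Tt Nt M hM π σ hn Sbig Y z Sig uQ uS R j ℓ hℓS hℓM g hgχ m) P' m
    rw [h1]
    exact aeval_tLin_eq_zero_of_par Nt M hM hsq hcop π σ hπ hσ hn F hodd Xtw hXtw ℓ hℓN hℓM g
      hgχ' P' hPF _ (jIota_par Nt M hM π σ hn Sbig Y z Sig uQ uS R j m)

end Side

/-- **[SS]**: the algebra of a realised side is reduced. -/
theorem sideReducedStatement : SideReducedStatement := by
  intro _ _ _ _ _ 𝒪 _ _ _ _ p _ hp5 Δ _ _ hpΔ Nt M Nbig _ _ _ hM hsq hcop hNbig π σ hπ hσ hn Sbig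
    hSbig r d n Y z Sig uQ uS R hjunk t ht
  classical
  subst hNbig
  have hodd : Odd (Nat.card Δ) := by
    obtain ⟨k, hk⟩ := IsPGroup.iff_card.mp hpΔ
    rw [hk]
    have hp : p.Prime := Fact.out
    exact (hp.odd_of_ne_two (by omega)).pow
  have hcomm : ∀ a ∈ (Set.range Y.Tt ∪ Set.range Y.g), ∀ b ∈ (Set.range Y.Tt ∪ Set.range Y.g),
      Commute a b := fun a ha b hb => REPT.alg_gen_comm Y a ha b hb
  have hG : ∀ a ∈ (Set.range Y.Tt ∪ Set.range Y.g), ∃ f : 𝒪[X],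
      Squarefree (f.map (algebraMap 𝒪 (FractionRing 𝒪))) ∧ aeval a f = 0 := by
    rintro a (⟨ℓ, rfl⟩ | ⟨q, rfl⟩)
    · by_cases hℓS : (ℓ : ℕ) ∈ Sbig
      · refine ⟨Polynomial.X, ?_, ?_⟩
        · rw [Polynomial.map_X]
          exact Polynomial.irreducible_X.squarefree
        · rw [aeval_X, hjunk ℓ hℓS]
      · exact exists_kill_Tt Nt M hM hsq hcop π σ hπ hσ hn Sbig Y z Sig uQ uS R hodd hSbig ℓ hℓS
    · refine ⟨Polynomial.X ^ (p ^ n) - 1, ?_, ?_⟩
      · rw [Polynomial.map_sub, Polynomial.map_pow, Polynomial.map_X, Polynomial.map_one]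
        have hp : p.Prime := Fact.out
        have h1 : ((p ^ n : ℕ) : FractionRing 𝒪) ≠ 0 :=
          Nat.cast_ne_zero.mpr (pow_ne_zero n hp.ne_zero)
        have h2 := Polynomial.separable_X_pow_sub_C (1 : FractionRing 𝒪) h1 one_ne_zero
        rw [map_one] at h2
        exact h2.squarefree
      · rw [map_sub, map_pow, aeval_X, map_one, Y.g_pow, sub_self]
  have hnil : IsNilpotent (t : Module.End 𝒪 Y.H) := by
    refine ⟨2, ?_⟩
    rw [← SubmonoidClass.coe_pow, ht]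
    rfl
  have h0 : (t : Module.End 𝒪 Y.H) = 0 :=
    eq_zero_of_isNilpotent_of_mem_adjoin (K := FractionRing 𝒪)
      (IsFractionRing.injective 𝒪 (FractionRing 𝒪)) (Set.range Y.Tt ∪ Set.range Y.g) hcomm hG t.2
      hnil
  exact Subtype.ext h0

end Fermat.Agent.RB.SSL
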