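/-
RB — helper3 — [TWMOD]-T2, part 6a: **the idempotent of a maximal ideal of a finite commutative
algebra over a complete noetherian local ring**.

`exists_idempotent_of_isMaximal`: `O` noetherian local, `𝔪_O`-adically complete; `A` a commutative
`O`-algebra, finite as a module; `n` a maximal ideal of `A`.  Then there is an idempotent `e ∈ A`
with `e - 1 ∈ n` such that every `a ∉ n` is invertible on `e A`: `∃ b, a * b * e = e`
(so `A = A e × A (1 - e)` with `A e` local with maximal ideal `n e`).
Proof: `A / 𝔪_O A` is artinian, its reduction is a finite product of fields (`equivPi`); lift the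
idempotent along the nilradical (Mathlib) and then along `𝔪_O A` by Hensel's lemma
(`IsAdicComplete.of_module_finite` of the Prelude + Mathlib's `HenselianRing` instance).
-/
import Mathlib
import Fermat.Prelude.Thm_IsAdicComplete_of_module_finite

set_option autoImplicit false
set_option linter.unusedSectionVars false
set_option linter.style.haveILetI false

namespace Fermat.Agent.RB

open IsLocalRing Polynomial

section Idem

variable {O : Type*} [CommRing O] [IsLocalRing O] [IsNoetherianRing O]
  [IsAdicComplete (maximalIdeal O) O]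
variable {A : Type*} [CommRing A] [Algebra O A] [Module.Finite O A]

/-- every maximal ideal of a finite `O`-algebra contains `𝔪_O A`. -/
theorem map_maximalIdeal_le_of_isMaximal (O : Type*) [CommRing O] [IsLocalRing O]
    {A : Type*} [CommRing A] [Algebra O A] [Module.Finite O A]
    (n : Ideal A) [hn : n.IsMaximal] :
    (maximalIdeal O).map (algebraMap O A) ≤ n := by
  rw [Ideal.map_le_iff_le_comap]
  exact (IsLocalRing.eq_maximalIdeal (Ideal.isMaximal_comap_of_isIntegral_of_isMaximal n)).ge

/-- idempotents lift from `A / 𝔪_O A` to `A` (Hensel). -/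
theorem exists_isIdempotentElem_of_sq_sub_mem (a₀ : A)
    (h : a₀ ^ 2 - a₀ ∈ (maximalIdeal O).map (algebraMap O A)) :
    ∃ e : A, IsIdempotentElem e ∧ e - a₀ ∈ (maximalIdeal O).map (algebraMap O A) := by
  haveI : IsAdicComplete ((maximalIdeal O).map (algebraMap O A)) A :=
    (IsAdicComplete.map_algebraMap_iff (maximalIdeal O) A).mpr
      (IsAdicComplete.of_module_finite (maximalIdeal O) A)
  have hens : HenselianRing A ((maximalIdeal O).map (algebraMap O A)) := inferInstance
  have hmonic : (X ^ 2 - X : A[X]).Monic := by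
    apply monic_X_pow_sub
    exact lt_of_le_of_lt degree_X_le (by norm_num)
  have hev : (X ^ 2 - X : A[X]).eval a₀ = a₀ ^ 2 - a₀ := by
    simp only [eval_sub, eval_pow, eval_X]
  have hder : (derivative (X ^ 2 - X : A[X])).eval a₀ = 2 * a₀ - 1 := by
    simp [one_add_one_eq_two]
  have hunit : IsUnit (Ideal.Quotient.mk ((maximalIdeal O).map (algebraMap O A))
      ((derivative (X ^ 2 - X : A[X])).eval a₀)) := by
    rw [hder]
    apply IsUnit.of_mul_eq_one
      (Ideal.Quotient.mk ((maximalIdeal O).map (algebraMap O A)) (2 * a₀ - 1))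
    rw [← map_mul, ← map_one (Ideal.Quotient.mk ((maximalIdeal O).map (algebraMap O A))),
      Ideal.Quotient.eq]
    have : (2 * a₀ - 1) * (2 * a₀ - 1) - 1 = 4 * (a₀ ^ 2 - a₀) := by ring
    rw [this]
    exact Ideal.mul_mem_left _ _ h
  obtain ⟨e, he, hea⟩ := hens.is_henselian (X ^ 2 - X) hmonic a₀ (by rw [hev]; exact h) hunit
  refine ⟨e, ?_, hea⟩
  rw [IsRoot, eval_sub, eval_pow, eval_X, sub_eq_zero, pow_two] at he
  exact he

/-- **the idempotent of a maximal ideal.** -/
theorem exists_idempotent_of_isMaximal (O : Type*) [CommRing O] [IsLocalRing O]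
    [IsNoetherianRing O] [IsAdicComplete (maximalIdeal O) O]
    {A : Type*} [CommRing A] [Algebra O A] [Module.Finite O A]
    (n : Ideal A) [hn : n.IsMaximal] :
    ∃ e : A, IsIdempotentElem e ∧ e - 1 ∈ n ∧ ∀ a : A, a ∉ n → ∃ b : A, a * b * e = e := by
  classical
  set 𝔭A : Ideal A := (maximalIdeal O).map (algebraMap O A) with h𝔭A
  have h𝔭n : 𝔭A ≤ n := map_maximalIdeal_le_of_isMaximal O n
  -- the artinian quotient and its reduction
  haveI : IsArtinianRing (O ⧸ maximalIdeal O) := by
    letI := Ideal.Quotient.field (maximalIdeal O)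
    infer_instance
  haveI : IsArtinianRing (A ⧸ 𝔭A) := IsArtinianRing.of_finite (O ⧸ maximalIdeal O) _
  set B := A ⧸ 𝔭A with hB
  set Bred := B ⧸ nilradical B with hBred
  set f₁ : A →+* B := Ideal.Quotient.mk 𝔭A with hf₁
  set f₂ : B →+* Bred := Ideal.Quotient.mk (nilradical B) with hf₂
  set f : A →+* Bred := f₂.comp f₁ with hf
  have hf₁s : Function.Surjective f₁ := Ideal.Quotient.mk_surjective
  have hf₂s : Function.Surjective f₂ := Ideal.Quotient.mk_surjective
  have hfs : Function.Surjective f := hf₂s.comp hf₁s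
  -- elements of the kernel of `f` have a power in `𝔭A`
  have hker : ∀ x : A, f x = 0 → ∃ N : ℕ, x ^ N ∈ 𝔭A := by
    intro x hx
    have h1 : f₁ x ∈ nilradical B := by
      rw [← Ideal.Quotient.eq_zero_iff_mem]
      exact hx
    obtain ⟨N, hN⟩ := (mem_nilradical.mp h1)
    refine ⟨N, ?_⟩
    rw [← map_pow] at hN
    exact Ideal.Quotient.eq_zero_iff_mem.mp hN
  have hkern : ∀ x : A, f x = 0 → x ∈ n := by
    intro x hx
    obtain ⟨N, hN⟩ := hker x hx
    exact hn.isPrime.mem_of_pow_mem N (h𝔭n hN)
  -- the kernel of `f` lies in the Jacobson radical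
  have hkerjac : ∀ x : A, f x = 0 → x ∈ (⊥ : Ideal A).jacobson := by
    intro x hx
    rw [Ideal.jacobson, Ideal.mem_sInf]
    rintro M ⟨-, hM⟩
    obtain ⟨N, hN⟩ := hker x hx
    haveI := hM
    exact hM.isPrime.mem_of_pow_mem N (map_maximalIdeal_le_of_isMaximal O M hN)
  -- the maximal ideal of `Bred`
  have hn' : (n.map f).IsMaximal := by
    rcases Ideal.map_eq_top_or_isMaximal_of_surjective f hfs hn with h | h
    · exfalso
      have h1 : (1 : Bred) ∈ n.map f := h ▸ Submodule.mem_top
      rw [Ideal.mem_map_iff_of_surjective f hfs] at h1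
      obtain ⟨x, hx, hx1⟩ := h1
      have h2 : x - 1 ∈ n := hkern _ (by rw [map_sub, hx1, map_one, sub_self])
      exact hn.ne_top ((Ideal.eq_top_iff_one n).mpr (by
        have := n.sub_mem hx h2
        rwa [sub_sub_cancel] at this))
    · exact h
  have hcomap : ∀ x : A, f x ∈ n.map f → x ∈ n := by
    intro x hx
    rw [Ideal.mem_map_iff_of_surjective f hfs] at hx
    obtain ⟨y, hy, hxy⟩ := hx
    have : x - y ∈ n := hkern _ (by rw [map_sub, hxy, sub_self])
    have := n.add_mem this hy
    rwa [sub_add_cancel] at this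
  set mm : MaximalSpectrum Bred := ⟨n.map f, hn'⟩ with hmm
  -- the idempotent of `Bred`
  haveI : IsReduced Bred := (Ideal.isRadical_iff_quotient_reduced (nilradical B)).mp
    (Ideal.radical_isRadical (⊥ : Ideal B))
  set E := IsArtinianRing.equivPi Bred with hE
  set ered : Bred := E.symm (Pi.single mm 1) with hered
  have hEered : E ered = Pi.single mm 1 := E.apply_symm_apply _
  have hered_idem : IsIdempotentElem ered := by
    apply E.injective
    rw [map_mul, hEered, ← Pi.single_mul, mul_one]
  -- lift to `B`, then to `A`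
  obtain ⟨eB, heB, heBred⟩ := exists_isIdempotentElem_eq_of_ker_isNilpotent f₂
    (fun x hx => by
      rw [RingHom.mem_ker, hf₂, Ideal.Quotient.eq_zero_iff_mem] at hx
      exact mem_nilradical.mp hx) ered (hf₂s ered) hered_idem
  obtain ⟨a₀, ha₀⟩ := hf₁s eB
  have ha₀idem : a₀ ^ 2 - a₀ ∈ 𝔭A := by
    rw [← Ideal.Quotient.eq_zero_iff_mem, map_sub, map_pow]
    show f₁ a₀ ^ 2 - f₁ a₀ = 0
    rw [ha₀, pow_two, heB.eq, sub_self]
  obtain ⟨e, he, hea⟩ := exists_isIdempotentElem_of_sq_sub_mem (O := O) a₀ ha₀idem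
  have hfe : f e = ered := by
    have h1 : f₁ e = f₁ a₀ := by
      rw [← sub_eq_zero, ← map_sub]
      exact Ideal.Quotient.eq_zero_iff_mem.mpr hea
    show f₂ (f₁ e) = ered
    rw [h1, ha₀, heBred]
  refine ⟨e, he, ?_, ?_⟩
  · -- `e - 1 ∈ n`
    apply hcomap
    have h1 := congrFun hEered mm
    rw [IsArtinianRing.equivPi_apply, Pi.single_eq_same] at h1
    rw [map_sub, map_one, hfe]
    show ered - 1 ∈ mm.asIdeal
    rw [← Ideal.Quotient.eq_zero_iff_mem, map_sub, map_one, h1, sub_self]
  · -- invertibility on `e A`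
    intro a ha
    have hfa : f a ∉ n.map f := fun h => ha (hcomap a h)
    -- the inverse in the residue field of `mm`
    haveI : (n.map f).IsMaximal := hn'
    letI := Ideal.Quotient.field (n.map f)
    have hne : Ideal.Quotient.mk (n.map f) (f a) ≠ 0 := by
      rwa [Ne, Ideal.Quotient.eq_zero_iff_mem]
    obtain ⟨cbar, hcbar⟩ : ∃ c : Bred ⧸ n.map f, Ideal.Quotient.mk (n.map f) (f a) * c = 1 :=
      ⟨_, mul_inv_cancel₀ hne⟩
    obtain ⟨b₀, hb₀⟩ := hfs (E.symm (Pi.single mm cbar))
    have h1 : f (a * b₀ * e) = f e := by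
      rw [map_mul, map_mul, hb₀, hfe]
      apply E.injective
      rw [map_mul, map_mul, E.apply_symm_apply, hEered]
      funext m
      by_cases hm : m = mm
      · subst hm
        simp only [Pi.mul_apply, Pi.single_eq_same, mul_one]
        exact hcbar
      · simp only [Pi.mul_apply, Pi.single_eq_of_ne hm, mul_zero]
    have h2 : a * b₀ * e - e ∈ (⊥ : Ideal A).jacobson :=
      hkerjac _ (by rw [map_sub, h1, sub_self])
    have h3 := (Ideal.mem_jacobson_bot.mp h2) 1
    rw [mul_one] at h3
    obtain ⟨w, hw⟩ := h3.exists_right_inv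
    refine ⟨b₀ * w, ?_⟩
    have h4 : a * b₀ * e = e * (a * b₀ * e - e + 1) := by
      have := he.eq
      linear_combination (1 - a * b₀) * this
    calc a * (b₀ * w) * e = (a * b₀ * e) * w := by ring
      _ = (e * (a * b₀ * e - e + 1)) * w := by rw [← h4]
      _ = e * ((a * b₀ * e - e + 1) * w) := by ring
      _ = e := by rw [hw, mul_one]

end Idem

end Fermat.Agent.RB
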