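/-
RB — helper3 — [TWMOD]-T2, part 6b: **the `𝔪`-part of a Hecke module**.

`O` complete noetherian local, `R` a commutative `O`-algebra, `P` an `R`-module, finitely generated
over `O`; `𝕋` a commutative `O`-algebra acting on `P` by `R`-linear endomorphisms
(`α : 𝕋 →ₐ[O] Module.End R P`), `m` a maximal ideal of `𝕋`.  Then there is `ε : 𝕋` such that
`e = α ε` is idempotent, every `s ∉ m` is invertible on `e P` (with inverse in `α 𝕋`) and some
`s ∉ m` kills `(1 - e) P`  (`exists_idempotent_end`).
Consequences: the `R`-module retract `e P` (`idemRange`, `idemIncl`, `idemProj`), the automorphism of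
`e P` induced by `s ∉ m` (`exists_equiv_idemRange`), and the compatibility with equivariant
surjections (`idemRange_control`).
-/
import Mathlib
import Fermat.Agent.RB.T2_helper3_Idem

set_option autoImplicit false
set_option linter.unusedSectionVars false
set_option linter.style.haveILetI false

namespace Fermat.Agent.RB

open IsLocalRing

section Decomp

variable (O : Type*) [CommRing O] [IsLocalRing O] [IsNoetherianRing O]
  [IsAdicComplete (maximalIdeal O) O]
variable {R : Type*} [CommRing R] [Algebra O R]
variable {P : Type*} [AddCommGroup P] [Module R P] [Module O P] [IsScalarTower O R P]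
  [Module.Finite O P]
variable {𝕋 : Type*} [CommRing 𝕋] [Algebra O 𝕋]

/-- **the idempotent of a maximal ideal of a Hecke algebra acting on a finite module.** -/
theorem exists_idempotent_end (α : 𝕋 →ₐ[O] Module.End R P) (m : Ideal 𝕋) [hm : m.IsMaximal] :
    ∃ ε : 𝕋, α ε * α ε = α ε ∧ (∀ s : 𝕋, s ∉ m → ∃ s' : 𝕋, α (s * s') * α ε = α ε) ∧
      ∃ s : 𝕋, s ∉ m ∧ α s * (1 - α ε) = 0 := by
  classical
  by_cases hK : RingHom.ker α ≤ m
  swap
  · obtain ⟨u, huK, hum⟩ := SetLike.not_le_iff_exists.mp hK
    refine ⟨0, by simp, fun s _ => ⟨0, by simp⟩, u, hum, ?_⟩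
    rw [RingHom.mem_ker] at huK
    rw [huK, zero_mul]
  -- the image algebra
  set K : Ideal 𝕋 := RingHom.ker α with hKdef
  set αbar : 𝕋 ⧸ K →ₐ[O] Module.End R P := Ideal.kerLiftAlg α with hαbar
  have hαbar_inj : Function.Injective αbar := Ideal.kerLiftAlg_injective α
  have hαbar_mk : ∀ t : 𝕋, αbar (Ideal.Quotient.mk K t) = α t := fun t => rfl
  haveI : IsNoetherian O P := isNoetherian_of_isNoetherianRing_of_finite O P
  haveI : Module.Finite O (𝕋 ⧸ K) := by
    let φ : (𝕋 ⧸ K) →ₗ[O] Module.End O P :=
      { toFun := fun a => (αbar a).restrictScalars O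
        map_add' := fun a b => by
          ext x
          simp
        map_smul' := fun c a => by
          ext x
          simp }
    refine Module.Finite.of_injective φ ?_
    intro a b hab
    apply hαbar_inj
    ext x
    exact LinearMap.congr_fun hab x
  -- the maximal ideal of the image
  set q : 𝕋 →+* 𝕋 ⧸ K := Ideal.Quotient.mk K with hq
  have hqs : Function.Surjective q := Ideal.Quotient.mk_surjective
  have hcomap : ∀ x : 𝕋, q x ∈ m.map q → x ∈ m := by
    intro x hx
    rw [Ideal.mem_map_iff_of_surjective q hqs] at hx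
    obtain ⟨y, hy, hxy⟩ := hx
    have h1 : x - y ∈ K := by
      rw [← Ideal.Quotient.eq_zero_iff_mem, map_sub]
      show q x - q y = 0
      rw [hxy, sub_self]
    have := m.add_mem (hK h1) hy
    rwa [sub_add_cancel] at this
  haveI hn : (m.map q).IsMaximal := by
    rcases Ideal.map_eq_top_or_isMaximal_of_surjective q hqs hm with h | h
    · exfalso
      have h1 : q 1 ∈ m.map q := by
        rw [h]
        exact Submodule.mem_top
      exact hm.ne_top ((Ideal.eq_top_iff_one m).mpr (hcomap 1 h1))
    · exact h
  obtain ⟨e, he, he1, hinv⟩ := exists_idempotent_of_isMaximal O (m.map q)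
  obtain ⟨ε, rfl⟩ := hqs e
  refine ⟨ε, ?_, ?_, ε, ?_, ?_⟩
  · rw [← hαbar_mk, ← map_mul]
    exact congrArg αbar he.eq
  · intro s hs
    obtain ⟨b, hb⟩ := hinv (q s) (fun h => hs (hcomap s h))
    obtain ⟨s', rfl⟩ := hqs b
    refine ⟨s', ?_⟩
    rw [← hαbar_mk, ← hαbar_mk ε, ← map_mul, map_mul q]
    exact congrArg αbar hb
  · intro hε
    have h1 : ε - 1 ∈ m := hcomap _ (by rw [map_sub, map_one]; exact he1)
    apply hm.ne_top
    rw [Ideal.eq_top_iff_one]
    have := m.sub_mem hε h1
    rwa [sub_sub_cancel] at this
  · rw [mul_sub, mul_one, ← hαbar_mk, ← map_mul, sub_eq_zero]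
    exact (congrArg αbar he.eq).symm

end Decomp

/-! ### The retract `e P` -/

section Retract

variable {R : Type*} [CommRing R] {P : Type*} [AddCommGroup P] [Module R P]

/-- the image `e P` of an endomorphism. -/
abbrev idemRange (e : Module.End R P) : Submodule R P := LinearMap.range e

/-- the projection `P → e P`. -/
def idemProj (e : Module.End R P) : P →ₗ[R] ↥(idemRange e) := e.rangeRestrict

theorem idemProj_coe (e : Module.End R P) (x : P) : ((idemProj e x : ↥(idemRange e)) : P) = e x := rfl

theorem idemProj_subtype (e : Module.End R P) (he : e * e = e) (m : ↥(idemRange e)) :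
    idemProj e ((idemRange e).subtype m) = m := by
  obtain ⟨_, y, rfl⟩ := m
  apply Subtype.ext
  show e (e y) = e y
  exact LinearMap.congr_fun he y

theorem idemProj_surjective (e : Module.End R P) : Function.Surjective (idemProj e) :=
  LinearMap.surjective_rangeRestrict e

theorem apply_eq_of_mem_idemRange (e : Module.End R P) (he : e * e = e) {x : P}
    (hx : x ∈ idemRange e) : e x = x := by
  obtain ⟨y, rfl⟩ := hx
  exact LinearMap.congr_fun he y

/-- an endomorphism commuting with `e` and invertible on `e P` induces an automorphism of `e P`. -/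
theorem exists_equiv_idemRange (e s s' : Module.End R P) (he : e * e = e)
    (hse : Commute s e) (hs'e : Commute s' e) (hss' : Commute s s') (h : (s * s') * e = e) :
    ∃ E : ↥(idemRange e) ≃ₗ[R] ↥(idemRange e),
      ∀ m, (idemRange e).subtype (E m) = s ((idemRange e).subtype m) := by
  have hmem : ∀ t : Module.End R P, Commute t e → ∀ x ∈ idemRange e, t x ∈ idemRange e := by
    rintro t ht _ ⟨y, rfl⟩
    refine ⟨t y, ?_⟩
    have := LinearMap.congr_fun ht.eq y
    exact this.symm
  have h1 : ∀ x ∈ idemRange e, s (s' x) = x := by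
    intro x hx
    have := LinearMap.congr_fun h x
    rw [Module.End.mul_apply, Module.End.mul_apply, apply_eq_of_mem_idemRange e he hx] at this
    exact this
  have h2 : ∀ x ∈ idemRange e, s' (s x) = x := by
    intro x hx
    have := LinearMap.congr_fun hss'.eq x
    rw [Module.End.mul_apply, Module.End.mul_apply] at this
    rw [← this, h1 x hx]
  refine ⟨LinearEquiv.ofLinearMap (s.restrict (hmem s hse)) (s'.restrict (hmem s' hs'e)) ?_ ?_,
    fun m => rfl⟩
  · ext ⟨x, hx⟩
    exact h1 x hx
  · ext ⟨x, hx⟩
    exact h2 x hx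

end Retract

/-! ### Control for the `𝔪`-parts -/

section Control

variable {R R'' : Type*} [CommRing R] [CommRing R''] {σ : R →+* R''}
variable {P : Type*} [AddCommGroup P] [Module R P] {P'' : Type*} [AddCommGroup P''] [Module R'' P'']

/-- **control passes to the idempotent parts**: if `π : P → P''` is a surjection with kernel `I P`
intertwining `e` and `e''` (`e` idempotent), then `π : e P → e'' P''` is a surjection with kernel
`I (e P)`. -/
theorem idemRange_control (π : P →ₛₗ[σ] P'') (hπ : Function.Surjective π) (I : Ideal R)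
    (hker : ∀ x, π x = 0 ↔ x ∈ I • (⊤ : Submodule R P))
    (e : Module.End R P) (e'' : Module.End R'' P'') (he : e * e = e)
    (hcomm : ∀ x, π (e x) = e'' (π x)) :
    ∃ πe : ↥(idemRange e) →ₛₗ[σ] ↥(idemRange e''), (∀ m, ((πe m : ↥(idemRange e'')) : P'') = π m) ∧
      Function.Surjective πe ∧
      ∀ m, πe m = 0 ↔ m ∈ I • (⊤ : Submodule R ↥(idemRange e)) := by
  have hmem : ∀ m : ↥(idemRange e), π m ∈ idemRange e'' := by
    rintro ⟨_, y, rfl⟩
    exact ⟨π y, (hcomm y).symm⟩
  let πe : ↥(idemRange e) →ₛₗ[σ] ↥(idemRange e'') :=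
    { toFun := fun m => ⟨π m, hmem m⟩
      map_add' := fun a b => Subtype.ext (by simp)
      map_smul' := fun r a => Subtype.ext (by simp) }
  refine ⟨πe, fun m => rfl, ?_, ?_⟩
  · rintro ⟨_, y'', rfl⟩
    obtain ⟨y, rfl⟩ := hπ y''
    refine ⟨idemProj e y, Subtype.ext ?_⟩
    show π (e y) = e'' (π y)
    exact hcomm y
  · intro m
    constructor
    · intro hm
      have h1 : π m = 0 := congrArg Subtype.val hm
      have h2 : (m : P) ∈ I • (⊤ : Submodule R P) := (hker _).mp h1
      have h3 : ∀ x ∈ I • (⊤ : Submodule R P),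
          idemProj e x ∈ I • (⊤ : Submodule R ↥(idemRange e)) := by
        intro x hx
        refine Submodule.smul_induction_on hx (fun a ha y _ => ?_) (fun x y hx hy => ?_)
        · rw [map_smul]
          exact Submodule.smul_mem_smul ha Submodule.mem_top
        · rw [map_add]
          exact add_mem hx hy
      have h4 := h3 _ h2
      have h5 : idemProj e (m : P) = m := idemProj_subtype e he m
      rwa [h5] at h4
    · intro hm
      have h3 : ∀ x ∈ I • (⊤ : Submodule R ↥(idemRange e)),
          ((x : ↥(idemRange e)) : P) ∈ I • (⊤ : Submodule R P) := by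
        intro x hx
        refine Submodule.smul_induction_on hx (fun a ha y _ => ?_) (fun x y hx hy => ?_)
        · exact Submodule.smul_mem_smul ha Submodule.mem_top
        · exact add_mem hx hy
      exact Subtype.ext ((hker _).mpr (h3 m hm))

end Control

end Fermat.Agent.RB
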