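/-
RB — helper3 — [TWMOD]-T2, package [PRIM]: **a neutral description of the `m`-part**.

`O` noetherian local, `P` a finite `O`-module with an action `α : 𝕋 →ₐ[O] End_R P` of a commutative
`O`-algebra, `m` a maximal ideal of `𝕋` generated by `𝔪_O` and elements `t i - c i` (`c i ∈ O`),
`ε` an idempotent of `m` as produced by `exists_idempotent_end`.  Then

`x ∈ idemRange (α ε) ↔ ∀ i n, ∃ k, (α (t i) - c i) ^ k x ∈ 𝔪_O ^ n • P`
(`mem_idemRange_iff_forall_pow_mem`),

so the `m`-part is the set of vectors on which every `t i - c i` is topologically nilpotent; this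
description does not mention `𝕋`, `m` or `ε` and is therefore functorial for all `O`-linear maps
intertwining the operators.  `ker_eq_map_sup_span` gives the hypothesis on `m` when `m` is the
kernel of a homomorphism to a nontrivial ring sending `t i` to the image of `c i` and killing `𝔪_O`,
`𝕋` being generated by the `t i`.
-/
import Mathlib
import Fermat.Agent.RB.T2_helper3_Decomp

set_option autoImplicit false
set_option linter.unusedSectionVars false
set_option linter.style.haveILetI false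

namespace Fermat.Agent.RB

open IsLocalRing

section Prim

variable {O : Type*} [CommRing O] [IsLocalRing O]

/-- in an integral algebra over a local ring, a prime ideal containing a power of `𝔪_O` is
maximal. -/
theorem isMaximal_of_pow_maximalIdeal_le_comap {A : Type*} [CommRing A] [Algebra O A]
    [Algebra.IsIntegral O A] (𝔭 : Ideal A) [h𝔭 : 𝔭.IsPrime] (n : ℕ)
    (h : maximalIdeal O ^ n ≤ 𝔭.comap (algebraMap O A)) : 𝔭.IsMaximal := by
  apply Ideal.isMaximal_of_isIntegral_of_isMaximal_comap (R := O)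
  have hprime : (𝔭.comap (algebraMap O A)).IsPrime := Ideal.comap_isPrime _ _
  have hle : maximalIdeal O ≤ 𝔭.comap (algebraMap O A) := Ideal.IsPrime.le_of_pow_le h
  have : 𝔭.comap (algebraMap O A) = maximalIdeal O :=
    le_antisymm (le_maximalIdeal hprime.ne_top) hle
  rw [this]
  exact maximalIdeal.isMaximal O

/-- the kernel of a homomorphism `θ : 𝕋 → K` (`K ≠ 0`) killing `𝔪_O` and sending the generators
`t i` of `𝕋` to the images of `c i ∈ O` is generated by `𝔪_O` and the `t i - c i`. -/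
theorem ker_eq_map_sup_span {𝕋 : Type*} [CommRing 𝕋] [Algebra O 𝕋] {K : Type*} [CommRing K]
    [Nontrivial K] (θ : 𝕋 →+* K) {σ : Type*} (t : σ → 𝕋) (c : σ → O)
    (hgen : Algebra.adjoin O (Set.range t) = ⊤)
    (hθt : ∀ i, θ (t i) = θ (algebraMap O 𝕋 (c i)))
    (hθO : ∀ a ∈ maximalIdeal O, θ (algebraMap O 𝕋 a) = 0) :
    RingHom.ker θ = (maximalIdeal O).map (algebraMap O 𝕋) ⊔
      Ideal.span (Set.range fun i => t i - algebraMap O 𝕋 (c i)) := by
  set I : Ideal 𝕋 := (maximalIdeal O).map (algebraMap O 𝕋) ⊔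
      Ideal.span (Set.range fun i => t i - algebraMap O 𝕋 (c i)) with hI
  have hIker : I ≤ RingHom.ker θ := by
    refine sup_le ?_ ?_
    · rw [Ideal.map_le_iff_le_comap]
      intro a ha
      rw [Ideal.mem_comap, RingHom.mem_ker]
      exact hθO a ha
    · rw [Ideal.span_le]
      rintro _ ⟨i, rfl⟩
      rw [SetLike.mem_coe, RingHom.mem_ker, map_sub, hθt, sub_self]
  have hgenI : ∀ i, t i - algebraMap O 𝕋 (c i) ∈ I :=
    fun i => Ideal.mem_sup_right (Ideal.subset_span ⟨i, rfl⟩)
  have key : ∀ u : 𝕋, ∃ a : O, u - algebraMap O 𝕋 a ∈ I := by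
    intro u
    have hu : u ∈ Algebra.adjoin O (Set.range t) := by
      rw [hgen]
      exact Algebra.mem_top
    induction hu using Algebra.adjoin_induction with
    | mem x hx =>
      obtain ⟨i, rfl⟩ := hx
      exact ⟨c i, hgenI i⟩
    | algebraMap r => exact ⟨r, by rw [sub_self]; exact I.zero_mem⟩
    | add x y _ _ hx hy =>
      obtain ⟨a, ha⟩ := hx
      obtain ⟨b, hb⟩ := hy
      refine ⟨a + b, ?_⟩
      have : x + y - algebraMap O 𝕋 (a + b) = (x - algebraMap O 𝕋 a) + (y - algebraMap O 𝕋 b) := by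
        rw [map_add]
        ring
      rw [this]
      exact I.add_mem ha hb
    | mul x y _ _ hx hy =>
      obtain ⟨a, ha⟩ := hx
      obtain ⟨b, hb⟩ := hy
      refine ⟨a * b, ?_⟩
      have : x * y - algebraMap O 𝕋 (a * b) =
          y * (x - algebraMap O 𝕋 a) + algebraMap O 𝕋 a * (y - algebraMap O 𝕋 b) := by
        rw [map_mul]
        ring
      rw [this]
      exact I.add_mem (I.mul_mem_left _ ha) (I.mul_mem_left _ hb)
  refine le_antisymm ?_ hIker
  intro u hu
  obtain ⟨a, ha⟩ := key u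
  have h1 : θ (algebraMap O 𝕋 a) = 0 := by
    have h2 := hIker ha
    rw [RingHom.mem_ker, map_sub, (RingHom.mem_ker).mp hu, zero_sub, neg_eq_zero] at h2
    exact h2
  have ha' : a ∈ maximalIdeal O := by
    by_contra hne
    have hunit : IsUnit a := by
      by_contra h
      exact hne ((mem_maximalIdeal a).mpr h)
    have : IsUnit (θ (algebraMap O 𝕋 a)) := (hunit.map (algebraMap O 𝕋)).map θ
    rw [h1] at this
    exact not_isUnit_zero this
  have h3 : algebraMap O 𝕋 a ∈ I := Ideal.mem_sup_left (Ideal.mem_map_of_mem _ ha')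
  have := I.add_mem ha h3
  rwa [sub_add_cancel] at this

variable [IsNoetherianRing O]
variable {R : Type*} [CommRing R] [Algebra O R]
variable {P : Type*} [AddCommGroup P] [Module R P] [Module O P] [IsScalarTower O R P]
  [Module.Finite O P]
variable {𝕋 : Type*} [CommRing 𝕋] [Algebra O 𝕋]

/-- `R`-linear endomorphisms preserve `I • P` for ideals `I` of `O`. -/
theorem end_apply_mem_smul_top (f : Module.End R P) (I : Ideal O) {x : P}
    (hx : x ∈ (I • ⊤ : Submodule O P)) : f x ∈ (I • ⊤ : Submodule O P) := by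
  refine Submodule.smul_induction_on hx (fun r hr y _ => ?_) (fun a b ha hb => ?_)
  · rw [LinearMap.map_smul_of_tower]
    exact Submodule.smul_mem_smul hr Submodule.mem_top
  · rw [map_add]
    exact add_mem ha hb

/-- the image of `𝕋` in `End_R P` is a finite `O`-module. -/
theorem finite_quotient_ker (α : 𝕋 →ₐ[O] Module.End R P) :
    Module.Finite O (𝕋 ⧸ RingHom.ker α) := by
  set K : Ideal 𝕋 := RingHom.ker α with hKdef
  set αbar : 𝕋 ⧸ K →ₐ[O] Module.End R P := Ideal.kerLiftAlg α with hαbar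
  have hαbar_inj : Function.Injective αbar := Ideal.kerLiftAlg_injective α
  haveI : IsNoetherian O P := isNoetherian_of_isNoetherianRing_of_finite O P
  let φ : (𝕋 ⧸ K) →ₗ[O] Module.End O P :=
    { toFun := fun a => (αbar a).restrictScalars O
      map_add' := fun a b => by
        ext x
        simp
      map_smul' := fun c a => by
        ext x
        simp }
  refine Module.Finite.of_injective φ ?_
  intro a b hab
  apply hαbar_inj
  ext x
  exact LinearMap.congr_fun hab x

/-- **topological nilpotence of `m` on the `m`-part**: if every `s ∉ m` is invertible on `e P`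
(`e = α ε`), then every `w ∈ m` satisfies `w ^ k (e P) ⊆ 𝔪_O ^ n P` for `k ≫ 0`. -/
theorem exists_pow_apply_mem_of_mem (α : 𝕋 →ₐ[O] Module.End R P) (m : Ideal 𝕋)
    [hm : m.IsMaximal] (ε : 𝕋) (h2 : ∀ s : 𝕋, s ∉ m → ∃ s' : 𝕋, α (s * s') * α ε = α ε)
    (w : 𝕋) (hw : w ∈ m) (n : ℕ) :
    ∃ k : ℕ, ∀ x : P, (α w ^ k) (α ε x) ∈ (maximalIdeal O ^ n • ⊤ : Submodule O P) := by
  classical
  -- the ideal of operators mapping `e P` into `𝔪^n P`
  let 𝔟 : Ideal 𝕋 :=
    { carrier := {u | ∀ x : P, α u (α ε x) ∈ (maximalIdeal O ^ n • ⊤ : Submodule O P)}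
      add_mem' := fun {a b} ha hb x => by
        rw [map_add, LinearMap.add_apply]
        exact add_mem (ha x) (hb x)
      zero_mem' := fun x => by
        rw [map_zero, LinearMap.zero_apply]
        exact Submodule.zero_mem _
      smul_mem' := fun v u hu x => by
        rw [smul_eq_mul, map_mul, Module.End.mul_apply]
        exact end_apply_mem_smul_top (α v) _ (hu x) }
  have h𝔟 : ∀ u : 𝕋, u ∈ 𝔟 ↔ ∀ x : P, α u (α ε x) ∈ (maximalIdeal O ^ n • ⊤ : Submodule O P) :=
    fun u => Iff.rfl
  have hker : RingHom.ker α ≤ 𝔟 := by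
    intro u hu
    rw [RingHom.mem_ker] at hu
    rw [h𝔟]
    intro x
    rw [hu, LinearMap.zero_apply]
    exact Submodule.zero_mem _
  have hO : ∀ a ∈ maximalIdeal O ^ n, algebraMap O 𝕋 a ∈ 𝔟 := by
    intro a ha
    rw [h𝔟]
    intro x
    rw [AlgHom.commutes, Module.algebraMap_end_apply]
    exact Submodule.smul_mem_smul ha Submodule.mem_top
  have hrad : w ∈ 𝔟.radical := by
    rw [Ideal.radical_eq_sInf, Ideal.mem_sInf]
    rintro 𝔭 ⟨h𝔟𝔭, hprime⟩
    haveI := hprime
    -- `𝔭 ≤ m`
    have hle : 𝔭 ≤ m := by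
      intro s hs
      by_contra hsm
      obtain ⟨s', hs'⟩ := h2 s hsm
      have h1 : 1 - s * s' ∈ 𝔟 := by
        rw [h𝔟]
        intro x
        have : α (1 - s * s') (α ε x) = α ε x - (α (s * s') * α ε) x := by
          rw [map_sub, map_one, LinearMap.sub_apply, Module.End.one_apply, Module.End.mul_apply]
        rw [this, hs', sub_self]
        exact Submodule.zero_mem _
      have h3 : (1 : 𝕋) ∈ 𝔭 := by
        have := 𝔭.add_mem (h𝔟𝔭 h1) (𝔭.mul_mem_right s' hs)
        rwa [sub_add_cancel] at this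
      exact hprime.ne_top ((Ideal.eq_top_iff_one 𝔭).mpr h3)
    -- `𝔭` is maximal
    haveI hfin : Module.Finite O (𝕋 ⧸ RingHom.ker α) := finite_quotient_ker α
    haveI : Algebra.IsIntegral O (𝕋 ⧸ RingHom.ker α) := Algebra.IsIntegral.of_finite O _
    set q : 𝕋 →+* 𝕋 ⧸ RingHom.ker α := Ideal.Quotient.mk (RingHom.ker α) with hq
    have hqs : Function.Surjective q := Ideal.Quotient.mk_surjective
    have hkerq : RingHom.ker q ≤ 𝔭 := by
      rw [hq, Ideal.mk_ker]
      exact hker.trans h𝔟𝔭
    haveI hp' : (𝔭.map q).IsPrime := Ideal.map_isPrime_of_surjective hqs hkerq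
    have hmax' : (𝔭.map q).IsMaximal := by
      refine isMaximal_of_pow_maximalIdeal_le_comap (O := O) (𝔭.map q) n ?_
      intro a ha
      rw [Ideal.mem_comap]
      have : algebraMap O (𝕋 ⧸ RingHom.ker α) a = q (algebraMap O 𝕋 a) := rfl
      rw [this]
      exact Ideal.mem_map_of_mem q (h𝔟𝔭 (hO a ha))
    have hcomap : (𝔭.map q).comap q = 𝔭 := by
      rw [Ideal.comap_map_of_surjective q hqs]
      exact sup_eq_left.mpr (by
        rw [← RingHom.ker_eq_comap_bot]
        exact hkerq)
    have hmax : 𝔭.IsMaximal := by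
      rw [← hcomap]
      exact Ideal.comap_isMaximal_of_surjective q hqs
    rw [hmax.eq_of_le hm.ne_top hle]
    exact hw
  obtain ⟨k, hk⟩ := hrad
  refine ⟨k, fun x => ?_⟩
  have := (h𝔟 _).mp hk x
  rwa [map_pow] at this

/-- **separation**: a vector killed by some `s ∉ m` on which the generators `t i - c i` of `m`
are topologically nilpotent is zero. -/
theorem eq_zero_of_forall_pow_mem (α : 𝕋 →ₐ[O] Module.End R P) (m : Ideal 𝕋) [hm : m.IsMaximal]
    {σ : Type*} (t : σ → 𝕋) (c : σ → O)
    (hmgen : m ≤ (maximalIdeal O).map (algebraMap O 𝕋) ⊔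
      Ideal.span (Set.range fun i => t i - algebraMap O 𝕋 (c i)))
    (s : 𝕋) (hs : s ∉ m) (y : P) (hsy : α s y = 0)
    (hy : ∀ i n, ∃ k : ℕ, (α (t i - algebraMap O 𝕋 (c i)) ^ k) y ∈
      (maximalIdeal O ^ n • ⊤ : Submodule O P)) : y = 0 := by
  classical
  obtain ⟨u, w, hw, huw⟩ := hm.exists_inv hs
  have hwy : α w y = y := by
    have h1 : α (u * s + w) y = y := by
      rw [huw, map_one, Module.End.one_apply]
    rw [map_add, LinearMap.add_apply, map_mul, Module.End.mul_apply, hsy, map_zero, zero_add] at h1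
    exact h1
  have hwK : ∀ K : ℕ, α (w ^ K) y = y := by
    intro K
    induction K with
    | zero => rw [pow_zero, map_one, Module.End.one_apply]
    | succ K ih => rw [pow_succ, map_mul, Module.End.mul_apply, hwy, ih]
  have hmem : ∀ n : ℕ, y ∈ (maximalIdeal O ^ n • ⊤ : Submodule O P) := by
    intro n
    let 𝔠 : Ideal 𝕋 :=
      { carrier := {v | α v y ∈ (maximalIdeal O ^ n • ⊤ : Submodule O P)}
        add_mem' := fun {a b} ha hb => by
          show α (a + b) y ∈ (maximalIdeal O ^ n • ⊤ : Submodule O P)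
          rw [map_add, LinearMap.add_apply]
          exact add_mem ha hb
        zero_mem' := by
          show α 0 y ∈ (maximalIdeal O ^ n • ⊤ : Submodule O P)
          rw [map_zero, LinearMap.zero_apply]
          exact Submodule.zero_mem _
        smul_mem' := fun v u hu => by
          show α (v • u) y ∈ (maximalIdeal O ^ n • ⊤ : Submodule O P)
          rw [smul_eq_mul, map_mul, Module.End.mul_apply]
          exact end_apply_mem_smul_top (α v) _ hu }
    have h𝔠 : ∀ v : 𝕋, v ∈ 𝔠 ↔ α v y ∈ (maximalIdeal O ^ n • ⊤ : Submodule O P) := fun v => Iff.rfl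
    have hle : m ≤ 𝔠.radical := by
      refine hmgen.trans (sup_le ?_ ?_)
      · rw [Ideal.map_le_iff_le_comap]
        intro a ha
        rw [Ideal.mem_comap]
        refine ⟨n, ?_⟩
        rw [h𝔠, ← map_pow, AlgHom.commutes, Module.algebraMap_end_apply]
        exact Submodule.smul_mem_smul (Ideal.pow_mem_pow ha n) Submodule.mem_top
      · rw [Ideal.span_le]
        rintro _ ⟨i, rfl⟩
        obtain ⟨k, hk⟩ := hy i n
        refine ⟨k, ?_⟩
        rw [h𝔠, map_pow]
        exact hk
    obtain ⟨K, hK⟩ := hle hw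
    have := (h𝔠 _).mp hK
    rwa [hwK] at this
  have hbot : y ∈ (⨅ i : ℕ, maximalIdeal O ^ i • ⊤ : Submodule O P) := by
    rw [Submodule.mem_iInf]
    exact hmem
  rw [Ideal.iInf_pow_smul_eq_bot_of_isLocalRing (maximalIdeal O)
    (Ideal.IsMaximal.ne_top (maximalIdeal.isMaximal O))] at hbot
  exact (Submodule.mem_bot O).mp hbot

/-- **[PRIM]: the neutral description of the `m`-part.**  `ε` is any element with the three
properties of `exists_idempotent_end`; `m` is generated by `𝔪_O` and the `t i - c i`.  Then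
`x ∈ e P` iff every `α (t i) - c i` is topologically nilpotent on `x`. -/
theorem mem_idemRange_iff_forall_pow_mem (α : 𝕋 →ₐ[O] Module.End R P) (m : Ideal 𝕋)
    [hm : m.IsMaximal] {σ : Type*} (t : σ → 𝕋) (c : σ → O)
    (hmgen : m = (maximalIdeal O).map (algebraMap O 𝕋) ⊔
      Ideal.span (Set.range fun i => t i - algebraMap O 𝕋 (c i)))
    (ε : 𝕋) (h2 : ∀ s : 𝕋, s ∉ m → ∃ s' : 𝕋, α (s * s') * α ε = α ε)
    (h3 : ∃ s : 𝕋, s ∉ m ∧ α s * (1 - α ε) = 0) (x : P) :
    x ∈ idemRange (α ε) ↔ ∀ (i : σ) (n : ℕ), ∃ k : ℕ,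
      ((α (t i) - algebraMap O (Module.End R P) (c i)) ^ k) x ∈
        (maximalIdeal O ^ n • ⊤ : Submodule O P) := by
  have hα : ∀ i, α (t i - algebraMap O 𝕋 (c i)) = α (t i) - algebraMap O (Module.End R P) (c i) :=
    fun i => by rw [map_sub, AlgHom.commutes]
  have hmem : ∀ i, t i - algebraMap O 𝕋 (c i) ∈ m := by
    intro i
    rw [hmgen]
    exact Ideal.mem_sup_right (Ideal.subset_span ⟨i, rfl⟩)
  constructor
  · rintro ⟨x', rfl⟩ i n
    obtain ⟨k, hk⟩ := exists_pow_apply_mem_of_mem α m ε h2 _ (hmem i) n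
    refine ⟨k, ?_⟩
    rw [← hα]
    exact hk x'
  · intro hx
    obtain ⟨s, hs, hs0⟩ := h3
    have hy0 : x - α ε x = 0 := by
      refine eq_zero_of_forall_pow_mem α m t c hmgen.le s hs (x - α ε x) ?_ ?_
      · have := LinearMap.congr_fun hs0 x
        rwa [Module.End.mul_apply, LinearMap.sub_apply, Module.End.one_apply,
          LinearMap.zero_apply] at this
      · intro i n
        obtain ⟨k, hk⟩ := hx i n
        refine ⟨k, ?_⟩
        rw [← hα] at hk
        have hcomm : (α (t i - algebraMap O 𝕋 (c i)) ^ k) (x - α ε x) =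
            (1 - α ε) ((α (t i - algebraMap O 𝕋 (c i)) ^ k) x) := by
          have h4 : α (t i - algebraMap O 𝕋 (c i)) ^ k * (1 - α ε) =
              (1 - α ε) * α (t i - algebraMap O 𝕋 (c i)) ^ k := by
            rw [← map_pow, ← map_one α, ← map_sub, ← map_mul, ← map_mul, mul_comm]
          have := LinearMap.congr_fun h4 x
          rwa [Module.End.mul_apply, Module.End.mul_apply, LinearMap.sub_apply,
            Module.End.one_apply] at this
        rw [hcomm]
        exact end_apply_mem_smul_top _ _ hk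
    exact ⟨x, (sub_eq_zero.mp hy0).symm⟩

/-- `O`-linear maps send `I • P` into `I • P'`. -/
theorem map_mem_smul_top {P' : Type*} [AddCommGroup P'] [Module O P'] (f : P →ₗ[O] P')
    (I : Ideal O) {x : P} (hx : x ∈ (I • ⊤ : Submodule O P)) :
    f x ∈ (I • ⊤ : Submodule O P') := by
  refine Submodule.smul_induction_on hx (fun r hr y _ => ?_) (fun a b ha hb => ?_)
  · rw [map_smul]
    exact Submodule.smul_mem_smul hr Submodule.mem_top
  · rw [map_add]
    exact add_mem ha hb

/-- an intertwining map intertwines the powers of `a - c`. -/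
theorem map_pow_sub_algebraMap_apply {R' : Type*} [CommRing R'] [Algebra O R'] {P' : Type*}
    [AddCommGroup P'] [Module R' P'] [Module O P'] [IsScalarTower O R' P'] (f : P →ₗ[O] P')
    (a : Module.End R P) (a' : Module.End R' P') (hf : ∀ x, f (a x) = a' (f x)) (c : O) (k : ℕ)
    (x : P) :
    f (((a - algebraMap O (Module.End R P) c) ^ k) x) =
      ((a' - algebraMap O (Module.End R' P') c) ^ k) (f x) := by
  induction k generalizing x with
  | zero => simp
  | succ k ih =>
    rw [pow_succ, pow_succ, Module.End.mul_apply, Module.End.mul_apply, ih, LinearMap.sub_apply,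
      LinearMap.sub_apply, Module.algebraMap_end_apply, Module.algebraMap_end_apply, map_sub, hf,
      map_smul]

/-- **functoriality of the `m`-part**: an `O`-linear map intertwining the operators `t i` and
`t' i` maps the `m`-part into the `m'`-part (same constants `c i`). -/
theorem map_mem_idemRange_of_intertwine {R' : Type*} [CommRing R'] [Algebra O R'] {P' : Type*}
    [AddCommGroup P'] [Module R' P'] [Module O P'] [IsScalarTower O R' P'] [Module.Finite O P']
    {𝕋' : Type*} [CommRing 𝕋'] [Algebra O 𝕋']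
    (α : 𝕋 →ₐ[O] Module.End R P) (m : Ideal 𝕋) [hm : m.IsMaximal]
    (α' : 𝕋' →ₐ[O] Module.End R' P') (m' : Ideal 𝕋') [hm' : m'.IsMaximal]
    {σ : Type*} (t : σ → 𝕋) (t' : σ → 𝕋') (c : σ → O)
    (hmgen : m = (maximalIdeal O).map (algebraMap O 𝕋) ⊔
      Ideal.span (Set.range fun i => t i - algebraMap O 𝕋 (c i)))
    (hmgen' : m' = (maximalIdeal O).map (algebraMap O 𝕋') ⊔
      Ideal.span (Set.range fun i => t' i - algebraMap O 𝕋' (c i)))
    (ε : 𝕋) (h2 : ∀ s : 𝕋, s ∉ m → ∃ s' : 𝕋, α (s * s') * α ε = α ε)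
    (h3 : ∃ s : 𝕋, s ∉ m ∧ α s * (1 - α ε) = 0)
    (ε' : 𝕋') (h2' : ∀ s : 𝕋', s ∉ m' → ∃ s' : 𝕋', α' (s * s') * α' ε' = α' ε')
    (h3' : ∃ s : 𝕋', s ∉ m' ∧ α' s * (1 - α' ε') = 0)
    (f : P →ₗ[O] P') (hf : ∀ i x, f (α (t i) x) = α' (t' i) (f x)) {x : P}
    (hx : x ∈ idemRange (α ε)) : f x ∈ idemRange (α' ε') := by
  rw [mem_idemRange_iff_forall_pow_mem α' m' t' c hmgen' ε' h2' h3']
  rw [mem_idemRange_iff_forall_pow_mem α m t c hmgen ε h2 h3] at hx
  intro i n
  obtain ⟨k, hk⟩ := hx i n
  refine ⟨k, ?_⟩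
  rw [← map_pow_sub_algebraMap_apply f (α (t i)) (α' (t' i)) (hf i) (c i) k x]
  exact map_mem_smul_top f _ hk

end Prim

end Fermat.Agent.RB
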