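/-
RB — helper3 — [TWMOD]-[T3], part 0: **topologically nilpotent operators on a vector**.

`TopNil s x` : the `O`-linear endomorphism `s` of `V` is topologically nilpotent on `x`, i.e.
`∀ n, ∃ k, s ^ k x ∈ 𝔪_O ^ n V`.  Closure properties (products and sums of commuting operators,
intertwining maps, vectors), the separation lemma `TopNil.eq_zero` (an operator which is
topologically nilpotent on `x` and invertible on the orbit of `x` kills... forces `x = 0`), and the
submodule `topNilSub s c` of the vectors on which every `s i - c i` is topologically nilpotent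
(the neutral form of an `m`-part, see `T2_helper3_Prim`).
-/
import Mathlib
import Fermat.Agent.RB.T2_helper3_Prim

set_option autoImplicit false
set_option linter.unusedSectionVars false
set_option linter.style.haveILetI false

namespace Fermat.Agent.RB

open IsLocalRing

section TopNil

variable {O : Type*} [CommRing O] [IsLocalRing O]
variable {V : Type*} [AddCommGroup V] [Module O V]
variable {V' : Type*} [AddCommGroup V'] [Module O V']

/-- `O`-linear maps send `I V` into `I V'`. -/
theorem linearMap_apply_mem_smul_top (f : V →ₗ[O] V') (I : Ideal O) {x : V}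
    (hx : x ∈ (I • ⊤ : Submodule O V)) : f x ∈ (I • ⊤ : Submodule O V') := by
  refine Submodule.smul_induction_on hx (fun r hr y _ => ?_) (fun a b ha hb => ?_)
  · rw [map_smul]
    exact Submodule.smul_mem_smul hr Submodule.mem_top
  · rw [map_add]
    exact add_mem ha hb

/-- **`s` is topologically nilpotent on `x`.** -/
def TopNil (s : Module.End O V) (x : V) : Prop :=
  ∀ n : ℕ, ∃ k : ℕ, (s ^ k) x ∈ (maximalIdeal O ^ n • ⊤ : Submodule O V)

variable {s r : Module.End O V} {x y : V}

theorem TopNil.exists_forall_ge (h : TopNil s x) (n : ℕ) :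
    ∃ k : ℕ, ∀ k' : ℕ, k ≤ k' → (s ^ k') x ∈ (maximalIdeal O ^ n • ⊤ : Submodule O V) := by
  obtain ⟨k, hk⟩ := h n
  refine ⟨k, fun k' hkk' => ?_⟩
  obtain ⟨j, rfl⟩ := Nat.exists_eq_add_of_le hkk'
  rw [add_comm, pow_add, Module.End.mul_apply]
  exact linearMap_apply_mem_smul_top (s ^ j) _ hk

theorem topNil_zero_vec (s : Module.End O V) : TopNil s (0 : V) := fun n =>
  ⟨0, by rw [map_zero]; exact Submodule.zero_mem _⟩

theorem TopNil.add_vec (hx : TopNil s x) (hy : TopNil s y) : TopNil s (x + y) := by
  intro n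
  obtain ⟨k₁, h₁⟩ := hx.exists_forall_ge n
  obtain ⟨k₂, h₂⟩ := hy.exists_forall_ge n
  refine ⟨max k₁ k₂, ?_⟩
  rw [map_add]
  exact add_mem (h₁ _ (le_max_left _ _)) (h₂ _ (le_max_right _ _))

theorem TopNil.smul_vec (c : O) (hx : TopNil s x) : TopNil s (c • x) := by
  intro n
  obtain ⟨k, hk⟩ := hx n
  refine ⟨k, ?_⟩
  rw [map_smul]
  exact Submodule.smul_mem _ c hk

theorem TopNil.neg_vec (hx : TopNil s x) : TopNil s (-x) := by
  have := hx.smul_vec (-1 : O)
  rwa [neg_one_smul] at this

theorem TopNil.sub_vec (hx : TopNil s x) (hy : TopNil s y) : TopNil s (x - y) := by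
  rw [sub_eq_add_neg]
  exact hx.add_vec hy.neg_vec

/-- (L4) `s` stays topologically nilpotent on `r x` when `r` commutes with `s`. -/
theorem TopNil.apply_of_commute (hsr : Commute s r) (h : TopNil s x) : TopNil s (r x) := by
  intro n
  obtain ⟨k, hk⟩ := h n
  refine ⟨k, ?_⟩
  have h1 : (s ^ k) (r x) = r ((s ^ k) x) := by
    rw [← Module.End.mul_apply, ← Module.End.mul_apply, (hsr.pow_left k).eq]
  rw [h1]
  exact linearMap_apply_mem_smul_top r _ hk

/-- (L1) -/
theorem TopNil.mul_left (hsr : Commute s r) (h : TopNil s x) : TopNil (r * s) x := by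
  intro n
  obtain ⟨k, hk⟩ := h n
  refine ⟨k, ?_⟩
  rw [(hsr.symm).mul_pow, Module.End.mul_apply]
  exact linearMap_apply_mem_smul_top (r ^ k) _ hk

theorem TopNil.mul_right (hsr : Commute s r) (h : TopNil s x) : TopNil (s * r) x := by
  rw [hsr.eq]
  exact h.mul_left hsr

/-- (L2) sums of commuting topologically nilpotent operators. -/
theorem TopNil.add (hsr : Commute s r) (hs : TopNil s x) (hr : TopNil r x) :
    TopNil (s + r) x := by
  intro n
  obtain ⟨k₁, h₁⟩ := hs.exists_forall_ge n
  obtain ⟨k₂, h₂⟩ := hr.exists_forall_ge n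
  refine ⟨k₁ + k₂, ?_⟩
  rw [hsr.add_pow, LinearMap.sum_apply]
  refine Submodule.sum_mem _ (fun j _ => ?_)
  have hterm : (s ^ j * r ^ (k₁ + k₂ - j) * ((Nat.choose (k₁ + k₂) j : ℕ) : Module.End O V)) x =
      ((Nat.choose (k₁ + k₂) j : ℕ) : O) • (s ^ j * r ^ (k₁ + k₂ - j)) x := by
    rw [Module.End.mul_apply, Module.End.natCast_apply, map_nsmul, Nat.cast_smul_eq_nsmul]
  rw [hterm]
  refine Submodule.smul_mem _ _ ?_
  by_cases hj : k₁ ≤ j
  · rw [((hsr.pow_left j).pow_right (k₁ + k₂ - j)).eq, Module.End.mul_apply]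
    exact linearMap_apply_mem_smul_top _ _ (h₁ j hj)
  · rw [Module.End.mul_apply]
    refine linearMap_apply_mem_smul_top _ _ (h₂ _ ?_)
    omega

/-- (L3) multiples of elements of `𝔪_O` are topologically nilpotent everywhere. -/
theorem topNil_algebraMap_mul {c : O} (hc : c ∈ maximalIdeal O) (r : Module.End O V) (x : V) :
    TopNil (algebraMap O (Module.End O V) c * r) x := by
  intro n
  refine ⟨n, ?_⟩
  have hcomm : Commute (algebraMap O (Module.End O V) c) r := Algebra.commutes c r
  rw [hcomm.mul_pow, ← map_pow, Module.End.mul_apply, Module.algebraMap_end_apply]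
  exact Submodule.smul_mem_smul (Ideal.pow_mem_pow hc n) Submodule.mem_top

theorem topNil_algebraMap {c : O} (hc : c ∈ maximalIdeal O) (x : V) :
    TopNil (algebraMap O (Module.End O V) c) x := by
  have := topNil_algebraMap_mul hc (1 : Module.End O V) x
  rwa [mul_one] at this

/-- (L5) intertwining maps preserve topological nilpotence. -/
theorem TopNil.map {s' : Module.End O V'} (f : V →ₗ[O] V') (hf : ∀ y, f (s y) = s' (f y))
    (h : TopNil s x) : TopNil s' (f x) := by
  intro n
  obtain ⟨k, hk⟩ := h n
  refine ⟨k, ?_⟩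
  have h1 : ∀ (j : ℕ) (y : V), (s' ^ j) (f y) = f ((s ^ j) y) := by
    intro j
    induction j with
    | zero => intro y; simp
    | succ j ih =>
      intro y
      rw [pow_succ, pow_succ, Module.End.mul_apply, Module.End.mul_apply, ← hf, ih]
  rw [h1]
  exact linearMap_apply_mem_smul_top f _ hk

/-- (L6) **separation**: if `s` is topologically nilpotent on `x` and `r s x = x` with `r`
commuting with `s`, then `x = 0`. -/
theorem TopNil.eq_zero [IsNoetherianRing O] [Module.Finite O V] (hsr : Commute r s)
    (h : TopNil s x) (hx : (r * s) x = x) : x = 0 := by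
  have hpow : ∀ k : ℕ, ((r * s) ^ k) x = x := by
    intro k
    induction k with
    | zero => simp
    | succ k ih => rw [pow_succ, Module.End.mul_apply, hx, ih]
  have hmem : ∀ n : ℕ, x ∈ (maximalIdeal O ^ n • ⊤ : Submodule O V) := by
    intro n
    obtain ⟨k, hk⟩ := h n
    have h1 := hpow k
    rw [hsr.mul_pow, Module.End.mul_apply] at h1
    rw [← h1]
    exact linearMap_apply_mem_smul_top _ _ hk
  have hbot : x ∈ (⨅ i : ℕ, maximalIdeal O ^ i • ⊤ : Submodule O V) := by
    rw [Submodule.mem_iInf]
    exact hmem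
  rw [Ideal.iInf_pow_smul_eq_bot_of_isLocalRing (maximalIdeal O)
    (Ideal.IsMaximal.ne_top (maximalIdeal.isMaximal O))] at hbot
  exact (Submodule.mem_bot O).mp hbot

/-- a vector of `𝔪_O ^ n V` for every `n` on which `1` is... : if the identity is topologically
nilpotent on `x` then `x = 0`. -/
theorem TopNil.eq_zero_of_one [IsNoetherianRing O] [Module.Finite O V]
    (h : TopNil (1 : Module.End O V) x) : x = 0 :=
  h.eq_zero (Commute.one_right 1) (by simp)

/-- **the submodule of the vectors on which all `s i - c i` are topologically nilpotent.** -/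
def topNilSub {σ : Type*} (s : σ → Module.End O V) (c : σ → O) : Submodule O V where
  carrier := {x | ∀ i, TopNil (s i - algebraMap O (Module.End O V) (c i)) x}
  add_mem' := fun hx hy i => (hx i).add_vec (hy i)
  zero_mem' := fun _ => topNil_zero_vec _
  smul_mem' := fun c _ hx i => (hx i).smul_vec c

theorem mem_topNilSub {σ : Type*} (s : σ → Module.End O V) (c : σ → O) (x : V) :
    x ∈ topNilSub s c ↔ ∀ i, TopNil (s i - algebraMap O (Module.End O V) (c i)) x := Iff.rfl

end TopNil

end Fermat.Agent.RB
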