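/-
RB — helper3 — [TWMOD]-[T3], part 1: **Hensel roots inside the `m`-part of a Hecke algebra**.

`O` complete noetherian local, `P` finite over `O`, `α : 𝕋 →ₐ[O] End_R P`, `m` a maximal ideal of
`𝕋`, `ε` an idempotent on whose image every `s ∉ m` is invertible (as in `exists_idempotent_end`).
For a monic `f ∈ 𝕋[X]` and `a₀ ∈ 𝕋` with `f(a₀) ∈ m`, `f'(a₀) ∉ m` there is `A ∈ 𝕋` with
`A - a₀ ∈ m` and `f(A) = 0` on `e P` (`exists_root_on_idemRange`).
Proof: the image `𝔸 = 𝕋 / (ker α + (1 - ε))` of `𝕋` in `End (e P)` is a finite local `O`-algebra,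
hence complete (Prelude) and henselian (Mathlib).
-/
import Mathlib
import Fermat.Agent.RB.T3_helper3_TopNil
import Fermat.Prelude.Thm_IsLocalRing_isAdicComplete_of_module_finite

set_option autoImplicit false
set_option linter.unusedSectionVars false
set_option linter.style.haveILetI false

namespace Fermat.Agent.RB

open IsLocalRing Polynomial

section Hensel

variable {O : Type*} [CommRing O] [IsLocalRing O] [IsNoetherianRing O]
  [IsAdicComplete (maximalIdeal O) O]
variable {R : Type*} [CommRing R] [Algebra O R]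
variable {P : Type*} [AddCommGroup P] [Module R P] [Module O P] [IsScalarTower O R P]
  [Module.Finite O P]
variable {𝕋 : Type*} [CommRing 𝕋] [Algebra O 𝕋]

/-- the ideal of the elements of `𝕋` killing `e P`. -/
theorem mem_ker_sup_span_iff (α : 𝕋 →ₐ[O] Module.End R P) (ε : 𝕋) (h1 : α ε * α ε = α ε) (t : 𝕋) :
    t ∈ RingHom.ker α ⊔ Ideal.span {1 - ε} ↔ α t * α ε = 0 := by
  constructor
  · intro ht
    obtain ⟨k, hk, r, hr, rfl⟩ := Submodule.mem_sup.mp ht
    obtain ⟨r', rfl⟩ := Ideal.mem_span_singleton'.mp hr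
    rw [RingHom.mem_ker] at hk
    rw [map_add, hk, zero_add, map_mul, map_sub, map_one, mul_assoc, sub_mul, one_mul, h1,
      sub_self, mul_zero]
  · intro ht
    have h2 : t = t * ε + t * (1 - ε) := by ring
    rw [h2]
    refine Ideal.add_mem _ (Ideal.mem_sup_left ?_)
      (Ideal.mem_sup_right (Ideal.mul_mem_left _ _ (Ideal.subset_span rfl)))
    rw [RingHom.mem_ker, map_mul]
    exact ht

/-- **Hensel's lemma on the `m`-part.** -/
theorem exists_root_on_idemRange (α : 𝕋 →ₐ[O] Module.End R P) (m : Ideal 𝕋) [hm : m.IsMaximal]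
    (ε : 𝕋) (h1 : α ε * α ε = α ε) (h2 : ∀ s : 𝕋, s ∉ m → ∃ s' : 𝕋, α (s * s') * α ε = α ε)
    (f : 𝕋[X]) (hf : f.Monic) (a₀ : 𝕋) (ha₀ : f.eval a₀ ∈ m) (hder : f.derivative.eval a₀ ∉ m) :
    ∃ A : 𝕋, A - a₀ ∈ m ∧ α (f.eval A) * α ε = 0 := by
  classical
  by_cases htriv : α ε = 0
  · exact ⟨a₀, by rw [sub_self]; exact m.zero_mem, by rw [htriv, mul_zero]⟩
  set J : Ideal 𝕋 := RingHom.ker α ⊔ Ideal.span {1 - ε} with hJ
  have hJmem : ∀ t : 𝕋, t ∈ J ↔ α t * α ε = 0 := mem_ker_sup_span_iff α ε h1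
  -- units of the quotient
  have hunit : ∀ s : 𝕋, s ∉ m → IsUnit (Ideal.Quotient.mk J s) := by
    intro s hs
    obtain ⟨s', hs'⟩ := h2 s hs
    have h3 : 1 - s * s' ∈ J := by
      rw [hJmem, map_sub, map_one, sub_mul, one_mul, hs', sub_self]
    refine IsUnit.of_mul_eq_one (Ideal.Quotient.mk J s') ?_
    rw [← map_mul, ← sub_eq_zero, ← map_one (Ideal.Quotient.mk J), ← map_sub,
      Ideal.Quotient.eq_zero_iff_mem]
    have := J.neg_mem h3
    rwa [neg_sub] at this
  have hJm : J ≤ m := by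
    intro s hs
    by_contra hsm
    obtain ⟨s', hs'⟩ := h2 s hsm
    apply htriv
    rw [← hs', mul_comm s s', map_mul, mul_assoc, (hJmem s).mp hs, mul_zero]
  have hone : (1 : 𝕋) ∉ J := fun h => hm.ne_top ((Ideal.eq_top_iff_one m).mpr (hJm h))
  haveI : Nontrivial (𝕋 ⧸ J) := Ideal.Quotient.nontrivial_iff.mpr
    (fun h => hone (h ▸ Submodule.mem_top))
  haveI hloc : IsLocalRing (𝕋 ⧸ J) := by
    refine IsLocalRing.of_isUnit_or_isUnit_one_sub_self (fun a => ?_)
    obtain ⟨s, rfl⟩ := Ideal.Quotient.mk_surjective a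
    by_cases hs : s ∈ m
    · right
      rw [← map_one (Ideal.Quotient.mk J), ← map_sub]
      refine hunit _ (fun h => ?_)
      apply hm.ne_top
      rw [Ideal.eq_top_iff_one]
      have := m.add_mem h hs
      rwa [sub_add_cancel] at this
    · exact Or.inl (hunit s hs)
  -- non units
  have hnonunit : ∀ s : 𝕋, s ∈ m → Ideal.Quotient.mk J s ∈ maximalIdeal (𝕋 ⧸ J) := by
    intro s hs
    rw [mem_maximalIdeal, mem_nonunits_iff]
    intro hu
    obtain ⟨b, hb⟩ := hu.exists_right_inv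
    obtain ⟨s', rfl⟩ := Ideal.Quotient.mk_surjective b
    rw [← map_mul, ← sub_eq_zero, ← map_one (Ideal.Quotient.mk J), ← map_sub,
      Ideal.Quotient.eq_zero_iff_mem] at hb
    apply hm.ne_top
    rw [Ideal.eq_top_iff_one]
    have := m.sub_mem (m.mul_mem_right s' hs) (hJm hb)
    rwa [sub_sub_cancel] at this
  have hmem_of : ∀ s : 𝕋, Ideal.Quotient.mk J s ∈ maximalIdeal (𝕋 ⧸ J) → s ∈ m := by
    intro s hs
    by_contra hsm
    rw [mem_maximalIdeal, mem_nonunits_iff] at hs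
    exact hs (hunit s hsm)
  -- finiteness
  haveI hfin0 : Module.Finite O (𝕋 ⧸ RingHom.ker α) := finite_quotient_ker α
  have hle : RingHom.ker α ≤ J := le_sup_left
  haveI hfin : Module.Finite O (𝕋 ⧸ J) :=
    Module.Finite.of_surjective (Ideal.Quotient.factorₐ O hle).toLinearMap
      (Ideal.Quotient.factor_surjective hle)
  haveI hlochom : IsLocalHom (algebraMap O (𝕋 ⧸ J)) := by
    refine ⟨fun c hc => ?_⟩
    by_contra hcu
    have hcm : c ∈ maximalIdeal O := (mem_maximalIdeal c).mpr hcu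
    have h3 : algebraMap O (𝕋 ⧸ J) c ∈ maximalIdeal (𝕋 ⧸ J) :=
      map_maximalIdeal_le_of_isMaximal O (maximalIdeal (𝕋 ⧸ J)) (Ideal.mem_map_of_mem _ hcm)
    rw [mem_maximalIdeal, mem_nonunits_iff] at h3
    exact h3 hc
  haveI hcomp : IsAdicComplete (maximalIdeal (𝕋 ⧸ J)) (𝕋 ⧸ J) :=
    IsLocalRing.isAdicComplete_of_module_finite (𝒪 := O)
  -- Hensel
  have hmonic : (f.map (Ideal.Quotient.mk J)).Monic := hf.map _
  have hev : (f.map (Ideal.Quotient.mk J)).eval (Ideal.Quotient.mk J a₀) ∈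
      maximalIdeal (𝕋 ⧸ J) := by
    rw [eval_map_apply]
    exact hnonunit _ ha₀
  have hdu : IsUnit (Ideal.Quotient.mk (maximalIdeal (𝕋 ⧸ J))
      ((f.map (Ideal.Quotient.mk J)).derivative.eval (Ideal.Quotient.mk J a₀))) := by
    rw [derivative_map, eval_map_apply]
    exact (hunit _ hder).map _
  obtain ⟨a, hroot, hcong⟩ := HenselianRing.is_henselian (I := maximalIdeal (𝕋 ⧸ J))
    (f.map (Ideal.Quotient.mk J)) hmonic (Ideal.Quotient.mk J a₀) hev hdu
  obtain ⟨A, rfl⟩ := Ideal.Quotient.mk_surjective a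
  refine ⟨A, hmem_of _ (by rw [map_sub]; exact hcong), ?_⟩
  rw [← hJmem, ← Ideal.Quotient.eq_zero_iff_mem, ← eval_map_apply]
  exact hroot

end Hensel

end Fermat.Agent.RB
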