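/-
RB — helper3 — [TWMOD]-[T3], part 2: **the matrix `(0, q; -1, T)` on `V × V`** (the action of `U_q`
on the image of the two degeneracy maps `(α_*, β_*)`), its Cayley–Hamilton identity, and the
consequence: if `Mat - a` is topologically nilpotent on `w = (w₁, w₂)` for a root `a` of
`X² - c X + q` modulo `𝔪_O`, then `T - c` is topologically nilpotent on `w₁` and `w₂`.
-/
import Mathlib
import Fermat.Agent.RB.T3_helper3_TopNil

set_option autoImplicit false
set_option linter.unusedSectionVars false
set_option linter.style.haveILetI false

namespace Fermat.Agent.RB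

open IsLocalRing

section Mat

variable {O : Type*} [CommRing O]
variable {V : Type*} [AddCommGroup V] [Module O V]

/-- the matrix `(0, q; -1, T)` : `(w₁, w₂) ↦ (q w₂, T w₂ - w₁)`. -/
def matOp (T : Module.End O V) (q : O) : Module.End O (V × V) :=
  LinearMap.prod (q • LinearMap.snd O V V) (T ∘ₗ LinearMap.snd O V V - LinearMap.fst O V V)

@[simp] theorem matOp_apply (T : Module.End O V) (q : O) (w : V × V) :
    matOp T q w = (q • w.2, T w.2 - w.1) := rfl

/-- the diagonal operator `(w₁, w₂) ↦ (s w₁, s w₂)`. -/
def diagOp (s : Module.End O V) : Module.End O (V × V) := LinearMap.prodMap s s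

@[simp] theorem diagOp_apply (s : Module.End O V) (w : V × V) : diagOp s w = (s w.1, s w.2) := rfl

theorem diagOp_sub_algebraMap (s : Module.End O V) (c : O) :
    diagOp (s - algebraMap O (Module.End O V) c) =
      diagOp s - algebraMap O (Module.End O (V × V)) c := by
  ext w <;> simp [Module.algebraMap_end_apply]

theorem commute_diagOp_matOp {s T : Module.End O V} (h : Commute s T) (q : O) :
    Commute (diagOp s) (matOp T q) := by
  have h' : ∀ y, s (T y) = T (s y) := fun y => by
    rw [← Module.End.mul_apply, ← Module.End.mul_apply, h.eq]
  apply LinearMap.ext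
  intro w
  rw [Module.End.mul_apply, Module.End.mul_apply, matOp_apply, diagOp_apply, diagOp_apply,
    matOp_apply, map_smul, map_sub, h']

/-- **Cayley–Hamilton** for `(0, q; -1, T)`. -/
theorem matOp_mul_self (T : Module.End O V) (q : O) :
    matOp T q * matOp T q =
      diagOp T * matOp T q - algebraMap O (Module.End O (V × V)) q := by
  apply LinearMap.ext
  intro w
  rw [Module.End.mul_apply, LinearMap.sub_apply, Module.End.mul_apply, Module.algebraMap_end_apply,
    matOp_apply, matOp_apply, diagOp_apply]
  ext
  · simp only [Prod.fst_sub, Prod.smul_fst, map_smul]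
    rw [smul_sub]
  · simp only [Prod.snd_sub, Prod.smul_snd]

end Mat

section MatTopNil

variable {O : Type*} [CommRing O] [IsLocalRing O]
variable {V : Type*} [AddCommGroup V] [Module O V]

/-- if `Mat - a` is topologically nilpotent on `w`, `q` is a unit and `a² - c a + q ∈ 𝔪_O`, then
`T - c` is topologically nilpotent on both components of `w`. -/
theorem topNil_diagOp_of_topNil_matOp (T : Module.End O V) {q a c : O} (hq : IsUnit q)
    (ha : a ^ 2 - c * a + q ∈ maximalIdeal O) {w : V × V}
    (hw : TopNil (matOp T q - algebraMap O (Module.End O (V × V)) a) w) :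
    TopNil (T - algebraMap O (Module.End O V) c) w.1 ∧
      TopNil (T - algebraMap O (Module.End O V) c) w.2 := by
  set M : Module.End O (V × V) := matOp T q with hM
  set D : Module.End O (V × V) := diagOp T with hD
  set aE : Module.End O (V × V) := algebraMap O _ a with haE
  set cE : Module.End O (V × V) := algebraMap O _ c with hcE
  set qE : Module.End O (V × V) := algebraMap O _ q with hqE
  have hDM : Commute D M := commute_diagOp_matOp (Commute.refl T) q
  have hCH : M * M = D * M - qE := matOp_mul_self T q
  have haM : Commute aE M := Algebra.commutes a M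
  have hcM : Commute cE M := Algebra.commutes c M
  have haD : Commute aE D := Algebra.commutes a D
  have hcD : Commute cE D := Algebra.commutes c D
  -- `M (D - c) = δ₀ + (M - a)(M + a - c)`
  have hkey : M * (D - cE) =
      algebraMap O (Module.End O (V × V)) (a ^ 2 - c * a + q) + (M - aE) * (M + aE - cE) := by
    have h1 : M * (D - cE) = M * M + qE - cE * M := by
      rw [hCH, mul_sub, hDM.eq.symm, hcM.eq]
      abel
    rw [h1, map_add, map_sub, map_pow, map_mul]
    have h2 : (M - aE) * (M + aE - cE) = M * M - cE * M - aE ^ 2 + cE * aE := by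
      rw [sub_mul, mul_sub, mul_sub, mul_add, mul_add, haM.eq, hcM.eq.symm, pow_two,
        (Algebra.commutes a cE : aE * cE = cE * aE)]
      abel
    rw [h2]
    abel
  have h1 : TopNil (M * (D - cE)) w := by
    rw [hkey]
    refine TopNil.add (Algebra.commutes _ _) (topNil_algebraMap ha w) ?_
    refine hw.mul_right ?_
    exact ((Commute.refl M).add_right haM.symm).sub_right hcM.symm |>.sub_left
      ((haM.add_right (Commute.refl aE)).sub_right (Algebra.commutes a cE))
  -- the inverse of `M`
  obtain ⟨q', hq'⟩ := hq.exists_left_inv
  set R : Module.End O (V × V) := algebraMap O _ q' * (D - M) with hR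
  have hRM : R * M = 1 := by
    rw [hR, mul_assoc, sub_mul, hCH, sub_sub_cancel, hqE, ← map_mul, hq', map_one]
  have hcomm : Commute (M * (D - cE)) R := by
    have h2 : Commute M R := by
      have h4 : Commute M (algebraMap O (Module.End O (V × V)) q') :=
        (Algebra.commutes q' M).symm
      exact h4.mul_right (hDM.symm.sub_right (Commute.refl M))
    have h3 : Commute (D - cE) R := by
      have h4 : Commute (D - cE) (algebraMap O (Module.End O (V × V)) q') :=
        (Algebra.commutes q' (D - cE)).symm
      refine Commute.mul_right h4 ?_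
      refine Commute.sub_right ?_ ?_
      · exact (Commute.refl D).sub_left hcD
      · exact hDM.sub_left hcM
    exact h2.mul_left h3
  have h2 : TopNil (D - cE) w := by
    have := h1.mul_left hcomm
    rwa [← mul_assoc, hRM, one_mul] at this
  rw [hD, hcE, ← diagOp_sub_algebraMap] at h2
  constructor
  · exact h2.map (LinearMap.fst O V V) (fun y => rfl)
  · exact h2.map (LinearMap.snd O V V) (fun y => rfl)

end MatTopNil

end Fermat.Agent.RB
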