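/-
RB — helper3 — [TWMOD]-[T3], part 3: **the abstract level-lowering isomorphism**.

`V` (level `N`) carries a commutative Hecke algebra `α : 𝕋 →ₐ[O] End_O V`, generated by `t i`
(`i : σ`), with `T_q = α (t i₀)`; `V'` (level `N q`) carries operators `t' i` with `U_q = t' i₀`;
`T3Data` records the formal relations between the four degeneracy maps
`As = α_*`, `Bs = β_*`, `Au = α^*`, `Bu = β^*` and these operators.
Let `m = (𝔪_O, t i - c i)` and let `a ∈ O` be a simple root modulo `𝔪_O` of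
`X² - c i₀ X + q` with `a² - 1` a unit.  Then `α_*` induces an isomorphism

`{x' ∈ V' | t' i - c i (i ≠ i₀) and U_q - a topologically nilpotent on x'}  ≃  e_m V`

(`T3Data.equiv`; `T3Data.as_mem`, `T3Data.eq_zero_of_as_eq_zero`, `T3Data.exists_as_eq`).
-/
import Mathlib
import Fermat.Agent.RB.T3_helper3_Hensel
import Fermat.Agent.RB.T3_helper3_Mat

set_option autoImplicit false
set_option linter.unusedSectionVars false
set_option linter.style.haveILetI false

namespace Fermat.Agent.RB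

open IsLocalRing Polynomial

section T3Abs

variable {O : Type*} [CommRing O] [IsLocalRing O] [IsNoetherianRing O]
  [IsAdicComplete (maximalIdeal O) O]
variable {V : Type*} [AddCommGroup V] [Module O V] [Module.Finite O V]
variable {V' : Type*} [AddCommGroup V'] [Module O V'] [Module.Finite O V']
variable {𝕋 : Type*} [CommRing 𝕋] [Algebra O 𝕋]

/-- **the formal relations between level `N` (`V`, with its Hecke algebra) and level `N q` (`V'`)**:
`T_q = α (t i₀)`, `U_q = t' i₀`. -/
structure T3Data (α : 𝕋 →ₐ[O] Module.End O V) {σ : Type*} (t : σ → 𝕋) (i₀ : σ) (q : O)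
    (t' : σ → Module.End O V') where
  /-- `α_*` -/
  As : V' →ₗ[O] V
  /-- `β_*` -/
  Bs : V' →ₗ[O] V
  /-- `α^*` -/
  Au : V →ₗ[O] V'
  /-- `β^*` -/
  Bu : V →ₗ[O] V'
  hAA : ∀ y, As (Au y) = (q + 1) • y
  hAB : ∀ y, As (Bu y) = α (t i₀) y
  hAU : ∀ x, As (t' i₀ x) = q • Bs x
  hBU : ∀ x, Bs (t' i₀ x) = α (t i₀) (Bs x) - As x
  hUA : ∀ y, t' i₀ (Au y) = Au (α (t i₀) y) - Bu y
  hUB : ∀ y, t' i₀ (Bu y) = q • Au y
  hnew : ∀ x, As x = 0 → Bs x = 0 → t' i₀ (t' i₀ x) = x
  hAs : ∀ i, i ≠ i₀ → ∀ x, As (t' i x) = α (t i) (As x)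
  hBs : ∀ i, i ≠ i₀ → ∀ x, Bs (t' i x) = α (t i) (Bs x)
  hAu : ∀ i, i ≠ i₀ → ∀ y, t' i (Au y) = Au (α (t i) y)
  hBu : ∀ i, i ≠ i₀ → ∀ y, t' i (Bu y) = Bu (α (t i) y)

variable {α : 𝕋 →ₐ[O] Module.End O V} {σ : Type*} {t : σ → 𝕋} {i₀ : σ} {q : O}
  {t' : σ → Module.End O V'}

theorem alpha_comm (α : 𝕋 →ₐ[O] Module.End O V) (s s' : 𝕋) (y : V) :
    α s (α s' y) = α s' (α s y) := by
  rw [← Module.End.mul_apply, ← Module.End.mul_apply, ← map_mul, ← map_mul, mul_comm]

theorem alpha_commute (α : 𝕋 →ₐ[O] Module.End O V) (s s' : 𝕋) : Commute (α s) (α s') := by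
  show α s * α s' = α s' * α s
  rw [← map_mul, ← map_mul, mul_comm]

theorem alpha_apply_mem_idemRange (α : 𝕋 →ₐ[O] Module.End O V) (ε s : 𝕋) {y : V}
    (hy : y ∈ idemRange (α ε)) : α s y ∈ idemRange (α ε) := by
  obtain ⟨z, rfl⟩ := hy
  exact ⟨α s z, alpha_comm α ε s z⟩

theorem alpha_apply_eq_zero (α : 𝕋 →ₐ[O] Module.End O V) (ε : 𝕋) (h1 : α ε * α ε = α ε) (s : 𝕋)
    (hs : α s * α ε = 0) {y : V} (hy : y ∈ idemRange (α ε)) : α s y = 0 := by
  rw [← apply_eq_of_mem_idemRange (α ε) h1 hy, ← Module.End.mul_apply, hs, LinearMap.zero_apply]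

/-- **the Hensel root `A_q ≡ a` of `X² - T_q X + q` on `e V`.** -/
theorem exists_hensel_root (α : 𝕋 →ₐ[O] Module.End O V) (m : Ideal 𝕋) [hm : m.IsMaximal]
    (hmO : (maximalIdeal O).map (algebraMap O 𝕋) ≤ m)
    (ε : 𝕋) (h1 : α ε * α ε = α ε) (h2 : ∀ s : 𝕋, s ∉ m → ∃ s' : 𝕋, α (s * s') * α ε = α ε)
    (τ : 𝕋) (cT a q : O) (hτ : τ - algebraMap O 𝕋 cT ∈ m)
    (ha : a ^ 2 - cT * a + q ∈ maximalIdeal O) (hsimple : IsUnit (2 * a - cT)) :
    ∃ A : 𝕋, A - algebraMap O 𝕋 a ∈ m ∧
      α (A * A - τ * A + algebraMap O 𝕋 q) * α ε = 0 := by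
  have hunit_notMem : ∀ u : O, IsUnit u → algebraMap O 𝕋 u ∉ m := by
    intro u hu h
    apply hm.ne_top
    rw [Ideal.eq_top_iff_one]
    obtain ⟨u', hu'⟩ := hu.exists_left_inv
    have := m.mul_mem_left (algebraMap O 𝕋 u') h
    rwa [← map_mul, hu', map_one] at this
  set f : 𝕋[X] := X ^ 2 + (C (-τ) * X + C (algebraMap O 𝕋 q)) with hf
  have hmonic : f.Monic :=
    monic_X_pow_add (lt_of_le_of_lt (degree_linear_le) (by norm_num))
  have hev : ∀ A : 𝕋, f.eval A = A * A - τ * A + algebraMap O 𝕋 q := by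
    intro A
    simp only [hf, eval_add, eval_pow, eval_X, eval_mul, eval_C]
    ring
  have hder : ∀ A : 𝕋, f.derivative.eval A = 2 * A - τ := by
    intro A
    simp only [hf, derivative_add, derivative_X_pow, derivative_mul, derivative_C, derivative_X,
      eval_add, eval_mul, eval_C, eval_X, eval_pow, zero_mul, zero_add, mul_one, Nat.cast_ofNat,
      add_zero]
    ring
  have h3 : f.eval (algebraMap O 𝕋 a) ∈ m := by
    rw [hev]
    have h4 : algebraMap O 𝕋 a * algebraMap O 𝕋 a - τ * algebraMap O 𝕋 a + algebraMap O 𝕋 q =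
        algebraMap O 𝕋 (a ^ 2 - cT * a + q) - (τ - algebraMap O 𝕋 cT) * algebraMap O 𝕋 a := by
      rw [map_add, map_sub, map_pow, map_mul]
      ring
    rw [h4]
    exact m.sub_mem (hmO (Ideal.mem_map_of_mem _ ha)) (m.mul_mem_right _ hτ)
  have h5 : f.derivative.eval (algebraMap O 𝕋 a) ∉ m := by
    rw [hder]
    intro h
    have h6 : (2 : 𝕋) * algebraMap O 𝕋 a - τ =
        algebraMap O 𝕋 (2 * a - cT) - (τ - algebraMap O 𝕋 cT) := by
      rw [map_sub, map_mul, map_ofNat]
      ring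
    rw [h6] at h
    have := m.add_mem h hτ
    rw [sub_add_cancel] at this
    exact hunit_notMem _ hsimple this
  obtain ⟨A, hA1, hA2⟩ := exists_root_on_idemRange α m ε h1 h2 f hmonic _ h3 h5
  exact ⟨A, hA1, by rw [← hev]; exact hA2⟩

/-- the neutral description of `e V` in terms of `TopNil`. -/
theorem mem_idemRange_iff_topNil (α : 𝕋 →ₐ[O] Module.End O V) (m : Ideal 𝕋) [hm : m.IsMaximal]
    (t : σ → 𝕋) (c : σ → O)
    (hmgen : m = (maximalIdeal O).map (algebraMap O 𝕋) ⊔
      Ideal.span (Set.range fun i => t i - algebraMap O 𝕋 (c i)))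
    (ε : 𝕋) (h2 : ∀ s : 𝕋, s ∉ m → ∃ s' : 𝕋, α (s * s') * α ε = α ε)
    (h3 : ∃ s : 𝕋, s ∉ m ∧ α s * (1 - α ε) = 0) (y : V) :
    y ∈ idemRange (α ε) ↔ ∀ i, TopNil (α (t i) - algebraMap O (Module.End O V) (c i)) y :=
  mem_idemRange_iff_forall_pow_mem α m t c hmgen ε h2 h3 y

section Main

variable (D : T3Data α t i₀ q t') (m : Ideal 𝕋) [hm : m.IsMaximal] (c c' : σ → O)
  (hmgen : m = (maximalIdeal O).map (algebraMap O 𝕋) ⊔
      Ideal.span (Set.range fun i => t i - algebraMap O 𝕋 (c i)))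
  (ε : 𝕋) (h1 : α ε * α ε = α ε) (h2 : ∀ s : 𝕋, s ∉ m → ∃ s' : 𝕋, α (s * s') * α ε = α ε)
  (h3 : ∃ s : 𝕋, s ∉ m ∧ α s * (1 - α ε) = 0)
  (hc' : ∀ i, i ≠ i₀ → c' i = c i) (hq : IsUnit q)
  (ha : c' i₀ ^ 2 - c i₀ * c' i₀ + q ∈ maximalIdeal O)

include hc' hq ha in
/-- **`α_*` and `β_*` map the `(m, U_q - a)`-part of level `N q` into the `m`-part of level `N`**
(neutral form). -/
theorem T3Data.as_bs_topNil {x : V'} (hx : x ∈ topNilSub t' c') :
    (∀ i, TopNil (α (t i) - algebraMap O (Module.End O V) (c i)) (D.As x)) ∧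
      (∀ i, TopNil (α (t i) - algebraMap O (Module.End O V) (c i)) (D.Bs x)) := by
  classical
  rw [mem_topNilSub] at hx
  -- the index `i₀`
  set J : V' →ₗ[O] V × V := D.As.prod D.Bs with hJ
  have hJU : ∀ y, J ((t' i₀ - algebraMap O (Module.End O V') (c' i₀)) y) =
      (matOp (α (t i₀)) q - algebraMap O (Module.End O (V × V)) (c' i₀)) (J y) := by
    intro y
    rw [LinearMap.sub_apply, LinearMap.sub_apply, Module.algebraMap_end_apply,
      Module.algebraMap_end_apply, map_sub, map_smul, matOp_apply]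
    congr 1
    show (D.As (t' i₀ y), D.Bs (t' i₀ y)) = _
    rw [D.hAU, D.hBU]
    rfl
  have h0 := topNil_diagOp_of_topNil_matOp (α (t i₀)) hq ha ((hx i₀).map J hJU)
  have hne : ∀ i, i ≠ i₀ → ∀ (F : V' →ₗ[O] V), (∀ x, F (t' i x) = α (t i) (F x)) →
      TopNil (α (t i) - algebraMap O (Module.End O V) (c i)) (F x) := by
    intro i hi F hF
    refine (hx i).map F (fun y => ?_)
    rw [LinearMap.sub_apply, LinearMap.sub_apply, Module.algebraMap_end_apply,
      Module.algebraMap_end_apply, map_sub, map_smul, hF, hc' i hi]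
  constructor
  · intro i
    by_cases hi : i = i₀
    · subst hi
      exact h0.1
    · exact hne i hi D.As (D.hAs i hi)
  · intro i
    by_cases hi : i = i₀
    · subst hi
      exact h0.2
    · exact hne i hi D.Bs (D.hBs i hi)

include hmgen h2 h3 hc' hq ha in
/-- **`α_*` and `β_*` map the `(m, U_q - a)`-part of level `N q` into the `m`-part of level `N`.** -/
theorem T3Data.as_bs_mem {x : V'} (hx : x ∈ topNilSub t' c') :
    D.As x ∈ idemRange (α ε) ∧ D.Bs x ∈ idemRange (α ε) := by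
  rw [mem_idemRange_iff_topNil α m t c hmgen ε h2 h3, mem_idemRange_iff_topNil α m t c hmgen ε h2 h3]
  exact D.as_bs_topNil c c' hc' hq ha hx

/-- **the `q`-new part contains no `(U_q - a)`-primary vector** (`a² - 1` a unit). -/
theorem T3Data.eq_zero_of_as_bs_eq_zero (D : T3Data α t i₀ q t') {a : O} (ha1 : IsUnit (a ^ 2 - 1))
    {x : V'} (hx : TopNil (t' i₀ - algebraMap O (Module.End O V') a) x)
    (hA : D.As x = 0) (hB : D.Bs x = 0) : x = 0 := by
  have hUU : t' i₀ (t' i₀ x) = x := D.hnew x hA hB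
  obtain ⟨u, hu⟩ := ha1.exists_left_inv
  set aE : Module.End O V' := algebraMap O _ a with haE
  have haU : Commute aE (t' i₀) := Algebra.commutes a _
  refine hx.eq_zero (r := algebraMap O (Module.End O V') (-u) * (t' i₀ + aE)) ?_ ?_
  · refine Commute.mul_left (Algebra.commutes _ _) ?_
    exact ((Commute.refl _).add_left haU).sub_right
      ((haU.symm).add_left (Commute.refl aE))
  · have h14 : (t' i₀ + aE) * (t' i₀ - aE) = t' i₀ * t' i₀ - aE * aE := by
      rw [add_mul, mul_sub, mul_sub, haU.eq]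
      abel
    rw [mul_assoc, h14, Module.End.mul_apply, LinearMap.sub_apply, Module.End.mul_apply,
      Module.End.mul_apply, hUU, Module.algebraMap_end_apply, haE, Module.algebraMap_end_apply,
      Module.algebraMap_end_apply, smul_smul]
    have h15 : x - (a * a) • x = (-(a ^ 2 - 1)) • x := by
      rw [neg_smul, sub_smul, one_smul, pow_two]
      abel
    rw [h15, smul_smul]
    have h16 : -u * -(a ^ 2 - 1) = 1 := by
      rw [neg_mul_neg]
      exact hu
    rw [h16, one_smul]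

/-- the quadratic relation of the Hensel root on `e V`. -/
theorem root_apply_eq (α : 𝕋 →ₐ[O] Module.End O V) (ε : 𝕋) (h1 : α ε * α ε = α ε) (τ A : 𝕋) (q : O)
    (hA : α (A * A - τ * A + algebraMap O 𝕋 q) * α ε = 0) {w : V} (hw : w ∈ idemRange (α ε)) :
    α τ (α A w) - q • w = α A (α A w) := by
  have h := alpha_apply_eq_zero α ε h1 _ hA hw
  rw [map_add, map_sub, map_mul, map_mul, AlgHom.commutes, LinearMap.add_apply,
    LinearMap.sub_apply, Module.End.mul_apply, Module.End.mul_apply,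
    Module.algebraMap_end_apply] at h
  rw [sub_add, sub_eq_zero] at h
  exact h.symm

include hmgen h1 h2 h3 hc' hq ha in
/-- **`α_*` is injective on the `(m, U_q - a)`-part.** -/
theorem T3Data.eq_zero_of_as_eq_zero (ha1 : IsUnit (c' i₀ ^ 2 - 1))
    (hsimple : IsUnit (2 * c' i₀ - c i₀)) {x : V'} (hx : x ∈ topNilSub t' c')
    (h0 : D.As x = 0) : x = 0 := by
  classical
  obtain ⟨-, hB⟩ := D.as_bs_mem m c c' hmgen ε h2 h3 hc' hq ha hx
  have hmO : (maximalIdeal O).map (algebraMap O 𝕋) ≤ m := by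
    rw [hmgen]
    exact le_sup_left
  have hτ : t i₀ - algebraMap O 𝕋 (c i₀) ∈ m := by
    rw [hmgen]
    exact Ideal.mem_sup_right (Ideal.subset_span ⟨i₀, rfl⟩)
  have hunit_notMem : ∀ u : O, IsUnit u → algebraMap O 𝕋 u ∉ m := by
    intro u hu h
    apply hm.ne_top
    rw [Ideal.eq_top_iff_one]
    obtain ⟨u', hu'⟩ := hu.exists_left_inv
    have := m.mul_mem_left (algebraMap O 𝕋 u') h
    rwa [← map_mul, hu', map_one] at this
  obtain ⟨A, hAm, hAroot⟩ := exists_hensel_root α m hmO ε h1 h2 (t i₀) (c i₀) (c' i₀) q hτ ha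
    hsimple
  rw [mem_topNilSub] at hx
  set a : O := c' i₀ with ha_def
  set v2 : V := D.Bs x with hv2
  have hev2 : α ε v2 = v2 := apply_eq_of_mem_idemRange (α ε) h1 hB
  -- the eigenvector map
  set g : V →ₗ[O] V × V := LinearMap.prod (q • α ε) (α (t i₀ - A) ∘ₗ α ε) with hg
  have hg_apply : ∀ z, g z = (q • α ε z, α (t i₀ - A) (α ε z)) := fun z => rfl
  have hgM : ∀ z, matOp (α (t i₀)) q (g z) = g (α (t i₀ - A) z) := by
    intro z
    rw [hg_apply, hg_apply, matOp_apply]
    have hw : α ε z ∈ idemRange (α ε) := ⟨z, rfl⟩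
    have h4 := root_apply_eq α ε h1 (t i₀) A q hAroot hw
    ext
    · show q • α (t i₀ - A) (α ε z) = q • α ε (α (t i₀ - A) z)
      rw [alpha_comm α ε (t i₀ - A) z]
    · show α (t i₀) (α (t i₀ - A) (α ε z)) - q • α ε z =
        α (t i₀ - A) (α ε (α (t i₀ - A) z))
      rw [alpha_comm α ε (t i₀ - A) z]
      set w := α ε z with hw_def
      rw [map_sub, LinearMap.sub_apply, LinearMap.sub_apply, map_sub, map_sub,
        alpha_comm α A (t i₀) w, ← h4]
      abel
  have hgMa : ∀ z, (matOp (α (t i₀)) q - algebraMap O (Module.End O (V × V)) a) (g z) =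
      g ((α (t i₀ - A) - algebraMap O (Module.End O V) a) z) := by
    intro z
    rw [LinearMap.sub_apply, LinearMap.sub_apply, Module.algebraMap_end_apply,
      Module.algebraMap_end_apply, map_sub, map_smul, hgM]
  have hgpow : ∀ (k : ℕ) (z : V), ((matOp (α (t i₀)) q - algebraMap O (Module.End O (V × V)) a) ^ k) (g z) =
      g (((α (t i₀ - A) - algebraMap O (Module.End O V) a) ^ k) z) := by
    intro k
    induction k with
    | zero => intro z; simp
    | succ k ih =>
      intro z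
      rw [pow_succ, pow_succ, Module.End.mul_apply, Module.End.mul_apply, hgMa, ih]
  -- `J x = (0, v2)`
  set J : V' →ₗ[O] V × V := D.As.prod D.Bs with hJ
  have hJx : J x = (0, v2) := by
    show (D.As x, D.Bs x) = _
    rw [h0]
  have hJU : ∀ y, J ((t' i₀ - algebraMap O (Module.End O V') a) y) =
      (matOp (α (t i₀)) q - algebraMap O (Module.End O (V × V)) a) (J y) := by
    intro y
    rw [LinearMap.sub_apply, LinearMap.sub_apply, Module.algebraMap_end_apply,
      Module.algebraMap_end_apply, map_sub, map_smul, matOp_apply]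
    congr 1
    show (D.As (t' i₀ y), D.Bs (t' i₀ y)) = _
    rw [D.hAU, D.hBU]
    rfl
  have hJtop : TopNil (matOp (α (t i₀)) q - algebraMap O (Module.End O (V × V)) a) (J x) :=
    (hx i₀).map J hJU
  -- `(Mat - A_q)(J x) = g v2`
  have hu' : (matOp (α (t i₀)) q - diagOp (α A)) (J x) = g v2 := by
    rw [hJx, LinearMap.sub_apply, matOp_apply, diagOp_apply, hg_apply, hev2]
    ext
    · show q • v2 - α A 0 = q • v2
      rw [map_zero, sub_zero]
    · show α (t i₀) v2 - 0 - α A v2 = α (t i₀ - A) v2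
      rw [sub_zero, map_sub, LinearMap.sub_apply]
  have hcomm1 : Commute (matOp (α (t i₀)) q - algebraMap O (Module.End O (V × V)) a)
      (matOp (α (t i₀)) q - diagOp (α A)) := by
    have h5 : Commute (matOp (α (t i₀)) q) (diagOp (α A)) :=
      (commute_diagOp_matOp (alpha_commute α A (t i₀)) q).symm
    have h6 : Commute (algebraMap O (Module.End O (V × V)) a) (matOp (α (t i₀)) q) := Algebra.commutes _ _
    have h7 : Commute (algebraMap O (Module.End O (V × V)) a) (diagOp (α A)) :=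
      Algebra.commutes _ _
    exact ((Commute.refl _).sub_right h5).sub_left (h6.sub_right h7)
  have hgtop : TopNil (matOp (α (t i₀)) q - algebraMap O (Module.End O (V × V)) a) (g v2) := by
    rw [← hu']
    exact hJtop.apply_of_commute hcomm1
  -- hence `B_q - a` is topologically nilpotent on `v2`
  obtain ⟨q', hq'⟩ := hq.exists_left_inv
  have hpow_alpha : ∀ k : ℕ, (α (t i₀ - A) - algebraMap O (Module.End O V) a) ^ k =
      α ((t i₀ - A - algebraMap O 𝕋 a) ^ k) := by
    intro k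
    rw [map_pow, map_sub _ (t i₀ - A) (algebraMap O 𝕋 a), AlgHom.commutes]
  have hBtop : TopNil (α (t i₀ - A) - algebraMap O (Module.End O V) a) v2 := by
    intro n
    obtain ⟨k, hk⟩ := hgtop n
    refine ⟨k, ?_⟩
    rw [hgpow, hg_apply] at hk
    have h8 := linearMap_apply_mem_smul_top (LinearMap.fst O V V) _ hk
    have h9 : (LinearMap.fst O V V)
        (q • α ε (((α (t i₀ - A) - algebraMap O (Module.End O V) a) ^ k) v2),
          α (t i₀ - A) (α ε (((α (t i₀ - A) - algebraMap O (Module.End O V) a) ^ k) v2))) =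
        q • ((α (t i₀ - A) - algebraMap O (Module.End O V) a) ^ k) v2 := by
      show q • α ε (((α (t i₀ - A) - algebraMap O (Module.End O V) a) ^ k) v2) = _
      rw [hpow_alpha, alpha_comm α ε _ v2, hev2]
    rw [h9] at h8
    have h10 := Submodule.smul_mem _ q' h8
    rwa [smul_smul, hq', one_smul] at h10
  -- `B_q - a` is invertible on `e V`
  have hs : t i₀ - A - algebraMap O 𝕋 a ∉ m := by
    intro h
    have h11 : algebraMap O 𝕋 (2 * a - c i₀) =
        (t i₀ - algebraMap O 𝕋 (c i₀)) - (A - algebraMap O 𝕋 a) - (t i₀ - A - algebraMap O 𝕋 a) := by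
      rw [map_sub, map_mul, map_ofNat]
      ring
    apply hunit_notMem _ hsimple
    rw [h11]
    exact m.sub_mem (m.sub_mem hτ hAm) h
  obtain ⟨s', hs'⟩ := h2 _ hs
  have hv2 : v2 = 0 := by
    refine hBtop.eq_zero (r := α s') ?_ ?_
    · have := alpha_commute α s' (t i₀ - A - algebraMap O 𝕋 a)
      rwa [map_sub _ (t i₀ - A), AlgHom.commutes] at this
    · have h12 : α s' * (α (t i₀ - A) - algebraMap O (Module.End O V) a) =
          α ((t i₀ - A - algebraMap O 𝕋 a) * s') := by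
        rw [mul_comm (t i₀ - A - algebraMap O 𝕋 a) s', map_mul,
          map_sub _ (t i₀ - A) (algebraMap O 𝕋 a), AlgHom.commutes]
      rw [h12]
      have h13 := LinearMap.congr_fun hs' v2
      rwa [Module.End.mul_apply, hev2] at h13
  -- the new part
  exact D.eq_zero_of_as_bs_eq_zero ha1 (hx i₀) h0 hv2

include hmgen h1 h2 h3 hc' hq ha in
/-- **`α_*` maps the `(m, U_q - a)`-part ONTO the `m`-part.** -/
theorem T3Data.exists_as_eq (ha1 : IsUnit (c' i₀ ^ 2 - 1))
    (hsimple : IsUnit (2 * c' i₀ - c i₀)) {y : V} (hy : y ∈ idemRange (α ε)) :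
    ∃ x : V', x ∈ topNilSub t' c' ∧ D.As x = y := by
  classical
  have hmO : (maximalIdeal O).map (algebraMap O 𝕋) ≤ m := by
    rw [hmgen]
    exact le_sup_left
  have hτ : t i₀ - algebraMap O 𝕋 (c i₀) ∈ m := by
    rw [hmgen]
    exact Ideal.mem_sup_right (Ideal.subset_span ⟨i₀, rfl⟩)
  have hunit_notMem : ∀ u : O, IsUnit u → algebraMap O 𝕋 u ∉ m := by
    intro u hu h
    apply hm.ne_top
    rw [Ideal.eq_top_iff_one]
    obtain ⟨u', hu'⟩ := hu.exists_left_inv
    have := m.mul_mem_left (algebraMap O 𝕋 u') h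
    rwa [← map_mul, hu', map_one] at this
  obtain ⟨A, hAm, hAroot⟩ := exists_hensel_root α m hmO ε h1 h2 (t i₀) (c i₀) (c' i₀) q hτ ha
    hsimple
  set a : O := c' i₀ with ha_def
  -- `c - a` is a unit
  have hca : IsUnit (c i₀ - a) := by
    have h4 : IsUnit (a * (c i₀ - a)) := by
      by_contra hnu
      have h5 : a * (c i₀ - a) ∈ maximalIdeal O := (mem_maximalIdeal _).mpr hnu
      have h6 : q ∈ maximalIdeal O := by
        have := (maximalIdeal O).add_mem h5 ha
        have h7 : a * (c i₀ - a) + (a ^ 2 - c i₀ * a + q) = q := by ring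
        rwa [h7] at this
      exact (mem_maximalIdeal q).mp h6 hq
    exact isUnit_of_mul_isUnit_right h4
  -- `κ = (τ - A)(A² - 1) ∉ m`
  have hκ1 : t i₀ - A ∉ m := by
    intro h
    have h4 : algebraMap O 𝕋 (c i₀ - a) =
        (t i₀ - A) - (t i₀ - algebraMap O 𝕋 (c i₀)) + (A - algebraMap O 𝕋 a) := by
      rw [map_sub]
      ring
    apply hunit_notMem _ hca
    rw [h4]
    exact m.add_mem (m.sub_mem h hτ) hAm
  have hκ2 : A * A - 1 ∉ m := by
    intro h
    have h4 : algebraMap O 𝕋 (a ^ 2 - 1) =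
        (A * A - 1) - (A - algebraMap O 𝕋 a) * (A + algebraMap O 𝕋 a) := by
      rw [map_sub, map_pow, map_one]
      ring
    apply hunit_notMem _ ha1
    rw [h4]
    exact m.sub_mem h (m.mul_mem_right _ hAm)
  have hκ : (t i₀ - A) * (A * A - 1) ∉ m := by
    intro h
    rcases hm.isPrime.mem_or_mem h with h | h
    · exact hκ1 h
    · exact hκ2 h
  obtain ⟨s', hs'⟩ := h2 _ hκ
  set y₀ : V := α s' y with hy₀
  have hy₀mem : y₀ ∈ idemRange (α ε) := alpha_apply_mem_idemRange α ε s' hy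
  have hey : α ε y = y := apply_eq_of_mem_idemRange (α ε) h1 hy
  have hey₀ : α ε y₀ = y₀ := apply_eq_of_mem_idemRange (α ε) h1 hy₀mem
  have hκy : α ((t i₀ - A) * (A * A - 1)) y₀ = y := by
    have h4 := LinearMap.congr_fun hs' y
    rw [Module.End.mul_apply, hey, map_mul, Module.End.mul_apply] at h4
    exact h4
  -- the section
  set φ : V →ₗ[O] V' := (D.Au ∘ₗ α A - D.Bu) ∘ₗ α ε with hφ
  have hφ_apply : ∀ z, φ z = D.Au (α A (α ε z)) - D.Bu (α ε z) := fun z => rfl
  refine ⟨φ y₀, ?_, ?_⟩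
  · rw [mem_topNilSub]
    intro i
    by_cases hi : i = i₀
    · subst hi
      -- `U φ = φ A_q`
      have hint : ∀ z, φ ((α A - algebraMap O (Module.End O V) a) z) =
          (t' i - algebraMap O (Module.End O V') a) (φ z) := by
        intro z
        rw [LinearMap.sub_apply, LinearMap.sub_apply, Module.algebraMap_end_apply,
          Module.algebraMap_end_apply, map_sub, map_smul]
        congr 1
        rw [hφ_apply, hφ_apply, map_sub, D.hUA, D.hUB, alpha_comm α ε A z]
        have hw : α ε z ∈ idemRange (α ε) := ⟨z, rfl⟩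
        have h4 := root_apply_eq α ε h1 (t i) A q hAroot hw
        rw [← h4, map_sub, map_smul]
        abel
      have htop : TopNil (α A - algebraMap O (Module.End O V) a) y₀ := by
        intro n
        obtain ⟨k, hk⟩ := exists_pow_apply_mem_of_mem α m ε h2 _ hAm n
        refine ⟨k, ?_⟩
        have := hk y₀
        rwa [hey₀, map_sub, AlgHom.commutes] at this
      exact htop.map φ hint
    · have hint : ∀ z, φ ((α (t i) - algebraMap O (Module.End O V) (c i)) z) =
          (t' i - algebraMap O (Module.End O V') (c' i)) (φ z) := by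
        intro z
        rw [LinearMap.sub_apply, LinearMap.sub_apply, Module.algebraMap_end_apply,
          Module.algebraMap_end_apply, map_sub, map_smul, hc' i hi]
        congr 1
        rw [hφ_apply, hφ_apply, map_sub, D.hAu i hi, D.hBu i hi, alpha_comm α ε (t i) z,
          alpha_comm α A (t i)]
      have htop : TopNil (α (t i) - algebraMap O (Module.End O V) (c i)) y₀ :=
        (mem_idemRange_iff_topNil α m t c hmgen ε h2 h3 y₀).mp hy₀mem i
      exact htop.map φ hint
  · rw [hφ_apply, hey₀, map_sub, D.hAA, D.hAB, ← hκy]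
    -- `(q + 1) A_q - T_q = κ + A_q f(A_q)`
    have h4 : α (A * (A * A - t i₀ * A + algebraMap O 𝕋 q)) y₀ = 0 := by
      refine alpha_apply_eq_zero α ε h1 _ ?_ hy₀mem
      rw [map_mul, mul_assoc, hAroot, mul_zero]
    have h5 : (q + 1) • α A y₀ - α (t i₀) y₀ =
        α ((t i₀ - A) * (A * A - 1)) y₀ + α (A * (A * A - t i₀ * A + algebraMap O 𝕋 q)) y₀ := by
      rw [← LinearMap.add_apply, ← map_add]
      have h6 : (t i₀ - A) * (A * A - 1) + A * (A * A - t i₀ * A + algebraMap O 𝕋 q) =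
          (algebraMap O 𝕋 q + 1) * A - t i₀ := by ring
      rw [h6, map_sub, map_mul, map_add, map_one, AlgHom.commutes, LinearMap.sub_apply,
        Module.End.mul_apply, LinearMap.add_apply, Module.algebraMap_end_apply,
        Module.End.one_apply, add_smul, one_smul]
    rw [h5, h4, add_zero]

include hmgen h1 h2 h3 hc' hq ha in
/-- **[T3], abstract form: `α_*` induces an isomorphism from the `(m, U_q - a)`-part of level
`N q` onto the `m`-part of level `N`.** -/
theorem T3Data.exists_equiv (ha1 : IsUnit (c' i₀ ^ 2 - 1))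
    (hsimple : IsUnit (2 * c' i₀ - c i₀)) :
    ∃ E : ↥(topNilSub t' c') ≃ₗ[O] ↥(idemRange (α ε)),
      ∀ x : ↥(topNilSub t' c'), ((E x : ↥(idemRange (α ε))) : V) = D.As (x : V') := by
  classical
  have hmem : ∀ x ∈ topNilSub t' c', D.As x ∈ idemRange (α ε) := fun x hx =>
    (D.as_bs_mem m c c' hmgen ε h2 h3 hc' hq ha hx).1
  set F : ↥(topNilSub t' c') →ₗ[O] ↥(idemRange (α ε)) := D.As.restrict hmem with hF
  have hFapp : ∀ x : ↥(topNilSub t' c'), ((F x : ↥(idemRange (α ε))) : V) = D.As (x : V') :=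
    fun x => rfl
  have hinj : Function.Injective F := by
    rw [← LinearMap.ker_eq_bot, LinearMap.ker_eq_bot']
    intro x hx
    have h4 : D.As (x : V') = 0 := by
      rw [← hFapp, hx]
      rfl
    exact Subtype.ext (D.eq_zero_of_as_eq_zero m c c' hmgen ε h1 h2 h3 hc' hq ha ha1 hsimple x.2 h4)
  have hsurj : Function.Surjective F := by
    rintro ⟨y, hy⟩
    obtain ⟨x, hx, hxy⟩ := D.exists_as_eq m c c' hmgen ε h1 h2 h3 hc' hq ha ha1 hsimple hy
    exact ⟨⟨x, hx⟩, Subtype.ext hxy⟩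
  exact ⟨LinearEquiv.ofBijective F ⟨hinj, hsurj⟩, fun x => rfl⟩

end Main

end T3Abs

end Fermat.Agent.RB
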