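/-
RB — helper3 — [TWMOD]-[T3], part 4: **the level-lowering isomorphism for `Γ₀(N q) → Γ₀(N)`**.

The formal relations of `T3Data` for the four degeneracy maps of LR/XFER_helper4
(`pushAPar`, `pushBPar`, `pullAPar`, `pullBPar`), `T_q = heckeParP N q`, `U_q = heckeParP (N q) q`:
`α_* U_q = q β_*`, `β_* U_q = T_q β_* - α_*`, `U_q α^* = α^* T_q - β^*`, `U_q β^* = q α^*`
(from `α^* β_* = U_q + W`, `W α^* = β^*` — new —, `β_* W = α_*`, `α_* W = β_*`, `W² = 1`),
and the resulting isomorphism `exists_equiv_pushAPar` :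
`α_* : Hom_par(Γ₀(N q), O)_{(m, U_q - a)} ≃ Hom_par(Γ₀(N), O)_m`.
-/
import Mathlib
import Fermat.Agent.RB.T3_helper3_Abs
import Fermat.Agent.LR.XFER_helper4_AL
import Fermat.Agent.GR.BETTI_lead_Par

set_option autoImplicit false
set_option linter.unusedSectionVars false
set_option linter.style.haveILetI false

namespace Fermat.Agent.RB

open CongruenceSubgroup ModularCurve.Period Fermat.Agent.GR Fermat.Agent.LR IsLocalRing
open scoped MatrixGroups

section Rel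

variable (N q : ℕ) (hq : q.Prime) (hqN : ¬ q ∣ N) {A : Type*} [AddCommGroup A]

theorem inclHom_wHom (γ : Gamma0 (N * q)) :
    inclHom N q (wHom N q hq hqN γ) =
      gOne N q hq hqN * conjDownHom N q hq γ * (gOne N q hq hqN)⁻¹ :=
  Subtype.ext (coe_wHom N q hq hqN γ)

/-- **`W α^* = β^*`.** -/
theorem atkinW_pullA (ψ : Additive (Gamma0 N) →+ A) :
    atkinW N q hq hqN A (pullA N q A ψ) = pullB N q hq A ψ := by
  apply AddMonoidHom.ext
  intro γ'
  obtain ⟨γ, rfl⟩ := Additive.ofMul.surjective γ'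
  rw [atkinW_apply, pullA_apply, pullB_apply, inclHom_wHom, ofMul_mul, ofMul_mul, ofMul_inv,
    map_add, map_add, map_neg]
  abel

/-- **`W β^* = α^*`.** -/
theorem atkinW_pullB (ψ : Additive (Gamma0 N) →+ A) :
    atkinW N q hq hqN A (pullB N q hq A ψ) = pullA N q A ψ := by
  rw [← atkinW_pullA N q hq hqN, atkinW_atkinW]

theorem heckeGrpP_self_eq_sub (φ : Additive (Gamma0 (N * q)) →+ A) :
    heckeGrpP (N * q) ⟨q, hq⟩ A φ =
      pullA N q A (pushB N q hq hqN A φ) - atkinW N q hq hqN A φ := by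
  rw [pullA_pushB, add_sub_cancel_right]

/-- **`α_* U_q = q β_*`.** -/
theorem pushA_heckeGrpP_self (φ : Additive (Gamma0 (N * q)) →+ A) :
    pushA N q hq hqN A (heckeGrpP (N * q) ⟨q, hq⟩ A φ) = q • pushB N q hq hqN A φ := by
  rw [heckeGrpP_self_eq_sub N q hq hqN, map_sub, pushA_pullA, pushA_atkinW, add_smul, one_smul,
    add_sub_cancel_right]

/-- **`β_* U_q = T_q β_* - α_*`.** -/
theorem pushB_heckeGrpP_self (φ : Additive (Gamma0 (N * q)) →+ A) :
    pushB N q hq hqN A (heckeGrpP (N * q) ⟨q, hq⟩ A φ) =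
      heckeGrpP N ⟨q, hq⟩ A (pushB N q hq hqN A φ) - pushA N q hq hqN A φ := by
  rw [heckeGrpP_self_eq_sub N q hq hqN, map_sub, pushB_pullA, pushB_atkinW]

include hqN in
/-- **`U_q α^* = α^* T_q - β^*`.** -/
theorem heckeGrpP_self_pullA (ψ : Additive (Gamma0 N) →+ A) :
    heckeGrpP (N * q) ⟨q, hq⟩ A (pullA N q A ψ) =
      pullA N q A (heckeGrpP N ⟨q, hq⟩ A ψ) - pullB N q hq A ψ := by
  rw [heckeGrpP_self_eq_sub N q hq hqN, pushB_pullA, atkinW_pullA]

include hqN in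
/-- **`U_q β^* = q α^*`.** -/
theorem heckeGrpP_self_pullB (ψ : Additive (Gamma0 N) →+ A) :
    heckeGrpP (N * q) ⟨q, hq⟩ A (pullB N q hq A ψ) = q • pullA N q A ψ := by
  rw [heckeGrpP_self_eq_sub N q hq hqN, pushB_pullB, atkinW_pullB, map_nsmul, add_smul, one_smul,
    add_sub_cancel_right]

end Rel

section Data

variable (N q : ℕ) [NeZero N] [NeZero (N * q)] (hq : q.Prime) (hqN : ¬ q ∣ N)
variable (O : Type*) [CommRing O] [IsLocalRing O] [IsNoetherianRing O]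
  [IsAdicComplete (maximalIdeal O) O] [IsAddTorsionFree O]
variable {𝕋 : Type*} [CommRing 𝕋] [Algebra O 𝕋]

/-- **the `T3Data` of `Γ₀(N q) → Γ₀(N)`**: the Hecke algebra `𝕋` of level `N` acts through
`α (t i) = heckeParP N (pr i)`, `pr i₀ = q`, `pr i ≠ q` otherwise; the operators of level `N q` are
`heckeParP (N q) (pr i)`. -/
noncomputable def t3DataGamma0 (α : 𝕋 →ₐ[O] Module.End O ↥(parabolicHoms O (Gamma0 N) O))
    {σ : Type*} (t : σ → 𝕋) (pr : σ → Nat.Primes) (i₀ : σ)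
    (hpr : ∀ i, α (t i) = heckeParP N (pr i) O O) (hi₀ : pr i₀ = ⟨q, hq⟩)
    (hne : ∀ i, i ≠ i₀ → ((pr i : Nat.Primes) : ℕ) ≠ q) :
    T3Data α t i₀ (q : O) (fun i => heckeParP (N * q) (pr i) O O) where
  As := pushAPar N q hq hqN O O
  Bs := pushBPar N q hq hqN O O
  Au := pullAPar N q O O
  Bu := pullBPar N q hq O O
  hAA y := by
    rw [pushAPar_pullAPar, ← Nat.cast_smul_eq_nsmul O]
    push_cast
    rfl
  hAB y := by
    rw [pushAPar_pullBPar, hpr, hi₀]
  hAU x := by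
    apply Subtype.ext
    show pushA N q hq hqN O (heckeGrpP (N * q) (pr i₀) O (x : Additive (Gamma0 (N * q)) →+ O)) =
      (q : O) • pushB N q hq hqN O (x : Additive (Gamma0 (N * q)) →+ O)
    rw [hi₀, pushA_heckeGrpP_self, Nat.cast_smul_eq_nsmul]
  hBU x := by
    apply Subtype.ext
    rw [hpr]
    show pushB N q hq hqN O (heckeGrpP (N * q) (pr i₀) O (x : Additive (Gamma0 (N * q)) →+ O)) =
      heckeGrpP N (pr i₀) O (pushB N q hq hqN O (x : Additive (Gamma0 (N * q)) →+ O)) -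
        pushA N q hq hqN O (x : Additive (Gamma0 (N * q)) →+ O)
    rw [hi₀, pushB_heckeGrpP_self]
  hUA y := by
    apply Subtype.ext
    rw [hpr]
    show heckeGrpP (N * q) (pr i₀) O (pullA N q O (y : Additive (Gamma0 N) →+ O)) =
      pullA N q O (heckeGrpP N (pr i₀) O (y : Additive (Gamma0 N) →+ O)) -
        pullB N q hq O (y : Additive (Gamma0 N) →+ O)
    rw [hi₀, heckeGrpP_self_pullA N q hq hqN]
  hUB y := by
    apply Subtype.ext
    show heckeGrpP (N * q) (pr i₀) O (pullB N q hq O (y : Additive (Gamma0 N) →+ O)) =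
      (q : O) • pullA N q O (y : Additive (Gamma0 N) →+ O)
    rw [hi₀, heckeGrpP_self_pullB N q hq hqN, Nat.cast_smul_eq_nsmul]
  hnew x hA hB := by
    apply Subtype.ext
    have hA' : pushA N q hq hqN O (x : Additive (Gamma0 (N * q)) →+ O) = 0 :=
      congrArg Subtype.val hA
    have hB' : pushB N q hq hqN O (x : Additive (Gamma0 (N * q)) →+ O) = 0 :=
      congrArg Subtype.val hB
    show heckeGrpP (N * q) (pr i₀) O (heckeGrpP (N * q) (pr i₀) O
      (x : Additive (Gamma0 (N * q)) →+ O)) = (x : Additive (Gamma0 (N * q)) →+ O)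
    rw [hi₀]
    exact (heckeGrpP_new N q hq hqN hA' hB').2.2
  hAs i hi x := by
    rw [hpr]
    exact pushAPar_heckeParP N q hq hqN O O (pr i) (hne i hi) x
  hBs i hi x := by
    rw [hpr]
    exact pushBPar_heckeParP N q hq hqN O O (pr i) (hne i hi) x
  hAu i hi y := by
    rw [hpr]
    exact heckeParP_pullAPar N q hq O O (pr i) (hne i hi) y
  hBu i hi y := by
    rw [hpr]
    exact heckeParP_pullBPar N q hq O O (pr i) (hne i hi) y

/-- **[T3]: `α_* = pushAPar` induces an isomorphism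
`Hom_par(Γ₀(N q), O)_{(m, U_q - a)} ≃ Hom_par(Γ₀(N), O)_m`**, `a = c' i₀` a simple root modulo
`𝔪_O` of `X² - c i₀ X + q` with `a² - 1` a unit; the source is described neutrally
(`topNilSub`, cf. `mem_idemRange_iff_forall_pow_mem`). -/
theorem exists_equiv_pushAPar (α : 𝕋 →ₐ[O] Module.End O ↥(parabolicHoms O (Gamma0 N) O))
    {σ : Type*} (t : σ → 𝕋) (pr : σ → Nat.Primes) (i₀ : σ)
    (hpr : ∀ i, α (t i) = heckeParP N (pr i) O O) (hi₀ : pr i₀ = ⟨q, hq⟩)
    (hne : ∀ i, i ≠ i₀ → ((pr i : Nat.Primes) : ℕ) ≠ q)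
    (m : Ideal 𝕋) [hm : m.IsMaximal] (c c' : σ → O)
    (hmgen : m = (maximalIdeal O).map (algebraMap O 𝕋) ⊔
      Ideal.span (Set.range fun i => t i - algebraMap O 𝕋 (c i)))
    (ε : 𝕋) (h1 : α ε * α ε = α ε) (h2 : ∀ s : 𝕋, s ∉ m → ∃ s' : 𝕋, α (s * s') * α ε = α ε)
    (h3 : ∃ s : 𝕋, s ∉ m ∧ α s * (1 - α ε) = 0)
    (hc' : ∀ i, i ≠ i₀ → c' i = c i) (hqO : IsUnit (q : O))
    (ha : c' i₀ ^ 2 - c i₀ * c' i₀ + (q : O) ∈ maximalIdeal O)
    (ha1 : IsUnit (c' i₀ ^ 2 - 1)) (hsimple : IsUnit (2 * c' i₀ - c i₀)) :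
    ∃ E : ↥(topNilSub (fun i => heckeParP (N * q) (pr i) O O) c') ≃ₗ[O] ↥(idemRange (α ε)),
      ∀ x, ((E x : ↥(idemRange (α ε))) : ↥(parabolicHoms O (Gamma0 N) O)) =
        pushAPar N q hq hqN O O (x : ↥(parabolicHoms O (Gamma0 (N * q)) O)) :=
  (t3DataGamma0 N q hq hqN O α t pr i₀ hpr hi₀ hne).exists_equiv m c c' hmgen ε h1 h2 h3 hc' hqO ha
    ha1 hsimple

end Data

end Fermat.Agent.RB
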