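/-
RB — helper3 — [TWMOD]-[T3], part 3b: **the abstract level-lowering isomorphism, neutral form**.

`T3Rel T i₀ q t'` : the formal relations of `T3Data` for a commuting family `T : σ → End_O V`
(no Hecke algebra given).  `T3Rel.exists_equiv` :

`α_* : topNilSub t' c' ≃ topNilSub T c`

(the Hecke algebra `𝕋 = O[T i] ⊆ End_O V` is built inside; if `(𝔪_O, T i - c i)` is the unit ideal
both sides vanish).
-/
import Mathlib
import Fermat.Agent.RB.T3_helper3_Abs

set_option autoImplicit false
set_option linter.unusedSectionVars false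
set_option linter.style.haveILetI false

namespace Fermat.Agent.RB

open IsLocalRing

section Gen

variable {O : Type*} [CommRing O] [IsLocalRing O]
variable {𝕋 : Type*} [CommRing 𝕋] [Algebra O 𝕋] {σ : Type*}

/-- modulo the `t i - c i` every element of `O[t i]` is a constant. -/
theorem exists_sub_algebraMap_mem_span (t : σ → 𝕋) (c : σ → O)
    (hgen : Algebra.adjoin O (Set.range t) = ⊤) (u : 𝕋) :
    ∃ a : O, u - algebraMap O 𝕋 a ∈
      Ideal.span (Set.range fun i => t i - algebraMap O 𝕋 (c i)) := by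
  set I : Ideal 𝕋 := Ideal.span (Set.range fun i => t i - algebraMap O 𝕋 (c i)) with hI
  have hu : u ∈ Algebra.adjoin O (Set.range t) := by
    rw [hgen]
    exact Algebra.mem_top
  induction hu using Algebra.adjoin_induction with
  | mem x hx =>
    obtain ⟨i, rfl⟩ := hx
    exact ⟨c i, Ideal.subset_span ⟨i, rfl⟩⟩
  | algebraMap r => exact ⟨r, by rw [sub_self]; exact I.zero_mem⟩
  | add x y _ _ hx hy =>
    obtain ⟨a, ha⟩ := hx
    obtain ⟨b, hb⟩ := hy
    refine ⟨a + b, ?_⟩
    have : x + y - algebraMap O 𝕋 (a + b) = (x - algebraMap O 𝕋 a) + (y - algebraMap O 𝕋 b) := by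
      rw [map_add]
      ring
    rw [this]
    exact I.add_mem ha hb
  | mul x y _ _ hx hy =>
    obtain ⟨a, ha⟩ := hx
    obtain ⟨b, hb⟩ := hy
    refine ⟨a * b, ?_⟩
    have : x * y - algebraMap O 𝕋 (a * b) =
        y * (x - algebraMap O 𝕋 a) + algebraMap O 𝕋 a * (y - algebraMap O 𝕋 b) := by
      rw [map_mul]
      ring
    rw [this]
    exact I.add_mem (I.mul_mem_left _ ha) (I.mul_mem_left _ hb)

/-- the ideal `(𝔪_O, t i - c i)` of `O[t i]` is maximal or the unit ideal. -/
theorem isMaximal_map_sup_span (t : σ → 𝕋) (c : σ → O)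
    (hgen : Algebra.adjoin O (Set.range t) = ⊤)
    (hne : (maximalIdeal O).map (algebraMap O 𝕋) ⊔
      Ideal.span (Set.range fun i => t i - algebraMap O 𝕋 (c i)) ≠ ⊤) :
    ((maximalIdeal O).map (algebraMap O 𝕋) ⊔
      Ideal.span (Set.range fun i => t i - algebraMap O 𝕋 (c i))).IsMaximal := by
  set m : Ideal 𝕋 := (maximalIdeal O).map (algebraMap O 𝕋) ⊔
      Ideal.span (Set.range fun i => t i - algebraMap O 𝕋 (c i)) with hm
  rw [Ideal.isMaximal_iff]
  refine ⟨fun h => hne ((Ideal.eq_top_iff_one m).mpr h), ?_⟩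
  intro J x hmJ hxm hxJ
  obtain ⟨a, ha⟩ := exists_sub_algebraMap_mem_span t c hgen x
  have ha' : x - algebraMap O 𝕋 a ∈ m := Ideal.mem_sup_right ha
  have haJ : algebraMap O 𝕋 a ∈ J := by
    have := J.sub_mem hxJ (hmJ ha')
    rwa [sub_sub_cancel] at this
  have hau : IsUnit a := by
    by_contra hnu
    apply hxm
    have h1 : algebraMap O 𝕋 a ∈ m :=
      Ideal.mem_sup_left (Ideal.mem_map_of_mem _ ((mem_maximalIdeal a).mpr hnu))
    have := m.add_mem ha' h1
    rwa [sub_add_cancel] at this
  obtain ⟨b, hb⟩ := hau.exists_left_inv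
  have := J.mul_mem_left (algebraMap O 𝕋 b) haJ
  rwa [← map_mul, hb, map_one] at this

end Gen

section Neutral

variable {O : Type*} [CommRing O] [IsLocalRing O] [IsNoetherianRing O]
  [IsAdicComplete (maximalIdeal O) O]
variable {V : Type*} [AddCommGroup V] [Module O V] [Module.Finite O V]
variable {V' : Type*} [AddCommGroup V'] [Module O V'] [Module.Finite O V']
variable {𝕋 : Type*} [CommRing 𝕋] [Algebra O 𝕋]
variable {α : 𝕋 →ₐ[O] Module.End O V} {σ : Type*} {t : σ → 𝕋} {i₀ : σ} {q : O}
  {t' : σ → Module.End O V'}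

/-- if `(𝔪_O, t i - c i)` is the unit ideal, no nonzero vector is primary. -/
theorem topNilSub_eq_bot_of_sup_eq_top (α : 𝕋 →ₐ[O] Module.End O V) (t : σ → 𝕋) (c : σ → O)
    (h : (maximalIdeal O).map (algebraMap O 𝕋) ⊔
      Ideal.span (Set.range fun i => t i - algebraMap O 𝕋 (c i)) = ⊤) :
    topNilSub (fun i => α (t i)) c = ⊥ := by
  rw [eq_bot_iff]
  intro x hx
  rw [mem_topNilSub] at hx
  let Nx : Ideal 𝕋 :=
    { carrier := {s | TopNil (α s) x}
      add_mem' := fun {a b} ha hb => by
        show TopNil (α (a + b)) x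
        rw [map_add]
        exact TopNil.add (alpha_commute α a b) ha hb
      zero_mem' := by
        show TopNil (α 0) x
        intro n
        refine ⟨1, ?_⟩
        rw [map_zero, pow_one, LinearMap.zero_apply]
        exact Submodule.zero_mem _
      smul_mem' := fun v s hs => by
        show TopNil (α (v • s)) x
        rw [smul_eq_mul, map_mul]
        exact TopNil.mul_left (alpha_commute α s v) hs }
  have hNx : ∀ s : 𝕋, s ∈ Nx ↔ TopNil (α s) x := fun s => Iff.rfl
  have hle : (maximalIdeal O).map (algebraMap O 𝕋) ⊔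
      Ideal.span (Set.range fun i => t i - algebraMap O 𝕋 (c i)) ≤ Nx := by
    refine sup_le ?_ ?_
    · rw [Ideal.map_le_iff_le_comap]
      intro a ha
      rw [Ideal.mem_comap, hNx, AlgHom.commutes]
      exact topNil_algebraMap ha x
    · rw [Ideal.span_le]
      rintro _ ⟨i, rfl⟩
      rw [SetLike.mem_coe, hNx, map_sub, AlgHom.commutes]
      exact hx i
  have h1 : (1 : 𝕋) ∈ Nx := hle (h ▸ Submodule.mem_top)
  rw [hNx, map_one] at h1
  exact (Submodule.mem_bot O).mpr h1.eq_zero_of_one

/-- **[T3], abstract neutral form** for a Hecke algebra generated by the `t i`. -/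
theorem T3Data.exists_equiv_topNilSub (D : T3Data α t i₀ q t')
    (hgen : Algebra.adjoin O (Set.range t) = ⊤) (c c' : σ → O)
    (hc' : ∀ i, i ≠ i₀ → c' i = c i) (hq : IsUnit q)
    (ha : c' i₀ ^ 2 - c i₀ * c' i₀ + q ∈ maximalIdeal O) (ha1 : IsUnit (c' i₀ ^ 2 - 1))
    (hsimple : IsUnit (2 * c' i₀ - c i₀)) :
    ∃ E : ↥(topNilSub t' c') ≃ₗ[O] ↥(topNilSub (fun i => α (t i)) c),
      ∀ x : ↥(topNilSub t' c'),
        ((E x : ↥(topNilSub (fun i => α (t i)) c)) : V) = D.As (x : V') := by
  classical
  set m : Ideal 𝕋 := (maximalIdeal O).map (algebraMap O 𝕋) ⊔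
      Ideal.span (Set.range fun i => t i - algebraMap O 𝕋 (c i)) with hm
  by_cases hne : m = ⊤
  · -- degenerate case: both sides vanish
    have hV : topNilSub (fun i => α (t i)) c = ⊥ := topNilSub_eq_bot_of_sup_eq_top α t c hne
    have hV' : topNilSub t' c' = ⊥ := by
      rw [eq_bot_iff]
      intro x hx
      obtain ⟨hA, hB⟩ := D.as_bs_topNil c c' hc' hq ha hx
      have hA0 : D.As x = 0 := by
        have : D.As x ∈ topNilSub (fun i => α (t i)) c := hA
        rw [hV] at this
        exact (Submodule.mem_bot O).mp this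
      have hB0 : D.Bs x = 0 := by
        have : D.Bs x ∈ topNilSub (fun i => α (t i)) c := hB
        rw [hV] at this
        exact (Submodule.mem_bot O).mp this
      exact (Submodule.mem_bot O).mpr
        (D.eq_zero_of_as_bs_eq_zero ha1 ((mem_topNilSub t' c' x).mp hx i₀) hA0 hB0)
    have hsub : ∀ x : ↥(topNilSub t' c'), x = 0 := by
      intro x
      apply Subtype.ext
      have h4 : (x : V') ∈ (⊥ : Submodule O V') := hV' ▸ x.2
      exact (Submodule.mem_bot O).mp h4
    have hsub2 : ∀ y : ↥(topNilSub (fun i => α (t i)) c), y = 0 := by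
      intro y
      apply Subtype.ext
      have h4 : (y : V) ∈ (⊥ : Submodule O V) := hV ▸ y.2
      exact (Submodule.mem_bot O).mp h4
    refine ⟨{ toFun := fun _ => 0
              map_add' := fun _ _ => (add_zero _).symm
              map_smul' := fun _ _ => (smul_zero _).symm
              invFun := fun _ => 0
              left_inv := fun x => (hsub x).symm
              right_inv := fun y => (hsub2 y).symm }, fun x => ?_⟩
    show ((0 : ↥(topNilSub (fun i => α (t i)) c)) : V) = D.As (x : V')
    rw [hsub x]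
    simp
  · haveI hmax : m.IsMaximal := isMaximal_map_sup_span t c hgen hne
    obtain ⟨ε, h1, h2, h3⟩ := exists_idempotent_end O (R := O) α m
    obtain ⟨E, hE⟩ := D.exists_equiv m c c' rfl ε h1 h2 h3 hc' hq ha ha1 hsimple
    have heq : idemRange (α ε) = topNilSub (fun i => α (t i)) c := by
      ext y
      exact mem_idemRange_iff_topNil α m t c rfl ε h2 h3 y
    refine ⟨E.trans (LinearEquiv.ofEq _ _ heq), fun x => ?_⟩
    rw [LinearEquiv.trans_apply, LinearEquiv.coe_ofEq_apply]
    exact hE x

end Neutral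

end Fermat.Agent.RB
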