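/-
RB — helper3 — [TWMOD]-[T3], part 3c: **the level-lowering isomorphism for a commuting family of
operators** (no Hecke algebra in the statement).

`T3Rel T i₀ q t'` : the formal relations between level `N` (`V`, operators `T i`, `T_q = T i₀`) and
level `N q` (`V'`, operators `t' i`, `U_q = t' i₀`).  `T3Rel.exists_equiv` : if the `T i` commute,
`α_* : topNilSub t' c' ≃ topNilSub T c`.
-/
import Mathlib
import Fermat.Agent.RB.T3_helper3_Neutral

set_option autoImplicit false
set_option linter.unusedSectionVars false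
set_option linter.style.haveILetI false

namespace Fermat.Agent.RB

open IsLocalRing

section Rel

variable {O : Type*} [CommRing O] [IsLocalRing O] [IsNoetherianRing O]
  [IsAdicComplete (maximalIdeal O) O]
variable {V : Type*} [AddCommGroup V] [Module O V] [Module.Finite O V]
variable {V' : Type*} [AddCommGroup V'] [Module O V'] [Module.Finite O V']

/-- **the formal relations between level `N` (`V`) and level `N q` (`V'`)**, neutral form:
`T_q = T i₀`, `U_q = t' i₀`. -/
structure T3Rel {σ : Type*} (T : σ → Module.End O V) (i₀ : σ) (q : O)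
    (t' : σ → Module.End O V') where
  /-- `α_*` -/
  As : V' →ₗ[O] V
  /-- `β_*` -/
  Bs : V' →ₗ[O] V
  /-- `α^*` -/
  Au : V →ₗ[O] V'
  /-- `β^*` -/
  Bu : V →ₗ[O] V'
  hAA : ∀ y, As (Au y) = (q + 1) • y
  hAB : ∀ y, As (Bu y) = T i₀ y
  hAU : ∀ x, As (t' i₀ x) = q • Bs x
  hBU : ∀ x, Bs (t' i₀ x) = T i₀ (Bs x) - As x
  hUA : ∀ y, t' i₀ (Au y) = Au (T i₀ y) - Bu y
  hUB : ∀ y, t' i₀ (Bu y) = q • Au y
  hnew : ∀ x, As x = 0 → Bs x = 0 → t' i₀ (t' i₀ x) = x
  hAs : ∀ i, i ≠ i₀ → ∀ x, As (t' i x) = T i (As x)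
  hBs : ∀ i, i ≠ i₀ → ∀ x, Bs (t' i x) = T i (Bs x)
  hAu : ∀ i, i ≠ i₀ → ∀ y, t' i (Au y) = Au (T i y)
  hBu : ∀ i, i ≠ i₀ → ∀ y, t' i (Bu y) = Bu (T i y)

variable {σ : Type*} {T : σ → Module.End O V} {i₀ : σ} {q : O} {t' : σ → Module.End O V'}

/-- **[T3], abstract form for a commuting family.** -/
theorem T3Rel.exists_equiv (R : T3Rel T i₀ q t') (hT : ∀ i j, Commute (T i) (T j))
    (c c' : σ → O) (hc' : ∀ i, i ≠ i₀ → c' i = c i) (hq : IsUnit q)
    (ha : c' i₀ ^ 2 - c i₀ * c' i₀ + q ∈ maximalIdeal O) (ha1 : IsUnit (c' i₀ ^ 2 - 1))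
    (hsimple : IsUnit (2 * c' i₀ - c i₀)) :
    ∃ E : ↥(topNilSub t' c') ≃ₗ[O] ↥(topNilSub T c),
      ∀ x : ↥(topNilSub t' c'), ((E x : ↥(topNilSub T c)) : V) = R.As (x : V') := by
  classical
  have hS : ∀ a ∈ Set.range T, ∀ b ∈ Set.range T, a * b = b * a := by
    rintro _ ⟨i, rfl⟩ _ ⟨j, rfl⟩
    exact (hT i j).eq
  have hcomm := Algebra.isMulCommutative_adjoin O hS
  letI : CommRing ↥(Algebra.adjoin O (Set.range T)) :=
    { (Algebra.adjoin O (Set.range T)).toRing with
      mul_comm := fun a b => hcomm.is_comm.comm a b }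
  let α : ↥(Algebra.adjoin O (Set.range T)) →ₐ[O] Module.End O V :=
    (Algebra.adjoin O (Set.range T)).val
  let t : σ → ↥(Algebra.adjoin O (Set.range T)) :=
    fun i => ⟨T i, Algebra.subset_adjoin ⟨i, rfl⟩⟩
  have hαt : ∀ i, α (t i) = T i := fun i => rfl
  have hgen : Algebra.adjoin O (Set.range t) = ⊤ := by
    have h1 : Set.range t = ((↑) : ↥(Algebra.adjoin O (Set.range T)) → Module.End O V) ⁻¹'
        (Set.range T) := by
      ext x
      constructor
      · rintro ⟨i, rfl⟩
        exact ⟨i, rfl⟩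
      · rintro ⟨i, hi⟩
        exact ⟨i, Subtype.ext hi⟩
    rw [h1]
    exact Algebra.adjoin_adjoin_coe_preimage
  let D : T3Data α t i₀ q t' :=
    { As := R.As
      Bs := R.Bs
      Au := R.Au
      Bu := R.Bu
      hAA := R.hAA
      hAB := R.hAB
      hAU := R.hAU
      hBU := R.hBU
      hUA := R.hUA
      hUB := R.hUB
      hnew := R.hnew
      hAs := R.hAs
      hBs := R.hBs
      hAu := R.hAu
      hBu := R.hBu }
  exact D.exists_equiv_topNilSub hgen c c' hc' hq ha ha1 hsimple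

/-- **compatibility of the inverse isomorphism with every pair of operators intertwined by
`α_*`** whose upper member commutes with the `t' i`. -/
theorem T3Rel.symm_apply_eq (R : T3Rel T i₀ q t') {c c' : σ → O}
    (E : ↥(topNilSub t' c') ≃ₗ[O] ↥(topNilSub T c))
    (hE : ∀ x : ↥(topNilSub t' c'), ((E x : ↥(topNilSub T c)) : V) = R.As (x : V'))
    (s : Module.End O V) (s' : Module.End O V') (hs : ∀ x', R.As (s' x') = s (R.As x'))
    (hcomm : ∀ i, Commute (t' i) s') (x y : ↥(topNilSub T c)) (hxy : (y : V) = s (x : V)) :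
    ((E.symm y : ↥(topNilSub t' c')) : V') = s' ((E.symm x : ↥(topNilSub t' c')) : V') := by
  have hEx : R.As ((E.symm x : ↥(topNilSub t' c')) : V') = (x : V) := by
    rw [← hE, LinearEquiv.apply_symm_apply]
  have hEy : R.As ((E.symm y : ↥(topNilSub t' c')) : V') = (y : V) := by
    rw [← hE, LinearEquiv.apply_symm_apply]
  have hmem : s' ((E.symm x : ↥(topNilSub t' c')) : V') ∈ topNilSub t' c' := by
    rw [mem_topNilSub]
    intro i
    refine ((mem_topNilSub _ _ _).mp (E.symm x).2 i).apply_of_commute ?_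
    have h2 : Commute (algebraMap O (Module.End O V') (c' i)) s' := Algebra.commutes _ _
    exact (hcomm i).sub_left h2
  have hinj : ∀ u v : ↥(topNilSub t' c'), R.As (u : V') = R.As (v : V') → u = v := by
    intro u v huv
    apply E.injective
    apply Subtype.ext
    rw [hE, hE, huv]
  have hkey := hinj ⟨_, hmem⟩ (E.symm y) (by
    show R.As (s' ((E.symm x : ↥(topNilSub t' c')) : V')) = _
    rw [hs, hEx, hEy, hxy])
  rw [← hkey]

end Rel

end Fermat.Agent.RB
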