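/-
RB — helper3 — [TWMOD]-[T3], part 5: **`Fermat.Agent.RB.TWM.t3Statement : T3Statement`**
(helper2's literal, `RB/TWMOD_helper2_Targets.lean`).

The isomorphism is the inverse of `α_* = pushAPar` (`T3Rel.exists_equiv` for
`t3RelGamma0`); the compatibility with the Hecke operators at all primes `ℓ ≠ q` follows from
`pushAPar_heckeParP`, the injectivity of `α_*` on the primary part and the commutativity of the
Hecke operators on `Hom_par(Γ₀(N q), 𝒪)` (`heckeParP_commute_domain`).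
-/
import Mathlib
import Fermat.Agent.RB.T3_helper3_Rel
import Fermat.Agent.RB.T3_helper3_Gamma0
import Fermat.Agent.RB.TWMOD_helper2_Targets
import Fermat.Agent.GR.MULT1_helper2_Occur

set_option autoImplicit false
set_option linter.unusedSectionVars false
set_option linter.style.haveILetI false

namespace Fermat.Agent.RB.TWM

open CongruenceSubgroup ModularCurve.Period Fermat.Agent.GR Fermat.Agent.LR IsLocalRing
open Fermat.Agent.RB
open scoped MatrixGroups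

section Comm

variable {N : ℕ} [NeZero N] (𝒪 : Type*) [CommRing 𝒪] [IsDomain 𝒪] [CharZero 𝒪]

/-- **the Hecke operators commute on `Hom_par(Γ₀(N), 𝒪)`**, `𝒪` a domain of characteristic `0`. -/
theorem heckeParP_commute_domain (ℓ q : Nat.Primes) :
    Commute (heckeParP N ℓ 𝒪 𝒪) (heckeParP N q 𝒪 𝒪) := by
  haveI : CharZero (FractionRing 𝒪) := inferInstance
  set j : 𝒪 →+ FractionRing 𝒪 := (algebraMap 𝒪 (FractionRing 𝒪)).toAddMonoidHom with hj
  have hjinj : Function.Injective j := IsFractionRing.injective 𝒪 (FractionRing 𝒪)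
  apply LinearMap.ext
  intro ψ
  apply Subtype.ext
  show heckeGrpP N ℓ 𝒪 (heckeGrpP N q 𝒪 (ψ : Additive (Gamma0 N) →+ 𝒪)) =
    heckeGrpP N q 𝒪 (heckeGrpP N ℓ 𝒪 (ψ : Additive (Gamma0 N) →+ 𝒪))
  have hpar : j.comp (ψ : Additive (Gamma0 N) →+ 𝒪) ∈
      parabolicHoms (FractionRing 𝒪) (Gamma0 N) (FractionRing 𝒪) := by
    rw [mem_parabolicHoms_iff]
    intro γ hγ
    have h1 := (mem_parabolicHoms_iff.mp ψ.2) γ hγ
    rw [AddMonoidHom.comp_apply, h1, map_zero]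
  have h2 := heckeGrpP_comm_field ℓ q hpar
  rw [heckeGrpP_comp, heckeGrpP_comp, heckeGrpP_comp, heckeGrpP_comp] at h2
  apply AddMonoidHom.ext
  intro γ
  apply hjinj
  exact DFunLike.congr_fun h2 γ

end Comm

section Data

variable (N q : ℕ) [NeZero N] [NeZero (N * q)] (hq : q.Prime) (hqN : ¬ q ∣ N)
variable (O : Type*) [CommRing O] [IsLocalRing O] [IsNoetherianRing O]
  [IsAdicComplete (maximalIdeal O) O] [IsAddTorsionFree O]

/-- **the `T3Rel` of `Γ₀(N q) → Γ₀(N)`** for a family of primes `pr : σ → Nat.Primes` with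
`pr i₀ = q`, `pr i ≠ q` otherwise. -/
noncomputable def t3RelGamma0 {σ : Type*} (pr : σ → Nat.Primes) (i₀ : σ)
    (hi₀ : pr i₀ = ⟨q, hq⟩) (hne : ∀ i, i ≠ i₀ → ((pr i : Nat.Primes) : ℕ) ≠ q) :
    T3Rel (fun i => heckeParP N (pr i) O O) i₀ (q : O)
      (fun i => heckeParP (N * q) (pr i) O O) where
  As := pushAPar N q hq hqN O O
  Bs := pushBPar N q hq hqN O O
  Au := pullAPar N q O O
  Bu := pullBPar N q hq O O
  hAA y := by
    rw [pushAPar_pullAPar, ← Nat.cast_smul_eq_nsmul O]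
    push_cast
    rfl
  hAB y := by
    rw [pushAPar_pullBPar, hi₀]
  hAU x := by
    apply Subtype.ext
    show pushA N q hq hqN O (heckeGrpP (N * q) (pr i₀) O (x : Additive (Gamma0 (N * q)) →+ O)) =
      (q : O) • pushB N q hq hqN O (x : Additive (Gamma0 (N * q)) →+ O)
    rw [hi₀, pushA_heckeGrpP_self, Nat.cast_smul_eq_nsmul]
  hBU x := by
    apply Subtype.ext
    show pushB N q hq hqN O (heckeGrpP (N * q) (pr i₀) O (x : Additive (Gamma0 (N * q)) →+ O)) =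
      heckeGrpP N (pr i₀) O (pushB N q hq hqN O (x : Additive (Gamma0 (N * q)) →+ O)) -
        pushA N q hq hqN O (x : Additive (Gamma0 (N * q)) →+ O)
    rw [hi₀, pushB_heckeGrpP_self]
  hUA y := by
    apply Subtype.ext
    show heckeGrpP (N * q) (pr i₀) O (pullA N q O (y : Additive (Gamma0 N) →+ O)) =
      pullA N q O (heckeGrpP N (pr i₀) O (y : Additive (Gamma0 N) →+ O)) -
        pullB N q hq O (y : Additive (Gamma0 N) →+ O)
    rw [hi₀, heckeGrpP_self_pullA N q hq hqN]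
  hUB y := by
    apply Subtype.ext
    show heckeGrpP (N * q) (pr i₀) O (pullB N q hq O (y : Additive (Gamma0 N) →+ O)) =
      (q : O) • pullA N q O (y : Additive (Gamma0 N) →+ O)
    rw [hi₀, heckeGrpP_self_pullB N q hq hqN, Nat.cast_smul_eq_nsmul]
  hnew x hA hB := by
    apply Subtype.ext
    have hA' : pushA N q hq hqN O (x : Additive (Gamma0 (N * q)) →+ O) = 0 :=
      congrArg Subtype.val hA
    have hB' : pushB N q hq hqN O (x : Additive (Gamma0 (N * q)) →+ O) = 0 :=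
      congrArg Subtype.val hB
    show heckeGrpP (N * q) (pr i₀) O (heckeGrpP (N * q) (pr i₀) O
      (x : Additive (Gamma0 (N * q)) →+ O)) = (x : Additive (Gamma0 (N * q)) →+ O)
    rw [hi₀]
    exact (heckeGrpP_new N q hq hqN hA' hB').2.2
  hAs i hi x := pushAPar_heckeParP N q hq hqN O O (pr i) (hne i hi) x
  hBs i hi x := pushBPar_heckeParP N q hq hqN O O (pr i) (hne i hi) x
  hAu i hi y := heckeParP_pullAPar N q hq O O (pr i) (hne i hi) y
  hBu i hi y := heckeParP_pullBPar N q hq O O (pr i) (hne i hi) y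

end Data

theorem primaryPart_eq_topNilSub {O : Type*} [CommRing O] [IsLocalRing O] {P : Type*}
    [AddCommGroup P] [Module O P] {σ : Type*} (T : σ → Module.End O P) (c : σ → O) :
    primaryPart T c = topNilSub T c :=
  Submodule.ext fun _ => Iff.rfl

section Main

variable (N q : ℕ) [NeZero N] [NeZero (N * q)] (hq : q.Prime) (hqN : ¬ q ∣ N)
variable (𝒪 : Type*) [CommRing 𝒪] [IsDomain 𝒪] [IsDiscreteValuationRing 𝒪]
  [IsAdicComplete (maximalIdeal 𝒪) 𝒪] [CharZero 𝒪]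

/-- **[T3] for `Γ₀(N q) → Γ₀(N)`, neutral form, with the Hecke compatibility at all primes
`ℓ ≠ q`.** -/
theorem exists_equiv_topNilSub_gamma0 (hqO : IsUnit (q : 𝒪)) {σ : Type*} (pr : σ → Nat.Primes)
    (i₀ : σ) (hi₀ : pr i₀ = ⟨q, hq⟩) (hne : ∀ i, i ≠ i₀ → ((pr i : Nat.Primes) : ℕ) ≠ q)
    (c c' : σ → 𝒪) (hc' : ∀ i, i ≠ i₀ → c' i = c i)
    (ha : c' i₀ ^ 2 - c i₀ * c' i₀ + (q : 𝒪) ∈ maximalIdeal 𝒪) (ha1 : IsUnit (c' i₀ ^ 2 - 1))
    (hsimple : IsUnit (2 * c' i₀ - c i₀)) :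
    ∃ E : ↥(topNilSub (fun i => heckeParP (N * q) (pr i) 𝒪 𝒪) c') ≃ₗ[𝒪]
        ↥(topNilSub (fun i => heckeParP N (pr i) 𝒪 𝒪) c),
      (∀ x, ((E x : ↥(topNilSub (fun i => heckeParP N (pr i) 𝒪 𝒪) c)) :
          ↥(parabolicHoms 𝒪 (Gamma0 N) 𝒪)) =
        pushAPar N q hq hqN 𝒪 𝒪 (x : ↥(parabolicHoms 𝒪 (Gamma0 (N * q)) 𝒪))) ∧
      ∀ ℓ : Nat.Primes, (ℓ : ℕ) ≠ q →
        ∀ x y : ↥(topNilSub (fun i => heckeParP N (pr i) 𝒪 𝒪) c),
          (y : ↥(parabolicHoms 𝒪 (Gamma0 N) 𝒪)) = heckeParP N ℓ 𝒪 𝒪 x →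
          ((E.symm y : ↥(topNilSub (fun i => heckeParP (N * q) (pr i) 𝒪 𝒪) c')) :
            ↥(parabolicHoms 𝒪 (Gamma0 (N * q)) 𝒪)) = heckeParP (N * q) ℓ 𝒪 𝒪 (E.symm x) := by
  classical
  have hT : ∀ i j : σ, Commute (heckeParP N (pr i) 𝒪 𝒪) (heckeParP N (pr j) 𝒪 𝒪) :=
    fun i j => heckeParP_commute_domain 𝒪 _ _
  obtain ⟨E, hE⟩ := (t3RelGamma0 N q hq hqN 𝒪 pr i₀ hi₀ hne).exists_equiv hT c c' hc' hqO ha ha1
    hsimple
  have hE' : ∀ x, ((E x : ↥(topNilSub (fun i => heckeParP N (pr i) 𝒪 𝒪) c)) :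
      ↥(parabolicHoms 𝒪 (Gamma0 N) 𝒪)) =
      pushAPar N q hq hqN 𝒪 𝒪 (x : ↥(parabolicHoms 𝒪 (Gamma0 (N * q)) 𝒪)) := hE
  refine ⟨E, hE', ?_⟩
  intro ℓ hℓq x y hxy
  exact (t3RelGamma0 N q hq hqN 𝒪 pr i₀ hi₀ hne).symm_apply_eq E hE (heckeParP N ℓ 𝒪 𝒪)
    (heckeParP (N * q) ℓ 𝒪 𝒪) (fun x' => pushAPar_heckeParP N q hq hqN 𝒪 𝒪 ℓ hℓq x')
    (fun i => heckeParP_commute_domain 𝒪 _ _) x y hxy

end Main

/-- **[T3]** — helper2's literal. -/
theorem t3Statement : T3Statement := by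
  intro 𝒪 _ _ _ _ _ N q _ _ hq hqN hqO P hqP c a ha hsimple ha1 _
  classical
  have hne : ∀ i : P, i ≠ (⟨⟨q, hq⟩, hqP⟩ : P) → (((i : Nat.Primes) : Nat.Primes) : ℕ) ≠ q := by
    intro i hi h
    exact hi (Subtype.ext (Subtype.ext h))
  have hcQ0 : Function.update c ⟨q, hq⟩ a ((⟨⟨q, hq⟩, hqP⟩ : P) : Nat.Primes) = a :=
    Function.update_self _ _ _
  have hcQne : ∀ i : P, i ≠ (⟨⟨q, hq⟩, hqP⟩ : P) →
      (fun ℓ : P => Function.update c ⟨q, hq⟩ a ℓ) i = (fun ℓ : P => c ℓ) i := by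
    intro i hi
    exact Function.update_of_ne (fun h => hi (Subtype.ext h)) _ _
  obtain ⟨E, -, hE2⟩ := exists_equiv_topNilSub_gamma0 N q hq hqN 𝒪 hqO
    (fun ℓ : P => (ℓ : Nat.Primes)) (⟨⟨q, hq⟩, hqP⟩ : P) rfl hne (fun ℓ : P => c ℓ)
    (fun ℓ : P => Function.update c ⟨q, hq⟩ a ℓ) hcQne (by rw [hcQ0]; exact ha)
    (by rw [hcQ0]; exact ha1) (by rw [hcQ0]; exact hsimple)
  exact ⟨E.symm, hE2⟩

end Fermat.Agent.RB.TWM
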