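/-
RB — helper3 — [TWMOD]-[T3-iter]: **`Fermat.Agent.RB.TWM.t3IterStatement : T3IterStatement`**
(helper2's literal, `RB/TWMOD_helper2_Targets2.lean`): the iteration of [T3] over a Taylor–Wiles
set `Q : Fin r → ℕ`, through the levels `N * ∏_{j < k} Q j`.
-/
import Mathlib
import Fermat.Agent.RB.T3_helper3_Statement
import Fermat.Agent.RB.TWMOD_helper2_Targets2

set_option autoImplicit false
set_option linter.unusedSectionVars false
set_option linter.style.haveILetI false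

namespace Fermat.Agent.RB.TWM

open CongruenceSubgroup ModularCurve.Period Fermat.Agent.GR Fermat.Agent.LR IsLocalRing
open Fermat.Agent.RB
open scoped MatrixGroups

section Step

variable (N q : ℕ) [NeZero N] [NeZero (N * q)] (hq : q.Prime) (hqN : ¬ q ∣ N)
variable (𝒪 : Type*) [CommRing 𝒪] [IsDomain 𝒪] [IsDiscreteValuationRing 𝒪]
  [IsAdicComplete (maximalIdeal 𝒪) 𝒪] [CharZero 𝒪]

include hqN in
/-- **one step of [T3]**, with two systems of constants `c`, `c'` on all primes. -/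
theorem t3_step (hqO : IsUnit (q : 𝒪)) (P : Set Nat.Primes) (hqP : (⟨q, hq⟩ : Nat.Primes) ∈ P)
    (c c' : Nat.Primes → 𝒪)
    (ha : c' ⟨q, hq⟩ ^ 2 - c ⟨q, hq⟩ * c' ⟨q, hq⟩ + (q : 𝒪) ∈ maximalIdeal 𝒪)
    (hsimple : IsUnit (2 * c' ⟨q, hq⟩ - c ⟨q, hq⟩)) (ha1 : IsUnit (c' ⟨q, hq⟩ ^ 2 - 1))
    (hc' : ∀ ℓ : Nat.Primes, (ℓ : ℕ) ≠ q → c' ℓ = c ℓ) :
    ∃ φ : ↥(primaryPart (fun ℓ : P => heckeParP N (ℓ : Nat.Primes) 𝒪 𝒪)
          (fun ℓ : P => c ℓ)) ≃ₗ[𝒪]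
        ↥(primaryPart (fun ℓ : P => heckeParP (N * q) (ℓ : Nat.Primes) 𝒪 𝒪)
          (fun ℓ : P => c' ℓ)),
      ∀ ℓ : Nat.Primes, (ℓ : ℕ) ≠ q →
        ∀ x y : ↥(primaryPart (fun ℓ : P => heckeParP N (ℓ : Nat.Primes) 𝒪 𝒪) (fun ℓ : P => c ℓ)),
        (y : ↥(parabolicHoms 𝒪 (Gamma0 N) 𝒪)) = heckeParP N ℓ 𝒪 𝒪 x →
        ((φ y : _) : ↥(parabolicHoms 𝒪 (Gamma0 (N * q)) 𝒪)) = heckeParP (N * q) ℓ 𝒪 𝒪 (φ x) := by
  classical
  have hne : ∀ i : P, i ≠ (⟨⟨q, hq⟩, hqP⟩ : P) → (((i : Nat.Primes) : Nat.Primes) : ℕ) ≠ q := by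
    intro i hi h
    exact hi (Subtype.ext (Subtype.ext h))
  have hcQne : ∀ i : P, i ≠ (⟨⟨q, hq⟩, hqP⟩ : P) →
      (fun ℓ : P => c' ℓ) i = (fun ℓ : P => c ℓ) i := by
    intro i hi
    exact hc' i (hne i hi)
  obtain ⟨E, -, hE2⟩ := exists_equiv_topNilSub_gamma0 N q hq hqN 𝒪 hqO
    (fun ℓ : P => (ℓ : Nat.Primes)) (⟨⟨q, hq⟩, hqP⟩ : P) rfl hne (fun ℓ : P => c ℓ)
    (fun ℓ : P => c' ℓ) hcQne ha ha1 hsimple
  exact ⟨E.symm, hE2⟩

end Step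

set_option maxHeartbeats 2000000 in
/-- **[T3-iter]** — helper2's literal. -/
theorem t3IterStatement : T3IterStatement := by
  intro 𝒪 _ _ _ _ _ N _ r
  induction r generalizing N with
  | zero =>
    intro Q _ hQ _ _ P _ c c' a _ _ _ _ hcc' Nt _ hNt
    have hNt' : Nt = N := by simpa using hNt
    subst hNt'
    have hfun : (fun ℓ : P => c' ℓ) = (fun ℓ : P => c ℓ) :=
      funext fun ℓ => hcc' ℓ (fun j => j.elim0)
    rw [hfun]
    exact ⟨LinearEquiv.refl 𝒪 _, fun ℓ _ x y hxy => hxy⟩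
  | succ r ih =>
    intro Q hQinj hQ hQN hQO P hQP c c' a ha hsimple ha1 hc'Q hcc' Nt _ hNt
    classical
    -- the last prime `q = Q (last r)` and the first `r` primes
    have hq : (Q (Fin.last r)).Prime := hQ (Fin.last r)
    have hQ'q : ∀ j : Fin r, Q (Fin.castSucc j) ≠ Q (Fin.last r) := fun j h =>
      (Fin.castSucc_lt_last j).ne (hQinj h)
    obtain ⟨N₁, hN₁⟩ : ∃ N₁ : ℕ, N₁ = N * ∏ j : Fin r, Q (Fin.castSucc j) := ⟨_, rfl⟩
    have hN₁0 : N₁ ≠ 0 := by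
      rw [hN₁]
      refine mul_ne_zero (NeZero.ne N) (Finset.prod_ne_zero_iff.mpr fun j _ => ?_)
      exact (hQ (Fin.castSucc j)).ne_zero
    haveI : NeZero N₁ := ⟨hN₁0⟩
    have hNt' : Nt = N₁ * Q (Fin.last r) := by
      rw [hNt, Fin.prod_univ_castSucc, hN₁, mul_assoc]
    subst hNt'
    -- `q ∤ N₁`
    have hqN₁ : ¬ Q (Fin.last r) ∣ N₁ := by
      rw [hN₁]
      intro hdvd
      rcases (Nat.Prime.dvd_mul hq).mp hdvd with h | h
      · exact hQN (Fin.last r) h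
      · obtain ⟨j, -, hj⟩ := (Prime.dvd_finsetProd_iff (Nat.Prime.prime hq) _).mp h
        exact hQ'q j ((Nat.prime_dvd_prime_iff_eq hq (hQ (Fin.castSucc j))).mp hj).symm
    -- the intermediate system of constants
    obtain ⟨c₁, hc₁⟩ : ∃ c₁ : Nat.Primes → 𝒪,
        c₁ = fun ℓ : Nat.Primes => if (ℓ : ℕ) = Q (Fin.last r) then c ℓ else c' ℓ := ⟨_, rfl⟩
    have hc₁q : c₁ ⟨Q (Fin.last r), hq⟩ = c ⟨Q (Fin.last r), hq⟩ := by
      rw [hc₁]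
      exact if_pos rfl
    have hc₁eq : ∀ ℓ : Nat.Primes, (ℓ : ℕ) = Q (Fin.last r) → c₁ ℓ = c ℓ := by
      intro ℓ hℓ
      rw [hc₁]
      exact if_pos hℓ
    have hc₁ne : ∀ ℓ : Nat.Primes, (ℓ : ℕ) ≠ Q (Fin.last r) → c₁ ℓ = c' ℓ := by
      intro ℓ hℓ
      rw [hc₁]
      exact if_neg hℓ
    have h1 : Function.Injective (fun j : Fin r => Q (Fin.castSucc j)) :=
      fun i j hij => Fin.castSucc_injective r (hQinj hij)
    have h2 : ∀ j : Fin r, ((fun j : Fin r => Q (Fin.castSucc j)) j).Prime :=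
      fun j => hQ (Fin.castSucc j)
    have h3 : ∀ j : Fin r, ¬ (fun j : Fin r => Q (Fin.castSucc j)) j ∣ N :=
      fun j => hQN (Fin.castSucc j)
    have h4 : ∀ j : Fin r, IsUnit (((fun j : Fin r => Q (Fin.castSucc j)) j : ℕ) : 𝒪) :=
      fun j => hQO (Fin.castSucc j)
    have h5 : ∀ j : Fin r, (⟨(fun j : Fin r => Q (Fin.castSucc j)) j, h2 j⟩ : Nat.Primes) ∈ P :=
      fun j => hQP (Fin.castSucc j)
    have h6 : ∀ j : Fin r, (fun j : Fin r => a (Fin.castSucc j)) j ^ 2 -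
        c ⟨(fun j : Fin r => Q (Fin.castSucc j)) j, h2 j⟩ *
          (fun j : Fin r => a (Fin.castSucc j)) j +
        (((fun j : Fin r => Q (Fin.castSucc j)) j : ℕ) : 𝒪) ∈ maximalIdeal 𝒪 :=
      fun j => ha (Fin.castSucc j)
    have h7 : ∀ j : Fin r, IsUnit (2 * (fun j : Fin r => a (Fin.castSucc j)) j -
        c ⟨(fun j : Fin r => Q (Fin.castSucc j)) j, h2 j⟩) :=
      fun j => hsimple (Fin.castSucc j)
    have h8 : ∀ j : Fin r, IsUnit ((fun j : Fin r => a (Fin.castSucc j)) j ^ 2 - 1) :=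
      fun j => ha1 (Fin.castSucc j)
    have h9 : ∀ j : Fin r, c₁ ⟨(fun j : Fin r => Q (Fin.castSucc j)) j, h2 j⟩ =
        (fun j : Fin r => a (Fin.castSucc j)) j := by
      intro j
      exact (hc₁ne ⟨Q (Fin.castSucc j), hQ (Fin.castSucc j)⟩ (hQ'q j)).trans
        (hc'Q (Fin.castSucc j))
    have h10 : ∀ ℓ : Nat.Primes,
        (∀ j : Fin r, (fun j : Fin r => Q (Fin.castSucc j)) j ≠ (ℓ : ℕ)) → c₁ ℓ = c ℓ := by
      intro ℓ hℓ
      by_cases hℓq : (ℓ : ℕ) = Q (Fin.last r)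
      · exact hc₁eq ℓ hℓq
      · rw [hc₁ne ℓ hℓq]
        refine hcc' ℓ fun j => ?_
        refine Fin.lastCases ?_ (fun i => ?_) j
        · exact fun h => hℓq h.symm
        · exact hℓ i
    obtain ⟨φ₁, hφ₁⟩ := ih N (fun j : Fin r => Q (Fin.castSucc j)) h1 h2 h3 h4 P h5 c c₁
      (fun j : Fin r => a (Fin.castSucc j)) h6 h7 h8 h9 h10 N₁ hN₁
    have hc'q : c' ⟨Q (Fin.last r), hq⟩ = a (Fin.last r) := hc'Q (Fin.last r)
    obtain ⟨φ₂, hφ₂⟩ := t3_step N₁ (Q (Fin.last r)) hq hqN₁ 𝒪 (hQO (Fin.last r)) P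
      (hQP (Fin.last r)) c₁ c'
      (by rw [hc'q, hc₁q]; exact ha (Fin.last r))
      (by rw [hc'q, hc₁q]; exact hsimple (Fin.last r))
      (by rw [hc'q]; exact ha1 (Fin.last r))
      (fun ℓ hℓ => (hc₁ne ℓ hℓ).symm)
    refine ⟨φ₁.trans φ₂, fun ℓ hℓ x y hxy => ?_⟩
    have hℓq : (ℓ : ℕ) ≠ Q (Fin.last r) := fun h => hℓ (Fin.last r) h.symm
    have hℓQ' : ∀ j : Fin r, Q (Fin.castSucc j) ≠ (ℓ : ℕ) := fun j => hℓ (Fin.castSucc j)
    rw [LinearEquiv.trans_apply, LinearEquiv.trans_apply]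
    exact hφ₂ ℓ hℓq (φ₁ x) (φ₁ y) (hφ₁ ℓ hℓQ' x y hxy)

end Fermat.Agent.RB.TWM
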