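/-
RB — helper3 — [TWMOD]-T2, part 10: **the Taylor–Wiles group `Δ_Q = (ℤ/N)^r`** (`N = p ^ n`).

* `TWGrp N r = Fin r → Multiplicative (ZMod N)`, generators `twGen N r q`, the bijection
  `e ↦ ∏ q, twGen q ^ e q` (`twGen_bijective`: the hypothesis `hδ` of `explicit_basis_bijective`),
  `isPGroup_TWGrp`;
* `exists_twProj` : for distinct primes `Q j ≡ 1 mod N` a surjection
  `(ℤ/∏ Q j)ˣ →* TWGrp N r` whose `j`-th component factors through `(ℤ/Q j)ˣ`.
-/
import Mathlib

set_option autoImplicit false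
set_option linter.unusedSectionVars false

namespace Fermat.Agent.RB

open scoped Function

/-- the Taylor–Wiles group `(ℤ/N)^r`, written multiplicatively. -/
abbrev TWGrp (N r : ℕ) : Type := Fin r → Multiplicative (ZMod N)

section Gen

variable (N r : ℕ)

/-- the generator of the `q`-th factor. -/
def twGen (q : Fin r) : TWGrp N r := Pi.mulSingle q (Multiplicative.ofAdd (1 : ZMod N))

theorem twGen_pow_apply (q j : Fin r) (k : ℕ) :
    (twGen N r q ^ k) j = if j = q then Multiplicative.ofAdd ((k : ZMod N)) else 1 := by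
  rw [Pi.pow_apply, twGen, Pi.mulSingle_apply]
  split_ifs with h
  · rw [← ofAdd_nsmul, nsmul_eq_mul, mul_one]
  · rw [one_pow]

theorem prod_twGen_pow_apply (e : Fin r → ℕ) (j : Fin r) :
    (∏ q, twGen N r q ^ e q) j = Multiplicative.ofAdd ((e j : ZMod N)) := by
  rw [Finset.prod_apply]
  simp only [twGen_pow_apply]
  rw [Finset.prod_ite_eq]
  simp

theorem twGen_pow_card (q : Fin r) : twGen N r q ^ N = 1 := by
  funext j
  rw [twGen_pow_apply]
  split_ifs
  · rw [ZMod.natCast_self, ofAdd_zero]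
    rfl
  · rfl

/-- every element of `(ℤ/N)^r` is uniquely `∏ q, (twGen q) ^ e q`, `0 ≤ e q < N`. -/
theorem twGen_bijective [NeZero N] :
    Function.Bijective fun e : Fin r → Fin N => ∏ q, twGen N r q ^ ((e q : Fin N) : ℕ) := by
  constructor
  · intro e e' h
    funext j
    have h1 := congrFun h j
    simp only [prod_twGen_pow_apply] at h1
    have h2 : (((e j : Fin N) : ℕ) : ZMod N) = (((e' j : Fin N) : ℕ) : ZMod N) :=
      Multiplicative.ofAdd.injective h1
    rw [ZMod.natCast_eq_natCast_iff', Nat.mod_eq_of_lt (e j).2, Nat.mod_eq_of_lt (e' j).2] at h2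
    exact Fin.ext h2
  · intro x
    refine ⟨fun j => ⟨(Multiplicative.toAdd (x j)).val, ZMod.val_lt _⟩, ?_⟩
    funext j
    simp only [prod_twGen_pow_apply]
    rw [ZMod.natCast_zmod_val]
    rfl

theorem isPGroup_TWGrp (p n : ℕ) [Fact p.Prime] : IsPGroup p (TWGrp (p ^ n) r) := by
  intro x
  refine ⟨n, ?_⟩
  funext j
  rw [Pi.pow_apply, Pi.one_apply]
  have : (p ^ n) • Multiplicative.toAdd (x j) = 0 := by
    rw [nsmul_eq_mul, ZMod.natCast_self, zero_mul]
  exact congrArg Multiplicative.ofAdd this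

end Gen

section Proj

/-- a finite cyclic group whose order is divisible by `N` surjects onto `ℤ/N`. -/
theorem exists_surjective_hom_of_isCyclic {C : Type*} [Group C] [IsCyclic C] {N : ℕ}
    (hN : N ∣ Nat.card C) : ∃ f : C →* Multiplicative (ZMod N), Function.Surjective f := by
  have hC : IsCyclic C := inferInstance
  refine ⟨(AddMonoidHom.toMultiplicative (ZMod.castHom hN (ZMod N)).toAddMonoidHom).comp
    (zmodCyclicMulEquiv hC).symm.toMonoidHom, ?_⟩
  intro y
  obtain ⟨x, hx⟩ := ZMod.castHom_surjective hN (Multiplicative.toAdd y)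
  refine ⟨zmodCyclicMulEquiv hC (Multiplicative.ofAdd x), ?_⟩
  simp only [MonoidHom.coe_comp, MulEquiv.coe_toMonoidHom, Function.comp_apply,
    MulEquiv.symm_apply_apply]
  exact congrArg Multiplicative.ofAdd hx

variable {N r : ℕ}

/-- **the projection `(ℤ/∏ Q)ˣ → (ℤ/N)^r`.** -/
theorem exists_twProj (Q : Fin r → ℕ) (hinj : Function.Injective Q) (hprime : ∀ j, (Q j).Prime)
    (hcong : ∀ j, N ∣ Q j - 1) :
    ∃ (π : (ZMod (∏ j, Q j))ˣ →* TWGrp N r)
      (f : ∀ j, (ZMod (Q j))ˣ →* Multiplicative (ZMod N)),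
      Function.Surjective π ∧ (∀ j, Function.Surjective (f j)) ∧
      ∀ u j, π u j = f j (ZMod.unitsMap (Finset.dvd_prod_of_mem Q (Finset.mem_univ j)) u) := by
  classical
  have hf : ∀ j, ∃ f : (ZMod (Q j))ˣ →* Multiplicative (ZMod N), Function.Surjective f := by
    intro j
    have : Fact (Q j).Prime := ⟨hprime j⟩
    have : IsCyclic (ZMod (Q j))ˣ := ZMod.isCyclic_units_prime (hprime j)
    apply exists_surjective_hom_of_isCyclic
    rw [Nat.card_eq_fintype_card, ZMod.card_units_eq_totient, Nat.totient_prime (hprime j)]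
    exact hcong j
  choose f hfs using hf
  have hcop : Pairwise (Nat.Coprime on Q) := by
    intro i j hij
    exact (Nat.coprime_primes (hprime i) (hprime j)).mpr fun h => hij (hinj h)
  let π : (ZMod (∏ j, Q j))ˣ →* TWGrp N r :=
    { toFun := fun u j =>
        f j (ZMod.unitsMap (Finset.dvd_prod_of_mem Q (Finset.mem_univ j)) u)
      map_one' := by
        funext j
        simp
      map_mul' := fun u v => by
        funext j
        simp }
  refine ⟨π, f, ?_, hfs, fun u j => rfl⟩
  intro t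
  choose w hw using fun j => hfs j (t j)
  set E := ZMod.prodEquivPi Q hcop with hE
  set u : (ZMod (∏ j, Q j))ˣ := (Units.mapEquiv E.toMulEquiv).symm (MulEquiv.piUnits.symm w)
    with hu
  refine ⟨u, ?_⟩
  funext j
  show f j (ZMod.unitsMap (Finset.dvd_prod_of_mem Q (Finset.mem_univ j)) u) = t j
  rw [← hw j]
  congr 1
  apply Units.ext
  rw [ZMod.unitsMap_def, Units.coe_map, MonoidHom.coe_coe, ← ZMod.prodEquivPi_apply Q hcop]
  have h1 : E (u : ZMod (∏ j, Q j)) = fun i => ((w i : (ZMod (Q i))ˣ) : ZMod (Q i)) := by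
    have h2 : Units.mapEquiv E.toMulEquiv u = MulEquiv.piUnits.symm w := by
      rw [hu, MulEquiv.apply_symm_apply]
    exact congrArg (fun x : (∀ i, ZMod (Q i))ˣ => (x : ∀ i, ZMod (Q i))) h2
  exact congrFun h1 j

end Proj

end Fermat.Agent.RB
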