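/-
RB = S43 via Ihara avoidance, package [TWMOD], leaf [GRP] (helper1), part 2: **the character `ψ₂` of
`Δ₁ = (ℤ/p)^s`** sending every generator `twGen i` to a given `p`-th root of unity `ζ`, and
elementary facts on `TWGrp`.
-/
import Mathlib
import Fermat.Agent.RB.T2_helper3_TWGroup

set_option autoImplicit false
set_option linter.unusedSectionVars false
set_option linter.unusedVariables false
set_option linter.style.haveILetI false

namespace Fermat.Agent.RB.TWM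

section Char

variable {𝒪 : Type} [CommRing 𝒪] (p : ℕ) [Fact p.Prime] (ζ : 𝒪) (hζ : ζ ^ p = 1)

/-- the unit `ζ`. -/
def zetaUnit : 𝒪ˣ := Units.ofPowEqOne ζ p hζ (Fact.out : p.Prime).ne_zero

theorem zetaUnit_val : ((zetaUnit p ζ hζ : 𝒪ˣ) : 𝒪) = ζ := rfl

theorem zetaUnit_pow : zetaUnit p ζ hζ ^ p = 1 := Units.pow_ofPowEqOne _ _

/-- the character `ℤ/p → 𝒪ˣ`, `a ↦ ζ ^ a`. -/
def zetaChar : Multiplicative (ZMod p) →* 𝒪ˣ where
  toFun x := zetaUnit p ζ hζ ^ (Multiplicative.toAdd x).val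
  map_one' := by
    show zetaUnit p ζ hζ ^ (0 : ZMod p).val = 1
    rw [ZMod.val_zero, pow_zero]
  map_mul' x y := by
    show zetaUnit p ζ hζ ^ (Multiplicative.toAdd x + Multiplicative.toAdd y).val = _
    rw [ZMod.val_add, ← pow_eq_pow_mod _ (zetaUnit_pow p ζ hζ), pow_add]

theorem zetaChar_apply (x : Multiplicative (ZMod p)) :
    zetaChar p ζ hζ x = zetaUnit p ζ hζ ^ (Multiplicative.toAdd x).val := rfl

/-- the character of `(ℤ/p)^s` with value `ζ` on every generator. -/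
def psiTwo (s : ℕ) : TWGrp p s →* 𝒪ˣ :=
  ∏ i : Fin s, (zetaChar p ζ hζ).comp (Pi.evalMonoidHom (fun _ : Fin s => Multiplicative (ZMod p)) i)

theorem psiTwo_apply (s : ℕ) (δ : TWGrp p s) :
    psiTwo p ζ hζ s δ = zetaUnit p ζ hζ ^ (∑ i, (Multiplicative.toAdd (δ i)).val) := by
  rw [psiTwo, MonoidHom.finsetProd_apply, ← Finset.prod_pow_eq_pow_sum]
  rfl

theorem psiTwo_mem (s : ℕ) (δ : TWGrp p s) :
    ∃ j : ℕ, ((psiTwo p ζ hζ s δ : 𝒪ˣ) : 𝒪) = ζ ^ j :=
  ⟨_, by rw [psiTwo_apply, Units.val_pow_eq_pow_val, zetaUnit_val]⟩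

theorem psiTwo_twGen (s : ℕ) (i : Fin s) :
    ((psiTwo p ζ hζ s (twGen p s i) : 𝒪ˣ) : 𝒪) = ζ := by
  rw [psiTwo_apply, Units.val_pow_eq_pow_val, zetaUnit_val]
  have h1 : ∑ k, (Multiplicative.toAdd (twGen p s i k)).val = 1 := by
    rw [Finset.sum_eq_single i]
    · rw [twGen, Pi.mulSingle_eq_same, toAdd_ofAdd, ZMod.val_one]
    · intro k _ hk
      rw [twGen, Pi.mulSingle_eq_of_ne hk, toAdd_one, ZMod.val_zero]
    · intro h
      exact absurd (Finset.mem_univ i) h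
  rw [h1, pow_one]

end Char

section Pow

variable (N r : ℕ)

/-- every element of `(ℤ/N)^r` is killed by any multiple of `N`. -/
theorem twGrp_pow_eq_one {E : ℕ} (hE : N ∣ E) (x : TWGrp N r) : x ^ E = 1 := by
  funext j
  rw [Pi.pow_apply, Pi.one_apply]
  have : E • Multiplicative.toAdd (x j) = 0 := by
    rw [nsmul_eq_mul, (ZMod.natCast_eq_zero_iff E N).2 hE, zero_mul]
  exact congrArg Multiplicative.ofAdd this

/-- a single-coordinate element is a power of the generator. -/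
theorem mulSingle_eq_twGen_pow [NeZero N] (q : Fin r) (x : Multiplicative (ZMod N)) :
    (Pi.mulSingle q x : TWGrp N r) = twGen N r q ^ (Multiplicative.toAdd x).val := by
  funext j
  rw [twGen_pow_apply]
  by_cases hj : j = q
  · subst hj
    rw [Pi.mulSingle_eq_same, if_pos rfl, ZMod.natCast_zmod_val]
    rfl
  · rw [Pi.mulSingle_eq_of_ne hj, if_neg hj]

theorem mulSingle_pow' (q : Fin r) (x : Multiplicative (ZMod N)) (e : ℕ) :
    (Pi.mulSingle q x : TWGrp N r) ^ e = Pi.mulSingle q (x ^ e) := by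
  funext j
  rw [Pi.pow_apply]
  by_cases hj : j = q
  · subst hj
    rw [Pi.mulSingle_eq_same, Pi.mulSingle_eq_same]
  · rw [Pi.mulSingle_eq_of_ne hj, Pi.mulSingle_eq_of_ne hj, one_pow]

/-- `(ofAdd 2) ^ e = ofAdd 1` when `2 e ≡ 1 mod N`. -/
theorem ofAdd_two_pow {e E : ℕ} (hE : N ∣ E) (he : 2 * e = E + 1) :
    (Multiplicative.ofAdd (2 : ZMod N)) ^ e = Multiplicative.ofAdd (1 : ZMod N) := by
  rw [← ofAdd_nsmul]
  congr 1
  rw [nsmul_eq_mul]
  have h1 : ((e : ZMod N)) * 2 = ((2 * e : ℕ) : ZMod N) := by push_cast; ring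
  rw [h1, he, Nat.cast_add, (ZMod.natCast_eq_zero_iff E N).2 hE, zero_add, Nat.cast_one]

end Pow

end Fermat.Agent.RB.TWM
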