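/-
RB = S43 via Ihara avoidance, package [TWMOD], leaf [GRP] (helper1), part 1: **congruence lemmas
for units of `ℤ/Nt`** used to build the classes `uQ q`, `uS v`:

* `unitsMap_eq_one_of_val_cast` : the literal form `((u.val : ℕ) : ZMod d) = 1` of `u ≡ 1 mod d`;
* `unitsMap_eq_one_of_prime_ne` : `u ≡ 1 mod Nt / ℓ₀` is trivial modulo every other prime of `Nt`;
* `exists_unit_lift` : Chinese remainder theorem: a unit `≡ 1 mod Nt / ℓ` with given class mod `ℓ`;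
* `exists_surjective_of_prime` : `(ℤ/ℓ)ˣ ↠ ℤ/N` for `N ∣ ℓ - 1`.
-/
import Mathlib
import Fermat.Agent.RB.T2_helper3_TWGroup

set_option autoImplicit false
set_option linter.unusedSectionVars false
set_option linter.unusedVariables false
set_option linter.style.haveILetI false

namespace Fermat.Agent.RB.TWM

/-- the literal form of `u ≡ 1 mod d`. -/
theorem unitsMap_eq_one_of_val_cast {Nt d : ℕ} [NeZero Nt] (hd : d ∣ Nt) (u : (ZMod Nt)ˣ)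
    (h : (((u : ZMod Nt).val : ℕ) : ZMod d) = 1) : ZMod.unitsMap hd u = 1 := by
  apply Units.ext
  rw [ZMod.unitsMap_def, Units.coe_map, Units.val_one, MonoidHom.coe_coe, ZMod.castHom_apply,
    ← ZMod.natCast_val]
  exact h

/-- `u ≡ 1 mod Nt / ℓ₀` is trivial modulo every prime `ℓ ≠ ℓ₀` of `Nt`. -/
theorem unitsMap_eq_one_of_prime_ne {Nt ℓ ℓ₀ : ℕ} [NeZero Nt] (hℓ : ℓ.Prime) (hℓ₀ : ℓ₀.Prime)
    (hne : ℓ ≠ ℓ₀) (hℓN : ℓ ∣ Nt) (hℓ₀N : ℓ₀ ∣ Nt) (u : (ZMod Nt)ˣ)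
    (h : (((u : ZMod Nt).val : ℕ) : ZMod (Nt / ℓ₀)) = 1) : ZMod.unitsMap hℓN u = 1 := by
  have h1 : ℓ ∣ Nt / ℓ₀ := by
    obtain ⟨c, hc⟩ := hℓ₀N
    have h2 : ℓ ∣ ℓ₀ * c := hc ▸ hℓN
    rw [hc, Nat.mul_div_cancel_left c hℓ₀.pos]
    exact ((Nat.Prime.dvd_mul hℓ).1 h2).resolve_left
      (fun h' => hne ((Nat.prime_dvd_prime_iff_eq hℓ hℓ₀).1 h'))
  have h2 : Nt / ℓ₀ ∣ Nt := Nat.div_dvd_of_dvd hℓ₀N
  have h3 := unitsMap_eq_one_of_val_cast h2 u h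
  have h4 := DFunLike.congr_fun (ZMod.unitsMap_comp h1 h2) u
  rw [MonoidHom.comp_apply, h3, map_one] at h4
  exact h4.symm

/-- **Chinese remainder theorem**: a unit `≡ 1 mod Nt / ℓ` with prescribed class modulo `ℓ`. -/
theorem exists_unit_lift {Nt ℓ : ℕ} [NeZero Nt] (hℓ : ℓ.Prime) (hℓN : ℓ ∣ Nt)
    (hcop : Nat.Coprime ℓ (Nt / ℓ)) (w : (ZMod ℓ)ˣ) :
    ∃ u : (ZMod Nt)ˣ, (((u : ZMod Nt).val : ℕ) : ZMod (Nt / ℓ)) = 1 ∧ ZMod.unitsMap hℓN u = w := by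
  haveI : NeZero ℓ := ⟨hℓ.ne_zero⟩
  haveI : Fact ℓ.Prime := ⟨hℓ⟩
  obtain ⟨k, hk1, hk2⟩ := Nat.chineseRemainder hcop (w : ZMod ℓ).val 1
  have hNt : Nt = ℓ * (Nt / ℓ) := (Nat.mul_div_cancel' hℓN).symm
  have hkℓ : ((k : ℕ) : ZMod ℓ) = (w : ZMod ℓ) := by
    rw [(ZMod.natCast_eq_natCast_iff _ _ _).2 hk1, ZMod.natCast_zmod_val]
  have hc1 : Nat.Coprime k ℓ := by
    rw [Nat.coprime_comm, Nat.Prime.coprime_iff_not_dvd hℓ]
    intro hd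
    have h0 : ((k : ℕ) : ZMod ℓ) = 0 := (ZMod.natCast_eq_zero_iff k ℓ).2 hd
    rw [hkℓ] at h0
    exact w.ne_zero h0
  have hc2 : Nat.Coprime k (Nt / ℓ) := by
    have := hk2.gcd_eq
    rw [Nat.Coprime, this]
    exact Nat.gcd_one_left _
  have hc : Nat.Coprime k Nt := by
    rw [hNt]
    exact Nat.Coprime.mul_right hc1 hc2
  refine ⟨ZMod.unitOfCoprime k hc, ?_, ?_⟩
  · rw [ZMod.coe_unitOfCoprime, ZMod.val_natCast]
    have h1 : k % Nt ≡ k [MOD Nt / ℓ] :=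
      (Nat.mod_modEq k Nt).of_dvd (Nat.div_dvd_of_dvd hℓN)
    rw [(ZMod.natCast_eq_natCast_iff _ _ _).2 (h1.trans hk2), Nat.cast_one]
  · apply Units.ext
    rw [ZMod.unitsMap_def, Units.coe_map, MonoidHom.coe_coe, ZMod.castHom_apply,
      ZMod.coe_unitOfCoprime, ZMod.cast_natCast hℓN]
    exact hkℓ

/-- `(ℤ/ℓ)ˣ ↠ ℤ/N` for a prime `ℓ ≡ 1 mod N`. -/
theorem exists_surjective_of_prime {ℓ N : ℕ} (hℓ : ℓ.Prime) (hN : N ∣ ℓ - 1) :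
    ∃ f : (ZMod ℓ)ˣ →* Multiplicative (ZMod N), Function.Surjective f := by
  haveI : Fact ℓ.Prime := ⟨hℓ⟩
  haveI : IsCyclic (ZMod ℓ)ˣ := ZMod.isCyclic_units_prime hℓ
  apply exists_surjective_hom_of_isCyclic
  rw [Nat.card_eq_fintype_card, ZMod.card_units_eq_totient, Nat.totient_prime hℓ]
  exact hN

end Fermat.Agent.RB.TWM
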