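/-
RB = S43 via Ihara avoidance, package [TWMOD], leaf [GRP] (helper1), part 3: **the projection
`π : (ℤ/M)ˣ → (ℤ/N₁)^s × (ℤ/N₂)^r`** attached to two families of primes dividing `M`, and its values
on units which are `≡ 1` modulo `Nt / ℓ`.
-/
import Mathlib
import Fermat.Agent.RB.TWMOD_helper1_GrpAux

set_option autoImplicit false
set_option linter.unusedSectionVars false
set_option linter.unusedVariables false
set_option linter.style.haveILetI false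

namespace Fermat.Agent.RB.TWM

section Pi

variable {M s r N₁ N₂ : ℕ} (V : Fin s → ℕ) (Q : Fin r → ℕ)
  (hVM : ∀ i, V i ∣ M) (hQM : ∀ j, Q j ∣ M)
  (f₁ : ∀ i, (ZMod (V i))ˣ →* Multiplicative (ZMod N₁))
  (f₂ : ∀ j, (ZMod (Q j))ˣ →* Multiplicative (ZMod N₂))

/-- the projection. -/
def twPi : (ZMod M)ˣ →* TWGrp N₁ s × TWGrp N₂ r :=
  MonoidHom.prod (MonoidHom.pi fun i => (f₁ i).comp (ZMod.unitsMap (hVM i)))
    (MonoidHom.pi fun j => (f₂ j).comp (ZMod.unitsMap (hQM j)))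

theorem twPi_fst (x : (ZMod M)ˣ) (i : Fin s) :
    (twPi V Q hVM hQM f₁ f₂ x).1 i = f₁ i (ZMod.unitsMap (hVM i) x) := rfl

theorem twPi_snd (x : (ZMod M)ˣ) (j : Fin r) :
    (twPi V Q hVM hQM f₁ f₂ x).2 j = f₂ j (ZMod.unitsMap (hQM j) x) := rfl

variable {Nt : ℕ} [NeZero Nt] (hM : M ∣ Nt)
  (hVp : ∀ i, (V i).Prime) (hQp : ∀ j, (Q j).Prime)
  (hVinj : Function.Injective V) (hQinj : Function.Injective Q) (hVQ : ∀ i j, V i ≠ Q j)

include hVp hQp hVinj hVQ in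
/-- the value of `π` on a unit `≡ 1 mod Nt / V i₀`. -/
theorem twPi_of_cong_V (i₀ : Fin s) (u : (ZMod Nt)ˣ)
    (h : (((u : ZMod Nt).val : ℕ) : ZMod (Nt / V i₀)) = 1) :
    twPi V Q hVM hQM f₁ f₂ (ZMod.unitsMap hM u) =
      (Pi.mulSingle i₀ (f₁ i₀ (ZMod.unitsMap ((hVM i₀).trans hM) u)), 1) := by
  have hcomp : ∀ {ℓ : ℕ} (hℓ : ℓ ∣ M), ZMod.unitsMap hℓ (ZMod.unitsMap hM u) =
      ZMod.unitsMap (hℓ.trans hM) u := fun hℓ =>
    DFunLike.congr_fun (ZMod.unitsMap_comp hℓ hM) u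
  refine Prod.ext ?_ ?_
  · funext i
    show (twPi V Q hVM hQM f₁ f₂ (ZMod.unitsMap hM u)).1 i = (Pi.mulSingle i₀ _ : TWGrp N₁ s) i
    rw [twPi_fst, hcomp]
    by_cases hi : i = i₀
    · subst hi
      rw [Pi.mulSingle_eq_same]
    · rw [Pi.mulSingle_eq_of_ne hi,
        unitsMap_eq_one_of_prime_ne (hVp i) (hVp i₀) (fun h' => hi (hVinj h'))
          ((hVM i).trans hM) ((hVM i₀).trans hM) u h, map_one]
  · funext j
    rw [twPi_snd, hcomp,
      unitsMap_eq_one_of_prime_ne (hQp j) (hVp i₀) (fun h' => hVQ i₀ j h'.symm)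
        ((hQM j).trans hM) ((hVM i₀).trans hM) u h, map_one]
    rfl

include hVp hQp hQinj hVQ in
/-- the value of `π` on a unit `≡ 1 mod Nt / Q j₀`. -/
theorem twPi_of_cong_Q (j₀ : Fin r) (u : (ZMod Nt)ˣ)
    (h : (((u : ZMod Nt).val : ℕ) : ZMod (Nt / Q j₀)) = 1) :
    twPi V Q hVM hQM f₁ f₂ (ZMod.unitsMap hM u) =
      (1, Pi.mulSingle j₀ (f₂ j₀ (ZMod.unitsMap ((hQM j₀).trans hM) u))) := by
  have hcomp : ∀ {ℓ : ℕ} (hℓ : ℓ ∣ M), ZMod.unitsMap hℓ (ZMod.unitsMap hM u) =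
      ZMod.unitsMap (hℓ.trans hM) u := fun hℓ =>
    DFunLike.congr_fun (ZMod.unitsMap_comp hℓ hM) u
  refine Prod.ext ?_ ?_
  · funext i
    rw [twPi_fst, hcomp,
      unitsMap_eq_one_of_prime_ne (hVp i) (hQp j₀) (fun h' => hVQ i j₀ h')
        ((hVM i).trans hM) ((hQM j₀).trans hM) u h, map_one]
    rfl
  · funext j
    show (twPi V Q hVM hQM f₁ f₂ (ZMod.unitsMap hM u)).2 j = (Pi.mulSingle j₀ _ : TWGrp N₂ r) j
    rw [twPi_snd, hcomp]
    by_cases hj : j = j₀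
    · subst hj
      rw [Pi.mulSingle_eq_same]
    · rw [Pi.mulSingle_eq_of_ne hj,
        unitsMap_eq_one_of_prime_ne (hQp j) (hQp j₀) (fun h' => hj (hQinj h'))
          ((hQM j).trans hM) ((hQM j₀).trans hM) u h, map_one]

include hM hVp hQp hVinj hQinj hVQ in
/-- `π` is onto when the primes exactly divide `Nt` and the `f` are onto. -/
theorem twPi_surjective (hVcop : ∀ i, Nat.Coprime (V i) (Nt / V i))
    (hQcop : ∀ j, Nat.Coprime (Q j) (Nt / Q j))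
    (hf₁ : ∀ i, Function.Surjective (f₁ i)) (hf₂ : ∀ j, Function.Surjective (f₂ j)) :
    Function.Surjective (twPi V Q hVM hQM f₁ f₂) := by
  classical
  rintro ⟨t₁, t₂⟩
  choose w₁ hw₁ using fun i => hf₁ i (t₁ i)
  choose w₂ hw₂ using fun j => hf₂ j (t₂ j)
  choose U₁ hU₁ hU₁' using fun i =>
    exists_unit_lift (hVp i) ((hVM i).trans hM) (hVcop i) (w₁ i)
  choose U₂ hU₂ hU₂' using fun j =>
    exists_unit_lift (hQp j) ((hQM j).trans hM) (hQcop j) (w₂ j)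
  refine ⟨ZMod.unitsMap hM ((∏ i, U₁ i) * ∏ j, U₂ j), ?_⟩
  rw [map_mul, map_mul, map_prod, map_prod, map_prod, map_prod]
  have h1 : ∀ i, twPi V Q hVM hQM f₁ f₂ (ZMod.unitsMap hM (U₁ i)) =
      (Pi.mulSingle i (t₁ i), 1) := fun i => by
    rw [twPi_of_cong_V V Q hVM hQM f₁ f₂ hM hVp hQp hVinj hVQ i (U₁ i) (hU₁ i), hU₁', hw₁]
  have h2 : ∀ j, twPi V Q hVM hQM f₁ f₂ (ZMod.unitsMap hM (U₂ j)) =
      (1, Pi.mulSingle j (t₂ j)) := fun j => by
    rw [twPi_of_cong_Q V Q hVM hQM f₁ f₂ hM hVp hQp hQinj hVQ j (U₂ j) (hU₂ j), hU₂', hw₂]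
  simp only [h1, h2]
  refine Prod.ext ?_ ?_
  · rw [Prod.fst_mul, Prod.fst_prod, Prod.fst_prod]
    simp only [Finset.prod_const_one, mul_one]
    exact Finset.univ_prod_mulSingle t₁
  · rw [Prod.snd_mul, Prod.snd_prod, Prod.snd_prod]
    simp only [Finset.prod_const_one, one_mul]
    exact Finset.univ_prod_mulSingle t₂

end Pi

end Fermat.Agent.RB.TWM
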