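/-
RB = S43 via Ihara avoidance, package [TWMOD], leaf [GRP] (helper1), part 4: **the group data of a
Taylor–Wiles level**, in a form independent of helper2's literal.
-/
import Mathlib
import Fermat.Agent.RB.TWMOD_helper1_GrpPi
import Fermat.Agent.RB.TWMOD_helper1_GrpChar

set_option autoImplicit false
set_option linter.unusedSectionVars false
set_option linter.unusedVariables false
set_option linter.style.haveILetI false

namespace Fermat.Agent.RB.TWM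

/-- a product of distinct primes is squarefree. -/
theorem squarefree_prod_primes {ι : Type*} (s : Finset ι) (f : ι → ℕ) (hf : ∀ i ∈ s, (f i).Prime)
    (hinj : Set.InjOn f s) : Squarefree (∏ i ∈ s, f i) := by
  refine Finset.squarefree_prod_of_pairwise_isCoprime (fun i hi j hj hij => ?_)
    (fun i hi => (hf i hi).prime.squarefree)
  show IsRelPrime (f i) (f j)
  rw [← Nat.coprime_iff_isRelPrime]
  exact (Nat.coprime_primes (hf i hi) (hf j hj)).2 fun h => hij (hinj hi hj h)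

/-- a prime dividing the squarefree part `M` of `Nt` (with `gcd(M, Nt/M) = 1`) divides `Nt`
exactly. -/
theorem coprime_div_of_squarefree {Nt M ℓ : ℕ} (hMsq : Squarefree M) (hM : M ∣ Nt)
    (hcop : Nat.Coprime M (Nt / M)) (hℓ : ℓ.Prime) (hℓM : ℓ ∣ M) : Nat.Coprime ℓ (Nt / ℓ) := by
  rw [Nat.Prime.coprime_iff_not_dvd hℓ]
  intro hd
  have h1 : ℓ * ℓ ∣ Nt := (Nat.dvd_div_iff_mul_dvd (hℓM.trans hM)).1 hd
  have h2 : Nt = M * (Nt / M) := (Nat.mul_div_cancel' hM).symm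
  have h3 : Nat.Coprime (ℓ * ℓ) (Nt / M) :=
    Nat.Coprime.mul_left (Nat.Coprime.coprime_dvd_left hℓM hcop)
      (Nat.Coprime.coprime_dvd_left hℓM hcop)
  rw [h2] at h1
  have h4 : ℓ * ℓ ∣ M := h3.dvd_of_dvd_mul_right h1
  exact hℓ.one_lt.ne' (Nat.isUnit_iff.1 (hMsq ℓ h4))

/-- **[GRP]**: the group data of the Taylor–Wiles level `(n, Q)` (the content of helper2's literal
`GrpDataStatement`). -/
theorem grpData {𝒪 : Type} [CommRing 𝒪]
    (p : ℕ) [Fact p.Prime] (hp2 : p ≠ 2) (ζ : 𝒪) (hζ : ζ ^ p = 1)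
    (Sig : Finset ℕ) (hSig : ∀ v ∈ Sig, v.Prime ∧ v ≡ 1 [MOD p])
    (r n : ℕ) (Q : Fin r → ℕ) (hQinj : Function.Injective Q) (hQp : ∀ j, (Q j).Prime)
    (hQS : ∀ j, Q j ∉ Sig) (hQc : ∀ j, p ^ n ∣ Q j - 1)
    (Nt M : ℕ) [NeZero Nt] (hMdef : M = (∏ v ∈ Sig, v) * ∏ j, Q j) (hM : M ∣ Nt)
    (hcop : Nat.Coprime M (Nt / M)) :
    ∃ (π σ : (ZMod M)ˣ →* TWGrp p Sig.card × TWGrp (p ^ n) r)
      (uQ : Fin r → (ZMod Nt)ˣ) (uS : ℕ → (ZMod Nt)ˣ) (δS : ℕ → TWGrp p Sig.card)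
      (ψ₂ : TWGrp p Sig.card →* 𝒪ˣ),
      Function.Surjective π ∧ (∀ u, σ u ^ 2 = π u) ∧ π (-1) = 1 ∧
      IsPGroup p (TWGrp p Sig.card × TWGrp (p ^ n) r) ∧
      (∀ q, ((((uQ q : (ZMod Nt)ˣ) : ZMod Nt).val : ℕ) : ZMod (Nt / Q q)) = 1) ∧
      (∀ v ∈ Sig, ((((uS v : (ZMod Nt)ˣ) : ZMod Nt).val : ℕ) : ZMod (Nt / v)) = 1) ∧
      (∀ q, σ (ZMod.unitsMap hM (uQ q)) = ((1 : TWGrp p Sig.card), twGen (p ^ n) r q)) ∧
      (∀ v ∈ Sig, σ (ZMod.unitsMap hM (uS v)) = (δS v, (1 : TWGrp (p ^ n) r))) ∧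
      (∀ v ∈ Sig, ∀ u : (ZMod Nt)ˣ, (((u : ZMod Nt).val : ℕ) : ZMod (Nt / v)) = 1 →
        ∃ j : ℕ, σ (ZMod.unitsMap hM u) = (δS v ^ j, (1 : TWGrp (p ^ n) r))) ∧
      (∀ v ∈ Sig, ((ψ₂ (δS v) : 𝒪ˣ) : 𝒪) = ζ) ∧
      (∀ δ, ∃ j : ℕ, ((ψ₂ δ : 𝒪ˣ) : 𝒪) = ζ ^ j) := by
  classical
  have hp : p.Prime := Fact.out
  haveI : NeZero p := ⟨hp.ne_zero⟩
  -- enumeration of `Sig`
  set s := Sig.card with hs
  let eS : ↥Sig ≃ Fin s := Sig.equivFin
  let V : Fin s → ℕ := fun i => ((eS.symm i : ↥Sig) : ℕ)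
  have hVmem : ∀ i, V i ∈ Sig := fun i => (eS.symm i).2
  have hVp : ∀ i, (V i).Prime := fun i => (hSig _ (hVmem i)).1
  have hVinj : Function.Injective V := fun i i' h => eS.symm.injective (Subtype.ext h)
  have hVQ : ∀ i j, V i ≠ Q j := fun i j h => hQS j (h ▸ hVmem i)
  have hVe : ∀ v (h : v ∈ Sig), V (eS ⟨v, h⟩) = v := fun v h => by
    show ((eS.symm (eS ⟨v, h⟩) : ↥Sig) : ℕ) = v
    rw [Equiv.symm_apply_apply]
  have hprodV : ∏ i, V i = ∏ v ∈ Sig, v := by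
    rw [← Finset.prod_coe_sort Sig (fun v => v)]
    exact Equiv.prod_comp eS.symm (fun x : ↥Sig => (x : ℕ))
  have hVM : ∀ i, V i ∣ M := fun i => by
    rw [hMdef, ← hprodV]
    exact Dvd.dvd.mul_right (Finset.dvd_prod_of_mem V (Finset.mem_univ i)) _
  have hQM : ∀ j, Q j ∣ M := fun j => by
    rw [hMdef]
    exact Dvd.dvd.mul_left (Finset.dvd_prod_of_mem Q (Finset.mem_univ j)) _
  have hMsq : Squarefree M := by
    rw [hMdef, Nat.squarefree_mul_iff]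
    refine ⟨?_, ?_, ?_⟩
    · refine Nat.Coprime.prod_left fun v hv => Nat.Coprime.prod_right fun j _ => ?_
      exact (Nat.coprime_primes (hSig v hv).1 (hQp j)).2 fun h => hQS j (h ▸ hv)
    · exact squarefree_prod_primes Sig (fun v => v) (fun v hv => (hSig v hv).1)
        (fun _ _ _ _ h => h)
    · exact squarefree_prod_primes Finset.univ Q (fun j _ => hQp j) (fun _ _ _ _ h => hQinj h)
  have hVcop : ∀ i, Nat.Coprime (V i) (Nt / V i) := fun i =>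
    coprime_div_of_squarefree hMsq hM hcop (hVp i) (hVM i)
  have hQcop : ∀ j, Nat.Coprime (Q j) (Nt / Q j) := fun j =>
    coprime_div_of_squarefree hMsq hM hcop (hQp j) (hQM j)
  -- the local characters
  have hVc : ∀ i, p ∣ V i - 1 := fun i =>
    (Nat.modEq_iff_dvd' (hVp i).one_lt.le).1 (hSig _ (hVmem i)).2.symm
  choose f₁ hf₁ using fun i => exists_surjective_of_prime (hVp i) (hVc i)
  choose f₂ hf₂ using fun j => exists_surjective_of_prime (hQp j) (hQc j)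
  -- the exponent
  obtain ⟨e', he'⟩ : Odd (p ^ (n + 1)) := (hp.odd_of_ne_two hp2).pow
  have he : 2 * (e' + 1) = p ^ (n + 1) + 1 := by omega
  have hpE : p ∣ p ^ (n + 1) := dvd_pow_self p (Nat.succ_ne_zero n)
  have hpnE : p ^ n ∣ p ^ (n + 1) := pow_dvd_pow p (Nat.le_succ n)
  have hkill : ∀ x : TWGrp p s × TWGrp (p ^ n) r, x ^ (p ^ (n + 1)) = 1 := fun x =>
    Prod.ext (twGrp_pow_eq_one p s hpE x.1) (twGrp_pow_eq_one (p ^ n) r hpnE x.2)
  have hroot : ∀ x : TWGrp p s × TWGrp (p ^ n) r, (x ^ (e' + 1)) ^ 2 = x := fun x => by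
    rw [← pow_mul, mul_comm, he, pow_succ, hkill, one_mul]
  set π := twPi V Q hVM hQM f₁ f₂ with hπ
  set σ : (ZMod M)ˣ →* TWGrp p s × TWGrp (p ^ n) r := (powMonoidHom (e' + 1)).comp π with hσ
  have hσapp : ∀ x, σ x = π x ^ (e' + 1) := fun x => rfl
  -- the classes
  choose wQ hwQ using fun j => hf₂ j (Multiplicative.ofAdd (2 : ZMod (p ^ n)))
  choose uQ huQ huQ' using fun j =>
    exists_unit_lift (hQp j) ((hQM j).trans hM) (hQcop j) (wQ j)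
  choose wS hwS using fun i => hf₁ i (Multiplicative.ofAdd (2 : ZMod p))
  choose uV huV huV' using fun i =>
    exists_unit_lift (hVp i) ((hVM i).trans hM) (hVcop i) (wS i)
  refine ⟨π, σ, uQ, fun v => if h : v ∈ Sig then uV (eS ⟨v, h⟩) else 1,
    fun v => if h : v ∈ Sig then twGen p s (eS ⟨v, h⟩) else 1, psiTwo p ζ hζ s,
    ?_, ?_, ?_, ?_, ?_, ?_, ?_, ?_, ?_, ?_, ?_⟩
  · exact twPi_surjective V Q hVM hQM f₁ f₂ hM hVp hQp hVinj hQinj hVQ hVcop hQcop hf₁ hf₂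
  · intro u
    rw [hσapp]
    exact hroot _
  · have h1 : π (-1) ^ 2 = 1 := by rw [← map_pow, neg_one_sq, map_one]
    rw [← hroot (π (-1)), ← pow_mul, mul_comm, pow_mul, h1, one_pow]
  · exact fun x => ⟨n + 1, hkill x⟩
  · exact huQ
  · intro v hv
    simp only [dif_pos hv]
    have h1 := huV (eS ⟨v, hv⟩)
    rw [hVe v hv] at h1
    exact h1
  · intro q
    rw [hσapp, hπ, twPi_of_cong_Q V Q hVM hQM f₁ f₂ hM hVp hQp hQinj hVQ q (uQ q) (huQ q),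
      huQ' q, hwQ q]
    refine Prod.ext (one_pow _) ?_
    show (Pi.mulSingle q (Multiplicative.ofAdd (2 : ZMod (p ^ n))) : TWGrp (p ^ n) r) ^ (e' + 1) =
      twGen (p ^ n) r q
    rw [mulSingle_pow', ofAdd_two_pow (p ^ n) hpnE he]
    rfl
  · intro v hv
    simp only [dif_pos hv]
    rw [hσapp, hπ, twPi_of_cong_V V Q hVM hQM f₁ f₂ hM hVp hQp hVinj hVQ (eS ⟨v, hv⟩)
      (uV (eS ⟨v, hv⟩)) (huV _), huV', hwS]
    refine Prod.ext ?_ (one_pow _)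
    show (Pi.mulSingle (eS ⟨v, hv⟩) (Multiplicative.ofAdd (2 : ZMod p)) : TWGrp p s) ^ (e' + 1) =
      twGen p s (eS ⟨v, hv⟩)
    rw [mulSingle_pow', ofAdd_two_pow p hpE he]
    rfl
  · intro v hv u hu
    simp only [dif_pos hv]
    have hu' : (((u : ZMod Nt).val : ℕ) : ZMod (Nt / V (eS ⟨v, hv⟩))) = 1 := by
      rw [hVe v hv]
      exact hu
    rw [hσapp, hπ, twPi_of_cong_V V Q hVM hQM f₁ f₂ hM hVp hQp hVinj hVQ (eS ⟨v, hv⟩) u hu']
    refine ⟨(Multiplicative.toAdd (f₁ (eS ⟨v, hv⟩)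
      (ZMod.unitsMap ((hVM (eS ⟨v, hv⟩)).trans hM) u))).val * (e' + 1), ?_⟩
    refine Prod.ext ?_ (one_pow _)
    show (Pi.mulSingle (eS ⟨v, hv⟩) _ : TWGrp p s) ^ (e' + 1) = _
    rw [pow_mul, ← mulSingle_eq_twGen_pow]
  · intro v hv
    simp only [dif_pos hv]
    exact psiTwo_twGen p ζ hζ s _
  · exact psiTwo_mem p ζ hζ s

end Fermat.Agent.RB.TWM
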