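/-
RB — helper3 — [TWMOD]-T2, part 9: **general forms** (arbitrary character `u : Γ →* Λˣ`, arbitrary
ring surjection `Λ → Λ'`), so that the twisted sides (`δ_v ↦ ζ^{e_v}`) and the reduction modulo `λ`
are instances of the same three statements.

* `free_idemRange_of_cocEta` : `Λ` noetherian local, `u` any character with (CD1); a retract
  `e H¹(Γ, Λ(u))` cut out by an idempotent `e = α ε` of a commutative ring of endomorphisms, on which
  `η = T_D - deg D = α t` is invertible (`α (t s') e = e`), is free.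
* `control_idemRange_of_surjective` : for `ε : Λ ↠ Λ'`, `u' = ε ∘ u`, and idempotents `e`, `e'`
  intertwined by the natural map, `e H¹(Γ, Λ(u)) → e' H¹(Γ, Λ'(u'))` is onto with kernel
  `ker ε • e H¹`.
* `exists_basis_of_semilinear_surjective` : a basis of `M` over `A` descends along a surjective
  semilinear `f : M → N` over `φ : A ↠ B` with kernel `ker φ • M` to a basis of `N` over `B`
  (so the ranks of the two sides, of the reduction and of level zero agree).
-/
import Mathlib
import Fermat.Agent.RB.T2_helper3_Main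

set_option autoImplicit false
set_option linter.unusedSectionVars false
set_option linter.style.haveILetI false

namespace Fermat.Agent.RB

open Fermat.Agent.GR IsLocalRing

universe v w

section Gen

variable {Γ : Type w} [Group Γ] {Λ : Type v} [CommRing Λ] (u : Γ →* Λˣ)

/-- **(T2, freeness, general form).** -/
theorem free_idemRange_of_cocEta [IsNoetherianRing Λ] [IsLocalRing Λ]
    [Module.Finite Λ (cocH1 u Λ)] (hL : LiftsCocycles u)
    {𝕋 : Type*} [CommRing 𝕋] (α : 𝕋 →+* Module.End Λ (cocH1 u Λ))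
    {G ι : Type*} [Group G] [Fintype ι] (D : HeckeDatum Γ G ι)
    (hD : ∀ γ i, u (D.cocycle γ i) = u γ) (t : 𝕋) (ht : α t = cocEta u D hD Λ)
    (ε s' : 𝕋) (hε : α ε * α ε = α ε) (hs' : α (t * s') * α ε = α ε) :
    Module.Free Λ ↥(idemRange (α ε)) := by
  have hcomm : ∀ a b : 𝕋, Commute (α a) (α b) := fun a b => by
    show α a * α b = α b * α a
    rw [← map_mul, ← map_mul, mul_comm]
  obtain ⟨E, hE⟩ := exists_equiv_idemRange (α ε) (α t) (α s') hε (hcomm _ _) (hcomm _ _)
    (hcomm _ _) (by rw [← map_mul]; exact hs')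
  refine free_of_retract_of_cocEta_bijective D hL hD
    (idemRange (α ε)).subtype (idemProj (α ε)) (idemProj_subtype (α ε) hε) E ?_
  intro x
  rw [hE, ht]

variable {Λ' : Type v} [CommRing Λ'] (ε : Λ →+* Λ') (u' : Γ →* Λ'ˣ)

/-- **(T2, control for idempotent parts, general form).** -/
theorem control_idemRange_of_surjective [IsNoetherianRing Λ] (hL : LiftsCocycles u)
    (hε : Function.Surjective ε) (hu : ∀ γ, ((u' γ : Λ'ˣ) : Λ') = ε ((u γ : Λˣ) : Λ))
    (e : Module.End Λ (cocH1 u Λ)) (e' : Module.End Λ' (cocH1 u' Λ')) (he : e * e = e)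
    (hcomm : ∀ x, cocH1MapSL u u' hu ε.toSemilinearMap (e x) =
      e' (cocH1MapSL u u' hu ε.toSemilinearMap x)) :
    ∃ πe : ↥(idemRange e) →ₛₗ[ε] ↥(idemRange e'),
      (∀ x, ((πe x : ↥(idemRange e')) : cocH1 u' Λ') =
        cocH1MapSL u u' hu ε.toSemilinearMap x) ∧
      Function.Surjective πe ∧
      ∀ x, πe x = 0 ↔ x ∈ (RingHom.ker ε) • (⊤ : Submodule Λ ↥(idemRange e)) := by
  refine idemRange_control (cocH1MapSL u u' hu ε.toSemilinearMap)
    (cocH1MapSL_surjective ε u' hL hε hu) (RingHom.ker ε) (fun x => ?_) e e' he hcomm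
  rw [← ker_cocH1MapSL ε u' hL hε hu, LinearMap.mem_ker]

end Gen

/-! ### Descent of bases -/

section Basis

variable {A B : Type*} [CommRing A] [CommRing B] {φ : A →+* B}
variable {M : Type*} [AddCommGroup M] [Module A M] {N : Type*} [AddCommGroup N] [Module B N]

/-- coordinates of elements of `I • M` with respect to a basis lie in `I`. -/
theorem repr_mem_of_mem_smul_top {ι : Type*} (b : Module.Basis ι A M) (I : Ideal A) {x : M}
    (hx : x ∈ I • (⊤ : Submodule A M)) (i : ι) : b.repr x i ∈ I := by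
  refine Submodule.smul_induction_on hx (fun a ha m _ => ?_) (fun x y hx hy => ?_)
  · rw [map_smul, Finsupp.smul_apply, smul_eq_mul]
    exact I.mul_mem_right _ ha
  · rw [map_add, Finsupp.add_apply]
    exact I.add_mem hx hy

/-- **descent of a basis** along a surjective semilinear map with kernel `ker φ • M`. -/
theorem exists_basis_of_semilinear_surjective {ι : Type*} [Fintype ι] (hφ : Function.Surjective φ)
    (b : Module.Basis ι A M) (f : M →ₛₗ[φ] N) (hf : Function.Surjective f)
    (hker : ∀ x, f x = 0 ↔ x ∈ (RingHom.ker φ) • (⊤ : Submodule A M)) :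
    ∃ b' : Module.Basis ι B N, ∀ i, b' i = f (b i) := by
  classical
  have hli : LinearIndependent B (fun i => f (b i)) := by
    rw [Fintype.linearIndependent_iff]
    intro c hc i
    choose a ha using fun i => hφ (c i)
    have h1 : f (∑ i, a i • b i) = 0 := by
      rw [map_sum, ← hc]
      refine Finset.sum_congr rfl fun i _ => ?_
      rw [map_smulₛₗ, ha]
    have h2 := repr_mem_of_mem_smul_top b _ ((hker _).mp h1) i
    rw [map_sum] at h2
    simp only [map_smul, Module.Basis.repr_self, Finsupp.coe_finsetSum, Finsupp.coe_smul,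
      Finset.sum_apply, Pi.smul_apply, smul_eq_mul] at h2
    rw [Finset.sum_eq_single i (fun j _ hj => by rw [Finsupp.single_eq_of_ne hj.symm, mul_zero])
      (fun h => absurd (Finset.mem_univ i) h), Finsupp.single_eq_same, mul_one] at h2
    rw [← ha i]
    exact h2
  have hsp : ⊤ ≤ Submodule.span B (Set.range fun i => f (b i)) := by
    intro y _
    obtain ⟨x, rfl⟩ := hf y
    rw [← b.sum_repr x, map_sum]
    refine Submodule.sum_mem _ fun i _ => ?_
    rw [map_smulₛₗ]
    exact Submodule.smul_mem _ _ (Submodule.subset_span ⟨i, rfl⟩)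
  exact ⟨Module.Basis.mk hli hsp, fun i => Module.Basis.mk_apply hli hsp i⟩

end Basis

/-! ### Uniqueness of the idempotent -/

section Unique

variable {R : Type*} [CommRing R] {P : Type*} [AddCommGroup P] [Module R P]
variable {𝕋 : Type*} [CommRing 𝕋]

/-- **uniqueness of the `m`-idempotent**: two elements `ε, ε'` of `𝕋` having the three properties of
`exists_idempotent_end` (for the same action and the same `m`) act by the same endomorphism. -/
theorem idem_end_unique (α : 𝕋 →+* Module.End R P) (m : Ideal 𝕋) (ε ε' : 𝕋)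
    (hinv : ∀ s : 𝕋, s ∉ m → ∃ s' : 𝕋, α (s * s') * α ε = α ε)
    (hkill : ∃ s : 𝕋, s ∉ m ∧ α s * (1 - α ε) = 0)
    (hinv' : ∀ s : 𝕋, s ∉ m → ∃ s' : 𝕋, α (s * s') * α ε' = α ε')
    (hkill' : ∃ s : 𝕋, s ∉ m ∧ α s * (1 - α ε') = 0) : α ε = α ε' := by
  have key : ∀ a b : 𝕋, (∀ s : 𝕋, s ∉ m → ∃ s' : 𝕋, α (s * s') * α a = α a) →
      (∃ s : 𝕋, s ∉ m ∧ α s * (1 - α b) = 0) → α a = α a * α b := by
    intro a b ha hb
    obtain ⟨s, hsm, hs⟩ := hb
    obtain ⟨s', hs'⟩ := ha s hsm
    have h1 : α a * (1 - α b) = 0 := by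
      calc α a * (1 - α b) = (α (s * s') * α a) * (1 - α b) := by rw [hs']
        _ = α (s' * a) * (α s * (1 - α b)) := by
          rw [← mul_assoc, ← map_mul, ← map_mul]
          congr 2
          ring
        _ = 0 := by rw [hs, mul_zero]
    rw [mul_sub, mul_one, sub_eq_zero] at h1
    exact h1
  have h1 := key ε ε' hinv hkill'
  have h2 := key ε' ε hinv' hkill
  calc α ε = α ε * α ε' := h1
    _ = α ε' * α ε := by rw [← map_mul, ← map_mul, mul_comm]
    _ = α ε' := h2.symm

end Unique

/-! ### The explicit shape of freeness over `O[D]` -/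

section Explicit

variable {O : Type*} [CommRing O] {D : Type*} [CommGroup D]
variable {M : Type*} [AddCommGroup M] [Module O M] [Module (MonoidAlgebra O D) M]
  [IsScalarTower O (MonoidAlgebra O D) M]

/-- a product of powers of the operators `[δ q]` is the operator of the product. -/
theorem list_prod_pow_apply_eq_of_smul {r : ℕ} (δ : Fin r → D) (g : Fin r → Module.End O M)
    (hg : ∀ q x, g q x = MonoidAlgebra.of O D (δ q) • x) (e : Fin r → ℕ) (x : M) :
    ((List.finRange r).map fun q => g q ^ e q).prod x =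
      MonoidAlgebra.of O D (∏ q, δ q ^ e q) • x := by
  set φ : MonoidAlgebra O D →+* Module.End O M := Module.toModuleEnd O (S := MonoidAlgebra O D) M
    with hφ
  have h1 : ∀ q, g q = φ (MonoidAlgebra.of O D (δ q)) := by
    intro q
    apply LinearMap.ext
    intro x
    rw [hg]
    rfl
  have h2 : ((List.finRange r).map fun q => g q ^ e q) =
      (((List.finRange r).map fun q => MonoidAlgebra.of O D (δ q) ^ e q)).map φ := by
    rw [List.map_map]
    apply List.map_congr_left
    intro q _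
    rw [Function.comp_apply, map_pow, h1]
  have h3 : ((List.finRange r).map fun q => MonoidAlgebra.of O D (δ q) ^ e q).prod =
      MonoidAlgebra.of O D (∏ q, δ q ^ e q) := by
    rw [← List.ofFn_eq_map, List.prod_ofFn, map_prod]
    simp only [map_pow]
  rw [h2, ← map_list_prod, h3]
  rfl

/-- **explicit form of freeness over `O[D]`, `D = ∏ ⟨δ q⟩`** (the shape of `TWSide.free`). -/
theorem explicit_basis_bijective {d r N : ℕ} (b : Module.Basis (Fin d) (MonoidAlgebra O D) M)
    (δ : Fin r → D)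
    (hδ : Function.Bijective fun e : Fin r → Fin N => ∏ q, δ q ^ ((e q : Fin N) : ℕ))
    (g : Fin r → Module.End O M) (hg : ∀ q x, g q x = MonoidAlgebra.of O D (δ q) • x) :
    Function.Bijective fun c : (Fin d × (Fin r → Fin N)) →₀ O =>
      c.sum fun je a =>
        a • (((List.finRange r).map fun q => g q ^ ((je.2 q : Fin N) : ℕ)).prod (b je.1)) := by
  classical
  set E : (Fin r → Fin N) ≃ D := Equiv.ofBijective _ hδ with hE
  set B : Module.Basis (Fin d × (Fin r → Fin N)) O M :=
    ((MonoidAlgebra.basis D O).smulTower' b).reindex (Equiv.prodCongr (Equiv.refl _) E.symm)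
    with hB
  have hBapp : ∀ je : Fin d × (Fin r → Fin N),
      B je = ((List.finRange r).map fun q => g q ^ ((je.2 q : Fin N) : ℕ)).prod (b je.1) := by
    rintro ⟨j, e⟩
    rw [list_prod_pow_apply_eq_of_smul δ g hg (fun q => ((e q : Fin N) : ℕ)) (b j), hB,
      Module.Basis.reindex_apply, Module.Basis.smulTower'_apply]
    simp only [Equiv.prodCongr_symm, Equiv.symm_symm, Equiv.prodCongr_apply, Equiv.refl_symm,
      Equiv.coe_refl, Prod.map_apply, id_eq, MonoidAlgebra.basis_apply, MonoidAlgebra.of_apply]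
    rfl
  have hfun : (fun c : (Fin d × (Fin r → Fin N)) →₀ O =>
      c.sum fun je a =>
        a • (((List.finRange r).map fun q => g q ^ ((je.2 q : Fin N) : ℕ)).prod (b je.1))) =
      fun c => B.repr.symm c := by
    funext c
    rw [Module.Basis.repr_symm_apply, Finsupp.linearCombination_apply]
    refine Finsupp.sum_congr fun je _ => ?_
    rw [hBapp]
  rw [hfun]
  exact B.repr.symm.bijective

end Explicit

/-! ### Change of coefficient ring, twisted characters -/

section MapRing

variable {O O' : Type*} [CommRing O] [CommRing O'] (M : Type*) [CommMonoid M] (f : O →+* O')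

/-- the kernel of `O[M] → O'[M]` is `(ker f) O[M]`. -/
theorem ker_mapRingHom :
    RingHom.ker (MonoidAlgebra.mapRingHom M f) =
      (RingHom.ker f).map (algebraMap O (MonoidAlgebra O M)) := by
  apply le_antisymm
  · intro x hx
    rw [RingHom.mem_ker] at hx
    have hc : ∀ m, x.coeff m ∈ RingHom.ker f := by
      intro m
      rw [RingHom.mem_ker, ← MonoidAlgebra.coeff_mapRingHom, hx]
      rfl
    rw [← MonoidAlgebra.sum_coeff_single x]
    refine Ideal.sum_mem _ fun m _ => ?_
    rw [MonoidAlgebra.single_eq_algebraMap_mul_of]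
    exact Ideal.mul_mem_right _ _ (Ideal.mem_map_of_mem _ (hc m))
  · rw [Ideal.map_le_iff_le_comap]
    intro a ha
    rw [RingHom.mem_ker] at ha
    rw [Ideal.mem_comap, RingHom.mem_ker, MonoidAlgebra.coe_algebraMap, Function.comp_apply,
      MonoidAlgebra.mapRingHom_single]
    simp [ha]

theorem mapRingHom_surjective (hf : Function.Surjective f) :
    Function.Surjective (MonoidAlgebra.mapRingHom M f) := by
  intro y
  induction y using MonoidAlgebra.induction_on with
  | of m => exact ⟨MonoidAlgebra.of O M m, by simp⟩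
  | add x y hx hy =>
    obtain ⟨a, rfl⟩ := hx
    obtain ⟨b, rfl⟩ := hy
    exact ⟨a + b, map_add _ _ _⟩
  | smul r x hx =>
    obtain ⟨a, rfl⟩ := hx
    obtain ⟨s, rfl⟩ := hf r
    refine ⟨s • a, ?_⟩
    rw [Algebra.smul_def, Algebra.smul_def, map_mul]
    congr 1
    simp [MonoidAlgebra.coe_algebraMap]

end MapRing

section Tw

variable {Γ : Type w} [Group Γ] (O : Type v) [CommRing O] {Δ : Type v} [CommGroup Δ]
variable (χ : Γ →* Δ) (ψ : Γ →* Oˣ)

/-- the `ψ`-twisted tautological character `γ ↦ ψ γ • [χ γ]`. -/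
noncomputable def grpRingCharTw : Γ →* (MonoidAlgebra O Δ)ˣ :=
  ((Units.map (algebraMap O (MonoidAlgebra O Δ) : O →* MonoidAlgebra O Δ)).comp ψ) *
    grpRingChar O χ

theorem grpRingCharTw_val (γ : Γ) :
    ((grpRingCharTw O χ ψ γ : (MonoidAlgebra O Δ)ˣ) : MonoidAlgebra O Δ) =
      algebraMap O (MonoidAlgebra O Δ) ((ψ γ : Oˣ) : O) * MonoidAlgebra.of O Δ (χ γ) := rfl

theorem grpRingCharTw_eq_of_eq {γ γ' : Γ} (hχ : χ γ = χ γ') (hψ : ψ γ = ψ γ') :
    grpRingCharTw O χ ψ γ = grpRingCharTw O χ ψ γ' := by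
  apply Units.ext
  rw [grpRingCharTw_val, grpRingCharTw_val, hχ, hψ]

/-- the Hecke compatibility for the twisted character. -/
theorem grpRingCharTw_cocycle {G ι : Type*} [Group G] (D : HeckeDatum Γ G ι)
    (hχ : ∀ γ i, χ (D.cocycle γ i) = χ γ) (hψ : ∀ γ i, ψ (D.cocycle γ i) = ψ γ) (γ : Γ) (i : ι) :
    grpRingCharTw O χ ψ (D.cocycle γ i) = grpRingCharTw O χ ψ γ :=
  grpRingCharTw_eq_of_eq O χ ψ (hχ γ i) (hψ γ i)

variable {O}

/-- change of coefficient ring: `f ∘ (ψ-twisted character) = (f ∘ ψ)-twisted character`. -/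
theorem grpRingCharTw_mapRingHom {O' : Type v} [CommRing O'] (f : O →+* O') (ψ' : Γ →* O'ˣ)
    (hψ : ∀ γ, ((ψ' γ : O'ˣ) : O') = f ((ψ γ : Oˣ) : O)) (γ : Γ) :
    ((grpRingCharTw O' χ ψ' γ : (MonoidAlgebra O' Δ)ˣ) : MonoidAlgebra O' Δ) =
      MonoidAlgebra.mapRingHom Δ f ((grpRingCharTw O χ ψ γ : (MonoidAlgebra O Δ)ˣ) :
        MonoidAlgebra O Δ) := by
  rw [grpRingCharTw_val, grpRingCharTw_val, map_mul, hψ]
  congr 1
  · simp [MonoidAlgebra.coe_algebraMap]
  · simp

/-- if `f ∘ ψ = 1`, the twisted character reduces to the untwisted one. -/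
theorem grpRingChar_mapRingHom_of_eq_one {O' : Type v} [CommRing O'] (f : O →+* O')
    (hψ : ∀ γ, f ((ψ γ : Oˣ) : O) = 1) (γ : Γ) :
    ((grpRingChar O' χ γ : (MonoidAlgebra O' Δ)ˣ) : MonoidAlgebra O' Δ) =
      MonoidAlgebra.mapRingHom Δ f ((grpRingCharTw O χ ψ γ : (MonoidAlgebra O Δ)ˣ) :
        MonoidAlgebra O Δ) := by
  rw [grpRingCharTw_val, grpRingChar_val, map_mul]
  have : MonoidAlgebra.mapRingHom Δ f (algebraMap O (MonoidAlgebra O Δ) ((ψ γ : Oˣ) : O)) = 1 := by
    simp [MonoidAlgebra.coe_algebraMap, hψ, MonoidAlgebra.one_def]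
  rw [this, one_mul]
  simp

/-- change of group: `π ∘ (twisted character for χ) = twisted character for π ∘ χ`. -/
theorem grpRingCharTw_mapDomain {Δ'' : Type v} [CommGroup Δ''] (π : Δ →* Δ'') (γ : Γ) :
    ((grpRingCharTw O (π.comp χ) ψ γ : (MonoidAlgebra O Δ'')ˣ) : MonoidAlgebra O Δ'') =
      MonoidAlgebra.mapDomainRingHom O π ((grpRingCharTw O χ ψ γ : (MonoidAlgebra O Δ)ˣ) :
        MonoidAlgebra O Δ) := by
  rw [grpRingCharTw_val, grpRingCharTw_val, map_mul]
  congr 1
  · simp [MonoidAlgebra.coe_algebraMap, MonoidAlgebra.mapDomainRingHom_apply,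
      MonoidAlgebra.mapDomain_single]
  · simp [MonoidAlgebra.mapDomainRingHom_apply, MonoidAlgebra.mapDomain_single]

end Tw

section FinGen

variable {O : Type v} [CommRing O] [IsNoetherianRing O] {Γ : Type w} [Group Γ] [Group.FG Γ]
  {Δ : Type v} [CommGroup Δ] [Finite Δ]

instance finite_cocH1_monoidAlgebra (u : Γ →* (MonoidAlgebra O Δ)ˣ) :
    Module.Finite O (cocH1 u (MonoidAlgebra O Δ)) :=
  haveI : IsNoetherianRing (MonoidAlgebra O Δ) :=
    Algebra.FiniteType.isNoetherianRing O (MonoidAlgebra O Δ)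
  Module.Finite.trans (MonoidAlgebra O Δ) (cocH1 u (MonoidAlgebra O Δ))

end FinGen

end Fermat.Agent.RB
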