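/-
RB = S43 via Ihara avoidance, package [TWMOD] (helper2): **the sides, abstractly.**

`R = O[Δ₁ × Δ₂]`, `H` an `R`-module, `ψ : Δ₁ →* Oˣ`.  The side of `ψ` is the quotient
`SideQ ψ H = H ⧸ I_ψ H`, `I_ψ = ([δ₁, 1] - ψ δ₁)`; it is a module over `O[Δ₂]` through the section
`[δ₂] ↦ [1, δ₂]`, and a basis of `H` over `R` descends to a basis of the side over `O[Δ₂]`
(`sideBasis`), hence to the explicit shape of `TWModSide.free` (`side_free`).

* `specHom ψ : R →+* O[Δ₂]`, `[δ₁, δ₂] ↦ ψ δ₁ [δ₂]`; `secHom : O[Δ₂] →+* R`; `ker_specHom`;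
* `sideMk`, `sideMap` (descent of `R`-linear endomorphisms), `sideAct` (the action of `Δ₁ × Δ₂`);
* `sideBasis`, `side_free`;
* `sideRed` : the reduction `SideQ ψ H → H ⧸ (I_1 + λ) H`, onto with kernel `λ`;
* `sideCtl` : the map `SideQ 1 H → M0` induced by `κ : H → M0` with kernel `I_Δ H`; its kernel is
  `∑ ([1, δ q] - 1)`.
-/
import Mathlib
import Fermat.Agent.RB.T2_helper3_Gen

set_option autoImplicit false
set_option linter.unusedSectionVars false
set_option linter.style.haveILetI false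

namespace Fermat.Agent.RB.TWM

section Ring

variable (O : Type*) [CommRing O] {Δ₁ : Type*} (Δ₂ : Type*) [CommGroup Δ₁] [CommGroup Δ₂]

/-- the ideal `([δ₁, 1] - ψ δ₁)` of `O[Δ₁ × Δ₂]`. -/
noncomputable def sideIdeal (ψ : Δ₁ →* Oˣ) : Ideal (MonoidAlgebra O (Δ₁ × Δ₂)) :=
  Ideal.span (Set.range fun δ : Δ₁ =>
    MonoidAlgebra.of O (Δ₁ × Δ₂) (δ, 1) - algebraMap O (MonoidAlgebra O (Δ₁ × Δ₂)) (ψ δ : O))

/-- the specialisation `[δ₁, δ₂] ↦ ψ δ₁ [δ₂]`. -/
noncomputable def specHom (ψ : Δ₁ →* Oˣ) :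
    MonoidAlgebra O (Δ₁ × Δ₂) →ₐ[O] MonoidAlgebra O Δ₂ :=
  MonoidAlgebra.lift O (MonoidAlgebra O Δ₂) (Δ₁ × Δ₂)
    { toFun := fun δ => algebraMap O (MonoidAlgebra O Δ₂) (ψ δ.1 : O) * MonoidAlgebra.of O Δ₂ δ.2
      map_one' := by
        simp only [Prod.fst_one, Prod.snd_one, map_one, Units.val_one, one_mul]
      map_mul' := fun a b => by
        simp only [Prod.fst_mul, Prod.snd_mul, map_mul, Units.val_mul]
        ring }

variable {O Δ₂}

@[simp] theorem specHom_of (ψ : Δ₁ →* Oˣ) (δ : Δ₁ × Δ₂) :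
    specHom O Δ₂ ψ (MonoidAlgebra.of O (Δ₁ × Δ₂) δ) =
      algebraMap O (MonoidAlgebra O Δ₂) (ψ δ.1 : O) * MonoidAlgebra.of O Δ₂ δ.2 := by
  unfold specHom
  simp

variable (O Δ₁ Δ₂) in
/-- the section `[δ₂] ↦ [1, δ₂]`. -/
noncomputable def secHom : MonoidAlgebra O Δ₂ →ₐ[O] MonoidAlgebra O (Δ₁ × Δ₂) :=
  MonoidAlgebra.mapDomainAlgHom O O (MonoidHom.inr Δ₁ Δ₂)

@[simp] theorem secHom_of (δ : Δ₂) :
    secHom O Δ₁ Δ₂ (MonoidAlgebra.of O Δ₂ δ) = MonoidAlgebra.of O (Δ₁ × Δ₂) (1, δ) := by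
  unfold secHom
  simp [MonoidAlgebra.mapDomainAlgHom_apply, MonoidAlgebra.mapDomain_single]

theorem specHom_secHom (ψ : Δ₁ →* Oˣ) (a : MonoidAlgebra O Δ₂) :
    specHom O Δ₂ ψ (secHom O Δ₁ Δ₂ a) = a := by
  induction a using MonoidAlgebra.induction_on with
  | of δ => rw [secHom_of, specHom_of]; simp
  | add x y hx hy => rw [map_add, map_add, hx, hy]
  | smul r x hx => rw [map_smul, map_smul, hx]

theorem of_sub_mem_sideIdeal (ψ : Δ₁ →* Oˣ) (δ : Δ₁) :
    MonoidAlgebra.of O (Δ₁ × Δ₂) (δ, 1) - algebraMap O (MonoidAlgebra O (Δ₁ × Δ₂)) (ψ δ : O) ∈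
      sideIdeal O Δ₂ ψ :=
  Ideal.subset_span ⟨δ, rfl⟩

/-- `a ≡ sec (spec a)` modulo `I_ψ`. -/
theorem sub_secHom_specHom_mem (ψ : Δ₁ →* Oˣ) (a : MonoidAlgebra O (Δ₁ × Δ₂)) :
    a - secHom O Δ₁ Δ₂ (specHom O Δ₂ ψ a) ∈ sideIdeal O Δ₂ ψ := by
  induction a using MonoidAlgebra.induction_on with
  | of δ =>
    obtain ⟨δ₁, δ₂⟩ := δ
    rw [specHom_of, map_mul, AlgHom.commutes, secHom_of]
    have h1 : MonoidAlgebra.of O (Δ₁ × Δ₂) (δ₁, δ₂) =
        MonoidAlgebra.of O (Δ₁ × Δ₂) (δ₁, 1) * MonoidAlgebra.of O (Δ₁ × Δ₂) (1, δ₂) := by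
      rw [← map_mul, Prod.mk_mul_mk, mul_one, one_mul]
    rw [h1, ← sub_mul]
    exact Ideal.mul_mem_right _ _ (of_sub_mem_sideIdeal ψ δ₁)
  | add x y hx hy =>
    have : x + y - secHom O Δ₁ Δ₂ (specHom O Δ₂ ψ (x + y)) =
        (x - secHom O Δ₁ Δ₂ (specHom O Δ₂ ψ x)) + (y - secHom O Δ₁ Δ₂ (specHom O Δ₂ ψ y)) := by
      rw [map_add, map_add]; ring
    rw [this]
    exact Ideal.add_mem _ hx hy
  | smul r x hx =>
    have : r • x - secHom O Δ₁ Δ₂ (specHom O Δ₂ ψ (r • x)) =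
        r • (x - secHom O Δ₁ Δ₂ (specHom O Δ₂ ψ x)) := by
      rw [map_smul, map_smul, smul_sub]
    rw [this]
    exact Submodule.smul_of_tower_mem _ r hx

theorem ker_specHom (ψ : Δ₁ →* Oˣ) :
    RingHom.ker (specHom O Δ₂ ψ) = sideIdeal O Δ₂ ψ := by
  apply le_antisymm
  · intro a ha
    rw [RingHom.mem_ker] at ha
    have h := sub_secHom_specHom_mem ψ a
    rwa [ha, map_zero, sub_zero] at h
  · unfold sideIdeal
    rw [Ideal.span_le]
    rintro _ ⟨δ, rfl⟩
    rw [SetLike.mem_coe, RingHom.mem_ker, map_sub, specHom_of, AlgHom.commutes]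
    simp

end Ring

/-! ### The side of a retraction `φ : R → R₂` -/

section Side

variable {O : Type*} [CommRing O] {R R₂ : Type*} [CommRing R] [CommRing R₂] [Algebra O R]
  [Algebra O R₂] (φ : R →ₐ[O] R₂) (s : R₂ →ₐ[O] R)
variable (H : Type*) [AddCommGroup H] [Module R H] [Module O H] [IsScalarTower O R H]

/-- **the side of `φ`**: `H ⧸ (ker φ) H` (the section `s` is recorded for the `R₂`-module
structure). -/
@[nolint unusedArguments]
def SideQ (_s : R₂ →ₐ[O] R) : Type _ := H ⧸ (RingHom.ker φ • (⊤ : Submodule R H))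

noncomputable instance : AddCommGroup (SideQ φ H s) :=
  inferInstanceAs (AddCommGroup (H ⧸ (RingHom.ker φ • (⊤ : Submodule R H))))

noncomputable instance : Module R (SideQ φ H s) :=
  inferInstanceAs (Module R (H ⧸ (RingHom.ker φ • (⊤ : Submodule R H))))

noncomputable instance : Module O (SideQ φ H s) :=
  inferInstanceAs (Module O (H ⧸ (RingHom.ker φ • (⊤ : Submodule R H))))

instance : IsScalarTower O R (SideQ φ H s) :=
  inferInstanceAs (IsScalarTower O R (H ⧸ (RingHom.ker φ • (⊤ : Submodule R H))))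

/-- the `R₂`-module structure through the section. -/
noncomputable instance : Module R₂ (SideQ φ H s) := Module.compHom _ (s : R₂ →+* R)

theorem sec_smul_def (a : R₂) (x : SideQ φ H s) : a • x = s a • x := rfl

instance : IsScalarTower O R₂ (SideQ φ H s) := by
  refine ⟨fun r a x => ?_⟩
  show s (r • a) • x = r • (s a • x)
  rw [map_smul]
  exact smul_assoc r (s a) x

variable {H}

/-- the projection onto the side. -/
noncomputable def sideMk : H →ₗ[R] SideQ φ H s := Submodule.mkQ _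

theorem sideMk_surjective : Function.Surjective (sideMk φ s (H := H)) :=
  Submodule.mkQ_surjective _

theorem sideMk_eq_zero_iff (x : H) :
    sideMk φ s x = 0 ↔ x ∈ RingHom.ker φ • (⊤ : Submodule R H) :=
  Submodule.Quotient.mk_eq_zero _

theorem sideMk_smul_O (a : O) (x : H) : sideMk φ s (a • x) = a • sideMk φ s x := rfl

theorem sideMk_eq_of_sub_mem {a b : R} (h : a - b ∈ RingHom.ker φ) (x : H) :
    sideMk φ s (a • x) = sideMk φ s (b • x) := by
  rw [← sub_eq_zero, ← map_sub, ← sub_smul, sideMk_eq_zero_iff]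
  exact Submodule.smul_mem_smul h Submodule.mem_top

variable (hs : ∀ a, φ (s a) = a)

include hs in
theorem sub_sec_mem_ker (a : R) : a - s (φ a) ∈ RingHom.ker φ := by
  rw [RingHom.mem_ker, map_sub, hs, sub_self]

/-- the projection is semilinear over `φ`. -/
noncomputable def sideSL : H →ₛₗ[(φ : R →+* R₂)] SideQ φ H s where
  toFun := sideMk φ s
  map_add' := map_add _
  map_smul' a x := by
    show sideMk φ s (a • x) = φ a • sideMk φ s x
    rw [sec_smul_def, ← map_smul]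
    exact sideMk_eq_of_sub_mem φ s (sub_sec_mem_ker φ s hs a) x

@[simp] theorem sideSL_apply (x : H) : sideSL φ s hs x = sideMk φ s x := rfl

include hs in
/-- **a basis of `H` over `R` descends to a basis of the side over `R₂`.** -/
theorem exists_sideBasis {ι : Type*} [Fintype ι] (b : Module.Basis ι R H) :
    ∃ b' : Module.Basis ι R₂ (SideQ φ H s), ∀ i, b' i = sideMk φ s (b i) :=
  exists_basis_of_semilinear_surjective (φ := (φ : R →+* R₂)) (fun a => ⟨s a, hs a⟩) b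
    (sideSL φ s hs) (sideMk_surjective φ s) (fun x => by
      rw [sideSL_apply, sideMk_eq_zero_iff]
      rfl)

/-- descent of an `R`-linear endomorphism to the side. -/
noncomputable def sideEnd (f : Module.End R H) : Module.End O (SideQ φ H s) :=
  (Submodule.mapQ _ _ f (Submodule.smul_top_le_comap_smul_top (RingHom.ker φ) f)).restrictScalars O

@[simp] theorem sideEnd_mk (f : Module.End R H) (x : H) :
    sideEnd φ s f (sideMk φ s x) = sideMk φ s (f x) := rfl

theorem sideEnd_ext {u v : Module.End O (SideQ φ H s)}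
    (h : ∀ x : H, u (sideMk φ s x) = v (sideMk φ s x)) : u = v := by
  apply LinearMap.ext
  intro y
  obtain ⟨x, rfl⟩ := sideMk_surjective φ s y
  exact h x

/-- descent as a ring homomorphism. -/
noncomputable def sideEndHom : Module.End R H →+* Module.End O (SideQ φ H s) where
  toFun := sideEnd φ s
  map_one' := sideEnd_ext φ s fun x => by rw [sideEnd_mk]; rfl
  map_mul' f g := sideEnd_ext φ s fun x => by
    rw [sideEnd_mk, Module.End.mul_apply, Module.End.mul_apply, sideEnd_mk, sideEnd_mk]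
  map_zero' := sideEnd_ext φ s fun x => by
    rw [sideEnd_mk, LinearMap.zero_apply, LinearMap.zero_apply, map_zero]
  map_add' f g := sideEnd_ext φ s fun x => by
    rw [sideEnd_mk, LinearMap.add_apply, LinearMap.add_apply, sideEnd_mk, sideEnd_mk, map_add]

@[simp] theorem sideEndHom_apply (f : Module.End R H) : sideEndHom φ s f = sideEnd φ s f := rfl

theorem sideEnd_smul_O (a : O) (f : Module.End R H) :
    sideEnd φ s (a • f) = a • sideEnd φ s f :=
  sideEnd_ext φ s fun x => by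
    rw [sideEnd_mk, LinearMap.smul_apply, LinearMap.smul_apply, sideEnd_mk, sideMk_smul_O]

theorem sideEnd_commute {f g : Module.End R H} (h : Commute f g) :
    Commute (sideEnd φ s f) (sideEnd φ s g) := by
  show sideEndHom φ s f * sideEndHom φ s g = sideEndHom φ s g * sideEndHom φ s f
  rw [← map_mul, ← map_mul, h.eq]

/-- multiplication by `a ∈ R` as an `R`-linear endomorphism. -/
noncomputable def smulEnd (a : R) : Module.End R H := a • (1 : Module.End R H)

@[simp] theorem smulEnd_apply (a : R) (x : H) : smulEnd a x = a • x := rfl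

theorem smulEnd_commute (a : R) (f : Module.End R H) : Commute (smulEnd a) f := by
  apply LinearMap.ext
  intro x
  rw [Module.End.mul_apply, Module.End.mul_apply, smulEnd_apply, smulEnd_apply, map_smul]

include hs in
/-- the action of `a ∈ R` on the side is the action of `φ a`. -/
theorem sideEnd_smulEnd (a : R) (y : SideQ φ H s) :
    sideEnd φ s (smulEnd a) y = φ a • y := by
  obtain ⟨x, rfl⟩ := sideMk_surjective φ s y
  rw [sideEnd_mk, smulEnd_apply]
  exact (sideSL φ s hs).map_smulₛₗ a x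

end Side

/-! ### General quotients `H ⧸ J H` and the maps between them -/

section Quot

variable {O : Type*} [CommRing O] {R : Type*} [CommRing R] [Algebra O R]
variable (J : Ideal R) (H : Type*) [AddCommGroup H] [Module R H] [Module O H] [IsScalarTower O R H]

/-- `H ⧸ J H`. -/
def QuotJ : Type _ := H ⧸ (J • (⊤ : Submodule R H))

noncomputable instance : AddCommGroup (QuotJ J H) :=
  inferInstanceAs (AddCommGroup (H ⧸ (J • (⊤ : Submodule R H))))

noncomputable instance : Module R (QuotJ J H) :=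
  inferInstanceAs (Module R (H ⧸ (J • (⊤ : Submodule R H))))

noncomputable instance : Module O (QuotJ J H) :=
  inferInstanceAs (Module O (H ⧸ (J • (⊤ : Submodule R H))))

instance : IsScalarTower O R (QuotJ J H) :=
  inferInstanceAs (IsScalarTower O R (H ⧸ (J • (⊤ : Submodule R H))))

variable {H}

/-- the projection. -/
noncomputable def quotMk : H →ₗ[R] QuotJ J H := Submodule.mkQ _

theorem quotMk_surjective : Function.Surjective (quotMk J (H := H)) :=
  Submodule.mkQ_surjective _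

theorem quotMk_eq_zero_iff (x : H) :
    quotMk J x = 0 ↔ x ∈ J • (⊤ : Submodule R H) :=
  Submodule.Quotient.mk_eq_zero _

theorem quotMk_smul_O (a : O) (x : H) : quotMk J (a • x) = a • quotMk J x := rfl

variable (O) in
/-- descent of an `R`-linear endomorphism. -/
noncomputable def quotEnd (f : Module.End R H) : Module.End O (QuotJ J H) :=
  (Submodule.mapQ _ _ f (Submodule.smul_top_le_comap_smul_top J f)).restrictScalars O

@[simp] theorem quotEnd_mk (f : Module.End R H) (x : H) :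
    quotEnd O J f (quotMk J x) = quotMk J (f x) := rfl

end Quot

section SideToQuot

variable {O : Type*} [CommRing O] {R R₂ : Type*} [CommRing R] [CommRing R₂] [Algebra O R]
  [Algebra O R₂] (φ : R →ₐ[O] R₂) (s : R₂ →ₐ[O] R)
variable {H : Type*} [AddCommGroup H] [Module R H] [Module O H] [IsScalarTower O R H]
variable (J : Ideal R) (hJ : RingHom.ker φ ≤ J)

/-- the further quotient `H ⧸ (ker φ) H → H ⧸ J H`. -/
noncomputable def sideToQuot : SideQ φ H s →ₗ[O] QuotJ J H :=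
  (Submodule.mapQ (RingHom.ker φ • (⊤ : Submodule R H)) (J • (⊤ : Submodule R H)) LinearMap.id
    (by
      rw [Submodule.comap_id]
      exact Submodule.smul_mono_left hJ)).restrictScalars O

@[simp] theorem sideToQuot_mk (x : H) :
    sideToQuot φ s J hJ (sideMk φ s x) = quotMk J x := rfl

theorem sideToQuot_surjective : Function.Surjective (sideToQuot φ s (H := H) J hJ) := by
  intro y
  obtain ⟨x, rfl⟩ := quotMk_surjective J y
  exact ⟨sideMk φ s x, rfl⟩

theorem sideToQuot_sideEnd (f : Module.End R H) (y : SideQ φ H s) :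
    sideToQuot φ s J hJ (sideEnd φ s f y) = quotEnd O J f (sideToQuot φ s J hJ y) := by
  obtain ⟨x, rfl⟩ := sideMk_surjective φ s y
  rfl

/-- the kernel of the further quotient by `ker φ ⊔ (λ)` is `λ`. -/
theorem sideToQuot_eq_zero_iff_of_sup (lam : R) (hJeq : J = RingHom.ker φ ⊔ Ideal.span {lam})
    (y : SideQ φ H s) :
    sideToQuot φ s J hJ y = 0 ↔ ∃ y', y = lam • y' := by
  obtain ⟨x, rfl⟩ := sideMk_surjective φ s y
  rw [sideToQuot_mk, quotMk_eq_zero_iff]
  constructor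
  · intro hx
    rw [hJeq, Submodule.sup_smul, Submodule.ideal_span_singleton_smul] at hx
    obtain ⟨u, hu, v, hv, rfl⟩ := Submodule.mem_sup.mp hx
    obtain ⟨w, -, rfl⟩ := (Submodule.mem_smul_pointwise_iff_exists _ _ _).mp hv
    refine ⟨sideMk φ s w, ?_⟩
    rw [map_add, (sideMk_eq_zero_iff φ s u).mpr hu, zero_add, map_smul]
  · rintro ⟨y', hy'⟩
    obtain ⟨w, rfl⟩ := sideMk_surjective φ s y'
    rw [← map_smul, ← sub_eq_zero, ← map_sub, sideMk_eq_zero_iff] at hy'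
    have h1 : x = (x - lam • w) + lam • w := by abel
    rw [h1]
    refine Submodule.add_mem _ (Submodule.smul_mono_left hJ hy') ?_
    refine Submodule.smul_mem_smul ?_ Submodule.mem_top
    rw [hJeq]
    exact Ideal.mem_sup_right (Ideal.subset_span rfl)

/-- the kernel of the further quotient by `ker φ ⊔ (a q, q)` is `∑ range (a q)`. -/
theorem sideToQuot_eq_zero_iff_of_sup_range {r : ℕ} (a : Fin r → R)
    (hJeq : J = RingHom.ker φ ⊔ Ideal.span (Set.range a)) (y : SideQ φ H s) :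
    sideToQuot φ s J hJ y = 0 ↔
      y ∈ ⨆ q, LinearMap.range (sideEnd φ s (smulEnd (H := H) (a q))) := by
  obtain ⟨x, rfl⟩ := sideMk_surjective φ s y
  rw [sideToQuot_mk, quotMk_eq_zero_iff]
  constructor
  · intro hx
    rw [hJeq, Submodule.sup_smul] at hx
    obtain ⟨u, hu, v, hv, rfl⟩ := Submodule.mem_sup.mp hx
    obtain ⟨w, rfl⟩ := (mem_span_range_smul_top_iff a v).mp hv
    rw [map_add, (sideMk_eq_zero_iff φ s u).mpr hu, zero_add, map_sum]
    refine Submodule.sum_mem _ fun q _ => ?_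
    refine Submodule.mem_iSup_of_mem q ⟨sideMk φ s (w q), ?_⟩
    rw [sideEnd_mk, smulEnd_apply]
  · intro hy
    refine Submodule.iSup_induction _ (motive := fun y => ∀ x, sideMk φ s x = y →
      x ∈ J • (⊤ : Submodule R H)) hy ?_ ?_ ?_ x rfl
    · rintro q _ ⟨z, rfl⟩ x hx
      obtain ⟨w, rfl⟩ := sideMk_surjective φ s z
      rw [sideEnd_mk, smulEnd_apply, ← sub_eq_zero, ← map_sub, sideMk_eq_zero_iff] at hx
      have h1 : x = (x - a q • w) + a q • w := by abel
      rw [h1]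
      refine Submodule.add_mem _ (Submodule.smul_mono_left hJ hx) ?_
      refine Submodule.smul_mem_smul ?_ Submodule.mem_top
      rw [hJeq]
      exact Ideal.mem_sup_right (Ideal.subset_span ⟨q, rfl⟩)
    · intro x hx
      exact Submodule.smul_mono_left hJ ((sideMk_eq_zero_iff φ s x).mp hx)
    · intro y₁ y₂ h₁ h₂ x hx
      obtain ⟨x₁, rfl⟩ := sideMk_surjective φ s y₁
      have hx2 : sideMk φ s (x - x₁) = y₂ := by rw [map_sub, hx, add_sub_cancel_left]
      have h3 : x = x₁ + (x - x₁) := by abel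
      rw [h3]
      exact Submodule.add_mem _ (h₁ x₁ rfl) (h₂ _ hx2)

end SideToQuot

/-! ### The side of a character of `Δ₁` -/

section Spec

variable {O : Type*} [CommRing O] {Δ₁ : Type*} (Δ₂ : Type*) [CommGroup Δ₁] [CommGroup Δ₂]
  (ψ : Δ₁ →* Oˣ)
variable (H : Type*) [AddCommGroup H] [Module (MonoidAlgebra O (Δ₁ × Δ₂)) H] [Module O H]
  [IsScalarTower O (MonoidAlgebra O (Δ₁ × Δ₂)) H]

/-- the side of the character `ψ` of `Δ₁`. -/
abbrev SideP : Type _ := SideQ (specHom O Δ₂ ψ) H (secHom O Δ₁ Δ₂)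

variable {Δ₂ H}

/-- the projection `H → SideP`. -/
noncomputable abbrev sidePMk : H →ₗ[MonoidAlgebra O (Δ₁ × Δ₂)] SideP Δ₂ ψ H :=
  sideMk (specHom O Δ₂ ψ) (secHom O Δ₁ Δ₂)

/-- descent of endomorphisms to `SideP`. -/
noncomputable abbrev sidePEnd (f : Module.End (MonoidAlgebra O (Δ₁ × Δ₂)) H) :
    Module.End O (SideP Δ₂ ψ H) :=
  sideEnd (specHom O Δ₂ ψ) (secHom O Δ₁ Δ₂) f

/-- **the action of `Δ₁ × Δ₂` on the side.** -/
noncomputable def sideAct : (Δ₁ × Δ₂) →* Module.End O (SideP Δ₂ ψ H) where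
  toFun δ := sidePEnd ψ (smulEnd (MonoidAlgebra.of O (Δ₁ × Δ₂) δ))
  map_one' := sideEnd_ext _ _ fun x => by
    rw [sideEnd_mk, smulEnd_apply, map_one, one_smul]; rfl
  map_mul' a b := sideEnd_ext _ _ fun x => by
    rw [sideEnd_mk, smulEnd_apply, Module.End.mul_apply, sideEnd_mk, sideEnd_mk, smulEnd_apply,
      smulEnd_apply, map_mul, mul_smul]

@[simp] theorem sideAct_mk (δ : Δ₁ × Δ₂) (x : H) :
    sideAct ψ δ (sidePMk ψ x) = sidePMk ψ (MonoidAlgebra.of O (Δ₁ × Δ₂) δ • x) := rfl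

theorem sideAct_eq (δ : Δ₁ × Δ₂) :
    sideAct ψ (H := H) δ = sidePEnd ψ (smulEnd (MonoidAlgebra.of O (Δ₁ × Δ₂) δ)) := rfl

theorem sideAct_commute_sideEnd (δ : Δ₁ × Δ₂) (f : Module.End (MonoidAlgebra O (Δ₁ × Δ₂)) H) :
    Commute (sideAct ψ δ) (sidePEnd ψ f) :=
  sideEnd_commute _ _ (smulEnd_commute _ f)

theorem sideAct_apply (δ : Δ₁ × Δ₂) (y : SideP Δ₂ ψ H) :
    sideAct ψ δ y = ((ψ δ.1 : O) • MonoidAlgebra.of O Δ₂ δ.2 : MonoidAlgebra O Δ₂) • y := by
  rw [sideAct_eq, sideEnd_smulEnd _ _ (specHom_secHom ψ), specHom_of, Algebra.smul_def]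

/-- `Δ₁` acts on the side through `ψ`. -/
theorem sideAct_left (δ : Δ₁) :
    sideAct ψ (H := H) (δ, (1 : Δ₂)) = (ψ δ : O) • (1 : Module.End O (SideP Δ₂ ψ H)) := by
  apply LinearMap.ext
  intro y
  rw [sideAct_apply, LinearMap.smul_apply, Module.End.one_apply, map_one, smul_assoc, one_smul]

/-- `Δ₂` acts on the side through the `O[Δ₂]`-module structure. -/
theorem sideAct_right (δ : Δ₂) (y : SideP Δ₂ ψ H) :
    sideAct ψ ((1 : Δ₁), δ) y = MonoidAlgebra.of O Δ₂ δ • y := by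
  rw [sideAct_apply, map_one, Units.val_one, one_smul]

/-- **the explicit shape of freeness of the side.** -/
theorem side_free {d r N : ℕ} (b : Module.Basis (Fin d) (MonoidAlgebra O (Δ₁ × Δ₂)) H)
    (δ : Fin r → Δ₂)
    (hδ : Function.Bijective fun e : Fin r → Fin N => ∏ q, δ q ^ ((e q : Fin N) : ℕ)) :
    Function.Bijective fun c : (Fin d × (Fin r → Fin N)) →₀ O =>
      c.sum fun je a =>
        a • (((List.finRange r).map fun q =>
          sideAct ψ (H := H) ((1 : Δ₁), δ q) ^ ((je.2 q : Fin N) : ℕ)).prod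
            (sidePMk ψ (b je.1))) := by
  obtain ⟨b', hb'⟩ := exists_sideBasis (specHom O Δ₂ ψ) (secHom O Δ₁ Δ₂) (specHom_secHom ψ) b
  have h := explicit_basis_bijective b' δ hδ (fun q => sideAct ψ (H := H) ((1 : Δ₁), δ q))
    (fun q x => sideAct_right ψ (δ q) x)
  simp only [hb'] at h
  exact h

end Spec

/-! ### Comparison of ideals -/

section Ideals

variable {O : Type*} [CommRing O] {Δ₁ Δ₂ : Type*} [CommGroup Δ₁] [CommGroup Δ₂]

/-- the ideal `I_1 + (λ)`: the kernel of the common reduction of the sides. -/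
noncomputable def barIdeal (O : Type*) [CommRing O] (Δ₁ Δ₂ : Type*) [CommGroup Δ₁] [CommGroup Δ₂]
    (lam : O) : Ideal (MonoidAlgebra O (Δ₁ × Δ₂)) :=
  sideIdeal O Δ₂ (1 : Δ₁ →* Oˣ) ⊔ Ideal.span {algebraMap O (MonoidAlgebra O (Δ₁ × Δ₂)) lam}

theorem sideIdeal_le_sup (ψ ψ' : Δ₁ →* Oˣ) (lam : O)
    (h : ∀ δ, ∃ c : O, (ψ δ : O) - (ψ' δ : O) = lam * c) :
    sideIdeal O Δ₂ ψ ≤
      sideIdeal O Δ₂ ψ' ⊔ Ideal.span {algebraMap O (MonoidAlgebra O (Δ₁ × Δ₂)) lam} := by
  unfold sideIdeal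
  rw [Ideal.span_le]
  rintro _ ⟨δ, rfl⟩
  obtain ⟨c, hc⟩ := h δ
  have h1 : MonoidAlgebra.of O (Δ₁ × Δ₂) (δ, 1) -
      algebraMap O (MonoidAlgebra O (Δ₁ × Δ₂)) (ψ δ : O) =
      (MonoidAlgebra.of O (Δ₁ × Δ₂) (δ, 1) -
        algebraMap O (MonoidAlgebra O (Δ₁ × Δ₂)) (ψ' δ : O)) -
      algebraMap O (MonoidAlgebra O (Δ₁ × Δ₂)) lam *
        algebraMap O (MonoidAlgebra O (Δ₁ × Δ₂)) c := by
    rw [← map_mul, ← hc, map_sub]
    ring
  show MonoidAlgebra.of O (Δ₁ × Δ₂) (δ, 1) -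
      algebraMap O (MonoidAlgebra O (Δ₁ × Δ₂)) (ψ δ : O) ∈ _
  rw [h1]
  refine Ideal.sub_mem _ (Ideal.mem_sup_left (Ideal.subset_span ⟨δ, rfl⟩)) ?_
  exact Ideal.mem_sup_right (Ideal.mul_mem_right _ _ (Ideal.subset_span rfl))

/-- `I_ψ + (λ) = I_1 + (λ)` when `ψ ≡ 1` modulo `λ`. -/
theorem barIdeal_eq (ψ : Δ₁ →* Oˣ) (lam : O) (h : ∀ δ, ∃ c : O, (ψ δ : O) - 1 = lam * c) :
    barIdeal O Δ₁ Δ₂ lam =
      RingHom.ker (specHom O Δ₂ ψ) ⊔
        Ideal.span {algebraMap O (MonoidAlgebra O (Δ₁ × Δ₂)) lam} := by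
  rw [ker_specHom, barIdeal]
  apply le_antisymm
  · refine sup_le ?_ le_sup_right
    refine sideIdeal_le_sup 1 ψ lam fun δ => ?_
    obtain ⟨c, hc⟩ := h δ
    refine ⟨-c, ?_⟩
    rw [MonoidHom.one_apply, Units.val_one, mul_neg, ← hc]
    ring
  · refine sup_le ?_ le_sup_right
    refine sideIdeal_le_sup ψ 1 lam fun δ => ?_
    obtain ⟨c, hc⟩ := h δ
    exact ⟨c, by rw [MonoidHom.one_apply, Units.val_one, hc]⟩

theorem ker_specHom_le_barIdeal (ψ : Δ₁ →* Oˣ) (lam : O)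
    (h : ∀ δ, ∃ c : O, (ψ δ : O) - 1 = lam * c) :
    RingHom.ker (specHom O Δ₂ ψ) ≤ barIdeal O Δ₁ Δ₂ lam := by
  rw [barIdeal_eq ψ lam h]
  exact le_sup_left

/-- the augmentation ideal of `O[Δ₁ × Δ₂]`, in the shape of `control_primary_MM`. -/
noncomputable def augIdeal (O : Type*) [CommRing O] (Δ : Type*) [CommGroup Δ]
    (K : Subgroup Δ) : Ideal (MonoidAlgebra O Δ) :=
  Ideal.span {a : MonoidAlgebra O Δ | ∃ δ ∈ K, a = MonoidAlgebra.of O Δ δ - 1}

theorem closure_range_eq_top_of_bijective {r N : ℕ} (δ : Fin r → Δ₂)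
    (hδ : Function.Bijective fun e : Fin r → Fin N => ∏ q, δ q ^ ((e q : Fin N) : ℕ)) :
    Subgroup.closure (Set.range δ) = ⊤ := by
  rw [eq_top_iff]
  intro x _
  obtain ⟨e, rfl⟩ := hδ.2 x
  refine Subgroup.prod_mem _ fun q _ => Subgroup.pow_mem _ (Subgroup.subset_closure ?_) _
  exact ⟨q, rfl⟩

/-- `I_Δ = I_1 + ([1, δ q] - 1, q)`. -/
theorem augIdeal_top_eq {r N : ℕ} (δ : Fin r → Δ₂)
    (hδ : Function.Bijective fun e : Fin r → Fin N => ∏ q, δ q ^ ((e q : Fin N) : ℕ)) :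
    augIdeal O (Δ₁ × Δ₂) ⊤ =
      RingHom.ker (specHom O Δ₂ (1 : Δ₁ →* Oˣ)) ⊔
        Ideal.span (Set.range fun q : Fin r =>
          MonoidAlgebra.of O (Δ₁ × Δ₂) ((1 : Δ₁), δ q) - 1) := by
  rw [ker_specHom]
  apply le_antisymm
  · unfold augIdeal
    rw [Ideal.span_le]
    rintro _ ⟨⟨δ₁, δ₂⟩, -, rfl⟩
    have h1 : MonoidAlgebra.of O (Δ₁ × Δ₂) (δ₁, δ₂) - 1 =
        (MonoidAlgebra.of O (Δ₁ × Δ₂) (δ₁, 1) - 1) * MonoidAlgebra.of O (Δ₁ × Δ₂) (1, δ₂) +
          (MonoidAlgebra.of O (Δ₁ × Δ₂) (1, δ₂) - 1) := by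
      have : MonoidAlgebra.of O (Δ₁ × Δ₂) (δ₁, δ₂) =
          MonoidAlgebra.of O (Δ₁ × Δ₂) (δ₁, 1) * MonoidAlgebra.of O (Δ₁ × Δ₂) (1, δ₂) := by
        rw [← map_mul, Prod.mk_mul_mk, mul_one, one_mul]
      rw [this]
      ring
    rw [SetLike.mem_coe, h1]
    refine Ideal.add_mem _ (Ideal.mem_sup_left (Ideal.mul_mem_right _ _ ?_))
      (Ideal.mem_sup_right ?_)
    · have := of_sub_mem_sideIdeal (O := O) (Δ₂ := Δ₂) (1 : Δ₁ →* Oˣ) δ₁
      rwa [MonoidHom.one_apply, Units.val_one, map_one] at this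
    · -- `[1, δ₂] - 1` lies in the image of the augmentation ideal of `O[Δ₂]`
      have h2 : MonoidAlgebra.of O Δ₂ δ₂ - 1 ∈
          Ideal.span {a : MonoidAlgebra O Δ₂ | ∃ x ∈ Set.range δ,
            a = MonoidAlgebra.of O Δ₂ x - 1} := by
        rw [← span_of_sub_one_eq_of_closure (A := O) (⊤ : Subgroup Δ₂) (Set.range δ)
          (closure_range_eq_top_of_bijective δ hδ)]
        exact Ideal.subset_span ⟨δ₂, Subgroup.mem_top _, rfl⟩
      have h3 := Ideal.mem_map_of_mem (secHom O Δ₁ Δ₂ : MonoidAlgebra O Δ₂ →+*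
        MonoidAlgebra O (Δ₁ × Δ₂)) h2
      rw [Ideal.map_span] at h3
      have h4 : (secHom O Δ₁ Δ₂ : MonoidAlgebra O Δ₂ →+* MonoidAlgebra O (Δ₁ × Δ₂))
          (MonoidAlgebra.of O Δ₂ δ₂ - 1) = MonoidAlgebra.of O (Δ₁ × Δ₂) (1, δ₂) - 1 := by
        rw [map_sub, map_one]
        exact congrArg (· - 1) (secHom_of δ₂)
      rw [h4] at h3
      refine Ideal.span_mono ?_ h3
      rintro _ ⟨_, ⟨_, ⟨q, rfl⟩, rfl⟩, rfl⟩
      refine ⟨q, ?_⟩
      rw [map_sub, map_one]
      exact (congrArg (· - 1) (secHom_of (δ q))).symm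
  · refine sup_le ?_ ?_
    · unfold sideIdeal
      rw [Ideal.span_le]
      rintro _ ⟨δ₁, rfl⟩
      show MonoidAlgebra.of O (Δ₁ × Δ₂) (δ₁, 1) -
        algebraMap O (MonoidAlgebra O (Δ₁ × Δ₂)) (((1 : Δ₁ →* Oˣ) δ₁ : Oˣ) : O) ∈ _
      rw [MonoidHom.one_apply, Units.val_one, map_one]
      exact Ideal.subset_span ⟨(δ₁, 1), Subgroup.mem_top _, rfl⟩
    · rw [Ideal.span_le]
      rintro _ ⟨q, rfl⟩
      exact Ideal.subset_span ⟨(1, δ q), Subgroup.mem_top _, rfl⟩

end Ideals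

/-! ### Identification of a quotient with a target -/

section Target

variable {O : Type*} [CommRing O] {R : Type*} [CommRing R] [Algebra O R]
variable (J : Ideal R) {H : Type*} [AddCommGroup H] [Module R H] [Module O H] [IsScalarTower O R H]
variable {M0 : Type*} [AddCommGroup M0] [Module O M0] (κ : H →ₗ[O] M0)
  (hκ : ∀ x, κ x = 0 ↔ x ∈ J • (⊤ : Submodule R H))

/-- the map `H ⧸ J H → M0` induced by `κ`. -/
noncomputable def quotLift : QuotJ J H →ₗ[O] M0 :=
  (Submodule.liftQ ((J • (⊤ : Submodule R H)).restrictScalars O) κ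
    (fun x hx => (hκ x).mpr hx)).comp
    (Submodule.Quotient.restrictScalarsEquiv O (J • (⊤ : Submodule R H))).symm.toLinearMap

@[simp] theorem quotLift_mk (x : H) : quotLift J κ hκ (quotMk J x) = κ x := rfl

theorem quotLift_injective : Function.Injective (quotLift J κ hκ) := by
  rw [injective_iff_map_eq_zero]
  intro y hy
  obtain ⟨x, rfl⟩ := quotMk_surjective J y
  rw [quotLift_mk] at hy
  exact (quotMk_eq_zero_iff J x).mpr ((hκ x).mp hy)

theorem quotLift_surjective (hs : Function.Surjective κ) :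
    Function.Surjective (quotLift J κ hκ) := fun m => by
  obtain ⟨x, rfl⟩ := hs m
  exact ⟨quotMk J x, rfl⟩

end Target

end Fermat.Agent.RB.TWM
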