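/-
RB = S43 via Ihara avoidance, package [TWMOD] (helper2): **abstract assembly of a `TWModLevel`**
from a free `O[Δ₁ × Δ₂]`-module `H` with commuting `R`-linear operators, a character `ψ₂ ≡ 1 mod λ`
of `Δ₁`, and a control map `κ : H → M0` with kernel `I_Δ H`.

* `mkSide ψ …` : the side of `ψ` as a `TWModSide`;
* `nonempty_twModLevel` : the level, given the two occurrence contracts.
-/
import Mathlib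
import Fermat.Agent.RB.IFACE_helper2_TWMod
import Fermat.Agent.RB.TWMOD_helper2_Sides

set_option autoImplicit false
set_option linter.unusedSectionVars false
set_option linter.style.haveILetI false

namespace Fermat.Agent.RB.TWM

open IsLocalRing

section MkSide

variable {O : Type} [CommRing O] {Δ₁ Δ₂ : Type} [CommGroup Δ₁] [CommGroup Δ₂]
variable {H : Type} [AddCommGroup H] [Module (MonoidAlgebra O (Δ₁ × Δ₂)) H] [Module O H]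
  [IsScalarTower O (MonoidAlgebra O (Δ₁ × Δ₂)) H]
variable {p r d n : ℕ}

/-- **the side of the character `ψ`**, as a `TWModSide`. -/
noncomputable def mkSide (ψ : Δ₁ →* Oˣ)
    (Tt : Nat.Primes → Module.End (MonoidAlgebra O (Δ₁ × Δ₂)) H)
    (hTt : ∀ ℓ ℓ', Commute (Tt ℓ) (Tt ℓ')) (δ : Fin r → Δ₂)
    (hδ : Function.Bijective fun e : Fin r → Fin (p ^ n) => ∏ q, δ q ^ ((e q : Fin (p ^ n)) : ℕ))
    (hδpow : ∀ q, δ q ^ (p ^ n) = 1)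
    (b : Module.Basis (Fin d) (MonoidAlgebra O (Δ₁ × Δ₂)) H) : TWModSide O p r d n where
  H := SideP Δ₂ ψ H
  Tt ℓ := sidePEnd ψ (Tt ℓ)
  g q := sideAct ψ ((1 : Δ₁), δ q)
  Tt_comm ℓ ℓ' := sideEnd_commute _ _ (hTt ℓ ℓ')
  g_comm q q' := by
    show sideAct ψ ((1 : Δ₁), δ q) * sideAct ψ ((1 : Δ₁), δ q') =
      sideAct ψ ((1 : Δ₁), δ q') * sideAct ψ ((1 : Δ₁), δ q)
    rw [← map_mul, ← map_mul, mul_comm]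
  g_comm_Tt q ℓ := sideAct_commute_sideEnd ψ _ _
  g_pow q := by
    rw [← map_pow, Prod.pow_mk, one_pow, hδpow, ← Prod.one_eq_mk, map_one]
  b j := sidePMk ψ (b j)
  free := side_free ψ b δ hδ

theorem mkSide_H (ψ : Δ₁ →* Oˣ)
    (Tt : Nat.Primes → Module.End (MonoidAlgebra O (Δ₁ × Δ₂)) H)
    (hTt : ∀ ℓ ℓ', Commute (Tt ℓ) (Tt ℓ')) (δ : Fin r → Δ₂)
    (hδ : Function.Bijective fun e : Fin r → Fin (p ^ n) => ∏ q, δ q ^ ((e q : Fin (p ^ n)) : ℕ))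
    (hδpow : ∀ q, δ q ^ (p ^ n) = 1)
    (b : Module.Basis (Fin d) (MonoidAlgebra O (Δ₁ × Δ₂)) H) :
    (mkSide ψ Tt hTt δ hδ hδpow b).H = SideP Δ₂ ψ H := rfl

theorem sideEnd_smulEnd_sub_one (ψ : Δ₁ →* Oˣ) (a : MonoidAlgebra O (Δ₁ × Δ₂)) :
    sidePEnd ψ (smulEnd (H := H) (a - 1)) = sidePEnd ψ (smulEnd a) - 1 :=
  sideEnd_ext _ _ fun x => by
    rw [sideEnd_mk, smulEnd_apply, LinearMap.sub_apply, Module.End.one_apply, sideEnd_mk,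
      smulEnd_apply, sub_smul, one_smul, map_sub]

end MkSide

section Aux

variable {O : Type} [CommRing O] {Δ₁ Δ₂ : Type} [CommGroup Δ₁] [CommGroup Δ₂]
variable {H : Type} [AddCommGroup H] [Module (MonoidAlgebra O (Δ₁ × Δ₂)) H] [Module O H]
  [IsScalarTower O (MonoidAlgebra O (Δ₁ × Δ₂)) H]

theorem ker_red_aux (ψ : Δ₁ →* Oˣ) (lam : O) (hψ : ∀ δ, ∃ c : O, (ψ δ : O) - 1 = lam * c)
    (x : SideP Δ₂ ψ H) :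
    sideToQuot (specHom O Δ₂ ψ) (secHom O Δ₁ Δ₂) (barIdeal O Δ₁ Δ₂ lam)
      (ker_specHom_le_barIdeal ψ lam hψ) x = 0 ↔ ∃ y : SideP Δ₂ ψ H, x = lam • y := by
  rw [sideToQuot_eq_zero_iff_of_sup (specHom O Δ₂ ψ) (secHom O Δ₁ Δ₂) _
    (ker_specHom_le_barIdeal ψ lam hψ) _ (barIdeal_eq ψ lam hψ) x]
  have h2 : ∀ y : SideP Δ₂ ψ H,
      algebraMap O (MonoidAlgebra O (Δ₁ × Δ₂)) lam • y = lam • y := fun y =>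
    algebraMap_smul (MonoidAlgebra O (Δ₁ × Δ₂)) lam y
  constructor
  · rintro ⟨y, hy⟩
    exact ⟨y, hy.trans (h2 y)⟩
  · rintro ⟨y, hy⟩
    exact ⟨y, hy.trans (h2 y).symm⟩

theorem ker_ctl_aux {r N : ℕ} (δ : Fin r → Δ₂)
    (hδ : Function.Bijective fun e : Fin r → Fin N => ∏ q, δ q ^ ((e q : Fin N) : ℕ))
    (hleA : RingHom.ker (specHom O Δ₂ (1 : Δ₁ →* Oˣ)) ≤ augIdeal O (Δ₁ × Δ₂) ⊤)
    {M0 : Type} [AddCommGroup M0] [Module O M0] (κ : H →ₗ[O] M0)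
    (hκ : ∀ x, κ x = 0 ↔ x ∈ augIdeal O (Δ₁ × Δ₂) ⊤ •
      (⊤ : Submodule (MonoidAlgebra O (Δ₁ × Δ₂)) H))
    (x : SideP Δ₂ (1 : Δ₁ →* Oˣ) H) :
    ((quotLift (augIdeal O (Δ₁ × Δ₂) ⊤) κ hκ).comp
      (sideToQuot (specHom O Δ₂ (1 : Δ₁ →* Oˣ)) (secHom O Δ₁ Δ₂) _ hleA)) x = 0 ↔
      x ∈ ⨆ q, LinearMap.range
        (sideAct (1 : Δ₁ →* Oˣ) (H := H) ((1 : Δ₁), δ q) - 1) := by
  rw [LinearMap.comp_apply, ← (quotLift _ κ hκ).map_zero,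
    (quotLift_injective _ κ hκ).eq_iff,
    sideToQuot_eq_zero_iff_of_sup_range _ _ _ hleA _ (augIdeal_top_eq δ hδ)]
  have hg : ∀ q, sideEnd (specHom O Δ₂ (1 : Δ₁ →* Oˣ)) (secHom O Δ₁ Δ₂)
      (smulEnd (H := H) (MonoidAlgebra.of O (Δ₁ × Δ₂) ((1 : Δ₁), δ q) - 1)) =
      sideAct (1 : Δ₁ →* Oˣ) (H := H) ((1 : Δ₁), δ q) - 1 := fun q =>
    sideEnd_smulEnd_sub_one _ _
  simp only [hg]

end Aux

section Level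

variable {𝒪 : Type} [CommRing 𝒪] [IsDomain 𝒪] [IsDiscreteValuationRing 𝒪]
  [IsAdicComplete (maximalIdeal 𝒪) 𝒪]
  {N : ℕ} [NeZero N] {S : Finset ℕ}
  {θ : CuspForm.heckeAlgebra N 2 (S : Set ℕ) →+* ResidueField 𝒪}
  {T : Type} [CommRing T] [IsLocalRing T] [IsNoetherianRing T]
  [IsAdicComplete (maximalIdeal T) T] [Algebra 𝒪 T] [IsLocalHom (algebraMap 𝒪 T)]
  [Module.Finite 𝒪 T] [Module.Free 𝒪 T]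
variable {Δ₁ Δ₂ : Type} [CommGroup Δ₁] [CommGroup Δ₂]
variable {H : Type} [AddCommGroup H] [Module (MonoidAlgebra 𝒪 (Δ₁ × Δ₂)) H] [Module 𝒪 H]
  [IsScalarTower 𝒪 (MonoidAlgebra 𝒪 (Δ₁ × Δ₂)) H]

/-- **abstract assembly of the level.** -/
theorem nonempty_twModLevel (p : ℕ)
    (datum : CuspForm.HeckeGaloisRepDatum N (S : Set ℕ) 𝒪 θ T) (Sig : Finset ℕ) (ζ lam : 𝒪)
    (r d : ℕ) (M0 : Type) [AddCommGroup M0] [Module 𝒪 M0] [Module T M0] (n : ℕ) (Q : Fin r → ℕ)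
    (Nt Nbig : ℕ) [NeZero Nt] [NeZero Nbig]
    (ψ₂ : Δ₁ →* 𝒪ˣ) (hψ₂ : ∀ δ, ∃ c : 𝒪, (ψ₂ δ : 𝒪) - 1 = lam * c)
    (Tt : Nat.Primes → Module.End (MonoidAlgebra 𝒪 (Δ₁ × Δ₂)) H)
    (hTt : ∀ ℓ ℓ', Commute (Tt ℓ) (Tt ℓ')) (δ : Fin r → Δ₂)
    (hδ : Function.Bijective fun e : Fin r → Fin (p ^ n) => ∏ q, δ q ^ ((e q : Fin (p ^ n)) : ℕ))
    (hδpow : ∀ q, δ q ^ (p ^ n) = 1)
    (b : Module.Basis (Fin d) (MonoidAlgebra 𝒪 (Δ₁ × Δ₂)) H)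
    (uQ : Fin r → (ZMod Nt)ˣ)
    (uQ_spec : ∀ q, ((((uQ q : (ZMod Nt)ˣ) : ZMod Nt).val : ℕ) : ZMod (Nt / Q q)) = 1)
    (uS : ℕ → (ZMod Nt)ˣ)
    (uS_spec : ∀ v ∈ Sig, ((((uS v : (ZMod Nt)ˣ) : ZMod Nt).val : ℕ) : ZMod (Nt / v)) = 1)
    (hocc₁ : (mkSide (1 : Δ₁ →* 𝒪ˣ) Tt hTt δ hδ hδpow b).Occ lam 1 θ Sig Nt Nbig
      (S ∪ Finset.univ.image Q) uQ uS)
    (hocc₂ : (mkSide ψ₂ Tt hTt δ hδ hδpow b).Occ lam ζ θ Sig Nt Nbig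
      (S ∪ Finset.univ.image Q) uQ uS)
    (κ : H →ₗ[𝒪] M0) (hκs : Function.Surjective κ)
    (hκ : ∀ x, κ x = 0 ↔ x ∈ augIdeal 𝒪 (Δ₁ × Δ₂) ⊤ •
      (⊤ : Submodule (MonoidAlgebra 𝒪 (Δ₁ × Δ₂)) H))
    (hκT : ∀ (ℓ : ℕ) (hℓ : ℓ.Prime) (hℓN : ¬ ℓ ∣ N) (hℓS : ℓ ∉ (S : Set ℕ)),
      ℓ ∉ Finset.univ.image Q → ∀ x, κ (Tt ⟨ℓ, hℓ⟩ x) =
        datum.π (CuspForm.heckeAlgebra.T hℓ hℓN hℓS) • κ x) :
    Nonempty (TWModLevel p datum Sig ζ lam r d M0 n Q Nt Nbig) := by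
  have hψ₁ : ∀ δ₁ : Δ₁, ∃ c : 𝒪, (((1 : Δ₁ →* 𝒪ˣ) δ₁ : 𝒪ˣ) : 𝒪) - 1 = lam * c := fun δ₁ =>
    ⟨0, by rw [MonoidHom.one_apply, Units.val_one, sub_self, mul_zero]⟩
  have hle₁ := ker_specHom_le_barIdeal (Δ₂ := Δ₂) (1 : Δ₁ →* 𝒪ˣ) lam hψ₁
  have hle₂ := ker_specHom_le_barIdeal (Δ₂ := Δ₂) ψ₂ lam hψ₂
  have hleA : RingHom.ker (specHom 𝒪 Δ₂ (1 : Δ₁ →* 𝒪ˣ)) ≤ augIdeal 𝒪 (Δ₁ × Δ₂) ⊤ := by
    rw [augIdeal_top_eq δ hδ]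
    exact le_sup_left
  refine ⟨{
    side₁ := mkSide (1 : Δ₁ →* 𝒪ˣ) Tt hTt δ hδ hδpow b
    side₂ := mkSide ψ₂ Tt hTt δ hδ hδpow b
    uQ := uQ
    uQ_spec := uQ_spec
    uS := uS
    uS_spec := uS_spec
    occ₁ := hocc₁
    occ₂ := hocc₂
    Hbar := QuotJ (barIdeal 𝒪 Δ₁ Δ₂ lam) H
    gbar := fun q => quotEnd 𝒪 (barIdeal 𝒪 Δ₁ Δ₂ lam)
      (smulEnd (MonoidAlgebra.of 𝒪 (Δ₁ × Δ₂) ((1 : Δ₁), δ q)))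
    Ttbar := fun ℓ => quotEnd 𝒪 (barIdeal 𝒪 Δ₁ Δ₂ lam) (Tt ℓ)
    red₁ := sideToQuot (specHom 𝒪 Δ₂ (1 : Δ₁ →* 𝒪ˣ)) (secHom 𝒪 Δ₁ Δ₂) _ hle₁
    red₂ := sideToQuot (specHom 𝒪 Δ₂ ψ₂) (secHom 𝒪 Δ₁ Δ₂) _ hle₂
    red₁_surjective := sideToQuot_surjective _ _ _ _
    red₂_surjective := sideToQuot_surjective _ _ _ _
    ker_red₁ := fun x => ?_
    ker_red₂ := fun x => ?_
    red₁_g := fun q x => sideToQuot_sideEnd _ _ _ _ _ x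
    red₂_g := fun q x => sideToQuot_sideEnd _ _ _ _ _ x
    red₁_Tt := fun ℓ x => sideToQuot_sideEnd _ _ _ _ _ x
    red₂_Tt := fun ℓ x => sideToQuot_sideEnd _ _ _ _ _ x
    ctl := (quotLift (augIdeal 𝒪 (Δ₁ × Δ₂) ⊤) κ hκ).comp
      (sideToQuot (specHom 𝒪 Δ₂ (1 : Δ₁ →* 𝒪ˣ)) (secHom 𝒪 Δ₁ Δ₂) _ hleA)
    ctl_surjective := (quotLift_surjective _ κ hκ hκs).comp (sideToQuot_surjective _ _ _ _)
    ker_ctl := fun x => ?_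
    ctl_Tt := fun ℓ hℓ hℓN hℓS hℓQ x => ?_ }⟩
  · exact ker_red_aux (1 : Δ₁ →* 𝒪ˣ) lam hψ₁ x
  · exact ker_red_aux ψ₂ lam hψ₂ x
  · exact ker_ctl_aux δ hδ hleA κ hκ x
  · obtain ⟨y, hy⟩ := sideMk_surjective (specHom 𝒪 Δ₂ (1 : Δ₁ →* 𝒪ˣ)) (secHom 𝒪 Δ₁ Δ₂) x
    have hx : x = sideMk (specHom 𝒪 Δ₂ (1 : Δ₁ →* 𝒪ˣ)) (secHom 𝒪 Δ₁ Δ₂) y := hy.symm
    rw [hx]
    exact hκT ℓ hℓ hℓN hℓS hℓQ y

end Level

end Fermat.Agent.RB.TWM
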