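/-
RB — helper3 — [TWMOD]-T2, part 1: **`1`-cocycles with coefficients through a character**.

`Λ` a commutative ring, `u : Γ →* Λˣ` a character, `X` a `Λ`-module on which `Γ` acts through `u`.
* `cocZ1 u X`  : the `Λ`-module of `1`-cocycles `c (γ γ') = c γ + u γ • c γ'`;
* `cocCobd u X`, `cocB1 u X` : coboundaries `γ ↦ u γ • x - x`;
* `cocH1 u X`  : `Z¹ / B¹` (a `Λ`-module);
* `cocZ1Map`, `cocH1Map` : functoriality in `X` (also semilinear, along `σ : Λ →+* Λ'`);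
* `cocHecke D hD X` : the Hecke operator `(T c)(γ) = ∑ᵢ c (D.cocycle γ i)` of a `GR.HeckeDatum` whose
  cocycle satisfies `u (D.cocycle γ i) = u γ`; it satisfies **`T (∂ x) = |ι| • ∂ x` on cochains**
  (`cocHeckeFun_cobd`), is natural in `X`, and descends to `cocHeckeH1`.
-/
import Mathlib
import Fermat.Agent.GR.HGRP_helper2_Abstract

set_option autoImplicit false
set_option linter.unusedSectionVars false

namespace Fermat.Agent.RB

open Fermat.Agent.GR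

universe v w

section Coc

variable {Γ : Type w} [Group Γ] {Λ : Type v} [CommRing Λ] (u : Γ →* Λˣ)
variable (X : Type*) [AddCommGroup X] [Module Λ X]

/-- the `Λ`-module of `1`-cocycles of `Γ` with values in `X`, `Γ` acting through `u`. -/
def cocZ1 : Submodule Λ (Γ → X) where
  carrier := {c | ∀ γ γ' : Γ, c (γ * γ') = c γ + ((u γ : Λˣ) : Λ) • c γ'}
  add_mem' := by
    intro a b ha hb γ γ'
    simp only [Pi.add_apply, ha γ γ', hb γ γ', smul_add]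
    abel
  zero_mem' := by
    intro γ γ'
    simp
  smul_mem' := by
    intro r a ha γ γ'
    simp only [Pi.smul_apply, ha γ γ', smul_add]
    rw [smul_comm]

variable {X}

theorem mem_cocZ1 {c : Γ → X} :
    c ∈ cocZ1 u X ↔ ∀ γ γ' : Γ, c (γ * γ') = c γ + ((u γ : Λˣ) : Λ) • c γ' := Iff.rfl

theorem cocZ1_mul {c : Γ → X} (hc : c ∈ cocZ1 u X) (γ γ' : Γ) :
    c (γ * γ') = c γ + ((u γ : Λˣ) : Λ) • c γ' := hc γ γ'

theorem cocZ1_one {c : Γ → X} (hc : c ∈ cocZ1 u X) : c 1 = 0 := by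
  have h := hc 1 1
  rw [mul_one, map_one, Units.val_one, one_smul] at h
  exact left_eq_add.mp h

theorem cocZ1_inv {c : Γ → X} (hc : c ∈ cocZ1 u X) (γ : Γ) :
    c γ⁻¹ = -(((u γ⁻¹ : Λˣ) : Λ) • c γ) := by
  have h := hc γ⁻¹ γ
  rw [inv_mul_cancel, cocZ1_one u hc] at h
  exact eq_neg_of_add_eq_zero_left h.symm

variable (X)

/-- the coboundary map `x ↦ (γ ↦ u γ • x - x)`. -/
def cocCobd : X →ₗ[Λ] (Γ → X) where
  toFun x γ := ((u γ : Λˣ) : Λ) • x - x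
  map_add' x y := by
    ext γ
    simp only [Pi.add_apply, smul_add]
    abel
  map_smul' r x := by
    ext γ
    simp only [Pi.smul_apply, RingHom.id_apply, smul_sub]
    rw [smul_comm]

variable {X}

@[simp] theorem cocCobd_apply (x : X) (γ : Γ) :
    cocCobd u X x γ = ((u γ : Λˣ) : Λ) • x - x := rfl

theorem cocCobd_mem (x : X) : cocCobd u X x ∈ cocZ1 u X := by
  intro γ γ'
  simp only [cocCobd_apply, map_mul, Units.val_mul, mul_smul, smul_sub]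
  abel

variable (X)

/-- the `Λ`-module of `1`-coboundaries. -/
def cocB1 : Submodule Λ (Γ → X) := LinearMap.range (cocCobd u X)

theorem cocB1_le_cocZ1 : cocB1 u X ≤ cocZ1 u X := by
  rintro _ ⟨x, rfl⟩
  exact cocCobd_mem u x

/-- `H¹(Γ, X) = Z¹ / B¹`, a `Λ`-module. -/
abbrev cocH1 : Type _ := ↥(cocZ1 u X) ⧸ (cocB1 u X).submoduleOf (cocZ1 u X)

/-- the class of a cocycle. -/
def cocH1Mk : ↥(cocZ1 u X) →ₗ[Λ] cocH1 u X := Submodule.mkQ _

variable {X}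

theorem mem_cocB1_submoduleOf (c : ↥(cocZ1 u X)) :
    c ∈ (cocB1 u X).submoduleOf (cocZ1 u X) ↔ c.1 ∈ cocB1 u X := Iff.rfl

theorem cocH1Mk_surjective : Function.Surjective (cocH1Mk u X) :=
  Submodule.mkQ_surjective _

theorem cocH1Mk_eq_zero_iff (c : ↥(cocZ1 u X)) :
    cocH1Mk u X c = 0 ↔ ∃ x : X, ∀ γ, c.1 γ = ((u γ : Λˣ) : Λ) • x - x := by
  rw [cocH1Mk, Submodule.mkQ_apply, Submodule.Quotient.mk_eq_zero, mem_cocB1_submoduleOf]
  constructor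
  · rintro ⟨x, hx⟩
    exact ⟨x, fun γ => (congrFun hx γ).symm⟩
  · rintro ⟨x, hx⟩
    exact ⟨x, funext fun γ => (hx γ).symm⟩

end Coc

/-! ### Functoriality in the coefficients -/

section Functoriality

variable {Γ : Type w} [Group Γ] {Λ : Type v} [CommRing Λ] (u : Γ →* Λˣ)
variable {Λ' : Type*} [CommRing Λ'] (u' : Γ →* Λ'ˣ)
variable {X : Type*} [AddCommGroup X] [Module Λ X] {Y : Type*} [AddCommGroup Y] [Module Λ Y]
variable {X' : Type*} [AddCommGroup X'] [Module Λ' X']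

/-- functoriality of `Z¹` in the coefficient module. -/
def cocZ1Map (f : X →ₗ[Λ] Y) : ↥(cocZ1 u X) →ₗ[Λ] ↥(cocZ1 u Y) where
  toFun c := ⟨fun γ => f (c.1 γ), fun γ γ' => by
    show f (c.1 (γ * γ')) = f (c.1 γ) + ((u γ : Λˣ) : Λ) • f (c.1 γ')
    rw [c.2 γ γ', map_add, map_smul]⟩
  map_add' c d := by
    ext γ
    simp
  map_smul' r c := by
    ext γ
    simp

@[simp] theorem cocZ1Map_apply (f : X →ₗ[Λ] Y) (c : ↥(cocZ1 u X)) (γ : Γ) :
    (cocZ1Map u f c).1 γ = f (c.1 γ) := rfl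

theorem cocZ1Map_cobd (f : X →ₗ[Λ] Y) (x : X) :
    (fun γ => f (cocCobd u X x γ)) = cocCobd u Y (f x) := by
  ext γ
  simp

/-- functoriality of `H¹` in the coefficient module. -/
def cocH1Map (f : X →ₗ[Λ] Y) : cocH1 u X →ₗ[Λ] cocH1 u Y :=
  Submodule.mapQ _ _ (cocZ1Map u f) (by
    rintro ⟨c, hc⟩ hcB
    rw [mem_cocB1_submoduleOf] at hcB
    obtain ⟨x, rfl⟩ := hcB
    rw [Submodule.mem_comap, mem_cocB1_submoduleOf]
    exact ⟨f x, (cocZ1Map_cobd u f x).symm⟩)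

@[simp] theorem cocH1Map_mk (f : X →ₗ[Λ] Y) (c : ↥(cocZ1 u X)) :
    cocH1Map u f (cocH1Mk u X c) = cocH1Mk u Y (cocZ1Map u f c) := rfl

/-- semilinear functoriality of `Z¹` along a ring homomorphism `σ : Λ →+* Λ'` with
`u' = σ ∘ u`. -/
def cocZ1MapSL {σ : Λ →+* Λ'} (hu : ∀ γ, ((u' γ : Λ'ˣ) : Λ') = σ ((u γ : Λˣ) : Λ))
    (f : X →ₛₗ[σ] X') : ↥(cocZ1 u X) →ₛₗ[σ] ↥(cocZ1 u' X') where
  toFun c := ⟨fun γ => f (c.1 γ), fun γ γ' => by
    show f (c.1 (γ * γ')) = f (c.1 γ) + ((u' γ : Λ'ˣ) : Λ') • f (c.1 γ')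
    rw [c.2 γ γ', map_add, map_smulₛₗ, hu]⟩
  map_add' c d := by
    ext γ
    simp
  map_smul' r c := by
    ext γ
    simp

@[simp] theorem cocZ1MapSL_apply {σ : Λ →+* Λ'}
    (hu : ∀ γ, ((u' γ : Λ'ˣ) : Λ') = σ ((u γ : Λˣ) : Λ)) (f : X →ₛₗ[σ] X') (c : ↥(cocZ1 u X))
    (γ : Γ) : (cocZ1MapSL u u' hu f c).1 γ = f (c.1 γ) := rfl

/-- semilinear functoriality of `H¹`. -/
def cocH1MapSL {σ : Λ →+* Λ'} (hu : ∀ γ, ((u' γ : Λ'ˣ) : Λ') = σ ((u γ : Λˣ) : Λ))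
    (f : X →ₛₗ[σ] X') : cocH1 u X →ₛₗ[σ] cocH1 u' X' :=
  Submodule.mapQ _ _ (cocZ1MapSL u u' hu f) (by
    rintro ⟨c, hc⟩ hcB
    rw [mem_cocB1_submoduleOf] at hcB
    obtain ⟨x, rfl⟩ := hcB
    rw [Submodule.mem_comap, mem_cocB1_submoduleOf]
    refine ⟨f x, ?_⟩
    ext γ
    show ((u' γ : Λ'ˣ) : Λ') • f x - f x = f (((u γ : Λˣ) : Λ) • x - x)
    rw [map_sub, map_smulₛₗ, hu])

@[simp] theorem cocH1MapSL_mk {σ : Λ →+* Λ'}
    (hu : ∀ γ, ((u' γ : Λ'ˣ) : Λ') = σ ((u γ : Λˣ) : Λ)) (f : X →ₛₗ[σ] X') (c : ↥(cocZ1 u X)) :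
    cocH1MapSL u u' hu f (cocH1Mk u X c) = cocH1Mk u' X' (cocZ1MapSL u u' hu f c) := rfl

end Functoriality

/-! ### Hecke operators -/

section Hecke

variable {Γ : Type w} [Group Γ] {Λ : Type v} [CommRing Λ] (u : Γ →* Λˣ)
variable {G ι : Type*} [Group G] [Fintype ι] (D : HeckeDatum Γ G ι)
variable {X : Type*} [AddCommGroup X] [Module Λ X] {Y : Type*} [AddCommGroup Y] [Module Λ Y]

/-- the Hecke operator on cochains: `(T c)(γ) = ∑ᵢ c (D.cocycle γ i)`. -/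
noncomputable def cocHeckeFun (c : Γ → X) : Γ → X := fun γ => ∑ i, c (D.cocycle γ i)

theorem cocHeckeFun_apply (c : Γ → X) (γ : Γ) :
    cocHeckeFun D c γ = ∑ i, c (D.cocycle γ i) := rfl

theorem cocHeckeFun_mem (hD : ∀ γ i, u (D.cocycle γ i) = u γ) {c : Γ → X}
    (hc : c ∈ cocZ1 u X) : cocHeckeFun D c ∈ cocZ1 u X := by
  intro γ γ'
  simp only [cocHeckeFun_apply]
  have h1 : ∀ i, c (D.cocycle (γ * γ') i) =
      c (D.cocycle γ i) + ((u γ : Λˣ) : Λ) • c (D.cocycle γ' (D.perm γ i)) := by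
    intro i
    rw [D.cocycle_mul, hc, hD]
  rw [Finset.sum_congr rfl fun i _ => h1 i, Finset.sum_add_distrib, ← Finset.smul_sum]
  congr 2
  exact Equiv.sum_comp (D.permEquiv γ) (fun i => c (D.cocycle γ' i))

/-- **`T (∂ x) = |ι| • ∂ x`, on cochains.** -/
theorem cocHeckeFun_cobd (hD : ∀ γ i, u (D.cocycle γ i) = u γ) (x : X) :
    cocHeckeFun D (cocCobd u X x) = Fintype.card ι • cocCobd u X x := by
  ext γ
  simp only [cocHeckeFun_apply, cocCobd_apply, hD, Finset.sum_const, Finset.card_univ,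
    Pi.smul_apply]

/-- the Hecke operator on `Z¹`. -/
noncomputable def cocHecke (hD : ∀ γ i, u (D.cocycle γ i) = u γ) (X : Type*) [AddCommGroup X]
    [Module Λ X] : ↥(cocZ1 u X) →ₗ[Λ] ↥(cocZ1 u X) where
  toFun c := ⟨cocHeckeFun D c.1, cocHeckeFun_mem u D hD c.2⟩
  map_add' c d := by
    ext γ
    simp [cocHeckeFun_apply, Finset.sum_add_distrib]
  map_smul' r c := by
    ext γ
    simp [cocHeckeFun_apply, Finset.smul_sum]

@[simp] theorem cocHecke_apply (hD : ∀ γ i, u (D.cocycle γ i) = u γ) (c : ↥(cocZ1 u X)) (γ : Γ) :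
    (cocHecke u D hD X c).1 γ = ∑ i, c.1 (D.cocycle γ i) := rfl

/-- naturality of the Hecke operator in the coefficients. -/
theorem cocHecke_map (hD : ∀ γ i, u (D.cocycle γ i) = u γ) (f : X →ₗ[Λ] Y) (c : ↥(cocZ1 u X)) :
    cocZ1Map u f (cocHecke u D hD X c) = cocHecke u D hD Y (cocZ1Map u f c) := by
  ext γ
  simp [map_sum]

/-- the Hecke operator on `H¹`. -/
noncomputable def cocHeckeH1 (hD : ∀ γ i, u (D.cocycle γ i) = u γ) (X : Type*) [AddCommGroup X]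
    [Module Λ X] : cocH1 u X →ₗ[Λ] cocH1 u X :=
  Submodule.mapQ _ _ (cocHecke u D hD X) (by
    rintro ⟨c, hc⟩ hcB
    rw [mem_cocB1_submoduleOf] at hcB
    obtain ⟨x, rfl⟩ := hcB
    rw [Submodule.mem_comap, mem_cocB1_submoduleOf]
    refine ⟨Fintype.card ι • x, ?_⟩
    rw [map_nsmul]
    exact (cocHeckeFun_cobd u D hD x).symm)

@[simp] theorem cocHeckeH1_mk (hD : ∀ γ i, u (D.cocycle γ i) = u γ) (c : ↥(cocZ1 u X)) :
    cocHeckeH1 u D hD X (cocH1Mk u X c) = cocH1Mk u X (cocHecke u D hD X c) := rfl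

theorem cocHeckeH1_map (hD : ∀ γ i, u (D.cocycle γ i) = u γ) (f : X →ₗ[Λ] Y) (x : cocH1 u X) :
    cocH1Map u f (cocHeckeH1 u D hD X x) = cocHeckeH1 u D hD Y (cocH1Map u f x) := by
  obtain ⟨c, rfl⟩ := cocH1Mk_surjective u x
  rw [cocHeckeH1_mk, cocH1Map_mk, cocH1Map_mk, cocHeckeH1_mk, cocHecke_map]

/-- `η = T - deg T`, the operator killing everything that comes from `H⁰`. -/
noncomputable def cocEta (hD : ∀ γ i, u (D.cocycle γ i) = u γ) (X : Type*) [AddCommGroup X]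
    [Module Λ X] : cocH1 u X →ₗ[Λ] cocH1 u X :=
  cocHeckeH1 u D hD X - (Fintype.card ι : Λ) • LinearMap.id

theorem cocEta_apply (hD : ∀ γ i, u (D.cocycle γ i) = u γ) (x : cocH1 u X) :
    cocEta u D hD X x = cocHeckeH1 u D hD X x - (Fintype.card ι : Λ) • x := rfl

theorem cocEta_map (hD : ∀ γ i, u (D.cocycle γ i) = u γ) (f : X →ₗ[Λ] Y) (x : cocH1 u X) :
    cocH1Map u f (cocEta u D hD X x) = cocEta u D hD Y (cocH1Map u f x) := by
  rw [cocEta_apply, cocEta_apply, map_sub, map_smul, cocHeckeH1_map]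

end Hecke

end Fermat.Agent.RB
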