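/-
RB — helper3 — [TWMOD]-T2, part 2: **right exactness ⇒ `η` kills `Tor₁`; flatness of the `η`-unit
direct summands; control**.

`LiftsCocycles u` ("`cd ≤ 1`"): `Z¹(Γ, X) → Z¹(Γ, Y)` is onto for every `Λ`-linear surjection.
* `lTensor_cocEta_eq_zero` : for every ideal `I` of the noetherian ring `Λ`, an element of the
  kernel of `I ⊗ H¹(Γ, Λ) → H¹(Γ, Λ)` is killed by `1 ⊗ η`, `η = T - deg T`;
* `flat_of_retract_of_cocEta_bijective` : a `Λ`-module retract of `H¹(Γ, Λ)` on which `η` induces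
  a bijection is flat;
* `cocH1MapSL_surjective`, `ker_cocH1MapSL` : **control**: for a surjective `ε : Λ → Λ'`,
  `H¹(Γ, Λ) → H¹(Γ, Λ')` is onto with kernel `ker ε • H¹(Γ, Λ)`.
-/
import Mathlib
import Fermat.Agent.RB.T2_helper3_Coc

set_option autoImplicit false
set_option linter.unusedSectionVars false
set_option linter.style.haveILetI false

namespace Fermat.Agent.RB

open Fermat.Agent.GR TensorProduct

universe v w

section Lifts

variable {Γ : Type w} [Group Γ] {Λ : Type v} [CommRing Λ] (u : Γ →* Λˣ)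

/-- **(CD1)** "cohomological dimension `≤ 1`": cocycles lift along surjections of coefficient
modules (in the universe of `Λ`). -/
def LiftsCocycles : Prop :=
  ∀ (X Y : Type v) [AddCommGroup X] [Module Λ X] [AddCommGroup Y] [Module Λ Y]
    (f : X →ₗ[Λ] Y), Function.Surjective f →
      ∀ c : ↥(cocZ1 u Y), ∃ c' : ↥(cocZ1 u X), cocZ1Map u f c' = c

variable {u}

theorem LiftsCocycles.cocH1Map_surjective (hL : LiftsCocycles u) {X Y : Type v} [AddCommGroup X]
    [Module Λ X] [AddCommGroup Y] [Module Λ Y] (f : X →ₗ[Λ] Y) (hf : Function.Surjective f) :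
    Function.Surjective (cocH1Map u f) := by
  intro y
  obtain ⟨c, rfl⟩ := cocH1Mk_surjective u y
  obtain ⟨c', rfl⟩ := hL X Y f hf c
  exact ⟨cocH1Mk u X c', rfl⟩

end Lifts

section Tor

variable {Γ : Type w} [Group Γ] {Λ : Type v} [CommRing Λ] {u : Γ →* Λˣ}
variable {G ι : Type*} [Group G] [Fintype ι] (D : HeckeDatum Γ G ι)

theorem cocEta_mk (hD : ∀ γ i, u (D.cocycle γ i) = u γ) {X : Type*} [AddCommGroup X] [Module Λ X]
    (c : ↥(cocZ1 u X)) :
    cocEta u D hD X (cocH1Mk u X c) =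
      cocH1Mk u X (cocHecke u D hD X c - (Fintype.card ι : Λ) • c) := by
  rw [cocEta_apply, cocHeckeH1_mk, map_sub, map_smul]

/-- the finite-family form of `lTensor_cocEta_eq_zero`. -/
theorem sum_tmul_cocEta_eq_zero [IsNoetherianRing Λ] (hL : LiftsCocycles u)
    (hD : ∀ γ i, u (D.cocycle γ i) = u γ) (I : Ideal Λ) (b : ℕ) (aI : Fin b → ↥I)
    (c : Fin b → ↥(cocZ1 u Λ))
    (hx2 : cocH1Mk u Λ (∑ j, ((aI j : ↥I) : Λ) • c j) = 0) :
    ∑ j, (aI j) ⊗ₜ[Λ] cocEta u D hD Λ (cocH1Mk u Λ (c j)) = 0 := by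
  classical
  obtain ⟨y, hy⟩ := (cocH1Mk_eq_zero_iff u _).mp hx2
  have hy' : ∀ γ, ∑ j, ((aI j : ↥I) : Λ) * (c j).1 γ = ((u γ : Λˣ) : Λ) * y - y := by
    intro γ
    rw [← smul_eq_mul (b := y), ← hy γ, Submodule.coe_sum, Finset.sum_apply]
    exact Finset.sum_congr rfl fun j _ => rfl
  -- the relation module
  set a : Fin b → Λ := fun j => ((aI j : ↥I) : Λ) with ha
  set π : (Fin b → Λ) →ₗ[Λ] Λ := Fintype.linearCombination Λ a with hπ
  have hπa : ∀ f : Fin b → Λ, π f = ∑ j, f j * a j := fun f => by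
    rw [hπ, Fintype.linearCombination_apply]
    rfl
  -- `η c_j`
  set ec : Fin b → ↥(cocZ1 u Λ) := fun j => cocHecke u D hD Λ (c j) - (Fintype.card ι : Λ) • c j
    with hec
  have hec_apply : ∀ j γ, (ec j).1 γ =
      ∑ i, (c j).1 (D.cocycle γ i) - (Fintype.card ι : Λ) * (c j).1 γ := fun j γ => rfl
  have hker : ∀ γ, (fun j => (ec j).1 γ) ∈ LinearMap.ker π := by
    intro γ
    rw [LinearMap.mem_ker, hπa]
    simp only [hec_apply, sub_mul, Finset.sum_sub_distrib, Finset.sum_mul]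
    rw [Finset.sum_comm]
    have h1 : ∀ i, ∑ j, (c j).1 (D.cocycle γ i) * a j = ((u γ : Λˣ) : Λ) * y - y := by
      intro i
      rw [← hD γ i, ← hy' (D.cocycle γ i)]
      exact Finset.sum_congr rfl fun j _ => mul_comm _ _
    have h2 : ∑ j, (Fintype.card ι : Λ) * (c j).1 γ * a j =
        (Fintype.card ι : Λ) * (((u γ : Λˣ) : Λ) * y - y) := by
      rw [← hy' γ, Finset.mul_sum]
      exact Finset.sum_congr rfl fun j _ => by ring
    rw [Finset.sum_congr rfl fun i _ => h1 i, h2, Finset.sum_const, Finset.card_univ,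
      nsmul_eq_mul, sub_self]
  let EC : ↥(cocZ1 u ↥(LinearMap.ker π)) := ⟨fun γ => ⟨fun j => (ec j).1 γ, hker γ⟩, by
    intro γ γ'
    apply Subtype.ext
    funext j
    exact (ec j).2 γ γ'⟩
  -- a finite free cover of the relation module and the lifted cocycle
  obtain ⟨n, ρ, hρ⟩ := Module.Finite.exists_fin' Λ ↥(LinearMap.ker π)
  obtain ⟨C', hC'⟩ := hL (Fin n → Λ) ↥(LinearMap.ker π) ρ hρ EC
  set r : Fin n → ↥(LinearMap.ker π) := fun i => ρ (fun j => if i = j then 1 else 0) with hr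
  set c' : Fin n → ↥(cocZ1 u Λ) := fun i => cocZ1Map u (LinearMap.proj i) C' with hc'
  have hkey : ∀ j, ec j = ∑ i, (r i).1 j • c' i := by
    intro j
    apply Subtype.ext
    funext γ
    have h1 : (ec j).1 γ = (ρ (C'.1 γ)).1 j := by
      have := congrArg (fun z : ↥(cocZ1 u ↥(LinearMap.ker π)) => (z.1 γ).1 j) hC'
      exact this.symm
    rw [h1, LinearMap.pi_apply_eq_sum_univ ρ (C'.1 γ), Submodule.coe_sum, Finset.sum_apply,
      Submodule.coe_sum, Finset.sum_apply]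
    refine Finset.sum_congr rfl fun i _ => ?_
    simp only [Submodule.coe_smul, Pi.smul_apply, smul_eq_mul]
    rw [mul_comm]
    rfl
  have hrel : ∀ i, ∑ j, (r i).1 j • (aI j) = 0 := by
    intro i
    apply Subtype.ext
    rw [Submodule.coe_sum, Submodule.coe_zero]
    have := (r i).2
    rw [LinearMap.mem_ker, hπa] at this
    rw [← this]
    exact Finset.sum_congr rfl fun j _ => rfl
  -- the computation in the tensor product
  have h3 : ∀ j, (aI j) ⊗ₜ[Λ] cocEta u D hD Λ (cocH1Mk u Λ (c j)) =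
      ∑ i, ((r i).1 j • (aI j)) ⊗ₜ[Λ] cocH1Mk u Λ (c' i) := by
    intro j
    rw [cocEta_mk]
    change aI j ⊗ₜ[Λ] cocH1Mk u Λ (ec j) = _
    rw [hkey j, map_sum, TensorProduct.tmul_sum]
    refine Finset.sum_congr rfl fun i _ => ?_
    rw [map_smul, TensorProduct.tmul_smul, TensorProduct.smul_tmul']
  rw [Finset.sum_congr rfl fun j _ => h3 j, Finset.sum_comm]
  refine Finset.sum_eq_zero fun i _ => ?_
  rw [← TensorProduct.sum_tmul, hrel i, TensorProduct.zero_tmul]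

/-- **`η` kills `Tor₁(Λ/I, H¹(Γ, Λ))`**: an element of the kernel of `I ⊗ H¹(Γ,Λ) → H¹(Γ,Λ)` is
killed by `1 ⊗ η`. -/
theorem lTensor_cocEta_eq_zero [IsNoetherianRing Λ] (hL : LiftsCocycles u)
    (hD : ∀ γ i, u (D.cocycle γ i) = u γ) (I : Ideal Λ) (x : ↥I ⊗[Λ] cocH1 u Λ)
    (hx : TensorProduct.lift ((LinearMap.lsmul Λ (cocH1 u Λ)).comp I.subtype) x = 0) :
    (cocEta u D hD Λ).lTensor ↥I x = 0 := by
  classical
  obtain ⟨S, rfl⟩ := TensorProduct.exists_finset x
  -- the index type, the coefficients and cocycle representatives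
  rw [← Finset.sum_coe_sort S] at hx ⊢
  rw [← Equiv.sum_comp S.equivFin.symm] at hx ⊢
  choose c hc using fun j : Fin S.card => cocH1Mk_surjective u (S.equivFin.symm j).1.2
  have hx1 : ∑ j, (((S.equivFin.symm j).1.1 : ↥I) : Λ) • cocH1Mk u Λ (c j) = 0 := by
    rw [map_sum] at hx
    rw [← hx]
    refine Finset.sum_congr rfl fun j _ => ?_
    rw [TensorProduct.lift.tmul, LinearMap.comp_apply, LinearMap.lsmul_apply,
      Submodule.subtype_apply, hc]
  have hx2 : cocH1Mk u Λ (∑ j, (((S.equivFin.symm j).1.1 : ↥I) : Λ) • c j) = 0 := by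
    rw [map_sum, ← hx1]
    exact Finset.sum_congr rfl fun j _ => map_smul _ _ _
  have := sum_tmul_cocEta_eq_zero D hL hD I S.card (fun j => (S.equivFin.symm j).1.1) c hx2
  rw [map_sum, ← this]
  refine Finset.sum_congr rfl fun j _ => ?_
  rw [LinearMap.lTensor_tmul, hc]


/-- **flatness of the `η`-unit retracts**: a `Λ`-module retract `M` of `H¹(Γ, Λ)` on which
`η = T - deg T` induces a bijection is flat over `Λ`. -/
theorem flat_of_retract_of_cocEta_bijective [IsNoetherianRing Λ] (hL : LiftsCocycles u)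
    (hD : ∀ γ i, u (D.cocycle γ i) = u γ) {M : Type*} [AddCommGroup M] [Module Λ M]
    (i : M →ₗ[Λ] cocH1 u Λ) (r : cocH1 u Λ →ₗ[Λ] M) (hri : ∀ m, r (i m) = m)
    (e : M ≃ₗ[Λ] M) (he : ∀ m, i (e m) = cocEta u D hD Λ (i m)) : Module.Flat Λ M := by
  rw [Module.Flat.iff_lift_lsmul_comp_subtype_injective]
  intro I _
  rw [injective_iff_map_eq_zero]
  intro x hx
  have n1 : (TensorProduct.lift ((LinearMap.lsmul Λ (cocH1 u Λ)).comp I.subtype)) ∘ₗ
      (i.lTensor ↥I) = i ∘ₗ (TensorProduct.lift ((LinearMap.lsmul Λ M).comp I.subtype)) := by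
    apply TensorProduct.ext'
    intro a m
    simp
  have n2 : (cocEta u D hD Λ).lTensor ↥I ∘ₗ (i.lTensor ↥I) =
      (i.lTensor ↥I) ∘ₗ ((e : M →ₗ[Λ] M).lTensor ↥I) := by
    apply TensorProduct.ext'
    intro a m
    simp [he]
  have n3 : (r.lTensor ↥I) ∘ₗ (i.lTensor ↥I) = LinearMap.id := by
    apply TensorProduct.ext'
    intro a m
    simp [hri]
  have n4 : ((e.symm : M →ₗ[Λ] M).lTensor ↥I) ∘ₗ ((e : M →ₗ[Λ] M).lTensor ↥I) = LinearMap.id := by
    apply TensorProduct.ext'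
    intro a m
    simp
  have h1 : TensorProduct.lift ((LinearMap.lsmul Λ (cocH1 u Λ)).comp I.subtype)
      (i.lTensor ↥I x) = 0 := by
    have := LinearMap.congr_fun n1 x
    rw [LinearMap.comp_apply, LinearMap.comp_apply, hx, map_zero] at this
    exact this
  have h2 := lTensor_cocEta_eq_zero D hL hD I (i.lTensor ↥I x) h1
  have h3 : (i.lTensor ↥I) ((e : M →ₗ[Λ] M).lTensor ↥I x) = 0 := by
    have := LinearMap.congr_fun n2 x
    rw [LinearMap.comp_apply, LinearMap.comp_apply, h2] at this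
    exact this.symm
  have h4 : (e : M →ₗ[Λ] M).lTensor ↥I x = 0 := by
    have := LinearMap.congr_fun n3 ((e : M →ₗ[Λ] M).lTensor ↥I x)
    rw [LinearMap.comp_apply, h3, map_zero, LinearMap.id_apply] at this
    exact this.symm
  have := LinearMap.congr_fun n4 x
  rw [LinearMap.comp_apply, h4, map_zero, LinearMap.id_apply] at this
  exact this.symm

/-- **freeness**: a finitely generated `Λ`-module retract of `H¹(Γ, Λ)` on which `η = T - deg T`
induces a bijection is free, if `Λ` is local. -/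
theorem free_of_retract_of_cocEta_bijective [IsNoetherianRing Λ] [IsLocalRing Λ]
    (hL : LiftsCocycles u) (hD : ∀ γ i, u (D.cocycle γ i) = u γ) {M : Type*} [AddCommGroup M]
    [Module Λ M] [Module.Finite Λ M]
    (i : M →ₗ[Λ] cocH1 u Λ) (r : cocH1 u Λ →ₗ[Λ] M) (hri : ∀ m, r (i m) = m)
    (e : M ≃ₗ[Λ] M) (he : ∀ m, i (e m) = cocEta u D hD Λ (i m)) : Module.Free Λ M := by
  have := flat_of_retract_of_cocEta_bijective D hL hD i r hri e he
  exact Module.free_of_flat_of_isLocalRing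

end Tor


/-! ### Control -/

section Control

variable {Γ : Type w} [Group Γ] {Λ : Type v} [CommRing Λ] {u : Γ →* Λˣ}
variable {Λ' : Type v} [CommRing Λ'] (ε : Λ →+* Λ') (u' : Γ →* Λ'ˣ)

/-- cocycles with values in `Λ'` lift to `Λ` along a surjective ring homomorphism. -/
theorem LiftsCocycles.exists_cocZ1MapSL_eq (hL : LiftsCocycles u) (hε : Function.Surjective ε)
    (hu : ∀ γ, ((u' γ : Λ'ˣ) : Λ') = ε ((u γ : Λˣ) : Λ)) (c' : ↥(cocZ1 u' Λ')) :
    ∃ c : ↥(cocZ1 u Λ), cocZ1MapSL u u' hu ε.toSemilinearMap c = c' := by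
  letI : Module Λ Λ' := Module.compHom Λ' ε
  have hsmul : ∀ (a : Λ) (y : Λ'), a • y = ε a * y := fun a y => rfl
  let fε : Λ →ₗ[Λ] Λ' :=
    { toFun := ε
      map_add' := map_add ε
      map_smul' := fun a x => by
        rw [smul_eq_mul, map_mul, RingHom.id_apply, hsmul] }
  have hc' : c'.1 ∈ cocZ1 u Λ' := by
    intro γ γ'
    rw [c'.2 γ γ', hsmul, hu, smul_eq_mul]
  obtain ⟨c, hc⟩ := hL Λ Λ' fε hε ⟨c'.1, hc'⟩
  refine ⟨c, ?_⟩
  apply Subtype.ext
  funext γ
  exact congrArg (fun z : ↥(cocZ1 u Λ') => z.1 γ) hc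

/-- **control, surjectivity**: `H¹(Γ, Λ) → H¹(Γ, Λ')` is onto for a surjective `ε : Λ → Λ'`. -/
theorem cocH1MapSL_surjective (hL : LiftsCocycles u) (hε : Function.Surjective ε)
    (hu : ∀ γ, ((u' γ : Λ'ˣ) : Λ') = ε ((u γ : Λˣ) : Λ)) :
    Function.Surjective (cocH1MapSL u u' hu ε.toSemilinearMap) := by
  intro y
  obtain ⟨c', rfl⟩ := cocH1Mk_surjective u' y
  obtain ⟨c, rfl⟩ := hL.exists_cocZ1MapSL_eq ε u' hε hu c'
  exact ⟨cocH1Mk u Λ c, rfl⟩

/-- **control, kernel**: the kernel of `H¹(Γ, Λ) → H¹(Γ, Λ')` is `ker ε • H¹(Γ, Λ)`. -/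
theorem ker_cocH1MapSL [IsNoetherianRing Λ] (hL : LiftsCocycles u)
    (hε : Function.Surjective ε) (hu : ∀ γ, ((u' γ : Λ'ˣ) : Λ') = ε ((u γ : Λˣ) : Λ)) :
    LinearMap.ker (cocH1MapSL u u' hu ε.toSemilinearMap) =
      (RingHom.ker ε) • (⊤ : Submodule Λ (cocH1 u Λ)) := by
  classical
  apply le_antisymm
  · intro p hp
    rw [LinearMap.mem_ker] at hp
    obtain ⟨c, rfl⟩ := cocH1Mk_surjective u p
    rw [cocH1MapSL_mk, cocH1Mk_eq_zero_iff] at hp
    obtain ⟨y', hy'⟩ := hp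
    obtain ⟨y, rfl⟩ := hε y'
    -- subtract the coboundary of `y`
    set c₁ : ↥(cocZ1 u Λ) := c - ⟨cocCobd u Λ y, cocCobd_mem u y⟩ with hc₁
    have hmk : cocH1Mk u Λ c = cocH1Mk u Λ c₁ := by
      rw [hc₁, map_sub, eq_sub_iff_add_eq, add_eq_left, cocH1Mk_eq_zero_iff]
      exact ⟨y, fun γ => rfl⟩
    have hc₁J : ∀ γ, c₁.1 γ ∈ RingHom.ker ε := by
      intro γ
      rw [RingHom.mem_ker]
      have h1 : c₁.1 γ = c.1 γ - (((u γ : Λˣ) : Λ) * y - y) := rfl
      have h2 : ε (c.1 γ) = ((u' γ : Λ'ˣ) : Λ') * ε y - ε y := hy' γ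
      rw [h1, map_sub, map_sub, map_mul, h2, hu, sub_self]
    let C₁ : ↥(cocZ1 u ↥(RingHom.ker ε)) := ⟨fun γ => ⟨c₁.1 γ, hc₁J γ⟩, by
      intro γ γ'
      apply Subtype.ext
      exact c₁.2 γ γ'⟩
    obtain ⟨n, ρ, hρ⟩ := Module.Finite.exists_fin' Λ ↥(RingHom.ker ε)
    obtain ⟨C', hC'⟩ := hL (Fin n → Λ) ↥(RingHom.ker ε) ρ hρ C₁
    set g : Fin n → ↥(RingHom.ker ε) := fun i => ρ (fun j => if i = j then 1 else 0) with hg
    set c' : Fin n → ↥(cocZ1 u Λ) := fun i => cocZ1Map u (LinearMap.proj i) C' with hc'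
    have hkey : c₁ = ∑ i, ((g i : ↥(RingHom.ker ε)) : Λ) • c' i := by
      apply Subtype.ext
      funext γ
      have h1 : c₁.1 γ = ((ρ (C'.1 γ) : ↥(RingHom.ker ε)) : Λ) := by
        have := congrArg (fun z : ↥(cocZ1 u ↥(RingHom.ker ε)) => ((z.1 γ : ↥(RingHom.ker ε)) : Λ)) hC'
        exact this.symm
      rw [h1, LinearMap.pi_apply_eq_sum_univ ρ (C'.1 γ), Submodule.coe_sum, Submodule.coe_sum,
        Finset.sum_apply]
      refine Finset.sum_congr rfl fun i _ => ?_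
      simp only [Submodule.coe_smul, Pi.smul_apply, smul_eq_mul]
      rw [mul_comm]
      rfl
    rw [hmk, hkey, map_sum]
    refine Submodule.sum_mem _ fun i _ => ?_
    rw [map_smul]
    exact Submodule.smul_mem_smul (g i).2 Submodule.mem_top
  · rw [Submodule.smul_le]
    intro a ha p _
    rw [LinearMap.mem_ker, map_smulₛₗ, (RingHom.mem_ker).mp ha, zero_smul]

end Control

end Fermat.Agent.RB
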