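/-
RB — helper3 — [TWMOD]-T2, part 3a: **cocycles of `SL₂(ℤ)` lift along surjections when `6` is
invertible** ("`cd ≤ 1` over `ℤ[1/6]`").

* `RepSemi ρ` : the semidirect product `Y ⋊ G` of a representation `ρ : Representation R G Y`;
  homomorphisms `G → Y ⋊ G` over `G` are the `1`-cocycles `IsRepCoc ρ z`.
* `exists_repCoc_of_values` : by the presentation `SL₂(ℤ) = ⟨S, U | S⁴ = 1, S² = U³⟩` (helper2's
  `LR.SL2Z_presentation`), every pair `y_S ∈ ker (1 + S)`, `y_U ∈ ker (1 + U + U²)` is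
  `(z S, z U)` for a cocycle `z`; `repCoc_ext`: a cocycle is determined by `(z S, z U)`.
* `SL2Z_repCoc_lift` : `2, 3 ∈ Rˣ`, `f : Y → Y''` an equivariant `R`-linear surjection: every cocycle
  with values in `Y''` is `f ∘ z` for a cocycle `z` with values in `Y`.
-/
import Mathlib
import Fermat.Agent.LR.PRES_helper2_SL2Z

set_option autoImplicit false
set_option linter.unusedSectionVars false

namespace Fermat.Agent.RB

open Matrix Matrix.SpecialLinearGroup ModularGroup Fermat.Agent.LR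
open scoped MatrixGroups

section RepCoc

variable {G : Type*} [Group G] {R : Type*} [CommRing R] {Y : Type*} [AddCommGroup Y] [Module R Y]

/-- `1`-cocycles of a representation. -/
def IsRepCoc (ρ : Representation R G Y) (z : G → Y) : Prop :=
  ∀ g h : G, z (g * h) = z g + ρ g (z h)

theorem IsRepCoc.map_one {ρ : Representation R G Y} {z : G → Y} (hz : IsRepCoc ρ z) : z 1 = 0 := by
  have h := hz 1 1
  rw [mul_one, _root_.map_one, Module.End.one_apply] at h
  exact left_eq_add.mp h

/-- the coboundary of `y`. -/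
def repCobd (ρ : Representation R G Y) (y : Y) : G → Y := fun g => ρ g y - y

theorem isRepCoc_repCobd (ρ : Representation R G Y) (y : Y) : IsRepCoc ρ (repCobd ρ y) := by
  intro g h
  simp only [repCobd, map_mul, Module.End.mul_apply, map_sub]
  abel

theorem IsRepCoc.add {ρ : Representation R G Y} {z z' : G → Y} (hz : IsRepCoc ρ z)
    (hz' : IsRepCoc ρ z') : IsRepCoc ρ (z + z') := by
  intro g h
  simp only [Pi.add_apply, hz g h, hz' g h, map_add]
  abel

theorem IsRepCoc.sub {ρ : Representation R G Y} {z z' : G → Y} (hz : IsRepCoc ρ z)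
    (hz' : IsRepCoc ρ z') : IsRepCoc ρ (z - z') := by
  intro g h
  simp only [Pi.sub_apply, hz g h, hz' g h, map_sub]
  abel

/-- the semidirect product `Y ⋊ G`. -/
@[ext] structure RepSemi (ρ : Representation R G Y) where
  /-- the translation part. -/
  y : Y
  /-- the group part. -/
  g : G

namespace RepSemi

variable (ρ : Representation R G Y)

instance : Mul (RepSemi ρ) := ⟨fun a b => ⟨a.y + ρ a.g b.y, a.g * b.g⟩⟩
instance : One (RepSemi ρ) := ⟨⟨0, 1⟩⟩
instance : Inv (RepSemi ρ) := ⟨fun a => ⟨-(ρ a.g⁻¹ a.y), a.g⁻¹⟩⟩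

@[simp] theorem mul_y (a b : RepSemi ρ) : (a * b).y = a.y + ρ a.g b.y := rfl
@[simp] theorem mul_g (a b : RepSemi ρ) : (a * b).g = a.g * b.g := rfl
@[simp] theorem one_y : (1 : RepSemi ρ).y = 0 := rfl
@[simp] theorem one_g : (1 : RepSemi ρ).g = 1 := rfl
@[simp] theorem inv_y (a : RepSemi ρ) : (a⁻¹).y = -(ρ a.g⁻¹ a.y) := rfl
@[simp] theorem inv_g (a : RepSemi ρ) : (a⁻¹).g = a.g⁻¹ := rfl

instance : Group (RepSemi ρ) :=
  Group.ofLeftAxioms
    (fun a b c => by
      ext
      · simp only [mul_y, mul_g, map_mul, Module.End.mul_apply, map_add]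
        abel
      · simp only [mul_g, mul_assoc])
    (fun a => by
      ext
      · simp only [mul_y, one_y, one_g, map_one, Module.End.one_apply, zero_add]
      · simp only [mul_g, one_g, one_mul])
    (fun a => by
      ext
      · simp only [mul_y, inv_y, inv_g, one_y, neg_add_cancel]
      · simp only [mul_g, inv_g, one_g, inv_mul_cancel])

/-- the projection `Y ⋊ G → G`. -/
def gHom : RepSemi ρ →* G where
  toFun a := a.g
  map_one' := rfl
  map_mul' _ _ := rfl

@[simp] theorem gHom_apply (a : RepSemi ρ) : gHom ρ a = a.g := rfl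

end RepSemi

/-- the homomorphism `g ↦ (z g, g)` of a cocycle. -/
def IsRepCoc.toHom {ρ : Representation R G Y} {z : G → Y} (hz : IsRepCoc ρ z) :
    G →* RepSemi ρ where
  toFun g := ⟨z g, g⟩
  map_one' := by
    ext
    · exact hz.map_one
    · rfl
  map_mul' g h := by
    ext
    · exact hz g h
    · rfl

@[simp] theorem IsRepCoc.toHom_apply_y {ρ : Representation R G Y} {z : G → Y} (hz : IsRepCoc ρ z)
    (g : G) : (hz.toHom g).y = z g := rfl

@[simp] theorem IsRepCoc.toHom_apply_g {ρ : Representation R G Y} {z : G → Y} (hz : IsRepCoc ρ z)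
    (g : G) : (hz.toHom g).g = g := rfl

/-- a homomorphism `G → Y ⋊ G` over `G` gives a cocycle. -/
theorem isRepCoc_of_hom {ρ : Representation R G Y} (F : G →* RepSemi ρ) (hF : ∀ g, (F g).g = g) :
    IsRepCoc ρ (fun g => (F g).y) := by
  intro g h
  show (F (g * h)).y = (F g).y + ρ g (F h).y
  rw [map_mul, RepSemi.mul_y, hF]

end RepCoc

/-! ### `SL₂(ℤ)` -/

section SL2Z

variable {R : Type*} [CommRing R] {Y : Type*} [AddCommGroup Y] [Module R Y]

/-- a cocycle of `SL₂(ℤ)` is determined by its values at `S` and `U = S T`. -/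
theorem repCoc_ext {ρ : Representation R SL(2, ℤ) Y} {z z' : SL(2, ℤ) → Y} (hz : IsRepCoc ρ z)
    (hz' : IsRepCoc ρ z') (hS : z S = z' S) (hU : z presU = z' presU) : z = z' := by
  have h : hz.toHom = hz'.toHom := by
    apply SL2Z_hom_ext
    · ext
      · exact hS
      · rfl
    · ext
      · exact hU
      · rfl
  funext g
  have := congrArg (fun F : SL(2, ℤ) →* RepSemi ρ => (F g).y) h
  exact this

/-- **cocycles of `SL₂(ℤ)` from the presentation**: `y_S ∈ ker (1 + S)`, `y_U ∈ ker (1 + U + U²)`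
are the values at `S`, `U = S T` of a cocycle. -/
theorem exists_repCoc_of_values (ρ : Representation R SL(2, ℤ) Y) (yS yU : Y)
    (hS : yS + ρ S yS = 0) (hU : yU + ρ presU yU + ρ presU (ρ presU yU) = 0) :
    ∃ z : SL(2, ℤ) → Y, IsRepCoc ρ z ∧ z S = yS ∧ z presU = yU := by
  have hS2 : (S : SL(2, ℤ)) * S = presU * presU * presU := by decide
  have hS4 : (S : SL(2, ℤ)) * S * (S * S) = 1 := by decide
  set s : RepSemi ρ := ⟨yS, S⟩ with hs
  set t : RepSemi ρ := ⟨yU, presU⟩ with ht
  have hs2 : s * s = ⟨0, S * S⟩ := by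
    ext
    · rw [RepSemi.mul_y]
      exact hS
    · rfl
  have ht3 : t * t * t = ⟨0, presU * presU * presU⟩ := by
    ext
    · rw [RepSemi.mul_y, RepSemi.mul_y, RepSemi.mul_g]
      show yU + ρ presU yU + ρ (presU * presU) yU = 0
      rw [map_mul, Module.End.mul_apply]
      exact hU
    · rfl
  have h1 : s ^ 2 = t ^ 3 := by rw [pow_two, pow_succ, pow_two, hs2, ht3, hS2]
  have h2 : s ^ 4 = 1 := by
    have : s ^ 4 = s * s * (s * s) := by
      rw [show (4 : ℕ) = 2 + 2 from rfl, pow_add, pow_two]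
    rw [this, hs2]
    refine RepSemi.ext ?_ ?_
    · simp only [RepSemi.mul_y, map_zero, add_zero, RepSemi.one_y]
    · exact hS4
  obtain ⟨F, hFS, hFU⟩ := SL2Z_presentation s t h1 h2
  rw [← presU_def] at hFU
  have hFg : ∀ g, (F g).g = g := by
    have : (RepSemi.gHom ρ).comp F = MonoidHom.id _ := by
      apply SL2Z_hom_ext
      · simp [hFS, hs]
      · rw [← presU_def]
        simp [hFU, ht]
    intro g
    exact congrArg (fun φ : SL(2, ℤ) →* SL(2, ℤ) => φ g) this
  refine ⟨fun g => (F g).y, isRepCoc_of_hom F hFg, ?_, ?_⟩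
  · show (F S).y = yS
    rw [hFS]
  · show (F presU).y = yU
    rw [hFU]

/-- **`cd ≤ 1` over `ℤ[1/6]`**: cocycles of `SL₂(ℤ)` lift along equivariant surjections of
`R`-modules, if `2` and `3` are invertible in `R`. -/
theorem SL2Z_repCoc_lift {Y'' : Type*} [AddCommGroup Y''] [Module R Y''] (h2 : IsUnit (2 : R))
    (h3 : IsUnit (3 : R)) (ρ : Representation R SL(2, ℤ) Y) (ρ'' : Representation R SL(2, ℤ) Y'')
    (f : Y →ₗ[R] Y'') (hf : Function.Surjective f) (hfρ : ∀ g y, f (ρ g y) = ρ'' g (f y))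
    (z'' : SL(2, ℤ) → Y'') (hz'' : IsRepCoc ρ'' z'') :
    ∃ z : SL(2, ℤ) → Y, IsRepCoc ρ z ∧ ∀ g, f (z g) = z'' g := by
  obtain ⟨i2, hi2⟩ := h2.exists_right_inv
  obtain ⟨i3, hi3⟩ := h3.exists_right_inv
  -- the central element `ε = S² = U³ = -1`
  obtain ⟨ε, hεS⟩ : ∃ ε : SL(2, ℤ), ε = S * S := ⟨_, rfl⟩
  have hεε : ε * ε = 1 := by rw [hεS]; decide
  have hεU : ε = presU * (presU * presU) := by rw [hεS]; decide
  -- step 1: normalise `z'' ε = 0`
  have hzε : z'' ε + ρ'' ε (z'' ε) = 0 := by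
    have := hz'' ε ε
    rw [hεε, hz''.map_one] at this
    exact this.symm
  set y₀'' : Y'' := -(i2 • z'' ε) with hy₀''
  set z₁'' : SL(2, ℤ) → Y'' := z'' - repCobd ρ'' y₀'' with hz₁''
  have hz₁c : IsRepCoc ρ'' z₁'' := hz''.sub (isRepCoc_repCobd ρ'' y₀'')
  have hz₁ε : z₁'' ε = 0 := by
    have e1 : ρ'' ε (z'' ε) = -z'' ε := eq_neg_of_add_eq_zero_right hzε
    simp only [hz₁'', Pi.sub_apply, repCobd, hy₀'', map_neg, map_smul, e1]
    have : z'' ε = (2 * i2) • z'' ε := by rw [hi2, one_smul]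
    nth_rewrite 1 [this]
    module
  -- the values at `S` and `U`
  have hS'' : z₁'' S + ρ'' S (z₁'' S) = 0 := by
    have := hz₁c S S
    rw [← hεS, hz₁ε] at this
    exact this.symm
  have hU'' : z₁'' presU + ρ'' presU (z₁'' presU) + ρ'' presU (ρ'' presU (z₁'' presU)) = 0 := by
    have := hz₁c presU (presU * presU)
    rw [← hεU, hz₁ε, hz₁c presU presU, map_add] at this
    rw [this]
    abel
  -- lifts
  obtain ⟨aS, haS⟩ := hf (z₁'' S)
  obtain ⟨aU, haU⟩ := hf (z₁'' presU)
  have hρS4 : ∀ y : Y, ρ S (ρ S (ρ S (ρ S y))) = y := by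
    intro y
    have h : (S : SL(2, ℤ)) * (S * (S * S)) = 1 := by decide
    have : ρ (S * (S * (S * S))) y = y := by rw [h, map_one, Module.End.one_apply]
    simpa only [map_mul, Module.End.mul_apply] using this
  have hρU6 : ∀ y : Y, ρ presU (ρ presU (ρ presU (ρ presU (ρ presU (ρ presU y))))) = y := by
    intro y
    have h : presU * (presU * (presU * (presU * (presU * presU)))) = 1 := by decide
    have : ρ (presU * (presU * (presU * (presU * (presU * presU))))) y = y := by
      rw [h, map_one, Module.End.one_apply]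
    simpa only [map_mul, Module.End.mul_apply] using this
  -- the projectors
  set yS : Y := (i2 * i2) • (aS - ρ S aS + ρ S (ρ S aS) - ρ S (ρ S (ρ S aS))) with hyS
  set yU : Y := (i2 * i3) • ((2 : R) • aU - ρ presU aU - ρ presU (ρ presU aU) +
    (2 : R) • ρ presU (ρ presU (ρ presU aU)) -
    ρ presU (ρ presU (ρ presU (ρ presU aU))) -
    ρ presU (ρ presU (ρ presU (ρ presU (ρ presU aU))))) with hyU
  have hyS0 : yS + ρ S yS = 0 := by
    simp only [hyS, map_smul, map_sub, map_add, hρS4]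
    module
  have hyU0 : yU + ρ presU yU + ρ presU (ρ presU yU) = 0 := by
    simp only [hyU, map_smul, map_sub, map_add, hρU6]
    module
  have hfyS : f yS = z₁'' S := by
    have e1 : ρ'' S (z₁'' S) = -z₁'' S := eq_neg_of_add_eq_zero_right hS''
    simp only [hyS, map_smul, map_sub, map_add, hfρ, haS, e1, map_neg, neg_neg]
    trans ((2 * i2) * (2 * i2)) • z₁'' S
    · module
    · rw [hi2, one_mul, one_smul]
  have hfyU : f yU = z₁'' presU := by
    have e1 : ρ'' presU (ρ'' presU (z₁'' presU)) = -z₁'' presU - ρ'' presU (z₁'' presU) := by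
      rw [eq_sub_iff_add_eq, eq_neg_iff_add_eq_zero, ← hU'']
      abel
    simp only [hyU, map_smul, map_sub, map_add, hfρ, haU, e1, map_neg]
    trans ((2 * i2) * (3 * i3)) • z₁'' presU
    · module
    · rw [hi2, hi3, one_mul, one_smul]
  -- the lifted cocycle
  obtain ⟨z₁, hz₁, hz₁S, hz₁U⟩ := exists_repCoc_of_values ρ yS yU hyS0 hyU0
  obtain ⟨y₀, hy₀⟩ := hf y₀''
  have hfz₁ : (fun g => f (z₁ g)) = z₁'' := by
    apply repCoc_ext (ρ := ρ'') _ hz₁c
    · show f (z₁ S) = z₁'' S
      rw [hz₁S, hfyS]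
    · show f (z₁ presU) = z₁'' presU
      rw [hz₁U, hfyU]
    · intro g h
      show f (z₁ (g * h)) = f (z₁ g) + ρ'' g (f (z₁ h))
      rw [hz₁ g h, map_add, hfρ]
  refine ⟨z₁ + repCobd ρ y₀, hz₁.add (isRepCoc_repCobd ρ y₀), fun g => ?_⟩
  have := congrFun hfz₁ g
  simp only [Pi.add_apply, repCobd, map_add, map_sub, hfρ, hy₀]
  rw [this, hz₁'']
  simp only [Pi.sub_apply, repCobd]
  abel

end SL2Z

end Fermat.Agent.RB
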