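/-
RB — helper3 — [TWMOD]-T2, part 3b: **(CD1) for every group embedded in `SL₂(ℤ)`, `6` invertible**.

`j : Γ →* G` injective, `u : Γ →* Λˣ`, `X` a `Λ`-module.
* `coindMod j u X` : the coinduced module `{F : G → X | F (j γ * g) = u γ • F g}`, with the
  representation `coindRep` of `G` by right translation;
* `coindCoc` : **coinduction of cocycles**, `c(g')(g) = z (r (g g')) - z (r g)` for a section
  `r : G → Γ`, `r (j γ * g) = γ * r g`, `r 1 = 1` (`exists_coindSection`);
* `liftsCocycles_of_injective_SL2Z` : `LiftsCocycles u` for every `Γ` with an injective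
  homomorphism to `SL₂(ℤ)`, if `2, 3 ∈ Λˣ`.
-/
import Mathlib
import Fermat.Agent.RB.T2_helper3_Flat
import Fermat.Agent.RB.T2_helper3_SL2Lift

set_option autoImplicit false
set_option linter.unusedSectionVars false

namespace Fermat.Agent.RB

open Matrix Matrix.SpecialLinearGroup
open scoped MatrixGroups

universe v w

section Coind

variable {Γ : Type w} [Group Γ] {G : Type*} [Group G] (j : Γ →* G)
variable {Λ : Type v} [CommRing Λ] (u : Γ →* Λˣ)
variable (X : Type*) [AddCommGroup X] [Module Λ X]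

/-- the coinduced module. -/
def coindMod : Submodule Λ (G → X) where
  carrier := {F | ∀ (γ : Γ) (g : G), F (j γ * g) = ((u γ : Λˣ) : Λ) • F g}
  add_mem' := by
    intro a b ha hb γ g
    simp only [Pi.add_apply, ha γ g, hb γ g, smul_add]
  zero_mem' := by
    intro γ g
    simp
  smul_mem' := by
    intro r a ha γ g
    simp only [Pi.smul_apply, ha γ g]
    rw [smul_comm]

variable {X}

/-- right translation on the coinduced module. -/
def coindTrans (g' : G) : ↥(coindMod j u X) →ₗ[Λ] ↥(coindMod j u X) where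
  toFun F := ⟨fun g => F.1 (g * g'), fun γ g => by
    show F.1 (j γ * g * g') = ((u γ : Λˣ) : Λ) • F.1 (g * g')
    rw [mul_assoc]
    exact F.2 γ (g * g')⟩
  map_add' F F' := by
    ext g
    rfl
  map_smul' r F := by
    ext g
    rfl

@[simp] theorem coindTrans_apply (g' : G) (F : ↥(coindMod j u X)) (g : G) :
    (coindTrans j u g' F).1 g = F.1 (g * g') := rfl

variable (X)

/-- the representation of `G` on the coinduced module. -/
def coindRep : Representation Λ G ↥(coindMod j u X) where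
  toFun g' := coindTrans j u g'
  map_one' := by
    ext F g
    simp
  map_mul' g' g'' := by
    ext F g
    simp [mul_assoc]

variable {X}

@[simp] theorem coindRep_apply (g' : G) (F : ↥(coindMod j u X)) (g : G) :
    (coindRep j u X g' F).1 g = F.1 (g * g') := rfl

variable {Y : Type*} [AddCommGroup Y] [Module Λ Y]

/-- functoriality of the coinduced module. -/
def coindMap (f : X →ₗ[Λ] Y) : ↥(coindMod j u X) →ₗ[Λ] ↥(coindMod j u Y) where
  toFun F := ⟨fun g => f (F.1 g), fun γ g => by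
    show f (F.1 (j γ * g)) = ((u γ : Λˣ) : Λ) • f (F.1 g)
    rw [F.2 γ g, map_smul]⟩
  map_add' F F' := by
    ext g
    simp
  map_smul' r F := by
    ext g
    simp

@[simp] theorem coindMap_apply (f : X →ₗ[Λ] Y) (F : ↥(coindMod j u X)) (g : G) :
    (coindMap j u f F).1 g = f (F.1 g) := rfl

theorem coindMap_coindRep (f : X →ₗ[Λ] Y) (g' : G) (F : ↥(coindMod j u X)) :
    coindMap j u f (coindRep j u X g' F) = coindRep j u Y g' (coindMap j u f F) := by
  ext g
  rfl

/-- a section of `G → j(Γ) \ G`: `r (j γ * g) = γ * r g` and `r 1 = 1`. -/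
theorem exists_coindSection (hj : Function.Injective j) :
    ∃ r : G → Γ, (∀ (γ : Γ) (g : G), r (j γ * g) = γ * r g) ∧ r 1 = 1 := by
  classical
  -- representatives of the right cosets
  let t : G → G := fun g => Quotient.out (Quotient.mk (QuotientGroup.rightRel j.range) g)
  have ht : ∀ g, g * (t g)⁻¹ ∈ j.range := by
    intro g
    have : (QuotientGroup.rightRel j.range) (t g) g := Quotient.exact (Quotient.out_eq _)
    rwa [QuotientGroup.rightRel_apply] at this
  have htγ : ∀ (γ : Γ) g, t (j γ * g) = t g := by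
    intro γ g
    have : Quotient.mk (QuotientGroup.rightRel j.range) (j γ * g) =
        Quotient.mk (QuotientGroup.rightRel j.range) g := by
      apply Quotient.sound
      show (QuotientGroup.rightRel j.range) (j γ * g) g
      rw [QuotientGroup.rightRel_apply]
      refine ⟨γ⁻¹, ?_⟩
      rw [map_inv, _root_.mul_inv_rev, mul_inv_cancel_left]
    show Quotient.out _ = Quotient.out _
    rw [this]
  choose r₀ hr₀ using ht
  have hr₀γ : ∀ (γ : Γ) g, r₀ (j γ * g) = γ * r₀ g := by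
    intro γ g
    apply hj
    rw [hr₀, map_mul, hr₀, htγ, mul_assoc]
  refine ⟨fun g => r₀ g * (r₀ 1)⁻¹, fun γ g => ?_, mul_inv_cancel _⟩
  show r₀ (j γ * g) * (r₀ 1)⁻¹ = γ * (r₀ g * (r₀ 1)⁻¹)
  rw [hr₀γ, mul_assoc]

/-- the coinduced module of a surjection is a surjection. -/
theorem coindMap_surjective (hj : Function.Injective j) (f : X →ₗ[Λ] Y)
    (hf : Function.Surjective f) : Function.Surjective (coindMap j u f) := by
  obtain ⟨r, hr, -⟩ := exists_coindSection j hj
  intro F''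
  choose s hs using hf
  have hrr : ∀ (γ : Γ) (g : G), (j (r (j γ * g)))⁻¹ * (j γ * g) = (j (r g))⁻¹ * g := by
    intro γ g
    rw [hr, map_mul, _root_.mul_inv_rev, mul_assoc, inv_mul_cancel_left]
  refine ⟨⟨fun g => ((u (r g) : Λˣ) : Λ) • s (F''.1 ((j (r g))⁻¹ * g)), fun γ g => ?_⟩, ?_⟩
  · show ((u (r (j γ * g)) : Λˣ) : Λ) • s (F''.1 ((j (r (j γ * g)))⁻¹ * (j γ * g))) =
      ((u γ : Λˣ) : Λ) • ((u (r g) : Λˣ) : Λ) • s (F''.1 ((j (r g))⁻¹ * g))
    rw [hrr, hr, map_mul, Units.val_mul, mul_smul]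
  · ext g
    show f (((u (r g) : Λˣ) : Λ) • s (F''.1 ((j (r g))⁻¹ * g))) = F''.1 g
    rw [map_smul, hs, ← F''.2 (r g), mul_inv_cancel_left]

/-- **coinduction of cocycles**. -/
def coindCoc (r : G → Γ) (hr : ∀ (γ : Γ) (g : G), r (j γ * g) = γ * r g) (z : ↥(cocZ1 u X))
    (g' : G) : ↥(coindMod j u X) :=
  ⟨fun g => z.1 (r (g * g')) - z.1 (r g), fun γ g => by
    show z.1 (r (j γ * g * g')) - z.1 (r (j γ * g)) =
      ((u γ : Λˣ) : Λ) • (z.1 (r (g * g')) - z.1 (r g))
    rw [mul_assoc, hr, hr, z.2, z.2, smul_sub]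
    abel⟩

theorem isRepCoc_coindCoc (r : G → Γ) (hr : ∀ (γ : Γ) (g : G), r (j γ * g) = γ * r g)
    (z : ↥(cocZ1 u X)) : IsRepCoc (coindRep j u X) (coindCoc j u r hr z) := by
  intro g' g''
  ext g
  show z.1 (r (g * (g' * g''))) - z.1 (r g) =
    (z.1 (r (g * g')) - z.1 (r g)) + (z.1 (r (g * g' * g'')) - z.1 (r (g * g')))
  rw [mul_assoc]
  abel

theorem coindCoc_apply_one (r : G → Γ) (hr : ∀ (γ : Γ) (g : G), r (j γ * g) = γ * r g)
    (hr1 : r 1 = 1) (z : ↥(cocZ1 u X)) (γ : Γ) : (coindCoc j u r hr z (j γ)).1 1 = z.1 γ := by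
  show z.1 (r (1 * j γ)) - z.1 (r 1) = z.1 γ
  rw [one_mul, hr1, cocZ1_one u z.2, sub_zero]
  have := hr γ 1
  rw [mul_one, hr1, mul_one] at this
  rw [this]

/-- restriction of a cocycle of `G` in the coinduced module to a cocycle of `Γ` in `X`. -/
theorem coindRestrict_mem {c : G → ↥(coindMod j u X)} (hc : IsRepCoc (coindRep j u X) c) :
    (fun γ : Γ => (c (j γ)).1 1) ∈ cocZ1 u X := by
  intro γ γ'
  show (c (j (γ * γ'))).1 1 = (c (j γ)).1 1 + ((u γ : Λˣ) : Λ) • (c (j γ')).1 1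
  rw [map_mul, hc]
  show (c (j γ)).1 1 + (c (j γ')).1 (1 * j γ) = _
  rw [one_mul, ← mul_one (j γ), (c (j γ')).2 γ 1]

end Coind

section Main

variable {Γ : Type w} [Group Γ] {Λ : Type v} [CommRing Λ] (u : Γ →* Λˣ)

/-- **(CD1) for groups embedded in `SL₂(ℤ)`**, `2, 3 ∈ Λˣ`. -/
theorem liftsCocycles_of_injective_SL2Z (j : Γ →* SL(2, ℤ)) (hj : Function.Injective j)
    (h2 : IsUnit (2 : Λ)) (h3 : IsUnit (3 : Λ)) : LiftsCocycles u := by
  intro X Y _ _ _ _ f hf z''
  obtain ⟨r, hr, hr1⟩ := exists_coindSection j hj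
  obtain ⟨c, hc, hfc⟩ := SL2Z_repCoc_lift h2 h3 (coindRep j u X) (coindRep j u Y) (coindMap j u f)
    (coindMap_surjective j u hj f hf) (coindMap_coindRep j u f) (coindCoc j u r hr z'')
    (isRepCoc_coindCoc j u r hr z'')
  refine ⟨⟨fun γ => (c (j γ)).1 1, coindRestrict_mem j u hc⟩, ?_⟩
  apply Subtype.ext
  funext γ
  show f ((c (j γ)).1 1) = z''.1 γ
  have := congrArg (fun F : ↥(coindMod j u Y) => F.1 1) (hfc (j γ))
  rw [← coindCoc_apply_one j u r hr hr1 z'' γ]
  exact this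

/-- **(CD1) for subgroups of `SL₂(ℤ)`**. -/
theorem liftsCocycles_of_subgroup_SL2Z (Γ₀ : Subgroup SL(2, ℤ)) (u₀ : ↥Γ₀ →* Λˣ)
    (h2 : IsUnit (2 : Λ)) (h3 : IsUnit (3 : Λ)) : LiftsCocycles u₀ :=
  liftsCocycles_of_injective_SL2Z u₀ Γ₀.subtype Γ₀.subtype_injective h2 h3

/-- **(CD1) for subgroups of subgroups of `SL₂(ℤ)`** (e.g. the kernel of a character of
`Γ₀(N)`). -/
theorem liftsCocycles_of_subgroup_subgroup_SL2Z (Γ₀ : Subgroup SL(2, ℤ)) (H : Subgroup ↥Γ₀)
    (u₀ : ↥H →* Λˣ) (h2 : IsUnit (2 : Λ)) (h3 : IsUnit (3 : Λ)) : LiftsCocycles u₀ :=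
  liftsCocycles_of_injective_SL2Z u₀ (Γ₀.subtype.comp H.subtype)
    (Γ₀.subtype_injective.comp H.subtype_injective) h2 h3

end Main

end Fermat.Agent.RB
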