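/-
RB — helper3 — [TWMOD]-T2, part 7: **finite generation of `Z¹` and `H¹`** for a finitely generated
group and noetherian coefficients (a cocycle is determined by its values on generators).
-/
import Mathlib
import Fermat.Agent.RB.T2_helper3_Coc

set_option autoImplicit false
set_option linter.unusedSectionVars false

namespace Fermat.Agent.RB

universe v w

section Fin

variable {Γ : Type w} [Group Γ] {Λ : Type v} [CommRing Λ] (u : Γ →* Λˣ)
variable (X : Type*) [AddCommGroup X] [Module Λ X]

/-- a cocycle vanishing on a generating set vanishes. -/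
theorem cocZ1_eq_zero_of_closure {S : Set Γ} (hS : Subgroup.closure S = ⊤) {c : Γ → X}
    (hc : c ∈ cocZ1 u X) (h : ∀ s ∈ S, c s = 0) : c = 0 := by
  funext γ
  have hγ : γ ∈ Subgroup.closure S := hS ▸ Subgroup.mem_top γ
  induction hγ using Subgroup.closure_induction with
  | mem x hx => exact h x hx
  | one => exact cocZ1_one u hc
  | mul x y _ _ hx hy =>
    rw [cocZ1_mul u hc, hx, hy]
    simp
  | inv x _ hx =>
    rw [cocZ1_inv u hc, hx]
    simp

instance finite_cocZ1 [Group.FG Γ] [IsNoetherian Λ X] : Module.Finite Λ ↥(cocZ1 u X) := by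
  obtain ⟨S, hS⟩ := Group.FG.out (G := Γ)
  let ρ : ↥(cocZ1 u X) →ₗ[Λ] ({x // x ∈ S} → X) :=
    { toFun := fun c s => c.1 s.1
      map_add' := fun c d => rfl
      map_smul' := fun r c => rfl }
  refine Module.Finite.of_injective ρ ?_
  intro c d hcd
  have h1 : (c - d).1 = 0 := by
    apply cocZ1_eq_zero_of_closure u X (S := (S : Set Γ)) hS (c - d).2
    intro s hs
    have := congrFun hcd ⟨s, Finset.mem_coe.mp hs⟩
    show c.1 s - d.1 s = 0
    rw [sub_eq_zero]
    exact this
  have h2 : c - d = 0 := Subtype.ext h1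
  exact sub_eq_zero.mp h2

instance finite_cocH1 [Group.FG Γ] [IsNoetherian Λ X] : Module.Finite Λ (cocH1 u X) := by
  unfold cocH1
  infer_instance

end Fin

end Fermat.Agent.RB
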