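/-
RB — helper3 — [TWMOD]-T2, part 5: **the group ring `O[Δ]` of a finite commutative `p`-group over a
local ring of residue characteristic `p` is local**; augmentation ideals.

* `grpRingAug O Δ : O[Δ] →ₐ[O] O`, `sub_algebraMap_aug_mem` : `x - aug x ∈ span {[δ] - 1}`;
* `of_sub_one_pow_mem` : `([δ] - 1) ^ (p ^ n) ∈ (p)` if `δ ^ (p ^ n) = 1`;
* `isLocalRing_monoidAlgebra` : `O[Δ]` is local;
* `ker_mapDomainRingHom` : for `π : Δ →* Δ''` surjective, the kernel of `O[Δ] → O[Δ'']` is generated
  by the `[δ] - 1`, `δ ∈ ker π`.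
-/
import Mathlib

set_option autoImplicit false
set_option linter.unusedSectionVars false

namespace Fermat.Agent.RB

universe v

section Aug

variable (O : Type v) [CommRing O] (Δ : Type*) [CommGroup Δ]

/-- the augmentation `O[Δ] → O`. -/
noncomputable def grpRingAug : MonoidAlgebra O Δ →ₐ[O] O :=
  MonoidAlgebra.lift O O Δ (1 : Δ →* O)

@[simp] theorem grpRingAug_of (δ : Δ) : grpRingAug O Δ (MonoidAlgebra.of O Δ δ) = 1 := by
  rw [grpRingAug, MonoidAlgebra.lift_of]
  rfl

variable {O Δ}

/-- `x - aug x` lies in every ideal containing all `[δ] - 1`. -/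
theorem sub_algebraMap_aug_mem (J : Ideal (MonoidAlgebra O Δ))
    (hJ : ∀ δ : Δ, MonoidAlgebra.of O Δ δ - 1 ∈ J) (x : MonoidAlgebra O Δ) :
    x - algebraMap O (MonoidAlgebra O Δ) (grpRingAug O Δ x) ∈ J := by
  induction x using MonoidAlgebra.induction_on with
  | of δ =>
    rw [grpRingAug_of, map_one]
    exact hJ δ
  | add x y hx hy =>
    have : x + y - algebraMap O (MonoidAlgebra O Δ) (grpRingAug O Δ (x + y)) =
        (x - algebraMap O (MonoidAlgebra O Δ) (grpRingAug O Δ x)) +
          (y - algebraMap O (MonoidAlgebra O Δ) (grpRingAug O Δ y)) := by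
      rw [map_add, map_add]
      abel
    rw [this]
    exact J.add_mem hx hy
  | smul r x hx =>
    have : r • x - algebraMap O (MonoidAlgebra O Δ) (grpRingAug O Δ (r • x)) =
        algebraMap O (MonoidAlgebra O Δ) r *
          (x - algebraMap O (MonoidAlgebra O Δ) (grpRingAug O Δ x)) := by
      rw [map_smul, smul_eq_mul, map_mul, mul_sub, Algebra.smul_def]
    rw [this]
    exact J.mul_mem_left _ hx

/-- `([δ] - 1) ^ (p ^ n) ∈ (p)` if `δ ^ (p ^ n) = 1`. -/
theorem of_sub_one_pow_mem {p : ℕ} (hp : p.Prime) {δ : Δ} {n : ℕ} (hδ : δ ^ (p ^ n) = 1) :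
    (MonoidAlgebra.of O Δ δ - 1) ^ (p ^ n) ∈
      Ideal.span {((p : ℕ) : MonoidAlgebra O Δ)} := by
  have h1 := add_pow_prime_pow_eq hp (MonoidAlgebra.of O Δ δ - 1) (1 : MonoidAlgebra O Δ) n
  rw [sub_add_cancel, ← map_pow, hδ, map_one, one_pow] at h1
  have h2 : (MonoidAlgebra.of O Δ δ - 1) ^ p ^ n =
      -((p : MonoidAlgebra O Δ) * ((MonoidAlgebra.of O Δ δ - 1) * 1 *
        ∑ k ∈ Finset.Ioo 0 (p ^ n), (MonoidAlgebra.of O Δ δ - 1) ^ (k - 1) *
          1 ^ (p ^ n - k - 1) * (((p ^ n).choose k / p : ℕ) : MonoidAlgebra O Δ))) := by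
    rw [eq_neg_iff_add_eq_zero]
    have h3 := h1
    rw [add_comm ((MonoidAlgebra.of O Δ δ - 1) ^ p ^ n) 1, add_assoc, left_eq_add] at h3
    rw [← h3]
    ring
  rw [h2]
  exact neg_mem (Ideal.mul_mem_right _ _ (Ideal.subset_span rfl))

end Aug

section Local

variable {O : Type v} [CommRing O] [IsLocalRing O] {Δ : Type*} [CommGroup Δ] [Finite Δ]

/-- **`O[Δ]` is local** for `O` local of residue characteristic `p` and `Δ` a finite commutative
`p`-group. -/
theorem isLocalRing_monoidAlgebra {p : ℕ} (hp : p.Prime)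
    (hpO : (p : O) ∈ IsLocalRing.maximalIdeal O) (hΔ : IsPGroup p Δ) :
    IsLocalRing (MonoidAlgebra O Δ) := by
  classical
  -- the candidate maximal ideal
  set εb : MonoidAlgebra O Δ →+* IsLocalRing.ResidueField O :=
    (IsLocalRing.residue O).comp (grpRingAug O Δ : MonoidAlgebra O Δ →+* O) with hεb
  have hεb_surj : Function.Surjective εb := by
    intro y
    obtain ⟨a, rfl⟩ := IsLocalRing.residue_surjective y
    refine ⟨algebraMap O _ a, ?_⟩
    show IsLocalRing.residue O (grpRingAug O Δ (algebraMap O _ a)) = _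
    rw [AlgHom.commutes]
    rfl
  have hM₀ : (RingHom.ker εb).IsMaximal := RingHom.ker_isMaximal_of_surjective εb hεb_surj
  apply IsLocalRing.of_unique_max_ideal
  refine ⟨RingHom.ker εb, hM₀, fun M hM => ?_⟩
  -- every maximal ideal contains `ker εb`
  have hcomap : Ideal.comap (algebraMap O (MonoidAlgebra O Δ)) M = IsLocalRing.maximalIdeal O :=
    IsLocalRing.eq_maximalIdeal (Ideal.isMaximal_comap_of_isIntegral_of_isMaximal M)
  have hpM : ((p : ℕ) : MonoidAlgebra O Δ) ∈ M := by
    have : (p : O) ∈ Ideal.comap (algebraMap O (MonoidAlgebra O Δ)) M := by rw [hcomap]; exact hpO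
    rw [Ideal.mem_comap, map_natCast] at this
    exact this
  have hδM : ∀ δ : Δ, MonoidAlgebra.of O Δ δ - 1 ∈ M := by
    intro δ
    obtain ⟨n, hn⟩ := hΔ δ
    have h1 := of_sub_one_pow_mem (O := O) hp hn
    have h2 : (MonoidAlgebra.of O Δ δ - 1) ^ (p ^ n) ∈ M :=
      (Ideal.span_le.mpr (Set.singleton_subset_iff.mpr hpM)) h1
    exact hM.isPrime.mem_of_pow_mem _ h2
  have hle : RingHom.ker εb ≤ M := by
    intro x hx
    have h1 := sub_algebraMap_aug_mem M hδM x
    have h2 : algebraMap O (MonoidAlgebra O Δ) (grpRingAug O Δ x) ∈ M := by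
      rw [← Ideal.mem_comap, hcomap]
      rw [RingHom.mem_ker] at hx
      exact (IsLocalRing.residue_eq_zero_iff _).mp hx
    have := M.add_mem h1 h2
    rwa [sub_add_cancel] at this
  exact (hM₀.eq_of_le hM.ne_top hle).symm

end Local


section Ker

variable {O : Type v} [CommRing O] {Δ : Type*} [CommGroup Δ] {Δ'' : Type*} [CommGroup Δ'']

/-- **the kernel of `O[Δ] → O[Δ'']`** is generated by the `[δ] - 1`, `δ ∈ ker π`. -/
theorem ker_mapDomainRingHom (π : Δ →* Δ'') (hπ : Function.Surjective π) :
    RingHom.ker (MonoidAlgebra.mapDomainRingHom O π) =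
      Ideal.span {x | ∃ δ ∈ π.ker, x = MonoidAlgebra.of O Δ δ - 1} := by
  classical
  apply le_antisymm
  · intro x hx
    set J : Ideal (MonoidAlgebra O Δ) :=
      Ideal.span {x | ∃ δ ∈ π.ker, x = MonoidAlgebra.of O Δ δ - 1} with hJ
    set t : Δ'' → Δ := Function.surjInv hπ with ht
    have htπ : ∀ δ'', π (t δ'') = δ'' := Function.surjInv_eq hπ
    have key : ∀ x : MonoidAlgebra O Δ,
        x - MonoidAlgebra.mapDomainLinearMap O O t (MonoidAlgebra.mapDomainRingHom O π x) ∈ J := by
      intro x
      induction x using MonoidAlgebra.induction_on with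
      | of δ =>
        rw [MonoidAlgebra.of_apply, MonoidAlgebra.mapDomainRingHom_apply,
          MonoidAlgebra.mapDomain_single, MonoidAlgebra.mapDomainLinearMap_single]
        have hker : δ * (t (π δ))⁻¹ ∈ π.ker := by
          rw [MonoidHom.mem_ker, map_mul, map_inv, htπ, mul_inv_cancel]
        have h1 : (MonoidAlgebra.single δ 1 : MonoidAlgebra O Δ) - MonoidAlgebra.single (t (π δ)) 1 =
            MonoidAlgebra.single (t (π δ)) 1 *
              (MonoidAlgebra.of O Δ (δ * (t (π δ))⁻¹) - 1) := by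
          rw [mul_sub, mul_one, MonoidAlgebra.of_apply, MonoidAlgebra.single_mul_single, mul_one,
            mul_comm (t (π δ)), inv_mul_cancel_right]
        rw [h1]
        exact Ideal.mul_mem_left _ _ (Ideal.subset_span ⟨_, hker, rfl⟩)
      | add x y hx hy =>
        have : x + y - MonoidAlgebra.mapDomainLinearMap O O t
            (MonoidAlgebra.mapDomainRingHom O π (x + y)) =
            (x - MonoidAlgebra.mapDomainLinearMap O O t (MonoidAlgebra.mapDomainRingHom O π x)) +
            (y - MonoidAlgebra.mapDomainLinearMap O O t (MonoidAlgebra.mapDomainRingHom O π y)) := by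
          rw [map_add, map_add]
          abel
        rw [this]
        exact J.add_mem hx hy
      | smul r x hx =>
        have h1 : MonoidAlgebra.mapDomainRingHom O π (r • x) =
            r • MonoidAlgebra.mapDomainRingHom O π x := by
          rw [MonoidAlgebra.mapDomainRingHom_apply, MonoidAlgebra.mapDomainRingHom_apply,
            MonoidAlgebra.mapDomain_smul]
        have : r • x - MonoidAlgebra.mapDomainLinearMap O O t
            (MonoidAlgebra.mapDomainRingHom O π (r • x)) =
            algebraMap O (MonoidAlgebra O Δ) r *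
              (x - MonoidAlgebra.mapDomainLinearMap O O t
                (MonoidAlgebra.mapDomainRingHom O π x)) := by
          rw [h1, map_smul, mul_sub, ← Algebra.smul_def, ← Algebra.smul_def]
        rw [this]
        exact J.mul_mem_left _ hx
    have := key x
    rw [RingHom.mem_ker.mp hx, map_zero, sub_zero] at this
    exact this
  · rw [Ideal.span_le]
    rintro _ ⟨δ, hδ, rfl⟩
    rw [SetLike.mem_coe, RingHom.mem_ker, map_sub, map_one, MonoidAlgebra.of_apply,
      MonoidAlgebra.mapDomainRingHom_apply, MonoidAlgebra.mapDomain_single,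
      MonoidHom.mem_ker.mp hδ]
    exact sub_self _

end Ker

end Fermat.Agent.RB
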