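/-
RB — helper3 — [TWMOD]-T2, part 8: **the main theorems**.

Setting: `O` a complete noetherian local ring of residue characteristic `p ≥ 5`; `Γ` a finitely
generated group embedded in `SL₂(ℤ)`; `χ : Γ →* Δ` a character with values in a finite commutative
`p`-group; `Λ = O[Δ]`; `H = cocH1 (grpRingChar O χ) Λ` (`≃ Hom(ker χ, O)` by `shapiroEquiv`,
Hecke-equivariantly, the action of `[χ g]` being conjugation by `g`); `𝕋` a commutative `O`-algebra
acting `Λ`-linearly on `H` through `α`, `m` a maximal ideal of `𝕋`, `ε ∈ 𝕋` an idempotent of `m`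
(`exists_idempotent_end`).

* `free_idemRange_cocH1` : if `η = T_D - deg D ∈ α(𝕋 ∖ m)` for some Hecke datum `D`, the `m`-part
  `α ε • H` is a FREE `Λ`-module.
* `control_cocH1` : for a surjection `π : Δ →* Δ''` the natural map `H → H''` is onto with kernel
  `I_π H`, `I_π = ([δ] - 1, δ ∈ ker π)`, and is Hecke-equivariant (`cocH1MapSL_hecke`).
* `control_idemRange_cocH1` : the same for the `m`-parts.
-/
import Mathlib
import Fermat.Agent.RB.T2_helper3_Coind
import Fermat.Agent.RB.T2_helper3_Shapiro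
import Fermat.Agent.RB.T2_helper3_GrpRing
import Fermat.Agent.RB.T2_helper3_Decomp
import Fermat.Agent.RB.T2_helper3_Fin

set_option autoImplicit false
set_option linter.unusedSectionVars false
set_option linter.style.haveILetI false

namespace Fermat.Agent.RB

open Fermat.Agent.GR IsLocalRing Matrix Matrix.SpecialLinearGroup
open scoped MatrixGroups

universe v w

/-- in a local ring whose maximal ideal contains the prime `p`, every integer prime to `p` is a
unit. -/
theorem isUnit_natCast_of_coprime {O : Type*} [CommRing O] [IsLocalRing O] {p : ℕ}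
    (hpO : (p : O) ∈ maximalIdeal O) {a : ℕ} (ha : Nat.Coprime a p) : IsUnit (a : O) := by
  by_contra h
  have h1 : (a : O) ∈ maximalIdeal O := (mem_maximalIdeal _).mpr h
  have h2 : ((Nat.gcd a p : ℕ) : O) ∈ maximalIdeal O := by
    have hb := Nat.gcd_eq_gcd_ab a p
    have h3 : ((Nat.gcd a p : ℕ) : O) = (a : O) * ((Nat.gcdA a p : ℤ) : O) +
        (p : O) * ((Nat.gcdB a p : ℤ) : O) := by
      have := congrArg (fun z : ℤ => (z : O)) hb
      simpa using this
    rw [h3]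
    exact add_mem (Ideal.mul_mem_right _ _ h1) (Ideal.mul_mem_right _ _ hpO)
  rw [ha, Nat.cast_one] at h2
  exact (maximalIdeal.isMaximal O).ne_top ((Ideal.eq_top_iff_one _).mpr h2)

section SemilinearHecke

variable {Γ : Type w} [Group Γ] {Λ : Type*} [CommRing Λ] (u : Γ →* Λˣ)
variable {Λ' : Type*} [CommRing Λ'] (u' : Γ →* Λ'ˣ)
variable {G ι : Type*} [Group G] [Fintype ι] (D : HeckeDatum Γ G ι)
variable {X : Type*} [AddCommGroup X] [Module Λ X] {X' : Type*} [AddCommGroup X'] [Module Λ' X']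

/-- semilinear naturality of the Hecke operators. -/
theorem cocH1MapSL_hecke {σ : Λ →+* Λ'} (hu : ∀ γ, ((u' γ : Λ'ˣ) : Λ') = σ ((u γ : Λˣ) : Λ))
    (f : X →ₛₗ[σ] X') (hD : ∀ γ i, u (D.cocycle γ i) = u γ)
    (hD' : ∀ γ i, u' (D.cocycle γ i) = u' γ) (x : cocH1 u X) :
    cocH1MapSL u u' hu f (cocHeckeH1 u D hD X x) =
      cocHeckeH1 u' D hD' X' (cocH1MapSL u u' hu f x) := by
  obtain ⟨c, rfl⟩ := cocH1Mk_surjective u x
  rw [cocHeckeH1_mk, cocH1MapSL_mk, cocH1MapSL_mk, cocHeckeH1_mk]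
  congr 1
  apply Subtype.ext
  funext γ
  simp [map_sum]

end SemilinearHecke

section Main

variable {O : Type v} [CommRing O] [IsLocalRing O] [IsNoetherianRing O]
  [IsAdicComplete (maximalIdeal O) O]
variable {Γ : Type w} [Group Γ] [Group.FG Γ]
variable {Δ : Type v} [CommGroup Δ] [Finite Δ] (χ : Γ →* Δ)

local notation "Λ" => MonoidAlgebra O Δ
local notation "uu" => grpRingChar O χ

instance isNoetherianRing_monoidAlgebra_of_finite : IsNoetherianRing (MonoidAlgebra O Δ) :=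
  Algebra.FiniteType.isNoetherianRing O (MonoidAlgebra O Δ)

instance finite_cocH1_grpRing : Module.Finite O (cocH1 uu Λ) :=
  Module.Finite.trans Λ (cocH1 uu Λ)

omit [IsLocalRing O] [IsNoetherianRing O] [IsAdicComplete (maximalIdeal O) O] [Finite Δ]
  [Group.FG Γ] in
/-- the compatibility `hD` for the tautological character. -/
theorem grpRingChar_cocycle {G ι : Type*} [Group G] (D : HeckeDatum Γ G ι)
    (hD : ∀ γ i, χ (D.cocycle γ i) = χ γ) (γ : Γ) (i : ι) : uu (D.cocycle γ i) = uu γ :=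
  grpRingChar_eq_iff O χ (hD γ i)

/-- **(CD1)** for the tautological character of a group embedded in `SL₂(ℤ)`, residue
characteristic `≥ 5`. -/
theorem liftsCocycles_grpRingChar {p : ℕ} (hp : p.Prime) (hp5 : 5 ≤ p)
    (hpO : (p : O) ∈ maximalIdeal O) (j : Γ →* SL(2, ℤ)) (hj : Function.Injective j) :
    LiftsCocycles uu := by
  have hcop : ∀ a : ℕ, 0 < a → a < 5 → Nat.Coprime a p := by
    intro a ha0 ha
    exact Nat.Coprime.symm ((Nat.Prime.coprime_iff_not_dvd hp).mpr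
      (Nat.not_dvd_of_pos_of_lt ha0 (lt_of_lt_of_le ha hp5)))
  have h2 : IsUnit (2 : Λ) := by
    have := (isUnit_natCast_of_coprime hpO (hcop 2 (by norm_num) (by norm_num))).map
      (algebraMap O Λ)
    rwa [map_natCast] at this
  have h3 : IsUnit (3 : Λ) := by
    have := (isUnit_natCast_of_coprime hpO (hcop 3 (by norm_num) (by norm_num))).map
      (algebraMap O Λ)
    rwa [map_natCast] at this
  exact liftsCocycles_of_injective_SL2Z uu j hj h2 h3

/-- **(T2, freeness)**: the `m`-part of `H¹(Γ, O[Δ]) ≃ Hom(ker χ, O)` is free over `O[Δ]`, as soon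
as `η = T_D - deg D` is (the image of) an element of `𝕋 ∖ m` for one Hecke datum `D`. -/
theorem free_idemRange_cocH1 {p : ℕ} (hp : p.Prime) (hp5 : 5 ≤ p)
    (hpO : (p : O) ∈ maximalIdeal O) (hΔ : IsPGroup p Δ)
    (j : Γ →* SL(2, ℤ)) (hj : Function.Injective j)
    {𝕋 : Type*} [CommRing 𝕋] [Algebra O 𝕋] (α : 𝕋 →ₐ[O] Module.End Λ (cocH1 uu Λ))
    (m : Ideal 𝕋) {G ι : Type*} [Group G] [Fintype ι] (D : HeckeDatum Γ G ι)
    (hD : ∀ γ i, χ (D.cocycle γ i) = χ γ) (t : 𝕋) (htm : t ∉ m)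
    (ht : α t = cocEta uu D (grpRingChar_cocycle χ D hD) Λ)
    (ε : 𝕋) (hε : α ε * α ε = α ε) (hinv : ∀ s : 𝕋, s ∉ m → ∃ s' : 𝕋, α (s * s') * α ε = α ε) :
    Module.Free Λ ↥(idemRange (α ε)) := by
  haveI : IsLocalRing Λ := isLocalRing_monoidAlgebra hp hpO hΔ
  have hL : LiftsCocycles uu := liftsCocycles_grpRingChar χ hp hp5 hpO j hj
  obtain ⟨s', hs'⟩ := hinv t htm
  have hcomm : ∀ a b : 𝕋, Commute (α a) (α b) := fun a b => by
    show α a * α b = α b * α a
    rw [← map_mul, ← map_mul, mul_comm]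
  obtain ⟨E, hE⟩ := exists_equiv_idemRange (α ε) (α t) (α s') hε (hcomm _ _) (hcomm _ _)
    (hcomm _ _) (by rw [← map_mul]; exact hs')
  refine free_of_retract_of_cocEta_bijective D hL (grpRingChar_cocycle χ D hD)
    (idemRange (α ε)).subtype (idemProj (α ε)) (idemProj_subtype (α ε) hε) E ?_
  intro x
  rw [hE, ht]

/-! ### Control -/

section Control

variable {Δ'' : Type v} [CommGroup Δ''] (π : Δ →* Δ'')

local notation "Λ''" => MonoidAlgebra O Δ''
local notation "uu''" => grpRingChar O (π.comp χ)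

omit [IsLocalRing O] [IsNoetherianRing O] [IsAdicComplete (maximalIdeal O) O] [Finite Δ] in
theorem mapDomainRingHom_surjective (hπ : Function.Surjective π) :
    Function.Surjective (MonoidAlgebra.mapDomainRingHom O π) := by
  intro y
  induction y using MonoidAlgebra.induction_on with
  | of δ'' =>
    obtain ⟨δ, rfl⟩ := hπ δ''
    refine ⟨MonoidAlgebra.of O Δ δ, ?_⟩
    rw [MonoidAlgebra.of_apply, MonoidAlgebra.mapDomainRingHom_apply,
      MonoidAlgebra.mapDomain_single, MonoidAlgebra.of_apply]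
  | add x y hx hy =>
    obtain ⟨a, rfl⟩ := hx
    obtain ⟨b, rfl⟩ := hy
    exact ⟨a + b, map_add _ _ _⟩
  | smul r x hx =>
    obtain ⟨a, rfl⟩ := hx
    refine ⟨r • a, ?_⟩
    rw [MonoidAlgebra.mapDomainRingHom_apply, MonoidAlgebra.mapDomainRingHom_apply,
      MonoidAlgebra.mapDomain_smul]

omit [IsLocalRing O] [IsNoetherianRing O] [IsAdicComplete (maximalIdeal O) O] [Finite Δ]
  [Group.FG Γ] in
theorem grpRingChar_comp (γ : Γ) :
    ((uu'' γ : (Λ'')ˣ) : Λ'') = MonoidAlgebra.mapDomainRingHom O π ((uu γ : (Λ)ˣ) : Λ) := by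
  rw [grpRingChar_val, grpRingChar_val, MonoidAlgebra.of_apply, MonoidAlgebra.of_apply,
    MonoidAlgebra.mapDomainRingHom_apply, MonoidAlgebra.mapDomain_single]
  rfl

variable (O) in
/-- **the control map** `H¹(Γ, O[Δ]) → H¹(Γ, O[Δ''])` (under Shapiro: the corestriction
`Hom(ker χ, O) → Hom(ker (π ∘ χ), O)`). -/
noncomputable def ctlMap :
    cocH1 uu Λ →ₛₗ[MonoidAlgebra.mapDomainRingHom O π] cocH1 uu'' Λ'' :=
  cocH1MapSL uu uu'' (grpRingChar_comp (O := O) χ π)
    (MonoidAlgebra.mapDomainRingHom O π).toSemilinearMap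

/-- **(T2, control)**: surjectivity. -/
theorem ctlMap_surjective {p : ℕ} (hp : p.Prime) (hp5 : 5 ≤ p)
    (hpO : (p : O) ∈ maximalIdeal O) (j : Γ →* SL(2, ℤ)) (hj : Function.Injective j)
    (hπ : Function.Surjective π) : Function.Surjective (ctlMap O χ π) :=
  cocH1MapSL_surjective _ _ (liftsCocycles_grpRingChar χ hp hp5 hpO j hj)
    (mapDomainRingHom_surjective π hπ) (grpRingChar_comp χ π)

/-- **(T2, control)**: the kernel is `I_π H`, `I_π = ([δ] - 1 : δ ∈ ker π)`. -/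
theorem ctlMap_eq_zero_iff {p : ℕ} (hp : p.Prime) (hp5 : 5 ≤ p)
    (hpO : (p : O) ∈ maximalIdeal O) (j : Γ →* SL(2, ℤ)) (hj : Function.Injective j)
    (hπ : Function.Surjective π) (x : cocH1 uu Λ) :
    ctlMap O χ π x = 0 ↔ x ∈ Ideal.span {a : Λ | ∃ δ ∈ π.ker, a = MonoidAlgebra.of O Δ δ - 1} •
      (⊤ : Submodule Λ (cocH1 uu Λ)) := by
  rw [← ker_mapDomainRingHom π hπ, ← ker_cocH1MapSL _ _ (liftsCocycles_grpRingChar χ hp hp5 hpO j hj)
    (mapDomainRingHom_surjective π hπ) (grpRingChar_comp χ π), LinearMap.mem_ker]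
  rfl

/-- **(T2, control)**: Hecke equivariance. -/
theorem ctlMap_hecke {G ι : Type*} [Group G] [Fintype ι] (D : HeckeDatum Γ G ι)
    (hD : ∀ γ i, χ (D.cocycle γ i) = χ γ) (x : cocH1 uu Λ) :
    ctlMap O χ π (cocHeckeH1 uu D (grpRingChar_cocycle χ D hD) Λ x) =
      cocHeckeH1 uu'' D (grpRingChar_cocycle (π.comp χ) D
        (fun γ i => by rw [MonoidHom.comp_apply, MonoidHom.comp_apply, hD])) Λ''
        (ctlMap O χ π x) :=
  cocH1MapSL_hecke uu uu'' D (grpRingChar_comp χ π) _ _ _ x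

/-! ### Control for the `m`-parts -/

section ControlIdem

variable {𝕋 : Type*} [CommRing 𝕋] [Algebra O 𝕋]

/-- identities between Hecke operators descend along the control map. -/
theorem end_eq_of_ctlMap (α : 𝕋 →ₐ[O] Module.End Λ (cocH1 uu Λ))
    (α'' : 𝕋 →ₐ[O] Module.End Λ'' (cocH1 uu'' Λ''))
    (hsurj : Function.Surjective (ctlMap O χ π))
    (hαα : ∀ (t : 𝕋)
      (x : cocH1 uu Λ), ctlMap O χ π (α t x) = α'' t (ctlMap O χ π x)) {a b : 𝕋} (h : α a = α b) :
    α'' a = α'' b := by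
  apply LinearMap.ext
  intro y
  obtain ⟨x, rfl⟩ := hsurj y
  rw [← hαα, ← hαα, h]

/-- the idempotent and the invertibility statements descend along the control map. -/
theorem idem_of_ctlMap (α : 𝕋 →ₐ[O] Module.End Λ (cocH1 uu Λ))
    (α'' : 𝕋 →ₐ[O] Module.End Λ'' (cocH1 uu'' Λ''))
    (hsurj : Function.Surjective (ctlMap O χ π))
    (hαα : ∀ (t : 𝕋)
      (x : cocH1 uu Λ), ctlMap O χ π (α t x) = α'' t (ctlMap O χ π x)) (m : Ideal 𝕋) (ε : 𝕋)
    (hε : α ε * α ε = α ε) (hinv : ∀ s : 𝕋, s ∉ m → ∃ s' : 𝕋, α (s * s') * α ε = α ε) :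
    α'' ε * α'' ε = α'' ε ∧ ∀ s : 𝕋, s ∉ m → ∃ s' : 𝕋, α'' (s * s') * α'' ε = α'' ε := by
  refine ⟨?_, fun s hs => ?_⟩
  · rw [← map_mul]
    exact end_eq_of_ctlMap χ π α α'' hsurj hαα (by rw [map_mul]; exact hε)
  · obtain ⟨s', hs'⟩ := hinv s hs
    refine ⟨s', ?_⟩
    rw [← map_mul]
    exact end_eq_of_ctlMap χ π α α'' hsurj hαα (by rw [map_mul]; exact hs')

/-- **(T2, control for the `m`-parts)**: `ε H → ε H''` is onto with kernel `I_π (ε H)`. -/
theorem control_idemRange_cocH1 (α : 𝕋 →ₐ[O] Module.End Λ (cocH1 uu Λ))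
    (α'' : 𝕋 →ₐ[O] Module.End Λ'' (cocH1 uu'' Λ'')) {p : ℕ} (hp : p.Prime) (hp5 : 5 ≤ p)
    (hpO : (p : O) ∈ maximalIdeal O) (j : Γ →* SL(2, ℤ)) (hj : Function.Injective j)
    (hπ : Function.Surjective π)
    (hαα : ∀ (t : 𝕋)
      (x : cocH1 uu Λ), ctlMap O χ π (α t x) = α'' t (ctlMap O χ π x)) (ε : 𝕋)
    (hε : α ε * α ε = α ε) :
    ∃ πe : ↥(idemRange (α ε)) →ₛₗ[MonoidAlgebra.mapDomainRingHom O π] ↥(idemRange (α'' ε)),
      (∀ x, ((πe x : ↥(idemRange (α'' ε))) : cocH1 uu'' Λ'') = ctlMap O χ π x) ∧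
      Function.Surjective πe ∧
      ∀ x, πe x = 0 ↔ x ∈ Ideal.span {a : Λ | ∃ δ ∈ π.ker, a = MonoidAlgebra.of O Δ δ - 1} •
        (⊤ : Submodule Λ ↥(idemRange (α ε))) :=
  idemRange_control (ctlMap O χ π) (ctlMap_surjective χ π hp hp5 hpO j hj hπ) _
    (ctlMap_eq_zero_iff χ π hp hp5 hpO j hj hπ) (α ε) (α'' ε) hε (hαα ε)

end ControlIdem

end Control

/-! ### Generators of the augmentation-type ideals -/

section Gens

variable {A : Type*} [CommRing A] {D : Type*} [CommGroup D]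

/-- `I_K = ([δ] - 1 : δ ∈ K)` is generated by the `[δ] - 1`, `δ` in a generating set of `K`. -/
theorem span_of_sub_one_eq_of_closure (K : Subgroup D) (S : Set D) (hS : Subgroup.closure S = K) :
    Ideal.span {a : MonoidAlgebra A D | ∃ δ ∈ K, a = MonoidAlgebra.of A D δ - 1} =
      Ideal.span {a : MonoidAlgebra A D | ∃ δ ∈ S, a = MonoidAlgebra.of A D δ - 1} := by
  apply le_antisymm
  · rw [Ideal.span_le]
    rintro _ ⟨δ, hδ, rfl⟩
    rw [← hS] at hδ
    set J := Ideal.span {a : MonoidAlgebra A D | ∃ δ ∈ S, a = MonoidAlgebra.of A D δ - 1} with hJ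
    show MonoidAlgebra.of A D δ - 1 ∈ J
    induction hδ using Subgroup.closure_induction with
    | mem x hx => exact Ideal.subset_span ⟨x, hx, rfl⟩
    | one => rw [map_one, sub_self]; exact J.zero_mem
    | mul x y _ _ hx hy =>
      have : MonoidAlgebra.of A D (x * y) - 1 =
          MonoidAlgebra.of A D x * (MonoidAlgebra.of A D y - 1) + (MonoidAlgebra.of A D x - 1) := by
        rw [map_mul]
        ring
      rw [this]
      exact J.add_mem (J.mul_mem_left _ hy) hx
    | inv x _ hx =>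
      have : MonoidAlgebra.of A D x⁻¹ - 1 =
          -(MonoidAlgebra.of A D x⁻¹ * (MonoidAlgebra.of A D x - 1)) := by
        rw [mul_sub, ← map_mul, inv_mul_cancel, map_one]
        ring
      rw [this]
      exact J.neg_mem (J.mul_mem_left _ hx)
  · apply Ideal.span_mono
    rintro _ ⟨δ, hδ, rfl⟩
    exact ⟨δ, hS ▸ Subgroup.subset_closure hδ, rfl⟩

/-- elementwise description of `(f k : k) • ⊤`. -/
theorem mem_span_range_smul_top_iff {R : Type*} [CommRing R] {P : Type*} [AddCommGroup P]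
    [Module R P] {κ : Type*} [Fintype κ] (f : κ → R) (x : P) :
    x ∈ Ideal.span (Set.range f) • (⊤ : Submodule R P) ↔ ∃ y : κ → P, x = ∑ k, f k • y k := by
  constructor
  · intro hx
    refine Submodule.smul_induction_on hx (fun a ha z _ => ?_) (fun x y hx hy => ?_)
    · obtain ⟨c, rfl⟩ := (Ideal.mem_span_range_iff_exists_fun).mp ha
      refine ⟨fun k => c k • z, ?_⟩
      rw [Finset.sum_smul]
      refine Finset.sum_congr rfl fun k _ => ?_
      rw [smul_smul, mul_comm]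
    · obtain ⟨y1, rfl⟩ := hx
      obtain ⟨y2, rfl⟩ := hy
      refine ⟨fun k => y1 k + y2 k, ?_⟩
      rw [← Finset.sum_add_distrib]
      refine Finset.sum_congr rfl fun k _ => ?_
      rw [smul_add]
  · rintro ⟨y, rfl⟩
    refine Submodule.sum_mem _ fun k _ => ?_
    exact Submodule.smul_mem_smul (Ideal.subset_span ⟨k, rfl⟩) Submodule.mem_top

end Gens

end Main

end Fermat.Agent.RB
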