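/-
RB — helper3 — [TWMOD]-T2, part 4: **Shapiro's lemma**, explicitly.

`χ : Γ →* Δ` onto a finite commutative group, `Λ = O[Δ]`, `u = grpRingChar O χ : Γ →* Λˣ`
(`γ ↦ [χ γ]`), `H = χ.ker`.
* `shapiroH1 : cocH1 u Λ →ₗ[O] (Additive H →+ O)`, `[c] ↦ (h ↦ coefficient of 1 in c h)`;
* `shapiroH1_bijective` (for surjective `χ`);
* `shapiroH1_hecke` : it carries the Hecke operator `cocHeckeH1` of a Hecke datum `D` of `Γ` with
  `χ (D.cocycle γ i) = χ γ` to `heckeGrp` of the restricted datum `D.restrictKer`;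
* `shapiroH1_of_smul` : `[χ g] • x` corresponds to `ψ ↦ ψ ∘ (h ↦ g h g⁻¹)`;
* `shapiroH1_aug` : the augmentation `H¹(Γ, O[Δ]) → H¹(Γ, O) = Hom(Γ, O)` is the transfer.
-/
import Mathlib
import Fermat.Agent.RB.T2_helper3_Coc

set_option autoImplicit false
set_option linter.unusedSectionVars false

namespace Fermat.Agent.RB

open Fermat.Agent.GR

universe v w

section Char

variable {Γ : Type w} [Group Γ] (O : Type v) [CommRing O] {Δ : Type v} [CommGroup Δ]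
variable (χ : Γ →* Δ)

/-- the tautological character `γ ↦ [χ γ]` with values in the units of the group ring. -/
noncomputable def grpRingChar : Γ →* (MonoidAlgebra O Δ)ˣ :=
  (Units.map (MonoidAlgebra.of O Δ : Δ →* MonoidAlgebra O Δ)).comp
    ((toUnits (G := Δ)).toMonoidHom.comp χ)

theorem grpRingChar_val (γ : Γ) :
    ((grpRingChar O χ γ : (MonoidAlgebra O Δ)ˣ) : MonoidAlgebra O Δ) =
      MonoidAlgebra.of O Δ (χ γ) := rfl

theorem grpRingChar_eq_iff {γ γ' : Γ} (h : χ γ = χ γ') : grpRingChar O χ γ = grpRingChar O χ γ' := by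
  apply Units.ext
  rw [grpRingChar_val, grpRingChar_val, h]

theorem grpRingChar_of_mem_ker {γ : Γ} (h : γ ∈ χ.ker) :
    ((grpRingChar O χ γ : (MonoidAlgebra O Δ)ˣ) : MonoidAlgebra O Δ) = 1 := by
  rw [grpRingChar_val, MonoidHom.mem_ker.mp h, map_one]

end Char

section Shapiro

variable {Γ : Type w} [Group Γ] {O : Type v} [CommRing O] {Δ : Type v} [CommGroup Δ]
variable (χ : Γ →* Δ)

local notation "Λ" => MonoidAlgebra O Δ
local notation "uu" => grpRingChar O χ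

/-- coefficient rule for `[δ] * x`. -/
theorem coeff_of_mul (δ ρ : Δ) (x : Λ) :
    (MonoidAlgebra.of O Δ δ * x).coeff ρ = x.coeff (δ⁻¹ * ρ) := by
  rw [MonoidAlgebra.of_apply, MonoidAlgebra.coeff_single_mul_apply, one_mul]

/-- a cocycle is additive on the kernel. -/
theorem cocZ1_mul_of_mem_ker {c : Γ → Λ} (hc : c ∈ cocZ1 uu Λ) {h : Γ} (hh : h ∈ χ.ker) (γ : Γ) :
    c (h * γ) = c h + c γ := by
  rw [hc, grpRingChar_of_mem_ker O χ hh, one_smul]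

/-- a cocycle is right invariant under elements of the kernel on which it vanishes. -/
theorem cocZ1_mul_right_of_eq_zero {c : Γ → Λ} (hc : c ∈ cocZ1 uu Λ) (γ : Γ) {h : Γ}
    (hh : c h = 0) : c (γ * h) = c γ := by
  rw [hc, hh, smul_zero, add_zero]

/-- conjugation rule. -/
theorem cocZ1_conj {c : Γ → Λ} (hc : c ∈ cocZ1 uu Λ) (g h : Γ) (hh : h ∈ χ.ker) :
    c (g * h * g⁻¹) = MonoidAlgebra.of O Δ (χ g) * c h := by
  have h1 : c (g * h * g⁻¹) = c g + MonoidAlgebra.of O Δ (χ g) * (c h + c g⁻¹) := by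
    rw [mul_assoc, hc, hc h, grpRingChar_of_mem_ker O χ hh, one_smul, grpRingChar_val,
      smul_eq_mul]
  have h2 : MonoidAlgebra.of O Δ (χ g) * c g⁻¹ = -c g := by
    rw [cocZ1_inv uu hc, grpRingChar_val, smul_eq_mul, mul_neg, ← mul_assoc, ← map_mul, ← map_mul,
      mul_inv_cancel, map_one, map_one, one_mul]
  rw [h1, mul_add, h2]
  abel

/-- the forward Shapiro map on cocycles: `c ↦ (h ↦ coefficient of 1 in c h)`. -/
noncomputable def shapiroFwd (c : ↥(cocZ1 uu Λ)) : Additive ↥χ.ker →+ O where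
  toFun h := (c.1 ((Additive.toMul h : ↥χ.ker) : Γ)).coeff 1
  map_zero' := by
    show (c.1 ((1 : ↥χ.ker) : Γ)).coeff 1 = 0
    rw [Subgroup.coe_one, cocZ1_one uu c.2]
    rfl
  map_add' h h' := by
    show (c.1 (((Additive.toMul h * Additive.toMul h' : ↥χ.ker)) : Γ)).coeff 1 = _
    rw [Subgroup.coe_mul, cocZ1_mul_of_mem_ker χ c.2 (Additive.toMul h).2, MonoidAlgebra.coeff_add,
      Finsupp.add_apply]

@[simp] theorem shapiroFwd_apply (c : ↥(cocZ1 uu Λ)) (h : ↥χ.ker) :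
    shapiroFwd χ c (Additive.ofMul h) = (c.1 (h : Γ)).coeff 1 := rfl

/-- the forward Shapiro map as an `O`-linear map on cocycles. -/
noncomputable def shapiroZ1 : ↥(cocZ1 uu Λ) →ₗ[O] (Additive ↥χ.ker →+ O) where
  toFun := shapiroFwd χ
  map_add' _ _ := AddMonoidHom.ext fun _ => rfl
  map_smul' _ _ := AddMonoidHom.ext fun _ => rfl

@[simp] theorem shapiroZ1_apply (c : ↥(cocZ1 uu Λ)) (h : ↥χ.ker) :
    shapiroZ1 χ c (Additive.ofMul h) = (c.1 (h : Γ)).coeff 1 := rfl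

theorem shapiroZ1_eq_zero_of_mem_cocB1 (c : ↥(cocZ1 uu Λ)) (hc : c.1 ∈ cocB1 uu Λ) :
    shapiroZ1 χ c = 0 := by
  obtain ⟨x, hx⟩ := hc
  refine AddMonoidHom.ext fun h => ?_
  obtain ⟨h, rfl⟩ := Additive.ofMul.surjective h
  rw [shapiroZ1_apply, ← hx, cocCobd_apply, grpRingChar_of_mem_ker O χ h.2, one_smul, sub_self]
  rfl

/-- **Shapiro's map** `H¹(Γ, O[Δ]) → Hom(H, O)`. -/
noncomputable def shapiroH1 : cocH1 uu Λ →ₗ[O] (Additive ↥χ.ker →+ O) :=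
  (((cocB1 uu Λ).submoduleOf (cocZ1 uu Λ)).restrictScalars O).liftQ (shapiroZ1 χ)
    (fun c hc => shapiroZ1_eq_zero_of_mem_cocB1 χ c hc) ∘ₗ
  (Submodule.Quotient.restrictScalarsEquiv O
    ((cocB1 uu Λ).submoduleOf (cocZ1 uu Λ))).symm.toLinearMap

@[simp] theorem shapiroH1_mk (c : ↥(cocZ1 uu Λ)) :
    shapiroH1 χ (cocH1Mk uu Λ c) = shapiroZ1 χ c := rfl

/-! ### Hecke operators -/

section HeckeRestrict

variable {G ι : Type*} [Group G] (D : HeckeDatum Γ G ι)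

/-- the restriction of a Hecke datum of `Γ` to the kernel of a character `χ` with
`χ (D.cocycle γ i) = χ γ`: same representatives. -/
def _root_.Fermat.Agent.GR.HeckeDatum.restrictKer (hD : ∀ γ i, χ (D.cocycle γ i) = χ γ) :
    HeckeDatum ↥χ.ker G ι where
  e := D.e.comp χ.ker.subtype
  e_inj := D.e_inj.comp χ.ker.subtype_injective
  α := D.α
  exists_eq h i := ⟨D.perm h.1 i, ⟨D.cocycle h.1 i, by
    rw [MonoidHom.mem_ker, hD, MonoidHom.mem_ker.mp h.2]⟩, D.spec h.1 i⟩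
  index_eq i j h' h := D.index_eq i j h'.1 h

theorem restrictKer_cocycle (hD : ∀ γ i, χ (D.cocycle γ i) = χ γ) (h : ↥χ.ker) (i : ι) :
    (((D.restrictKer χ hD).cocycle h i : ↥χ.ker) : Γ) = D.cocycle h.1 i := by
  have hmem : D.cocycle h.1 i ∈ χ.ker := by
    rw [MonoidHom.mem_ker, hD, MonoidHom.mem_ker.mp h.2]
  have := (D.restrictKer χ hD).cocycle_eq (γ := h) (γ' := ⟨D.cocycle h.1 i, hmem⟩) (i := i)
    (j := D.perm h.1 i) (D.spec h.1 i)
  rw [this]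

variable [Fintype ι]

/-- **Shapiro's map is Hecke equivariant.** -/
theorem shapiroH1_hecke (hD : ∀ γ i, χ (D.cocycle γ i) = χ γ) (x : cocH1 uu Λ) :
    shapiroH1 χ (cocHeckeH1 uu D (fun γ i => grpRingChar_eq_iff O χ (hD γ i)) Λ x) =
      (D.restrictKer χ hD).heckeGrp O (shapiroH1 χ x) := by
  obtain ⟨c, rfl⟩ := cocH1Mk_surjective uu x
  rw [cocHeckeH1_mk, shapiroH1_mk, shapiroH1_mk]
  refine AddMonoidHom.ext fun h => ?_
  obtain ⟨h, rfl⟩ := Additive.ofMul.surjective h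
  rw [shapiroZ1_apply, cocHecke_apply, HeckeDatum.heckeGrp_apply, MonoidAlgebra.coeff_sum,
    Finsupp.finsetSum_apply]
  refine Finset.sum_congr rfl fun i _ => ?_
  rw [shapiroZ1_apply, restrictKer_cocycle]

end HeckeRestrict

/-! ### The action of `Δ` -/

/-- **`[χ g] • x` corresponds to `ψ ↦ ψ ∘ (h ↦ g h g⁻¹)`.** -/
theorem shapiroH1_of_smul (g : Γ) (x : cocH1 uu Λ) (h : ↥χ.ker) :
    shapiroH1 χ (MonoidAlgebra.of O Δ (χ g) • x) (Additive.ofMul h) =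
      shapiroH1 χ x (Additive.ofMul ⟨g * h.1 * g⁻¹, by
        rw [MonoidHom.mem_ker, map_mul, map_mul, MonoidHom.mem_ker.mp h.2, mul_one, map_inv,
          mul_inv_cancel]⟩) := by
  obtain ⟨c, rfl⟩ := cocH1Mk_surjective uu x
  rw [← map_smul, shapiroH1_mk, shapiroH1_mk, shapiroZ1_apply, shapiroZ1_apply]
  show (MonoidAlgebra.of O Δ (χ g) * c.1 h.1).coeff 1 = (c.1 (g * h.1 * g⁻¹)).coeff 1
  rw [cocZ1_conj χ c.2 g h.1 h.2]

/-! ### Bijectivity -/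

/-- injectivity of Shapiro's map. -/
theorem shapiroH1_injective (hχ : Function.Surjective χ) [Fintype Δ] :
    Function.Injective (shapiroH1 (O := O) χ) := by
  classical
  rw [injective_iff_map_eq_zero]
  intro x hx
  obtain ⟨c, rfl⟩ := cocH1Mk_surjective uu x
  rw [shapiroH1_mk] at hx
  set s : Δ → Γ := Function.surjInv hχ with hs
  have hsχ : ∀ δ, χ (s δ) = δ := Function.surjInv_eq hχ
  -- `c` vanishes on the kernel
  have h0 : ∀ h ∈ χ.ker, c.1 h = 0 := by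
    intro h hh
    rw [← MonoidAlgebra.coeff_inj]
    ext ρ
    have hconj : s ρ⁻¹ * h * (s ρ⁻¹)⁻¹ ∈ χ.ker := by
      rw [MonoidHom.mem_ker, map_mul, map_mul, MonoidHom.mem_ker.mp hh, mul_one, map_inv,
        mul_inv_cancel]
    have h1 := congrArg (fun ψ : Additive ↥χ.ker →+ O => ψ (Additive.ofMul ⟨_, hconj⟩)) hx
    simp only [shapiroZ1_apply, AddMonoidHom.zero_apply] at h1
    rw [cocZ1_conj χ c.2 _ h hh, coeff_of_mul, hsχ, inv_inv, mul_one] at h1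
    rw [h1]
    rfl
  -- `c` only depends on `χ`
  have hdep : ∀ γ γ', χ γ = χ γ' → c.1 γ = c.1 γ' := by
    intro γ γ' h
    have hk : γ⁻¹ * γ' ∈ χ.ker := by
      rw [MonoidHom.mem_ker, map_mul, map_inv, h, inv_mul_cancel]
    have := cocZ1_mul_right_of_eq_zero χ c.2 γ (h0 _ hk)
    rw [mul_inv_cancel_left] at this
    exact this.symm
  -- the cocycle on `Δ`
  set cb : Δ → Λ := fun δ => c.1 (s δ) with hcb
  have hcγ : ∀ γ, c.1 γ = cb (χ γ) := fun γ => hdep _ _ (hsχ _).symm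
  have hcb_mul : ∀ σ τ, cb (σ * τ) = cb σ + MonoidAlgebra.of O Δ σ * cb τ := by
    intro σ τ
    have : cb (σ * τ) = c.1 (s σ * s τ) := hdep _ _ (by rw [hsχ, map_mul, hsχ, hsχ])
    rw [this, c.2, grpRingChar_val, hsχ, smul_eq_mul]
  have hcb_one : cb 1 = 0 := by
    have : cb 1 = c.1 1 := hdep _ _ (by rw [hsχ, map_one])
    rw [this, cocZ1_one uu c.2]
  set f : Δ → O := fun τ => (cb τ).coeff 1 with hf
  have hcoeff : ∀ σ ρ, (cb σ).coeff ρ = f (ρ⁻¹ * σ) - f ρ⁻¹ := by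
    intro σ ρ
    have e1 : (cb σ).coeff ρ = (cb ρ).coeff ρ + f (ρ⁻¹ * σ) := by
      have := hcb_mul ρ (ρ⁻¹ * σ)
      rw [mul_inv_cancel_left] at this
      rw [this, MonoidAlgebra.coeff_add, Finsupp.add_apply, coeff_of_mul, inv_mul_cancel]
    have e2 : (cb ρ).coeff ρ = -f ρ⁻¹ := by
      have := hcb_mul ρ ρ⁻¹
      rw [mul_inv_cancel, hcb_one] at this
      have h2 := congrArg (fun z : Λ => z.coeff ρ) this
      simp only [MonoidAlgebra.coeff_zero, Finsupp.coe_zero, Pi.zero_apply,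
        MonoidAlgebra.coeff_add, Finsupp.add_apply, coeff_of_mul, inv_mul_cancel] at h2
      exact eq_neg_of_add_eq_zero_left h2.symm
    rw [e1, e2]
    ring
  -- the coboundary
  rw [cocH1Mk_eq_zero_iff]
  refine ⟨MonoidAlgebra.ofCoeff (Finsupp.equivFunOnFinite.symm fun ρ => f ρ⁻¹), fun γ => ?_⟩
  rw [← MonoidAlgebra.coeff_inj]
  ext ρ
  rw [hcγ, hcoeff, grpRingChar_val, smul_eq_mul, MonoidAlgebra.coeff_sub, Finsupp.sub_apply,
    coeff_of_mul, MonoidAlgebra.coeff_ofCoeff, Finsupp.equivFunOnFinite_symm_apply_apply,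
    Finsupp.equivFunOnFinite_symm_apply_apply, _root_.mul_inv_rev, inv_inv]

/-- the element `(s ρ)⁻¹ γ s ((χ γ)⁻¹ ρ)` of the kernel. -/
def shapiroEl (s : Δ → Γ) (hs : ∀ δ, χ (s δ) = δ) (γ : Γ) (ρ : Δ) : ↥χ.ker :=
  ⟨(s ρ)⁻¹ * γ * s ((χ γ)⁻¹ * ρ), by
    rw [MonoidHom.mem_ker, map_mul, map_mul, map_inv, hs, hs, mul_assoc, mul_inv_cancel_left,
      inv_mul_cancel]⟩

theorem shapiroEl_mul (s : Δ → Γ) (hs : ∀ δ, χ (s δ) = δ) (γ γ' : Γ) (ρ : Δ) :
    shapiroEl χ s hs (γ * γ') ρ = shapiroEl χ s hs γ ρ * shapiroEl χ s hs γ' ((χ γ)⁻¹ * ρ) := by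
  apply Subtype.ext
  show (s ρ)⁻¹ * (γ * γ') * s ((χ (γ * γ'))⁻¹ * ρ) =
    (s ρ)⁻¹ * γ * s ((χ γ)⁻¹ * ρ) * ((s ((χ γ)⁻¹ * ρ))⁻¹ * γ' * s ((χ γ')⁻¹ * ((χ γ)⁻¹ * ρ)))
  rw [map_mul, _root_.mul_inv_rev, mul_assoc (χ γ')⁻¹]
  group

/-- the backward Shapiro map: the cocycle `γ ↦ ∑_ρ ψ ((s ρ)⁻¹ γ s ((χ γ)⁻¹ ρ)) [ρ]`. -/
noncomputable def shapiroBwd [Fintype Δ] (s : Δ → Γ) (hs : ∀ δ, χ (s δ) = δ)
    (ψ : Additive ↥χ.ker →+ O) : ↥(cocZ1 uu Λ) :=
  ⟨fun γ => MonoidAlgebra.ofCoeff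
    (Finsupp.equivFunOnFinite.symm fun ρ => ψ (Additive.ofMul (shapiroEl χ s hs γ ρ))), by
    intro γ γ'
    rw [← MonoidAlgebra.coeff_inj]
    ext ρ
    rw [grpRingChar_val, smul_eq_mul, MonoidAlgebra.coeff_add, Finsupp.add_apply, coeff_of_mul,
      MonoidAlgebra.coeff_ofCoeff, MonoidAlgebra.coeff_ofCoeff, MonoidAlgebra.coeff_ofCoeff,
      Finsupp.equivFunOnFinite_symm_apply_apply, Finsupp.equivFunOnFinite_symm_apply_apply,
      Finsupp.equivFunOnFinite_symm_apply_apply, shapiroEl_mul, ofMul_mul, map_add]⟩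

theorem shapiroBwd_coeff [Fintype Δ] (s : Δ → Γ) (hs : ∀ δ, χ (s δ) = δ)
    (ψ : Additive ↥χ.ker →+ O) (γ : Γ) (ρ : Δ) :
    ((shapiroBwd χ s hs ψ).1 γ).coeff ρ = ψ (Additive.ofMul (shapiroEl χ s hs γ ρ)) := by
  show (MonoidAlgebra.ofCoeff _).coeff ρ = _
  rw [MonoidAlgebra.coeff_ofCoeff, Finsupp.equivFunOnFinite_symm_apply_apply]

/-- surjectivity of Shapiro's map. -/
theorem shapiroH1_surjective (hχ : Function.Surjective χ) [Fintype Δ] :
    Function.Surjective (shapiroH1 (O := O) χ) := by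
  intro ψ
  set s : Δ → Γ := Function.surjInv hχ with hs
  have hsχ : ∀ δ, χ (s δ) = δ := Function.surjInv_eq hχ
  refine ⟨cocH1Mk uu Λ (shapiroBwd χ s hsχ ψ), ?_⟩
  rw [shapiroH1_mk]
  refine AddMonoidHom.ext fun h => ?_
  obtain ⟨h, rfl⟩ := Additive.ofMul.surjective h
  rw [shapiroZ1_apply, shapiroBwd_coeff]
  -- `(s 1)⁻¹ h (s 1)` and `h` have the same image under `ψ`
  have hs1 : s 1 ∈ χ.ker := by rw [MonoidHom.mem_ker, hsχ]
  have hel : shapiroEl χ s hsχ h.1 1 = (⟨s 1, hs1⟩ : ↥χ.ker)⁻¹ * h * ⟨s 1, hs1⟩ := by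
    apply Subtype.ext
    show (s 1)⁻¹ * h.1 * s ((χ h.1)⁻¹ * 1) = (s 1)⁻¹ * h.1 * s 1
    rw [MonoidHom.mem_ker.mp h.2, inv_one, one_mul]
  rw [hel, ofMul_mul, ofMul_mul, ofMul_inv, map_add, map_add, map_neg]
  abel

theorem shapiroH1_bijective (hχ : Function.Surjective χ) [Fintype Δ] :
    Function.Bijective (shapiroH1 (O := O) χ) :=
  ⟨shapiroH1_injective χ hχ, shapiroH1_surjective χ hχ⟩

/-- **Shapiro's lemma** as an `O`-linear equivalence `H¹(Γ, O[Δ]) ≃ Hom(ker χ, O)`. -/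
noncomputable def shapiroEquiv (hχ : Function.Surjective χ) [Fintype Δ] :
    cocH1 uu Λ ≃ₗ[O] (Additive ↥χ.ker →+ O) :=
  LinearEquiv.ofBijective (shapiroH1 χ) (shapiroH1_bijective χ hχ)

@[simp] theorem shapiroEquiv_apply (hχ : Function.Surjective χ) [Fintype Δ] (x : cocH1 uu Λ) :
    shapiroEquiv χ hχ x = shapiroH1 χ x := rfl

end Shapiro

end Fermat.Agent.RB
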