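/-
RB = S43 via Ihara avoidance, package [TWMOD] (helper2), part B: **the `𝒪[Δ]`-module
`𝓜 = H¹(Γ₀(N), 𝒪[Δ])` and its bridge to `Hom(Γ_H, 𝒪)`.**

`χ = chiOf N M h π : Γ₀(N) → Δ`, `Λ = 𝒪[Δ]`, `u = grpRingChar 𝒪 χ`, `𝓜 = cocH1 u Λ` (helper3).
* `bridge : 𝓜 ≃ₗ[𝒪] Hom(Γ_H, 𝒪)` (Shapiro + `kerEquivGammaH`);
* `cocOp S` : the `Λ`-linear Hecke operator of a system of representatives `S : W1.IntReps N p ι`
  on `𝓜`; `bridge_cocOp`: it corresponds to `(datumOn S Γ_H).heckeGrp`;
* `bridge_of_smul` : `[χ g] • x` corresponds to `diamondOnBy g`;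
* `opM ℓ` : `T_ℓ` resp. `U_ℓ` on `𝓜`; `bridge_opM`: corresponds to `heckeOnP`;
* `parM` : the `Λ`-submodule of parabolic classes; stable under `opM`; the `opM ℓ` commute on it.
-/
import Mathlib
import Fermat.Agent.RB.TWMOD_helper2_W1
import Fermat.Agent.RB.T2_helper3_Shapiro

set_option autoImplicit false
set_option linter.unusedSectionVars false

namespace Fermat.Agent.RB.TWM

open CongruenceSubgroup Matrix ModularCurve.Period
open scoped MatrixGroups
open Fermat.Agent.GR Fermat.Agent.W1 Fermat.Agent.W1.ES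

/-! ### transport of homomorphisms along a group isomorphism -/

section HomCongr

variable {G G' : Type*} [Group G] [Group G'] (O : Type*) [CommRing O]

/-- `Hom(G, O) ≃ Hom(G', O)` along `e : G ≃* G'`. -/
def homCongrL (e : G ≃* G') : (Additive G →+ O) ≃ₗ[O] (Additive G' →+ O) where
  toFun ψ := ψ.comp (MonoidHom.toAdditive (e.symm : G' →* G))
  invFun ψ := ψ.comp (MonoidHom.toAdditive (e : G →* G'))
  map_add' _ _ := rfl
  map_smul' _ _ := rfl
  left_inv ψ := AddMonoidHom.ext fun γ => by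
    show ψ (Additive.ofMul (e.symm (e (Additive.toMul γ)))) = ψ γ
    rw [e.symm_apply_apply]
    rfl
  right_inv ψ := AddMonoidHom.ext fun γ => by
    show ψ (Additive.ofMul (e (e.symm (Additive.toMul γ)))) = ψ γ
    rw [e.apply_symm_apply]
    rfl

variable {O}

@[simp] theorem homCongrL_apply (e : G ≃* G') (ψ : Additive G →+ O) (γ : G') :
    homCongrL O e ψ (Additive.ofMul γ) = ψ (Additive.ofMul (e.symm γ)) := rfl

end HomCongr

section Setting

variable (N M : ℕ) [NeZero N] (hM : M ∣ N) {Δ : Type} [CommGroup Δ] (π : (ZMod M)ˣ →* Δ)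
variable (O : Type) [CommRing O]

/-- `𝓜 = H¹(Γ₀(N), 𝒪[Δ])`. -/
abbrev MM : Type := cocH1 (grpRingChar O (chiOf N M hM π)) (MonoidAlgebra O Δ)

/-- the Hecke datum of `Γ₀(N)` of a system of representatives. -/
noncomputable abbrev datum0 {p : ℕ} {ι : Type*} (S : IntReps N p ι) :
    HeckeDatum ↥(Gamma0 N) (GL (Fin 2) ℝ) ι :=
  datumOn S (Gamma0 N) (Gamma1_in_Gamma0 N) le_rfl

theorem grpRingChar_cocycle {p : ℕ} {ι : Type*} (S : IntReps N p ι) (γ : Gamma0 N) (i : ι) :
    grpRingChar O (chiOf N M hM π) ((datum0 N S).cocycle γ i) =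
      grpRingChar O (chiOf N M hM π) γ :=
  grpRingChar_eq_iff O _ (chiOf_cocycle S M hM π γ i)

/-- **the Hecke operator of a system of representatives on `𝓜`** (`Λ`-linear). -/
noncomputable def cocOp {p : ℕ} {ι : Type*} [Fintype ι] (S : IntReps N p ι) :
    MM N M hM π O →ₗ[MonoidAlgebra O Δ] MM N M hM π O :=
  cocHeckeH1 (grpRingChar O (chiOf N M hM π)) (datum0 N S)
    (grpRingChar_cocycle N M hM π O S) (MonoidAlgebra O Δ)

variable [Fintype Δ] (hπ : Function.Surjective π)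

/-- **the bridge** `𝓜 ≃ Hom(Γ_H, 𝒪)`. -/
noncomputable def bridge : MM N M hM π O ≃ₗ[O] (Additive ↥(GammaH N M hM π) →+ O) :=
  (shapiroEquiv (O := O) (chiOf N M hM π) (chiOf_surjective N M hM π hπ)).trans
    (homCongrL O (kerEquivGammaH N M hM π))

theorem bridge_mk (c : ↥(cocZ1 (grpRingChar O (chiOf N M hM π)) (MonoidAlgebra O Δ)))
    (γ : GammaH N M hM π) :
    bridge N M hM π O hπ (cocH1Mk (grpRingChar O (chiOf N M hM π)) (MonoidAlgebra O Δ) c)
        (Additive.ofMul γ) =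
      (c.1 (((kerEquivGammaH N M hM π).symm γ : (chiOf N M hM π).ker) : Gamma0 N)).coeff 1 := rfl

theorem coe_kerEquivGammaH_symm (γ : GammaH N M hM π) :
    ((((kerEquivGammaH N M hM π).symm γ : (chiOf N M hM π).ker) : Gamma0 N) : SL(2, ℤ)) = γ := by
  have h := coe_kerEquivGammaH N M hM π ((kerEquivGammaH N M hM π).symm γ)
  rw [MulEquiv.apply_symm_apply] at h
  exact h.symm

/-- **the bridge is Hecke equivariant.** -/
theorem bridge_cocOp {p : ℕ} {ι : Type*} [Fintype ι] (S : IntReps N p ι)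
    (x : MM N M hM π O) :
    bridge N M hM π O hπ (cocOp N M hM π O S x) =
      (datumOn S (GammaH N M hM π) (Gamma1_le_GammaH N M hM π)
        (GammaH_le_Gamma0 N M hM π)).heckeGrp O (bridge N M hM π O hπ x) := by
  show homCongrL O (kerEquivGammaH N M hM π) (shapiroH1 (chiOf N M hM π) _) = _
  have h1 := shapiroH1_hecke (O := O) (chiOf N M hM π) (datum0 N S)
    (chiOf_cocycle S M hM π) x
  have h2 : shapiroH1 (O := O) (chiOf N M hM π) (cocOp N M hM π O S x) =
      ((datum0 N S).restrictKer (chiOf N M hM π) (chiOf_cocycle S M hM π)).heckeGrp O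
        (shapiroH1 (chiOf N M hM π) x) := h1
  rw [h2]
  exact heckeGrp_comp_of_compat
    (datumOn S (GammaH N M hM π) (Gamma1_le_GammaH N M hM π) (GammaH_le_Gamma0 N M hM π))
    ((datum0 N S).restrictKer (chiOf N M hM π) (chiOf_cocycle S M hM π))
    ((kerEquivGammaH N M hM π).symm : ↥(GammaH N M hM π) →* ↥(chiOf N M hM π).ker)
    (fun γ => by
      show slEmb (Gamma0 N) (((kerEquivGammaH N M hM π).symm γ : (chiOf N M hM π).ker) : Gamma0 N)
        = slEmb (GammaH N M hM π) γ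
      rw [slEmb_apply, slEmb_apply, coe_kerEquivGammaH_symm])
    (fun _ => rfl) (shapiroH1 (chiOf N M hM π) x)

/-- `Γ_H` is normalised by `Γ₀(N)`. -/
theorem GammaH_normal : ∀ σ ∈ Gamma0 N, ∀ γ ∈ GammaH N M hM π, σ * γ * σ⁻¹ ∈ GammaH N M hM π := by
  intro σ hσ γ hγ
  obtain ⟨h0, h1⟩ := mem_GammaH.mp hγ
  refine mem_GammaH.mpr ⟨(Gamma0 N).mul_mem ((Gamma0 N).mul_mem hσ h0) ((Gamma0 N).inv_mem hσ), ?_⟩
  have e : (⟨σ * γ * σ⁻¹, (Gamma0 N).mul_mem ((Gamma0 N).mul_mem hσ h0)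
      ((Gamma0 N).inv_mem hσ)⟩ : Gamma0 N) = ⟨σ, hσ⟩ * ⟨γ, h0⟩ * (⟨σ, hσ⟩ : Gamma0 N)⁻¹ := rfl
  rw [e, map_mul, map_mul, h1, mul_one, map_inv, mul_inv_cancel]

/-- **the bridge carries `[χ g] •` to conjugation by `g`.** -/
theorem bridge_of_smul (g : Gamma0 N) (x : MM N M hM π O) :
    bridge N M hM π O hπ (MonoidAlgebra.of O Δ (chiOf N M hM π g) • x) =
      diamondOnBy (GammaH N M hM π) (GammaH_normal N M hM π) O (g : SL(2, ℤ)) g.2
        (bridge N M hM π O hπ x) := by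
  refine AddMonoidHom.ext fun γ => ?_
  obtain ⟨γ, rfl⟩ := Additive.ofMul.surjective γ
  rw [diamondOnBy_apply]
  show shapiroH1 (chiOf N M hM π) (MonoidAlgebra.of O Δ (chiOf N M hM π g) • x)
      (Additive.ofMul ((kerEquivGammaH N M hM π).symm γ)) =
    shapiroH1 (chiOf N M hM π) x (Additive.ofMul ((kerEquivGammaH N M hM π).symm
      (conjOn (GammaH N M hM π) (GammaH_normal N M hM π) (g : SL(2, ℤ)) g.2 γ)))
  rw [shapiroH1_of_smul]
  congr 2
  apply Subtype.ext
  apply Subtype.ext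
  show (g : SL(2, ℤ)) * ((((kerEquivGammaH N M hM π).symm γ : (chiOf N M hM π).ker) : Gamma0 N) :
      SL(2, ℤ)) * ((g⁻¹ : Gamma0 N) : SL(2, ℤ)) = _
  rw [coe_kerEquivGammaH_symm, coe_kerEquivGammaH_symm, coe_conjOn]
  rfl

/-- **`T_ℓ` resp. `U_ℓ` on `𝓜`** (`Λ`-linear). -/
noncomputable def opM (ℓ : Nat.Primes) :
    MM N M hM π O →ₗ[MonoidAlgebra O Δ] MM N M hM π O :=
  if h : (ℓ : ℕ) ∣ N then cocOp N M hM π O (intRepsU N ℓ.2 h)
  else cocOp N M hM π O (intRepsT N ℓ.2 h)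

theorem opM_of_dvd {ℓ : Nat.Primes} (h : (ℓ : ℕ) ∣ N) :
    opM N M hM π O ℓ = cocOp N M hM π O (intRepsU N ℓ.2 h) := dif_pos h

theorem opM_of_not_dvd {ℓ : Nat.Primes} (h : ¬ (ℓ : ℕ) ∣ N) :
    opM N M hM π O ℓ = cocOp N M hM π O (intRepsT N ℓ.2 h) := dif_neg h

/-- **the bridge carries `opM ℓ` to `heckeOnP ℓ`.** -/
theorem bridge_opM (ℓ : Nat.Primes) (x : MM N M hM π O) :
    bridge N M hM π O hπ (opM N M hM π O ℓ x) =
      heckeOnP N (GammaH N M hM π) (Gamma1_le_GammaH N M hM π) (GammaH_le_Gamma0 N M hM π) ℓ O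
        (bridge N M hM π O hπ x) := by
  by_cases h : (ℓ : ℕ) ∣ N
  · rw [opM_of_dvd N M hM π O h, heckeOnP_of_dvd _ _ h]
    exact bridge_cocOp N M hM π O hπ _ x
  · rw [opM_of_not_dvd N M hM π O h, heckeOnP_of_not_dvd _ _ h]
    exact bridge_cocOp N M hM π O hπ _ x

instance : IsScalarTower O (MonoidAlgebra O Δ) (MM N M hM π O) := inferInstance

/-- **the `Λ`-submodule of parabolic classes** of `𝓜`. -/
def parM : Submodule (MonoidAlgebra O Δ) (MM N M hM π O) where
  carrier := {x | bridge N M hM π O hπ x ∈ parabolicHoms O (GammaH N M hM π) O}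
  add_mem' := by
    intro x y hx hy
    show bridge N M hM π O hπ (x + y) ∈ parabolicHoms O (GammaH N M hM π) O
    rw [map_add]
    exact Submodule.add_mem _ hx hy
  zero_mem' := by
    show bridge N M hM π O hπ 0 ∈ parabolicHoms O (GammaH N M hM π) O
    rw [map_zero]
    exact Submodule.zero_mem _
  smul_mem' := by
    intro a x hx
    show bridge N M hM π O hπ (a • x) ∈ parabolicHoms O (GammaH N M hM π) O
    induction a using MonoidAlgebra.induction_on with
    | of δ =>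
      obtain ⟨g, rfl⟩ := chiOf_surjective N M hM π hπ δ
      rw [bridge_of_smul]
      exact diamondOnBy_mem_parabolicHoms _ _ _ _ O hx
    | add a b ha hb =>
      rw [add_smul, map_add]
      exact Submodule.add_mem _ ha hb
    | smul r a ha =>
      rw [smul_assoc, map_smul]
      exact Submodule.smul_mem _ r ha

theorem mem_parM {x : MM N M hM π O} :
    x ∈ parM N M hM π O hπ ↔
      bridge N M hM π O hπ x ∈ parabolicHoms O (GammaH N M hM π) O := Iff.rfl

/-- the Hecke operators preserve the parabolic classes. -/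
theorem opM_mem_parM (ℓ : Nat.Primes) {x : MM N M hM π O} (hx : x ∈ parM N M hM π O hπ) :
    opM N M hM π O ℓ x ∈ parM N M hM π O hπ := by
  rw [mem_parM, bridge_opM]
  exact heckeOnP_mem_parabolicHoms _ _ ℓ O hx

end Setting

end Fermat.Agent.RB.TWM
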