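/-
RB = S43 via Ihara avoidance, package [TWMOD] (helper2), part B2: **the Hecke operators of a group
`±Γ₁(N) ≤ Γ' ≤ Γ₀(N)` commute on the parabolic homomorphisms** with values in a domain of
characteristic zero (from W1's `heckeGrpI_comm_field` by restriction to `±Γ₁(N)`), and the
consequence for `𝓜 = H¹(Γ₀(N), 𝒪[Δ])`.
-/
import Mathlib
import Fermat.Agent.RB.TWMOD_helper2_Core
import Fermat.Agent.W1.MULT1_helper2_Occur
import Fermat.Agent.W1.MULT1_helper2_ESInst

set_option autoImplicit false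
set_option linter.unusedSectionVars false

namespace Fermat.Agent.RB.TWM

open CongruenceSubgroup Matrix ModularCurve.Period
open scoped MatrixGroups
open Fermat.Agent.GR Fermat.Agent.W1 Fermat.Agent.W1.ES

section Comm

variable {N : ℕ} [NeZero N] (Γ' : Subgroup SL(2, ℤ)) (h1 : Gamma1 N ≤ Γ') (h0 : Γ' ≤ Gamma0 N)
  (hpm : Gpm N 1 ≤ Γ')

/-- composition with an injective homomorphism of coefficient groups is injective. -/
theorem comp_injective_of_injective {G : Type*} [AddGroup G] {A B : Type*} [AddCommGroup A]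
    [AddCommGroup B] (f : A →+ B) (hf : Function.Injective f) {ψ φ : G →+ A}
    (h : f.comp ψ = f.comp φ) : ψ = φ :=
  AddMonoidHom.ext fun γ => hf (DFunLike.congr_fun h γ)

include hpm in
/-- **the Hecke operators commute on the parabolic homomorphisms over a field of characteristic
zero.** -/
theorem heckeOnP_comm_field [ESHyp N] {K : Type*} [Field K] [CharZero K] (ℓ ℓ' : Nat.Primes)
    {ψ : Additive Γ' →+ K} (hψ : ψ ∈ parabolicHoms K Γ' K) :
    heckeOnP N Γ' h1 h0 ℓ K (heckeOnP N Γ' h1 h0 ℓ' K ψ) =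
      heckeOnP N Γ' h1 h0 ℓ' K (heckeOnP N Γ' h1 h0 ℓ K ψ) := by
  apply resGpm_injective Γ' hpm
  rw [resGpm_heckeOnP Γ' h0 hpm h1, resGpm_heckeOnP Γ' h0 hpm h1, resGpm_heckeOnP Γ' h0 hpm h1,
    resGpm_heckeOnP Γ' h0 hpm h1]
  exact heckeGrpI_comm_field (Sum.inl ℓ) (Sum.inl ℓ') (resGpm_mem_parabolicHoms Γ' hpm K hψ)

include hpm in
/-- **the Hecke operators commute on the parabolic homomorphisms over a domain of characteristic
zero.** -/
theorem heckeOnP_comm_domain [ESHyp N] {O : Type*} [CommRing O] [IsDomain O] [CharZero O]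
    (ℓ ℓ' : Nat.Primes) {ψ : Additive Γ' →+ O} (hψ : ψ ∈ parabolicHoms O Γ' O) :
    heckeOnP N Γ' h1 h0 ℓ O (heckeOnP N Γ' h1 h0 ℓ' O ψ) =
      heckeOnP N Γ' h1 h0 ℓ' O (heckeOnP N Γ' h1 h0 ℓ O ψ) := by
  haveI : CharZero (FractionRing O) :=
    charZero_of_injective_algebraMap (IsFractionRing.injective O (FractionRing O))
  apply comp_injective_of_injective (algebraMap O (FractionRing O)).toAddMonoidHom
    (IsFractionRing.injective O (FractionRing O))
  rw [← heckeOnP_comp, ← heckeOnP_comp, ← heckeOnP_comp, ← heckeOnP_comp]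
  exact heckeOnP_comm_field Γ' h1 h0 hpm ℓ ℓ'
    (comp_mem_parabolicHoms (R := O) (S := FractionRing O) _ hψ)

end Comm

section MM

variable (N M : ℕ) [NeZero N] (hM : M ∣ N) {Δ : Type} [CommGroup Δ] (π : (ZMod M)ˣ →* Δ)
variable (O : Type) [CommRing O] [Fintype Δ] (hπ : Function.Surjective π)

/-- **the Hecke operators commute on the parabolic classes of `𝓜`.** -/
theorem opM_comm_of_mem_parM [IsDomain O] [CharZero O] (hN : N ≠ 1) (hπ1 : π (-1) = 1)
    (ℓ ℓ' : Nat.Primes) {x : MM N M hM π O} (hx : x ∈ parM N M hM π O hπ) :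
    opM N M hM π O ℓ (opM N M hM π O ℓ' x) = opM N M hM π O ℓ' (opM N M hM π O ℓ x) := by
  haveI : ESHyp N := esHyp_of_ne_one N hN
  apply (bridge N M hM π O hπ).injective
  rw [bridge_opM, bridge_opM, bridge_opM, bridge_opM]
  exact heckeOnP_comm_domain _ _ _ (Gpm_le_GammaH N M hM π hπ1) ℓ ℓ' hx

end MM

end Fermat.Agent.RB.TWM
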