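/-
RB = S43 via Ihara avoidance, package [TWMOD] (helper2): **the primary part of a commuting family**
of `R`-linear operators on a module finite over a complete noetherian local ring `O`, as the range
of an idempotent polynomial in the operators; compatibility with surjections ("control").

* `famHom T hT : MvPolynomial I O →ₐ[O] End_R P`;
* `famIdeal c` : the maximal ideal `(𝔪_O, X_i - c_i)`;
* `IsFamIdem T hT c ε` : the three properties of `exists_idempotent_end`;
* `exists_famIdem`, `mem_range_famIdem_iff` (helper3's [PRIM]);
* `IsFamIdem.of_surjective`, `famIdem_control`.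
-/
import Mathlib
import Fermat.Agent.RB.T2_helper3_Prim
import Fermat.Agent.RB.TWMOD_helper2_PrimDef

set_option autoImplicit false
set_option linter.unusedSectionVars false
set_option linter.style.haveILetI false

namespace Fermat.Agent.RB.TWM

open IsLocalRing

section Family

variable {O : Type*} [CommRing O]
variable {R : Type*} [CommRing R] [Algebra O R]
variable {P : Type*} [AddCommGroup P] [Module R P] [Module O P] [IsScalarTower O R P]
variable {I : Type*} (T : I → Module.End R P) (hT : ∀ i j, Commute (T i) (T j))

/-- the commutative algebra generated by a commuting family. -/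
abbrev famAlg : Subalgebra O (Module.End R P) := Algebra.adjoin O (Set.range T)

include hT in
theorem famAlg_isMulCommutative : IsMulCommutative ↥(famAlg (O := O) T) :=
  Algebra.isMulCommutative_adjoin O (by
    rintro _ ⟨i, rfl⟩ _ ⟨j, rfl⟩
    exact hT i j)

open scoped IsMulCommutative in
/-- **the action of the polynomial ring** through a commuting family. -/
noncomputable def famHom : MvPolynomial I O →ₐ[O] Module.End R P :=
  haveI := famAlg_isMulCommutative (O := O) T hT
  (famAlg (O := O) T).val.comp
    (MvPolynomial.aeval fun i => (⟨T i, Algebra.subset_adjoin ⟨i, rfl⟩⟩ : ↥(famAlg (O := O) T)))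

@[simp] theorem famHom_X (i : I) : famHom (O := O) T hT (MvPolynomial.X i) = T i := by
  unfold famHom
  simp

theorem famHom_commute (a b : MvPolynomial I O) :
    Commute (famHom (O := O) T hT a) (famHom (O := O) T hT b) := by
  show famHom (O := O) T hT a * famHom (O := O) T hT b =
    famHom (O := O) T hT b * famHom (O := O) T hT a
  rw [← map_mul, ← map_mul, mul_comm]

/-- an `O`-semilinear map intertwining two commuting families intertwines the polynomial
actions. -/
theorem famHom_intertwine {R'' : Type*} [CommRing R''] [Algebra O R''] {P'' : Type*}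
    [AddCommGroup P''] [Module R'' P''] [Module O P''] [IsScalarTower O R'' P'']
    (T'' : I → Module.End R'' P'') (hT'' : ∀ i j, Commute (T'' i) (T'' j))
    (f : P →+ P'') (hfO : ∀ (a : O) (x : P), f (a • x) = a • f x)
    (hf : ∀ i x, f (T i x) = T'' i (f x)) (s : MvPolynomial I O) (x : P) :
    f (famHom (O := O) T hT s x) = famHom (O := O) T'' hT'' s (f x) := by
  induction s using MvPolynomial.induction_on generalizing x with
  | C a =>
    rw [MvPolynomial.C_eq_smul_one, map_smul, map_smul, map_one, map_one, LinearMap.smul_apply,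
      LinearMap.smul_apply, Module.End.one_apply, Module.End.one_apply, hfO]
  | add p q hp hq =>
    rw [map_add, map_add, LinearMap.add_apply, LinearMap.add_apply, map_add, hp, hq]
  | mul_X p i hp =>
    rw [map_mul, map_mul, famHom_X, famHom_X, Module.End.mul_apply, Module.End.mul_apply, hp, hf]

end Family

section Ideal

variable {O : Type*} [CommRing O] [IsLocalRing O] {I : Type*}

/-- the evaluation `X_i ↦ c_i mod 𝔪_O`. -/
noncomputable def famEval (c : I → O) : MvPolynomial I O →+* ResidueField O :=
  MvPolynomial.eval₂Hom (residue O) fun i => residue O (c i)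

/-- **the maximal ideal `(𝔪_O, X_i - c_i)`.** -/
noncomputable def famIdeal (c : I → O) : Ideal (MvPolynomial I O) := RingHom.ker (famEval c)

theorem famEval_surjective (c : I → O) : Function.Surjective (famEval c) := by
  intro y
  obtain ⟨a, rfl⟩ := residue_surjective y
  exact ⟨MvPolynomial.C a, by simp [famEval]⟩

instance famIdeal_isMaximal (c : I → O) : (famIdeal c).IsMaximal :=
  RingHom.ker_isMaximal_of_surjective _ (famEval_surjective c)

theorem famIdeal_eq (c : I → O) :
    famIdeal c = (maximalIdeal O).map (algebraMap O (MvPolynomial I O)) ⊔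
      Ideal.span (Set.range fun i => MvPolynomial.X i - algebraMap O (MvPolynomial I O) (c i)) :=
  ker_eq_map_sup_span (famEval c) MvPolynomial.X c MvPolynomial.adjoin_range_X
    (fun i => by simp [famEval, MvPolynomial.algebraMap_eq])
    (fun a ha => by
      simp only [famEval, MvPolynomial.algebraMap_eq, MvPolynomial.coe_eval₂Hom,
        MvPolynomial.eval₂_C]
      exact (residue_eq_zero_iff a).mpr ha)

/-- a polynomial whose value at `c` is a unit is not in the ideal. -/
theorem notMem_famIdeal_of_isUnit (c : I → O) {s : MvPolynomial I O}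
    (h : IsUnit (MvPolynomial.eval c s)) : s ∉ famIdeal c := by
  intro hs
  have h1 : famEval c s = residue O (MvPolynomial.eval c s) := by
    unfold famEval
    rw [MvPolynomial.coe_eval₂Hom, MvPolynomial.eval, MvPolynomial.coe_eval₂Hom]
    exact (MvPolynomial.eval₂_comp_left (residue O) (RingHom.id O) c s).symm
  rw [famIdeal, RingHom.mem_ker, h1, residue_eq_zero_iff] at hs
  exact (mem_maximalIdeal _).mp hs h

end Ideal

section Aux

variable {O : Type*} [CommRing O] {R : Type*} [CommRing R] [Algebra O R]
variable {P : Type*} [AddCommGroup P] [Module R P] [Module O P] [IsScalarTower O R P]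

/-- `R`-linear endomorphisms preserve `J • P` for ideals `J` of `O`. -/
theorem end_apply_mem_smul_top' (f : Module.End R P) (J : Ideal O) {x : P}
    (hx : x ∈ (J • ⊤ : Submodule O P)) : f x ∈ (J • ⊤ : Submodule O P) := by
  refine Submodule.smul_induction_on hx (fun r hr y _ => ?_) (fun a b ha hb => ?_)
  · rw [LinearMap.map_smul_of_tower]
    exact Submodule.smul_mem_smul hr Submodule.mem_top
  · rw [map_add]
    exact add_mem ha hb

end Aux

section Idem

variable {O : Type*} [CommRing O] [IsLocalRing O]
variable {R : Type*} [CommRing R] [Algebra O R]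
variable {P : Type*} [AddCommGroup P] [Module R P] [Module O P] [IsScalarTower O R P]
variable {I : Type*} (T : I → Module.End R P) (hT : ∀ i j, Commute (T i) (T j)) (c : I → O)

/-- **the three properties of the idempotent of `(𝔪_O, X_i - c_i)`.** -/
structure IsFamIdem (ε : MvPolynomial I O) : Prop where
  idem : famHom (O := O) T hT ε * famHom (O := O) T hT ε = famHom (O := O) T hT ε
  inv : ∀ s : MvPolynomial I O, s ∉ famIdeal c →
    ∃ s' : MvPolynomial I O, famHom (O := O) T hT (s * s') * famHom (O := O) T hT ε =
      famHom (O := O) T hT ε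
  kill : ∃ s : MvPolynomial I O, s ∉ famIdeal c ∧
    famHom (O := O) T hT s * (1 - famHom (O := O) T hT ε) = 0

/-- the primary part of a family of `R`-linear operators, as an `R`-submodule. -/
def primaryPartR : Submodule R P where
  carrier := {x | ∀ (i : I) (n : ℕ), ∃ k : ℕ,
    ((T i - algebraMap O (Module.End R P) (c i)) ^ k) x ∈
      (maximalIdeal O ^ n • ⊤ : Submodule O P)}
  add_mem' := by
    intro x y hx hy i n
    obtain ⟨k, hk⟩ := hx i n
    obtain ⟨k', hk'⟩ := hy i n
    refine ⟨k + k', ?_⟩
    rw [map_add]
    refine Submodule.add_mem _ ?_ ?_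
    · rw [add_comm, pow_add, Module.End.mul_apply]
      exact end_apply_mem_smul_top' _ _ hk
    · rw [pow_add, Module.End.mul_apply]
      exact end_apply_mem_smul_top' _ _ hk'
  zero_mem' := fun i n => ⟨0, by rw [map_zero]; exact Submodule.zero_mem _⟩
  smul_mem' := by
    intro a x hx i n
    obtain ⟨k, hk⟩ := hx i n
    refine ⟨k, ?_⟩
    rw [map_smul]
    exact end_apply_mem_smul_top' (a • (1 : Module.End R P)) _ hk

theorem mem_primaryPartR {x : P} :
    x ∈ primaryPartR T c ↔ ∀ (i : I) (n : ℕ), ∃ k : ℕ,
      ((T i - algebraMap O (Module.End R P) (c i)) ^ k) x ∈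
        (maximalIdeal O ^ n • ⊤ : Submodule O P) := Iff.rfl

variable [IsNoetherianRing O] [Module.Finite O P]

/-- **[PRIM]**: the range of the idempotent is the primary part. -/
theorem IsFamIdem.range_eq {ε : MvPolynomial I O} (h : IsFamIdem T hT c ε) :
    LinearMap.range (famHom (O := O) T hT ε) = primaryPartR T c := by
  ext x
  have := mem_idemRange_iff_forall_pow_mem (famHom (O := O) T hT) (famIdeal c)
    MvPolynomial.X c (famIdeal_eq c) ε h.inv h.kill x
  simp only [famHom_X] at this
  exact this

theorem IsFamIdem.apply_of_mem {ε : MvPolynomial I O} (h : IsFamIdem T hT c ε) {x : P}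
    (hx : x ∈ primaryPartR T c) : famHom (O := O) T hT ε x = x := by
  rw [← h.range_eq] at hx
  exact apply_eq_of_mem_idemRange _ h.idem hx

theorem IsFamIdem.apply_mem {ε : MvPolynomial I O} (h : IsFamIdem T hT c ε) (x : P) :
    famHom (O := O) T hT ε x ∈ primaryPartR T c := by
  rw [← h.range_eq]
  exact ⟨x, rfl⟩

variable [IsAdicComplete (maximalIdeal O) O]

/-- **existence of the idempotent** (helper3's `exists_idempotent_end`). -/
theorem exists_isFamIdem : ∃ ε : MvPolynomial I O, IsFamIdem T hT c ε := by
  obtain ⟨ε, h1, h2, h3⟩ := exists_idempotent_end O (famHom (O := O) T hT) (famIdeal c)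
  exact ⟨ε, h1, h2, h3⟩

end Idem

section Control

variable {O : Type*} [CommRing O] [IsLocalRing O]
variable {R : Type*} [CommRing R] [Algebra O R]
variable {P : Type*} [AddCommGroup P] [Module R P] [Module O P] [IsScalarTower O R P]
variable {R'' : Type*} [CommRing R''] [Algebra O R''] {P'' : Type*}
    [AddCommGroup P''] [Module R'' P''] [Module O P''] [IsScalarTower O R'' P'']
variable {I : Type*} (T : I → Module.End R P) (hT : ∀ i j, Commute (T i) (T j)) (c : I → O)
  (T'' : I → Module.End R'' P'') (hT'' : ∀ i j, Commute (T'' i) (T'' j))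

include hT'' in
/-- **the idempotent descends along an equivariant surjection.** -/
theorem IsFamIdem.of_surjective {ε : MvPolynomial I O} (h : IsFamIdem T hT c ε)
    (f : P →+ P'') (hfO : ∀ (a : O) (x : P), f (a • x) = a • f x)
    (hsurj : Function.Surjective f) (hf : ∀ i x, f (T i x) = T'' i (f x)) :
    IsFamIdem T'' hT'' c ε := by
  have key : ∀ a b : Module.End R P, ∀ a'' b'' : Module.End R'' P'',
      (∀ x, f (a x) = a'' (f x)) → (∀ x, f (b x) = b'' (f x)) → a = b → a'' = b'' := by
    intro a b a'' b'' ha hb hab
    apply LinearMap.ext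
    intro y
    obtain ⟨x, rfl⟩ := hsurj y
    rw [← ha, ← hb, hab]
  have hint := famHom_intertwine (O := O) T hT T'' hT'' f hfO hf
  refine ⟨?_, fun s hs => ?_, ?_⟩
  · refine key _ _ _ _ (fun x => ?_) (hint ε) h.idem
    rw [Module.End.mul_apply, Module.End.mul_apply, hint, hint]
  · obtain ⟨s', hs'⟩ := h.inv s hs
    refine ⟨s', key _ _ _ _ (fun x => ?_) (hint ε) hs'⟩
    rw [Module.End.mul_apply, Module.End.mul_apply, hint, hint]
  · obtain ⟨s, hs, hs0⟩ := h.kill
    refine ⟨s, hs, key _ _ _ 0 (fun x => ?_) (fun x => ?_) hs0⟩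
    · rw [Module.End.mul_apply, Module.End.mul_apply, LinearMap.sub_apply, LinearMap.sub_apply,
        Module.End.one_apply, Module.End.one_apply, hint, map_sub, hint]
    · rw [LinearMap.zero_apply, LinearMap.zero_apply, map_zero]

variable [IsNoetherianRing O] [Module.Finite O P] [Module.Finite O P'']

omit [IsLocalRing O] [Algebra O R] [Module O P] [IsScalarTower O R P] [Algebra O R'']
  [Module O P''] [IsScalarTower O R'' P''] in
/-- `idemRange_control` for submodules equal to the ranges. -/
theorem idemRange_control_of_eq {σ : R →+* R''} (f : P →ₛₗ[σ] P'')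
    (hsurj : Function.Surjective f) (J : Ideal R)
    (hker : ∀ x, f x = 0 ↔ x ∈ J • (⊤ : Submodule R P))
    (e : Module.End R P) (e'' : Module.End R'' P'') (he : e * e = e)
    (hcomm : ∀ x, f (e x) = e'' (f x)) (S : Submodule R P) (S'' : Submodule R'' P'')
    (hS : LinearMap.range e = S) (hS'' : LinearMap.range e'' = S'') :
    ∃ fe : ↥S →ₛₗ[σ] ↥S'',
      (∀ x, ((fe x : ↥S'') : P'') = f x) ∧ Function.Surjective fe ∧
      ∀ x, fe x = 0 ↔ x ∈ J • (⊤ : Submodule R ↥S) := by
  subst hS
  subst hS''
  exact idemRange_control f hsurj J hker e e'' he hcomm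

include hT'' in
/-- **control for the primary parts**: an equivariant semilinear surjection `f : P → P''` with
kernel `J P` maps the primary part onto the primary part, with kernel `J •` (primary part). -/
theorem primaryPartR_control {ε : MvPolynomial I O} (h : IsFamIdem T hT c ε)
    {σ : R →+* R''} (f : P →ₛₗ[σ] P'') (hfO : ∀ (a : O) (x : P), f (a • x) = a • f x)
    (hsurj : Function.Surjective f) (J : Ideal R)
    (hker : ∀ x, f x = 0 ↔ x ∈ J • (⊤ : Submodule R P))
    (hf : ∀ i x, f (T i x) = T'' i (f x)) :
    ∃ fe : ↥(primaryPartR T c) →ₛₗ[σ] ↥(primaryPartR T'' c),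
      (∀ x, ((fe x : ↥(primaryPartR T'' c)) : P'') = f x) ∧ Function.Surjective fe ∧
      ∀ x, fe x = 0 ↔ x ∈ J • (⊤ : Submodule R ↥(primaryPartR T c)) := by
  have h'' : IsFamIdem T'' hT'' c ε :=
    h.of_surjective T hT c T'' hT'' f.toAddMonoidHom hfO hsurj hf
  have hint := famHom_intertwine (O := O) T hT T'' hT'' f.toAddMonoidHom hfO hf ε
  exact idemRange_control_of_eq f hsurj J hker (famHom (O := O) T hT ε)
    (famHom (O := O) T'' hT'' ε) h.idem hint _ _ h.range_eq h''.range_eq

end Control

end Fermat.Agent.RB.TWM
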