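/-
RB = S43 via Ihara avoidance, package [TWMOD] (helper2): **the primary part of a family of operators
which commute only on a submodule `Par`** ("parabolic classes"), in two stages.

Setting: `𝓜` an `R`-module finite over the complete noetherian local ring `O`, `T i` (`i : I`)
`R`-linear operators, `Par ⊆ 𝓜` an `R`-submodule stable under the `T i`, on which they commute,
and one index `i₀` with `(T i₀ - n₀) 𝓜 ⊆ Par`, `c i₀ - n₀` a unit.  Then
* `H₀ := primaryPartR (T i₀) (c i₀) ≤ Par` is stable under all `T i` (which commute on it);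
* `H := primaryPartR T c` is a direct summand of `H₀` (hence of `𝓜`), the range of the idempotent
  `totalIdem`;
* control: an equivariant surjection with kernel `J 𝓜` induces a surjection `H → H''` with kernel
  `J H`.
-/
import Mathlib
import Fermat.Agent.RB.TWMOD_helper2_Fam

set_option autoImplicit false
set_option linter.unusedSectionVars false
set_option linter.style.haveILetI false

namespace Fermat.Agent.RB.TWM

open IsLocalRing

section Two

variable {O : Type*} [CommRing O] [IsLocalRing O]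
variable {R : Type*} [CommRing R] [Algebra O R]
variable {𝓜 : Type*} [AddCommGroup 𝓜] [Module R 𝓜] [Module O 𝓜] [IsScalarTower O R 𝓜]
variable {I : Type*}

/-- **the hypotheses of the two-stage construction.** -/
structure TwoStage (T : I → Module.End R 𝓜) (Par : Submodule R 𝓜) (c : I → O) (i₀ : I)
    (n₀ : O) : Prop where
  map_par : ∀ i, ∀ x ∈ Par, T i x ∈ Par
  comm_par : ∀ i j, ∀ x ∈ Par, T i (T j x) = T j (T i x)
  bdy : ∀ x, T i₀ x - n₀ • x ∈ Par
  unit : IsUnit (c i₀ - n₀)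

variable (T : I → Module.End R 𝓜) (Par : Submodule R 𝓜) (c : I → O) (i₀ : I) (n₀ : O)

/-- the one-operator family of stage 1. -/
abbrev stageOne : Unit → Module.End R 𝓜 := fun _ => T i₀

theorem stageOne_commute (u v : Unit) : Commute (stageOne T i₀ u) (stageOne T i₀ v) :=
  Commute.refl _

/-- **`H₀`**: the primary part of the single operator `T i₀`. -/
abbrev HZero : Submodule R 𝓜 := primaryPartR (stageOne T i₀) (fun _ => c i₀)

variable {T Par c i₀ n₀}

theorem TwoStage.sub_pow_apply_comm (h : TwoStage T Par c i₀ n₀) (i j : I) (a : O) (k : ℕ)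
    {x : 𝓜} (hx : x ∈ Par) :
    ((T j - algebraMap O (Module.End R 𝓜) a) ^ k) x ∈ Par ∧
    ((T j - algebraMap O (Module.End R 𝓜) a) ^ k) (T i x) =
      T i (((T j - algebraMap O (Module.End R 𝓜) a) ^ k) x) := by
  induction k generalizing x with
  | zero => exact ⟨by simpa using hx, by simp⟩
  | succ k ih =>
    have h1 : ∀ y ∈ Par, (T j - algebraMap O (Module.End R 𝓜) a) y ∈ Par := by
      intro y hy
      rw [LinearMap.sub_apply, Module.algebraMap_end_apply]
      exact Par.sub_mem (h.map_par j y hy) (Par.smul_of_tower_mem a hy)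
    have h2 : ∀ y ∈ Par, (T j - algebraMap O (Module.End R 𝓜) a) (T i y) =
        T i ((T j - algebraMap O (Module.End R 𝓜) a) y) := by
      intro y hy
      rw [LinearMap.sub_apply, LinearMap.sub_apply, Module.algebraMap_end_apply,
        Module.algebraMap_end_apply, map_sub, h.comm_par j i y hy, LinearMap.map_smul_of_tower]
    rw [pow_succ, Module.End.mul_apply, Module.End.mul_apply]
    obtain ⟨ih1, ih2⟩ := ih (h1 x hx)
    refine ⟨ih1, ?_⟩
    rw [h2 x hx, ih (h1 x hx) |>.2]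

/-- `T i` preserves the primary part of `T j`, on `Par`. -/
theorem TwoStage.apply_mem_primary (h : TwoStage T Par c i₀ n₀) (i j : I) (a : O) {x : 𝓜}
    (hx : x ∈ Par) (hx' : ∀ n : ℕ, ∃ k : ℕ, ((T j - algebraMap O (Module.End R 𝓜) a) ^ k) x ∈
      (maximalIdeal O ^ n • ⊤ : Submodule O 𝓜)) (n : ℕ) :
    ∃ k : ℕ, ((T j - algebraMap O (Module.End R 𝓜) a) ^ k) (T i x) ∈
      (maximalIdeal O ^ n • ⊤ : Submodule O 𝓜) := by
  obtain ⟨k, hk⟩ := hx' n
  refine ⟨k, ?_⟩
  rw [(h.sub_pow_apply_comm i j a k hx).2]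
  exact end_apply_mem_smul_top' _ _ hk

variable [IsNoetherianRing O] [Module.Finite O 𝓜]

/-- **`H₀ ≤ Par`.** -/
theorem TwoStage.HZero_le (h : TwoStage T Par c i₀ n₀) {ε₀ : MvPolynomial Unit O}
    (h₀ : IsFamIdem (stageOne T i₀) (stageOne_commute T i₀) (fun _ => c i₀) ε₀) :
    HZero T c i₀ ≤ Par := by
  intro x hx
  set s : MvPolynomial Unit O := MvPolynomial.X () - MvPolynomial.C n₀ with hs
  have hs' : s ∉ famIdeal (fun _ : Unit => c i₀) := by
    apply notMem_famIdeal_of_isUnit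
    rw [hs, map_sub, MvPolynomial.eval_X, MvPolynomial.eval_C]
    exact h.unit
  obtain ⟨s', hs'⟩ := h₀.inv s hs'
  have h1 := LinearMap.congr_fun hs' x
  rw [Module.End.mul_apply, h₀.apply_of_mem _ _ _ hx, map_mul, Module.End.mul_apply] at h1
  rw [← h1, hs, map_sub, famHom_X, LinearMap.sub_apply, ← MvPolynomial.algebraMap_eq,
    AlgHom.commutes, Module.algebraMap_end_apply]
  exact h.bdy _

/-- `T i` preserves `H₀`. -/
theorem TwoStage.apply_mem_HZero (h : TwoStage T Par c i₀ n₀) {ε₀ : MvPolynomial Unit O}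
    (h₀ : IsFamIdem (stageOne T i₀) (stageOne_commute T i₀) (fun _ => c i₀) ε₀) (i : I)
    {x : 𝓜} (hx : x ∈ HZero T c i₀) : T i x ∈ HZero T c i₀ := by
  intro u n
  exact h.apply_mem_primary i i₀ (c i₀) (h.HZero_le h₀ hx) (fun n => hx () n) n

instance finite_HZero : Module.Finite O ↥(HZero T c i₀) := by
  haveI : IsNoetherian O 𝓜 := isNoetherian_of_isNoetherianRing_of_finite O 𝓜
  exact Module.Finite.of_injective ((HZero T c i₀).subtype.restrictScalars O)
    Subtype.val_injective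

/-- the operators restricted to `H₀`. -/
noncomputable def TwoStage.Tres (h : TwoStage T Par c i₀ n₀) {ε₀ : MvPolynomial Unit O}
    (h₀ : IsFamIdem (stageOne T i₀) (stageOne_commute T i₀) (fun _ => c i₀) ε₀) (i : I) :
    Module.End R ↥(HZero T c i₀) :=
  (T i).restrict fun _ hx => h.apply_mem_HZero h₀ i hx

theorem TwoStage.coe_Tres (h : TwoStage T Par c i₀ n₀) {ε₀ : MvPolynomial Unit O}
    (h₀ : IsFamIdem (stageOne T i₀) (stageOne_commute T i₀) (fun _ => c i₀) ε₀) (i : I)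
    (x : ↥(HZero T c i₀)) : ((h.Tres h₀ i x : ↥(HZero T c i₀)) : 𝓜) = T i x := rfl

theorem TwoStage.Tres_commute (h : TwoStage T Par c i₀ n₀) {ε₀ : MvPolynomial Unit O}
    (h₀ : IsFamIdem (stageOne T i₀) (stageOne_commute T i₀) (fun _ => c i₀) ε₀) (i j : I) :
    Commute (h.Tres h₀ i) (h.Tres h₀ j) := by
  apply LinearMap.ext
  intro x
  apply Subtype.ext
  exact h.comm_par i j x (h.HZero_le h₀ x.2)

/-- powers of `T i - a` on `H₀` and on `𝓜`. -/
theorem TwoStage.coe_Tres_sub_pow (h : TwoStage T Par c i₀ n₀) {ε₀ : MvPolynomial Unit O}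
    (h₀ : IsFamIdem (stageOne T i₀) (stageOne_commute T i₀) (fun _ => c i₀) ε₀) (i : I) (a : O)
    (k : ℕ) (x : ↥(HZero T c i₀)) :
    ((((h.Tres h₀ i - algebraMap O (Module.End R ↥(HZero T c i₀)) a) ^ k) x :
      ↥(HZero T c i₀)) : 𝓜) = ((T i - algebraMap O (Module.End R 𝓜) a) ^ k) x :=
  map_pow_sub_algebraMap_apply ((HZero T c i₀).subtype.restrictScalars O) (h.Tres h₀ i) (T i)
    (fun _ => rfl) a k x

/-- the projection `𝓜 → H₀`. -/
noncomputable def TwoStage.projZero (h : TwoStage T Par c i₀ n₀) {ε₀ : MvPolynomial Unit O}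
    (h₀ : IsFamIdem (stageOne T i₀) (stageOne_commute T i₀) (fun _ => c i₀) ε₀) :
    𝓜 →ₗ[R] ↥(HZero T c i₀) :=
  (famHom (O := O) (stageOne T i₀) (stageOne_commute T i₀) ε₀).codRestrict _
    fun x => h₀.apply_mem _ _ _ x

theorem TwoStage.projZero_coe (h : TwoStage T Par c i₀ n₀) {ε₀ : MvPolynomial Unit O}
    (h₀ : IsFamIdem (stageOne T i₀) (stageOne_commute T i₀) (fun _ => c i₀) ε₀)
    (x : ↥(HZero T c i₀)) : h.projZero h₀ x = x :=
  Subtype.ext (h₀.apply_of_mem _ _ _ x.2)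

/-- **the total idempotent** `𝓜 → H₀ → H ⊆ 𝓜`. -/
noncomputable def TwoStage.totalIdem (h : TwoStage T Par c i₀ n₀) {ε₀ : MvPolynomial Unit O}
    (h₀ : IsFamIdem (stageOne T i₀) (stageOne_commute T i₀) (fun _ => c i₀) ε₀)
    (ε : MvPolynomial I O) : Module.End R 𝓜 :=
  (HZero T c i₀).subtype ∘ₗ famHom (O := O) (h.Tres h₀) (h.Tres_commute h₀) ε ∘ₗ h.projZero h₀

theorem TwoStage.totalIdem_apply (h : TwoStage T Par c i₀ n₀) {ε₀ : MvPolynomial Unit O}
    (h₀ : IsFamIdem (stageOne T i₀) (stageOne_commute T i₀) (fun _ => c i₀) ε₀)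
    (ε : MvPolynomial I O) (x : 𝓜) :
    h.totalIdem h₀ ε x =
      ((famHom (O := O) (h.Tres h₀) (h.Tres_commute h₀) ε (h.projZero h₀ x) :
        ↥(HZero T c i₀)) : 𝓜) := rfl

/-- an element of `H₀` lying in `𝔪ⁿ 𝓜` lies in `𝔪ⁿ H₀`. -/
theorem TwoStage.mem_smul_top_HZero (h : TwoStage T Par c i₀ n₀) {ε₀ : MvPolynomial Unit O}
    (h₀ : IsFamIdem (stageOne T i₀) (stageOne_commute T i₀) (fun _ => c i₀) ε₀) (J : Ideal O)
    (x : ↥(HZero T c i₀)) (hx : (x : 𝓜) ∈ (J • ⊤ : Submodule O 𝓜)) :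
    x ∈ (J • ⊤ : Submodule O ↥(HZero T c i₀)) := by
  have h1 := map_mem_smul_top ((h.projZero h₀).restrictScalars O) J hx
  rwa [LinearMap.restrictScalars_apply, h.projZero_coe h₀] at h1

/-- the elements of the primary part, as elements of `H₀`. -/
theorem TwoStage.mem_primaryPartR_Tres_iff (h : TwoStage T Par c i₀ n₀)
    {ε₀ : MvPolynomial Unit O}
    (h₀ : IsFamIdem (stageOne T i₀) (stageOne_commute T i₀) (fun _ => c i₀) ε₀)
    (x : ↥(HZero T c i₀)) :
    x ∈ primaryPartR (h.Tres h₀) c ↔ (x : 𝓜) ∈ primaryPartR T c := by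
  constructor
  · intro hx i n
    obtain ⟨k, hk⟩ := hx i n
    refine ⟨k, ?_⟩
    rw [← h.coe_Tres_sub_pow h₀]
    exact map_mem_smul_top ((HZero T c i₀).subtype.restrictScalars O) _ hk
  · intro hx i n
    obtain ⟨k, hk⟩ := hx i n
    refine ⟨k, h.mem_smul_top_HZero h₀ _ _ ?_⟩
    rw [h.coe_Tres_sub_pow h₀]
    exact hk

theorem primaryPartR_le_HZero : primaryPartR T c ≤ HZero T c i₀ :=
  fun _ hx _ n => hx i₀ n

/-- **the total idempotent fixes the primary part.** -/
theorem TwoStage.totalIdem_of_mem (h : TwoStage T Par c i₀ n₀) {ε₀ : MvPolynomial Unit O}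
    (h₀ : IsFamIdem (stageOne T i₀) (stageOne_commute T i₀) (fun _ => c i₀) ε₀)
    {ε : MvPolynomial I O} (h₂ : IsFamIdem (h.Tres h₀) (h.Tres_commute h₀) c ε) {x : 𝓜}
    (hx : x ∈ primaryPartR T c) : h.totalIdem h₀ ε x = x := by
  have hx0 : x ∈ HZero T c i₀ := primaryPartR_le_HZero hx
  have h1 : h.projZero h₀ x = ⟨x, hx0⟩ := h.projZero_coe h₀ ⟨x, hx0⟩
  rw [h.totalIdem_apply, h1, h₂.apply_of_mem _ _ _ ((h.mem_primaryPartR_Tres_iff h₀ _).mpr hx)]

/-- **the total idempotent maps into the primary part.** -/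
theorem TwoStage.totalIdem_mem (h : TwoStage T Par c i₀ n₀) {ε₀ : MvPolynomial Unit O}
    (h₀ : IsFamIdem (stageOne T i₀) (stageOne_commute T i₀) (fun _ => c i₀) ε₀)
    {ε : MvPolynomial I O} (h₂ : IsFamIdem (h.Tres h₀) (h.Tres_commute h₀) c ε) (x : 𝓜) :
    h.totalIdem h₀ ε x ∈ primaryPartR T c := by
  rw [h.totalIdem_apply, ← h.mem_primaryPartR_Tres_iff h₀]
  exact h₂.apply_mem _ _ _ _

theorem TwoStage.totalIdem_idem (h : TwoStage T Par c i₀ n₀) {ε₀ : MvPolynomial Unit O}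
    (h₀ : IsFamIdem (stageOne T i₀) (stageOne_commute T i₀) (fun _ => c i₀) ε₀)
    {ε : MvPolynomial I O} (h₂ : IsFamIdem (h.Tres h₀) (h.Tres_commute h₀) c ε) :
    h.totalIdem h₀ ε * h.totalIdem h₀ ε = h.totalIdem h₀ ε := by
  apply LinearMap.ext
  intro x
  rw [Module.End.mul_apply]
  exact h.totalIdem_of_mem h₀ h₂ (h.totalIdem_mem h₀ h₂ x)

theorem TwoStage.range_totalIdem (h : TwoStage T Par c i₀ n₀) {ε₀ : MvPolynomial Unit O}
    (h₀ : IsFamIdem (stageOne T i₀) (stageOne_commute T i₀) (fun _ => c i₀) ε₀)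
    {ε : MvPolynomial I O} (h₂ : IsFamIdem (h.Tres h₀) (h.Tres_commute h₀) c ε) :
    LinearMap.range (h.totalIdem h₀ ε) = primaryPartR T c := by
  ext x
  constructor
  · rintro ⟨y, rfl⟩
    exact h.totalIdem_mem h₀ h₂ y
  · intro hx
    exact ⟨x, h.totalIdem_of_mem h₀ h₂ hx⟩

variable [IsAdicComplete (maximalIdeal O) O]

/-- **the primary part consists of parabolic classes.** -/
theorem TwoStage.primaryPartR_le (h : TwoStage T Par c i₀ n₀) : primaryPartR T c ≤ Par := by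
  obtain ⟨ε₀, h₀⟩ := exists_isFamIdem (O := O) (stageOne T i₀) (stageOne_commute T i₀)
    (fun _ => c i₀)
  exact primaryPartR_le_HZero.trans (h.HZero_le h₀)

/-- **the primary part is stable under the operators.** -/
theorem TwoStage.apply_mem_primaryPartR (h : TwoStage T Par c i₀ n₀) (i : I) {x : 𝓜}
    (hx : x ∈ primaryPartR T c) : T i x ∈ primaryPartR T c := by
  intro j n
  exact h.apply_mem_primary i j (c j) (h.primaryPartR_le hx) (fun n => hx j n) n

/-- **the primary part is a direct summand of `𝓜`.** -/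
theorem TwoStage.exists_idem (h : TwoStage T Par c i₀ n₀) :
    ∃ e : Module.End R 𝓜, e * e = e ∧ LinearMap.range e = primaryPartR T c := by
  obtain ⟨ε₀, h₀⟩ := exists_isFamIdem (O := O) (stageOne T i₀) (stageOne_commute T i₀)
    (fun _ => c i₀)
  obtain ⟨ε, h₂⟩ := exists_isFamIdem (O := O) (h.Tres h₀) (h.Tres_commute h₀) c
  exact ⟨h.totalIdem h₀ ε, h.totalIdem_idem h₀ h₂, h.range_totalIdem h₀ h₂⟩

/-- **freeness**: if `H₀` is free over the local ring `R`, so is the primary part. -/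
theorem TwoStage.free_primaryPartR (h : TwoStage T Par c i₀ n₀) [IsLocalRing R]
    [Module.Finite R 𝓜] [IsNoetherianRing R] (hfree : Module.Free R ↥(HZero T c i₀)) :
    Module.Free R ↥(primaryPartR T c) := by
  obtain ⟨ε₀, h₀⟩ := exists_isFamIdem (O := O) (stageOne T i₀) (stageOne_commute T i₀)
    (fun _ => c i₀)
  obtain ⟨ε, h₂⟩ := exists_isFamIdem (O := O) (h.Tres h₀) (h.Tres_commute h₀) c
  let incl : ↥(primaryPartR T c) →ₗ[R] ↥(HZero T c i₀) :=
    Submodule.inclusion primaryPartR_le_HZero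
  let proj : ↥(HZero T c i₀) →ₗ[R] ↥(primaryPartR T c) :=
    (h.totalIdem h₀ ε ∘ₗ (HZero T c i₀).subtype).codRestrict _
      fun x => h.totalIdem_mem h₀ h₂ _
  have hpi : proj.comp incl = LinearMap.id := by
    apply LinearMap.ext
    intro x
    apply Subtype.ext
    exact h.totalIdem_of_mem h₀ h₂ x.2
  haveI : Module.Projective R ↥(primaryPartR T c) := Module.Projective.of_split incl proj hpi
  haveI : IsNoetherian R 𝓜 := isNoetherian_of_isNoetherianRing_of_finite R 𝓜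
  haveI : Module.Finite R ↥(primaryPartR T c) := Module.Finite.of_injective
    (primaryPartR T c).subtype Subtype.val_injective
  exact Module.free_of_flat_of_isLocalRing

end Two

section TwoControl

variable {O : Type*} [CommRing O] [IsLocalRing O] [IsNoetherianRing O]
  [IsAdicComplete (maximalIdeal O) O]
variable {R : Type*} [CommRing R] [Algebra O R]
variable {𝓜 : Type*} [AddCommGroup 𝓜] [Module R 𝓜] [Module O 𝓜] [IsScalarTower O R 𝓜]
  [Module.Finite O 𝓜]
variable {R'' : Type*} [CommRing R''] [Algebra O R'']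
variable {𝓜'' : Type*} [AddCommGroup 𝓜''] [Module R'' 𝓜''] [Module O 𝓜'']
  [IsScalarTower O R'' 𝓜''] [Module.Finite O 𝓜'']
variable {I : Type*} {T : I → Module.End R 𝓜} {Par : Submodule R 𝓜} {c : I → O} {i₀ : I} {n₀ : O}
  {T'' : I → Module.End R'' 𝓜''} {Par'' : Submodule R'' 𝓜''}

/-- **control for the two-stage primary parts.** -/
theorem TwoStage.control (h : TwoStage T Par c i₀ n₀) (h'' : TwoStage T'' Par'' c i₀ n₀)
    {σ : R →+* R''} (f : 𝓜 →ₛₗ[σ] 𝓜'') (hfO : ∀ (a : O) (x : 𝓜), f (a • x) = a • f x)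
    (hsurj : Function.Surjective f) (J : Ideal R)
    (hker : ∀ x, f x = 0 ↔ x ∈ J • (⊤ : Submodule R 𝓜))
    (hf : ∀ i x, f (T i x) = T'' i (f x)) :
    ∃ fe : ↥(primaryPartR T c) →ₛₗ[σ] ↥(primaryPartR T'' c),
      (∀ x, ((fe x : ↥(primaryPartR T'' c)) : 𝓜'') = f x) ∧ Function.Surjective fe ∧
      ∀ x, fe x = 0 ↔ x ∈ J • (⊤ : Submodule R ↥(primaryPartR T c)) := by
  obtain ⟨ε₀, h₀⟩ := exists_isFamIdem (O := O) (stageOne T i₀) (stageOne_commute T i₀)
    (fun _ => c i₀)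
  obtain ⟨ε, h₂⟩ := exists_isFamIdem (O := O) (h.Tres h₀) (h.Tres_commute h₀) c
  have h₀'' : IsFamIdem (stageOne T'' i₀) (stageOne_commute T'' i₀) (fun _ => c i₀) ε₀ :=
    h₀.of_surjective _ _ _ _ _ f.toAddMonoidHom hfO hsurj (fun _ x => hf i₀ x)
  have hint₀ : ∀ x, f (famHom (O := O) (stageOne T i₀) (stageOne_commute T i₀) ε₀ x) =
      famHom (O := O) (stageOne T'' i₀) (stageOne_commute T'' i₀) ε₀ (f x) :=
    famHom_intertwine (O := O) _ _ _ _ f.toAddMonoidHom hfO (fun _ x => hf i₀ x) ε₀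
  have hmem : ∀ y : ↥(HZero T c i₀), f y ∈ HZero T'' c i₀ := by
    intro y
    have h1 := hint₀ y
    rw [h₀.apply_of_mem _ _ _ y.2] at h1
    rw [h1]
    exact h₀''.apply_mem _ _ _ _
  let f₀ : ↥(HZero T c i₀) →+ ↥(HZero T'' c i₀) :=
    { toFun := fun y => ⟨f y, hmem y⟩
      map_zero' := Subtype.ext (by simp)
      map_add' := fun a b => Subtype.ext (by simp) }
  have hf₀O : ∀ (a : O) (y : ↥(HZero T c i₀)), f₀ (a • y) = a • f₀ y :=
    fun a y => Subtype.ext (hfO a y)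
  have hf₀proj : ∀ x : 𝓜, f₀ (h.projZero h₀ x) = h''.projZero h₀'' (f x) :=
    fun x => Subtype.ext (hint₀ x)
  have hf₀surj : Function.Surjective f₀ := by
    intro y''
    obtain ⟨x, hx⟩ := hsurj (y'' : 𝓜'')
    refine ⟨h.projZero h₀ x, ?_⟩
    rw [hf₀proj, hx]
    exact h''.projZero_coe h₀'' y''
  have hf₀T : ∀ i y, f₀ (h.Tres h₀ i y) = h''.Tres h₀'' i (f₀ y) :=
    fun i y => Subtype.ext (hf i y)
  have h₂'' : IsFamIdem (h''.Tres h₀'') (h''.Tres_commute h₀'') c ε :=
    h₂.of_surjective _ _ _ _ _ f₀ hf₀O hf₀surj hf₀T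
  have hint₂ := famHom_intertwine (O := O) (h.Tres h₀) (h.Tres_commute h₀) (h''.Tres h₀'')
    (h''.Tres_commute h₀'') f₀ hf₀O hf₀T ε
  have hint : ∀ x, f (h.totalIdem h₀ ε x) = h''.totalIdem h₀'' ε (f x) := by
    intro x
    rw [h.totalIdem_apply, h''.totalIdem_apply, ← hf₀proj, ← hint₂]
    rfl
  exact idemRange_control_of_eq f hsurj J hker (h.totalIdem h₀ ε) (h''.totalIdem h₀'' ε)
    (h.totalIdem_idem h₀ h₂) hint _ _ (h.range_totalIdem h₀ h₂) (h''.range_totalIdem h₀'' h₂'')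

end TwoControl

end Fermat.Agent.RB.TWM
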