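/-
RB = S43 via Ihara avoidance, package [TWMOD] (helper2), part C: **the primary part `H` of
`𝓜 = H¹(Γ₀(N), 𝒪[Δ])`**: the two-stage construction applied to the operators `opM ℓ`, with
`Par = parM` (helper3's [BDY] supplies the boundary hypothesis for a prime `ℓ₀ ≡ 1 mod N`), and its
freeness over `𝒪[Δ]` (helper3's `free_idemRange_cocH1`).
-/
import Mathlib
import Fermat.Agent.RB.TWMOD_helper2_Comm
import Fermat.Agent.RB.TWMOD_helper2_Two
import Fermat.Agent.RB.TWMOD_helper3_Bdy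
import Fermat.Agent.RB.T2_helper3_Main
import Fermat.Agent.GR.BETTI_lead_Par

set_option autoImplicit false
set_option linter.unusedSectionVars false
set_option linter.style.haveILetI false

namespace Fermat.Agent.RB.TWM

open CongruenceSubgroup Matrix ModularCurve.Period IsLocalRing
open scoped MatrixGroups
open Fermat.Agent.GR Fermat.Agent.W1 Fermat.Agent.W1.ES

section Base

variable (N M : ℕ) [NeZero N] (hM : M ∣ N) {Δ : Type} [CommGroup Δ] [Fintype Δ]
  (π : (ZMod M)ˣ →* Δ) (hπ : Function.Surjective π)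
variable (O : Type) [CommRing O] [IsDomain O] [CharZero O] [IsLocalRing O] [IsNoetherianRing O]
  [IsAdicComplete (maximalIdeal O) O]
variable {I : Type*} (ι : I → Nat.Primes)

instance finite_MM : Module.Finite O (MM N M hM π O) := finite_cocH1_grpRing (chiOf N M hM π)

/-- **the two-stage hypotheses hold for `𝓜`.** -/
theorem twoStage_MM (hN : N ≠ 1) (hπ1 : π (-1) = 1) (c : I → O) (i₀ : I)
    (hℓ₀N : ¬ ((ι i₀ : Nat.Primes) : ℕ) ∣ N) (hℓ₀1 : ((ι i₀ : Nat.Primes) : ℕ) ≡ 1 [MOD N])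
    (hunit : IsUnit (c i₀ - ((((ι i₀ : Nat.Primes) : ℕ) : O) + 1))) :
    TwoStage (fun i => opM N M hM π O (ι i)) (parM N M hM π O hπ) c i₀
      ((((ι i₀ : Nat.Primes) : ℕ) : O) + 1) where
  map_par i x hx := opM_mem_parM N M hM π O hπ (ι i) hx
  comm_par i j x hx := opM_comm_of_mem_parM N M hM π O hπ hN hπ1 (ι i) (ι j) hx
  bdy x := by
    rw [mem_parM, map_sub, bridge_opM, map_smul]
    have h := heckeOnP_sub_mem_parabolicHoms (GammaH N M hM π) (Gamma1_le_GammaH N M hM π)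
      (GammaH_le_Gamma0 N M hM π) (ι i₀) hℓ₀N hℓ₀1 O (bridge N M hM π O hπ x)
    have e : (((((ι i₀ : Nat.Primes) : ℕ) : O) + 1) • bridge N M hM π O hπ x) =
        (((ι i₀ : Nat.Primes) : ℕ) + 1) • bridge N M hM π O hπ x := by
      rw [← Nat.cast_smul_eq_nsmul O (((ι i₀ : Nat.Primes) : ℕ) + 1)]
      push_cast
      rfl
    rw [e]
    exact h
  unit := hunit

/-- **`H₀` is free over `𝒪[Δ]`** (helper3's `free_idemRange_cocH1`). -/
theorem free_HZero_MM {p : ℕ} (hp : p.Prime) (hp5 : 5 ≤ p) (hpO : (p : O) ∈ maximalIdeal O)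
    (hΔ : IsPGroup p Δ) (c : I → O) (i₀ : I)
    (hℓ₀N : ¬ ((ι i₀ : Nat.Primes) : ℕ) ∣ N)
    (hunit : IsUnit (c i₀ - ((((ι i₀ : Nat.Primes) : ℕ) : O) + 1))) :
    Module.Free (MonoidAlgebra O Δ) ↥(HZero (fun i => opM N M hM π O (ι i)) c i₀) := by
  set ℓ₀ : Nat.Primes := ι i₀ with hℓ₀
  obtain ⟨ε₀, h₀⟩ := exists_isFamIdem (O := O) (stageOne (fun i => opM N M hM π O (ι i)) i₀)
    (stageOne_commute (fun i => opM N M hM π O (ι i)) i₀) (fun _ => c i₀)
  set α := famHom (O := O) (stageOne (fun i => opM N M hM π O (ι i)) i₀)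
    (stageOne_commute (fun i => opM N M hM π O (ι i)) i₀) with hα
  set t : MvPolynomial Unit O := MvPolynomial.X () - MvPolynomial.C (((ℓ₀ : ℕ) : O) + 1) with ht
  have htm : t ∉ famIdeal (fun _ : Unit => c i₀) := by
    apply notMem_famIdeal_of_isUnit
    rw [ht, map_sub, MvPolynomial.eval_X, MvPolynomial.eval_C]
    exact hunit
  have hfree := free_idemRange_cocH1 (O := O) (chiOf N M hM π) hp hp5 hpO hΔ
    (Gamma0 N).subtype Subtype.val_injective α (famIdeal (fun _ : Unit => c i₀))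
    (datum0 N (intRepsT N ℓ₀.2 hℓ₀N)) (chiOf_cocycle (intRepsT N ℓ₀.2 hℓ₀N) M hM π) t htm (by
      rw [ht, map_sub, hα, famHom_X, ← MvPolynomial.algebraMap_eq, AlgHom.commutes]
      apply LinearMap.ext
      intro x
      rw [cocEta_apply, LinearMap.sub_apply, Module.algebraMap_end_apply]
      show opM N M hM π O ℓ₀ x - _ = cocOp N M hM π O (intRepsT N ℓ₀.2 hℓ₀N) x - _
      rw [opM_of_not_dvd N M hM π O hℓ₀N, Fintype.card_option, Fintype.card_fin]
      congr 1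
      rw [← algebraMap_smul (MonoidAlgebra O Δ) (((ℓ₀ : ℕ) : O) + 1) x]
      congr 1
      push_cast
      rfl) ε₀ h₀.idem h₀.inv
  have e : idemRange (α ε₀) = HZero (fun i => opM N M hM π O (ι i)) c i₀ := h₀.range_eq
  rw [e] at hfree
  exact hfree

include hπ in
/-- **the primary part `H` of `𝓜` is free over `𝒪[Δ]`.** -/
theorem free_primary_MM {p : ℕ} (hp : p.Prime) (hp5 : 5 ≤ p) (hpO : (p : O) ∈ maximalIdeal O)
    (hΔ : IsPGroup p Δ) (hN : N ≠ 1) (hπ1 : π (-1) = 1) (c : I → O) (i₀ : I)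
    (hℓ₀N : ¬ ((ι i₀ : Nat.Primes) : ℕ) ∣ N) (hℓ₀1 : ((ι i₀ : Nat.Primes) : ℕ) ≡ 1 [MOD N])
    (hunit : IsUnit (c i₀ - ((((ι i₀ : Nat.Primes) : ℕ) : O) + 1))) :
    Module.Free (MonoidAlgebra O Δ) ↥(primaryPartR (fun i => opM N M hM π O (ι i)) c) := by
  haveI : IsLocalRing (MonoidAlgebra O Δ) := isLocalRing_monoidAlgebra hp hpO hΔ
  exact (twoStage_MM N M hM π hπ O ι hN hπ1 c i₀ hℓ₀N hℓ₀1 hunit).free_primaryPartR
    (free_HZero_MM N M hM π O ι hp hp5 hpO hΔ c i₀ hℓ₀N hunit)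

end Base

section Control

variable (N M : ℕ) [NeZero N] (hM : M ∣ N) {Δ : Type} [CommGroup Δ] [Fintype Δ]
  (π : (ZMod M)ˣ →* Δ) (hπ : Function.Surjective π)
variable {Δ'' : Type} [CommGroup Δ''] [Fintype Δ''] (π'' : Δ →* Δ'')
  (hπ'' : Function.Surjective π'')
variable (O : Type) [CommRing O] [IsDomain O] [CharZero O] [IsLocalRing O] [IsNoetherianRing O]
  [IsAdicComplete (maximalIdeal O) O]
variable {I : Type*} (ι : I → Nat.Primes)

/-- the control map `𝓜 → 𝓜''` for a quotient `π'' : Δ → Δ''`. -/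
noncomputable def ctlMM : MM N M hM π O →ₛₗ[MonoidAlgebra.mapDomainRingHom O π'']
    MM N M hM (π''.comp π) O :=
  ctlMap O (chiOf N M hM π) π''

theorem ctlMM_smul (a : O) (x : MM N M hM π O) :
    ctlMM N M hM π π'' O (a • x) = a • ctlMM N M hM π π'' O x := by
  rw [← algebraMap_smul (MonoidAlgebra O Δ) a x, map_smulₛₗ,
    ← algebraMap_smul (MonoidAlgebra O Δ'') a]
  congr 1
  rw [MonoidAlgebra.coe_algebraMap, MonoidAlgebra.coe_algebraMap]
  simp [MonoidAlgebra.mapDomainRingHom_apply, MonoidAlgebra.mapDomain_single]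

theorem ctlMM_cocOp {p : ℕ} {ι : Type*} [Fintype ι] (S : IntReps N p ι) (x : MM N M hM π O) :
    ctlMM N M hM π π'' O (cocOp N M hM π O S x) =
      cocOp N M hM (π''.comp π) O S (ctlMM N M hM π π'' O x) :=
  ctlMap_hecke (chiOf N M hM π) π'' (datum0 N S) (chiOf_cocycle S M hM π) x

theorem ctlMM_opM (ℓ : Nat.Primes) (x : MM N M hM π O) :
    ctlMM N M hM π π'' O (opM N M hM π O ℓ x) =
      opM N M hM (π''.comp π) O ℓ (ctlMM N M hM π π'' O x) := by
  by_cases h : (ℓ : ℕ) ∣ N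
  · rw [opM_of_dvd N M hM π O h, opM_of_dvd N M hM (π''.comp π) O h]
    exact ctlMM_cocOp N M hM π π'' O _ x
  · rw [opM_of_not_dvd N M hM π O h, opM_of_not_dvd N M hM (π''.comp π) O h]
    exact ctlMM_cocOp N M hM π π'' O _ x

include hπ hπ'' in
/-- **control for the primary part of `𝓜`.** -/
theorem control_primary_MM {p : ℕ} (hp : p.Prime) (hp5 : 5 ≤ p) (hpO : (p : O) ∈ maximalIdeal O)
    (hN : N ≠ 1) (hπ1 : π (-1) = 1) (c : I → O) (i₀ : I)
    (hℓ₀N : ¬ ((ι i₀ : Nat.Primes) : ℕ) ∣ N) (hℓ₀1 : ((ι i₀ : Nat.Primes) : ℕ) ≡ 1 [MOD N])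
    (hunit : IsUnit (c i₀ - ((((ι i₀ : Nat.Primes) : ℕ) : O) + 1))) :
    ∃ fe : ↥(primaryPartR (fun i => opM N M hM π O (ι i)) c) →ₛₗ[
          MonoidAlgebra.mapDomainRingHom O π'']
        ↥(primaryPartR (fun i => opM N M hM (π''.comp π) O (ι i)) c),
      (∀ x, ((fe x : ↥(primaryPartR (fun i => opM N M hM (π''.comp π) O (ι i)) c)) :
        MM N M hM (π''.comp π) O) = ctlMM N M hM π π'' O x) ∧ Function.Surjective fe ∧
      ∀ x, fe x = 0 ↔ x ∈ Ideal.span {a : MonoidAlgebra O Δ |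
          ∃ δ ∈ π''.ker, a = MonoidAlgebra.of O Δ δ - 1} •
        (⊤ : Submodule (MonoidAlgebra O Δ)
          ↥(primaryPartR (fun i => opM N M hM π O (ι i)) c)) := by
  have hπ1'' : (π''.comp π) (-1) = 1 := by rw [MonoidHom.comp_apply, hπ1, map_one]
  have h := twoStage_MM N M hM π hπ O ι hN hπ1 c i₀ hℓ₀N hℓ₀1 hunit
  have h'' := twoStage_MM N M hM (π''.comp π) (hπ''.comp hπ) O ι hN hπ1'' c i₀ hℓ₀N hℓ₀1 hunit
  exact h.control h'' (ctlMM N M hM π π'' O) (ctlMM_smul N M hM π π'' O)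
    (ctlMap_surjective (chiOf N M hM π) π'' hp hp5 hpO (Gamma0 N).subtype
      Subtype.val_injective hπ'') _
    (ctlMap_eq_zero_iff (chiOf N M hM π) π'' hp hp5 hpO (Gamma0 N).subtype
      Subtype.val_injective hπ'') (fun i => ctlMM_opM N M hM π π'' O (ι i))

end Control

end Fermat.Agent.RB.TWM
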