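/-
RB = S43 via Ihara avoidance, package [TWMOD] (helper2): **the norm element** `e_ψ = ∑ ψ(δ₁)⁻¹ [δ₁,1]`
and the embedding `sideNorm : H ⧸ I_ψ H → H`, `h ↦ e_ψ h` of the side of `ψ` into `H`
(injective when `H` is free and `|Δ₁| ≠ 0` in the domain `O`), equivariant for `R`-linear operators.
-/
import Mathlib
import Fermat.Agent.RB.TWMOD_helper2_Sides

set_option autoImplicit false
set_option linter.unusedSectionVars false
set_option linter.style.haveILetI false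

namespace Fermat.Agent.RB.TWM

/-! ### The norm element: the side as a submodule of `H` -/

section Norm

variable {O : Type*} [CommRing O] {Δ₁ : Type*} (Δ₂ : Type*) [CommGroup Δ₁] [CommGroup Δ₂]
  [Fintype Δ₁] (ψ : Δ₁ →* Oˣ)

/-- the element `e_ψ = ∑ ψ(δ₁)⁻¹ [δ₁, 1]`: it is killed by `I_ψ`, and multiplication by it embeds
the side of `ψ` into `H`. -/
noncomputable def normElt : MonoidAlgebra O (Δ₁ × Δ₂) :=
  ∑ δ₁ : Δ₁, algebraMap O (MonoidAlgebra O (Δ₁ × Δ₂)) (((ψ δ₁)⁻¹ : Oˣ) : O) *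
    MonoidAlgebra.of O (Δ₁ × Δ₂) (δ₁, 1)

variable {Δ₂}

theorem normElt_mul_of (δ : Δ₁) :
    normElt Δ₂ ψ * MonoidAlgebra.of O (Δ₁ × Δ₂) (δ, 1) =
      algebraMap O (MonoidAlgebra O (Δ₁ × Δ₂)) (ψ δ : O) * normElt Δ₂ ψ := by
  unfold normElt
  rw [Finset.sum_mul, Finset.mul_sum]
  refine Fintype.sum_equiv (Equiv.mulRight δ) _ _ fun δ₁ => ?_
  rw [Equiv.coe_mulRight, mul_assoc, ← map_mul, Prod.mk_mul_mk, mul_one, ← mul_assoc, ← map_mul]
  congr 2
  rw [map_mul, mul_inv, Units.val_mul, mul_comm ((ψ δ₁)⁻¹ : Oˣ).val, ← mul_assoc,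
    ← Units.val_mul, mul_inv_cancel, Units.val_one, one_mul]

theorem normElt_mul_eq_zero {a : MonoidAlgebra O (Δ₁ × Δ₂)}
    (ha : a ∈ RingHom.ker (specHom O Δ₂ ψ)) : normElt Δ₂ ψ * a = 0 := by
  rw [ker_specHom] at ha
  unfold sideIdeal at ha
  refine Submodule.span_induction (p := fun a _ => normElt Δ₂ ψ * a = 0) ?_ ?_ ?_ ?_ ha
  · rintro _ ⟨δ, rfl⟩
    rw [mul_sub, normElt_mul_of, mul_comm (normElt Δ₂ ψ), sub_self]
  · rw [mul_zero]
  · intro x y _ _ hx hy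
    rw [mul_add, hx, hy, add_zero]
  · intro c x _ hx
    rw [smul_eq_mul, mul_left_comm, hx, mul_zero]

theorem specHom_normElt :
    specHom O Δ₂ ψ (normElt Δ₂ ψ) = ((Fintype.card Δ₁ : ℕ) : MonoidAlgebra O Δ₂) := by
  unfold normElt
  rw [map_sum]
  have : ∀ δ₁ : Δ₁, specHom O Δ₂ ψ (algebraMap O (MonoidAlgebra O (Δ₁ × Δ₂))
      (((ψ δ₁)⁻¹ : Oˣ) : O) * MonoidAlgebra.of O (Δ₁ × Δ₂) (δ₁, 1)) = 1 := by
    intro δ₁
    rw [map_mul, AlgHom.commutes, specHom_of, ← mul_assoc, ← map_mul, ← Units.val_mul,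
      inv_mul_cancel, Units.val_one, map_one, one_mul, map_one]
  rw [Finset.sum_congr rfl fun δ₁ _ => this δ₁, Finset.sum_const, Finset.card_univ,
    nsmul_eq_mul, mul_one]

variable {H : Type*} [AddCommGroup H] [Module (MonoidAlgebra O (Δ₁ × Δ₂)) H] [Module O H]
  [IsScalarTower O (MonoidAlgebra O (Δ₁ × Δ₂)) H]

/-- **multiplication by the norm element**, as a map from the side to `H`. -/
noncomputable def sideNorm : SideP Δ₂ ψ H →ₗ[O] H :=
  (Submodule.liftQ (RingHom.ker (specHom O Δ₂ ψ) •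
      (⊤ : Submodule (MonoidAlgebra O (Δ₁ × Δ₂)) H)) (smulEnd (H := H) (normElt Δ₂ ψ)) (by
    rw [Submodule.smul_le]
    intro a ha x _
    rw [LinearMap.mem_ker, smulEnd_apply, ← mul_smul, normElt_mul_eq_zero ψ ha,
      zero_smul])).restrictScalars O

@[simp] theorem sideNorm_mk (x : H) :
    sideNorm (Δ₂ := Δ₂) ψ (sidePMk ψ x) = normElt Δ₂ ψ • x := rfl

theorem sidePMk_sideNorm (y : SideP Δ₂ ψ H) :
    sidePMk ψ (sideNorm ψ y) = ((Fintype.card Δ₁ : ℕ) : O) • y := by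
  obtain ⟨x, rfl⟩ := sideMk_surjective _ _ y
  rw [sideNorm_mk]
  have h := (sideSL (specHom O Δ₂ ψ) (secHom O Δ₁ Δ₂) (specHom_secHom ψ)).map_smulₛₗ
    (normElt Δ₂ ψ) x
  rw [sideSL_apply, sideSL_apply] at h
  rw [h]
  show specHom O Δ₂ ψ (normElt Δ₂ ψ) • _ = _
  rw [specHom_normElt, Nat.cast_smul_eq_nsmul, Nat.cast_smul_eq_nsmul]

theorem sideNorm_sideEnd (f : Module.End (MonoidAlgebra O (Δ₁ × Δ₂)) H) (y : SideP Δ₂ ψ H) :
    sideNorm ψ (sidePEnd ψ f y) = f (sideNorm ψ y) := by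
  obtain ⟨x, rfl⟩ := sideMk_surjective _ _ y
  rw [sideEnd_mk, sideNorm_mk, sideNorm_mk, map_smul]

theorem sideNorm_sideAct (δ : Δ₁ × Δ₂) (y : SideP Δ₂ ψ H) :
    sideNorm ψ (sideAct ψ δ y) = MonoidAlgebra.of O (Δ₁ × Δ₂) δ • sideNorm ψ y := by
  rw [sideAct_eq, sideNorm_sideEnd, smulEnd_apply]

/-- the side is `O`-torsion free as soon as `H` has a basis. -/
theorem side_smul_eq_zero [IsDomain O] {ι : Type*} [Fintype ι]
    (b : Module.Basis ι (MonoidAlgebra O (Δ₁ × Δ₂)) H) {c : O} (hc : c ≠ 0) {y : SideP Δ₂ ψ H}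
    (h : c • y = 0) : y = 0 := by
  obtain ⟨b', -⟩ := exists_sideBasis (specHom O Δ₂ ψ) (secHom O Δ₁ Δ₂) (specHom_secHom ψ) b
  apply b'.repr.injective
  rw [map_zero]
  ext k δ
  have h1 := congrArg (fun z => ((b'.repr z) k).coeff δ) h
  simp only [map_zero, Finsupp.coe_zero, Pi.zero_apply] at h1
  rw [← algebraMap_smul (MonoidAlgebra O Δ₂) c y, map_smul, Finsupp.smul_apply, smul_eq_mul,
    ← Algebra.smul_def, MonoidAlgebra.coeff_smul, Finsupp.smul_apply, smul_eq_mul] at h1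
  rcases mul_eq_zero.mp h1 with h3 | h3
  · exact absurd h3 hc
  · simpa using h3

/-- **the norm map is injective** (`H` free over `R`, `O` a domain in which `|Δ₁| ≠ 0`). -/
theorem sideNorm_injective [IsDomain O] {ι : Type*} [Fintype ι]
    (b : Module.Basis ι (MonoidAlgebra O (Δ₁ × Δ₂)) H)
    (hcard : ((Fintype.card Δ₁ : ℕ) : O) ≠ 0) :
    Function.Injective (sideNorm (Δ₂ := Δ₂) ψ (H := H)) := by
  rw [injective_iff_map_eq_zero]
  intro y hy
  have h1 := sidePMk_sideNorm ψ y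
  rw [hy, map_zero] at h1
  exact side_smul_eq_zero ψ b hcard h1.symm

end Norm


end Fermat.Agent.RB.TWM
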