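/-
RB = S43 via Ihara avoidance, package [TWMOD] (helper2): **the concrete sides**: `H` the primary
part of `𝓜 = H¹(Γ₀(Nt), 𝒪[Δ₁ × Δ₂])`, the twisted operators `Tt ℓ = [σ ℓ]⁻¹ T_ℓ` on `H`, and the
realisation of the side of a character `ψ` of `Δ₁` inside `Hom_par(Γ_H, 𝒪)` (`SideReal`).
-/
import Mathlib
import Fermat.Agent.RB.TWMOD_helper2_Base
import Fermat.Agent.RB.TWMOD_helper2_Asm
import Fermat.Agent.RB.TWMOD_helper2_Norm
import Fermat.Agent.RB.TWMOD_helper2_Real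

set_option autoImplicit false
set_option linter.unusedSectionVars false
set_option linter.style.haveILetI false

namespace Fermat.Agent.RB.TWM

open CongruenceSubgroup Matrix ModularCurve.Period IsLocalRing
open scoped MatrixGroups
open Fermat.Agent.GR Fermat.Agent.W1 Fermat.Agent.W1.ES

section Mod

variable (Nt M : ℕ) [NeZero Nt] (hM : M ∣ Nt) {Δ₁ Δ₂ : Type} [CommGroup Δ₁] [CommGroup Δ₂]
  [Fintype Δ₁] [Fintype Δ₂]
  (π σ : (ZMod M)ˣ →* Δ₁ × Δ₂) (hπ : Function.Surjective π)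
variable (O : Type) [CommRing O] [IsDomain O] [CharZero O] [IsLocalRing O] [IsNoetherianRing O]
  [IsAdicComplete (maximalIdeal O) O]
variable {I : Type} (ι : I → Nat.Primes) (c : I → O)

/-- **`H`**: the primary part of `𝓜`. -/
abbrev HH : Type := ↥(primaryPartR (fun i => opM Nt M hM π O (ι i)) c)

variable {i₀ : I} {n₀ : O}
  (hTS : TwoStage (fun i => opM Nt M hM π O (ι i)) (parM Nt M hM π O hπ) c i₀ n₀)

/-- the Hecke operator at `ι i` on `H`. -/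
noncomputable def Top (i : I) : Module.End (MonoidAlgebra O (Δ₁ × Δ₂)) (HH Nt M hM π O ι c) :=
  (opM Nt M hM π O (ι i)).restrict fun _ hx => hTS.apply_mem_primaryPartR i hx

@[simp] theorem coe_Top (i : I) (x : HH Nt M hM π O ι c) :
    ((Top Nt M hM π hπ O ι c hTS i x : HH Nt M hM π O ι c) : MM Nt M hM π O) =
      opM Nt M hM π O (ι i) (x : MM Nt M hM π O) := rfl

theorem Top_commute (i j : I) :
    Commute (Top Nt M hM π hπ O ι c hTS i) (Top Nt M hM π hπ O ι c hTS j) := by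
  apply LinearMap.ext
  intro x
  apply Subtype.ext
  exact hTS.comm_par i j _ (hTS.primaryPartR_le x.2)

/-- `σ ℓ ∈ Δ` for a prime `ℓ` (`1` if `ℓ ∣ M`). -/
noncomputable def sigAt (ℓ : ℕ) : Δ₁ × Δ₂ :=
  if h : Nat.Coprime ℓ M then σ (ZMod.unitOfCoprime ℓ h) else 1

theorem sigAt_of_coprime {ℓ : ℕ} (h : Nat.Coprime ℓ M) :
    sigAt M σ ℓ = σ (ZMod.unitOfCoprime ℓ h) := dif_pos h

variable (Sbig : Finset ℕ) (idx : ∀ ℓ : Nat.Primes, (ℓ : ℕ) ∉ Sbig → I)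
  (hidx : ∀ (ℓ : Nat.Primes) (h : (ℓ : ℕ) ∉ Sbig), ι (idx ℓ h) = ℓ)

/-- **the twisted Hecke operators** `[σ ℓ]⁻¹ T_ℓ` on `H` (zero at the primes of `Sbig`). -/
noncomputable def TtH (ℓ : Nat.Primes) :
    Module.End (MonoidAlgebra O (Δ₁ × Δ₂)) (HH Nt M hM π O ι c) :=
  if h : (ℓ : ℕ) ∉ Sbig then
    smulEnd (MonoidAlgebra.of O (Δ₁ × Δ₂) (sigAt M σ ℓ)⁻¹) * Top Nt M hM π hπ O ι c hTS (idx ℓ h)
  else 0

theorem TtH_of_notMem {ℓ : Nat.Primes} (h : (ℓ : ℕ) ∉ Sbig) :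
    TtH Nt M hM π σ hπ O ι c hTS Sbig idx ℓ =
      smulEnd (MonoidAlgebra.of O (Δ₁ × Δ₂) (sigAt M σ ℓ)⁻¹) *
        Top Nt M hM π hπ O ι c hTS (idx ℓ h) := dif_pos h

theorem TtH_of_mem {ℓ : Nat.Primes} (h : (ℓ : ℕ) ∈ Sbig) :
    TtH Nt M hM π σ hπ O ι c hTS Sbig idx ℓ = 0 := dif_neg (not_not.mpr h)

theorem TtH_commute (ℓ ℓ' : Nat.Primes) :
    Commute (TtH Nt M hM π σ hπ O ι c hTS Sbig idx ℓ)
      (TtH Nt M hM π σ hπ O ι c hTS Sbig idx ℓ') := by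
  by_cases h : (ℓ : ℕ) ∈ Sbig
  · rw [TtH_of_mem _ _ _ _ _ _ _ _ _ _ _ _ h]
    exact Commute.zero_left _
  by_cases h' : (ℓ' : ℕ) ∈ Sbig
  · rw [TtH_of_mem _ _ _ _ _ _ _ _ _ _ _ _ h']
    exact Commute.zero_right _
  rw [TtH_of_notMem _ _ _ _ _ _ _ _ _ _ _ _ h, TtH_of_notMem _ _ _ _ _ _ _ _ _ _ _ _ h']
  exact Commute.mul_left
    (Commute.mul_right (smulEnd_commute _ _) (smulEnd_commute _ _))
    (Commute.mul_right (smulEnd_commute _ _).symm (Top_commute Nt M hM π hπ O ι c hTS _ _))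

/-! ### The realisation -/

variable {p r d n : ℕ} (ψ : Δ₁ →* Oˣ) (δ : Fin r → Δ₂)
  (hδ : Function.Bijective fun e : Fin r → Fin (p ^ n) => ∏ q, δ q ^ ((e q : Fin (p ^ n)) : ℕ))
  (hδpow : ∀ q, δ q ^ (p ^ n) = 1)
  (b : Module.Basis (Fin d) (MonoidAlgebra O (Δ₁ × Δ₂)) (HH Nt M hM π O ι c))

/-- the side of `ψ`. -/
noncomputable abbrev sideX : TWModSide O p r d n :=
  mkSide ψ (TtH Nt M hM π σ hπ O ι c hTS Sbig idx) (TtH_commute Nt M hM π σ hπ O ι c hTS Sbig idx)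
    δ hδ hδpow b

/-- the inclusion `H → 𝓜 → Hom(Γ_H, 𝒪)`. -/
noncomputable def bridgeH :
    HH Nt M hM π O ι c →ₗ[O] (Additive ↥(GammaH Nt M hM π) →+ O) :=
  (bridge Nt M hM π O hπ).toLinearMap ∘ₗ
    ((primaryPartR (fun i => opM Nt M hM π O (ι i)) c).subtype.restrictScalars O)

@[simp] theorem bridgeH_apply (x : HH Nt M hM π O ι c) :
    bridgeH Nt M hM π hπ O ι c x = bridge Nt M hM π O hπ (x : MM Nt M hM π O) := rfl

theorem bridgeH_injective : Function.Injective (bridgeH Nt M hM π hπ O ι c) :=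
  (bridge Nt M hM π O hπ).injective.comp Subtype.val_injective

include hTS in
theorem bridgeH_mem_par (x : HH Nt M hM π O ι c) :
    bridgeH Nt M hM π hπ O ι c x ∈ parabolicHoms O (GammaH Nt M hM π) O :=
  hTS.primaryPartR_le x.2

theorem sideAct_mem_alg (y : Δ₁ × Δ₂) :
    sideAct ψ (H := HH Nt M hM π O ι c) y ∈
      (sideX Nt M hM π σ hπ O ι c hTS Sbig idx ψ δ hδ hδpow b).alg := by
  obtain ⟨y₁, y₂⟩ := y
  have h1 : ((y₁, y₂) : Δ₁ × Δ₂) = (y₁, 1) * (1, y₂) := by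
    rw [Prod.mk_mul_mk, mul_one, one_mul]
  rw [h1, map_mul]
  refine (sideX Nt M hM π σ hπ O ι c hTS Sbig idx ψ δ hδ hδpow b).alg.mul_mem ?_ ?_
  · rw [sideAct_left]
    exact (sideX Nt M hM π σ hπ O ι c hTS Sbig idx ψ δ hδ hδpow b).alg.smul_mem
      ((sideX Nt M hM π σ hπ O ι c hTS Sbig idx ψ δ hδ hδpow b).alg.one_mem) _
  · obtain ⟨e, rfl⟩ := hδ.2 y₂
    let Sm : Submonoid Δ₂ :=
      (sideX Nt M hM π σ hπ O ι c hTS Sbig idx ψ δ hδ hδpow b).alg.toSubmonoid.comap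
        ((sideAct ψ (H := HH Nt M hM π O ι c)).comp (MonoidHom.inr Δ₁ Δ₂))
    have hmem : ∀ q, δ q ∈ Sm := fun q =>
      (sideX Nt M hM π σ hπ O ι c hTS Sbig idx ψ δ hδ hδpow b).g_mem_alg q
    have h3 : (∏ q, δ q ^ ((e q : Fin (p ^ n)) : ℕ)) ∈ Sm :=
      Submonoid.prod_mem _ fun q _ => Submonoid.pow_mem _ (hmem q) _
    exact h3

variable (z : O) (Sig : Finset ℕ) (uQ : Fin r → (ZMod Nt)ˣ) (uS : ℕ → (ZMod Nt)ˣ) (δS : ℕ → Δ₁)
  (hG1 : ∀ q, σ (ZMod.unitsMap hM (uQ q)) = ((1 : Δ₁), δ q))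
  (hG2 : ∀ v ∈ Sig, σ (ZMod.unitsMap hM (uS v)) = (δS v, (1 : Δ₂)))
  (hG3 : ∀ v ∈ Sig, ∀ u : (ZMod Nt)ˣ, (((u : ZMod Nt).val : ℕ) : ZMod (Nt / v)) = 1 →
    ∃ j : ℕ, σ (ZMod.unitsMap hM u) = (δS v ^ j, (1 : Δ₂)))
  (hψz : ∀ v ∈ Sig, (ψ (δS v) : O) = z)

/-- **the realisation of the side of `ψ` inside `Hom_par(Γ_H, 𝒪)`.** -/
noncomputable def sideRealOf :
    SideReal (sideX Nt M hM π σ hπ O ι c hTS Sbig idx ψ δ hδ hδpow b) Nt M hM π σ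
      (GammaH_normal Nt M hM π) Sbig z Sig uQ uS where
  ι := (bridgeH Nt M hM π hπ O ι c) ∘ₗ (sideNorm (Δ₂ := Δ₂) ψ (H := HH Nt M hM π O ι c))
  ι_injective := by
    have hcard : ((Fintype.card Δ₁ : ℕ) : O) ≠ 0 := by
      rw [Nat.cast_ne_zero]
      exact Fintype.card_ne_zero
    exact (bridgeH_injective Nt M hM π hπ O ι c).comp (sideNorm_injective ψ b hcard)
  ι_par h := bridgeH_mem_par Nt M hM π hπ O ι c hTS _
  act := sideAct ψ (H := HH Nt M hM π O ι c)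
  act_mem := sideAct_mem_alg Nt M hM π σ hπ O ι c hTS Sbig idx ψ δ hδ hδpow b
  ι_dia g hg h := by
    show diamondOnBy (GammaH Nt M hM π) (GammaH_normal Nt M hM π) O g hg
        (bridge Nt M hM π O hπ ((sideNorm (Δ₂ := Δ₂) ψ h : HH Nt M hM π O ι c) :
          MM Nt M hM π O)) =
      bridge Nt M hM π O hπ ((sideNorm (Δ₂ := Δ₂) ψ (sideAct ψ (chiOf Nt M hM π ⟨g, hg⟩) h) :
        HH Nt M hM π O ι c) : MM Nt M hM π O)
    rw [sideNorm_sideAct]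
    exact (bridge_of_smul Nt M hM π O hπ ⟨g, hg⟩ _).symm
  ι_Tt ℓ hℓ hℓM h := by
    show bridge Nt M hM π O hπ ((sideNorm (Δ₂ := Δ₂) ψ
        (sidePEnd ψ (TtH Nt M hM π σ hπ O ι c hTS Sbig idx ℓ) h) : HH Nt M hM π O ι c) :
          MM Nt M hM π O) =
      heckeOnP Nt (GammaH Nt M hM π) (Gamma1_le_GammaH Nt M hM π) (GammaH_le_Gamma0 Nt M hM π) ℓ O
        (bridge Nt M hM π O hπ ((sideNorm (Δ₂ := Δ₂) ψ
          (sideAct ψ (σ (ZMod.unitOfCoprime (ℓ : ℕ) hℓM))⁻¹ h) : HH Nt M hM π O ι c) :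
            MM Nt M hM π O))
    rw [sideNorm_sideEnd, sideNorm_sideAct, TtH_of_notMem _ _ _ _ _ _ _ _ _ _ _ _ hℓ,
      ← bridge_opM, Module.End.mul_apply, smulEnd_apply, sigAt_of_coprime M σ hℓM]
    congr 1
    show MonoidAlgebra.of O (Δ₁ × Δ₂) (σ (ZMod.unitOfCoprime (ℓ : ℕ) hℓM))⁻¹ •
        opM Nt M hM π O (ι (idx ℓ hℓ)) ((sideNorm (Δ₂ := Δ₂) ψ h : HH Nt M hM π O ι c) :
          MM Nt M hM π O) =
      opM Nt M hM π O ℓ (MonoidAlgebra.of O (Δ₁ × Δ₂) (σ (ZMod.unitOfCoprime (ℓ : ℕ) hℓM))⁻¹ •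
        ((sideNorm (Δ₂ := Δ₂) ψ h : HH Nt M hM π O ι c) : MM Nt M hM π O))
    rw [hidx ℓ hℓ, map_smul]
  act_uQ q := by
    show sideAct ψ (σ (ZMod.unitsMap hM (uQ q))) = sideAct ψ ((1 : Δ₁), δ q)
    rw [hG1 q]
  act_uS v hv := by
    show sideAct ψ (H := HH Nt M hM π O ι c) (σ (ZMod.unitsMap hM (uS v))) =
      z • (1 : Module.End O (SideP Δ₂ ψ (HH Nt M hM π O ι c)))
    rw [hG2 v hv, sideAct_left, hψz v hv]
  act_Sig v hv u hu := by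
    obtain ⟨j, hj⟩ := hG3 v hv u hu
    refine ⟨j, ?_⟩
    show sideAct ψ (H := HH Nt M hM π O ι c) (σ (ZMod.unitsMap hM u)) =
      z ^ j • (1 : Module.End O (SideP Δ₂ ψ (HH Nt M hM π O ι c)))
    rw [hj, sideAct_left, map_pow, Units.val_pow_eq_pow_val, hψz v hv]

end Mod

end Fermat.Agent.RB.TWM
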