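/-
RB — helper3 for [TWMOD] (helper2), package [BDY], part 1: **independence of the representatives**.

* `heckeGrp_eq_of_reps` : two Hecke data of the same group whose coset families coincide have the
  same operator;
* `datumOn_heckeGrp_eq` : the operator `datumOn S Γ'` does not depend on the system of
  representatives `S : W1.IntReps N p ι` of `Γ₁(N) \ Δ₁(N, p)`.
-/
import Mathlib
import Fermat.Agent.RB.TWMOD_helper2_W1

set_option autoImplicit false
set_option linter.unusedSectionVars false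

namespace Fermat.Agent.RB.TWM

open CongruenceSubgroup Matrix ModularCurve.Period
open scoped MatrixGroups
open Fermat.Agent.GR Fermat.Agent.W1 Fermat.Agent.W1.ES

section Reps

variable {Γ G ι ι' : Type*} [Group Γ] [Group G] [Fintype ι] [Fintype ι'] {A : Type*}
  [AddCommGroup A]

/-- **independence of the representatives** for Hecke data. -/
theorem heckeGrp_eq_of_reps (D : HeckeDatum Γ G ι) (D' : HeckeDatum Γ G ι') (he : D'.e = D.e)
    (π : ι ≃ ι') (δ : ι → Γ) (hα : ∀ i, D.α i = D.e (δ i) * D'.α (π i))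
    (ψ : Additive Γ →+ A) : D'.heckeGrp A ψ = D.heckeGrp A ψ := by
  have key : ∀ (γ : Γ) (i : ι), D'.cocycle γ (π i) =
      (δ i)⁻¹ * D.cocycle γ i * δ (D.perm γ i) := by
    intro γ i
    apply D'.cocycle_eq (j := π (D.perm γ i))
    have h1 := D.spec γ i
    rw [hα i, hα (D.perm γ i)] at h1
    rw [he, map_mul, map_mul, map_inv]
    calc D'.α (π i) * D.e γ
        = (D.e (δ i))⁻¹ * (D.e (δ i) * D'.α (π i) * D.e γ) := by group
      _ = (D.e (δ i))⁻¹ * (D.e (D.cocycle γ i) *
            (D.e (δ (D.perm γ i)) * D'.α (π (D.perm γ i)))) := by rw [h1]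
      _ = _ := by group
  refine AddMonoidHom.ext fun γ => ?_
  rw [HeckeDatum.heckeGrp_apply', HeckeDatum.heckeGrp_apply', ← Equiv.sum_comp π]
  have h2 : ∀ i, ψ (Additive.ofMul (D'.cocycle (Additive.toMul γ) (π i))) =
      ψ (Additive.ofMul (D.cocycle (Additive.toMul γ) i)) +
        (ψ (Additive.ofMul (δ (D.perm (Additive.toMul γ) i))) - ψ (Additive.ofMul (δ i))) := by
    intro i
    rw [key, ofMul_mul, ofMul_mul, ofMul_inv, map_add, map_add, map_neg]
    abel
  rw [Finset.sum_congr rfl fun i _ => h2 i, Finset.sum_add_distrib, Finset.sum_sub_distrib]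
  have h3 : ∑ i, ψ (Additive.ofMul (δ (D.perm (Additive.toMul γ) i))) =
      ∑ i, ψ (Additive.ofMul (δ i)) :=
    Equiv.sum_comp (D.permEquiv (Additive.toMul γ)) (fun i => ψ (Additive.ofMul (δ i)))
  rw [h3, sub_self, add_zero]

end Reps

section IntReps

variable {N p : ℕ} {ι : Type*} [Fintype ι] (S S' : IntReps N p ι)
variable (Γ' : Subgroup SL(2, ℤ)) (h1 : Gamma1 N ≤ Γ') (h0 : Γ' ≤ Gamma0 N)

/-- **the operator of `Γ₁(N) \ Δ₁(N, p)` does not depend on the representatives.** -/
theorem datumOn_heckeGrp_eq {A : Type*} [AddCommGroup A] (ψ : Additive Γ' →+ A) :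
    (datumOn S' Γ' h1 h0).heckeGrp A ψ = (datumOn S Γ' h1 h0).heckeGrp A ψ := by
  classical
  -- every representative of `S` is in a coset of `S'`
  have hex : ∀ i, ∃ (j : ι) (g : SL(2, ℤ)), g ∈ Gamma1 N ∧ S.rZ i = g.1 * S'.rZ j :=
    fun i => S'.ex _ (S.mem i)
  choose π g hg hπ using hex
  have hinj : Function.Injective π := by
    intro i j hij
    apply S.uniq i j (g i * (g j)⁻¹)
    have h2 : S'.rZ (π j) = ((g j)⁻¹ : SL(2, ℤ)).1 * S.rZ j := by
      rw [hπ j, ← Matrix.mul_assoc, ← Matrix.SpecialLinearGroup.coe_mul, inv_mul_cancel,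
        Matrix.SpecialLinearGroup.coe_one, Matrix.one_mul]
    rw [hπ i, hij, h2, Matrix.SpecialLinearGroup.coe_mul, Matrix.mul_assoc]
  have hbij : Function.Bijective π := (Finite.injective_iff_bijective).mp hinj
  refine heckeGrp_eq_of_reps (datumOn S Γ' h1 h0) (datumOn S' Γ' h1 h0) rfl
    (Equiv.ofBijective π hbij) (fun i => ⟨g i, h1 (hg i)⟩) (fun i => ?_) ψ
  rw [datumOn_α, datumOn_e, datumOn_α, Equiv.ofBijective_apply]
  exact (gl_eq_mul_iff_int (S.val_r i) (val_slEmb Γ' ⟨g i, h1 (hg i)⟩) (S'.val_r (π i))).mpr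
    (hπ i)

end IntReps

end Fermat.Agent.RB.TWM
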