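/-
RB = S43 via Ihara avoidance, package [TWMOD] (helper2), part D: **trivial coefficients**: for a
trivial character `π₁`, `𝓜 = H¹(Γ₀(N), 𝒪[1])` is `Hom(Γ₀(N), 𝒪)` with the operators `GR.heckeGrpP`.
* `heckeOnP_Gamma0_eq` : the operators of `Γ' = Γ₀(N)` are `GR.heckeGrpP`;
* `zeroEquiv`, `zeroEquiv_opM`, `zeroEquiv_mem_parabolicHoms`.
-/
import Mathlib
import Fermat.Agent.RB.TWMOD_helper2_Base
import Fermat.Agent.RB.TWMOD_helper3_BdyReps

set_option autoImplicit false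
set_option linter.unusedSectionVars false
set_option linter.style.haveILetI false

namespace Fermat.Agent.RB.TWM

open CongruenceSubgroup Matrix ModularCurve.Period IsLocalRing ModularForm
open scoped MatrixGroups
open Fermat.Agent.GR Fermat.Agent.W1 Fermat.Agent.W1.ES

section Gamma0

variable (N : ℕ) [NeZero N] {A : Type*} [AddCommGroup A]

/-- **the operators of `Γ' = Γ₀(N)` are those of GR.** -/
theorem heckeOnP_Gamma0_eq (ℓ : Nat.Primes) (ψ : Additive (Gamma0 N) →+ A) :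
    heckeOnP N (Gamma0 N) (Gamma1_in_Gamma0 N) le_rfl ℓ A ψ = GR.heckeGrpP N ℓ A ψ := by
  by_cases h : (ℓ : ℕ) ∣ N
  · rw [heckeOnP_of_dvd _ _ h, GR.heckeGrpP_of_dvd A h]
    exact heckeGrp_eq_of_reps (GR.heckeDatumU N ℓ ℓ.2 h)
      (datumU N (Gamma0 N) (Gamma1_in_Gamma0 N) le_rfl ℓ ℓ.2 h) rfl (Equiv.refl _) (fun _ => 1)
      (fun i => by rw [map_one, one_mul]; rfl) ψ
  · rw [heckeOnP_of_not_dvd _ _ h, GR.heckeGrpP_of_not_dvd A h]
    refine heckeGrp_eq_of_reps (GR.heckeDatumT N ℓ ℓ.2 h)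
      (datumT N (Gamma0 N) (Gamma1_in_Gamma0 N) le_rfl ℓ ℓ.2 h) rfl (Equiv.refl _)
      (fun i => match i with
        | none => (⟨sigmaP N ℓ.2 h, sigmaP_mem N ℓ.2 h⟩ : Gamma0 N)⁻¹
        | some _ => 1) (fun i => ?_) ψ
    cases i with
    | none =>
      show GR.heckeRep ℓ none = GR.gammaEmb N (⟨sigmaP N ℓ.2 h, sigmaP_mem N ℓ.2 h⟩ : Gamma0 N)⁻¹ *
        (Matrix.SpecialLinearGroup.mapGL ℝ (sigmaP N ℓ.2 h) * heckeDiagMatrix ℓ)
      rw [map_inv, ← mul_assoc]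
      show _ = (Matrix.SpecialLinearGroup.mapGL ℝ (sigmaP N ℓ.2 h))⁻¹ *
        Matrix.SpecialLinearGroup.mapGL ℝ (sigmaP N ℓ.2 h) * heckeDiagMatrix ℓ
      rw [inv_mul_cancel, one_mul]
      rfl
    | some b =>
      show GR.heckeRep ℓ (some b) = GR.gammaEmb N 1 * _
      rw [map_one, one_mul]
      rfl

end Gamma0

section Zero

variable (N M : ℕ) [NeZero N] (hM : M ∣ N) {Δ₁ : Type} [CommGroup Δ₁] [Fintype Δ₁]
  (π₁ : (ZMod M)ˣ →* Δ₁) (hπ₁ : Function.Surjective π₁) (htriv : ∀ u, π₁ u = 1)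
variable (O : Type) [CommRing O]

include htriv in
theorem GammaH_eq_Gamma0 : GammaH N M hM π₁ = Gamma0 N := by
  ext γ
  rw [mem_GammaH]
  constructor
  · rintro ⟨h, -⟩
    exact h
  · intro h
    exact ⟨h, by rw [chiOf_apply, htriv]⟩

/-- restriction `Hom(Γ₀(N), 𝒪) → Hom(Γ_H, 𝒪)`. -/
noncomputable def resH : (Additive ↥(Gamma0 N) →+ O) →ₗ[O] (Additive ↥(GammaH N M hM π₁) →+ O) where
  toFun ψ := ψ.comp (MonoidHom.toAdditive (Subgroup.inclusion (GammaH_le_Gamma0 N M hM π₁)))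
  map_add' _ _ := rfl
  map_smul' _ _ := rfl

theorem resH_apply (ψ : Additive ↥(Gamma0 N) →+ O) (γ : GammaH N M hM π₁) :
    resH N M hM π₁ O ψ (Additive.ofMul γ) =
      ψ (Additive.ofMul (Subgroup.inclusion (GammaH_le_Gamma0 N M hM π₁) γ)) := rfl

include htriv in
theorem resH_bijective : Function.Bijective (resH N M hM π₁ O) := by
  have hle : Gamma0 N ≤ GammaH N M hM π₁ := (GammaH_eq_Gamma0 N M hM π₁ htriv).ge
  constructor
  · intro ψ φ h
    refine AddMonoidHom.ext fun γ => ?_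
    obtain ⟨γ, rfl⟩ := Additive.ofMul.surjective γ
    have := DFunLike.congr_fun h (Additive.ofMul (⟨γ, hle γ.2⟩ : GammaH N M hM π₁))
    exact this
  · intro ψ
    refine ⟨ψ.comp (MonoidHom.toAdditive (Subgroup.inclusion hle)), ?_⟩
    refine AddMonoidHom.ext fun γ => ?_
    obtain ⟨γ, rfl⟩ := Additive.ofMul.surjective γ
    rfl

/-- **`𝓜 ≃ Hom(Γ₀(N), 𝒪)`** for trivial coefficients. -/
noncomputable def zeroEquiv : MM N M hM π₁ O ≃ₗ[O] (Additive ↥(Gamma0 N) →+ O) :=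
  (bridge N M hM π₁ O hπ₁).trans
    (LinearEquiv.ofBijective (resH N M hM π₁ O) (resH_bijective N M hM π₁ htriv O)).symm

theorem resH_zeroEquiv (x : MM N M hM π₁ O) :
    resH N M hM π₁ O (zeroEquiv N M hM π₁ hπ₁ htriv O x) = bridge N M hM π₁ O hπ₁ x := by
  unfold zeroEquiv
  rw [LinearEquiv.trans_apply]
  exact (LinearEquiv.ofBijective (resH N M hM π₁ O)
    (resH_bijective N M hM π₁ htriv O)).apply_symm_apply _

/-- **`zeroEquiv` carries `opM ℓ` to `GR.heckeGrpP ℓ`.** -/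
theorem zeroEquiv_opM (ℓ : Nat.Primes) (x : MM N M hM π₁ O) :
    zeroEquiv N M hM π₁ hπ₁ htriv O (opM N M hM π₁ O ℓ x) =
      GR.heckeGrpP N ℓ O (zeroEquiv N M hM π₁ hπ₁ htriv O x) := by
  apply (resH_bijective N M hM π₁ htriv O).1
  rw [resH_zeroEquiv, bridge_opM, ← heckeOnP_Gamma0_eq, ← resH_zeroEquiv N M hM π₁ hπ₁ htriv O x]
  by_cases h : (ℓ : ℕ) ∣ N
  · rw [heckeOnP_of_dvd _ _ h, heckeOnP_of_dvd _ _ h]
    exact (datumOn_comp_inclusion (intRepsU N ℓ.2 h) (Gamma0 N) (Gamma1_in_Gamma0 N) le_rfl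
      (GammaH N M hM π₁) (Gamma1_le_GammaH N M hM π₁) (GammaH_le_Gamma0 N M hM π₁) _).symm
  · rw [heckeOnP_of_not_dvd _ _ h, heckeOnP_of_not_dvd _ _ h]
    exact (datumOn_comp_inclusion (intRepsT N ℓ.2 h) (Gamma0 N) (Gamma1_in_Gamma0 N) le_rfl
      (GammaH N M hM π₁) (Gamma1_le_GammaH N M hM π₁) (GammaH_le_Gamma0 N M hM π₁) _).symm

/-- parabolic classes correspond to parabolic homomorphisms. -/
theorem zeroEquiv_mem_parabolicHoms (x : MM N M hM π₁ O) :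
    zeroEquiv N M hM π₁ hπ₁ htriv O x ∈ parabolicHoms O (Gamma0 N) O ↔
      x ∈ parM N M hM π₁ O hπ₁ := by
  have hle : Gamma0 N ≤ GammaH N M hM π₁ := (GammaH_eq_Gamma0 N M hM π₁ htriv).ge
  rw [mem_parM, ← resH_zeroEquiv N M hM π₁ hπ₁ htriv O x, mem_parabolicHoms_iff,
    mem_parabolicHoms_iff]
  constructor
  · intro h γ hγ
    exact h (Subgroup.inclusion (GammaH_le_Gamma0 N M hM π₁) γ) hγ
  · intro h γ hγ
    exact h ⟨γ, hle γ.2⟩ hγ

end Zero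

end Fermat.Agent.RB.TWM
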