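/-
RB = S43 via Ihara avoidance, package [TWMOD] (helper2): **literal targets of the third wave of
leaves** (all consumed by the final assembly `TWModStatement`).

* `GrpDataStatement`  : **[GRP]**  the group data: `Δ₁ = (ℤ/p)^Σ`, `Δ₂ = (ℤ/p^n)^r`, the
  surjection `π : (ℤ/M)ˣ → Δ₁ × Δ₂`, its square root `σ`, the classes `uQ q`, `uS v`, the generators
  `δS v` of `Δ₁`, and the character `ψ₂` of `Δ₁` with `ψ₂ (δS v) = ζ`;
* `ResidStatement`    : **[RESID]** the clause `residual` of `TWModSide.Occ` for the concrete sides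
  `sideX` of `TWMOD_helper2_Mod`;
* `ZeroPrimStatement` : **[ZERO-PRIM]** for trivial coefficients, the primary part of `𝓜` is the
  primary part of `Hom_par(Γ₀(N), 𝒪)` (via `zeroEquiv`).
-/
import Mathlib
import Fermat.Agent.RB.TWMOD_helper2_Mod
import Fermat.Agent.RB.TWMOD_helper2_Zero
import Fermat.Agent.RB.TWMOD_helper2_PrimDef
import Fermat.Agent.RB.T2_helper3_TWGroup

set_option autoImplicit false
set_option linter.unusedSectionVars false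

namespace Fermat.Agent.RB.TWM

open CongruenceSubgroup Matrix ModularCurve.Period IsLocalRing
open scoped MatrixGroups
open Fermat.Agent.GR Fermat.Agent.W1 Fermat.Agent.W1.ES

/-- **[GRP]**: the group data of the Taylor–Wiles level `(n, Q)`. -/
def GrpDataStatement : Prop :=
  ∀ {𝒪 : Type} [CommRing 𝒪]
    (p : ℕ) [Fact p.Prime] (_ : p ≠ 2) (ζ : 𝒪) (_ : ζ ^ p = 1)
    (Sig : Finset ℕ) (_ : ∀ v ∈ Sig, v.Prime ∧ v ≡ 1 [MOD p])
    (r n : ℕ) (Q : Fin r → ℕ) (_ : Function.Injective Q) (_ : ∀ j, (Q j).Prime)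
    (_ : ∀ j, Q j ∉ Sig) (_ : ∀ j, p ^ n ∣ Q j - 1)
    (Nt M : ℕ) [NeZero Nt] (_ : M = (∏ v ∈ Sig, v) * ∏ j, Q j) (hM : M ∣ Nt)
    (_ : Nat.Coprime M (Nt / M)),
    ∃ (π σ : (ZMod M)ˣ →* TWGrp p Sig.card × TWGrp (p ^ n) r)
      (uQ : Fin r → (ZMod Nt)ˣ) (uS : ℕ → (ZMod Nt)ˣ) (δS : ℕ → TWGrp p Sig.card)
      (ψ₂ : TWGrp p Sig.card →* 𝒪ˣ),
      Function.Surjective π ∧ (∀ u, σ u ^ 2 = π u) ∧ π (-1) = 1 ∧
      IsPGroup p (TWGrp p Sig.card × TWGrp (p ^ n) r) ∧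
      (∀ q, ((((uQ q : (ZMod Nt)ˣ) : ZMod Nt).val : ℕ) : ZMod (Nt / Q q)) = 1) ∧
      (∀ v ∈ Sig, ((((uS v : (ZMod Nt)ˣ) : ZMod Nt).val : ℕ) : ZMod (Nt / v)) = 1) ∧
      (∀ q, σ (ZMod.unitsMap hM (uQ q)) = ((1 : TWGrp p Sig.card), twGen (p ^ n) r q)) ∧
      (∀ v ∈ Sig, σ (ZMod.unitsMap hM (uS v)) = (δS v, (1 : TWGrp (p ^ n) r))) ∧
      (∀ v ∈ Sig, ∀ u : (ZMod Nt)ˣ, (((u : ZMod Nt).val : ℕ) : ZMod (Nt / v)) = 1 →
        ∃ j : ℕ, σ (ZMod.unitsMap hM u) = (δS v ^ j, (1 : TWGrp (p ^ n) r))) ∧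
      (∀ v ∈ Sig, ((ψ₂ (δS v) : 𝒪ˣ) : 𝒪) = ζ) ∧
      (∀ δ, ∃ j : ℕ, ((ψ₂ δ : 𝒪ˣ) : 𝒪) = ζ ^ j)

/-- **[RESID]**: the twisted Hecke operators of the concrete sides are residually the constants
`c`.  (On `H` every `T_i - c_i` is nilpotent modulo `𝔪 H`; `[δ] - 1` is nilpotent modulo `𝔪` for
`δ` in a `p`-group; the side is a quotient of `H` and `𝔪 = (lam)`.) -/
def ResidStatement : Prop :=
  ∀ (Nt M : ℕ) [NeZero Nt] (hM : M ∣ Nt) {Δ₁ Δ₂ : Type} [CommGroup Δ₁] [CommGroup Δ₂]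
    [Fintype Δ₁] [Fintype Δ₂]
    (π σ : (ZMod M)ˣ →* Δ₁ × Δ₂) (hπ : Function.Surjective π)
    (O : Type) [CommRing O] [IsDomain O] [CharZero O] [IsDiscreteValuationRing O]
    [IsAdicComplete (maximalIdeal O) O]
    {I : Type} (ι : I → Nat.Primes) (c : I → O) {i₀ : I} {n₀ : O}
    (hTS : TwoStage (fun i => opM Nt M hM π O (ι i)) (parM Nt M hM π O hπ) c i₀ n₀)
    (Sbig : Finset ℕ) (idx : ∀ ℓ : Nat.Primes, (ℓ : ℕ) ∉ Sbig → I)
    {p r d n : ℕ} (_ : p.Prime) (_ : p ≠ 2) (_ : (p : O) ∈ maximalIdeal O)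
    (_ : IsPGroup p (Δ₁ × Δ₂))
    (ψ : Δ₁ →* Oˣ) (δ : Fin r → Δ₂)
    (hδ : Function.Bijective fun e : Fin r → Fin (p ^ n) => ∏ q, δ q ^ ((e q : Fin (p ^ n)) : ℕ))
    (hδpow : ∀ q, δ q ^ (p ^ n) = 1)
    (b : Module.Basis (Fin d) (MonoidAlgebra O (Δ₁ × Δ₂)) (HH Nt M hM π O ι c))
    (lam : O) (_ : Irreducible lam)
    (ℓ : Nat.Primes) (hℓ : (ℓ : ℕ) ∉ Sbig) (c₀ : O) (_ : c₀ - c (idx ℓ hℓ) ∈ maximalIdeal O),
    ∃ k : ℕ, ∀ h : (sideX Nt M hM π σ hπ O ι c hTS Sbig idx ψ δ hδ hδpow b).H,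
      ∃ h' : (sideX Nt M hM π σ hπ O ι c hTS Sbig idx ψ δ hδ hδpow b).H,
        (((sideX Nt M hM π σ hπ O ι c hTS Sbig idx ψ δ hδ hδpow b).Tt ℓ -
          algebraMap O (Module.End O (sideX Nt M hM π σ hπ O ι c hTS Sbig idx ψ δ hδ hδpow b).H)
            c₀) ^ k) h = lam • h'

/-- **[ZERO-PRIM]**: for trivial coefficients the primary part of `𝓜` (conditions on the operators
`opM (ι i)`, as an `𝒪[1]`-submodule of `𝓜`) is carried by `zeroEquiv` onto the primary part of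
`Hom_par(Γ₀(N), 𝒪)` (conditions on `heckeParP N (ι i)`). -/
def ZeroPrimStatement : Prop :=
  ∀ {O : Type} [CommRing O] [IsDomain O] [IsDiscreteValuationRing O] [CharZero O]
    (N M : ℕ) [NeZero N] (hM : M ∣ N) (π₁ : (ZMod M)ˣ →* Unit)
    (hπ₁ : Function.Surjective π₁) (htriv : ∀ u, π₁ u = 1)
    {I : Type} (ι : I → Nat.Primes) (c : I → O)
    (_ : primaryPartR (fun i => opM N M hM π₁ O (ι i)) c ≤ parM N M hM π₁ O hπ₁),
    ∃ e : ↥(primaryPartR (fun i => opM N M hM π₁ O (ι i)) c) ≃ₗ[O]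
        ↥(primaryPart (fun i : I => GR.heckeParP N (ι i) O O) c),
      ∀ x : ↥(primaryPartR (fun i => opM N M hM π₁ O (ι i)) c),
        (((e x : ↥(primaryPart (fun i : I => GR.heckeParP N (ι i) O O) c)) :
            ↥(parabolicHoms O (Gamma0 N) O)) : Additive ↥(Gamma0 N) →+ O) =
          zeroEquiv N M hM π₁ hπ₁ htriv O (x : MM N M hM π₁ O)

end Fermat.Agent.RB.TWM
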