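/-
RB = S43 via Ihara avoidance, package [TWMOD], leaf [GRP] (helper1): **`GrpDataStatement`**, helper2's
literal of `RB/TWMOD_helper2_Targets3.lean`.
-/
import Mathlib
import Fermat.Agent.RB.TWMOD_helper2_Targets3
import Fermat.Agent.RB.TWMOD_helper1_GrpMain

set_option autoImplicit false
set_option linter.unusedSectionVars false
set_option linter.unusedVariables false

namespace Fermat.Agent.RB.TWM

/-- **[GRP]** -/
theorem grpDataStatement : GrpDataStatement := by
  intro 𝒪 _ p _ hp2 ζ hζ Sig hSig r n Q hQinj hQp hQS hQc Nt M _ hMdef hM hcop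
  exact grpData p hp2 ζ hζ Sig hSig r n Q hQinj hQp hQS hQc Nt M hMdef hM hcop

end Fermat.Agent.RB.TWM
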