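/-
RB = S43 via Ihara avoidance, package [TWMOD] (helper2): **control**: the augmentation of `𝒪[Δ]`,
the rank of a free `𝒪[Δ]`-module read off from its coinvariants, and the control map from the
primary part `H` of `𝓜 = H¹(Γ₀(Nt), 𝒪[Δ])` onto the primary part of `Hom_par(Γ₀(Nt), 𝒪)`.
-/
import Mathlib
import Fermat.Agent.RB.TWMOD_helper2_Sides
import Fermat.Agent.RB.T2_helper3_Gen
import Fermat.Agent.RB.TWMOD_helper2_Targets3

set_option autoImplicit false
set_option linter.unusedSectionVars false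
set_option linter.style.haveILetI false

namespace Fermat.Agent.RB.TWM

open CongruenceSubgroup Matrix ModularCurve.Period IsLocalRing
open scoped MatrixGroups
open Fermat.Agent.GR Fermat.Agent.W1 Fermat.Agent.W1.ES


section Aug
variable (O : Type*) [CommRing O] (Δ : Type*) [CommGroup Δ]

/-- the augmentation. -/
noncomputable def augHom : MonoidAlgebra O Δ →ₐ[O] O := MonoidAlgebra.lift O O Δ 1

@[simp] theorem augHom_of (δ : Δ) : augHom O Δ (MonoidAlgebra.of O Δ δ) = 1 := by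
  unfold augHom
  rw [MonoidAlgebra.lift_of]
  rfl

theorem sub_algebraMap_augHom_mem (a : MonoidAlgebra O Δ) :
    a - algebraMap O (MonoidAlgebra O Δ) (augHom O Δ a) ∈ augIdeal O Δ ⊤ := by
  induction a using MonoidAlgebra.induction_on with
  | of δ =>
    rw [augHom_of, map_one]
    exact Ideal.subset_span ⟨δ, Subgroup.mem_top δ, rfl⟩
  | add a b ha hb =>
    rw [map_add, map_add, add_sub_add_comm]
    exact Ideal.add_mem _ ha hb
  | smul r a ha =>
    rw [map_smul, smul_eq_mul, map_mul, ← Algebra.smul_def, ← smul_sub]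
    exact Submodule.smul_of_tower_mem _ r ha

theorem ker_augHom : RingHom.ker (augHom O Δ) = augIdeal O Δ ⊤ := by
  apply le_antisymm
  · intro a ha
    rw [RingHom.mem_ker] at ha
    have h := sub_algebraMap_augHom_mem O Δ a
    rw [ha, map_zero, sub_zero] at h
    exact h
  · unfold augIdeal
    rw [Ideal.span_le]
    rintro a ⟨δ, -, rfl⟩
    rw [SetLike.mem_coe, RingHom.mem_ker, map_sub, augHom_of, map_one, sub_self]

theorem augHom_surjective : Function.Surjective (augHom O Δ) := fun a =>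
  ⟨algebraMap O _ a, by rw [AlgHom.commutes]; rfl⟩

end Aug

section Rank

variable {O : Type*} [CommRing O] {Δ : Type*} [CommGroup Δ]
variable {H : Type*} [AddCommGroup H] [Module (MonoidAlgebra O Δ) H] [Module O H]
  [IsScalarTower O (MonoidAlgebra O Δ) H]
variable {M0 : Type*} [AddCommGroup M0] [Module O M0]

theorem ctl_smul (κ : H →ₗ[O] M0)
    (hκ : ∀ x, κ x = 0 ↔ x ∈ augIdeal O Δ ⊤ • (⊤ : Submodule (MonoidAlgebra O Δ) H))
    (a : MonoidAlgebra O Δ) (x : H) : κ (a • x) = augHom O Δ a • κ x := by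
  have h1 : (a - algebraMap O (MonoidAlgebra O Δ) (augHom O Δ a)) • x ∈
      augIdeal O Δ ⊤ • (⊤ : Submodule (MonoidAlgebra O Δ) H) :=
    Submodule.smul_mem_smul (sub_algebraMap_augHom_mem O Δ a) Submodule.mem_top
  have h2 := (hκ _).mpr h1
  rw [sub_smul, map_sub, sub_eq_zero] at h2
  rw [h2, algebraMap_smul (MonoidAlgebra O Δ) (augHom O Δ a) x, map_smul]

/-- the control map as a semilinear map over the augmentation. -/
noncomputable def ctlSL (κ : H →ₗ[O] M0)
    (hκ : ∀ x, κ x = 0 ↔ x ∈ augIdeal O Δ ⊤ • (⊤ : Submodule (MonoidAlgebra O Δ) H)) :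
    H →ₛₗ[(augHom O Δ : MonoidAlgebra O Δ →+* O)] M0 where
  toFun := κ
  map_add' := map_add κ
  map_smul' a x := ctl_smul κ hκ a x

theorem finrank_eq_of_ctl [Nontrivial O] {d' : ℕ}
    (b : Module.Basis (Fin d') (MonoidAlgebra O Δ) H) (κ : H →ₗ[O] M0)
    (hκs : Function.Surjective κ)
    (hκ : ∀ x, κ x = 0 ↔ x ∈ augIdeal O Δ ⊤ • (⊤ : Submodule (MonoidAlgebra O Δ) H)) :
    Module.finrank O M0 = d' := by
  obtain ⟨b', -⟩ := exists_basis_of_semilinear_surjective
    (φ := (augHom O Δ : MonoidAlgebra O Δ →+* O)) (augHom_surjective O Δ) b (ctlSL κ hκ) hκs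
    (fun x => by
      show κ x = 0 ↔ _
      rw [hκ x]
      have : RingHom.ker (augHom O Δ : MonoidAlgebra O Δ →+* O) = augIdeal O Δ ⊤ := ker_augHom O Δ
      rw [this])
  rw [Module.finrank_eq_card_basis b', Fintype.card_fin]

end Rank

section Ctl

variable (Nt M : ℕ) [NeZero Nt] (hM : M ∣ Nt) {Δ : Type} [CommGroup Δ] [Fintype Δ]
  (π : (ZMod M)ˣ →* Δ) (hπ : Function.Surjective π)
variable (O : Type) [CommRing O] [IsDomain O] [CharZero O] [IsDiscreteValuationRing O]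
  [IsAdicComplete (maximalIdeal O) O]
variable {I : Type} (ι : I → Nat.Primes) (c : I → O)

include hπ in
/-- **the control map** from the primary part of `𝓜` onto the primary part of
`Hom_par(Γ₀(Nt), 𝒪)`: surjective, with kernel `aug • H`, intertwining the Hecke operators. -/
theorem exists_ctl_zero (hZ : ZeroPrimStatement) {p : ℕ} (hp : p.Prime) (hp5 : 5 ≤ p)
    (hpO : (p : O) ∈ maximalIdeal O) (hN : Nt ≠ 1) (hπ1 : π (-1) = 1) (i₀ : I)
    (hℓ₀N : ¬ ((ι i₀ : Nat.Primes) : ℕ) ∣ Nt) (hℓ₀1 : ((ι i₀ : Nat.Primes) : ℕ) ≡ 1 [MOD Nt])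
    (hunit : IsUnit (c i₀ - ((((ι i₀ : Nat.Primes) : ℕ) : O) + 1))) :
    ∃ κ₁ : ↥(primaryPartR (fun i => opM Nt M hM π O (ι i)) c) →ₗ[O]
        ↥(primaryPart (fun i : I => GR.heckeParP Nt (ι i) O O) c),
      Function.Surjective κ₁ ∧
      (∀ x, κ₁ x = 0 ↔ x ∈ augIdeal O Δ ⊤ •
        (⊤ : Submodule (MonoidAlgebra O Δ) ↥(primaryPartR (fun i => opM Nt M hM π O (ι i)) c))) ∧
      ∀ (i : I) (x y : ↥(primaryPartR (fun i => opM Nt M hM π O (ι i)) c)),
        (y : MM Nt M hM π O) = opM Nt M hM π O (ι i) (x : MM Nt M hM π O) →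
        ((κ₁ y : ↥(primaryPart (fun i : I => GR.heckeParP Nt (ι i) O O) c)) :
          ↥(parabolicHoms O (Gamma0 Nt) O)) = GR.heckeParP Nt (ι i) O O (κ₁ x) := by
  set π'' : Δ →* Unit := 1 with hπ''def
  have hπ'' : Function.Surjective π'' := fun _ => ⟨1, rfl⟩
  obtain ⟨fe, hfe, hfes, hfek⟩ := control_primary_MM Nt M hM π hπ π'' hπ'' O ι hp hp5 hpO hN hπ1
    c i₀ hℓ₀N hℓ₀1 hunit
  have hπ₁ : Function.Surjective (π''.comp π) := hπ''.comp hπ
  have htriv : ∀ u, (π''.comp π) u = 1 := fun _ => rfl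
  have hπ1'' : (π''.comp π) (-1) = 1 := rfl
  have hTS'' := twoStage_MM Nt M hM (π''.comp π) hπ₁ O ι hN hπ1'' c i₀ hℓ₀N hℓ₀1 hunit
  obtain ⟨e, he⟩ := hZ Nt M hM (π''.comp π) hπ₁ htriv ι c hTS''.primaryPartR_le
  let feO : ↥(primaryPartR (fun i => opM Nt M hM π O (ι i)) c) →ₗ[O]
      ↥(primaryPartR (fun i => opM Nt M hM (π''.comp π) O (ι i)) c) :=
    { toFun := fe
      map_add' := map_add fe
      map_smul' := fun a x => by
        apply Subtype.ext
        rw [RingHom.id_apply, hfe]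
        show ctlMM Nt M hM π π'' O (a • (x : MM Nt M hM π O)) = a • ((fe x : _) : MM Nt M hM _ O)
        rw [ctlMM_smul, hfe] }
  refine ⟨e.toLinearMap ∘ₗ feO, e.surjective.comp hfes, fun x => ?_, fun i x y hxy => ?_⟩
  · show e (fe x) = 0 ↔ _
    rw [e.map_eq_zero_iff, hfek x]
    have : π''.ker = ⊤ := MonoidHom.ker_one
    rw [this]
    rfl
  · apply Subtype.ext
    show (((e (fe y) : _) : ↥(parabolicHoms O (Gamma0 Nt) O)) : Additive ↥(Gamma0 Nt) →+ O) =
      GR.heckeGrpP Nt (ι i) O (((e (fe x) : _) : ↥(parabolicHoms O (Gamma0 Nt) O)) :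
        Additive ↥(Gamma0 Nt) →+ O)
    rw [he, he, hfe, hfe, hxy, ctlMM_opM, zeroEquiv_opM]

end Ctl

end Fermat.Agent.RB.TWM
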