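/-
RB = S43 via Ihara avoidance, package [TWMOD] (helper2): **the arithmetic of the levels**
`Nt = N ∏ Q`, `M = ∏ Σ ∏ Q`, `Nbig = (N / ∏ Σ) M² = Nt M`, `Sbig = S ∪ Q`.
-/
import Mathlib

set_option autoImplicit false
set_option linter.unusedSectionVars false

namespace Fermat.Agent.RB.TWM

section Num

variable {N p : ℕ} {S Sig : Finset ℕ} {r : ℕ} {Q : Fin r → ℕ}

theorem prodSig_dvd (hSig : ∀ v ∈ Sig, v.Prime ∧ v ∣ N) : (∏ v ∈ Sig, v) ∣ N :=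
  Finset.prod_primes_dvd N (fun v hv => (hSig v hv).1.prime) (fun v hv => (hSig v hv).2)

theorem prodSig_pos (hSig : ∀ v ∈ Sig, v.Prime ∧ v ∣ N) : 0 < ∏ v ∈ Sig, v :=
  Finset.prod_pos fun v hv => (hSig v hv).1.pos

theorem prodQ_pos (hQ : ∀ j, (Q j).Prime) : 0 < ∏ j, Q j :=
  Finset.prod_pos fun j _ => (hQ j).pos

open scoped Function in
theorem squarefree_prodQ (hinj : Function.Injective Q) (hQ : ∀ j, (Q j).Prime) :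
    Squarefree (∏ j, Q j) := by
  refine Finset.squarefree_prod_of_pairwise_isCoprime (fun i _ j _ hij => ?_)
    (fun j _ => (hQ j).prime.squarefree)
  exact Nat.coprime_iff_isRelPrime.mp
    ((Nat.coprime_primes (hQ i) (hQ j)).mpr fun h => hij (hinj h))

theorem coprime_prodQ (hQ : ∀ j, (Q j).Prime) {m : ℕ} (h : ∀ j, ¬ Q j ∣ m) :
    Nat.Coprime (∏ j, Q j) m :=
  Nat.Coprime.prod_left fun j _ => (Nat.Prime.coprime_iff_not_dvd (hQ j)).mpr (h j)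

theorem not_dvd_of_notMem (hS : ∀ ℓ : ℕ, ℓ ∈ S ↔ ℓ.Prime ∧ (ℓ = p ∨ ℓ ∣ N)) {q : ℕ}
    (hq : q.Prime) (hqS : q ∉ S) : ¬ q ∣ N := fun h => hqS ((hS q).mpr ⟨hq, Or.inr h⟩)

theorem ne_of_notMem (hS : ∀ ℓ : ℕ, ℓ ∈ S ↔ ℓ.Prime ∧ (ℓ = p ∨ ℓ ∣ N)) {q : ℕ}
    (hq : q.Prime) (hqS : q ∉ S) : q ≠ p := fun h => hqS ((hS q).mpr ⟨hq, Or.inl h⟩)

/-- `M ∣ Nt`. -/
theorem levelM_dvd (hSig : ∀ v ∈ Sig, v.Prime ∧ v ∣ N) :
    (∏ v ∈ Sig, v) * ∏ j, Q j ∣ N * ∏ j, Q j :=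
  mul_dvd_mul (prodSig_dvd hSig) dvd_rfl

theorem levelNt_div (hSig : ∀ v ∈ Sig, v.Prime ∧ v ∣ N) (hQ : ∀ j, (Q j).Prime) :
    (N * ∏ j, Q j) / ((∏ v ∈ Sig, v) * ∏ j, Q j) = N / ∏ v ∈ Sig, v :=
  Nat.mul_div_mul_right _ _ (prodQ_pos hQ)

/-- `M` is squarefree. -/
theorem squarefree_levelM (hNsq : Squarefree N) (hSig : ∀ v ∈ Sig, v.Prime ∧ v ∣ N)
    (hinj : Function.Injective Q) (hQ : ∀ j, (Q j).Prime) (hQN : ∀ j, ¬ Q j ∣ N) :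
    Squarefree ((∏ v ∈ Sig, v) * ∏ j, Q j) := by
  rw [Nat.squarefree_mul_iff]
  refine ⟨?_, hNsq.squarefree_of_dvd (prodSig_dvd hSig), squarefree_prodQ hinj hQ⟩
  exact (coprime_prodQ hQ fun j h => hQN j (h.trans (prodSig_dvd hSig))).symm

/-- `gcd(M, Nt / M) = 1`. -/
theorem coprime_levelM (hNsq : Squarefree N) (hSig : ∀ v ∈ Sig, v.Prime ∧ v ∣ N)
    (hQ : ∀ j, (Q j).Prime) (hQN : ∀ j, ¬ Q j ∣ N) :
    Nat.Coprime ((∏ v ∈ Sig, v) * ∏ j, Q j)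
      ((N * ∏ j, Q j) / ((∏ v ∈ Sig, v) * ∏ j, Q j)) := by
  rw [levelNt_div hSig hQ]
  have h1 : N = (∏ v ∈ Sig, v) * (N / ∏ v ∈ Sig, v) :=
    (Nat.mul_div_cancel' (prodSig_dvd hSig)).symm
  apply Nat.Coprime.mul_left
  · rw [h1] at hNsq
    exact (Nat.squarefree_mul_iff.mp hNsq).1
  · exact coprime_prodQ hQ fun j h => hQN j (h.trans (Nat.div_dvd_of_dvd (prodSig_dvd hSig)))

/-- `Nbig = Nt * M`. -/
theorem levelNbig_eq (hSig : ∀ v ∈ Sig, v.Prime ∧ v ∣ N) :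
    N / (∏ v ∈ Sig, v) * ((∏ v ∈ Sig, v) * ∏ j, Q j) ^ 2 =
      N * (∏ j, Q j) * ((∏ v ∈ Sig, v) * ∏ j, Q j) := by
  have h1 : N / (∏ v ∈ Sig, v) * (∏ v ∈ Sig, v) = N := Nat.div_mul_cancel (prodSig_dvd hSig)
  calc N / (∏ v ∈ Sig, v) * ((∏ v ∈ Sig, v) * ∏ j, Q j) ^ 2
      = (N / (∏ v ∈ Sig, v) * (∏ v ∈ Sig, v)) * (∏ j, Q j) *
          ((∏ v ∈ Sig, v) * ∏ j, Q j) := by ring
    _ = _ := by rw [h1]

theorem levelNt_ne_one (h2N : 2 ∣ N) : N * ∏ j, Q j ≠ 1 := by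
  intro h
  have h2 : 2 ∣ N * ∏ j, Q j := h2N.mul_right _
  rw [h] at h2
  exact absurd h2 (by decide)

/-- the primes of `Nbig` lie in `Sbig = S ∪ Q`. -/
theorem mem_Sbig_of_dvd (hS : ∀ ℓ : ℕ, ℓ ∈ S ↔ ℓ.Prime ∧ (ℓ = p ∨ ℓ ∣ N))
    (hSig : ∀ v ∈ Sig, v.Prime ∧ v ∣ N) (hQ : ∀ j, (Q j).Prime) {ℓ : ℕ} (hℓ : ℓ.Prime)
    (h : ℓ ∣ N * (∏ j, Q j) * ((∏ v ∈ Sig, v) * ∏ j, Q j)) :
    ℓ ∈ S ∪ Finset.univ.image Q := by
  have h1 : ℓ ∣ N * ∏ j, Q j := by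
    rcases (Nat.Prime.dvd_mul hℓ).mp h with h | h
    · exact h
    · exact h.trans (levelM_dvd hSig)
  rcases (Nat.Prime.dvd_mul hℓ).mp h1 with h | h
  · exact Finset.mem_union_left _ ((hS ℓ).mpr ⟨hℓ, Or.inr h⟩)
  · obtain ⟨j, -, hj⟩ := (Prime.dvd_finsetProd_iff hℓ.prime _).mp h
    have : ℓ = Q j := (Nat.prime_dvd_prime_iff_eq hℓ (hQ j)).mp hj
    exact Finset.mem_union_right _ (Finset.mem_image.mpr ⟨j, Finset.mem_univ j, this.symm⟩)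

theorem levelM_ne_zero (hSig : ∀ v ∈ Sig, v.Prime ∧ v ∣ N) (hQ : ∀ j, (Q j).Prime) :
    (∏ v ∈ Sig, v) * ∏ j, Q j ≠ 0 :=
  (Nat.mul_pos (prodSig_pos hSig) (prodQ_pos hQ)).ne'

end Num

section Residue

open IsLocalRing

variable {𝒪 : Type*} [CommRing 𝒪] [IsLocalRing 𝒪]

/-- a prime different from the residue characteristic is a unit. -/
theorem isUnit_natCast_of_prime_ne {p q : ℕ} (hp : p.Prime) (hq : q.Prime) (hqp : q ≠ p)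
    (hpO : (p : 𝒪) ∈ maximalIdeal 𝒪) : IsUnit (q : 𝒪) := by
  by_contra h
  have hq' : (q : 𝒪) ∈ maximalIdeal 𝒪 := (mem_maximalIdeal _).mpr h
  have hcop : Nat.Coprime p q := (Nat.coprime_primes hp hq).mpr (Ne.symm hqp)
  have h1 : ((Nat.gcd p q : ℤ) : 𝒪) ∈ maximalIdeal 𝒪 := by
    rw [Nat.gcd_eq_gcd_ab]
    push_cast
    exact Ideal.add_mem _ (Ideal.mul_mem_right _ _ hpO) (Ideal.mul_mem_right _ _ hq')
  rw [hcop] at h1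
  simp only [Nat.cast_one, Int.cast_one] at h1
  exact (Ideal.ne_top_iff_one _).mp (maximalIdeal.isMaximal 𝒪).ne_top h1

/-- `q ≡ 1 mod p` gives `q = 1` in the residue field. -/
theorem residue_natCast_eq_one {p q : ℕ} (hq : 0 < q) (h : p ∣ q - 1)
    (hpO : (p : 𝒪) ∈ maximalIdeal 𝒪) : (q : ResidueField 𝒪) = 1 := by
  obtain ⟨k, hk⟩ := h
  have h1 : q = p * k + 1 := by omega
  have hp0 : (p : ResidueField 𝒪) = 0 := by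
    have := (residue_eq_zero_iff (p : 𝒪)).mpr hpO
    rwa [map_natCast] at this
  rw [h1]
  push_cast
  rw [hp0, zero_mul, zero_add]

end Residue

end Fermat.Agent.RB.TWM
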