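/-
RB = S43 via Ihara avoidance, package [TWMOD] (helper2): **the final assembly**:
`TWModStatement` from the leaves [T3-iter], [LEVEL0], [GRP], [RESID], [ZERO-PRIM], [TW-A..D],
[SS-big], [SS], [OCC].
-/
import Mathlib
import Fermat.Agent.RB.TWMOD_helper2_Ctl
import Fermat.Agent.RB.TWMOD_helper2_Num
import Fermat.Agent.RB.TWMOD_helper2_Targets2
import Fermat.Agent.RB.TWMOD_helper2_Targets3

set_option autoImplicit false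
set_option linter.unusedSectionVars false
set_option linter.style.haveILetI false

namespace Fermat.Agent.RB.TWM

open CongruenceSubgroup Matrix ModularCurve.Period IsLocalRing
open scoped MatrixGroups
open Fermat.Agent.GR Fermat.Agent.W1 Fermat.Agent.W1.ES

section SideOcc

variable (Nt M : ℕ) [NeZero Nt] (hM : M ∣ Nt) {Δ₁ Δ₂ : Type} [CommGroup Δ₁] [CommGroup Δ₂]
  [Fintype Δ₁] [Fintype Δ₂]
  (π σ : (ZMod M)ˣ →* Δ₁ × Δ₂) (hπ : Function.Surjective π)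
variable (O : Type) [CommRing O] [IsDomain O] [CharZero O] [IsDiscreteValuationRing O]
  [IsAdicComplete (maximalIdeal O) O]
variable {I : Type} (ι : I → Nat.Primes) (c : I → O)
variable {i₀ : I} {n₀ : O}
  (hTS : TwoStage (fun i => opM Nt M hM π O (ι i)) (parM Nt M hM π O hπ) c i₀ n₀)
variable (Sbig : Finset ℕ) (idx : ∀ ℓ : Nat.Primes, (ℓ : ℕ) ∉ Sbig → I)
  (hidx : ∀ (ℓ : Nat.Primes) (h : (ℓ : ℕ) ∉ Sbig), ι (idx ℓ h) = ℓ)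
variable {p r d n : ℕ} (ψ : Δ₁ →* Oˣ) (δ : Fin r → Δ₂)
  (hδ : Function.Bijective fun e : Fin r → Fin (p ^ n) => ∏ q, δ q ^ ((e q : Fin (p ^ n)) : ℕ))
  (hδpow : ∀ q, δ q ^ (p ^ n) = 1)
  (b : Module.Basis (Fin d) (MonoidAlgebra O (Δ₁ × Δ₂)) (HH Nt M hM π O ι c))
variable (z : O) (Sig : Finset ℕ) (uQ : Fin r → (ZMod Nt)ˣ) (uS : ℕ → (ZMod Nt)ˣ) (δS : ℕ → Δ₁)
  (hG1 : ∀ q, σ (ZMod.unitsMap hM (uQ q)) = ((1 : Δ₁), δ q))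
  (hG2 : ∀ v ∈ Sig, σ (ZMod.unitsMap hM (uS v)) = (δS v, (1 : Δ₂)))
  (hG3 : ∀ v ∈ Sig, ∀ u : (ZMod Nt)ˣ, (((u : ZMod Nt).val : ℕ) : ZMod (Nt / v)) = 1 →
    ∃ j : ℕ, σ (ZMod.unitsMap hM u) = (δS v ^ j, (1 : Δ₂)))
  (hψz : ∀ v ∈ Sig, (ψ (δS v) : O) = z)

theorem sideX_junk (ℓ : Nat.Primes) (hℓ : (ℓ : ℕ) ∈ Sbig) :
    (sideX Nt M hM π σ hπ O ι c hTS Sbig idx ψ δ hδ hδpow b).Tt ℓ = 0 := by
  show sidePEnd ψ (TtH Nt M hM π σ hπ O ι c hTS Sbig idx ℓ) = 0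
  rw [TtH_of_mem _ _ _ _ _ _ _ _ _ _ _ _ hℓ]
  exact sideEnd_ext _ _ fun x => by
    rw [sideEnd_mk, LinearMap.zero_apply, LinearMap.zero_apply, map_zero]

include hidx hG1 hG2 hG3 hψz in
/-- **the occurrence contract of the concrete sides.** -/
theorem sideX_occ (hRes : ResidStatement) (hTwA : TwExistsStatement)
    (hTwB : TwParabolicStatement) (hTwC : TwHeckeStatement) (hTwD : TwInjStatement)
    (hSSB : SSBigStatement) (hSS : SideReducedStatement) (hOcc : SideOccStatement)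
    [Fact p.Prime] (hp5 : 5 ≤ p) (hpO : (p : O) ∈ maximalIdeal O)
    (hpG : IsPGroup p (Δ₁ × Δ₂)) [NeZero M] (Nbig : ℕ) [NeZero Nbig] (hMsq : Squarefree M)
    (hcop : Nat.Coprime M (Nt / M)) (hNbig : Nbig = Nt * M) (hNt1 : Nt ≠ 1)
    (hσ2 : ∀ u, σ u ^ 2 = π u) (hSbig : ∀ ℓ : ℕ, ℓ.Prime → ℓ ∣ Nbig → ℓ ∈ Sbig)
    (lam : O) (hlam : Irreducible lam)
    {N : ℕ} [NeZero N] {S : Finset ℕ}
    (θ : CuspForm.heckeAlgebra N 2 (S : Set ℕ) →+* ResidueField O)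
    (hcθ : ∀ (ℓ : ℕ) (hℓ : ℓ.Prime) (hℓN : ¬ ℓ ∣ N) (hℓS : ℓ ∉ (S : Set ℕ))
      (hℓb : ((⟨ℓ, hℓ⟩ : Nat.Primes) : ℕ) ∉ Sbig),
      residue O (c (idx ⟨ℓ, hℓ⟩ hℓb)) = θ (CuspForm.heckeAlgebra.T hℓ hℓN hℓS)) :
    (sideX Nt M hM π σ hπ O ι c hTS Sbig idx ψ δ hδ hδpow b).Occ lam z θ Sig Nt Nbig Sbig
      uQ uS := by
  have hp2 : p ≠ 2 := by omega
  have real := sideRealOf Nt M hM π σ hπ O ι c hTS Sbig idx hidx ψ δ hδ hδpow b z Sig uQ uS δS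
    hG1 hG2 hG3 hψz
  have hjunk := sideX_junk Nt M hM π σ hπ O ι c hTS Sbig idx ψ δ hδ hδpow b
  have hred := hSS hTwA hTwB hTwC hTwD hSSB p hp5 hpG Nt M Nbig hM hMsq hcop hNbig π σ hπ hσ2
    (GammaH_normal Nt M hM π) Sbig hSbig
    (sideX Nt M hM π σ hπ O ι c hTS Sbig idx ψ δ hδ hδpow b) z Sig uQ uS real hjunk
  have hocc := hOcc hTwA hTwB hTwC hTwD p hp5 hpG Nt M Nbig hM hMsq hcop hNbig hNt1 π σ hπ hσ2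
    (GammaH_normal Nt M hM π) Sbig hSbig
    (sideX Nt M hM π σ hπ O ι c hTS Sbig idx ψ δ hδ hδpow b) z Sig uQ uS real hred
  refine TWModSide.Occ.of_clauses hred hjunk (fun ℓ hℓ hℓN hℓS hℓb c₀ hc₀ => ?_) hocc
  have hmem : c₀ - c (idx ⟨ℓ, hℓ⟩ hℓb) ∈ maximalIdeal O := by
    rw [← residue_eq_zero_iff, map_sub, hc₀, hcθ ℓ hℓ hℓN hℓS hℓb, sub_self]
  exact hRes Nt M hM π σ hπ O ι c hTS Sbig idx (Fact.out : p.Prime) hp2 hpO hpG ψ δ hδ hδpow b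
    lam hlam ⟨ℓ, hℓ⟩ hℓb c₀ hmem

end SideOcc

section Level

variable {𝒪 : Type} [CommRing 𝒪] [IsDomain 𝒪] [IsDiscreteValuationRing 𝒪]
  [IsAdicComplete (maximalIdeal 𝒪) 𝒪] [CharZero 𝒪]

/-- the module of level `N`. -/
abbrev M0Of (N : ℕ) [NeZero N] (S : Finset ℕ) (c : Nat.Primes → 𝒪) : Type :=
  ↥(primaryPart (fun ℓ : primesOutside (S : Set ℕ) => GR.heckeParP N (ℓ : Nat.Primes) 𝒪 𝒪)
    (fun ℓ : primesOutside (S : Set ℕ) => c ℓ))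

/-- `ζ ≡ 1` modulo `lam`. -/
theorem exists_sub_one_eq_mul {p : ℕ} [Fact p.Prime] (hpO : (p : 𝒪) ∈ maximalIdeal 𝒪)
    {ζ : 𝒪} (hζ : ζ ^ p = 1) {lam : 𝒪} (hlam : Irreducible lam) (j : ℕ) :
    ∃ c₁ : 𝒪, ζ ^ j - 1 = lam * c₁ := by
  have hp0 : (p : ResidueField 𝒪) = 0 := by
    have := (residue_eq_zero_iff (p : 𝒪)).mpr hpO
    rwa [map_natCast] at this
  haveI : CharP (ResidueField 𝒪) p := (CharP.charP_iff_prime_eq_zero Fact.out).mpr hp0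
  have h1 : (residue 𝒪 ζ - 1) ^ p = 0 := by
    rw [sub_pow_char, one_pow, ← map_pow, hζ, map_one, sub_self]
  have h2 : residue 𝒪 (ζ - 1) = 0 := by
    rw [map_sub, map_one]
    exact pow_eq_zero_iff (Fact.out : p.Prime).ne_zero |>.mp h1
  have h3 : ζ - 1 ∈ Ideal.span {lam} := by
    rw [← hlam.maximalIdeal_eq]
    exact (residue_eq_zero_iff _).mp h2
  obtain ⟨c₀, hc₀⟩ := Ideal.mem_span_singleton'.mp h3
  obtain ⟨e, he⟩ := sub_dvd_pow_sub_pow ζ 1 j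
  rw [one_pow] at he
  exact ⟨c₀ * e, by rw [he, ← hc₀]; ring⟩

set_option maxHeartbeats 1600000 in
/-- **the level `(n, Q)` from the leaves.** -/
theorem nonempty_twModLevel_of_leaves
    (hT3 : T3IterStatement) (hGrp : GrpDataStatement) (hRes : ResidStatement)
    (hZero : ZeroPrimStatement) (hTwA : TwExistsStatement) (hTwB : TwParabolicStatement)
    (hTwC : TwHeckeStatement) (hTwD : TwInjStatement) (hSSB : SSBigStatement)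
    (hSS : SideReducedStatement) (hOcc : SideOccStatement)
    (p : ℕ) [Fact p.Prime] (hp5 : 5 ≤ p) (hpO : (p : 𝒪) ∈ maximalIdeal 𝒪)
    (ζ : 𝒪) (hζ : IsPrimitiveRoot ζ p) (lam : 𝒪) (hlam : Irreducible lam)
    (N : ℕ) [NeZero N] (hNsq : Squarefree N) (h2N : 2 ∣ N)
    (S : Finset ℕ) (hS : ∀ ℓ : ℕ, ℓ ∈ S ↔ ℓ.Prime ∧ (ℓ = p ∨ ℓ ∣ N))
    (θ : CuspForm.heckeAlgebra N 2 (S : Set ℕ) →+* ResidueField 𝒪)
    {T : Type} [CommRing T] [IsLocalRing T] [IsNoetherianRing T]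
    [IsAdicComplete (maximalIdeal T) T] [Algebra 𝒪 T] [IsLocalHom (algebraMap 𝒪 T)]
    [Module.Finite 𝒪 T] [Module.Free 𝒪 T]
    (datum : CuspForm.HeckeGaloisRepDatum N (S : Set ℕ) 𝒪 θ T)
    (hNE : ∀ (D : ℕ), 0 < D → ∀ Bad : Finset ℕ, ∃ (ℓ : ℕ) (hℓ : ℓ.Prime) (hℓN : ¬ ℓ ∣ N)
      (hℓS : ℓ ∉ (S : Set ℕ)), ℓ ∉ Bad ∧ ℓ ≡ 1 [MOD D] ∧
        θ (CuspForm.heckeAlgebra.T hℓ hℓN hℓS) ≠ (ℓ : ResidueField 𝒪) + 1)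
    (Sig : Finset ℕ) (hSig : ∀ v ∈ Sig, v.Prime ∧ v ∣ N ∧ v ≠ 2 ∧ v ≡ 1 [MOD p])
    (c : Nat.Primes → 𝒪)
    (hc : ∀ (ℓ : ℕ) (hℓ : ℓ.Prime) (hℓN : ¬ ℓ ∣ N) (hℓS : ℓ ∉ (S : Set ℕ)),
      residue 𝒪 (c ⟨ℓ, hℓ⟩) = θ (CuspForm.heckeAlgebra.T hℓ hℓN hℓS))
    [Module T (M0Of N S c)]
    (hTact : ∀ (ℓ : ℕ) (hℓ : ℓ.Prime) (hℓN : ¬ ℓ ∣ N) (hℓS : ℓ ∉ (S : Set ℕ))
      (x : M0Of N S c),
      ((datum.π (CuspForm.heckeAlgebra.T hℓ hℓN hℓS) • x : M0Of N S c) :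
        ↥(parabolicHoms 𝒪 (Gamma0 N) 𝒪)) =
        GR.heckeParP N ⟨ℓ, hℓ⟩ 𝒪 𝒪 (x : ↥(parabolicHoms 𝒪 (Gamma0 N) 𝒪)))
    (r n : ℕ) (Q : Fin r → ℕ) (hQinj : Function.Injective Q) (hQp : ∀ j, (Q j).Prime)
    (hQS : ∀ j, Q j ∉ S) (hQn : ∀ j, p ^ n ∣ Q j - 1) (hQ1 : ∀ j, p ∣ Q j - 1)
    (hQr : ∀ j (hq : (Q j).Prime) (hqN : ¬ Q j ∣ N) (hqS : Q j ∉ (S : Set ℕ)),
      ∃ α β : ResidueField 𝒪, α ≠ β ∧
        α + β = θ (CuspForm.heckeAlgebra.T hq hqN hqS) ∧ α * β = (Q j : ResidueField 𝒪))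
    (Nt Nbig : ℕ) [NeZero Nt] [NeZero Nbig] (hNt : Nt = N * ∏ j, Q j)
    (hNbig : Nbig = N / (∏ v ∈ Sig, v) * ((∏ v ∈ Sig, v) * ∏ j, Q j) ^ 2) :
    Nonempty (TWModLevel p datum Sig ζ lam r (Module.finrank 𝒪 (M0Of N S c)) (M0Of N S c) n Q
      Nt Nbig) := by
  classical
  have hp : p.Prime := Fact.out
  have hp2 : p ≠ 2 := by omega
  haveI : NeZero p := ⟨hp.ne_zero⟩
  -- the arithmetic of the levels
  have hSig' : ∀ v ∈ Sig, v.Prime ∧ v ∣ N := fun v hv => ⟨(hSig v hv).1, (hSig v hv).2.1⟩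
  have hQN : ∀ j, ¬ Q j ∣ N := fun j => not_dvd_of_notMem hS (hQp j) (hQS j)
  have hQSet : ∀ j, Q j ∉ (S : Set ℕ) := fun j h => hQS j (Finset.mem_coe.mp h)
  obtain ⟨M, hMdef⟩ : ∃ M : ℕ, M = (∏ v ∈ Sig, v) * ∏ j, Q j := ⟨_, rfl⟩
  have hM : M ∣ Nt := by rw [hNt, hMdef]; exact levelM_dvd hSig'
  haveI : NeZero M := ⟨by rw [hMdef]; exact levelM_ne_zero hSig' hQp⟩
  have hMsq : Squarefree M := by rw [hMdef]; exact squarefree_levelM hNsq hSig' hQinj hQp hQN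
  have hcop : Nat.Coprime M (Nt / M) := by
    rw [hNt, hMdef]; exact coprime_levelM hNsq hSig' hQp hQN
  have hNbig' : Nbig = Nt * M := by rw [hNbig, hNt, hMdef]; exact levelNbig_eq hSig'
  have hNt1 : Nt ≠ 1 := by rw [hNt]; exact levelNt_ne_one h2N
  obtain ⟨Sbig, hSbigdef⟩ : ∃ Sbig : Finset ℕ, Sbig = S ∪ Finset.univ.image Q := ⟨_, rfl⟩
  have hSbig : ∀ ℓ : ℕ, ℓ.Prime → ℓ ∣ Nbig → ℓ ∈ Sbig := fun ℓ hℓ h => by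
    rw [hNbig', hNt, hMdef] at h
    rw [hSbigdef]
    exact mem_Sbig_of_dvd hS hSig' hQp hℓ h
  have hQSig : ∀ j, Q j ∉ Sig := fun j h => hQS j ((hS _).mpr ⟨hQp j, Or.inr (hSig' _ h).2⟩)
  -- the group data
  obtain ⟨π, σ, uQ, uS, δS, ψ₂, hπs, hσ2, hπ1, hpG, huQ, huS, hG1, hG2, hG3, hψζ, hψpow⟩ :=
    hGrp (𝒪 := 𝒪) p hp2 ζ hζ.pow_eq_one Sig (fun v hv => ⟨(hSig v hv).1, (hSig v hv).2.2.2⟩)
      r n Q hQinj hQp hQSig hQn Nt M hMdef hM hcop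
  -- the constants at `Q`
  have hroot : ∀ j, ∃ a : 𝒪, (a ^ 2 - c ⟨Q j, hQp j⟩ * a + (Q j : 𝒪) ∈ maximalIdeal 𝒪) ∧
      IsUnit (2 * a - c ⟨Q j, hQp j⟩) ∧ IsUnit (a ^ 2 - 1) := by
    intro j
    obtain ⟨α, β, hαβ, hsum, hprod⟩ := hQr j (hQp j) (hQN j) (hQSet j)
    obtain ⟨a, rfl⟩ := residue_surjective α
    have hcQ := hc (Q j) (hQp j) (hQN j) (hQSet j)
    have hQ1' : (Q j : ResidueField 𝒪) = 1 := residue_natCast_eq_one (hQp j).pos (hQ1 j) hpO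
    refine ⟨a, ?_, ?_, ?_⟩
    · rw [← residue_eq_zero_iff]
      simp only [map_add, map_sub, map_mul, map_pow, map_natCast]
      rw [hcQ, ← hsum, ← hprod]
      ring
    · rw [← residue_ne_zero_iff_isUnit]
      simp only [map_sub, map_mul, map_ofNat]
      rw [hcQ, ← hsum]
      intro h
      apply hαβ
      linear_combination h
    · rw [← residue_ne_zero_iff_isUnit]
      simp only [map_sub, map_pow, map_one]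
      intro h
      apply hαβ
      have ha0 : residue 𝒪 a ≠ 0 := by
        intro h0
        rw [h0, zero_mul, hQ1'] at hprod
        exact zero_ne_one hprod
      apply mul_left_cancel₀ ha0
      rw [hprod, hQ1']
      linear_combination h
  choose a ha1 ha2 ha3 using hroot
  let c' : Nat.Primes → 𝒪 := fun ℓ => if h : ∃ j, Q j = (ℓ : ℕ) then a h.choose else c ℓ
  have hc'Q : ∀ j, c' ⟨Q j, hQp j⟩ = a j := by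
    intro j
    have h : ∃ j', Q j' = ((⟨Q j, hQp j⟩ : Nat.Primes) : ℕ) := ⟨j, rfl⟩
    show (if h : ∃ j', Q j' = ((⟨Q j, hQp j⟩ : Nat.Primes) : ℕ) then a h.choose else _) = _
    rw [dif_pos h]
    exact congrArg a (hQinj h.choose_spec)
  have hc'c : ∀ ℓ : Nat.Primes, (∀ j, Q j ≠ (ℓ : ℕ)) → c' ℓ = c ℓ := fun ℓ hℓ =>
    dif_neg (fun ⟨j, hj⟩ => hℓ j hj)
  -- [T3-iter]
  have hQunit : ∀ j, IsUnit (Q j : 𝒪) := fun j =>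
    isUnit_natCast_of_prime_ne hp (hQp j) (ne_of_notMem hS (hQp j) (hQS j)) hpO
  obtain ⟨φ, hφ⟩ := hT3 N r Q hQinj hQp hQN hQunit (primesOutside (S : Set ℕ))
    (fun j => hQSet j) c c' a ha1 ha2 ha3 hc'Q hc'c Nt hNt
  -- the auxiliary prime `ℓ₀`
  obtain ⟨ℓ₀, hℓ₀, hℓ₀N, hℓ₀S, hℓ₀B, hℓ₀1, hℓ₀θ⟩ :=
    hNE Nt (Nat.pos_of_ne_zero (NeZero.ne Nt)) (Finset.univ.image Q)
  have hℓ₀Q : ∀ j, Q j ≠ ℓ₀ := fun j h =>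
    hℓ₀B (Finset.mem_image.mpr ⟨j, Finset.mem_univ j, h⟩)
  have hℓ₀Nt : ¬ ℓ₀ ∣ Nt := by
    rw [hNt]
    intro h
    rcases (Nat.Prime.dvd_mul hℓ₀).mp h with h | h
    · exact hℓ₀N h
    · obtain ⟨j, -, hj⟩ := (Prime.dvd_finsetProd_iff hℓ₀.prime _).mp h
      exact hℓ₀Q j ((Nat.prime_dvd_prime_iff_eq hℓ₀ (hQp j)).mp hj).symm
  let i₀ : ↥(primesOutside (S : Set ℕ)) := ⟨⟨ℓ₀, hℓ₀⟩, hℓ₀S⟩
  have hunit : IsUnit (c' ((i₀ : ↥(primesOutside (S : Set ℕ))) : Nat.Primes) -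
      ((((((i₀ : ↥(primesOutside (S : Set ℕ))) : Nat.Primes) : ℕ) : 𝒪)) + 1)) := by
    rw [hc'c _ hℓ₀Q, ← residue_ne_zero_iff_isUnit, map_sub, map_add, map_natCast, map_one]
    show residue 𝒪 (c ⟨ℓ₀, hℓ₀⟩) - ((ℓ₀ : ResidueField 𝒪) + 1) ≠ 0
    rw [hc ℓ₀ hℓ₀ hℓ₀N hℓ₀S]
    exact sub_ne_zero.mpr hℓ₀θ
  -- the module `H`
  have hTS := twoStage_MM Nt M hM π hπs 𝒪
    (fun ℓ : ↥(primesOutside (S : Set ℕ)) => (ℓ : Nat.Primes)) hNt1 hπ1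
    (fun ℓ : ↥(primesOutside (S : Set ℕ)) => c' ℓ) i₀ hℓ₀Nt hℓ₀1 hunit
  have hfree := free_primary_MM Nt M hM π hπs 𝒪
    (fun ℓ : ↥(primesOutside (S : Set ℕ)) => (ℓ : Nat.Primes)) hp hp5 hpO hpG hNt1 hπ1
    (fun ℓ : ↥(primesOutside (S : Set ℕ)) => c' ℓ) i₀ hℓ₀Nt hℓ₀1 hunit
  haveI : IsNoetherian (MonoidAlgebra 𝒪 (TWGrp p Sig.card × TWGrp (p ^ n) r)) (MM Nt M hM π 𝒪) :=
    isNoetherian_of_isNoetherianRing_of_finite _ _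
  haveI : Module.Finite (MonoidAlgebra 𝒪 (TWGrp p Sig.card × TWGrp (p ^ n) r))
      (HH Nt M hM π 𝒪 (fun ℓ : ↥(primesOutside (S : Set ℕ)) => (ℓ : Nat.Primes))
        (fun ℓ : ↥(primesOutside (S : Set ℕ)) => c' ℓ)) :=
    Module.Finite.of_injective (primaryPartR _ _).subtype Subtype.val_injective
  haveI := hfree
  let b' := Module.finBasis (MonoidAlgebra 𝒪 (TWGrp p Sig.card × TWGrp (p ^ n) r))
    (HH Nt M hM π 𝒪 (fun ℓ : ↥(primesOutside (S : Set ℕ)) => (ℓ : Nat.Primes))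
      (fun ℓ : ↥(primesOutside (S : Set ℕ)) => c' ℓ))
  -- the control map
  obtain ⟨κ₁, hκ₁s, hκ₁k, hκ₁T⟩ := exists_ctl_zero Nt M hM π hπs 𝒪
    (fun ℓ : ↥(primesOutside (S : Set ℕ)) => (ℓ : Nat.Primes))
    (fun ℓ : ↥(primesOutside (S : Set ℕ)) => c' ℓ) hZero hp hp5 hpO hNt1 hπ1 i₀ hℓ₀Nt hℓ₀1 hunit
  let κ : HH Nt M hM π 𝒪 (fun ℓ : ↥(primesOutside (S : Set ℕ)) => (ℓ : Nat.Primes))
      (fun ℓ : ↥(primesOutside (S : Set ℕ)) => c' ℓ) →ₗ[𝒪] M0Of N S c :=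
    φ.symm.toLinearMap ∘ₗ κ₁
  have hκs : Function.Surjective κ := φ.symm.surjective.comp hκ₁s
  have hκk : ∀ x, κ x = 0 ↔ x ∈ augIdeal 𝒪 (TWGrp p Sig.card × TWGrp (p ^ n) r) ⊤ •
      (⊤ : Submodule (MonoidAlgebra 𝒪 (TWGrp p Sig.card × TWGrp (p ^ n) r))
        (HH Nt M hM π 𝒪 (fun ℓ : ↥(primesOutside (S : Set ℕ)) => (ℓ : Nat.Primes))
          (fun ℓ : ↥(primesOutside (S : Set ℕ)) => c' ℓ))) := fun x => by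
    show φ.symm (κ₁ x) = 0 ↔ _
    rw [φ.symm.map_eq_zero_iff]
    exact hκ₁k x
  have hd : Module.finrank 𝒪 (M0Of N S c) =
      Module.finrank (MonoidAlgebra 𝒪 (TWGrp p Sig.card × TWGrp (p ^ n) r))
        (HH Nt M hM π 𝒪 (fun ℓ : ↥(primesOutside (S : Set ℕ)) => (ℓ : Nat.Primes))
          (fun ℓ : ↥(primesOutside (S : Set ℕ)) => c' ℓ)) :=
    finrank_eq_of_ctl (M0 := M0Of N S c) b' κ hκs hκk
  rw [hd]
  -- the index map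
  let idx : ∀ ℓ : Nat.Primes, (ℓ : ℕ) ∉ Sbig → ↥(primesOutside (S : Set ℕ)) := fun ℓ h =>
    ⟨ℓ, fun hS' => h (by rw [hSbigdef]; exact Finset.mem_union_left _ (Finset.mem_coe.mp hS'))⟩
  have hidx : ∀ (ℓ : Nat.Primes) (h : (ℓ : ℕ) ∉ Sbig),
      ((idx ℓ h : ↥(primesOutside (S : Set ℕ))) : Nat.Primes) = ℓ := fun _ _ => rfl
  have hnotQ : ∀ {ℓ : ℕ}, ℓ ∉ Sbig → ∀ j, Q j ≠ ℓ := by
    intro ℓ h j hj
    apply h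
    rw [hSbigdef]
    exact Finset.mem_union_right _ (Finset.mem_image.mpr ⟨j, Finset.mem_univ j, hj⟩)
  have hδ := twGen_bijective (p ^ n) r
  have hδpow := twGen_pow_card (p ^ n) r
  have hκT : ∀ (ℓ : ℕ) (hℓ : ℓ.Prime) (hℓN : ¬ ℓ ∣ N) (hℓS : ℓ ∉ (S : Set ℕ)),
      ℓ ∉ Finset.univ.image Q → ∀ x, κ (TtH Nt M hM π σ hπs 𝒪
        (fun ℓ : ↥(primesOutside (S : Set ℕ)) => (ℓ : Nat.Primes))
        (fun ℓ : ↥(primesOutside (S : Set ℕ)) => c' ℓ) hTS Sbig idx ⟨ℓ, hℓ⟩ x) =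
        datum.π (CuspForm.heckeAlgebra.T hℓ hℓN hℓS) • κ x := by
    intro ℓ hℓ hℓN hℓS hℓQ x
    have hℓb : ((⟨ℓ, hℓ⟩ : Nat.Primes) : ℕ) ∉ Sbig := by
      rw [hSbigdef, Finset.mem_union, not_or]
      exact ⟨fun h => hℓS (Finset.mem_coe.mpr h), hℓQ⟩
    rw [TtH_of_notMem _ _ _ _ _ _ _ _ _ _ _ _ hℓb, Module.End.mul_apply, smulEnd_apply]
    show φ.symm (κ₁ _) = _ • φ.symm (κ₁ x)
    have h1 := ctl_smul (Δ := TWGrp p Sig.card × TWGrp (p ^ n) r)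
      (H := HH Nt M hM π 𝒪 (fun ℓ : ↥(primesOutside (S : Set ℕ)) => (ℓ : Nat.Primes))
        (fun ℓ : ↥(primesOutside (S : Set ℕ)) => c' ℓ))
      (M0 := ↥(primaryPart (fun ℓ : ↥(primesOutside (S : Set ℕ)) =>
          GR.heckeParP Nt (ℓ : Nat.Primes) 𝒪 𝒪)
        (fun ℓ : ↥(primesOutside (S : Set ℕ)) => c' ℓ))) κ₁ hκ₁k
      (MonoidAlgebra.of 𝒪 (TWGrp p Sig.card × TWGrp (p ^ n) r) (sigAt M σ ℓ)⁻¹)
      (Top Nt M hM π hπs 𝒪 (fun ℓ : ↥(primesOutside (S : Set ℕ)) => (ℓ : Nat.Primes))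
        (fun ℓ : ↥(primesOutside (S : Set ℕ)) => c' ℓ) hTS (idx ⟨ℓ, hℓ⟩ hℓb) x)
    rw [augHom_of, one_smul] at h1
    rw [h1, LinearEquiv.symm_apply_eq]
    apply Subtype.ext
    rw [hφ ⟨ℓ, hℓ⟩ (hnotQ hℓb) (φ.symm (κ₁ x)) _ (hTact ℓ hℓ hℓN hℓS _),
      φ.apply_symm_apply]
    exact hκ₁T (idx ⟨ℓ, hℓ⟩ hℓb) x _ rfl
  -- the character `ψ₂`
  have hψ₂ : ∀ δ₁ : TWGrp p Sig.card, ∃ c₁ : 𝒪, ((ψ₂ δ₁ : 𝒪ˣ) : 𝒪) - 1 = lam * c₁ := by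
    intro δ₁
    obtain ⟨j, hj⟩ := hψpow δ₁
    rw [hj]
    exact exists_sub_one_eq_mul hpO hζ.pow_eq_one hlam j
  -- the constants are residually `θ`
  have hcθ : ∀ (ℓ : ℕ) (hℓ : ℓ.Prime) (hℓN : ¬ ℓ ∣ N) (hℓS : ℓ ∉ (S : Set ℕ))
      (hℓb : ((⟨ℓ, hℓ⟩ : Nat.Primes) : ℕ) ∉ Sbig),
      residue 𝒪 ((fun ℓ : ↥(primesOutside (S : Set ℕ)) => c' ℓ) (idx ⟨ℓ, hℓ⟩ hℓb)) =
        θ (CuspForm.heckeAlgebra.T hℓ hℓN hℓS) := by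
    intro ℓ hℓ hℓN hℓS hℓb
    show residue 𝒪 (c' ⟨ℓ, hℓ⟩) = _
    rw [hc'c _ (hnotQ hℓb)]
    exact hc ℓ hℓ hℓN hℓS
  have hocc₁ := sideX_occ Nt M hM π σ hπs 𝒪
    (fun ℓ : ↥(primesOutside (S : Set ℕ)) => (ℓ : Nat.Primes))
    (fun ℓ : ↥(primesOutside (S : Set ℕ)) => c' ℓ) hTS Sbig idx hidx
    (1 : TWGrp p Sig.card →* 𝒪ˣ) (twGen (p ^ n) r) hδ hδpow b' 1 Sig uQ uS δS hG1 hG2 hG3
    (fun _ _ => rfl) hRes hTwA hTwB hTwC hTwD hSSB hSS hOcc hp5 hpO hpG Nbig hMsq hcop hNbig'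
    hNt1 hσ2 hSbig lam hlam θ hcθ
  have hocc₂ := sideX_occ Nt M hM π σ hπs 𝒪
    (fun ℓ : ↥(primesOutside (S : Set ℕ)) => (ℓ : Nat.Primes))
    (fun ℓ : ↥(primesOutside (S : Set ℕ)) => c' ℓ) hTS Sbig idx hidx
    ψ₂ (twGen (p ^ n) r) hδ hδpow b' ζ Sig uQ uS δS hG1 hG2 hG3
    hψζ hRes hTwA hTwB hTwC hTwD hSSB hSS hOcc hp5 hpO hpG Nbig hMsq hcop hNbig'
    hNt1 hσ2 hSbig lam hlam θ hcθ
  subst hSbigdef
  exact nonempty_twModLevel p datum Sig ζ lam r _ (M0Of N S c) n Q Nt Nbig ψ₂ hψ₂ _ _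
    (twGen (p ^ n) r) hδ hδpow b' uQ huQ uS huS hocc₁ hocc₂ κ hκs hκk hκT

end Level

/-- **[TWMOD]: `TWModStatement` from the leaves.** -/
theorem twModStatement_of_leaves (hT3 : T3IterStatement) (hL0 : Level0Statement)
    (hGrp : GrpDataStatement) (hRes : ResidStatement) (hZero : ZeroPrimStatement)
    (hTwA : TwExistsStatement) (hTwB : TwParabolicStatement) (hTwC : TwHeckeStatement)
    (hTwD : TwInjStatement) (hSSB : SSBigStatement) (hSS : SideReducedStatement)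
    (hOcc : SideOccStatement) : TWModStatement := by
  intro 𝒪 _ _ _ _ _ _ p _ hp5 hpO ζ hζ lam hlam N _ hNsq hpN h2N S hS θ T _ _ _ _ _ _ _ _ datum
    hfull hNE Sig hSig
  classical
  have hcex : ∀ ℓ : Nat.Primes, ∃ c₀ : 𝒪, ∀ (hℓN : ¬ (ℓ : ℕ) ∣ N)
      (hℓS : (ℓ : ℕ) ∉ (S : Set ℕ)),
      residue 𝒪 c₀ = θ (CuspForm.heckeAlgebra.T ℓ.2 hℓN hℓS) := by
    intro ℓ
    by_cases h : ¬ (ℓ : ℕ) ∣ N ∧ (ℓ : ℕ) ∉ (S : Set ℕ)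
    · obtain ⟨c₀, hc₀⟩ := residue_surjective (θ (CuspForm.heckeAlgebra.T ℓ.2 h.1 h.2))
      exact ⟨c₀, fun _ _ => hc₀⟩
    · exact ⟨0, fun h1 h2 => absurd ⟨h1, h2⟩ h⟩
  choose c hc' using hcex
  have hc : ∀ (ℓ : ℕ) (hℓ : ℓ.Prime) (hℓN : ¬ ℓ ∣ N) (hℓS : ℓ ∉ (S : Set ℕ)),
      residue 𝒪 (c ⟨ℓ, hℓ⟩) = θ (CuspForm.heckeAlgebra.T hℓ hℓN hℓS) :=
    fun ℓ hℓ hℓN hℓS => hc' ⟨ℓ, hℓ⟩ hℓN hℓS
  obtain ⟨instM, instST, hfree, hfin, hpos, hfaith, hTact⟩ :=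
    hL0 p hp5 hpO N S hS θ T datum hfull c hc
  refine ⟨Module.finrank 𝒪 (M0Of N S c), hpos, M0Of N S c, inferInstance, inferInstance, instM,
    instST, hfree, hfin, rfl, hfaith, ?_⟩
  intro r n Q hQinj hQp hQS hQn hQ1 hQr Nt Nbig _ _ hNt hNbig
  exact nonempty_twModLevel_of_leaves hT3 hGrp hRes hZero hTwA hTwB hTwC hTwD hSSB hSS hOcc p
    hp5 hpO ζ hζ lam hlam N hNsq h2N S hS θ datum hNE Sig hSig c hc hTact r n Q hQinj hQp hQS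
    hQn hQ1 hQr Nt Nbig hNt hNbig

end Fermat.Agent.RB.TWM
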