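/-
RB = S43 via Ihara avoidance, package [TWMOD], leaf **[RESID]** (helper9): the twisted Hecke
operators of the concrete sides `sideX` are residually the constants `c`
(`ResidStatement` of `TWMOD_helper2_Targets3`).

Route: an endomorphism `f` is "nilpotent modulo `lam`" (`NilLam`) if some power has its range in
`lam • P`; the endomorphisms with range in `lam • P` form a two-sided ideal (`InLam`), so `NilLam`
is stable under sums and products of commuting endomorphisms.  On the primary part `H` every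
`T i - c i` is `NilLam` (noetherian chain + the idempotent projector `𝓜 → H`), `[δ] - 1` is `NilLam`
for `δ` of `p`-power order, and everything descends to the side.
-/
import Mathlib
import Fermat.Agent.RB.TWMOD_helper2_Targets3

set_option autoImplicit false
set_option linter.unusedSectionVars false
set_option linter.unusedVariables false
set_option linter.style.haveILetI false

namespace Fermat.Agent.RB.TWM

open IsLocalRing

section InLam

variable {O : Type*} [CommRing O] {R : Type*} [CommRing R] [Algebra O R]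
variable {P : Type*} [AddCommGroup P] [Module R P] [Module O P] [IsScalarTower O R P]

/-- the range of `f` is contained in `lam • P`. -/
def InLam (lam : O) (f : Module.End R P) : Prop := ∀ x, ∃ x', f x = lam • x'

variable {lam : O} {f g : Module.End R P}

theorem InLam.zero : InLam lam (0 : Module.End R P) := fun x =>
  ⟨0, by rw [LinearMap.zero_apply, smul_zero]⟩

theorem InLam.add (hf : InLam lam f) (hg : InLam lam g) : InLam lam (f + g) := fun x => by
  obtain ⟨a, ha⟩ := hf x
  obtain ⟨b, hb⟩ := hg x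
  exact ⟨a + b, by rw [LinearMap.add_apply, ha, hb, smul_add]⟩

theorem InLam.mul_left (g : Module.End R P) (hf : InLam lam f) : InLam lam (g * f) := fun x => by
  obtain ⟨a, ha⟩ := hf x
  exact ⟨g a, by rw [Module.End.mul_apply, ha, LinearMap.map_smul_of_tower]⟩

theorem InLam.mul_right (hf : InLam lam f) (g : Module.End R P) : InLam lam (f * g) := fun x => by
  obtain ⟨a, ha⟩ := hf (g x)
  exact ⟨a, by rw [Module.End.mul_apply, ha]⟩

theorem InLam.sum {ι : Type*} (s : Finset ι) (F : ι → Module.End R P)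
    (h : ∀ i ∈ s, InLam lam (F i)) : InLam lam (∑ i ∈ s, F i) :=
  Finset.sum_induction F (InLam lam) (fun _ _ => InLam.add) InLam.zero h

/-- nilpotent modulo `lam`. -/
def NilLam (lam : O) (f : Module.End R P) : Prop := ∃ k : ℕ, InLam lam (f ^ k)

theorem InLam.nilLam (h : InLam lam f) : NilLam lam f := ⟨1, by rwa [pow_one]⟩

theorem NilLam.mul_left (hf : NilLam lam f) (g : Module.End R P) (hc : Commute g f) :
    NilLam lam (g * f) := by
  obtain ⟨k, hk⟩ := hf
  exact ⟨k, by rw [hc.mul_pow]; exact hk.mul_left _⟩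

theorem NilLam.add (hf : NilLam lam f) (hg : NilLam lam g) (hc : Commute f g) :
    NilLam lam (f + g) := by
  obtain ⟨k, hk⟩ := hf
  obtain ⟨l, hl⟩ := hg
  refine ⟨k + l, ?_⟩
  rw [hc.add_pow]
  refine InLam.sum _ _ (fun m hm => ?_)
  by_cases hkm : k ≤ m
  · have e : f ^ m = f ^ (m - k) * f ^ k := by rw [← pow_add, Nat.sub_add_cancel hkm]
    rw [e]
    exact ((hk.mul_left _).mul_right _).mul_right _
  · have hl' : l ≤ k + l - m := by omega
    have e : g ^ (k + l - m) = g ^ (k + l - m - l) * g ^ l := by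
      rw [← pow_add, Nat.sub_add_cancel hl']
    rw [e]
    exact ((hl.mul_left _).mul_left _).mul_right _

/-- a constant in `(lam)` -/
theorem inLam_algebraMap {a : O} (ha : lam ∣ a) :
    InLam lam (algebraMap O (Module.End R P) a) := fun x => by
  obtain ⟨t, rfl⟩ := ha
  exact ⟨t • x, by rw [Module.algebraMap_end_apply, mul_smul]⟩

theorem smulEnd_pow_apply (b : R) (k : ℕ) (x : P) : (smulEnd (H := P) b ^ k) x = b ^ k • x := by
  induction k generalizing x with
  | zero => rw [pow_zero, pow_zero, Module.End.one_apply, one_smul]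
  | succ k ih => rw [pow_succ, Module.End.mul_apply, smulEnd_apply, ih, pow_succ, mul_smul]

theorem smulEnd_sub_one (a : R) : smulEnd (H := P) a - 1 = smulEnd (a - 1) := by
  apply LinearMap.ext
  intro x
  rw [LinearMap.sub_apply, smulEnd_apply, smulEnd_apply, Module.End.one_apply, sub_smul, one_smul]

/-- **`[δ] - 1` is nilpotent modulo `lam`** for an element of `p`-power order. -/
theorem nilLam_smulEnd_sub_one {p : ℕ} (hp : p.Prime) (hp2 : p ≠ 2) (hlam : lam ∣ (p : O))
    (a : R) {m : ℕ} (ha : a ^ p ^ m = 1) : NilLam lam (smulEnd (H := P) a - 1) := by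
  refine ⟨p ^ m, fun x => ?_⟩
  obtain ⟨r, hr⟩ := exists_add_pow_prime_pow_eq hp a (-1) m
  have hodd : Odd (p ^ m) := (hp.odd_of_ne_two hp2).pow
  have h1 : (a - 1) ^ p ^ m = (p : R) * (-(a * r)) := by
    rw [sub_eq_add_neg, hr, ha, hodd.neg_one_pow]
    ring
  obtain ⟨t, ht⟩ := hlam
  refine ⟨t • ((-(a * r)) • x), ?_⟩
  rw [smulEnd_sub_one, smulEnd_pow_apply, h1, mul_smul, ← mul_smul lam t, ← ht,
    Nat.cast_smul_eq_nsmul, Nat.cast_smul_eq_nsmul]

end InLam

section Primary

variable {O : Type*} [CommRing O] [IsLocalRing O] [IsNoetherianRing O]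
  [IsAdicComplete (maximalIdeal O) O]
variable {R : Type*} [CommRing R] [Algebra O R]
variable {𝓜 : Type*} [AddCommGroup 𝓜] [Module R 𝓜] [Module O 𝓜] [IsScalarTower O R 𝓜]
  [Module.Finite O 𝓜]
variable {I : Type*} {T : I → Module.End R 𝓜} {Par : Submodule R 𝓜} {c : I → O} {i₀ : I} {n₀ : O}

/-- **on the primary part every `T i - c i` is nilpotent modulo `lam`.** -/
theorem nilLam_restrict_sub (hTS : TwoStage T Par c i₀ n₀) {lam : O}
    (hlam : maximalIdeal O = Ideal.span {lam}) (i : I) :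
    NilLam lam ((T i).restrict (fun _ hx => hTS.apply_mem_primaryPartR i hx) -
      algebraMap O (Module.End R ↥(primaryPartR T c)) (c i)) := by
  classical
  set Fm : Module.End R 𝓜 := T i - algebraMap O (Module.End R 𝓜) (c i) with hFm
  set Fh : Module.End R ↥(primaryPartR T c) :=
    (T i).restrict (fun _ hx => hTS.apply_mem_primaryPartR i hx) -
      algebraMap O (Module.End R ↥(primaryPartR T c)) (c i) with hFh
  haveI : IsNoetherian O 𝓜 := isNoetherian_of_isNoetherianRing_of_finite O 𝓜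
  haveI : IsNoetherian O ↥(primaryPartR T c) :=
    isNoetherian_of_injective ((primaryPartR T c).subtype.restrictScalars O)
      Subtype.val_injective
  haveI : Module.Finite O ↥(primaryPartR T c) := Module.IsNoetherian.finite O _
  have hcoe : ∀ (k : ℕ) (x : ↥(primaryPartR T c)),
      (((Fh ^ k) x : ↥(primaryPartR T c)) : 𝓜) = (Fm ^ k) (x : 𝓜) := fun k x =>
    map_pow_sub_algebraMap_apply ((primaryPartR T c).subtype.restrictScalars O)
      ((T i).restrict (fun _ hx => hTS.apply_mem_primaryPartR i hx)) (T i) (fun _ => rfl)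
      (c i) k x
  -- the increasing chain of the kernels modulo `𝔪`
  let Nk : ℕ →o Submodule O ↥(primaryPartR T c) :=
    { toFun := fun k => Submodule.comap
        (((Fm ^ k).restrictScalars O).comp ((primaryPartR T c).subtype.restrictScalars O))
        (maximalIdeal O • ⊤ : Submodule O 𝓜)
      monotone' := by
        intro k k' hkk' x hx
        rw [Submodule.mem_comap] at hx ⊢
        have e : Fm ^ k' = Fm ^ (k' - k) * Fm ^ k := by
          rw [← pow_add, Nat.sub_add_cancel hkk']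
        show (Fm ^ k') (x : 𝓜) ∈ _
        rw [e, Module.End.mul_apply]
        exact end_apply_mem_smul_top' _ _ hx }
  obtain ⟨k, hk⟩ := monotone_stabilizes_iff_noetherian.mpr inferInstance Nk
  have hall : ∀ x : ↥(primaryPartR T c), (Fm ^ k) (x : 𝓜) ∈
      (maximalIdeal O • ⊤ : Submodule O 𝓜) := by
    intro x
    obtain ⟨k', hk'⟩ := x.2 i 1
    rw [pow_one] at hk'
    have h1 : x ∈ Nk k' := hk'
    have h2 : x ∈ Nk (max k k') := Nk.monotone (le_max_right k k') h1
    rw [← hk (max k k') (le_max_left k k')] at h2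
    exact h2
  obtain ⟨e, he, hrange⟩ := hTS.exists_idem
  refine ⟨k, fun x => ?_⟩
  have h1 := hall x
  rw [hlam, Submodule.ideal_span_singleton_smul] at h1
  obtain ⟨z, -, hz⟩ := (Submodule.mem_smul_pointwise_iff_exists _ _ _).mp h1
  have hy : (((Fh ^ k) x : ↥(primaryPartR T c)) : 𝓜) ∈ LinearMap.range e := by
    rw [hrange]
    exact ((Fh ^ k) x).2
  obtain ⟨w, hw⟩ := hy
  have hey : e (((Fh ^ k) x : ↥(primaryPartR T c)) : 𝓜) =
      (((Fh ^ k) x : ↥(primaryPartR T c)) : 𝓜) := by
    rw [← hw, ← Module.End.mul_apply, he]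
  have hez : e z ∈ primaryPartR T c := by
    rw [← hrange]
    exact ⟨z, rfl⟩
  refine ⟨⟨e z, hez⟩, Subtype.ext ?_⟩
  rw [Submodule.coe_smul_of_tower, ← hey, hcoe, ← hz, LinearMap.map_smul_of_tower]

end Primary

section Descent

variable {O : Type*} [CommRing O] {R R₂ : Type*} [CommRing R] [CommRing R₂] [Algebra O R]
  [Algebra O R₂] (φ : R →ₐ[O] R₂) (s : R₂ →ₐ[O] R)
variable {H : Type*} [AddCommGroup H] [Module R H] [Module O H] [IsScalarTower O R H]

theorem sideEnd_algebraMap (a : O) :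
    sideEnd φ s (algebraMap O (Module.End R H) a) =
      algebraMap O (Module.End O (SideQ φ H s)) a :=
  sideEnd_ext φ s fun x => by
    rw [sideEnd_mk, Module.algebraMap_end_apply, Module.algebraMap_end_apply, sideMk_smul_O]

theorem sideEnd_sub_algebraMap (f : Module.End R H) (a : O) :
    sideEnd φ s (f - algebraMap O (Module.End R H) a) =
      sideEnd φ s f - algebraMap O (Module.End O (SideQ φ H s)) a := by
  rw [← sideEndHom_apply, map_sub, sideEndHom_apply, sideEndHom_apply, sideEnd_algebraMap]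

theorem decomp_aux {E : Type*} [Ring E] (A B γ γ₀ : E) (h : A * γ = γ * A) :
    A * B - γ₀ = A * (B - γ) + γ * (A - 1) + (γ - γ₀) := by
  rw [mul_sub, mul_sub, mul_one, h]
  abel

/-- descent of `NilLam` to the side. -/
theorem NilLam.side {lam : O} {f : Module.End R H} (hf : NilLam lam f) :
    ∃ k : ℕ, ∀ h : SideQ φ H s, ∃ h' : SideQ φ H s, ((sideEnd φ s f) ^ k) h = lam • h' := by
  obtain ⟨k, hk⟩ := hf
  refine ⟨k, fun h => ?_⟩
  obtain ⟨x, rfl⟩ := sideMk_surjective φ s h
  obtain ⟨x', hx'⟩ := hk x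
  refine ⟨sideMk φ s x', ?_⟩
  have e : sideEnd φ s f ^ k = sideEnd φ s (f ^ k) := by
    rw [← sideEndHom_apply, ← sideEndHom_apply, map_pow]
  rw [e, sideEnd_mk, hx', sideMk_smul_O]

end Descent

/-- **[RESID]**. -/
theorem residStatement : ResidStatement := by
  intro Nt M _ hM Δ₁ Δ₂ _ _ _ _ π σ hπ O _ _ _ _ _ I ι c i₀ n₀ hTS Sbig idx p r d n hp hp2 hpO hΔ
    ψ δ hδ hδpow b lam hlam ℓ hℓ c₀ hc₀
  have hmax : maximalIdeal O = Ideal.span {lam} := hlam.maximalIdeal_eq
  have hdvd : ∀ a ∈ maximalIdeal O, lam ∣ a := fun a ha => by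
    rw [hmax] at ha
    exact Ideal.mem_span_singleton.1 ha
  set a : MonoidAlgebra O (Δ₁ × Δ₂) := MonoidAlgebra.of O (Δ₁ × Δ₂) (sigAt M σ ℓ)⁻¹ with ha
  set A : Module.End (MonoidAlgebra O (Δ₁ × Δ₂)) (HH Nt M hM π O ι c) := smulEnd a with hA
  set B : Module.End (MonoidAlgebra O (Δ₁ × Δ₂)) (HH Nt M hM π O ι c) :=
    Top Nt M hM π hπ O ι c hTS (idx ℓ hℓ) with hB
  set γ : Module.End (MonoidAlgebra O (Δ₁ × Δ₂)) (HH Nt M hM π O ι c) :=
    algebraMap O _ (c (idx ℓ hℓ)) with hγ
  set γ₀ : Module.End (MonoidAlgebra O (Δ₁ × Δ₂)) (HH Nt M hM π O ι c) :=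
    algebraMap O _ c₀ with hγ₀
  set γd : Module.End (MonoidAlgebra O (Δ₁ × Δ₂)) (HH Nt M hM π O ι c) :=
    algebraMap O _ (c (idx ℓ hℓ) - c₀) with hγd
  have hN1 : NilLam lam (B - γ) := nilLam_restrict_sub hTS hmax (idx ℓ hℓ)
  obtain ⟨m, hm⟩ := hΔ (sigAt M σ ℓ)⁻¹
  have ham : a ^ p ^ m = 1 := by rw [ha, ← map_pow, hm, map_one]
  have hN2 : NilLam lam (A - 1) := nilLam_smulEnd_sub_one hp hp2 (hdvd _ hpO) a ham
  have hN3 : InLam lam γd := by
    refine inLam_algebraMap (hdvd _ ?_)
    have := (maximalIdeal O).neg_mem hc₀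
    rwa [neg_sub] at this
  have hAall : ∀ f : Module.End (MonoidAlgebra O (Δ₁ × Δ₂)) (HH Nt M hM π O ι c),
      Commute A f := fun f => smulEnd_commute a f
  have hγall : ∀ f : Module.End (MonoidAlgebra O (Δ₁ × Δ₂)) (HH Nt M hM π O ι c),
      Commute γ f := fun f => Algebra.commute_algebraMap_left _ f
  have hdecomp : TtH Nt M hM π σ hπ O ι c hTS Sbig idx ℓ - γ₀ =
      A * (B - γ) + γ * (A - 1) + γd := by
    have e0 : TtH Nt M hM π σ hπ O ι c hTS Sbig idx ℓ = A * B :=
      TtH_of_notMem _ _ _ _ _ _ _ _ _ _ _ _ hℓ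
    have e1 : A * γ = γ * A := (hγall A).eq.symm
    have e2 : γ - γ₀ = γd := by rw [hγ, hγ₀, hγd, map_sub]
    exact (congrArg (fun z => z - γ₀) e0).trans ((decomp_aux A B γ γ₀ e1).trans
      (congrArg (fun z => A * (B - γ) + γ * (A - 1) + z) e2))
  have hnil : NilLam lam (TtH Nt M hM π σ hπ O ι c hTS Sbig idx ℓ - γ₀) := by
    rw [hdecomp]
    refine ((hN1.mul_left A (hAall _)).add (hN2.mul_left γ (hγall _)) ?_).add hN3.nilLam ?_
    · refine Commute.mul_left (hAall _) (Commute.mul_right (hγall _).symm ?_)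
      have h1 : A - 1 = smulEnd (a - 1) := smulEnd_sub_one a
      rw [h1]
      exact (smulEnd_commute (a - 1) (B - γ)).symm
    · exact Algebra.commute_algebraMap_right _ _
  obtain ⟨k, hk⟩ := hnil.side (specHom O Δ₂ ψ) (secHom O Δ₁ Δ₂)
  refine ⟨k, fun h => ?_⟩
  obtain ⟨h', hh'⟩ := hk h
  refine ⟨h', ?_⟩
  have e := sideEnd_sub_algebraMap (specHom O Δ₂ ψ) (secHom O Δ₁ Δ₂)
    (TtH Nt M hM π σ hπ O ι c hTS Sbig idx ℓ) c₀
  show ((sideEnd (specHom O Δ₂ ψ) (secHom O Δ₁ Δ₂) (TtH Nt M hM π σ hπ O ι c hTS Sbig idx ℓ) -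
    algebraMap O (Module.End O (SideQ (specHom O Δ₂ ψ) (HH Nt M hM π O ι c)
      (secHom O Δ₁ Δ₂))) c₀) ^ k) h = lam • h'
  rw [← e]
  exact hh'

end Fermat.Agent.RB.TWM
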