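/-
RB = S43 via Ihara avoidance, package [TWMOD], leaf **[ZERO-PRIM]** (lead): for trivial
coefficients the primary part of `𝓜 = H¹(Γ₀(N), 𝒪[1])` is carried by helper2's `zeroEquiv` onto the
primary part of `Hom_par(Γ₀(N), 𝒪)`.

* `zeroPrimStatement : ZeroPrimStatement` (helper2's literal, RB/TWMOD_helper2_Targets3.lean).
-/
import Mathlib
import Fermat.Agent.RB.TWMOD_helper2_Targets3

set_option autoImplicit false
set_option linter.unusedSectionVars false
set_option linter.unusedVariables false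

namespace Fermat.Agent.RB.TWM

open CongruenceSubgroup Matrix ModularCurve.Period IsLocalRing
open scoped MatrixGroups
open Fermat.Agent.GR Fermat.Agent.W1 Fermat.Agent.W1.ES

section Sat

variable {O : Type} [CommRing O] [IsDomain O] [IsDiscreteValuationRing O]
variable (Γ : Subgroup SL(2, ℤ))

/-- **`Hom_par` is saturated in `Hom`**: a parabolic homomorphism in `𝔪ⁿ • Hom(Γ, 𝒪)` lies in
`𝔪ⁿ • Hom_par(Γ, 𝒪)`. -/
theorem mem_smul_top_parabolicHoms {n : ℕ} (y : ↥(parabolicHoms O Γ O))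
    (hy : (y : Additive ↥Γ →+ O) ∈
      (maximalIdeal O ^ n • ⊤ : Submodule O (Additive ↥Γ →+ O))) :
    y ∈ (maximalIdeal O ^ n • ⊤ : Submodule O ↥(parabolicHoms O Γ O)) := by
  obtain ⟨ϖ, hϖ⟩ := IsDiscreteValuationRing.exists_irreducible O
  have hne : ϖ ^ n ≠ 0 := pow_ne_zero _ hϖ.ne_zero
  rw [hϖ.maximalIdeal_eq, Ideal.span_singleton_pow] at hy ⊢
  rw [Submodule.ideal_span_singleton_smul, Submodule.mem_smul_pointwise_iff_exists] at hy ⊢
  obtain ⟨ψ, -, hψ⟩ := hy
  have hpar : ψ ∈ parabolicHoms O Γ O := by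
    intro γ hγ
    have h1 : (y : Additive ↥Γ →+ O) (Additive.ofMul γ) = 0 := y.2 γ hγ
    rw [← hψ] at h1
    have h2 : ϖ ^ n * ψ (Additive.ofMul γ) = 0 := h1
    exact (mul_eq_zero.mp h2).resolve_left hne
  exact ⟨⟨ψ, hpar⟩, Submodule.mem_top, Subtype.ext hψ⟩

/-- the converse (trivial) direction. -/
theorem coe_mem_smul_top_of_mem {n : ℕ} (y : ↥(parabolicHoms O Γ O))
    (hy : y ∈ (maximalIdeal O ^ n • ⊤ : Submodule O ↥(parabolicHoms O Γ O))) :
    (y : Additive ↥Γ →+ O) ∈ (maximalIdeal O ^ n • ⊤ : Submodule O (Additive ↥Γ →+ O)) :=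
  Submodule.smul_top_le_comap_smul_top _ (parabolicHoms O Γ O).subtype hy

end Sat

section Pow

variable {O : Type} [CommRing O] (N : ℕ) [NeZero N]

/-- powers of `T_ℓ - c` on `Hom_par` and on `Hom`. -/
theorem coe_heckeParP_sub_pow (ℓ : Nat.Primes) (c : O) (k : ℕ)
    (y : ↥(parabolicHoms O (Gamma0 N) O)) :
    ((((GR.heckeParP N ℓ O O -
        algebraMap O (Module.End O ↥(parabolicHoms O (Gamma0 N) O)) c) ^ k) y :
          ↥(parabolicHoms O (Gamma0 N) O)) : Additive ↥(Gamma0 N) →+ O) =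
      ((GR.heckeGrpPₗ N ℓ O O -
        algebraMap O (Module.End O (Additive ↥(Gamma0 N) →+ O)) c) ^ k)
          (y : Additive ↥(Gamma0 N) →+ O) := by
  induction k generalizing y with
  | zero => rfl
  | succ k ih =>
    rw [pow_succ, pow_succ, Module.End.mul_apply, Module.End.mul_apply, ih]
    congr 1

variable (M : ℕ) (hM : M ∣ N) (π₁ : (ZMod M)ˣ →* Unit) (hπ₁ : Function.Surjective π₁)
  (htriv : ∀ u, π₁ u = 1)

/-- powers of `T_ℓ - c` on `𝓜` and on `Hom(Γ₀(N), 𝒪)`. -/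
theorem zeroEquiv_sub_pow (ℓ : Nat.Primes) (c : O) (k : ℕ) (x : MM N M hM π₁ O) :
    zeroEquiv N M hM π₁ hπ₁ htriv O
        (((opM N M hM π₁ O ℓ -
          algebraMap O (Module.End (MonoidAlgebra O Unit) (MM N M hM π₁ O)) c) ^ k) x) =
      ((GR.heckeGrpPₗ N ℓ O O -
        algebraMap O (Module.End O (Additive ↥(Gamma0 N) →+ O)) c) ^ k)
          (zeroEquiv N M hM π₁ hπ₁ htriv O x) := by
  induction k generalizing x with
  | zero => rfl
  | succ k ih =>
    rw [pow_succ, pow_succ, Module.End.mul_apply, Module.End.mul_apply, ih]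
    congr 1
    rw [LinearMap.sub_apply, LinearMap.sub_apply, Module.algebraMap_end_apply,
      Module.algebraMap_end_apply, map_sub, map_smul, zeroEquiv_opM]
    rfl

end Pow

section Main

variable {O : Type} [CommRing O] [IsDomain O] [IsDiscreteValuationRing O]
  (N M : ℕ) [NeZero N] (hM : M ∣ N) (π₁ : (ZMod M)ˣ →* Unit)
  (hπ₁ : Function.Surjective π₁) (htriv : ∀ u, π₁ u = 1)
  {I : Type} (ι : I → Nat.Primes) (c : I → O)

/-- the image under `zeroEquiv` of a parabolic primary class is primary. -/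
theorem zeroEquiv_mem_primaryPart {x : MM N M hM π₁ O}
    (hx : x ∈ primaryPartR (fun i => opM N M hM π₁ O (ι i)) c)
    (hpar : zeroEquiv N M hM π₁ hπ₁ htriv O x ∈ parabolicHoms O (Gamma0 N) O) :
    (⟨zeroEquiv N M hM π₁ hπ₁ htriv O x, hpar⟩ : ↥(parabolicHoms O (Gamma0 N) O)) ∈
      primaryPart (fun i : I => GR.heckeParP N (ι i) O O) c := by
  intro i n
  obtain ⟨k, hk⟩ := hx i n
  refine ⟨k, mem_smul_top_parabolicHoms (Gamma0 N) _ ?_⟩
  rw [coe_heckeParP_sub_pow]
  show ((GR.heckeGrpPₗ N (ι i) O O -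
        algebraMap O (Module.End O (Additive ↥(Gamma0 N) →+ O)) (c i)) ^ k)
          (zeroEquiv N M hM π₁ hπ₁ htriv O x) ∈ _
  rw [← zeroEquiv_sub_pow]
  exact Submodule.smul_top_le_comap_smul_top _
    ((zeroEquiv N M hM π₁ hπ₁ htriv O).toLinearMap) hk

/-- the preimage under `zeroEquiv` of a primary parabolic homomorphism is primary. -/
theorem zeroEquiv_symm_mem_primaryPartR
    (y : ↥(primaryPart (fun i : I => GR.heckeParP N (ι i) O O) c)) :
    (zeroEquiv N M hM π₁ hπ₁ htriv O).symm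
        ((y : ↥(parabolicHoms O (Gamma0 N) O)) : Additive ↥(Gamma0 N) →+ O) ∈
      primaryPartR (fun i => opM N M hM π₁ O (ι i)) c := by
  intro i n
  obtain ⟨k, hk⟩ := y.2 i n
  refine ⟨k, ?_⟩
  have h1 := coe_mem_smul_top_of_mem (Gamma0 N) _ hk
  rw [coe_heckeParP_sub_pow] at h1
  have h2 := zeroEquiv_sub_pow N M hM π₁ hπ₁ htriv (ι i) (c i) k
    ((zeroEquiv N M hM π₁ hπ₁ htriv O).symm
      ((y : ↥(parabolicHoms O (Gamma0 N) O)) : Additive ↥(Gamma0 N) →+ O))
  rw [LinearEquiv.apply_symm_apply] at h2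
  rw [← h2] at h1
  have h3 := Submodule.smul_top_le_comap_smul_top (maximalIdeal O ^ n)
    ((zeroEquiv N M hM π₁ hπ₁ htriv O).symm.toLinearMap) h1
  rw [Submodule.mem_comap] at h3
  have h4 : ((zeroEquiv N M hM π₁ hπ₁ htriv O).symm.toLinearMap)
      (zeroEquiv N M hM π₁ hπ₁ htriv O
        (((opM N M hM π₁ O (ι i) -
          algebraMap O (Module.End (MonoidAlgebra O Unit) (MM N M hM π₁ O)) (c i)) ^ k)
            ((zeroEquiv N M hM π₁ hπ₁ htriv O).symm
              ((y : ↥(parabolicHoms O (Gamma0 N) O)) : Additive ↥(Gamma0 N) →+ O)))) =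
      ((opM N M hM π₁ O (ι i) -
          algebraMap O (Module.End (MonoidAlgebra O Unit) (MM N M hM π₁ O)) (c i)) ^ k)
            ((zeroEquiv N M hM π₁ hπ₁ htriv O).symm
              ((y : ↥(parabolicHoms O (Gamma0 N) O)) : Additive ↥(Gamma0 N) →+ O)) :=
    (zeroEquiv N M hM π₁ hπ₁ htriv O).symm_apply_apply _
  rw [h4] at h3
  exact h3

/-- **[ZERO-PRIM]**. -/
theorem zeroPrimStatement : ZeroPrimStatement := by
  intro O _ _ _ _ N M _ hM π₁ hπ₁ htriv I ι c hle
  have hpar : ∀ x : ↥(primaryPartR (fun i => opM N M hM π₁ O (ι i)) c),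
      zeroEquiv N M hM π₁ hπ₁ htriv O (x : MM N M hM π₁ O) ∈ parabolicHoms O (Gamma0 N) O :=
    fun x => (zeroEquiv_mem_parabolicHoms N M hM π₁ hπ₁ htriv O _).mpr (hle x.2)
  let f : ↥(primaryPartR (fun i => opM N M hM π₁ O (ι i)) c) →ₗ[O]
      ↥(primaryPart (fun i : I => GR.heckeParP N (ι i) O O) c) :=
    { toFun := fun x => ⟨⟨zeroEquiv N M hM π₁ hπ₁ htriv O (x : MM N M hM π₁ O), hpar x⟩,
        zeroEquiv_mem_primaryPart N M hM π₁ hπ₁ htriv ι c x.2 (hpar x)⟩
      map_add' := fun x y => by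
        apply Subtype.ext
        apply Subtype.ext
        show zeroEquiv N M hM π₁ hπ₁ htriv O ((x : MM N M hM π₁ O) + (y : MM N M hM π₁ O)) = _
        rw [map_add]
        rfl
      map_smul' := fun a x => by
        apply Subtype.ext
        apply Subtype.ext
        show zeroEquiv N M hM π₁ hπ₁ htriv O (a • (x : MM N M hM π₁ O)) = _
        rw [map_smul]
        rfl }
  have hf : ∀ x, (((f x : ↥(primaryPart (fun i : I => GR.heckeParP N (ι i) O O) c)) :
      ↥(parabolicHoms O (Gamma0 N) O)) : Additive ↥(Gamma0 N) →+ O) =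
        zeroEquiv N M hM π₁ hπ₁ htriv O (x : MM N M hM π₁ O) := fun x => rfl
  have hbij : Function.Bijective f := by
    constructor
    · intro x y hxy
      apply Subtype.ext
      apply (zeroEquiv N M hM π₁ hπ₁ htriv O).injective
      rw [← hf x, ← hf y, hxy]
    · intro y
      refine ⟨⟨_, zeroEquiv_symm_mem_primaryPartR N M hM π₁ hπ₁ htriv ι c y⟩, ?_⟩
      apply Subtype.ext
      apply Subtype.ext
      rw [hf]
      exact (zeroEquiv N M hM π₁ hπ₁ htriv O).apply_symm_apply _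
  exact ⟨LinearEquiv.ofBijective f hbij, fun x => hf x⟩

end Main

end Fermat.Agent.RB.TWM
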