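/-
PROJECT RB — ARCHITECT (helper9) — INTERFACE FILE 1/4: the top of the proof of S43.

* `FrobScalarAt P q`     : "`q ∈ Σ`": `q ≡ 1 mod p` and every Frobenius at `q` acts on `E[p]` as a
                           scalar.
* `MazurPrinciple`       : [MAZ] (owner helper6): at a level `M' * q`, `ρ̄` unramified at `q`:
                           level `M'`, or `q ∈ Σ`.
* `IharaAvoidanceFrey`   : [IA] (the whole RB pipeline: HYG + TWMOD + REP_T + KEY-H + SEL + PATCH +
                           LOC + CA + NewRamified): at a MINIMAL level `M₀` (prime to `p`) all of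
                           whose odd primes with `ρ̄` unramified are in `Σ`, there is no odd prime at
                           which `ρ̄` is unramified.
* `s43_of_mazur_ihara`   : PROVED here: `S44 → MazurPrinciple → IharaAvoidanceFrey → S43`.

Everybody builds against these literals; changes only through helper9.
-/
import Mathlib
import Fermat.Prelude.Def_FLTPrelim_FreyPackage
import Fermat.Prelude.Def_FLTPrelim_GaloisRep
import Fermat.Prelude.Def_FLTPrelim_Modularity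
import Fermat.Prelude.Def_FLTPrelim_ModularRep
import Fermat.Prelude.Def_FLTPrelim_Ramification
import Fermat.Prelude.Def_FreyPackage_IsConductorLevel
import Fermat.Prelude.Def_EllipticCurve_FrobeniusTrace

set_option autoImplicit false

open WeierstrassCurve WeierstrassCurve.Affine WeierstrassCurve.Affine.Point

namespace Fermat.Agent.RB

/-- **"`q ∈ Σ`"**: `q ≡ 1 mod p` and every Frobenius element at `q` acts on `E[p]` as a scalar. -/
def FrobScalarAt (P : FreyPackage) (q : ℕ) : Prop :=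
  q ≡ 1 [MOD P.p] ∧
  ∀ A : ValuationSubring (AlgebraicClosure ℚ), A.LiesOverPrime q →
    ∀ φ : AlgebraicClosure ℚ ≃ₐ[ℚ] AlgebraicClosure ℚ, A.IsFrobeniusAt φ q →
      ∃ c : ℤ, ∀ x : Submodule.torsionBy ℤ
          (P.freyCurve.toAffine⁄(AlgebraicClosure ℚ)).Point P.p, φ • x = c • x

/-- **[MAZ] Mazur's principle** at an odd prime `q ≠ p` exactly dividing the level (owner:
helper6). -/
def MazurPrinciple : Prop :=
  ∀ (P : FreyPackage) {M' q : ℕ}, P.IsConductorLevel (M' * q) → q.Prime → q ≠ 2 → q ≠ P.p →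
    ¬ q ∣ M' →
    GaloisRepIsIrreducible (K := AlgebraicClosure ℚ) ℚ P.freyCurve P.p →
    P.GaloisRepUnramifiedAt q → P.ModularRepOfLevel (M' * q) →
    P.ModularRepOfLevel M' ∨ FrobScalarAt P q

/-- **[IA] Ihara avoidance for the Frey curve** (the output of the whole RB pipeline). -/
def IharaAvoidanceFrey : Prop :=
  ∀ (P : FreyPackage) {M₀ : ℕ}, P.IsConductorLevel M₀ → ¬ P.p ∣ M₀ →
    GaloisRepIsIrreducible (K := AlgebraicClosure ℚ) ℚ P.freyCurve P.p →
    P.ModularRepOfLevel M₀ →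
    (∀ M : ℕ, M ∣ M₀ → M ≠ M₀ → ¬ P.ModularRepOfLevel M) →
    (∀ v : ℕ, v.Prime → v ∣ M₀ → v ≠ 2 → P.GaloisRepUnramifiedAt v → FrobScalarAt P v) →
    ∀ q : ℕ, q.Prime → q ∣ M₀ → q ≠ 2 → P.GaloisRepUnramifiedAt q → False

/-- the statement of S43 -/
def S43Statement : Prop :=
  ∀ (P : FreyPackage) {N q : ℕ}, P.IsConductorLevel N → q.Prime → q ≠ 2 → q ≠ P.p → q ∣ N →
    GaloisRepIsIrreducible (K := AlgebraicClosure ℚ) ℚ P.freyCurve P.p →
    P.ModularRepOfLevel N → P.GaloisRepUnramifiedAt q →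
    ∃ M : ℕ, M ∣ N ∧ ¬ q ∣ M ∧ P.ModularRepOfLevel M

/-- the statement of S44 (on main as `Fermat.Agent.S44.result`; kept as a hypothesis here so that
this file does not drag the closure of S44 into every build) -/
def S44Statement : Prop :=
  ∀ (P : FreyPackage) {N : ℕ}, P.IsConductorLevel N → P.p ∣ N →
    GaloisRepIsIrreducible (K := AlgebraicClosure ℚ) ℚ P.freyCurve P.p →
    P.ModularRepOfLevel N → ∃ M : ℕ, M ∣ N ∧ ¬ P.p ∣ M ∧ P.ModularRepOfLevel M

/-- **[TOP]**: S43 from Mazur's principle and Ihara avoidance (and S44, which is on main). -/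
theorem s43_of_mazur_ihara (hS44 : S44Statement) (hmaz : MazurPrinciple)
    (hia : IharaAvoidanceFrey) : S43Statement := by
  intro P N q hcond hq hq2 hqp hqN hirr hmod hunr
  -- remove `p` from the level
  obtain ⟨M₁, hM₁N, hpM₁, hmodM₁⟩ : ∃ M₁ : ℕ, M₁ ∣ N ∧ ¬ P.p ∣ M₁ ∧ P.ModularRepOfLevel M₁ := by
    by_cases hpN : P.p ∣ N
    · exact hS44 P hcond hpN hirr hmod
    · exact ⟨N, dvd_rfl, hpN, hmod⟩
  -- a minimal level
  have hex : ∃ M : ℕ, M ∣ M₁ ∧ P.ModularRepOfLevel M := ⟨M₁, dvd_rfl, hmodM₁⟩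
  classical
  let M₀ := Nat.find hex
  have hM₀ : M₀ ∣ M₁ ∧ P.ModularRepOfLevel M₀ := Nat.find_spec hex
  have hmin : ∀ M : ℕ, M ∣ M₀ → M ≠ M₀ → ¬ P.ModularRepOfLevel M := by
    intro M hMM₀ hne hmodM
    have hpos : 0 < M₀ := Nat.pos_of_dvd_of_pos (hM₀.1.trans hM₁N) hcond.pos
    have hlt : M < M₀ := lt_of_le_of_ne (Nat.le_of_dvd hpos hMM₀) hne
    exact Nat.find_min hex hlt ⟨hMM₀.trans hM₀.1, hmodM⟩
  have hM₀N : M₀ ∣ N := hM₀.1.trans hM₁N
  have hM₀pos : 0 < M₀ := Nat.pos_of_dvd_of_pos hM₀N hcond.pos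
  have hcond₀ : P.IsConductorLevel M₀ := hcond.of_dvd hM₀N hM₀pos
  have hpM₀ : ¬ P.p ∣ M₀ := fun h => hpM₁ (h.trans hM₀.1)
  by_cases hqM₀ : q ∣ M₀
  · exfalso
    refine hia P hcond₀ hpM₀ hirr hM₀.2 hmin ?_ q hq hqM₀ hq2 hunr
    intro v hv hvM₀ hv2 hvunr
    obtain ⟨M', hM'⟩ := hvM₀
    have hM'' : M₀ = M' * v := by rw [hM', mul_comm]
    have hvM' : ¬ v ∣ M' := by
      intro hdiv
      apply hcond₀.sq_not_dvd hv
      rw [hM'', pow_two]
      exact mul_dvd_mul hdiv dvd_rfl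
    have hvp : v ≠ P.p := fun h => hpM₀ (h ▸ ⟨M', hM'⟩)
    rcases hmaz P (hM'' ▸ hcond₀) hv hv2 hvp hvM' hirr hvunr (hM'' ▸ hM₀.2) with h | h
    · exfalso
      refine hmin M' ⟨v, hM''⟩ ?_ h
      intro hEq
      have h1 : M' * 1 = M' * v := by rw [mul_one]; exact hEq.trans hM''
      have hM'pos : 0 < M' := by
        rcases Nat.eq_zero_or_pos M' with h0 | h0
        · rw [hM'', h0, zero_mul] at hM₀pos; exact absurd hM₀pos (lt_irrefl 0)
        · exact h0
      have := Nat.eq_of_mul_eq_mul_left hM'pos h1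
      exact hv.one_lt.ne this
    · exact h
  · exact ⟨M₀, hM₀N, hqM₀, hM₀.2⟩

end Fermat.Agent.RB
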