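/-
PROJECT RB — ARCHITECT (helper9) — INTERFACE FILE 3/4: the middle of the proof, in the vocabulary
of the Prelude's `CuspForm.HeckeGaloisRepDatum` (the vocabulary of S31–S34, S54).

* `inertiaIdeal ρ v` : the ideal of the coefficient ring generated by the matrix
  entries of `ρ(σ) - 1`, `σ` in an inertia group at `v`  (`ρ ⊗_ψ B` is unramified at `v` iff `ψ`
  kills it).
* `ResFrobScalarAt ρbar v`       : `v ≡ 1 mod p`, `ρ̄` unramified at `v`, Frobenius scalar.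
* `IharaAvoidanceDatum`          : [IA-alg] the output of TWMOD + REP_T + KEY-H + SEL + DC + CORE:
  for the Hecke–Galois datum of the MINIMAL level `N` (squarefree, prime to `p`), with `Σ` the
  set of primes of `N` at which `ρ̄` is unramified (all of them of type `ResFrobScalarAt`),
  the quotient `T ⧸ (inertia ideals at Σ)` is NOT `p`-power torsion, i.e. there is a
  characteristic-zero point of `T` whose representation is unramified at all of `Σ`.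
* `NewRamified`                  : (LGC-St), owner helper6 ([MAZ] package): a characteristic-zero
  point of the datum of level `N` whose representation is unramified at `v ∥ N` occurs at level
  `N / v`.
* `TopIAStatement`               : owner helper1 ([TOP]): `NewRamified → IharaAvoidanceDatum →
  IharaAvoidanceFrey` (needs REP_T (A) `exists_heckeGaloisRepDatum`, the Frey hygiene [HYG] and the
  dictionary complex eigenforms ↔ points of the datum).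
-/
import Mathlib
import Fermat.Prelude.Def_CuspForm_HeckeGaloisRepDatum
import Fermat.Prelude.Def_GaloisRep_LocalConditions
import Fermat.Prelude.Def_GaloisRep_Flat
import Fermat.Prelude.Def_EllipticCurve_FrobeniusTrace
import Fermat.Agent.RB.IFACE_helper9_Top

set_option autoImplicit false

open Polynomial IsLocalRing

namespace Fermat.Agent.RB

/-- the ideal generated by the "matrix entries" of `ρ(σ) - 1`, `σ` in an inertia group at `v` -/
def inertiaIdeal {A : Type} [CommRing A] [IsLocalRing A] (ρ : GaloisRepAdic A) (v : ℕ) : Ideal A :=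
  Ideal.span {a : A | ∃ (P : ValuationSubring (AlgebraicClosure ℚ)) (_ : P.LiesOverPrime v)
    (σ : AlgebraicClosure ℚ ≃ₐ[ℚ] AlgebraicClosure ℚ) (_ : σ ∈ P.inertiaSubgroupIn ℚ)
    (x : ρ.V) (φ : ρ.V →ₗ[A] A), a = φ (ρ.ρ σ x - x)}

/-- **"`v ∈ Σ`" on the residual side**: `v ≡ 1 mod p`, `ρ̄` is unramified at `v` and every
Frobenius at `v` acts as a scalar. -/
def ResFrobScalarAt {k : Type} [Field k] (ρbar : ResidualGaloisRep k) (p v : ℕ) : Prop :=
  v ≡ 1 [MOD p] ∧ ρbar.IsUnramifiedAt v ∧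
  ∀ A : ValuationSubring (AlgebraicClosure ℚ), A.LiesOverPrime v →
    ∀ φ : AlgebraicClosure ℚ ≃ₐ[ℚ] AlgebraicClosure ℚ, A.IsFrobeniusAt φ v →
      ∃ c : k, ρbar.ρ φ = c • (1 : Module.End k ρbar.V)

/-- **[IA-alg] Ihara avoidance for a Hecke–Galois datum** (the output of the pipeline
TWMOD + REP_T + KEY-H + SEL + DC + CORE; assembled by helper9). -/
def IharaAvoidanceDatum : Prop :=
  ∀ {𝒪 : Type} [CommRing 𝒪] [IsDomain 𝒪] [IsDiscreteValuationRing 𝒪]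
    [IsAdicComplete (maximalIdeal 𝒪) 𝒪] [Finite (ResidueField 𝒪)] [CharZero 𝒪]
    (p : ℕ) [Fact p.Prime] (_ : 5 ≤ p) (_ : (p : 𝒪) ∈ maximalIdeal 𝒪)
    (_ : ∃ ζ : 𝒪, IsPrimitiveRoot ζ p)
    (N : ℕ) [NeZero N] (_ : Squarefree N) (_ : ¬ p ∣ N) (_ : 2 ∣ N)
    (S : Finset ℕ) (_ : ∀ ℓ : ℕ, ℓ ∈ S ↔ ℓ.Prime ∧ (ℓ = p ∨ ℓ ∣ N))
    (θ : CuspForm.heckeAlgebra N 2 (S : Set ℕ) →+* ResidueField 𝒪)
    (T : Type) [CommRing T] [IsLocalRing T] [IsNoetherianRing T]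
    [IsAdicComplete (maximalIdeal T) T] [Algebra 𝒪 T] [IsLocalHom (algebraMap 𝒪 T)]
    [Module.Finite 𝒪 T] [Module.Free 𝒪 T]
    (datum : CuspForm.HeckeGaloisRepDatum N (S : Set ℕ) 𝒪 θ T)
    -- (v1.2, helper2's (OBJ)) `T` is the FULL Hecke ring: every point with values in a finite
    -- DVR extension of `𝒪` lifting `θ` factors through `T`
    (_ : ∀ (B : Type) [CommRing B] [IsDomain B] [IsDiscreteValuationRing B] [Algebra 𝒪 B]
      [Module.Finite 𝒪 B] [IsLocalHom (algebraMap 𝒪 B)]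
      (χ : CuspForm.heckeAlgebra N 2 (S : Set ℕ) →+* B),
      (∀ t, IsLocalRing.residue B (χ t) =
        IsLocalRing.ResidueField.map (algebraMap 𝒪 B) (θ t)) →
        ∃ ψ : T →ₐ[𝒪] B, ∀ t, ψ (datum.π t) = χ t)
    -- the Taylor–Wiles hypotheses on the residual representation (as in S56)
    (_ : ∀ σ : AlgebraicClosure ℚ ≃ₐ[ℚ] AlgebraicClosure ℚ,
      ∃ α β : ResidueField T, LinearMap.charpoly (datum.ρ.residual.ρ σ) = (X - C α) * (X - C β))
    (_ : ∀ (K : Type) [Field K] [Algebra (ResidueField T) K]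
      (G : Subgroup (AlgebraicClosure ℚ ≃ₐ[ℚ] AlgebraicClosure ℚ)), G.index = 2 →
      ∀ V : Submodule K (datum.ρ.residual.baseChange K).V,
        (∀ σ ∈ G, ∀ x ∈ V, (datum.ρ.residual.baseChange K).ρ σ x ∈ V) → V = ⊥ ∨ V = ⊤)
    -- the set `Σ`
    (Sig : Finset ℕ)
    (_ : ∀ v ∈ Sig, v.Prime ∧ v ∣ N ∧ v ≠ 2 ∧ ResFrobScalarAt datum.ρ.residual p v)
    (_ : ∀ ℓ : ℕ, ℓ.Prime → ℓ ∣ N → ℓ ∉ Sig → ¬ datum.ρ.residual.IsUnramifiedAt ℓ),
    ∀ k : ℕ, ((p : T) ^ k) ∉ ⨆ v ∈ Sig, inertiaIdeal datum.ρ v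

/-- **(LGC-St) "unramified at `v ∥ N` ⇒ `v`-old"** (owner: helper6, [MAZ] package; geometric
input = `Fermat.Agent.S35.KeyI3Statement`-type statement [NODE-I]). -/
def NewRamified : Prop :=
  ∀ {𝒪 : Type} [CommRing 𝒪] [IsDomain 𝒪] [IsDiscreteValuationRing 𝒪]
    [IsAdicComplete (maximalIdeal 𝒪) 𝒪] [Finite (ResidueField 𝒪)] [CharZero 𝒪]
    (p : ℕ) [Fact p.Prime] (_ : 5 ≤ p) (_ : (p : 𝒪) ∈ maximalIdeal 𝒪)
    (M v : ℕ) [NeZero M] [NeZero (M * v)] (_ : v.Prime) (_ : ¬ v ∣ M) (_ : v ≠ p) (_ : v ≠ 2)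
    (S : Finset ℕ) (_ : p ∈ S) (_ : ∀ ℓ : ℕ, ℓ.Prime → ℓ ∣ M * v → ℓ ∈ S)
    (θ : CuspForm.heckeAlgebra (M * v) 2 (S : Set ℕ) →+* ResidueField 𝒪)
    (T : Type) [CommRing T] [IsLocalRing T] [IsNoetherianRing T]
    [IsAdicComplete (maximalIdeal T) T] [Algebra 𝒪 T] [IsLocalHom (algebraMap 𝒪 T)]
    [Module.Finite 𝒪 T] [Module.Free 𝒪 T]
    (datum : CuspForm.HeckeGaloisRepDatum (M * v) (S : Set ℕ) 𝒪 θ T)
    (𝔭 : Ideal T) (_ : 𝔭.IsPrime) (_ : (p : T) ∉ 𝔭) (_ : inertiaIdeal datum.ρ v ≤ 𝔭),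
    -- the eigensystem `T → T ⧸ 𝔭` occurs at level `M`
    ∃ χ : CuspForm.heckeAlgebra M 2 (S : Set ℕ) →+* T ⧸ 𝔭,
      ∀ (ℓ : ℕ) (hℓ : ℓ.Prime) (hℓM : ¬ ℓ ∣ M * v) (hℓS : ℓ ∉ (S : Set ℕ)),
        χ (CuspForm.heckeAlgebra.T hℓ (fun h => hℓM (h.mul_right v)) hℓS) =
          Ideal.Quotient.mk 𝔭 (datum.π (CuspForm.heckeAlgebra.T hℓ hℓM hℓS))

/-- **[TOP-IA]** (owner helper1). -/
def TopIAStatement : Prop := NewRamified → IharaAvoidanceDatum → IharaAvoidanceFrey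

end Fermat.Agent.RB
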