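/-
PROJECT RB — ARCHITECT (helper9) — INTERFACE FILE 5: what the Taylor–Wiles construction
([TWMOD] helper2 + helper3, [REP_T](B) helper1, (KEY-H) helper5/7/8) delivers to the glue
(helper9), in the vocabulary `GaloisRepAdic` + plain linear algebra (no modular curves).

Setting: a Hecke–Galois datum `(T, ρ_T)` of level `N` (squarefree, prime to `p`), `Σ ⊆ primes of N`
(residually scalar primes), a primitive `p`-th root of unity `ζ ∈ 𝒪`, `r` Taylor–Wiles primes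
`Q : Fin r → ℕ` with `Q j ≡ 1 mod p ^ n`.

For `i = 1, 2` the construction gives a finite local `𝒪`-algebra `T_i` (the image of the twisted
Hecke operators `⟨ℓ⟩^{-1/2} T_ℓ` on `H_i`), a deformation `ρ_i` of `ρ̄` to `T_i` with cyclotomic
determinant, flat at `p`, unramified outside `S ∪ Q`, unipotent at the ramified primes of `ρ̄`, and
  * `i = 1`: unipotent on inertia at `Σ`   (trivial nebentypus at `Σ`),
  * `i = 2`: inertia at `v ∈ Σ` acts through a quotient of order `p` with eigenvalues `ζ^{±1}`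
             (nebentypus of order `p` at `Σ`; from (KEY-H) at `v`);
a module `H_i`, free of rank `d` over `𝒪[Δ_Q]`, `Δ_Q = (ℤ/p^n)^r`, where the generator of the
`q`-th factor acts as the automorphism `g_i q` (= the diamond operator of the SQUARE ROOT of a
generator of the `p^n`-quotient of `(ℤ/Q q)ˣ`), with
  * (KEY-H at `Q q`): for some `σ` in an inertia group at `Q q`: `tr ρ_i(σ) = g_i q + (g_i q)⁻¹`
    on `H_i`;
  * `H_1 / λ = Hbar = H_2 / λ` compatibly with the `g`'s and with the traces;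
  * control: `H_1 / (g_1 q - 1)_q = M0` compatibly with `T_1 → T`.
-/
import Mathlib
import Fermat.Agent.RB.IFACE_helper9_Datum

set_option autoImplicit false

open Polynomial IsLocalRing

namespace Fermat.Agent.RB

local notation "GQ" => (AlgebraicClosure ℚ ≃ₐ[ℚ] AlgebraicClosure ℚ)

/-- **the global deformation condition** `𝒟_Q` (no condition at `Σ ∪ Q` beyond the determinant):
cyclotomic determinant, flat at `p`, unramified outside `S ∪ Q`, unipotent on inertia at the primes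
of `S` other than `p` and the primes of `Σ`. -/
def twCondition (𝒪 : Type) [CommRing 𝒪] (p : ℕ) (S Sig Qs : Finset ℕ) :
    ∀ ⦃A : Type⦄ [CommRing A] [IsLocalRing A] [Algebra 𝒪 A], GaloisRepAdic A → Prop :=
  fun _A _ _ _ ρ => GaloisRep.flatCondition 𝒪 p (S ∪ Qs) ρ ∧
    ∀ ℓ ∈ S, ℓ.Prime → ℓ ≠ p → ℓ ∉ Sig → ρ.IsUnipotentOnInertiaAt ℓ

/-- `Q` is an admissible set of Taylor–Wiles primes of level `n`. -/
structure IsTWSet {k : Type} [Field k] (ρbar : ResidualGaloisRep k) (p : ℕ) (S : Finset ℕ)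
    {r : ℕ} (n : ℕ) (Q : Fin r → ℕ) : Prop where
  injective : Function.Injective Q
  prime : ∀ j, (Q j).Prime
  notMem : ∀ j, Q j ∉ S
  cong : ∀ j, p ^ n ∣ Q j - 1
  distinct : ∀ j, ∀ P : ValuationSubring (AlgebraicClosure ℚ), P.LiesOverPrime (Q j) →
    ∀ φ : GQ, P.IsFrobeniusAt φ (Q j) →
      ∃ α β : k, α ≠ β ∧ LinearMap.charpoly (ρbar.ρ φ) = (X - C α) * (X - C β)

section

variable {𝒪 : Type} [CommRing 𝒪] [IsDomain 𝒪] [IsDiscreteValuationRing 𝒪]
  [IsAdicComplete (maximalIdeal 𝒪) 𝒪]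

/-- one of the two Hecke–Galois modules of the Taylor–Wiles construction at `(n, Q)` -/
structure TWSide (p : ℕ) (S Sig : Finset ℕ) (ρbar : ResidualGaloisRep (ResidueField 𝒪))
    (r d n : ℕ) (Q : Fin r → ℕ) : Type 1 where
  /-- the Hecke algebra -/
  T : Type
  [instCommRing : CommRing T]
  [instIsLocalRing : IsLocalRing T]
  [instIsNoetherianRing : IsNoetherianRing T]
  [instIsAdicComplete : IsAdicComplete (maximalIdeal T) T]
  [instAlgebra : Algebra 𝒪 T]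
  [instIsLocalHom : IsLocalHom (algebraMap 𝒪 T)]
  [instFinite : Module.Finite 𝒪 T]
  residue_surjective : Function.Surjective (IsLocalRing.residue T ∘ algebraMap 𝒪 T)
  /-- the Galois representation -/
  ρ : GaloisRepAdic T
  residual_isEquiv : ρ.residual.IsEquiv
    (ρbar.baseChangeAlong (IsLocalRing.ResidueField.map (algebraMap 𝒪 T)))
  isOfType : twCondition 𝒪 p S Sig (Finset.univ.image Q) ρ
  adjoin_trace : Algebra.adjoin 𝒪 (Set.range ρ.trace) = ⊤
  /-- the module -/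
  H : Type
  [instAddCommGroup : AddCommGroup H]
  [instModule : Module 𝒪 H]
  /-- the Hecke action -/
  h : T →ₐ[𝒪] Module.End 𝒪 H
  /-- the (square roots of the) diamond operators at the Taylor–Wiles primes -/
  g : Fin r → Module.End 𝒪 H
  g_pow : ∀ q, g q ^ (p ^ n) = 1
  g_comm : ∀ q q', Commute (g q) (g q')
  g_comm_h : ∀ q t, Commute (g q) (h t)
  /-- freeness of rank `d` over `𝒪[(ℤ/p^n)^r]` -/
  b : Fin d → H
  free : Function.Bijective fun c : (Fin d × (Fin r → Fin (p ^ n))) →₀ 𝒪 =>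
    c.sum fun je a =>
      a • (((List.finRange r).map fun q => g q ^ ((je.2 q : Fin (p ^ n)) : ℕ)).prod (b je.1))
  /-- **(KEY-H)** at the Taylor–Wiles primes, unordered form -/
  keyH : ∀ q, ∃ (P : ValuationSubring (AlgebraicClosure ℚ)) (_ : P.LiesOverPrime (Q q))
    (σ : GQ) (_ : σ ∈ P.inertiaSubgroupIn ℚ),
      h (ρ.trace σ) = g q + g q ^ (p ^ n - 1)

attribute [instance] TWSide.instCommRing TWSide.instIsLocalRing TWSide.instIsNoetherianRing
  TWSide.instIsAdicComplete TWSide.instAlgebra TWSide.instIsLocalHom TWSide.instFinite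
  TWSide.instAddCommGroup TWSide.instModule

variable {N : ℕ} [NeZero N] {S : Finset ℕ}
  {θ : CuspForm.heckeAlgebra N 2 (S : Set ℕ) →+* ResidueField 𝒪}
  {T : Type} [CommRing T] [IsLocalRing T] [IsNoetherianRing T]
  [IsAdicComplete (maximalIdeal T) T] [Algebra 𝒪 T] [IsLocalHom (algebraMap 𝒪 T)]
  [Module.Finite 𝒪 T] [Module.Free 𝒪 T]

/-- **The Taylor–Wiles data at `(n, Q)`**: the two sides, their common reduction and the control
map to level zero. -/
structure TWGaloisLevel (p : ℕ) (datum : CuspForm.HeckeGaloisRepDatum N (S : Set ℕ) 𝒪 θ T)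
    (Sig : Finset ℕ) (ζ lam : 𝒪) (ρbar : ResidualGaloisRep (ResidueField 𝒪))
    (r d : ℕ) (M0 : Type) [AddCommGroup M0] [Module 𝒪 M0] [Module T M0]
    (n : ℕ) (Q : Fin r → ℕ) : Type 1 where
  /-- problem (1): unipotent at `Σ` -/
  side₁ : TWSide (𝒪 := 𝒪) p S Sig ρbar r d n Q
  /-- problem (2): `χ`-type at `Σ` -/
  side₂ : TWSide (𝒪 := 𝒪) p S Sig ρbar r d n Q
  type₁ : ∀ v ∈ Sig, side₁.ρ.IsUnipotentOnInertiaAt v
  type₂ : ∀ v ∈ Sig, ∀ P : ValuationSubring (AlgebraicClosure ℚ), P.LiesOverPrime v →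
    (∀ σ ∈ P.inertiaSubgroupIn ℚ, side₂.ρ.ρ σ ^ p = 1) ∧
    ∃ τ ∈ P.inertiaSubgroupIn ℚ, LinearMap.charpoly (side₂.ρ.ρ τ) =
      X ^ 2 - C (algebraMap 𝒪 side₂.T (ζ + ζ ^ (p - 1))) * X + 1
  /-- the common reduction modulo `λ` -/
  Hbar : Type
  [instAddCommGroupBar : AddCommGroup Hbar]
  [instModuleBar : Module 𝒪 Hbar]
  gbar : Fin r → Module.End 𝒪 Hbar
  trbar : GQ → Module.End 𝒪 Hbar
  red₁ : side₁.H →ₗ[𝒪] Hbar
  red₂ : side₂.H →ₗ[𝒪] Hbar
  red₁_surjective : Function.Surjective red₁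
  red₂_surjective : Function.Surjective red₂
  ker_red₁ : ∀ x, red₁ x = 0 ↔ ∃ y, x = lam • y
  ker_red₂ : ∀ x, red₂ x = 0 ↔ ∃ y, x = lam • y
  red₁_g : ∀ q x, red₁ (side₁.g q x) = gbar q (red₁ x)
  red₂_g : ∀ q x, red₂ (side₂.g q x) = gbar q (red₂ x)
  red₁_trace : ∀ σ x, red₁ (side₁.h (side₁.ρ.trace σ) x) = trbar σ (red₁ x)
  red₂_trace : ∀ σ x, red₂ (side₂.h (side₂.ρ.trace σ) x) = trbar σ (red₂ x)
  /-- control -/
  toT : side₁.T →ₐ[𝒪] T
  toT_trace : ∀ σ, toT (side₁.ρ.trace σ) = datum.ρ.trace σ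
  ctl : side₁.H →ₗ[𝒪] M0
  ctl_surjective : Function.Surjective ctl
  ker_ctl : ∀ x, ctl x = 0 ↔
    x ∈ ⨆ q, LinearMap.range (side₁.g q - 1)
  ctl_h : ∀ t x, ctl (side₁.h t x) = toT t • ctl x

/-- **[TW-PRODUCERS]** (owners: helper2 + helper3 [TWMOD], helper1 [REP_T](B), helper5/7/8 (KEY-H)):
in the setting of `IharaAvoidanceDatum` there are `d > 0` and a `T`-module `M0`, finite free of
rank `d` over `𝒪`, such that the Taylor–Wiles data exist for EVERY admissible set `Q` of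
Taylor–Wiles primes (`r` and `n` arbitrary). -/
def TWProducerStatement : Prop :=
  ∀ {𝒪 : Type} [CommRing 𝒪] [IsDomain 𝒪] [IsDiscreteValuationRing 𝒪]
    [IsAdicComplete (maximalIdeal 𝒪) 𝒪] [Finite (ResidueField 𝒪)] [CharZero 𝒪]
    (p : ℕ) [Fact p.Prime] (_ : 5 ≤ p) (_ : (p : 𝒪) ∈ maximalIdeal 𝒪)
    (ζ : 𝒪) (_ : IsPrimitiveRoot ζ p) (lam : 𝒪) (_ : Irreducible lam)
    (N : ℕ) [NeZero N] (_ : Squarefree N) (_ : ¬ p ∣ N) (_ : 2 ∣ N)
    (S : Finset ℕ) (_ : ∀ ℓ : ℕ, ℓ ∈ S ↔ ℓ.Prime ∧ (ℓ = p ∨ ℓ ∣ N))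
    (θ : CuspForm.heckeAlgebra N 2 (S : Set ℕ) →+* ResidueField 𝒪)
    (T : Type) [CommRing T] [IsLocalRing T] [IsNoetherianRing T]
    [IsAdicComplete (maximalIdeal T) T] [Algebra 𝒪 T] [IsLocalHom (algebraMap 𝒪 T)]
    [Module.Finite 𝒪 T] [Module.Free 𝒪 T]
    (datum : CuspForm.HeckeGaloisRepDatum N (S : Set ℕ) 𝒪 θ T)
    -- (v1.2) `T` is the FULL Hecke ring
    (_ : ∀ (B : Type) [CommRing B] [IsDomain B] [IsDiscreteValuationRing B] [Algebra 𝒪 B]
      [Module.Finite 𝒪 B] [IsLocalHom (algebraMap 𝒪 B)]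
      (χ : CuspForm.heckeAlgebra N 2 (S : Set ℕ) →+* B),
      (∀ t, IsLocalRing.residue B (χ t) =
        IsLocalRing.ResidueField.map (algebraMap 𝒪 B) (θ t)) →
        ∃ ψ : T →ₐ[𝒪] B, ∀ t, ψ (datum.π t) = χ t)
    (ρbar : ResidualGaloisRep (ResidueField 𝒪))
    (_ : datum.ρ.residual.IsEquiv
      (ρbar.baseChangeAlong (IsLocalRing.ResidueField.map (algebraMap 𝒪 T))))
    (Sig : Finset ℕ)
    (_ : ∀ v ∈ Sig, v.Prime ∧ v ∣ N ∧ v ≠ 2 ∧ ResFrobScalarAt ρbar p v)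
    (_ : ∀ ℓ : ℕ, ℓ.Prime → ℓ ∣ N → ℓ ∉ Sig → ¬ ρbar.IsUnramifiedAt ℓ),
    ∃ (d : ℕ) (_ : 0 < d) (M0 : Type) (_ : AddCommGroup M0) (_ : Module 𝒪 M0) (_ : Module T M0)
      (_ : IsScalarTower 𝒪 T M0) (_ : Module.Free 𝒪 M0) (_ : Module.Finite 𝒪 M0),
      Module.finrank 𝒪 M0 = d ∧
      -- (v1.4, helper1) with at least one Taylor–Wiles prime when `Σ ≠ ∅` (so that (KEY-H) at
      -- `v ∈ Σ` applies at level `N * ∏ Q`, which needs `5 ≤ N * ∏ Q / v`)
      -- (v1.5, helper1) `Q j ≡ 1 mod p` also at `n = 0` (no `Q j`-new forms in the localisation)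
      ∀ (r n : ℕ) (Q : Fin r → ℕ), IsTWSet ρbar p S n Q → (∀ j, p ∣ Q j - 1) →
        (Sig.Nonempty → 0 < r) →
        Nonempty (TWGaloisLevel p datum Sig ζ lam ρbar r d M0 n Q)

end

end Fermat.Agent.RB
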