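/-
PROJECT RB — ARCHITECT (helper9) — INTERFACE FILE 6: **[SEL]**, the Galois-cohomological input of
the glue, in the `𝕋`-route (NO universal deformation rings).

Setting: `ρ̄` as in S56 (absolutely irreducible, cyclotomic determinant, split characteristic
polynomials, irreducible on index-two subgroups), `S` a finite set of primes containing `p`,
`Σ ⊆ S ∖ {p}` a set of primes `v ≡ 1 mod p` at which `ρ̄` is unramified with scalar Frobenius, `ρ̄`
ramified at the primes of `S ∖ (Σ ∪ {p})` and unramified outside `S`.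

Conclusion: there are `g` and `r = 3 |Σ| + g` such that for every `n` there is an admissible set
`Q` of `r` Taylor–Wiles primes of level `n` with the following property.  For EVERY complete
noetherian local `𝒪`-algebra `T`, finite over `𝒪`, with residue field `k`, every deformation `ρ` of
`ρ̄` to `T` of type `twCondition` (cyclotomic determinant, flat at `p`, unramified outside `S ∪ Q`,
unipotent on inertia at `S ∖ (Σ ∪ {p})`; NO condition at `Σ ∪ Q`) such that `T` is generated by the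
traces, and every basis `β` of `ρ`:  the maximal ideal of `T` is generated by `λ`, by the
TRACELESS COORDINATES `m 0 0 - m 1 1, m 0 1, m 1 0` of the matrices `m = [ρ(σ)]_β`, `σ` in a
decomposition group at a prime of `Σ`, and by `g` further elements.

Proof (owner: helper4, reusing the hub `Fermat/Agent/TW/` of S56): a local `𝒪`-algebra map
`f : T → k[ε]` killing the coordinates gives a cocycle `b_f ∈ Z¹(G_{S ∪ Q}, ad⁰ ρ̄)` which VANISHES on
the decomposition groups at `Σ` (`ρ̄` is scalar there), is flat at `p`, of minimal type at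
`S ∖ (Σ ∪ {p})`; `f ↦ [b_f]` is injective because `T` is generated by traces; Greenberg–Wiles with
`L_v = 0` at `Σ` (so `L_v^⊥ = H¹(G_v, ad⁰ ρ̄ (1))`, of dimension `3 + 3 = 6`, and
`#L_v / #H⁰(G_v, ad⁰ ρ̄) = |k|^{-3}`), `Q` killing the dual Selmer group:
`#Sel · |k|^{3 |Σ|} ≤ |k|^{#Q}`.  Then helper6's `TW.exists_gen_of_finrank` (relative form).
-/
import Mathlib
import Fermat.Agent.RB.IFACE_helper9_TW

set_option autoImplicit false

open Polynomial IsLocalRing

namespace Fermat.Agent.RB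

local notation "GQ" => (AlgebraicClosure ℚ ≃ₐ[ℚ] AlgebraicClosure ℚ)

/-- the ideal generated by the traceless coordinates of the matrices of `ρ(σ)`, `σ` in a
decomposition group at a prime of `Σ` -/
def locCoordIdeal {T : Type} [CommRing T] [IsLocalRing T] (ρ : GaloisRepAdic T)
    (β : Module.Basis (Fin 2) T ρ.V) (Sig : Finset ℕ) : Ideal T :=
  Ideal.span {a : T | ∃ v ∈ Sig, ∃ (P : ValuationSubring (AlgebraicClosure ℚ))
    (_ : P.LiesOverPrime v) (σ : GQ) (_ : σ ∈ P.decompositionSubgroup ℚ),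
      a = LinearMap.toMatrix β β (ρ.ρ σ) 0 0 - LinearMap.toMatrix β β (ρ.ρ σ) 1 1 ∨
      a = LinearMap.toMatrix β β (ρ.ρ σ) 0 1 ∨
      a = LinearMap.toMatrix β β (ρ.ρ σ) 1 0}

/-- **[SEL]** (owner helper4). -/
def SelStatement : Prop :=
  ∀ {𝒪 : Type} [CommRing 𝒪] [IsDomain 𝒪] [IsDiscreteValuationRing 𝒪]
    [IsAdicComplete (maximalIdeal 𝒪) 𝒪] [Finite (ResidueField 𝒪)]
    (p : ℕ) [Fact p.Prime] (_ : p ≠ 2) (_ : (p : 𝒪) ∈ maximalIdeal 𝒪)
    (ρbar : ResidualGaloisRep (ResidueField 𝒪))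
    (_ : ρbar.IsAbsolutelyIrreducible)
    (_ : (GaloisRepAdic.ofResidualGaloisRep ρbar).DetIsCyclotomic p)
    (_ : ∀ σ : GQ, ∃ α β : ResidueField 𝒪,
      LinearMap.charpoly (ρbar.ρ σ) = (X - C α) * (X - C β))
    (_ : ∀ (K : Type) [Field K] [Algebra (ResidueField 𝒪) K] (G : Subgroup GQ), G.index = 2 →
      ∀ V : Submodule K (ρbar.baseChange K).V,
        (∀ σ ∈ G, ∀ x ∈ V, (ρbar.baseChange K).ρ σ x ∈ V) → V = ⊥ ∨ V = ⊤)
    (S Sig : Finset ℕ) (_ : p ∈ S) (_ : ∀ q ∈ S, q.Prime) (_ : Sig ⊆ S) (_ : p ∉ Sig)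
    (_ : ∀ v ∈ Sig, ResFrobScalarAt ρbar p v)
    (_ : ∀ ℓ ∈ S, ℓ ≠ p → ℓ ∉ Sig → ¬ ρbar.IsUnramifiedAt ℓ)
    (_ : ∀ ℓ : ℕ, ℓ.Prime → ℓ ∉ S → ρbar.IsUnramifiedAt ℓ),
    ∃ g r : ℕ, r = 3 * Sig.card + g ∧ ∀ n : ℕ, ∃ Q : Fin r → ℕ, IsTWSet ρbar p S n Q ∧
      ∀ (T : Type) [CommRing T] [IsLocalRing T] [IsNoetherianRing T]
        [IsAdicComplete (maximalIdeal T) T] [Algebra 𝒪 T] [IsLocalHom (algebraMap 𝒪 T)]
        [Module.Finite 𝒪 T]
        (_ : Function.Surjective (IsLocalRing.residue T ∘ algebraMap 𝒪 T))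
        (ρ : GaloisRepAdic T)
        (_ : ρ.residual.IsEquiv
          (ρbar.baseChangeAlong (IsLocalRing.ResidueField.map (algebraMap 𝒪 T))))
        (_ : twCondition 𝒪 p S Sig (Finset.univ.image Q) ρ)
        (_ : Algebra.adjoin 𝒪 (Set.range ρ.trace) = ⊤)
        (β : Module.Basis (Fin 2) T ρ.V),
        ∃ y : Fin g → T, (∀ j, y j ∈ maximalIdeal T) ∧
          maximalIdeal T = (maximalIdeal 𝒪).map (algebraMap 𝒪 T) ⊔ locCoordIdeal ρ β Sig ⊔
            Ideal.span (Set.range y)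

end Fermat.Agent.RB
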