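/-
PROJECT RB, block [REP_T] (helper1), part 10: ascent of full span along a ring homomorphism, and
absolute irreducibility of a residual representation regarded as an adic representation over its
field of definition.
-/
import Mathlib
import Fermat.Agent.RB.REPT_helper1_MatRep

set_option autoImplicit false
set_option linter.unusedSectionVars false
set_option linter.unusedVariables false
set_option linter.style.haveILetI false

namespace Fermat.Agent.RB.REPT

open Matrix IsLocalRing Fermat.Agent.S53 Fermat.Agent.S53.L1

open scoped TensorProduct

local notation "GQ" => (AlgebraicClosure ℚ ≃ₐ[ℚ] AlgebraicClosure ℚ)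

section Ascent

variable {G : Type*} [Monoid G] {A B : Type*} [CommRing A] [CommRing B]

/-- **ascent of full span** along any ring homomorphism. -/
theorem fullSpan_mapRep (φ : A →+* B) (r : G →* Mat2 A) (h : FullSpan r) :
    FullSpan (mapRep φ r) := by
  unfold FullSpan at h ⊢
  have h1 : ∀ X : Mat2 A, X.map φ ∈ Submodule.span B (Set.range (mapRep φ r)) := by
    intro X
    have hX : X ∈ Submodule.span A (Set.range r) := by rw [h]; trivial
    induction hX using Submodule.span_induction with
    | mem Y hY =>
      obtain ⟨g, rfl⟩ := hY
      exact Submodule.subset_span ⟨g, rfl⟩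
    | zero =>
      have : (0 : Mat2 A).map φ = 0 := by ext; simp
      rw [this]; exact Submodule.zero_mem _
    | add Y Y' _ _ h1 h2 =>
      have : (Y + Y').map φ = Y.map φ + Y'.map φ := by ext; simp
      rw [this]; exact Submodule.add_mem _ h1 h2
    | smul c Y _ h1 =>
      have : (c • Y).map φ = φ c • Y.map φ := by ext; simp
      rw [this]; exact Submodule.smul_mem _ _ h1
  rw [eq_top_iff]
  intro Z _
  rw [Matrix.matrix_eq_sum_single Z]
  refine Submodule.sum_mem _ fun i _ => Submodule.sum_mem _ fun j _ => ?_
  have h2 : Matrix.single i j (Z i j) = Z i j • (Matrix.single i j (1 : B) : Mat2 B) := by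
    rw [Matrix.smul_single, smul_eq_mul, mul_one]
  rw [h2]
  refine Submodule.smul_mem _ _ ?_
  have := h1 (Matrix.single i j (1 : A))
  rwa [Matrix.map_single, map_one] at this

end Ascent

section OfResidual

variable {k : Type} [Field k]

/-- an absolutely irreducible residual representation over `k`, regarded as an adic
representation over `k`, is residually absolutely irreducible. -/
theorem residual_ofResidualGaloisRep_isAbsolutelyIrreducible (ρbar : ResidualGaloisRep k)
    (habs : ρbar.IsAbsolutelyIrreducible) :
    (GaloisRepAdic.ofResidualGaloisRep ρbar).residual.IsAbsolutelyIrreducible := by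
  let b : Module.Basis (Fin 2) k (GaloisRepAdic.ofResidualGaloisRep ρbar).V :=
    Module.finBasisOfFinrankEq k ρbar.V ρbar.finrank_eq
  have h1 : FullSpan (matRep (GaloisRepAdic.ofResidualGaloisRep ρbar) b) :=
    fullSpan_of_absIrr ρbar b habs _ fun σ => rfl
  have h2 := fullSpan_mapRep (residue k) _ h1
  let β : Module.Basis (Fin 2) (ResidueField k)
      (GaloisRepAdic.ofResidualGaloisRep ρbar).residual.V :=
    Algebra.TensorProduct.basis (ResidueField k) b
  refine isAbsolutelyIrreducible_of_fullSpan _ β _ (fun σ => ?_) h2
  rw [mapRep_apply, matRep_apply]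
  exact (LinearMap.toMatrix_baseChange (ResidueField k)
    ((GaloisRepAdic.ofResidualGaloisRep ρbar).ρ σ) b b).symm

end OfResidual

end Fermat.Agent.RB.REPT
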