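/-
PROJECT RB — [GLUE] (helper9), file 1: **descent of a residual representation along an isomorphism
of the coefficient fields** (`k_T ≃ k_𝒪`), with the transfer of all the hypotheses used by [SEL] and
by the Taylor–Wiles producers: unramifiedness, scalar Frobenius, split characteristic polynomials,
irreducibility after arbitrary extension of scalars on subgroups.
-/
import Mathlib
import Fermat.Agent.RB.IFACE_helper9_Sel
import Fermat.Agent.S53.L0_helper3_Matrix
import Fermat.Agent.S53.L1_helper1_Slice
import Fermat.Agent.RB.REPT_helper1_Irr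
import Fermat.Agent.RB.REPT_helper1_Irr2

set_option autoImplicit false
set_option linter.unusedSectionVars false
set_option linter.style.haveILetI false

open scoped TensorProduct

namespace Fermat.Agent.RB.GLUE

open Fermat.Agent.S53 IsLocalRing Polynomial

local notation "GQ" => (AlgebraicClosure ℚ ≃ₐ[ℚ] AlgebraicClosure ℚ)

section Descend

variable {k k' : Type} [Field k] [Field k'] (e : k ≃+* k') (ρ' : ResidualGaloisRep k')

theorem factors_mapMat {A B : Type} [CommRing A] [CommRing B] (f : A →+* B) {r : Gal →* M2 A}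
    (h : GaloisFactorsThroughFiniteLevel r) : GaloisFactorsThroughFiniteLevel (mapMat f r) := by
  obtain ⟨L, hL, h1⟩ := h
  refine ⟨L, hL, fun σ hσ => ?_⟩
  rw [mapMat_apply, h1 σ hσ]
  exact map_one f.mapMatrix

/-- the matrices of the descended representation -/
noncomputable def descendMat : Gal →* M2 k :=
  mapMat (e.symm : k' →+* k) (resMatrixOf ρ' (resSomeBasis ρ'))

theorem descendMat_factors : GaloisFactorsThroughFiniteLevel (descendMat e ρ') :=
  factors_mapMat _ (resMatrixOf_factors ρ' _)

/-- **the descent of `ρ'` along `e : k ≃+* k'`** -/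
noncomputable def descend : ResidualGaloisRep k :=
  resOfMatrix (descendMat e ρ') (descendMat_factors e ρ')

/-- the standard basis of the descent -/
noncomputable def descendBasis : Module.Basis (Fin 2) k (descend e ρ').V :=
  resStdBasis (descendMat e ρ') (descendMat_factors e ρ')

theorem resMatrixOf_descend :
    resMatrixOf (descend e ρ') (descendBasis e ρ') = descendMat e ρ' :=
  resMatrixOf_resOfMatrix _ _

theorem mapMat_descendMat :
    mapMat (e : k →+* k') (descendMat e ρ') = resMatrixOf ρ' (resSomeBasis ρ') := by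
  ext σ i j
  rw [descendMat, mapMat_apply_apply, mapMat_apply_apply]
  exact e.apply_symm_apply _

/-- `ρ'` is the base change of its descent -/
theorem isEquiv_descend : ρ'.IsEquiv ((descend e ρ').baseChangeAlong (e : k →+* k')) := by
  rw [resIsEquiv_iff_matrixOf ρ' _ (resSomeBasis ρ')
    (resBaseChangeBasis (e : k →+* k') (descend e ρ') (descendBasis e ρ')),
    resMatrixOf_baseChangeAlong, resMatrixOf_descend, mapMat_descendMat]
  exact ⟨1, fun σ => by simp⟩

theorem descend_ρ_apply (σ : GQ) :
    (descend e ρ').ρ σ = Matrix.toLin' (descendMat e ρ' σ) := rfl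

theorem descendMat_apply (σ : GQ) :
    descendMat e ρ' σ = (LinearMap.toMatrix (resSomeBasis ρ') (resSomeBasis ρ') (ρ'.ρ σ)).map
      (e.symm : k' →+* k) := rfl

theorem descend_eq_one_iff (σ : GQ) : (descend e ρ').ρ σ = 1 ↔ ρ'.ρ σ = 1 := by
  rw [descend_ρ_apply]
  constructor
  · intro h
    have h1 : descendMat e ρ' σ = 1 := by
      apply Matrix.toLin'.injective
      rw [h, Matrix.toLin'_one]; rfl
    apply (LinearMap.toMatrix (resSomeBasis ρ') (resSomeBasis ρ')).injective
    rw [show LinearMap.toMatrix (resSomeBasis ρ') (resSomeBasis ρ') (1 : Module.End k' ρ'.V) = 1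
      from LinearMap.toMatrix_one _]
    rw [descendMat_apply] at h1
    ext i j
    have h2 := congrFun (congrFun h1 i) j
    rw [Matrix.map_apply] at h2
    have h3 := congrArg e h2
    rw [RingHom.coe_coe, e.apply_symm_apply] at h3
    rw [h3, Matrix.one_apply, Matrix.one_apply]
    split_ifs <;> simp
  · intro h
    rw [descendMat_apply, h,
      show LinearMap.toMatrix (resSomeBasis ρ') (resSomeBasis ρ') (1 : Module.End k' ρ'.V) = 1
      from LinearMap.toMatrix_one _]
    have : (1 : M2 k').map (e.symm : k' →+* k) = 1 := map_one (e.symm : k' →+* k).mapMatrix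
    rw [this, Matrix.toLin'_one]
    rfl

theorem descend_isUnramifiedAt_iff (q : ℕ) :
    (descend e ρ').IsUnramifiedAt q ↔ ρ'.IsUnramifiedAt q := by
  constructor
  · intro h A hA σ hσ
    exact (descend_eq_one_iff e ρ' σ).1 (h A hA σ hσ)
  · intro h A hA σ hσ
    exact (descend_eq_one_iff e ρ' σ).2 (h A hA σ hσ)

theorem descend_scalar {σ : GQ} {c : k'} (h : ρ'.ρ σ = c • (1 : Module.End k' ρ'.V)) :
    (descend e ρ').ρ σ = e.symm c • (1 : Module.End k (descend e ρ').V) := by
  rw [descend_ρ_apply, descendMat_apply, h, map_smul,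
    show LinearMap.toMatrix (resSomeBasis ρ') (resSomeBasis ρ') (1 : Module.End k' ρ'.V) = 1
      from LinearMap.toMatrix_one _]
  have : (c • (1 : M2 k')).map (e.symm : k' →+* k) = e.symm c • (1 : M2 k) := by
    ext i j
    rw [Matrix.map_apply, Matrix.smul_apply, Matrix.smul_apply, smul_eq_mul, smul_eq_mul, map_mul,
      Matrix.one_apply, Matrix.one_apply]
    split_ifs <;> simp
  rw [this, map_smul, Matrix.toLin'_one]
  rfl

theorem charpoly_descend (σ : GQ) :
    LinearMap.charpoly ((descend e ρ').ρ σ) =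
      (LinearMap.charpoly (ρ'.ρ σ)).map (e.symm : k' →+* k) := by
  rw [← LinearMap.charpoly_toMatrix ((descend e ρ').ρ σ) (descendBasis e ρ'),
    ← resMatrixOf_eq_toMatrix, resMatrixOf_descend, descendMat_apply, Matrix.charpoly_map,
    LinearMap.charpoly_toMatrix]

theorem descend_resFrobScalarAt {p v : ℕ} (h : ResFrobScalarAt ρ' p v) :
    ResFrobScalarAt (descend e ρ') p v := by
  obtain ⟨h1, h2, h3⟩ := h
  refine ⟨h1, (descend_isUnramifiedAt_iff e ρ' v).2 h2, fun A hA φ hφ => ?_⟩
  obtain ⟨c, hc⟩ := h3 A hA φ hφ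
  exact ⟨e.symm c, descend_scalar e ρ' hc⟩

theorem descend_split (h : ∀ σ : GQ, ∃ α β : k', LinearMap.charpoly (ρ'.ρ σ) = (X - C α) * (X - C β))
    (σ : GQ) : ∃ α β : k, LinearMap.charpoly ((descend e ρ').ρ σ) = (X - C α) * (X - C β) := by
  obtain ⟨α, β, hαβ⟩ := h σ
  refine ⟨e.symm α, e.symm β, ?_⟩
  rw [charpoly_descend, hαβ]
  simp

/-- absolute irreducibility descends -/
theorem descend_isAbsolutelyIrreducible (h : ρ'.IsAbsolutelyIrreducible) :
    (descend e ρ').IsAbsolutelyIrreducible := by
  have h1 : Fermat.Agent.S53.L1.FullSpan (resMatrixOf ρ' (resSomeBasis ρ')) :=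
    Fermat.Agent.S53.L1.fullSpan_of_absIrr ρ' (resSomeBasis ρ') h _ (fun σ => rfl)
  have h2 := Fermat.Agent.RB.REPT.fullSpan_mapRep (e.symm : k' →+* k) _ h1
  refine Fermat.Agent.RB.REPT.isAbsolutelyIrreducible_of_fullSpan (descend e ρ')
    (descendBasis e ρ') _ (fun σ => ?_) h2
  rw [← resMatrixOf_eq_toMatrix, resMatrixOf_descend]
  rfl

/-- the extensions of scalars of `ρ'` and of its descent to a common extension field are
isomorphic -/
theorem exists_equiv_baseChange (K : Type) [Field K] [Algebra k K] [Algebra k' K]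
    (hcomp : ∀ c : k', algebraMap k' K c = algebraMap k K (e.symm c)) :
    ∃ E : ((descend e ρ').baseChange K).V ≃ₗ[K] (ρ'.baseChange K).V,
      ∀ (σ : GQ) (x : ((descend e ρ').baseChange K).V),
        E (((descend e ρ').baseChange K).ρ σ x) = (ρ'.baseChange K).ρ σ (E x) := by
  classical
  refine (exists_intertwining_iff
    (Algebra.TensorProduct.basis K (descendBasis e ρ'))
    (Algebra.TensorProduct.basis K (resSomeBasis ρ'))
    (fun σ => ((descend e ρ').baseChange K).ρ σ) (fun σ => (ρ'.baseChange K).ρ σ)).2 ⟨1, fun σ => ?_⟩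
  rw [Units.val_one, one_mul, mul_one]
  show LinearMap.toMatrix _ _ (((descend e ρ').ρ σ).baseChange K) =
    LinearMap.toMatrix _ _ ((ρ'.ρ σ).baseChange K)
  rw [LinearMap.toMatrix_baseChange, LinearMap.toMatrix_baseChange, ← resMatrixOf_eq_toMatrix,
    resMatrixOf_descend, descendMat_apply]
  ext i j
  rw [Matrix.map_apply, Matrix.map_apply, Matrix.map_apply, hcomp]
  rfl

/-- irreducibility on a subgroup after extension of scalars descends -/
theorem descend_irreducible_on (K : Type) [Field K] [Algebra k K] [Algebra k' K]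
    (hcomp : ∀ c : k', algebraMap k' K c = algebraMap k K (e.symm c)) (G : Subgroup GQ)
    (h : ∀ V : Submodule K (ρ'.baseChange K).V,
      (∀ σ ∈ G, ∀ x ∈ V, (ρ'.baseChange K).ρ σ x ∈ V) → V = ⊥ ∨ V = ⊤)
    (V : Submodule K ((descend e ρ').baseChange K).V)
    (hV : ∀ σ ∈ G, ∀ x ∈ V, ((descend e ρ').baseChange K).ρ σ x ∈ V) : V = ⊥ ∨ V = ⊤ := by
  obtain ⟨E, hE⟩ := exists_equiv_baseChange e ρ' K hcomp
  have h1 := h (V.map E.toLinearMap) (by
    rintro σ hσ _ ⟨x, hx, rfl⟩
    exact ⟨_, hV σ hσ x hx, hE σ x⟩)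
  rcases h1 with h1 | h1
  · left
    rw [Submodule.map_eq_bot_iff] at h1
    exact h1
  · right
    rw [eq_top_iff]
    intro x _
    have : E x ∈ V.map E.toLinearMap := by rw [h1]; trivial
    obtain ⟨y, hy, hxy⟩ := this
    have := E.injective hxy
    rwa [← this]

end Descend

end Fermat.Agent.RB.GLUE
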