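/-
PROJECT RB — [GLUE] (helper9), file 2: **consequences of `ρ.residual ≅ ρ̄ ⊗_ψ k_A`** in matrix
form: reduction of traces, determinants, of the matrices of elements on which `ρ̄` is trivial or
scalar; the cyclotomic determinant and the absolute irreducibility pass between `ρ̄` and the
residual representation of a lift.
-/
import Mathlib
import Fermat.Agent.RB.GLUE_helper9_Descend

set_option autoImplicit false
set_option linter.unusedSectionVars false
set_option linter.style.haveILetI false

open scoped TensorProduct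

namespace Fermat.Agent.RB.GLUE

open Fermat.Agent.S53 IsLocalRing Polynomial

local notation "GQ" => (AlgebraicClosure ℚ ≃ₐ[ℚ] AlgebraicClosure ℚ)

section Lift

variable {k : Type} [Field k] {A : Type} [CommRing A] [IsLocalRing A]
  (ρ : GaloisRepAdic A) (b : Module.Basis (Fin 2) A ρ.V)
  (ψ : k →+* ResidueField A) (ρbar : ResidualGaloisRep k)
  (h : ρ.residual.IsEquiv (ρbar.baseChangeAlong ψ))

include h in
/-- the reductions of the matrices of `ρ` are conjugate to the matrices of `ρ̄` -/
theorem exists_conj_residue (β : Module.Basis (Fin 2) k ρbar.V) :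
    ∃ U : (M2 (ResidueField A))ˣ, ∀ σ : GQ,
    (U : M2 (ResidueField A)) * (LinearMap.toMatrix b b (ρ.ρ σ)).map (residue A) =
      (LinearMap.toMatrix β β (ρbar.ρ σ)).map ψ * U :=
  (residual_isEquiv_iff ρ b ψ ρbar β).1 h

include h in
theorem residue_trace (σ : GQ) :
    residue A (ρ.trace σ) = ψ (LinearMap.trace k ρbar.V (ρbar.ρ σ)) := by
  set b := someBasis ρ
  set β := resSomeBasis ρbar
  obtain ⟨U, hU⟩ := exists_conj_residue ρ b ψ ρbar h β
  have h1 : (LinearMap.toMatrix b b (ρ.ρ σ)).map (residue A) =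
      ((U⁻¹ : (M2 (ResidueField A))ˣ) : M2 (ResidueField A)) *
        ((LinearMap.toMatrix β β (ρbar.ρ σ)).map ψ * U) := by
    rw [← hU σ, ← mul_assoc, Units.inv_mul, one_mul]
  have h2 : Matrix.trace ((LinearMap.toMatrix b b (ρ.ρ σ)).map (residue A)) =
      Matrix.trace ((LinearMap.toMatrix β β (ρbar.ρ σ)).map ψ) := by
    rw [h1, Matrix.trace_mul_comm, mul_assoc, Units.mul_inv, mul_one]
  have h3 : Matrix.trace ((LinearMap.toMatrix b b (ρ.ρ σ)).map (residue A)) =
      residue A (Matrix.trace (LinearMap.toMatrix b b (ρ.ρ σ))) :=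
    (AddMonoidHom.map_trace (residue A).toAddMonoidHom _).symm
  have h4 : Matrix.trace ((LinearMap.toMatrix β β (ρbar.ρ σ)).map ψ) =
      ψ (Matrix.trace (LinearMap.toMatrix β β (ρbar.ρ σ))) :=
    (AddMonoidHom.map_trace ψ.toAddMonoidHom _).symm
  rw [GaloisRepAdic.trace, LinearMap.trace_eq_matrix_trace A b, ← h3, h2, h4,
    LinearMap.trace_eq_matrix_trace k β]

include h in
theorem residue_det (σ : GQ) :
    residue A (LinearMap.det (ρ.ρ σ)) = ψ (LinearMap.det (ρbar.ρ σ)) := by
  set b := someBasis ρ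
  set β := resSomeBasis ρbar
  obtain ⟨U, hU⟩ := exists_conj_residue ρ b ψ ρbar h β
  have h1 := congrArg Matrix.det (hU σ)
  rw [Matrix.det_mul, Matrix.det_mul, mul_comm] at h1
  have hUdet : IsUnit (U : M2 (ResidueField A)).det := by
    have := (Matrix.isUnit_iff_isUnit_det _).1 U.isUnit
    exact this
  have h2 := hUdet.mul_right_cancel h1
  rw [← RingHom.mapMatrix_apply, ← RingHom.map_det, ← RingHom.mapMatrix_apply, ← RingHom.map_det,
    LinearMap.det_toMatrix, LinearMap.det_toMatrix] at h2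
  exact h2

include h in
/-- if `ρ̄(σ)` is the scalar `c` then the matrix of `ρ(σ)` reduces to the scalar `ψ c` -/
theorem map_residue_of_scalar {σ : GQ} {c : k}
    (hc : ρbar.ρ σ = c • (1 : Module.End k ρbar.V)) :
    (LinearMap.toMatrix b b (ρ.ρ σ)).map (residue A) = ψ c • (1 : M2 (ResidueField A)) := by
  set β := resSomeBasis ρbar
  obtain ⟨U, hU⟩ := exists_conj_residue ρ b ψ ρbar h β
  have h0 : (LinearMap.toMatrix β β (ρbar.ρ σ)).map ψ = ψ c • (1 : M2 (ResidueField A)) := by
    rw [hc, map_smul, LinearMap.toMatrix_one]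
    ext i j
    rw [Matrix.map_apply, Matrix.smul_apply, Matrix.smul_apply, smul_eq_mul, smul_eq_mul, map_mul,
      Matrix.one_apply, Matrix.one_apply]
    split_ifs <;> simp
  have h1 : (LinearMap.toMatrix b b (ρ.ρ σ)).map (residue A) =
      ((U⁻¹ : (M2 (ResidueField A))ˣ) : M2 (ResidueField A)) *
        ((LinearMap.toMatrix β β (ρbar.ρ σ)).map ψ * U) := by
    rw [← hU σ, ← mul_assoc, Units.inv_mul, one_mul]
  rw [h1, h0, Matrix.smul_mul, one_mul, Matrix.mul_smul, Units.inv_mul]

include h in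
/-- if `ρ̄(σ) = 1` then the matrix of `ρ(σ) - 1` has entries in the maximal ideal -/
theorem sub_one_mem_of_eq_one {σ : GQ} (hσ : ρbar.ρ σ = 1) (i j : Fin 2) :
    (LinearMap.toMatrix b b (ρ.ρ σ) - 1) i j ∈ maximalIdeal A := by
  have h1 := map_residue_of_scalar ρ b ψ ρbar h (σ := σ) (c := 1) (by rw [hσ, one_smul])
  rw [map_one, one_smul] at h1
  have h2 := congrFun (congrFun h1 i) j
  rw [Matrix.map_apply] at h2
  rw [← residue_eq_zero_iff, Matrix.sub_apply, map_sub, h2, Matrix.one_apply, Matrix.one_apply]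
  split_ifs <;> simp

include h in
/-- if `ρ̄(σ)` is the scalar `c`, the traceless coordinates of the matrix of `ρ(σ)` lie in the
maximal ideal and the diagonal entries reduce to `ψ c` -/
theorem coords_mem_of_scalar {σ : GQ} {c : k}
    (hc : ρbar.ρ σ = c • (1 : Module.End k ρbar.V)) :
    LinearMap.toMatrix b b (ρ.ρ σ) 0 0 - LinearMap.toMatrix b b (ρ.ρ σ) 1 1 ∈ maximalIdeal A ∧
    LinearMap.toMatrix b b (ρ.ρ σ) 0 1 ∈ maximalIdeal A ∧
    LinearMap.toMatrix b b (ρ.ρ σ) 1 0 ∈ maximalIdeal A ∧
    residue A (LinearMap.toMatrix b b (ρ.ρ σ) 0 0) = ψ c ∧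
    residue A (LinearMap.toMatrix b b (ρ.ρ σ) 1 1) = ψ c := by
  have h1 := map_residue_of_scalar ρ b ψ ρbar h hc
  have e00 := congrFun (congrFun h1 0) 0
  have e01 := congrFun (congrFun h1 0) 1
  have e10 := congrFun (congrFun h1 1) 0
  have e11 := congrFun (congrFun h1 1) 1
  simp only [Matrix.map_apply, Matrix.smul_apply, Matrix.one_apply_eq, smul_eq_mul, mul_one,
    Matrix.one_apply_ne (show (0 : Fin 2) ≠ 1 by decide),
    Matrix.one_apply_ne (show (1 : Fin 2) ≠ 0 by decide), mul_zero] at e00 e01 e10 e11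
  refine ⟨?_, ?_, ?_, e00, e11⟩
  · rw [← residue_eq_zero_iff, map_sub, e00, e11, sub_self]
  · rw [← residue_eq_zero_iff, e01]
  · rw [← residue_eq_zero_iff, e10]

include h in
/-- the determinant of `ρ̄` is cyclotomic if the determinant of the lift `ρ` is -/
theorem detIsCyclotomic_of_lift {p : ℕ} (hdet : ρ.DetIsCyclotomic p) :
    (GaloisRepAdic.ofResidualGaloisRep ρbar).DetIsCyclotomic p := by
  have hpk : (p : k) = 0 := by
    apply ψ.injective
    rw [map_natCast, map_zero, ← map_natCast (residue A), residue_eq_zero_iff]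
    exact hdet.1
  refine ⟨?_, fun n σ a ha => ?_⟩
  · rw [hpk]; exact Ideal.zero_mem _
  · rcases Nat.eq_zero_or_pos n with rfl | hn
    · rw [pow_zero, Nat.cast_one, Ideal.span_singleton_one]; trivial
    · have h1 := hdet.2 n σ a ha
      have h2 : LinearMap.det (ρ.ρ σ) - (a : A) ∈ maximalIdeal A := by
        have hle : Ideal.span {((p ^ n : ℕ) : A)} ≤ maximalIdeal A := by
          rw [Ideal.span_singleton_le_iff_mem, Nat.cast_pow]
          exact Ideal.pow_mem_of_mem _ hdet.1 n hn
        exact hle h1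
      rw [← residue_eq_zero_iff, map_sub, residue_det ρ ψ ρbar h, map_natCast,
        ← map_natCast ψ, ← map_sub] at h2
      have h3 := (map_eq_zero_iff ψ ψ.injective).1 h2
      show LinearMap.det (ρbar.ρ σ) - (a : k) ∈ _
      rw [h3]
      exact Ideal.zero_mem _

end Lift

section FullSpan

open Fermat.Agent.S53.L1

variable {G : Type*} [Monoid G] {K : Type*} [CommRing K]

/-- full span is invariant under conjugation -/
theorem fullSpan_of_conj {r r' : G →* Mat2 K} (U : (Mat2 K)ˣ)
    (hU : ∀ g, (U : Mat2 K) * r' g = r g * U) (hr : FullSpan r) : FullSpan r' := by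
  unfold FullSpan at hr ⊢
  rw [eq_top_iff]
  intro X _
  have h1 : (U : Mat2 K) * X * ((U⁻¹ : (Mat2 K)ˣ) : Mat2 K) ∈ Submodule.span K (Set.range r) := by
    rw [hr]; trivial
  have key : ∀ Y ∈ Submodule.span K (Set.range r),
      ((U⁻¹ : (Mat2 K)ˣ) : Mat2 K) * Y * U ∈ Submodule.span K (Set.range r') := by
    intro Y hY
    induction hY using Submodule.span_induction with
    | mem Y hY =>
      obtain ⟨g, rfl⟩ := hY
      apply Submodule.subset_span
      refine ⟨g, ?_⟩
      rw [mul_assoc, ← hU g, ← mul_assoc, Units.inv_mul, one_mul]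
    | zero => rw [mul_zero, zero_mul]; exact Submodule.zero_mem _
    | add x y _ _ hx hy => rw [mul_add, add_mul]; exact Submodule.add_mem _ hx hy
    | smul a x _ hx => rw [Matrix.mul_smul, Matrix.smul_mul]; exact Submodule.smul_mem _ a hx
  have h2 := key _ h1
  rwa [← mul_assoc, ← mul_assoc, Units.inv_mul, one_mul, mul_assoc, Units.inv_mul, mul_one] at h2

end FullSpan

section AbsIrr

variable {k : Type} [Field k] {A : Type} [CommRing A] [IsLocalRing A]
  (ρ : GaloisRepAdic A) (ψ : k →+* ResidueField A) (ρbar : ResidualGaloisRep k)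
  (h : ρ.residual.IsEquiv (ρbar.baseChangeAlong ψ))

include h in
/-- the residual representation of a lift of an absolutely irreducible `ρ̄` is absolutely
irreducible -/
theorem residual_isAbsolutelyIrreducible_of_lift (habs : ρbar.IsAbsolutelyIrreducible) :
    ρ.residual.IsAbsolutelyIrreducible := by
  set b := someBasis ρ
  set β := resSomeBasis ρbar
  obtain ⟨U, hU⟩ := exists_conj_residue ρ b ψ ρbar h β
  have h1 : Fermat.Agent.S53.L1.FullSpan (resMatrixOf ρbar β) :=
    Fermat.Agent.S53.L1.fullSpan_of_absIrr ρbar β habs _ (fun σ => rfl)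
  have h2 := Fermat.Agent.RB.REPT.fullSpan_mapRep ψ _ h1
  have h3 : Fermat.Agent.S53.L1.FullSpan
      (Fermat.Agent.S53.L1.mapRep (residue A) (matrixOf ρ b)) :=
    fullSpan_of_conj (r := Fermat.Agent.S53.L1.mapRep ψ (resMatrixOf ρbar β)) U
      (fun σ => hU σ) h2
  refine Fermat.Agent.RB.REPT.isAbsolutelyIrreducible_of_fullSpan ρ.residual
    (residualBasis ρ b) _ (fun σ => ?_) h3
  rw [← resMatrixOf_eq_toMatrix, resMatrixOf_residual]
  rfl

end AbsIrr

end Fermat.Agent.RB.GLUE
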