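/-
PROJECT RB — [GLUE] (helper9), file 3: entrywise membership of `2 × 2` matrices in an ideal, the
`p`-power order of matrices congruent to `1`, Krull closedness of ideals in a noetherian local
ring.
-/
import Mathlib

set_option autoImplicit false
set_option linter.unusedSectionVars false

namespace Fermat.Agent.RB.GLUE

open IsLocalRing

section EMem

variable {R : Type*} [CommRing R]

/-- all entries of `M` lie in `I` -/
def EMem (I : Ideal R) (M : Matrix (Fin 2) (Fin 2) R) : Prop := ∀ i j, M i j ∈ I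

theorem EMem.zero (I : Ideal R) : EMem I 0 := fun _ _ => I.zero_mem

theorem EMem.add {I : Ideal R} {A B : Matrix (Fin 2) (Fin 2) R} (hA : EMem I A) (hB : EMem I B) :
    EMem I (A + B) := fun i j => I.add_mem (hA i j) (hB i j)

theorem EMem.sub {I : Ideal R} {A B : Matrix (Fin 2) (Fin 2) R} (hA : EMem I A) (hB : EMem I B) :
    EMem I (A - B) := fun i j => I.sub_mem (hA i j) (hB i j)

theorem EMem.neg {I : Ideal R} {A : Matrix (Fin 2) (Fin 2) R} (hA : EMem I A) :
    EMem I (-A) := fun i j => I.neg_mem (hA i j)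

theorem EMem.smul {I : Ideal R} {A : Matrix (Fin 2) (Fin 2) R} (c : R) (hA : EMem I A) :
    EMem I (c • A) := fun i j => I.mul_mem_left c (hA i j)

theorem EMem.mono {I J : Ideal R} (h : I ≤ J) {A : Matrix (Fin 2) (Fin 2) R} (hA : EMem I A) :
    EMem J A := fun i j => h (hA i j)

theorem EMem.sum {I : Ideal R} {ι : Type*} (s : Finset ι) (A : ι → Matrix (Fin 2) (Fin 2) R)
    (hA : ∀ k ∈ s, EMem I (A k)) : EMem I (∑ k ∈ s, A k) := by
  intro i j
  rw [Matrix.sum_apply]
  exact I.sum_mem fun k hk => hA k hk i j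

theorem EMem.mul {I J : Ideal R} {A B : Matrix (Fin 2) (Fin 2) R} (hA : EMem I A)
    (hB : EMem J B) : EMem (I * J) (A * B) := by
  intro i j
  rw [Matrix.mul_apply]
  exact (I * J).sum_mem fun k _ => Ideal.mul_mem_mul (hA i k) (hB k j)

theorem EMem.mul_left {I : Ideal R} (A : Matrix (Fin 2) (Fin 2) R)
    {B : Matrix (Fin 2) (Fin 2) R} (hB : EMem I B) : EMem I (A * B) := by
  intro i j
  rw [Matrix.mul_apply]
  exact I.sum_mem fun k _ => I.mul_mem_left _ (hB k j)

theorem EMem.mul_right {I : Ideal R} {A : Matrix (Fin 2) (Fin 2) R} (hA : EMem I A)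
    (B : Matrix (Fin 2) (Fin 2) R) : EMem I (A * B) := by
  intro i j
  rw [Matrix.mul_apply]
  exact I.sum_mem fun k _ => I.mul_mem_right _ (hA i k)

theorem emem_iff_map_mk_eq_zero (I : Ideal R) (M : Matrix (Fin 2) (Fin 2) R) :
    EMem I M ↔ M.map (Ideal.Quotient.mk I) = 0 := by
  constructor
  · intro h
    ext i j
    rw [Matrix.map_apply, Matrix.zero_apply, Ideal.Quotient.eq_zero_iff_mem]
    exact h i j
  · intro h i j
    have := congrFun (congrFun h i) j
    rwa [Matrix.map_apply, Matrix.zero_apply, Ideal.Quotient.eq_zero_iff_mem] at this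

theorem emem_sub_iff_map_mk_eq (I : Ideal R) (M N : Matrix (Fin 2) (Fin 2) R) :
    EMem I (M - N) ↔ M.map (Ideal.Quotient.mk I) = N.map (Ideal.Quotient.mk I) := by
  rw [emem_iff_map_mk_eq_zero, ← sub_eq_zero (a := M.map _)]
  have : (M - N).map (Ideal.Quotient.mk I) =
      M.map (Ideal.Quotient.mk I) - N.map (Ideal.Quotient.mk I) := by
    ext i j; simp
  rw [this]

theorem EMem.map {S : Type*} [CommRing S] (f : R →+* S) {I : Ideal R} {J : Ideal S}
    (hIJ : I.map f ≤ J) {A : Matrix (Fin 2) (Fin 2) R} (hA : EMem I A) : EMem J (A.map f) :=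
  fun i j => hIJ (Ideal.mem_map_of_mem f (hA i j))

/-- `M ≡ 1 mod I` ⇒ `M ^ i ≡ 1 mod I` -/
theorem EMem.pow_sub_one {I : Ideal R} {M : Matrix (Fin 2) (Fin 2) R} (h : EMem I (M - 1))
    (i : ℕ) : EMem I (M ^ i - 1) := by
  induction i with
  | zero => rw [pow_zero, sub_self]; exact EMem.zero I
  | succ i ih =>
    have : M ^ (i + 1) - 1 = M ^ i * (M - 1) + (M ^ i - 1) := by
      rw [pow_succ, mul_sub, mul_one]; abel
    rw [this]
    exact (EMem.mul_left _ h).add ih

/-- `M ≡ N mod I` ⇒ `M ^ i ≡ N ^ i mod I` -/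
theorem EMem.pow_sub_pow {I : Ideal R} {M N : Matrix (Fin 2) (Fin 2) R} (h : EMem I (M - N))
    (i : ℕ) : EMem I (M ^ i - N ^ i) := by
  induction i with
  | zero => rw [pow_zero, pow_zero, sub_self]; exact EMem.zero I
  | succ i ih =>
    have : M ^ (i + 1) - N ^ (i + 1) = M ^ i * (M - N) + (M ^ i - N ^ i) * N := by
      rw [pow_succ, pow_succ, mul_sub, sub_mul]; abel
    rw [this]
    exact (EMem.mul_left _ h).add (ih.mul_right _)

/-- `M ≡ 1 mod I`, `I ≤ J`, `p ∈ J` ⇒ `M ^ p ≡ 1 mod J I` -/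
theorem EMem.pow_prime {I J : Ideal R} (hIJ : I ≤ J) {p : ℕ} (hp : (p : R) ∈ J)
    {M : Matrix (Fin 2) (Fin 2) R} (h : EMem I (M - 1)) : EMem (J * I) (M ^ p - 1) := by
  have h1 : M ^ p - 1 = (M - 1) * ∑ i ∈ Finset.range p, M ^ i := (mul_geom_sum M p).symm
  have h2 : ∑ i ∈ Finset.range p, M ^ i =
      (p : R) • (1 : Matrix (Fin 2) (Fin 2) R) + ∑ i ∈ Finset.range p, (M ^ i - 1) := by
    rw [Finset.sum_sub_distrib, Finset.sum_const, Finset.card_range, Nat.cast_smul_eq_nsmul]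
    abel
  rw [h1, h2, mul_add, Matrix.mul_smul, mul_one]
  refine EMem.add ?_ ?_
  · intro i j
    rw [Matrix.smul_apply, smul_eq_mul]
    exact Ideal.mul_mem_mul hp (h i j)
  · have h3 : EMem I (∑ i ∈ Finset.range p, (M ^ i - 1)) :=
      EMem.sum _ _ fun i _ => h.pow_sub_one i
    exact (h.mul h3).mono (Ideal.mul_mono_left hIJ)

/-- `M ≡ 1 mod 𝔪`, `p ∈ 𝔪` ⇒ `M ^ (p ^ k) ≡ 1 mod 𝔪 ^ (k + 1)` -/
theorem EMem.pow_prime_pow {J : Ideal R} {p : ℕ} (hp : (p : R) ∈ J)
    {M : Matrix (Fin 2) (Fin 2) R} (h : EMem J (M - 1)) (k : ℕ) :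
    EMem (J ^ (k + 1)) (M ^ p ^ k - 1) := by
  induction k with
  | zero => simpa using h
  | succ k ih =>
    have h1 := EMem.pow_prime (I := J ^ (k + 1)) (J := J)
      (Ideal.pow_le_self (Nat.succ_ne_zero k)) hp ih
    rw [← pow_mul, ← pow_succ, ← pow_succ'] at h1
    exact h1

end EMem

section Krull

variable {R : Type*} [CommRing R] [IsLocalRing R] [IsNoetherianRing R]

/-- ideals of a noetherian local ring are closed -/
theorem mem_of_forall_mem_sup_pow (I : Ideal R) {x : R}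
    (h : ∀ k : ℕ, x ∈ I ⊔ maximalIdeal R ^ k) : x ∈ I := by
  have h1 : (Ideal.Quotient.mk I x : R ⧸ I) ∈
      ⨅ i, (maximalIdeal R ^ i) • (⊤ : Submodule R (R ⧸ I)) := by
    rw [Submodule.mem_iInf]
    intro i
    obtain ⟨y, hy, z, hz, rfl⟩ := Submodule.mem_sup.1 (h i)
    have : (Ideal.Quotient.mk I (y + z) : R ⧸ I) = z • (1 : R ⧸ I) := by
      rw [map_add, Ideal.Quotient.eq_zero_iff_mem.2 hy, zero_add, Algebra.smul_def, mul_one]
      rfl
    rw [this]
    exact Submodule.smul_mem_smul hz Submodule.mem_top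
  rw [Ideal.iInf_pow_smul_eq_bot_of_isLocalRing _ (Ideal.IsMaximal.ne_top inferInstance)] at h1
  exact Ideal.Quotient.eq_zero_iff_mem.1 ((Submodule.mem_bot R).1 h1)

theorem eq_zero_of_forall_mem_pow {x : R} (h : ∀ k : ℕ, x ∈ maximalIdeal R ^ k) : x = 0 := by
  have := mem_of_forall_mem_sup_pow (⊥ : Ideal R) (x := x) (fun k => by
    rw [bot_sup_eq]; exact h k)
  exact (Ideal.mem_bot).1 this

theorem matrix_eq_of_forall_emem {M N : Matrix (Fin 2) (Fin 2) R}
    (h : ∀ k : ℕ, EMem (maximalIdeal R ^ k) (M - N)) : M = N := by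
  ext i j
  rw [← sub_eq_zero]
  exact eq_zero_of_forall_mem_pow fun k => h k i j

theorem emem_of_forall_emem_sup_pow (I : Ideal R) {M : Matrix (Fin 2) (Fin 2) R}
    (h : ∀ k : ℕ, EMem (I ⊔ maximalIdeal R ^ k) M) : EMem I M :=
  fun i j => mem_of_forall_mem_sup_pow I fun k => h k i j

end Krull

end Fermat.Agent.RB.GLUE
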