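/-
PROJECT RB — [GLUE] (helper9), file 12: the inertia ideal in terms of matrix entries, and
independence of the place.
-/
import Mathlib
import Fermat.Agent.RB.IFACE_helper9_Datum
import Fermat.Agent.RB.GLUE_helper9_EMem
import Fermat.Agent.EC.Conjugacy_helper5

set_option autoImplicit false
set_option linter.unusedSectionVars false
set_option linter.unusedVariables false
set_option linter.style.haveILetI false

open scoped Pointwise

namespace Fermat.Agent.RB.GLUE

open IsLocalRing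

local notation "Ω" => AlgebraicClosure ℚ
local notation "GQ" => (AlgebraicClosure ℚ ≃ₐ[ℚ] AlgebraicClosure ℚ)

/-- the inertia ideal is contained in an ideal containing the entries of `ρ(σ) - 1` in a basis -/
theorem inertiaIdeal_le {A : Type} [CommRing A] [IsLocalRing A] (ρ : GaloisRepAdic A)
    (b : Module.Basis (Fin 2) A ρ.V) (v : ℕ) (𝔞 : Ideal A)
    (h : ∀ P : ValuationSubring Ω, P.LiesOverPrime v → ∀ σ ∈ P.inertiaSubgroupIn ℚ,
      EMem 𝔞 (LinearMap.toMatrix b b (ρ.ρ σ) - 1)) :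
    inertiaIdeal ρ v ≤ 𝔞 := by
  rw [inertiaIdeal, Ideal.span_le]
  rintro a ⟨P, hP, σ, hσ, x, φ, rfl⟩
  set f : Module.End A ρ.V := ρ.ρ σ - 1 with hf
  have hM : LinearMap.toMatrix b b f = LinearMap.toMatrix b b (ρ.ρ σ) - 1 := by
    rw [hf, map_sub, LinearMap.toMatrix_one]
  have hx : ρ.ρ σ x - x = f x := rfl
  have h1 : f x = ∑ i, (b.repr (f x) i) • b i := (b.sum_repr _).symm
  have h2 : ∀ i, b.repr (f x) i = ∑ j, LinearMap.toMatrix b b f i j * b.repr x j := by
    intro i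
    have := congrFun (LinearMap.toMatrix_mulVec_repr b b f x) i
    rw [← this]
    rfl
  rw [SetLike.mem_coe, hx, h1, map_sum]
  refine Ideal.sum_mem _ fun i _ => ?_
  rw [map_smul, smul_eq_mul, h2]
  refine Ideal.mul_mem_right _ _ (Ideal.sum_mem _ fun j _ => Ideal.mul_mem_right _ _ ?_)
  rw [hM]
  exact h P hP σ hσ i j

/-- entries of `r(σ) - 1`, `σ` in an inertia group at `v`: independence of the place -/
theorem emem_sub_one_of_all_places {R : Type*} [CommRing R]
    (r : GQ →* Matrix (Fin 2) (Fin 2) R) {v : ℕ} (hv : v.Prime) {P : ValuationSubring Ω}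
    (hP : P.LiesOverPrime v) (𝔞 : Ideal R)
    (h : ∀ σ ∈ P.inertiaSubgroupIn ℚ, EMem 𝔞 (r σ - 1)) {P' : ValuationSubring Ω}
    (hP' : P'.LiesOverPrime v) {σ : GQ} (hσ : σ ∈ P'.inertiaSubgroupIn ℚ) :
    EMem 𝔞 (r σ - 1) := by
  obtain ⟨g, rfl⟩ := Fermat.Agent.EC.exists_smul_eq_of_liesOverPrime hv hP hP'
  have h1 : g⁻¹ * σ * g ∈ P.inertiaSubgroupIn ℚ := by
    rw [← Fermat.Agent.EC.conj_mem_inertiaSubgroupIn hv hP g]
    have : g * (g⁻¹ * σ * g) * g⁻¹ = σ := by group
    rw [this]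
    exact hσ
  have h2 : r σ - 1 = r g * (r (g⁻¹ * σ * g) - 1) * r g⁻¹ := by
    have e1 : r g * r (g⁻¹ * σ * g) * r g⁻¹ = r σ := by
      rw [← map_mul, ← map_mul]
      congr 1
      group
    have e2 : r g * r g⁻¹ = 1 := by rw [← map_mul, mul_inv_cancel, map_one]
    rw [mul_sub, sub_mul, e1, mul_one, e2]
  rw [h2]
  exact ((h _ h1).mul_left _).mul_right _

end Fermat.Agent.RB.GLUE
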