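/-
PROJECT RB (feasibility), block [CA]: Krull dimension of (multivariate) power series rings over a
noetherian ring: `dim A⟦X⟧ = dim A + 1`, `dim A⟦X_1..X_n⟧ = dim A + n`; for a DVR `O`,
`dim O⟦X_1..X_n⟧ = n + 1`.  helper4.
-/
import Mathlib

set_option autoImplicit false

namespace Fermat.Agent.RB

section PowerSeries

variable (A : Type*) [CommRing A]

theorem powerSeries_X_mem_jacobson : (PowerSeries.X : PowerSeries A) ∈ Ring.jacobson (PowerSeries A) := by
  rw [← Ideal.jacobson_bot, Ideal.mem_jacobson_bot]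
  intro y
  rw [PowerSeries.isUnit_iff_constantCoeff]
  simp

theorem powerSeries_ker_constantCoeff :
    RingHom.ker (PowerSeries.constantCoeff (R := A)) = Ideal.span {(PowerSeries.X : PowerSeries A)} := by
  apply Ideal.ext
  intro φ
  rw [RingHom.mem_ker, Ideal.mem_span_singleton, PowerSeries.X_dvd_iff]

/-- `A⟦X⟧ ⧸ (X) ≃ A`. -/
noncomputable def powerSeriesQuotientXEquiv :
    (PowerSeries A ⧸ Ideal.span {(PowerSeries.X : PowerSeries A)}) ≃+* A :=
  (Ideal.quotEquivOfEq (powerSeries_ker_constantCoeff A).symm).trans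
    (RingHom.quotientKerEquivOfSurjective (PowerSeries.constantCoeff_surj (R := A)))

theorem ringKrullDim_powerSeries_le [IsNoetherianRing A] :
    ringKrullDim (PowerSeries A) ≤ ringKrullDim A + 1 := by
  have h := ringKrullDim_le_ringKrullDim_quotient_add_encard
    ({(PowerSeries.X : PowerSeries A)} : Set (PowerSeries A))
    (by
      intro x hx
      rw [Set.mem_singleton_iff] at hx
      rw [hx]
      exact powerSeries_X_mem_jacobson A)
  rw [Set.encard_singleton, ringKrullDim_eq_of_ringEquiv (powerSeriesQuotientXEquiv A)] at h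
  exact h

theorem ringKrullDim_powerSeries [IsNoetherianRing A] :
    ringKrullDim (PowerSeries A) = ringKrullDim A + 1 :=
  le_antisymm (ringKrullDim_powerSeries_le A) ringKrullDim_succ_le_ringKrullDim_powerseries

theorem ringKrullDim_mvPowerSeries_fin [IsNoetherianRing A] (n : ℕ) :
    ringKrullDim (MvPowerSeries (Fin n) A) = ringKrullDim A + n := by
  induction n with
  | zero =>
    rw [ringKrullDim_eq_of_ringEquiv (MvPowerSeries.isEmptyEquiv (Fin 0) A).toRingEquiv]
    simp
  | succ n ih =>
    rw [ringKrullDim_eq_of_ringEquiv (MvPowerSeries.finSuccEquiv A n).toRingEquiv,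
      ringKrullDim_powerSeries, ih]
    push_cast
    rw [add_assoc]

theorem ringKrullDim_mvPowerSeries [IsNoetherianRing A] (σ : Type*) [Fintype σ] :
    ringKrullDim (MvPowerSeries σ A) = ringKrullDim A + Fintype.card σ := by
  rw [ringKrullDim_eq_of_ringEquiv (MvPowerSeries.renameEquiv A (Fintype.equivFin σ)).toRingEquiv,
    ringKrullDim_mvPowerSeries_fin]

/-- Over a DVR, `dim O⟦X_σ⟧ = |σ| + 1`. -/
theorem ringKrullDim_mvPowerSeries_of_isDiscreteValuationRing [IsDomain A]
    [IsDiscreteValuationRing A] (σ : Type*) [Fintype σ] :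
    ringKrullDim (MvPowerSeries σ A) = (Fintype.card σ + 1 : ℕ) := by
  rw [ringKrullDim_mvPowerSeries, IsDiscreteValuationRing.ringKrullDim_eq_one]
  push_cast
  rw [add_comm]

/-- Over a field, `dim k⟦X_σ⟧ = |σ|`. -/
theorem ringKrullDim_mvPowerSeries_of_field (k : Type*) [Field k] (σ : Type*) [Fintype σ] :
    ringKrullDim (MvPowerSeries σ k) = (Fintype.card σ : ℕ) := by
  rw [ringKrullDim_mvPowerSeries, ringKrullDim_eq_zero_of_field]
  simp

end PowerSeries

end Fermat.Agent.RB
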