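/-
PROJECT RB (feasibility), block [LOC]: the two framed local deformation rings at the primes
`v ∈ Σ` (`v ≡ 1 mod p`, `ρ̄(Frob_v)` scalar) as explicit quotients of ONE power series ring.

Coordinates (`2` invertible).  For `v ∈ Σ` write the images of a tame generator and of Frobenius as
  `Σ_v = (tr Σ_v / 2) + s_v`,  `Φ_v = θ_v(w_v) + w_v`,
with `s_v, w_v` traceless, identified with triples `(a,b,c) ↔ !![a,b;c,-a]`, and
`θ_v(w)^2 = δ_v + q(w)` (fixed determinant `δ_v`, Hensel square root), `q(a,b,c) = a^2 + b c`.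

* Problem (1) (unipotent):  `q(s_v) = 0`, `Φ N = 𝓋 N Φ` (`N = s_v`), i.e.
      `(1-𝓋) B(s_v,w_v) = 0`  and  `(1-𝓋) θ_v(w_v) s_v + ((1+𝓋)/2) [w_v,s_v] = 0`.
* Problem (2) (χ-type):     `q(s_v) = γ_v^2` (`γ_v = (ζ_v - ζ_v⁻¹)/2`), `s_v ∧ w_v = 0`.

The ring of variables is `PS = O⟦s_{v,i}, w_{v,i}, x_j⟧`; `R₁ = PS ⧸ I₁`, `R₂ = PS ⧸ I₂`,
`I₁ + (λ) = I₂ + (λ)`.  helper4.
-/
import Mathlib

set_option autoImplicit false

namespace Fermat.Agent.RB.LOC

open MvPowerSeries

section Forms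

variable {A : Type*} [CommRing A]

/-- the quadratic form `q(a,b,c) = a^2 + b c` (minus the determinant of `!![a,b;c,-a]`) -/
def qf (t : Fin 3 → A) : A := t 0 ^ 2 + t 1 * t 2

/-- twice the polar form: `2 B(t,u) = 2 a a' + b c' + b' c = tr (t u)` -/
def bf2 (t u : Fin 3 → A) : A := 2 * (t 0 * u 0) + (t 1 * u 2 + u 1 * t 2)

/-- the three `2 × 2` minors of the `2 × 3` matrix with rows `t`, `u` -/
def minor (t u : Fin 3 → A) : Fin 3 → A :=
  ![t 0 * u 1 - t 1 * u 0, t 0 * u 2 - t 2 * u 0, t 1 * u 2 - t 2 * u 1]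

/-- the commutator `[u,t] = u t - t u` of traceless matrices, in the coordinates `(a,b,c)` -/
def brk (u t : Fin 3 → A) : Fin 3 → A :=
  ![u 1 * t 2 - t 1 * u 2, 2 * (u 0 * t 1 - t 0 * u 1), 2 * (u 2 * t 0 - t 2 * u 0)]

/-- `ad_u^3 = 4 q(u) ad_u` on traceless `2 × 2` matrices. -/
theorem brk_brk_brk (u t : Fin 3 → A) (i : Fin 3) :
    brk u (brk u (brk u t)) i = 4 * qf u * brk u t i := by
  fin_cases i <;> simp [brk, qf] <;> ring

end Forms

/-- The numerical data of the local problems at the primes of `Σ`. -/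
structure Data (O : Type*) [CommRing O] (Sig : Type*) where
  /-- a uniformizer -/
  lam : O
  /-- `1/2` -/
  half : O
  two_mul_half : 2 * half = 1
  /-- the rational prime `v`, as an element of `O` -/
  nv : Sig → O
  lam_dvd_nv_sub_one : ∀ v, lam ∣ nv v - 1
  /-- `γ_v = (ζ_v - ζ_v⁻¹)/2` -/
  gam : Sig → O
  lam_dvd_gam : ∀ v, lam ∣ gam v
  /-- `θ_v(w)`, the square root of `δ_v + q(w)` lifting `α_v` -/
  theta : Sig → MvPowerSeries (Fin 3) O
  isUnit_theta : ∀ v, IsUnit (constantCoeff (theta v))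

variable {O : Type*} [CommRing O] {Sig : Type*} (D : Data O Sig) (g : ℕ)

/-- the variables: `s_{v,i}`, `w_{v,i}` (`i : Fin 3`) and `x_j` (`j : Fin g`) -/
abbrev Var (Sig : Type*) (g : ℕ) := (Sig × Fin 3) ⊕ (Sig × Fin 3) ⊕ Fin g

/-- the ambient power series ring -/
abbrev PS (O : Type*) [CommRing O] (Sig : Type*) (g : ℕ) := MvPowerSeries (Var Sig g) O

variable (O) in
/-- `s_v`, the traceless part of the image of the tame generator -/
noncomputable def sX (v : Sig) : Fin 3 → PS O Sig g := fun i => X (Sum.inl (v, i))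

variable (O) in
/-- `w_v`, the traceless part of the image of Frobenius -/
noncomputable def wX (v : Sig) : Fin 3 → PS O Sig g := fun i => X (Sum.inr (Sum.inl (v, i)))

variable (O Sig) in
/-- the patching variables -/
noncomputable def xX (j : Fin g) : PS O Sig g := X (Sum.inr (Sum.inr j))

/-- `θ_v(w_v)` as an element of the ambient ring -/
noncomputable def thetaX (v : Sig) : PS O Sig g :=
  rename (fun i : Fin 3 => (Sum.inr (Sum.inl (v, i)) : Var Sig g)) (D.theta v)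

/-- generators of the ideal of problem (2) at `v`: `q(s_v) - γ_v^2` and the minors of `(s_v; w_v)` -/
noncomputable def gens₂ (v : Sig) : Set (PS O Sig g) :=
  {qf (sX O g v) - C (D.gam v ^ 2)} ∪ Set.range (minor (sX O g v) (wX O g v))

/-- generators of the ideal of problem (1) at `v` -/
noncomputable def gens₁ (v : Sig) : Set (PS O Sig g) :=
  {qf (sX O g v)} ∪ {C (1 - D.nv v) * bf2 (sX O g v) (wX O g v)} ∪
    Set.range (fun i : Fin 3 => C (1 - D.nv v) * thetaX D g v * sX O g v i +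
      C (D.half * (1 + D.nv v)) * brk (wX O g v) (sX O g v) i)

/-- the ideal of problem (1) -/
noncomputable def I₁ : Ideal (PS O Sig g) := Ideal.span (⋃ v, gens₁ D g v)

/-- the ideal of problem (2) -/
noncomputable def I₂ : Ideal (PS O Sig g) := Ideal.span (⋃ v, gens₂ D g v)

/-- the unipotent framed ring `R₁_∞` -/
abbrev R₁ := PS O Sig g ⧸ I₁ D g

/-- the χ-type framed ring `R₂_∞` -/
abbrev R₂ := PS O Sig g ⧸ I₂ D g

/-- the ideal `(s_{v,i})` of the unramified locus -/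
noncomputable def sIdeal : Ideal (PS O Sig g) :=
  Ideal.span (Set.range (fun p : Sig × Fin 3 => (X (Sum.inl p) : PS O Sig g)))

/-- `e_v = 𝓋 (tr Φ_v)^2 - (𝓋+1)^2 det Φ_v = (𝓋+1)^2 q(w_v) - (𝓋-1)^2 θ_v^2` -/
noncomputable def eX (v : Sig) : PS O Sig g :=
  C ((D.nv v + 1) ^ 2) * qf (wX O g v) - C ((D.nv v - 1) ^ 2) * thetaX D g v ^ 2

/-- Non-degeneracy of the data over a DVR. -/
structure Data.Good [IsDomain O] : Prop where
  irreducible_lam : Irreducible D.lam
  gam_ne_zero : ∀ v, D.gam v ≠ 0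
  nv_ne_one : ∀ v, D.nv v ≠ 1

/-! ### The test prime `Qbar'` -/

/-- `Qbar' = (λ, all variables except a'_v = w_{v,0})`; `PS ⧸ Qbar' = k⟦a'_v : v ∈ Σ⟧`. -/
noncomputable def Qbar' : Ideal (PS O Sig g) :=
  Ideal.span ({C D.lam} ∪
    {f | ∃ t : Var Sig g, (∀ v : Sig, t ≠ Sum.inr (Sum.inl (v, 0))) ∧ f = X t})


end Fermat.Agent.RB.LOC
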