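/-
PROJECT RB (feasibility), block [LOC], lemma (L6): in the unipotent ring `R₁`,
  `(1 - 𝓋) θ_v e_v s_{v,i} = 0`.
Hence a prime of `R₁` not containing `1 - 𝓋` (characteristic zero) nor `e_v` contains `s_v`:
this is "N_v ≠ 0 ⟹ e_v = 0" of step (2)(c), as an ideal-membership certificate
(`ad_w^3 = 4 q(w) ad_w`).  helper4.
-/
import Mathlib
import Fermat.Agent.RB.LOC_helper4_Defs

set_option autoImplicit false

namespace Fermat.Agent.RB.LOC

open MvPowerSeries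

variable {O : Type*} [CommRing O] {Sig : Type*} (D : Data O Sig) (g : ℕ)

/-- the `i`-th "traceless" generator of `I₁` at `v` -/
noncomputable def G₁ (v : Sig) (i : Fin 3) : PS O Sig g :=
  C (1 - D.nv v) * thetaX D g v * sX O g v i +
      C (D.half * (1 + D.nv v)) * brk (wX O g v) (sX O g v) i

theorem G₁_mem (v : Sig) (i : Fin 3) : G₁ D g v i ∈ I₁ D g := by
  apply Ideal.subset_span
  refine Set.mem_iUnion.mpr ⟨v, ?_⟩
  right
  exact ⟨i, rfl⟩

/-- abstract form of the certificate -/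
theorem certificate {A : Type*} [CommRing A] (c k : A) (s w : Fin 3 → A) (i : Fin 3) :
    ∃ p : Fin 3 → A, c * (4 * k ^ 2 * qf w - c ^ 2) * s i =
      ∑ j, p j * (c * s j + k * brk w s j) := by
  fin_cases i
  · refine ⟨![-(k ^ 2 * (4 * (w 1 * w 2))) - (c ^ 2 - 4 * qf w * k ^ 2),
      -(k ^ 2 * (-2 * (w 0 * w 2))) + c * k * (-(w 2)),
      -(k ^ 2 * (-2 * (w 0 * w 1))) + c * k * (w 1)], ?_⟩
    simp [Fin.sum_univ_three, brk, qf]
    ring
  · refine ⟨![-(k ^ 2 * (-4 * (w 0 * w 1))) + c * k * (-2 * w 1),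
      -(k ^ 2 * (2 * (w 1 * w 2) + 4 * w 0 ^ 2)) + c * k * (2 * w 0) - (c ^ 2 - 4 * qf w * k ^ 2),
      -(k ^ 2 * (-2 * w 1 ^ 2))], ?_⟩
    simp [Fin.sum_univ_three, brk, qf]
    ring
  · refine ⟨![-(k ^ 2 * (-4 * (w 0 * w 2))) + c * k * (2 * w 2),
      -(k ^ 2 * (-2 * w 2 ^ 2)),
      -(k ^ 2 * (2 * (w 1 * w 2) + 4 * w 0 ^ 2)) + c * k * (-2 * w 0) -
        (c ^ 2 - 4 * qf w * k ^ 2)], ?_⟩
    simp [Fin.sum_univ_three, brk, qf]
    ring

/-- (L6): `(1 - 𝓋) θ_v e_v s_{v,i} ∈ I₁`. -/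
theorem one_sub_nv_mul_theta_mul_e_mul_s_mem (v : Sig) (i : Fin 3) :
    C (1 - D.nv v) * thetaX D g v * eX D g v * sX O g v i ∈ I₁ D g := by
  obtain ⟨p, hp⟩ := certificate (C (1 - D.nv v) * thetaX D g v) (C (D.half * (1 + D.nv v)))
    (sX O g v) (wX O g v) i
  have h2 : (2 : PS O Sig g) * C D.half = 1 := by
    have : (2 : PS O Sig g) = C (2 : O) := (map_ofNat (C (σ := Var Sig g) (R := O)) 2).symm
    rw [this, ← map_mul, D.two_mul_half, map_one]
  have hk : 4 * (C (D.half * (1 + D.nv v)) : PS O Sig g) ^ 2 = C ((D.nv v + 1) ^ 2) := by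
    simp only [map_mul, map_add, map_pow, map_one]
    linear_combination ((C (D.nv v) + 1) ^ 2 * (2 * C D.half + 1)) * h2
  have he : C (1 - D.nv v) * thetaX D g v * eX D g v * sX O g v i =
      (C (1 - D.nv v) * thetaX D g v) * (4 * (C (D.half * (1 + D.nv v))) ^ 2 * qf (wX O g v) -
        (C (1 - D.nv v) * thetaX D g v) ^ 2) * sX O g v i := by
    rw [hk, eX]
    simp only [map_sub, map_add, map_pow, map_one]
    ring
  rw [he, hp]
  apply Ideal.sum_mem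
  intro j _
  exact Ideal.mul_mem_left _ _ (G₁_mem D g v j)

end Fermat.Agent.RB.LOC
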