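/-
PROJECT RB (feasibility), toolkit [TK]: ideals of `MvPowerSeries` spanned by variables.
* `mem_span_X_of_coeff_eq_zero` : if every monomial of `f` involves a variable of the finite set
  `T`, then `f ∈ span {X t | t ∈ T}`;
* `ker_killCompl`               : `ker (killCompl e) = span {X t | t ∉ range e}`;
* `ker_constantCoeff`           : `ker constantCoeff = span (range X)` (finitely many variables).
helper4.
-/
import Mathlib

set_option autoImplicit false

namespace Fermat.Agent.RB.TK

open MvPowerSeries

variable {τ : Type*} {R : Type*} [CommRing R]

/-- If every monomial occurring in `f` involves one of the variables of the finite set `T`, then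
`f` lies in the ideal generated by `X t`, `t ∈ T`. -/
theorem mem_span_X_of_coeff_eq_zero [DecidableEq τ] (T : Finset τ) :
    ∀ f : MvPowerSeries τ R, (∀ m : τ →₀ ℕ, (∀ t ∈ T, m t = 0) → coeff m f = 0) →
      f ∈ Ideal.span ((fun t => (X t : MvPowerSeries τ R)) '' (T : Set τ)) := by
  induction T using Finset.induction_on with
  | empty =>
    intro f hf
    have : f = 0 := by
      ext m
      rw [hf m (by simp), map_zero]
    rw [this]
    exact Ideal.zero_mem _
  | insert t₀ T' ht₀ ih =>
    intro f hf
    -- split `f` according to whether `X t₀` divides the monomial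
    let f₁ : MvPowerSeries τ R := fun m => if m t₀ = 0 then 0 else coeff m f
    let f₂ : MvPowerSeries τ R := fun m => if m t₀ = 0 then coeff m f else 0
    have hsum : f = f₁ + f₂ := by
      ext m
      rw [map_add]
      change coeff m f = (if m t₀ = 0 then 0 else coeff m f) + (if m t₀ = 0 then coeff m f else 0)
      split_ifs <;> simp
    have h₁ : f₁ ∈ Ideal.span ((fun t => (X t : MvPowerSeries τ R)) '' ((insert t₀ T' : Finset τ) : Set τ)) := by
      have hdvd : (X t₀ : MvPowerSeries τ R) ∣ f₁ := by
        rw [X_dvd_iff]
        intro m hm
        change (if m t₀ = 0 then 0 else coeff m f) = 0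
        rw [if_pos hm]
      obtain ⟨q, hq⟩ := hdvd
      rw [hq]
      apply Ideal.mul_mem_right
      apply Ideal.subset_span
      exact ⟨t₀, by simp, rfl⟩
    have h₂ : f₂ ∈ Ideal.span ((fun t => (X t : MvPowerSeries τ R)) '' ((insert t₀ T' : Finset τ) : Set τ)) := by
      have : f₂ ∈ Ideal.span ((fun t => (X t : MvPowerSeries τ R)) '' (T' : Set τ)) := by
        apply ih
        intro m hm
        change (if m t₀ = 0 then coeff m f else 0) = 0
        split_ifs with h0
        · apply hf
          intro t ht
          rcases Finset.mem_insert.mp ht with rfl | ht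
          · exact h0
          · exact hm t ht
        · rfl
      refine Ideal.span_mono ?_ this
      apply Set.image_mono
      intro t ht
      exact Finset.mem_insert_of_mem ht
    rw [hsum]
    exact Ideal.add_mem _ h₁ h₂

/-- The kernel of "set the variables outside the range of `e` to zero". -/
theorem ker_killCompl {σ : Type*} [Finite τ] (e : σ ↪ τ) :
    RingHom.ker (killCompl (R := R) e) =
      Ideal.span ((fun t => (X t : MvPowerSeries τ R)) '' (Set.range e)ᶜ) := by
  classical
  haveI := Fintype.ofFinite τ
  apply le_antisymm
  · intro f hf
    rw [RingHom.mem_ker] at hf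
    have key := mem_span_X_of_coeff_eq_zero (R := R) ((Set.range e)ᶜ).toFinset f ?_
    · simpa using key
    · intro m hm
      have hsupp : (m.support : Set τ) ⊆ Set.range e := by
        intro t ht
        by_contra hne
        have := hm t (by simpa using hne)
        exact (Finsupp.mem_support_iff.mp ht) this
      obtain ⟨x, rfl⟩ := (Finsupp.mem_range_embDomain_iff e m).mpr hsupp
      rw [← coeff_killCompl, hf, map_zero]
  · rw [Ideal.span_le]
    rintro _ ⟨t, ht, rfl⟩
    exact killCompl_X_eq_zero ht

theorem killCompl_surjective {σ : Type*} (e : σ ↪ τ) :
    Function.Surjective (killCompl (R := R) e) :=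
  fun p => ⟨rename e p, killCompl_rename_app p⟩

/-- `R⟦τ⟧ ⧸ (X t : t ∉ range e) ≃ R⟦σ⟧`. -/
noncomputable def quotientSpanXEquiv {σ : Type*} [Finite τ] (e : σ ↪ τ) :
    (MvPowerSeries τ R ⧸ Ideal.span ((fun t => (X t : MvPowerSeries τ R)) '' (Set.range e)ᶜ)) ≃+*
      MvPowerSeries σ R :=
  (Ideal.quotEquivOfEq (ker_killCompl e).symm).trans
    (RingHom.quotientKerEquivOfSurjective (f := (killCompl (R := R) e).toRingHom)
      (killCompl_surjective e))

/-- With finitely many variables, the kernel of the constant coefficient is generated by the
variables. -/
theorem ker_constantCoeff [Finite τ] :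
    RingHom.ker (constantCoeff (σ := τ) (R := R)) =
      Ideal.span (Set.range (fun t => (X t : MvPowerSeries τ R))) := by
  classical
  haveI := Fintype.ofFinite τ
  apply le_antisymm
  · intro f hf
    rw [RingHom.mem_ker] at hf
    have key := mem_span_X_of_coeff_eq_zero (R := R) (Finset.univ : Finset τ) f ?_
    · simpa using key
    · intro m hm
      have : m = 0 := by
        ext t; simpa using hm t (Finset.mem_univ t)
      rw [this, coeff_zero_eq_constantCoeff_apply, hf]
  · rw [Ideal.span_le]
    rintro _ ⟨t, rfl⟩
    simp

end Fermat.Agent.RB.TK

namespace Fermat.Agent.RB.TK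

open MvPowerSeries

variable {τ : Type*} {R : Type*} [CommRing R]

/-- If all coefficients of `f` in total degree `< N` vanish, then `f ∈ (X_t : t)^N`
(finitely many variables). -/
theorem mem_pow_span_X_of_coeff_eq_zero [Finite τ] (N : ℕ) :
    ∀ f : MvPowerSeries τ R, (∀ m : τ →₀ ℕ, m.degree < N → coeff m f = 0) →
      f ∈ (Ideal.span (Set.range (fun t => (X t : MvPowerSeries τ R)))) ^ N := by
  classical
  haveI := Fintype.ofFinite τ
  induction N with
  | zero =>
    intro f _
    rw [pow_zero, Ideal.one_eq_top]
    trivial
  | succ N ih =>
    -- inner induction on the set of variables that every monomial of `f` must meet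
    have inner : ∀ T : Finset τ, ∀ f : MvPowerSeries τ R,
        (∀ m : τ →₀ ℕ, m.degree < N + 1 → coeff m f = 0) →
        (∀ m : τ →₀ ℕ, (∀ t ∈ T, m t = 0) → coeff m f = 0) →
        f ∈ (Ideal.span (Set.range (fun t => (X t : MvPowerSeries τ R)))) ^ (N + 1) := by
      intro T
      induction T using Finset.induction_on with
      | empty =>
        intro f _ hf
        have : f = 0 := by
          ext m
          rw [hf m (by simp), map_zero]
        rw [this]
        exact Ideal.zero_mem _
      | insert t₀ T' ht₀ ihT =>
        intro f hdeg hf
        let f₁ : MvPowerSeries τ R := fun m => if m t₀ = 0 then 0 else coeff m f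
        let f₂ : MvPowerSeries τ R := fun m => if m t₀ = 0 then coeff m f else 0
        have hf₁ : ∀ m, coeff m f₁ = if m t₀ = 0 then 0 else coeff m f := fun m => rfl
        have hf₂ : ∀ m, coeff m f₂ = if m t₀ = 0 then coeff m f else 0 := fun m => rfl
        have hsum : f = f₁ + f₂ := by
          ext m
          rw [map_add, hf₁, hf₂]
          split_ifs <;> simp
        have h₂ : f₂ ∈ (Ideal.span (Set.range (fun t => (X t : MvPowerSeries τ R)))) ^ (N + 1) := by
          apply ihT
          · intro m hm
            rw [hf₂]
            split_ifs
            · exact hdeg m hm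
            · rfl
          · intro m hm
            rw [hf₂]
            split_ifs with h0
            · apply hf
              intro t ht
              rcases Finset.mem_insert.mp ht with rfl | ht
              · exact h0
              · exact hm t ht
            · rfl
        have h₁ : f₁ ∈ (Ideal.span (Set.range (fun t => (X t : MvPowerSeries τ R)))) ^ (N + 1) := by
          have hdvd : (X t₀ : MvPowerSeries τ R) ∣ f₁ := by
            rw [X_dvd_iff]
            intro m hm
            rw [hf₁, if_pos hm]
          obtain ⟨q, hq⟩ := hdvd
          have hqN : q ∈ (Ideal.span (Set.range (fun t => (X t : MvPowerSeries τ R)))) ^ N := by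
            apply ih
            intro m hm
            have h1 : coeff (Finsupp.single t₀ 1 + m) f₁ = coeff m q := by
              rw [hq]
              have := coeff_add_monomial_mul (R := R) (Finsupp.single t₀ 1) m q 1
              rw [one_mul] at this
              exact this
            rw [← h1, hf₁]
            split_ifs
            · rfl
            · apply hdeg
              rw [map_add, Finsupp.degree_single]
              omega
          rw [hq, pow_succ']
          exact Ideal.mul_mem_mul (Ideal.subset_span ⟨t₀, rfl⟩) hqN
        rw [hsum]
        exact Ideal.add_mem _ h₁ h₂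
    intro f hf
    apply inner Finset.univ f hf
    intro m hm
    have : m = 0 := by
      ext t; simpa using hm t (Finset.mem_univ t)
    rw [this]
    apply hf
    simp

end Fermat.Agent.RB.TK
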