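/-
PROJECT RB (feasibility), block [LOC]: the easy leaves (ideal memberships, kill-variable
quotients).  helper4.
-/
import Mathlib
import Fermat.Agent.RB.LOC_helper4_Unr
import Fermat.Agent.RB.TK_helper4_KillVars
import Fermat.Agent.RB.CA_helper4_PowerSeriesDim

set_option autoImplicit false

namespace Fermat.Agent.RB.LOC

open MvPowerSeries

variable {O : Type*} [CommRing O] {Sig : Type*} (D : Data O Sig) (g : ℕ)

theorem isUnit_thetaX (v : Sig) : IsUnit (thetaX D g v) := by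
  rw [MvPowerSeries.isUnit_iff_constantCoeff, thetaX, constantCoeff_rename]
  exact D.isUnit_theta v

/-! ### memberships in `sIdeal` -/

theorem sX_mem_sIdeal (v : Sig) (i : Fin 3) : sX O g v i ∈ sIdeal (O := O) (Sig := Sig) g :=
  Ideal.subset_span ⟨(v, i), rfl⟩

theorem qf_sX_mem_sIdeal (v : Sig) : qf (sX O g v) ∈ sIdeal (O := O) (Sig := Sig) g := by
  unfold qf
  rw [pow_two]
  exact Ideal.add_mem _ (Ideal.mul_mem_left _ _ (sX_mem_sIdeal g v 0))
    (Ideal.mul_mem_right _ _ (sX_mem_sIdeal g v 1))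

/-- [L5], first part -/
theorem I₁_le_sIdeal : I₁ D g ≤ sIdeal (O := O) (Sig := Sig) g := by
  rw [I₁, Ideal.span_le]
  intro f hf
  obtain ⟨v, hv⟩ := Set.mem_iUnion.mp hf
  have hs := fun i => sX_mem_sIdeal (O := O) (Sig := Sig) g v i
  rcases hv with (hv | hv) | ⟨i, rfl⟩
  · rw [Set.mem_singleton_iff] at hv
    rw [hv]; exact qf_sX_mem_sIdeal g v
  · rw [Set.mem_singleton_iff] at hv
    rw [hv]
    apply Ideal.mul_mem_left
    unfold bf2
    refine Ideal.add_mem _ (Ideal.mul_mem_left _ _ (Ideal.mul_mem_right _ _ (hs 0)))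
      (Ideal.add_mem _ (Ideal.mul_mem_right _ _ (hs 1)) (Ideal.mul_mem_left _ _ (hs 2)))
  · refine Ideal.add_mem _ (Ideal.mul_mem_left _ _ (hs i)) (Ideal.mul_mem_left _ _ ?_)
    fin_cases i
    · simp only [brk, Fin.zero_eta, Fin.isValue, Matrix.cons_val_zero]
      exact Ideal.sub_mem _ (Ideal.mul_mem_left _ _ (hs 2)) (Ideal.mul_mem_right _ _ (hs 1))
    · simp only [brk, Fin.mk_one, Fin.isValue, Matrix.cons_val_one, Matrix.cons_val_zero]
      exact Ideal.mul_mem_left _ _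
        (Ideal.sub_mem _ (Ideal.mul_mem_left _ _ (hs 1)) (Ideal.mul_mem_right _ _ (hs 0)))
    · simp only [brk, Fin.reduceFinMk, Fin.isValue, Matrix.cons_val_two, Matrix.tail_cons,
        Matrix.head_cons]
      exact Ideal.mul_mem_left _ _
        (Ideal.sub_mem _ (Ideal.mul_mem_left _ _ (hs 0)) (Ideal.mul_mem_right _ _ (hs 2)))

/-! ### the quotient by `sIdeal` -/

/-- the embedding of the `w`- and `x`-variables -/
def embWX (Sig : Type*) (g : ℕ) : (Sig × Fin 3) ⊕ Fin g ↪ Var Sig g :=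
  ⟨Sum.inr, Sum.inr_injective⟩

theorem sIdeal_eq :
    sIdeal (O := O) (Sig := Sig) g =
      Ideal.span ((fun t => (X t : PS O Sig g)) '' (Set.range (embWX Sig g))ᶜ) := by
  have : (Set.range (embWX Sig g))ᶜ = Set.range (Sum.inl : Sig × Fin 3 → Var Sig g) := by
    change (Set.range (Sum.inr : (Sig × Fin 3) ⊕ Fin g → Var Sig g))ᶜ = _
    exact Set.compl_range_inr
  rw [this, ← Set.range_comp]
  rfl

/-- `PS ⧸ (s) ≃ O⟦w, x⟧` -/
noncomputable def quotSIdealEquiv [Finite Sig] :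
    (PS O Sig g ⧸ sIdeal (O := O) (Sig := Sig) g) ≃+*
      MvPowerSeries ((Sig × Fin 3) ⊕ Fin g) O :=
  (Ideal.quotEquivOfEq (sIdeal_eq g)).trans (TK.quotientSpanXEquiv (embWX Sig g))

/-- [L5] -/
theorem sIdeal_isPrime [IsDomain O] [Finite Sig] : (sIdeal (O := O) (Sig := Sig) g).IsPrime := by
  rw [← Ideal.Quotient.isDomain_iff_prime]
  haveI : IsDomain (MvPowerSeries ((Sig × Fin 3) ⊕ Fin g) O) := NoZeroDivisors.to_isDomain _
  exact (quotSIdealEquiv (O := O) (Sig := Sig) g).toMulEquiv.isDomain _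

/-- [L5] -/
theorem ringKrullDim_quot_sIdeal_le [IsDomain O] [IsDiscreteValuationRing O] [Fintype Sig] :
    ringKrullDim (PS O Sig g ⧸ sIdeal (O := O) (Sig := Sig) g) ≤
      (3 * Fintype.card Sig + g + 1 : ℕ) := by
  rw [ringKrullDim_eq_of_ringEquiv (quotSIdealEquiv (O := O) (Sig := Sig) g),
    ringKrullDim_mvPowerSeries_of_isDiscreteValuationRing]
  simp only [Fintype.card_sum, Fintype.card_prod, Fintype.card_fin]
  have : Fintype.card Sig * 3 + g + 1 = 3 * Fintype.card Sig + g + 1 := by ring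
  rw [this]

/-! ### [L7] `I₁ + (λ) = I₂ + (λ)` -/

theorem two_mul_C_half : (2 : PS O Sig g) * C D.half = 1 := by
  have : (2 : PS O Sig g) = C (2 : O) := (map_ofNat (C (σ := Var Sig g) (R := O)) 2).symm
  rw [this, ← map_mul, D.two_mul_half, map_one]

theorem C_mem_span_lam {a : O} (h : D.lam ∣ a) :
    (C a : PS O Sig g) ∈ Ideal.span {(C D.lam : PS O Sig g)} := by
  obtain ⟨b, rfl⟩ := h
  rw [map_mul]
  exact Ideal.mul_mem_right _ _ (Ideal.subset_span rfl)

theorem C_gam_sq_mem (v : Sig) :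
    (C (D.gam v ^ 2) : PS O Sig g) ∈ Ideal.span {(C D.lam : PS O Sig g)} :=
  C_mem_span_lam D g (Dvd.dvd.pow (D.lam_dvd_gam v) two_ne_zero)

theorem C_one_sub_nv_mem (v : Sig) :
    (C (1 - D.nv v) : PS O Sig g) ∈ Ideal.span {(C D.lam : PS O Sig g)} := by
  apply C_mem_span_lam
  have := D.lam_dvd_nv_sub_one v
  rw [← neg_sub]
  exact (dvd_neg).mpr this

theorem C_kappa_sub_one_mem (v : Sig) :
    (C (D.half * (1 + D.nv v)) - 1 : PS O Sig g) ∈ Ideal.span {(C D.lam : PS O Sig g)} := by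
  have h : D.half * (1 + D.nv v) - 1 = D.half * (D.nv v - 1) := by
    linear_combination (1 : O) * D.two_mul_half
  have : (C (D.half * (1 + D.nv v)) - 1 : PS O Sig g) = C (D.half * (D.nv v - 1)) := by
    rw [← h, map_sub, map_one]
  rw [this]
  exact C_mem_span_lam D g (Dvd.dvd.mul_left (D.lam_dvd_nv_sub_one v) _)

theorem minor_mem_I₂ (v : Sig) (j : Fin 3) : minor (sX O g v) (wX O g v) j ∈ I₂ D g := by
  apply Ideal.subset_span
  exact Set.mem_iUnion.mpr ⟨v, Or.inr ⟨j, rfl⟩⟩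

theorem brk_eq_minor (v : Sig) :
    brk (wX O g v) (sX O g v) 0 = - minor (sX O g v) (wX O g v) 2 ∧
    brk (wX O g v) (sX O g v) 1 = -2 * minor (sX O g v) (wX O g v) 0 ∧
    brk (wX O g v) (sX O g v) 2 = 2 * minor (sX O g v) (wX O g v) 1 := by
  refine ⟨?_, ?_, ?_⟩ <;> simp [brk, minor] <;> ring

theorem brk_mem_I₂ (v : Sig) (i : Fin 3) : brk (wX O g v) (sX O g v) i ∈ I₂ D g := by
  obtain ⟨h0, h1, h2⟩ := brk_eq_minor (O := O) g v
  fin_cases i
  · change brk (wX O g v) (sX O g v) 0 ∈ _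
    rw [h0]; exact neg_mem (minor_mem_I₂ D g v 2)
  · change brk (wX O g v) (sX O g v) 1 ∈ _
    rw [h1]; exact Ideal.mul_mem_left _ _ (minor_mem_I₂ D g v 0)
  · change brk (wX O g v) (sX O g v) 2 ∈ _
    rw [h2]; exact Ideal.mul_mem_left _ _ (minor_mem_I₂ D g v 1)

theorem I₁_le_I₂_sup : I₁ D g ≤ I₂ D g ⊔ Ideal.span {C D.lam} := by
  rw [I₁, Ideal.span_le]
  intro f hf
  obtain ⟨v, hv⟩ := Set.mem_iUnion.mp hf
  rcases hv with (hv | hv) | ⟨i, rfl⟩
  · rw [Set.mem_singleton_iff] at hv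
    rw [hv]
    have : qf (sX O g v) = (qf (sX O g v) - C (D.gam v ^ 2)) + C (D.gam v ^ 2) := by ring
    rw [this]
    refine Ideal.add_mem _ (Ideal.mem_sup_left (Ideal.subset_span ?_))
      (Ideal.mem_sup_right (C_gam_sq_mem D g v))
    exact Set.mem_iUnion.mpr ⟨v, Or.inl rfl⟩
  · rw [Set.mem_singleton_iff] at hv
    rw [hv]
    exact Ideal.mem_sup_right (Ideal.mul_mem_right _ _ (C_one_sub_nv_mem D g v))
  · refine Ideal.add_mem _ (Ideal.mem_sup_right ?_) (Ideal.mem_sup_left ?_)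
    · rw [mul_assoc]
      exact Ideal.mul_mem_right _ _ (C_one_sub_nv_mem D g v)
    · exact Ideal.mul_mem_left _ _ (brk_mem_I₂ D g v i)

theorem brk_mem_I₁_sup (v : Sig) (i : Fin 3) :
    brk (wX O g v) (sX O g v) i ∈ I₁ D g ⊔ Ideal.span {C D.lam} := by
  have h1 : G₁ D g v i ∈ I₁ D g ⊔ Ideal.span {C D.lam} := Ideal.mem_sup_left (G₁_mem D g v i)
  have h2 : C (1 - D.nv v) * thetaX D g v * sX O g v i ∈ I₁ D g ⊔ Ideal.span {C D.lam} := by
    rw [mul_assoc]
    exact Ideal.mem_sup_right (Ideal.mul_mem_right _ _ (C_one_sub_nv_mem D g v))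
  have h3 : (C (D.half * (1 + D.nv v)) - 1) * brk (wX O g v) (sX O g v) i ∈
      I₁ D g ⊔ Ideal.span {C D.lam} :=
    Ideal.mem_sup_right (Ideal.mul_mem_right _ _ (C_kappa_sub_one_mem D g v))
  have : brk (wX O g v) (sX O g v) i =
      G₁ D g v i - C (1 - D.nv v) * thetaX D g v * sX O g v i -
        (C (D.half * (1 + D.nv v)) - 1) * brk (wX O g v) (sX O g v) i := by
    unfold G₁; ring
  rw [this]
  exact Ideal.sub_mem _ (Ideal.sub_mem _ h1 h2) h3

theorem minor_mem_I₁_sup (v : Sig) (j : Fin 3) :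
    minor (sX O g v) (wX O g v) j ∈ I₁ D g ⊔ Ideal.span {C D.lam} := by
  obtain ⟨h0, h1, h2⟩ := brk_eq_minor (O := O) g v
  have hh := two_mul_C_half D g
  fin_cases j
  · change minor (sX O g v) (wX O g v) 0 ∈ _
    have : minor (sX O g v) (wX O g v) 0 = -(C D.half) * brk (wX O g v) (sX O g v) 1 := by
      rw [h1]; linear_combination (-minor (sX O g v) (wX O g v) 0) * hh
    rw [this]
    exact Ideal.mul_mem_left _ _ (brk_mem_I₁_sup D g v 1)
  · change minor (sX O g v) (wX O g v) 1 ∈ _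
    have : minor (sX O g v) (wX O g v) 1 = (C D.half) * brk (wX O g v) (sX O g v) 2 := by
      rw [h2]; linear_combination (-minor (sX O g v) (wX O g v) 1) * hh
    rw [this]
    exact Ideal.mul_mem_left _ _ (brk_mem_I₁_sup D g v 2)
  · change minor (sX O g v) (wX O g v) 2 ∈ _
    have : minor (sX O g v) (wX O g v) 2 = - brk (wX O g v) (sX O g v) 0 := by
      rw [h0]; ring
    rw [this]
    exact neg_mem (brk_mem_I₁_sup D g v 0)

theorem I₂_le_I₁_sup : I₂ D g ≤ I₁ D g ⊔ Ideal.span {C D.lam} := by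
  rw [I₂, Ideal.span_le]
  intro f hf
  obtain ⟨v, hv⟩ := Set.mem_iUnion.mp hf
  rcases hv with hv | ⟨j, rfl⟩
  · rw [Set.mem_singleton_iff] at hv
    rw [hv]
    refine Ideal.sub_mem _ (Ideal.mem_sup_left (Ideal.subset_span ?_))
      (Ideal.mem_sup_right (C_gam_sq_mem D g v))
    exact Set.mem_iUnion.mpr ⟨v, Or.inl (Or.inl rfl)⟩
  · exact minor_mem_I₁_sup D g v j

/-- [L7] -/
theorem I₁_sup_eq : I₁ D g ⊔ Ideal.span {C D.lam} = I₂ D g ⊔ Ideal.span {C D.lam} :=
  le_antisymm (sup_le (I₁_le_I₂_sup D g) le_sup_right) (sup_le (I₂_le_I₁_sup D g) le_sup_right)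

/-! ### [Q] the test prime `Qbar'` -/

theorem lam_mem_Qbar' : C D.lam ∈ Qbar' D g :=
  Ideal.subset_span (Or.inl rfl)

theorem sIdeal_le_Qbar' : sIdeal (O := O) (Sig := Sig) g ≤ Qbar' D g := by
  apply Ideal.span_le.mpr
  rintro _ ⟨p, rfl⟩
  apply Ideal.subset_span
  right
  exact ⟨Sum.inl p, fun v => by simp, rfl⟩

theorem span_lam_le_Qbar' : Ideal.span {(C D.lam : PS O Sig g)} ≤ Qbar' D g :=
  (Ideal.span_singleton_le_iff_mem _).mpr (lam_mem_Qbar' D g)

theorem minor_mem_sIdeal (v : Sig) (j : Fin 3) :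
    minor (sX O g v) (wX O g v) j ∈ sIdeal (O := O) (Sig := Sig) g := by
  have hs := fun i => sX_mem_sIdeal (O := O) (Sig := Sig) g v i
  fin_cases j
  · simp only [minor, Fin.zero_eta, Fin.isValue, Matrix.cons_val_zero]
    exact Ideal.sub_mem _ (Ideal.mul_mem_right _ _ (hs 0)) (Ideal.mul_mem_right _ _ (hs 1))
  · simp only [minor, Fin.mk_one, Fin.isValue, Matrix.cons_val_one, Matrix.cons_val_zero]
    exact Ideal.sub_mem _ (Ideal.mul_mem_right _ _ (hs 0)) (Ideal.mul_mem_right _ _ (hs 2))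
  · simp only [minor, Fin.reduceFinMk, Fin.isValue, Matrix.cons_val_two, Matrix.tail_cons,
      Matrix.head_cons]
    exact Ideal.sub_mem _ (Ideal.mul_mem_right _ _ (hs 1)) (Ideal.mul_mem_right _ _ (hs 2))

/-- [Q] -/
theorem I₂_le_Qbar' : I₂ D g ≤ Qbar' D g := by
  rw [I₂, Ideal.span_le]
  intro f hf
  obtain ⟨v, hv⟩ := Set.mem_iUnion.mp hf
  rcases hv with hv | ⟨j, rfl⟩
  · rw [Set.mem_singleton_iff] at hv
    rw [hv]
    exact Ideal.sub_mem _ (sIdeal_le_Qbar' D g (qf_sX_mem_sIdeal g v))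
      (span_lam_le_Qbar' D g (C_gam_sq_mem D g v))
  · exact sIdeal_le_Qbar' D g (minor_mem_sIdeal g v j)

/-! ### `Qbar'` is the kernel of `ψ : PS → (O/λ)⟦a'_v⟧` -/

/-- the embedding of the variables `a'_v = w_{v,0}` -/
def embA (Sig : Type*) (g : ℕ) : Sig ↪ Var Sig g :=
  ⟨fun v => Sum.inr (Sum.inl (v, 0)), fun v v' h => by
    have := Sum.inl_injective (Sum.inr_injective h)
    exact (Prod.mk.inj this).1⟩

/-- `ψ : PS → (O/λ)⟦a'_v⟧`, `s ↦ 0`, `w_v ↦ (a'_v, 0, 0)`, `x ↦ 0` -/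
noncomputable def ψ : PS O Sig g →+* MvPowerSeries Sig (O ⧸ Ideal.span {D.lam}) :=
  (MvPowerSeries.map (Ideal.Quotient.mk (Ideal.span {D.lam}))).comp
    (killCompl (R := O) (embA Sig g)).toRingHom

theorem ψ_C (a : O) : ψ D g (C a) = C (Ideal.Quotient.mk (Ideal.span {D.lam}) a) := by
  simp [ψ]

theorem ψ_X_embA (v : Sig) : ψ D g (X (embA Sig g v)) = X v := by
  simp [ψ]

theorem ψ_X_of_notMem {t : Var Sig g} (ht : t ∉ Set.range (embA Sig g)) : ψ D g (X t) = 0 := by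
  simp [ψ, killCompl_X_eq_zero ht]

theorem notMem_range_embA_iff (t : Var Sig g) :
    t ∉ Set.range (embA Sig g) ↔ ∀ v : Sig, t ≠ Sum.inr (Sum.inl (v, 0)) := by
  constructor
  · intro h v hv
    exact h ⟨v, hv.symm⟩
  · rintro h ⟨v, rfl⟩
    exact h v rfl

theorem exists_eq_C_mul_of_forall_dvd {τ : Type*} (a : O) (f : MvPowerSeries τ O)
    (h : ∀ m, a ∣ coeff m f) : ∃ h' : MvPowerSeries τ O, f = C a * h' := by
  choose c hc using h
  let h' : MvPowerSeries τ O := fun m => c m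
  have hcoeff : ∀ m, coeff m h' = c m := fun m => rfl
  refine ⟨h', ?_⟩
  ext m
  rw [coeff_C_mul, hc m, hcoeff]

theorem ker_ψ [Finite Sig] : RingHom.ker (ψ D g) = Qbar' D g := by
  apply le_antisymm
  · intro f hf
    rw [RingHom.mem_ker] at hf
    -- all coefficients of `killCompl f` are divisible by `λ`
    have hdiv : ∀ m, D.lam ∣ coeff m (killCompl (R := O) (embA Sig g) f) := by
      intro m
      have := congrArg (coeff m) hf
      simp only [ψ, RingHom.comp_apply, coeff_map, map_zero] at this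
      rw [← Ideal.mem_span_singleton]
      exact Ideal.Quotient.eq_zero_iff_mem.mp this
    obtain ⟨h', hh'⟩ := exists_eq_C_mul_of_forall_dvd D.lam _ hdiv
    have hker : f - C D.lam * rename (embA Sig g) h' ∈
        RingHom.ker (killCompl (R := O) (embA Sig g)) := by
      rw [RingHom.mem_ker, map_sub, map_mul, killCompl_rename_app, killCompl_C, hh', sub_self]
    rw [TK.ker_killCompl] at hker
    have h1 : f - C D.lam * rename (embA Sig g) h' ∈ Qbar' D g := by
      refine Ideal.span_le.mpr ?_ hker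
      rintro _ ⟨t, ht, rfl⟩
      apply Ideal.subset_span
      right
      exact ⟨t, (notMem_range_embA_iff g t).mp ht, rfl⟩
    have h2 : C D.lam * rename (embA Sig g) h' ∈ Qbar' D g :=
      Ideal.mul_mem_right _ _ (lam_mem_Qbar' D g)
    have := Ideal.add_mem _ h1 h2
    simpa using this
  · rw [Qbar', Ideal.span_le]
    rintro f (hf | ⟨t, ht, rfl⟩)
    · rw [Set.mem_singleton_iff] at hf
      rw [hf, SetLike.mem_coe, RingHom.mem_ker, ψ_C]
      have : Ideal.Quotient.mk (Ideal.span {D.lam}) D.lam = 0 :=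
        Ideal.Quotient.eq_zero_iff_mem.mpr (Ideal.subset_span rfl)
      rw [this, map_zero]
    · rw [SetLike.mem_coe, RingHom.mem_ker]
      exact ψ_X_of_notMem D g ((notMem_range_embA_iff g t).mpr ht)

/-- [Q] -/
theorem Qbar'_isPrime [IsDomain O] [IsDiscreteValuationRing O] [Finite Sig] (hD : D.Good) :
    (Qbar' D g).IsPrime := by
  rw [← ker_ψ]
  haveI : (Ideal.span {D.lam}).IsPrime := by
    rw [Ideal.span_singleton_prime hD.irreducible_lam.ne_zero]
    exact hD.irreducible_lam.prime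
  haveI : IsDomain (MvPowerSeries Sig (O ⧸ Ideal.span {D.lam})) := NoZeroDivisors.to_isDomain _
  exact RingHom.ker_isPrime _

/-- [Q]: `e_v ≡ 4 a'_v^2 ≠ 0` modulo `Qbar'`. -/
theorem eX_notMem_Qbar' [IsDomain O] [IsDiscreteValuationRing O] [Finite Sig] (hD : D.Good)
    (v : Sig) : eX D g v ∉ Qbar' D g := by
  classical
  intro hmem
  rw [← ker_ψ, RingHom.mem_ker] at hmem
  have hw0 : ψ D g (wX O g v 0) = X v := ψ_X_embA D g v
  have hw1 : ψ D g (wX O g v 1) = 0 := by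
    apply ψ_X_of_notMem
    rw [notMem_range_embA_iff]
    intro v' h
    have := Sum.inl_injective (Sum.inr_injective h)
    exact absurd (Prod.mk.inj this).2 (by decide)
  have hsub : Ideal.Quotient.mk (Ideal.span {D.lam}) ((D.nv v - 1) ^ 2) = 0 := by
    rw [Ideal.Quotient.eq_zero_iff_mem, Ideal.mem_span_singleton]
    exact Dvd.dvd.pow (D.lam_dvd_nv_sub_one v) two_ne_zero
  have hψ : ψ D g (eX D g v) =
      C (Ideal.Quotient.mk (Ideal.span {D.lam}) ((D.nv v + 1) ^ 2)) * X v ^ 2 := by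
    have hq : ψ D g (qf (wX O g v)) = X v ^ 2 := by
      unfold qf
      rw [map_add, map_pow, map_mul, hw0, hw1, zero_mul, add_zero]
    unfold eX
    rw [map_sub, map_mul, map_mul, ψ_C, ψ_C, hsub, map_zero, zero_mul, sub_zero, hq]
  rw [hψ] at hmem
  have hcoeff := congrArg (coeff (Finsupp.single v 2)) hmem
  rw [coeff_C_mul, coeff_X_pow, if_pos rfl, mul_one, map_zero,
    Ideal.Quotient.eq_zero_iff_mem, Ideal.mem_span_singleton] at hcoeff
  have hprime : Prime D.lam := hD.irreducible_lam.prime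
  have h1 : D.lam ∣ D.nv v + 1 := hprime.dvd_of_dvd_pow hcoeff
  have h2 : D.lam ∣ 2 := by
    have := dvd_sub h1 (D.lam_dvd_nv_sub_one v)
    have h3 : D.nv v + 1 - (D.nv v - 1) = 2 := by ring
    rwa [h3] at this
  have h4 : D.lam ∣ 1 := by
    rw [← D.two_mul_half]
    exact Dvd.dvd.mul_right h2 _
  exact hprime.not_isUnit (isUnit_of_dvd_one h4)

end Fermat.Agent.RB.LOC
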