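/-
PROJECT RB (feasibility), toolkit [TK]: `R⟦X_σ, Y_τ⟧ ≃ (R⟦X_σ⟧)⟦Y_τ⟧` for multivariate power
series (Mathlib has only the `Option`/`Fin (n+1)` versions).  helper4.
-/
import Mathlib

set_option autoImplicit false

namespace Fermat.Agent.RB.TK

open MvPowerSeries Finsupp

variable {σ τ R : Type*} [CommSemiring R]

/-- currying of coefficients -/
def sumFun (p : MvPowerSeries (σ ⊕ τ) R) : MvPowerSeries τ (MvPowerSeries σ R) :=
  fun I => fun m => coeff (Finsupp.sumElim m I) p

theorem coeff_coeff_sumFun (p : MvPowerSeries (σ ⊕ τ) R) (I : τ →₀ ℕ) (m : σ →₀ ℕ) :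
    coeff m (coeff I (sumFun p)) = coeff (Finsupp.sumElim m I) p := rfl

/-- uncurrying of coefficients -/
noncomputable def sumInvFun (p : MvPowerSeries τ (MvPowerSeries σ R)) : MvPowerSeries (σ ⊕ τ) R :=
  fun e => coeff (e.comapDomain Sum.inl Sum.inl_injective.injOn)
    (coeff (e.comapDomain Sum.inr Sum.inr_injective.injOn) p)

theorem coeff_sumInvFun (p : MvPowerSeries τ (MvPowerSeries σ R)) (e : σ ⊕ τ →₀ ℕ) :
    coeff e (sumInvFun p) = coeff (e.comapDomain Sum.inl Sum.inl_injective.injOn)
      (coeff (e.comapDomain Sum.inr Sum.inr_injective.injOn) p) := rfl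

theorem sumFun_mul (p q : MvPowerSeries (σ ⊕ τ) R) :
    sumFun (p * q) = sumFun p * sumFun q := by
  classical
  ext I m
  simp only [coeff_coeff_sumFun, coeff_mul, map_sum, Finset.sum_sigma']
  refine Finset.sum_bij
    (fun y _ => ⟨(y.1.comapDomain Sum.inr Sum.inr_injective.injOn,
        y.2.comapDomain Sum.inr Sum.inr_injective.injOn),
      (y.1.comapDomain Sum.inl Sum.inl_injective.injOn,
        y.2.comapDomain Sum.inl Sum.inl_injective.injOn)⟩) ?_ ?_ ?_ ?_
  · intro y hy
    have hy' := Finset.HasAntidiagonal.mem_antidiagonal.mp hy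
    rw [Finset.mem_sigma]
    constructor
    · apply Finset.HasAntidiagonal.mem_antidiagonal.mpr
      ext t
      have := DFunLike.congr_fun hy' (Sum.inr t)
      simpa using this
    · apply Finset.HasAntidiagonal.mem_antidiagonal.mpr
      ext t
      have := DFunLike.congr_fun hy' (Sum.inl t)
      simpa using this
  · intro y₁ hy₁ y₂ hy₂ h
    simp only [Sigma.mk.injEq, heq_eq_eq, Prod.mk.injEq] at h
    obtain ⟨⟨h1, h2⟩, h3, h4⟩ := h
    ext t
    · rcases t with t | t
      · simpa using DFunLike.congr_fun h3 t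
      · simpa using DFunLike.congr_fun h1 t
    · rcases t with t | t
      · simpa using DFunLike.congr_fun h4 t
      · simpa using DFunLike.congr_fun h2 t
  · rintro ⟨⟨I', I''⟩, ⟨m', m''⟩⟩ h
    rw [Finset.mem_sigma] at h
    have h1 := Finset.HasAntidiagonal.mem_antidiagonal.mp h.1
    have h2 := Finset.HasAntidiagonal.mem_antidiagonal.mp h.2
    simp only at h1 h2
    refine ⟨(Finsupp.sumElim m' I', Finsupp.sumElim m'' I''), ?_, ?_⟩
    · apply Finset.HasAntidiagonal.mem_antidiagonal.mpr
      simp only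
      rw [← Finsupp.sumElim_add, h1, h2]
    · simp
  · intro y hy
    simp only [coeff_coeff_sumFun, Finsupp.comapDomain_sumElim_comapDomain]

variable (σ τ R) in
/-- `R⟦X_σ, Y_τ⟧ ≃ₐ[R] (R⟦X_σ⟧)⟦Y_τ⟧`. -/
noncomputable def sumAlgEquiv :
    MvPowerSeries (σ ⊕ τ) R ≃ₐ[R] MvPowerSeries τ (MvPowerSeries σ R) where
  toFun := sumFun
  invFun := sumInvFun
  left_inv p := by
    ext e
    rw [coeff_sumInvFun, coeff_coeff_sumFun, Finsupp.comapDomain_sumElim_comapDomain]
  right_inv p := by
    ext I m
    rw [coeff_coeff_sumFun, coeff_sumInvFun]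
    simp
  map_mul' := sumFun_mul
  map_add' p q := by
    ext I m
    simp [coeff_coeff_sumFun]
  commutes' r := by
    classical
    ext I m
    rw [coeff_coeff_sumFun]
    simp only [MvPowerSeries.algebraMap_apply, Algebra.algebraMap_self, RingHom.id_apply,
      coeff_C]
    by_cases hI : I = 0
    · subst hI
      by_cases hm : m = 0
      · subst hm; simp
      · have : Finsupp.sumElim m (0 : τ →₀ ℕ) ≠ 0 := by
          intro h
          apply hm
          ext t
          have := DFunLike.congr_fun h (Sum.inl t)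
          simpa using this
        simp [this, hm, coeff_C]
    · have : Finsupp.sumElim m I ≠ 0 := by
        intro h
        apply hI
        ext t
        have := DFunLike.congr_fun h (Sum.inr t)
        simpa using this
      simp [this, hI]

theorem coeff_coeff_sumAlgEquiv (p : MvPowerSeries (σ ⊕ τ) R) (I : τ →₀ ℕ) (m : σ →₀ ℕ) :
    coeff m (coeff I (sumAlgEquiv σ τ R p)) = coeff (Finsupp.sumElim m I) p := rfl

theorem sumAlgEquiv_monomial (m : σ →₀ ℕ) (I : τ →₀ ℕ) (r : R) :
    sumAlgEquiv σ τ R (monomial (Finsupp.sumElim m I) r) = monomial I (monomial m r) := by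
  classical
  ext I' m'
  rw [coeff_coeff_sumAlgEquiv, coeff_monomial, coeff_monomial]
  by_cases hI : I' = I
  · subst hI
    rw [if_pos rfl, coeff_monomial]
    by_cases hm : m' = m
    · subst hm; simp
    · rw [if_neg hm, if_neg]
      intro h
      apply hm
      ext t
      simpa using DFunLike.congr_fun h (Sum.inl t)
  · rw [if_neg hI, map_zero, if_neg]
    intro h
    apply hI
    ext t
    simpa using DFunLike.congr_fun h (Sum.inr t)

theorem sumAlgEquiv_X_inl (i : σ) :
    sumAlgEquiv σ τ R (X (Sum.inl i)) = C (X i) := by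
  have := sumAlgEquiv_monomial (σ := σ) (τ := τ) (R := R) (Finsupp.single i 1) 0 1
  rw [Finsupp.sumElim_single_zero] at this
  exact this

theorem sumAlgEquiv_X_inr (j : τ) :
    sumAlgEquiv σ τ R (X (Sum.inr j)) = X j := by
  have := sumAlgEquiv_monomial (σ := σ) (τ := τ) (R := R) 0 (Finsupp.single j 1) 1
  rw [Finsupp.sumElim_zero_single] at this
  exact this

theorem sumAlgEquiv_C (r : R) :
    sumAlgEquiv σ τ R (C r) = C (C r) := by
  have := sumAlgEquiv_monomial (σ := σ) (τ := τ) (R := R) 0 0 r
  rw [Finsupp.sumElim_zero_zero] at this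
  exact this

/-- the inclusion of the inner variables is `rename Sum.inl` -/
theorem sumAlgEquiv_rename_inl (a : MvPowerSeries σ R) :
    sumAlgEquiv σ τ R (rename (Function.Embedding.inl : σ ↪ σ ⊕ τ) a) = C a := by
  classical
  ext I m
  rw [coeff_coeff_sumAlgEquiv]
  by_cases hI : I = 0
  · subst hI
    have : Finsupp.sumElim m (0 : τ →₀ ℕ) = Finsupp.embDomain Function.Embedding.inl m := by
      rw [Finsupp.embDomain_inl]
    rw [this, coeff_embDomain_rename]
    simp
  · rw [coeff_C, if_neg hI, map_zero]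
    apply coeff_rename_eq_zero
    rintro ⟨y, hy⟩
    apply hI
    ext t
    have := DFunLike.congr_fun hy (Sum.inr t)
    rw [Finsupp.sumElim_inr] at this
    rw [← this]
    simp [Finsupp.mapDomain_notin_range]

end Fermat.Agent.RB.TK
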