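/-
PROJECT RB (feasibility), block [LOC]: the map `φ̄ : PS = A⟦w⟧ → (A ⧸ J₀)⟦μ⟧`, `w_v ↦ μ_v s_v`,
where `A = O⟦s, x⟧` and `J₀ = (q(s_v) - γ_v^2 : v ∈ Σ) ⊂ A`; its kernel `P₀'` is the generic prime
of problem (2).  Coefficient formula for `φ̄`.  helper4.
-/
import Mathlib
import Fermat.Agent.RB.LOC_helper4_Easy
import Fermat.Agent.RB.TK_helper4_SumEquiv

set_option autoImplicit false

namespace Fermat.Agent.RB.LOC

open MvPowerSeries

variable {O : Type*} [CommRing O] {Sig : Type*} (D : Data O Sig) (g : ℕ)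

/-- the variables `s_{v,i}`, `x_j` -/
abbrev SX (Sig : Type*) (g : ℕ) := (Sig × Fin 3) ⊕ Fin g

/-- the variables `w_{v,i}` -/
abbrev WV (Sig : Type*) := Sig × Fin 3

/-- `A = O⟦s, x⟧` -/
abbrev AS (O : Type*) [CommRing O] (Sig : Type*) (g : ℕ) := MvPowerSeries (SX Sig g) O

variable (O) in
/-- `s_v` in `A` -/
noncomputable def sA (v : Sig) : Fin 3 → AS O Sig g := fun i => X (Sum.inl (v, i))

/-- `J₀ = (q(s_v) - γ_v^2 : v ∈ Σ) ⊂ A` -/
noncomputable def J₀ : Ideal (AS O Sig g) :=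
  Ideal.span (Set.range fun v : Sig => qf (sA O g v) - C (D.gam v ^ 2))

/-- reindexing of the variables: `(s, w, x) ↦ ((s, x), w)` -/
def varEquiv (Sig : Type*) (g : ℕ) : Var Sig g ≃ SX Sig g ⊕ WV Sig where
  toFun
    | Sum.inl p => Sum.inl (Sum.inl p)
    | Sum.inr (Sum.inl p) => Sum.inr p
    | Sum.inr (Sum.inr j) => Sum.inl (Sum.inr j)
  invFun
    | Sum.inl (Sum.inl p) => Sum.inl p
    | Sum.inl (Sum.inr j) => Sum.inr (Sum.inr j)
    | Sum.inr p => Sum.inr (Sum.inl p)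
  left_inv := by rintro (p | p | j) <;> rfl
  right_inv := by rintro ((p | j) | p) <;> rfl

variable (O Sig) in
/-- `PS ≃ A⟦w⟧` -/
noncomputable def Ψ : PS O Sig g ≃ₐ[O] MvPowerSeries (WV Sig) (AS O Sig g) :=
  (renameEquiv O (varEquiv Sig g)).trans (TK.sumAlgEquiv (SX Sig g) (WV Sig) O)

theorem Ψ_sX (v : Sig) (i : Fin 3) : Ψ O Sig g (sX O g v i) = C (sA O g v i) := by
  simp only [Ψ, sX, sA, AlgEquiv.trans_apply]
  have : renameEquiv O (varEquiv Sig g) (X (Sum.inl (v, i)) : PS O Sig g) =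
      X (Sum.inl (Sum.inl (v, i))) := by
    change rename (varEquiv Sig g) _ = _
    rw [rename_X]; rfl
  rw [this, TK.sumAlgEquiv_X_inl]

theorem Ψ_wX (v : Sig) (i : Fin 3) : Ψ O Sig g (wX O g v i) = X (v, i) := by
  simp only [Ψ, wX, AlgEquiv.trans_apply]
  have : renameEquiv O (varEquiv Sig g) (X (Sum.inr (Sum.inl (v, i))) : PS O Sig g) =
      X (Sum.inr (v, i)) := by
    change rename (varEquiv Sig g) _ = _
    rw [rename_X]; rfl
  rw [this, TK.sumAlgEquiv_X_inr]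

theorem Ψ_C (r : O) : Ψ O Sig g (C r) = C (C r) := by
  simp only [Ψ, AlgEquiv.trans_apply]
  have : renameEquiv O (varEquiv Sig g) (C r : PS O Sig g) = C r := by
    change rename (varEquiv Sig g) _ = _
    rw [rename_C]
  rw [this, TK.sumAlgEquiv_C]

variable (O) in
/-- the substitution `w_{(v,j)} ↦ s_{v,j} μ_v` over `A` -/
noncomputable def μsubst : WV Sig → MvPowerSeries Sig (AS O Sig g) :=
  fun p => C (sA O g p.1 p.2) * X p.1

theorem hasSubst_μsubst [Finite Sig] : HasSubst (μsubst O (Sig := Sig) g) := by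
  apply hasSubst_of_constantCoeff_zero
  intro p
  simp [μsubst]

variable (O Sig) in
/-- `Φ_A : A⟦w⟧ → A⟦μ⟧`, `w_{(v,j)} ↦ s_{v,j} μ_v` -/
noncomputable def ΦA [Finite Sig] :
    MvPowerSeries (WV Sig) (AS O Sig g) →ₐ[AS O Sig g] MvPowerSeries Sig (AS O Sig g) :=
  substAlgHom (hasSubst_μsubst g)

/-- `φ̄ : PS → (A ⧸ J₀)⟦μ⟧` -/
noncomputable def φbar [Finite Sig] : PS O Sig g →+* MvPowerSeries Sig (AS O Sig g ⧸ J₀ D g) :=
  (MvPowerSeries.map (Ideal.Quotient.mk (J₀ D g))).comp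
    ((ΦA O Sig g).toRingHom.comp (Ψ O Sig g).toAlgHom.toRingHom)

/-- the generic prime of problem (2), as an ideal of `PS` -/
noncomputable def P₀' [Finite Sig] : Ideal (PS O Sig g) := RingHom.ker (φbar D g)

theorem φbar_apply [Finite Sig] (f : PS O Sig g) :
    φbar D g f = MvPowerSeries.map (Ideal.Quotient.mk (J₀ D g)) (ΦA O Sig g (Ψ O Sig g f)) := rfl

/-- the monomial `s^I = ∏ s_{v,j}^{I(v,j)}` in `A` -/
noncomputable def sPow (I : WV Sig →₀ ℕ) : AS O Sig g := I.prod fun p e => sA O g p.1 p.2 ^ e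

/-- the `μ`-multidegree of a `w`-monomial -/
noncomputable def wdeg (I : WV Sig →₀ ℕ) : Sig →₀ ℕ := Finsupp.mapDomain Prod.fst I

theorem prod_μsubst (d : WV Sig →₀ ℕ) :
    (d.prod fun p e => μsubst O g p ^ e) = monomial (wdeg d) (sPow (O := O) g d) := by
  classical
  have h1 : ∀ p : WV Sig, μsubst O g p = monomial (Finsupp.single p.1 1) (sA O g p.1 p.2) := by
    intro p
    rw [μsubst, X, ← monomial_zero_eq_C_apply, monomial_mul_monomial, zero_add, mul_one]
  simp only [h1, monomial_pow]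
  have hsum : (∑ i ∈ d.support, d i • Finsupp.single i.1 1) = wdeg d := by
    rw [wdeg, Finsupp.mapDomain, Finsupp.sum]
    apply Finset.sum_congr rfl
    intro p _
    rw [Finsupp.smul_single, smul_eq_mul, mul_one]
  rw [Finsupp.prod, prod_monomial, hsum]
  rfl

open Classical in
/-- coefficient formula for `Φ_A` -/
theorem coeff_ΦA [Finite Sig] (F : MvPowerSeries (WV Sig) (AS O Sig g)) (n : Sig →₀ ℕ) :
    coeff n (ΦA O Sig g F) =
      finsum fun d : WV Sig →₀ ℕ => if wdeg d = n then coeff d F * sPow (O := O) g d else 0 := by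
  classical
  rw [ΦA, substAlgHom_apply, coeff_subst (hasSubst_μsubst g)]
  apply finsum_congr
  intro d
  rw [prod_μsubst, coeff_monomial, smul_eq_mul]
  by_cases h : wdeg d = n
  · rw [if_pos h, if_pos h.symm]
  · rw [if_neg h, if_neg (fun h' => h h'.symm), mul_zero]

theorem ΦA_X [Finite Sig] (p : WV Sig) : ΦA O Sig g (X p) = μsubst O g p := by
  rw [ΦA, substAlgHom_X]

theorem ΦA_C [Finite Sig] (a : AS O Sig g) : ΦA O Sig g (C a) = C a := by
  have h1 : (C a : MvPowerSeries (WV Sig) (AS O Sig g)) =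
      algebraMap (AS O Sig g) (MvPowerSeries (WV Sig) (AS O Sig g)) a := rfl
  have h2 : (C a : MvPowerSeries Sig (AS O Sig g)) =
      algebraMap (AS O Sig g) (MvPowerSeries Sig (AS O Sig g)) a := rfl
  rw [h1, h2, AlgHom.commutes]

theorem I₂_le_P₀' [Finite Sig] : I₂ D g ≤ P₀' D g := by
  rw [I₂, Ideal.span_le]
  intro f hf
  obtain ⟨v, hv⟩ := Set.mem_iUnion.mp hf
  rw [SetLike.mem_coe, P₀', RingHom.mem_ker, φbar_apply]
  rcases hv with hv | ⟨j, rfl⟩
  · rw [Set.mem_singleton_iff] at hv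
    rw [hv]
    have h1 : Ψ O Sig g (qf (sX O g v) - C (D.gam v ^ 2)) =
        C (qf (sA O g v) - C (D.gam v ^ 2)) := by
      simp only [qf, map_sub, map_add, map_mul, map_pow, Ψ_sX, Ψ_C]
    rw [h1, ΦA_C, map_C]
    have : Ideal.Quotient.mk (J₀ D g) (qf (sA O g v) - C (D.gam v ^ 2)) = 0 :=
      Ideal.Quotient.eq_zero_iff_mem.mpr (Ideal.subset_span ⟨v, rfl⟩)
    rw [this, map_zero]
  · have : ΦA O Sig g (Ψ O Sig g (minor (sX O g v) (wX O g v) j)) = 0 := by
      fin_cases j <;>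
        simp only [minor, Fin.zero_eta, Fin.mk_one, Fin.reduceFinMk, Fin.isValue,
          Matrix.cons_val_zero, Matrix.cons_val_one, Matrix.cons_val_two, Matrix.tail_cons,
          Matrix.head_cons, map_sub, map_mul, Ψ_sX, Ψ_wX, ΦA_C, ΦA_X, μsubst] <;> ring
    rw [this, map_zero]

end Fermat.Agent.RB.LOC
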