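/-
PROJECT RB (feasibility), block [LOC], leaf [F2]: every characteristic-zero prime `P ⊇ I₂` of `PS`
contains the generic prime `P₀' = ker φ̄`.  (Homogeneous components in `w`, the relations
`s_i w_j = s_j w_i`, and Krull's intersection theorem in the noetherian domain `PS ⧸ P`.)  helper4.
-/
import Mathlib
import Fermat.Agent.RB.LOC_helper4_Phi

set_option autoImplicit false

namespace Fermat.Agent.RB.LOC

open MvPowerSeries

variable {O : Type*} [CommRing O] {Sig : Type*} (D : Data O Sig) (g : ℕ)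

variable (O Sig) in
/-- the inclusion `A = O⟦s,x⟧ → PS` -/
noncomputable def ιA : AS O Sig g →+* PS O Sig g :=
  ((Ψ O Sig g).symm.toAlgHom.toRingHom).comp C

theorem ιA_apply (a : AS O Sig g) : ιA O Sig g a = (Ψ O Sig g).symm (C a) := rfl

theorem Ψ_ιA (a : AS O Sig g) : Ψ O Sig g (ιA O Sig g a) = C a := by
  rw [ιA_apply, AlgEquiv.apply_symm_apply]

theorem ιA_sA (v : Sig) (i : Fin 3) : ιA O Sig g (sA O g v i) = sX O g v i := by
  rw [ιA_apply, ← Ψ_sX, AlgEquiv.symm_apply_apply]

theorem ιA_C (r : O) : ιA O Sig g (C r) = C r := by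
  rw [ιA_apply, ← Ψ_C, AlgEquiv.symm_apply_apply]

/-- `ι(J₀) ⊆ I₂` -/
theorem ιA_mem_I₂ {a : AS O Sig g} (ha : a ∈ J₀ D g) : ιA O Sig g a ∈ I₂ D g := by
  have : J₀ D g ≤ (I₂ D g).comap (ιA O Sig g) := by
    rw [J₀, Ideal.span_le]
    rintro _ ⟨v, rfl⟩
    rw [SetLike.mem_coe, Ideal.mem_comap]
    have h : ιA O Sig g (qf (sA O g v) - C (D.gam v ^ 2)) =
        qf (sX O g v) - C (D.gam v ^ 2) := by
      simp only [qf, map_sub, map_add, map_mul, map_pow, ιA_sA, ιA_C]
    rw [h]
    exact Ideal.subset_span (Set.mem_iUnion.mpr ⟨v, Or.inl rfl⟩)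
  exact this ha

variable (O) in
/-- the monomial `w^I` in `PS` -/
noncomputable def wPow (I : WV Sig →₀ ℕ) : PS O Sig g := I.prod fun p e => wX O g p.1 p.2 ^ e

theorem prod_X_pow_eq_monomial {τ R : Type*} [CommSemiring R] (I : τ →₀ ℕ) :
    (I.prod fun p e => (X p : MvPowerSeries τ R) ^ e) = monomial I 1 := by
  classical
  simp only [X_pow_eq]
  have hsum : (∑ i ∈ I.support, Finsupp.single i (I i)) = I := Finsupp.sum_single I
  rw [Finsupp.prod, prod_monomial, Finset.prod_const_one, hsum]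

theorem Ψ_wPow (I : WV Sig →₀ ℕ) : Ψ O Sig g (wPow O g I) = monomial I 1 := by
  rw [wPow, Finsupp.prod, map_prod]
  simp only [map_pow, Ψ_wX]
  exact prod_X_pow_eq_monomial I

theorem ιA_sPow (I : WV Sig →₀ ℕ) :
    ιA O Sig g (sPow (O := O) g I) = I.prod fun p e => sX O g p.1 p.2 ^ e := by
  rw [sPow, Finsupp.prod, map_prod]
  simp only [map_pow, ιA_sA]
  rfl

theorem wdeg_prod {B : Type*} [CommMonoid B] (x : Sig → B) (I : WV Sig →₀ ℕ) :
    ((wdeg I).prod fun v e => x v ^ e) = I.prod fun p e => x p.1 ^ e := by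
  rw [wdeg, Finsupp.prod_mapDomain_index]
  · intro v; exact pow_zero _
  · intro v a b; exact pow_add _ _ _

/-- the monomial identity `σ^n w^I = ω^n s^I` (`n = wdeg I`) from `s_i w_j = s_j w_i` -/
theorem monomial_identity {B : Type*} [CommRing B] (s w : WV Sig → B) (iv : Sig → Fin 3)
    (h : ∀ (v : Sig) (j : Fin 3), s (v, iv v) * w (v, j) = s (v, j) * w (v, iv v))
    (I : WV Sig →₀ ℕ) :
    ((wdeg I).prod fun v e => s (v, iv v) ^ e) * (I.prod fun p e => w p ^ e) =
      ((wdeg I).prod fun v e => w (v, iv v) ^ e) * (I.prod fun p e => s p ^ e) := by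
  rw [wdeg_prod (fun v => s (v, iv v)), wdeg_prod (fun v => w (v, iv v)), ← Finsupp.prod_mul,
    ← Finsupp.prod_mul]
  apply Finsupp.prod_congr
  intro p _
  rw [← mul_pow, ← mul_pow]
  congr 1
  rw [mul_comm (w (p.1, iv p.1))]
  exact h p.1 p.2

theorem degree_wdeg (I : WV Sig →₀ ℕ) : (wdeg I).degree = I.degree := by
  have h := Finsupp.sum_mapDomain_index (f := (Prod.fst : WV Sig → Sig)) (s := I)
    (h := fun (_ : Sig) (e : ℕ) => e) (fun _ => rfl) (fun _ _ _ => rfl)
  exact h

variable (O Sig) in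
/-- the ideal `(w_{v,i})` of `PS` -/
noncomputable def wIdeal : Ideal (PS O Sig g) :=
  Ideal.span (Set.range fun p : WV Sig => wX O g p.1 p.2)

/-- the finite set of `w`-monomials of degree `< N` -/
noncomputable def Box (Sig : Type*) [Finite Sig] (N : ℕ) : Finset (WV Sig →₀ ℕ) :=
  (Finsupp.finite_of_degree_lt (σ := WV Sig) N).toFinset

theorem mem_Box [Finite Sig] {N : ℕ} {I : WV Sig →₀ ℕ} : I ∈ Box Sig N ↔ I.degree < N := by
  simp [Box]

/-- the truncation of `f` in the `w`-variables -/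
noncomputable def wTrunc [Finite Sig] (N : ℕ) (f : PS O Sig g) : PS O Sig g :=
  ∑ I ∈ Box Sig N, ιA O Sig g (coeff I (Ψ O Sig g f)) * wPow O g I

theorem Ψ_wTrunc [Finite Sig] (N : ℕ) (f : PS O Sig g) :
    Ψ O Sig g (wTrunc g N f) = ∑ I ∈ Box Sig N, monomial I (coeff I (Ψ O Sig g f)) := by
  rw [wTrunc, map_sum]
  apply Finset.sum_congr rfl
  intro I _
  rw [map_mul, Ψ_ιA, Ψ_wPow, ← monomial_zero_eq_C_apply, monomial_mul_monomial, zero_add, mul_one]

/-- [F2], approximation step: `f ≡ wTrunc N f` modulo `(w)^N`. -/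
theorem sub_wTrunc_mem [Finite Sig] (N : ℕ) (f : PS O Sig g) :
    f - wTrunc g N f ∈ wIdeal O Sig g ^ N := by
  classical
  have h1 : Ψ O Sig g (f - wTrunc g N f) ∈
      (Ideal.span (Set.range (fun p => (X p : MvPowerSeries (WV Sig) (AS O Sig g))))) ^ N := by
    apply TK.mem_pow_span_X_of_coeff_eq_zero
    intro m hm
    rw [map_sub, Ψ_wTrunc, map_sub, map_sum]
    simp only [coeff_monomial]
    rw [Finset.sum_ite_eq (Box Sig N) m, if_pos (mem_Box.mpr hm), sub_self]
  have h2 : f - wTrunc g N f = (Ψ O Sig g).symm (Ψ O Sig g (f - wTrunc g N f)) :=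
    (AlgEquiv.symm_apply_apply _ _).symm
  rw [h2]
  have h3 := Ideal.mem_map_of_mem ((Ψ O Sig g).symm.toAlgHom.toRingHom) h1
  rw [Ideal.map_pow, Ideal.map_span, ← Set.range_comp] at h3
  have h4 : ((Ψ O Sig g).symm.toAlgHom.toRingHom ∘ fun p =>
      (X p : MvPowerSeries (WV Sig) (AS O Sig g))) = fun p : WV Sig => wX O g p.1 p.2 := by
    funext p
    change (Ψ O Sig g).symm (X p) = _
    rw [← Ψ_wX, AlgEquiv.symm_apply_apply]
  rw [h4] at h3
  exact h3

theorem sX_mul_wX_sub_mem (v : Sig) (i j : Fin 3) :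
    sX O g v i * wX O g v j - sX O g v j * wX O g v i ∈ I₂ D g := by
  have h0 := minor_mem_I₂ D g v 0
  have h1 := minor_mem_I₂ D g v 1
  have h2 := minor_mem_I₂ D g v 2
  simp only [minor, Fin.isValue, Matrix.cons_val_zero, Matrix.cons_val_one, Matrix.cons_val_two,
    Matrix.tail_cons, Matrix.head_cons] at h0 h1 h2
  fin_cases i <;> fin_cases j
  · simp
  · exact h0
  · exact h1
  · have := neg_mem h0
    rw [neg_sub] at this
    exact this
  · simp
  · exact h2
  · have := neg_mem h1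
    rw [neg_sub] at this
    exact this
  · have := neg_mem h2
    rw [neg_sub] at this
    exact this
  · simp

section Main

variable [IsDomain O] [IsDiscreteValuationRing O] [Fintype Sig] [DecidableEq Sig]

/-- for a characteristic-zero prime `P ⊇ I₂`, some coordinate of each `s_v` is outside `P` -/
theorem exists_sX_notMem (hD : D.Good) (P : Ideal (PS O Sig g)) [hP : P.IsPrime]
    (hI : I₂ D g ≤ P) (hlam : C D.lam ∉ P) (v : Sig) : ∃ i, sX O g v i ∉ P := by
  by_contra hcon
  push Not at hcon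
  have h1 : qf (sX O g v) ∈ P := by
    unfold qf
    exact P.add_mem (Ideal.pow_mem_of_mem P (hcon 0) 2 (by norm_num)) (P.mul_mem_right _ (hcon 1))
  have h2 : qf (sX O g v) - C (D.gam v ^ 2) ∈ P :=
    hI (Ideal.subset_span (Set.mem_iUnion.mpr ⟨v, Or.inl rfl⟩))
  have h3 : (C (D.gam v ^ 2) : PS O Sig g) ∈ P := by
    have := P.sub_mem h1 h2
    simpa using this
  obtain ⟨n, u, hu⟩ := IsDiscreteValuationRing.eq_unit_mul_pow_irreducible
    (pow_ne_zero 2 (hD.gam_ne_zero v)) hD.irreducible_lam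
  rw [hu, map_mul, map_pow] at h3
  rcases hP.mem_or_mem h3 with h | h
  · exact hP.ne_top (Ideal.eq_top_of_isUnit_mem _ h (u.isUnit.map C))
  · exact hlam (hP.mem_of_pow_mem _ h)

open Classical in
/-- [F2], the homogeneous pieces: if all coefficients of `Φ_A F` lie in `J₀`, then each
`w`-homogeneous piece of (the truncation of) `F` lies in every characteristic-zero prime
containing `I₂`. -/
theorem piece_mem (hD : D.Good) (P : Ideal (PS O Sig g)) [hP : P.IsPrime]
    (hI : I₂ D g ≤ P) (hlam : C D.lam ∉ P) (F : MvPowerSeries (WV Sig) (AS O Sig g))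
    (hF : ∀ n, coeff n (ΦA O Sig g F) ∈ J₀ D g) (N : ℕ) (n : Sig →₀ ℕ) (hn : n.degree < N) :
    ∑ I ∈ (Box Sig N).filter (fun I => wdeg I = n), ιA O Sig g (coeff I F) * wPow O g I ∈ P := by
  choose iv hiv using exists_sX_notMem D g hD P hI hlam
  rw [← Ideal.Quotient.eq_zero_iff_mem]
  set π := Ideal.Quotient.mk P with hπ
  let sb : WV Sig → PS O Sig g ⧸ P := fun p => π (sX O g p.1 p.2)
  let wb : WV Sig → PS O Sig g ⧸ P := fun p => π (wX O g p.1 p.2)
  have hrel : ∀ (v : Sig) (j : Fin 3), sb (v, iv v) * wb (v, j) = sb (v, j) * wb (v, iv v) := by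
    intro v j
    have := hI (sX_mul_wX_sub_mem D g v (iv v) j)
    rw [← Ideal.Quotient.eq_zero_iff_mem, map_sub, map_mul, map_mul, sub_eq_zero] at this
    exact this
  -- the multiplier
  have hσ : (n.prod fun v e => sb (v, iv v) ^ e) ≠ 0 := by
    rw [Finsupp.prod, Finset.prod_ne_zero_iff]
    intro v _
    apply pow_ne_zero
    intro h0
    exact hiv v (Ideal.Quotient.eq_zero_iff_mem.mp h0)
  -- the coefficient formula
  have hcoeff : coeff n (ΦA O Sig g F) =
      ∑ I ∈ (Box Sig N).filter (fun I => wdeg I = n), coeff I F * sPow (O := O) g I := by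
    rw [coeff_ΦA]
    rw [finsum_eq_sum_of_support_subset (s := (Box Sig N).filter (fun I => wdeg I = n))]
    · apply Finset.sum_congr rfl
      intro I hI'
      rw [if_pos (Finset.mem_filter.mp hI').2]
    · intro d hd
      rw [Function.mem_support] at hd
      have hwd : wdeg d = n := by
        by_contra hne
        exact hd (if_neg hne)
      rw [Finset.coe_filter, Set.mem_setOf_eq, mem_Box, ← degree_wdeg, hwd]
      exact ⟨hn, rfl⟩
  have hzero : π (ιA O Sig g (coeff n (ΦA O Sig g F))) = 0 :=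
    Ideal.Quotient.eq_zero_iff_mem.mpr (hI (ιA_mem_I₂ D g (hF n)))
  -- multiply by the multiplier
  apply (mul_eq_zero.mp ?_).resolve_left hσ
  rw [map_sum, Finset.mul_sum]
  have hterm : ∀ I ∈ (Box Sig N).filter (fun I => wdeg I = n),
      (n.prod fun v e => sb (v, iv v) ^ e) * π (ιA O Sig g (coeff I F) * wPow O g I) =
      (n.prod fun v e => wb (v, iv v) ^ e) *
        π (ιA O Sig g (coeff I F * sPow (O := O) g I)) := by
    intro I hI'
    have hwd : wdeg I = n := (Finset.mem_filter.mp hI').2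
    have h1 : π (wPow O g I) = I.prod fun p e => wb p ^ e := by
      rw [wPow, Finsupp.prod, map_prod]
      simp only [map_pow]
      rfl
    have h2 : π (ιA O Sig g (sPow (O := O) g I)) = I.prod fun p e => sb p ^ e := by
      rw [ιA_sPow, Finsupp.prod, map_prod]
      simp only [map_pow]
      rfl
    have h3 := monomial_identity sb wb iv hrel I
    rw [hwd] at h3
    rw [map_mul, map_mul, map_mul, h1, h2]
    calc (n.prod fun v e => sb (v, iv v) ^ e) * (π (ιA O Sig g (coeff I F)) *
            I.prod fun p e => wb p ^ e)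
        = π (ιA O Sig g (coeff I F)) * ((n.prod fun v e => sb (v, iv v) ^ e) *
            I.prod fun p e => wb p ^ e) := by ring
      _ = π (ιA O Sig g (coeff I F)) * ((n.prod fun v e => wb (v, iv v) ^ e) *
            I.prod fun p e => sb p ^ e) := by rw [h3]
      _ = _ := by ring
  rw [Finset.sum_congr rfl hterm, ← Finset.mul_sum, ← map_sum, ← map_sum, ← hcoeff, hzero,
    mul_zero]

theorem wIdeal_le_ker_constantCoeff :
    wIdeal O Sig g ≤ RingHom.ker (constantCoeff (σ := Var Sig g) (R := O)) := by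
  rw [wIdeal, Ideal.span_le]
  rintro _ ⟨p, rfl⟩
  simp [wX]

open Classical in
/-- **[F2]**: every characteristic-zero prime of `PS` containing `I₂` contains `P₀'`. -/
theorem P₀'_le_of_prime (hD : D.Good) (P : Ideal (PS O Sig g)) [hP : P.IsPrime]
    (hI : I₂ D g ≤ P) (hlam : C D.lam ∉ P) : P₀' D g ≤ P := by
  intro f hf
  rw [P₀', RingHom.mem_ker, φbar_apply] at hf
  -- all coefficients of `Φ_A (Ψ f)` lie in `J₀`
  have hF : ∀ n, coeff n (ΦA O Sig g (Ψ O Sig g f)) ∈ J₀ D g := by
    intro n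
    have := congrArg (coeff n) hf
    rw [coeff_map, map_zero] at this
    exact Ideal.Quotient.eq_zero_iff_mem.mp this
  -- every truncation lies in `P`
  have hT : ∀ N, wTrunc g N f ∈ P := by
    intro N
    rw [wTrunc, ← Finset.sum_fiberwise_of_maps_to
      (fun I hI' => Finset.mem_image_of_mem (wdeg (Sig := Sig)) hI')]
    apply Ideal.sum_mem
    intro n hn
    obtain ⟨I₀, hI₀, rfl⟩ := Finset.mem_image.mp hn
    apply piece_mem D g hD P hI hlam (Ψ O Sig g f) hF N
    rw [degree_wdeg]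
    exact mem_Box.mp hI₀
  -- Krull's intersection theorem in the noetherian domain `PS ⧸ P`
  rw [← Ideal.Quotient.eq_zero_iff_mem]
  set π := Ideal.Quotient.mk P with hπ
  have hne : (wIdeal O Sig g).map π ≠ ⊤ := by
    intro htop
    have h1 : (1 : PS O Sig g) ∈ ((wIdeal O Sig g).map π).comap π := by
      rw [htop]; trivial
    rw [Ideal.comap_map_of_surjective π Ideal.Quotient.mk_surjective,
      ← RingHom.ker_eq_comap_bot, Ideal.mk_ker] at h1
    obtain ⟨w, hw, p, hp, hwp⟩ := Submodule.mem_sup.mp h1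
    have hunit : IsUnit p := by
      rw [MvPowerSeries.isUnit_iff_constantCoeff]
      have hw0 : constantCoeff w = 0 := wIdeal_le_ker_constantCoeff g hw
      have := congrArg (constantCoeff (σ := Var Sig g) (R := O)) hwp
      rw [map_add, hw0, zero_add, map_one] at this
      rw [this]
      exact isUnit_one
    exact hP.ne_top (Ideal.eq_top_of_isUnit_mem _ hp hunit)
  have hmem : ∀ N, π f ∈ ((wIdeal O Sig g).map π) ^ N := by
    intro N
    have h1 : π f = π (f - wTrunc g N f) := by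
      rw [map_sub, Ideal.Quotient.eq_zero_iff_mem.mpr (hT N), sub_zero]
    rw [h1, ← Ideal.map_pow]
    exact Ideal.mem_map_of_mem π (sub_wTrunc_mem g N f)
  have hbot := Ideal.iInf_pow_eq_bot_of_isDomain ((wIdeal O Sig g).map π) hne
  have : π f ∈ (⨅ i : ℕ, ((wIdeal O Sig g).map π) ^ i) := by
    rw [Ideal.mem_iInf]
    exact hmem
  rw [hbot] at this
  exact this

end Main

end Fermat.Agent.RB.LOC
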