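/-
PROJECT RB (feasibility), toolkit [TK]: in `R⟦X_τ⟧` (`R` a domain, `lam` a nonzero prime element,
finitely many variables) the ideal `(lam, X_t : t ∈ T)` is prime of height `≥ |T| + 1`.  helper4.
-/
import Mathlib
import Fermat.Agent.RB.TK_helper4_KillVars

set_option autoImplicit false

namespace Fermat.Agent.RB.TK

open MvPowerSeries

variable {τ : Type*} {R : Type*} [CommRing R]

/-- the ideal `(lam, X_t : t ∈ T)` -/
noncomputable def lamVarIdeal (lam : R) (T : Set τ) : Ideal (MvPowerSeries τ R) :=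
  Ideal.span ({C lam} ∪ (fun t => (X t : MvPowerSeries τ R)) '' T)

theorem exists_eq_C_mul_of_forall_dvd' (a : R) (f : MvPowerSeries τ R)
    (h : ∀ m, a ∣ coeff m f) : ∃ h' : MvPowerSeries τ R, f = C a * h' := by
  choose c hc using h
  let h' : MvPowerSeries τ R := fun m => c m
  have hcoeff : ∀ m, coeff m h' = c m := fun m => rfl
  refine ⟨h', ?_⟩
  ext m
  rw [coeff_C_mul, hc m, hcoeff]

/-- `(lam, X_t : t ∉ range e)` is the kernel of `R⟦X_τ⟧ → (R/lam)⟦X_σ⟧`. -/
theorem ker_map_comp_killCompl {σ : Type*} [Finite τ] (lam : R) (e : σ ↪ τ) :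
    RingHom.ker ((MvPowerSeries.map (Ideal.Quotient.mk (Ideal.span {lam}))).comp
      (killCompl (R := R) e).toRingHom) = lamVarIdeal lam (Set.range e)ᶜ := by
  apply le_antisymm
  · intro f hf
    rw [RingHom.mem_ker] at hf
    have hdiv : ∀ m, lam ∣ coeff m (killCompl (R := R) e f) := by
      intro m
      have := congrArg (coeff m) hf
      simp only [RingHom.comp_apply, coeff_map, map_zero] at this
      rw [← Ideal.mem_span_singleton]
      exact Ideal.Quotient.eq_zero_iff_mem.mp this
    obtain ⟨h', hh'⟩ := exists_eq_C_mul_of_forall_dvd' lam _ hdiv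
    have hker : f - C lam * rename e h' ∈ RingHom.ker (killCompl (R := R) e) := by
      rw [RingHom.mem_ker, map_sub, map_mul, killCompl_rename_app, killCompl_C, hh', sub_self]
    rw [ker_killCompl] at hker
    have h1 : f - C lam * rename e h' ∈ lamVarIdeal lam (Set.range e)ᶜ := by
      refine Ideal.span_mono ?_ hker
      exact Set.subset_union_right
    have h2 : C lam * rename e h' ∈ lamVarIdeal lam (Set.range e)ᶜ :=
      Ideal.mul_mem_right _ _ (Ideal.subset_span (Or.inl rfl))
    have := Ideal.add_mem _ h1 h2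
    simpa using this
  · rw [lamVarIdeal, Ideal.span_le]
    rintro f (hf | ⟨t, ht, rfl⟩)
    · rw [Set.mem_singleton_iff] at hf
      rw [hf, SetLike.mem_coe, RingHom.mem_ker]
      simp only [RingHom.comp_apply, AlgHom.toRingHom_eq_coe, RingHom.coe_coe, killCompl_C, map_C]
      have : Ideal.Quotient.mk (Ideal.span {lam}) lam = 0 :=
        Ideal.Quotient.eq_zero_iff_mem.mpr (Ideal.subset_span rfl)
      rw [this, map_zero]
    · rw [SetLike.mem_coe, RingHom.mem_ker]
      simp only [RingHom.comp_apply, AlgHom.toRingHom_eq_coe, RingHom.coe_coe]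
      rw [killCompl_X_eq_zero ht, map_zero]

/-- the embedding of the complement of `T` -/
def complEmb (T : Set τ) : {t : τ // t ∉ T} ↪ τ := Function.Embedding.subtype _

theorem range_complEmb_compl (T : Set τ) : (Set.range (complEmb T))ᶜ = T := by
  ext t
  simp [complEmb]

theorem lamVarIdeal_eq_ker [Finite τ] (lam : R) (T : Set τ) :
    lamVarIdeal lam T = RingHom.ker ((MvPowerSeries.map (Ideal.Quotient.mk (Ideal.span {lam}))).comp
      (killCompl (R := R) (complEmb T)).toRingHom) := by
  rw [ker_map_comp_killCompl, range_complEmb_compl]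

theorem lamVarIdeal_isPrime [Finite τ] (lam : R) [(Ideal.span {lam}).IsPrime] (T : Set τ) :
    (lamVarIdeal lam T).IsPrime := by
  rw [lamVarIdeal_eq_ker]
  haveI : IsDomain (MvPowerSeries {t : τ // t ∉ T} (R ⧸ Ideal.span {lam})) :=
    NoZeroDivisors.to_isDomain _
  exact RingHom.ker_isPrime _

theorem lamVarIdeal_mono (lam : R) {T T' : Set τ} (h : T ⊆ T') :
    lamVarIdeal lam T ≤ lamVarIdeal (τ := τ) lam T' :=
  Ideal.span_mono (Set.union_subset_union_right _ (Set.image_mono h))

theorem X_notMem_lamVarIdeal [Finite τ] (lam : R) [(Ideal.span {lam}).IsPrime] (T : Set τ) {t : τ}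
    (ht : t ∉ T) : (X t : MvPowerSeries τ R) ∉ lamVarIdeal lam T := by
  classical
  rw [lamVarIdeal_eq_ker, RingHom.mem_ker]
  simp only [RingHom.comp_apply, AlgHom.toRingHom_eq_coe, RingHom.coe_coe]
  have : (X t : MvPowerSeries τ R) = X (complEmb T ⟨t, ht⟩) := rfl
  rw [this, killCompl_X, map_X]
  intro h
  have h10 := congrArg (coeff (Finsupp.single (⟨t, ht⟩ : {t : τ // t ∉ T}) 1)) h
  rw [coeff_X, if_pos rfl, map_zero] at h10
  haveI : Nontrivial (R ⧸ Ideal.span {lam}) :=
    Ideal.Quotient.nontrivial_iff.mpr (Ideal.IsPrime.ne_top inferInstance)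
  exact one_ne_zero h10

/-- `ht (lam, X_t : t ∈ T) ≥ |T| + 1`. -/
theorem height_lamVarIdeal_ge [Finite τ] [IsDomain R] [DecidableEq τ] (lam : R) (hlam : lam ≠ 0)
    [(Ideal.span {lam}).IsPrime] (T : Finset τ) :
    (T.card + 1 : ℕ∞) ≤ (lamVarIdeal (R := R) lam (T : Set τ)).height := by
  haveI : IsDomain (MvPowerSeries τ R) := NoZeroDivisors.to_isDomain _
  induction T using Finset.induction_on with
  | empty =>
    haveI := lamVarIdeal_isPrime (τ := τ) lam (∅ : Set τ)
    have hlt : (⊥ : Ideal (MvPowerSeries τ R)) < lamVarIdeal lam (∅ : Set τ) := by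
      rw [bot_lt_iff_ne_bot]
      intro h
      have : (C lam : MvPowerSeries τ R) ∈ lamVarIdeal lam (∅ : Set τ) :=
        Ideal.subset_span (Or.inl rfl)
      rw [h, Ideal.mem_bot] at this
      have h2 := congrArg (constantCoeff (σ := τ) (R := R)) this
      rw [constantCoeff_C, map_zero] at h2
      exact hlam h2
    have := Ideal.height_add_one_le_of_lt_of_isPrime hlt
    rw [Ideal.height_bot] at this
    simpa using this
  | insert t T' ht ih =>
    haveI := lamVarIdeal_isPrime (τ := τ) lam (T' : Set τ)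
    haveI := lamVarIdeal_isPrime (τ := τ) lam ((insert t T' : Finset τ) : Set τ)
    have hlt : lamVarIdeal lam (T' : Set τ) < lamVarIdeal (R := R) lam ((insert t T' : Finset τ) : Set τ) := by
      refine lt_of_le_of_ne (lamVarIdeal_mono lam (by simp)) ?_
      intro h
      have h1 : (X t : MvPowerSeries τ R) ∈ lamVarIdeal lam ((insert t T' : Finset τ) : Set τ) :=
        Ideal.subset_span (Or.inr ⟨t, by simp, rfl⟩)
      rw [← h] at h1
      exact X_notMem_lamVarIdeal lam (T' : Set τ) (by simpa using ht) h1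
    have hstep := Ideal.height_add_one_le_of_lt_of_isPrime hlt
    calc (((insert t T' : Finset τ).card : ℕ∞) + 1) = ((T'.card : ℕ∞) + 1) + 1 := by
          rw [Finset.card_insert_of_notMem ht]; push_cast; rfl
      _ ≤ (lamVarIdeal (R := R) lam (T' : Set τ)).height + 1 := by gcongr
      _ ≤ _ := hstep

end Fermat.Agent.RB.TK
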