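/-
PROJECT RB (feasibility), block [LOC], leaf [F3]: there is a characteristic-zero prime of `PS`
between `I₂` and the test prime `Qbar'`.  (Krull's height theorem: the ideal
`P' = (a_v - γ_v, b_v, c_v, b'_v, c'_v, x_j)` has `N = 5|Σ| + g` generators and contains `I₂`;
`Qbar' = P' + (λ)` has height `≥ N + 1`.)  helper4.
-/
import Mathlib
import Fermat.Agent.RB.LOC_helper4_Easy
import Fermat.Agent.RB.TK_helper4_Height

set_option autoImplicit false

namespace Fermat.Agent.RB.LOC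

open MvPowerSeries

variable {O : Type*} [CommRing O] {Sig : Type*} (D : Data O Sig) (g : ℕ)

/-- all variables except the `a'_v = w_{v,0}` -/
def TallSet (Sig : Type*) (g : ℕ) : Set (Var Sig g) := {t | ∀ v : Sig, t ≠ Sum.inr (Sum.inl (v, 0))}

theorem Qbar'_eq_lamVarIdeal : Qbar' D g = TK.lamVarIdeal D.lam (TallSet Sig g) := by
  unfold Qbar' TK.lamVarIdeal
  congr 2
  ext f
  constructor
  · rintro ⟨t, ht, rfl⟩
    exact ⟨t, ht, rfl⟩
  · rintro ⟨t, ht, rfl⟩
    exact ⟨t, ht, rfl⟩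

/-- the centre `(γ_v, 0, 0)` of the point `s_v`, as a function of the variable -/
def gam' : Var Sig g → O
  | Sum.inl (v, i) => if i = 0 then D.gam v else 0
  | _ => 0

theorem lam_dvd_gam' (t : Var Sig g) : D.lam ∣ gam' D g t := by
  rcases t with ⟨v, i⟩ | t
  · simp only [gam']
    split_ifs
    · exact D.lam_dvd_gam v
    · exact dvd_zero _
  · exact dvd_zero _

/-- the generators `X_t - γ'_t` of `P'` -/
noncomputable def gen (t : Var Sig g) : PS O Sig g := X t - C (gam' D g t)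

/-- `P' = (a_v - γ_v, b_v, c_v, b'_v, c'_v, x_j)` -/
noncomputable def P' : Ideal (PS O Sig g) := Ideal.span (gen D g '' TallSet Sig g)

theorem gen_mem_P' {t : Var Sig g} (ht : t ∈ TallSet Sig g) : gen D g t ∈ P' D g :=
  Ideal.subset_span ⟨t, ht, rfl⟩

theorem inl_mem_TallSet (p : Sig × Fin 3) : (Sum.inl p : Var Sig g) ∈ TallSet Sig g :=
  fun v => by simp

theorem inr_inl_mem_TallSet (v : Sig) {i : Fin 3} (hi : i ≠ 0) :
    (Sum.inr (Sum.inl (v, i)) : Var Sig g) ∈ TallSet Sig g := by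
  intro v' h
  have := Sum.inl_injective (Sum.inr_injective h)
  exact hi (Prod.mk.inj this).2

theorem sX0_sub_mem_P' (v : Sig) : sX O g v 0 - C (D.gam v) ∈ P' D g := by
  have := gen_mem_P' D g (inl_mem_TallSet g (v, 0))
  simpa [gen, gam', sX] using this

theorem sX1_mem_P' (v : Sig) : sX O g v 1 ∈ P' D g := by
  have := gen_mem_P' D g (inl_mem_TallSet g (v, 1))
  simpa [gen, gam', sX] using this

theorem sX2_mem_P' (v : Sig) : sX O g v 2 ∈ P' D g := by
  have := gen_mem_P' D g (inl_mem_TallSet g (v, 2))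
  simpa [gen, gam', sX] using this

theorem wX1_mem_P' (v : Sig) : wX O g v 1 ∈ P' D g := by
  have := gen_mem_P' D g (inr_inl_mem_TallSet g v (i := 1) (by decide))
  simpa [gen, gam', wX] using this

theorem wX2_mem_P' (v : Sig) : wX O g v 2 ∈ P' D g := by
  have := gen_mem_P' D g (inr_inl_mem_TallSet g v (i := 2) (by decide))
  simpa [gen, gam', wX] using this

theorem I₂_le_P' : I₂ D g ≤ P' D g := by
  rw [I₂, Ideal.span_le]
  intro f hf
  obtain ⟨v, hv⟩ := Set.mem_iUnion.mp hf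
  rcases hv with hv | ⟨j, rfl⟩
  · rw [Set.mem_singleton_iff] at hv
    rw [hv]
    have : qf (sX O g v) - C (D.gam v ^ 2) =
        (sX O g v 0 - C (D.gam v)) * (sX O g v 0 + C (D.gam v)) + sX O g v 1 * sX O g v 2 := by
      simp only [qf, map_pow]; ring
    rw [this]
    exact Ideal.add_mem _ (Ideal.mul_mem_right _ _ (sX0_sub_mem_P' D g v))
      (Ideal.mul_mem_right _ _ (sX1_mem_P' D g v))
  · fin_cases j
    · simp only [minor, Fin.zero_eta, Fin.isValue, Matrix.cons_val_zero]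
      exact Ideal.sub_mem _ (Ideal.mul_mem_left _ _ (wX1_mem_P' D g v))
        (Ideal.mul_mem_right _ _ (sX1_mem_P' D g v))
    · simp only [minor, Fin.mk_one, Fin.isValue, Matrix.cons_val_one, Matrix.cons_val_zero]
      exact Ideal.sub_mem _ (Ideal.mul_mem_left _ _ (wX2_mem_P' D g v))
        (Ideal.mul_mem_right _ _ (sX2_mem_P' D g v))
    · simp only [minor, Fin.reduceFinMk, Fin.isValue, Matrix.cons_val_two, Matrix.tail_cons,
        Matrix.head_cons]
      exact Ideal.sub_mem _ (Ideal.mul_mem_left _ _ (wX2_mem_P' D g v))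
        (Ideal.mul_mem_left _ _ (wX1_mem_P' D g v))

theorem P'_le_Qbar' : P' D g ≤ Qbar' D g := by
  rw [P', Ideal.span_le]
  rintro _ ⟨t, ht, rfl⟩
  refine Ideal.sub_mem _ (Ideal.subset_span (Or.inr ⟨t, ht, rfl⟩)) ?_
  exact span_lam_le_Qbar' D g (C_mem_span_lam D g (lam_dvd_gam' D g t))

theorem Qbar'_le_P'_sup : Qbar' D g ≤ P' D g ⊔ Ideal.span {C D.lam} := by
  rw [Qbar', Ideal.span_le]
  rintro f (hf | ⟨t, ht, rfl⟩)
  · rw [Set.mem_singleton_iff] at hf
    rw [hf]
    exact Ideal.mem_sup_right (Ideal.subset_span rfl)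
  · have : (X t : PS O Sig g) = gen D g t + C (gam' D g t) := by simp [gen]
    rw [this]
    exact Ideal.add_mem _ (Ideal.mem_sup_left (gen_mem_P' D g ht))
      (Ideal.mem_sup_right (C_mem_span_lam D g (lam_dvd_gam' D g t)))

section

variable [IsDomain O] [IsDiscreteValuationRing O] [Fintype Sig] [DecidableEq Sig]

/-- [F3] -/
theorem exists_char_zero_prime_le_Qbar' (hD : D.Good) :
    ∃ P : Ideal (PS O Sig g), P.IsPrime ∧ I₂ D g ≤ P ∧ P ≤ Qbar' D g ∧ C D.lam ∉ P := by
  classical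
  haveI hQprime := Qbar'_isPrime D g hD
  obtain ⟨𝔮, h𝔮min, h𝔮Q⟩ := Ideal.exists_minimalPrimes_le (P'_le_Qbar' D g)
  haveI h𝔮prime : 𝔮.IsPrime := h𝔮min.1.1
  refine ⟨𝔮, h𝔮prime, le_trans (I₂_le_P' D g) h𝔮min.1.2, h𝔮Q, ?_⟩
  intro hlam
  -- then `𝔮 = Qbar'`
  have h𝔮eq : 𝔮 = Qbar' D g := by
    apply le_antisymm h𝔮Q
    refine le_trans (Qbar'_le_P'_sup D g) (sup_le h𝔮min.1.2 ?_)
    exact (Ideal.span_singleton_le_iff_mem _).mpr hlam
  -- Krull's height theorem
  let T : Finset (Var Sig g) := (TallSet Sig g).toFinset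
  have hTcoe : (T : Set (Var Sig g)) = TallSet Sig g := Set.coe_toFinset _
  have hspan : P' D g = Ideal.span ((T.image (gen D g) : Finset (PS O Sig g)) : Set (PS O Sig g)) := by
    rw [Finset.coe_image, hTcoe]; rfl
  rw [hspan] at h𝔮min
  have hle : 𝔮.height ≤ (T.image (gen D g)).card :=
    Ideal.height_le_card_of_mem_minimalPrimes_span_finset h𝔮min
  have hcard : ((T.image (gen D g)).card : ℕ∞) ≤ T.card := by
    exact_mod_cast Finset.card_image_le
  haveI : (Ideal.span {D.lam}).IsPrime := by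
    rw [Ideal.span_singleton_prime hD.irreducible_lam.ne_zero]
    exact hD.irreducible_lam.prime
  have hge := TK.height_lamVarIdeal_ge (τ := Var Sig g) D.lam hD.irreducible_lam.ne_zero T
  rw [hTcoe, ← Qbar'_eq_lamVarIdeal, ← h𝔮eq] at hge
  have : (T.card + 1 : ℕ∞) ≤ T.card := le_trans hge (le_trans hle hcard)
  have h2 : (T.card + 1 : ℕ) ≤ T.card := by exact_mod_cast this
  omega

end

end Fermat.Agent.RB.LOC
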