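/-
PROJECT RB (feasibility), toolkit [TK]: a quotient of `R⟦X_τ⟧` (finitely many variables) in which
a generator `lam` of a maximal ideal of `R` is zero and all variables are nilpotent has Krull
dimension `≤ 0`; elements with non-unit constant coefficient lie in the Jacobson radical of any
quotient.  helper4.
-/
import Mathlib
import Fermat.Agent.RB.TK_helper4_KillVars

set_option autoImplicit false

namespace Fermat.Agent.RB.TK

open MvPowerSeries

variable {τ : Type*} {R : Type*} [CommRing R]

theorem krullDimLE_zero_of_nilpotent_vars [Finite τ] (lam : R)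
    (hmax : (Ideal.span {lam}).IsMaximal) (K : Ideal (MvPowerSeries τ R))
    (hlam : C lam ∈ K) (hX : ∀ t : τ, ∃ n : ℕ, (X t : MvPowerSeries τ R) ^ n ∈ K) :
    Ring.KrullDimLE 0 (MvPowerSeries τ R ⧸ K) := by
  apply Ring.KrullDimLE.mk₀
  intro I hI
  let P : Ideal (MvPowerSeries τ R) := I.comap (Ideal.Quotient.mk K)
  haveI hP : P.IsPrime := Ideal.comap_isPrime _ _
  have hKP : K ≤ P := by
    intro x hx
    change Ideal.Quotient.mk K x ∈ I
    rw [Ideal.Quotient.eq_zero_iff_mem.mpr hx]
    exact I.zero_mem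
  have hXP : ∀ t : τ, (X t : MvPowerSeries τ R) ∈ P := by
    intro t
    obtain ⟨n, hn⟩ := hX t
    exact hP.mem_of_pow_mem n (hKP hn)
  have hlamP : C lam ∈ P := hKP hlam
  let 𝔪 : Ideal (MvPowerSeries τ R) := (Ideal.span {lam}).comap (constantCoeff (σ := τ) (R := R))
  haveI h𝔪 : 𝔪.IsMaximal :=
    Ideal.comap_isMaximal_of_surjective _ (fun r => ⟨C r, constantCoeff_C r⟩)
  have hle : 𝔪 ≤ P := by
    intro f hf
    have hf' : constantCoeff f ∈ Ideal.span {lam} := hf
    obtain ⟨c, hc⟩ := Ideal.mem_span_singleton.mp hf'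
    have h1 : f - C (constantCoeff f) ∈ RingHom.ker (constantCoeff (σ := τ) (R := R)) := by
      rw [RingHom.mem_ker, map_sub, constantCoeff_C, sub_self]
    rw [ker_constantCoeff] at h1
    have h2 : f - C (constantCoeff f) ∈ P := by
      refine Ideal.span_le.mpr ?_ h1
      rintro _ ⟨t, rfl⟩
      exact hXP t
    have h3 : C (constantCoeff f) ∈ P := by
      rw [hc, map_mul]
      exact Ideal.mul_mem_right _ _ hlamP
    have := Ideal.add_mem _ h2 h3
    simpa using this
  have hPeq : P = 𝔪 := (h𝔪.eq_of_le hP.ne_top hle).symm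
  have hImap : I = P.map (Ideal.Quotient.mk K) :=
    (Ideal.map_comap_of_surjective _ Ideal.Quotient.mk_surjective I).symm
  rcases Ideal.map_eq_top_or_isMaximal_of_surjective (Ideal.Quotient.mk K)
    Ideal.Quotient.mk_surjective (hPeq ▸ h𝔪 : P.IsMaximal) with h | h
  · exact absurd (hImap.trans h) hI.ne_top
  · rw [hImap]; exact h

/-- An element of `R⟦X_τ⟧` (`R` local) with non-unit constant coefficient maps into the Jacobson
radical of any quotient. -/
theorem mk_mem_jacobson_of_constantCoeff [IsLocalRing R] (K : Ideal (MvPowerSeries τ R))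
    (f : MvPowerSeries τ R) (hf : constantCoeff f ∈ IsLocalRing.maximalIdeal R) :
    Ideal.Quotient.mk K f ∈ Ring.jacobson (MvPowerSeries τ R ⧸ K) := by
  rw [← Ideal.jacobson_bot, Ideal.mem_jacobson_bot]
  intro y
  obtain ⟨y, rfl⟩ := Ideal.Quotient.mk_surjective y
  rw [← map_mul, ← map_one (Ideal.Quotient.mk K), ← map_add]
  apply IsUnit.map
  rw [MvPowerSeries.isUnit_iff_constantCoeff, map_add, map_mul, map_one]
  have : constantCoeff f * constantCoeff y ∈ IsLocalRing.maximalIdeal R :=
    Ideal.mul_mem_right _ _ hf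
  by_contra hnu
  have h1 : constantCoeff f * constantCoeff y + 1 ∈ IsLocalRing.maximalIdeal R :=
    (IsLocalRing.mem_maximalIdeal _).mpr hnu
  have h2 : (1 : R) ∈ IsLocalRing.maximalIdeal R := by
    have := Ideal.sub_mem _ h1 this
    simpa using this
  exact (IsLocalRing.maximalIdeal.isMaximal R).ne_top ((Ideal.eq_top_iff_one _).mpr h2)

end Fermat.Agent.RB.TK
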