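/-
PROJECT RB (feasibility), block [LOC], leaf [F4]: `dim R₂ ≤ 3|Σ| + g + 1`.
System of parameters: `λ`, `y_{v,i} = w_{v,i} + h(s_v)_i` with `h(a,b,c) = (c,a,b)`, and `x_j`;
modulo these and `I₂` all variables are nilpotent (`a² = b⁴ = c⁴ = 0`).  helper4.
-/
import Mathlib
import Fermat.Agent.RB.LOC_helper4_Easy
import Fermat.Agent.RB.TK_helper4_DimZero

set_option autoImplicit false

namespace Fermat.Agent.RB.LOC

open MvPowerSeries

variable {O : Type*} [CommRing O] {Sig : Type*} (D : Data O Sig) (g : ℕ)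

/-- the cyclic shift `h(a,b,c) = (c,a,b)` on indices -/
def shiftIdx : Fin 3 → Fin 3 := ![2, 0, 1]

variable (O) in
/-- `y_{v,i} = w_{v,i} + h(s_v)_i` -/
noncomputable def yX (v : Sig) (i : Fin 3) : PS O Sig g := wX O g v i + sX O g v (shiftIdx i)

/-- the system of parameters -/
noncomputable def param : Option ((Sig × Fin 3) ⊕ Fin g) → PS O Sig g
  | none => C D.lam
  | some (Sum.inl p) => yX O g p.1 p.2
  | some (Sum.inr j) => xX O Sig g j

/-- `K = I₂ + (parameters)` -/
noncomputable def K₂ : Ideal (PS O Sig g) := I₂ D g ⊔ Ideal.span (Set.range (param D g))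

theorem param_mem_K₂ (i : Option ((Sig × Fin 3) ⊕ Fin g)) : param D g i ∈ K₂ D g :=
  Ideal.mem_sup_right (Ideal.subset_span ⟨i, rfl⟩)

theorem lam_mem_K₂ : C D.lam ∈ K₂ D g := param_mem_K₂ D g none

theorem yX_mem_K₂ (v : Sig) (i : Fin 3) : yX O g v i ∈ K₂ D g :=
  param_mem_K₂ D g (some (Sum.inl (v, i)))

theorem xX_mem_K₂ (j : Fin g) : xX O Sig g j ∈ K₂ D g := param_mem_K₂ D g (some (Sum.inr j))

/-- all variables are nilpotent modulo `K₂` -/
theorem X_pow_mem_K₂ (t : Var Sig g) : ∃ n : ℕ, (X t : PS O Sig g) ^ n ∈ K₂ D g := by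
  -- the relations in the quotient
  have key : ∀ v : Sig, (sX O g v 0) ^ 2 ∈ K₂ D g ∧ (sX O g v 1) ^ 4 ∈ K₂ D g ∧
      (sX O g v 2) ^ 4 ∈ K₂ D g ∧ (wX O g v 0) ^ 4 ∈ K₂ D g ∧ (wX O g v 1) ^ 4 ∈ K₂ D g ∧
      (wX O g v 2) ^ 4 ∈ K₂ D g := by
    intro v
    simp only [← Ideal.Quotient.eq_zero_iff_mem, map_pow]
    set π := Ideal.Quotient.mk (K₂ D g) with hπ
    set a := π (sX O g v 0) with ha
    set b := π (sX O g v 1) with hb
    set c := π (sX O g v 2) with hc
    set a' := π (wX O g v 0) with ha'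
    set b' := π (wX O g v 1) with hb'
    set c' := π (wX O g v 2) with hc'
    set H := π (C D.half) with hH
    have hh : 2 * H = 1 := by
      rw [hH, ← map_ofNat π 2, ← map_mul, two_mul_C_half, map_one]
    have hq : a ^ 2 + b * c = 0 := by
      have h1 : qf (sX O g v) - C (D.gam v ^ 2) ∈ K₂ D g :=
        Ideal.mem_sup_left (Ideal.subset_span (Set.mem_iUnion.mpr ⟨v, Or.inl rfl⟩))
      have h2 : (C (D.gam v ^ 2) : PS O Sig g) ∈ K₂ D g := by
        have := C_gam_sq_mem D g v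
        obtain ⟨r, hr⟩ := Ideal.mem_span_singleton'.mp this
        rw [← hr]
        exact Ideal.mul_mem_left _ _ (lam_mem_K₂ D g)
      have h3 := Ideal.add_mem _ h1 h2
      rw [sub_add_cancel, ← Ideal.Quotient.eq_zero_iff_mem] at h3
      simpa [qf] using h3
    have hy0 : a' + c = 0 := by
      have := yX_mem_K₂ D g v 0
      rw [← Ideal.Quotient.eq_zero_iff_mem] at this
      simpa [yX, shiftIdx] using this
    have hy1 : b' + a = 0 := by
      have := yX_mem_K₂ D g v 1
      rw [← Ideal.Quotient.eq_zero_iff_mem] at this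
      simpa [yX, shiftIdx] using this
    have hy2 : c' + b = 0 := by
      have := yX_mem_K₂ D g v 2
      rw [← Ideal.Quotient.eq_zero_iff_mem] at this
      simpa [yX, shiftIdx] using this
    have hminor : ∀ j, π (minor (sX O g v) (wX O g v) j) = 0 := fun j =>
      Ideal.Quotient.eq_zero_iff_mem.mpr (Ideal.mem_sup_left (minor_mem_I₂ D g v j))
    have hm0 : a * b' - b * a' = 0 := by simpa [minor] using hminor 0
    have hm1 : a * c' - c * a' = 0 := by simpa [minor] using hminor 1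
    have hm2 : b * c' - c * b' = 0 := by simpa [minor] using hminor 2
    have e1 : -a ^ 2 + b * c = 0 := by linear_combination hm0 - a * hy1 + b * hy0
    have ha2 : a ^ 2 = 0 := by linear_combination H * hq - H * e1 - a ^ 2 * hh
    have e2 : c ^ 2 - a * b = 0 := by linear_combination hm1 - a * hy2 + c * hy0
    have e3 : a * c - b ^ 2 = 0 := by linear_combination hm2 - b * hy2 + c * hy1
    have hc4 : c ^ 4 = 0 := by linear_combination (c ^ 2 + a * b) * e2 + b ^ 2 * ha2
    have hb4 : b ^ 4 = 0 := by linear_combination -(b ^ 2 + a * c) * e3 + c ^ 2 * ha2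
    refine ⟨ha2, hb4, hc4, ?_, ?_, ?_⟩
    · linear_combination (a' - c) * (a' ^ 2 + c ^ 2) * hy0 + hc4
    · linear_combination (b' - a) * (b' ^ 2 + a ^ 2) * hy1 + a ^ 2 * ha2
    · linear_combination (c' - b) * (c' ^ 2 + b ^ 2) * hy2 + hb4
  rcases t with ⟨v, i⟩ | ⟨v, i⟩ | j
  · obtain ⟨h0, h1, h2, -, -, -⟩ := key v
    fin_cases i
    · exact ⟨2, h0⟩
    · exact ⟨4, h1⟩
    · exact ⟨4, h2⟩
  · obtain ⟨-, -, -, h0, h1, h2⟩ := key v
    fin_cases i
    · exact ⟨4, h0⟩
    · exact ⟨4, h1⟩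
    · exact ⟨4, h2⟩
  · exact ⟨1, by rw [pow_one]; exact xX_mem_K₂ D g j⟩

section

variable [IsDomain O] [IsDiscreteValuationRing O] [Fintype Sig]

theorem constantCoeff_param_mem (hD : D.Good) (i : Option ((Sig × Fin 3) ⊕ Fin g)) :
    constantCoeff (param D g i) ∈ IsLocalRing.maximalIdeal O := by
  rcases i with _ | ⟨p⟩ | j
  · simp only [param, constantCoeff_C]
    rw [IsLocalRing.mem_maximalIdeal]
    exact hD.irreducible_lam.not_isUnit
  · simp [param, yX, sX, wX]
  · simp [param, xX]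

theorem krullDimLE_zero_quot_K₂ (hD : D.Good) : Ring.KrullDimLE 0 (PS O Sig g ⧸ K₂ D g) := by
  apply TK.krullDimLE_zero_of_nilpotent_vars D.lam ?_ (K₂ D g) (lam_mem_K₂ D g)
    (X_pow_mem_K₂ D g)
  rw [← hD.irreducible_lam.maximalIdeal_eq]
  exact IsLocalRing.maximalIdeal.isMaximal O

/-- [F4] -/
theorem ringKrullDim_R₂_le (hD : D.Good) :
    ringKrullDim (R₂ D g) ≤ (3 * Fintype.card Sig + g + 1 : ℕ) := by
  let s : Set (R₂ D g) := Set.range (fun i => Ideal.Quotient.mk (I₂ D g) (param D g i))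
  have hs : s ⊆ Ring.jacobson (R₂ D g) := by
    rintro _ ⟨i, rfl⟩
    exact TK.mk_mem_jacobson_of_constantCoeff _ _ (constantCoeff_param_mem D g hD i)
  have h1 := ringKrullDim_le_ringKrullDim_quotient_add_encard s hs
  have hcard : s.encard ≤ (3 * Fintype.card Sig + g + 1 : ℕ) := by
    have : s = (fun i => Ideal.Quotient.mk (I₂ D g) (param D g i)) '' Set.univ := by
      rw [Set.image_univ]
    rw [this]
    refine le_trans (Set.encard_image_le _ _) ?_
    rw [Set.encard_univ, ENat.card_eq_coe_fintype_card]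
    simp only [Fintype.card_option, Fintype.card_sum, Fintype.card_prod, Fintype.card_fin]
    have : Fintype.card Sig * 3 + g + 1 = 3 * Fintype.card Sig + g + 1 := by ring
    rw [this]
  have hspan : Ideal.span s =
      (Ideal.span (Set.range (param D g))).map (Ideal.Quotient.mk (I₂ D g)) := by
    rw [Ideal.map_span, ← Set.range_comp]
    rfl
  have hdim0 : ringKrullDim (R₂ D g ⧸ Ideal.span s) ≤ 0 := by
    rw [hspan]
    rw [ringKrullDim_eq_of_ringEquiv (DoubleQuot.quotQuotEquivQuotSup (I₂ D g)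
      (Ideal.span (Set.range (param D g))))]
    haveI := krullDimLE_zero_quot_K₂ D g hD
    exact_mod_cast (Ring.krullDimLE_iff (n := 0)).mp this
  calc ringKrullDim (R₂ D g) ≤ ringKrullDim (R₂ D g ⧸ Ideal.span s) + s.encard := h1
    _ ≤ 0 + ((3 * Fintype.card Sig + g + 1 : ℕ) : ℕ∞) := by
        gcongr
        exact WithBot.coe_le_coe.mpr hcard
    _ = (3 * Fintype.card Sig + g + 1 : ℕ) := by
        rw [zero_add]; rfl

end

end Fermat.Agent.RB.LOC
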