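/-
PROJECT RB, block [LOC]: SKELETON.  The single remaining leaf lemma about the concrete
ring `R₂ = PS ⧸ I₂` is

  [F1]  `J₀_isPrime` : `(q(s_v) - γ_v^2)_v` is a prime ideal of `A = O⟦s, x⟧`

which is PROVEN in `LOC_helper4_F1.lean` (via `LOC_helper4_F1a`, `LOC_helper4_F1b`); the assembly
`LOC_helper4_Main.lean` carries it as a hypothesis `hJ`, discharged in `LOC_helper4_Final.lean`
(`loc_ihara_avoidance`, hypothesis-free).

([F2] `P₀'_le_of_prime` is PROVEN in `LOC_helper4_F2.lean`, [F3] `exists_char_zero_prime_le_Qbar'`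
in `LOC_helper4_F3.lean`, [F4] `ringKrullDim_R₂_le` in `LOC_helper4_F4.lean`; all the other leaves
([L5], [L6], [L7], [Q], `φ̄` kills `I₂`) in `LOC_helper4_Unr.lean` / `LOC_helper4_Easy.lean` /
`LOC_helper4_Phi.lean`.)  helper4.
-/
import Mathlib
import Fermat.Agent.RB.LOC_helper4_F2
import Fermat.Agent.RB.LOC_helper4_F3
import Fermat.Agent.RB.LOC_helper4_F4

set_option autoImplicit false

namespace Fermat.Agent.RB.LOC

open MvPowerSeries

variable {O : Type*} [CommRing O] {Sig : Type*} (D : Data O Sig) (g : ℕ)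

section Leaves

variable [IsDomain O] [IsDiscreteValuationRing O] [Fintype Sig] [DecidableEq Sig]

omit [IsDomain O] [IsDiscreteValuationRing O] [DecidableEq Sig] in
theorem P₀'_isPrime (hJ : (J₀ D g).IsPrime) : (P₀' D g).IsPrime := by
  haveI : IsDomain (AS O Sig g ⧸ J₀ D g) := Ideal.Quotient.isDomain _
  haveI : IsDomain (MvPowerSeries Sig (AS O Sig g ⧸ J₀ D g)) := NoZeroDivisors.to_isDomain _
  exact RingHom.ker_isPrime (φbar D g)

end Leaves

end Fermat.Agent.RB.LOC
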