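/-
PROJECT RB — ARCHITECT (helper9) — INTERFACE FILE 2/4: the abstract input of the CORE
(patching + Ihara avoidance), pure commutative algebra.

Fixed data: a complete DVR `O` (finite residue field), helper4's local data `D : LOC.Data O Sig`
(`Sig = Σ`), `g` (number of global variables), `r = 3|Σ| + g` (number of Taylor–Wiles primes),
`d` (rank), the level-zero module `M0` (finite free of rank `d` over `O`) and a submodule
`C0 ⊆ M0` (in the application `C0 = 𝔠 • M0`, `𝔠` the ideal of the Hecke algebra generated by the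
entries of `ρ(σ) - 1`, `σ` in an inertia group at a prime of `Σ`).

`PS = O⟦s_v, w_v, x_j⟧ ⊇ I₁, I₂` is helper4's ring carrying the two local problems,
`S∞ = O⟦Z_1, …, Z_r⟧`; the diamond operator at the `q`-th Taylor–Wiles prime acts (after the
twist by its inverse square root) as `(1 + Z_q) / (1 - Z_q)`, so the inertial trace minus `2` is
`4 Z_q² / (1 - Z_q²)`, i.e. `Z_q²` is a power series without constant term in it.

`TWLevel n` is what the Taylor–Wiles construction provides at level `n`;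
`CoreStatement`: if all levels are inhabited, `M0 ⧸ C0` is not `λ`-power torsion.
Owner of the proof of `CoreStatement`: helper9 ([PATCH] + helper4's [LOC]/[CA]).
-/
import Mathlib
import Fermat.Agent.RB.LOC_helper4_Skeleton

set_option autoImplicit false

namespace Fermat.Agent.RB

open MvPowerSeries IsLocalRing

/-- `S∞ = O⟦Z_1, …, Z_r⟧` -/
abbrev SInf (O : Type) [CommRing O] (r : ℕ) := MvPowerSeries (Fin r) O

/-- **The Taylor–Wiles data at level `n`** for the pair of problems (1) (unipotent at `Σ`) and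
(2) (`χ`-type at `Σ`).  All modules are modules over `S∞` (through a finite quotient). -/
structure TWLevel {O : Type} [CommRing O] [IsLocalRing O] {Sig : Type} (D : LOC.Data O Sig)
    (g r d : ℕ) (M0 : Type) [AddCommGroup M0] [Module O M0] (C0 : Submodule O M0) (n : ℕ) :
    Type 1 where
  /-- the module of problem (1) -/
  X₁ : Type
  /-- the module of problem (2) -/
  X₂ : Type
  /-- their common reduction modulo `λ` -/
  Xbar : Type
  [instAddCommGroup₁ : AddCommGroup X₁]
  [instModule₁ : Module (SInf O r) X₁]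
  [instAddCommGroup₂ : AddCommGroup X₂]
  [instModule₂ : Module (SInf O r) X₂]
  [instAddCommGroupBar : AddCommGroup Xbar]
  [instModuleBar : Module (SInf O r) Xbar]
  /-- the actions of the ring of the local problems (through `R_{Q_n} → T_{Q_n}`) -/
  act₁ : LOC.PS O Sig g →+* Module.End (SInf O r) X₁
  act₂ : LOC.PS O Sig g →+* Module.End (SInf O r) X₂
  actbar : LOC.PS O Sig g →+* Module.End (SInf O r) Xbar
  act₁_C : ∀ (c : O) (x : X₁), act₁ (C c) x = (C c : SInf O r) • x
  act₂_C : ∀ (c : O) (x : X₂), act₂ (C c) x = (C c : SInf O r) • x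
  /-- the local relations hold -/
  kill₁ : ∀ f ∈ LOC.I₁ D g, act₁ f = 0
  kill₂ : ∀ f ∈ LOC.I₂ D g, act₂ f = 0
  /-- freeness of rank `d` over `S∞ ⧸ J`, `J ⊆ 𝔫 ^ n` -/
  J : Ideal (SInf O r)
  J_le : J ≤ maximalIdeal (SInf O r) ^ n
  b₁ : Fin d → X₁
  b₁_span : ∀ x : X₁, ∃ c : Fin d → SInf O r, x = ∑ i, c i • b₁ i
  b₁_rel : ∀ c : Fin d → SInf O r, ∑ i, c i • b₁ i = 0 ↔ ∀ i, c i ∈ J
  b₂ : Fin d → X₂
  b₂_span : ∀ x : X₂, ∃ c : Fin d → SInf O r, x = ∑ i, c i • b₂ i
  b₂_rel : ∀ c : Fin d → SInf O r, ∑ i, c i • b₂ i = 0 ↔ ∀ i, c i ∈ J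
  /-- the reductions modulo `λ` -/
  red₁ : X₁ →ₗ[SInf O r] Xbar
  red₂ : X₂ →ₗ[SInf O r] Xbar
  red₁_surjective : Function.Surjective red₁
  red₂_surjective : Function.Surjective red₂
  ker_red₁ : ∀ x : X₁, red₁ x = 0 ↔ ∃ y : X₁, x = (C D.lam : SInf O r) • y
  ker_red₂ : ∀ x : X₂, red₂ x = 0 ↔ ∃ y : X₂, x = (C D.lam : SInf O r) • y
  red₁_act : ∀ (f : LOC.PS O Sig g) (x : X₁), red₁ (act₁ f x) = actbar f (red₁ x)
  red₂_act : ∀ (f : LOC.PS O Sig g) (x : X₂), red₂ (act₂ f x) = actbar f (red₂ x)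
  /-- **(KEY-H) in the unordered form**: `Z_q²` comes from the ring of the local problems -/
  hF₁ : ∀ q : Fin r, ∃ G ∈ maximalIdeal (LOC.PS O Sig g), ∀ x : X₁,
    act₁ G x = ((X q : SInf O r) ^ 2) • x
  hF₂ : ∀ q : Fin r, ∃ G ∈ maximalIdeal (LOC.PS O Sig g), ∀ x : X₂,
    act₂ G x = ((X q : SInf O r) ^ 2) • x
  /-- control for problem (1): `X₁ ⧸ 𝔞 X₁ = M0 ⧸ λ ^ n` -/
  ctl : X₁ →+ M0 ⧸ (maximalIdeal O ^ n • ⊤ : Submodule O M0)
  ctl_smul : ∀ (s : SInf O r) (x : X₁), ctl (s • x) = constantCoeff s • ctl x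
  ctl_surjective : Function.Surjective ctl
  /-- the kernel of the control map is `(λ ^ n, Z_1, …, Z_r) X₁` -/
  ker_ctl : ∀ x : X₁, ctl x = 0 → ∃ (y : X₁) (z : Fin r → X₁),
    x = (C (D.lam ^ n) : SInf O r) • y + ∑ q, (X q : SInf O r) • z q
  /-- the image of `(s_v) X₁` at level zero contains `C0` (v1.1: only this inclusion is used) -/
  ctl_C : ∀ y ∈ Submodule.map (Submodule.mkQ (maximalIdeal O ^ n • ⊤ : Submodule O M0)) C0,
      y ∈ Submodule.span O {z | ∃ (v : Sig) (i : Fin 3) (x : X₁), z = ctl (act₁ (LOC.sX O g v i) x)}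

attribute [instance] TWLevel.instAddCommGroup₁ TWLevel.instModule₁ TWLevel.instAddCommGroup₂
  TWLevel.instModule₂ TWLevel.instAddCommGroupBar TWLevel.instModuleBar

/-- **[CORE]** (owner helper9): patching + Ihara avoidance.  If the Taylor–Wiles data exist at
every level, then `M0 ⧸ C0` is not `λ`-power torsion. -/
def CoreStatement : Prop :=
  ∀ {O : Type} [CommRing O] [IsDomain O] [IsDiscreteValuationRing O]
    [IsAdicComplete (maximalIdeal O) O] [Finite (ResidueField O)]
    {Sig : Type} [Fintype Sig] [DecidableEq Sig] (D : LOC.Data O Sig) (_ : D.Good)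
    (g r d : ℕ) (_ : r = 3 * Fintype.card Sig + g) (_ : 0 < d)
    (M0 : Type) [AddCommGroup M0] [Module O M0] [Module.Free O M0] [Module.Finite O M0]
    (_ : Module.finrank O M0 = d) (C0 : Submodule O M0)
    (_ : ∀ n : ℕ, Nonempty (TWLevel D g r d M0 C0 n)),
    ¬ ∀ m : M0, ∃ k : ℕ, D.lam ^ k • m ∈ C0

end Fermat.Agent.RB
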