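/-
PROJECT RB — [SINF] (helper4), file 1: **adic completeness for comparable ideals.**

* `isAdicComplete_of_le_of_pow_le` : `J ≤ I`, `I ^ N ≤ J`, `M` `J`-adically complete ⇒ `M` is
  `I`-adically complete;
* `isAdicComplete_of_pow_eq_bot`   : a nilpotent ideal defines a complete topology.
-/
import Mathlib

set_option autoImplicit false
set_option linter.style.haveILetI false

namespace Fermat.Agent.RB.SINF

section

variable {R : Type*} [CommRing R] {M : Type*} [AddCommGroup M] [Module R M] {I J : Ideal R}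

/-- **adic completeness only depends on the topology.** -/
theorem isAdicComplete_of_le_of_pow_le (hJI : J ≤ I) {N : ℕ} (hN : I ^ N ≤ J)
    [IsAdicComplete J M] : IsAdicComplete I M := by
  have hN' : I ^ (N + 1) ≤ J := (Ideal.pow_le_pow_right (Nat.le_succ N)).trans hN
  have hpow : ∀ k : ℕ, I ^ ((N + 1) * k) ≤ J ^ k := by
    intro k
    rw [pow_mul]
    exact Ideal.pow_right_mono hN' k
  have hle : ∀ k : ℕ, k ≤ (N + 1) * k := fun k => Nat.le_mul_of_pos_left k (Nat.succ_pos N)
  have hmonoJ : ∀ k : ℕ, (I ^ ((N + 1) * k) • ⊤ : Submodule R M) ≤ J ^ k • ⊤ := fun k =>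
    Submodule.smul_mono_left (hpow k)
  have hmonoI : ∀ k : ℕ, (J ^ k • ⊤ : Submodule R M) ≤ I ^ k • ⊤ := fun k =>
    Submodule.smul_mono_left (Ideal.pow_right_mono hJI k)
  refine { toIsHausdorff := ?_, toIsPrecomplete := ?_ }
  · rw [isHausdorff_iff]
    intro x hx
    exact IsHausdorff.haus (inferInstance : IsHausdorff J M) x
      (fun n => (hx ((N + 1) * n)).mono (hmonoJ n))
  · rw [isPrecomplete_iff]
    intro f hf
    obtain ⟨L, hL⟩ := IsPrecomplete.prec (inferInstance : IsPrecomplete J M)
      (f := fun k => f ((N + 1) * k))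
      (fun {k l} hkl => (hf (Nat.mul_le_mul_left (N + 1) hkl)).mono (hmonoJ k))
    refine ⟨L, fun n => ?_⟩
    exact (hf (hle n)).trans ((hL n).mono (hmonoI n))

/-- a nilpotent ideal defines a complete topology. -/
theorem isAdicComplete_of_pow_eq_bot {N : ℕ} (hN : I ^ N = ⊥) : IsAdicComplete I M := by
  haveI : IsAdicComplete (⊥ : Ideal R) M := by
    refine { toIsHausdorff := inferInstance, toIsPrecomplete := ?_ }
    rw [isPrecomplete_iff]
    intro f hf
    refine ⟨f 1, fun n => ?_⟩
    rcases Nat.eq_zero_or_pos n with rfl | hn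
    · rw [pow_zero, Ideal.one_eq_top, Submodule.top_smul]
      exact SModEq.top
    · have h1 := hf (m := 1) (n := n) hn
      rw [pow_one, Submodule.bot_smul, SModEq.bot] at h1
      rw [h1]
  exact isAdicComplete_of_le_of_pow_le bot_le (le_of_eq hN)

end

end Fermat.Agent.RB.SINF
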