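/-
PROJECT RB — [SINF] (helper4), file 2: **the group algebra of the diamond operators.**

* `Dia N r = (ℤ/N)^r` (multiplicative), `Lam O N r = O[Dia N r]`, `dgen q ∈ Lam O N r` the
  `q`-th generator;
* `powHom`  : `ℤ/N →* M`, `1 ↦ a`, for `a ^ N = 1`;
* `diaHom`  : `Dia N r →* E` for commuting `g q ∈ E`, `g q ^ N = 1`, with the explicit formula
  `diaHom_apply` (the ordered product over `List.finRange r`);
* `actAlg`  : the `O`-algebra map `Lam O N r →ₐ[O] E`, `dgen q ↦ g q`;
* `actAlg_natural`, `actAlg_of_trivial`, `augLam`.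
-/
import Mathlib

set_option autoImplicit false
set_option linter.unusedSectionVars false
set_option linter.style.haveILetI false

namespace Fermat.Agent.RB.SINF

/-- the group `(ℤ/N)^r` of the diamond operators. -/
abbrev Dia (N r : ℕ) := Fin r → Multiplicative (ZMod N)

/-- its group algebra. -/
abbrev Lam (O : Type*) [CommRing O] (N r : ℕ) := MonoidAlgebra O (Dia N r)

section PowHom

variable {M : Type*} [Monoid M] (N : ℕ) [NeZero N]

/-- the homomorphism `ℤ/N →* M`, `1 ↦ a`, for `a ^ N = 1`. -/
def powHom (a : M) (ha : a ^ N = 1) : Multiplicative (ZMod N) →* M where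
  toFun x := a ^ (Multiplicative.toAdd x).val
  map_one' := by rw [toAdd_one, ZMod.val_zero, pow_zero]
  map_mul' x y := by
    rw [toAdd_mul, ZMod.val_add, ← pow_add, ← pow_eq_pow_mod _ ha]

theorem powHom_apply (a : M) (ha : a ^ N = 1) (x : Multiplicative (ZMod N)) :
    powHom N a ha x = a ^ (Multiplicative.toAdd x).val := rfl

theorem powHom_ofAdd_one (a : M) (ha : a ^ N = 1) :
    powHom N a ha (Multiplicative.ofAdd 1) = a := by
  rw [powHom_apply, toAdd_ofAdd, ZMod.val_one_eq_one_mod, ← pow_eq_pow_mod _ ha, pow_one]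

theorem powHom_ofAdd_natCast (a : M) (ha : a ^ N = 1) (e : ℕ) :
    powHom N a ha (Multiplicative.ofAdd (e : ZMod N)) = a ^ e := by
  rw [powHom_apply, toAdd_ofAdd, ZMod.val_natCast, ← pow_eq_pow_mod _ ha]

end PowHom

section DiaHom

variable {E : Type*} [Monoid E] (N : ℕ) [NeZero N] {r : ℕ} (g : Fin r → E)
  (g_pow : ∀ q, g q ^ N = 1) (g_comm : ∀ q q', Commute (g q) (g q'))

include g_comm in
theorem powHom_pairwise_commute :
    Pairwise fun i j : Fin r => ∀ x y : Multiplicative (ZMod N),
      Commute (powHom N (g i) (g_pow i) x) (powHom N (g j) (g_pow j) y) := by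
  intro q q' _ x y
  rw [powHom_apply, powHom_apply]
  exact ((g_comm q q').pow_left _).pow_right _

/-- the homomorphism `(ℤ/N)^r →* E` attached to commuting elements of exponent `N`. -/
def diaHom : Dia N r →* E :=
  MonoidHom.noncommPiCoprod (fun q => powHom N (g q) (g_pow q))
    (powHom_pairwise_commute N g g_pow g_comm)

theorem diaHom_apply (x : Dia N r) :
    diaHom N g g_pow g_comm x =
      ((List.finRange r).map fun q => g q ^ (Multiplicative.toAdd (x q)).val).prod := by
  rw [diaHom]
  refine (MonoidHom.noncommPiCoprod_apply _ x).trans ?_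
  refine (Finset.noncommProd_congr (List.toFinset_finRange r).symm (fun q _ => rfl) _).trans ?_
  exact Finset.noncommProd_toFinset _ _ _ (List.nodup_finRange r)

theorem diaHom_mulSingle (q : Fin r) (y : Multiplicative (ZMod N)) :
    diaHom N g g_pow g_comm (Pi.mulSingle q y) = powHom N (g q) (g_pow q) y := by
  rw [diaHom]
  exact MonoidHom.noncommPiCoprod_mulSingle (fun q => powHom N (g q) (g_pow q)) q y

theorem diaHom_gen (q : Fin r) :
    diaHom N g g_pow g_comm (Pi.mulSingle q (Multiplicative.ofAdd 1)) = g q := by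
  rw [diaHom_mulSingle, powHom_ofAdd_one]

end DiaHom

section Act

variable (O : Type*) [CommRing O] {E : Type*} [Semiring E] [Algebra O E] (N : ℕ) [NeZero N]
  {r : ℕ} (g : Fin r → E) (g_pow : ∀ q, g q ^ N = 1) (g_comm : ∀ q q', Commute (g q) (g q'))

/-- the `q`-th generator of the group algebra. -/
noncomputable def dgen (q : Fin r) : Lam O N r :=
  MonoidAlgebra.of O (Dia N r) (Pi.mulSingle q (Multiplicative.ofAdd 1))

theorem dgen_pow (q : Fin r) : dgen O N q ^ N = 1 := by
  rw [dgen, ← map_pow, ← Pi.mulSingle_pow, ← ofAdd_nsmul, nsmul_one, ZMod.natCast_self, ofAdd_zero,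
    Pi.mulSingle_one, map_one]

/-- **the action of the group algebra** attached to commuting elements of exponent `N`. -/
noncomputable def actAlg : Lam O N r →ₐ[O] E :=
  MonoidAlgebra.lift O E (Dia N r) (diaHom N g g_pow g_comm)

theorem actAlg_of (x : Dia N r) :
    actAlg O N g g_pow g_comm (MonoidAlgebra.of O (Dia N r) x) = diaHom N g g_pow g_comm x :=
  MonoidAlgebra.lift_of _ _

theorem actAlg_dgen (q : Fin r) : actAlg O N g g_pow g_comm (dgen O N q) = g q := by
  rw [dgen, actAlg_of, diaHom_gen]

/-- `of` is the `diaHom` of the generators. -/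
theorem of_eq_diaHom_dgen :
    (MonoidAlgebra.of O (Dia N r) : Dia N r →* Lam O N r) =
      diaHom N (dgen O N) (dgen_pow O N) (fun _ _ => Commute.all _ _) := by
  classical
  apply MonoidHom.pi_ext
  intro q y
  rw [diaHom_mulSingle, powHom_apply, dgen, ← map_pow, ← Pi.mulSingle_pow, ← ofAdd_nsmul, nsmul_one,
    ZMod.natCast_zmod_val, ofAdd_toAdd]

theorem of_eq_list_prod (x : Dia N r) :
    MonoidAlgebra.of O (Dia N r) x =
      ((List.finRange r).map fun q => dgen O N q ^ (Multiplicative.toAdd (x q)).val).prod := by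
  rw [of_eq_diaHom_dgen, diaHom_apply]

/-- the generators generate the group algebra. -/
theorem adjoin_dgen : Algebra.adjoin O (Set.range (dgen O N (r := r))) = ⊤ := by
  rw [eq_top_iff]
  have key : ∀ a : Lam O N r, a ∈ Algebra.adjoin O (Set.range (dgen O N (r := r))) := by
    intro a
    induction a using MonoidAlgebra.induction_on with
    | of x =>
      rw [of_eq_list_prod]
      apply Subalgebra.list_prod_mem
      intro y hy
      obtain ⟨q, -, rfl⟩ := List.mem_map.1 hy
      exact Subalgebra.pow_mem _ (Algebra.subset_adjoin (Set.mem_range_self q)) _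
    | add x y hx hy => exact Subalgebra.add_mem _ hx hy
    | smul c x hx => exact Subalgebra.smul_mem _ hx c
  exact fun a _ => key a

/-- two algebra maps out of the group algebra agreeing on the generators are equal. -/
theorem algHom_ext_dgen {φ ψ : Lam O N r →ₐ[O] E} (h : ∀ q, φ (dgen O N q) = ψ (dgen O N q)) :
    φ = ψ := by
  apply AlgHom.ext_of_adjoin_eq_top (adjoin_dgen O N)
  rintro _ ⟨q, rfl⟩
  exact h q

/-- the augmentation. -/
noncomputable def augLam (r : ℕ) : Lam O N r →ₐ[O] O :=
  actAlg O N (fun _ : Fin r => (1 : O)) (fun _ => one_pow _) (fun _ _ => Commute.all _ _)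

theorem augLam_dgen (q : Fin r) : augLam O N r (dgen O N q) = 1 := actAlg_dgen _ _ _ _ _ q

/-- the trivial action factors through the augmentation. -/
theorem actAlg_of_trivial (h1 : ∀ q, g q = 1) (a : Lam O N r) :
    actAlg O N g g_pow g_comm a = algebraMap O E (augLam O N r a) := by
  have key : actAlg O N g g_pow g_comm = (Algebra.ofId O E).comp (augLam O N r) := by
    apply algHom_ext_dgen
    intro q
    rw [actAlg_dgen, AlgHom.comp_apply, augLam_dgen, map_one, h1]
  rw [key]
  rfl

end Act

section Natural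

variable (O : Type*) [CommRing O] (N : ℕ) [NeZero N] {r : ℕ}
  {H : Type*} [AddCommGroup H] [Module O H] (g : Fin r → Module.End O H)
  (g_pow : ∀ q, g q ^ N = 1) (g_comm : ∀ q q', Commute (g q) (g q'))
  {H' : Type*} [AddCommGroup H'] [Module O H'] (g' : Fin r → Module.End O H')
  (g'_pow : ∀ q, g' q ^ N = 1) (g'_comm : ∀ q q', Commute (g' q) (g' q'))

/-- **naturality of the action**: an `O`-linear map intertwining the generators is linear over
the group algebra. -/
theorem actAlg_natural (f : H →ₗ[O] H') (hf : ∀ q x, f (g q x) = g' q (f x)) (a : Lam O N r)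
    (x : H) :
    f (actAlg O N g g_pow g_comm a x) = actAlg O N g' g'_pow g'_comm a (f x) := by
  have ha : a ∈ Algebra.adjoin O (Set.range (dgen O N (r := r))) := by
    rw [adjoin_dgen]; trivial
  induction ha using Algebra.adjoin_induction generalizing x with
  | mem a ha =>
    obtain ⟨q, rfl⟩ := ha
    rw [actAlg_dgen, actAlg_dgen]
    exact hf q x
  | algebraMap c =>
    rw [AlgHom.commutes, AlgHom.commutes, Module.algebraMap_end_apply,
      Module.algebraMap_end_apply, map_smul]
  | add a b _ _ iha ihb =>
    rw [map_add, map_add, LinearMap.add_apply, LinearMap.add_apply, map_add, iha, ihb]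
  | mul a b _ _ iha ihb =>
    rw [map_mul, map_mul, Module.End.mul_apply, Module.End.mul_apply, iha, ihb]

end Natural

end Fermat.Agent.RB.SINF
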