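/-
PROJECT RB, toolkit [TK]: evaluation of power series in finitely many variables at elements of an
ideal `I` of an `I`-adically complete algebra:
`evalAdic I a ha : MvPowerSeries τ R →ₐ[R] A`, `X t ↦ a t`, continuous for the `(X)`-adic and
`I`-adic topologies, and unique with these properties.  helper4.
-/
import Mathlib

set_option autoImplicit false

namespace Fermat.Agent.RB.TK

open MvPowerSeries

section

variable {τ : Type*} [Finite τ] {R : Type*} [CommRing R] {A : Type*} [CommRing A] [Algebra R A]
  (I : Ideal A) (a : τ → A) (ha : ∀ t, a t ∈ I)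

omit [Finite τ] in
include ha in
theorem idealOfVars_pow_le_comap (n : ℕ) :
    MvPolynomial.idealOfVars τ R ^ n ≤ (I ^ n).comap (MvPolynomial.aeval (R := R) a) := by
  refine le_trans (Ideal.pow_right_mono ?_ n) (Ideal.le_comap_pow _ n)
  rw [MvPolynomial.idealOfVars, Ideal.span_le]
  rintro _ ⟨t, rfl⟩
  rw [SetLike.mem_coe, Ideal.mem_comap, MvPolynomial.aeval_X]
  exact ha t

/-- the value of the truncation in total degree `< n`, modulo `I ^ n` -/
noncomputable def evalLevel (n : ℕ) : MvPowerSeries τ R →ₐ[R] A ⧸ I ^ n :=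
  (Ideal.quotientMapₐ (I ^ n) (MvPolynomial.aeval (R := R) a)
      (idealOfVars_pow_le_comap I a ha n)).comp
    ((truncTotalAlgHom τ R n).restrictScalars R)

theorem evalLevel_apply (n : ℕ) (f : MvPowerSeries τ R) :
    evalLevel I a ha n f =
      Ideal.Quotient.mk (I ^ n) (MvPolynomial.aeval a (truncTotal n f)) := rfl

theorem evalLevel_compat {m n : ℕ} (hle : m ≤ n) :
    (Ideal.Quotient.factorₐ R (Ideal.pow_le_pow_right hle)).comp (evalLevel I a ha n) =
      evalLevel I a ha m := by
  ext f
  rw [AlgHom.comp_apply, evalLevel_apply, evalLevel_apply]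
  change Ideal.Quotient.mk (I ^ m) _ = _
  rw [Ideal.Quotient.mk_eq_mk_iff_sub_mem, ← map_sub]
  exact idealOfVars_pow_le_comap I a ha m
    (truncTotal_sub_truncTotal_mem_pow_idealOfVars hle le_rfl f)

variable [IsAdicComplete I A]

/-- **evaluation of power series** at elements of `I`, `A` being `I`-adically complete -/
noncomputable def evalAdic : MvPowerSeries τ R →ₐ[R] A :=
  IsAdicComplete.liftAlgHom I (evalLevel I a ha) (fun hle => evalLevel_compat I a ha hle)

theorem mk_evalAdic (n : ℕ) (f : MvPowerSeries τ R) :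
    Ideal.Quotient.mk (I ^ n) (evalAdic I a ha f) =
      Ideal.Quotient.mk (I ^ n) (MvPolynomial.aeval a (truncTotal n f)) := by
  rw [evalAdic, IsAdicComplete.mk_liftAlgHom, evalLevel_apply]

/-- `evalAdic f` is the limit of the values of the truncations of `f` -/
theorem evalAdic_sub_mem (n : ℕ) (f : MvPowerSeries τ R) :
    evalAdic I a ha f - MvPolynomial.aeval a (truncTotal n f) ∈ I ^ n := by
  rw [← Ideal.Quotient.mk_eq_mk_iff_sub_mem]
  exact mk_evalAdic I a ha n f

theorem eq_of_forall_sub_mem {x y : A} (h : ∀ n : ℕ, x - y ∈ I ^ n) : x = y := by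
  rw [IsHausdorff.eq_iff_smodEq (I := I)]
  intro n
  rw [SModEq.sub_mem, smul_eq_mul, Ideal.mul_top]
  exact h n

/-- on polynomials `evalAdic` is `aeval` -/
theorem evalAdic_coe (p : MvPolynomial τ R) :
    evalAdic I a ha (p : MvPowerSeries τ R) = MvPolynomial.aeval a p := by
  apply eq_of_forall_sub_mem I
  intro n
  have h1 := evalAdic_sub_mem I a ha n (p : MvPowerSeries τ R)
  have h2 : MvPolynomial.aeval a (truncTotal n (p : MvPowerSeries τ R)) -
      MvPolynomial.aeval a p ∈ I ^ n := by
    rw [← map_sub]
    apply idealOfVars_pow_le_comap I a ha n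
    rw [MvPolynomial.mem_pow_idealOfVars_iff']
    intro x hx
    rw [MvPolynomial.coeff_sub, coeff_truncTotal _ hx, MvPolynomial.coeff_coe, sub_self]
  have := Ideal.add_mem _ h1 h2
  simpa using this

theorem evalAdic_X (t : τ) : evalAdic I a ha (X t : MvPowerSeries τ R) = a t := by
  rw [← MvPolynomial.coe_X, evalAdic_coe, MvPolynomial.aeval_X]

theorem evalAdic_C (r : R) : evalAdic I a ha (C r : MvPowerSeries τ R) = algebraMap R A r := by
  rw [← MvPolynomial.coe_C, evalAdic_coe, MvPolynomial.aeval_C]

/-- continuity: if all coefficients of `f` of total degree `< n` vanish, then the value of `f`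
lies in `I ^ n` -/
theorem evalAdic_mem_pow (n : ℕ) (f : MvPowerSeries τ R)
    (hf : ∀ d : τ →₀ ℕ, d.degree < n → coeff d f = 0) : evalAdic I a ha f ∈ I ^ n := by
  have h1 := evalAdic_sub_mem I a ha n f
  have h2 : truncTotal n f = 0 := by
    ext d
    by_cases hd : d.degree < n
    · rw [coeff_truncTotal _ hd, hf d hd, MvPolynomial.coeff_zero]
    · rw [coeff_truncTotal_eq_zero _ (not_lt.mp hd), MvPolynomial.coeff_zero]
  rw [h2, map_zero, sub_zero] at h1
  exact h1

/-- uniqueness: a ring homomorphism which agrees with `evalAdic` on polynomials and is continuous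
is `evalAdic` -/
theorem eq_evalAdic (ψ : MvPowerSeries τ R →ₐ[R] A) (hX : ∀ t, ψ (X t) = a t)
    (hcont : ∀ (n : ℕ) (f : MvPowerSeries τ R),
      (∀ d : τ →₀ ℕ, d.degree < n → coeff d f = 0) → ψ f ∈ I ^ n) :
    ψ = evalAdic I a ha := by
  ext f
  apply eq_of_forall_sub_mem I
  intro n
  have hpoly : ∀ p : MvPolynomial τ R, ψ (p : MvPowerSeries τ R) = MvPolynomial.aeval a p := by
    intro p
    have : (ψ.comp (MvPolynomial.coeToMvPowerSeries.algHom R)) = MvPolynomial.aeval a := by
      apply MvPolynomial.algHom_ext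
      intro t
      simp [hX]
    exact congrArg (fun φ => φ p) this
  have h1 : ψ f - ψ ((truncTotal n f : MvPolynomial τ R) : MvPowerSeries τ R) ∈ I ^ n := by
    rw [← map_sub]
    apply hcont
    intro d hd
    rw [map_sub, MvPolynomial.coeff_coe, coeff_truncTotal _ hd, sub_self]
  rw [hpoly] at h1
  have h2 := evalAdic_sub_mem I a ha n f
  have := Ideal.sub_mem _ h1 h2
  simpa using this

/-- naturality in the target -/
theorem map_evalAdic {B : Type*} [CommRing B] [Algebra R B] (J : Ideal B) [IsAdicComplete J B]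
    (φ : A →ₐ[R] B) (hφ : I.map φ ≤ J) (f : MvPowerSeries τ R) :
    φ (evalAdic I a ha f) =
      evalAdic J (fun t => φ (a t)) (fun t => hφ (Ideal.mem_map_of_mem _ (ha t))) f := by
  have key : φ.comp (evalAdic I a ha) =
      evalAdic J (fun t => φ (a t)) (fun t => hφ (Ideal.mem_map_of_mem _ (ha t))) := by
    apply eq_evalAdic
    · intro t
      rw [AlgHom.comp_apply, evalAdic_X]
    · intro n f hf
      rw [AlgHom.comp_apply]
      have h1 := evalAdic_mem_pow I a ha n f hf
      have h2 : φ (evalAdic I a ha f) ∈ (I ^ n).map φ := Ideal.mem_map_of_mem _ h1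
      rw [Ideal.map_pow] at h2
      exact Ideal.pow_right_mono hφ n h2
  exact congrArg (fun ψ => ψ f) key

/-- compatibility with renaming of the variables -/
theorem evalAdic_rename {σ : Type*} [Finite σ] (e : σ → τ) [Filter.TendstoCofinite e]
    (f : MvPowerSeries σ R) :
    evalAdic I a ha (rename e f) = evalAdic I (fun s => a (e s)) (fun s => ha (e s)) f := by
  have key : (evalAdic I a ha).comp (rename (R := R) e) =
      evalAdic I (fun s => a (e s)) (fun s => ha (e s)) := by
    apply eq_evalAdic
    · intro s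
      rw [AlgHom.comp_apply, rename_X, evalAdic_X]
    · intro n f hf
      rw [AlgHom.comp_apply]
      apply evalAdic_mem_pow
      intro d hd
      rw [coeff_rename]
      apply Finset.sum_eq_zero
      intro y hy
      rw [Set.Finite.mem_toFinset, Set.mem_preimage, Set.mem_singleton_iff] at hy
      apply hf
      rw [← Finsupp.degree_mapDomain e y, hy]
      exact hd
  exact congrArg (fun ψ => ψ f) key

end

end Fermat.Agent.RB.TK
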