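/-
PROJECT RB — [SINF] (helper4), file 3: **the evaluation `ev₀ : S∞ = O⟦Z_1, …, Z_r⟧ → Λ`.**

`Λ = Lam O (p ^ n) r = O[(ℤ/p^n)^r]`, `δ_q = dgen q`, `p` odd, `p ∈ 𝔪_O`, `O` complete noetherian
local.

* `idealI` = `(𝔪_O, δ_q − 1)`, `isAdicComplete_idealI` : `Λ` is `idealI`-adically complete;
* `zLam q = (δ_q − 1)(δ_q + 1)⁻¹ ∈ idealI` (Cayley transform), `zLam_mul`, `one_add_zLam`;
* `ev₀ : S∞ →ₐ[O] Λ`, `Z_q ↦ zLam q` (helper4's `TK.evalAdic`);
* `ev₀_surjective`; `augLam_ev₀ : augLam (ev₀ s) = constantCoeff s`.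
-/
import Mathlib
import Fermat.Prelude.Thm_IsAdicComplete_of_module_finite
import Fermat.Agent.RB.TK_helper4_EvalAdic
import Fermat.Agent.RB.SINF_helper4_Complete
import Fermat.Agent.RB.SINF_helper4_Group

set_option autoImplicit false
set_option linter.unusedSectionVars false
set_option linter.style.haveILetI false

namespace Fermat.Agent.RB.SINF

open MvPowerSeries IsLocalRing

section Two

variable {O : Type*} [CommRing O] [IsLocalRing O]

theorem isUnit_two {p : ℕ} (hp : p.Prime) (hp2 : p ≠ 2) (hpO : (p : O) ∈ maximalIdeal O) :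
    IsUnit (2 : O) := by
  by_contra h
  have h2 : (2 : O) ∈ maximalIdeal O := (mem_maximalIdeal _).2 h
  obtain ⟨k, hk⟩ := hp.odd_of_ne_two hp2
  have h1 : (1 : O) ∈ maximalIdeal O := by
    have h3 : (1 : O) = (p : O) - 2 * k := by rw [hk]; push_cast; ring
    rw [h3]
    exact Ideal.sub_mem _ hpO (Ideal.mul_mem_right _ _ h2)
  exact (Ideal.ne_top_iff_one _).1 (maximalIdeal.isMaximal O).ne_top h1

end Two

section Cayley

variable {R : Type*} [CommRing R] (c : R) (N : ℕ)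

/-- the inverse of `δ + 1` (`c = 1/2`, `δ ^ N = 1`, `N` odd). -/
def invAddOne (δ : R) : R := c * ∑ j ∈ Finset.range N, (-δ) ^ j

variable {c N}

theorem add_one_mul_invAddOne (hc : 2 * c = 1) (hN : Odd N) {δ : R} (hδ : δ ^ N = 1) :
    (δ + 1) * invAddOne c N δ = 1 := by
  have h1 := mul_neg_geom_sum (-δ) N
  rw [neg_pow, hN.neg_one_pow, hδ] at h1
  rw [invAddOne]
  calc (δ + 1) * (c * ∑ j ∈ Finset.range N, (-δ) ^ j)
      = c * ((1 - -δ) * ∑ j ∈ Finset.range N, (-δ) ^ j) := by ring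
    _ = 2 * c := by rw [h1]; ring
    _ = 1 := hc

/-- the Cayley transform `(δ − 1)(δ + 1)⁻¹`. -/
def cayley (c : R) (N : ℕ) (δ : R) : R := (δ - 1) * invAddOne c N δ

theorem cayley_mul (hc : 2 * c = 1) (hN : Odd N) {δ : R} (hδ : δ ^ N = 1) :
    cayley c N δ * (δ + 1) = δ - 1 := by
  rw [cayley, mul_assoc, mul_comm (invAddOne c N δ), add_one_mul_invAddOne hc hN hδ, mul_one]

theorem one_add_cayley (hc : 2 * c = 1) (hN : Odd N) {δ : R} (hδ : δ ^ N = 1) :
    1 + cayley c N δ = δ * (1 - cayley c N δ) := by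
  have h1 := cayley_mul hc hN hδ
  have h2 := add_one_mul_invAddOne hc hN hδ
  have h3 : (1 + cayley c N δ) * (δ + 1) = δ * (1 - cayley c N δ) * (δ + 1) := by
    rw [add_mul, one_mul, h1, mul_assoc, sub_mul, one_mul, h1]
    ring
  calc 1 + cayley c N δ = (1 + cayley c N δ) * ((δ + 1) * invAddOne c N δ) := by rw [h2, mul_one]
    _ = δ * (1 - cayley c N δ) * ((δ + 1) * invAddOne c N δ) := by
        rw [← mul_assoc, h3, mul_assoc]
    _ = δ * (1 - cayley c N δ) := by rw [h2, mul_one]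

end Cayley

section Ideal

variable (O : Type) [CommRing O] [IsLocalRing O] (N r : ℕ) [NeZero N]

/-- the ideal `(𝔪_O, δ_q − 1)` of the group algebra. -/
noncomputable def idealI : Ideal (Lam O N r) :=
  (maximalIdeal O).map (algebraMap O (Lam O N r)) ⊔
    Ideal.span (Set.range fun q : Fin r => dgen O N q - 1)

theorem map_le_idealI : (maximalIdeal O).map (algebraMap O (Lam O N r)) ≤ idealI O N r :=
  le_sup_left

theorem dgen_sub_one_mem (q : Fin r) : dgen O N q - 1 ∈ idealI O N r :=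
  le_sup_right (α := Ideal (Lam O N r)) (Ideal.subset_span (Set.mem_range_self q))

theorem map_augLam_idealI_le :
    (idealI O N r).map (augLam O N r) ≤ maximalIdeal O := by
  rw [Ideal.map_le_iff_le_comap]
  refine sup_le ?_ ?_
  · rw [Ideal.map_le_iff_le_comap]
    intro c hc
    rw [Ideal.mem_comap, Ideal.mem_comap, AlgHom.commutes, Algebra.algebraMap_self_apply]
    exact hc
  · rw [Ideal.span_le]
    rintro _ ⟨q, rfl⟩
    rw [SetLike.mem_coe, Ideal.mem_comap, map_sub, map_one, augLam_dgen, sub_self]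
    exact Ideal.zero_mem _

end Ideal

section Complete

variable (O : Type) [CommRing O] [IsLocalRing O] [IsNoetherianRing O]
  [IsAdicComplete (maximalIdeal O) O]
  (p : ℕ) [hp : Fact p.Prime] (hp2 : p ≠ 2) (hpO : (p : O) ∈ maximalIdeal O) (r n : ℕ)

include hp2 hpO

theorem dgen_sub_one_pow_mem (q : Fin r) :
    (dgen O (p ^ n) q - 1) ^ p ^ n ∈ (maximalIdeal O).map (algebraMap O (Lam O (p ^ n) r)) := by
  obtain ⟨c, hc⟩ := exists_add_pow_prime_pow_eq hp.out (dgen O (p ^ n) q) (-1) n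
  have hodd : Odd (p ^ n) := (hp.out.odd_of_ne_two hp2).pow
  rw [sub_eq_add_neg, hc, dgen_pow, hodd.neg_one_pow]
  have h1 : ((p : ℕ) : Lam O (p ^ n) r) ∈ (maximalIdeal O).map (algebraMap O (Lam O (p ^ n) r)) := by
    rw [← map_natCast (algebraMap O (Lam O (p ^ n) r))]
    exact Ideal.mem_map_of_mem _ hpO
  have h2 : (1 : Lam O (p ^ n) r) + -1 + (p : Lam O (p ^ n) r) * dgen O (p ^ n) q * -1 * c =
      (p : Lam O (p ^ n) r) * (dgen O (p ^ n) q * -1 * c) := by ring
  rw [h2]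
  exact Ideal.mul_mem_right _ _ h1

/-- **the group algebra is complete for the `(𝔪_O, δ_q − 1)`-adic topology.** -/
theorem isAdicComplete_idealI : IsAdicComplete (idealI O (p ^ n) r) (Lam O (p ^ n) r) := by
  set Λ := Lam O (p ^ n) r
  set J₀ : Ideal Λ := (maximalIdeal O).map (algebraMap O Λ) with hJ₀
  have h1 : IsAdicComplete (maximalIdeal O) Λ := IsAdicComplete.of_module_finite (maximalIdeal O) Λ
  haveI h2 : IsAdicComplete J₀ Λ :=
    { toIsHausdorff := IsHausdorff.map_algebraMap_iff.2 h1.toIsHausdorff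
      toIsPrecomplete := IsPrecomplete.map_algebraMap_iff.2 h1.toIsPrecomplete }
  -- nilpotency modulo `J₀`
  have hfg : (idealI O (p ^ n) r).FG := by
    refine Submodule.FG.sup ?_ ?_
    · exact Ideal.FG.map ((isNoetherianRing_iff_ideal_fg O).1 inferInstance _) _
    · exact ⟨(Set.finite_range _).toFinset, by rw [Set.Finite.coe_toFinset]⟩
  have hnil : (idealI O (p ^ n) r).map (Ideal.Quotient.mk J₀) ≤ nilradical (Λ ⧸ J₀) := by
    rw [Ideal.map_le_iff_le_comap]
    refine sup_le ?_ ?_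
    · intro x hx
      rw [Ideal.mem_comap, Ideal.Quotient.eq_zero_iff_mem.2 hx]
      exact Ideal.zero_mem _
    · rw [Ideal.span_le]
      rintro _ ⟨q, rfl⟩
      rw [SetLike.mem_coe, Ideal.mem_comap, mem_nilradical]
      refine ⟨p ^ n, ?_⟩
      rw [← map_pow, Ideal.Quotient.eq_zero_iff_mem]
      exact dgen_sub_one_pow_mem O p hp2 hpO r n q
  obtain ⟨K, hK⟩ := ((hfg.map (Ideal.Quotient.mk J₀)).isNilpotent_iff_le_nilradical).2 hnil
  have hK' : idealI O (p ^ n) r ^ K ≤ J₀ := by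
    rw [← Ideal.map_pow, Ideal.zero_eq_bot, Ideal.map_eq_bot_iff_le_ker, Ideal.mk_ker] at hK
    exact hK
  exact isAdicComplete_of_le_of_pow_le (map_le_idealI O (p ^ n) r) hK'

end Complete

section Ev0

variable {O : Type} [CommRing O] [IsLocalRing O] [IsNoetherianRing O]
  [IsAdicComplete (maximalIdeal O) O]
  (p : ℕ) [hp : Fact p.Prime] (hp2 : p ≠ 2) (hpO : (p : O) ∈ maximalIdeal O) (r n : ℕ)

/-- `1/2 ∈ O`. -/
noncomputable def half : O := ((isUnit_two hp.out hp2 hpO).unit⁻¹ : Oˣ)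

theorem two_mul_half : 2 * half p hp2 hpO = 1 := IsUnit.mul_val_inv _

theorem two_mul_half_lam :
    2 * algebraMap O (Lam O (p ^ n) r) (half p hp2 hpO) = 1 := by
  rw [← map_ofNat (algebraMap O (Lam O (p ^ n) r)) 2, ← map_mul, two_mul_half, map_one]

include hp2 in
theorem odd_pow : Odd (p ^ n) := (hp.out.odd_of_ne_two hp2).pow

/-- `(δ_q − 1)(δ_q + 1)⁻¹`, the value of `Z_q`. -/
noncomputable def zLam (q : Fin r) : Lam O (p ^ n) r :=
  cayley (algebraMap O (Lam O (p ^ n) r) (half p hp2 hpO)) (p ^ n) (dgen O (p ^ n) q)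

theorem zLam_mul (q : Fin r) :
    zLam p hp2 hpO r n q * (dgen O (p ^ n) q + 1) = dgen O (p ^ n) q - 1 :=
  cayley_mul (two_mul_half_lam p hp2 hpO r n) (odd_pow p hp2 n) (dgen_pow O (p ^ n) q)

theorem one_add_zLam (q : Fin r) :
    1 + zLam p hp2 hpO r n q = dgen O (p ^ n) q * (1 - zLam p hp2 hpO r n q) :=
  one_add_cayley (two_mul_half_lam p hp2 hpO r n) (odd_pow p hp2 n) (dgen_pow O (p ^ n) q)

theorem zLam_mem (q : Fin r) : zLam p hp2 hpO r n q ∈ idealI O (p ^ n) r :=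
  Ideal.mul_mem_right _ _ (dgen_sub_one_mem O (p ^ n) r q)

/-- **the evaluation `S∞ → Λ`, `Z_q ↦ (δ_q − 1)(δ_q + 1)⁻¹`.** -/
noncomputable def ev₀ : MvPowerSeries (Fin r) O →ₐ[O] Lam O (p ^ n) r :=
  haveI := isAdicComplete_idealI O p hp2 hpO r n
  TK.evalAdic (idealI O (p ^ n) r) (zLam p hp2 hpO r n) (zLam_mem p hp2 hpO r n)

theorem ev₀_X (q : Fin r) :
    ev₀ p hp2 hpO r n (X q : MvPowerSeries (Fin r) O) = zLam p hp2 hpO r n q := by
  haveI := isAdicComplete_idealI O p hp2 hpO r n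
  exact TK.evalAdic_X _ _ _ q

/-- continuity of `ev₀`. -/
theorem ev₀_mem_pow (m : ℕ) (f : MvPowerSeries (Fin r) O)
    (hf : ∀ d : Fin r →₀ ℕ, d.degree < m → coeff d f = 0) :
    ev₀ p hp2 hpO r n f ∈ idealI O (p ^ n) r ^ m := by
  haveI := isAdicComplete_idealI O p hp2 hpO r n
  exact TK.evalAdic_mem_pow _ _ _ m f hf

/-- `δ_q` is the value of `(1 + Z_q)(1 − Z_q)⁻¹`. -/
theorem exists_ev₀_eq_dgen (q : Fin r) :
    ∃ s : MvPowerSeries (Fin r) O, ev₀ p hp2 hpO r n s = dgen O (p ^ n) q := by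
  have hu : IsUnit (1 - X q : MvPowerSeries (Fin r) O) := by
    rw [isUnit_iff_constantCoeff, map_sub, map_one, constantCoeff_X, sub_zero]
    exact isUnit_one
  obtain ⟨u, hu⟩ := hu
  refine ⟨(1 + X q : MvPowerSeries (Fin r) O) * ((u⁻¹ : (MvPowerSeries (Fin r) O)ˣ) :
    MvPowerSeries (Fin r) O), ?_⟩
  have h1 : ev₀ p hp2 hpO r n (↑u) = 1 - zLam p hp2 hpO r n q := by
    rw [hu, map_sub, map_one, ev₀_X]
  have h2 : ev₀ p hp2 hpO r n ↑u * ev₀ p hp2 hpO r n ↑u⁻¹ = 1 := by
    rw [← map_mul, Units.mul_inv, map_one]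
  rw [map_mul, map_add, map_one, ev₀_X, one_add_zLam, mul_assoc, ← h1, h2, mul_one]

theorem ev₀_surjective : Function.Surjective (ev₀ p hp2 hpO r n) := by
  rw [← AlgHom.range_eq_top, eq_top_iff, ← adjoin_dgen O (p ^ n), Algebra.adjoin_le_iff]
  rintro _ ⟨q, rfl⟩
  exact exists_ev₀_eq_dgen p hp2 hpO r n q

/-- the constant coefficient as an algebra map. -/
noncomputable def constAlgHom (σ : Type*) (O : Type*) [CommRing O] : MvPowerSeries σ O →ₐ[O] O :=
  { constantCoeff (σ := σ) (R := O) with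
    commutes' := fun c => by
      show constantCoeff (algebraMap O (MvPowerSeries σ O) c) = c
      rw [MvPowerSeries.algebraMap_apply, constantCoeff_C, Algebra.algebraMap_self_apply] }

theorem constAlgHom_apply (σ : Type*) (O : Type*) [CommRing O] (s : MvPowerSeries σ O) :
    constAlgHom σ O s = constantCoeff s := rfl

theorem augLam_zLam (q : Fin r) : augLam O (p ^ n) r (zLam p hp2 hpO r n q) = 0 := by
  rw [zLam, cayley, map_mul, map_sub, map_one, augLam_dgen, sub_self, zero_mul]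

/-- **the augmentation of `ev₀ s` is the constant coefficient of `s`.** -/
theorem augLam_ev₀ (s : MvPowerSeries (Fin r) O) :
    augLam O (p ^ n) r (ev₀ p hp2 hpO r n s) = constantCoeff s := by
  haveI := isAdicComplete_idealI O p hp2 hpO r n
  have h1 := TK.map_evalAdic (idealI O (p ^ n) r) (zLam p hp2 hpO r n) (zLam_mem p hp2 hpO r n)
    (maximalIdeal O) (augLam O (p ^ n) r) (map_augLam_idealI_le O (p ^ n) r) s
  have h2 : constAlgHom (Fin r) O = TK.evalAdic (maximalIdeal O)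
      (fun t => augLam O (p ^ n) r (zLam p hp2 hpO r n t))
      (fun t => map_augLam_idealI_le O (p ^ n) r
        (Ideal.mem_map_of_mem _ (zLam_mem p hp2 hpO r n t))) := by
    apply TK.eq_evalAdic
    · intro t
      rw [constAlgHom_apply, constantCoeff_X, augLam_zLam]
    · intro m f hf
      rcases Nat.eq_zero_or_pos m with rfl | hm
      · rw [pow_zero, Ideal.one_eq_top]; trivial
      · have h3 := hf 0 (by rw [map_zero]; exact hm)
        rw [constAlgHom_apply, ← coeff_zero_eq_constantCoeff_apply, h3]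
        exact Ideal.zero_mem _
  rw [ev₀, h1, ← h2, constAlgHom_apply]

end Ev0

end Fermat.Agent.RB.SINF
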