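/-
PROJECT RB — [SINF] (helper4), file 4: **the `S∞`-module structure attached to the diamond
operators.**

`O` complete noetherian local, `p` odd, `p ∈ 𝔪_O`; `H` an `O`-module with commuting endomorphisms
`g q`, `q : Fin r`, `g q ^ (p ^ n) = 1`.

* `ev p r n hp2 hpO g g_pow g_comm : S∞ = O⟦Z_1, …, Z_r⟧ →ₐ[O] End_O H`,
  `Z_q ↦ (g_q − 1)(g_q + 1)⁻¹`;
* `ev_X`, `ev_natural`, `ev_of_trivial` (helper9's literals, interface [SINF]);
* `ev_eq` : `ev = actAlg ∘ ev₀` (factorisation through the fixed ring `Λ = O[(ℤ/p^n)^r]`).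
-/
import Mathlib
import Fermat.Agent.RB.SINF_helper4_Ev0

set_option autoImplicit false
set_option linter.unusedSectionVars false
set_option linter.style.haveILetI false

namespace Fermat.Agent.RB.SINF

open MvPowerSeries IsLocalRing

variable {O : Type} [CommRing O] [IsLocalRing O] [IsNoetherianRing O]
  [IsAdicComplete (maximalIdeal O) O]
  (p : ℕ) [hp : Fact p.Prime] (r n : ℕ)

/-- **the action of `S∞`**: `Z_q ↦ (g_q − 1)(g_q + 1)⁻¹`. -/
noncomputable def ev (hp2 : p ≠ 2) (hpO : (p : O) ∈ maximalIdeal O)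
    {H : Type} [AddCommGroup H] [Module O H] (g : Fin r → Module.End O H)
    (g_pow : ∀ q, g q ^ (p ^ n) = 1) (g_comm : ∀ q q', Commute (g q) (g q')) :
    MvPowerSeries (Fin r) O →ₐ[O] Module.End O H :=
  (actAlg O (p ^ n) g g_pow g_comm).comp (ev₀ p hp2 hpO r n)

variable (hp2 : p ≠ 2) (hpO : (p : O) ∈ maximalIdeal O)
  {H : Type} [AddCommGroup H] [Module O H] (g : Fin r → Module.End O H)
  (g_pow : ∀ q, g q ^ (p ^ n) = 1) (g_comm : ∀ q q', Commute (g q) (g q'))
  {H' : Type} [AddCommGroup H'] [Module O H'] (g' : Fin r → Module.End O H')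
  (g'_pow : ∀ q, g' q ^ (p ^ n) = 1) (g'_comm : ∀ q q', Commute (g' q) (g' q'))

theorem ev_eq (s : MvPowerSeries (Fin r) O) :
    ev p r n hp2 hpO g g_pow g_comm s =
      actAlg O (p ^ n) g g_pow g_comm (ev₀ p hp2 hpO r n s) := rfl

theorem ev_X (q : Fin r) :
    ev p r n hp2 hpO g g_pow g_comm (X q) * (g q + 1) = g q - 1 := by
  have h1 := congrArg (actAlg O (p ^ n) g g_pow g_comm) (zLam_mul p hp2 hpO r n q)
  rw [map_mul, map_add, map_sub, map_one, actAlg_dgen] at h1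
  rw [ev_eq, ev₀_X]
  exact h1

theorem ev_natural (f : H →ₗ[O] H') (hf : ∀ q x, f (g q x) = g' q (f x))
    (s : MvPowerSeries (Fin r) O) (x : H) :
    f (ev p r n hp2 hpO g g_pow g_comm s x) = ev p r n hp2 hpO g' g'_pow g'_comm s (f x) := by
  rw [ev_eq, ev_eq]
  exact actAlg_natural O (p ^ n) g g_pow g_comm g' g'_pow g'_comm f hf _ x

theorem ev_of_trivial (h1 : ∀ q, g q = 1) (s : MvPowerSeries (Fin r) O) :
    ev p r n hp2 hpO g g_pow g_comm s = algebraMap O _ (constantCoeff s) := by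
  rw [ev_eq, actAlg_of_trivial O (p ^ n) g g_pow g_comm h1, augLam_ev₀]

end Fermat.Agent.RB.SINF
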