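/-
PROJECT RB — [SINF] (helper4), file 6: **freeness over `S∞ ⧸ J`.**

* `lamComb`, `lamComb_bijective` : if `H` is free over `Λ = O[(ℤ/N)^r]` on `b` (in the explicit
  form `TWSide.free`), then `(a_i) ↦ ∑ a_i • b_i`, `Λ^d → H`, is bijective;
* `exists_repr`, `sum_eq_zero_iff` (helper9's literals, interface [SINF], adic version):
  every `x : H` is `∑ ev (c i) (b i)`, and `∑ ev (c i) (b i) = 0 ↔ ∀ i, c i ∈ J`.
-/
import Mathlib
import Fermat.Agent.RB.SINF_helper4_Ev
import Fermat.Agent.RB.SINF_helper4_J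

set_option autoImplicit false
set_option linter.unusedSectionVars false
set_option linter.style.haveILetI false

namespace Fermat.Agent.RB.SINF

open MvPowerSeries IsLocalRing

section Equiv

variable (N : ℕ) [NeZero N] (r : ℕ)

/-- `Fin N ≃ ℤ/N`. -/
def finZ : Fin N ≃ Multiplicative (ZMod N) where
  toFun e := Multiplicative.ofAdd ((e : ℕ) : ZMod N)
  invFun x := ⟨(Multiplicative.toAdd x).val, ZMod.val_lt _⟩
  left_inv e := by
    apply Fin.ext
    show (Multiplicative.toAdd (Multiplicative.ofAdd ((e : ℕ) : ZMod N))).val = e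
    rw [toAdd_ofAdd, ZMod.val_natCast_of_lt e.2]
  right_inv x := by
    show Multiplicative.ofAdd (((Multiplicative.toAdd x).val : ℕ) : ZMod N) = x
    rw [ZMod.natCast_zmod_val, ofAdd_toAdd]

/-- the exponent vectors. -/
def expEquiv : (Fin r → Fin N) ≃ Dia N r := Equiv.piCongrRight (fun _ => finZ N)

theorem expEquiv_symm_apply (x : Dia N r) (q : Fin r) :
    (((expEquiv N r).symm x q : Fin N) : ℕ) = (Multiplicative.toAdd (x q)).val := rfl

end Equiv

section Free

variable {O : Type*} [CommRing O] (N : ℕ) [NeZero N] {r : ℕ} {H : Type*} [AddCommGroup H]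
  [Module O H] (g : Fin r → Module.End O H) (g_pow : ∀ q, g q ^ N = 1)
  (g_comm : ∀ q q', Commute (g q) (g q')) {d : ℕ} (b : Fin d → H)

/-- the map `Λ^d → H`, `(a_i) ↦ ∑ a_i • b_i`. -/
noncomputable def lamComb : (Fin d → Lam O N r) →ₗ[O] H :=
  ∑ i, (LinearMap.applyₗ (b i)).comp
    ((actAlg O N g g_pow g_comm).toLinearMap.comp (LinearMap.proj i))

theorem lamComb_apply (a : Fin d → Lam O N r) :
    lamComb N g g_pow g_comm b a = ∑ i, actAlg O N g g_pow g_comm (a i) (b i) := by
  rw [lamComb, LinearMap.sum_apply]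
  rfl

/-- **freeness over the group algebra.** -/
theorem lamComb_bijective
    (free : Function.Bijective fun c : (Fin d × (Fin r → Fin N)) →₀ O =>
      c.sum fun je a =>
        a • (((List.finRange r).map fun q => g q ^ ((je.2 q : Fin N) : ℕ)).prod (b je.1))) :
    Function.Bijective (lamComb N g g_pow g_comm b) := by
  classical
  set w : Fin d × (Fin r → Fin N) → H := fun je =>
    ((List.finRange r).map fun q => g q ^ ((je.2 q : Fin N) : ℕ)).prod (b je.1) with hw
  have hfree' : Function.Bijective (Finsupp.linearCombination O w) := by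
    have h1 : (Finsupp.linearCombination O w : ((Fin d × (Fin r → Fin N)) →₀ O) → H) =
        fun c => c.sum fun je a => a • w je := by
      funext c
      rw [Finsupp.linearCombination_apply]
    rw [h1]
    exact free
  set B₂ : Module.Basis (Fin d × (Fin r → Fin N)) O H :=
    Module.Basis.ofRepr (LinearEquiv.ofBijective (Finsupp.linearCombination O w) hfree').symm
    with hB₂
  have hB₂w : ∀ je, B₂ je = w je := by
    intro je
    rw [hB₂, Module.Basis.coe_ofRepr, LinearEquiv.symm_symm]
    show (LinearEquiv.ofBijective (Finsupp.linearCombination O w) hfree')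
      (Finsupp.single je 1) = w je
    rw [LinearEquiv.ofBijective_apply, Finsupp.linearCombination_single, one_smul]
  set B₁ : Module.Basis (Σ _ : Fin d, Dia N r) O (Fin d → Lam O N r) :=
    Pi.basis (fun _ : Fin d => MonoidAlgebra.basis (Dia N r) O) with hB₁
  set e : (Σ _ : Fin d, Dia N r) ≃ Fin d × (Fin r → Fin N) :=
    (Equiv.sigmaEquivProd _ _).trans (Equiv.prodCongr (Equiv.refl _) (expEquiv N r).symm) with he
  have key : lamComb N g g_pow g_comm b = (B₁.equiv B₂ e).toLinearMap := by
    apply B₁.ext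
    rintro ⟨i, x⟩
    rw [LinearEquiv.coe_coe, Module.Basis.equiv_apply, hB₂w, lamComb_apply, hB₁, Pi.basis_apply]
    rw [Finset.sum_eq_single i]
    · rw [Pi.single_eq_same, MonoidAlgebra.basis_apply, ← MonoidAlgebra.of_apply, actAlg_of,
        diaHom_apply]
      rfl
    · intro j _ hji
      rw [Pi.single_eq_of_ne hji, map_zero, LinearMap.zero_apply]
    · intro h
      exact absurd (Finset.mem_univ i) h
  rw [key]
  exact (B₁.equiv B₂ e).bijective

end Free

section Literal

variable {O : Type} [CommRing O] [IsLocalRing O] [IsNoetherianRing O]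
  [IsAdicComplete (maximalIdeal O) O]
  (p : ℕ) [hp : Fact p.Prime] (hp2 : p ≠ 2) (hpO : (p : O) ∈ maximalIdeal O) (r n : ℕ)
  {H : Type} [AddCommGroup H] [Module O H] (g : Fin r → Module.End O H)
  (g_pow : ∀ q, g q ^ (p ^ n) = 1) (g_comm : ∀ q q', Commute (g q) (g q'))
  {d : ℕ} (b : Fin d → H)
  (free : Function.Bijective fun c : (Fin d × (Fin r → Fin (p ^ n))) →₀ O =>
      c.sum fun je a =>
        a • (((List.finRange r).map fun q => g q ^ ((je.2 q : Fin (p ^ n)) : ℕ)).prod (b je.1)))

include free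

/-- **`b` generates `H` over `S∞`.** -/
theorem exists_repr (x : H) :
    ∃ c : Fin d → MvPowerSeries (Fin r) O,
      x = ∑ i, ev p r n hp2 hpO g g_pow g_comm (c i) (b i) := by
  obtain ⟨a, rfl⟩ := (lamComb_bijective (p ^ n) g g_pow g_comm b free).2 x
  choose c hc using fun i => ev₀_surjective p hp2 hpO r n (a i)
  refine ⟨c, ?_⟩
  rw [lamComb_apply]
  refine Finset.sum_congr rfl (fun i _ => ?_)
  rw [ev_eq, hc]

/-- **the relations are given by `J`.** -/
theorem sum_eq_zero_iff (c : Fin d → MvPowerSeries (Fin r) O) :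
    (∑ i, ev p r n hp2 hpO g g_pow g_comm (c i) (b i)) = 0 ↔ ∀ i, c i ∈ J p hp2 hpO r n := by
  have h1 : (∑ i, ev p r n hp2 hpO g g_pow g_comm (c i) (b i)) =
      lamComb (p ^ n) g g_pow g_comm b (fun i => ev₀ p hp2 hpO r n (c i)) := by
    rw [lamComb_apply]
    rfl
  rw [h1]
  constructor
  · intro h i
    have h2 := (lamComb_bijective (p ^ n) g g_pow g_comm b free).1
      (h.trans (map_zero (lamComb (p ^ n) g g_pow g_comm b)).symm)
    rw [mem_J]
    exact congrFun h2 i
  · intro h
    have h2 : (fun i => ev₀ p hp2 hpO r n (c i)) = 0 := by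
      funext i
      exact (mem_J p hp2 hpO r n (c i)).1 (h i)
    rw [h2, map_zero]

end Literal

end Fermat.Agent.RB.SINF
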