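/-
PROJECT RB — [GLUE] (helper9), file 5: **from the algebraic Taylor–Wiles level (`AlgLevel`:
`𝒪`-modules with commuting diamond operators `g q`, `g q ^ (p ^ n) = 1`, and an action of the ring
of the local problems) to the `S∞`-modules `TWLevel` of the CORE** (through helper4's [SINF]:
`Z_q ↦ (g_q − 1)(g_q + 1)⁻¹`).
-/
import Mathlib
import Fermat.Agent.RB.IFACE_helper9_Core
import Fermat.Agent.RB.SINF_helper4_Basis

set_option autoImplicit false
set_option linter.unusedSectionVars false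
set_option linter.unusedVariables false
set_option linter.style.haveILetI false

namespace Fermat.Agent.RB.GLUE

open MvPowerSeries IsLocalRing

/-- **the algebraic Taylor–Wiles level** -/
structure AlgLevel {O : Type} [CommRing O] [IsLocalRing O] {Sig : Type} (D : LOC.Data O Sig)
    (p g r d : ℕ) (M0 : Type) [AddCommGroup M0] [Module O M0] (C0 : Submodule O M0) (n : ℕ) :
    Type 1 where
  H₁ : Type
  H₂ : Type
  Hbar : Type
  [instAddCommGroup₁ : AddCommGroup H₁]
  [instModule₁ : Module O H₁]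
  [instAddCommGroup₂ : AddCommGroup H₂]
  [instModule₂ : Module O H₂]
  [instAddCommGroupBar : AddCommGroup Hbar]
  [instModuleBar : Module O Hbar]
  g₁ : Fin r → Module.End O H₁
  g₁_pow : ∀ q, g₁ q ^ (p ^ n) = 1
  g₁_comm : ∀ q q', Commute (g₁ q) (g₁ q')
  g₂ : Fin r → Module.End O H₂
  g₂_pow : ∀ q, g₂ q ^ (p ^ n) = 1
  g₂_comm : ∀ q q', Commute (g₂ q) (g₂ q')
  gbar : Fin r → Module.End O Hbar
  b₁ : Fin d → H₁
  free₁ : Function.Bijective fun c : (Fin d × (Fin r → Fin (p ^ n))) →₀ O =>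
    c.sum fun je a =>
      a • (((List.finRange r).map fun q => g₁ q ^ ((je.2 q : Fin (p ^ n)) : ℕ)).prod (b₁ je.1))
  b₂ : Fin d → H₂
  free₂ : Function.Bijective fun c : (Fin d × (Fin r → Fin (p ^ n))) →₀ O =>
    c.sum fun je a =>
      a • (((List.finRange r).map fun q => g₂ q ^ ((je.2 q : Fin (p ^ n)) : ℕ)).prod (b₂ je.1))
  red₁ : H₁ →ₗ[O] Hbar
  red₂ : H₂ →ₗ[O] Hbar
  red₁_surjective : Function.Surjective red₁
  red₂_surjective : Function.Surjective red₂
  ker_red₁ : ∀ x, red₁ x = 0 ↔ ∃ y, x = D.lam • y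
  ker_red₂ : ∀ x, red₂ x = 0 ↔ ∃ y, x = D.lam • y
  red₁_g : ∀ q x, red₁ (g₁ q x) = gbar q (red₁ x)
  red₂_g : ∀ q x, red₂ (g₂ q x) = gbar q (red₂ x)
  act₁ : LOC.PS O Sig g →ₐ[O] Module.End O H₁
  act₂ : LOC.PS O Sig g →ₐ[O] Module.End O H₂
  actbar : LOC.PS O Sig g →ₐ[O] Module.End O Hbar
  act₁_comm : ∀ f q, Commute (act₁ f) (g₁ q)
  act₂_comm : ∀ f q, Commute (act₂ f) (g₂ q)
  red₁_act : ∀ f x, red₁ (act₁ f x) = actbar f (red₁ x)
  red₂_act : ∀ f x, red₂ (act₂ f x) = actbar f (red₂ x)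
  kill₁ : ∀ f ∈ LOC.I₁ D g, act₁ f = 0
  kill₂ : ∀ f ∈ LOC.I₂ D g, act₂ f = 0
  hF₁ : ∀ q : Fin r, ∃ G ∈ maximalIdeal (LOC.PS O Sig g),
    act₁ G * (g₁ q + 1) ^ 2 = (g₁ q - 1) ^ 2
  hF₂ : ∀ q : Fin r, ∃ G ∈ maximalIdeal (LOC.PS O Sig g),
    act₂ G * (g₂ q + 1) ^ 2 = (g₂ q - 1) ^ 2
  ctl : H₁ →ₗ[O] M0
  ctl_surjective : Function.Surjective ctl
  ctl_g : ∀ q x, ctl (g₁ q x) = ctl x
  ker_ctl : ∀ x, ctl x = 0 → x ∈ ⨆ q, LinearMap.range (g₁ q - 1)
  ctl_C : ∀ y ∈ C0, y ∈ Submodule.span O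
    {z | ∃ (v : Sig) (i : Fin 3) (x : H₁), z = ctl (act₁ (LOC.sX O g v i) x)}

attribute [instance] AlgLevel.instAddCommGroup₁ AlgLevel.instModule₁ AlgLevel.instAddCommGroup₂
  AlgLevel.instModule₂ AlgLevel.instAddCommGroupBar AlgLevel.instModuleBar

section SMod

variable {O : Type} [CommRing O] [IsLocalRing O] [IsNoetherianRing O]
  [IsAdicComplete (maximalIdeal O) O]
  (p : ℕ) [hp : Fact p.Prime] (hp2 : p ≠ 2) (hpO : (p : O) ∈ maximalIdeal O) (r n : ℕ)
  {H : Type} [AddCommGroup H] [Module O H] (g : Fin r → Module.End O H)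
  (g_pow : ∀ q, g q ^ (p ^ n) = 1) (g_comm : ∀ q q', Commute (g q) (g q'))

/-- the `S∞`-module structure defined by the diamond operators -/
@[reducible] noncomputable def sMod : Module (SInf O r) H :=
  Module.compHom H
    ((SINF.ev p r n hp2 hpO g g_pow g_comm : SInf O r →ₐ[O] Module.End O H) :
      SInf O r →+* Module.End O H)

theorem sMod_smul (s : SInf O r) (x : H) :
    (letI := sMod p hp2 hpO r n g g_pow g_comm; s • x) =
      SINF.ev p r n hp2 hpO g g_pow g_comm s x := rfl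

theorem ev_C (c : O) (x : H) :
    SINF.ev p r n hp2 hpO g g_pow g_comm (C c) x = c • x := by
  have h1 : (C c : SInf O r) = algebraMap O (SInf O r) c := rfl
  rw [h1, AlgHom.commutes]
  rfl

theorem ev_X_apply (q : Fin r) (z : H) :
    SINF.ev p r n hp2 hpO g g_pow g_comm (X q) ((g q + 1) z) = (g q - 1) z := by
  have h1 := SINF.ev_X p r n hp2 hpO g g_pow g_comm q
  have h2 := congrArg (fun e : Module.End O H => e z) h1
  exact h2

/-- an `O`-endomorphism commuting with the diamond operators commutes with `S∞` -/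
theorem ev_commute (e : Module.End O H) (he : ∀ q, Commute e (g q)) (s : SInf O r) (x : H) :
    e (SINF.ev p r n hp2 hpO g g_pow g_comm s x) =
      SINF.ev p r n hp2 hpO g g_pow g_comm s (e x) := by
  refine SINF.ev_natural p r n hp2 hpO g g_pow g_comm g g_pow g_comm e (fun q x => ?_) s x
  have := congrArg (fun f : Module.End O H => f x) (he q).eq
  exact this

include hp2 hpO g_pow in
/-- `g + 1` is invertible (`p` odd) -/
theorem exists_inv_add_one (q : Fin r) :
    ∃ w : Module.End O H, (g q + 1) * w = 1 ∧ w * (g q + 1) = 1 := by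
  have hodd : Odd (p ^ n) := (hp.out.odd_of_ne_two hp2).pow
  have h2u : IsUnit (2 : O) := by
    by_contra h
    have h2m : (2 : O) ∈ maximalIdeal O := (mem_maximalIdeal _).2 h
    obtain ⟨k, hk⟩ := hp.out.odd_of_ne_two hp2
    have h1 : (1 : O) = (p : O) - 2 * (k : O) := by
      rw [hk]; push_cast; ring
    have : (1 : O) ∈ maximalIdeal O := by
      rw [h1]
      exact Ideal.sub_mem _ hpO (Ideal.mul_mem_right _ _ h2m)
    exact (Ideal.ne_top_iff_one _).1 (maximalIdeal.isMaximal O).ne_top this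
  obtain ⟨u, hu⟩ := h2u
  have key : (g q + 1) * ∑ i ∈ Finset.range (p ^ n), (-(g q)) ^ i = 2 := by
    have h1 := mul_geom_sum (-(g q)) (p ^ n)
    have h2 : (-(g q)) ^ (p ^ n) = -1 := by
      rw [hodd.neg_pow, g_pow]
    rw [h2] at h1
    have h3 : (g q + 1) = -(-(g q) - 1) := by abel
    rw [h3, neg_mul, h1]
    norm_num
  have hcomm : Commute (g q + 1) (∑ i ∈ Finset.range (p ^ n), (-(g q)) ^ i) := by
    refine Commute.sum_right _ _ _ fun i _ => Commute.pow_right ?_ i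
    exact Commute.add_left (Commute.neg_right (Commute.refl _)) (Commute.one_left _)
  refine ⟨((u⁻¹ : Oˣ) : O) • ∑ i ∈ Finset.range (p ^ n), (-(g q)) ^ i, ?_, ?_⟩
  · rw [mul_smul_comm, key]
    ext x
    have : ((u⁻¹ : Oˣ) : O) * 2 = 1 := by rw [← hu, Units.inv_mul]
    simp only [LinearMap.smul_apply, Module.End.one_apply]
    rw [show (2 : Module.End O H) x = (2 : O) • x by
      rw [show (2 : Module.End O H) = (2 : O) • (1 : Module.End O H) by
        rw [ofNat_smul_eq_nsmul, nsmul_eq_mul, mul_one]; rfl]; rfl]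
    rw [smul_smul, this, one_smul]
  · rw [smul_mul_assoc, ← hcomm.eq, key]
    ext x
    have : ((u⁻¹ : Oˣ) : O) * 2 = 1 := by rw [← hu, Units.inv_mul]
    simp only [LinearMap.smul_apply, Module.End.one_apply]
    rw [show (2 : Module.End O H) x = (2 : O) • x by
      rw [show (2 : Module.End O H) = (2 : O) • (1 : Module.End O H) by
        rw [ofNat_smul_eq_nsmul, nsmul_eq_mul, mul_one]; rfl]; rfl]
    rw [smul_smul, this, one_smul]

include hp2 hpO g_pow in
/-- if `G (g + 1)² = (g − 1)²` then `G` acts as `Z_q²` -/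
theorem eq_ev_X_sq (q : Fin r) (G : Module.End O H) (hG : G * (g q + 1) ^ 2 = (g q - 1) ^ 2)
    (x : H) : G x = SINF.ev p r n hp2 hpO g g_pow g_comm (X q ^ 2) x := by
  obtain ⟨w, hw1, hw2⟩ := exists_inv_add_one p hp2 hpO r n g g_pow q
  have hX := SINF.ev_X p r n hp2 hpO g g_pow g_comm q
  set E := SINF.ev p r n hp2 hpO g g_pow g_comm (X q) with hE
  have hc : (g q - 1) * (g q + 1) = (g q + 1) * (g q - 1) := by
    rw [sub_mul, mul_add, add_mul, mul_sub]; simp only [mul_one, one_mul]; abel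
  have h1 : E ^ 2 * (g q + 1) ^ 2 = (g q - 1) ^ 2 := by
    calc E ^ 2 * (g q + 1) ^ 2 = E * (E * (g q + 1)) * (g q + 1) := by
          rw [pow_two, pow_two]; simp only [mul_assoc]
      _ = E * ((g q - 1) * (g q + 1)) := by rw [hX, mul_assoc]
      _ = E * (g q + 1) * (g q - 1) := by rw [hc, mul_assoc]
      _ = (g q - 1) ^ 2 := by rw [hX, pow_two]
  have h2 : (g q + 1) ^ 2 * w ^ 2 = 1 := by
    calc (g q + 1) ^ 2 * w ^ 2 = (g q + 1) * ((g q + 1) * w) * w := by
          rw [pow_two, pow_two]; simp only [mul_assoc]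
      _ = 1 := by rw [hw1, mul_one, hw1]
  have h3 : G = E ^ 2 := by
    calc G = G * ((g q + 1) ^ 2 * w ^ 2) := by rw [h2, mul_one]
      _ = E ^ 2 * ((g q + 1) ^ 2 * w ^ 2) := by rw [← mul_assoc, hG, ← h1, mul_assoc]
      _ = E ^ 2 := by rw [h2, mul_one]
  rw [h3, map_pow]

end SMod

section Iterate

variable {O : Type} [CommRing O] {H H' : Type} [AddCommGroup H] [Module O H] [AddCommGroup H']
  [Module O H']

/-- transport of identities between endomorphisms along a surjection -/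
theorem pow_apply_of_intertwine (f : H →ₗ[O] H') (a : Module.End O H) (a' : Module.End O H')
    (h : ∀ x, f (a x) = a' (f x)) (m : ℕ) (x : H) : f ((a ^ m) x) = (a' ^ m) (f x) := by
  induction m generalizing x with
  | zero => simp
  | succ m ih =>
    rw [pow_succ, pow_succ, Module.End.mul_apply, Module.End.mul_apply, ih, h]

end Iterate

section Main

variable {O : Type} [CommRing O] [IsLocalRing O] [IsNoetherianRing O]
  [IsAdicComplete (maximalIdeal O) O] {Sig : Type} {D : LOC.Data O Sig}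
  {p : ℕ} [hp : Fact p.Prime]
  {g r d : ℕ} {M0 : Type} [AddCommGroup M0] [Module O M0] {C0 : Submodule O M0} {n : ℕ}
  (A : AlgLevel D p g r d M0 C0 n)

theorem AlgLevel.gbar_pow (q : Fin r) : A.gbar q ^ (p ^ n) = 1 := by
  ext y
  obtain ⟨x, rfl⟩ := A.red₁_surjective y
  rw [← pow_apply_of_intertwine A.red₁ (A.g₁ q) (A.gbar q) (A.red₁_g q), A.g₁_pow]
  rfl

theorem AlgLevel.gbar_comm (q q' : Fin r) : Commute (A.gbar q) (A.gbar q') := by
  ext y
  obtain ⟨x, rfl⟩ := A.red₁_surjective y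
  show A.gbar q (A.gbar q' (A.red₁ x)) = A.gbar q' (A.gbar q (A.red₁ x))
  rw [← A.red₁_g, ← A.red₁_g, ← A.red₁_g, ← A.red₁_g]
  have := congrArg (fun e : Module.End O A.H₁ => e x) (A.g₁_comm q q').eq
  exact congrArg A.red₁ this

theorem AlgLevel.actbar_comm (f : LOC.PS O Sig g) (q : Fin r) :
    Commute (A.actbar f) (A.gbar q) := by
  ext y
  obtain ⟨x, rfl⟩ := A.red₁_surjective y
  show A.actbar f (A.gbar q (A.red₁ x)) = A.gbar q (A.actbar f (A.red₁ x))
  rw [← A.red₁_g, ← A.red₁_act, ← A.red₁_act, ← A.red₁_g]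
  have := congrArg (fun e : Module.End O A.H₁ => e x) (A.act₁_comm f q).eq
  exact congrArg A.red₁ this

variable (hp2 : p ≠ 2) (hpO : (p : O) ∈ maximalIdeal O)

/-- an `O`-algebra action commuting with the diamond operators, as an action by `S∞`-linear
endomorphisms -/
noncomputable def actS {H : Type} [AddCommGroup H] [Module O H] (γ : Fin r → Module.End O H)
    (γ_pow : ∀ q, γ q ^ (p ^ n) = 1) (γ_comm : ∀ q q', Commute (γ q) (γ q'))
    {P : Type} [CommRing P] [Algebra O P] (act : P →ₐ[O] Module.End O H)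
    (hcomm : ∀ f q, Commute (act f) (γ q)) :
    P →+* @Module.End (SInf O r) H _ _ (sMod p hp2 hpO r n γ γ_pow γ_comm) :=
  letI := sMod p hp2 hpO r n γ γ_pow γ_comm
  { toFun := fun f =>
      { toFun := fun x => act f x
        map_add' := fun x y => map_add _ x y
        map_smul' := fun s x => ev_commute p hp2 hpO r n γ γ_pow γ_comm (act f) (hcomm f) s x }
    map_one' := by
      ext x
      show act 1 x = x
      rw [map_one]; rfl
    map_mul' := fun f f' => by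
      ext x
      show act (f * f') x = act f (act f' x)
      rw [map_mul]; rfl
    map_zero' := by
      ext x
      show act 0 x = 0
      rw [map_zero]; rfl
    map_add' := fun f f' => by
      ext x
      show act (f + f') x = act f x + act f' x
      rw [map_add]; rfl }

theorem actS_apply {H : Type} [AddCommGroup H] [Module O H] (γ : Fin r → Module.End O H)
    (γ_pow : ∀ q, γ q ^ (p ^ n) = 1) (γ_comm : ∀ q q', Commute (γ q) (γ q'))
    {P : Type} [CommRing P] [Algebra O P] (act : P →ₐ[O] Module.End O H)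
    (hcomm : ∀ f q, Commute (act f) (γ q)) (f : P) (x : H) :
    actS hp2 hpO γ γ_pow γ_comm act hcomm f x = act f x := rfl

/-- an `O`-linear map intertwining the diamond operators, as an `S∞`-linear map -/
noncomputable def linS {H H' : Type} [AddCommGroup H] [Module O H] [AddCommGroup H'] [Module O H']
    (γ : Fin r → Module.End O H)
    (γ_pow : ∀ q, γ q ^ (p ^ n) = 1) (γ_comm : ∀ q q', Commute (γ q) (γ q'))
    (γ' : Fin r → Module.End O H')
    (γ'_pow : ∀ q, γ' q ^ (p ^ n) = 1) (γ'_comm : ∀ q q', Commute (γ' q) (γ' q'))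
    (f : H →ₗ[O] H') (hf : ∀ q x, f (γ q x) = γ' q (f x)) :
    @LinearMap (SInf O r) (SInf O r) _ _ (RingHom.id _) H H' _ _
      (sMod p hp2 hpO r n γ γ_pow γ_comm) (sMod p hp2 hpO r n γ' γ'_pow γ'_comm) :=
  letI := sMod p hp2 hpO r n γ γ_pow γ_comm
  letI := sMod p hp2 hpO r n γ' γ'_pow γ'_comm
  { toFun := fun x => f x
    map_add' := fun x y => map_add f x y
    map_smul' := fun s x =>
      SINF.ev_natural p r n hp2 hpO γ γ_pow γ_comm γ' γ'_pow γ'_comm f hf s x }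

/-- the control map -/
noncomputable def ctlS : A.H₁ →+ M0 ⧸ (maximalIdeal O ^ n • ⊤ : Submodule O M0) :=
  ((Submodule.mkQ (maximalIdeal O ^ n • ⊤ : Submodule O M0)).comp A.ctl).toAddMonoidHom

theorem ctlS_apply (x : A.H₁) :
    ctlS A x = Submodule.mkQ (maximalIdeal O ^ n • ⊤ : Submodule O M0) (A.ctl x) := rfl

theorem ctl_ev (s : SInf O r) (x : A.H₁) :
    A.ctl (SINF.ev p r n hp2 hpO A.g₁ A.g₁_pow A.g₁_comm s x) = constantCoeff s • A.ctl x := by
  have h1 := SINF.ev_natural p r n hp2 hpO A.g₁ A.g₁_pow A.g₁_comm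
    (fun _ : Fin r => (1 : Module.End O M0)) (fun _ => one_pow _) (fun _ _ => Commute.one_left _)
    A.ctl (fun q x => by rw [A.ctl_g]; rfl) s x
  rw [h1, SINF.ev_of_trivial p r n hp2 hpO _ _ _ (fun _ => rfl)]
  rfl

theorem ker_ctlS (hlam : maximalIdeal O = Ideal.span {D.lam}) (x : A.H₁) (hx : ctlS A x = 0) :
    ∃ (y : A.H₁) (z : Fin r → A.H₁),
      x = SINF.ev p r n hp2 hpO A.g₁ A.g₁_pow A.g₁_comm (C (D.lam ^ n)) y +
        ∑ q, SINF.ev p r n hp2 hpO A.g₁ A.g₁_pow A.g₁_comm (X q) (z q) := by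
  rw [ctlS_apply, Submodule.mkQ_apply, Submodule.Quotient.mk_eq_zero, hlam, Ideal.span_singleton_pow,
    Submodule.ideal_span_singleton_smul] at hx
  obtain ⟨m, -, hm⟩ := hx
  obtain ⟨y, rfl⟩ := A.ctl_surjective m
  have h1 : A.ctl (x - D.lam ^ n • y) = 0 := by
    rw [map_sub, map_smul]
    exact sub_eq_zero.2 hm.symm
  have h2 := A.ker_ctl _ h1
  have h3 : ∀ x' ∈ (⨆ q, LinearMap.range (A.g₁ q - 1)),
      ∃ z : Fin r → A.H₁, x' = ∑ q, (A.g₁ q - 1) (z q) := by
    intro x' hx'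
    induction hx' using Submodule.iSup_induction' with
    | mem q x' hx' =>
      obtain ⟨y', rfl⟩ := hx'
      classical
      refine ⟨Pi.single q y', ?_⟩
      rw [Finset.sum_eq_single q]
      · rw [Pi.single_eq_same]
      · intro q' _ hq'
        rw [Pi.single_eq_of_ne hq', map_zero]
      · intro h; exact absurd (Finset.mem_univ q) h
    | zero => exact ⟨0, by simp⟩
    | add x' y' _ _ hx' hy' =>
      obtain ⟨z, rfl⟩ := hx'
      obtain ⟨z', rfl⟩ := hy'
      refine ⟨z + z', ?_⟩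
      rw [← Finset.sum_add_distrib]
      refine Finset.sum_congr rfl fun q _ => ?_
      rw [Pi.add_apply, map_add]
  obtain ⟨z, hz⟩ := h3 _ h2
  refine ⟨y, fun q => (A.g₁ q + 1) (z q), ?_⟩
  rw [ev_C]
  have : ∀ q, SINF.ev p r n hp2 hpO A.g₁ A.g₁_pow A.g₁_comm (X q) ((A.g₁ q + 1) (z q)) =
      (A.g₁ q - 1) (z q) := fun q => ev_X_apply p hp2 hpO r n A.g₁ A.g₁_pow A.g₁_comm q (z q)
  simp only [this]
  rw [← hz]
  abel

theorem ctlS_C (y : M0 ⧸ (maximalIdeal O ^ n • ⊤ : Submodule O M0))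
    (hy : y ∈ Submodule.map (Submodule.mkQ (maximalIdeal O ^ n • ⊤ : Submodule O M0)) C0) :
    y ∈ Submodule.span O {z | ∃ (v : Sig) (i : Fin 3) (x : A.H₁),
      z = ctlS A (A.act₁ (LOC.sX O g v i) x)} := by
  obtain ⟨c, hc, rfl⟩ := hy
  have h1 := A.ctl_C c hc
  have h2 := Submodule.mem_map_of_mem
    (f := Submodule.mkQ (maximalIdeal O ^ n • ⊤ : Submodule O M0)) h1
  rw [Submodule.map_span] at h2
  refine Submodule.span_mono ?_ h2
  rintro _ ⟨_, ⟨v, i, x, rfl⟩, rfl⟩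
  exact ⟨v, i, x, rfl⟩

include A hp2 hpO in
/-- **the `S∞`-modules of the CORE from the algebraic Taylor–Wiles level.** -/
theorem nonempty_twLevel (hlam : maximalIdeal O = Ideal.span {D.lam}) :
    Nonempty (TWLevel D g r d M0 C0 n) := by
  refine ⟨{
    X₁ := A.H₁
    X₂ := A.H₂
    Xbar := A.Hbar
    instAddCommGroup₁ := inferInstance
    instModule₁ := sMod p hp2 hpO r n A.g₁ A.g₁_pow A.g₁_comm
    instAddCommGroup₂ := inferInstance
    instModule₂ := sMod p hp2 hpO r n A.g₂ A.g₂_pow A.g₂_comm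
    instAddCommGroupBar := inferInstance
    instModuleBar := sMod p hp2 hpO r n A.gbar A.gbar_pow A.gbar_comm
    act₁ := actS hp2 hpO A.g₁ A.g₁_pow A.g₁_comm A.act₁ A.act₁_comm
    act₂ := actS hp2 hpO A.g₂ A.g₂_pow A.g₂_comm A.act₂ A.act₂_comm
    actbar := actS hp2 hpO A.gbar A.gbar_pow A.gbar_comm A.actbar A.actbar_comm
    act₁_C := ?_
    act₂_C := ?_
    kill₁ := ?_
    kill₂ := ?_
    J := SINF.J p hp2 hpO r n
    J_le := SINF.J_le p hp2 hpO r n
    b₁ := A.b₁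
    b₁_span := ?_
    b₁_rel := ?_
    b₂ := A.b₂
    b₂_span := ?_
    b₂_rel := ?_
    red₁ := linS hp2 hpO A.g₁ A.g₁_pow A.g₁_comm A.gbar A.gbar_pow A.gbar_comm A.red₁ A.red₁_g
    red₂ := linS hp2 hpO A.g₂ A.g₂_pow A.g₂_comm A.gbar A.gbar_pow A.gbar_comm A.red₂ A.red₂_g
    red₁_surjective := A.red₁_surjective
    red₂_surjective := A.red₂_surjective
    ker_red₁ := ?_
    ker_red₂ := ?_
    red₁_act := ?_
    red₂_act := ?_
    hF₁ := ?_
    hF₂ := ?_
    ctl := ctlS A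
    ctl_smul := ?_
    ctl_surjective := ?_
    ker_ctl := ?_
    ctl_C := ?_ }⟩
  · intro c x
    show A.act₁ (C c) x = SINF.ev p r n hp2 hpO A.g₁ A.g₁_pow A.g₁_comm (C c) x
    rw [ev_C]
    have h1 : (C c : LOC.PS O Sig g) = algebraMap O (LOC.PS O Sig g) c := rfl
    rw [h1, AlgHom.commutes]
    rfl
  · intro c x
    show A.act₂ (C c) x = SINF.ev p r n hp2 hpO A.g₂ A.g₂_pow A.g₂_comm (C c) x
    rw [ev_C]
    have h1 : (C c : LOC.PS O Sig g) = algebraMap O (LOC.PS O Sig g) c := rfl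
    rw [h1, AlgHom.commutes]
    rfl
  · intro f hf
    letI := sMod p hp2 hpO r n A.g₁ A.g₁_pow A.g₁_comm
    ext x
    show A.act₁ f x = 0
    rw [A.kill₁ f hf]; rfl
  · intro f hf
    letI := sMod p hp2 hpO r n A.g₂ A.g₂_pow A.g₂_comm
    ext x
    show A.act₂ f x = 0
    rw [A.kill₂ f hf]; rfl
  · intro x
    exact SINF.exists_repr p hp2 hpO r n A.g₁ A.g₁_pow A.g₁_comm A.b₁ A.free₁ x
  · intro c
    exact SINF.sum_eq_zero_iff p hp2 hpO r n A.g₁ A.g₁_pow A.g₁_comm A.b₁ A.free₁ c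
  · intro x
    exact SINF.exists_repr p hp2 hpO r n A.g₂ A.g₂_pow A.g₂_comm A.b₂ A.free₂ x
  · intro c
    exact SINF.sum_eq_zero_iff p hp2 hpO r n A.g₂ A.g₂_pow A.g₂_comm A.b₂ A.free₂ c
  · intro x
    show A.red₁ x = 0 ↔ ∃ y, x = SINF.ev p r n hp2 hpO A.g₁ A.g₁_pow A.g₁_comm (C D.lam) y
    simp only [ev_C]
    exact A.ker_red₁ x
  · intro x
    show A.red₂ x = 0 ↔ ∃ y, x = SINF.ev p r n hp2 hpO A.g₂ A.g₂_pow A.g₂_comm (C D.lam) y
    simp only [ev_C]
    exact A.ker_red₂ x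
  · intro f x
    exact A.red₁_act f x
  · intro f x
    exact A.red₂_act f x
  · intro q
    obtain ⟨G, hG, hGq⟩ := A.hF₁ q
    refine ⟨G, hG, fun x => ?_⟩
    exact eq_ev_X_sq p hp2 hpO r n A.g₁ A.g₁_pow A.g₁_comm q (A.act₁ G) hGq x
  · intro q
    obtain ⟨G, hG, hGq⟩ := A.hF₂ q
    refine ⟨G, hG, fun x => ?_⟩
    exact eq_ev_X_sq p hp2 hpO r n A.g₂ A.g₂_pow A.g₂_comm q (A.act₂ G) hGq x
  · intro s x
    show ctlS A (SINF.ev p r n hp2 hpO A.g₁ A.g₁_pow A.g₁_comm s x) = constantCoeff s • ctlS A x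
    rw [ctlS_apply, ctl_ev A hp2 hpO, map_smul]
    rfl
  · intro y
    obtain ⟨m, rfl⟩ := Submodule.mkQ_surjective _ y
    obtain ⟨x, rfl⟩ := A.ctl_surjective m
    exact ⟨x, rfl⟩
  · intro x hx
    exact ker_ctlS A hp2 hpO hlam x hx
  · intro y hy
    exact ctlS_C A y hy

end Main

end Fermat.Agent.RB.GLUE
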