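/-
PROJECT RB — [GLUE] (helper9), file 6: pure algebra used by the glue.

* `exists_common_gens` : two ideals `𝔟₁, 𝔟₂` between `𝔪²` and `𝔪` of a local ring, each of which
  together with `g` elements generates `𝔪`: there are `g` elements which work for both;
* `exists_descend_algHom` : the action of a subalgebra `𝕋 ⊆ B₁ × B₂` generated by `X` on a common
  quotient `Hbar` of a `B₁`-module `H₁` and a `B₂`-module `H₂`, provided the generators act
  compatibly;
* `emem_of_trace_mem` : if `r` has full span and `tr (M r(g)) ∈ 𝔞` for all `g` then the entries of `M`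
  lie in `𝔞`.
-/
import Mathlib
import Fermat.Agent.RB.GLUE_helper9_EMem
import Fermat.Agent.S53.L1_helper1_MatrixAlg

set_option autoImplicit false
set_option linter.unusedSectionVars false
set_option linter.unusedVariables false
set_option linter.style.haveILetI false

namespace Fermat.Agent.RB.GLUE

open IsLocalRing

section CommonGens

variable {R : Type*} [CommRing R] [IsLocalRing R]

/-- avoidance of two ideals -/
theorem exists_mem_avoid (𝔟₁ 𝔟₂ : Ideal R) (h₁ : 𝔟₁ ≤ maximalIdeal R) (h₂ : 𝔟₂ ≤ maximalIdeal R) :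
    ∃ m ∈ maximalIdeal R, (𝔟₁ = maximalIdeal R ∨ m ∉ 𝔟₁) ∧ (𝔟₂ = maximalIdeal R ∨ m ∉ 𝔟₂) := by
  by_cases e₁ : 𝔟₁ = maximalIdeal R
  · by_cases e₂ : 𝔟₂ = maximalIdeal R
    · exact ⟨0, Ideal.zero_mem _, Or.inl e₁, Or.inl e₂⟩
    · obtain ⟨b, hb, hb'⟩ := SetLike.exists_of_lt (lt_of_le_of_ne h₂ e₂)
      exact ⟨b, hb, Or.inl e₁, Or.inr hb'⟩
  · obtain ⟨a, ha, ha'⟩ := SetLike.exists_of_lt (lt_of_le_of_ne h₁ e₁)
    by_cases e₂ : 𝔟₂ = maximalIdeal R
    · exact ⟨a, ha, Or.inr ha', Or.inl e₂⟩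
    · obtain ⟨b, hb, hb'⟩ := SetLike.exists_of_lt (lt_of_le_of_ne h₂ e₂)
      by_cases ha₂ : a ∈ 𝔟₂
      · by_cases hb₁ : b ∈ 𝔟₁
        · refine ⟨a + b, Ideal.add_mem _ ha hb, Or.inr fun h => ?_, Or.inr fun h => ?_⟩
          · exact ha' (by simpa using Ideal.sub_mem _ h hb₁)
          · exact hb' (by simpa using Ideal.sub_mem _ h ha₂)
        · exact ⟨b, hb, Or.inr hb₁, Or.inr hb'⟩
      · exact ⟨a, ha, Or.inr ha', Or.inr ha₂⟩

/-- exchange: if `m ∉ 𝔟` then one of the `g + 1` generators can be replaced by `m` -/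
theorem exists_exchange (𝔟 : Ideal R) (hsq : maximalIdeal R ^ 2 ≤ 𝔟) {g : ℕ} (z : Fin (g + 1) → R)
    (hz : 𝔟 ⊔ Ideal.span (Set.range z) = maximalIdeal R) {m : R} (hm : m ∈ maximalIdeal R)
    (hmb : 𝔟 = maximalIdeal R ∨ m ∉ 𝔟) :
    ∃ z' : Fin g → R, (𝔟 ⊔ Ideal.span {m}) ⊔ Ideal.span (Set.range z') = maximalIdeal R := by
  have hzmem : ∀ j, z j ∈ maximalIdeal R := fun j => by
    rw [← hz]
    exact Ideal.mem_sup_right (Ideal.subset_span ⟨j, rfl⟩)
  have hb_le : 𝔟 ≤ maximalIdeal R := by rw [← hz]; exact le_sup_left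
  rcases hmb with hb | hmb
  · refine ⟨fun _ => 0, le_antisymm ?_ ?_⟩
    · refine sup_le (sup_le hb_le ?_) ?_
      · rw [Ideal.span_singleton_le_iff_mem]; exact hm
      · rw [Ideal.span_le]; rintro _ ⟨j, rfl⟩; exact Ideal.zero_mem _
    · rw [hb]; exact le_sup_of_le_left le_sup_left
  · -- write `m = b + ∑ c j z j`
    have hm' : m ∈ 𝔟 ⊔ Ideal.span (Set.range z) := by rw [hz]; exact hm
    obtain ⟨b, hb, s, hs, hbs⟩ := Submodule.mem_sup.1 hm'
    obtain ⟨c, hc⟩ := (Ideal.mem_span_range_iff_exists_fun).1 hs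
    -- some `c j₀` is a unit
    have hex : ∃ j₀, IsUnit (c j₀) := by
      by_contra hno
      push Not at hno
      apply hmb
      rw [← hbs, ← hc]
      refine Ideal.add_mem _ hb (Ideal.sum_mem _ fun j _ => hsq ?_)
      rw [pow_two]
      exact Ideal.mul_mem_mul ((mem_maximalIdeal _).2 (hno j)) (hzmem j)
    obtain ⟨j₀, hj₀⟩ := hex
    obtain ⟨u, hu⟩ := hj₀
    refine ⟨fun j => z (j₀.succAbove j), le_antisymm ?_ ?_⟩
    · refine sup_le (sup_le hb_le ?_) ?_
      · rw [Ideal.span_singleton_le_iff_mem]; exact hm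
      · rw [Ideal.span_le]; rintro _ ⟨j, rfl⟩; exact hzmem _
    · rw [← hz]
      refine sup_le (le_sup_of_le_left le_sup_left) ?_
      rw [Ideal.span_le]
      rintro _ ⟨j, rfl⟩
      rcases Fin.eq_self_or_eq_succAbove j₀ j with rfl | ⟨i, rfl⟩
      · -- `z j₀ = u⁻¹ (m - b - ∑ c (succAbove i) z (succAbove i))`
        have hsum := Fin.sum_univ_succAbove (fun j => c j * z j) j
        have e : z j = ((u⁻¹ : Rˣ) : R) * (m - b - ∑ i, c (j.succAbove i) * z (j.succAbove i)) := by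
          have h1 : c j * z j = m - b - ∑ i, c (j.succAbove i) * z (j.succAbove i) := by
            rw [← hbs, ← hc, hsum]; ring
          rw [← h1, ← hu, ← mul_assoc, Units.inv_mul, one_mul]
        rw [SetLike.mem_coe, e]
        refine Ideal.mul_mem_left _ _ (Ideal.sub_mem _ (Ideal.sub_mem _ ?_ ?_) ?_)
        · exact Ideal.mem_sup_left (Ideal.mem_sup_right (Ideal.mem_span_singleton_self m))
        · exact Ideal.mem_sup_left (Ideal.mem_sup_left hb)
        · refine Ideal.sum_mem _ fun i _ => Ideal.mul_mem_left _ _ ?_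
          exact Ideal.mem_sup_right (Ideal.subset_span ⟨i, rfl⟩)
      · exact Ideal.mem_sup_right (Ideal.subset_span ⟨i, rfl⟩)

/-- **common generators.** -/
theorem exists_common_gens : ∀ (g : ℕ) (𝔟₁ 𝔟₂ : Ideal R), maximalIdeal R ^ 2 ≤ 𝔟₁ →
    maximalIdeal R ^ 2 ≤ 𝔟₂ → ∀ z₁ z₂ : Fin g → R,
    𝔟₁ ⊔ Ideal.span (Set.range z₁) = maximalIdeal R →
    𝔟₂ ⊔ Ideal.span (Set.range z₂) = maximalIdeal R →
    ∃ y : Fin g → R, 𝔟₁ ⊔ Ideal.span (Set.range y) = maximalIdeal R ∧
      𝔟₂ ⊔ Ideal.span (Set.range y) = maximalIdeal R := by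
  intro g
  induction g with
  | zero =>
    intro 𝔟₁ 𝔟₂ _ _ z₁ z₂ h₁ h₂
    exact ⟨z₁, h₁, by
      have e : Set.range z₁ = Set.range z₂ := by
        ext x; constructor <;> rintro ⟨j, -⟩ <;> exact j.elim0
      rw [e]; exact h₂⟩
  | succ g ih =>
    intro 𝔟₁ 𝔟₂ hsq₁ hsq₂ z₁ z₂ h₁ h₂
    have hb₁ : 𝔟₁ ≤ maximalIdeal R := by rw [← h₁]; exact le_sup_left
    have hb₂ : 𝔟₂ ≤ maximalIdeal R := by rw [← h₂]; exact le_sup_left
    obtain ⟨m, hm, hm₁, hm₂⟩ := exists_mem_avoid 𝔟₁ 𝔟₂ hb₁ hb₂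
    obtain ⟨z₁', hz₁'⟩ := exists_exchange 𝔟₁ hsq₁ z₁ h₁ hm hm₁
    obtain ⟨z₂', hz₂'⟩ := exists_exchange 𝔟₂ hsq₂ z₂ h₂ hm hm₂
    obtain ⟨y', hy₁, hy₂⟩ := ih (𝔟₁ ⊔ Ideal.span {m}) (𝔟₂ ⊔ Ideal.span {m})
      (hsq₁.trans le_sup_left) (hsq₂.trans le_sup_left) z₁' z₂' hz₁' hz₂'
    refine ⟨Fin.cons m y', ?_, ?_⟩
    · rw [Fin.range_cons, Ideal.span_insert, ← sup_assoc]; exact hy₁
    · rw [Fin.range_cons, Ideal.span_insert, ← sup_assoc]; exact hy₂

/-- a surjective local homomorphism maps the maximal ideal onto the maximal ideal -/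
theorem map_maximalIdeal_of_surjective {T : Type*} [CommRing T] [IsLocalRing T] (f : R →+* T)
    (hf : Function.Surjective f) [IsLocalHom f] :
    (maximalIdeal R).map f = maximalIdeal T := by
  apply le_antisymm
  · rw [Ideal.map_le_iff_le_comap]
    intro x hx
    rw [Ideal.mem_comap, mem_maximalIdeal, mem_nonunits_iff]
    exact fun h => (mem_maximalIdeal x).1 hx (isUnit_of_map_unit f x h)
  · intro x hx
    obtain ⟨t, rfl⟩ := hf x
    refine Ideal.mem_map_of_mem f ?_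
    rw [mem_maximalIdeal, mem_nonunits_iff] at hx ⊢
    exact fun h => hx (h.map f)

theorem comap_le_maximalIdeal {T : Type*} [CommRing T] [IsLocalRing T] (f : R →+* T)
    [IsLocalHom f] {𝔞 : Ideal T} (h𝔞 : 𝔞 ≤ maximalIdeal T) : 𝔞.comap f ≤ maximalIdeal R := by
  intro x hx
  rw [mem_maximalIdeal, mem_nonunits_iff]
  intro hu
  exact (mem_maximalIdeal _).1 (h𝔞 (Ideal.mem_comap.1 hx)) (hu.map f)

/-- pull-back of a generating family of the cotangent quotient along a surjective local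
homomorphism -/
theorem exists_lift_gens {T : Type*} [CommRing T] [IsLocalRing T] (f : R →+* T)
    (hf : Function.Surjective f) [IsLocalHom f] {g : ℕ} (𝔞 : Ideal T)
    (hsq : maximalIdeal T ^ 2 ≤ 𝔞) (w : Fin g → T)
    (h : 𝔞 ⊔ Ideal.span (Set.range w) = maximalIdeal T) :
    maximalIdeal R ^ 2 ≤ 𝔞.comap f ∧
      ∃ z : Fin g → R, 𝔞.comap f ⊔ Ideal.span (Set.range z) = maximalIdeal R := by
  have h𝔞 : 𝔞 ≤ maximalIdeal T := by rw [← h]; exact le_sup_left
  have hw : ∀ j, w j ∈ maximalIdeal T := fun j => by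
    rw [← h]; exact Ideal.mem_sup_right (Ideal.subset_span ⟨j, rfl⟩)
  refine ⟨?_, ?_⟩
  · rw [← Ideal.map_le_iff_le_comap, Ideal.map_pow, map_maximalIdeal_of_surjective f hf]
    exact hsq
  · choose z hz using fun j => hf (w j)
    refine ⟨z, le_antisymm (sup_le (comap_le_maximalIdeal f h𝔞) ?_) ?_⟩
    · rw [Ideal.span_le]
      rintro _ ⟨j, rfl⟩
      rw [SetLike.mem_coe, mem_maximalIdeal, mem_nonunits_iff]
      intro hu
      exact (mem_maximalIdeal _).1 (hw j) (by rw [← hz j]; exact hu.map f)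
    · intro m hm
      have h1 : f m ∈ 𝔞 ⊔ Ideal.span (Set.range w) := by
        rw [h, ← map_maximalIdeal_of_surjective f hf]
        exact Ideal.mem_map_of_mem f hm
      obtain ⟨a, ha, s, hs, has⟩ := Submodule.mem_sup.1 h1
      obtain ⟨c, hc⟩ := (Ideal.mem_span_range_iff_exists_fun).1 hs
      choose c' hc' using fun j => hf (c j)
      have h2 : m - ∑ j, c' j * z j ∈ 𝔞.comap f := by
        rw [Ideal.mem_comap, map_sub, map_sum]
        have : ∑ j, f (c' j * z j) = s := by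
          rw [← hc]
          refine Finset.sum_congr rfl fun j _ => ?_
          rw [map_mul, hc', hz]
        rw [this, ← has, add_sub_cancel_right]
        exact ha
      have h3 : m = (m - ∑ j, c' j * z j) + ∑ j, c' j * z j := by ring
      rw [h3]
      refine Ideal.add_mem _ (Ideal.mem_sup_left h2) (Ideal.mem_sup_right ?_)
      exact Ideal.sum_mem _ fun j _ => Ideal.mul_mem_left _ _ (Ideal.subset_span ⟨j, rfl⟩)

/-- push-forward -/
theorem sup_span_map_eq {T : Type*} [CommRing T] [IsLocalRing T] (f : R →+* T)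
    (hf : Function.Surjective f) [IsLocalHom f] {g : ℕ} (𝔞 : Ideal T) (y : Fin g → R)
    (h : 𝔞.comap f ⊔ Ideal.span (Set.range y) = maximalIdeal R) :
    𝔞 ⊔ Ideal.span (Set.range fun j => f (y j)) = maximalIdeal T := by
  have h1 := congrArg (Ideal.map f) h
  rw [map_maximalIdeal_of_surjective f hf, Ideal.map_sup, Ideal.map_comap_of_surjective f hf,
    Ideal.map_span] at h1
  rw [← h1]
  congr 2
  ext x
  constructor
  · rintro ⟨j, rfl⟩; exact ⟨y j, ⟨j, rfl⟩, rfl⟩
  · rintro ⟨_, ⟨j, rfl⟩, rfl⟩; exact ⟨j, rfl⟩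

/-- **common generators for two quotients.** -/
theorem exists_common_gens_of_surjective {T₁ T₂ : Type*} [CommRing T₁] [IsLocalRing T₁]
    [CommRing T₂] [IsLocalRing T₂] (f₁ : R →+* T₁) (f₂ : R →+* T₂)
    (hf₁ : Function.Surjective f₁) (hf₂ : Function.Surjective f₂) [IsLocalHom f₁] [IsLocalHom f₂]
    (g : ℕ) (𝔞₁ : Ideal T₁) (𝔞₂ : Ideal T₂) (hsq₁ : maximalIdeal T₁ ^ 2 ≤ 𝔞₁)
    (hsq₂ : maximalIdeal T₂ ^ 2 ≤ 𝔞₂) (w₁ : Fin g → T₁) (w₂ : Fin g → T₂)
    (h₁ : 𝔞₁ ⊔ Ideal.span (Set.range w₁) = maximalIdeal T₁)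
    (h₂ : 𝔞₂ ⊔ Ideal.span (Set.range w₂) = maximalIdeal T₂) :
    ∃ y : Fin g → R, (∀ j, y j ∈ maximalIdeal R) ∧
      𝔞₁ ⊔ Ideal.span (Set.range fun j => f₁ (y j)) = maximalIdeal T₁ ∧
      𝔞₂ ⊔ Ideal.span (Set.range fun j => f₂ (y j)) = maximalIdeal T₂ := by
  obtain ⟨hq₁, z₁, hz₁⟩ := exists_lift_gens f₁ hf₁ 𝔞₁ hsq₁ w₁ h₁
  obtain ⟨hq₂, z₂, hz₂⟩ := exists_lift_gens f₂ hf₂ 𝔞₂ hsq₂ w₂ h₂
  obtain ⟨y, hy₁, hy₂⟩ := exists_common_gens g _ _ hq₁ hq₂ z₁ z₂ hz₁ hz₂
  refine ⟨y, fun j => ?_, sup_span_map_eq f₁ hf₁ 𝔞₁ y hy₁, sup_span_map_eq f₂ hf₂ 𝔞₂ y hy₂⟩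
  rw [← hy₁]
  exact Ideal.mem_sup_right (Ideal.subset_span ⟨j, rfl⟩)

end CommonGens

section Descend

variable {O : Type*} [CommRing O] {H Hbar : Type*} [AddCommGroup H] [Module O H]
  [AddCommGroup Hbar] [Module O Hbar] (red : H →ₗ[O] Hbar) (hred : Function.Surjective red)

theorem ker_le_comap_of_stable (e : Module.End O H) (he : ∀ x, red x = 0 → red (e x) = 0) :
    LinearMap.ker red ≤ Submodule.comap e (LinearMap.ker red) := fun x hx => by
  rw [Submodule.mem_comap, LinearMap.mem_ker]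
  exact he x (LinearMap.mem_ker.1 hx)

/-- the endomorphism of the quotient `Hbar` induced by an endomorphism of `H` preserving the
kernel -/
noncomputable def descEnd (e : Module.End O H) (he : ∀ x, red x = 0 → red (e x) = 0) :
    Module.End O Hbar :=
  ((red.quotKerEquivOfSurjective hred : (H ⧸ LinearMap.ker red) ≃ₗ[O] Hbar) : _ →ₗ[O] Hbar).comp
    ((Submodule.mapQ (LinearMap.ker red) (LinearMap.ker red) e
        (ker_le_comap_of_stable red e he)).comp
      ((red.quotKerEquivOfSurjective hred).symm : Hbar →ₗ[O] H ⧸ LinearMap.ker red))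

theorem descEnd_red (e : Module.End O H) (he : ∀ x, red x = 0 → red (e x) = 0) (x : H) :
    descEnd red hred e he (red x) = red (e x) := by
  have h1 : (red.quotKerEquivOfSurjective hred).symm (red x) =
      Submodule.Quotient.mk (p := LinearMap.ker red) x := by
    rw [LinearEquiv.symm_apply_eq]
    rfl
  show (red.quotKerEquivOfSurjective hred)
    (Submodule.mapQ _ _ e (ker_le_comap_of_stable red e he)
      ((red.quotKerEquivOfSurjective hred).symm (red x))) = red (e x)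
  rw [h1, Submodule.mapQ_apply]
  rfl

end Descend

section DescendAlg

variable {O : Type*} [CommRing O] {B₁ B₂ : Type*} [CommRing B₁] [Algebra O B₁] [CommRing B₂]
  [Algebra O B₂] (X : Set (B₁ × B₂))
  {H₁ H₂ Hbar : Type*} [AddCommGroup H₁] [Module O H₁] [AddCommGroup H₂] [Module O H₂]
  [AddCommGroup Hbar] [Module O Hbar]
  (h₁ : B₁ →ₐ[O] Module.End O H₁) (h₂ : B₂ →ₐ[O] Module.End O H₂)
  (red₁ : H₁ →ₗ[O] Hbar) (red₂ : H₂ →ₗ[O] Hbar)

/-- **the action of the subalgebra generated by `X` on the common quotient.** -/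
theorem exists_descend_algHom (hs₁ : Function.Surjective red₁) (hs₂ : Function.Surjective red₂)
    (hk₁ : ∀ (t : B₁) (x : H₁), red₁ x = 0 → red₁ (h₁ t x) = 0)
    (tb : B₁ × B₂ → Module.End O Hbar)
    (hX₁ : ∀ x ∈ X, ∀ y, red₁ (h₁ x.1 y) = tb x (red₁ y))
    (hX₂ : ∀ x ∈ X, ∀ y, red₂ (h₂ x.2 y) = tb x (red₂ y)) :
    ∃ hbar : ↥(Algebra.adjoin O X) →ₐ[O] Module.End O Hbar,
      (∀ (t : ↥(Algebra.adjoin O X)) (y : H₁),
        red₁ (h₁ (t : B₁ × B₂).1 y) = hbar t (red₁ y)) ∧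
      (∀ (t : ↥(Algebra.adjoin O X)) (y : H₂),
        red₂ (h₂ (t : B₁ × B₂).2 y) = hbar t (red₂ y)) := by
  -- the descended endomorphisms
  set dsc : B₁ → Module.End O Hbar := fun b => descEnd red₁ hs₁ (h₁ b) (hk₁ b) with hdsc
  have hd : ∀ b y, dsc b (red₁ y) = red₁ (h₁ b y) := fun b y => descEnd_red red₁ hs₁ _ _ y
  have hext : ∀ {e e' : Module.End O Hbar}, (∀ y, e (red₁ y) = e' (red₁ y)) → e = e' := by
    intro e e' h
    ext z
    obtain ⟨y, rfl⟩ := hs₁ z
    exact h y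
  let hbar : ↥(Algebra.adjoin O X) →ₐ[O] Module.End O Hbar :=
    { toFun := fun t => dsc (t : B₁ × B₂).1
      map_one' := hext fun y => by
        rw [hd]
        show red₁ (h₁ (1 : B₁) y) = _
        rw [map_one]; rfl
      map_mul' := fun t t' => hext fun y => by
        rw [hd]
        show red₁ (h₁ ((t : B₁ × B₂).1 * (t' : B₁ × B₂).1) y) = _
        rw [map_mul, Module.End.mul_apply, Module.End.mul_apply, ← hd, ← hd]
      map_zero' := hext fun y => by
        rw [hd]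
        show red₁ (h₁ (0 : B₁) y) = _
        rw [map_zero]; simp
      map_add' := fun t t' => hext fun y => by
        rw [hd]
        show red₁ (h₁ ((t : B₁ × B₂).1 + (t' : B₁ × B₂).1) y) = _
        rw [map_add, LinearMap.add_apply, map_add, LinearMap.add_apply, hd, hd]
      commutes' := fun c => hext fun y => by
        rw [hd]
        show red₁ (h₁ (algebraMap O B₁ c) y) = _
        rw [AlgHom.commutes, Module.algebraMap_end_apply, Module.algebraMap_end_apply, map_smul] }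
  have hbar_apply : ∀ t : ↥(Algebra.adjoin O X), hbar t = dsc (t : B₁ × B₂).1 := fun t => rfl
  refine ⟨hbar, fun t y => ?_, ?_⟩
  · rw [hbar_apply, hd]
  · rintro ⟨t, ht⟩ y
    rw [hbar_apply]
    show red₂ (h₂ t.2 y) = dsc t.1 (red₂ y)
    induction ht using Algebra.adjoin_induction generalizing y with
    | mem x hx =>
      rw [hX₂ x hx]
      have : dsc x.1 = tb x := hext fun y' => by rw [hd, hX₁ x hx]
      rw [this]
    | algebraMap c =>
      show red₂ (h₂ (algebraMap O B₂ c) y) = dsc (algebraMap O B₁ c) (red₂ y)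
      have : dsc (algebraMap O B₁ c) = algebraMap O (Module.End O Hbar) c := hext fun y' => by
        rw [hd, AlgHom.commutes, Module.algebraMap_end_apply, Module.algebraMap_end_apply, map_smul]
      rw [this, AlgHom.commutes, Module.algebraMap_end_apply, Module.algebraMap_end_apply, map_smul]
    | add a b _ _ iha ihb =>
      show red₂ (h₂ (a.2 + b.2) y) = dsc (a.1 + b.1) (red₂ y)
      have : dsc (a.1 + b.1) = dsc a.1 + dsc b.1 := hext fun y' => by
        rw [hd, map_add, LinearMap.add_apply, map_add, LinearMap.add_apply, hd, hd]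
      rw [this, map_add, LinearMap.add_apply, map_add, LinearMap.add_apply, iha, ihb]
    | mul a b _ _ iha ihb =>
      show red₂ (h₂ (a.2 * b.2) y) = dsc (a.1 * b.1) (red₂ y)
      have : dsc (a.1 * b.1) = dsc a.1 * dsc b.1 := hext fun y' => by
        rw [hd, map_mul, Module.End.mul_apply, Module.End.mul_apply, ← hd, ← hd]
      rw [this, map_mul, Module.End.mul_apply, Module.End.mul_apply, iha, ihb]

end DescendAlg

section Trace

open Fermat.Agent.S53.L1

variable {A : Type*} [CommRing A] {G : Type*} [Monoid G]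

/-- if `r` has full span and `tr (M r(g)) ∈ 𝔞` for all `g`, the entries of `M` lie in `𝔞` -/
theorem emem_of_trace_mem (r : G →* Mat2 A) (hr : FullSpan r) (𝔞 : Ideal A)
    (M : Matrix (Fin 2) (Fin 2) A) (h : ∀ g, (M * r g).trace ∈ 𝔞) : EMem 𝔞 M := by
  have hall : ∀ Y : Mat2 A, (M * Y).trace ∈ 𝔞 := by
    intro Y
    have hY : Y ∈ Submodule.span A (Set.range r) := by rw [hr]; trivial
    induction hY using Submodule.span_induction with
    | mem Z hZ => obtain ⟨g, rfl⟩ := hZ; exact h g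
    | zero => simp
    | add Y Z _ _ hY hZ => rw [mul_add, Matrix.trace_add]; exact Ideal.add_mem _ hY hZ
    | smul a Y _ hY =>
      rw [Matrix.mul_smul, Matrix.trace_smul]
      exact Ideal.mul_mem_left _ _ hY
  intro i j
  have := hall (Matrix.single j i 1)
  have e : (M * Matrix.single j i (1 : A)).trace = M i j := by
    fin_cases i <;> fin_cases j <;>
      simp [Matrix.trace_fin_two, Matrix.mul_apply, Matrix.single]
  rwa [e] at this

end Trace

end Fermat.Agent.RB.GLUE
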