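/-
PROJECT RB — [GLUE] (helper9), file 7: helper1's gluing theorem (GL) for TWO pieces: a noetherian
local ring `𝕋` with two surjective local homomorphisms `f₁ : 𝕋 → B₁`, `f₂ : 𝕋 → B₂`, jointly
injective, and adic representations `ρ₁`, `ρ₂` whose Frobenius characteristic polynomials come from
`𝕋`: there are a continuous `ρM : G_ℚ → GL₂(𝕋)` and bases of `ρ₁`, `ρ₂` in which `ρ₁ = f₁ ∘ ρM`,
`ρ₂ = f₂ ∘ ρM`.
-/
import Mathlib
import Fermat.Agent.RB.REPT_helper1_Glue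

set_option autoImplicit false
set_option linter.unusedSectionVars false
set_option linter.unusedVariables false
set_option linter.style.haveILetI false

namespace Fermat.Agent.RB.GLUE

open Polynomial IsLocalRing Fermat.Agent.S53 Fermat.Agent.S53.L1 Fermat.Agent.RB.REPT

local notation "Ω" => AlgebraicClosure ℚ
local notation "GQ" => (AlgebraicClosure ℚ ≃ₐ[ℚ] AlgebraicClosure ℚ)

/-- one piece of the family -/
structure Piece (𝕋 : Type) [CommRing 𝕋] : Type 1 where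
  B : Type
  [instCommRing : CommRing B]
  [instIsLocalRing : IsLocalRing B]
  f : 𝕋 →+* B
  ρ : GaloisRepAdic B

attribute [instance] Piece.instCommRing Piece.instIsLocalRing

section Two

variable {𝕋 : Type} [CommRing 𝕋] [IsLocalRing 𝕋] [IsNoetherianRing 𝕋]
  {B₁ B₂ : Type} [CommRing B₁] [IsLocalRing B₁] [CommRing B₂] [IsLocalRing B₂]
  (f₁ : 𝕋 →+* B₁) (f₂ : 𝕋 →+* B₂) (ρ₁ : GaloisRepAdic B₁) (ρ₂ : GaloisRepAdic B₂)

/-- the family of the two pieces -/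
def twoPieces : Bool → Piece 𝕋
  | true => ⟨B₁, f₁, ρ₁⟩
  | false => ⟨B₂, f₂, ρ₂⟩

/-- **(GL) for two pieces.** -/
theorem exists_matRep_two (h2 : IsUnit (2 : 𝕋))
    (hf₁ : Function.Surjective f₁) (hf₂ : Function.Surjective f₂)
    (hl₁ : IsLocalHom f₁) (hl₂ : IsLocalHom f₂)
    (hinj : ∀ x : 𝕋, f₁ x = 0 → f₂ x = 0 → x = 0)
    (S : Finset ℕ) (t d : ℕ → 𝕋)
    (hchar₁ : ∀ ℓ : ℕ, ℓ.Prime → ℓ ∉ S → ∀ A : ValuationSubring Ω, A.LiesOverPrime ℓ →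
      ∀ σ : GQ, A.IsFrobeniusAt σ ℓ → LinearMap.charpoly (ρ₁.ρ σ) =
        X ^ 2 - C (f₁ (t ℓ)) * X + C (f₁ (d ℓ)))
    (hchar₂ : ∀ ℓ : ℕ, ℓ.Prime → ℓ ∉ S → ∀ A : ValuationSubring Ω, A.LiesOverPrime ℓ →
      ∀ σ : GQ, A.IsFrobeniusAt σ ℓ → LinearMap.charpoly (ρ₂.ρ σ) =
        X ^ 2 - C (f₂ (t ℓ)) * X + C (f₂ (d ℓ)))
    (c₀ : GQ) (hc₀ : c₀ * c₀ = 1) (hdet₁ : LinearMap.det (ρ₁.ρ c₀) = -1)
    (hdet₂ : LinearMap.det (ρ₂.ρ c₀) = -1)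
    (hirr : ρ₁.residual.IsAbsolutelyIrreducible) :
    ∃ (ρM : GQ →* Mat2 𝕋) (bs₁ : Module.Basis (Fin 2) B₁ ρ₁.V)
      (bs₂ : Module.Basis (Fin 2) B₂ ρ₂.V),
      (∀ σ, (ρM σ).map f₁ = matRep ρ₁ bs₁ σ) ∧ (∀ σ, (ρM σ).map f₂ = matRep ρ₂ bs₂ σ) ∧
      MatAdicCont ρM ∧ FullSpan (mapRep (residue 𝕋) ρM) := by
  set pc : Bool → Piece 𝕋 := twoPieces f₁ f₂ ρ₁ ρ₂ with hpc
  letI : ∀ i, Algebra 𝕋 (pc i).B := fun i => (pc i).f.toAlgebra
  have hsurj : ∀ i, Function.Surjective (pc i).f := by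
    rintro (_ | _)
    · exact hf₂
    · exact hf₁
  haveI : ∀ i, Module.Finite 𝕋 (pc i).B := fun i =>
    Module.Finite.of_surjective (Algebra.linearMap 𝕋 (pc i).B) (hsurj i)
  have hloc : ∀ i, IsLocalHom (algebraMap 𝕋 (pc i).B) := by
    rintro (_ | _)
    · exact hl₂
    · exact hl₁
  have he : ∀ i, maximalIdeal (pc i).B ^ 1 ≤ (maximalIdeal 𝕋).map (algebraMap 𝕋 (pc i).B) := by
    intro i x hx
    rw [pow_one] at hx
    obtain ⟨y, rfl⟩ := hsurj i x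
    refine Ideal.mem_map_of_mem _ ?_
    rw [mem_maximalIdeal, mem_nonunits_iff] at hx ⊢
    exact fun hy => hx (hy.map _)
  have hinj' : ∀ x : 𝕋, (∀ i, algebraMap 𝕋 (pc i).B x = 0) → x = 0 :=
    fun x hx => hinj x (hx true) (hx false)
  have hchar : ∀ (i : Bool) (ℓ : ℕ), ℓ.Prime → ℓ ∉ S → ∀ A : ValuationSubring Ω,
      A.LiesOverPrime ℓ → ∀ σ : GQ, A.IsFrobeniusAt σ ℓ →
      LinearMap.charpoly ((pc i).ρ.ρ σ) =
        X ^ 2 - C (algebraMap 𝕋 (pc i).B (t ℓ)) * X + C (algebraMap 𝕋 (pc i).B (d ℓ)) := by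
    rintro (_ | _)
    · exact hchar₂
    · exact hchar₁
  have hdet : ∀ i, LinearMap.det ((pc i).ρ.ρ c₀) = -1 := by
    rintro (_ | _)
    · exact hdet₂
    · exact hdet₁
  obtain ⟨ρM, bs, h1, h3, h4, -⟩ := exists_matRep_of_points (T := 𝕋) (B := fun i => (pc i).B)
    h2 hloc 1 he hinj' (fun i => (pc i).ρ) S t d hchar c₀ hc₀ hdet true hirr
  exact ⟨ρM, bs true, bs false, h1 true, h1 false, h3, h4⟩

end Two

end Fermat.Agent.RB.GLUE
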