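/-
PROJECT RB — [TALG] (helper4): **the trace algebra `𝕋 = O[X] ⊂ B₁ × B₂`.**

`O` a complete noetherian local ring, `B₁, B₂` local `O`-algebras, finite over `O`, with local
structure maps; `X ⊂ B₁ × B₂` a set of pairs congruent to a common scalar modulo the maximal
ideals.  Then `𝕋 = Algebra.adjoin O X` (as a type) is

* `isLocalRing_adjoin`      : a local ring,
* `isNoetherianRing_adjoin`, `moduleFinite_adjoin` : noetherian and finite over `O`,
* `isLocalHom_algebraMap_adjoin` : with local structure map,
* `isAdicComplete_adjoin`   : complete for its maximal ideal,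
* `residue_surjective_adjoin` : with residue field generated by `O`,
* `prFst`, `prSnd`, `isLocalHom_prFst/Snd` : the projections are local homomorphisms,
* `prFst_surjective`, `prSnd_surjective` : surjective as soon as the projections of `X` generate.

General lemma `exists_mul_eq_one_of_isUnit` : a subalgebra of a noetherian module-finite algebra
contains the inverses of its elements which are units of the ambient algebra.
-/
import Mathlib
import Fermat.Prelude.Thm_IsLocalRing_isAdicComplete_of_module_finite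

set_option autoImplicit false
set_option linter.unusedSectionVars false
set_option linter.style.haveILetI false

namespace Fermat.Agent.RB.TALG

open IsLocalRing

section Inv

variable {R B : Type*} [CommRing R] [CommRing B] [Algebra R B] [IsNoetherian R B]

/-- a subalgebra of a noetherian algebra contains the inverses of its elements which are units of
the ambient algebra. -/
theorem exists_mul_eq_one_of_isUnit (S : Subalgebra R B) {t : B} (ht : t ∈ S) (hu : IsUnit t) :
    ∃ s ∈ S, t * s = 1 := by
  obtain ⟨u, rfl⟩ := hu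
  -- the chain `{b | t ^ k * b ∈ S}`
  let f : ℕ →o Submodule R B :=
    { toFun := fun k => (Subalgebra.toSubmodule S).comap (LinearMap.mulLeft R ((u : B) ^ k))
      monotone' := by
        intro k l hkl b hb
        rw [Submodule.mem_comap, LinearMap.mulLeft_apply, Subalgebra.mem_toSubmodule] at hb ⊢
        obtain ⟨m, rfl⟩ := Nat.exists_eq_add_of_le hkl
        rw [pow_add, mul_comm ((u : B) ^ k), mul_assoc]
        exact S.mul_mem (S.pow_mem ht m) hb }
  obtain ⟨n, hn⟩ := monotone_stabilizes_iff_noetherian.2 (inferInstance : IsNoetherian R B) f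
  have h1 : ((u⁻¹ : Bˣ) : B) ^ (n + 1) ∈ f (n + 1) := by
    show (u : B) ^ (n + 1) * ((u⁻¹ : Bˣ) : B) ^ (n + 1) ∈ S
    rw [← mul_pow, Units.mul_inv, one_pow]
    exact S.one_mem
  rw [← hn (n + 1) (Nat.le_succ n)] at h1
  have h2 : (u : B) ^ n * ((u⁻¹ : Bˣ) : B) ^ (n + 1) ∈ S := h1
  rw [pow_succ, ← mul_assoc, ← mul_pow, Units.mul_inv, one_pow, one_mul] at h2
  exact ⟨_, h2, Units.mul_inv u⟩

end Inv

section Main

variable {O : Type*} [CommRing O] [IsLocalRing O] [IsNoetherianRing O]
  {B₁ B₂ : Type*} [CommRing B₁] [IsLocalRing B₁] [Algebra O B₁] [IsLocalHom (algebraMap O B₁)]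
  [Module.Finite O B₁]
  [CommRing B₂] [IsLocalRing B₂] [Algebra O B₂] [IsLocalHom (algebraMap O B₂)]
  [Module.Finite O B₂]
  (X : Set (B₁ × B₂))
  (hX : ∀ x ∈ X, ∃ c : O, x.1 - algebraMap O B₁ c ∈ maximalIdeal B₁ ∧
    x.2 - algebraMap O B₂ c ∈ maximalIdeal B₂)

theorem algebraMap_mem_maximalIdeal_iff {B : Type*} [CommRing B] [IsLocalRing B] [Algebra O B]
    [IsLocalHom (algebraMap O B)] (c : O) :
    algebraMap O B c ∈ maximalIdeal B ↔ c ∈ maximalIdeal O := by
  rw [mem_maximalIdeal, mem_maximalIdeal, mem_nonunits_iff, mem_nonunits_iff, not_iff_not]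
  exact ⟨fun h => IsLocalHom.map_nonunit c h, fun h => h.map _⟩

include hX

/-- every element of the trace algebra is congruent to a common scalar on both sides. -/
theorem exists_scalar {t : B₁ × B₂} (ht : t ∈ Algebra.adjoin O X) :
    ∃ c : O, t.1 - algebraMap O B₁ c ∈ maximalIdeal B₁ ∧
      t.2 - algebraMap O B₂ c ∈ maximalIdeal B₂ := by
  induction ht using Algebra.adjoin_induction with
  | mem x hx => exact hX x hx
  | algebraMap c =>
    refine ⟨c, ?_, ?_⟩
    · rw [Prod.algebraMap_apply, sub_self]; exact Ideal.zero_mem _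
    · rw [Prod.algebraMap_apply, sub_self]; exact Ideal.zero_mem _
  | add x y _ _ hx hy =>
    obtain ⟨c, hc1, hc2⟩ := hx
    obtain ⟨c', hc1', hc2'⟩ := hy
    refine ⟨c + c', ?_, ?_⟩
    · have : (x + y).1 - algebraMap O B₁ (c + c') =
          (x.1 - algebraMap O B₁ c) + (y.1 - algebraMap O B₁ c') := by
        rw [Prod.fst_add, map_add]; ring
      rw [this]; exact Ideal.add_mem _ hc1 hc1'
    · have : (x + y).2 - algebraMap O B₂ (c + c') =
          (x.2 - algebraMap O B₂ c) + (y.2 - algebraMap O B₂ c') := by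
        rw [Prod.snd_add, map_add]; ring
      rw [this]; exact Ideal.add_mem _ hc2 hc2'
  | mul x y _ _ hx hy =>
    obtain ⟨c, hc1, hc2⟩ := hx
    obtain ⟨c', hc1', hc2'⟩ := hy
    refine ⟨c * c', ?_, ?_⟩
    · have : (x * y).1 - algebraMap O B₁ (c * c') =
          x.1 * (y.1 - algebraMap O B₁ c') + algebraMap O B₁ c' * (x.1 - algebraMap O B₁ c) := by
        rw [Prod.fst_mul, map_mul]; ring
      rw [this]
      exact Ideal.add_mem _ (Ideal.mul_mem_left _ _ hc1') (Ideal.mul_mem_left _ _ hc1)
    · have : (x * y).2 - algebraMap O B₂ (c * c') =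
          x.2 * (y.2 - algebraMap O B₂ c') + algebraMap O B₂ c' * (x.2 - algebraMap O B₂ c) := by
        rw [Prod.snd_mul, map_mul]; ring
      rw [this]
      exact Ideal.add_mem _ (Ideal.mul_mem_left _ _ hc2') (Ideal.mul_mem_left _ _ hc2)

/-- the two projections of an element of the trace algebra are units simultaneously. -/
theorem fst_mem_iff_snd_mem {t : B₁ × B₂} (ht : t ∈ Algebra.adjoin O X) :
    t.1 ∈ maximalIdeal B₁ ↔ t.2 ∈ maximalIdeal B₂ := by
  obtain ⟨c, hc1, hc2⟩ := exists_scalar X hX ht
  have h1 : t.1 ∈ maximalIdeal B₁ ↔ c ∈ maximalIdeal O := by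
    rw [← algebraMap_mem_maximalIdeal_iff (B := B₁) c]
    constructor
    · intro h
      have := Ideal.sub_mem _ h hc1
      rwa [sub_sub_cancel] at this
    · intro h
      have := Ideal.add_mem _ hc1 h
      rwa [sub_add_cancel] at this
  have h2 : t.2 ∈ maximalIdeal B₂ ↔ c ∈ maximalIdeal O := by
    rw [← algebraMap_mem_maximalIdeal_iff (B := B₂) c]
    constructor
    · intro h
      have := Ideal.sub_mem _ h hc2
      rwa [sub_sub_cancel] at this
    · intro h
      have := Ideal.add_mem _ hc2 h
      rwa [sub_add_cancel] at this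
  rw [h1, h2]

/-- the units of the trace algebra. -/
theorem isUnit_iff_fst (t : ↥(Algebra.adjoin O X)) :
    IsUnit t ↔ IsUnit (t : B₁ × B₂).1 := by
  constructor
  · intro h
    exact (h.map (Algebra.adjoin O X).val).map (RingHom.fst B₁ B₂)
  · intro h
    have h1 : (t : B₁ × B₂).1 ∉ maximalIdeal B₁ := by
      rw [mem_maximalIdeal, mem_nonunits_iff, not_not]; exact h
    have h2 : IsUnit (t : B₁ × B₂).2 := by
      rw [fst_mem_iff_snd_mem X hX t.2, mem_maximalIdeal, mem_nonunits_iff, not_not] at h1
      exact h1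
    have h3 : IsUnit (t : B₁ × B₂) := Prod.isUnit_iff.2 ⟨h, h2⟩
    obtain ⟨s, hs, hts⟩ := exists_mul_eq_one_of_isUnit (Algebra.adjoin O X) t.2 h3
    exact IsUnit.of_mul_eq_one (⟨s, hs⟩ : ↥(Algebra.adjoin O X)) (Subtype.ext hts)

theorem isUnit_iff_snd (t : ↥(Algebra.adjoin O X)) :
    IsUnit t ↔ IsUnit (t : B₁ × B₂).2 := by
  rw [isUnit_iff_fst X hX]
  have := fst_mem_iff_snd_mem X hX t.2
  rw [mem_maximalIdeal, mem_maximalIdeal, mem_nonunits_iff, mem_nonunits_iff, not_iff_not] at this
  exact this

/-- **the trace algebra is local.** -/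
theorem isLocalRing_adjoin : IsLocalRing ↥(Algebra.adjoin O X) := by
  haveI : Nontrivial ↥(Algebra.adjoin O X) := inferInstance
  refine IsLocalRing.of_nonunits_add (fun a b ha hb => ?_)
  rw [mem_nonunits_iff, isUnit_iff_fst X hX] at ha hb ⊢
  have ha' : (a : B₁ × B₂).1 ∈ maximalIdeal B₁ := (mem_maximalIdeal _).2 ha
  have hb' : (b : B₁ × B₂).1 ∈ maximalIdeal B₁ := (mem_maximalIdeal _).2 hb
  exact (mem_maximalIdeal _).1 (Ideal.add_mem _ ha' hb')

omit hX in
/-- the trace algebra is finite over `O`. -/
theorem moduleFinite_adjoin : Module.Finite O ↥(Algebra.adjoin O X) := by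
  haveI : IsNoetherian O (B₁ × B₂) := isNoetherian_of_isNoetherianRing_of_finite O _
  exact Module.Finite.of_injective (Algebra.adjoin O X).val.toLinearMap Subtype.val_injective

omit hX in
/-- the trace algebra is noetherian. -/
theorem isNoetherianRing_adjoin : IsNoetherianRing ↥(Algebra.adjoin O X) := by
  haveI := moduleFinite_adjoin (O := O) X
  exact IsNoetherianRing.of_finite O _

omit hX in
/-- the structure map of the trace algebra is local. -/
theorem isLocalHom_algebraMap_adjoin : IsLocalHom (algebraMap O ↥(Algebra.adjoin O X)) := by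
  refine ⟨fun c hc => ?_⟩
  have h1 : IsUnit (algebraMap O B₁ c) := by
    have h2 := (hc.map (Algebra.adjoin O X).val).map (RingHom.fst B₁ B₂)
    simpa using h2
  exact IsLocalHom.map_nonunit c h1

/-- the maximal ideal of the trace algebra. -/
theorem mem_maximalIdeal_adjoin_iff_fst (t : ↥(Algebra.adjoin O X)) :
    haveI := isLocalRing_adjoin X hX
    t ∈ maximalIdeal ↥(Algebra.adjoin O X) ↔ (t : B₁ × B₂).1 ∈ maximalIdeal B₁ := by
  haveI := isLocalRing_adjoin X hX
  rw [mem_maximalIdeal, mem_maximalIdeal, mem_nonunits_iff, mem_nonunits_iff,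
    isUnit_iff_fst X hX]

theorem mem_maximalIdeal_adjoin_iff_snd (t : ↥(Algebra.adjoin O X)) :
    haveI := isLocalRing_adjoin X hX
    t ∈ maximalIdeal ↥(Algebra.adjoin O X) ↔ (t : B₁ × B₂).2 ∈ maximalIdeal B₂ := by
  haveI := isLocalRing_adjoin X hX
  rw [mem_maximalIdeal, mem_maximalIdeal, mem_nonunits_iff, mem_nonunits_iff,
    isUnit_iff_snd X hX]

/-- **the trace algebra is complete for its maximal ideal.** -/
theorem isAdicComplete_adjoin [IsAdicComplete (maximalIdeal O) O] :
    haveI := isLocalRing_adjoin X hX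
    IsAdicComplete (maximalIdeal ↥(Algebra.adjoin O X)) ↥(Algebra.adjoin O X) := by
  haveI := isLocalRing_adjoin X hX
  haveI := moduleFinite_adjoin (O := O) X
  haveI := isLocalHom_algebraMap_adjoin (O := O) X
  exact IsLocalRing.isAdicComplete_of_module_finite (𝒪 := O)

/-- the residue field of the trace algebra is generated by `O`. -/
theorem residue_surjective_adjoin :
    haveI := isLocalRing_adjoin X hX
    Function.Surjective
      (residue ↥(Algebra.adjoin O X) ∘ algebraMap O ↥(Algebra.adjoin O X)) := by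
  haveI := isLocalRing_adjoin X hX
  intro y
  obtain ⟨t, rfl⟩ := residue_surjective y
  obtain ⟨c, hc1, -⟩ := exists_scalar X hX t.2
  refine ⟨c, ?_⟩
  rw [Function.comp_apply, ← sub_eq_zero, ← map_sub, residue_eq_zero_iff,
    mem_maximalIdeal_adjoin_iff_fst X hX]
  have h1 : ((algebraMap O ↥(Algebra.adjoin O X) c - t : ↥(Algebra.adjoin O X)) : B₁ × B₂).1 =
      -((t : B₁ × B₂).1 - algebraMap O B₁ c) := by
    simp
  rw [h1]
  exact (Ideal.neg_mem_iff _).2 hc1

omit hX in
/-- the first projection. -/
noncomputable def prFst : ↥(Algebra.adjoin O X) →ₐ[O] B₁ :=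
  (AlgHom.fst O B₁ B₂).comp (Algebra.adjoin O X).val

omit hX in
/-- the second projection. -/
noncomputable def prSnd : ↥(Algebra.adjoin O X) →ₐ[O] B₂ :=
  (AlgHom.snd O B₁ B₂).comp (Algebra.adjoin O X).val

omit hX in
theorem prFst_apply (t : ↥(Algebra.adjoin O X)) : prFst X t = (t : B₁ × B₂).1 := rfl

omit hX in
theorem prSnd_apply (t : ↥(Algebra.adjoin O X)) : prSnd X t = (t : B₁ × B₂).2 := rfl

/-- the projections are local homomorphisms. -/
theorem isLocalHom_prFst : IsLocalHom (prFst (O := O) X) :=
  ⟨fun t ht => (isUnit_iff_fst X hX t).2 ht⟩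

theorem isLocalHom_prSnd : IsLocalHom (prSnd (O := O) X) :=
  ⟨fun t ht => (isUnit_iff_snd X hX t).2 ht⟩

omit hX in
/-- the projections are surjective as soon as the projections of `X` generate. -/
theorem prFst_surjective (h : Algebra.adjoin O (Prod.fst '' X) = ⊤) :
    Function.Surjective (prFst (O := O) X) := by
  rw [← AlgHom.range_eq_top, prFst, AlgHom.range_comp, Subalgebra.range_val, AlgHom.map_adjoin]
  exact h

omit hX in
theorem prSnd_surjective (h : Algebra.adjoin O (Prod.snd '' X) = ⊤) :
    Function.Surjective (prSnd (O := O) X) := by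
  rw [← AlgHom.range_eq_top, prSnd, AlgHom.range_comp, Subalgebra.range_val, AlgHom.map_adjoin]
  exact h

end Main

end Fermat.Agent.RB.TALG
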