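/-
PROJECT RB — [GLUE] (helper9), file 9: **the trace algebra `𝕋 ⊆ T₁ × T₂` of a Taylor–Wiles level,
the representation `ρM : G_ℚ → GL₂(𝕋)` inducing `ρ₁` and `ρ₂`, and the action of `𝕋` on the common
reduction `Hbar`.**
-/
import Mathlib
import Fermat.Agent.RB.IFACE_helper9_TW
import Fermat.Agent.RB.TALG_helper4_Main
import Fermat.Agent.RB.GLUE_helper9_Residual
import Fermat.Agent.RB.GLUE_helper9_Two
import Fermat.Agent.RB.GLUE_helper9_Frob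
import Fermat.Agent.RB.GLUE_helper9_Alg
import Fermat.Agent.GR.S34TOP_helper4

set_option autoImplicit false
set_option linter.unusedSectionVars false
set_option linter.unusedVariables false
set_option linter.style.haveILetI false

namespace Fermat.Agent.RB.GLUE

open Polynomial IsLocalRing Fermat.Agent.S53 Fermat.Agent.S53.L1 Fermat.Agent.RB.REPT
open Fermat.Agent.CFT.Arith Fermat.Agent.CFT.LocForm

local notation "Ω" => AlgebraicClosure ℚ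
local notation "GQ" => (AlgebraicClosure ℚ ≃ₐ[ℚ] AlgebraicClosure ℚ)

/-- a chosen Frobenius element at the place `padicPlace ℓ` -/
noncomputable def frobElt (ℓ : ℕ) : GQ :=
  if h : ℓ.Prime then
    (haveI : Fact ℓ.Prime := ⟨h⟩
     Fermat.Agent.TW.Kill.exists_isFrobeniusAt (padicPlace ℓ) h
      (Fermat.Agent.TW.Kill.padicPlace_liesOverPrime ℓ)).choose
  else 1

theorem frobElt_spec (ℓ : ℕ) [hℓ : Fact ℓ.Prime] : (padicPlace ℓ).IsFrobeniusAt (frobElt ℓ) ℓ := by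
  rw [frobElt, dif_pos hℓ.out]
  exact (Fermat.Agent.TW.Kill.exists_isFrobeniusAt (padicPlace ℓ) hℓ.out
      (Fermat.Agent.TW.Kill.padicPlace_liesOverPrime ℓ)).choose_spec

section Odd

variable {O : Type*} [CommRing O] [IsLocalRing O]

theorem isUnit_two_of_odd {p : ℕ} (hp : p.Prime) (hp2 : p ≠ 2) (hpO : (p : O) ∈ maximalIdeal O) :
    IsUnit (2 : O) := by
  by_contra h
  have h2m : (2 : O) ∈ maximalIdeal O := (mem_maximalIdeal _).2 h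
  obtain ⟨k, hk⟩ := hp.odd_of_ne_two hp2
  have h1 : (1 : O) = (p : O) - 2 * (k : O) := by
    rw [hk]; push_cast; ring
  have : (1 : O) ∈ maximalIdeal O := by
    rw [h1]
    exact Ideal.sub_mem _ hpO (Ideal.mul_mem_right _ _ h2m)
  exact (Ideal.ne_top_iff_one _).1 (maximalIdeal.isMaximal O).ne_top this

end Odd

section

variable {𝒪 : Type} [CommRing 𝒪] [IsDomain 𝒪] [IsDiscreteValuationRing 𝒪]
  [IsAdicComplete (maximalIdeal 𝒪) 𝒪]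
  {N : ℕ} [NeZero N] {S : Finset ℕ}
  {θ : CuspForm.heckeAlgebra N 2 (S : Set ℕ) →+* ResidueField 𝒪}
  {T : Type} [CommRing T] [IsLocalRing T] [IsNoetherianRing T]
  [IsAdicComplete (maximalIdeal T) T] [Algebra 𝒪 T] [IsLocalHom (algebraMap 𝒪 T)]
  [Module.Finite 𝒪 T] [Module.Free 𝒪 T]
  {p : ℕ} {datum : CuspForm.HeckeGaloisRepDatum N (S : Set ℕ) 𝒪 θ T}
  {Sig : Finset ℕ} {ζ lam : 𝒪} {ρbar : ResidualGaloisRep (ResidueField 𝒪)}
  {r d : ℕ} {M0 : Type} [AddCommGroup M0] [Module 𝒪 M0] [Module T M0]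
  {n : ℕ} {Q : Fin r → ℕ}

attribute [instance] TWGaloisLevel.instAddCommGroupBar TWGaloisLevel.instModuleBar

/-- **the glue data of a Taylor–Wiles level** -/
structure GlueData (L : TWGaloisLevel p datum Sig ζ lam ρbar r d M0 n Q) : Type 1 where
  𝕋 : Type
  [instCommRing : CommRing 𝕋]
  [instIsLocalRing : IsLocalRing 𝕋]
  [instIsNoetherianRing : IsNoetherianRing 𝕋]
  [instAlgebra : Algebra 𝒪 𝕋]
  [instIsAdicComplete : IsAdicComplete (maximalIdeal 𝕋) 𝕋]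
  pr₁ : 𝕋 →ₐ[𝒪] L.side₁.T
  pr₂ : 𝕋 →ₐ[𝒪] L.side₂.T
  pr₁_surjective : Function.Surjective pr₁
  pr₂_surjective : Function.Surjective pr₂
  pr₁_local : IsLocalHom pr₁
  pr₂_local : IsLocalHom pr₂
  inj : ∀ t : 𝕋, pr₁ t = 0 → pr₂ t = 0 → t = 0
  ρM : GQ →* Mat2 𝕋
  cont : MatAdicCont ρM
  bs₁ : Module.Basis (Fin 2) L.side₁.T L.side₁.ρ.V
  bs₂ : Module.Basis (Fin 2) L.side₂.T L.side₂.ρ.V
  map₁ : ∀ σ, (ρM σ).map pr₁ = matRep L.side₁.ρ bs₁ σ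
  map₂ : ∀ σ, (ρM σ).map pr₂ = matRep L.side₂.ρ bs₂ σ
  hbar : 𝕋 →ₐ[𝒪] Module.End 𝒪 L.Hbar
  red₁_hbar : ∀ (t : 𝕋) (y : L.side₁.H), L.red₁ (L.side₁.h (pr₁ t) y) = hbar t (L.red₁ y)
  red₂_hbar : ∀ (t : 𝕋) (y : L.side₂.H), L.red₂ (L.side₂.h (pr₂ t) y) = hbar t (L.red₂ y)

attribute [instance] GlueData.instCommRing GlueData.instIsLocalRing GlueData.instIsNoetherianRing
  GlueData.instAlgebra GlueData.instIsAdicComplete

variable (L : TWGaloisLevel p datum Sig ζ lam ρbar r d M0 n Q)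

/-- the set of pairs of traces -/
def tracePairs : Set (L.side₁.T × L.side₂.T) :=
  Set.range fun σ : GQ => (L.side₁.ρ.trace σ, L.side₂.ρ.trace σ)

theorem tracePairs_scalar (x : L.side₁.T × L.side₂.T) (hx : x ∈ tracePairs L) :
    ∃ c : 𝒪, x.1 - algebraMap 𝒪 L.side₁.T c ∈ maximalIdeal L.side₁.T ∧
      x.2 - algebraMap 𝒪 L.side₂.T c ∈ maximalIdeal L.side₂.T := by
  obtain ⟨σ, rfl⟩ := hx
  obtain ⟨c, hc⟩ := residue_surjective (LinearMap.trace _ ρbar.V (ρbar.ρ σ))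
  refine ⟨c, ?_, ?_⟩
  · rw [← residue_eq_zero_iff, map_sub, sub_eq_zero]
    show residue _ (L.side₁.ρ.trace σ) = _
    rw [residue_trace L.side₁.ρ _ ρbar L.side₁.residual_isEquiv σ, ← hc]
    rfl
  · rw [← residue_eq_zero_iff, map_sub, sub_eq_zero]
    show residue _ (L.side₂.ρ.trace σ) = _
    rw [residue_trace L.side₂.ρ _ ρbar L.side₂.residual_isEquiv σ, ← hc]
    rfl

theorem image_fst_tracePairs :
    Prod.fst '' tracePairs L = Set.range L.side₁.ρ.trace := by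
  ext x
  constructor
  · rintro ⟨_, ⟨σ, rfl⟩, rfl⟩; exact ⟨σ, rfl⟩
  · rintro ⟨σ, rfl⟩; exact ⟨_, ⟨σ, rfl⟩, rfl⟩

theorem image_snd_tracePairs :
    Prod.snd '' tracePairs L = Set.range L.side₂.ρ.trace := by
  ext x
  constructor
  · rintro ⟨_, ⟨σ, rfl⟩, rfl⟩; exact ⟨σ, rfl⟩
  · rintro ⟨σ, rfl⟩; exact ⟨_, ⟨σ, rfl⟩, rfl⟩

/-- the Frobenius characteristic polynomials of a deformation of type `twCondition` -/
theorem charpoly_frobenius_of_twCondition [hp : Fact p.Prime] {B : Type} [CommRing B]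
    [IsLocalRing B] [IsNoetherianRing B] [Algebra 𝒪 B] (ρ : GaloisRepAdic B) (Qs : Finset ℕ)
    (hρ : twCondition 𝒪 p S Sig Qs ρ) (hpS : p ∈ S) {ℓ : ℕ} (hℓ : ℓ.Prime) (hℓS : ℓ ∉ S ∪ Qs)
    {A : ValuationSubring Ω} (hA : A.LiesOverPrime ℓ) {σ : GQ} (hσ : A.IsFrobeniusAt σ ℓ) :
    LinearMap.charpoly (ρ.ρ σ) = X ^ 2 - C (ρ.trace (frobElt ℓ)) * X + C (ℓ : B) := by
  haveI : Fact ℓ.Prime := ⟨hℓ⟩
  have hℓp : ℓ ≠ p := by
    rintro rfl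
    exact hℓS (Finset.mem_union_left _ hpS)
  rw [charpoly_frobenius_eq ρ hℓ (hρ.1.2.2 ℓ hℓ hℓS) hA
    (Fermat.Agent.TW.Kill.padicPlace_liesOverPrime ℓ) hσ (frobElt_spec ℓ),
    Fermat.Agent.GR.charpoly_eq_of_finrank_eq_two ρ.finrank_eq,
    det_frobenius_eq ρ hp.out hρ.1.1 hℓ hℓp (Fermat.Agent.TW.Kill.padicPlace_liesOverPrime ℓ)
      (frobElt_spec ℓ)]
  rfl

/-- the representation `ρM` over an abstract trace algebra -/
theorem exists_matRep_of_level [hp : Fact p.Prime] (hp2 : p ≠ 2) (hp𝒪 : (p : 𝒪) ∈ maximalIdeal 𝒪)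
    (hpS : p ∈ S) (habs : ρbar.IsAbsolutelyIrreducible)
    {𝕋 : Type} [CommRing 𝕋] [IsLocalRing 𝕋] [IsNoetherianRing 𝕋] [Algebra 𝒪 𝕋]
    (pr₁ : 𝕋 →ₐ[𝒪] L.side₁.T) (pr₂ : 𝕋 →ₐ[𝒪] L.side₂.T)
    (hs₁ : Function.Surjective pr₁) (hs₂ : Function.Surjective pr₂)
    (hl₁ : IsLocalHom pr₁) (hl₂ : IsLocalHom pr₂)
    (hinj : ∀ t : 𝕋, pr₁ t = 0 → pr₂ t = 0 → t = 0)
    (t : ℕ → 𝕋) (ht₁ : ∀ ℓ, pr₁ (t ℓ) = L.side₁.ρ.trace (frobElt ℓ))
    (ht₂ : ∀ ℓ, pr₂ (t ℓ) = L.side₂.ρ.trace (frobElt ℓ)) :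
    ∃ (ρM : GQ →* Mat2 𝕋) (bs₁ : Module.Basis (Fin 2) L.side₁.T L.side₁.ρ.V)
      (bs₂ : Module.Basis (Fin 2) L.side₂.T L.side₂.ρ.V),
      (∀ σ, (ρM σ).map pr₁ = matRep L.side₁.ρ bs₁ σ) ∧
      (∀ σ, (ρM σ).map pr₂ = matRep L.side₂.ρ bs₂ σ) ∧ MatAdicCont ρM := by
  have h2 : IsUnit (2 : 𝕋) := by
    have := (isUnit_two_of_odd hp.out hp2 hp𝒪).map (algebraMap 𝒪 𝕋)
    rwa [map_ofNat] at this
  set Qs : Finset ℕ := Finset.univ.image Q with hQs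
  set f₁ : 𝕋 →+* L.side₁.T := (pr₁ : 𝕋 →+* L.side₁.T) with hf₁
  set f₂ : 𝕋 →+* L.side₂.T := (pr₂ : 𝕋 →+* L.side₂.T) with hf₂
  have hchar₁ : ∀ ℓ : ℕ, ℓ.Prime → ℓ ∉ S ∪ Qs → ∀ A : ValuationSubring Ω, A.LiesOverPrime ℓ →
      ∀ σ : GQ, A.IsFrobeniusAt σ ℓ → LinearMap.charpoly (L.side₁.ρ.ρ σ) =
        X ^ 2 - C (f₁ (t ℓ)) * X + C (f₁ ((fun ℓ : ℕ => (ℓ : 𝕋)) ℓ)) := by
    intro ℓ hℓ hℓS A hA σ hσ
    rw [charpoly_frobenius_of_twCondition L.side₁.ρ Qs L.side₁.isOfType hpS hℓ hℓS hA hσ]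
    have e : f₁ (ℓ : 𝕋) = (ℓ : L.side₁.T) := map_natCast _ ℓ
    have e' : f₁ (t ℓ) = L.side₁.ρ.trace (frobElt ℓ) := ht₁ ℓ
    rw [e, e']
  have hchar₂ : ∀ ℓ : ℕ, ℓ.Prime → ℓ ∉ S ∪ Qs → ∀ A : ValuationSubring Ω, A.LiesOverPrime ℓ →
      ∀ σ : GQ, A.IsFrobeniusAt σ ℓ → LinearMap.charpoly (L.side₂.ρ.ρ σ) =
        X ^ 2 - C (f₂ (t ℓ)) * X + C (f₂ ((fun ℓ : ℕ => (ℓ : 𝕋)) ℓ)) := by
    intro ℓ hℓ hℓS A hA σ hσ
    rw [charpoly_frobenius_of_twCondition L.side₂.ρ Qs L.side₂.isOfType hpS hℓ hℓS hA hσ]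
    have e : f₂ (ℓ : 𝕋) = (ℓ : L.side₂.T) := map_natCast _ ℓ
    have e' : f₂ (t ℓ) = L.side₂.ρ.trace (frobElt ℓ) := ht₂ ℓ
    rw [e, e']
  have hdc₁ := det_complexConjugation_eq L.side₁.ρ hp.out L.side₁.isOfType.1.1
  have hdc₂ := det_complexConjugation_eq L.side₂.ρ hp.out L.side₂.isOfType.1.1
  have hirr := residual_isAbsolutelyIrreducible_of_lift L.side₁.ρ _ ρbar
    L.side₁.residual_isEquiv habs
  have hs₁' : Function.Surjective f₁ := hs₁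
  have hs₂' : Function.Surjective f₂ := hs₂
  have hl₁' : IsLocalHom f₁ := ⟨fun a ha => hl₁.map_nonunit a ha⟩
  have hl₂' : IsLocalHom f₂ := ⟨fun a ha => hl₂.map_nonunit a ha⟩
  have hinj' : ∀ x : 𝕋, f₁ x = 0 → f₂ x = 0 → x = 0 := hinj
  obtain ⟨ρM, bs₁, bs₂, hm₁, hm₂, hcont, -⟩ := exists_matRep_two f₁ f₂ L.side₁.ρ L.side₂.ρ h2
    hs₁' hs₂' hl₁' hl₂' hinj' (S ∪ Qs) t (fun ℓ : ℕ => (ℓ : 𝕋)) hchar₁ hchar₂
    complexConjugation complexConjugation_mul_self hdc₁ hdc₂ hirr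
  exact ⟨ρM, bs₁, bs₂, hm₁, hm₂, hcont⟩

/-- the action of the trace algebra on `Hbar` -/
theorem exists_hbar_of_level :
    ∃ hbar : ↥(Algebra.adjoin 𝒪 (tracePairs L)) →ₐ[𝒪] Module.End 𝒪 L.Hbar,
      (∀ (t : ↥(Algebra.adjoin 𝒪 (tracePairs L))) (y : L.side₁.H),
        L.red₁ (L.side₁.h (t : L.side₁.T × L.side₂.T).1 y) = hbar t (L.red₁ y)) ∧
      (∀ (t : ↥(Algebra.adjoin 𝒪 (tracePairs L))) (y : L.side₂.H),
        L.red₂ (L.side₂.h (t : L.side₁.T × L.side₂.T).2 y) = hbar t (L.red₂ y)) := by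
  classical
  have hk₁ : ∀ (b : L.side₁.T) (x : L.side₁.H), L.red₁ x = 0 → L.red₁ (L.side₁.h b x) = 0 := by
    intro b x hx
    obtain ⟨y, rfl⟩ := (L.ker_red₁ x).1 hx
    rw [map_smul]
    exact (L.ker_red₁ _).2 ⟨_, rfl⟩
  let tb : L.side₁.T × L.side₂.T → Module.End 𝒪 L.Hbar := fun x =>
    if h : ∃ σ : GQ, (L.side₁.ρ.trace σ, L.side₂.ρ.trace σ) = x then L.trbar h.choose else 0
  have htb : ∀ x ∈ tracePairs L, ∃ σ : GQ, (L.side₁.ρ.trace σ, L.side₂.ρ.trace σ) = x ∧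
      tb x = L.trbar σ := by
    intro x hx
    have h : ∃ σ : GQ, (L.side₁.ρ.trace σ, L.side₂.ρ.trace σ) = x := hx
    exact ⟨h.choose, h.choose_spec, dif_pos h⟩
  exact exists_descend_algHom (tracePairs L) L.side₁.h L.side₂.h L.red₁ L.red₂
    L.red₁_surjective L.red₂_surjective hk₁ tb
    (fun x hx y => by
      obtain ⟨σ, rfl, hσ⟩ := htb x hx
      rw [hσ]
      exact L.red₁_trace σ y)
    (fun x hx y => by
      obtain ⟨σ, rfl, hσ⟩ := htb x hx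
      rw [hσ]
      exact L.red₂_trace σ y)

/-- **existence of the glue data.** -/
theorem nonempty_glueData [hp : Fact p.Prime] (hp2 : p ≠ 2) (hp𝒪 : (p : 𝒪) ∈ maximalIdeal 𝒪)
    (hpS : p ∈ S) (habs : ρbar.IsAbsolutelyIrreducible) : Nonempty (GlueData L) := by
  have hX := tracePairs_scalar L
  haveI := TALG.isLocalRing_adjoin (tracePairs L) hX
  haveI := TALG.isNoetherianRing_adjoin (O := 𝒪) (tracePairs L)
  haveI := TALG.isAdicComplete_adjoin (tracePairs L) hX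
  have hs₁ : Function.Surjective (TALG.prFst (O := 𝒪) (tracePairs L)) :=
    TALG.prFst_surjective _ (by rw [image_fst_tracePairs]; exact L.side₁.adjoin_trace)
  have hs₂ : Function.Surjective (TALG.prSnd (O := 𝒪) (tracePairs L)) :=
    TALG.prSnd_surjective _ (by rw [image_snd_tracePairs]; exact L.side₂.adjoin_trace)
  have hl₁ := TALG.isLocalHom_prFst (O := 𝒪) (tracePairs L) hX
  have hl₂ := TALG.isLocalHom_prSnd (O := 𝒪) (tracePairs L) hX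
  have hinj : ∀ t : ↥(Algebra.adjoin 𝒪 (tracePairs L)),
      TALG.prFst (O := 𝒪) (tracePairs L) t = 0 → TALG.prSnd (O := 𝒪) (tracePairs L) t = 0 →
        t = 0 := by
    intro t h1 h2
    exact Subtype.ext (Prod.ext h1 h2)
  obtain ⟨ρM, bs₁, bs₂, hm₁, hm₂, hcont⟩ := exists_matRep_of_level L hp2 hp𝒪 hpS habs
    (TALG.prFst (O := 𝒪) (tracePairs L)) (TALG.prSnd (O := 𝒪) (tracePairs L)) hs₁ hs₂ hl₁ hl₂ hinj
    (fun ℓ => ⟨(L.side₁.ρ.trace (frobElt ℓ), L.side₂.ρ.trace (frobElt ℓ)),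
      Algebra.subset_adjoin ⟨frobElt ℓ, rfl⟩⟩) (fun ℓ => rfl) (fun ℓ => rfl)
  obtain ⟨hbar, hb₁, hb₂⟩ := exists_hbar_of_level L
  exact ⟨{
    𝕋 := ↥(Algebra.adjoin 𝒪 (tracePairs L))
    pr₁ := TALG.prFst (O := 𝒪) (tracePairs L)
    pr₂ := TALG.prSnd (O := 𝒪) (tracePairs L)
    pr₁_surjective := hs₁
    pr₂_surjective := hs₂
    pr₁_local := hl₁
    pr₂_local := hl₂
    inj := hinj
    ρM := ρM
    cont := hcont
    bs₁ := bs₁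
    bs₂ := bs₂
    map₁ := hm₁
    map₂ := hm₂
    hbar := hbar
    red₁_hbar := hb₁
    red₂_hbar := hb₂ }⟩

end

end Fermat.Agent.RB.GLUE
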