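/-
PROJECT RB — [SEL] (helper4), file 1: **the decomposition group modulo inertia is generated by
Frobenius at every finite level.**

* `isFrobeniusAt_iff`       : concrete form of the Prelude's `IsFrobeniusAt`;
* `isFrobeniusAt_conj`      : Frobenius elements of a conjugate valuation subring;
* `frobenius_apply_root`    : a Frobenius at `padicPlace q` raises roots of unity of order prime to
                              `q` to the `q`-th power;
* `exists_pow_of_mem_decompositionSubgroup` : a homomorphism `r` of finite level which is trivial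
  on the inertia group of `P ∣ q` maps every element of the decomposition group of `P` to a power
  of `r(φ)`, `φ` any Frobenius at `P`;
* `ResFrobScalarAt.exists_smul_of_mem_decompositionSubgroup` : if `ρ̄` is unramified at `v` with
  scalar Frobenius, then `ρ̄(σ)` is a scalar for EVERY `σ` in EVERY decomposition group over `v`.
-/
import Mathlib
import Fermat.Agent.RB.IFACE_helper9_Sel
import Fermat.Agent.TW.UnrLocal_helper6
import Fermat.Agent.TW.LQAd_helper4
import Fermat.Agent.EC.Conjugacy_helper5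
import Fermat.Agent.TW.Kill_helper1_Frob

set_option autoImplicit false
set_option linter.unusedSectionVars false
set_option linter.style.haveILetI false

open scoped Pointwise

namespace Fermat.Agent.RB.SEL

open Fermat.Agent.TW Fermat.Agent.CFT.Arith Fermat.Agent.CFT.LocForm IntermediateField

section General

variable {K L : Type*} [Field K] [Field L] [Algebra K L] {A : ValuationSubring L}

/-- concrete description of the Prelude's Frobenius elements. -/
theorem isFrobeniusAt_iff {σ : L ≃ₐ[K] L} {q : ℕ} :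
    A.IsFrobeniusAt σ q ↔ σ • A = A ∧ ∀ a ∈ A, σ a - a ^ q ∈ A.nonunits := by
  constructor
  · rintro ⟨hσ, h⟩
    refine ⟨MulAction.mem_stabilizer_iff.1 hσ, fun a ha => ?_⟩
    have h1 := h (IsLocalRing.residue A ⟨a, ha⟩)
    rw [← IsLocalRing.ResidueField.residue_smul, ← map_pow, ← sub_eq_zero, ← map_sub,
      IsLocalRing.residue_eq_zero_iff, A.valuation_lt_one_iff] at h1
    rw [ValuationSubring.mem_nonunits_iff]
    exact h1
  · rintro ⟨h1, h2⟩
    refine ⟨MulAction.mem_stabilizer_iff.2 h1, fun x => ?_⟩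
    obtain ⟨a, rfl⟩ := IsLocalRing.residue_surjective x
    rw [← IsLocalRing.ResidueField.residue_smul, ← map_pow, ← sub_eq_zero, ← map_sub,
      IsLocalRing.residue_eq_zero_iff, A.valuation_lt_one_iff]
    have h3 := h2 a a.2
    rw [ValuationSubring.mem_nonunits_iff] at h3
    exact h3

/-- Frobenius elements of a conjugate valuation subring. -/
theorem isFrobeniusAt_conj (τ : L ≃ₐ[K] L) {σ : L ≃ₐ[K] L} {q : ℕ} (h : A.IsFrobeniusAt σ q) :
    (τ • A).IsFrobeniusAt (τ * σ * τ⁻¹) q := by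
  rw [isFrobeniusAt_iff] at h ⊢
  obtain ⟨h1, h2⟩ := h
  refine ⟨?_, fun a ha => ?_⟩
  · rw [mul_smul, mul_smul, inv_smul_smul, h1]
  · rw [ValuationSubring.mem_pointwise_smul_iff_inv_smul_mem] at ha
    have h3 := h2 _ ha
    rw [mem_nonunits_smul_iff, map_sub, map_pow]
    have h4 : τ⁻¹ ((τ * σ * τ⁻¹) a) = σ (τ⁻¹ • a) := by
      rw [AlgEquiv.smul_def, AlgEquiv.mul_apply, AlgEquiv.mul_apply, ← AlgEquiv.mul_apply τ⁻¹,
        inv_mul_cancel]
      rfl
    rw [h4]
    exact h3

end General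

/-- `Ω = AlgebraicClosure ℚ`. -/
local notation "Ω" => AlgebraicClosure ℚ
/-- `GQ = Gal(Ω/ℚ)`. -/
local notation "GQ" => (AlgebraicClosure ℚ ≃ₐ[ℚ] AlgebraicClosure ℚ)

section Padic

variable {q : ℕ} [hq : Fact q.Prime]

/-- a Frobenius element at `padicPlace q` raises the roots of unity of order prime to `q` to the
`q`-th power. -/
theorem frobenius_apply_root {φ : GQ} (hφ : (padicPlace q).IsFrobeniusAt φ q) {m : ℕ}
    (hm : m.Coprime q) {ζ : Ω} (hζ : ζ ^ m = 1) : φ ζ = ζ ^ q := by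
  have hm0 : 0 < m := by
    rcases Nat.eq_zero_or_pos m with rfl | h0
    · rw [Nat.coprime_zero_left] at hm
      exact absurd hm hq.out.one_lt.ne'
    · exact h0
  have h1 : padicEmbedding q ζ ^ m = 1 := by rw [← map_pow, hζ, map_one]
  have hζA : ζ ∈ padicPlace q := by
    rw [mem_padicPlace_iff]
    have := norm_eq_one_of_pow_eq_one hm0 h1
    have h2 : ‖padicEmbedding q ζ‖₊ = 1 := NNReal.eq (by simpa using this)
    rw [h2]
  obtain ⟨-, h2⟩ := isFrobeniusAt_iff.1 hφ
  have h3 := h2 ζ hζA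
  rw [mem_nonunits_padicPlace_iff, map_sub, map_pow] at h3
  have hinj : Function.Injective (padicEmbedding q) := (padicEmbedding q).injective
  apply hinj
  rw [map_pow]
  refine eq_of_norm_sub_lt_one_of_pow_eq_one hm ?_ ?_ (by exact_mod_cast h3)
  · rw [← map_pow, ← map_pow, hζ, map_one, map_one]
  · rw [← pow_mul, mul_comm, pow_mul, h1, one_pow]

/-- **the decomposition group modulo inertia is generated by Frobenius at every finite level**
(at the place `padicPlace q`). -/
theorem exists_pow_of_mem_decompositionSubgroup_padicPlace {M : Type} [Monoid M] (r : GQ →* M)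
    (hfac : GaloisFactorsThroughFiniteLevel r)
    (hur : ∀ σ ∈ (padicPlace q).inertiaSubgroupIn ℚ, r σ = 1)
    {φ : GQ} (hφ : (padicPlace q).IsFrobeniusAt φ q) {σ : GQ}
    (hσ : σ ∈ (padicPlace q).decompositionSubgroup ℚ) : ∃ k : ℕ, r σ = r φ ^ k := by
  classical
  obtain ⟨L, hLfd, hL⟩ := hfac
  haveI := hLfd
  obtain ⟨K', hK'fin, hK'⟩ := exists_finiteDimensional_fixingSubgroup_le (q := q) L
  haveI := hK'fin
  obtain ⟨m, hmq, hm0, hle⟩ := exists_coprime_fixingSubgroup_le
    (L.fixingSubgroup.comap (localGaloisToGlobal q)) K' hK'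
  haveI : NeZero m := ⟨hm0.ne'⟩
  obtain ⟨ζ, hζ⟩ := HasEnoughRootsOfUnity.exists_primitiveRoot Ω m
  -- the level `L(ζ)`
  obtain ⟨F, hF⟩ : ∃ F : IntermediateField ℚ Ω, F = L ⊔ ℚ⟮ζ⟯ := ⟨_, rfl⟩
  haveI : FiniteDimensional ℚ ℚ⟮ζ⟯ :=
    adjoin.finiteDimensional (Algebra.IsIntegral.isIntegral ζ)
  haveI : FiniteDimensional ℚ F := by rw [hF]; exact IntermediateField.finiteDimensional_sup L _
  have hLF : L ≤ F := by rw [hF]; exact le_sup_left
  have hζF : ζ ∈ F := by
    rw [hF]; exact (le_sup_right : ℚ⟮ζ⟯ ≤ L ⊔ ℚ⟮ζ⟯) (mem_adjoin_simple_self ℚ ζ)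
  obtain ⟨τ, hτ⟩ := exists_local_lift q σ hσ F
  obtain ⟨τ₀, hτ₀⟩ := exists_local_lift q φ hφ.mem_decompositionSubgroup F
  -- the action on the primitive root
  set ω : PadicAlgCl q := padicEmbedding q ζ with hω
  have hωprim : IsPrimitiveRoot ω m := hζ.map_of_injective (padicEmbedding q).injective
  have hτ₀ω : τ₀ ω = ω ^ q := by
    rw [hω, ← padicEmbedding_localGaloisToGlobal, hτ₀ ζ hζF,
      frobenius_apply_root hφ hmq hζ.pow_eq_one, map_pow]
  obtain ⟨k, hk⟩ := exists_pow_eq_of_isPrimitiveRoot hmq hωprim τ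
  have hpow : ∀ j : ℕ, (τ₀ ^ j) ω = ω ^ (q ^ j) := by
    intro j
    induction j with
    | zero => rw [pow_zero, pow_zero, pow_one]; rfl
    | succ j ih =>
      rw [pow_succ', AlgEquiv.mul_apply, ih, map_pow, hτ₀ω, ← pow_mul, pow_succ']
  -- the correction term fixes the `m`-th roots of unity
  obtain ⟨n, hn⟩ : ∃ n : PadicAlgCl q ≃ₐ[ℚ_[q]] PadicAlgCl q, n = (τ₀ ^ k)⁻¹ * τ := ⟨_, rfl⟩
  have hnω : n ω = ω := by
    rw [hn, AlgEquiv.mul_apply, hk, ← hpow k, ← AlgEquiv.mul_apply, inv_mul_cancel]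
    rfl
  have hnmem : n ∈ unrInertia q ⊔ L.fixingSubgroup.comap (localGaloisToGlobal q) := by
    apply hle
    rw [fixingSubgroup_adjoin_iff]
    intro ξ hξ
    obtain ⟨i, -, rfl⟩ := hωprim.eq_pow_of_pow_eq_one (show ξ ^ m = 1 from hξ)
    rw [map_pow, hnω]
  -- the kernel of `r` on the local Galois group
  obtain ⟨f, hf⟩ : ∃ f : (PadicAlgCl q ≃ₐ[ℚ_[q]] PadicAlgCl q) →* M,
      f = r.comp (localGaloisToGlobal q) := ⟨_, rfl⟩
  have hfapp : ∀ g, f g = r (localGaloisToGlobal q g) := fun g => by rw [hf]; rfl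
  have hker : unrInertia q ⊔ L.fixingSubgroup.comap (localGaloisToGlobal q) ≤ f.ker := by
    refine sup_le (fun g hg => ?_) (fun g hg => ?_)
    · rw [MonoidHom.mem_ker, hfapp]
      exact hur _ (localGaloisToGlobal_mem_inertiaSubgroupIn g hg)
    · rw [MonoidHom.mem_ker, hfapp]
      exact hL _ (fun x hx => (IntermediateField.mem_fixingSubgroup_iff _ _).1 hg x hx)
  have hfn : f n = 1 := MonoidHom.mem_ker.1 (hker hnmem)
  have hτeq : τ = τ₀ ^ k * n := by rw [hn]; group
  refine ⟨k, ?_⟩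
  have h1 : r σ = f τ := by
    rw [hfapp]
    exact (map_eq_of_agree_on_level r L hL (fun x hx => hτ x (hLF hx))).symm
  have h2 : r φ = f τ₀ := by
    rw [hfapp]
    exact (map_eq_of_agree_on_level r L hL (fun x hx => hτ₀ x (hLF hx))).symm
  rw [h1, h2, hτeq, map_mul, map_pow, hfn, mul_one]

end Padic

section Places

/-- **the decomposition group modulo inertia is generated by Frobenius at every finite level.** -/
theorem exists_pow_of_mem_decompositionSubgroup {M : Type} [Group M] (r : GQ →* M)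
    (hfac : GaloisFactorsThroughFiniteLevel r) {q : ℕ} (hq : q.Prime)
    (P : ValuationSubring Ω) (hP : P.LiesOverPrime q)
    (hur : ∀ σ ∈ P.inertiaSubgroupIn ℚ, r σ = 1)
    {φ : GQ} (hφ : P.IsFrobeniusAt φ q) {σ : GQ}
    (hσ : σ ∈ P.decompositionSubgroup ℚ) : ∃ k : ℕ, r σ = r φ ^ k := by
  haveI : Fact q.Prime := ⟨hq⟩
  obtain ⟨g, hg⟩ := Fermat.Agent.EC.exists_smul_eq_of_liesOverPrime hq hP
    (Fermat.Agent.TW.Kill.padicPlace_liesOverPrime q)
  -- `padicPlace q = g • P`
  have hur' : ∀ s ∈ (padicPlace q).inertiaSubgroupIn ℚ, r s = 1 := by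
    intro s hs
    rw [hg, mem_inertiaSubgroupIn_smul_iff] at hs
    have h1 := hur _ hs
    rw [map_mul, map_mul, map_inv] at h1
    calc r s = r g * ((r g)⁻¹ * r s * r g) * (r g)⁻¹ := by group
      _ = 1 := by rw [h1]; group
  have hφ' : (padicPlace q).IsFrobeniusAt (g * φ * g⁻¹) q := by
    rw [hg]; exact isFrobeniusAt_conj g hφ
  have hσ' : g * σ * g⁻¹ ∈ (padicPlace q).decompositionSubgroup ℚ := by
    rw [MulAction.mem_stabilizer_iff] at hσ ⊢
    rw [hg, mul_smul, mul_smul, inv_smul_smul, hσ]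
  obtain ⟨k, hk⟩ := exists_pow_of_mem_decompositionSubgroup_padicPlace r hfac hur' hφ' hσ'
  refine ⟨k, ?_⟩
  rw [map_mul, map_mul, map_mul, map_mul, map_inv, conj_pow] at hk
  exact mul_left_cancel (mul_right_cancel hk)

/-- **`ρ̄` unramified at `v` with scalar Frobenius is scalar on every decomposition group over
`v`.** -/
theorem _root_.Fermat.Agent.RB.ResFrobScalarAt.exists_smul_of_mem_decompositionSubgroup
    {k : Type} [Field k] {ρbar : ResidualGaloisRep k} {p v : ℕ} (hv : v.Prime)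
    (h : ResFrobScalarAt ρbar p v) (P : ValuationSubring Ω) (hP : P.LiesOverPrime v) {σ : GQ}
    (hσ : σ ∈ P.decompositionSubgroup ℚ) :
    ∃ c : k, ρbar.ρ σ = c • (1 : Module.End k ρbar.V) := by
  obtain ⟨-, hunr, hfrob⟩ := h
  obtain ⟨φ, hφ⟩ := Fermat.Agent.CFT.LocForm.exists_isFrobeniusAt P hv hP
  obtain ⟨c, hc⟩ := hfrob P hP φ hφ
  have hfac : GaloisFactorsThroughFiniteLevel ρbar.ρ.toHomUnits := by
    obtain ⟨L, hL, h1⟩ := ρbar.factorsThroughFiniteLevel
    exact ⟨L, hL, fun s hs => Units.ext (h1 s hs)⟩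
  obtain ⟨n, hn⟩ := exists_pow_of_mem_decompositionSubgroup ρbar.ρ.toHomUnits hfac hv P hP
    (fun s hs => Units.ext (hunr P hP s hs)) hφ hσ
  have h1 := congrArg (fun u : (Module.End k ρbar.V)ˣ => (u : Module.End k ρbar.V)) hn
  simp only [MonoidHom.coe_toHomUnits, Units.val_pow_eq_pow_val] at h1
  refine ⟨c ^ n, ?_⟩
  rw [h1, hc, smul_pow, one_pow]

end Places

end Fermat.Agent.RB.SEL
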