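/-
PROJECT RB — [GLUE] (helper9), file 4 **[GLOC]: local Galois theory at a prime `v ≠ p` for a
matrix-valued adically continuous homomorphism `r : G_ℚ → M₂(R)` (`R` noetherian local, `p ∈ 𝔪_R`)
which is trivial modulo `𝔪_R` on an inertia group `I_P`, `P ∣ v`.**

* `conj_frobenius`        : `r(φ τ φ⁻¹) = r(τ) ^ v` for a Frobenius `φ` at `P` and `τ ∈ I_P` (exact);
* `exists_pow_of_quotient` : (Frattini) if in a quotient `R → R₂` the image of `I_P` is killed by
  `p` and `τ' ∈ I_P` has non-trivial image there, then `τ'` generates `r(I_P)` modulo every power of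
  the maximal ideal;
* `sub_one_emem_of_gen`    : then the entries of `r(σ) - 1`, `σ ∈ I_P`, lie in the ideal generated
  by the entries of `r(τ') - 1`;
* `coords_mem_of_mem_decomposition` : an ideal containing the traceless coordinates of `r(τ')` and of
  `r(φ)` contains those of `r(σ)` for every `σ` in every decomposition group over `v`.
-/
import Mathlib
import Fermat.Agent.RB.GLUE_helper9_EMem
import Fermat.Agent.RB.SEL_helper4_Frob
import Fermat.Agent.S35.TAME_helper8_Main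
import Fermat.Agent.TW.TameCyclic_helper6
import Fermat.Agent.S53.L0_helper3_Matrix
import Fermat.Agent.EC.Conjugacy_helper5

set_option autoImplicit false
set_option linter.unusedSectionVars false
set_option linter.unusedVariables false
set_option linter.style.haveILetI false

namespace Fermat.Agent.RB.GLUE

open Fermat.Agent.S53 IsLocalRing
open scoped Pointwise

local notation "Ω" => AlgebraicClosure ℚ
local notation "GQ" => (AlgebraicClosure ℚ ≃ₐ[ℚ] AlgebraicClosure ℚ)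

section Rmod

variable {R : Type} [CommRing R] (r : GQ →* M2 R)

/-- `r` modulo an ideal -/
noncomputable def rmod (I : Ideal R) : GQ →* M2 (R ⧸ I) := mapMat (Ideal.Quotient.mk I) r

theorem rmod_apply (I : Ideal R) (σ : GQ) : rmod r I σ = (r σ).map (Ideal.Quotient.mk I) := rfl

theorem rmod_eq_one_iff (I : Ideal R) (σ : GQ) : rmod r I σ = 1 ↔ EMem I (r σ - 1) := by
  rw [emem_sub_iff_map_mk_eq, rmod_apply]
  have : (1 : M2 R).map (Ideal.Quotient.mk I) = 1 := map_one (Ideal.Quotient.mk I).mapMatrix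
  rw [this]

theorem rmod_eq_iff (I : Ideal R) (σ τ : GQ) (a : ℕ) :
    rmod r I σ = rmod r I τ ^ a ↔ EMem I (r σ - r τ ^ a) := by
  rw [emem_sub_iff_map_mk_eq, rmod_apply, rmod_apply]
  have : (r τ ^ a).map (Ideal.Quotient.mk I) = (r τ).map (Ideal.Quotient.mk I) ^ a :=
    map_pow (Ideal.Quotient.mk I).mapMatrix (r τ) a
  rw [this]

end Rmod

section Local

variable {R : Type} [CommRing R] [IsLocalRing R]
  (r : GQ →* M2 R) (hr : MatCont r)
  {p v : ℕ} (hp : p.Prime) (hv : v.Prime) (hvp : v ≠ p) (hpR : (p : R) ∈ maximalIdeal R)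
  {P : ValuationSubring Ω} (hP : P.LiesOverPrime v)
  (hres : ∀ σ ∈ P.inertiaSubgroupIn ℚ, EMem (maximalIdeal R) (r σ - 1))

include hr in
/-- finite level of `r` modulo an ideal containing a power of the maximal ideal -/
theorem exists_level (I : Ideal R) (k : ℕ) (hI : maximalIdeal R ^ k ≤ I) :
    ∃ (F : IntermediateField ℚ Ω) (_ : FiniteDimensional ℚ F) (_ : Normal ℚ F),
      ∀ σ : GQ, (∀ x ∈ F, σ x = x) → rmod r I σ = 1 := by
  obtain ⟨L, hLfd, hL⟩ := hr k
  haveI := hLfd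
  refine ⟨IntermediateField.normalClosure ℚ L Ω, normalClosure.is_finiteDimensional ℚ L Ω,
    normalClosure.normal ℚ L Ω, fun σ hσ => ?_⟩
  rw [rmod_eq_one_iff]
  exact fun i j => hI (hL σ (fun x hx => hσ x (IntermediateField.le_normalClosure L hx)) i j)

include hp hv hvp hpR hres in
/-- the images of inertia have order prime to `v` -/
theorem exists_coprime_pow (I : Ideal R) (k : ℕ) (hI : maximalIdeal R ^ k ≤ I) :
    ∀ σ ∈ P.inertiaSubgroupIn ℚ, ∃ m : ℕ, m.Coprime v ∧ rmod r I σ ^ m = 1 := by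
  intro σ hσ
  refine ⟨p ^ k, Nat.Coprime.pow_left k ((Nat.coprime_primes hp hv).mpr (Ne.symm hvp)), ?_⟩
  rw [← map_pow, rmod_eq_one_iff, map_pow]
  exact ((EMem.pow_prime_pow hpR (hres σ hσ) k).mono
    (Ideal.pow_le_pow_right (Nat.le_succ k))).mono hI

variable [IsNoetherianRing R]

include hr hp hv hvp hpR hP hres in
/-- **the tame relation** `r(φ τ φ⁻¹) = r(τ) ^ v` -/
theorem conj_frobenius {φ : GQ} (hφ : P.IsFrobeniusAt φ v) {τ : GQ}
    (hτ : τ ∈ P.inertiaSubgroupIn ℚ) : r (φ * τ * φ⁻¹) = r τ ^ v := by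
  apply matrix_eq_of_forall_emem
  intro k
  obtain ⟨F, hFfd, hFn, hF⟩ := exists_level r hr (maximalIdeal R ^ k) k le_rfl
  haveI := hFfd
  haveI := hFn
  have h1 := Fermat.Agent.S35.map_conj_frobenius_eq_pow hv hP (rmod r (maximalIdeal R ^ k)) F hF
    (exists_coprime_pow r hp hv hvp hpR hres (maximalIdeal R ^ k) k le_rfl) hφ hτ
  exact (rmod_eq_iff r _ _ _ _).1 h1

include hr hp hv hvp hpR hP hres in
/-- **(Frattini)** an element of `I_P` whose image in a quotient, where inertia has exponent `p`,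
is non-trivial generates the image of `I_P` modulo every power of the maximal ideal. -/
theorem exists_pow_of_quotient {R₂ : Type} [CommRing R₂] [IsLocalRing R₂] [IsNoetherianRing R₂]
    (π : R →+* R₂) (hπ : IsLocalHom π)
    (hp₂ : ∀ σ ∈ P.inertiaSubgroupIn ℚ, (r σ).map π ^ p = 1)
    {τ' : GQ} (hτ' : τ' ∈ P.inertiaSubgroupIn ℚ) (hne : (r τ').map π ≠ 1)
    (k : ℕ) {σ : GQ} (hσ : σ ∈ P.inertiaSubgroupIn ℚ) :
    ∃ a : ℕ, EMem (maximalIdeal R ^ k) (r σ - r τ' ^ a) := by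
  -- a level at which the image of `τ'` in `R₂` is non-trivial
  obtain ⟨k₀, hk₀⟩ : ∃ k₀ : ℕ, ¬ EMem (maximalIdeal R₂ ^ k₀) ((r τ').map π - 1) := by
    by_contra hcon
    push Not at hcon
    exact hne (matrix_eq_of_forall_emem hcon)
  set K := max k k₀ with hK
  obtain ⟨F, hFfd, hFn, hF⟩ := exists_level r hr (maximalIdeal R ^ K) K le_rfl
  haveI := hFfd
  haveI := hFn
  obtain ⟨τ₀, hτ₀, hgen⟩ := Fermat.Agent.TW.exists_generator_of_inertia hv hP
    (rmod r (maximalIdeal R ^ K)) F hF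
    (exists_coprime_pow r hp hv hvp hpR hres (maximalIdeal R ^ K) K le_rfl)
  set f := rmod r (maximalIdeal R ^ K) with hf
  obtain ⟨c, hc⟩ := hgen τ' hτ'
  obtain ⟨a₀, ha₀⟩ := hgen σ hσ
  -- `f τ₀` has `p`-power order
  have hord : f τ₀ ^ p ^ K = 1 := by
    rw [← map_pow, hf, rmod_eq_one_iff, map_pow]
    exact (EMem.pow_prime_pow hpR (hres τ₀ hτ₀) K).mono (Ideal.pow_le_pow_right (Nat.le_succ K))
  -- `p ∤ c`
  have hpc : ¬ p ∣ c := by
    rintro ⟨c', rfl⟩
    apply hk₀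
    -- `r τ' ≡ (r τ₀ ^ p) ^ c'` modulo `𝔪 ^ K`
    have h1 : EMem (maximalIdeal R ^ K) (r τ' - r τ₀ ^ (p * c')) := (rmod_eq_iff r _ _ _ _).1 hc
    have hmap : (maximalIdeal R ^ K).map π ≤ maximalIdeal R₂ ^ k₀ := by
      rw [Ideal.map_pow]
      refine le_trans (Ideal.pow_right_mono ?_ K) (Ideal.pow_le_pow_right (le_max_right k k₀))
      exact Ideal.map_le_iff_le_comap.mpr fun x hx => Ideal.mem_comap.mpr
        (haveI := hπ; map_nonunit π x hx)
    have h2 := h1.map π hmap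
    have h3 : (r τ' - r τ₀ ^ (p * c')).map π = (r τ').map π - 1 := by
      have e1 : (r τ' - r τ₀ ^ (p * c')).map π = (r τ').map π - (r τ₀ ^ (p * c')).map π := by
        ext i j; simp
      have e2 : (r τ₀ ^ (p * c')).map π = ((r τ₀).map π ^ p) ^ c' := by
        rw [← pow_mul]
        exact map_pow π.mapMatrix (r τ₀) (p * c')
      rw [e1, e2, hp₂ τ₀ hτ₀, one_pow]
    rwa [h3] at h2
  -- invert `c` modulo `p ^ K`
  have hcop : Nat.Coprime c (p ^ K) := Nat.Coprime.pow_right K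
    ((Nat.Prime.coprime_iff_not_dvd hp).2 hpc).symm
  obtain ⟨c', hc'⟩ : ∃ c' : ℕ, f τ₀ = f τ' ^ c' := by
    obtain ⟨m, hm⟩ := exists_pow_eq_self_of_coprime (x := f τ₀) (n := c)
      (Nat.Coprime.coprime_dvd_right (orderOf_dvd_of_pow_eq_one hord) hcop)
    exact ⟨m, by rw [hc, hm]⟩
  refine ⟨c' * a₀, ?_⟩
  have h4 : f σ = f τ' ^ (c' * a₀) := by rw [ha₀, hc', ← pow_mul]
  exact ((rmod_eq_iff r _ _ _ _).1 h4).mono (Ideal.pow_le_pow_right (le_max_left k k₀))

end Local

section Entries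

variable {R : Type} [CommRing R]

/-- the ideal generated by the entries of a matrix -/
def entryIdeal (M : M2 R) : Ideal R := Ideal.span {a | ∃ i j, a = M i j}

theorem emem_entryIdeal (M : M2 R) : EMem (entryIdeal M) M :=
  fun i j => Ideal.subset_span ⟨i, j, rfl⟩

theorem entryIdeal_le_iff (M : M2 R) (I : Ideal R) : entryIdeal M ≤ I ↔ EMem I M := by
  constructor
  · intro h
    exact (emem_entryIdeal M).mono h
  · intro h
    rw [entryIdeal, Ideal.span_le]
    rintro _ ⟨i, j, rfl⟩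
    exact h i j

variable [IsLocalRing R] [IsNoetherianRing R] (r : GQ →* M2 R)

/-- if `τ` generates modulo every power of the maximal ideal, the entries of `r(σ) - 1` lie in the
ideal generated by the entries of `r(τ) - 1` -/
theorem sub_one_emem_of_gen {τ σ : GQ}
    (hgen : ∀ k : ℕ, ∃ a : ℕ, EMem (maximalIdeal R ^ k) (r σ - r τ ^ a)) :
    EMem (entryIdeal (r τ - 1)) (r σ - 1) := by
  apply emem_of_forall_emem_sup_pow
  intro k
  obtain ⟨a, ha⟩ := hgen k
  have : r σ - 1 = (r σ - r τ ^ a) + (r τ ^ a - 1) := by abel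
  rw [this]
  exact (ha.mono le_sup_right).add (((emem_entryIdeal _).pow_sub_one a).mono le_sup_left)

end Entries

section Scalar

variable {B : Type*} [CommRing B]

/-- the traceless coordinates of `M` vanish -/
def IsSc (M : Matrix (Fin 2) (Fin 2) B) : Prop := M 0 0 - M 1 1 = 0 ∧ M 0 1 = 0 ∧ M 1 0 = 0

theorem isSc_iff (M : Matrix (Fin 2) (Fin 2) B) :
    IsSc M ↔ M = M 1 1 • (1 : Matrix (Fin 2) (Fin 2) B) := by
  constructor
  · rintro ⟨h1, h2, h3⟩
    rw [sub_eq_zero] at h1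
    ext i j
    fin_cases i <;> fin_cases j <;> simp [h1, h2, h3]
  · intro h
    have h00 := congrFun (congrFun h 0) 0
    have h01 := congrFun (congrFun h 0) 1
    have h10 := congrFun (congrFun h 1) 0
    simp at h00 h01 h10
    exact ⟨by rw [h00, sub_self], h01, h10⟩

theorem IsSc.smul_one (c : B) : IsSc (c • (1 : Matrix (Fin 2) (Fin 2) B)) := by
  refine ⟨?_, ?_, ?_⟩ <;> simp

theorem IsSc.pow {M : Matrix (Fin 2) (Fin 2) B} (h : IsSc M) (a : ℕ) : IsSc (M ^ a) := by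
  rw [isSc_iff] at h
  rw [h, smul_pow, one_pow]
  exact IsSc.smul_one _

theorem IsSc.commute {M : Matrix (Fin 2) (Fin 2) B} (h : IsSc M)
    (N : Matrix (Fin 2) (Fin 2) B) : M * N = N * M := by
  rw [isSc_iff] at h
  rw [h, Matrix.smul_mul, Matrix.mul_smul, one_mul, mul_one]

/-- the elementary unipotent units -/
def unipU : (Matrix (Fin 2) (Fin 2) B)ˣ where
  val := !![1, 1; 0, 1]
  inv := !![1, -1; 0, 1]
  val_inv := by
    ext i j
    fin_cases i <;> fin_cases j <;> simp [Matrix.mul_apply, Fin.sum_univ_two]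
  inv_val := by
    ext i j
    fin_cases i <;> fin_cases j <;> simp [Matrix.mul_apply, Fin.sum_univ_two]

/-- the elementary unipotent units -/
def unipL : (Matrix (Fin 2) (Fin 2) B)ˣ where
  val := !![1, 0; 1, 1]
  inv := !![1, 0; -1, 1]
  val_inv := by
    ext i j
    fin_cases i <;> fin_cases j <;> simp [Matrix.mul_apply, Fin.sum_univ_two]
  inv_val := by
    ext i j
    fin_cases i <;> fin_cases j <;> simp [Matrix.mul_apply, Fin.sum_univ_two]

theorem isSc_of_commute (M : Matrix (Fin 2) (Fin 2) B)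
    (h1 : M * (unipU : (Matrix (Fin 2) (Fin 2) B)ˣ).val = (unipU : (Matrix (Fin 2) (Fin 2) B)ˣ).val * M)
    (h2 : M * (unipL : (Matrix (Fin 2) (Fin 2) B)ˣ).val = (unipL : (Matrix (Fin 2) (Fin 2) B)ˣ).val * M) :
    IsSc M := by
  have e00 := congrFun (congrFun h1 0) 0
  have e01 := congrFun (congrFun h1 0) 1
  have f00 := congrFun (congrFun h2 0) 0
  simp [unipU, unipL, Matrix.mul_apply, Fin.sum_univ_two] at e00 e01 f00
  refine ⟨?_, ?_, ?_⟩
  · linear_combination e01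
  · exact f00
  · exact e00

end Scalar

section Decomp

variable {R : Type} [CommRing R] [IsLocalRing R] [IsNoetherianRing R]
  (r : GQ →* M2 R) (hr : MatCont r)
  {v : ℕ} (hv : v.Prime) {P : ValuationSubring Ω} (hP : P.LiesOverPrime v)

include hr hv hP in
/-- **an ideal containing the traceless coordinates of `r(τ)` (`τ` a generator of the image of
inertia) and of `r(φ)` (`φ` a Frobenius) contains those of `r(σ)` for every `σ` in every
decomposition group over `v`.** -/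
theorem coords_mem_of_mem_decomposition (𝔟 : Ideal R) {τ φ : GQ}
    (hgen : ∀ k : ℕ, ∀ σ ∈ P.inertiaSubgroupIn ℚ, ∃ a : ℕ,
      EMem (maximalIdeal R ^ k) (r σ - r τ ^ a))
    (hφ : P.IsFrobeniusAt φ v)
    (hτ𝔟 : r τ 0 0 - r τ 1 1 ∈ 𝔟 ∧ r τ 0 1 ∈ 𝔟 ∧ r τ 1 0 ∈ 𝔟)
    (hφ𝔟 : r φ 0 0 - r φ 1 1 ∈ 𝔟 ∧ r φ 0 1 ∈ 𝔟 ∧ r φ 1 0 ∈ 𝔟)
    {P' : ValuationSubring Ω} (hP' : P'.LiesOverPrime v) {σ : GQ}
    (hσ : σ ∈ P'.decompositionSubgroup ℚ) :
    r σ 0 0 - r σ 1 1 ∈ 𝔟 ∧ r σ 0 1 ∈ 𝔟 ∧ r σ 1 0 ∈ 𝔟 := by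
  -- it suffices to work modulo `𝔟 + 𝔪 ^ k` for every `k`
  suffices hk : ∀ k : ℕ, IsSc (rmod r (𝔟 ⊔ maximalIdeal R ^ k) σ) by
    refine ⟨mem_of_forall_mem_sup_pow 𝔟 fun k => ?_, mem_of_forall_mem_sup_pow 𝔟 fun k => ?_,
      mem_of_forall_mem_sup_pow 𝔟 fun k => ?_⟩
    · have := (hk k).1
      rwa [rmod_apply, Matrix.map_apply, Matrix.map_apply, ← map_sub,
        Ideal.Quotient.eq_zero_iff_mem] at this
    · have := (hk k).2.1
      rwa [rmod_apply, Matrix.map_apply, Ideal.Quotient.eq_zero_iff_mem] at this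
    · have := (hk k).2.2
      rwa [rmod_apply, Matrix.map_apply, Ideal.Quotient.eq_zero_iff_mem] at this
  intro k
  set I := 𝔟 ⊔ maximalIdeal R ^ k with hI
  set rB := rmod r I with hrB
  have hscal : ∀ {s : GQ}, (r s 0 0 - r s 1 1 ∈ 𝔟 ∧ r s 0 1 ∈ 𝔟 ∧ r s 1 0 ∈ 𝔟) → IsSc (rB s) := by
    rintro s ⟨h1, h2, h3⟩
    refine ⟨?_, ?_, ?_⟩
    · rw [hrB, rmod_apply, Matrix.map_apply, Matrix.map_apply, ← map_sub,
        Ideal.Quotient.eq_zero_iff_mem]
      exact le_sup_left (a := 𝔟) h1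
    · rw [hrB, rmod_apply, Matrix.map_apply, Ideal.Quotient.eq_zero_iff_mem]
      exact le_sup_left (a := 𝔟) h2
    · rw [hrB, rmod_apply, Matrix.map_apply, Ideal.Quotient.eq_zero_iff_mem]
      exact le_sup_left (a := 𝔟) h3
  -- the conjugation action
  set u : GQ →* (M2 (R ⧸ I))ˣ := rB.toHomUnits with hu
  set F : GQ →* MulAut ((M2 (R ⧸ I))ˣ) := MulAut.conj.comp u with hF
  have hu_val : ∀ s : GQ, ((u s : (M2 (R ⧸ I))ˣ) : M2 (R ⧸ I)) = rB s := fun s => rfl
  have hF_one_of_isSc : ∀ s : GQ, IsSc (rB s) → F s = 1 := by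
    intro s hs
    ext w
    rw [hF, MonoidHom.comp_apply, MulAut.conj_apply, MulAut.one_apply, Units.val_mul,
      Units.val_mul, hu_val, hs.commute, mul_assoc, ← hu_val, Units.mul_inv, mul_one]
  have hfac : GaloisFactorsThroughFiniteLevel F := by
    obtain ⟨L, hLfd, hLn, hL⟩ := exists_level r hr I k le_sup_right
    refine ⟨L, hLfd, fun s hs => ?_⟩
    apply hF_one_of_isSc
    rw [hrB, hL s hs]
    have := IsSc.smul_one (B := R ⧸ I) 1
    rwa [one_smul] at this
  have hur : ∀ s ∈ P.inertiaSubgroupIn ℚ, F s = 1 := by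
    intro s hs
    apply hF_one_of_isSc
    obtain ⟨a, ha⟩ := hgen k s hs
    have h1 : rB s = rB τ ^ a := (rmod_eq_iff r I s τ a).2 (ha.mono le_sup_right)
    rw [h1]
    exact (hscal hτ𝔟).pow a
  have hFφ : F φ = 1 := hF_one_of_isSc φ (hscal hφ𝔟)
  -- conjugate `P'` to `P`
  obtain ⟨g, hg⟩ := Fermat.Agent.EC.exists_smul_eq_of_liesOverPrime hv hP' hP
  have hσ' : g * σ * g⁻¹ ∈ P.decompositionSubgroup ℚ := by
    rw [hg]
    exact (Fermat.Agent.EC.conj_mem_decompositionSubgroup (A := P') g σ).2 hσ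
  obtain ⟨m, hm⟩ := Fermat.Agent.RB.SEL.exists_pow_of_mem_decompositionSubgroup F hfac hv P hP
    hur hφ hσ'
  rw [hFφ, one_pow, map_mul, map_mul, map_inv] at hm
  have hFσ : F σ = 1 := by
    have : F σ = (F g)⁻¹ * (F g * F σ * (F g)⁻¹) * F g := by group
    rw [this, hm, mul_one, inv_mul_cancel]
  -- `u σ` commutes with the elementary unipotents
  have hcomm : ∀ w : (M2 (R ⧸ I))ˣ, rB σ * (w : M2 (R ⧸ I)) = (w : M2 (R ⧸ I)) * rB σ := by
    intro w
    have h1 := congrArg (fun f : MulAut ((M2 (R ⧸ I))ˣ) => f w) hFσ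
    simp only [hF, MonoidHom.comp_apply, MulAut.conj_apply, MulAut.one_apply] at h1
    have h2 : u σ * w = w * u σ := by
      calc u σ * w = u σ * w * (u σ)⁻¹ * u σ := by group
        _ = w * u σ := by rw [h1]
    have h3 := congrArg (fun x : (M2 (R ⧸ I))ˣ => (x : M2 (R ⧸ I))) h2
    simpa only [Units.val_mul, hu_val] using h3
  exact isSc_of_commute (rB σ) (hcomm unipU) (hcomm unipL)

end Decomp

end Fermat.Agent.RB.GLUE
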