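/-
PROJECT RB — [GLUE] (helper9), file 10: `2 × 2` matrix identities for the local analysis at `Σ`.
-/
import Mathlib

set_option autoImplicit false
set_option linter.unusedSectionVars false
set_option linter.unusedVariables false

namespace Fermat.Agent.RB.GLUE

open Polynomial

section

variable {R : Type*} [CommRing R]

/-- Cayley–Hamilton for `2 × 2` matrices -/
theorem mat2_mul_self (M : Matrix (Fin 2) (Fin 2) R) :
    M * M = M.trace • M - M.det • (1 : Matrix (Fin 2) (Fin 2) R) := by
  ext i j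
  fin_cases i <;> fin_cases j <;>
    simp [Matrix.mul_apply, Fin.sum_univ_two, Matrix.trace_fin_two, Matrix.det_fin_two] <;> ring

/-- unipotent `2 × 2` matrices: `(M - 1)² = 0` -/
theorem sub_one_sq_eq_zero {M : Matrix (Fin 2) (Fin 2) R} (htr : M.trace = 2) (hdet : M.det = 1) :
    (M - 1) * (M - 1) = 0 := by
  have h := mat2_mul_self M
  rw [htr, hdet, one_smul] at h
  have : (M - 1) * (M - 1) = M * M - (2 : R) • M + 1 := by
    rw [sub_mul, mul_sub, mul_one, one_mul, two_smul]; abel
  rw [this, h]; abel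

/-- `(1 + N) ^ k = 1 + k N` if `N² = 0` -/
theorem pow_eq_of_sub_one_sq {M : Matrix (Fin 2) (Fin 2) R} (h : (M - 1) * (M - 1) = 0) (k : ℕ) :
    M ^ k = 1 + (k : R) • (M - 1) := by
  induction k with
  | zero => simp
  | succ k ih =>
    set N := M - 1 with hN
    have hM : M = 1 + N := by rw [hN]; abel
    have e : (1 + (k : R) • N) * (1 + N) = 1 + ((k : R) + 1) • N := by
      rw [add_mul, mul_add, mul_add, one_mul, one_mul, mul_one, Matrix.smul_mul, h, smul_zero,
        add_zero, add_smul, one_smul]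
      abel
    rw [pow_succ, ih]
    conv_lhs => rw [hM]
    rw [e]
    push_cast
    rfl

/-- the tame relation on the unipotent side -/
theorem rel_of_conj_unipotent {Sg Ph : Matrix (Fin 2) (Fin 2) R} (htr : Sg.trace = 2)
    (hdet : Sg.det = 1) (v : ℕ) (hconj : Ph * Sg = Sg ^ v * Ph) :
    Ph * (Sg - 1) = (v : R) • ((Sg - 1) * Ph) := by
  rw [pow_eq_of_sub_one_sq (sub_one_sq_eq_zero htr hdet)] at hconj
  rw [mul_sub, mul_one, hconj, add_mul, one_mul, Matrix.smul_mul]
  abel

/-- the tame relation on the `χ`-side -/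
theorem comm_of_conj_of_pow {Sg Ph : Matrix (Fin 2) (Fin 2) R} {p v : ℕ} (hv : v ≡ 1 [MOD p])
    (hv0 : 0 < v) (hpow : Sg ^ p = 1) (hconj : Ph * Sg = Sg ^ v * Ph) : Ph * Sg = Sg * Ph := by
  have h1 : p ∣ v - 1 := (Nat.modEq_iff_dvd' hv0).1 hv.symm
  obtain ⟨m, hm⟩ := h1
  have hv' : v = 1 + p * m := by omega
  rw [hconj, hv', pow_add, pow_one, pow_mul, hpow, one_pow, mul_one]

/-- trace and determinant from the characteristic polynomial -/
theorem trace_det_of_charpoly [Nontrivial R] (M : Matrix (Fin 2) (Fin 2) R) {a b : R}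
    (h : M.charpoly = X ^ 2 - C a * X + C b) : M.trace = a ∧ M.det = b := by
  rw [Matrix.charpoly_fin_two] at h
  have h1 := congrArg (fun q => Polynomial.coeff q 1) h
  have h0 := congrArg (fun q => Polynomial.coeff q 0) h
  simp [Polynomial.coeff_X_pow] at h1 h0
  exact ⟨h1, h0⟩

theorem trace_det_of_charpoly_unipotent [Nontrivial R] (M : Matrix (Fin 2) (Fin 2) R)
    (h : M.charpoly = (X - 1) ^ 2) : M.trace = 2 ∧ M.det = 1 := by
  refine trace_det_of_charpoly M ?_
  rw [h]
  simp only [map_ofNat, map_one]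
  ring

end

end Fermat.Agent.RB.GLUE
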