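/-
PROJECT RB, block [LOC]: the square root `θ(w) = √(δ + q(w))` as a power series (Hensel's lemma
in `O⟦w⟧`), uniqueness of square roots congruent modulo the Jacobson radical, and the evaluation
of `θ`.  helper4.
-/
import Mathlib
import Fermat.Agent.RB.LOC_helper4_Defs
import Fermat.Agent.RB.TK_helper4_EvalAdic
import Fermat.Agent.RB.TK_helper4_KillVars

set_option autoImplicit false

namespace Fermat.Agent.RB.LOC

open MvPowerSeries

/-- uniqueness of square roots which are congruent modulo the Jacobson radical (`2` invertible) -/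
theorem eq_of_sq_eq_sq_of_sub_mem {A : Type*} [CommRing A] (J : Ideal A)
    (hJ : J ≤ Ideal.jacobson ⊥) (h2 : IsUnit (2 : A)) {x y : A} (hy : IsUnit y)
    (hsq : x ^ 2 = y ^ 2) (hxy : x - y ∈ J) : x = y := by
  have h1 : (x - y) * (x + y) = 0 := by linear_combination hsq
  have h2y : IsUnit (2 * y) := h2.mul hy
  obtain ⟨u, hu⟩ := h2y
  have hunit : IsUnit (x + y) := by
    have hj : x - y ∈ (⊥ : Ideal A).jacobson := hJ hxy
    have h3 := Ideal.mem_jacobson_bot.mp hj (↑u⁻¹ : A)
    have h4 : x + y = (u : A) * ((x - y) * (↑u⁻¹ : A) + 1) := by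
      have : (u : A) * (↑u⁻¹ : A) = 1 := Units.mul_inv u
      linear_combination (-(x - y)) * this - hu
    rw [h4]
    exact u.isUnit.mul h3
  have h5 : x - y = 0 := by
    obtain ⟨z, hz⟩ := hunit
    have : (x - y) * (z : A) * (↑z⁻¹ : A) = 0 := by rw [hz, h1, zero_mul]
    rwa [mul_assoc, Units.mul_inv, mul_one] at this
  exact sub_eq_zero.mp h5

section Exists

variable {O : Type*} [CommRing O]

/-- **existence of `θ`**: for `α ^ 2 = δ`, `α` and `2` units, there is a power series `θ` in
`w = (a, b, c)` with `θ ^ 2 = δ + q(w)` and constant coefficient `α`. -/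
theorem exists_theta (α δ : O) (hα : α ^ 2 = δ) (hunit : IsUnit α) (h2 : IsUnit (2 : O)) :
    ∃ θ : MvPowerSeries (Fin 3) O,
      θ ^ 2 = C δ + qf (fun i : Fin 3 => (X i : MvPowerSeries (Fin 3) O)) ∧
        constantCoeff θ = α := by
  let R := MvPowerSeries (Fin 3) O
  let I : Ideal R := Ideal.span (Set.range (X : Fin 3 → R))
  have hH : HenselianRing R I := IsAdicComplete.henselianRing R I
  have hqI : qf (fun i : Fin 3 => (X i : R)) ∈ I := by
    rw [qf]
    apply Ideal.add_mem
    · rw [pow_two]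
      exact Ideal.mul_mem_left _ _ (Ideal.subset_span ⟨0, rfl⟩)
    · exact Ideal.mul_mem_left _ _ (Ideal.subset_span ⟨2, rfl⟩)
  let f : Polynomial R :=
    Polynomial.X ^ 2 - Polynomial.C (C δ + qf (fun i : Fin 3 => (X i : R)))
  have hmonic : f.Monic := Polynomial.monic_X_pow_sub_C _ (by norm_num)
  have heval : Polynomial.eval (C α : R) f ∈ I := by
    have : Polynomial.eval (C α : R) f = - qf (fun i : Fin 3 => (X i : R)) := by
      simp only [f, Polynomial.eval_sub, Polynomial.eval_pow, Polynomial.eval_X,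
        Polynomial.eval_C]
      rw [← map_pow, hα]
      ring
    rw [this]
    exact neg_mem hqI
  have hder : IsUnit (Ideal.Quotient.mk I (Polynomial.eval (C α : R) (Polynomial.derivative f))) := by
    apply IsUnit.map
    have : Polynomial.eval (C α : R) (Polynomial.derivative f) = C (2 * α) := by
      simp only [f, Polynomial.derivative_sub, Polynomial.derivative_X_pow, Polynomial.derivative_C,
        sub_zero, Polynomial.eval_mul, Polynomial.eval_pow, Polynomial.eval_X, Polynomial.eval_C]
      simp [map_mul, map_ofNat]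
    rw [this]
    exact (h2.mul hunit).map C
  obtain ⟨θ, hroot, hsub⟩ := hH.is_henselian f hmonic (C α) heval hder
  refine ⟨θ, ?_, ?_⟩
  · have : Polynomial.eval θ f = 0 := hroot
    simp only [f, Polynomial.eval_sub, Polynomial.eval_pow, Polynomial.eval_X,
      Polynomial.eval_C] at this
    exact sub_eq_zero.mp this
  · have h1 : θ - C α ∈ RingHom.ker (constantCoeff (σ := Fin 3) (R := O)) := by
      rw [TK.ker_constantCoeff]
      exact hsub
    rw [RingHom.mem_ker, map_sub, constantCoeff_C, sub_eq_zero] at h1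
    exact h1

end Exists

section Eval

variable {O : Type*} [CommRing O] {A : Type*} [CommRing A] [Algebra O A]
  (I : Ideal A) [IsAdicComplete I A]

omit [IsAdicComplete I A] in
theorem map_qf {B : Type*} [CommRing B] (φ : A →+* B) (t : Fin 3 → A) :
    φ (qf t) = qf (fun i => φ (t i)) := by
  simp [qf]

/-- the value of `θ` at `w`: it is the square root of `δ + q(w)` congruent to `α` -/
theorem evalAdic_theta (θ : MvPowerSeries (Fin 3) O) (α δ : O)
    (hθ : θ ^ 2 = C δ + qf (fun i : Fin 3 => (X i : MvPowerSeries (Fin 3) O)))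
    (hα : constantCoeff θ = α) (w : Fin 3 → A) (hw : ∀ i, w i ∈ I) :
    (TK.evalAdic I w hw θ) ^ 2 = algebraMap O A δ + qf w ∧
      TK.evalAdic I w hw θ - algebraMap O A α ∈ I := by
  constructor
  · rw [← map_pow, hθ, map_add, TK.evalAdic_C]
    congr 1
    have := map_qf (TK.evalAdic (R := O) I w hw).toRingHom
      (fun i : Fin 3 => (X i : MvPowerSeries (Fin 3) O))
    simp only [AlgHom.toRingHom_eq_coe, RingHom.coe_coe, TK.evalAdic_X] at this
    exact this
  · have h1 : TK.evalAdic I w hw (θ - C α) ∈ I ^ 1 := by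
      apply TK.evalAdic_mem_pow
      intro d hd
      have hd0 : d = 0 := by
        have : d.degree = 0 := Nat.lt_one_iff.mp hd
        exact (Finsupp.degree_eq_zero_iff d).mp this
      rw [hd0, coeff_zero_eq_constantCoeff_apply, map_sub, constantCoeff_C, hα, sub_self]
    rw [pow_one, map_sub, TK.evalAdic_C] at h1
    exact h1

/-- **identification of the scalar part of Frobenius**: if `τ ^ 2 = δ + q(w)` and `τ ≡ α` modulo
`I`, then `τ = θ(w)`. -/
theorem eq_evalAdic_theta (h2 : IsUnit (2 : A)) (θ : MvPowerSeries (Fin 3) O) (α δ : O)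
    (hθ : θ ^ 2 = C δ + qf (fun i : Fin 3 => (X i : MvPowerSeries (Fin 3) O)))
    (hα : constantCoeff θ = α) (hunit : IsUnit α) (w : Fin 3 → A) (hw : ∀ i, w i ∈ I) (τ : A)
    (hτ : τ ^ 2 = algebraMap O A δ + qf w) (hτα : τ - algebraMap O A α ∈ I) :
    τ = TK.evalAdic I w hw θ := by
  obtain ⟨h1, h3⟩ := evalAdic_theta I θ α δ hθ hα w hw
  have hJ : I ≤ Ideal.jacobson ⊥ := IsAdicComplete.le_jacobson_bot I
  have hu : IsUnit (TK.evalAdic I w hw θ) := by
    have hj : TK.evalAdic I w hw θ - algebraMap O A α ∈ (⊥ : Ideal A).jacobson := hJ h3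
    obtain ⟨u, hu⟩ := hunit.map (algebraMap O A)
    have h4 := Ideal.mem_jacobson_bot.mp hj (↑u⁻¹ : A)
    have h5 : TK.evalAdic I w hw θ =
        (u : A) * ((TK.evalAdic I w hw θ - algebraMap O A α) * (↑u⁻¹ : A) + 1) := by
      have : (u : A) * (↑u⁻¹ : A) = 1 := Units.mul_inv u
      linear_combination (-(TK.evalAdic I w hw θ - algebraMap O A α)) * this - hu
    rw [h5]
    exact u.isUnit.mul h4
  apply eq_of_sq_eq_sq_of_sub_mem I hJ h2 hu
  · rw [hτ, h1]
  · have := Ideal.sub_mem _ hτα h3
    simpa using this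

end Eval

end Fermat.Agent.RB.LOC
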