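/-
PROJECT RB, block [LOC]: construction of the local data `LOC.Data O Sig` from the arithmetic input
(uniformizer, the primes `v ∈ Σ`, roots of unity `ζ_v`, determinants `δ_v = α_v²` of Frobenius),
with `D.Good` and the specification of `θ_v` proved.  helper4.
-/
import Mathlib
import Fermat.Agent.RB.LOC_helper4_Theta

set_option autoImplicit false

namespace Fermat.Agent.RB.LOC

open MvPowerSeries

/-- the arithmetic input of the two local problems at the primes of `Σ` -/
structure Roots (O : Type*) [CommRing O] (Sig : Type*) where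
  /-- a uniformizer -/
  lam : O
  /-- `1/2` -/
  half : O
  two_mul_half : 2 * half = 1
  /-- the rational prime `v`, as an element of `O` -/
  nv : Sig → O
  lam_dvd_nv_sub_one : ∀ v, lam ∣ nv v - 1
  /-- a root of unity of `p`-power order, `ζ_v ≡ 1 mod λ` -/
  zeta : Sig → O
  /-- its inverse -/
  zetaInv : Sig → O
  zeta_mul_zetaInv : ∀ v, zeta v * zetaInv v = 1
  lam_dvd_zeta_sub_one : ∀ v, lam ∣ zeta v - 1
  /-- the determinant of Frobenius at `v` -/
  delta : Sig → O
  /-- the square root of `δ_v` lifting the eigenvalue of `ρ̄(Frob_v)` -/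
  alpha : Sig → O
  alpha_sq : ∀ v, alpha v ^ 2 = delta v
  isUnit_alpha : ∀ v, IsUnit (alpha v)

namespace Roots

theorem isUnit_two {O : Type*} [CommRing O] {Sig : Type*} (Rt : Roots O Sig) : IsUnit (2 : O) :=
  IsUnit.of_mul_eq_one _ Rt.two_mul_half

variable {O : Type*} [CommRing O] {Sig : Type*} (Rt : Roots O Sig)

/-- `θ_v = √(δ_v + q(w))` -/
noncomputable def theta (v : Sig) : MvPowerSeries (Fin 3) O :=
  (exists_theta (Rt.alpha v) (Rt.delta v) (Rt.alpha_sq v) (Rt.isUnit_alpha v) Rt.isUnit_two).choose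

theorem theta_sq (v : Sig) :
    Rt.theta v ^ 2 =
      C (Rt.delta v) + qf (fun i : Fin 3 => (X i : MvPowerSeries (Fin 3) O)) :=
  (exists_theta (Rt.alpha v) (Rt.delta v) (Rt.alpha_sq v) (Rt.isUnit_alpha v)
    Rt.isUnit_two).choose_spec.1

theorem constantCoeff_theta (v : Sig) : constantCoeff (Rt.theta v) = Rt.alpha v :=
  (exists_theta (Rt.alpha v) (Rt.delta v) (Rt.alpha_sq v) (Rt.isUnit_alpha v)
    Rt.isUnit_two).choose_spec.2

/-- `γ_v = (ζ_v - ζ_v⁻¹)/2` -/
def gam (v : Sig) : O := Rt.half * (Rt.zeta v - Rt.zetaInv v)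

/-- `c_v = (ζ_v + ζ_v⁻¹)/2`, half the trace of the tame generator in problem (2) -/
def c (v : Sig) : O := Rt.half * (Rt.zeta v + Rt.zetaInv v)

theorem c_sq (v : Sig) : Rt.c v ^ 2 - 1 = Rt.gam v ^ 2 := by
  have h1 := Rt.two_mul_half
  have h2 := Rt.zeta_mul_zetaInv v
  simp only [c, gam]
  linear_combination (2 * Rt.half + 1) * h1 + 4 * Rt.half ^ 2 * h2

theorem two_mul_c (v : Sig) : 2 * Rt.c v = Rt.zeta v + Rt.zetaInv v := by
  simp only [c]
  linear_combination (Rt.zeta v + Rt.zetaInv v) * Rt.two_mul_half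

theorem lam_dvd_gam (v : Sig) : Rt.lam ∣ Rt.gam v := by
  obtain ⟨k, hk⟩ := Rt.lam_dvd_zeta_sub_one v
  refine ⟨Rt.half * k * (1 + Rt.zetaInv v), ?_⟩
  have h2 := Rt.zeta_mul_zetaInv v
  simp only [gam]
  linear_combination Rt.half * (1 + Rt.zetaInv v) * hk - Rt.half * h2

/-- the local data -/
noncomputable def toData : Data O Sig where
  lam := Rt.lam
  half := Rt.half
  two_mul_half := Rt.two_mul_half
  nv := Rt.nv
  lam_dvd_nv_sub_one := Rt.lam_dvd_nv_sub_one
  gam := Rt.gam
  lam_dvd_gam := Rt.lam_dvd_gam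
  theta := Rt.theta
  isUnit_theta := fun v => by
    rw [Rt.constantCoeff_theta]
    exact Rt.isUnit_alpha v

theorem toData_good [IsDomain O] (hlam : Irreducible Rt.lam) (hz : ∀ v, Rt.zeta v ^ 2 ≠ 1)
    (hnv : ∀ v, Rt.nv v ≠ 1) : Rt.toData.Good where
  irreducible_lam := hlam
  gam_ne_zero := by
    intro v h
    change Rt.half * (Rt.zeta v - Rt.zetaInv v) = 0 at h
    apply hz v
    have h2 := Rt.zeta_mul_zetaInv v
    have h1 := Rt.two_mul_half
    linear_combination 2 * Rt.zeta v * h + h2 - (Rt.zeta v ^ 2 - Rt.zeta v * Rt.zetaInv v) * h1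
  nv_ne_one := hnv

end Roots

end Fermat.Agent.RB.LOC
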