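/-
PROJECT RB, block [LOC]: the DICTIONARY between the generators of `I₁`, `I₂` and matrix identities.

Traceless triples `(a, b, c)` are identified with `!![a, b; c, -a]` (`tmat`); a matrix `M` with `2`
invertible is `(tr M / 2) • 1 + tmat (tl M)`.  For `N = tmat s`, `Φ = θ • 1 + tmat w`:
* problem (1):  `N² = 0` and `Φ N = 𝓋 N Φ`  ⇒  the generators of `I₁` vanish at `(s, w)`;
* problem (2):  `det (c • 1 + N) = 1`, `c² - 1 = γ²`, `Φ` commutes with `c • 1 + N`
                ⇒  the generators of `I₂` vanish at `(s, w)`.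
Consequently the evaluation homomorphism `PS → A` (`A` adically complete) at the coordinates of
such matrices kills `I₁`, resp. `I₂`.  helper4.
-/
import Mathlib
import Fermat.Agent.RB.LOC_helper4_Theta

set_option autoImplicit false

namespace Fermat.Agent.RB.LOC

open MvPowerSeries Matrix

section Mat

variable {A : Type*} [CommRing A]

/-- the traceless matrix `!![a, b; c, -a]` -/
def tmat (t : Fin 3 → A) : Matrix (Fin 2) (Fin 2) A := !![t 0, t 1; t 2, - t 0]

/-- traceless coordinates of a matrix (`half = 1/2`) -/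
def tl (half : A) (M : Matrix (Fin 2) (Fin 2) A) : Fin 3 → A :=
  ![half * (M 0 0 - M 1 1), M 0 1, M 1 0]

theorem tmat_mul_self (s : Fin 3 → A) :
    tmat s * tmat s = qf s • (1 : Matrix (Fin 2) (Fin 2) A) := by
  ext i j
  fin_cases i <;> fin_cases j <;> simp [tmat, qf, Matrix.mul_apply, Fin.sum_univ_two] <;> ring

theorem tmat_mul_add (s w : Fin 3 → A) :
    tmat s * tmat w + tmat w * tmat s = bf2 s w • (1 : Matrix (Fin 2) (Fin 2) A) := by
  ext i j
  fin_cases i <;> fin_cases j <;> simp [tmat, bf2, Matrix.mul_apply, Fin.sum_univ_two] <;> ring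

theorem tmat_brk (w s : Fin 3 → A) :
    tmat w * tmat s - tmat s * tmat w = tmat (brk w s) := by
  ext i j
  fin_cases i <;> fin_cases j <;> simp [tmat, brk, Matrix.mul_apply, Fin.sum_univ_two] <;> ring

theorem eq_smul_one_add_tmat (half : A) (h : 2 * half = 1) (M : Matrix (Fin 2) (Fin 2) A) :
    M = (half * M.trace) • (1 : Matrix (Fin 2) (Fin 2) A) + tmat (tl half M) := by
  ext i j
  fin_cases i <;> fin_cases j <;>
    simp [tmat, tl, Matrix.trace, Fin.sum_univ_two]
  · linear_combination (-(M 0 0)) * h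
  · linear_combination (-(M 1 1)) * h

theorem det_smul_one_add_tmat (c : A) (s : Fin 3 → A) :
    (c • (1 : Matrix (Fin 2) (Fin 2) A) + tmat s).det = c ^ 2 - qf s := by
  rw [Matrix.det_fin_two]
  simp [tmat, qf]
  ring

theorem trace_smul_one_add_tmat (c : A) (s : Fin 3 → A) :
    (c • (1 : Matrix (Fin 2) (Fin 2) A) + tmat s).trace = 2 * c := by
  simp [tmat, Matrix.trace, Fin.sum_univ_two]
  ring

theorem smul_one_add_tmat_eq_zero (half : A) (h : 2 * half = 1) {c : A} {t : Fin 3 → A}
    (h0 : c • (1 : Matrix (Fin 2) (Fin 2) A) + tmat t = 0) : c = 0 ∧ ∀ i, t i = 0 := by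
  have e00 := congrFun (congrFun h0 0) 0
  have e01 := congrFun (congrFun h0 0) 1
  have e10 := congrFun (congrFun h0 1) 0
  have e11 := congrFun (congrFun h0 1) 1
  simp [tmat] at e00 e01 e10 e11
  have hc : c = 0 := by linear_combination half * e00 + half * e11 - c * h
  refine ⟨hc, fun i => ?_⟩
  fin_cases i
  · simp only [Fin.zero_eta]
    linear_combination e00 - hc
  · exact e01
  · exact e10

@[simp] theorem tmat_apply_00 (t : Fin 3 → A) : tmat t 0 0 = t 0 := rfl
@[simp] theorem tmat_apply_01 (t : Fin 3 → A) : tmat t 0 1 = t 1 := rfl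
@[simp] theorem tmat_apply_10 (t : Fin 3 → A) : tmat t 1 0 = t 2 := rfl
@[simp] theorem tmat_apply_11 (t : Fin 3 → A) : tmat t 1 1 = - t 0 := rfl

/-- **dictionary, problem (1)** -/
theorem gens₁_vanish (half nv θ : A) (hhalf : 2 * half = 1) (s w : Fin 3 → A)
    (hN : tmat s * tmat s = 0)
    (hrel : (θ • (1 : Matrix (Fin 2) (Fin 2) A) + tmat w) * tmat s =
      nv • (tmat s * (θ • (1 : Matrix (Fin 2) (Fin 2) A) + tmat w))) :
    qf s = 0 ∧ (1 - nv) * bf2 s w = 0 ∧
      ∀ i, (1 - nv) * θ * s i + half * (1 + nv) * brk w s i = 0 := by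
  have hq : qf s = 0 := by
    rw [tmat_mul_self] at hN
    have := congrFun (congrFun hN 0) 0
    simpa using this
  have e00 := congrFun (congrFun hrel 0) 0
  have e01 := congrFun (congrFun hrel 0) 1
  have e10 := congrFun (congrFun hrel 1) 0
  have e11 := congrFun (congrFun hrel 1) 1
  simp [Matrix.mul_apply, Fin.sum_univ_two, Matrix.add_apply, Matrix.smul_apply,
    Matrix.one_apply] at e00 e01 e10 e11
  refine ⟨hq, ?_, fun i => ?_⟩
  · simp only [bf2]
    linear_combination e00 + e11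
  · fin_cases i
    · simp only [brk, Fin.zero_eta, Matrix.cons_val_zero]
      linear_combination half * e00 - half * e11 - ((1 - nv) * θ * s 0) * hhalf
    · simp only [brk, Fin.mk_one, Matrix.cons_val_one, Matrix.cons_val_zero]
      linear_combination e01 + (1 + nv) * (w 0 * s 1 - s 0 * w 1) * hhalf
    · simp only [brk, Fin.reduceFinMk, Matrix.cons_val_two, Matrix.tail_cons, Matrix.head_cons]
      linear_combination e10 + (1 + nv) * (w 2 * s 0 - s 2 * w 0) * hhalf

/-- **dictionary, problem (2)** -/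
theorem gens₂_vanish (half c γ θ : A) (hhalf : 2 * half = 1) (s w : Fin 3 → A)
    (hdet : (c • (1 : Matrix (Fin 2) (Fin 2) A) + tmat s).det = 1) (hc : c ^ 2 - 1 = γ ^ 2)
    (hcomm : (θ • (1 : Matrix (Fin 2) (Fin 2) A) + tmat w) *
        (c • (1 : Matrix (Fin 2) (Fin 2) A) + tmat s) =
      (c • (1 : Matrix (Fin 2) (Fin 2) A) + tmat s) *
        (θ • (1 : Matrix (Fin 2) (Fin 2) A) + tmat w)) :
    qf s - γ ^ 2 = 0 ∧ ∀ j, minor s w j = 0 := by
  rw [det_smul_one_add_tmat] at hdet
  have e00 := congrFun (congrFun hcomm 0) 0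
  have e01 := congrFun (congrFun hcomm 0) 1
  have e10 := congrFun (congrFun hcomm 1) 0
  simp [Matrix.mul_apply, Fin.sum_univ_two, Matrix.add_apply, Matrix.smul_apply,
    Matrix.one_apply] at e00 e01 e10
  refine ⟨by linear_combination hc - hdet, fun j => ?_⟩
  fin_cases j
  · simp only [minor, Fin.zero_eta, Matrix.cons_val_zero]
    linear_combination (-half) * e01 - (s 0 * w 1 - s 1 * w 0) * hhalf
  · simp only [minor, Fin.mk_one, Matrix.cons_val_one, Matrix.cons_val_zero]
    linear_combination half * e10 - (s 0 * w 2 - s 2 * w 0) * hhalf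
  · simp only [minor, Fin.reduceFinMk, Matrix.cons_val_two, Matrix.tail_cons, Matrix.head_cons]
    linear_combination (-1 : A) * e00

end Mat

section Eval

variable {O : Type*} [CommRing O] {Sig : Type*} [Finite Sig] (D : Data O Sig) (g : ℕ)
  {A : Type*} [CommRing A] [Algebra O A] (I : Ideal A) [IsAdicComplete I A]
  (a : Var Sig g → A) (ha : ∀ t, a t ∈ I)

/-- the evaluation homomorphism `PS → A` at a point `a` with coordinates in `I` -/
noncomputable def evPS : PS O Sig g →ₐ[O] A := TK.evalAdic I a ha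

theorem evPS_sX (v : Sig) (i : Fin 3) : evPS g I a ha (sX O g v i) = a (Sum.inl (v, i)) :=
  TK.evalAdic_X I a ha _

theorem evPS_wX (v : Sig) (i : Fin 3) :
    evPS g I a ha (wX O g v i) = a (Sum.inr (Sum.inl (v, i))) :=
  TK.evalAdic_X I a ha _

theorem evPS_xX (j : Fin g) : evPS g I a ha (xX O Sig g j) = a (Sum.inr (Sum.inr j)) :=
  TK.evalAdic_X I a ha _

theorem evPS_C (r : O) : evPS g I a ha (C r) = algebraMap O A r :=
  TK.evalAdic_C I a ha r

theorem evPS_thetaX (v : Sig) :
    evPS g I a ha (thetaX D g v) =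
      TK.evalAdic I (fun i : Fin 3 => a (Sum.inr (Sum.inl (v, i))))
        (fun _ => ha _) (D.theta v) :=
  TK.evalAdic_rename I a ha _ _

theorem evPS_qf (t : Fin 3 → PS O Sig g) :
    evPS g I a ha (qf t) = qf (fun i => evPS g I a ha (t i)) := by
  simp [qf]

theorem evPS_bf2 (t u : Fin 3 → PS O Sig g) :
    evPS g I a ha (bf2 t u) = bf2 (fun i => evPS g I a ha (t i)) (fun i => evPS g I a ha (u i)) := by
  simp [bf2, map_ofNat]

theorem evPS_brk (t u : Fin 3 → PS O Sig g) (i : Fin 3) :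
    evPS g I a ha (brk t u i) =
      brk (fun i => evPS g I a ha (t i)) (fun i => evPS g I a ha (u i)) i := by
  fin_cases i <;> simp [brk, map_ofNat]

theorem evPS_minor (t u : Fin 3 → PS O Sig g) (j : Fin 3) :
    evPS g I a ha (minor t u j) =
      minor (fun i => evPS g I a ha (t i)) (fun i => evPS g I a ha (u i)) j := by
  fin_cases j <;> simp [minor]

/-- the `s`-coordinates of the point `a` at `v` -/
def sPt (v : Sig) : Fin 3 → A := fun i => a (Sum.inl (v, i))

/-- the `w`-coordinates of the point `a` at `v` -/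
def wPt (v : Sig) : Fin 3 → A := fun i => a (Sum.inr (Sum.inl (v, i)))

/-- **dictionary for `I₁`, coordinate form**: if at every `v` the matrices `N_v = tmat s_v`,
`Φ_v = τ_v + tmat w_v` satisfy `N_v² = 0`, `Φ_v N_v = 𝓋 N_v Φ_v`, where `τ_v` is the square root of
`δ_v + q(w_v)` congruent to `α_v`, then the evaluation at `a` kills `I₁`. -/
theorem I₁_le_ker_evPS (δ α : Sig → O)
    (hθ : ∀ v, D.theta v ^ 2 = C (δ v) + qf (fun i : Fin 3 => (X i : MvPowerSeries (Fin 3) O)))
    (hα : ∀ v, constantCoeff (D.theta v) = α v) (hαu : ∀ v, IsUnit (α v))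
    (τ : Sig → A) (hτ : ∀ v, τ v ^ 2 = algebraMap O A (δ v) + qf (wPt g a v))
    (hτα : ∀ v, τ v - algebraMap O A (α v) ∈ I)
    (hN : ∀ v, tmat (sPt g a v) * tmat (sPt g a v) = 0)
    (hrel : ∀ v, (τ v • (1 : Matrix (Fin 2) (Fin 2) A) + tmat (wPt g a v)) * tmat (sPt g a v) =
      algebraMap O A (D.nv v) •
        (tmat (sPt g a v) * (τ v • (1 : Matrix (Fin 2) (Fin 2) A) + tmat (wPt g a v)))) :
    I₁ D g ≤ RingHom.ker (evPS g I a ha) := by
  have hhalf : (2 : A) * algebraMap O A D.half = 1 := by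
    have := congrArg (algebraMap O A) D.two_mul_half
    simpa [map_ofNat] using this
  have h2 : IsUnit (2 : A) := IsUnit.of_mul_eq_one _ hhalf
  rw [I₁, Ideal.span_le]
  intro f hf
  obtain ⟨v, hv⟩ := Set.mem_iUnion.mp hf
  rw [SetLike.mem_coe, RingHom.mem_ker]
  have hτeq : τ v = evPS g I a ha (thetaX D g v) := by
    rw [evPS_thetaX]
    exact eq_evalAdic_theta I h2 (D.theta v) (α v) (δ v) (hθ v) (hα v) (hαu v) _ _ (τ v)
      (hτ v) (hτα v)
  obtain ⟨h1, h3, h4⟩ := gens₁_vanish (algebraMap O A D.half) (algebraMap O A (D.nv v)) (τ v)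
    hhalf (sPt g a v) (wPt g a v) (hN v) (hrel v)
  have hs : (fun i => evPS g I a ha (sX O g v i)) = sPt g a v := by
    funext i; exact evPS_sX g I a ha v i
  have hw : (fun i => evPS g I a ha (wX O g v i)) = wPt g a v := by
    funext i; exact evPS_wX g I a ha v i
  rcases hv with (hv | hv) | ⟨i, rfl⟩
  · rw [Set.mem_singleton_iff] at hv
    rw [hv, evPS_qf, hs]
    exact h1
  · rw [Set.mem_singleton_iff] at hv
    rw [hv, map_mul, evPS_C, evPS_bf2, hs, hw, map_sub, map_one]
    exact h3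
  · simp only [map_add, map_mul, evPS_C, evPS_brk, hw, ← hτeq, evPS_sX, map_sub, map_one]
    exact h4 i

/-- **dictionary for `I₂`, coordinate form**: if at every `v` the matrices
`Σ_v = c_v + tmat s_v` (`c_v² - 1 = γ_v²`) and `Φ_v = τ_v + tmat w_v` satisfy `det Σ_v = 1`,
`Φ_v Σ_v = Σ_v Φ_v`, then the evaluation at `a` kills `I₂`. -/
theorem I₂_le_ker_evPS (c : Sig → O) (hc : ∀ v, c v ^ 2 - 1 = D.gam v ^ 2) (τ : Sig → A)
    (hdet : ∀ v, (algebraMap O A (c v) • (1 : Matrix (Fin 2) (Fin 2) A) +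
      tmat (sPt g a v)).det = 1)
    (hcomm : ∀ v, (τ v • (1 : Matrix (Fin 2) (Fin 2) A) + tmat (wPt g a v)) *
        (algebraMap O A (c v) • (1 : Matrix (Fin 2) (Fin 2) A) + tmat (sPt g a v)) =
      (algebraMap O A (c v) • (1 : Matrix (Fin 2) (Fin 2) A) + tmat (sPt g a v)) *
        (τ v • (1 : Matrix (Fin 2) (Fin 2) A) + tmat (wPt g a v))) :
    I₂ D g ≤ RingHom.ker (evPS g I a ha) := by
  have hhalf : (2 : A) * algebraMap O A D.half = 1 := by
    have := congrArg (algebraMap O A) D.two_mul_half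
    simpa [map_ofNat] using this
  rw [I₂, Ideal.span_le]
  intro f hf
  obtain ⟨v, hv⟩ := Set.mem_iUnion.mp hf
  rw [SetLike.mem_coe, RingHom.mem_ker]
  have hc' : algebraMap O A (c v) ^ 2 - 1 = algebraMap O A (D.gam v) ^ 2 := by
    have := congrArg (algebraMap O A) (hc v)
    simpa using this
  obtain ⟨h1, h3⟩ := gens₂_vanish (algebraMap O A D.half) (algebraMap O A (c v))
    (algebraMap O A (D.gam v)) (τ v) hhalf (sPt g a v) (wPt g a v) (hdet v) hc' (hcomm v)
  have hs : (fun i => evPS g I a ha (sX O g v i)) = sPt g a v := by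
    funext i; exact evPS_sX g I a ha v i
  have hw : (fun i => evPS g I a ha (wX O g v i)) = wPt g a v := by
    funext i; exact evPS_wX g I a ha v i
  rcases hv with hv | ⟨j, rfl⟩
  · rw [Set.mem_singleton_iff] at hv
    rw [hv, map_sub, evPS_qf, hs, evPS_C, map_pow]
    exact h1
  · rw [evPS_minor, hs, hw]
    exact h3 j

end Eval

section MatrixForm

variable {O : Type*} [CommRing O] {Sig : Type*} [Finite Sig] (D : Data O Sig) (g : ℕ)
  {A : Type*} [CommRing A] [Algebra O A] (I : Ideal A) [IsAdicComplete I A]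
  (Sg Ph : Sig → Matrix (Fin 2) (Fin 2) A) (x : Fin g → A)

/-- the point of `PS` defined by the matrices `Σ_v` (image of the tame generator), `Φ_v` (image of
Frobenius) and the elements `x_j`: traceless coordinates -/
def matPoint : Var Sig g → A :=
  Sum.elim (fun p => tl (algebraMap O A D.half) (Sg p.1) p.2)
    (Sum.elim (fun p => tl (algebraMap O A D.half) (Ph p.1) p.2) x)

omit [Finite Sig] [IsAdicComplete I A] in
theorem sPt_matPoint (v : Sig) :
    sPt g (matPoint D g Sg Ph x) v = tl (algebraMap O A D.half) (Sg v) := rfl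

omit [Finite Sig] [IsAdicComplete I A] in
theorem wPt_matPoint (v : Sig) :
    wPt g (matPoint D g Sg Ph x) v = tl (algebraMap O A D.half) (Ph v) := rfl

/-- **dictionary for `I₁`, matrix form.**  `Σ_v` unipotent (`tr = 2`, `det = 1`),
`det Φ_v = δ_v`, `tr Φ_v / 2 ≡ α_v`, `Φ_v (Σ_v - 1) = 𝓋 (Σ_v - 1) Φ_v`  ⇒  the evaluation at the
traceless coordinates of `(Σ_v, Φ_v)` kills `I₁`. -/
theorem I₁_le_ker_of_matrices (hmem : ∀ t, matPoint D g Sg Ph x t ∈ I) (δ α : Sig → O)
    (hθ : ∀ v, D.theta v ^ 2 = C (δ v) + qf (fun i : Fin 3 => (X i : MvPowerSeries (Fin 3) O)))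
    (hα : ∀ v, constantCoeff (D.theta v) = α v) (hαu : ∀ v, IsUnit (α v))
    (htr : ∀ v, (Sg v).trace = 2) (hdet : ∀ v, (Sg v).det = 1)
    (hdetΦ : ∀ v, (Ph v).det = algebraMap O A (δ v))
    (hΦα : ∀ v, algebraMap O A D.half * (Ph v).trace - algebraMap O A (α v) ∈ I)
    (hrel : ∀ v, Ph v * (Sg v - 1) = algebraMap O A (D.nv v) • ((Sg v - 1) * Ph v)) :
    I₁ D g ≤ RingHom.ker (evPS g I (matPoint D g Sg Ph x) hmem) := by
  have hhalf : (2 : A) * algebraMap O A D.half = 1 := by
    have := congrArg (algebraMap O A) D.two_mul_half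
    simpa [map_ofNat] using this
  have hSg : ∀ v, Sg v = (1 : A) • (1 : Matrix (Fin 2) (Fin 2) A) +
      tmat (tl (algebraMap O A D.half) (Sg v)) := by
    intro v
    have := eq_smul_one_add_tmat (algebraMap O A D.half) hhalf (Sg v)
    rw [htr v, mul_comm, hhalf] at this
    exact this
  have hPh : ∀ v, Ph v = (algebraMap O A D.half * (Ph v).trace) •
      (1 : Matrix (Fin 2) (Fin 2) A) + tmat (tl (algebraMap O A D.half) (Ph v)) :=
    fun v => eq_smul_one_add_tmat (algebraMap O A D.half) hhalf (Ph v)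
  have hSg1 : ∀ v, Sg v - 1 = tmat (tl (algebraMap O A D.half) (Sg v)) := by
    intro v
    conv_lhs => rw [hSg v]
    rw [one_smul, add_sub_cancel_left]
  apply I₁_le_ker_evPS D g I (matPoint D g Sg Ph x) hmem δ α hθ hα hαu
    (fun v => algebraMap O A D.half * (Ph v).trace)
  · intro v
    rw [wPt_matPoint]
    have h1 := hdetΦ v
    rw [hPh v, det_smul_one_add_tmat] at h1
    linear_combination h1
  · exact hΦα
  · intro v
    rw [sPt_matPoint, tmat_mul_self]
    have h1 := hdet v
    rw [hSg v, det_smul_one_add_tmat] at h1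
    have h2 : qf (tl (algebraMap O A D.half) (Sg v)) = 0 := by linear_combination -h1
    rw [h2, zero_smul]
  · intro v
    rw [sPt_matPoint, wPt_matPoint, ← hPh v, ← hSg1 v]
    exact hrel v

/-- **dictionary for `I₂`, matrix form.**  `tr Σ_v = 2 c_v` (`c_v² - 1 = γ_v²`, i.e.
`2 c_v = ζ_v + ζ_v⁻¹`), `det Σ_v = 1`, `Φ_v Σ_v = Σ_v Φ_v`  ⇒  the evaluation at the traceless
coordinates of `(Σ_v, Φ_v)` kills `I₂`. -/
theorem I₂_le_ker_of_matrices (hmem : ∀ t, matPoint D g Sg Ph x t ∈ I) (c : Sig → O)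
    (hc : ∀ v, c v ^ 2 - 1 = D.gam v ^ 2)
    (htr : ∀ v, (Sg v).trace = 2 * algebraMap O A (c v)) (hdet : ∀ v, (Sg v).det = 1)
    (hcomm : ∀ v, Ph v * Sg v = Sg v * Ph v) :
    I₂ D g ≤ RingHom.ker (evPS g I (matPoint D g Sg Ph x) hmem) := by
  have hhalf : (2 : A) * algebraMap O A D.half = 1 := by
    have := congrArg (algebraMap O A) D.two_mul_half
    simpa [map_ofNat] using this
  have hSg : ∀ v, Sg v = algebraMap O A (c v) • (1 : Matrix (Fin 2) (Fin 2) A) +
      tmat (tl (algebraMap O A D.half) (Sg v)) := by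
    intro v
    have := eq_smul_one_add_tmat (algebraMap O A D.half) hhalf (Sg v)
    have h1 : algebraMap O A D.half * (Sg v).trace = algebraMap O A (c v) := by
      rw [htr v]
      linear_combination algebraMap O A (c v) * hhalf
    rw [h1] at this
    exact this
  have hPh : ∀ v, Ph v = (algebraMap O A D.half * (Ph v).trace) •
      (1 : Matrix (Fin 2) (Fin 2) A) + tmat (tl (algebraMap O A D.half) (Ph v)) :=
    fun v => eq_smul_one_add_tmat (algebraMap O A D.half) hhalf (Ph v)
  apply I₂_le_ker_evPS D g I (matPoint D g Sg Ph x) hmem c hc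
    (fun v => algebraMap O A D.half * (Ph v).trace)
  · intro v
    rw [sPt_matPoint, ← hSg v]
    exact hdet v
  · intro v
    rw [sPt_matPoint, wPt_matPoint, ← hPh v, ← hSg v]
    exact hcomm v

end MatrixForm

end Fermat.Agent.RB.LOC
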