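/-
PROJECT RB, block [LOC]: CONSUMER SUMMARY.  For the data `D = Rt.toData` built from the arithmetic
input `Rt : LOC.Roots O Sig`, an `I`-adically complete `O`-algebra `A` and matrices
`Σ_v, Φ_v ∈ M₂(A)` (images of a tame generator and of a Frobenius at `v ∈ Σ`) whose traceless
coordinates lie in `I`, the evaluation homomorphism
  `ev = evPS g I (matPoint D g Σ Φ x) _ : PS O Sig g →ₐ[O] A`
(`s_{v,i} ↦ tl(Σ_v)_i`, `w_{v,i} ↦ tl(Φ_v)_i`, `x_j ↦ x j`) kills
* `I₁ D g` if every `Σ_v` is unipotent and `Φ_v (Σ_v - 1) = 𝓋 (Σ_v - 1) Φ_v`   (`Roots.I₁_le_ker`),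
* `I₂ D g` if `charpoly Σ_v = X² - (ζ_v + ζ_v⁻¹) X + 1` and `Φ_v Σ_v = Σ_v Φ_v` (`Roots.I₂_le_ker`),
and `Σ_v - 1 = tmat (ev (s_{v,·}))` in the first case (`Roots.sub_one_eq_tmat`).  helper4.
-/
import Mathlib
import Fermat.Agent.RB.LOC_helper4_Dict
import Fermat.Agent.RB.LOC_helper4_Build

set_option autoImplicit false

namespace Fermat.Agent.RB.LOC

open MvPowerSeries Matrix

namespace Roots

variable {O : Type*} [CommRing O] {Sig : Type*} [Finite Sig] (Rt : Roots O Sig) (g : ℕ)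
  {A : Type*} [CommRing A] [Algebra O A] (I : Ideal A) [IsAdicComplete I A]
  (Sg Ph : Sig → Matrix (Fin 2) (Fin 2) A) (x : Fin g → A)

/-- problem (1): unipotent at `Σ` -/
theorem I₁_le_ker (hmem : ∀ t, matPoint Rt.toData g Sg Ph x t ∈ I)
    (htr : ∀ v, (Sg v).trace = 2) (hdet : ∀ v, (Sg v).det = 1)
    (hdetΦ : ∀ v, (Ph v).det = algebraMap O A (Rt.delta v))
    (hΦα : ∀ v, algebraMap O A Rt.half * (Ph v).trace - algebraMap O A (Rt.alpha v) ∈ I)
    (hrel : ∀ v, Ph v * (Sg v - 1) = algebraMap O A (Rt.nv v) • ((Sg v - 1) * Ph v)) :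
    I₁ Rt.toData g ≤ RingHom.ker (evPS g I (matPoint Rt.toData g Sg Ph x) hmem) :=
  I₁_le_ker_of_matrices Rt.toData g I Sg Ph x hmem Rt.delta Rt.alpha Rt.theta_sq
    Rt.constantCoeff_theta Rt.isUnit_alpha htr hdet hdetΦ hΦα hrel

/-- problem (2): `χ`-type at `Σ` -/
theorem I₂_le_ker (hmem : ∀ t, matPoint Rt.toData g Sg Ph x t ∈ I)
    (htr : ∀ v, (Sg v).trace = algebraMap O A (Rt.zeta v + Rt.zetaInv v))
    (hdet : ∀ v, (Sg v).det = 1) (hcomm : ∀ v, Ph v * Sg v = Sg v * Ph v) :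
    I₂ Rt.toData g ≤ RingHom.ker (evPS g I (matPoint Rt.toData g Sg Ph x) hmem) := by
  refine I₂_le_ker_of_matrices Rt.toData g I Sg Ph x hmem Rt.c Rt.c_sq ?_ hdet hcomm
  intro v
  rw [htr v, ← Rt.two_mul_c v, map_mul, map_ofNat]

omit [Finite Sig] [IsAdicComplete I A] in
/-- in problem (1) the matrix `Σ_v - 1` has the coordinates `ev (s_{v,i})` -/
theorem sub_one_eq_tmat (htr : ∀ v, (Sg v).trace = 2) (v : Sig) :
    Sg v - 1 = tmat (sPt g (matPoint Rt.toData g Sg Ph x) v) := by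
  have hhalf : (2 : A) * algebraMap O A Rt.half = 1 := by
    have := congrArg (algebraMap O A) Rt.two_mul_half
    simpa [map_ofNat] using this
  have := eq_smul_one_add_tmat (algebraMap O A Rt.half) hhalf (Sg v)
  rw [htr v, mul_comm, hhalf, one_smul] at this
  rw [sPt_matPoint]
  conv_lhs => rw [this]
  rw [add_sub_cancel_left]
  rfl

end Roots

end Fermat.Agent.RB.LOC
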