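/-
PROJECT RB — [GLUE] (helper9), file 13: **the coordinates of the decomposition groups at `Σ`
are generated by those of the tame generators and of the Frobenius elements** (for a quotient `B`
of the trace algebra), and the resulting generation of the maximal ideal from [SEL].
-/
import Mathlib
import Fermat.Agent.RB.GLUE_helper9_Sigma
import Fermat.Agent.RB.IFACE_helper9_Sel
import Fermat.Agent.RB.LOC_helper4_Consumer

set_option autoImplicit false
set_option linter.unusedSectionVars false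
set_option linter.unusedVariables false
set_option linter.style.haveILetI false

namespace Fermat.Agent.RB.GLUE

open Polynomial IsLocalRing Fermat.Agent.S53 Fermat.Agent.S53.L1 Fermat.Agent.RB.REPT
open Fermat.Agent.CFT.Arith Fermat.Agent.CFT.LocForm

local notation "Ω" => AlgebraicClosure ℚ
local notation "GQ" => (AlgebraicClosure ℚ ≃ₐ[ℚ] AlgebraicClosure ℚ)

section Generic

variable {𝕋 B : Type} [CommRing 𝕋] [IsLocalRing 𝕋] [CommRing B] [IsLocalRing B]
  (π : 𝕋 →+* B) [IsLocalHom π]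

theorem map_maximalIdeal_pow_le (k : ℕ) : (maximalIdeal 𝕋 ^ k).map π ≤ maximalIdeal B ^ k := by
  rw [Ideal.map_pow]
  refine Ideal.pow_right_mono ?_ k
  rw [Ideal.map_le_iff_le_comap]
  intro x hx
  rw [Ideal.mem_comap, mem_maximalIdeal, mem_nonunits_iff]
  exact fun h => (mem_maximalIdeal x).1 hx (isUnit_of_map_unit π x h)

variable (ρM : GQ →* Mat2 𝕋) (ρ : GaloisRepAdic B) (β : Module.Basis (Fin 2) B ρ.V)
  (hmap : ∀ σ, (ρM σ).map π = matRep ρ β σ)

include hmap in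
theorem matCont_matRep_of_map (hcont : MatAdicCont ρM) : MatCont (matRep ρ β) := by
  intro k
  obtain ⟨L, hL, h⟩ := hcont k
  refine ⟨L, hL, fun σ hσ i j => ?_⟩
  have h1 : (matRep ρ β σ - 1) i j = π ((ρM σ - 1) i j) := by
    rw [← hmap σ, Matrix.sub_apply, Matrix.sub_apply, map_sub, Matrix.map_apply]
    congr 1
    by_cases hij : i = j
    · rw [hij, Matrix.one_apply_eq, Matrix.one_apply_eq, map_one]
    · rw [Matrix.one_apply_ne hij, Matrix.one_apply_ne hij, map_zero]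
  rw [h1]
  exact map_maximalIdeal_pow_le π k (Ideal.mem_map_of_mem π (h σ hσ i j))

include hmap in
theorem emem_map_of_gen {k : ℕ} {σ τ : GQ} {a : ℕ}
    (h : EMem (maximalIdeal 𝕋 ^ k) (ρM σ - ρM τ ^ a)) :
    EMem (maximalIdeal B ^ k) (matRep ρ β σ - matRep ρ β τ ^ a) := by
  have h1 := h.map π (map_maximalIdeal_pow_le π k)
  have h2 : (ρM σ - ρM τ ^ a).map π = matRep ρ β σ - matRep ρ β τ ^ a := by
    have e : ∀ M : Mat2 𝕋, M.map π = π.mapMatrix M := fun M => rfl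
    rw [e, map_sub, map_pow, ← e, ← e, hmap, hmap]
  rwa [h2] at h1

end Generic

section LocCoord

variable {𝕋 B : Type} [CommRing 𝕋] [IsLocalRing 𝕋] [CommRing B] [IsLocalRing B]
  [IsNoetherianRing B] (π : 𝕋 →+* B) [IsLocalHom π]
  (ρM : GQ →* Mat2 𝕋) (ρ : GaloisRepAdic B) (β : Module.Basis (Fin 2) B ρ.V)
  (hmap : ∀ σ, (ρM σ).map π = matRep ρ β σ) (hcont : MatAdicCont ρM)
  (Sig : Finset ℕ) [hF : ∀ v : ↥Sig, Fact ((v : ℕ).Prime)] (τ : ↥Sig → GQ)
  (hgen : ∀ (v : ↥Sig) (k : ℕ), ∀ σ ∈ (padicPlace (v : ℕ)).inertiaSubgroupIn ℚ, ∃ a : ℕ,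
    EMem (maximalIdeal 𝕋 ^ k) (ρM σ - ρM (τ v) ^ a))
  (𝔠 : Ideal B)
  (hτ : ∀ v : ↥Sig, matRep ρ β (τ v) 0 0 - matRep ρ β (τ v) 1 1 ∈ 𝔠 ∧
    matRep ρ β (τ v) 0 1 ∈ 𝔠 ∧ matRep ρ β (τ v) 1 0 ∈ 𝔠)
  (hφ : ∀ v : ↥Sig, matRep ρ β (frobElt v) 0 0 - matRep ρ β (frobElt v) 1 1 ∈ 𝔠 ∧
    matRep ρ β (frobElt v) 0 1 ∈ 𝔠 ∧ matRep ρ β (frobElt v) 1 0 ∈ 𝔠)

include hmap hcont hgen hτ hφ in
/-- the coordinates of the decomposition groups at `Σ` lie in the ideal generated by those of the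
tame generators and of the Frobenius elements -/
theorem locCoordIdeal_le : locCoordIdeal ρ β Sig ≤ 𝔠 := by
  rw [locCoordIdeal, Ideal.span_le]
  rintro a ⟨v, hv, P', hP', σ, hσ, ha⟩
  haveI := hF ⟨v, hv⟩
  have key := coords_mem_of_mem_decomposition (matRep ρ β)
    (matCont_matRep_of_map π ρM ρ β hmap hcont) (hF ⟨v, hv⟩).out
    (Fermat.Agent.TW.Kill.padicPlace_liesOverPrime v) 𝔠 (τ := τ ⟨v, hv⟩) (φ := frobElt v)
    (fun k σ hσ => by
      obtain ⟨a, ha⟩ := hgen ⟨v, hv⟩ k σ hσ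
      exact ⟨a, emem_map_of_gen π ρM ρ β hmap ha⟩)
    (frobElt_spec v) (hτ ⟨v, hv⟩) (hφ ⟨v, hv⟩) hP' hσ
  rcases ha with rfl | rfl | rfl
  · exact key.1
  · exact key.2.1
  · exact key.2.2

end LocCoord

section Coord

variable {O : Type} [CommRing O] {𝕋 B : Type} [CommRing 𝕋] [Algebra O 𝕋] [CommRing B]
  [Algebra O B] (π : 𝕋 →ₐ[O] B) {Sg : Type} (D : LOC.Data O Sg) (g : ℕ)
  (SgM PhM : Sg → Mat2 𝕋) (y : Fin g → 𝕋)

/-- the ideal of `B` generated by the traceless coordinates of the tame generators and of the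
Frobenius elements -/
def coordIdeal : Ideal B :=
  Ideal.span {a | ∃ (v : Sg) (i : Fin 3),
    a = π (LOC.tl (algebraMap O 𝕋 D.half) (SgM v) i) ∨
    a = π (LOC.tl (algebraMap O 𝕋 D.half) (PhM v) i)}

theorem two_mul_tl_zero (M : Mat2 𝕋) :
    2 * π (LOC.tl (algebraMap O 𝕋 D.half) M 0) = π (M 0 0 - M 1 1) := by
  have h2 : (2 : 𝕋) * algebraMap O 𝕋 D.half = 1 := by
    have := congrArg (algebraMap O 𝕋) D.two_mul_half
    rwa [map_mul, map_ofNat, map_one] at this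
  have : LOC.tl (algebraMap O 𝕋 D.half) M 0 = algebraMap O 𝕋 D.half * (M 0 0 - M 1 1) := rfl
  rw [this, ← map_ofNat π 2, ← map_mul, ← mul_assoc, h2, one_mul]

theorem coords_mem_coordIdeal_Sg (v : Sg) :
    ((SgM v).map π) 0 0 - ((SgM v).map π) 1 1 ∈ coordIdeal π D SgM PhM ∧
      ((SgM v).map π) 0 1 ∈ coordIdeal π D SgM PhM ∧
      ((SgM v).map π) 1 0 ∈ coordIdeal π D SgM PhM := by
  refine ⟨?_, ?_, ?_⟩
  · rw [Matrix.map_apply, Matrix.map_apply, ← map_sub, ← two_mul_tl_zero π D]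
    exact Ideal.mul_mem_left _ _ (Ideal.subset_span ⟨v, 0, Or.inl rfl⟩)
  · exact Ideal.subset_span ⟨v, 1, Or.inl rfl⟩
  · exact Ideal.subset_span ⟨v, 2, Or.inl rfl⟩

theorem coords_mem_coordIdeal_Ph (v : Sg) :
    ((PhM v).map π) 0 0 - ((PhM v).map π) 1 1 ∈ coordIdeal π D SgM PhM ∧
      ((PhM v).map π) 0 1 ∈ coordIdeal π D SgM PhM ∧
      ((PhM v).map π) 1 0 ∈ coordIdeal π D SgM PhM := by
  refine ⟨?_, ?_, ?_⟩
  · rw [Matrix.map_apply, Matrix.map_apply, ← map_sub, ← two_mul_tl_zero π D]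
    exact Ideal.mul_mem_left _ _ (Ideal.subset_span ⟨v, 0, Or.inr rfl⟩)
  · exact Ideal.subset_span ⟨v, 1, Or.inr rfl⟩
  · exact Ideal.subset_span ⟨v, 2, Or.inr rfl⟩

/-- the ideal generated by the images of all the coordinates of the point -/
theorem span_range_matPoint :
    Ideal.span (Set.range fun t => π (LOC.matPoint D g SgM PhM y t)) =
      coordIdeal π D SgM PhM ⊔ Ideal.span (Set.range fun j => π (y j)) := by
  apply le_antisymm
  · rw [Ideal.span_le]
    rintro _ ⟨t, rfl⟩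
    rcases t with ⟨v, i⟩ | ⟨v, i⟩ | j
    · exact Ideal.mem_sup_left (Ideal.subset_span ⟨v, i, Or.inl rfl⟩)
    · exact Ideal.mem_sup_left (Ideal.subset_span ⟨v, i, Or.inr rfl⟩)
    · exact Ideal.mem_sup_right (Ideal.subset_span ⟨j, rfl⟩)
  · refine sup_le ?_ ?_
    · rw [coordIdeal, Ideal.span_le]
      rintro _ ⟨v, i, rfl | rfl⟩
      · exact Ideal.subset_span ⟨Sum.inl (v, i), rfl⟩
      · exact Ideal.subset_span ⟨Sum.inr (Sum.inl (v, i)), rfl⟩
    · rw [Ideal.span_le]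
      rintro _ ⟨j, rfl⟩
      exact Ideal.subset_span ⟨Sum.inr (Sum.inr j), rfl⟩

/-- the image of the point under an algebra homomorphism -/
theorem map_matPoint :
    (fun t => π (LOC.matPoint D g SgM PhM y t)) =
      LOC.matPoint D g (fun v => (SgM v).map π) (fun v => (PhM v).map π) (fun j => π (y j)) := by
  funext t
  rcases t with ⟨v, i⟩ | ⟨v, i⟩ | j
  · show π (LOC.tl (algebraMap O 𝕋 D.half) (SgM v) i) =
      LOC.tl (algebraMap O B D.half) ((SgM v).map π) i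
    fin_cases i
    · show π (algebraMap O 𝕋 D.half * (SgM v 0 0 - SgM v 1 1)) =
        algebraMap O B D.half * (((SgM v).map π) 0 0 - ((SgM v).map π) 1 1)
      rw [map_mul, AlgHom.commutes, map_sub, Matrix.map_apply, Matrix.map_apply]
    · rfl
    · rfl
  · show π (LOC.tl (algebraMap O 𝕋 D.half) (PhM v) i) =
      LOC.tl (algebraMap O B D.half) ((PhM v).map π) i
    fin_cases i
    · show π (algebraMap O 𝕋 D.half * (PhM v 0 0 - PhM v 1 1)) =
        algebraMap O B D.half * (((PhM v).map π) 0 0 - ((PhM v).map π) 1 1)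
      rw [map_mul, AlgHom.commutes, map_sub, Matrix.map_apply, Matrix.map_apply]
    · rfl
    · rfl
  · rfl

end Coord

section EvCongr

variable {O : Type*} [CommRing O] {Sg : Type*} [Finite Sg] (g : ℕ)
  {A : Type*} [CommRing A] [Algebra O A] (I : Ideal A) [IsAdicComplete I A]

theorem evPS_congr {a a' : LOC.Var Sg g → A} (h : a = a') (ha : ∀ t, a t ∈ I)
    (ha' : ∀ t, a' t ∈ I) (f : LOC.PS O Sg g) :
    LOC.evPS g I a ha f = LOC.evPS g I a' ha' f := by
  subst h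
  rfl

/-- compatibility of the evaluation homomorphisms with an algebra homomorphism -/
theorem map_evPS {B : Type*} [CommRing B] [Algebra O B] (J : Ideal B) [IsAdicComplete J B]
    (φ : A →ₐ[O] B) (hφ : I.map φ ≤ J) (a : LOC.Var Sg g → A) (ha : ∀ t, a t ∈ I)
    (f : LOC.PS O Sg g) :
    φ (LOC.evPS g I a ha f) =
      LOC.evPS g J (fun t => φ (a t)) (fun t => hφ (Ideal.mem_map_of_mem _ (ha t))) f :=
  TK.map_evalAdic I a ha J φ hφ f

end EvCongr

end Fermat.Agent.RB.GLUE
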