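/-
PROJECT RB — [GLUE] (helper9), file 15: **the choice of the global variables** `y : Fin g → 𝕋`
(common generators of the two maximal ideals, from [SEL] applied to both sides).
-/
import Mathlib
import Fermat.Agent.RB.GLUE_helper9_Level

set_option autoImplicit false
set_option linter.unusedSectionVars false
set_option linter.unusedVariables false
set_option linter.style.haveILetI false

namespace Fermat.Agent.RB.GLUE

open Polynomial IsLocalRing Fermat.Agent.S53 Fermat.Agent.S53.L1 Fermat.Agent.RB.REPT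
open Fermat.Agent.CFT.Arith Fermat.Agent.CFT.LocForm

local notation "Ω" => AlgebraicClosure ℚ
local notation "GQ" => (AlgebraicClosure ℚ ≃ₐ[ℚ] AlgebraicClosure ℚ)

section

variable {𝒪 : Type} [CommRing 𝒪] [IsDomain 𝒪] [IsDiscreteValuationRing 𝒪]
  [IsAdicComplete (maximalIdeal 𝒪) 𝒪]
  {N : ℕ} [NeZero N] {S : Finset ℕ}
  {θ : CuspForm.heckeAlgebra N 2 (S : Set ℕ) →+* ResidueField 𝒪}
  {T : Type} [CommRing T] [IsLocalRing T] [IsNoetherianRing T]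
  [IsAdicComplete (maximalIdeal T) T] [Algebra 𝒪 T] [IsLocalHom (algebraMap 𝒪 T)]
  [Module.Finite 𝒪 T] [Module.Free 𝒪 T]
  {p : ℕ} {datum : CuspForm.HeckeGaloisRepDatum N (S : Set ℕ) 𝒪 θ T}
  {Sig : Finset ℕ} {ζ lam : 𝒪} {ρbar : ResidualGaloisRep (ResidueField 𝒪)}
  {r d : ℕ} {M0 : Type} [AddCommGroup M0] [Module 𝒪 M0] [Module T M0]
  {n : ℕ} {Q : Fin r → ℕ}
  {L : TWGaloisLevel p datum Sig ζ lam ρbar r d M0 n Q}
  (G : GlueData L) [hF : ∀ v : ↥Sig, Fact ((v : ℕ).Prime)]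
  (Rt : LOC.Roots 𝒪 ↥Sig) (τ : ↥Sig → GQ)
  (hτ : ∀ v : ↥Sig, SigmaFacts G (v : ℕ) Rt.half (Rt.alpha v) (τ v))

include hτ in
theorem coordIdeal_le₁ :
    coordIdeal G.pr₁ Rt.toData (sgM G τ) (phM G) ≤ maximalIdeal L.side₁.T := by
  rw [coordIdeal, Ideal.span_le]
  rintro a ⟨v, i, rfl | rfl⟩
  · exact map_pr₁_le G (Ideal.mem_map_of_mem _
      (matPoint_mem G Rt τ hτ (g := 0) (fun j => j.elim0) (fun j => j.elim0) (Sum.inl (v, i))))
  · exact map_pr₁_le G (Ideal.mem_map_of_mem _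
      (matPoint_mem G Rt τ hτ (g := 0) (fun j => j.elim0) (fun j => j.elim0)
        (Sum.inr (Sum.inl (v, i)))))

include hτ in
theorem coordIdeal_le₂ :
    coordIdeal G.pr₂ Rt.toData (sgM G τ) (phM G) ≤ maximalIdeal L.side₂.T := by
  rw [coordIdeal, Ideal.span_le]
  rintro a ⟨v, i, rfl | rfl⟩
  · exact map_pr₂_le G (Ideal.mem_map_of_mem _
      (matPoint_mem G Rt τ hτ (g := 0) (fun j => j.elim0) (fun j => j.elim0) (Sum.inl (v, i))))
  · exact map_pr₂_le G (Ideal.mem_map_of_mem _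
      (matPoint_mem G Rt τ hτ (g := 0) (fun j => j.elim0) (fun j => j.elim0)
        (Sum.inr (Sum.inl (v, i)))))

include hτ in
theorem locCoordIdeal_le₁ :
    locCoordIdeal L.side₁.ρ G.bs₁ Sig ≤ coordIdeal G.pr₁ Rt.toData (sgM G τ) (phM G) := by
  haveI : IsLocalHom (G.pr₁ : G.𝕋 →+* L.side₁.T) :=
    ⟨fun a ha => G.pr₁_local.map_nonunit a ha⟩
  refine locCoordIdeal_le (G.pr₁ : G.𝕋 →+* L.side₁.T) G.ρM L.side₁.ρ G.bs₁ (fun σ => G.map₁ σ)
    G.cont Sig τ (fun v => (hτ v).gen) _ (fun v => ?_) (fun v => ?_)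
  · rw [← G.map₁]
    exact coords_mem_coordIdeal_Sg G.pr₁ Rt.toData (sgM G τ) (phM G) v
  · rw [← G.map₁]
    exact coords_mem_coordIdeal_Ph G.pr₁ Rt.toData (sgM G τ) (phM G) v

include hτ in
theorem locCoordIdeal_le₂ :
    locCoordIdeal L.side₂.ρ G.bs₂ Sig ≤ coordIdeal G.pr₂ Rt.toData (sgM G τ) (phM G) := by
  haveI : IsLocalHom (G.pr₂ : G.𝕋 →+* L.side₂.T) :=
    ⟨fun a ha => G.pr₂_local.map_nonunit a ha⟩
  refine locCoordIdeal_le (G.pr₂ : G.𝕋 →+* L.side₂.T) G.ρM L.side₂.ρ G.bs₂ (fun σ => G.map₂ σ)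
    G.cont Sig τ (fun v => (hτ v).gen) _ (fun v => ?_) (fun v => ?_)
  · rw [← G.map₂]
    exact coords_mem_coordIdeal_Sg G.pr₂ Rt.toData (sgM G τ) (phM G) v
  · rw [← G.map₂]
    exact coords_mem_coordIdeal_Ph G.pr₂ Rt.toData (sgM G τ) (phM G) v

/-- the conclusion of [SEL] at `Q` -/
def SelAt (𝒪 : Type) [CommRing 𝒪] [IsDomain 𝒪] [IsDiscreteValuationRing 𝒪]
    (p : ℕ) (S Sig : Finset ℕ) (ρbar : ResidualGaloisRep (ResidueField 𝒪)) (g : ℕ) {r : ℕ}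
    (Q : Fin r → ℕ) : Prop :=
  ∀ (T : Type) [CommRing T] [IsLocalRing T] [IsNoetherianRing T]
    [IsAdicComplete (maximalIdeal T) T] [Algebra 𝒪 T] [IsLocalHom (algebraMap 𝒪 T)]
    [Module.Finite 𝒪 T]
    (_ : Function.Surjective (IsLocalRing.residue T ∘ algebraMap 𝒪 T))
    (ρ : GaloisRepAdic T)
    (_ : ρ.residual.IsEquiv
      (ρbar.baseChangeAlong (IsLocalRing.ResidueField.map (algebraMap 𝒪 T))))
    (_ : twCondition 𝒪 p S Sig (Finset.univ.image Q) ρ)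
    (_ : Algebra.adjoin 𝒪 (Set.range ρ.trace) = ⊤)
    (β : Module.Basis (Fin 2) T ρ.V),
    ∃ y : Fin g → T, (∀ j, y j ∈ maximalIdeal T) ∧
      maximalIdeal T = (maximalIdeal 𝒪).map (algebraMap 𝒪 T) ⊔ locCoordIdeal ρ β Sig ⊔
        Ideal.span (Set.range y)

include hτ in
/-- **the global variables** -/
theorem exists_gens {g : ℕ} (hsel : SelAt 𝒪 p S Sig ρbar g Q) :
    ∃ y : Fin g → G.𝕋, (∀ j, y j ∈ maximalIdeal G.𝕋) ∧
      ((coordIdeal G.pr₁ Rt.toData (sgM G τ) (phM G) ⊔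
        (maximalIdeal 𝒪).map (algebraMap 𝒪 L.side₁.T) ⊔ maximalIdeal L.side₁.T ^ 2) ⊔
          Ideal.span (Set.range fun j => G.pr₁ (y j)) = maximalIdeal L.side₁.T) ∧
      ((coordIdeal G.pr₂ Rt.toData (sgM G τ) (phM G) ⊔
        (maximalIdeal 𝒪).map (algebraMap 𝒪 L.side₂.T) ⊔ maximalIdeal L.side₂.T ^ 2) ⊔
          Ideal.span (Set.range fun j => G.pr₂ (y j)) = maximalIdeal L.side₂.T) := by
  obtain ⟨w₁, hw₁m, hw₁⟩ := hsel L.side₁.T L.side₁.residue_surjective L.side₁.ρ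
    L.side₁.residual_isEquiv L.side₁.isOfType L.side₁.adjoin_trace G.bs₁
  obtain ⟨w₂, hw₂m, hw₂⟩ := hsel L.side₂.T L.side₂.residue_surjective L.side₂.ρ
    L.side₂.residual_isEquiv L.side₂.isOfType L.side₂.adjoin_trace G.bs₂
  haveI : IsLocalHom (G.pr₁ : G.𝕋 →+* L.side₁.T) :=
    ⟨fun a ha => G.pr₁_local.map_nonunit a ha⟩
  haveI : IsLocalHom (G.pr₂ : G.𝕋 →+* L.side₂.T) :=
    ⟨fun a ha => G.pr₂_local.map_nonunit a ha⟩
  have hO₁ : (maximalIdeal 𝒪).map (algebraMap 𝒪 L.side₁.T) ≤ maximalIdeal L.side₁.T := by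
    rw [hw₁]; exact le_sup_left.trans le_sup_left
  have hO₂ : (maximalIdeal 𝒪).map (algebraMap 𝒪 L.side₂.T) ≤ maximalIdeal L.side₂.T := by
    rw [hw₂]; exact le_sup_left.trans le_sup_left
  have hs₁ : Ideal.span (Set.range w₁) ≤ maximalIdeal L.side₁.T := by
    rw [Ideal.span_le]; rintro _ ⟨j, rfl⟩; exact hw₁m j
  have hs₂ : Ideal.span (Set.range w₂) ≤ maximalIdeal L.side₂.T := by
    rw [Ideal.span_le]; rintro _ ⟨j, rfl⟩; exact hw₂m j
  have h₁ : (coordIdeal G.pr₁ Rt.toData (sgM G τ) (phM G) ⊔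
      (maximalIdeal 𝒪).map (algebraMap 𝒪 L.side₁.T) ⊔ maximalIdeal L.side₁.T ^ 2) ⊔
        Ideal.span (Set.range w₁) = maximalIdeal L.side₁.T := by
    refine le_antisymm (sup_le (sup_le (sup_le (coordIdeal_le₁ G Rt τ hτ) hO₁)
      (Ideal.pow_le_self two_ne_zero)) hs₁) ?_
    conv_lhs => rw [hw₁]
    refine sup_le (sup_le ?_ ?_) le_sup_right
    · exact le_sup_of_le_left (le_sup_of_le_left le_sup_right)
    · exact le_sup_of_le_left (le_sup_of_le_left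
        (le_sup_of_le_left (locCoordIdeal_le₁ G Rt τ hτ)))
  have h₂ : (coordIdeal G.pr₂ Rt.toData (sgM G τ) (phM G) ⊔
      (maximalIdeal 𝒪).map (algebraMap 𝒪 L.side₂.T) ⊔ maximalIdeal L.side₂.T ^ 2) ⊔
        Ideal.span (Set.range w₂) = maximalIdeal L.side₂.T := by
    refine le_antisymm (sup_le (sup_le (sup_le (coordIdeal_le₂ G Rt τ hτ) hO₂)
      (Ideal.pow_le_self two_ne_zero)) hs₂) ?_
    conv_lhs => rw [hw₂]
    refine sup_le (sup_le ?_ ?_) le_sup_right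
    · exact le_sup_of_le_left (le_sup_of_le_left le_sup_right)
    · exact le_sup_of_le_left (le_sup_of_le_left
        (le_sup_of_le_left (locCoordIdeal_le₂ G Rt τ hτ)))
  exact exists_common_gens_of_surjective (G.pr₁ : G.𝕋 →+* L.side₁.T)
    (G.pr₂ : G.𝕋 →+* L.side₂.T) G.pr₁_surjective G.pr₂_surjective g _ _ le_sup_right le_sup_right
    w₁ w₂ h₁ h₂

end

end Fermat.Agent.RB.GLUE
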