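/-
PROJECT RB — [GLUE] (helper9), file 16: **the inertia ideals at `Σ` at level zero are generated by
the images of the variables `s_{v,i}`** (the field `ctl_C` of `AlgLevel`).
-/
import Mathlib
import Fermat.Agent.RB.GLUE_helper9_Gens

set_option autoImplicit false
set_option linter.unusedSectionVars false
set_option linter.unusedVariables false
set_option linter.style.haveILetI false

namespace Fermat.Agent.RB.GLUE

open Polynomial IsLocalRing Fermat.Agent.S53 Fermat.Agent.S53.L1 Fermat.Agent.RB.REPT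
open Fermat.Agent.CFT.Arith Fermat.Agent.CFT.LocForm

local notation "Ω" => AlgebraicClosure ℚ
local notation "GQ" => (AlgebraicClosure ℚ ≃ₐ[ℚ] AlgebraicClosure ℚ)

section TraceEq

variable {T : Type*} [CommRing T] (r₀ r₁ : GQ →* Mat2 T) (hr : FullSpan r₀)
  (htr : ∀ σ, (r₁ σ).trace = (r₀ σ).trace) (𝔰 : Ideal T)

include hr htr in
/-- two representations with the same traces, the first one with full span: the entries of
`r₀ σ - 1` lie in every ideal containing those of `r₁ σ - 1` -/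
theorem emem_sub_one_of_trace_eq {σ : GQ} (h : EMem 𝔰 (r₁ σ - 1)) : EMem 𝔰 (r₀ σ - 1) := by
  refine emem_of_trace_mem r₀ hr 𝔰 _ (fun g => ?_)
  have e0 : ((r₀ σ - 1) * r₀ g).trace = (r₀ (σ * g)).trace - (r₀ g).trace := by
    rw [sub_mul, one_mul, Matrix.trace_sub, map_mul]
  have e1 : ((r₁ σ - 1) * r₁ g).trace = (r₁ (σ * g)).trace - (r₁ g).trace := by
    rw [sub_mul, one_mul, Matrix.trace_sub, map_mul]
  rw [e0, ← htr, ← htr, ← e1]
  have := h.mul_right (r₁ g)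
  rw [Matrix.trace_fin_two]
  exact 𝔰.add_mem (this 0 0) (this 1 1)

end TraceEq

section Push

variable {𝕋 T : Type} [CommRing 𝕋] [IsLocalRing 𝕋] [IsNoetherianRing 𝕋] [CommRing T]
  (κ : 𝕋 →+* T) (ρM : GQ →* Mat2 𝕋) (r₀ : GQ →* Mat2 T) (hr : FullSpan r₀)
  (htr : ∀ σ, κ (ρM σ).trace = (r₀ σ).trace)
  (half : 𝕋) (hhalf : 2 * half = 1) {v : ℕ} [hv : Fact v.Prime] (τ : GQ)
  (hgen : ∀ k : ℕ, ∀ σ ∈ (padicPlace v).inertiaSubgroupIn ℚ, ∃ a : ℕ,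
    EMem (maximalIdeal 𝕋 ^ k) (ρM σ - ρM τ ^ a))
  (htr2 : κ (ρM τ).trace = 2) (𝔰 : Ideal T) (h𝔰 : ∀ i, κ (LOC.tl half (ρM τ) i) ∈ 𝔰)

include hhalf htr2 h𝔰 in
theorem emem_map_sub_one_tau : EMem 𝔰 ((ρM τ - 1).map κ) := by
  have h0 : κ (half * ((ρM τ).trace - 2)) = 0 := by
    rw [map_mul, map_sub, htr2, map_ofNat, sub_self, mul_zero]
  have t0 : LOC.tl half (ρM τ) 0 = half * (ρM τ 0 0 - ρM τ 1 1) := rfl
  have t1 : LOC.tl half (ρM τ) 1 = ρM τ 0 1 := rfl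
  have t2 : LOC.tl half (ρM τ) 2 = ρM τ 1 0 := rfl
  intro i j
  rw [Matrix.map_apply, Matrix.sub_apply]
  fin_cases i <;> fin_cases j
  · have e : ρM τ 0 0 - (1 : Mat2 𝕋) 0 0 =
        LOC.tl half (ρM τ) 0 + half * ((ρM τ).trace - 2) := by
      rw [t0, Matrix.trace_fin_two, Matrix.one_apply_eq]
      linear_combination (-(ρM τ 0 0 - 1)) * hhalf
    show κ (ρM τ 0 0 - (1 : Mat2 𝕋) 0 0) ∈ 𝔰
    rw [e, map_add, h0, add_zero]
    exact h𝔰 0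
  · show κ (ρM τ 0 1 - (1 : Mat2 𝕋) 0 1) ∈ 𝔰
    rw [Matrix.one_apply_ne (by decide), sub_zero, ← t1]
    exact h𝔰 1
  · show κ (ρM τ 1 0 - (1 : Mat2 𝕋) 1 0) ∈ 𝔰
    rw [Matrix.one_apply_ne (by decide), sub_zero, ← t2]
    exact h𝔰 2
  · have e : ρM τ 1 1 - (1 : Mat2 𝕋) 1 1 =
        - LOC.tl half (ρM τ) 0 + half * ((ρM τ).trace - 2) := by
      rw [t0, Matrix.trace_fin_two, Matrix.one_apply_eq]
      linear_combination (-(ρM τ 1 1 - 1)) * hhalf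
    show κ (ρM τ 1 1 - (1 : Mat2 𝕋) 1 1) ∈ 𝔰
    rw [e, map_add, h0, add_zero, map_neg]
    exact 𝔰.neg_mem (h𝔰 0)

include hr htr hhalf hgen htr2 h𝔰 in
/-- the entries of `r₀ σ - 1`, `σ` in ANY inertia group at `v`, lie in `𝔰` -/
theorem emem_sub_one_of_gen_all {P' : ValuationSubring Ω} (hP' : P'.LiesOverPrime v) {σ : GQ}
    (hσ : σ ∈ P'.inertiaSubgroupIn ℚ) : EMem 𝔰 (r₀ σ - 1) := by
  set r₁ : GQ →* Mat2 T :=
    ((κ.mapMatrix : Mat2 𝕋 →+* Mat2 T) : Mat2 𝕋 →* Mat2 T).comp ρM with hr₁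
  have hr₁a : ∀ σ, r₁ σ = (ρM σ).map κ := fun σ => rfl
  have htr₁ : ∀ σ, (r₁ σ).trace = (r₀ σ).trace := by
    intro σ
    rw [← htr σ, hr₁a, Matrix.trace_fin_two, Matrix.trace_fin_two, Matrix.map_apply,
      Matrix.map_apply, map_add]
  refine emem_sub_one_of_trace_eq r₀ r₁ hr htr₁ 𝔰 ?_
  refine emem_sub_one_of_all_places r₁ hv.out
    (Fermat.Agent.TW.Kill.padicPlace_liesOverPrime v) 𝔰 (fun σ hσ => ?_) hP' hσ
  have h1 : EMem (entryIdeal (ρM τ - 1)) (ρM σ - 1) :=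
    sub_one_emem_of_gen ρM (fun k => hgen k σ hσ)
  have hle : (entryIdeal (ρM τ - 1)).map κ ≤ 𝔰 := by
    rw [entryIdeal, Ideal.map_span, Ideal.span_le]
    rintro _ ⟨_, ⟨i, j, rfl⟩, rfl⟩
    have := emem_map_sub_one_tau κ ρM half hhalf τ htr2 𝔰 h𝔰 i j
    rwa [Matrix.map_apply] at this
  have h2 := h1.map κ hle
  have e : (ρM σ - 1).map κ = r₁ σ - 1 := by
    have e' : ∀ M : Mat2 𝕋, M.map κ = κ.mapMatrix M := fun M => rfl
    rw [e', map_sub, map_one]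
    rfl
  rwa [e] at h2

end Push

section Apply

variable {𝒪 : Type} [CommRing 𝒪] [IsDomain 𝒪] [IsDiscreteValuationRing 𝒪]
  [IsAdicComplete (maximalIdeal 𝒪) 𝒪]
  {N : ℕ} [NeZero N] {S : Finset ℕ}
  {θ : CuspForm.heckeAlgebra N 2 (S : Set ℕ) →+* ResidueField 𝒪}
  {T : Type} [CommRing T] [IsLocalRing T] [IsNoetherianRing T]
  [IsAdicComplete (maximalIdeal T) T] [Algebra 𝒪 T] [IsLocalHom (algebraMap 𝒪 T)]
  [Module.Finite 𝒪 T] [Module.Free 𝒪 T]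
  {p : ℕ} {datum : CuspForm.HeckeGaloisRepDatum N (S : Set ℕ) 𝒪 θ T}
  {Sig : Finset ℕ} {ζ lam : 𝒪} {ρbar : ResidualGaloisRep (ResidueField 𝒪)}
  {r d : ℕ} {M0 : Type} [AddCommGroup M0] [Module 𝒪 M0] [Module T M0]
  {n : ℕ} {Q : Fin r → ℕ}
  {L : TWGaloisLevel p datum Sig ζ lam ρbar r d M0 n Q}
  (G : GlueData L) [hF : ∀ v : ↥Sig, Fact ((v : ℕ).Prime)]
  (Rt : LOC.Roots 𝒪 ↥Sig) (τ : ↥Sig → GQ)
  (hτ : ∀ v : ↥Sig, SigmaFacts G (v : ℕ) Rt.half (Rt.alpha v) (τ v))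

/-- the ideal of `T` generated by the images of the `s_{v,i}` -/
def sIdeal : Ideal T :=
  Ideal.span {a | ∃ (v : ↥Sig) (i : Fin 3),
    a = L.toT (G.pr₁ (LOC.tl (algebraMap 𝒪 G.𝕋 Rt.half) (G.ρM (τ v)) i))}

theorem pr₁_trace (M : Mat2 G.𝕋) : G.pr₁ M.trace = (M.map G.pr₁).trace := by
  rw [Matrix.trace_fin_two, Matrix.trace_fin_two, Matrix.map_apply, Matrix.map_apply, map_add]

include hτ in
theorem inertiaIdeal_le_sIdeal (v : ↥Sig) :
    inertiaIdeal datum.ρ (v : ℕ) ≤ sIdeal G Rt τ := by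
  set bT : Module.Basis (Fin 2) T datum.ρ.V :=
    Module.finBasisOfFinrankEq T datum.ρ.V datum.ρ.finrank_eq with hbT
  refine inertiaIdeal_le datum.ρ bT v _ (fun P hP σ hσ => ?_)
  have hhalf : (2 : G.𝕋) * algebraMap 𝒪 G.𝕋 Rt.half = 1 := by
    have := congrArg (algebraMap 𝒪 G.𝕋) Rt.two_mul_half
    rwa [map_mul, map_ofNat, map_one] at this
  have htr : ∀ σ, ((L.toT.comp G.pr₁ : G.𝕋 →ₐ[𝒪] T) : G.𝕋 →+* T) (G.ρM σ).trace =
      (matRep datum.ρ bT σ).trace := by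
    intro σ
    show L.toT (G.pr₁ (G.ρM σ).trace) = _
    rw [pr₁_trace, G.map₁, trace_matRep, trace_matRep]
    exact L.toT_trace σ
  have htr2 : ((L.toT.comp G.pr₁ : G.𝕋 →ₐ[𝒪] T) : G.𝕋 →+* T) (G.ρM (τ v)).trace = 2 := by
    show L.toT (G.pr₁ (G.ρM (τ v)).trace) = _
    rw [pr₁_trace, (hτ v).tr₁, map_ofNat]
  exact emem_sub_one_of_gen_all ((L.toT.comp G.pr₁ : G.𝕋 →ₐ[𝒪] T) : G.𝕋 →+* T) G.ρM
    (matRep datum.ρ bT) (fullSpan_matRep datum.ρ bT datum.residual_absIrr) htr _ hhalf (τ v)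
    (hτ v).gen htr2 (sIdeal G Rt τ) (fun i => Ideal.subset_span ⟨v, i, rfl⟩) hP hσ

include hτ in
/-- **the field `ctl_C`** -/
theorem ctl_C_aux [IsScalarTower 𝒪 T M0] {g : ℕ} (y : Fin g → G.𝕋)
    (hy : ∀ j, y j ∈ maximalIdeal G.𝕋) (m : M0)
    (hm : m ∈ (⨆ v ∈ Sig, inertiaIdeal datum.ρ v) • (⊤ : Submodule T M0)) :
    m ∈ Submodule.span 𝒪 {z | ∃ (v : ↥Sig) (i : Fin 3) (x : L.side₁.H),
      z = L.ctl ((L.side₁.h.comp (G.pr₁.comp (psi G Rt τ hτ y hy))) (LOC.sX 𝒪 g v i) x)} := by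
  have hle : (⨆ v ∈ Sig, inertiaIdeal datum.ρ v) ≤ sIdeal G Rt τ :=
    iSup₂_le fun v hv => inertiaIdeal_le_sIdeal G Rt τ hτ ⟨v, hv⟩
  have hm' := Submodule.smul_mono_left hle hm
  set W : Submodule 𝒪 M0 := Submodule.span 𝒪 {z | ∃ (v : ↥Sig) (i : Fin 3) (x : L.side₁.H),
      z = L.ctl ((L.side₁.h.comp (G.pr₁.comp (psi G Rt τ hτ y hy))) (LOC.sX 𝒪 g v i) x)} with hW
  have key : ∀ t ∈ sIdeal G Rt τ, ∀ m' : M0, t • m' ∈ W := by
    intro t ht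
    induction ht using Submodule.span_induction with
    | mem t ht =>
      obtain ⟨v, i, rfl⟩ := ht
      intro m'
      obtain ⟨x, rfl⟩ := L.ctl_surjective m'
      refine Submodule.subset_span ⟨v, i, x, ?_⟩
      rw [AlgHom.comp_apply, AlgHom.comp_apply, L.ctl_h]
      congr 3
      exact (psi_X G Rt τ hτ y hy (Sum.inl (v, i))).symm
    | zero => intro m'; rw [zero_smul]; exact W.zero_mem
    | add a b _ _ ha hb => intro m'; rw [add_smul]; exact W.add_mem (ha m') (hb m')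
    | smul a b _ hb =>
      intro m'
      rw [smul_eq_mul, mul_comm, mul_smul]
      exact hb (a • m')
  refine Submodule.smul_induction_on hm' (fun t ht m' _ => key t ht m') ?_
  intro a b ha hb
  exact W.add_mem ha hb

end Apply

end Fermat.Agent.RB.GLUE
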