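/-
PROJECT RB — [GLUE] (helper9), file 8: Frobenius elements and the determinant.

* `frobenius_apply_root'` : a Frobenius at ANY place over `ℓ` raises roots of unity of order prime to
  `ℓ` to the `ℓ`-th power;
* `det_frobenius_eq` : `det ρ(Frob_ℓ) = ℓ` if `det ρ` is cyclotomic (`ℓ ≠ p`);
* `det_complexConjugation_eq` : `det ρ(c) = -1`;
* `map_eq_of_isFrobeniusAt` : a homomorphism trivial on inertia takes the same value on all
  Frobenius elements at a place;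
* `charpoly_frobenius_eq` : for `ρ` unramified at `ℓ` all Frobenius elements at all places over `ℓ`
  have the same characteristic polynomial.
-/
import Mathlib
import Fermat.Agent.RB.GLUE_helper9_EMem
import Fermat.Agent.RB.SEL_helper4_Frob
import Fermat.Agent.TW.Odd_helper1

set_option autoImplicit false
set_option linter.unusedSectionVars false
set_option linter.unusedVariables false
set_option linter.style.haveILetI false

open scoped Pointwise

namespace Fermat.Agent.RB.GLUE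

open IsLocalRing Fermat.Agent.CFT.Arith Fermat.Agent.CFT.LocForm

local notation "Ω" => AlgebraicClosure ℚ
local notation "GQ" => (AlgebraicClosure ℚ ≃ₐ[ℚ] AlgebraicClosure ℚ)

/-- a Frobenius element at ANY place over `ℓ` raises the roots of unity of order prime to `ℓ` to
the `ℓ`-th power -/
theorem frobenius_apply_root' {ℓ : ℕ} (hℓ : ℓ.Prime) {A : ValuationSubring Ω}
    (hA : A.LiesOverPrime ℓ) {σ : GQ} (hσ : A.IsFrobeniusAt σ ℓ) {m : ℕ} (hm : m.Coprime ℓ)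
    {μ : Ω} (hμ : μ ^ m = 1) : σ μ = μ ^ ℓ := by
  haveI : Fact ℓ.Prime := ⟨hℓ⟩
  obtain ⟨τ, hτ⟩ := Fermat.Agent.EC.exists_smul_eq_of_liesOverPrime hℓ
    (Fermat.Agent.TW.Kill.padicPlace_liesOverPrime ℓ) hA
  have h1 := Fermat.Agent.RB.SEL.isFrobeniusAt_conj (τ⁻¹ : GQ) hσ
  rw [hτ, inv_smul_smul, inv_inv] at h1
  have h2 := Fermat.Agent.RB.SEL.frobenius_apply_root h1 hm (ζ := τ⁻¹ μ)
    (by rw [← map_pow, hμ, map_one])
  have h3 : (τ⁻¹ * σ * τ) (τ⁻¹ μ) = τ⁻¹ (σ μ) := by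
    rw [AlgEquiv.mul_apply, AlgEquiv.mul_apply, ← AlgEquiv.mul_apply τ, mul_inv_cancel]
    rfl
  rw [h3, ← map_pow] at h2
  exact (τ⁻¹ : GQ).injective h2

section Det

variable {B : Type} [CommRing B] [IsLocalRing B] [IsNoetherianRing B] (ρ : GaloisRepAdic B)
  {p : ℕ} (hp : p.Prime) (hdet : ρ.DetIsCyclotomic p)

include hp hdet in
/-- `(p ^ n) ⊆ 𝔪 ^ n` -/
theorem span_natCast_pow_le (n : ℕ) :
    Ideal.span {((p ^ n : ℕ) : B)} ≤ maximalIdeal B ^ n := by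
  rw [Ideal.span_singleton_le_iff_mem, Nat.cast_pow]
  exact Ideal.pow_mem_pow hdet.1 n

include hp hdet in
theorem det_frobenius_eq {ℓ : ℕ} (hℓ : ℓ.Prime) (hℓp : ℓ ≠ p) {A : ValuationSubring Ω}
    (hA : A.LiesOverPrime ℓ) {σ : GQ} (hσ : A.IsFrobeniusAt σ ℓ) :
    LinearMap.det (ρ.ρ σ) = (ℓ : B) := by
  rw [← sub_eq_zero]
  refine eq_zero_of_forall_mem_pow fun n => span_natCast_pow_le ρ hp hdet n ?_
  refine hdet.2 n σ ℓ fun μ hμ => ?_
  refine frobenius_apply_root' hℓ hA hσ ?_ hμ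
  exact Nat.Coprime.pow_left n ((Nat.coprime_primes hp hℓ).2 (Ne.symm hℓp))

include hp hdet in
theorem det_complexConjugation_eq : LinearMap.det (ρ.ρ complexConjugation) = -1 := by
  rw [← sub_eq_zero, sub_neg_eq_add]
  refine eq_zero_of_forall_mem_pow fun n => span_natCast_pow_le ρ hp hdet n ?_
  have hpos : 0 < p ^ n := pow_pos hp.pos n
  have h1 := hdet.2 n complexConjugation (p ^ n - 1) fun μ hμ =>
    Fermat.Agent.TW.Odd.complexConjugation_eq_pow hpos hμ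
  have h2 : ((p ^ n - 1 : ℕ) : B) = ((p ^ n : ℕ) : B) - 1 := by
    rw [Nat.cast_sub hpos, Nat.cast_one]
  have h3 : LinearMap.det (ρ.ρ complexConjugation) + 1 =
      (LinearMap.det (ρ.ρ complexConjugation) - ((p ^ n - 1 : ℕ) : B)) + ((p ^ n : ℕ) : B) := by
    rw [h2]; ring
  rw [h3]
  exact Ideal.add_mem _ h1 (Ideal.mem_span_singleton_self _)

end Det

section Frob

/-- a homomorphism trivial on inertia takes the same value on all Frobenius elements at a place -/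
theorem map_eq_of_isFrobeniusAt {M : Type} [Monoid M] (A : ValuationSubring Ω) (r : GQ →* M)
    (hur : ∀ σ ∈ A.inertiaSubgroupIn ℚ, r σ = 1) {φ φ' : GQ} {q : ℕ}
    (hφ : A.IsFrobeniusAt φ q) (hφ' : A.IsFrobeniusAt φ' q) : r φ = r φ' := by
  obtain ⟨hφD, hφx⟩ := hφ
  obtain ⟨hφD', hφx'⟩ := hφ'
  obtain ⟨f, hf⟩ : ∃ f : A.decompositionSubgroup ℚ, f = ⟨φ, hφD⟩ := ⟨_, rfl⟩
  obtain ⟨f', hf'⟩ : ∃ f' : A.decompositionSubgroup ℚ, f' = ⟨φ', hφD'⟩ := ⟨_, rfl⟩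
  rw [← hf] at hφx
  rw [← hf'] at hφx'
  have h1 : MulSemiringAction.toRingAut (A.decompositionSubgroup ℚ) (IsLocalRing.ResidueField A)
      f = MulSemiringAction.toRingAut (A.decompositionSubgroup ℚ)
        (IsLocalRing.ResidueField A) f' := RingEquiv.ext fun x => by
    show f • x = f' • x
    rw [hφx, hφx']
  have hker : f'⁻¹ * f ∈ A.inertiaSubgroup ℚ := by
    change MulSemiringAction.toRingAut (A.decompositionSubgroup ℚ) (IsLocalRing.ResidueField A)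
      (f'⁻¹ * f) = 1
    rw [map_mul, map_inv, h1, inv_mul_cancel]
  have hmem : φ'⁻¹ * φ ∈ A.inertiaSubgroupIn ℚ := by
    refine ⟨f'⁻¹ * f, hker, ?_⟩
    rw [hf, hf']
    rfl
  have h3 := hur _ hmem
  calc r φ = r (φ' * (φ'⁻¹ * φ)) := by rw [mul_inv_cancel_left]
    _ = r φ' := by rw [map_mul, h3, mul_one]

variable {B : Type} [CommRing B] [IsLocalRing B] (ρ : GaloisRepAdic B)

/-- for `ρ` unramified at `ℓ`, all Frobenius elements at all places over `ℓ` have the same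
characteristic polynomial -/
theorem charpoly_frobenius_eq {ℓ : ℕ} (hℓ : ℓ.Prime) (hunr : ρ.IsUnramifiedAt ℓ)
    {A A' : ValuationSubring Ω} (hA : A.LiesOverPrime ℓ) (hA' : A'.LiesOverPrime ℓ)
    {σ σ' : GQ} (hσ : A.IsFrobeniusAt σ ℓ) (hσ' : A'.IsFrobeniusAt σ' ℓ) :
    LinearMap.charpoly (ρ.ρ σ) = LinearMap.charpoly (ρ.ρ σ') := by
  obtain ⟨τ, hτ⟩ := Fermat.Agent.EC.exists_smul_eq_of_liesOverPrime hℓ hA hA'
  have h1 := Fermat.Agent.RB.SEL.isFrobeniusAt_conj τ hσ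
  rw [← hτ] at h1
  have h2 : ρ.ρ (τ * σ * τ⁻¹) = ρ.ρ σ' :=
    map_eq_of_isFrobeniusAt A' ρ.ρ (hunr A' hA') h1 hσ'
  rw [← h2, map_mul, map_mul]
  have h3 : ρ.ρ τ * ρ.ρ τ⁻¹ = 1 := by rw [← map_mul, mul_inv_cancel, map_one]
  have h4 : ρ.ρ τ⁻¹ * ρ.ρ τ = 1 := by rw [← map_mul, inv_mul_cancel, map_one]
  let e : ρ.V ≃ₗ[B] ρ.V := LinearEquiv.ofLinearMap (ρ.ρ τ) (ρ.ρ τ⁻¹) h3 h4
  have h5 : ρ.ρ τ * ρ.ρ σ * ρ.ρ τ⁻¹ = e.conj (ρ.ρ σ) := by
    ext x
    rfl
  rw [h5, LinearEquiv.charpoly_conj]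

end Frob

end Fermat.Agent.RB.GLUE
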