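/-
PROJECT RB — [GLUE] (helper9), file 18: **the arithmetic input `LOC.Roots` of the two local
problems**: `1/2`, the primes `v ∈ Σ`, the root of unity `ζ`, and the square roots `α_v` of `v`
lifting the scalars `ρ̄(Frob_v)` (Hensel).
-/
import Mathlib
import Fermat.Agent.RB.GLUE_helper9_Assemble
import Fermat.Agent.RB.GLUE_helper9_Frob

set_option autoImplicit false
set_option linter.unusedSectionVars false
set_option linter.unusedVariables false
set_option linter.style.haveILetI false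

namespace Fermat.Agent.RB.GLUE

open Polynomial IsLocalRing Fermat.Agent.S53 Fermat.Agent.S53.L1 Fermat.Agent.RB.REPT
open Fermat.Agent.CFT.Arith Fermat.Agent.CFT.LocForm

local notation "Ω" => AlgebraicClosure ℚ
local notation "GQ" => (AlgebraicClosure ℚ ≃ₐ[ℚ] AlgebraicClosure ℚ)

section

variable {𝒪 : Type} [CommRing 𝒪] [IsDomain 𝒪] [IsDiscreteValuationRing 𝒪]
  [IsAdicComplete (maximalIdeal 𝒪) 𝒪] {p : ℕ} [hp : Fact p.Prime]

theorem charP_residueField (hp𝒪 : (p : 𝒪) ∈ maximalIdeal 𝒪) : CharP (ResidueField 𝒪) p := by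
  refine (CharP.charP_iff_prime_eq_zero hp.out).2 ?_
  rw [← map_natCast (residue 𝒪), residue_eq_zero_iff]
  exact hp𝒪

theorem zeta_sub_one_mem (hp𝒪 : (p : 𝒪) ∈ maximalIdeal 𝒪) {ζ : 𝒪} (hζ : ζ ^ p = 1) :
    ζ - 1 ∈ maximalIdeal 𝒪 := by
  haveI := charP_residueField hp𝒪
  rw [← residue_eq_zero_iff, map_sub, map_one]
  have h1 : (residue 𝒪 ζ - 1) ^ p = 0 := by
    rw [sub_pow_char, one_pow, ← map_pow, hζ, map_one, sub_self]
  exact (pow_eq_zero_iff hp.out.ne_zero).1 h1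

theorem isUnit_natCast_of_ne (hp𝒪 : (p : 𝒪) ∈ maximalIdeal 𝒪) {v : ℕ} (hv : v.Prime)
    (hvp : v ≠ p) : IsUnit (v : 𝒪) := by
  by_contra h
  have hvm : (v : 𝒪) ∈ maximalIdeal 𝒪 := (mem_maximalIdeal _).2 h
  have hc : Nat.Coprime v p := (Nat.coprime_primes hv hp.out).2 hvp
  obtain ⟨a, b, hab⟩ := Nat.isCoprime_iff_coprime.2 hc
  have h1 : (a : 𝒪) * (v : 𝒪) + (b : 𝒪) * (p : 𝒪) = 1 := by
    have := congrArg (Int.cast : ℤ → 𝒪) hab
    push_cast at this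
    exact this
  have : (1 : 𝒪) ∈ maximalIdeal 𝒪 := by
    rw [← h1]
    exact Ideal.add_mem _ (Ideal.mul_mem_left _ _ hvm) (Ideal.mul_mem_left _ _ hp𝒪)
  exact (Ideal.ne_top_iff_one _).1 (maximalIdeal.isMaximal 𝒪).ne_top this

/-- the square root of `v` lifting the scalar `ρ̄(Frob_v)` -/
theorem exists_sqrt_lift (hp2 : p ≠ 2) (hp𝒪 : (p : 𝒪) ∈ maximalIdeal 𝒪)
    (ρbar : ResidualGaloisRep (ResidueField 𝒪))
    (hdet : (GaloisRepAdic.ofResidualGaloisRep ρbar).DetIsCyclotomic p) {v : ℕ}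
    [hv : Fact v.Prime] (hvp : v ≠ p) (hsc : ResFrobScalarAt ρbar p v) :
    ∃ α : 𝒪, α ^ 2 = (v : 𝒪) ∧ IsUnit α ∧
      ρbar.ρ (frobElt v) = residue 𝒪 α • (1 : Module.End (ResidueField 𝒪) ρbar.V) := by
  have hP := Fermat.Agent.TW.Kill.padicPlace_liesOverPrime v
  obtain ⟨c, hc⟩ := hsc.2.2 (padicPlace v) hP (frobElt v) (frobElt_spec v)
  have hdetv : LinearMap.det (ρbar.ρ (frobElt v)) = (v : ResidueField 𝒪) :=
    det_frobenius_eq (GaloisRepAdic.ofResidualGaloisRep ρbar) hp.out hdet hv.out hvp hP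
      (frobElt_spec v)
  have hc2 : c ^ 2 = (v : ResidueField 𝒪) := by
    rw [← hdetv, hc, LinearMap.det_smul, ρbar.finrank_eq, map_one, mul_one]
  obtain ⟨a₀, ha₀⟩ := residue_surjective c
  have hvu : IsUnit (v : 𝒪) := isUnit_natCast_of_ne hp𝒪 hv.out hvp
  have h2u : IsUnit (2 : 𝒪) := isUnit_two_of_odd hp.out hp2 hp𝒪
  have ha₀u : IsUnit a₀ := by
    by_contra h
    have h0 : residue 𝒪 a₀ = 0 := (residue_eq_zero_iff _).2 ((mem_maximalIdeal _).2 h)
    rw [ha₀] at h0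
    rw [h0, zero_pow two_ne_zero] at hc2
    have h1 : residue 𝒪 (v : 𝒪) = 0 := by rw [map_natCast]; exact hc2.symm
    exact (mem_maximalIdeal _).1 ((residue_eq_zero_iff _).1 h1) hvu
  set f : 𝒪[X] := X ^ 2 - C (v : 𝒪) with hf
  have hmonic : f.Monic := monic_X_pow_sub_C _ two_ne_zero
  have hev : f.eval a₀ ∈ maximalIdeal 𝒪 := by
    rw [hf, eval_sub, eval_pow, eval_X, eval_C, ← residue_eq_zero_iff, map_sub, map_pow, ha₀, hc2,
      map_natCast, sub_self]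
  have hder : f.derivative.eval a₀ = 2 * a₀ := by
    rw [hf, derivative_sub, derivative_C, sub_zero, derivative_X_pow, eval_mul, eval_pow, eval_X]
    simp
  have hdu : IsUnit (Ideal.Quotient.mk (maximalIdeal 𝒪) (f.derivative.eval a₀)) := by
    rw [hder]
    exact (h2u.mul ha₀u).map _
  obtain ⟨α, hroot, hcong⟩ :=
    HenselianRing.is_henselian (I := maximalIdeal 𝒪) f hmonic a₀ hev hdu
  refine ⟨α, ?_, ?_, ?_⟩
  · have h1 := hroot
    rw [IsRoot.def, hf, eval_sub, eval_pow, eval_X, eval_C, sub_eq_zero] at h1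
    exact h1
  · by_contra h
    have hm : α ∈ maximalIdeal 𝒪 := (mem_maximalIdeal _).2 h
    have h1 : a₀ ∈ maximalIdeal 𝒪 := by
      have := Ideal.sub_mem _ hm hcong
      rwa [sub_sub_cancel] at this
    exact (mem_maximalIdeal _).1 h1 ha₀u
  · have h1 : residue 𝒪 α = c := by
      rw [← ha₀, ← sub_eq_zero, ← map_sub, residue_eq_zero_iff]
      exact hcong
    rw [h1]
    exact hc

/-- **the arithmetic input of the local problems** -/
theorem exists_roots (hp2 : p ≠ 2) (hp𝒪 : (p : 𝒪) ∈ maximalIdeal 𝒪) {ζ : 𝒪}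
    (hζ : IsPrimitiveRoot ζ p) {lam : 𝒪} (hlam : maximalIdeal 𝒪 = Ideal.span {lam})
    (ρbar : ResidualGaloisRep (ResidueField 𝒪))
    (hdet : (GaloisRepAdic.ofResidualGaloisRep ρbar).DetIsCyclotomic p)
    (Sig : Finset ℕ) [hF : ∀ v : ↥Sig, Fact ((v : ℕ).Prime)]
    (hSig : ∀ v : ↥Sig, (v : ℕ) ≠ p ∧ ResFrobScalarAt ρbar p (v : ℕ)) :
    ∃ Rt : LOC.Roots 𝒪 ↥Sig, Rt.lam = lam ∧ (∀ v : ↥Sig, Rt.nv v = ((v : ℕ) : 𝒪)) ∧
      (∀ v : ↥Sig, Rt.delta v = ((v : ℕ) : 𝒪)) ∧ (∀ v : ↥Sig, Rt.zeta v = ζ) ∧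
      (∀ v : ↥Sig, Rt.zetaInv v = ζ ^ (p - 1)) ∧
      ∀ v : ↥Sig, ρbar.ρ (frobElt (v : ℕ)) =
        residue 𝒪 (Rt.alpha v) • (1 : Module.End (ResidueField 𝒪) ρbar.V) := by
  choose α hα2 hαu hαc using fun v : ↥Sig =>
    exists_sqrt_lift hp2 hp𝒪 ρbar hdet (hSig v).1 (hSig v).2
  obtain ⟨half, hhalf⟩ := (isUnit_two_of_odd hp.out hp2 hp𝒪).exists_right_inv
  have hdvd : ∀ x : 𝒪, x ∈ maximalIdeal 𝒪 → lam ∣ x := fun x hx => by
    rw [hlam] at hx
    exact Ideal.mem_span_singleton.1 hx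
  have hnv : ∀ v : ↥Sig, ((v : ℕ) : 𝒪) - 1 ∈ maximalIdeal 𝒪 := by
    intro v
    obtain ⟨h1, -⟩ := (hSig v).2
    obtain ⟨c, hc⟩ := (Nat.modEq_iff_dvd.1 h1)
    have h2 : ((v : ℕ) : 𝒪) - 1 = - ((p : 𝒪) * (c : 𝒪)) := by
      have := congrArg (Int.cast : ℤ → 𝒪) hc
      push_cast at this
      rw [← this]
      ring
    rw [h2]
    exact (maximalIdeal 𝒪).neg_mem (Ideal.mul_mem_right _ _ hp𝒪)
  exact ⟨{ lam := lam
           half := half
           two_mul_half := hhalf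
           nv := fun v => ((v : ℕ) : 𝒪)
           lam_dvd_nv_sub_one := fun v => hdvd _ (hnv v)
           zeta := fun _ => ζ
           zetaInv := fun _ => ζ ^ (p - 1)
           zeta_mul_zetaInv := fun _ => by
             rw [← pow_succ', Nat.sub_add_cancel hp.out.one_le, hζ.pow_eq_one]
           lam_dvd_zeta_sub_one := fun _ => hdvd _ (zeta_sub_one_mem hp𝒪 hζ.pow_eq_one)
           delta := fun v => ((v : ℕ) : 𝒪)
           alpha := α
           alpha_sq := hα2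
           isUnit_alpha := hαu },
    rfl, fun _ => rfl, fun _ => rfl, fun _ => rfl, fun _ => rfl, hαc⟩

end

end Fermat.Agent.RB.GLUE
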