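/-
PROJECT RB — [GLUE] (helper9), file 19: **Ihara avoidance for a Hecke–Galois datum**
(`IharaAvoidanceDatum`) from the Taylor–Wiles producers, [SEL] and the [CORE].
-/
import Mathlib
import Fermat.Agent.RB.GLUE_helper9_Roots
import Fermat.Agent.RB.GLUE_helper9_Descend
import Fermat.Agent.RB.GLUE_helper9_Residual
import Fermat.Agent.NP.S33TOP_helper2_DetH
import Fermat.Agent.GR.S29TOP_lead
import Fermat.Agent.S31

set_option autoImplicit false
set_option linter.unusedSectionVars false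
set_option linter.unusedVariables false
set_option linter.style.haveILetI false

namespace Fermat.Agent.RB.GLUE

open Polynomial IsLocalRing Fermat.Agent.S53 Fermat.Agent.S53.L1 Fermat.Agent.RB.REPT
open Fermat.Agent.CFT.Arith Fermat.Agent.CFT.LocForm

local notation "Ω" => AlgebraicClosure ℚ
local notation "GQ" => (AlgebraicClosure ℚ ≃ₐ[ℚ] AlgebraicClosure ℚ)

/-- **[GLUE]**: Ihara avoidance for a Hecke–Galois datum from the Taylor–Wiles producers, the
Selmer group computation and the core (patching + Ihara avoidance). -/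
theorem iharaAvoidanceDatum_of_producers (hTW : TWProducerStatement) (hSel : SelStatement)
    (hCore : CoreStatement) : IharaAvoidanceDatum := by
  intro 𝒪 _ _ _ _ _ _ p hpF hp5 hp𝒪 hζex N _ hNsq hpN h2N S hS θ T _ _ _ _ _ _ _ _ datum hfull
    hsplit hidx2 Sig hSig hram k hk
  obtain ⟨ζ, hζ⟩ := hζex
  have hp : p.Prime := hpF.out
  have hp2 : p ≠ 2 := by omega
  -- a uniformizer
  obtain ⟨lam, hlamirr⟩ := IsDiscreteValuationRing.exists_irreducible 𝒪
  have hlam : maximalIdeal 𝒪 = Ideal.span {lam} := hlamirr.maximalIdeal_eq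
  -- the isomorphism of the residue fields
  have hbij : Function.Bijective (ResidueField.map (algebraMap 𝒪 T)) := by
    refine ⟨(ResidueField.map (algebraMap 𝒪 T)).injective, fun x => ?_⟩
    obtain ⟨c, hc⟩ := datum.residue_surjective x
    exact ⟨residue 𝒪 c, hc⟩
  set e : ResidueField 𝒪 ≃+* ResidueField T := RingEquiv.ofBijective _ hbij with he
  have hecoe : (e : ResidueField 𝒪 →+* ResidueField T) = ResidueField.map (algebraMap 𝒪 T) :=
    rfl
  set ρbar : ResidualGaloisRep (ResidueField 𝒪) := descend e datum.ρ.residual with hρbar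
  have hequiv : datum.ρ.residual.IsEquiv
      (ρbar.baseChangeAlong (ResidueField.map (algebraMap 𝒪 T))) := by
    have := isEquiv_descend e datum.ρ.residual
    rwa [hecoe] at this
  -- membership in `S`
  have hNS : ∀ q : ℕ, q.Prime → q ∣ N → q ∈ S := fun q hq hqN => (hS q).2 ⟨hq, Or.inr hqN⟩
  have hpS : p ∈ S := (hS p).2 ⟨hp, Or.inl rfl⟩
  have hSprime : ∀ q ∈ S, q.Prime := fun q hq => ((hS q).1 hq).1
  have hSigS : Sig ⊆ S := fun v hv => (hS v).2 ⟨(hSig v hv).1, Or.inr (hSig v hv).2.1⟩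
  have hpSig : p ∉ Sig := fun h => hpN (hSig p h).2.1
  -- the residual hypotheses
  have habs : ρbar.IsAbsolutelyIrreducible :=
    descend_isAbsolutelyIrreducible e _ datum.residual_absIrr
  have hdetT : datum.ρ.DetIsCyclotomic p :=
    Fermat.Agent.NP.heckeDatum_detIsCyclotomic hp hp𝒪 hNS datum
  have hdetbar : (GaloisRepAdic.ofResidualGaloisRep ρbar).DetIsCyclotomic p :=
    detIsCyclotomic_of_lift datum.ρ _ ρbar hequiv hdetT
  have hsplit' : ∀ σ : GQ, ∃ α β : ResidueField 𝒪,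
      LinearMap.charpoly (ρbar.ρ σ) = (X - C α) * (X - C β) := descend_split e _ hsplit
  have hidx2' : ∀ (K : Type) [Field K] [Algebra (ResidueField 𝒪) K] (G : Subgroup GQ),
      G.index = 2 → ∀ V : Submodule K (ρbar.baseChange K).V,
        (∀ σ ∈ G, ∀ x ∈ V, (ρbar.baseChange K).ρ σ x ∈ V) → V = ⊥ ∨ V = ⊤ := by
    intro K _ _ G hG V hV
    letI : Algebra (ResidueField T) K :=
      ((algebraMap (ResidueField 𝒪) K).comp
        (e.symm : ResidueField T →+* ResidueField 𝒪)).toAlgebra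
    exact descend_irreducible_on e datum.ρ.residual K (fun c => rfl) G (hidx2 K G hG) V hV
  have hSigscalar : ∀ v ∈ Sig, ResFrobScalarAt ρbar p v := fun v hv =>
    descend_resFrobScalarAt e _ (hSig v hv).2.2.2
  have hramS : ∀ ℓ ∈ S, ℓ ≠ p → ℓ ∉ Sig → ¬ ρbar.IsUnramifiedAt ℓ :=
    fun ℓ hℓS hℓp hℓSig h => hram ℓ ((hS ℓ).1 hℓS).1 (((hS ℓ).1 hℓS).2.resolve_left hℓp) hℓSig
      ((descend_isUnramifiedAt_iff e _ ℓ).1 h)
  have hunrS : ∀ ℓ : ℕ, ℓ.Prime → ℓ ∉ S → ρbar.IsUnramifiedAt ℓ := fun ℓ hℓ hℓS =>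
    (descend_isUnramifiedAt_iff e _ ℓ).2 (Fermat.Agent.GR.residual_isUnramifiedAt datum.ρ ℓ
      (Fermat.Agent.S31.result hp hp𝒪 hpS hNS datum ℓ hℓ hℓS))
  -- [SEL]
  obtain ⟨g, r, hr, hselQ⟩ := hSel p hp2 hp𝒪 ρbar habs hdetbar hsplit' hidx2' S Sig hpS hSprime
    hSigS hpSig hSigscalar hramS hunrS
  -- the producers
  obtain ⟨d, hd, M0, iACG, iMod𝒪, iModT, iST, iFree, iFin, hfinrank, hlevels⟩ :=
    hTW p hp5 hp𝒪 ζ hζ lam hlamirr N hNsq hpN h2N S hS θ T datum hfull ρbar hequiv Sig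
      (fun v hv => ⟨(hSig v hv).1, (hSig v hv).2.1, (hSig v hv).2.2.1, hSigscalar v hv⟩)
      (fun ℓ hℓ hℓN hℓSig h => hram ℓ hℓ hℓN hℓSig ((descend_isUnramifiedAt_iff e _ ℓ).1 h))
  -- the local data
  haveI hF : ∀ v : ↥Sig, Fact ((v : ℕ).Prime) := fun v => ⟨(hSig v v.2).1⟩
  obtain ⟨Rt, hRlam, hRnv, hRd, hRz, hRzi, hRα⟩ := exists_roots hp2 hp𝒪 hζ hlam ρbar hdetbar Sig
    (fun v => ⟨fun h => hpSig (h ▸ v.2), hSigscalar v v.2⟩)
  have hgood : Rt.toData.Good := by
    refine Rt.toData_good (by rw [hRlam]; exact hlamirr) (fun v => ?_) (fun v => ?_)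
    · rw [hRz]
      intro h
      have h1 := hζ.dvd_of_pow_eq_one 2 h
      have := Nat.le_of_dvd (by norm_num) h1
      omega
    · rw [hRnv]
      intro h
      have h1 : ((v : ℕ) : 𝒪) = ((1 : ℕ) : 𝒪) := by rw [h, Nat.cast_one]
      have := Nat.cast_injective h1
      exact (hF v).out.one_lt.ne' this
  -- all levels
  have hall : ∀ n, Nonempty (TWLevel Rt.toData g r d M0 (cZero datum Sig M0) n) := by
    intro n
    -- (v1.5) the Taylor–Wiles set of level `n + 1`, used at level `n`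
    obtain ⟨Q, hQ1, hselAt⟩ := hselQ (n + 1)
    have hQ : IsTWSet ρbar p S n Q :=
      { injective := hQ1.injective
        prime := hQ1.prime
        notMem := hQ1.notMem
        cong := fun j => (pow_dvd_pow p (Nat.le_succ n)).trans (hQ1.cong j)
        distinct := hQ1.distinct }
    have hQp : ∀ j, p ∣ Q j - 1 := fun j =>
      (dvd_pow_self p (Nat.succ_ne_zero n)).trans (hQ1.cong j)
    obtain ⟨L⟩ := hlevels r n Q hQ hQp (fun hne => by
      have := Finset.card_pos.2 hne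
      omega)
    obtain ⟨G⟩ := nonempty_glueData L hp2 hp𝒪 hpS habs
    have hex : ∀ v : ↥Sig, ∃ τ, SigmaFacts G (v : ℕ) Rt.half (Rt.alpha v) τ := fun v =>
      exists_sigmaFacts G hp2 hp𝒪 hζ hd v.2 (fun h => hpSig (h ▸ v.2)) (hSigscalar v v.2).1
        (hSigscalar v v.2).2.1 Rt.two_mul_half (hRα v)
    choose τ hτ using hex
    exact nonempty_twLevel_of_galois G Rt τ hτ hp2 hp𝒪 hunrS hQ hRlam hlam hRnv hRd hRz hRzi
      hselAt
  -- the core
  have hcore := hCore (O := 𝒪) (Sig := ↥Sig) Rt.toData hgood g r d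
    (by rw [Fintype.card_coe]; exact hr) hd M0 hfinrank (cZero datum Sig M0) hall
  apply hcore
  intro m
  have hp0 : (p : 𝒪) ≠ 0 := Nat.cast_ne_zero.2 hp.ne_zero
  obtain ⟨e', u, hu⟩ := IsDiscreteValuationRing.eq_unit_mul_pow_irreducible hp0 hlamirr
  refine ⟨e' * k, ?_⟩
  have h1 : ((p : T) ^ k) • m ∈ (⨆ v ∈ Sig, inertiaIdeal datum.ρ v) • (⊤ : Submodule T M0) :=
    Submodule.smul_mem_smul hk Submodule.mem_top
  have h2 : ((p : T) ^ k) • m = ((p : 𝒪) ^ k) • m := by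
    rw [← algebraMap_smul T ((p : 𝒪) ^ k) m, map_pow, map_natCast]
  have h3 : (Rt.toData.lam ^ (e' * k)) • m =
      (((u⁻¹ : 𝒪ˣ) : 𝒪) ^ k) • (((p : 𝒪) ^ k) • m) := by
    have hl : Rt.toData.lam = lam := hRlam
    rw [smul_smul, ← mul_pow, hu, ← mul_assoc, Units.inv_mul, one_mul, ← pow_mul, hl]
  rw [h3]
  refine Submodule.smul_mem _ _ ?_
  rw [← h2]
  exact h1

end Fermat.Agent.RB.GLUE
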