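/-
PROJECT RB — bridge [LGC-BR] (lead), part 1: **descent of linear conditions from `Hom_par(Γ, R')` to
`Hom_par(Γ, R)`** for a torsion-free algebra `R'` over a principal ideal domain `R`.

Every `v ∈ Hom_par(Γ, R')` is a finite sum `∑ bᵢ • ψᵢ` with `ψᵢ ∈ Hom_par(Γ, R)` and `bᵢ ∈ R'` linearly
independent over `R`; an `R'`-linear condition defined over `R` holds for `v` iff it holds for all the
`ψᵢ`.  Consequently (`parExt_apply_eq_zero_of_ker_fixed`): if an endomorphism `g` of `Hom_par(Γ', R)`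
kills the common kernel of two `R`-linear maps `X₁, X₂` intersected with the fixed points of an
ARBITRARY family `F` of endomorphisms, then its extension `parExt g` kills the corresponding subspace
of `Hom_par(Γ', R')`.  (Variant of `S35.parExt_apply_eq_zero_of_ker`, which has no family `F` and uses
flatness.)
-/
import Mathlib
import Fermat.Agent.GR.BETTI_lead_BaseChange

set_option autoImplicit false
set_option linter.unusedSectionVars false
set_option linter.unusedVariables false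
set_option linter.style.haveILetI false

namespace Fermat.Agent.RB.LGCBR

open ModularCurve.Period Fermat.Agent.GR

open scoped MatrixGroups

section Coord

variable {R R' : Type} [CommRing R] [CommRing R'] [Algebra R R'] {Γ' Γ : Subgroup SL(2, ℤ)}

/-- evaluation of a combination `∑ bᵢ • ψᵢ`. -/
theorem sum_smul_parMapAlg_apply {ι : Type*} [Fintype ι] (b : ι → R')
    (χ : ι → ↥(parabolicHoms R Γ R)) (γ : Additive Γ) :
    (∑ i, b i • parMapAlg R R' Γ (χ i) : ↥(parabolicHoms R' Γ R')).1 γ =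
      ∑ i, (χ i).1 γ • b i := by
  have h1 : ((∑ i, b i • parMapAlg R R' Γ (χ i) : ↥(parabolicHoms R' Γ R')) :
      Additive Γ →+ R') = ∑ i, ((b i • parMapAlg R R' Γ (χ i) : ↥(parabolicHoms R' Γ R')) :
        Additive Γ →+ R') := Submodule.coe_sum _ _ _
  show ((∑ i, b i • parMapAlg R R' Γ (χ i) : ↥(parabolicHoms R' Γ R')) :
      Additive Γ →+ R') γ = _
  rw [h1, AddMonoidHom.finset_sum_apply]
  refine Finset.sum_congr rfl fun i _ => ?_
  show b i * algebraMap R R' ((χ i).1 γ) = (χ i).1 γ • b i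
  rw [Algebra.smul_def, mul_comm]

/-- a combination with linearly independent coefficients vanishes only if all its terms do. -/
theorem eq_zero_of_sum_smul_parMapAlg {ι : Type*} [Fintype ι] (b : ι → R')
    (hb : LinearIndependent R b) (χ : ι → ↥(parabolicHoms R Γ R))
    (h : ∑ i, b i • parMapAlg R R' Γ (χ i) = 0) (i : ι) : χ i = 0 := by
  apply Subtype.ext
  refine AddMonoidHom.ext fun γ => ?_
  have h1 : ∑ j, (χ j).1 γ • b j = 0 := by
    rw [← sum_smul_parMapAlg_apply, h]
    rfl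
  exact (Fintype.linearIndependent_iff.1 hb) (fun j => (χ j).1 γ) h1 i

/-- compatible linear maps on combinations. -/
theorem map_sum_smul_parMapAlg {ι : Type*} [Fintype ι]
    (X : ↥(parabolicHoms R Γ' R) →ₗ[R] ↥(parabolicHoms R Γ R))
    (X' : ↥(parabolicHoms R' Γ' R') →ₗ[R'] ↥(parabolicHoms R' Γ R'))
    (hX : ∀ ψ, X' (parMapAlg R R' Γ' ψ) = parMapAlg R R' Γ (X ψ)) (b : ι → R')
    (ψ : ι → ↥(parabolicHoms R Γ' R)) :
    X' (∑ i, b i • parMapAlg R R' Γ' (ψ i)) = ∑ i, b i • parMapAlg R R' Γ (X (ψ i)) := by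
  rw [map_sum]
  refine Finset.sum_congr rfl fun i _ => ?_
  rw [map_smul, hX]

variable [IsDomain R] [IsPrincipalIdealRing R] [Module.IsTorsionFree R R'] [Group.FG Γ']
  [IsAddTorsionFree R] [IsAddTorsionFree R']

/-- **decomposition**: every element of `Hom_par(Γ', R')` is a combination of elements of
`Hom_par(Γ', R)` with coefficients linearly independent over `R`. -/
theorem exists_decomposition (v : ↥(parabolicHoms R' Γ' R')) :
    ∃ (n : ℕ) (b : Fin n → R') (ψ : Fin n → ↥(parabolicHoms R Γ' R)),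
      LinearIndependent R b ∧ v = ∑ i, b i • parMapAlg R R' Γ' (ψ i) := by
  classical
  have hv : v ∈ Submodule.span R' (Set.range (parMapAlg R R' Γ')) := by
    rw [parMapAlg_span]; trivial
  obtain ⟨m, c, g, hsum⟩ := Submodule.mem_span_set'.1 hv
  choose ψ₀ hψ₀ using fun j => (g j).2
  -- the finitely generated `R`-submodule of `R'` spanned by the coefficients
  set W : Submodule R R' := Submodule.span R (Set.range c) with hW
  haveI : Module.Finite R ↥W := Module.Finite.iff_fg.2 (Submodule.fg_span (Set.finite_range c))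
  obtain ⟨n, β⟩ := Module.basisOfFiniteTypeTorsionFree' (R := R) (M := ↥W)
  have hcW : ∀ j, c j ∈ W := fun j => Submodule.subset_span ⟨j, rfl⟩
  have hc : ∀ j, c j = ∑ i, β.repr ⟨c j, hcW j⟩ i • (β i : R') := by
    intro j
    have h1 := β.sum_repr ⟨c j, hcW j⟩
    have h2 := congrArg (W.subtype) h1
    rw [map_sum] at h2
    simp only [map_smul, Submodule.subtype_apply] at h2
    exact h2.symm
  refine ⟨n, fun i => (β i : R'), fun i => ∑ j, β.repr ⟨c j, hcW j⟩ i • ψ₀ j, ?_, ?_⟩
  · have := β.linearIndependent.map' W.subtype (Submodule.ker_subtype W)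
    exact this
  · rw [← hsum]
    have h3 : ∀ j, c j • ((g j : ↥(parabolicHoms R' Γ' R'))) =
        ∑ i, (β i : R') • parMapAlg R R' Γ' (β.repr ⟨c j, hcW j⟩ i • ψ₀ j) := by
      intro j
      conv_lhs => rw [hc j, ← hψ₀ j]
      rw [Finset.sum_smul]
      refine Finset.sum_congr rfl fun i _ => ?_
      rw [map_smul, smul_assoc, smul_comm]
    rw [Finset.sum_congr rfl fun j _ => h3 j, Finset.sum_comm]
    refine Finset.sum_congr rfl fun i _ => ?_
    rw [map_sum, Finset.smul_sum]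

/-- **descent of the common kernel with fixed points**: if `g` kills
`ker X₁ ∩ ker X₂ ∩ {fixed points of F}` then `parExt g` kills the corresponding subspace over `R'`. -/
theorem parExt_apply_eq_zero_of_ker_fixed
    (X₁ X₂ : ↥(parabolicHoms R Γ' R) →ₗ[R] ↥(parabolicHoms R Γ R))
    (X₁' X₂' : ↥(parabolicHoms R' Γ' R') →ₗ[R'] ↥(parabolicHoms R' Γ R'))
    (h₁ : ∀ ψ, X₁' (parMapAlg R R' Γ' ψ) = parMapAlg R R' Γ (X₁ ψ))
    (h₂ : ∀ ψ, X₂' (parMapAlg R R' Γ' ψ) = parMapAlg R R' Γ (X₂ ψ))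
    (F : Set (Module.End R ↥(parabolicHoms R Γ' R))) (g : Module.End R ↥(parabolicHoms R Γ' R))
    (hg : ∀ ψ, X₁ ψ = 0 → X₂ ψ = 0 → (∀ f ∈ F, f ψ = ψ) → g ψ = 0)
    (v : ↥(parabolicHoms R' Γ' R')) (hv₁ : X₁' v = 0) (hv₂ : X₂' v = 0)
    (hv₃ : ∀ f ∈ F, parExt R R' Γ' f v = v) :
    parExt R R' Γ' g v = 0 := by
  obtain ⟨n, b, ψ, hb, rfl⟩ := exists_decomposition (R := R) v
  have hext : ∀ f : Module.End R ↥(parabolicHoms R Γ' R),
      parExt R R' Γ' f (∑ i, b i • parMapAlg R R' Γ' (ψ i)) =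
        ∑ i, b i • parMapAlg R R' Γ' (f (ψ i)) := fun f =>
    map_sum_smul_parMapAlg f (parExt R R' Γ' f) (parExt_parMapAlg R R' Γ' f) b ψ
  have e1 : ∀ i, X₁ (ψ i) = 0 := by
    rw [map_sum_smul_parMapAlg X₁ X₁' h₁] at hv₁
    exact eq_zero_of_sum_smul_parMapAlg b hb _ hv₁
  have e2 : ∀ i, X₂ (ψ i) = 0 := by
    rw [map_sum_smul_parMapAlg X₂ X₂' h₂] at hv₂
    exact eq_zero_of_sum_smul_parMapAlg b hb _ hv₂
  have e3 : ∀ i, ∀ f ∈ F, f (ψ i) = ψ i := by
    intro i f hf
    have h := hv₃ f hf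
    rw [hext f, ← sub_eq_zero, ← Finset.sum_sub_distrib] at h
    have h' : ∑ i, b i • parMapAlg R R' Γ' (f (ψ i) - ψ i) = 0 := by
      rw [← h]
      refine Finset.sum_congr rfl fun i _ => ?_
      rw [map_sub, smul_sub]
    exact sub_eq_zero.1 (eq_zero_of_sum_smul_parMapAlg b hb _ h' i)
  rw [hext g]
  refine Finset.sum_eq_zero fun i _ => ?_
  rw [hg (ψ i) (e1 i) (e2 i) (e3 i), map_zero, smul_zero]

end Coord

end Fermat.Agent.RB.LGCBR
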