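/-
PROJECT RB — bridge [LGC-BR] (lead), part 2: **(KEY-I3) on the eigenlattice.**

From the geometric statement `S35.KeyI3 M₀ q p` (on the inertia-invariant `p`-power torsion of
`J₀(M₀ q)` killed by both degeneracy pushforwards, `φ² = q²` up to a bounded power of `p`) and
newness at `q`: if the representation on the eigenlattice of a system of eigenvalues of level `M₀ q`
which is new at `q` is UNRAMIFIED at `q`, then `ρ(φ)² = q²` for the Frobenius lifts `φ` at `q`.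
(The analogue of `S35.rep_frobPoly_eq_zero`, with the inertia invariants carried along.)
-/
import Mathlib
import Fermat.Agent.RB.LGCBR_lead_Flat
import Fermat.Agent.S35.T2_lead_Concrete

set_option autoImplicit false
set_option linter.unusedSectionVars false
set_option linter.unusedVariables false
set_option linter.style.haveILetI false

open CongruenceSubgroup ModularCurve ModularCurve.Period

open scoped MatrixGroups

namespace Fermat.Agent.RB.LGCBR

open Fermat.Agent.GR Fermat.Agent.X0N Fermat.Agent.JA Fermat.Agent.S35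

local notation "Ω" => AlgebraicClosure ℚ
local notation "GQ" => (AlgebraicClosure ℚ ≃ₐ[ℚ] AlgebraicClosure ℚ)

/-- a domain of characteristic zero is torsion-free over `ℤ_p`. -/
theorem isTorsionFree_padic_of_charZero {p : ℕ} [hp : Fact p.Prime] (B : Type*) [CommRing B]
    [IsDomain B] [CharZero B] [Algebra ℤ_[p] B] : Module.IsTorsionFree ℤ_[p] B := by
  have hinj : ∀ a : ℤ_[p], a ≠ 0 → algebraMap ℤ_[p] B a ≠ 0 := by
    intro a ha0 h2
    have hspec := PadicInt.unitCoeff_spec ha0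
    rw [hspec, map_mul, map_pow, map_natCast] at h2
    rcases mul_eq_zero.mp h2 with h3 | h3
    · exact ((PadicInt.unitCoeff ha0).isUnit.map (algebraMap ℤ_[p] B)).ne_zero h3
    · have : (p : B) = 0 := eq_zero_of_pow_eq_zero h3
      exact hp.out.ne_zero (by exact_mod_cast this)
  refine ⟨fun r hr x y hxy => ?_⟩
  have hr0 : r ≠ 0 := hr.ne_zero
  have h1 : algebraMap ℤ_[p] B r * x = algebraMap ℤ_[p] B r * y := by
    rw [← Algebra.smul_def, ← Algebra.smul_def]; exact hxy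
  exact mul_left_cancel₀ (hinj r hr0) h1

/-! ### two levels, abstractly, with fixed points -/

section Two

variable {J' J : Type*} [AddCommGroup J'] [AddCommGroup J] {Γ' Γ : Subgroup SL(2, ℤ)}
  {p : ℕ} [hp : Fact p.Prime] {D' : KapData J' Γ' p} {D : KapData J Γ p}

/-- **the key transport lemma with fixed points**: an endomorphism `f` of `J'` killing the `p`-power
torsion points killed by `π₁`, `π₂` and fixed by a family `F` of endomorphisms has a transport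
killing the `ψ` with `X₁ ψ = X₂ ψ = 0` fixed by the transports of `F`. -/
theorem transport_apply_eq_zero_of_kapTransfer_fixed {π₁ π₂ : J' →+ J}
    (T₁ : KapTransfer D' D π₁) (T₂ : KapTransfer D' D π₂) (F : Set (AddMonoid.End J'))
    (f : AddMonoid.End J')
    (hf : ∀ (k : ℕ) (x : J'), p ^ k • x = 0 → π₁ x = 0 → π₂ x = 0 → (∀ g ∈ F, g x = x) →
      f x = 0)
    (ψ : ↥(parabolicHoms ℤ_[p] Γ' ℤ_[p])) (h₁ : T₁.X ψ.1 = 0) (h₂ : T₂.X ψ.1 = 0)
    (h₃ : ∀ g ∈ F, D'.transport g ψ = ψ) :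
    D'.transport f ψ = 0 := by
  obtain ⟨x, rfl⟩ := D'.phi_surjective ψ
  rw [KapData.transport_phi]
  have hfix : ∀ g ∈ F, ∀ k, g (x.1 k) = x.1 k := by
    intro g hg k
    have h := h₃ g hg
    rw [KapData.transport_phi] at h
    have h' := D'.phi_injective h
    exact congrFun (congrArg Subtype.val h') k
  have hz : TateSeq.map p f x = 0 := by
    apply Subtype.ext
    funext k
    show f (x.1 k) = 0
    exact hf k (x.1 k) (TateSeq.pow_smul x k) (T₁.map_comp_eq_zero x h₁ k)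
      (T₂.map_comp_eq_zero x h₂ k) (fun g hg => hfix g hg k)
  rw [hz, map_zero]

end Two

/-! ### the `ℤ_p`-level -/

section PLevel

variable {M₀ q p : ℕ} [NeZero M₀] [NeZero q] [NeZero (M₀ * q)] [hp : Fact p.Prime]
  {D' : KapData (JZero (M₀ * q)) (Gamma0 (M₀ * q)) p} {D₀ : KapData (JZero M₀) (Gamma0 M₀) p}

/-- the endomorphism `n (φ ^ 2 - m)` of `J`. -/
noncomputable def sqSubEnd {J : Type*} [AddCommGroup J] [DistribMulAction GQ J] (n m : ℕ) (φ : GQ) :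
    AddMonoid.End J :=
  (n : AddMonoid.End J) *
    ((DistribMulAction.toAddMonoidEnd GQ J φ) ^ 2 - (m : AddMonoid.End J))

theorem sqSubEnd_apply {J : Type*} [AddCommGroup J] [DistribMulAction GQ J] (n m : ℕ) (φ : GQ)
    (x : J) : sqSubEnd n m φ x = n • (φ • φ • x - m • x) := by
  show (n : AddMonoid.End J) (((DistribMulAction.toAddMonoidEnd GQ J φ) ^ 2 -
    (m : AddMonoid.End J) : AddMonoid.End J) x) = _
  rw [AddMonoid.End.natCast_apply, pow_two]
  show n • ((DistribMulAction.toAddMonoidEnd GQ J φ)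
    ((DistribMulAction.toAddMonoidEnd GQ J φ) x) - (m : AddMonoid.End J) x) = _
  rw [AddMonoid.End.natCast_apply]
  rfl

/-- **(KEY-I3) on `P' = Hom_par(Γ₀(M₀ q), ℤ_p)`**: `ρ(φ)² - q²` kills the common kernel of the two
transfers intersected with the inertia invariants. -/
theorem rho_sq_sub_apply_eq_zero (Tα : KapTransfer D' D₀ (degPushAlpha M₀ q))
    (Tβ : KapTransfer D' D₀ (degPushBeta M₀ q)) {c : ℕ} {A : ValuationSubring Ω} {φ : GQ}
    (hkey : ∀ (k : ℕ) (x : JZero (M₀ * q)), p ^ k • x = 0 →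
      (∀ τ ∈ A.inertiaSubgroupIn ℚ, τ • x = x) → degPushAlpha M₀ q x = 0 →
      degPushBeta M₀ q x = 0 → p ^ c • (φ • φ • x - (q ^ 2) • x) = 0)
    (ψ : ↥(parabolicHoms ℤ_[p] (Gamma0 (M₀ * q)) ℤ_[p])) (hα : Tα.X ψ.1 = 0)
    (hβ : Tβ.X ψ.1 = 0) (hI : ∀ τ ∈ A.inertiaSubgroupIn ℚ, D'.rho τ ψ = ψ) :
    ((D'.rho φ ^ 2 - ((q ^ 2 : ℕ) : Module.End ℤ_[p] _)) :
      Module.End ℤ_[p] ↥(parabolicHoms ℤ_[p] (Gamma0 (M₀ * q)) ℤ_[p])) ψ = 0 := by
  have h1 := transport_apply_eq_zero_of_kapTransfer_fixed Tα Tβ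
    {g | ∃ τ ∈ A.inertiaSubgroupIn ℚ,
      g = DistribMulAction.toAddMonoidEnd GQ (JZero (M₀ * q)) τ}
    (sqSubEnd (p ^ c) (q ^ 2) φ) (fun k x hx h2 h3 h4 => by
      rw [sqSubEnd_apply]
      refine hkey k x hx (fun τ hτ => ?_) h2 h3
      exact h4 _ ⟨τ, hτ, rfl⟩) ψ hα hβ (by
      rintro g ⟨τ, hτ, rfl⟩
      exact hI τ hτ)
  have h2 : D'.transport (sqSubEnd (p ^ c) (q ^ 2) φ) =
      ((p ^ c : ℕ) : Module.End ℤ_[p] _) *
        (D'.rho φ ^ 2 - ((q ^ 2 : ℕ) : Module.End ℤ_[p] _)) := by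
    unfold sqSubEnd
    rw [map_mul, map_natCast, map_sub, map_pow, map_natCast]
    rfl
  rw [h2, Module.End.mul_apply, Module.End.natCast_apply] at h1
  exact parabolicHoms_nsmul_eq_zero (pow_ne_zero c hp.out.ne_zero) h1

end PLevel

/-! ### the `B`-level -/

section BLevel

variable {M₀ q p : ℕ} [NeZero M₀] [NeZero q] [NeZero (M₀ * q)] [hp : Fact p.Prime]
  (D' : KapData (JZero (M₀ * q)) (Gamma0 (M₀ * q)) p) (D₀ : KapData (JZero M₀) (Gamma0 M₀) p)
  {ι : Type*} [Fintype ι]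
  (Xα Xβ : TransferDatum ↥(Gamma0 (M₀ * q)) ↥(Gamma0 M₀) (GL (Fin 2) ℝ) ι)
  (B : Type) [CommRing B] [IsDomain B] [CharZero B] [Algebra ℤ_[p] B]

/-- **(KEY-I3) on `Hom_par(Γ₀(M₀ q), B)`**. -/
theorem parExt_rho_sq_sub_apply_eq_zero
    (hkα : ∀ (k : ℕ) (x : ↥(torsionNat (JZero (M₀ * q)) (p ^ k))),
      D₀.kap k (torsionNatMap₂ (p ^ k) (degPushAlpha M₀ q) x) =
        Xα.transferGrp (ZMod (p ^ k)) (D'.kap k x))
    (hkβ : ∀ (k : ℕ) (x : ↥(torsionNat (JZero (M₀ * q)) (p ^ k))),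
      D₀.kap k (torsionNatMap₂ (p ^ k) (degPushBeta M₀ q) x) =
        Xβ.transferGrp (ZMod (p ^ k)) (D'.kap k x))
    (hparα : ∀ (R : Type) [CommRing R], ∀ ψ ∈ parabolicHoms R (Gamma0 (M₀ * q)) R,
      Xα.transferGrp R ψ ∈ parabolicHoms R (Gamma0 M₀) R)
    (hparβ : ∀ (R : Type) [CommRing R], ∀ ψ ∈ parabolicHoms R (Gamma0 (M₀ * q)) R,
      Xβ.transferGrp R ψ ∈ parabolicHoms R (Gamma0 M₀) R)
    {c : ℕ} {A : ValuationSubring Ω} {φ : GQ}
    (hkey : ∀ (k : ℕ) (x : JZero (M₀ * q)), p ^ k • x = 0 →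
      (∀ τ ∈ A.inertiaSubgroupIn ℚ, τ • x = x) → degPushAlpha M₀ q x = 0 →
      degPushBeta M₀ q x = 0 → p ^ c • (φ • φ • x - (q ^ 2) • x) = 0)
    (v : ↥(parabolicHoms B (Gamma0 (M₀ * q)) B)) (hvα : Xα.transferGrp B v.1 = 0)
    (hvβ : Xβ.transferGrp B v.1 = 0)
    (hI : ∀ τ ∈ A.inertiaSubgroupIn ℚ,
      parExt ℤ_[p] B (Gamma0 (M₀ * q)) (D'.rho τ) v = v) :
    ((parExt ℤ_[p] B (Gamma0 (M₀ * q)) (D'.rho φ) ^ 2 - ((q ^ 2 : ℕ) : Module.End B _)) :
        Module.End B ↥(parabolicHoms B (Gamma0 (M₀ * q)) B)) v = 0 := by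
  haveI : Module.IsTorsionFree ℤ_[p] B := isTorsionFree_padic_of_charZero B
  rw [← map_pow, ← map_natCast (parExt ℤ_[p] B (Gamma0 (M₀ * q))), ← map_sub]
  refine parExt_apply_eq_zero_of_ker_fixed (xferPar Xα ℤ_[p] (hparα ℤ_[p]))
    (xferPar Xβ ℤ_[p] (hparβ ℤ_[p])) (xferPar Xα B (hparα B)) (xferPar Xβ B (hparβ B))
    (xferPar_parMapAlg Xα ℤ_[p] B _ _) (xferPar_parMapAlg Xβ ℤ_[p] B _ _)
    {f | ∃ τ ∈ A.inertiaSubgroupIn ℚ, f = D'.rho τ} _ ?_ v
    (Subtype.ext hvα) (Subtype.ext hvβ) (by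
      rintro f ⟨τ, hτ, rfl⟩
      exact hI τ hτ)
  intro ψ h1 h2 h3
  exact rho_sq_sub_apply_eq_zero (kapTransferOf D' D₀ Xα _ hkα) (kapTransferOf D' D₀ Xβ _ hkβ)
    hkey ψ (congrArg Subtype.val h1) (congrArg Subtype.val h2)
    (fun τ hτ => h3 _ ⟨τ, hτ, rfl⟩)

end BLevel

end Fermat.Agent.RB.LGCBR
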