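/-
PROJECT RB — bridge [LGC-BR] (lead), part 3: **`ρ(φ)² = q²` on the eigenlattice of a system of
eigenvalues of level `M₀ q` which is new at `q` and whose representation is unramified at `q`**
(from (KEY-I3)), and the resulting contradiction with `det ρ(φ) = q`.
-/
import Mathlib
import Fermat.Agent.RB.LGCBR_lead_Kap

set_option autoImplicit false
set_option linter.unusedSectionVars false
set_option linter.unusedVariables false
set_option linter.style.haveILetI false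

open CongruenceSubgroup ModularCurve ModularCurve.Period

open scoped MatrixGroups

namespace Fermat.Agent.RB.LGCBR

open Fermat.Agent.GR Fermat.Agent.X0N Fermat.Agent.JA Fermat.Agent.S35

local notation "Ω" => AlgebraicClosure ℚ
local notation "GQ" => (AlgebraicClosure ℚ ≃ₐ[ℚ] AlgebraicClosure ℚ)

section Rep

variable {M₀ q p : ℕ} [NeZero M₀] [NeZero q] [NeZero (M₀ * q)] [hp : Fact p.Prime]
  (I : StageIData (M₀ * q) p) (D₀ : KapData (JZero M₀) (Gamma0 M₀) p)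
  {ι : Type*} [Fintype ι]
  (Xα Xβ : TransferDatum ↥(Gamma0 (M₀ * q)) ↥(Gamma0 M₀) (GL (Fin 2) ℝ) ι)
  (B : Type) [CommRing B] [IsDomain B] [IsDiscreteValuationRing B] [CharZero B]
  [Algebra ℤ_[p] B] (hpB : (p : B) ∈ IsLocalRing.maximalIdeal B)
  (a : Nat.Primes → B)
  (L : Type) [Field L] [Algebra B L] [IsFractionRing B L]
  (hrank : Module.finrank L ↥(eigenPar (M₀ * q) L (mapSys B L a)) = 2)

/-- **`ρ(φ)² = q²` on the eigenlattice** of a system which is new at `q` and unramified at the place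
`A ∣ q`, for a Frobenius lift `φ` satisfying the key property. -/
theorem rep_sq_eq
    (hkα : ∀ (k : ℕ) (x : ↥(torsionNat (JZero (M₀ * q)) (p ^ k))),
      D₀.kap k (torsionNatMap₂ (p ^ k) (degPushAlpha M₀ q) x) =
        Xα.transferGrp (ZMod (p ^ k)) (I.D.kap k x))
    (hkβ : ∀ (k : ℕ) (x : ↥(torsionNat (JZero (M₀ * q)) (p ^ k))),
      D₀.kap k (torsionNatMap₂ (p ^ k) (degPushBeta M₀ q) x) =
        Xβ.transferGrp (ZMod (p ^ k)) (I.D.kap k x))
    (hparα : ∀ (R : Type) [CommRing R], ∀ ψ ∈ parabolicHoms R (Gamma0 (M₀ * q)) R,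
      Xα.transferGrp R ψ ∈ parabolicHoms R (Gamma0 M₀) R)
    (hparβ : ∀ (R : Type) [CommRing R], ∀ ψ ∈ parabolicHoms R (Gamma0 (M₀ * q)) R,
      Xβ.transferGrp R ψ ∈ parabolicHoms R (Gamma0 M₀) R)
    (hHα : ∀ ℓ : Nat.Primes, ¬ (ℓ : ℕ) ∣ M₀ * q → ∀ ψ : Additive ↥(Gamma0 (M₀ * q)) →+ B,
      Xα.transferGrp B (heckeGrpP (M₀ * q) ℓ B ψ) = heckeGrpP M₀ ℓ B (Xα.transferGrp B ψ))
    (hHβ : ∀ ℓ : Nat.Primes, ¬ (ℓ : ℕ) ∣ M₀ * q → ∀ ψ : Additive ↥(Gamma0 (M₀ * q)) →+ B,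
      Xβ.transferGrp B (heckeGrpP (M₀ * q) ℓ B ψ) = heckeGrpP M₀ ℓ B (Xβ.transferGrp B ψ))
    (hnew : eigenParOn M₀ L (primesNotDvd (M₀ * q)) (mapSys B L a) = ⊥)
    {c : ℕ} {A : ValuationSubring Ω} {φ : GQ}
    (hkey : ∀ (k : ℕ) (x : JZero (M₀ * q)), p ^ k • x = 0 →
      (∀ τ ∈ A.inertiaSubgroupIn ℚ, τ • x = x) → degPushAlpha M₀ q x = 0 →
      degPushBeta M₀ q x = 0 → p ^ c • (φ • φ • x - (q ^ 2) • x) = 0)
    (hI : ∀ τ ∈ A.inertiaSubgroupIn ℚ, (I.rep B hpB a L hrank).ρ τ = 1) :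
    ((I.rep B hpB a L hrank).ρ φ) ^ 2 =
      ((q : B) ^ 2) • (1 : Module.End B (I.rep B hpB a L hrank).V) := by
  have hinj : Function.Injective (algebraMap B L) := IsFractionRing.injective B L
  apply LinearMap.ext
  intro m
  apply Subtype.ext
  have hm' : m.1.1 ∈ eigenPar (M₀ * q) B a := m.2
  have hfix : ∀ τ ∈ A.inertiaSubgroupIn ℚ,
      parExt ℤ_[p] B (Gamma0 (M₀ * q)) (I.D.rho τ) m.1 = m.1 := by
    intro τ hτ
    have := LinearMap.congr_fun (hI τ hτ) m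
    exact congrArg Subtype.val this
  have h1 := parExt_rho_sq_sub_apply_eq_zero I.D D₀ Xα Xβ B hkα hkβ hparα hparβ hkey m.1
    (transferGrp_eq_zero_of_new Xα B L hinj hHα (hparα B) a hnew hm')
    (transferGrp_eq_zero_of_new Xβ B L hinj hHβ (hparβ B) a hnew hm') hfix
  rw [LinearMap.sub_apply, sub_eq_zero, Module.End.natCast_apply] at h1
  have e := coe_restrict_pow_apply (eigenLattice (M₀ * q) B a) (rhoM (M₀ * q) p B I.rhoP φ)
    (fun m hm => rhoM_mem (M₀ * q) p B a I.rhoP I.rhoP_comm φ hm) 2 m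
  refine e.trans ?_
  refine (h1.trans ?_)
  show (q ^ 2) • m.1 = ((q : B) ^ 2) • m.1
  rw [← Nat.cast_smul_eq_nsmul B, Nat.cast_pow]

end Rep

section Det

variable {B : Type} [CommRing B] [IsDomain B] [CharZero B] {V : Type*} [AddCommGroup V]
  [Module B V] [Module.Free B V] [Module.Finite B V]

/-- in characteristic zero, an endomorphism `f` of a free module of rank two with `f² = q²` cannot
have determinant `q` when `q ≥ 2`. -/
theorem false_of_sq_eq_of_det_eq (hV : Module.finrank B V = 2) {q : ℕ} (hq : 2 ≤ q)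
    (f : Module.End B V) (hf : f ^ 2 = ((q : B) ^ 2) • (1 : Module.End B V))
    (hdet : LinearMap.det f = (q : B)) : False := by
  have h1 : LinearMap.det (f ^ 2) = (q : B) ^ 2 := by rw [map_pow, hdet]
  have h2 : LinearMap.det (((q : B) ^ 2) • (1 : Module.End B V)) = ((q : B) ^ 2) ^ 2 := by
    rw [LinearMap.det_smul, hV, map_one, mul_one]
  rw [hf, h2] at h1
  have h3 : ((q ^ 2) ^ 2 : ℕ) = q ^ 2 := by exact_mod_cast h1
  have h4 : q ^ 2 = 1 := by
    have hq0 : 0 < q ^ 2 := by positivity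
    have : q ^ 2 * q ^ 2 = q ^ 2 * 1 := by rw [mul_one, ← pow_two]; exact h3
    exact Nat.eq_of_mul_eq_mul_left hq0 this
  have h5 : q = 1 := by
    rcases Nat.pow_eq_one.1 h4 with h | h
    · exact h
    · exact absurd h two_ne_zero
  omega

end Det

section Concrete

variable {M₀ q p : ℕ} [NeZero M₀] [NeZero q] [NeZero (M₀ * q)] [hp : Fact p.Prime]
  {x y : ℤ} (h : (q : ℤ) * x + M₀ * y = 1) (hq : q.Prime)
  (B : Type) [CommRing B] [IsDomain B] [IsDiscreteValuationRing B] [CharZero B]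
  [Algebra ℤ_[p] B] (hpB : (p : B) ∈ IsLocalRing.maximalIdeal B)
  (a : Nat.Primes → B)
  (L : Type) [Field L] [Algebra B L] [IsFractionRing B L]
  (hrank : Module.finrank L ↥(eigenPar (M₀ * q) L (mapSys B L a)) = 2)

include h hq in
/-- **`ρ(φ)² = q²` on the eigenlattice, concrete data.** -/
theorem stageIData_rep_sq_eq
    (hnew : eigenParOn M₀ L (primesNotDvd (M₀ * q)) (mapSys B L a) = ⊥)
    {c : ℕ} {A : ValuationSubring Ω} {φ : GQ}
    (hkey : ∀ (k : ℕ) (z : JZero (M₀ * q)), p ^ k • z = 0 →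
      (∀ τ ∈ A.inertiaSubgroupIn ℚ, τ • z = z) → degPushAlpha M₀ q z = 0 →
      degPushBeta M₀ q z = 0 → p ^ c • (φ • φ • z - (q ^ 2) • z) = 0)
    (hI : ∀ τ ∈ A.inertiaSubgroupIn ℚ,
      ((stageIData (M₀ * q) p).rep B hpB a L hrank).ρ τ = 1) :
    (((stageIData (M₀ * q) p).rep B hpB a L hrank).ρ φ) ^ 2 =
      ((q : B) ^ 2) • (1 : Module.End B ((stageIData (M₀ * q) p).rep B hpB a L hrank).V) :=
  rep_sq_eq (stageIData (M₀ * q) p) (stageIData M₀ p).D
    (xferAlphaT M₀ q h hq) (xferBeta M₀ q h hq) B hpB a L hrank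
    (stageIData_kap_degPushAlpha h hq) (stageIData_kap_degPushBeta h hq)
    (fun R _ ψ hψ => xferAlphaT_mem_parabolicHoms M₀ q h hq R hψ)
    (fun R _ ψ hψ => xferBeta_mem_parabolicHoms M₀ q h hq R hψ)
    (fun ℓ hℓ ψ => xferAlphaT_transferGrp_heckeGrpP M₀ q h hq ℓ hℓ B ψ)
    (fun ℓ hℓ ψ => xferBeta_transferGrp_heckeGrpP M₀ q h hq ℓ hℓ B ψ)
    hnew hkey hI

end Concrete

end Fermat.Agent.RB.LGCBR
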