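/-
PROJECT RB — bridge [LGC-BR] (lead), part 4: **the `v`-new case is contradictory.**

`H` a Hecke–Galois datum of level `M v` (`v ∤ M` prime, `v ≠ p`, `p` odd), `ψ : T → B` a point (a local
homomorphism into a DVR of characteristic zero) killing the inertia ideal of `H.ρ` at `v`, and
`a : Nat.Primes → B` a full eigensystem of level `M v` extending `ψ ∘ π` whose prime-to-`M v` part
does NOT occur at level `M`.  Then `False`: by Chebotarev + Boston–Lenstra–Ribet the representation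
on the eigenlattice is unramified at `v`; by (KEY-I3) `ρ(φ)² = v²` for a Frobenius `φ` at `v`, whereas
`det ρ(φ) = v`.
-/
import Mathlib
import Fermat.Agent.RB.LGCBR_lead_Lattice
import Fermat.Agent.S32.PointRep_helper6
import Fermat.Agent.RB.IFACE_helper9_Datum
import Fermat.Agent.S54_Frobenius

set_option autoImplicit false
set_option linter.unusedSectionVars false
set_option linter.unusedVariables false
set_option linter.style.haveILetI false

namespace Fermat.Agent.RB.LGCBR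

open CongruenceSubgroup ModularCurve ModularCurve.Period Polynomial IsLocalRing Fermat.Agent.GR
  Fermat.Agent.S53.L1 CuspForm Fermat.Agent.S35 Fermat.Agent.S32 Fermat.Agent.JA

open scoped MatrixGroups

local notation "Ω" => AlgebraicClosure ℚ
local notation "GQ" => (AlgebraicClosure ℚ ≃ₐ[ℚ] AlgebraicClosure ℚ)

section New

variable {p : ℕ} [hp : Fact p.Prime] {M v : ℕ} [NeZero M] [NeZero v] [NeZero (M * v)]
  {S : Finset ℕ}
  {𝒪 : Type} [CommRing 𝒪] [IsDomain 𝒪] [IsDiscreteValuationRing 𝒪]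
  [IsAdicComplete (IsLocalRing.maximalIdeal 𝒪) 𝒪]
  {θ : CuspForm.heckeAlgebra (M * v) 2 (↑S : Set ℕ) →+* IsLocalRing.ResidueField 𝒪}
  {T : Type} [CommRing T] [IsLocalRing T] [IsNoetherianRing T]
  [IsAdicComplete (IsLocalRing.maximalIdeal T) T] [Algebra 𝒪 T] [IsLocalHom (algebraMap 𝒪 T)]
  [Module.Finite 𝒪 T] [Module.Free 𝒪 T]

/-- a point killing the inertia ideal trivialises the matrices of inertia. -/
theorem mapRep_repMat_eq_one_of_inertiaIdeal_le
    (ρ : GaloisRepAdic T) {B : Type} [CommRing B] (ψ : T →+* B)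
    (hψ : inertiaIdeal ρ v ≤ RingHom.ker ψ) {A : ValuationSubring Ω} (hA : A.LiesOverPrime v)
    {τ : GQ} (hτ : τ ∈ A.inertiaSubgroupIn ℚ) : mapRep ψ (repMat ρ) τ = 1 := by
  rw [mapRep_apply, repMat_apply]
  ext i j
  rw [Matrix.map_apply, LinearMap.toMatrix_apply, Matrix.one_apply]
  have hmem : (repBasis ρ).repr (ρ.ρ τ (repBasis ρ j) - repBasis ρ j) i ∈ inertiaIdeal ρ v :=
    Ideal.subset_span ⟨A, hA, τ, hτ, repBasis ρ j, (repBasis ρ).coord i, rfl⟩
  have h0 := hψ hmem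
  rw [RingHom.mem_ker, map_sub, Finsupp.sub_apply, map_sub, sub_eq_zero] at h0
  rw [h0, Module.Basis.repr_self, Finsupp.single_apply]
  by_cases hij : i = j
  · rw [if_pos hij.symm, if_pos hij, map_one]
  · rw [if_neg (fun h => hij h.symm), if_neg hij, map_zero]

/-- **the `v`-new case is contradictory**, from (KEY-I3) in the weak order of quantifiers (the
constant may depend on the place `A`). -/
theorem false_of_new_weak
    (hkey : ∀ A : ValuationSubring Ω, A.LiesOverPrime v → ∃ c : ℕ, ∀ φ : GQ,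
      A.IsFrobeniusAt φ v → ∀ (k : ℕ) (x : JZero (M * v)), p ^ k • x = 0 →
        (∀ τ ∈ A.inertiaSubgroupIn ℚ, τ • x = x) →
        degPushAlpha M v x = 0 → degPushBeta M v x = 0 →
          p ^ c • (φ • φ • x - (v ^ 2) • x) = 0)
    (hv : v.Prime) (hvM : ¬ v ∣ M) (hvp : v ≠ p)
    (hp2 : p ≠ 2) (hpS : p ∈ S) (hNS : ∀ q : ℕ, q.Prime → q ∣ M * v → q ∈ S)
    (H : CuspForm.HeckeGaloisRepDatum (M * v) (↑S : Set ℕ) 𝒪 θ T)
    (B : Type) [CommRing B] [IsDomain B] [IsDiscreteValuationRing B] [CharZero B]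
    [Algebra ℤ_[p] B] (hpB : (p : B) ∈ maximalIdeal B)
    (ψ : T →+* B) [IsLocalHom ψ] (hψ : inertiaIdeal H.ρ v ≤ RingHom.ker ψ)
    (L : Type) [Field L] [Algebra B L] [IsFractionRing B L] (a : Nat.Primes → B)
    (hocc : eigenPar (M * v) L (mapSys B L a) ≠ ⊥)
    (ha : ∀ (ℓ : ℕ) (hℓ : ℓ.Prime) (hℓN : ¬ ℓ ∣ M * v) (hℓS : ℓ ∉ (↑S : Set ℕ)),
      a ⟨ℓ, hℓ⟩ = ψ (H.π (CuspForm.heckeAlgebra.T hℓ hℓN hℓS)))
    (hnew : eigenParOn M L (primesNotDvd (M * v)) (mapSys B L a) = ⊥) : False := by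
  haveI : CharZero L := charZero_of_injective_algebraMap (IsFractionRing.injective B L)
  obtain ⟨_, _, hrank⟩ := mult1_field hocc
  obtain ⟨hplus, hminus⟩ := exists_plus_minus_of_occ L (mapSys B L a) hocc
  -- the lattice representation
  set ρ' : GaloisRepAdic B := (stageIData (M * v) p).rep B hpB a L hrank with hρ'
  -- Frobenius characteristic polynomials
  have hfrob : ∀ ℓ : ℕ, ℓ.Prime → ℓ ∉ S → ∀ P : ValuationSubring Ω, P.LiesOverPrime ℓ →
      ∀ φ : GQ, P.IsFrobeniusAt φ ℓ →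
        (LinearMap.charpoly (H.ρ.ρ φ)).map ψ = LinearMap.charpoly (ρ'.ρ φ) := by
    intro ℓ hℓ hℓS P hP φ hφ
    have hℓN : ¬ ℓ ∣ M * v := fun h => hℓS (hNS ℓ hℓ h)
    have hℓS' : ℓ ∉ (↑S : Set ℕ) := by simpa using hℓS
    have hℓp : ℓ ≠ p := fun h => hℓS (by rw [h]; exact hpS)
    have hℓNp : ¬ ℓ ∣ M * v * p := by
      intro h
      rcases (Nat.Prime.dvd_mul hℓ).1 h with h | h
      · exact hℓN h
      · exact hℓp ((Nat.prime_dvd_prime_iff_eq hℓ hp.out).1 h)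
    rw [H.charpoly_frob ℓ hℓ hℓN hℓS' P hP φ hφ,
      (stageIData (M * v) p).rep_charpoly_frobenius B hpB a L hrank hplus hminus hℓ hℓNp hP hφ,
      ha ℓ hℓ hℓN hℓS']
    simp only [Polynomial.map_add, Polynomial.map_sub, Polynomial.map_mul, Polynomial.map_pow,
      Polynomial.map_X, Polynomial.map_C, map_natCast, Polynomial.map_natCast]
  have hsep := Fermat.Agent.S58.cheb_separated_of_noetherian B
  have htd := fun σ : GQ => Fermat.Agent.S58.cheb_trace_det_eq ψ hsep H.ρ ρ' S hfrob σ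
  -- the matrix representations
  have hr := fullSpan_repMat H.ρ H.residual_absIrr
  have hr' := fullSpan_mapRep ψ (repMat H.ρ) hr
  have htr : ∀ σ : GQ, Matrix.trace (mapRep ψ (repMat H.ρ) σ) =
      LinearMap.trace B ρ'.V (ρ'.ρ σ) := by
    intro σ
    rw [mapRep_apply, ← (htd σ).1, ← trace_repMat]
    simp [Matrix.trace_fin_two]
  have hdet : ∀ σ : GQ, Matrix.det (mapRep ψ (repMat H.ρ) σ) = LinearMap.det (ρ'.ρ σ) := by
    intro σ
    rw [mapRep_apply, ← (htd σ).2, ← det_repMat]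
    simp [Matrix.det_fin_two]
  have hCH : ∀ σ : GQ, ρ'.ρ σ * ρ'.ρ σ - Matrix.trace (mapRep ψ (repMat H.ρ) σ) • ρ'.ρ σ +
      Matrix.det (mapRep ψ (repMat H.ρ) σ) • (1 : Module.End B ρ'.V) = 0 := by
    intro σ
    rw [htr, hdet]
    exact cayleyHamilton_rank_two ρ'.finrank_eq (ρ'.ρ σ)
  -- `2` is a unit
  have h2 : IsUnit (2 : B) := by
    by_contra h
    have h2m : (2 : B) ∈ maximalIdeal B := (mem_maximalIdeal _).2 h
    obtain ⟨k, hk⟩ := hp.out.odd_of_ne_two hp2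
    have h1 : (1 : B) = (p : B) - 2 * (k : B) := by
      rw [hk]; push_cast; ring
    have : (1 : B) ∈ maximalIdeal B := by
      rw [h1]
      exact Ideal.sub_mem _ hpB (Ideal.mul_mem_right _ _ h2m)
    exact (maximalIdeal.isMaximal B).ne_top ((Ideal.eq_top_iff_one _).2 this)
  -- a Frobenius at `v`
  obtain ⟨A, φ, hA, hφ⟩ := Fermat.Agent.S54.exists_frobenius v hv
  -- Boston–Lenstra–Ribet: the lattice representation is unramified at `A`
  have hI : ∀ τ ∈ A.inertiaSubgroupIn ℚ, ρ'.ρ τ = 1 := by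
    intro τ hτ
    have h1 := blrHom_apply (mapRep ψ (repMat H.ρ)) ρ'.ρ hCH h2 hr' τ
    rw [mapRep_repMat_eq_one_of_inertiaIdeal_le H.ρ ψ hψ hA hτ, map_one] at h1
    exact h1.symm
  -- (KEY-I3)
  obtain ⟨c, hc⟩ := hkey A hA
  obtain ⟨x, y, hxy⟩ := exists_bezout_of_coprime M v
    ((Nat.Prime.coprime_iff_not_dvd hv).mpr hvM)
  have hsq := stageIData_rep_sq_eq hxy hv B hpB a L hrank hnew (hc φ hφ) hI
  -- the determinant of Frobenius
  have hquad := (stageIData (M * v) p).rep_frobeniusQuadraticOutside B hpB a L hrank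
  have hc0 := (stageIData (M * v) p).rep_c0_not_isScalarEnd B hpB a L hrank hplus hminus
  have hφmem : φ ∈ detCycSubgroup ρ' p := by
    rw [detCycSubgroup_eq_top hpB StageIData.mem_primeFactors_self hquad hc0]
    exact Subgroup.mem_top φ
  have hdetφ : LinearMap.det (ρ'.ρ φ) = (v : B) := by
    rw [← sub_eq_zero]
    refine eq_zero_of_forall_exists_mem_pow fun n₀ => ⟨n₀, le_rfl, ?_⟩
    have h1 := hφmem n₀
    have h2' := natCast_sub_natCast_mem_span (R := B) (cycVal_frobenius p n₀ hv hvp hA hφ)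
    have : LinearMap.det (ρ'.ρ φ) - (v : B) =
        (LinearMap.det (ρ'.ρ φ) - ((cycVal p n₀ φ : ℕ) : B)) -
          ((v : B) - ((cycVal p n₀ φ : ℕ) : B)) := by ring
    rw [this]
    exact span_pow_le_maximalIdeal_pow p hpB n₀ (Ideal.sub_mem _ h1 h2')
  exact false_of_sq_eq_of_det_eq ρ'.finrank_eq hv.two_le (ρ'.ρ φ) hsq hdetφ

/-- **the `v`-new case is contradictory.** -/
theorem false_of_new (hkey : KeyI3 M v p) (hv : v.Prime) (hvM : ¬ v ∣ M) (hvp : v ≠ p)
    (hp2 : p ≠ 2) (hpS : p ∈ S) (hNS : ∀ q : ℕ, q.Prime → q ∣ M * v → q ∈ S)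
    (H : CuspForm.HeckeGaloisRepDatum (M * v) (↑S : Set ℕ) 𝒪 θ T)
    (B : Type) [CommRing B] [IsDomain B] [IsDiscreteValuationRing B] [CharZero B]
    [Algebra ℤ_[p] B] (hpB : (p : B) ∈ maximalIdeal B)
    (ψ : T →+* B) [IsLocalHom ψ] (hψ : inertiaIdeal H.ρ v ≤ RingHom.ker ψ)
    (L : Type) [Field L] [Algebra B L] [IsFractionRing B L] (a : Nat.Primes → B)
    (hocc : eigenPar (M * v) L (mapSys B L a) ≠ ⊥)
    (ha : ∀ (ℓ : ℕ) (hℓ : ℓ.Prime) (hℓN : ¬ ℓ ∣ M * v) (hℓS : ℓ ∉ (↑S : Set ℕ)),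
      a ⟨ℓ, hℓ⟩ = ψ (H.π (CuspForm.heckeAlgebra.T hℓ hℓN hℓS)))
    (hnew : eigenParOn M L (primesNotDvd (M * v)) (mapSys B L a) = ⊥) : False := by
  obtain ⟨c, hc⟩ := hkey
  exact false_of_new_weak (fun A hA => ⟨c, fun φ hφ => hc A hA φ hφ⟩) hv hvM hvp hp2 hpS hNS H B
    hpB ψ hψ L a hocc ha hnew

end New

end Fermat.Agent.RB.LGCBR
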