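/-
PROJECT RB, block [REP_T] (helper1), part 8: the characteristic-zero points of a finite flat algebra
`A` over a complete discrete valuation ring `𝒪` (characteristic zero, finite residue field).

* `DVRPoint 𝒪 A`: an `𝒪`-algebra homomorphism `ψ : A → B` to a complete discrete valuation ring `B`
  finite over `𝒪`;
* `exists_point_of_prime`: every prime `𝔭` of `A` with `𝔭 ∩ 𝒪 = 0` is the kernel of a point
  (`B` = the integral closure of `𝒪` in `Frac (A/𝔭)`);
* `DVRPoint.residue_ψ`: a point whose kernel lies in the kernel of `Θ : A → k` reduces to `Θ`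
  (lying over);
* `exists_prime_le_ker` (Deligne–Serre lifting): such primes exist below `ker Θ` (going down for the
  flat algebra `A`);
* `finite_setOf_isPrime_comap_eq_bot`: there are finitely many of them (they are minimal primes).
-/
import Mathlib
import Fermat.Agent.CFT.Local.IntClosure

set_option autoImplicit false
set_option linter.unusedSectionVars false
set_option linter.unusedVariables false
set_option linter.style.haveILetI false

namespace Fermat.Agent.RB.REPT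

open IsLocalRing

/-- a characteristic-zero point of the `𝒪`-algebra `A` with values in a complete DVR finite over
`𝒪`. -/
structure DVRPoint (𝒪 : Type) [CommRing 𝒪] (A : Type) [CommRing A] [Algebra 𝒪 A] : Type 1 where
  /-- the coefficient ring -/
  B : Type
  [instCommRing : CommRing B]
  [instIsDomain : IsDomain B]
  [instDVR : IsDiscreteValuationRing B]
  [instComplete : IsAdicComplete (maximalIdeal B) B]
  [instFiniteResidue : Finite (ResidueField B)]
  [instCharZero : CharZero B]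
  [instAlgebra : Algebra 𝒪 B]
  [instFinite : Module.Finite 𝒪 B]
  [instIsLocalHom : IsLocalHom (algebraMap 𝒪 B)]
  injective : Function.Injective (algebraMap 𝒪 B)
  /-- the point -/
  ψ : A →ₐ[𝒪] B

attribute [instance] DVRPoint.instCommRing DVRPoint.instIsDomain DVRPoint.instDVR
  DVRPoint.instComplete DVRPoint.instFiniteResidue DVRPoint.instCharZero DVRPoint.instAlgebra
  DVRPoint.instFinite DVRPoint.instIsLocalHom

section Points

variable {𝒪 : Type} [CommRing 𝒪] [IsDomain 𝒪] [IsDiscreteValuationRing 𝒪]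
  [IsAdicComplete (maximalIdeal 𝒪) 𝒪] [CharZero 𝒪] [Finite (ResidueField 𝒪)]
  {A : Type} [CommRing A] [Algebra 𝒪 A] [Module.Finite 𝒪 A]

attribute [local instance] FractionRing.liftAlgebra FractionRing.isScalarTower_liftAlgebra

/-- **every prime of `A` over `0` is the kernel of a point.** -/
theorem exists_point_of_prime (𝔭 : Ideal A) [h𝔭 : 𝔭.IsPrime]
    (h0 : 𝔭.comap (algebraMap 𝒪 A) = ⊥) : ∃ P : DVRPoint 𝒪 A, RingHom.ker P.ψ = 𝔭 := by
  have hinjD : Function.Injective (algebraMap 𝒪 (A ⧸ 𝔭)) := by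
    rw [injective_iff_map_eq_zero]
    intro a ha
    have h1 : algebraMap 𝒪 A a ∈ 𝔭 := by
      rw [← Ideal.Quotient.eq_zero_iff_mem]
      exact ha
    have h2 : a ∈ 𝔭.comap (algebraMap 𝒪 A) := h1
    rw [h0] at h2
    exact h2
  haveI : FaithfulSMul 𝒪 (A ⧸ 𝔭) := (faithfulSMul_iff_algebraMap_injective 𝒪 (A ⧸ 𝔭)).mpr hinjD
  haveI : Algebra.IsIntegral 𝒪 (A ⧸ 𝔭) := Algebra.IsIntegral.of_finite 𝒪 (A ⧸ 𝔭)
  have hinjL : Function.Injective (algebraMap 𝒪 (FractionRing (A ⧸ 𝔭))) := by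
    rw [IsScalarTower.algebraMap_eq 𝒪 (A ⧸ 𝔭) (FractionRing (A ⧸ 𝔭))]
    exact (IsFractionRing.injective (A ⧸ 𝔭) (FractionRing (A ⧸ 𝔭))).comp hinjD
  haveI : FaithfulSMul 𝒪 (FractionRing (A ⧸ 𝔭)) :=
    (faithfulSMul_iff_algebraMap_injective 𝒪 _).mpr hinjL
  haveI : Module.Finite (FractionRing 𝒪) (FractionRing (A ⧸ 𝔭)) :=
    Module.Finite.of_isLocalization 𝒪 (A ⧸ 𝔭) (nonZeroDivisors 𝒪)
  haveI : CharZero (FractionRing 𝒪) :=
    charZero_of_injective_algebraMap (IsFractionRing.injective 𝒪 (FractionRing 𝒪))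
  haveI : Algebra.IsSeparable (FractionRing 𝒪) (FractionRing (A ⧸ 𝔭)) :=
    Algebra.IsAlgebraic.isSeparable_of_perfectField
  obtain ⟨i1, i2, -, i4, i5, i6, i7⟩ := Fermat.Agent.CFT.Local.exists_localExt_instances 𝒪
    (FractionRing 𝒪) (FractionRing (A ⧸ 𝔭)) ↥(integralClosure 𝒪 (FractionRing (A ⧸ 𝔭)))
  haveI := i1
  haveI := i2
  have hinjB : Function.Injective
      (algebraMap 𝒪 ↥(integralClosure 𝒪 (FractionRing (A ⧸ 𝔭)))) := by
    intro a b hab
    apply hinjL
    have := congrArg (algebraMap ↥(integralClosure 𝒪 (FractionRing (A ⧸ 𝔭)))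
      (FractionRing (A ⧸ 𝔭))) hab
    rwa [← IsScalarTower.algebraMap_apply, ← IsScalarTower.algebraMap_apply] at this
  haveI : CharZero ↥(integralClosure 𝒪 (FractionRing (A ⧸ 𝔭))) :=
    charZero_of_injective_algebraMap hinjB
  let ψ₀ : (A ⧸ 𝔭) →ₐ[𝒪] ↥(integralClosure 𝒪 (FractionRing (A ⧸ 𝔭))) :=
    (IsScalarTower.toAlgHom 𝒪 (A ⧸ 𝔭) (FractionRing (A ⧸ 𝔭))).codRestrict _ (fun d =>
      (Algebra.IsIntegral.isIntegral (R := 𝒪) d).map
        (IsScalarTower.toAlgHom 𝒪 (A ⧸ 𝔭) (FractionRing (A ⧸ 𝔭))))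
  refine ⟨{ B := ↥(integralClosure 𝒪 (FractionRing (A ⧸ 𝔭)))
            instComplete := i6
            instFiniteResidue := i7 inferInstance
            instFinite := i4
            instIsLocalHom := i5
            injective := hinjB
            ψ := ψ₀.comp (Ideal.Quotient.mkₐ 𝒪 𝔭) }, ?_⟩
  ext x
  rw [RingHom.mem_ker]
  constructor
  · intro hx
    have h1 : algebraMap (A ⧸ 𝔭) (FractionRing (A ⧸ 𝔭)) (Ideal.Quotient.mk 𝔭 x) = 0 := by
      have := congrArg (algebraMap ↥(integralClosure 𝒪 (FractionRing (A ⧸ 𝔭)))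
        (FractionRing (A ⧸ 𝔭))) hx
      rw [map_zero] at this
      exact this
    have h2 := (IsFractionRing.injective (A ⧸ 𝔭) (FractionRing (A ⧸ 𝔭))) (h1.trans (map_zero _).symm)
    exact Ideal.Quotient.eq_zero_iff_mem.1 h2
  · intro hx
    have h2 : Ideal.Quotient.mk 𝔭 x = 0 := Ideal.Quotient.eq_zero_iff_mem.2 hx
    show ψ₀ (Ideal.Quotient.mk 𝔭 x) = 0
    rw [h2, map_zero]

/-- **a point whose kernel lies in the kernel of `Θ` reduces to `Θ`** (lying over). -/
theorem DVRPoint.residue_ψ (P : DVRPoint 𝒪 A) (Θ : A →ₐ[𝒪] ResidueField 𝒪)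
    (hle : RingHom.ker P.ψ ≤ RingHom.ker Θ) (x : A) :
    residue P.B (P.ψ x) = ResidueField.map (algebraMap 𝒪 P.B) (Θ x) := by
  letI : Algebra A P.B := P.ψ.toRingHom.toAlgebra
  haveI : IsScalarTower 𝒪 A P.B := IsScalarTower.of_algebraMap_eq fun a => (P.ψ.commutes a).symm
  haveI : Algebra.IsIntegral A P.B :=
    ⟨fun b => (Algebra.IsIntegral.isIntegral (R := 𝒪) b).tower_top⟩
  have hΘsurj : Function.Surjective Θ := by
    intro y
    obtain ⟨a, rfl⟩ := residue_surjective y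
    exact ⟨algebraMap 𝒪 A a, by rw [AlgHom.commutes]; rfl⟩
  haveI hmax : (RingHom.ker (Θ : A →+* ResidueField 𝒪)).IsMaximal :=
    RingHom.ker_isMaximal_of_surjective (Θ : A →+* ResidueField 𝒪) hΘsurj
  obtain ⟨Q, hQmax, hQ⟩ := Ideal.exists_ideal_over_maximal_of_isIntegral (S := P.B)
    (RingHom.ker (Θ : A →+* ResidueField 𝒪)) hle
  have hQeq : Q = maximalIdeal P.B := IsLocalRing.eq_maximalIdeal hQmax
  obtain ⟨a, ha⟩ := residue_surjective (Θ x)
  have h1 : x - algebraMap 𝒪 A a ∈ RingHom.ker (Θ : A →+* ResidueField 𝒪) := by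
    rw [RingHom.mem_ker]
    show Θ (x - algebraMap 𝒪 A a) = 0
    rw [map_sub, AlgHom.commutes, ← ha, sub_eq_zero]
    rfl
  rw [← hQ, hQeq] at h1
  have h2 : P.ψ (x - algebraMap 𝒪 A a) ∈ maximalIdeal P.B := h1
  rw [map_sub, AlgHom.commutes, ← residue_eq_zero_iff, map_sub, sub_eq_zero] at h2
  rw [h2, ← ha]
  rfl

/-- **Deligne–Serre lifting**: below the kernel of `Θ` there is a prime of `A` over `0`. -/
theorem exists_prime_le_ker [Module.Flat 𝒪 A] (Θ : A →ₐ[𝒪] ResidueField 𝒪) :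
    ∃ 𝔭 : Ideal A, 𝔭.IsPrime ∧ 𝔭.comap (algebraMap 𝒪 A) = ⊥ ∧
      𝔭 ≤ RingHom.ker (Θ : A →+* ResidueField 𝒪) := by
  haveI : (RingHom.ker (Θ : A →+* ResidueField 𝒪)).IsPrime :=
    RingHom.ker_isPrime (Θ : A →+* ResidueField 𝒪)
  haveI : (RingHom.ker (Θ : A →+* ResidueField 𝒪)).LiesOver (maximalIdeal 𝒪) := by
    constructor
    ext a
    rw [Ideal.under_def, Ideal.mem_comap, RingHom.mem_ker]
    show a ∈ maximalIdeal 𝒪 ↔ Θ (algebraMap 𝒪 A a) = 0
    rw [AlgHom.commutes, ← residue_eq_zero_iff]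
    rfl
  haveI : (⊥ : Ideal 𝒪).IsPrime := Ideal.isPrime_bot
  obtain ⟨𝔭, hle, hprime, hover⟩ := Ideal.exists_ideal_le_liesOver_of_le
    (p := (⊥ : Ideal 𝒪)) (q := maximalIdeal 𝒪) (RingHom.ker (Θ : A →+* ResidueField 𝒪)) bot_le
  exact ⟨𝔭, hprime, (hover.over).symm, hle⟩

/-- the primes of `A` over `0` are minimal primes, hence finite in number. -/
theorem finite_setOf_isPrime_comap_eq_bot :
    {𝔭 : Ideal A | 𝔭.IsPrime ∧ 𝔭.comap (algebraMap 𝒪 A) = ⊥}.Finite := by
  haveI : IsNoetherianRing A := IsNoetherianRing.of_finite 𝒪 A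
  haveI : Algebra.IsIntegral 𝒪 A := Algebra.IsIntegral.of_finite 𝒪 A
  refine (minimalPrimes.finite_of_isNoetherianRing A).subset ?_
  rintro 𝔭 ⟨hprime, h0⟩
  rw [minimalPrimes_eq_minimals, Set.mem_ofPred_eq]
  refine ⟨hprime, ?_⟩
  intro 𝔮 hqprime hle
  by_contra hnle
  have hlt : 𝔮 < 𝔭 := lt_of_le_not_ge hle hnle
  haveI := hqprime
  have := Ideal.IsIntegral.comap_lt_comap (R := 𝒪) hlt
  rw [h0] at this
  exact not_lt_bot this

end Points

end Fermat.Agent.RB.REPT
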