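/-
PROJECT RB — bridge [LGC-BR] (lead), part 6: **(LGC-St) "unramified at `v ∥ N` ⇒ `v`-old"** from the
geometric statement (KEY-I3) (restricted to `5 ≤ p`, `q ≠ 2`).

`newRamified_of_keyI3`: for the Hecke–Galois datum of level `M v` (`v ∤ M` an odd prime, `v ≠ p`,
`5 ≤ p`, `S` a finite set of primes containing `p` and the primes of `M v`), every prime `𝔭 ∌ p` of
`T` containing the inertia ideal at `v` gives a character `𝕋_S(M) → T ⧸ 𝔭` of level `M` with the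
eigenvalues of `T → T ⧸ 𝔭`.
-/
import Mathlib
import Fermat.Agent.RB.LGCBR_lead_New
import Fermat.Agent.RB.LGCBR_lead_Old
import Fermat.Agent.RB.REPT_helper1_Points
import Fermat.Agent.S32.Real_helper6

set_option autoImplicit false
set_option linter.unusedSectionVars false
set_option linter.unusedVariables false
set_option linter.style.haveILetI false

namespace Fermat.Agent.RB

open CongruenceSubgroup ModularCurve ModularCurve.Period Polynomial IsLocalRing Fermat.Agent.GR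
  CuspForm Fermat.Agent.S35 Fermat.Agent.S32 Fermat.Agent.RB.LGCBR

open scoped MatrixGroups

/-- **the geometric input of the bridge**: (KEY-I3) for `5 ≤ p` and odd `q`. -/
def KeyI3Restricted : Prop :=
  ∀ (M q p : ℕ) [NeZero M] [NeZero q] [NeZero (M * q)], q.Prime → p.Prime → q ≠ p → ¬ q ∣ M →
    5 ≤ p → q ≠ 2 → KeyI3 M q p

/-- (KEY-I3) in the weak order of quantifiers: the constant may depend on the place. -/
def KeyI3W (M q p : ℕ) [NeZero M] [NeZero q] [NeZero (M * q)] : Prop :=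
  ∀ A : ValuationSubring (AlgebraicClosure ℚ), A.LiesOverPrime q → ∃ c : ℕ,
    ∀ φ : (AlgebraicClosure ℚ ≃ₐ[ℚ] AlgebraicClosure ℚ), A.IsFrobeniusAt φ q →
      ∀ (k : ℕ) (x : JZero (M * q)), p ^ k • x = 0 →
        (∀ τ ∈ A.inertiaSubgroupIn ℚ, τ • x = x) →
        degPushAlpha M q x = 0 → degPushBeta M q x = 0 →
          p ^ c • (φ • φ • x - (q ^ 2) • x) = 0

theorem KeyI3.weak {M q p : ℕ} [NeZero M] [NeZero q] [NeZero (M * q)] (h : KeyI3 M q p) :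
    KeyI3W M q p := by
  obtain ⟨c, hc⟩ := h
  exact fun A hA => ⟨c, fun φ hφ => hc A hA φ hφ⟩

/-- **the geometric input of the bridge, weak form**: (KEY-I3W) for `5 ≤ p` and odd `q`. -/
def KeyI3WRestricted : Prop :=
  ∀ (M q p : ℕ) [NeZero M] [NeZero q] [NeZero (M * q)], q.Prime → p.Prime → q ≠ p → ¬ q ∣ M →
    5 ≤ p → q ≠ 2 → KeyI3W M q p

/-- **(LGC-St)**, with `S` finite, `5 ≤ p` and `v ≠ 2`. -/
def NewRamifiedFin : Prop :=
  ∀ {𝒪 : Type} [CommRing 𝒪] [IsDomain 𝒪] [IsDiscreteValuationRing 𝒪]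
    [IsAdicComplete (maximalIdeal 𝒪) 𝒪] [Finite (ResidueField 𝒪)] [CharZero 𝒪]
    (p : ℕ) [Fact p.Prime] (_ : 5 ≤ p) (_ : (p : 𝒪) ∈ maximalIdeal 𝒪)
    (M v : ℕ) [NeZero M] [NeZero (M * v)] (_ : v.Prime) (_ : ¬ v ∣ M) (_ : v ≠ p) (_ : v ≠ 2)
    (S : Finset ℕ) (_ : p ∈ S) (_ : ∀ ℓ : ℕ, ℓ.Prime → ℓ ∣ M * v → ℓ ∈ S)
    (θ : CuspForm.heckeAlgebra (M * v) 2 (↑S : Set ℕ) →+* ResidueField 𝒪)
    (T : Type) [CommRing T] [IsLocalRing T] [IsNoetherianRing T]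
    [IsAdicComplete (maximalIdeal T) T] [Algebra 𝒪 T] [IsLocalHom (algebraMap 𝒪 T)]
    [Module.Finite 𝒪 T] [Module.Free 𝒪 T]
    (datum : CuspForm.HeckeGaloisRepDatum (M * v) (↑S : Set ℕ) 𝒪 θ T)
    (𝔭 : Ideal T) (_ : 𝔭.IsPrime) (_ : (p : T) ∉ 𝔭) (_ : inertiaIdeal datum.ρ v ≤ 𝔭),
    ∃ χ : CuspForm.heckeAlgebra M 2 (↑S : Set ℕ) →+* T ⧸ 𝔭,
      ∀ (ℓ : ℕ) (hℓ : ℓ.Prime) (hℓM : ¬ ℓ ∣ M * v) (hℓS : ℓ ∉ (↑S : Set ℕ)),
        χ (CuspForm.heckeAlgebra.T hℓ (fun h => hℓM (h.mul_right v)) hℓS) =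
          Ideal.Quotient.mk 𝔭 (datum.π (CuspForm.heckeAlgebra.T hℓ hℓM hℓS))

/-- a prime of a finite algebra over a DVR not containing the residue characteristic lies over
`0`. -/
theorem comap_eq_bot_of_natCast_notMem {𝒪 T : Type*} [CommRing 𝒪] [IsDomain 𝒪]
    [IsDiscreteValuationRing 𝒪] [CommRing T] [Algebra 𝒪 T] {p : ℕ}
    (hp𝒪 : (p : 𝒪) ∈ maximalIdeal 𝒪) (𝔭 : Ideal T) [h𝔭 : 𝔭.IsPrime] (hp𝔭 : (p : T) ∉ 𝔭) :
    𝔭.comap (algebraMap 𝒪 T) = ⊥ := by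
  by_contra hne
  haveI : (𝔭.comap (algebraMap 𝒪 T)).IsPrime := Ideal.comap_isPrime _ _
  have hmax : (𝔭.comap (algebraMap 𝒪 T)).IsMaximal :=
    Ring.DimensionLEOne.maximalOfPrime hne inferInstance
  have heq : 𝔭.comap (algebraMap 𝒪 T) = maximalIdeal 𝒪 := eq_maximalIdeal hmax
  apply hp𝔭
  have : (p : 𝒪) ∈ 𝔭.comap (algebraMap 𝒪 T) := by rw [heq]; exact hp𝒪
  rw [Ideal.mem_comap, map_natCast] at this
  exact this

/-- **the bridge**, from the weak form of (KEY-I3). -/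
theorem newRamifiedFin_of_keyI3W (hkey : KeyI3WRestricted) : NewRamifiedFin := by
  intro 𝒪 _ _ _ _ _ _ p hp h5 hp𝒪 M v _ _ hv hvM hvp hv2 S hpS hNS θ T _ _ _ _ _ _ _ _ H 𝔭 h𝔭
    hp𝔭 hI
  classical
  haveI : NeZero v := ⟨hv.ne_zero⟩
  have hp2 : p ≠ 2 := by omega
  -- the point with kernel `𝔭`
  obtain ⟨P, hP⟩ := REPT.exists_point_of_prime (𝒪 := 𝒪) 𝔭
    (comap_eq_bot_of_natCast_notMem hp𝒪 𝔭 hp𝔭)
  -- the full eigensystem
  obtain ⟨B, i1, i2, i3, i4, i5, i6, i7, i8, i9, hinj, L, j1, j2, j3, a, hocc, ha⟩ :=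
    exists_system_of_character (N := M * v) S hNS P.B ((P.ψ : T →+* P.B).comp H.π)
  haveI : IsLocalHom (P.ψ : T →+* P.B) := isLocalHom_of_finite P.ψ
  set ψ : T →+* B := (algebraMap P.B B).comp (P.ψ : T →+* P.B) with hψdef
  haveI : IsLocalHom ψ := inferInstance
  have hker : RingHom.ker ψ = 𝔭 := by
    rw [← hP]
    ext t
    rw [RingHom.mem_ker, RingHom.mem_ker]
    constructor
    · intro ht
      apply hinj
      rw [map_zero]
      exact ht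
    · intro ht
      show algebraMap P.B B (P.ψ t) = 0
      rw [ht, map_zero]
  have hpT : (p : T) ∈ maximalIdeal T := by
    have := map_nonunit (algebraMap 𝒪 T) _ hp𝒪
    rwa [map_natCast] at this
  have hpB : (p : B) ∈ maximalIdeal B := by
    have := map_nonunit ψ _ hpT
    rwa [map_natCast] at this
  letI algB : Algebra ℤ_[p] B := (padicToComplete p (maximalIdeal B) hpB).toAlgebra
  have ha' : ∀ (ℓ : ℕ) (hℓ : ℓ.Prime) (hℓN : ¬ ℓ ∣ M * v) (hℓS : ℓ ∉ (↑S : Set ℕ)),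
      a ⟨ℓ, hℓ⟩ = ψ (H.π (CuspForm.heckeAlgebra.T hℓ hℓN hℓS)) := fun ℓ hℓ hℓN hℓS =>
    ha ℓ hℓ hℓN hℓS
  by_cases hnew : eigenParOn M L (primesNotDvd (M * v)) (mapSys B L a) = ⊥
  · -- the new case is contradictory
    exfalso
    exact false_of_new_weak (hkey M v p hv hp.out hvp hvM h5 hv2) hv hvM hvp hp2 hpS hNS H B hpB ψ
      (by rw [hker]; exact hI) L a hocc ha' hnew
  · -- the old case
    haveI : CharZero L := charZero_of_injective_algebraMap (IsFractionRing.injective B L)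
    haveI : IsDomain (T ⧸ 𝔭) := Ideal.Quotient.isDomain 𝔭
    set χ' : CuspForm.heckeAlgebra (M * v) 2 (↑S : Set ℕ) →+* T ⧸ 𝔭 :=
      (Ideal.Quotient.mk 𝔭).comp H.π with hχ'
    -- `T ⧸ 𝔭 ↪ B`
    let ιB : T ⧸ 𝔭 →+* B := Ideal.Quotient.lift 𝔭 ψ (fun t ht => by
      rw [← hker] at ht; exact ht)
    have hιB : Function.Injective ιB :=
      RingHom.lift_injective_of_ker_le_ideal _ _ hker.le
    -- the domain `D = χ'(𝕋)`
    let D : Subring (T ⧸ 𝔭) := χ'.range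
    have hιD : Function.Injective (ιB.comp D.subtype) := by
      intro x y hxy
      exact Subtype.ext (hιB hxy)
    haveI : CharZero ↥D := ⟨fun m n hmn => by
      have h1 := congrArg (ιB.comp D.subtype) hmn
      rw [map_natCast, map_natCast] at h1
      exact_mod_cast h1⟩
    haveI : Algebra.IsIntegral ℤ ↥D := ⟨by
      rintro ⟨_, t, rfl⟩
      have h1 : IsIntegral ℤ (χ'.rangeRestrict t) := map_isIntegral_int χ'.rangeRestrict
        (isIntegral_heckeAlgebra (↑S : Set ℕ) t)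
      exact h1⟩
    let g : ↥D →+* L := (algebraMap B L).comp (ιB.comp D.subtype)
    have hg : Function.Injective g := by
      intro x y hxy
      exact hιD (IsFractionRing.injective B L hxy)
    have hnotdvd : ∀ ℓ : Nat.Primes, (ℓ : ℕ) ∉ (↑S : Set ℕ) → ¬ (ℓ : ℕ) ∣ M * v :=
      fun ℓ hℓS hdvd => hℓS (Finset.mem_coe.2 (hNS ℓ ℓ.2 hdvd))
    let d : Nat.Primes → ↥D := fun ℓ =>
      if h : (ℓ : ℕ) ∉ (↑S : Set ℕ) then
        ⟨χ' (CuspForm.heckeAlgebra.T ℓ.2 (hnotdvd ℓ h) h), ⟨_, rfl⟩⟩ else 0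
    have hd : ∀ (ℓ : Nat.Primes) (h : (ℓ : ℕ) ∉ (↑S : Set ℕ)),
        d ℓ = ⟨χ' (CuspForm.heckeAlgebra.T ℓ.2 (hnotdvd ℓ h) h), ⟨_, rfl⟩⟩ := fun ℓ h =>
      dif_pos h
    have hocc' : eigenParOn M L (primesOutside (↑S : Set ℕ)) (fun ℓ => g (d ℓ)) ≠ ⊥ := by
      have hsub : primesOutside (↑S : Set ℕ) ⊆ primesNotDvd (M * v) := fun ℓ hℓ =>
        hnotdvd ℓ hℓ
      have hcongr : eigenParOn M L (primesOutside (↑S : Set ℕ)) (fun ℓ => g (d ℓ)) =
          eigenParOn M L (primesOutside (↑S : Set ℕ)) (mapSys B L a) := by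
        refine eigenParOn_congr fun ℓ hℓ => ?_
        rw [hd ℓ hℓ]
        show algebraMap B L (ψ (H.π (CuspForm.heckeAlgebra.T ℓ.2 (hnotdvd ℓ hℓ) hℓ))) =
          algebraMap B L (a ℓ)
        rw [← ha' ℓ.1 ℓ.2 (hnotdvd ℓ hℓ) hℓ]
        rfl
      rw [hcongr]
      intro hbot
      apply hnew
      rw [eq_bot_iff]
      exact (eigenParOn_anti hsub (mapSys B L a)).trans hbot.le
    have hMS : ∀ ℓ : ℕ, ℓ.Prime → ℓ ∣ M → ℓ ∈ (↑S : Set ℕ) := fun ℓ hℓ hℓM =>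
      Finset.mem_coe.2 (hNS ℓ hℓ (hℓM.mul_right v))
    obtain ⟨χD, hχD⟩ := exists_character_of_eigenParOn (M := M) (↑S : Set ℕ) hMS g hg d hocc'
    refine ⟨D.subtype.comp χD, fun ℓ hℓ hℓM hℓS => ?_⟩
    rw [RingHom.comp_apply, hχD ℓ hℓ _ hℓS, hd ⟨ℓ, hℓ⟩ hℓS]
    rfl

/-- **(LGC-St) in the literal form of the interface (v1.2)** from the restricted (KEY-I3). -/
theorem newRamifiedFin_of_keyI3 (hkey : KeyI3Restricted) : NewRamifiedFin :=
  newRamifiedFin_of_keyI3W (fun M q p _ _ _ hq hp hqp hqM h5 hq2 =>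
    KeyI3.weak (hkey M q p hq hp hqp hqM h5 hq2))

theorem newRamified_of_keyI3W (hkey : KeyI3WRestricted) : NewRamified :=
  newRamifiedFin_of_keyI3W hkey

theorem newRamified_of_keyI3 (hkey : KeyI3Restricted) : NewRamified :=
  newRamifiedFin_of_keyI3 hkey

end Fermat.Agent.RB
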