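/-
RB — helper6 — [MAZ], package P8 (part 1): **the abstract Schur step of Mazur's principle.**

`J[p]` an irreducible `G`-module (`AbsIrr G J p`), `ι : J[p] → J'` an injective `G`-equivariant map,
`w` a `G`-equivariant involution of `J'`, `φ ∈ G` with `φ (ι Q) + q • w (ι Q) = 0` for all `Q`
(`q` prime to `p`): then `φ` acts on `J[p]` as the scalar `-q` or as the scalar `q`.
-/
import Mathlib
import Fermat.Agent.LR.NONEIS_helper3_Group
import Fermat.Agent.GR.TATE_lead_Seq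

set_option autoImplicit false
set_option linter.unusedSectionVars false
set_option linter.unusedVariables false

namespace Fermat.Agent.RB

open Fermat.Agent.GR Fermat.Agent.LR.NonEis

section Schur

variable {G J J' : Type*} [Group G] [AddCommGroup J] [DistribMulAction G J] [AddCommGroup J']
  [DistribMulAction G J'] {p : ℕ}

/-- on `p`-torsion, `(q' q) • z = z` if `q' q ≡ 1 mod p`. -/
theorem mul_nsmul_eq_self_of_modEq {X : Type*} [AddCommGroup X] {z : X} (hz : p • z = 0)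
    {a : ℕ} (ha : a ≡ 1 [MOD p]) : a • z = z := by
  have h1 : ((a : ℤ) - 1) • z = 0 := by
    have hdvd : (p : ℤ) ∣ (a : ℤ) - 1 := by
      have := (Nat.modEq_iff_dvd.mp ha.symm)
      simpa using this
    obtain ⟨t, ht⟩ := hdvd
    rw [ht, mul_comm, mul_smul, natCast_zsmul, hz, smul_zero]
  rw [sub_smul, one_smul, natCast_zsmul, sub_eq_zero] at h1
  exact h1

/-- **the Schur step.** -/
theorem scalar_of_frob_add_al (hp : p.Prime) (hirr : AbsIrr G J p)
    (ι : ↥(torsionNat J p) →+ J') (hinj : Function.Injective ι)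
    (hgal : ∀ (σ : G) (Q : ↥(torsionNat J p)) (h : σ • Q.1 ∈ torsionNat J p),
      ι ⟨σ • Q.1, h⟩ = σ • ι Q)
    (w : J' →+ J') (hww : ∀ z, w (w z) = z) (hwG : ∀ (σ : G) z, σ • w z = w (σ • z))
    (φ : G) (q : ℕ) (hpq : Nat.Coprime q p)
    (hR : ∀ Q : ↥(torsionNat J p), φ • ι Q + q • w (ι Q) = 0) :
    (∀ P : J, p • P = 0 → φ • P = -(q • P)) ∨ (∀ P : J, p • P = 0 → φ • P = q • P) := by
  classical
  -- an inverse of `q` modulo `p`
  obtain ⟨q', hq'⟩ : ∃ q' : ℕ, q' * q ≡ 1 [MOD p] := by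
    obtain ⟨m, -, hm⟩ := Nat.exists_mul_mod_eq_one_of_coprime hpq hp.one_lt
    refine ⟨m, ?_⟩
    rw [mul_comm]
    show q * m % p = 1 % p
    rw [hm, Nat.mod_eq_of_lt hp.one_lt]
  have hmem : ∀ (σ : G) (Q : ↥(torsionNat J p)), σ • Q.1 ∈ torsionNat J p := fun σ Q =>
    nsmul_smul_eq_zero σ Q.2
  have hpι : ∀ Q : ↥(torsionNat J p), p • ι Q = 0 := fun Q => by
    rw [← map_nsmul]
    have : p • Q = 0 := Subtype.ext Q.2
    rw [this, map_zero]
  have hpw : ∀ Q : ↥(torsionNat J p), p • w (ι Q) = 0 := fun Q => by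
    rw [← map_nsmul, hpι, map_zero]
  -- `w` preserves the image of `ι`
  set om : ↥(torsionNat J p) → ↥(torsionNat J p) := fun Q =>
    -(q' • (⟨φ • Q.1, hmem φ Q⟩ : ↥(torsionNat J p))) with hom
  have hom' : ∀ Q, ι (om Q) = w (ι Q) := by
    intro Q
    have h1 : q • w (ι Q) = -(φ • ι Q) := eq_neg_of_add_eq_zero_right (hR Q)
    rw [hom]
    show ι (-(q' • (⟨φ • Q.1, hmem φ Q⟩ : ↥(torsionNat J p)))) = w (ι Q)
    rw [map_neg, map_nsmul, hgal φ Q (hmem φ Q), ← smul_neg, ← h1, ← mul_smul]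
    exact mul_nsmul_eq_self_of_modEq (hpw Q) hq'
  -- the `+1`-eigenspace of `w`
  set U : AddSubgroup J :=
    { carrier := {P | ∃ h : P ∈ torsionNat J p, w (ι ⟨P, h⟩) = ι ⟨P, h⟩}
      zero_mem' := ⟨(torsionNat J p).zero_mem, by
        have : (⟨0, (torsionNat J p).zero_mem⟩ : ↥(torsionNat J p)) = 0 := rfl
        rw [this, map_zero, map_zero]⟩
      add_mem' := by
        rintro a b ⟨ha, ha'⟩ ⟨hb, hb'⟩
        refine ⟨(torsionNat J p).add_mem ha hb, ?_⟩
        have : (⟨a + b, (torsionNat J p).add_mem ha hb⟩ : ↥(torsionNat J p)) =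
            ⟨a, ha⟩ + ⟨b, hb⟩ := rfl
        rw [this, map_add, map_add, ha', hb']
      neg_mem' := by
        rintro a ⟨ha, ha'⟩
        refine ⟨(torsionNat J p).neg_mem ha, ?_⟩
        have : (⟨-a, (torsionNat J p).neg_mem ha⟩ : ↥(torsionNat J p)) = -⟨a, ha⟩ := rfl
        rw [this, map_neg, map_neg, ha'] } with hU
  have hUp : ∀ u ∈ U, p • u = 0 := fun u hu => hu.1
  have hUG : ∀ (g : G), ∀ u ∈ U, g • u ∈ U := by
    rintro g u ⟨hu, hu'⟩
    refine ⟨hmem g ⟨u, hu⟩, ?_⟩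
    rw [hgal g ⟨u, hu⟩ (hmem g ⟨u, hu⟩), ← hwG, hu']
  rcases hirr.2 U hUp hUG with h0 | htop
  · -- `w = -1` on the image: `φ = q`
    right
    intro P hP
    set Q : ↥(torsionNat J p) := ⟨P, hP⟩ with hQ
    have h1 : (Q + om Q : ↥(torsionNat J p)).1 ∈ U := by
      refine ⟨(Q + om Q).2, ?_⟩
      show w (ι (Q + om Q)) = ι (Q + om Q)
      rw [map_add, map_add, hom', hww, add_comm]
    have h2 : Q + om Q = 0 := Subtype.ext (h0 _ h1)
    have h3 : w (ι Q) = -ι Q := by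
      rw [← hom', ← map_neg]
      congr 1
      exact eq_neg_of_add_eq_zero_right h2
    have h4 := hR Q
    rw [h3, smul_neg, ← sub_eq_add_neg, sub_eq_zero, ← hgal φ Q (hmem φ Q), ← map_nsmul] at h4
    exact congrArg Subtype.val (hinj h4)
  · -- `w = 1` on the image: `φ = -q`
    left
    intro P hP
    set Q : ↥(torsionNat J p) := ⟨P, hP⟩ with hQ
    obtain ⟨h, h3⟩ := htop P hP
    have h4 := hR Q
    rw [h3, ← hgal φ Q (hmem φ Q), ← map_nsmul, ← map_add] at h4
    have h5 := hinj (h4.trans (map_zero ι).symm)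
    have h6 := congrArg Subtype.val h5
    exact eq_neg_of_add_eq_zero_left h6

end Schur

end Fermat.Agent.RB
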