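/-
RB — helper6 — [MAZ], package P1 (part 2): **[TOP-G(q)]** — the port of lead's `MP/TOPG_lead_{Lat,Main}`
to level `M' q` with torsion prime `p ≠ q`:

from a normalised eigenform of level `M' q` (`q ∤ M'`) congruent modulo `p` to the curve `W`, EITHER the
eigensystem already occurs at level `M'` (`ResOccurs`), OR there is an injective Galois-equivariant
additive map `E[p](ℚ̄) → J₀(M' q)(ℚ̄)` whose image is killed by both degeneracy pushforwards to
level `M'` and on which `T_ℓ` acts by `a_ℓ(W)` for all good `ℓ ∤ M' q p`.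
-/
import Mathlib
import Fermat.Agent.RB.MAZ_helper6_Iface
import Fermat.Agent.MP.TOPG_lead_Final

set_option autoImplicit false
set_option linter.unusedSectionVars false
set_option linter.unusedVariables false
set_option linter.style.haveILetI false

open AlgebraicCurve ModularCurve CongruenceSubgroup ModularCurve.Period WeierstrassCurve
  WeierstrassCurve.Affine
open WeierstrassCurve.Affine.Point

open scoped MatrixGroups TensorProduct WeierstrassCurve.Affine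

namespace Fermat.Agent.RB

open Fermat.Agent.S35 Fermat.Agent.NP Fermat.Agent.GR Fermat.Agent.LR Fermat.Agent.MP
  Fermat.Agent.LR.NonEis

/-- `Ω = AlgebraicClosure ℚ`. -/
local notation "Ω" => AlgebraicClosure ℚ

/-- the absolute Galois group. -/
local notation "GQ" => (AlgebraicClosure ℚ ≃ₐ[ℚ] AlgebraicClosure ℚ)

section Push

variable {M' q p : ℕ} [NeZero M'] [NeZero q] [NeZero (M' * q)] [hp : Fact p.Prime]
  {S : Set ℕ} {a : ℕ → ℤ}

/-- **an element of `eigenTors (M' q) p` not killed by `α_*` gives an eigenvector modulo `p` in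
`H¹_par(Γ₀(M'), ℤ)`.** -/
theorem exists_lpar_of_degPushAlpha_ne_zero_q (hq : q.Prime) (hqM : ¬ q ∣ M')
    (hS : ∀ ℓ : ℕ, ℓ.Prime → ℓ ∣ M' * q → ℓ ∈ S)
    {x : JZero (M' * q)} (hx : x ∈ eigenTors (M' * q) p S a) (hα : degPushAlpha M' q x ≠ 0) :
    ∃ w' : LPar M', (∀ y : LPar M', w' ≠ (p : ℤ) • y) ∧
      ∀ ℓ : Nat.Primes, (ℓ : ℕ) ∉ S →
        ∃ y : LPar M', heckeZ M' ℓ w' = a ℓ • w' + (p : ℤ) • y := by
  obtain ⟨⟨X, rfl⟩, hT⟩ := hx
  set I := stageIData (M' * q) p with hI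
  set I' := stageIData M' p with hI'
  set z : ↥(torsionNat (JZero (M' * q)) (p ^ 1)) := TateSeq.comp 1 X with hz
  set ψ' : ↥(parabolicHoms ℤ_[p] (Gamma0 M') ℤ_[p]) :=
    pushAPar M' q hq hqM ℤ_[p] ℤ_[p] (I.D.phi X) with hψ'
  obtain ⟨w', hw'⟩ := exists_lpar_lift (Gamma0 M') 1 ψ'
  -- the reduction of `w'` is the push-forward of the Kummer class of `z`
  have key1 : (Int.castAddHom (ZMod (p ^ 1))).comp w'.1 =
      pushA M' q hq hqM (ZMod (p ^ 1)) (I.D.kap 1 z) := by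
    rw [hw', hψ', coe_pushAPar, ← pushA_comp, I.D.toZModPow_comp_phi]
  have key2 : ∀ z' : ↥(torsionNat (JZero (M' * q)) (p ^ 1)),
      pushA M' q hq hqM (ZMod (p ^ 1)) (I.D.kap 1 z') =
      I'.D.kap 1 (torsionNatMap₂ (p ^ 1) (degPushAlpha M' q) z') := by
    intro z'
    have h1 := (kapTransferAlpha M' q (bez_eq hq hqM) hq p).kap 1 z'
    rw [kapTransferAlpha_Xk, xferAlpha_transferGrp_eq_pushA M' q hq hqM] at h1
    exact h1.symm
  refine ⟨w', ?_, ?_⟩
  · intro y hy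
    have h1 : (Int.castAddHom (ZMod (p ^ 1))).comp w'.1 = 0 := by
      rw [hy, Submodule.coe_smul]
      exact red_smul_eq_zero (Gamma0 M') y.1
    rw [key1, key2] at h1
    have h2 := I'.D.inj 1 (h1.trans (map_zero (I'.D.kap 1)).symm)
    have h3 := congrArg (fun u : ↥(torsionNat (JZero M') (p ^ 1)) => (u : JZero M')) h2
    exact hα h3
  · intro ℓ hℓS
    have hℓN : ¬ (ℓ : ℕ) ∣ M' * q := fun h => hℓS (hS ℓ ℓ.2 h)
    have hTz : torsionNat.map (p ^ 1) (I.T' ℓ) z = a ℓ • z := by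
      apply Subtype.ext
      have h1 := I.hT' ℓ hℓN (X.1 1)
      have h2 := hT ℓ ℓ.2 hℓS
      exact h1.trans h2
    have hred : (Int.castAddHom (ZMod (p ^ 1))).comp
        (heckeZ M' ℓ w' - a ℓ • w' : LPar M').1 = 0 := by
      rw [Submodule.coe_sub, Submodule.coe_smul, AddMonoidHom.comp_sub, coe_heckeParP,
        ← heckeGrpP_comp]
      have e1 : (Int.castAddHom (ZMod (p ^ 1))).comp (a ℓ • w'.1) =
          a ℓ • (Int.castAddHom (ZMod (p ^ 1))).comp w'.1 := by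
        refine AddMonoidHom.ext fun γ => ?_
        show (((a ℓ • w'.1) γ : ℤ) : ZMod (p ^ 1)) =
          (a ℓ • (Int.castAddHom (ZMod (p ^ 1))).comp w'.1) γ
        rw [AddMonoidHom.smul_apply, AddMonoidHom.smul_apply, smul_eq_mul, Int.cast_mul,
          zsmul_eq_mul]
        rfl
      rw [e1, key1, ← pushA_heckeGrpP M' q hq hqM ℓ hℓN, ← I.hecke ℓ 1 z, hTz, map_zsmul,
        map_zsmul, sub_self]
    obtain ⟨y, hy⟩ := lpar_eq_smul_of_red_eq_zero (Gamma0 M') _ hred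
    exact ⟨y, by rw [← hy]; abel⟩

/-- **an element of `eigenTors (M' q) p` not killed by `β_*` gives an eigenvector modulo `p` in
`H¹_par(Γ₀(M'), ℤ)`.** -/
theorem exists_lpar_of_degPushBeta_ne_zero_q (hq : q.Prime) (hqM : ¬ q ∣ M')
    (hS : ∀ ℓ : ℕ, ℓ.Prime → ℓ ∣ M' * q → ℓ ∈ S)
    {x : JZero (M' * q)} (hx : x ∈ eigenTors (M' * q) p S a) (hα : degPushBeta M' q x ≠ 0) :
    ∃ w' : LPar M', (∀ y : LPar M', w' ≠ (p : ℤ) • y) ∧
      ∀ ℓ : Nat.Primes, (ℓ : ℕ) ∉ S →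
        ∃ y : LPar M', heckeZ M' ℓ w' = a ℓ • w' + (p : ℤ) • y := by
  obtain ⟨⟨X, rfl⟩, hT⟩ := hx
  set I := stageIData (M' * q) p with hI
  set I' := stageIData M' p with hI'
  set z : ↥(torsionNat (JZero (M' * q)) (p ^ 1)) := TateSeq.comp 1 X with hz
  set ψ' : ↥(parabolicHoms ℤ_[p] (Gamma0 M') ℤ_[p]) :=
    pushBPar M' q hq hqM ℤ_[p] ℤ_[p] (I.D.phi X) with hψ'
  obtain ⟨w', hw'⟩ := exists_lpar_lift (Gamma0 M') 1 ψ'
  have key1 : (Int.castAddHom (ZMod (p ^ 1))).comp w'.1 =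
      pushB M' q hq hqM (ZMod (p ^ 1)) (I.D.kap 1 z) := by
    rw [hw', hψ', coe_pushBPar, ← pushB_comp, I.D.toZModPow_comp_phi]
  have key2 : ∀ z' : ↥(torsionNat (JZero (M' * q)) (p ^ 1)),
      pushB M' q hq hqM (ZMod (p ^ 1)) (I.D.kap 1 z') =
      I'.D.kap 1 (torsionNatMap₂ (p ^ 1) (degPushBeta M' q) z') := by
    intro z'
    have h1 := (kapTransferBeta M' q (bez_eq hq hqM) hq p).kap 1 z'
    rw [kapTransferBeta_Xk, xferBeta_transferGrp_eq_pushB M' q hq hqM] at h1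
    exact h1.symm
  refine ⟨w', ?_, ?_⟩
  · intro y hy
    have h1 : (Int.castAddHom (ZMod (p ^ 1))).comp w'.1 = 0 := by
      rw [hy, Submodule.coe_smul]
      exact red_smul_eq_zero (Gamma0 M') y.1
    rw [key1, key2] at h1
    have h2 := I'.D.inj 1 (h1.trans (map_zero (I'.D.kap 1)).symm)
    have h3 := congrArg (fun u : ↥(torsionNat (JZero M') (p ^ 1)) => (u : JZero M')) h2
    exact hα h3
  · intro ℓ hℓS
    have hℓN : ¬ (ℓ : ℕ) ∣ M' * q := fun h => hℓS (hS ℓ ℓ.2 h)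
    have hTz : torsionNat.map (p ^ 1) (I.T' ℓ) z = a ℓ • z := by
      apply Subtype.ext
      have h1 := I.hT' ℓ hℓN (X.1 1)
      have h2 := hT ℓ ℓ.2 hℓS
      exact h1.trans h2
    have hred : (Int.castAddHom (ZMod (p ^ 1))).comp
        (heckeZ M' ℓ w' - a ℓ • w' : LPar M').1 = 0 := by
      rw [Submodule.coe_sub, Submodule.coe_smul, AddMonoidHom.comp_sub, coe_heckeParP,
        ← heckeGrpP_comp]
      have e1 : (Int.castAddHom (ZMod (p ^ 1))).comp (a ℓ • w'.1) =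
          a ℓ • (Int.castAddHom (ZMod (p ^ 1))).comp w'.1 := by
        refine AddMonoidHom.ext fun γ => ?_
        show (((a ℓ • w'.1) γ : ℤ) : ZMod (p ^ 1)) =
          (a ℓ • (Int.castAddHom (ZMod (p ^ 1))).comp w'.1) γ
        rw [AddMonoidHom.smul_apply, AddMonoidHom.smul_apply, smul_eq_mul, Int.cast_mul,
          zsmul_eq_mul]
        rfl
      rw [e1, key1, ← pushB_heckeGrpP M' q hq hqM ℓ hℓN, ← I.hecke ℓ 1 z, hTz, map_zsmul,
        map_zsmul, sub_self]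
    obtain ⟨y, hy⟩ := lpar_eq_smul_of_red_eq_zero (Gamma0 M') _ hred
    exact ⟨y, by rw [← hy]; abel⟩

end Push

/-- **[TOP-G(q)]**: the `q`-old branch or a `q`-new Galois-equivariant copy of `E[p]` in
`J₀(M' q)`. -/
theorem topGQStatement : TopGQStatement := by
  intro E _ W hW M' q p _ _ _ hp hp2 hq hqM hirr hmod
  classical
  haveI : Fact p.Prime := ⟨hp⟩
  set S : Set ℕ := badSet W p (M' * q) with hSdef
  set a : ℕ → ℤ := fun ℓ => W.apOfModel ℓ with ha
  have hS : ∀ ℓ : ℕ, ℓ.Prime → ℓ ∣ M' * q → ℓ ∈ S := fun ℓ _ hℓ => Or.inr (Or.inl hℓ)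
  have hres : ResOccurs (M' * q) p S a := (isResiduallyModularOfLevel_iff W p (M' * q)).mp hmod
  obtain ⟨w, hw, hE⟩ := latOccStatement hp a hres
  obtain ⟨x0, hx0, hx0ne⟩ := exists_mem_eigenTors_ne_zero hS w hw hE
  by_cases hcase : ∃ x ∈ eigenTors (M' * q) p S a,
      degPushAlpha M' q x ≠ 0 ∨ degPushBeta M' q x ≠ 0
  · left
    obtain ⟨x, hx, h | h⟩ := hcase
    · obtain ⟨w', hw', hE'⟩ := exists_lpar_of_degPushAlpha_ne_zero_q hq hqM hS hx h
      exact latLiftStatement hp a w' hw' hE'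
    · obtain ⟨w', hw', hE'⟩ := exists_lpar_of_degPushBeta_ne_zero_q hq hqM hS hx h
      exact latLiftStatement hp a w' hw' hE'
  · right
    simp only [not_exists, not_and, not_or, not_not] at hcase
    obtain ⟨f, hf, hfg, hfV⟩ := exists_copy_of_eigen_model E hW hp hp2 hirr
      (eigenTors (M' * q) p S a) (fun v hv => nsmul_eq_zero_of_mem_eigenTors hv)
      (fun σ v hv => smul_mem_eigenTors hS σ hv) ⟨x0, hx0, hx0ne⟩
      (fun ℓ hℓ hℓS v hv => hv.2 ℓ hℓ hℓS)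
    obtain ⟨e, he⟩ := exists_equivariant_addEquiv_model E hW
    refine ⟨{
      φ := f.comp (torsionNatMapEquiv p e)
      inj := hf.comp (torsionNatMapEquiv_injective p e)
      gal := ?_
      alpha := fun Q => (hcase _ (hfV _)).1
      beta := fun Q => (hcase _ (hfV _)).2
      hecke := fun ℓ hℓ hℓS Q => (hfV _).2 ℓ hℓ hℓS }⟩
    intro σ Q
    have h1 : torsionNatMapEquiv p e ⟨σ • Q.1, smul_mem_torsionNat_point E p σ Q.2⟩ =
        ⟨σ • (torsionNatMapEquiv p e Q).1,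
          nsmul_smul_eq_zero σ (torsionNatMapEquiv p e Q).2⟩ := Subtype.ext (he σ Q.1)
    show f (torsionNatMapEquiv p e ⟨σ • Q.1, _⟩) = σ • f (torsionNatMapEquiv p e Q)
    rw [h1]
    exact hfg σ _

end Fermat.Agent.RB
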