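/-
RB — helper6 — [MAZ]: **Mazur's principle at `q ≠ p` from (KEY-MAZ)**, and (KEY-I3) from [NODE-I].

* `mazurPrinciple_of_keyMaz : KeyMazStatement → MazurPrincipleStatement`
  (P1 `topGQStatement` + P7/P3 `keyToricStatement` + P8 `mazurPrinciple_of_key`);
* `keyI3Statement_of_newToric : NewToricStatement → ∀ …, q ≠ 2 → 5 ≤ p → S35.KeyI3 M q p`.

Open inputs of [MAZ]: `KeyMazStatement` (packages P2 [BASE-q], P4 [DELTA-q], P5 [RES-q], P6 [ROLD-q]) and
`NewToricStatement` ([NODE-I], for (LGC-St)).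
-/
import Mathlib
import Fermat.Agent.RB.MAZ_helper6_Top
import Fermat.Agent.RB.MAZ_helper6_TopG

set_option autoImplicit false

namespace Fermat.Agent.RB

/-- **Mazur's principle at `q ≠ p` from (KEY-MAZ).** -/
theorem mazurPrinciple_of_keyMaz (hK : KeyMazStatement) : MazurPrincipleStatement :=
  mazurPrinciple_of_key topGQStatement hK

end Fermat.Agent.RB
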