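/-
PROJECT RB — [MAZ] (helper6) — **the adapter to the architect's literal**: helper9's
`MazurPrinciple` (IFACE_helper9_Top, Frey-package form, hypothesis `P.IsConductorLevel (M' * q)`)
from `MazurPrincipleStatement` (general-curve form, MAZ_helper6_Iface).

* `frey_not_isGoodPrimeFor_of_dvd` : an odd prime dividing `a b c` is bad for every integral model
  of the Frey curve (`c₄ = a^{2p} + a^p b^p + b^{2p}` is prime to `a b c`; `j`-invariant);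
  `frey_not_isGoodPrimeFor_two` : so is `2` (`b` is even, `2p ≥ 10 > 8`).
* `mazurPrinciple_of_statement : MazurPrincipleStatement → MazurPrinciple`.
* `mazurPrinciple_of_keyMaz' : KeyMazStatement → MazurPrinciple`.
-/
import Mathlib
import Fermat.Agent.RB.MAZ_helper6_Main
import Fermat.Agent.RB.IFACE_helper9_Top
import Fermat.Agent.MP.TOPL3_helper4_Frey2

set_option autoImplicit false
set_option linter.unusedSectionVars false
set_option linter.unusedVariables false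
set_option linter.style.haveILetI false

open WeierstrassCurve WeierstrassCurve.Affine WeierstrassCurve.Affine.Point

namespace Fermat.Agent.RB

open Fermat.Agent.MP

/-- `Ω = AlgebraicClosure ℚ`. -/
local notation "Ω" => AlgebraicClosure ℚ

/-- the absolute Galois group. -/
local notation "GQ" => (AlgebraicClosure ℚ ≃ₐ[ℚ] AlgebraicClosure ℚ)

section Frey

variable (P : FreyPackage)

/-- a prime dividing `a b c` does not divide `a^{2p} + a^p b^p + b^{2p}`. -/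
theorem frey_c₄_not_dvd_of_dvd_abc {q : ℕ} (hq : q.Prime) (hqabc : (q : ℤ) ∣ P.a * P.b * P.c) :
    ¬ (q : ℤ) ∣ P.a ^ (2 * P.p) + P.a ^ P.p * P.b ^ P.p + P.b ^ (2 * P.p) := by
  have hqZ : Prime (q : ℤ) := Nat.prime_iff_prime_int.mp hq
  have hp0 : P.p ≠ 0 := P.hp0
  have h2p0 : 2 * P.p ≠ 0 := by omega
  -- `q` divides at most one of `a`, `b`, `c`
  have hab : ¬ ((q : ℤ) ∣ P.a ∧ (q : ℤ) ∣ P.b) := by
    rintro ⟨h1, h2⟩
    have h3 : (q : ℤ) ∣ gcd P.a P.b := dvd_gcd h1 h2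
    rw [P.hgcdab] at h3
    exact hqZ.not_dvd_one h3
  have hac : ¬ ((q : ℤ) ∣ P.a ∧ (q : ℤ) ∣ P.c) := by
    rintro ⟨h1, h2⟩
    have h3 : (q : ℤ) ∣ gcd P.a P.c := dvd_gcd h1 h2
    rw [P.hgcdac] at h3
    exact hqZ.not_dvd_one h3
  have hbc : ¬ ((q : ℤ) ∣ P.b ∧ (q : ℤ) ∣ P.c) := by
    rintro ⟨h1, h2⟩
    have h3 : (q : ℤ) ∣ gcd P.b P.c := dvd_gcd h1 h2
    rw [P.hgcdbc] at h3
    exact hqZ.not_dvd_one h3
  intro hdvd
  rcases hqZ.dvd_or_dvd hqabc with h | hc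
  · rcases hqZ.dvd_or_dvd h with ha | hb
    · -- `q ∣ a`: then `q ∣ b^{2p}`
      have h1 : (q : ℤ) ∣ P.a ^ (2 * P.p) + P.a ^ P.p * P.b ^ P.p :=
        dvd_add (dvd_pow ha h2p0) (Dvd.dvd.mul_right (dvd_pow ha hp0) _)
      have h2 : (q : ℤ) ∣ P.b ^ (2 * P.p) := (Int.dvd_add_right h1).mp hdvd
      exact hab ⟨ha, hqZ.dvd_of_dvd_pow h2⟩
    · -- `q ∣ b`: then `q ∣ a^{2p}`
      have h1 : (q : ℤ) ∣ P.a ^ P.p * P.b ^ P.p + P.b ^ (2 * P.p) :=
        dvd_add (Dvd.dvd.mul_left (dvd_pow hb hp0) _) (dvd_pow hb h2p0)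
      have h3 : (q : ℤ) ∣ P.a ^ (2 * P.p) + (P.a ^ P.p * P.b ^ P.p + P.b ^ (2 * P.p)) := by
        rw [← add_assoc]; exact hdvd
      have h2 : (q : ℤ) ∣ P.a ^ (2 * P.p) := (Int.dvd_add_left h1).mp h3
      exact hab ⟨hqZ.dvd_of_dvd_pow h2, hb⟩
  · -- `q ∣ c`: `a^p ≡ -b^p`, so the sum is `≡ b^{2p}`
    have hcp : (q : ℤ) ∣ P.a ^ P.p + P.b ^ P.p := by
      rw [P.hFLT]; exact dvd_pow hc hp0
    have hid : P.a ^ (2 * P.p) + P.a ^ P.p * P.b ^ P.p + P.b ^ (2 * P.p) =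
        (P.a ^ P.p + P.b ^ P.p) * P.a ^ P.p + P.b ^ (2 * P.p) := by
      rw [pow_mul', pow_mul']; ring
    rw [hid] at hdvd
    have h2 : (q : ℤ) ∣ P.b ^ (2 * P.p) :=
      (Int.dvd_add_right (Dvd.dvd.mul_right hcp _)).mp hdvd
    exact hbc ⟨hqZ.dvd_of_dvd_pow h2, hc⟩

/-- the discriminant/`c₄` identity of an integral model of the Frey curve. -/
theorem frey_model_identity {W : WeierstrassCurve ℤ} (hW : W.IsIntegralModelOf P.freyCurve) :
    W.c₄ ^ 3 * (P.a * P.b * P.c) ^ (2 * P.p) =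
      2 ^ 8 * (P.a ^ (2 * P.p) + P.a ^ P.p * P.b ^ P.p + P.b ^ (2 * P.p)) ^ 3 * W.Δ := by
  obtain ⟨C, hC⟩ := hW
  set c4E : ℤ := P.a ^ (2 * P.p) + P.a ^ P.p * P.b ^ P.p + P.b ^ (2 * P.p) with hc4E
  have hΔ : ((W.Δ : ℤ) : ℚ) = C.u⁻¹ ^ 12 * P.freyCurve.Δ := by
    rw [← WeierstrassCurve.variableChange_Δ, hC, WeierstrassCurve.map_Δ]
    simp
  have hc : ((W.c₄ : ℤ) : ℚ) = C.u⁻¹ ^ 4 * P.freyCurve.c₄ := by
    rw [← WeierstrassCurve.variableChange_c₄, hC, WeierstrassCurve.map_c₄]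
    simp
  have hid : ((W.c₄ : ℤ) : ℚ) ^ 3 * P.freyCurve.Δ = P.freyCurve.c₄ ^ 3 * ((W.Δ : ℤ) : ℚ) := by
    rw [hΔ, hc]
    ring
  rw [Fermat.Agent.Tate.freyCurve_Δ, freyCurve_c₄] at hid
  have h1 : ((W.c₄ ^ 3 * (P.a * P.b * P.c) ^ (2 * P.p) : ℤ) : ℚ) =
      ((2 ^ 8 * c4E ^ 3 * W.Δ : ℤ) : ℚ) := by
    have h2 : (2 : ℚ) ^ 8 ≠ 0 := by norm_num
    field_simp at hid
    push_cast at hid
    rw [hc4E]
    push_cast
    linear_combination hid
  exact_mod_cast h1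

/-- **every integral model of the Frey curve has bad reduction at the odd primes dividing
`a b c`.** -/
theorem frey_not_isGoodPrimeFor_of_dvd {W : WeierstrassCurve ℤ}
    (hW : W.IsIntegralModelOf P.freyCurve) {q : ℕ} (hq : q.Prime) (hq2 : q ≠ 2)
    (hqabc : (q : ℤ) ∣ P.a * P.b * P.c) : ¬ W.IsGoodPrimeFor q := by
  have hqZ : Prime (q : ℤ) := Nat.prime_iff_prime_int.mp hq
  have hint := frey_model_identity P hW
  intro hgood
  have hgood' : ¬ (q : ℤ) ∣ W.Δ := hgood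
  have h2p0 : 2 * P.p ≠ 0 := by have := P.hp0; omega
  have h1 : (q : ℤ) ∣ 2 ^ 8 * (P.a ^ (2 * P.p) + P.a ^ P.p * P.b ^ P.p + P.b ^ (2 * P.p)) ^ 3 *
      W.Δ := by
    rw [← hint]
    exact Dvd.dvd.mul_left (dvd_pow hqabc h2p0) _
  rcases hqZ.dvd_or_dvd h1 with h2 | h2
  · rcases hqZ.dvd_or_dvd h2 with h3 | h3
    · have h4 : (q : ℤ) ∣ 2 := hqZ.dvd_of_dvd_pow h3
      have h5 : q ∣ 2 := by exact_mod_cast h4
      exact hq2 ((Nat.prime_dvd_prime_iff_eq hq Nat.prime_two).1 h5)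
    · exact frey_c₄_not_dvd_of_dvd_abc P hq hqabc (hqZ.dvd_of_dvd_pow h3)
  · exact hgood' h2

/-- `2 ∣ a b c` (`b` is even). -/
theorem frey_two_dvd_abc : ((2 : ℕ) : ℤ) ∣ P.a * P.b * P.c := by
  have hb : (2 : ℤ) ∣ P.b := by
    have := P.hb2
    exact (ZMod.intCast_zmod_eq_zero_iff_dvd P.b 2).mp this
  exact Dvd.dvd.mul_right (Dvd.dvd.mul_left hb _) _

/-- **every integral model of the Frey curve has bad reduction at `2`.** -/
theorem frey_not_isGoodPrimeFor_two {W : WeierstrassCurve ℤ}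
    (hW : W.IsIntegralModelOf P.freyCurve) : ¬ W.IsGoodPrimeFor 2 := by
  have h2Z : Prime ((2 : ℕ) : ℤ) := Nat.prime_iff_prime_int.mp Nat.prime_two
  have hint := frey_model_identity P hW
  have h2abc := frey_two_dvd_abc P
  intro hgood
  have hgood' : ¬ ((2 : ℕ) : ℤ) ∣ W.Δ := hgood
  have hp5 := P.hp5
  -- `2 ^ 10` divides the left hand side
  have h10 : (2 : ℤ) ^ 10 ∣ (P.a * P.b * P.c) ^ (2 * P.p) := by
    have h1 : ((2 : ℤ)) ^ (2 * P.p) ∣ (P.a * P.b * P.c) ^ (2 * P.p) :=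
      pow_dvd_pow_of_dvd (by exact_mod_cast h2abc) _
    exact (pow_dvd_pow 2 (by omega)).trans h1
  have h1 : (2 : ℤ) ^ 10 ∣ 2 ^ 8 * (P.a ^ (2 * P.p) + P.a ^ P.p * P.b ^ P.p + P.b ^ (2 * P.p)) ^ 3 *
      W.Δ := by
    rw [← hint]
    exact Dvd.dvd.mul_left h10 _
  have h2 : (2 : ℤ) ^ 2 ∣ (P.a ^ (2 * P.p) + P.a ^ P.p * P.b ^ P.p + P.b ^ (2 * P.p)) ^ 3 * W.Δ := by
    have e : (2 : ℤ) ^ 10 = 2 ^ 8 * 2 ^ 2 := by norm_num
    rw [e, mul_assoc] at h1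
    exact (mul_dvd_mul_iff_left (by norm_num : (2 : ℤ) ^ 8 ≠ 0)).mp h1
  have h3 : ((2 : ℕ) : ℤ) ∣ (P.a ^ (2 * P.p) + P.a ^ P.p * P.b ^ P.p + P.b ^ (2 * P.p)) ^ 3 * W.Δ := by
    refine Dvd.dvd.trans ?_ h2
    exact ⟨2, by norm_num⟩
  rcases h2Z.dvd_or_dvd h3 with h4 | h4
  · exact frey_c₄_not_dvd_of_dvd_abc P Nat.prime_two h2abc (h2Z.dvd_of_dvd_pow h4)
  · exact hgood' h4

end Frey

/-- **the adapter**: the architect's `MazurPrinciple` from the general-curve statement. -/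
theorem mazurPrinciple_of_statement (h : MazurPrincipleStatement) : MazurPrinciple := by
  intro P M' q hcond hq hq2 hqp hqM' hirr hunr hmod
  have hpos : 0 < M' * q := hcond.pos
  have hM'0 : M' ≠ 0 := fun h0 => by rw [h0, zero_mul] at hpos; exact lt_irrefl _ hpos
  haveI : NeZero M' := ⟨hM'0⟩
  haveI : NeZero q := ⟨hq.ne_zero⟩
  haveI : NeZero (M' * q) := ⟨hpos.ne'⟩
  haveI : P.freyCurve.IsElliptic := by
    refine ⟨isUnit_iff_ne_zero.mpr ?_⟩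
    rw [Fermat.Agent.Tate.freyCurve_Δ]
    have habc : ((P.a * P.b * P.c : ℤ) : ℚ) ≠ 0 := by exact_mod_cast P.habc0
    exact div_ne_zero (pow_ne_zero _ habc) (by norm_num)
  obtain ⟨f, W, 𝔪, hf, hW, hmax, hp𝔪, hcong⟩ := hmod
  have hres : W.IsResiduallyModularOfLevel P.p (M' * q) := ⟨f, 𝔪, hf, hmax, hp𝔪, hcong⟩
  have hbad : ¬ W.IsGoodPrimeFor q :=
    frey_not_isGoodPrimeFor_of_dvd P hW hq hq2 (hcond.support q hq (Dvd.intro_left M' rfl))
  have h2S : 2 ∈ badSet W P.p (M' * q) := Or.inl (frey_not_isGoodPrimeFor_two P hW)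
  rcases h P.freyCurve hW P.pp P.hp5 hq hq2 hqp hqM' hbad h2S hirr hunr hres with h1 | h1
  · left
    obtain ⟨g, 𝔪', hg, hmax', hp', hc'⟩ := h1
    exact ⟨g, W, 𝔪', hg, hW, hmax', hp', hc'⟩
  · right
    refine ⟨h1.1, fun A hA φ hφ => ?_⟩
    obtain ⟨c, hc⟩ := h1.2 A hA φ hφ
    refine ⟨c, fun x => ?_⟩
    apply Subtype.ext
    have hx : P.p • x.1 = 0 := by
      have := x.2
      rw [Submodule.mem_torsionBy_iff, natCast_zsmul] at this
      exact this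
    exact hc x.1 hx

/-- **[MAZ] in the architect's literal, modulo `KeyMazStatement`.** -/
theorem mazurPrinciple_of_keyMaz' (hK : KeyMazStatement) : MazurPrinciple :=
  mazurPrinciple_of_statement (mazurPrinciple_of_keyMaz hK)

end Fermat.Agent.RB
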