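/-
RB — helper3 — [MAZ] leaf **[AL-HECKE]** (`KeyFqALHecke` of helper6's `RB/MAZ_helper6_Parts.lean`):
on the function field `F_{Mq}(K)` of `X₀(M q)` the Atkin–Lehner involution `W_q` commutes with the
Hecke operators `T_ℓ`, `ℓ ∤ M q`.

`heckeFunK K (M q) ℓ f = Norm_{A_ℓ}(B_ℓ f)` (`NP.heckeFunK_eq_norm`); by helper6's
`S36.atkinLehnerN_keyFqDil` the involution `W_q` of level `(M ℓ) q` restricts to `W_q` of level
`M q` along both `A_ℓ` (`w = 1`) and `B_ℓ` (`w = ℓ`), up to the level cast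
`(M q) ℓ = (M ℓ) q`; the norm is equivariant under compatible automorphisms
(`S35.normred_norm_equivariant`).
-/
import Mathlib
import Fermat.Agent.S36.HOST4_helper6_AL
import Fermat.Agent.NP.BASEP_helper2_Deg
import Fermat.Agent.S35.NORMRED_helper9_Host

set_option autoImplicit false
set_option linter.unusedSectionVars false
set_option linter.unusedVariables false
set_option linter.style.haveILetI false
set_option synthInstance.maxHeartbeats 400000

open HahnSeries IntermediateField AlgebraicCurve ModularCurve IsLocalRing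

namespace Fermat.Agent.RB.ALH

open Fermat.Agent.JA Fermat.Agent.FF Fermat.Agent.SS Fermat.Agent.S35 Fermat.Agent.S36
  Fermat.Agent.NP Fermat.Agent.Igusa Fermat.Agent.X0N Fermat.Agent.RatStr

section Main

variable (K : Type) [Field K] [Algebra ℚ K] [Algebra K ℂ] (M q : ℕ) [NeZero M] [NeZero q]
  [NeZero (M * q)] (hq : q.Prime) (hqM : ¬ q ∣ M) {x y : ℤ} (hbez : (q : ℤ) * x + M * y = 1)
  (ℓ : ℕ) [NeZero ℓ] [NeZero (M * q * ℓ)] (hℓ : ℓ.Prime) (hℓMq : ¬ ℓ ∣ M * q)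

/-- an involutive ring endomorphism as a ring automorphism. -/
def ringEquivOfInvolutive {R : Type*} [Semiring R] (W : R →+* R) (hW : ∀ z, W (W z) = z) :
    R ≃+* R where
  toFun := W
  invFun := W
  left_inv := hW
  right_inv := hW
  map_mul' := map_mul W
  map_add' := map_add W

@[simp] theorem ringEquivOfInvolutive_apply {R : Type*} [Semiring R] (W : R →+* R)
    (hW : ∀ z, W (W z) = z) (z : R) : ringEquivOfInvolutive W hW z = W z := rfl

theorem coe_equivOfEq_gen {F E : Type*} [Field F] [Field E] [Algebra F E]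
    {S T : IntermediateField F E} (h : S = T) (z : ↥S) :
    ((IntermediateField.equivOfEq h z : ↥T) : E) = z := by
  subst h
  rfl

/-- the level cast `F_{(M q) ℓ} = F_{(M ℓ) q}`. -/
noncomputable def levelCast [NeZero (M * ℓ * q)] :
    ↥(keyFq K (M * q * ℓ)) ≃ₐ[K] ↥(keyFq K (M * ℓ * q)) :=
  IntermediateField.equivOfEq (by rw [Nat.mul_right_comm M q ℓ])

theorem coe_levelCast [NeZero (M * ℓ * q)] (z : ↥(keyFq K (M * q * ℓ))) :
    ((levelCast K M q ℓ z : ↥(keyFq K (M * ℓ * q))) : LaurentSeries K) = z :=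
  coe_equivOfEq_gen _ z

theorem levelCast_keyFqA [NeZero (M * ℓ)] [NeZero (M * ℓ * q)] (h1M : 1 * M ∣ M * ℓ)
    (b : ↥(keyFq K (M * q))) :
    levelCast K M q ℓ (keyFqA K (M * q) ℓ b) =
      keyFqDil K (M * q) (M * ℓ * q) 1 (dil_dvd_mul 1 (M * ℓ) h1M) b := by
  apply Subtype.ext
  rw [coe_levelCast, coe_keyFqA, coe_keyFqDil, qExpand_one_apply]

theorem levelCast_keyFqB [NeZero (M * ℓ)] [NeZero (M * ℓ * q)] (hℓM : ℓ * M ∣ M * ℓ)
    (b : ↥(keyFq K (M * q))) :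
    levelCast K M q ℓ (keyFqB K (M * q) ℓ b) =
      keyFqDil K (M * q) (M * ℓ * q) ℓ (dil_dvd_mul ℓ (M * ℓ) hℓM) b := by
  apply Subtype.ext
  rw [coe_levelCast, coe_keyFqB, coe_keyFqDil]

include hqM hℓ hℓMq in
/-- the involution `W_q` of level `(M ℓ) q`, transported to `F_{(M q) ℓ}`, restricts to `W_q` of
level `M q` along `A_ℓ` and `B_ℓ`. -/
theorem exists_ringEquiv_compat :
    ∃ τL : ↥(keyFq K (M * q * ℓ)) ≃+* ↥(keyFq K (M * q * ℓ)),
      (∀ a : ↥(keyFq K (M * q)), τL (keyFqA K (M * q) ℓ a) =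
        keyFqA K (M * q) ℓ (atkinLehnerN (algebraMap K ℂ) hbez hq a)) ∧
      (∀ a : ↥(keyFq K (M * q)), τL (keyFqB K (M * q) ℓ a) =
        keyFqB K (M * q) ℓ (atkinLehnerN (algebraMap K ℂ) hbez hq a)) := by
  classical
  have hℓq : ℓ ≠ q := fun h => hℓMq (h ▸ dvd_mul_left ℓ M)
  have hqMℓ : ¬ q ∣ M * ℓ := by
    intro h
    rcases (Nat.Prime.dvd_mul hq).mp h with h | h
    · exact hqM h
    · exact hℓq ((Nat.prime_dvd_prime_iff_eq hq hℓ).mp h).symm
  haveI : NeZero (M * ℓ) := ⟨Nat.mul_ne_zero (NeZero.ne M) (NeZero.ne ℓ)⟩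
  haveI : NeZero (M * ℓ * q) := ⟨Nat.mul_ne_zero (NeZero.ne (M * ℓ)) (NeZero.ne q)⟩
  obtain ⟨x', y', hbez'⟩ := exists_bezout_of_prime_of_not_dvd hq hqMℓ
  have hbez'' : (q : ℤ) * x' + ((M * ℓ : ℕ) : ℤ) * y' = 1 := by
    rw [← hbez']
  have hWL'inv : ∀ z, atkinLehnerN (algebraMap K ℂ) hbez'' hq
      (atkinLehnerN (algebraMap K ℂ) hbez'' hq z) = z :=
    atkinLehnerN_atkinLehnerN (algebraMap K ℂ) hbez'' hq
  have h1M : 1 * M ∣ M * ℓ := by rw [one_mul]; exact dvd_mul_right M ℓ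
  have hℓM : ℓ * M ∣ M * ℓ := by rw [mul_comm]
  refine ⟨((levelCast K M q ℓ).toRingEquiv.trans
    (ringEquivOfInvolutive (atkinLehnerN (algebraMap K ℂ) hbez'' hq) hWL'inv)).trans
      (levelCast K M q ℓ).symm.toRingEquiv, ?_, ?_⟩
  · intro a
    show (levelCast K M q ℓ).symm (atkinLehnerN (algebraMap K ℂ) hbez'' hq
      (levelCast K M q ℓ (keyFqA K (M * q) ℓ a))) = _
    rw [levelCast_keyFqA K M q ℓ h1M,
      atkinLehnerN_keyFqDil K 1 (M * ℓ) hbez hbez'' hq h1M a, ← levelCast_keyFqA K M q ℓ h1M,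
      AlgEquiv.symm_apply_apply]
  · intro a
    show (levelCast K M q ℓ).symm (atkinLehnerN (algebraMap K ℂ) hbez'' hq
      (levelCast K M q ℓ (keyFqB K (M * q) ℓ a))) = _
    rw [levelCast_keyFqB K M q ℓ hℓM,
      atkinLehnerN_keyFqDil K ℓ (M * ℓ) hbez hbez'' hq hℓM a, ← levelCast_keyFqB K M q ℓ hℓM,
      AlgEquiv.symm_apply_apply]

include hqM hℓ hℓMq in
/-- **[AL-HECKE]**. -/
theorem heckeFunK_atkinLehnerN (f : ↥(keyFq K (M * q))) :
    heckeFunK K (M * q) ℓ (atkinLehnerN (algebraMap K ℂ) hbez hq f) =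
      atkinLehnerN (algebraMap K ℂ) hbez hq (heckeFunK K (M * q) ℓ f) := by
  obtain ⟨τL, hA, hB⟩ := exists_ringEquiv_compat K M q hq hqM hbez ℓ hℓ hℓMq
  have hWFinv : ∀ z, atkinLehnerN (algebraMap K ℂ) hbez hq
      (atkinLehnerN (algebraMap K ℂ) hbez hq z) = z :=
    atkinLehnerN_atkinLehnerN (algebraMap K ℂ) hbez hq
  rw [heckeFunK_eq_norm, heckeFunK_eq_norm]
  have hnorm := normred_norm_equivariant (keyFqA K (M * q) ℓ).toRingHom
    (ringEquivOfInvolutive (atkinLehnerN (algebraMap K ℂ) hbez hq) hWFinv) τL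
    (fun a => hA a) (keyFqB K (M * q) ℓ f)
  rw [hB] at hnorm
  exact hnorm

end Main

/-- **[AL-HECKE]** in the literal form of `Fermat.Agent.RB.KeyFqALHecke`
(`RB/MAZ_helper6_Parts.lean`). -/
theorem keyFqALHecke :
    ∀ (K : Type) [Field K] [Algebra ℚ K] [Algebra K ℂ] (M q : ℕ) [NeZero M] [NeZero q]
      [NeZero (M * q)] (hq : q.Prime), ¬ q ∣ M → ∀ {x y : ℤ} (hbez : (q : ℤ) * x + M * y = 1)
      (ℓ : ℕ) [NeZero ℓ] [NeZero (M * q * ℓ)], ℓ.Prime → ¬ ℓ ∣ M * q →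
    ∀ f : ↥(keyFq K (M * q)),
      heckeFunK K (M * q) ℓ (atkinLehnerN (algebraMap K ℂ) hbez hq f) =
        atkinLehnerN (algebraMap K ℂ) hbez hq (heckeFunK K (M * q) ℓ f) := by
  intro K _ _ _ M q _ _ _ hq hqM x y hbez ℓ _ _ hℓ hℓMq f
  exact heckeFunK_atkinLehnerN K M q hq hqM hbez ℓ hℓ hℓMq f

end Fermat.Agent.RB.ALH
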