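/-
RB — helper6 — [MAZ]: **[BASE-q]: `LegMazBaseQ ⇐ LegDeltaLitQ + LegMazInfQ`**.

Over the small base `K'` (`q` a uniformiser of `R' = A ∩ K'`): from [HALF∞] for `f₀` and for
`W_q f₀`, `f₀ q ^ (-a∞) ≡ A(b) ^ p` along `W_∞` and `f₀ q ^ (-a₀) ≡ (w_E A(b')) ^ p` along `W_0`;
[DELTA-q] gives `a₀ - a∞ = p k`; with the node unit `U_q` (`U_q` a unit along `W_∞`,
`U_q q ^ (-12)` a unit along `W_0`) and `n = 12 t = 1 + p s`:
`q ^ (-n a∞) f₀ (f₀ ^ s U_q ^ (-t k)) ^ p` is toric.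

* `toric_normalise`   : the abstract normalisation in a field with two valuation subrings;
* `atkinLehnerN_indep` : `W_q` on `F_{Mq}(K')` does not depend on the Bézout data;
* `legMazBaseQ_of`.
-/
import Mathlib
import Fermat.Agent.RB.MAZ_helper6_Parts
import Fermat.Agent.RB.MAZ_helper6_Compat
import Fermat.Agent.MP.KPBASE_lead_Norm
import Fermat.Agent.MP.PLHOST_helper6_LegUnit
import Fermat.Agent.MP.REDINF_helper8_ResIndep

set_option autoImplicit false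
set_option linter.unusedSectionVars false
set_option linter.unusedVariables false
set_option linter.style.haveILetI false
set_option synthInstance.maxHeartbeats 400000

open HahnSeries IntermediateField AlgebraicCurve ModularCurve IsLocalRing

namespace Fermat.Agent.RB

open Fermat.Agent.JA Fermat.Agent.FF Fermat.Agent.SS Fermat.Agent.S35 Fermat.Agent.S36
  Fermat.Agent.MP Fermat.Agent.NP Fermat.Agent.GR Fermat.Agent.FG Fermat.Agent.X0N

/-- `Ω = AlgebraicClosure ℚ`. -/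
local notation "Ω" => AlgebraicClosure ℚ

/-- the absolute Galois group. -/
local notation "GQ" => (AlgebraicClosure ℚ ≃ₐ[ℚ] AlgebraicClosure ℚ)

section Abstract

variable {E : Type*} [Field E]

theorem val_eq_one_of_mem_of_inv_mem (W : ValuationSubring E) {x : E} (hx : x ≠ 0) (h1 : x ∈ W)
    (h2 : x⁻¹ ∈ W) : W.valuation x = 1 := by
  have a1 : W.valuation x ≤ 1 := (ValuationSubring.valuation_le_one_iff _ _).mpr h1
  have a2 : W.valuation x⁻¹ ≤ 1 := (ValuationSubring.valuation_le_one_iff _ _).mpr h2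
  have hv : W.valuation x ≠ 0 := (Valuation.ne_zero_iff _).mpr hx
  rw [map_inv₀] at a2
  exact le_antisymm a1 ((inv_le_one₀ (zero_lt_iff.mpr hv)).mp a2)

theorem val_zpow_eq_one (W : ValuationSubring E) {x : E} (h : W.valuation x = 1) (z : ℤ) :
    W.valuation (x ^ z) = 1 := by
  rw [map_zpow₀, h, one_zpow]

theorem val_pow_eq_one (W : ValuationSubring E) {x : E} (h : W.valuation x = 1) (n : ℕ) :
    W.valuation (x ^ n) = 1 := by
  rw [map_pow, h, one_pow]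

/-- **the normalisation**: `F ϖ ^ (-a∞) ≡ Yb ^ p` along `W_∞`, `F ϖ ^ (-a₀) ≡ L ^ p` along `W_0`,
`a₀ - a∞ = p k`, `U` a unit along `W_∞` with `U ϖ ^ (-c)` a unit along `W_0`,
`n = c t = 1 + p s`: then `ϖ ^ (-n a∞) F (F ^ s U ^ (-t k)) ^ p` is a `p`-th power of a unit modulo
the maximal ideal along both sheets. -/
theorem toric_normalise (Winf W0 : ValuationSubring E) {ϖ U F Yb L : E}
    (hϖ : ϖ ≠ 0) (hU : U ≠ 0) {c p n s t : ℕ} (hn : n = 1 + p * s) (hnt : n = c * t)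
    {ainf a0 k : ℤ} (hk : a0 - ainf = p * k)
    (hUinf : U ∈ Winf) (hUinf' : U⁻¹ ∈ Winf)
    (hU0 : U * (ϖ ^ c)⁻¹ ∈ W0) (hU0' : (U * (ϖ ^ c)⁻¹)⁻¹ ∈ W0)
    (hYb : Winf.valuation Yb = 1) (hinf : Winf.valuation (F * (ϖ ^ ainf)⁻¹ - Yb ^ p) < 1)
    (hL : W0.valuation L = 1) (h0 : W0.valuation (F * (ϖ ^ a0)⁻¹ - L ^ p) < 1) :
    ∃ linf l0 : E, Winf.valuation linf = 1 ∧ W0.valuation l0 = 1 ∧
      Winf.valuation
        ((ϖ ^ ((n : ℤ) * ainf))⁻¹ * F * (F ^ s * U ^ (-((t : ℤ) * k))) ^ p - linf ^ p) < 1 ∧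
      W0.valuation
        ((ϖ ^ ((n : ℤ) * ainf))⁻¹ * F * (F ^ s * U ^ (-((t : ℤ) * k))) ^ p - l0 ^ p) < 1 := by
  set u : E := U ^ (-((t : ℤ) * k)) with hu
  set A : E := ϖ ^ ainf with hA
  set B : E := ϖ ^ k with hB
  have hA0 : A ≠ 0 := zpow_ne_zero _ hϖ
  have hB0 : B ≠ 0 := zpow_ne_zero _ hϖ
  have hu0 : u ≠ 0 := zpow_ne_zero _ hU
  have e1 : ϖ ^ ((n : ℤ) * ainf) = A ^ n := by
    rw [zpow_mul', zpow_natCast]
  have e2 : ϖ ^ a0 = A * B ^ p := by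
    have : a0 = ainf + (p : ℤ) * k := by linarith
    rw [this, zpow_add₀ hϖ, zpow_mul', zpow_natCast]
  have e3 : (U * (ϖ ^ c)⁻¹) ^ (-((t : ℤ) * k)) = u * B ^ n := by
    rw [mul_zpow, inv_zpow, zpow_neg (ϖ ^ c), inv_inv, ← zpow_natCast ϖ c, ← zpow_mul,
      ← mul_assoc]
    have : ((c : ℤ) * (t : ℤ)) = (n : ℤ) := by rw [hnt]; push_cast; ring
    rw [this, zpow_mul', zpow_natCast]
  -- the function
  have eg : (ϖ ^ ((n : ℤ) * ainf))⁻¹ * F * (F ^ s * u) ^ p = (A ^ n)⁻¹ * F ^ n * u ^ p := by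
    rw [e1, hn, mul_pow, ← pow_mul, _root_.pow_add, pow_one, mul_comm s p]
    ring
  -- units
  have vU : Winf.valuation U = 1 := val_eq_one_of_mem_of_inv_mem Winf hU hUinf hUinf'
  have vu : Winf.valuation u = 1 := val_zpow_eq_one Winf vU _
  have vV : W0.valuation (U * (ϖ ^ c)⁻¹) = 1 := val_eq_one_of_mem_of_inv_mem W0
    (mul_ne_zero hU (inv_ne_zero (pow_ne_zero _ hϖ))) hU0 hU0'
  have vw : W0.valuation (u * B ^ n) = 1 := by
    rw [← e3]; exact val_zpow_eq_one W0 vV _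
  have vYp : Winf.valuation (Yb ^ p) = 1 := val_pow_eq_one Winf hYb p
  have vLp : W0.valuation (L ^ p) = 1 := val_pow_eq_one W0 hL p
  have vX : Winf.valuation (F * (ϖ ^ ainf)⁻¹) = 1 :=
    kp_val_eq_one_of_sub_lt Winf vYp (kp_val_sub_comm Winf hinf)
  have vX0 : W0.valuation (F * (ϖ ^ a0)⁻¹) = 1 :=
    kp_val_eq_one_of_sub_lt W0 vLp (kp_val_sub_comm W0 h0)
  refine ⟨Yb ^ n * u, L ^ n * (u * B ^ n), ?_, ?_, ?_, ?_⟩
  · rw [map_mul, val_pow_eq_one Winf hYb n, vu, one_mul]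
  · rw [map_mul, val_pow_eq_one W0 hL n, vw, one_mul]
  · rw [eg]
    have e : (A ^ n)⁻¹ * F ^ n * u ^ p - (Yb ^ n * u) ^ p =
        u ^ p * ((F * (ϖ ^ ainf)⁻¹) ^ n - (Yb ^ p) ^ n) := by
      rw [← hA]
      rw [mul_pow, mul_pow, inv_pow, ← pow_mul, ← pow_mul, mul_comm p n]
      ring
    rw [e]
    refine kp_val_mul_lt_of_mem Winf (kp_mem_of_val_eq_one Winf (val_pow_eq_one Winf vu p)) ?_
    exact kp_val_pow_sub_pow_lt Winf (kp_mem_of_val_eq_one Winf vX)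
      (kp_mem_of_val_eq_one Winf vYp) hinf n
  · rw [eg]
    have e : (A ^ n)⁻¹ * F ^ n * u ^ p - (L ^ n * (u * B ^ n)) ^ p =
        (u * B ^ n) ^ p * ((F * (ϖ ^ a0)⁻¹) ^ n - (L ^ p) ^ n) := by
      rw [e2]
      have hBB : (B ^ n) ^ p * ((B ^ p) ^ n)⁻¹ = 1 := by
        rw [← pow_mul, ← pow_mul, mul_comm n p]
        exact mul_inv_cancel₀ (pow_ne_zero _ hB0)
      linear_combination (-((A ^ n)⁻¹ * F ^ n * u ^ p)) * hBB
    rw [e]
    refine kp_val_mul_lt_of_mem W0 (kp_mem_of_val_eq_one W0 (val_pow_eq_one W0 vw p)) ?_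
    exact kp_val_pow_sub_pow_lt W0 (kp_mem_of_val_eq_one W0 vX0)
      (kp_mem_of_val_eq_one W0 vLp) h0 n

end Abstract

section Indep

variable {M q : ℕ} [NeZero M] [NeZero q] [NeZero (M * q)]

/-- **`W_q` on `F_{Mq}(K₁)` does not depend on the Bézout data.** -/
theorem atkinLehnerN_indep (K₁ : IntermediateField ℚ Ω) (ι : ↥K₁ →+* ℂ) {x y x' y' : ℤ}
    (hbez : (q : ℤ) * x + M * y = 1) (hbez' : (q : ℤ) * x' + M * y' = 1) (hq : q.Prime)
    (hqM : ¬ q ∣ M) (F : ↥(keyFq ↥K₁ (M * q))) :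
    atkinLehnerN ι hbez hq F = atkinLehnerN ι hbez' hq F :=
  (keyFqBC (M * q) K₁).injective (by
    rw [keyFqBC_atkinLehnerN K₁ ι hbez hq hqM, keyFqBC_atkinLehnerN K₁ ι hbez' hq hqM])

end Indep

set_option maxHeartbeats 3200000 in
/-- **[BASE-q] from [DELTA-q] and [HALF∞].** -/
theorem legMazBaseQ_of (HD : LegDeltaLitQ) (HI : LegMazInfQ) : LegMazBaseQ := by
  intro M q p _ _ _ hq hq2 hp hp5 hqp hqM A hA K₁ _ K' S a f₀ H HAL
  classical
  haveI : Fact q.Prime := ⟨hq⟩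
  haveI : IsDiscreteValuationRing ↥(baseRing A K') := H.base.isDiscreteValuationRing hA
  haveI : CharZero ↥(baseRing A K') := charZero_valuationSubring_of_algebraRat _
  have h2 : IsUnit (2 : ↥(baseRing A K')) := isUnit_ofNat_baseRing hA K' Nat.prime_two hq2
  letI := baseToComplex K'
  haveI : NeZero (4 * M) := ⟨Nat.mul_ne_zero (by norm_num) (NeZero.ne M)⟩
  haveI : NeZero (4 * M * q) := ⟨Nat.mul_ne_zero (NeZero.ne (4 * M)) (NeZero.ne q)⟩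
  obtain ⟨x₀, y₀, hbez₀⟩ := exists_bezout_of_prime_of_not_dvd hq hqM
  have hq4M : ¬ q ∣ 4 * M := by
    intro h
    rcases (Nat.Prime.dvd_mul hq).mp h with h1 | h1
    · have : q ∣ 2 ^ 2 := by norm_num; exact h1
      exact hq2 ((Nat.prime_dvd_prime_iff_eq hq Nat.prime_two).mp (hq.dvd_of_dvd_pow this))
    · exact hqM h1
  obtain ⟨x₄, y₄, h4⟩ := exists_bezout_of_prime_of_not_dvd hq hq4M
  have hϖ : Irreducible ((q : ℕ) : ↥(baseRing A K')) := H.unram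
  set ϖ : ↥(baseRing A K') := ((q : ℕ) : ↥(baseRing A K')) with hϖdef
  -- [HALF∞] for `f₀` and `W_q f₀`
  rcases HI M q hq2 hqM p hp hp5 (Ne.symm hqp) A hA K₁ K' S a f₀ H ϖ hϖ h2 with
    ⟨ainf, b, hb, hlinf⟩ | hres
  swap
  · exact Or.inr hres
  rcases HI M q hq2 hqM p hp hp5 (Ne.symm hqp) A hA K₁ K' S a _ (HAL hbez₀) ϖ hϖ h2 with
    ⟨a0, b', hb', hl0⟩ | hres
  swap
  · exact Or.inr hres
  left
  -- notation
  set F : ↥(legE ↥K' (M * q)) := fullToLegE ↥K' (M * q) f₀ with hFdef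
  have hF : F ≠ 0 := (_root_.map_ne_zero (fullToLegE ↥K' (M * q))).mpr H.ne_zero
  set ϖE : ↥(legE ↥K' (M * q)) := algebraMap ↥(baseRing A K') ↥(legE ↥K' (M * q)) ϖ with hϖEdef
  have hϖE0 : ϖE ≠ 0 := by
    rw [hϖEdef, hϖdef, map_natCast]
    exact Nat.cast_ne_zero.mpr hq.ne_zero
  have hϖEK : algebraMap ↥K' ↥(legE ↥K' (M * q)) ((q : ℕ) : ↥K') = ϖE := by
    rw [hϖEdef, hϖdef, map_natCast, map_natCast]
  set Winf : ValuationSubring ↥(legE ↥K' (M * q)) :=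
    legWinf ↥(baseRing A K') ↥K' h2 (M * q) with hWinfdef
  have hcomapA := legWinf_comap_legHostA_gen (A := A) M q K' h2
  have hqϖ : ((q : ℕ) : ↥(baseRing A K')) ∈ Ideal.span {ϖ} := Ideal.mem_span_singleton_self _
  have hmodel : ∀ {x y : ℤ} (hbez : (q : ℤ) * x + M * y = 1),
      SSModelLeg ↥(baseRing A K') ↥K' ϖ h2 hbez hq hq2 := fun hbez =>
    ssModelLeg ↥(baseRing A K') ↥K' hϖ h2 hbez hq hq2 hqϖ
      (geoHyps_legE_baseRing hA M hqM H.base hq2 hϖ)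
  have hAb : Winf.valuation (legHostA ↥K' M q b) = 1 :=
    (kp_comap_val_eq_one_iff Winf (legHostA ↥K' M q).toRingHom hcomapA b).mpr hb
  have hAb' : Winf.valuation (legHostA ↥K' M q b') = 1 :=
    (kp_comap_val_eq_one_iff Winf (legHostA ↥K' M q).toRingHom hcomapA b').mpr hb'
  -- transfer to `W_0`
  have key0 : ∀ {x y : ℤ} (hbez : (q : ℤ) * x + M * y = 1),
      (legW0 ↥(baseRing A K') ↥K' hbez hq).valuation
        ((legAL ↥K' hbez h4 hq hq2).symm (legHostA ↥K' M q b')) = 1 ∧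
      (legW0 ↥(baseRing A K') ↥K' hbez hq).valuation
        (F * (ϖE ^ a0)⁻¹ - ((legAL ↥K' hbez h4 hq hq2).symm (legHostA ↥K' M q b')) ^ p) < 1 := by
    intro x y hbez
    have hW0 := (legW0_eq_comap_legAL ↥(baseRing A K') ↥K' hbez h4 hq hq2 hϖ (hmodel hbez)).symm
    constructor
    · rw [← kp_comap_val_eq_one_iff Winf _ hW0]
      show Winf.valuation ((legAL ↥K' hbez h4 hq hq2)
        ((legAL ↥K' hbez h4 hq hq2).symm (legHostA ↥K' M q b'))) = 1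
      rw [AlgEquiv.apply_symm_apply]
      exact hAb'
    · rw [← comap_val_lt_one_iff _ hW0]
      show Winf.valuation ((legAL ↥K' hbez h4 hq hq2)
        (F * (ϖE ^ a0)⁻¹ - ((legAL ↥K' hbez h4 hq hq2).symm (legHostA ↥K' M q b')) ^ p)) < 1
      rw [map_sub, map_mul, map_inv₀, map_zpow₀, map_pow, AlgEquiv.apply_symm_apply, ← hϖEK,
        AlgEquiv.commutes, hϖEK, hFdef, legAL_fullToLegE ↥K' hbez h4 hq hq2 f₀,
        atkinLehnerN_indep K' (algebraMap ↥K' ℂ) hbez hbez₀ hq hqM f₀]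
      exact hl0
  -- orders along the two sheets
  have vYp : Winf.valuation (legHostA ↥K' M q b ^ p) = 1 := val_pow_eq_one Winf hAb p
  have hfinf : Winf.valuation (F * (ϖE ^ ainf)⁻¹) = 1 :=
    kp_val_eq_one_of_sub_lt Winf vYp (kp_val_sub_comm Winf hlinf)
  have hf0 : (legW0 ↥(baseRing A K') ↥K' hbez₀ hq).valuation (F * (ϖE ^ a0)⁻¹) = 1 :=
    kp_val_eq_one_of_sub_lt _ (val_pow_eq_one _ (key0 hbez₀).1 p)
      (kp_val_sub_comm _ (key0 hbez₀).2)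
  -- [DELTA-q]
  obtain ⟨ℓ, hℓ, hℓS, hnEℓ⟩ := H.nonEis
  have hℓ2 : ℓ ≠ 2 := fun h => hℓS (h ▸ H.twoS)
  have hℓMq : ¬ ℓ ∣ M * q := fun h => hℓS (H.bad ℓ hℓ h)
  haveI : NeZero ℓ := ⟨hℓ.ne_zero⟩
  haveI : NeZero (M * q * ℓ) := ⟨Nat.mul_ne_zero (NeZero.ne (M * q)) hℓ.ne_zero⟩
  obtain ⟨cH, uH, hcH, huH, hrel⟩ := H.hecke ℓ hℓ hℓS
  have hhost : legHeckeP ↥K' (M * q) ℓ hℓ hℓ2 F =
      algebraMap ↥K' ↥(legE ↥K' (M * q)) cH * F ^ (a ℓ) * fullToLegE ↥K' (M * q) uH ^ p := by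
    rw [hFdef, legHeckeP_fullToLegE_base (M * q) ℓ hℓ hℓ2 hℓMq K' f₀, hrel, map_mul, map_mul,
      map_zpow₀, map_pow, AlgHom.commutes]
  obtain ⟨k, hk⟩ : (p : ℤ) ∣ a0 - ainf :=
    HD M q hq hq2 hqM p hp (Ne.symm hqp) A hA K' H.base ϖ hϖ h2 hbez₀ ℓ hℓ hℓ2 hℓMq (a ℓ) hnEℓ F hF
      ⟨cH, fullToLegE ↥K' (M * q) uH, hcH,
        (_root_.map_ne_zero (fullToLegE ↥K' (M * q))).mpr huH, hhost⟩ ainf a0 hfinf hf0
  -- `n = 12 t = 1 + p s`
  have hcop : Nat.Coprime 12 p := by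
    have h1 : Nat.Coprime p 12 := by
      rw [Nat.Prime.coprime_iff_not_dvd hp]
      intro h
      have h12 : (12 : ℕ) = 2 ^ 2 * 3 := by norm_num
      rw [h12] at h
      rcases (Nat.Prime.dvd_mul hp).mp h with h1 | h1
      · have := (Nat.prime_dvd_prime_iff_eq hp Nat.prime_two).mp (hp.dvd_of_dvd_pow h1)
        omega
      · have := (Nat.prime_dvd_prime_iff_eq hp Nat.prime_three).mp h1
        omega
    exact h1.symm
  obtain ⟨t, -, ht⟩ := Nat.exists_mul_mod_eq_one_of_coprime hcop (by omega : 1 < p)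
  obtain ⟨n, hnt⟩ : ∃ n : ℕ, n = 12 * 1 * t := ⟨_, rfl⟩
  obtain ⟨s, hn⟩ : ∃ s : ℕ, n = 1 + p * s := by
    refine ⟨n / p, ?_⟩
    have h1 := Nat.div_add_mod n p
    have h3 : n % p = 1 := by rw [hnt, mul_one]; exact ht
    omega
  -- the node unit
  set Uq : ↥(keyFq ↥K' (M * q)) := modUnit ↥K' (M * q) q (Dvd.intro_left M rfl) with hUqdef
  have hUnode : ∀ {x y : ℤ} (hbez : (q : ℤ) * x + M * y = 1), _ := fun {x y} hbez =>
    ssModelLeg_nodeUnit ↥(baseRing A K') ↥K' (M := M) (e := 1) (u := 1) hϖ h2 hbez hq le_rfl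
      (by rw [Units.val_one, one_mul, pow_one])
  have hUq0 : Uq ≠ 0 := fun h0 => (hUnode hbez₀).ne_zero (by rw [← hUqdef, h0, map_zero])
  have hqK : ((q : ℕ) : ↥K') ≠ 0 := Nat.cast_ne_zero.mpr hq.ne_zero
  refine ⟨(((q : ℕ) : ↥K') ^ ((n : ℤ) * ainf))⁻¹, f₀ ^ s * Uq ^ (-((t : ℤ) * k)),
    inv_ne_zero (zpow_ne_zero _ hqK),
    mul_ne_zero (pow_ne_zero _ H.ne_zero) (zpow_ne_zero _ hUq0), ?_⟩
  intro _ _ h2' x y hbez hq'
  obtain ⟨linf, l0, h1, h2v, h3, h4v⟩ := toric_normalise Winf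
    (legW0 ↥(baseRing A K') ↥K' hbez hq) hϖE0 (hUnode hbez).ne_zero hn hnt hk
    (hUnode hbez).mem_inf (hUnode hbez).inv_mem_inf (hUnode hbez).mem_zero
    (hUnode hbez).inv_mem_zero hAb hlinf (key0 hbez).1 (key0 hbez).2
  have eg : fullToLegE ↥K' (M * q)
      (algebraMap ↥K' ↥(keyFq ↥K' (M * q)) (((q : ℕ) : ↥K') ^ ((n : ℤ) * ainf))⁻¹ * f₀ *
        (f₀ ^ s * Uq ^ (-((t : ℤ) * k))) ^ p) =
      (ϖE ^ ((n : ℤ) * ainf))⁻¹ * F *
        (F ^ s * fullToLegE ↥K' (M * q) Uq ^ (-((t : ℤ) * k))) ^ p := by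
    rw [map_mul, map_mul, map_pow, AlgHom.commutes, map_mul, map_pow, map_zpow₀, map_inv₀,
      map_zpow₀, hϖEK]
  rw [eg]
  exact ⟨linf, l0, h1, h2v, h3, h4v⟩

end Fermat.Agent.RB
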