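/-
RB — helper6 — [MAZ]: **the chain `KeyMazStatement ⇐ MazDescQ + LegRoldQ`.**

* `legMazBaseQ_of_rold : LegRoldQ → LegMazBaseQ` ([DELTA-q] proved, [ORD-q] ⇐ [DELTA-q],
  [HALF∞] ⇐ [ORD-q] + [ROLD-q], [BASE-q] ⇐ [DELTA-q] + [HALF∞]);
* `keyMazStatement_of_desc_rold : MazDescQ → LegRoldQ → KeyMazStatement`.
-/
import Mathlib
import Fermat.Agent.RB.MAZ_helper6_Asm
import Fermat.Agent.RB.MAZ_helper6_Delta
import Fermat.Agent.RB.MAZ_helper6_OrdQ
import Fermat.Agent.RB.MAZ_helper6_InfQ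
import Fermat.Agent.RB.MAZ_helper6_BaseQ

set_option autoImplicit false

namespace Fermat.Agent.RB

/-- **[ORD-q]**, proved. -/
theorem legMazOrdQ : LegMazOrdQ := legMazOrdQ_of legDeltaLitQ

/-- **[BASE-q] from [ROLD-q].** -/
theorem legMazBaseQ_of_rold (HR : LegRoldQ) : LegMazBaseQ :=
  legMazBaseQ_of legDeltaLitQ (legMazInfQ_of legMazOrdQ HR)

/-- **(KEY-MAZ) from [DESC-q] and [ROLD-q].** -/
theorem keyMazStatement_of_desc_rold (HD : MazDescQ) (HR : LegRoldQ) : KeyMazStatement :=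
  keyMazStatement_of_parts HD (legMazBaseQ_of_rold HR)

end Fermat.Agent.RB
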