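/-
RB — helper6 — [MAZ]: **`KeyMazStatement ⇐ LegRoldQ`** ([DESC-q] proved with helper3's
`ALH.keyFqALHecke`), and the final form **`MazurPrincipleStatement ⇐ NewToricStatement + LegRoldQ`**
is in `MAZ_helper6_Main` / `MAZ_helper6_Adapter`.
-/
import Mathlib
import Fermat.Agent.RB.MAZ_helper6_Chain
import Fermat.Agent.RB.MAZ_helper6_DescQ
import Fermat.Agent.RB.ALH_helper3_Main

set_option autoImplicit false

namespace Fermat.Agent.RB

/-- **[AL-HECKE]**, helper3. -/
theorem keyFqALHecke : KeyFqALHecke := ALH.keyFqALHecke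

/-- **[DESC-q]**, proved. -/
theorem mazDescQ : MazDescQ := mazDescQ_of keyFqALHecke

/-- **(KEY-MAZ) from [ROLD-q].** -/
theorem keyMazStatement_of_rold (HR : LegRoldQ) : KeyMazStatement :=
  keyMazStatement_of_desc_rold mazDescQ HR

end Fermat.Agent.RB
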