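/-
PROJECT RB, block [LOC], leaf [F1], part a: the special fibre.  For a domain `D` the element
`q = a^2 + b c` generates a prime ideal of `D⟦a, b, c⟧` (Weierstrass division by the
distinguished polynomial `T^2 + b c` over `D⟦b, c⟧` + descent on the `b`-adic divisibility).
helper4.
-/
import Mathlib
import Fermat.Agent.RB.LOC_helper4_Defs
import Fermat.Agent.RB.TK_helper4_KillVars

set_option autoImplicit false

namespace Fermat.Agent.RB.LOC

open MvPowerSeries

section Descent

/-- `-b c` is not a square in the fraction field: descent on the `b`-divisibility. -/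
theorem eq_zero_of_sq_add_mul_sq {A : Type*} [CommRing A] [IsDomain A] (b c : A) (hb : Prime b)
    (hbc : ¬ b ∣ c) (hsep : ∀ y : A, (∀ n : ℕ, b ^ n ∣ y) → y = 0) :
    ∀ x y : A, x ^ 2 + b * c * y ^ 2 = 0 → y = 0 := by
  have key : ∀ n : ℕ, ∀ x y : A, x ^ 2 + b * c * y ^ 2 = 0 → b ^ n ∣ y := by
    intro n
    induction n with
    | zero => intro x y _; simp
    | succ n ih =>
      intro x y h
      have hb0 : b ≠ 0 := hb.ne_zero
      have h1 : b ∣ x ^ 2 := ⟨-(c * y ^ 2), by linear_combination h⟩
      obtain ⟨x₁, rfl⟩ := hb.dvd_of_dvd_pow h1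
      have h2 : b * x₁ ^ 2 + c * y ^ 2 = 0 := by
        apply mul_left_cancel₀ hb0
        linear_combination h
      have h3 : b ∣ c * y ^ 2 := ⟨-(x₁ ^ 2), by linear_combination h2⟩
      have h4 : b ∣ y := by
        rcases hb.dvd_or_dvd h3 with h | h
        · exact absurd h hbc
        · exact hb.dvd_of_dvd_pow h
      obtain ⟨y₁, rfl⟩ := h4
      have h5 : x₁ ^ 2 + b * c * y₁ ^ 2 = 0 := by
        apply mul_left_cancel₀ hb0
        linear_combination h2
      rw [pow_succ']
      exact mul_dvd_mul_left b (ih x₁ y₁ h5)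
  intro x y h
  exact hsep y (fun n => key n x y h)

end Descent

section Weierstrass

open Polynomial in
/-- If `u ∈ I`, `A` is an `I`-adically complete domain and `-u` is not a square in the fraction
field of `A`, then `T^2 + u` generates a prime ideal of `A⟦T⟧`. -/
theorem span_X_sq_add_C_isPrime {A : Type*} [CommRing A] [IsDomain A] (I : Ideal A)
    [IsAdicComplete I A] (u : A) (hu : u ∈ I)
    (hsq : ∀ x y : A, x ^ 2 + u * y ^ 2 = 0 → y = 0) :
    (Ideal.span {(PowerSeries.X ^ 2 + PowerSeries.C u : PowerSeries A)}).IsPrime := by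
  set G : PowerSeries A := PowerSeries.X ^ 2 + PowerSeries.C u with hG
  set g : A[X] := Polynomial.X ^ 2 + Polynomial.C u with hg
  have hgmonic : g.Monic := Polynomial.monic_X_pow_add_C u (by norm_num)
  have hnat : g.natDegree = 2 := Polynomial.natDegree_X_pow_add_C
  have hdist : g.IsDistinguishedAt I :=
    { mem := by
        intro n hn
        rw [hnat] at hn
        interval_cases n
        · simp [g, hu]
        · simp [g, Polynomial.coeff_X_pow]
      monic := hgmonic }
  have hcoe : (g : PowerSeries A) = G := by simp [g, G]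
  have H : (g : PowerSeries A).IsWeierstrassDivisorAt I := hdist.isWeierstrassDivisorAt'
  have hI : I ≠ ⊤ := by
    rintro rfl
    exact not_subsingleton A ‹IsAdicComplete ⊤ A›.toIsHausdorff.subsingleton
  have hord : ((g : PowerSeries A).map (Ideal.Quotient.mk I)).order.toNat = 2 := by
    have := congr(ENat.toNat $(hdist.coe_natDegree_eq_order_map g 1
      (by rwa [PowerSeries.constantCoeff_one, ← Ideal.ne_top_iff_one]) (by simp)))
    rw [← hnat]
    exact this.symm
  -- division with remainder
  have hdiv : ∀ f : PowerSeries A, ∃ (q : PowerSeries A) (x y : A),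
      f = G * q + (PowerSeries.C y * PowerSeries.X + PowerSeries.C x) := by
    intro f
    obtain ⟨hdeg, heq⟩ := H.isWeierstrassDivisionAt_div_mod f
    rw [hord] at hdeg
    have hle : (H.mod f).degree ≤ 1 := by
      by_cases h0 : H.mod f = 0
      · simp [h0]
      · rw [Polynomial.degree_eq_natDegree h0] at hdeg ⊢
        have : (H.mod f).natDegree < 2 := by exact_mod_cast hdeg
        exact_mod_cast Nat.lt_succ_iff.mp this
    have hr := Polynomial.eq_X_add_C_of_degree_le_one hle
    refine ⟨H.div f, (H.mod f).coeff 0, (H.mod f).coeff 1, ?_⟩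
    have heq' : f = G * H.div f + ((H.mod f : A[X]) : PowerSeries A) := by
      rw [← hcoe]; exact heq
    conv_lhs => rw [heq', hr]
    simp
  -- uniqueness of the remainder
  have huniq : ∀ (q : PowerSeries A) (x y : A),
      G * q + (PowerSeries.C y * PowerSeries.X + PowerSeries.C x) = 0 → x = 0 ∧ y = 0 := by
    intro q x y h
    have hdeg : (Polynomial.C y * Polynomial.X + Polynomial.C x : A[X]).degree <
        (((g : PowerSeries A).map (Ideal.Quotient.mk I)).order.toNat : WithBot ℕ) := by
      rw [hord]
      refine lt_of_le_of_lt Polynomial.degree_linear_le ?_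
      exact_mod_cast (by norm_num : (1 : ℕ) < 2)
    have hdeg0 : (0 : A[X]).degree <
        (((g : PowerSeries A).map (Ideal.Quotient.mk I)).order.toNat : WithBot ℕ) := by
      rw [Polynomial.degree_zero]
      exact WithBot.bot_lt_coe _
    obtain ⟨-, hr⟩ := H.eq_of_mul_add_eq_mul_add (q := q) (q' := 0) hdeg hdeg0
      (by rw [hcoe]; simpa using h)
    have hx := congrArg (fun p => Polynomial.coeff p 0) hr
    have hy := congrArg (fun p => Polynomial.coeff p 1) hr
    simp at hx hy
    exact ⟨hx, hy⟩
  refine ⟨?_, ?_⟩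
  · intro htop
    have h1 : (1 : PowerSeries A) ∈ Ideal.span {G} := by rw [htop]; trivial
    obtain ⟨q, hq⟩ := Ideal.mem_span_singleton.mp h1
    have := huniq (-q) (1 : A) 0 (by
      have : G * -q = -1 := by rw [hq]; ring
      rw [this]; simp)
    exact one_ne_zero this.1
  · intro f f' hff'
    obtain ⟨k, hk⟩ := Ideal.mem_span_singleton.mp hff'
    obtain ⟨q, x, y, hf⟩ := hdiv f
    obtain ⟨q', x', y', hf'⟩ := hdiv f'
    have hXX : (PowerSeries.X : PowerSeries A) ^ 2 = G - PowerSeries.C u := by rw [hG]; ring
    have key := huniq (G * q * q' + q * (PowerSeries.C y' * PowerSeries.X + PowerSeries.C x') +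
        q' * (PowerSeries.C y * PowerSeries.X + PowerSeries.C x) + PowerSeries.C (y * y') - k)
      (x * x' - u * (y * y')) (x * y' + x' * y) (by
        have : f * f' - G * k = 0 := by rw [hk]; ring
        rw [← this, hf, hf']
        simp only [map_sub, map_add, map_mul]
        linear_combination (PowerSeries.C y * PowerSeries.C y') * hXX)
    obtain ⟨k1, k2⟩ := key
    have hN1 : (x ^ 2 + u * y ^ 2) * x' = 0 := by linear_combination x * k1 + u * y * k2
    have hN2 : (x ^ 2 + u * y ^ 2) * y' = 0 := by linear_combination x * k2 - y * k1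
    by_cases hN : x ^ 2 + u * y ^ 2 = 0
    · left
      have hy0 : y = 0 := hsq x y hN
      have hx0 : x = 0 := by
        rw [hy0] at hN
        simpa using hN
      rw [hf, hx0, hy0]
      simp only [map_zero, zero_mul, add_zero]
      exact Ideal.mul_mem_right _ _ (Ideal.subset_span rfl)
    · right
      have hx0 : x' = 0 := (mul_eq_zero.mp hN1).resolve_left hN
      have hy0 : y' = 0 := (mul_eq_zero.mp hN2).resolve_left hN
      rw [hf', hx0, hy0]
      simp only [map_zero, zero_mul, add_zero]
      exact Ideal.mul_mem_right _ _ (Ideal.subset_span rfl)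

end Weierstrass

section SpecialFibre

variable {D : Type*} [CommRing D] [IsDomain D]

theorem isDomain_mvPowerSeries (τ : Type*) : IsDomain (MvPowerSeries τ D) :=
  NoZeroDivisors.to_isDomain _

/-- a variable is a prime element of a power series ring over a domain -/
theorem X_prime_of_isDomain {τ : Type*} [Finite τ] (s : τ) :
    Prime (X s : MvPowerSeries τ D) := by
  classical
  have := isDomain_mvPowerSeries (D := D) {t : τ // t ≠ s}
  have hne : (X s : MvPowerSeries τ D) ≠ 0 := by
    intro h
    have := congrArg (coeff (Finsupp.single s 1)) h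
    rw [coeff_X, if_pos rfl, map_zero] at this
    exact one_ne_zero this
  rw [← Ideal.span_singleton_prime hne]
  let e : {t : τ // t ≠ s} ↪ τ := Function.Embedding.subtype _
  have hker := TK.ker_killCompl (R := D) e
  have hset : (fun t => (X t : MvPowerSeries τ D)) '' (Set.range e)ᶜ = {X s} := by
    have : (Set.range e)ᶜ = {s} := by
      ext t
      simp [e]
    rw [this, Set.image_singleton]
  rw [hset] at hker
  rw [← hker]
  exact RingHom.ker_isPrime _

/-- `-b c` is not a square in the fraction field of `D⟦b, c⟧`. -/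
theorem eq_zero_of_sq_add_X_mul_X_mul_sq (x y : MvPowerSeries (Fin 2) D)
    (h : x ^ 2 + X 0 * X 1 * y ^ 2 = 0) : y = 0 := by
  classical
  have := isDomain_mvPowerSeries (D := D) (Fin 2)
  refine eq_zero_of_sq_add_mul_sq (X 0) (X 1) (X_prime_of_isDomain 0) ?_ ?_ x y h
  · intro hdvd
    rw [X_dvd_iff] at hdvd
    have := hdvd (Finsupp.single 1 1) (by simp)
    rw [coeff_X, if_pos rfl] at this
    exact one_ne_zero this
  · intro z hz
    ext m
    have := (X_pow_dvd_iff.mp (hz (m 0 + 1))) m (Nat.lt_succ_self _)
    rw [this, map_zero]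

/-- **The special fibre**: `a^2 + b c` generates a prime ideal of `D⟦a, b, c⟧`, `D` a domain. -/
theorem span_qf_X_isPrime :
    (Ideal.span {qf (fun i : Fin 3 => (X i : MvPowerSeries (Fin 3) D))}).IsPrime := by
  have := isDomain_mvPowerSeries (D := D) (Fin 2)
  let Θ := MvPowerSeries.finSuccEquiv D 2
  have h1 : (1 : Fin 3) = Fin.succ (0 : Fin 2) := rfl
  have h2 : (2 : Fin 3) = Fin.succ (1 : Fin 2) := rfl
  have hΘ : Θ (qf (fun i : Fin 3 => (X i : MvPowerSeries (Fin 3) D))) =
      PowerSeries.X ^ 2 + PowerSeries.C (X 0 * X 1) := by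
    simp only [qf, map_add, map_pow, map_mul, Θ]
    rw [h1, h2, finSuccEquiv_X_zero, finSuccEquiv_X_succ, finSuccEquiv_X_succ]
  have hprime := span_X_sq_add_C_isPrime
    (Ideal.span (Set.range (X : Fin 2 → MvPowerSeries (Fin 2) D)))
    (X 0 * X 1) (Ideal.mul_mem_right _ _ (Ideal.subset_span ⟨0, rfl⟩))
    eq_zero_of_sq_add_X_mul_X_mul_sq
  have hcomap : Ideal.span {qf (fun i : Fin 3 => (X i : MvPowerSeries (Fin 3) D))} =
      (Ideal.span {(PowerSeries.X ^ 2 + PowerSeries.C (X 0 * X 1) :
        PowerSeries (MvPowerSeries (Fin 2) D))}).comap Θ.toRingEquiv := by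
    ext y
    rw [Ideal.mem_comap, Ideal.mem_span_singleton, Ideal.mem_span_singleton, ← hΘ]
    constructor
    · intro h
      exact map_dvd Θ.toRingEquiv h
    · intro h
      have := map_dvd Θ.toRingEquiv.symm h
      simpa using this
  rw [hcomap]
  exact Ideal.comap_isPrime _ _

end SpecialFibre

end Fermat.Agent.RB.LOC
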