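/-
PROJECT RB, toolkit [TK]: "quotients commute with power series": for an ideal `J` of `R` the kernel
of `R⟦X_σ⟧ → (R ⧸ J)⟦X_σ⟧` is the set of power series with all coefficients in `J`, and equals the
extended ideal `J · R⟦X_σ⟧` when `J` is finitely generated.  helper4.
-/
import Mathlib

set_option autoImplicit false

namespace Fermat.Agent.RB.TK

open MvPowerSeries

variable {σ : Type*} {R : Type*} [CommRing R]

/-- the power series with prescribed coefficients -/
def ofCoeff (c : (σ →₀ ℕ) → R) : MvPowerSeries σ R := c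

theorem coeff_ofCoeff (c : (σ →₀ ℕ) → R) (d : σ →₀ ℕ) : coeff d (ofCoeff c) = c d := rfl

theorem mem_ker_map_mk_iff (J : Ideal R) (f : MvPowerSeries σ R) :
    f ∈ RingHom.ker (MvPowerSeries.map (σ := σ) (Ideal.Quotient.mk J)) ↔
      ∀ d, coeff d f ∈ J := by
  rw [RingHom.mem_ker]
  constructor
  · intro h d
    have := congrArg (coeff d) h
    rw [coeff_map, map_zero] at this
    exact Ideal.Quotient.eq_zero_iff_mem.mp this
  · intro h
    ext d
    rw [coeff_map, map_zero]
    exact Ideal.Quotient.eq_zero_iff_mem.mpr (h d)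

theorem map_mk_surjective (J : Ideal R) :
    Function.Surjective (MvPowerSeries.map (σ := σ) (Ideal.Quotient.mk J)) := by
  intro f
  have h : ∀ d, ∃ r : R, Ideal.Quotient.mk J r = coeff d f :=
    fun d => Ideal.Quotient.mk_surjective _
  choose r hr using h
  refine ⟨ofCoeff r, ?_⟩
  ext d
  rw [coeff_map, coeff_ofCoeff]
  exact hr d

theorem map_C_le_ker_map_mk (J : Ideal R) :
    J.map (C (σ := σ) (R := R)) ≤ RingHom.ker (MvPowerSeries.map (σ := σ) (Ideal.Quotient.mk J)) := by
  rw [Ideal.map_le_iff_le_comap]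
  intro r hr
  rw [Ideal.mem_comap, RingHom.mem_ker, map_C, Ideal.Quotient.eq_zero_iff_mem.mpr hr, map_zero]

/-- "Quotients commute with power series" for finitely generated ideals. -/
theorem ker_map_mk_eq_map_C (J : Ideal R) (hJ : J.FG) :
    RingHom.ker (MvPowerSeries.map (σ := σ) (Ideal.Quotient.mk J)) =
      J.map (C (σ := σ) (R := R)) := by
  classical
  refine le_antisymm ?_ (map_C_le_ker_map_mk J)
  obtain ⟨s, rfl⟩ := hJ
  intro f hf
  rw [mem_ker_map_mk_iff] at hf
  have hf' : ∀ d, ∃ c : R → R, ∑ a ∈ s, c a * a = coeff d f := by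
    intro d
    obtain ⟨c, -, hc⟩ := Submodule.mem_span_finset.mp (hf d)
    exact ⟨c, by simpa [smul_eq_mul] using hc⟩
  choose c hc using hf'
  have hfeq : f = ∑ a ∈ s, (C a : MvPowerSeries σ R) * ofCoeff (fun d => c d a) := by
    ext d
    rw [map_sum, ← hc d]
    apply Finset.sum_congr rfl
    intro a _
    rw [coeff_C_mul, coeff_ofCoeff, mul_comm]
  rw [hfeq]
  apply Ideal.sum_mem
  intro a ha
  apply Ideal.mul_mem_right
  exact Ideal.mem_map_of_mem _ (Ideal.subset_span ha)

theorem ker_map_mk_span_singleton (l : R) :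
    RingHom.ker (MvPowerSeries.map (σ := σ) (Ideal.Quotient.mk (Ideal.span {l}))) =
      Ideal.span {(C l : MvPowerSeries σ R)} := by
  rw [ker_map_mk_eq_map_C _ ⟨{l}, by simp⟩, Ideal.map_span, Set.image_singleton]

end Fermat.Agent.RB.TK
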