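/-
PROJECT RB, block [LOC], leaf [F1], part b: the inductive invariant `Pair J l`
(`l` is regular modulo `J`, and `J + (l)` is prime) and the step
`(B, J, l) ↦ (B⟦a,b,c⟧, J·B⟦a,b,c⟧ + (a^2 + b c - γ^2), l)` for `γ ∈ l B`.  helper4.
-/
import Mathlib
import Fermat.Agent.RB.LOC_helper4_F1a
import Fermat.Agent.RB.TK_helper4_CoeffIdeal

set_option autoImplicit false

namespace Fermat.Agent.RB.LOC

open MvPowerSeries

/-- the inductive invariant: `l` is regular modulo `J`, and `J + (l)` is a prime ideal -/
structure Pair {R : Type*} [CommRing R] (J : Ideal R) (l : R) : Prop where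
  reg : ∀ x, l * x ∈ J → x ∈ J
  prime : (J ⊔ Ideal.span {l}).IsPrime

theorem Pair.step {B : Type*} [CommRing B] [IsNoetherianRing B] {J : Ideal B} {l : B}
    (h : Pair J l) (γ : B) (hγ : l ∣ γ) :
    Pair (J.map (C (σ := Fin 3) (R := B)) ⊔
      Ideal.span {qf (fun i : Fin 3 => (X i : MvPowerSeries (Fin 3) B)) - C (γ ^ 2)}) (C l) := by
  classical
  set I : Ideal B := J ⊔ Ideal.span {l} with hI
  have hIprime : I.IsPrime := h.prime
  have hD : IsDomain (B ⧸ I) := Ideal.Quotient.isDomain I
  have hDD := isDomain_mvPowerSeries (D := B ⧸ I) (Fin 3)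
  let ρ : MvPowerSeries (Fin 3) B →+* MvPowerSeries (Fin 3) (B ⧸ I) :=
    MvPowerSeries.map (Ideal.Quotient.mk I)
  have hρsurj : Function.Surjective ρ := TK.map_mk_surjective I
  have hkerρ : RingHom.ker ρ = J.map C ⊔ Ideal.span {C l} := by
    rw [TK.ker_map_mk_eq_map_C I (IsNoetherian.noetherian I), hI, Ideal.map_sup, Ideal.map_span,
      Set.image_singleton]
  set q : MvPowerSeries (Fin 3) B := qf (fun i : Fin 3 => (X i : MvPowerSeries (Fin 3) B)) with hq
  set Q : MvPowerSeries (Fin 3) B := q - C (γ ^ 2) with hQ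
  have hρq : ρ q = qf (fun i : Fin 3 => (X i : MvPowerSeries (Fin 3) (B ⧸ I))) := by
    simp [q, qf, ρ, map_X]
  have hγmem : (C (γ ^ 2) : MvPowerSeries (Fin 3) B) ∈ Ideal.span {(C l : MvPowerSeries (Fin 3) B)} := by
    obtain ⟨c, rfl⟩ := hγ
    rw [Ideal.mem_span_singleton]
    exact ⟨C (l * c ^ 2), by rw [← map_mul]; congr 1; ring⟩
  have hρC : ρ (C (γ ^ 2)) = 0 := by
    rw [← RingHom.mem_ker, hkerρ]
    exact Ideal.mem_sup_right hγmem
  have hρQ : ρ Q = qf (fun i : Fin 3 => (X i : MvPowerSeries (Fin 3) (B ⧸ I))) := by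
    rw [hQ, map_sub, hρC, sub_zero, hρq]
  have hρl : ρ (C l) = 0 := by
    rw [← RingHom.mem_ker, hkerρ]
    exact Ideal.mem_sup_right (Ideal.subset_span rfl)
  have hqne : qf (fun i : Fin 3 => (X i : MvPowerSeries (Fin 3) (B ⧸ I))) ≠ 0 := by
    intro h0
    have := congrArg (coeff (Finsupp.single (0 : Fin 3) 2)) h0
    rw [qf, map_add, map_zero, X_pow_eq, coeff_monomial_same, X, X, monomial_mul_monomial,
      coeff_monomial, if_neg, add_zero] at this
    · exact one_ne_zero this
    · intro heq
      have := congrArg (fun m => m 1) heq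
      simp at this
  constructor
  · -- `C l` is regular modulo the new ideal
    intro f hf
    obtain ⟨j, hj, z, hz, hsum⟩ := Submodule.mem_sup.mp hf
    obtain ⟨hh, rfl⟩ := Ideal.mem_span_singleton'.mp hz
    have hρj : ρ j = 0 := by
      rw [← RingHom.mem_ker, hkerρ]
      exact Ideal.mem_sup_left hj
    have h0 : ρ hh * qf (fun i : Fin 3 => (X i : MvPowerSeries (Fin 3) (B ⧸ I))) = 0 := by
      have := congrArg ρ hsum
      rw [map_add, map_mul, map_mul, hρj, hρQ, hρl, zero_add, zero_mul] at this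
      exact this
    have hρh : ρ hh = 0 := (mul_eq_zero.mp h0).resolve_right hqne
    rw [← RingHom.mem_ker, hkerρ] at hρh
    obtain ⟨j', hj', z', hz', hsum'⟩ := Submodule.mem_sup.mp hρh
    obtain ⟨h', rfl⟩ := Ideal.mem_span_singleton'.mp hz'
    have hmem : C l * (f - h' * Q) ∈ J.map (C (σ := Fin 3) (R := B)) := by
      have : C l * (f - h' * Q) = j + j' * Q := by
        rw [← hsum'] at hsum
        linear_combination -hsum
      rw [this]
      exact Ideal.add_mem _ hj (Ideal.mul_mem_right _ _ hj')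
    have hcoef : f - h' * Q ∈ J.map (C (σ := Fin 3) (R := B)) := by
      rw [← TK.ker_map_mk_eq_map_C J (IsNoetherian.noetherian J), TK.mem_ker_map_mk_iff] at hmem ⊢
      intro d
      have := hmem d
      rw [coeff_C_mul] at this
      exact h.reg _ this
    have hf' : f = (f - h' * Q) + h' * Q := by ring
    rw [hf']
    exact Ideal.add_mem _ (Ideal.mem_sup_left hcoef)
      (Ideal.mem_sup_right (Ideal.mul_mem_left _ _ (Ideal.subset_span rfl)))
  · -- the new special fibre is prime
    have hSF := span_qf_X_isPrime (D := B ⧸ I)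
    have key : J.map (C (σ := Fin 3) (R := B)) ⊔ Ideal.span {Q} ⊔ Ideal.span {C l} =
        (Ideal.span {qf (fun i : Fin 3 => (X i : MvPowerSeries (Fin 3) (B ⧸ I)))}).comap ρ := by
      have hspan : Ideal.span {ρ q} = (Ideal.span {q}).map ρ := by
        rw [Ideal.map_span, Set.image_singleton]
      rw [← hρq, hspan, Ideal.comap_map_of_surjective' ρ hρsurj, hkerρ]
      apply le_antisymm
      · refine sup_le (sup_le ?_ ?_) ?_
        · exact le_sup_of_le_right le_sup_left
        · rw [Ideal.span_singleton_le_iff_mem]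
          exact Ideal.sub_mem _ (Ideal.mem_sup_left (Ideal.subset_span rfl))
            (Ideal.mem_sup_right (Ideal.mem_sup_right hγmem))
        · exact le_sup_of_le_right le_sup_right
      · refine sup_le ?_ (sup_le ?_ ?_)
        · rw [Ideal.span_singleton_le_iff_mem]
          have : q = Q + C (γ ^ 2) := by rw [hQ]; ring
          rw [this]
          exact Ideal.add_mem _ (Ideal.mem_sup_left (Ideal.mem_sup_right (Ideal.subset_span rfl)))
            (Ideal.mem_sup_right hγmem)
        · exact le_sup_of_le_left le_sup_left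
        · exact le_sup_right
    rw [key]
    exact Ideal.comap_isPrime _ _

end Fermat.Agent.RB.LOC
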