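/-
PROJECT RB, toolkit [TK]: a noetherian ring `Q` with an element `t` in the Jacobson radical which
is a nonzerodivisor and generates a prime ideal is a domain (Krull's intersection theorem).
helper4.
-/
import Mathlib

set_option autoImplicit false

namespace Fermat.Agent.RB.TK

theorem isDomain_of_regular_of_prime {Q : Type*} [CommRing Q] [IsNoetherianRing Q] (t : Q)
    (hjac : t ∈ (⊥ : Ideal Q).jacobson) (hreg : ∀ x, t * x = 0 → x = 0)
    (hprime : (Ideal.span {t}).IsPrime) : IsDomain Q := by
  classical
  -- Krull intersection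
  have hkrull : (⨅ i : ℕ, (Ideal.span {t}) ^ i • (⊤ : Submodule Q Q)) = ⊥ :=
    Ideal.iInf_pow_smul_eq_bot_of_le_jacobson (Ideal.span {t})
      ((Ideal.span_singleton_le_iff_mem _).mpr hjac)
  have hfac : ∀ x : Q, x ≠ 0 → ∃ (m : ℕ) (x' : Q), x = t ^ m * x' ∧ x' ∉ Ideal.span {t} := by
    intro x hx
    have h1 : ∃ n : ℕ, ¬ (t ^ n ∣ x) := by
      by_contra hcon
      push Not at hcon
      apply hx
      have : x ∈ (⨅ i : ℕ, (Ideal.span {t}) ^ i • (⊤ : Submodule Q Q)) := by
        rw [Submodule.mem_iInf]
        intro i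
        rw [smul_eq_mul, Ideal.mul_top, Ideal.span_singleton_pow, Ideal.mem_span_singleton]
        exact hcon i
      rw [hkrull] at this
      exact this
    have hn : ¬ t ^ (Nat.find h1) ∣ x := Nat.find_spec h1
    have hn0 : Nat.find h1 ≠ 0 := by
      intro h0
      rw [h0, pow_zero] at hn
      exact hn (one_dvd x)
    obtain ⟨m, hm⟩ := Nat.exists_eq_succ_of_ne_zero hn0
    have hm' : t ^ m ∣ x := by
      by_contra h
      exact Nat.find_min h1 (by omega : m < Nat.find h1) h
    obtain ⟨x', hx'⟩ := hm'
    refine ⟨m, x', hx', ?_⟩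
    intro hmem
    obtain ⟨y, hy⟩ := Ideal.mem_span_singleton.mp hmem
    apply hn
    rw [hm, hx', hy, pow_succ]
    exact ⟨y, by ring⟩
  have hregpow : ∀ (k : ℕ) (z : Q), t ^ k * z = 0 → z = 0 := by
    intro k
    induction k with
    | zero => intro z hz; simpa using hz
    | succ k ih =>
      intro z hz
      apply ih
      apply hreg
      rw [← hz]
      ring
  have : Nontrivial Q := by
    by_contra h
    rw [not_nontrivial_iff_subsingleton] at h
    exact hprime.ne_top (Subsingleton.elim _ _)
  have : NoZeroDivisors Q := by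
    constructor
    intro x y hxy
    by_contra hcon
    push Not at hcon
    obtain ⟨m, x', hx, hx'⟩ := hfac x hcon.1
    obtain ⟨m', y', hy, hy'⟩ := hfac y hcon.2
    have h1 : t ^ (m + m') * (x' * y') = 0 := by
      rw [← hxy, hx, hy]
      ring
    have h2 := hregpow _ _ h1
    have h3 : x' * y' ∈ Ideal.span {t} := by
      rw [h2]
      exact Ideal.zero_mem _
    rcases hprime.mem_or_mem h3 with h | h
    · exact hx' h
    · exact hy' h
  exact NoZeroDivisors.to_isDomain Q

end Fermat.Agent.RB.TK
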