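/-
PROJECT RB, block [LOC], leaf [F1]: `J₀ = (q(s_v) - γ_v^2 : v ∈ Σ)` is a prime ideal of
`A = O⟦s, x⟧`.  Induction over `Σ` (one triple of variables at a time) with the invariant `Pair`,
then Krull's intersection theorem.  helper4.
-/
import Mathlib
import Fermat.Agent.RB.LOC_helper4_F1b
import Fermat.Agent.RB.LOC_helper4_Phi
import Fermat.Agent.RB.TK_helper4_DomLemma
import Fermat.Agent.RB.TK_helper4_DimZero
import Fermat.Agent.RB.TK_helper4_SumEquiv

set_option autoImplicit false

universe u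

namespace Fermat.Agent.RB.LOC

open MvPowerSeries

/-- transport of the invariant along a ring isomorphism -/
theorem Pair.of_ringEquiv {R S : Type*} [CommRing R] [CommRing S] (Θ : R ≃+* S) {J : Ideal R}
    {l : R} {J' : Ideal S} {l' : S} (hJ : J.map Θ = J') (hl : Θ l = l') (h : Pair J' l') :
    Pair J l := by
  have hcomap : ∀ K : Ideal R, (K.map Θ).comap Θ = K := fun K =>
    Ideal.comap_map_of_bijective Θ Θ.bijective
  constructor
  · intro x hx
    have h1 : Θ (l * x) ∈ J.map Θ := Ideal.mem_map_of_mem _ hx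
    rw [map_mul, hl, hJ] at h1
    have h2 := h.reg _ h1
    rw [← hJ] at h2
    have h3 : x ∈ (J.map Θ).comap Θ := h2
    rwa [hcomap] at h3
  · have h1 : (J ⊔ Ideal.span {l}).map Θ = J' ⊔ Ideal.span {l'} := by
      rw [Ideal.map_sup, hJ, Ideal.map_span, Set.image_singleton, hl]
    have h2 := h.prime
    rw [← h1] at h2
    rw [← hcomap (J ⊔ Ideal.span {l})]
    exact Ideal.comap_isPrime _ _

section Induction

variable {O : Type*} [CommRing O]

/-- the ideal generated by the `q(s_v) - γ_v^2` in a power series ring whose variables contain the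
`s_{v,i}` via `e` -/
noncomputable def Jgen {Sig τ σ : Type*} (e : (Sig × Fin 3) ⊕ τ ≃ σ) (gam : Sig → O) :
    Ideal (MvPowerSeries σ O) :=
  Ideal.span (Set.range fun v : Sig =>
    qf (fun i : Fin 3 => (X (e (Sum.inl (v, i))) : MvPowerSeries σ O)) - C (gam v ^ 2))

/-- the induction statement -/
def PairStmt (lam : O) (Sig : Type u) : Prop :=
  ∀ (τ : Type) [Finite τ] (σ : Type u) [Finite σ] (e : (Sig × Fin 3) ⊕ τ ≃ σ) (gam : Sig → O),
    (∀ v, lam ∣ gam v) → Pair (Jgen e gam) (C lam : MvPowerSeries σ O)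

variable [IsDomain O] (lam : O)

theorem pairStmt_empty (hlam : (Ideal.span {lam}).IsPrime) (hlam0 : lam ≠ 0) :
    PairStmt lam PEmpty.{u + 1} := by
  intro τ _ σ _ e gam _
  have hJ : Jgen e gam = ⊥ := by
    rw [Jgen, Set.range_eq_empty, Ideal.span_empty]
  rw [hJ]
  constructor
  · intro x hx
    rw [Ideal.mem_bot] at hx ⊢
    rcases mul_eq_zero.mp hx with h | h
    · exfalso
      apply hlam0
      have := congrArg (constantCoeff (σ := σ) (R := O)) h
      simpa using this
    · exact h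
  · rw [bot_sup_eq, ← TK.ker_map_mk_span_singleton]
    have h1 : IsDomain (O ⧸ Ideal.span {lam}) := Ideal.Quotient.isDomain _
    have h2 := isDomain_mvPowerSeries (D := O ⧸ Ideal.span {lam}) σ
    exact RingHom.ker_isPrime _

omit [IsDomain O] in
theorem pairStmt_of_equiv {α β : Type u} (f : α ≃ β) (h : PairStmt lam α) : PairStmt lam β := by
  intro τ _ σ _ e gam hgam
  have key := h τ σ
    ((Equiv.sumCongr (Equiv.prodCongr f (Equiv.refl (Fin 3))) (Equiv.refl τ)).trans e)
    (gam ∘ f) (fun v => hgam (f v))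
  have hJ : Jgen ((Equiv.sumCongr (Equiv.prodCongr f (Equiv.refl (Fin 3))) (Equiv.refl τ)).trans e)
      (gam ∘ f) = Jgen e gam := by
    unfold Jgen
    congr 1
    exact f.surjective.range_comp
      (fun w : β => qf (fun i : Fin 3 => (X (e (Sum.inl (w, i))) : MvPowerSeries σ O)) -
        C (gam w ^ 2))
  rwa [hJ] at key

/-- reindexing of the variables: `(s_{some v}, s_none, x) ↦ ((s_v, x), s_none)` -/
def optShuffle (Sig τ : Type*) : (Option Sig × Fin 3) ⊕ τ ≃ ((Sig × Fin 3) ⊕ τ) ⊕ Fin 3 where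
  toFun
    | Sum.inl (some v, i) => Sum.inl (Sum.inl (v, i))
    | Sum.inl (none, i) => Sum.inr i
    | Sum.inr t => Sum.inl (Sum.inr t)
  invFun
    | Sum.inl (Sum.inl (v, i)) => Sum.inl (some v, i)
    | Sum.inl (Sum.inr t) => Sum.inr t
    | Sum.inr i => Sum.inl (none, i)
  left_inv := by rintro (⟨(_ | v), i⟩ | t) <;> rfl
  right_inv := by rintro ((⟨v, i⟩ | t) | i) <;> rfl

variable (O) in
/-- `O⟦σ⟧ ≃ O⟦s_v, x⟧⟦s_none⟧` -/
noncomputable def optΘ {Sig τ σ : Type*} (e : (Option Sig × Fin 3) ⊕ τ ≃ σ) :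
    MvPowerSeries σ O ≃ₐ[O] MvPowerSeries (Fin 3) (MvPowerSeries ((Sig × Fin 3) ⊕ τ) O) :=
  (renameEquiv O (e.symm.trans (optShuffle Sig τ))).trans
    (TK.sumAlgEquiv ((Sig × Fin 3) ⊕ τ) (Fin 3) O)

omit [IsDomain O] in
theorem optΘ_X_some {Sig τ σ : Type*} (e : (Option Sig × Fin 3) ⊕ τ ≃ σ) (v : Sig) (i : Fin 3) :
    optΘ O e (X (e (Sum.inl (some v, i)))) = C (X (Sum.inl (v, i))) := by
  simp only [optΘ, AlgEquiv.trans_apply]
  have : renameEquiv O (e.symm.trans (optShuffle Sig τ))
      (X (e (Sum.inl (some v, i))) : MvPowerSeries σ O) = X (Sum.inl (Sum.inl (v, i))) := by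
    change rename (e.symm.trans (optShuffle Sig τ)) _ = _
    rw [rename_X]
    simp [optShuffle]
  rw [this, TK.sumAlgEquiv_X_inl]

omit [IsDomain O] in
theorem optΘ_X_none {Sig τ σ : Type*} (e : (Option Sig × Fin 3) ⊕ τ ≃ σ) (i : Fin 3) :
    optΘ O e (X (e (Sum.inl ((none : Option Sig), i)))) = X i := by
  simp only [optΘ, AlgEquiv.trans_apply]
  have : renameEquiv O (e.symm.trans (optShuffle Sig τ))
      (X (e (Sum.inl ((none : Option Sig), i))) : MvPowerSeries σ O) = X (Sum.inr i) := by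
    change rename (e.symm.trans (optShuffle Sig τ)) _ = _
    rw [rename_X]
    simp [optShuffle]
  rw [this, TK.sumAlgEquiv_X_inr]

omit [IsDomain O] in
theorem optΘ_C {Sig τ σ : Type*} (e : (Option Sig × Fin 3) ⊕ τ ≃ σ) (r : O) :
    optΘ O (Sig := Sig) e (C r) = C (C r) := by
  simp only [optΘ, AlgEquiv.trans_apply]
  have : renameEquiv O (e.symm.trans (optShuffle Sig τ)) (C r : MvPowerSeries σ O) = C r := by
    change rename (e.symm.trans (optShuffle Sig τ)) _ = _
    rw [rename_C]
  rw [this, TK.sumAlgEquiv_C]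

omit [IsDomain O] in
theorem pairStmt_option [IsNoetherianRing O] {α : Type u} [Fintype α] (h : PairStmt lam α) :
    PairStmt lam (Option α) := by
  intro τ _ σ _ e gam hgam
  have hB := h τ ((α × Fin 3) ⊕ τ) (Equiv.refl _) (fun v => gam (some v)) (fun v => hgam (some v))
  have hstep := hB.step (C (gam none)) (map_dvd C (hgam none))
  refine Pair.of_ringEquiv (optΘ O e).toRingEquiv ?_ ?_ hstep
  · -- the image of the ideal
    have hsome : ∀ v : α, optΘ O e (qf (fun i : Fin 3 =>
        (X (e (Sum.inl (some v, i))) : MvPowerSeries σ O)) - C (gam (some v) ^ 2)) =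
        C (qf (fun i : Fin 3 => (X ((Equiv.refl ((α × Fin 3) ⊕ τ)) (Sum.inl (v, i))) :
          MvPowerSeries ((α × Fin 3) ⊕ τ) O)) - C (gam (some v) ^ 2)) := by
      intro v
      simp only [qf, map_sub, map_add, map_mul, map_pow, optΘ_X_some, optΘ_C, Equiv.refl_apply]
    have hnone : optΘ O e (qf (fun i : Fin 3 =>
        (X (e (Sum.inl ((none : Option α), i))) : MvPowerSeries σ O)) - C (gam none ^ 2)) =
        qf (fun i : Fin 3 => (X i : MvPowerSeries (Fin 3) (MvPowerSeries ((α × Fin 3) ⊕ τ) O))) -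
          C ((C (gam none)) ^ 2) := by
      simp only [qf, map_sub, map_add, map_mul, map_pow, optΘ_X_none, optΘ_C]
    apply le_antisymm
    · rw [Ideal.map_le_iff_le_comap, Jgen, Ideal.span_le]
      rintro _ ⟨w, rfl⟩
      rw [SetLike.mem_coe, Ideal.mem_comap]
      cases w with
      | none =>
        apply Ideal.mem_sup_right
        change optΘ O e _ ∈ _
        rw [hnone]
        exact Ideal.subset_span rfl
      | some v =>
        apply Ideal.mem_sup_left
        change optΘ O e _ ∈ _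
        rw [hsome]
        exact Ideal.mem_map_of_mem _ (Ideal.subset_span ⟨v, rfl⟩)
    · refine sup_le ?_ ?_
      · rw [Ideal.map_le_iff_le_comap, Jgen, Ideal.span_le]
        rintro _ ⟨v, rfl⟩
        rw [SetLike.mem_coe, Ideal.mem_comap, ← hsome]
        exact Ideal.mem_map_of_mem _ (Ideal.subset_span ⟨some v, rfl⟩)
      · rw [Ideal.span_singleton_le_iff_mem, ← hnone]
        exact Ideal.mem_map_of_mem _ (Ideal.subset_span ⟨none, rfl⟩)
  · exact optΘ_C e lam

theorem pairStmt_all [IsNoetherianRing O] (hlam : (Ideal.span {lam}).IsPrime) (hlam0 : lam ≠ 0)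
    (Sig : Type u) [Finite Sig] : PairStmt lam Sig :=
  Finite.induction_empty_option (P := PairStmt lam)
    (fun f h => pairStmt_of_equiv lam f h) (pairStmt_empty lam hlam hlam0)
    (fun h => pairStmt_option lam h) Sig

end Induction

section Final

variable {O : Type*} [CommRing O] {Sig : Type u} (D : Data O Sig) (g : ℕ)

variable [IsDomain O] [IsDiscreteValuationRing O] [Fintype Sig] [DecidableEq Sig]

omit [DecidableEq Sig] in
/-- **[F1]**: `J₀ = (q(s_v) - γ_v^2 : v ∈ Σ)` is a prime ideal of `A = O⟦s, x⟧`. -/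
theorem J₀_isPrime (hD : D.Good) : (J₀ D g).IsPrime := by
  have hprime : Prime D.lam := hD.irreducible_lam.prime
  have hlam0 : D.lam ≠ 0 := hD.irreducible_lam.ne_zero
  have hspan : (Ideal.span {D.lam}).IsPrime := (Ideal.span_singleton_prime hlam0).mpr hprime
  have hpair := pairStmt_all D.lam hspan hlam0 Sig (Fin g) (SX Sig g) (Equiv.refl _) D.gam
    D.lam_dvd_gam
  have hJ : Jgen (Equiv.refl ((Sig × Fin 3) ⊕ Fin g)) D.gam = J₀ D g := rfl
  rw [hJ] at hpair
  rw [← Ideal.Quotient.isDomain_iff_prime]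
  refine TK.isDomain_of_regular_of_prime (Ideal.Quotient.mk (J₀ D g) (C D.lam)) ?_ ?_ ?_
  · have := TK.mk_mem_jacobson_of_constantCoeff (J₀ D g) (C D.lam) (by
      rw [constantCoeff_C, IsLocalRing.mem_maximalIdeal]
      exact hD.irreducible_lam.not_isUnit)
    rwa [Ideal.jacobson_bot]
  · intro x hx
    obtain ⟨x, rfl⟩ := Ideal.Quotient.mk_surjective x
    rw [← map_mul, Ideal.Quotient.eq_zero_iff_mem] at hx
    exact Ideal.Quotient.eq_zero_iff_mem.mpr (hpair.reg x hx)
  · have h1 : Ideal.span {Ideal.Quotient.mk (J₀ D g) (C D.lam)} =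
        (J₀ D g ⊔ Ideal.span {C D.lam}).map (Ideal.Quotient.mk (J₀ D g)) := by
      rw [Ideal.map_sup, Ideal.map_quotient_self, bot_sup_eq, Ideal.map_span, Set.image_singleton]
    rw [h1]
    have h2 := hpair.prime
    exact Ideal.map_isPrime_of_surjective Ideal.Quotient.mk_surjective
      (by rw [Ideal.mk_ker]; exact le_sup_left)

end Final

end Fermat.Agent.RB.LOC
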