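/-
PROJECT RB (feasibility), block [CA]: Krull dimension and integral extensions.
helper4.  `ringKrullDim_le_of_isIntegral` (incomparability), `ringKrullDim_le_of_isIntegral_of_injective`
(lying over + going up), and their combination.
-/
import Mathlib

set_option autoImplicit false

namespace Fermat.Agent.RB

section Integral

variable {A B : Type*} [CommRing A] [CommRing B] [Algebra A B]

/-- Incomparability: an integral extension does not raise the Krull dimension. -/
theorem ringKrullDim_le_of_isIntegral [Algebra.IsIntegral A B] :
    ringKrullDim B ≤ ringKrullDim A := by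
  unfold ringKrullDim
  refine Order.krullDim_le_of_strictMono
    (fun P : PrimeSpectrum B => PrimeSpectrum.comap (algebraMap A B) P) ?_
  intro P Q hPQ
  have h : P.asIdeal < Q.asIdeal := hPQ
  have := Ideal.IsIntegral.comap_lt_comap (R := A) h
  exact this

/-- Lying over + going up: an injective integral extension does not lower the Krull dimension. -/
theorem ringKrullDim_le_of_isIntegral_of_injective [Algebra.IsIntegral A B]
    (hinj : Function.Injective (algebraMap A B)) :
    ringKrullDim A ≤ ringKrullDim B := by
  unfold ringKrullDim Order.krullDim
  refine iSup_le ?_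
  intro l
  -- lying over for the head of the chain
  obtain ⟨P, hP, hPover⟩ := Ideal.exists_ideal_over_prime_of_isIntegral (S := B)
    (RelSeries.head l).asIdeal (⊥ : Ideal B)
    (by rw [Ideal.comap_bot_of_injective _ hinj]; exact bot_le)
  obtain ⟨hPprime, hcomap⟩ := hPover
  haveI : P.IsPrime := hPprime
  haveI : P.LiesOver (RelSeries.head l).asIdeal := ⟨hcomap.symm⟩
  obtain ⟨L, hlen, -, -⟩ := Ideal.exists_ltSeries_of_hasGoingUp (S := B) l P
  rw [← hlen]
  exact le_iSup (fun p : LTSeries (PrimeSpectrum B) => (p.length : WithBot ℕ∞)) L

/-- An injective integral extension preserves Krull dimension. -/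
theorem ringKrullDim_eq_of_isIntegral_of_injective [Algebra.IsIntegral A B]
    (hinj : Function.Injective (algebraMap A B)) :
    ringKrullDim B = ringKrullDim A :=
  le_antisymm ringKrullDim_le_of_isIntegral (ringKrullDim_le_of_isIntegral_of_injective hinj)

/-- A module-finite extension does not raise the Krull dimension. -/
theorem ringKrullDim_le_of_finite [Module.Finite A B] :
    ringKrullDim B ≤ ringKrullDim A :=
  ringKrullDim_le_of_isIntegral

end Integral

end Fermat.Agent.RB
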