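/-
PROJECT RB (feasibility), block [CA]: associated primes / support of a module that is finite free
over a noetherian domain `S`, acted on by an `S`-algebra `R` (step (2)(a) of lead's msg 2056),
the "strict drop" lemma, and the abstract form of (2)(b).  helper4.
-/
import Mathlib
import Fermat.Agent.RB.CA_helper4_IntegralDim

set_option autoImplicit false

namespace Fermat.Agent.RB

open scoped nonZeroDivisors

section StrictDrop

variable {R : Type*} [CommRing R]

/-- If `P₀ ≤ P` are primes, `R ⧸ P₀` has finite Krull dimension and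
`dim R/P₀ ≤ dim R/P`, then `P₀ = P`. -/
theorem ideal_eq_of_le_of_ringKrullDim_le {P₀ P : Ideal R} [P₀.IsPrime] [P.IsPrime]
    (h : P₀ ≤ P) (hfin : ringKrullDim (R ⧸ P₀) ≠ ⊤)
    (hdim : ringKrullDim (R ⧸ P₀) ≤ ringKrullDim (R ⧸ P)) : P₀ = P := by
  by_contra hne
  obtain ⟨x, hxP, hxP₀⟩ : ∃ x ∈ P, x ∉ P₀ := by
    by_contra hcon
    push Not at hcon
    exact hne (le_antisymm h hcon)
  have hx0 : (Ideal.Quotient.mk P₀ x) ≠ 0 := by
    rwa [Ne, Ideal.Quotient.eq_zero_iff_mem]
  have hnzd : (Ideal.Quotient.mk P₀ x) ∈ (R ⧸ P₀)⁰ := mem_nonZeroDivisors_of_ne_zero hx0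
  have hsurj : Function.Surjective (Ideal.Quotient.factor h) :=
    Ideal.Quotient.factor_surjective h
  have hkill : Ideal.Quotient.factor h (Ideal.Quotient.mk P₀ x) = 0 := by
    rw [Ideal.Quotient.factor_mk, Ideal.Quotient.eq_zero_iff_mem]; exact hxP
  have key := ringKrullDim_succ_le_of_surjective (Ideal.Quotient.factor h) hsurj hnzd hkill
  -- `dim R/P + 1 ≤ dim R/P₀ ≤ dim R/P`, with `dim R/P₀` finite
  have h1 : ringKrullDim (R ⧸ P) + 1 ≤ ringKrullDim (R ⧸ P) := key.trans hdim
  have hbot : ringKrullDim (R ⧸ P) ≠ ⊥ := by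
    intro hb
    have h0 := ringKrullDim_nonneg_of_nontrivial (R := R ⧸ P)
    rw [hb] at h0
    exact absurd h0 (by simp)
  have htop : ringKrullDim (R ⧸ P) ≠ ⊤ := by
    intro htop
    rw [htop] at key
    apply hfin
    have htop1 : (⊤ : WithBot ℕ∞) + 1 = ⊤ := by
      rw [← WithBot.coe_top, ← WithBot.coe_one, ← WithBot.coe_add, top_add]
    rw [htop1] at key
    exact top_le_iff.mp key
  obtain ⟨n, hn⟩ := WithBot.ne_bot_iff_exists.mp hbot
  rw [← hn] at h1 htop
  have hn' : n ≠ ⊤ := by
    rintro rfl
    exact htop rfl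
  obtain ⟨m, rfl⟩ := ENat.ne_top_iff_exists.mp hn'
  have : ((m + 1 : ℕ) : WithBot ℕ∞) ≤ (m : ℕ) := by
    simpa using h1
  have : (m + 1 : ℕ) ≤ m := by exact_mod_cast this
  omega

end StrictDrop

section Ass

variable {S R M : Type*} [CommRing S] [IsDomain S] [IsNoetherianRing S] [CommRing R]
  [IsNoetherianRing R] [Algebra S R] [AddCommGroup M] [Module S M] [Module R M]
  [IsScalarTower S R M] [Module.Finite S M] [Module.Free S M]

/-- (2)(a), first half: an associated prime of `M` (over `R`) meets `S` trivially. -/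
theorem comap_eq_bot_of_isAssociatedPrime {P : Ideal R} (hP : IsAssociatedPrime P M) :
    P.comap (algebraMap S R) = ⊥ := by
  obtain ⟨hprime, f, hf⟩ := (isAssociatedPrime_iff_exists_injective_linearMap P M).mp hP
  rw [eq_bot_iff]
  intro s hs
  rw [Ideal.mem_comap] at hs
  have h1 : f 1 ≠ 0 := by
    intro h
    have : (1 : R ⧸ P) = 0 := hf (by rw [h, map_zero])
    have hne : (1 : R ⧸ P) ≠ 0 := by
      haveI := Ideal.Quotient.nontrivial_iff.mpr hprime.ne_top
      exact one_ne_zero
    exact hne this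
  have h2 : s • f 1 = 0 := by
    rw [← algebraMap_smul R s (f 1), ← map_smul]
    have : (algebraMap S R s) • (1 : R ⧸ P) = 0 := by
      rw [Algebra.smul_def, mul_one]
      exact Ideal.Quotient.eq_zero_iff_mem.mpr hs
    rw [this, map_zero]
  rcases smul_eq_zero.mp h2 with h | h
  · exact h
  · exact absurd h h1

/-- (2)(a), second half: `R ⧸ P` is a finite `S`-module for an associated prime `P` of `M`. -/
theorem finite_quotient_of_isAssociatedPrime {P : Ideal R} (hP : IsAssociatedPrime P M) :
    Module.Finite S (R ⧸ P) := by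
  obtain ⟨hprime, f, hf⟩ := (isAssociatedPrime_iff_exists_injective_linearMap P M).mp hP
  exact Module.Finite.of_injective (f.restrictScalars S) hf

/-- `S → R ⧸ P` is injective for an associated prime `P` of `M`. -/
theorem algebraMap_quotient_injective_of_isAssociatedPrime {P : Ideal R}
    (hP : IsAssociatedPrime P M) : Function.Injective (algebraMap S (R ⧸ P)) := by
  rw [RingHom.injective_iff_ker_eq_bot, eq_bot_iff]
  intro s hs
  have : s ∈ P.comap (algebraMap S R) := by
    rw [Ideal.mem_comap]
    rw [RingHom.mem_ker, IsScalarTower.algebraMap_apply S R (R ⧸ P)] at hs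
    exact Ideal.Quotient.eq_zero_iff_mem.mp hs
  rw [comap_eq_bot_of_isAssociatedPrime (S := S) hP] at this
  exact this

/-- (2)(a), consequence: `dim R/P = dim S` for every associated prime `P` of `M`. -/
theorem ringKrullDim_quotient_of_isAssociatedPrime {P : Ideal R} (hP : IsAssociatedPrime P M) :
    ringKrullDim (R ⧸ P) = ringKrullDim S := by
  haveI := finite_quotient_of_isAssociatedPrime (S := S) hP
  haveI : Algebra.IsIntegral S (R ⧸ P) := Algebra.IsIntegral.of_finite S (R ⧸ P)
  exact ringKrullDim_eq_of_isIntegral_of_injective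
    (algebraMap_quotient_injective_of_isAssociatedPrime hP)

/-- Abstract form of (2)(b): if `R` has a prime `P₀` contained in every prime of `R` not
containing (the image of) a fixed nonzero `lam : S`, and `dim R/P₀ ≤ dim S < ∞`, then `P₀` is the
ONLY associated prime of any nonzero `M` that is finite free over `S`; in particular every prime
`Q ⊇ P₀` is in the support of `M`. -/
theorem associatedPrimes_eq_singleton_of_generic [Nontrivial M] (P₀ : Ideal R) [P₀.IsPrime]
    (lam : S) (hlam : lam ≠ 0)
    (hgen : ∀ P : Ideal R, P.IsPrime → algebraMap S R lam ∉ P → P₀ ≤ P)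
    (hdim : ringKrullDim (R ⧸ P₀) ≤ ringKrullDim S) (hfin : ringKrullDim S ≠ ⊤) :
    associatedPrimes R M = {P₀} := by
  have hsub : ∀ P ∈ associatedPrimes R M, P = P₀ := by
    intro P hP
    have hP' : IsAssociatedPrime P M := hP
    haveI : P.IsPrime := hP'.isPrime
    have hlamP : algebraMap S R lam ∉ P := by
      intro hmem
      have : lam ∈ P.comap (algebraMap S R) := hmem
      rw [comap_eq_bot_of_isAssociatedPrime (S := S) hP'] at this
      exact hlam this
    have hle : P₀ ≤ P := hgen P inferInstance hlamP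
    have hd : ringKrullDim (R ⧸ P) = ringKrullDim S :=
      ringKrullDim_quotient_of_isAssociatedPrime hP'
    symm
    apply ideal_eq_of_le_of_ringKrullDim_le hle
    · intro htop
      rw [htop] at hdim
      exact hfin (top_le_iff.mp hdim)
    · rw [hd]; exact hdim
  obtain ⟨P, hP⟩ := associatedPrimes.nonempty R M
  have := hsub P hP
  ext Q
  constructor
  · intro hQ; exact hsub Q hQ
  · rintro rfl; rw [← this]; exact hP

theorem mem_support_of_generic [Nontrivial M] (P₀ : Ideal R) [P₀.IsPrime]
    (lam : S) (hlam : lam ≠ 0)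
    (hgen : ∀ P : Ideal R, P.IsPrime → algebraMap S R lam ∉ P → P₀ ≤ P)
    (hdim : ringKrullDim (R ⧸ P₀) ≤ ringKrullDim S) (hfin : ringKrullDim S ≠ ⊤)
    (Q : PrimeSpectrum R) (hQ : P₀ ≤ Q.asIdeal) : Q ∈ Module.support R M := by
  have hAss := associatedPrimes_eq_singleton_of_generic (M := M) P₀ lam hlam hgen hdim hfin
  have hP₀ : IsAssociatedPrime P₀ M := by
    have : P₀ ∈ associatedPrimes R M := by rw [hAss]; rfl
    exact this
  obtain ⟨-, f, hf⟩ := (isAssociatedPrime_iff_exists_injective_linearMap P₀ M).mp hP₀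
  -- `f 1` has annihilator `P₀ ≤ Q`
  rw [Module.mem_support_iff_exists_annihilator]
  refine ⟨f 1, ?_⟩
  intro r hr
  rw [Submodule.mem_annihilator_span_singleton] at hr
  apply hQ
  have : f (r • 1) = 0 := by rw [map_smul, hr]
  have h0 : (r • (1 : R ⧸ P₀)) = 0 := hf (by rw [this, map_zero])
  rw [Algebra.smul_def, mul_one] at h0
  exact Ideal.Quotient.eq_zero_iff_mem.mp h0

end Ass

end Fermat.Agent.RB
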