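/-
PROJECT RB (feasibility), block [CA]: transfer of support through a common reduction
`R₁ → Rbar ← R₂` (step (2)(c) of lead's msg 2056), and the abstract Ihara-avoidance theorem
(2)(a)-(d).  helper4.
-/
import Mathlib
import Fermat.Agent.RB.CA_helper4_AssSupp

set_option autoImplicit false

namespace Fermat.Agent.RB

section Transfer

variable {R Rbar M Mbar : Type*} [CommRing R] [CommRing Rbar] [AddCommGroup M] [Module R M]
  [AddCommGroup Mbar] [Module Rbar Mbar]

/-- Support is compatible with a surjective reduction `π : R → Rbar`, `g : M → Mbar` semilinear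
surjective with kernel `(ker π) M`. -/
theorem mem_support_iff_comap_mem_support [Module.Finite R M] (π : R →+* Rbar)
    (hπ : Function.Surjective π) (g : M →ₛₗ[π] Mbar) (hg : Function.Surjective g)
    (hker : ∀ m : M, g m = 0 → m ∈ (RingHom.ker π) • (⊤ : Submodule R M))
    (Qbar : PrimeSpectrum Rbar) :
    Qbar ∈ Module.support Rbar Mbar ↔ PrimeSpectrum.comap π Qbar ∈ Module.support R M := by
  constructor
  · intro h
    rw [Module.mem_support_iff'] at h ⊢
    obtain ⟨mbar, hm⟩ := h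
    obtain ⟨m, rfl⟩ := hg mbar
    refine ⟨m, fun r hr hrm => ?_⟩
    have hr' : π r ∉ Qbar.asIdeal := hr
    apply hm (π r) hr'
    rw [← g.map_smulₛₗ, hrm, map_zero]
  · intro h
    have hle : RingHom.ker π ≤ (PrimeSpectrum.comap π Qbar).asIdeal := by
      intro x hx
      change π x ∈ Qbar.asIdeal
      rw [RingHom.mem_ker.mp hx]
      exact Qbar.asIdeal.zero_mem
    have h2 : PrimeSpectrum.comap π Qbar ∈
        Module.support R (M ⧸ ((RingHom.ker π) • (⊤ : Submodule R M))) := by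
      rw [Module.support_quotient]
      exact ⟨h, hle⟩
    rw [Module.mem_support_iff'] at h2 ⊢
    obtain ⟨mt, hmt⟩ := h2
    obtain ⟨m, rfl⟩ := Submodule.Quotient.mk_surjective _ mt
    refine ⟨g m, fun rbar hrbar hzero => ?_⟩
    obtain ⟨r, rfl⟩ := hπ rbar
    have hr : r ∉ (PrimeSpectrum.comap π Qbar).asIdeal := hrbar
    apply hmt r hr
    rw [← Submodule.Quotient.mk_smul, Submodule.Quotient.mk_eq_zero]
    apply hker
    rw [g.map_smulₛₗ, hzero]

end Transfer

section Main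

variable {S : Type*} [CommRing S] [IsDomain S] [IsNoetherianRing S]

/-- (2)(c), abstract: if `Q₁ ∈ Supp M₁` and every prime `P ≤ Q₁` of characteristic zero
(i.e. not containing `lam`) contains the prime `Punr`, and `dim R₁/Punr ≤ dim S < ∞`, then
`Punr` is an associated prime of `M₁`. -/
theorem isAssociatedPrime_of_mem_support
    {R₁ M₁ : Type*} [CommRing R₁] [IsNoetherianRing R₁] [Algebra S R₁] [AddCommGroup M₁]
    [Module S M₁] [Module R₁ M₁] [IsScalarTower S R₁ M₁] [Module.Finite S M₁] [Module.Free S M₁]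
    (lam : S) (hlam : lam ≠ 0) (hSfin : ringKrullDim S ≠ ⊤)
    (Punr : Ideal R₁) [Punr.IsPrime] (hdim₁ : ringKrullDim (R₁ ⧸ Punr) ≤ ringKrullDim S)
    (Q₁ : PrimeSpectrum R₁) (hQ₁ : Q₁ ∈ Module.support R₁ M₁)
    (hkey : ∀ P : Ideal R₁, P.IsPrime → P ≤ Q₁.asIdeal → algebraMap S R₁ lam ∉ P → Punr ≤ P) :
    IsAssociatedPrime Punr M₁ := by
  haveI : Module.Finite R₁ M₁ := Module.Finite.of_restrictScalars_finite S R₁ M₁
  have hann : Module.annihilator R₁ M₁ ≤ Q₁.asIdeal := Module.annihilator_le_of_mem_support hQ₁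
  obtain ⟨P, hPmin, hPQ⟩ := Ideal.exists_minimalPrimes_le hann
  have hPass : P ∈ associatedPrimes R₁ M₁ :=
    Module.associatedPrimes.minimalPrimes_annihilator_subset_associatedPrimes R₁ M₁ hPmin
  have hP' : IsAssociatedPrime P M₁ := hPass
  haveI : P.IsPrime := hP'.isPrime
  have hlamP : algebraMap S R₁ lam ∉ P := by
    intro hmem
    have : lam ∈ P.comap (algebraMap S R₁) := hmem
    rw [comap_eq_bot_of_isAssociatedPrime (S := S) hP'] at this
    exact hlam this
  have hle : Punr ≤ P := hkey P inferInstance hPQ hlamP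
  have hd : ringKrullDim (R₁ ⧸ P) = ringKrullDim S :=
    ringKrullDim_quotient_of_isAssociatedPrime hP'
  have : Punr = P := by
    apply ideal_eq_of_le_of_ringKrullDim_le hle
    · intro htop
      rw [htop] at hdim₁
      exact hSfin (top_le_iff.mp hdim₁)
    · rw [hd]; exact hdim₁
  rw [this]; exact hP'

/-- (2)(d), abstract: if `Punr` is an associated prime of `M₁`, then every prime `𝔞` of `S` lifts
to a prime `𝔄 ⊇ Punr` of `R₁` in the support of `M₁ ⧸ (Punr + 𝔞 R₁) M₁`. -/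
theorem exists_prime_over_of_isAssociatedPrime
    {R₁ M₁ : Type*} [CommRing R₁] [IsNoetherianRing R₁] [Algebra S R₁] [AddCommGroup M₁]
    [Module S M₁] [Module R₁ M₁] [IsScalarTower S R₁ M₁] [Module.Finite S M₁] [Module.Free S M₁]
    (Punr : Ideal R₁) (hP : IsAssociatedPrime Punr M₁) (𝔞 : Ideal S) [𝔞.IsPrime] :
    ∃ 𝔄 : PrimeSpectrum R₁, Punr ≤ 𝔄.asIdeal ∧ 𝔄.asIdeal.comap (algebraMap S R₁) = 𝔞 ∧
      𝔄 ∈ Module.support R₁
        (M₁ ⧸ ((Punr ⊔ 𝔞.map (algebraMap S R₁)) • (⊤ : Submodule R₁ M₁))) := by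
  haveI : Module.Finite R₁ M₁ := Module.Finite.of_restrictScalars_finite S R₁ M₁
  haveI : Punr.IsPrime := hP.isPrime
  haveI := finite_quotient_of_isAssociatedPrime (S := S) hP
  haveI : Algebra.IsIntegral S (R₁ ⧸ Punr) := Algebra.IsIntegral.of_finite S (R₁ ⧸ Punr)
  have hinj := algebraMap_quotient_injective_of_isAssociatedPrime (S := S) hP
  -- lying over in `R₁ ⧸ Punr`
  obtain ⟨𝔅, -, h𝔅prime, h𝔅over⟩ := Ideal.exists_ideal_over_prime_of_isIntegral (S := R₁ ⧸ Punr)
    𝔞 (⊥ : Ideal (R₁ ⧸ Punr))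
    (by rw [Ideal.comap_bot_of_injective _ hinj]; exact bot_le)
  haveI : 𝔅.IsPrime := h𝔅prime
  let 𝔄 : PrimeSpectrum R₁ := ⟨𝔅.comap (Ideal.Quotient.mk Punr), inferInstance⟩
  have hPle : Punr ≤ 𝔄.asIdeal := by
    intro x hx
    change Ideal.Quotient.mk Punr x ∈ 𝔅
    rw [Ideal.Quotient.eq_zero_iff_mem.mpr hx]
    exact 𝔅.zero_mem
  have hcomap : 𝔄.asIdeal.comap (algebraMap S R₁) = 𝔞 := by
    rw [← h𝔅over]
    ext s
    simp only [Ideal.mem_comap, 𝔄]
    rw [IsScalarTower.algebraMap_apply S R₁ (R₁ ⧸ Punr)]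
    rfl
  refine ⟨𝔄, hPle, hcomap, ?_⟩
  rw [Module.support_quotient]
  refine ⟨?_, ?_⟩
  · -- `Punr ∈ Supp M₁` and support is upward closed
    obtain ⟨-, f, hf⟩ := (isAssociatedPrime_iff_exists_injective_linearMap Punr M₁).mp hP
    rw [Module.mem_support_iff_exists_annihilator]
    refine ⟨f 1, ?_⟩
    intro r hr
    rw [Submodule.mem_annihilator_span_singleton] at hr
    apply hPle
    have : f (r • 1) = 0 := by rw [map_smul, hr]
    have h0 : (r • (1 : R₁ ⧸ Punr)) = 0 := hf (by rw [this, map_zero])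
    rw [Algebra.smul_def, mul_one] at h0
    exact Ideal.Quotient.eq_zero_iff_mem.mp h0
  · rw [PrimeSpectrum.mem_zeroLocus]
    apply sup_le hPle
    rw [Ideal.map_le_iff_le_comap, hcomap]

end Main

end Fermat.Agent.RB
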