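/-
PROJECT RB (feasibility), block [CA]: the abstract Ihara-avoidance theorem, i.e. steps (2)(a)-(d)
of lead's msg 2056 with every ring-specific input isolated as a hypothesis:

* `hgen₂`, `hdim₂`, `hQ₂`  : the three facts about the chi-type ring `R₂`
    ([F1] `P₀ = ker φ` prime, [F2] every characteristic-zero prime contains `P₀`,
     [F3] `P₀ ≤ Q₂ = (λ, s)`, [F4] `dim R₂/P₀ ≤ dim S`);
* `hdim₁`, `hkey`          : the facts about the unipotent ring `R₁`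
    (`R₁/Punr` is a power series ring of dimension `dim S`; `e_v ∉ Q₁` and
     `N_v ≠ 0 → e_v = 0` in characteristic-zero domain quotients);
* `π₁ π₂ g₁ g₂`            : `R₁/λ = R₂/λ` and `M₁/λ ≅ M₂/λ`.

Conclusion: `Punr ∈ Ass(M₁)` and every prime `𝔞` of `S` (e.g. the augmentation ideal) lifts to a
prime `𝔄 ⊇ Punr` of `R₁` in the support of `M₁/(Punr + 𝔞)M₁`.  helper4.
-/
import Mathlib
import Fermat.Agent.RB.CA_helper4_Transfer

set_option autoImplicit false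

namespace Fermat.Agent.RB

theorem ihara_avoidance_abstract
    {S : Type*} [CommRing S] [IsDomain S] [IsNoetherianRing S]
    (lam : S) (hlam : lam ≠ 0) (hSfin : ringKrullDim S ≠ ⊤)
    -- problem (2): the chi-type ring
    {R₂ M₂ : Type*} [CommRing R₂] [IsNoetherianRing R₂] [Algebra S R₂] [AddCommGroup M₂]
    [Module S M₂] [Module R₂ M₂] [IsScalarTower S R₂ M₂] [Module.Finite S M₂] [Module.Free S M₂]
    [Nontrivial M₂]
    (P₀ : Ideal R₂) [P₀.IsPrime]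
    (hgen₂ : ∀ P : Ideal R₂, P.IsPrime → algebraMap S R₂ lam ∉ P → P₀ ≤ P)
    (hdim₂ : ringKrullDim (R₂ ⧸ P₀) ≤ ringKrullDim S)
    -- problem (1): the unipotent ring
    {R₁ M₁ : Type*} [CommRing R₁] [IsNoetherianRing R₁] [Algebra S R₁] [AddCommGroup M₁]
    [Module S M₁] [Module R₁ M₁] [IsScalarTower S R₁ M₁] [Module.Finite S M₁] [Module.Free S M₁]
    (Punr : Ideal R₁) [Punr.IsPrime] (hdim₁ : ringKrullDim (R₁ ⧸ Punr) ≤ ringKrullDim S)
    -- the common reduction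
    {Rbar Mbar : Type*} [CommRing Rbar] [AddCommGroup Mbar] [Module Rbar Mbar]
    (π₁ : R₁ →+* Rbar) (hπ₁ : Function.Surjective π₁)
    (π₂ : R₂ →+* Rbar) (hπ₂ : Function.Surjective π₂)
    (g₁ : M₁ →ₛₗ[π₁] Mbar) (hg₁ : Function.Surjective g₁)
    (hker₁ : ∀ m : M₁, g₁ m = 0 → m ∈ (RingHom.ker π₁) • (⊤ : Submodule R₁ M₁))
    (g₂ : M₂ →ₛₗ[π₂] Mbar) (hg₂ : Function.Surjective g₂)
    (hker₂ : ∀ m : M₂, g₂ m = 0 → m ∈ (RingHom.ker π₂) • (⊤ : Submodule R₂ M₂))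
    (Qbar : PrimeSpectrum Rbar)
    (hQ₂ : P₀ ≤ (PrimeSpectrum.comap π₂ Qbar).asIdeal)
    (hkey : ∀ P : Ideal R₁, P.IsPrime → P ≤ (PrimeSpectrum.comap π₁ Qbar).asIdeal →
      algebraMap S R₁ lam ∉ P → Punr ≤ P) :
    IsAssociatedPrime Punr M₁ ∧
    ∀ (𝔞 : Ideal S) [𝔞.IsPrime],
      ∃ 𝔄 : PrimeSpectrum R₁, Punr ≤ 𝔄.asIdeal ∧ 𝔄.asIdeal.comap (algebraMap S R₁) = 𝔞 ∧
        𝔄 ∈ Module.support R₁
          (M₁ ⧸ ((Punr ⊔ 𝔞.map (algebraMap S R₁)) • (⊤ : Submodule R₁ M₁))) := by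
  haveI : Module.Finite R₁ M₁ := Module.Finite.of_restrictScalars_finite S R₁ M₁
  haveI : Module.Finite R₂ M₂ := Module.Finite.of_restrictScalars_finite S R₂ M₂
  -- (b): `Q₂ ∈ Supp M₂`
  have h2 : PrimeSpectrum.comap π₂ Qbar ∈ Module.support R₂ M₂ :=
    mem_support_of_generic (S := S) P₀ lam hlam hgen₂ hdim₂ hSfin _ hQ₂
  -- transfer to `Rbar`, then to `R₁`
  have hbar : Qbar ∈ Module.support Rbar Mbar :=
    (mem_support_iff_comap_mem_support π₂ hπ₂ g₂ hg₂ hker₂ Qbar).mpr h2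
  have h1 : PrimeSpectrum.comap π₁ Qbar ∈ Module.support R₁ M₁ :=
    (mem_support_iff_comap_mem_support π₁ hπ₁ g₁ hg₁ hker₁ Qbar).mp hbar
  -- (c)
  have hass : IsAssociatedPrime Punr M₁ :=
    isAssociatedPrime_of_mem_support (S := S) lam hlam hSfin Punr hdim₁ _ h1 hkey
  -- (d)
  exact ⟨hass, fun 𝔞 _ => exists_prime_over_of_isAssociatedPrime (S := S) Punr hass 𝔞⟩

end Fermat.Agent.RB
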