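/-
PROJECT RB (feasibility), block [LOC]: ASSEMBLY.  From the leaves of `LOC_helper4_Skeleton.lean`
and the proven abstract theorem `ihara_avoidance_abstract` we derive the statement that the
global patching argument consumes: for patched modules `M₁`, `M₂` over `R₁ = PS ⧸ I₁`,
`R₂ = PS ⧸ I₂`, finite free over a noetherian domain `S` of dimension `3|Σ| + g + 1` and
isomorphic modulo `λ`, the prime `Punr = (s_v)` of `R₁` is associated to `M₁`, and every prime of
`S` lifts to a prime of `R₁` containing `Punr` in the support of `M₁/(Punr + 𝔞)M₁`.  helper4.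
-/
import Mathlib
import Fermat.Agent.RB.CA_helper4_Main
import Fermat.Agent.RB.LOC_helper4_Skeleton

set_option autoImplicit false

namespace Fermat.Agent.RB.LOC

open MvPowerSeries

variable {O : Type*} [CommRing O] {Sig : Type*} (D : Data O Sig) (g : ℕ)

/-- the common reduction `Rbar = PS ⧸ (I₂ + (λ)) = PS ⧸ (I₁ + (λ))` -/
abbrev Rbar := PS O Sig g ⧸ (I₂ D g ⊔ Ideal.span {C D.lam})

/-- `π₂ : R₂ → Rbar` -/
noncomputable def π₂ : R₂ D g →+* Rbar D g := Ideal.Quotient.factor le_sup_left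

theorem π₂_surjective : Function.Surjective (π₂ D g) := Ideal.Quotient.factor_surjective _

theorem π₂_mk (f : PS O Sig g) : π₂ D g (Ideal.Quotient.mk _ f) = Ideal.Quotient.mk _ f :=
  Ideal.Quotient.factor_mk _ f

/-- the ideal `Punr = (s_v : v ∈ Σ)` of `R₁` -/
noncomputable def Punr : Ideal (R₁ D g) :=
  (sIdeal (O := O) (Sig := Sig) g).map (Ideal.Quotient.mk (I₁ D g))

/-- the generic prime `P₀` of `R₂` -/
noncomputable def P₀ [Finite Sig] : Ideal (R₂ D g) := (P₀' D g).map (Ideal.Quotient.mk (I₂ D g))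

section

variable [IsDomain O] [IsDiscreteValuationRing O] [Fintype Sig] [DecidableEq Sig]

theorem I₁_le_sup : I₁ D g ≤ I₂ D g ⊔ Ideal.span {C D.lam} := by
  rw [← I₁_sup_eq]; exact le_sup_left

/-- `π₁ : R₁ → Rbar` -/
noncomputable def π₁ : R₁ D g →+* Rbar D g := Ideal.Quotient.factor (I₁_le_sup D g)

theorem π₁_surjective : Function.Surjective (π₁ D g) := Ideal.Quotient.factor_surjective _

theorem π₁_mk (f : PS O Sig g) : π₁ D g (Ideal.Quotient.mk _ f) = Ideal.Quotient.mk _ f :=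
  Ideal.Quotient.factor_mk _ f

theorem sup_le_Qbar' : I₂ D g ⊔ Ideal.span {C D.lam} ≤ Qbar' D g :=
  sup_le (I₂_le_Qbar' D g) ((Ideal.span_singleton_le_iff_mem _).mpr (lam_mem_Qbar' D g))

/-- the test prime of `Rbar` -/
noncomputable def Qbar (hD : D.Good) : PrimeSpectrum (Rbar D g) :=
  haveI := Qbar'_isPrime D g hD
  ⟨(Qbar' D g).map (Ideal.Quotient.mk _),
    Ideal.map_isPrime_of_surjective Ideal.Quotient.mk_surjective
      (by rw [Ideal.mk_ker]; exact sup_le_Qbar' D g)⟩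

theorem mk_mem_Qbar_iff (hD : D.Good) (f : PS O Sig g) :
    Ideal.Quotient.mk (I₂ D g ⊔ Ideal.span {C D.lam}) f ∈ (Qbar D g hD).asIdeal ↔
      f ∈ Qbar' D g := by
  change _ ∈ (Qbar' D g).map (Ideal.Quotient.mk _) ↔ _
  rw [← Ideal.mem_comap, Ideal.comap_map_of_surjective _ Ideal.Quotient.mk_surjective,
    ← RingHom.ker_eq_comap_bot, Ideal.mk_ker, sup_eq_left.mpr (sup_le_Qbar' D g)]

theorem Punr_isPrime : (Punr D g).IsPrime := by
  haveI := sIdeal_isPrime (O := O) (Sig := Sig) g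
  exact Ideal.map_isPrime_of_surjective Ideal.Quotient.mk_surjective
    (by rw [Ideal.mk_ker]; exact I₁_le_sIdeal D g)

theorem P₀_isPrime (hJ : (J₀ D g).IsPrime) : (P₀ D g).IsPrime := by
  haveI := P₀'_isPrime D g hJ
  exact Ideal.map_isPrime_of_surjective Ideal.Quotient.mk_surjective
    (by rw [Ideal.mk_ker]; exact I₂_le_P₀' D g)

theorem mk_mem_Punr_iff (f : PS O Sig g) :
    Ideal.Quotient.mk (I₁ D g) f ∈ Punr D g ↔ f ∈ sIdeal (O := O) (Sig := Sig) g := by
  change _ ∈ (sIdeal g).map (Ideal.Quotient.mk _) ↔ _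
  rw [← Ideal.mem_comap, Ideal.comap_map_of_surjective _ Ideal.Quotient.mk_surjective,
    ← RingHom.ker_eq_comap_bot, Ideal.mk_ker, sup_eq_left.mpr (I₁_le_sIdeal D g)]

theorem ringKrullDim_quot_Punr_le :
    ringKrullDim (R₁ D g ⧸ Punr D g) ≤ (3 * Fintype.card Sig + g + 1 : ℕ) := by
  refine le_trans ?_ (ringKrullDim_quot_sIdeal_le (O := O) (Sig := Sig) g)
  let f : PS O Sig g ⧸ sIdeal (O := O) (Sig := Sig) g →+* R₁ D g ⧸ Punr D g :=
    Ideal.Quotient.lift _ ((Ideal.Quotient.mk (Punr D g)).comp (Ideal.Quotient.mk (I₁ D g)))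
      (by
        intro a ha
        rw [RingHom.comp_apply, Ideal.Quotient.eq_zero_iff_mem, mk_mem_Punr_iff]
        exact ha)
  apply ringKrullDim_le_of_surjective f
  intro y
  obtain ⟨y, rfl⟩ := Ideal.Quotient.mk_surjective y
  obtain ⟨y, rfl⟩ := Ideal.Quotient.mk_surjective y
  exact ⟨Ideal.Quotient.mk _ y, rfl⟩

theorem ringKrullDim_quot_P₀_le (hD : D.Good) :
    ringKrullDim (R₂ D g ⧸ P₀ D g) ≤ (3 * Fintype.card Sig + g + 1 : ℕ) :=
  le_trans (ringKrullDim_quotient_le _) (ringKrullDim_R₂_le D g hD)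

/-- [F2] in `R₂` -/
theorem P₀_le_of_prime (hD : D.Good) (P : Ideal (R₂ D g)) [P.IsPrime]
    (hlam : Ideal.Quotient.mk (I₂ D g) (C D.lam) ∉ P) : P₀ D g ≤ P := by
  rw [P₀, Ideal.map_le_iff_le_comap]
  apply P₀'_le_of_prime D g hD
  · intro x hx
    rw [Ideal.mem_comap, Ideal.Quotient.eq_zero_iff_mem.mpr hx]
    exact P.zero_mem
  · exact hlam

/-- [F3] in `R₂`: `P₀ ≤ π₂⁻¹(Qbar)` -/
theorem P₀_le_comap_Qbar (hD : D.Good) :
    P₀ D g ≤ (PrimeSpectrum.comap (π₂ D g) (Qbar D g hD)).asIdeal := by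
  obtain ⟨P, hPprime, hI, hPQ, hlam⟩ := exists_char_zero_prime_le_Qbar' D g hD
  haveI := hPprime
  rw [P₀, Ideal.map_le_iff_le_comap]
  intro f hf
  have h1 : f ∈ Qbar' D g := hPQ (P₀'_le_of_prime D g hD P hI hlam hf)
  rw [Ideal.mem_comap]
  change π₂ D g (Ideal.Quotient.mk _ f) ∈ (Qbar D g hD).asIdeal
  rw [π₂_mk, mk_mem_Qbar_iff]
  exact h1

/-- (2)(c), the local input: a characteristic-zero prime of `R₁` below `π₁⁻¹(Qbar)` contains
`Punr`. -/
theorem Punr_le_of_prime (hD : D.Good) (P : Ideal (R₁ D g)) [P.IsPrime]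
    (hPQ : P ≤ (PrimeSpectrum.comap (π₁ D g) (Qbar D g hD)).asIdeal)
    (hlam : Ideal.Quotient.mk (I₁ D g) (C D.lam) ∉ P) : Punr D g ≤ P := by
  rw [Punr, Ideal.map_le_iff_le_comap, sIdeal, Ideal.span_le]
  rintro _ ⟨⟨v, i⟩, rfl⟩
  rw [SetLike.mem_coe, Ideal.mem_comap]
  -- the certificate (L6)
  have hcert := one_sub_nv_mul_theta_mul_e_mul_s_mem D g v i
  have h0 : Ideal.Quotient.mk (I₁ D g)
      (C (1 - D.nv v) * thetaX D g v * eX D g v * sX O g v i) ∈ P := by
    rw [Ideal.Quotient.eq_zero_iff_mem.mpr hcert]; exact P.zero_mem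
  rw [map_mul, map_mul, map_mul] at h0
  -- `1 - 𝓋` is a unit times a power of `λ`
  have hnv : Ideal.Quotient.mk (I₁ D g) (C (1 - D.nv v)) ∉ P := by
    have hne : (1 - D.nv v) ≠ 0 := sub_ne_zero.mpr (hD.nv_ne_one v).symm
    obtain ⟨n, u, hu⟩ := IsDiscreteValuationRing.eq_unit_mul_pow_irreducible hne hD.irreducible_lam
    rw [hu, map_mul, map_pow, map_mul, map_pow]
    intro hmem
    rcases (Ideal.IsPrime.mem_or_mem inferInstance hmem) with h | h
    · have hunit : IsUnit (Ideal.Quotient.mk (I₁ D g) (C (u : O))) :=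
        (u.isUnit.map C).map _
      exact (Ideal.IsPrime.ne_top inferInstance) (Ideal.eq_top_of_isUnit_mem _ h hunit)
    · exact hlam (Ideal.IsPrime.mem_of_pow_mem inferInstance _ h)
  have htheta : Ideal.Quotient.mk (I₁ D g) (thetaX D g v) ∉ P := by
    intro h
    exact (Ideal.IsPrime.ne_top inferInstance)
      (Ideal.eq_top_of_isUnit_mem _ h ((isUnit_thetaX D g v).map _))
  have he : Ideal.Quotient.mk (I₁ D g) (eX D g v) ∉ P := by
    intro h
    have h1 := hPQ h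
    change π₁ D g (Ideal.Quotient.mk _ (eX D g v)) ∈ (Qbar D g hD).asIdeal at h1
    rw [π₁_mk, mk_mem_Qbar_iff] at h1
    exact eX_notMem_Qbar' D g hD v h1
  rcases (Ideal.IsPrime.mem_or_mem inferInstance h0) with h | h
  · rcases (Ideal.IsPrime.mem_or_mem inferInstance h) with h | h
    · rcases (Ideal.IsPrime.mem_or_mem inferInstance h) with h | h
      · exact absurd h hnv
      · exact absurd h htheta
    · exact absurd h he
  · exact h

theorem algebraMap_lam_R₁ : algebraMap O (R₁ D g) D.lam = Ideal.Quotient.mk (I₁ D g) (C D.lam) := by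
  rw [IsScalarTower.algebraMap_apply O (PS O Sig g) (R₁ D g)]
  rfl

theorem algebraMap_lam_R₂ : algebraMap O (R₂ D g) D.lam = Ideal.Quotient.mk (I₂ D g) (C D.lam) := by
  rw [IsScalarTower.algebraMap_apply O (PS O Sig g) (R₂ D g)]
  rfl

/-- **[LOC] main theorem (skeleton: depends on the leaves of `LOC_helper4_Skeleton`)**.
Steps (2)(a)-(d) of lead's msg 2056 for the explicit rings `R₁`, `R₂`. -/
theorem loc_ihara_avoidance_of_J₀_isPrime (hD : D.Good) (hJ : (J₀ D g).IsPrime)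
    {S : Type*} [CommRing S] [IsDomain S] [IsNoetherianRing S] [Algebra O S]
    (hOS : Function.Injective (algebraMap O S))
    (hdimS : ringKrullDim S = (3 * Fintype.card Sig + g + 1 : ℕ))
    -- problem (2)
    [Algebra S (R₂ D g)] [IsScalarTower O S (R₂ D g)]
    {M₂ : Type*} [AddCommGroup M₂] [Module S M₂] [Module (R₂ D g) M₂]
    [IsScalarTower S (R₂ D g) M₂] [Module.Finite S M₂] [Module.Free S M₂] [Nontrivial M₂]
    -- problem (1)
    [Algebra S (R₁ D g)] [IsScalarTower O S (R₁ D g)]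
    {M₁ : Type*} [AddCommGroup M₁] [Module S M₁] [Module (R₁ D g) M₁]
    [IsScalarTower S (R₁ D g) M₁] [Module.Finite S M₁] [Module.Free S M₁]
    -- the common reduction
    {Mbar : Type*} [AddCommGroup Mbar] [Module (Rbar D g) Mbar]
    (g₁ : M₁ →ₛₗ[π₁ D g] Mbar) (hg₁ : Function.Surjective g₁)
    (hker₁ : ∀ m : M₁, g₁ m = 0 → m ∈ (RingHom.ker (π₁ D g)) • (⊤ : Submodule (R₁ D g) M₁))
    (g₂ : M₂ →ₛₗ[π₂ D g] Mbar) (hg₂ : Function.Surjective g₂)
    (hker₂ : ∀ m : M₂, g₂ m = 0 → m ∈ (RingHom.ker (π₂ D g)) • (⊤ : Submodule (R₂ D g) M₂)) :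
    IsAssociatedPrime (Punr D g) M₁ ∧
    ∀ (𝔞 : Ideal S) [𝔞.IsPrime],
      ∃ 𝔄 : PrimeSpectrum (R₁ D g), Punr D g ≤ 𝔄.asIdeal ∧
        𝔄.asIdeal.comap (algebraMap S (R₁ D g)) = 𝔞 ∧
        𝔄 ∈ Module.support (R₁ D g)
          (M₁ ⧸ ((Punr D g ⊔ 𝔞.map (algebraMap S (R₁ D g))) •
            (⊤ : Submodule (R₁ D g) M₁))) := by
  haveI := Punr_isPrime D g
  haveI := P₀_isPrime D g hJ
  have hlamS : algebraMap O S D.lam ≠ 0 := by
    intro h
    exact hD.irreducible_lam.ne_zero (hOS (by rw [h, map_zero]))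
  have hSfin : ringKrullDim S ≠ ⊤ := by
    rw [hdimS]
    intro h
    have h' : (((3 * Fintype.card Sig + g + 1 : ℕ) : ℕ∞) : WithBot ℕ∞) =
        ((⊤ : ℕ∞) : WithBot ℕ∞) := h
    exact ENat.natCast_ne_top _ (WithBot.coe_injective h')
  have hlam₁ : algebraMap S (R₁ D g) (algebraMap O S D.lam) =
      Ideal.Quotient.mk (I₁ D g) (C D.lam) := by
    rw [← IsScalarTower.algebraMap_apply O S (R₁ D g), algebraMap_lam_R₁]
  have hlam₂ : algebraMap S (R₂ D g) (algebraMap O S D.lam) =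
      Ideal.Quotient.mk (I₂ D g) (C D.lam) := by
    rw [← IsScalarTower.algebraMap_apply O S (R₂ D g), algebraMap_lam_R₂]
  refine ihara_avoidance_abstract (S := S) (algebraMap O S D.lam) hlamS hSfin
    (P₀ D g) ?_ ?_ (Punr D g) ?_ (π₁ D g) (π₁_surjective D g) (π₂ D g) (π₂_surjective D g)
    g₁ hg₁ hker₁ g₂ hg₂ hker₂ (Qbar D g hD) (P₀_le_comap_Qbar D g hD) ?_
  · intro P hP hlam
    haveI := hP
    rw [hlam₂] at hlam
    exact P₀_le_of_prime D g hD P hlam
  · rw [hdimS]; exact ringKrullDim_quot_P₀_le D g hD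
  · rw [hdimS]; exact ringKrullDim_quot_Punr_le D g
  · intro P hP hPQ hlam
    haveI := hP
    rw [hlam₁] at hlam
    exact Punr_le_of_prime D g hD P hPQ hlam

end

end Fermat.Agent.RB.LOC
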