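/-
PROJECT RB, block [LOC]: FINAL, hypothesis-free form of the Ihara-avoidance statement for the
explicit rings `R₁ = PS ⧸ I₁` (unipotent) and `R₂ = PS ⧸ I₂` (χ-type):
`loc_ihara_avoidance_of_J₀_isPrime` (LOC_helper4_Main) + `J₀_isPrime` (LOC_helper4_F1).  helper4.
-/
import Mathlib
import Fermat.Agent.RB.LOC_helper4_Main
import Fermat.Agent.RB.LOC_helper4_F1

set_option autoImplicit false

namespace Fermat.Agent.RB.LOC

open MvPowerSeries

variable {O : Type*} [CommRing O] {Sig : Type*} (D : Data O Sig) (g : ℕ)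

variable [IsDomain O] [IsDiscreteValuationRing O] [Fintype Sig] [DecidableEq Sig]

/-- the generic prime `P₀` of `R₂` is prime -/
theorem P₀_isPrime_of_good (hD : D.Good) : (P₀ D g).IsPrime :=
  P₀_isPrime D g (J₀_isPrime D g hD)

/-- **[LOC] main theorem.**  Steps (2)(a)-(d) of the Ihara-avoidance argument for the explicit
rings `R₁`, `R₂`: if `M₁`, `M₂` are finite free over a noetherian domain `S` of dimension
`3|Σ| + g + 1`, modules over `R₁`, `R₂` compatibly, and isomorphic modulo `λ` (as modules over the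
common reduction `Rbar`), then the unramified prime `Punr = (s_v)` of `R₁` is an associated prime of
`M₁`, and every prime `𝔞` of `S` lifts to a prime `𝔄 ⊇ Punr` of `R₁` in the support of
`M₁ / (Punr + 𝔞) M₁`. -/
theorem loc_ihara_avoidance (hD : D.Good)
    {S : Type*} [CommRing S] [IsDomain S] [IsNoetherianRing S] [Algebra O S]
    (hOS : Function.Injective (algebraMap O S))
    (hdimS : ringKrullDim S = (3 * Fintype.card Sig + g + 1 : ℕ))
    -- problem (2)
    [Algebra S (R₂ D g)] [IsScalarTower O S (R₂ D g)]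
    {M₂ : Type*} [AddCommGroup M₂] [Module S M₂] [Module (R₂ D g) M₂]
    [IsScalarTower S (R₂ D g) M₂] [Module.Finite S M₂] [Module.Free S M₂] [Nontrivial M₂]
    -- problem (1)
    [Algebra S (R₁ D g)] [IsScalarTower O S (R₁ D g)]
    {M₁ : Type*} [AddCommGroup M₁] [Module S M₁] [Module (R₁ D g) M₁]
    [IsScalarTower S (R₁ D g) M₁] [Module.Finite S M₁] [Module.Free S M₁]
    -- the common reduction
    {Mbar : Type*} [AddCommGroup Mbar] [Module (Rbar D g) Mbar]
    (g₁ : M₁ →ₛₗ[π₁ D g] Mbar) (hg₁ : Function.Surjective g₁)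
    (hker₁ : ∀ m : M₁, g₁ m = 0 → m ∈ (RingHom.ker (π₁ D g)) • (⊤ : Submodule (R₁ D g) M₁))
    (g₂ : M₂ →ₛₗ[π₂ D g] Mbar) (hg₂ : Function.Surjective g₂)
    (hker₂ : ∀ m : M₂, g₂ m = 0 → m ∈ (RingHom.ker (π₂ D g)) • (⊤ : Submodule (R₂ D g) M₂)) :
    IsAssociatedPrime (Punr D g) M₁ ∧
    ∀ (𝔞 : Ideal S) [𝔞.IsPrime],
      ∃ 𝔄 : PrimeSpectrum (R₁ D g), Punr D g ≤ 𝔄.asIdeal ∧
        𝔄.asIdeal.comap (algebraMap S (R₁ D g)) = 𝔞 ∧
        𝔄 ∈ Module.support (R₁ D g)
          (M₁ ⧸ ((Punr D g ⊔ 𝔞.map (algebraMap S (R₁ D g))) •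
            (⊤ : Submodule (R₁ D g) M₁))) :=
  loc_ihara_avoidance_of_J₀_isPrime D g hD (J₀_isPrime D g hD) hOS hdimS g₁ hg₁ hker₁ g₂ hg₂ hker₂

end Fermat.Agent.RB.LOC
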