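/-
PROJECT RB, block [PATCH] (helper9): the even subring.  `evenEmb : R⟦W_τ⟧ → R⟦Z_τ⟧`,
`W_q ↦ Z_q ^ 2`, and `R⟦Z_τ⟧` is free of rank `2 ^ |τ|` over it (basis: the squarefree
monomials).  Everything is done coefficientwise through the bijection
`x ↦ (x mod 2, x / 2)` on exponent vectors.
-/
import Mathlib

set_option autoImplicit false

namespace Fermat.Agent.RB.PATCH

open MvPowerSeries Finset

section Exponents

variable {τ : Type*}

/-- halving an exponent vector -/
noncomputable def halfE (x : τ →₀ ℕ) : τ →₀ ℕ := x.mapRange (· / 2) (by simp)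

/-- the parity of an exponent vector -/
def parE (x : τ →₀ ℕ) : τ → Fin 2 := fun q => ⟨x q % 2, Nat.mod_lt _ (by norm_num)⟩

@[simp] theorem halfE_apply (x : τ →₀ ℕ) (q : τ) : halfE x q = x q / 2 := by
  simp [halfE]

@[simp] theorem parE_apply (x : τ →₀ ℕ) (q : τ) : ((parE x q : Fin 2) : ℕ) = x q % 2 := rfl

theorem halfE_add_of_parE_eq_zero {x y : τ →₀ ℕ} (hx : parE x = 0) :
    halfE (x + y) = halfE x + halfE y := by
  ext q
  have h := congrFun hx q
  have h2 : x q % 2 = 0 := by
    have := congrArg (fun a : Fin 2 => (a : ℕ)) h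
    simpa using this
  simp only [halfE_apply, Finsupp.add_apply]
  omega

theorem parE_add_of_parE_eq_zero {x y : τ →₀ ℕ} (hx : parE x = 0) :
    parE (x + y) = parE y := by
  funext q
  have h := congrFun hx q
  have h2 : x q % 2 = 0 := by
    have := congrArg (fun a : Fin 2 => (a : ℕ)) h
    simpa using this
  apply Fin.ext
  simp only [parE_apply, Finsupp.add_apply]
  omega

theorem parE_two_smul (y : τ →₀ ℕ) : parE (2 • y) = 0 := by
  funext q
  apply Fin.ext
  simp [parE]

theorem halfE_two_smul (y : τ →₀ ℕ) : halfE (2 • y) = y := by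
  ext q
  simp [halfE_apply]

theorem two_smul_halfE_of_parE_eq_zero {x : τ →₀ ℕ} (hx : parE x = 0) : 2 • halfE x = x := by
  ext q
  have h := congrFun hx q
  have h2 : x q % 2 = 0 := by
    have := congrArg (fun a : Fin 2 => (a : ℕ)) h
    simpa using this
  simp only [Finsupp.smul_apply, halfE_apply, smul_eq_mul]
  omega

end Exponents

section Psi

variable {τ : Type*} {R : Type*} [CommRing R]

/-- the (additive) bijection `(ε ↦ a_ε) ↦ ∑_ε Z^ε a_ε(Z²)` on coefficients -/
noncomputable def psiE (a : (τ → Fin 2) → MvPowerSeries τ R) : MvPowerSeries τ R :=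
  fun x => coeff (halfE x) (a (parE x))

theorem coeff_psiE (a : (τ → Fin 2) → MvPowerSeries τ R) (x : τ →₀ ℕ) :
    coeff x (psiE a) = coeff (halfE x) (a (parE x)) := rfl

open scoped Classical in
/-- the embedding `W_q ↦ Z_q ^ 2`, as a function -/
noncomputable def evenFun (s : MvPowerSeries τ R) : MvPowerSeries τ R :=
  psiE (Pi.single 0 s)

open scoped Classical in
theorem coeff_evenFun (s : MvPowerSeries τ R) (x : τ →₀ ℕ) :
    coeff x (evenFun s) = if parE x = 0 then coeff (halfE x) s else 0 := by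
  rw [evenFun, coeff_psiE]
  by_cases h : parE x = 0
  · rw [if_pos h, h, Pi.single_eq_same]
  · rw [if_neg h, Pi.single_eq_of_ne h, map_zero]

/-- **the key identity**: `s(Z²) * Ψ(a) = Ψ(s • a)`. -/
theorem evenFun_mul_psiE (s : MvPowerSeries τ R) (a : (τ → Fin 2) → MvPowerSeries τ R) :
    evenFun s * psiE a = psiE (fun ε => s * a ε) := by
  classical
  ext x
  rw [coeff_mul, coeff_psiE, coeff_mul]
  -- restrict the left sum to the pairs with even first component
  rw [← Finset.sum_filter_add_sum_filter_not (antidiagonal x) (fun p => parE p.1 = 0)]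
  have hzero : ∑ p ∈ (antidiagonal x).filter (fun p => ¬ parE p.1 = 0),
      coeff p.1 (evenFun s) * coeff p.2 (psiE a) = 0 := by
    refine Finset.sum_eq_zero fun p hp => ?_
    rw [Finset.mem_filter] at hp
    rw [coeff_evenFun, if_neg hp.2, zero_mul]
  rw [hzero, add_zero]
  refine Finset.sum_nbij' (fun p => (halfE p.1, halfE p.2))
    (fun p' => (2 • p'.1, 2 • p'.2 + (x - 2 • halfE x))) ?_ ?_ ?_ ?_ ?_
  · intro p hp
    rw [Finset.mem_filter, HasAntidiagonal.mem_antidiagonal] at hp
    rw [HasAntidiagonal.mem_antidiagonal, ← halfE_add_of_parE_eq_zero hp.2, hp.1]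
  · intro p' hp'
    rw [HasAntidiagonal.mem_antidiagonal] at hp'
    rw [Finset.mem_filter, HasAntidiagonal.mem_antidiagonal]
    refine ⟨?_, parE_two_smul _⟩
    rw [← add_assoc, ← smul_add, hp']
    ext q
    simp only [Finsupp.add_apply, Finsupp.smul_apply, halfE_apply, smul_eq_mul,
      Finsupp.tsub_apply]
    omega
  · intro p hp
    rw [Finset.mem_filter, HasAntidiagonal.mem_antidiagonal] at hp
    refine Prod.ext (two_smul_halfE_of_parE_eq_zero hp.2) ?_
    ext q
    have h1 := congrArg (fun z : τ →₀ ℕ => z q) hp.1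
    have h2 := congrArg (fun z : τ →₀ ℕ => z q) (two_smul_halfE_of_parE_eq_zero hp.2)
    simp only [Finsupp.add_apply, Finsupp.smul_apply, halfE_apply, smul_eq_mul,
      Finsupp.tsub_apply] at h1 h2 ⊢
    omega
  · intro p' hp'
    rw [HasAntidiagonal.mem_antidiagonal] at hp'
    refine Prod.ext (halfE_two_smul _) ?_
    ext q
    have h1 := congrArg (fun z : τ →₀ ℕ => z q) hp'
    simp only [Finsupp.add_apply, Finsupp.smul_apply, halfE_apply, smul_eq_mul,
      Finsupp.tsub_apply] at h1 ⊢
    omega
  · intro p hp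
    rw [Finset.mem_filter, HasAntidiagonal.mem_antidiagonal] at hp
    rw [coeff_evenFun, if_pos hp.2, coeff_psiE]
    have : parE p.2 = parE x := by rw [← hp.1, parE_add_of_parE_eq_zero hp.2]
    rw [this]

theorem parE_eq_zero_and_halfE_eq_iff (x y : τ →₀ ℕ) :
    (parE x = 0 ∧ halfE x = y) ↔ x = 2 • y := by
  constructor
  · rintro ⟨h1, h2⟩
    rw [← h2, two_smul_halfE_of_parE_eq_zero h1]
  · rintro rfl
    exact ⟨parE_two_smul y, halfE_two_smul y⟩

theorem evenFun_monomial (y : τ →₀ ℕ) (c : R) :
    evenFun (monomial y c : MvPowerSeries τ R) = monomial (2 • y) c := by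
  classical
  ext x
  rw [coeff_evenFun, coeff_monomial, coeff_monomial]
  by_cases h : x = 2 • y
  · rw [if_pos h, if_pos ((parE_eq_zero_and_halfE_eq_iff x y).mpr h).1,
      if_pos ((parE_eq_zero_and_halfE_eq_iff x y).mpr h).2]
  · rw [if_neg h]
    by_cases h1 : parE x = 0
    · rw [if_pos h1, if_neg]
      intro h2
      exact h ((parE_eq_zero_and_halfE_eq_iff x y).mp ⟨h1, h2⟩)
    · rw [if_neg h1]

theorem evenFun_add (s t : MvPowerSeries τ R) : evenFun (s + t) = evenFun s + evenFun t := by
  classical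
  ext x
  rw [map_add, coeff_evenFun, coeff_evenFun, coeff_evenFun]
  split_ifs
  · rw [map_add]
  · rw [add_zero]

theorem evenFun_mul (s t : MvPowerSeries τ R) : evenFun (s * t) = evenFun s * evenFun t := by
  classical
  have h1 : evenFun t = psiE (Pi.single 0 t) := rfl
  have h2 : evenFun (s * t) = psiE (Pi.single 0 (s * t)) := rfl
  rw [h1, evenFun_mul_psiE, h2]
  congr 1
  funext ε
  by_cases h : ε = 0
  · rw [h, Pi.single_eq_same, Pi.single_eq_same]
  · rw [Pi.single_eq_of_ne h, Pi.single_eq_of_ne h, mul_zero]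

variable (τ R) in
/-- **the even embedding** `R⟦W⟧ → R⟦Z⟧`, `W_q ↦ Z_q ^ 2`. -/
noncomputable def evenEmb : MvPowerSeries τ R →ₐ[R] MvPowerSeries τ R where
  toFun := evenFun
  map_one' := by
    have h : (1 : MvPowerSeries τ R) = monomial 0 1 := rfl
    rw [h, evenFun_monomial, smul_zero]
  map_mul' := evenFun_mul
  map_zero' := by
    have h : (0 : MvPowerSeries τ R) = monomial 0 0 := by rw [map_zero]
    rw [h, evenFun_monomial, map_zero, map_zero]
  map_add' := evenFun_add
  commutes' c := by
    have h : algebraMap R (MvPowerSeries τ R) c = monomial 0 c := rfl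
    rw [h, evenFun_monomial, smul_zero]

theorem evenEmb_apply (s : MvPowerSeries τ R) : evenEmb τ R s = evenFun s := rfl

theorem evenEmb_X (q : τ) : evenEmb τ R (X q) = X q ^ 2 := by
  classical
  rw [evenEmb_apply, X_pow_eq, X, evenFun_monomial, Finsupp.smul_single, smul_eq_mul, mul_one]

theorem evenEmb_C (c : R) : evenEmb τ R (C c) = C c := by
  have h : (C c : MvPowerSeries τ R) = monomial 0 c := rfl
  rw [evenEmb_apply, h, evenFun_monomial, smul_zero]

theorem evenEmb_mul_psiE (s : MvPowerSeries τ R) (a : (τ → Fin 2) → MvPowerSeries τ R) :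
    evenEmb τ R s * psiE a = psiE (fun ε => s * a ε) := evenFun_mul_psiE s a

end Psi

section Module

variable (τ : Type*) (R : Type*) [CommRing R]

/-- `R⟦Z⟧` viewed as a module over `R⟦W⟧` through `W_q ↦ Z_q ^ 2` -/
def EvenMod : Type _ := MvPowerSeries τ R

noncomputable instance : AddCommGroup (EvenMod τ R) :=
  inferInstanceAs (AddCommGroup (MvPowerSeries τ R))

noncomputable instance : Module (MvPowerSeries τ R) (EvenMod τ R) :=
  Module.compHom (MvPowerSeries τ R) (evenEmb τ R).toRingHom

variable {τ R}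

/-- the identity `R⟦Z⟧ → EvenMod` -/
def EvenMod.of (f : MvPowerSeries τ R) : EvenMod τ R := f

/-- the identity `EvenMod → R⟦Z⟧` -/
def EvenMod.val (m : EvenMod τ R) : MvPowerSeries τ R := m

@[simp] theorem EvenMod.val_of (f : MvPowerSeries τ R) : (EvenMod.of f).val = f := rfl
@[simp] theorem EvenMod.of_val (m : EvenMod τ R) : EvenMod.of m.val = m := rfl
theorem EvenMod.val_add (m m' : EvenMod τ R) : (m + m').val = m.val + m'.val := rfl
theorem EvenMod.val_zero : (0 : EvenMod τ R).val = 0 := rfl
theorem EvenMod.val_smul (s : MvPowerSeries τ R) (m : EvenMod τ R) :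
    (s • m).val = evenEmb τ R s * m.val := rfl

theorem EvenMod.ext {m m' : EvenMod τ R} (h : m.val = m'.val) : m = m' := h

variable [Finite τ]

/-- the exponent vector of a squarefree monomial -/
noncomputable def toE (ε : τ → Fin 2) : τ →₀ ℕ :=
  Finsupp.equivFunOnFinite.symm fun q => ((ε q : Fin 2) : ℕ)

@[simp] theorem toE_apply (ε : τ → Fin 2) (q : τ) : toE ε q = ((ε q : Fin 2) : ℕ) := rfl

theorem halfE_two_smul_add_toE (y : τ →₀ ℕ) (ε : τ → Fin 2) : halfE (2 • y + toE ε) = y := by
  ext q
  have := (ε q).isLt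
  simp only [halfE_apply, Finsupp.add_apply, Finsupp.smul_apply, smul_eq_mul, toE_apply]
  omega

theorem parE_two_smul_add_toE (y : τ →₀ ℕ) (ε : τ → Fin 2) : parE (2 • y + toE ε) = ε := by
  funext q
  apply Fin.ext
  have := (ε q).isLt
  simp only [parE_apply, Finsupp.add_apply, Finsupp.smul_apply, smul_eq_mul, toE_apply]
  omega

theorem two_smul_halfE_add_toE_parE (x : τ →₀ ℕ) : 2 • halfE x + toE (parE x) = x := by
  ext q
  simp only [Finsupp.add_apply, Finsupp.smul_apply, halfE_apply, smul_eq_mul, toE_apply,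
    parE_apply]
  omega

/-- **`R⟦Z⟧` is free over `R⟦Z²⟧` on the squarefree monomials.** -/
noncomputable def psiEquiv :
    ((τ → Fin 2) → MvPowerSeries τ R) ≃ₗ[MvPowerSeries τ R] EvenMod τ R where
  toFun a := EvenMod.of (psiE a)
  map_add' a a' := by
    apply EvenMod.ext
    ext x
    simp only [EvenMod.val_add, EvenMod.val_of, map_add, coeff_psiE, Pi.add_apply]
  map_smul' s a := by
    apply EvenMod.ext
    rw [RingHom.id_apply, EvenMod.val_smul, EvenMod.val_of, EvenMod.val_of, evenEmb_mul_psiE]
    rfl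
  invFun m := fun ε => fun y => coeff (2 • y + toE ε) m.val
  left_inv a := by
    funext ε
    ext y
    change coeff (2 • y + toE ε) (psiE a) = coeff y (a ε)
    rw [coeff_psiE, halfE_two_smul_add_toE, parE_two_smul_add_toE]
  right_inv m := by
    apply EvenMod.ext
    ext x
    change coeff (halfE x) (fun y => coeff (2 • y + toE (parE x)) m.val) = coeff x m.val
    change coeff (2 • halfE x + toE (parE x)) m.val = coeff x m.val
    rw [two_smul_halfE_add_toE_parE]

noncomputable instance : Module.Free (MvPowerSeries τ R) (EvenMod τ R) :=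
  Module.Free.of_equiv (psiEquiv (τ := τ) (R := R))

noncomputable instance : Module.Finite (MvPowerSeries τ R) (EvenMod τ R) :=
  Module.Finite.equiv (psiEquiv (τ := τ) (R := R))

end Module

end Fermat.Agent.RB.PATCH
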