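/-
PROJECT RB, block [PATCH] (helper9): matrices over `R⟦Z⟧` acting on `R⟦Z⟧^d`, the latter viewed
as a module over `R⟦W⟧` through `W_q ↦ Z_q ^ 2` (`EvenMod`).
-/
import Mathlib
import Fermat.Agent.RB.PATCH_helper9_Even

set_option autoImplicit false
set_option linter.unusedSectionVars false

namespace Fermat.Agent.RB.PATCH

open MvPowerSeries

section MatEnd

variable {τ : Type*} {R : Type*} [CommRing R] {d : ℕ}

/-- the underlying vector of power series -/
def toVec (m : Fin d → EvenMod τ R) : Fin d → MvPowerSeries τ R := fun k => (m k).val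

/-- a vector of power series as an element of the module -/
def ofVec (v : Fin d → MvPowerSeries τ R) : Fin d → EvenMod τ R := fun k => EvenMod.of (v k)

@[simp] theorem toVec_ofVec (v : Fin d → MvPowerSeries τ R) : toVec (ofVec v) = v := rfl
@[simp] theorem ofVec_toVec (m : Fin d → EvenMod τ R) : ofVec (toVec m) = m := rfl
theorem toVec_apply (m : Fin d → EvenMod τ R) (k : Fin d) : toVec m k = (m k).val := rfl
theorem toVec_add (m m' : Fin d → EvenMod τ R) : toVec (m + m') = toVec m + toVec m' := rfl
theorem toVec_zero : toVec (0 : Fin d → EvenMod τ R) = 0 := rfl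
theorem ofVec_add (v v' : Fin d → MvPowerSeries τ R) : ofVec (v + v') = ofVec v + ofVec v' := rfl
theorem toVec_smul (s : MvPowerSeries τ R) (m : Fin d → EvenMod τ R) :
    toVec (s • m) = evenEmb τ R s • toVec m := rfl
theorem ofVec_smul (s : MvPowerSeries τ R) (v : Fin d → MvPowerSeries τ R) :
    ofVec (evenEmb τ R s • v) = s • ofVec v := rfl
theorem toVec_injective : Function.Injective (toVec (τ := τ) (R := R) (d := d)) := fun _ _ h => h

/-- a matrix over `R⟦Z⟧` as an `R⟦W⟧`-linear endomorphism of `R⟦Z⟧^d` -/
noncomputable def matEnd (A : Matrix (Fin d) (Fin d) (MvPowerSeries τ R)) :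
    Module.End (MvPowerSeries τ R) (Fin d → EvenMod τ R) where
  toFun m := ofVec (A.mulVec (toVec m))
  map_add' m m' := by rw [toVec_add, Matrix.mulVec_add, ofVec_add]
  map_smul' s m := by rw [toVec_smul, Matrix.mulVec_smul, ofVec_smul, RingHom.id_apply]

theorem toVec_matEnd (A : Matrix (Fin d) (Fin d) (MvPowerSeries τ R)) (m : Fin d → EvenMod τ R) :
    toVec (matEnd A m) = A.mulVec (toVec m) := rfl

/-- `matEnd` as a ring homomorphism -/
noncomputable def matEndHom : Matrix (Fin d) (Fin d) (MvPowerSeries τ R) →+*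
    Module.End (MvPowerSeries τ R) (Fin d → EvenMod τ R) where
  toFun := matEnd
  map_one' := LinearMap.ext fun m => toVec_injective (by
    rw [toVec_matEnd, Matrix.one_mulVec]; rfl)
  map_mul' A B := LinearMap.ext fun m => toVec_injective (by
    rw [toVec_matEnd, Module.End.mul_apply, toVec_matEnd, toVec_matEnd, Matrix.mulVec_mulVec])
  map_zero' := LinearMap.ext fun m => toVec_injective (by
    rw [toVec_matEnd, Matrix.zero_mulVec]; rfl)
  map_add' A B := LinearMap.ext fun m => toVec_injective (by
    rw [toVec_matEnd, Matrix.add_mulVec]; rfl)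

theorem matEndHom_apply (A : Matrix (Fin d) (Fin d) (MvPowerSeries τ R))
    (m : Fin d → EvenMod τ R) : toVec (matEndHom A m) = A.mulVec (toVec m) := rfl

/-- a scalar matrix `s(Z²) · 1` acts as the scalar `s` -/
theorem matEndHom_scalar (s : MvPowerSeries τ R) (A : Matrix (Fin d) (Fin d) (MvPowerSeries τ R))
    (hA : ∀ j k, A j k = if j = k then evenEmb τ R s else 0) (m : Fin d → EvenMod τ R) :
    matEndHom A m = s • m := by
  apply toVec_injective
  rw [matEndHom_apply, toVec_smul]
  funext j
  rw [Matrix.mulVec, dotProduct, Finset.sum_eq_single j]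
  · rw [hA, if_pos rfl]; rfl
  · intro k _ hk
    rw [hA, if_neg (Ne.symm hk), zero_mul]
  · intro h; exact absurd (Finset.mem_univ j) h

end MatEnd

end Fermat.Agent.RB.PATCH
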