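/-
PROJECT RB, block [PATCH] (helper9): basic tools for the abstract patching theorem.

* `exists_compatible_of_finite` : König's lemma for a tower of finite nonempty sets;
* `exists_lim`, `exists_limMat`, `mat_ext_of_mk` : limits of compatible residues (entrywise for
  matrices) in an adically complete ring;
* `limAlgHom` : a compatible tower of algebra homs `P →ₐ[𝒪] Mat_d(B ⧸ J ^ n)` has a limit
  `P →ₐ[𝒪] Mat_d(B)`.
-/
import Mathlib

set_option autoImplicit false

namespace Fermat.Agent.RB.PATCH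

open CategoryTheory

universe u

/-- König's lemma for a tower of finite nonempty sets. -/
theorem exists_compatible_of_finite {X : ℕ → Type u} [∀ n, Finite (X n)] [∀ n, Nonempty (X n)]
    (t : ∀ n, X (n + 1) → X n) : ∃ x : ∀ n, X n, ∀ n, t n (x (n + 1)) = x n := by
  let F : ℕᵒᵖ ⥤ Type u := Functor.ofOpSequence (X := X) (fun n => TypeCat.ofHom (t n))
  have : ∀ j : ℕᵒᵖ, Finite (F.obj j) := fun j => inferInstanceAs (Finite (X j.unop))
  have : ∀ j : ℕᵒᵖ, Nonempty (F.obj j) := fun j => inferInstanceAs (Nonempty (X j.unop))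
  obtain ⟨s, hs⟩ := nonempty_sections_of_finite_inverse_system F
  refine ⟨fun n => s (Opposite.op n), fun n => ?_⟩
  have h := hs (homOfLE (Nat.le_add_right n 1)).op
  rw [Functor.ofOpSequence_map_homOfLE_succ] at h
  exact h

section Lim

variable {B : Type*} [CommRing B] (J : Ideal B)

/-- compatibility along successive truncations implies compatibility along all truncations -/
theorem factorPow_eq_of_succ (x : ∀ n, B ⧸ J ^ n)
    (hx : ∀ n, Ideal.Quotient.factorPowSucc J n (x (n + 1)) = x n) {m n : ℕ} (hmn : m ≤ n) :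
    Ideal.Quotient.factorPow J hmn (x n) = x m := by
  induction n, hmn using Nat.le_induction with
  | base =>
    obtain ⟨z, hz⟩ := Ideal.Quotient.mk_surjective (x m)
    rw [← hz]; rfl
  | succ n hmn ih =>
    obtain ⟨z, hz⟩ := Ideal.Quotient.mk_surjective (x (n + 1))
    have h1 := hx n
    have h3 : Ideal.Quotient.mk (J ^ n) z = x n := by rw [← h1, ← hz]; rfl
    have h4 : Ideal.Quotient.mk (J ^ m) z = x m := by rw [← ih, ← h3]; rfl
    rw [← hz, ← h4]; rfl

/-- a compatible system of residues has a limit -/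
theorem exists_lim [IsPrecomplete J B] (x : ∀ n, B ⧸ J ^ n)
    (hx : ∀ n, Ideal.Quotient.factorPowSucc J n (x (n + 1)) = x n) :
    ∃ b : B, ∀ n, Ideal.Quotient.mk (J ^ n) b = x n := by
  choose y hy using fun n => Ideal.Quotient.mk_surjective (x n)
  have hcomp : ∀ {m n : ℕ}, m ≤ n → Ideal.Quotient.mk (J ^ m) (y n) = x m := by
    intro m n hmn
    have h := factorPow_eq_of_succ J x hx hmn
    rw [← hy n] at h
    exact h
  obtain ⟨L, hL⟩ := IsPrecomplete.prec' (I := J) y (by
    intro m n hmn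
    rw [SModEq.sub_mem, smul_eq_mul, Ideal.mul_top, ← Ideal.Quotient.eq, hy m, hcomp hmn])
  refine ⟨L, fun n => ?_⟩
  have h := hL n
  rw [SModEq.sub_mem, smul_eq_mul, Ideal.mul_top, ← Ideal.Quotient.eq] at h
  rw [← h, hy]

/-- two elements with the same residues are equal -/
theorem eq_of_forall_mk_eq [IsHausdorff J B] {a b : B}
    (h : ∀ n, Ideal.Quotient.mk (J ^ n) a = Ideal.Quotient.mk (J ^ n) b) : a = b := by
  rw [IsHausdorff.eq_iff_smodEq (I := J)]
  intro n
  rw [SModEq.sub_mem, smul_eq_mul, Ideal.mul_top, ← Ideal.Quotient.eq]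
  exact h n

variable {d : Type*}

/-- a compatible system of matrices of residues has a limit -/
theorem exists_limMat [IsPrecomplete J B] (A : ∀ n, Matrix d d (B ⧸ J ^ n))
    (hA : ∀ n, (A (n + 1)).map (Ideal.Quotient.factorPowSucc J n) = A n) :
    ∃ M : Matrix d d B, ∀ n, M.map (Ideal.Quotient.mk (J ^ n)) = A n := by
  have h : ∀ j k : d, ∃ b : B, ∀ n, Ideal.Quotient.mk (J ^ n) b = A n j k := by
    intro j k
    refine exists_lim J (fun n => A n j k) (fun n => ?_)
    have := congrFun (congrFun (hA n) j) k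
    simpa [Matrix.map_apply] using this
  choose b hb using h
  exact ⟨Matrix.of b, fun n => by ext j k; simp [Matrix.map_apply, hb]⟩

/-- two matrices with the same residues are equal -/
theorem mat_ext_of_mk [IsHausdorff J B] {M N : Matrix d d B}
    (h : ∀ n, M.map (Ideal.Quotient.mk (J ^ n)) = N.map (Ideal.Quotient.mk (J ^ n))) : M = N := by
  ext j k
  refine eq_of_forall_mk_eq J (fun n => ?_)
  have := congrFun (congrFun (h n) j) k
  simpa [Matrix.map_apply] using this

end Lim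

section LimAlgHom

variable (𝒪 : Type*) [CommRing 𝒪] {B : Type*} [CommRing B] [Algebra 𝒪 B] (J : Ideal B)
  {P : Type*} [Semiring P] [Algebra 𝒪 P] {d : Type*} [Fintype d] [DecidableEq d]

/-- reduction of matrices modulo `J ^ n` -/
noncomputable abbrev mkMat (n : ℕ) : Matrix d d B →ₐ[𝒪] Matrix d d (B ⧸ J ^ n) :=
  (Ideal.Quotient.mkₐ 𝒪 (J ^ n)).mapMatrix

/-- truncation of matrices from level `n + 1` to level `n` -/
noncomputable abbrev facMat (n : ℕ) :
    Matrix d d (B ⧸ J ^ (n + 1)) →ₐ[𝒪] Matrix d d (B ⧸ J ^ n) :=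
  (Ideal.Quotient.factorₐ 𝒪 (Ideal.pow_le_pow_right (Nat.le_succ n))).mapMatrix

theorem mkMat_apply (n : ℕ) (M : Matrix d d B) (j k : d) :
    mkMat 𝒪 J n M j k = Ideal.Quotient.mk (J ^ n) (M j k) := rfl

theorem facMat_apply (n : ℕ) (M : Matrix d d (B ⧸ J ^ (n + 1))) (j k : d) :
    facMat 𝒪 J n M j k = Ideal.Quotient.factorPowSucc J n (M j k) := rfl

theorem facMat_mkMat (n : ℕ) (M : Matrix d d B) :
    facMat 𝒪 J n (mkMat 𝒪 J (n + 1) M) = mkMat 𝒪 J n M := by
  ext j k; rfl

theorem mat_ext_of_mkMat [IsHausdorff J B] {M N : Matrix d d B}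
    (h : ∀ n, mkMat 𝒪 J n M = mkMat 𝒪 J n N) : M = N :=
  mat_ext_of_mk J h

/-- a compatible tower of algebra homs into matrices over the truncations `B ⧸ J ^ n` has a
limit. -/
theorem exists_limAlgHom [IsAdicComplete J B] (φ : ∀ n, P →ₐ[𝒪] Matrix d d (B ⧸ J ^ n))
    (hφ : ∀ n f, facMat 𝒪 J n (φ (n + 1) f) = φ n f) :
    ∃ Φ : P →ₐ[𝒪] Matrix d d B, ∀ n f, mkMat 𝒪 J n (Φ f) = φ n f := by
  have h : ∀ f : P, ∃ M : Matrix d d B, ∀ n, mkMat 𝒪 J n M = φ n f := fun f =>
    exists_limMat J (fun n => φ n f) (fun n => hφ n f)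
  choose Φ₀ hΦ₀ using h
  refine ⟨{ toFun := Φ₀
            map_one' := ?_
            map_mul' := ?_
            map_zero' := ?_
            map_add' := ?_
            commutes' := ?_ }, fun n f => hΦ₀ f n⟩
  · refine mat_ext_of_mkMat 𝒪 J (fun n => ?_)
    rw [hΦ₀, map_one, map_one]
  · intro f g
    refine mat_ext_of_mkMat 𝒪 J (fun n => ?_)
    rw [hΦ₀, map_mul, map_mul, hΦ₀, hΦ₀]
  · refine mat_ext_of_mkMat 𝒪 J (fun n => ?_)
    rw [hΦ₀, map_zero, map_zero]
  · intro f g
    refine mat_ext_of_mkMat 𝒪 J (fun n => ?_)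
    rw [hΦ₀, map_add, map_add, hΦ₀, hΦ₀]
  · intro c
    refine mat_ext_of_mkMat 𝒪 J (fun n => ?_)
    rw [hΦ₀, AlgHom.commutes, AlgHom.commutes]

end LimAlgHom

end Fermat.Agent.RB.PATCH
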