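/-
PROJECT RB, block [PATCH] (helper9): automatic continuity of ring homs from a local ring into a
finite ring, and rigidity / finiteness of algebra homs from a power series ring into a finite
algebra.
-/
import Mathlib
import Fermat.Agent.S53.PowerSeries

set_option autoImplicit false

namespace Fermat.Agent.RB.PATCH

open IsLocalRing MvPowerSeries

/-- A ring hom from a (commutative) local ring into a finite ring kills a power of the maximal
ideal. -/
theorem exists_maximalIdeal_pow_le_ker {P : Type*} [CommRing P] [IsLocalRing P] {A : Type*}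
    [Ring A] [Finite A] (f : P →+* A) : ∃ N : ℕ, maximalIdeal P ^ N ≤ RingHom.ker f := by
  by_cases hk : RingHom.ker f = ⊤
  · exact ⟨0, by rw [hk]; exact le_top⟩
  have hfin : Finite (P ⧸ RingHom.ker f) := Finite.of_injective _ (RingHom.kerLift_injective f)
  have hart : IsArtinianRing (P ⧸ RingHom.ker f) := isArtinian_of_finite
  obtain ⟨N, hN⟩ := IsArtinianRing.isNilpotent_jacobson_bot (R := P ⧸ RingHom.ker f)
  refine ⟨N, fun x hx => ?_⟩
  have h1 : Ideal.map (Ideal.Quotient.mk (RingHom.ker f)) (RingHom.ker f).jacobson =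
      (Ideal.map (Ideal.Quotient.mk (RingHom.ker f)) (RingHom.ker f)).jacobson :=
    Ideal.map_jacobson_of_surjective Ideal.Quotient.mk_surjective (by rw [Ideal.mk_ker])
  rw [Ideal.map_quotient_self, IsLocalRing.jacobson_eq_maximalIdeal _ hk] at h1
  have h2 : Ideal.Quotient.mk (RingHom.ker f) x ∈
      (Ideal.map (Ideal.Quotient.mk (RingHom.ker f)) (maximalIdeal P)) ^ N := by
    rw [← Ideal.map_pow]; exact Ideal.mem_map_of_mem _ hx
  rw [h1, hN] at h2
  exact Ideal.Quotient.eq_zero_iff_mem.mp h2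

section PS

variable {𝒪 : Type*} [CommRing 𝒪] [IsLocalRing 𝒪] {σ : Type*} [Finite σ]
  {A : Type*} [Ring A] [Algebra 𝒪 A]

/-- An algebra hom out of a power series ring killing `𝔐 ^ N` is determined by its restriction
to polynomials. -/
theorem algHom_apply_eq_truncTotal (f : MvPowerSeries σ 𝒪 →ₐ[𝒪] A) (N : ℕ)
    (hf : maximalIdeal (MvPowerSeries σ 𝒪) ^ N ≤ RingHom.ker (f : MvPowerSeries σ 𝒪 →+* A))
    (t : MvPowerSeries σ 𝒪) :
    f t = f ((truncTotal N t : MvPolynomial σ 𝒪) : MvPowerSeries σ 𝒪) := by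
  have h1 : t - ((truncTotal N t : MvPolynomial σ 𝒪) : MvPowerSeries σ 𝒪) ∈
      maximalIdeal (MvPowerSeries σ 𝒪) ^ N := by
    refine Fermat.Agent.S53.PS.mem_maximalIdeal_pow_of_coeff_eq_zero fun x hx => ?_
    rw [map_sub, MvPolynomial.coeff_coe, coeff_truncTotal _ hx, sub_self]
  have h2 := hf h1
  rw [RingHom.mem_ker, RingHom.coe_coe, map_sub, sub_eq_zero] at h2
  exact h2

/-- Two algebra homs from a power series ring (over a local ring, finitely many variables) into a
finite algebra which agree on the variables are equal. -/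
theorem algHom_ext_of_finite [Finite A] {f g : MvPowerSeries σ 𝒪 →ₐ[𝒪] A}
    (h : ∀ i, f (X i) = g (X i)) : f = g := by
  obtain ⟨N₁, hN₁⟩ := exists_maximalIdeal_pow_le_ker (f : MvPowerSeries σ 𝒪 →+* A)
  obtain ⟨N₂, hN₂⟩ := exists_maximalIdeal_pow_le_ker (g : MvPowerSeries σ 𝒪 →+* A)
  have hf : maximalIdeal (MvPowerSeries σ 𝒪) ^ (max N₁ N₂) ≤
      RingHom.ker (f : MvPowerSeries σ 𝒪 →+* A) :=
    le_trans (Ideal.pow_le_pow_right (le_max_left _ _)) hN₁
  have hg : maximalIdeal (MvPowerSeries σ 𝒪) ^ (max N₁ N₂) ≤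
      RingHom.ker (g : MvPowerSeries σ 𝒪 →+* A) :=
    le_trans (Ideal.pow_le_pow_right (le_max_right _ _)) hN₂
  have hpoly : f.comp (MvPolynomial.coeToMvPowerSeries.algHom 𝒪) =
      g.comp (MvPolynomial.coeToMvPowerSeries.algHom 𝒪) := by
    apply MvPolynomial.algHom_ext
    intro i
    simp [MvPolynomial.coeToMvPowerSeries.algHom_apply, h i]
  ext t
  rw [algHom_apply_eq_truncTotal f _ hf t, algHom_apply_eq_truncTotal g _ hg t]
  have := congrArg (fun ψ : MvPolynomial σ 𝒪 →ₐ[𝒪] A => ψ (truncTotal (max N₁ N₂) t)) hpoly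
  simpa [MvPolynomial.coeToMvPowerSeries.algHom_apply] using this

/-- There are only finitely many algebra homs from a power series ring into a finite algebra. -/
theorem finite_algHom [Finite A] : Finite (MvPowerSeries σ 𝒪 →ₐ[𝒪] A) :=
  Finite.of_injective (fun f : MvPowerSeries σ 𝒪 →ₐ[𝒪] A => fun i : σ => f (X i))
    (fun _ _ h => algHom_ext_of_finite (fun i => congrFun h i))

end PS

section Quot

variable {𝒪 : Type*} [CommRing 𝒪] [IsLocalRing 𝒪] {σ : Type*}

/-- the residue field of a power series ring is a quotient of the residue field of the base -/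
theorem finite_residueField_mvPowerSeries [Finite (ResidueField 𝒪)] :
    Finite (MvPowerSeries σ 𝒪 ⧸ maximalIdeal (MvPowerSeries σ 𝒪)) := by
  let φ : 𝒪 →+* MvPowerSeries σ 𝒪 ⧸ maximalIdeal (MvPowerSeries σ 𝒪) :=
    (Ideal.Quotient.mk _).comp (C (σ := σ) (R := 𝒪))
  have hφ : ∀ a ∈ maximalIdeal 𝒪, φ a = 0 := by
    intro a ha
    change Ideal.Quotient.mk _ (C a) = 0
    rw [Ideal.Quotient.eq_zero_iff_mem, Fermat.Agent.S53.PS.mem_maximalIdeal_iff]
    simpa using ha
  let ψ : ResidueField 𝒪 →+* MvPowerSeries σ 𝒪 ⧸ maximalIdeal (MvPowerSeries σ 𝒪) :=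
    Ideal.Quotient.lift _ φ hφ
  refine Finite.of_surjective ψ (fun y => ?_)
  obtain ⟨f, rfl⟩ := Ideal.Quotient.mk_surjective y
  refine ⟨Ideal.Quotient.mk _ (constantCoeff f), ?_⟩
  change Ideal.Quotient.mk _ (C (constantCoeff f)) = Ideal.Quotient.mk _ f
  rw [Ideal.Quotient.eq, Fermat.Agent.S53.PS.mem_maximalIdeal_iff]
  simp

/-- truncations of a power series ring over a complete local ring with finite residue field are
finite -/
theorem finite_quotient_maximalIdeal_pow [Finite σ] [IsNoetherianRing 𝒪]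
    [Finite (ResidueField 𝒪)] (n : ℕ) :
    Finite (MvPowerSeries σ 𝒪 ⧸ maximalIdeal (MvPowerSeries σ 𝒪) ^ n) := by
  have := finite_residueField_mvPowerSeries (𝒪 := 𝒪) (σ := σ)
  exact Ideal.finite_quotient_pow (IsNoetherian.noetherian _) n

end Quot

end Fermat.Agent.RB.PATCH
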