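/-
PROJECT RB, block [PATCH] (helper9): the abstract (matrix) patching theorem.

`P = 𝒪⟦x_σ⟧` (the ring carrying the local deformation problems), `S = 𝒪⟦y_τ⟧` (the ring of
diamond operators), `d` the rank.  A *problem* consists of ideals `I i ⊆ P` (`i : ι`), an ideal
`L ⊆ S`, elements `u q ∈ S` (`q : κ`), a slot `i₀`, test elements `test t ∈ P` (`t : κ'`) and a
submodule `C0 ⊆ 𝒪 ^ d`.

A *solution at level `n`* is a family of algebra homs `φ i : P →ₐ[𝒪] Mat_d(S ⧸ 𝔫 ^ n)` such that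
  (K) `φ i` kills `I i`;
  (A) `φ i ≡ φ i'` entrywise modulo `L`;
  (C) the columns of the constant terms of the matrices `φ i₀ (test t)` span `C0` modulo `𝔪 ^ n`;
  (F) every scalar matrix `u q` is of the form `φ i G` with `G ∈ 𝔐_P`.
`exists_patched`: if there is a solution at every level, there is a solution over `S` itself.
-/
import Mathlib
import Fermat.Agent.RB.PATCH_helper9_Basic
import Fermat.Agent.RB.PATCH_helper9_Finite

set_option autoImplicit false

namespace Fermat.Agent.RB.PATCH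

open IsLocalRing MvPowerSeries

/-- every ideal of a noetherian local ring is closed for the adic topology -/
theorem mem_of_forall_mk_mem_map {R : Type*} [CommRing R] [IsLocalRing R] [IsNoetherianRing R]
    (L : Ideal R) (x : R)
    (h : ∀ n : ℕ, Ideal.Quotient.mk (maximalIdeal R ^ n) x ∈
      L.map (Ideal.Quotient.mk (maximalIdeal R ^ n))) : x ∈ L := by
  rw [← Ideal.Quotient.eq_zero_iff_mem]
  refine IsHausdorff.haus' (I := maximalIdeal R) (M := R ⧸ L) _ (fun n => ?_)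
  rw [SModEq.zero]
  obtain ⟨l, hl, hlx⟩ := (Ideal.mem_map_iff_of_surjective _ Ideal.Quotient.mk_surjective).mp (h n)
  rw [Ideal.Quotient.eq] at hlx
  have h1 : Ideal.Quotient.mk L x = (x - l) • (Ideal.Quotient.mk L 1) := by
    have h2 : (x - l) • (Ideal.Quotient.mk L 1) = Ideal.Quotient.mk L ((x - l) * 1) := rfl
    rw [h2, mul_one, map_sub, Ideal.Quotient.eq_zero_iff_mem.mpr hl, sub_zero]
  rw [h1]
  refine Submodule.smul_mem_smul ?_ Submodule.mem_top
  have : x - l = -(l - x) := by ring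
  rw [this]
  exact neg_mem hlx

/-- every submodule of `𝒪 ^ d` (`𝒪` noetherian local) is closed for the adic topology -/
theorem mem_submodule_of_forall {R : Type*} [CommRing R] [IsLocalRing R] [IsNoetherianRing R]
    {d : ℕ} (W : Submodule R (Fin d → R)) (x : Fin d → R)
    (h : ∀ n : ℕ, ∃ w ∈ W, ∀ j, Ideal.Quotient.mk (maximalIdeal R ^ n) (x j) =
      Ideal.Quotient.mk (maximalIdeal R ^ n) (w j)) : x ∈ W := by
  rw [← Submodule.Quotient.mk_eq_zero]
  refine IsHausdorff.haus' (I := maximalIdeal R) (M := (Fin d → R) ⧸ W) _ (fun n => ?_)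
  rw [SModEq.zero]
  obtain ⟨w, hw, hxw⟩ := h n
  have h1 : (Submodule.Quotient.mk x : (Fin d → R) ⧸ W) = Submodule.Quotient.mk (x - w) := by
    rw [Submodule.Quotient.mk_sub, (Submodule.Quotient.mk_eq_zero W).mpr hw, sub_zero]
  have h2 : x - w = ∑ j, (x j - w j) • (Pi.single j (1 : R) : Fin d → R) := by
    funext i
    simp [Finset.sum_apply, Pi.single_apply]
  rw [h1, h2, ← Submodule.mkQ_apply, map_sum]
  refine Submodule.sum_mem _ fun j _ => ?_
  rw [map_smul]
  refine Submodule.smul_mem_smul ?_ Submodule.mem_top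
  rw [← Ideal.Quotient.eq]
  exact hxw j

section Setup

variable (𝒪 : Type*) [CommRing 𝒪] (σ τ ι κ κ' : Type*) (d : ℕ)

/-- the data of a patching problem -/
structure Problem where
  /-- the relations of the `i`-th local deformation problem -/
  I : ι → Ideal (MvPowerSeries σ 𝒪)
  /-- the ideal modulo which the problems are identified (e.g. `(λ)`) -/
  L : Ideal (MvPowerSeries τ 𝒪)
  /-- the scalars which have to come from `P` -/
  u : κ → MvPowerSeries τ 𝒪
  /-- the slot with a control condition -/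
  i₀ : ι
  /-- the test elements of the control condition -/
  test : κ' → MvPowerSeries σ 𝒪
  /-- the prescribed span at level zero -/
  C0 : Submodule 𝒪 (Fin d → 𝒪)

end Setup

variable {𝒪 : Type*} [CommRing 𝒪] [IsLocalRing 𝒪] {σ τ ι κ κ' : Type*} [Fintype κ'] {d : ℕ}

/-- the augmentation `S ⧸ 𝔫 ^ n → 𝒪 ⧸ 𝔪 ^ n` -/
noncomputable def augn (𝒪 : Type*) [CommRing 𝒪] [IsLocalRing 𝒪] (τ : Type*) (n : ℕ) :
    MvPowerSeries τ 𝒪 ⧸ maximalIdeal (MvPowerSeries τ 𝒪) ^ n →+* 𝒪 ⧸ maximalIdeal 𝒪 ^ n :=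
  Ideal.quotientMap (maximalIdeal 𝒪 ^ n) (constantCoeff (σ := τ) (R := 𝒪)) (by
    have h1 : maximalIdeal (MvPowerSeries τ 𝒪) ≤
        (maximalIdeal 𝒪).comap (constantCoeff (σ := τ) (R := 𝒪)) := fun f hf =>
      (Fermat.Agent.S53.PS.mem_maximalIdeal_iff f).mp hf
    exact (Ideal.pow_right_mono h1 n).trans (Ideal.le_comap_pow _ n))

theorem augn_mk (n : ℕ) (f : MvPowerSeries τ 𝒪) :
    augn 𝒪 τ n (Ideal.Quotient.mk _ f) = Ideal.Quotient.mk _ (constantCoeff f) := rfl

theorem augn_factorPowSucc (n : ℕ)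
    (x : MvPowerSeries τ 𝒪 ⧸ maximalIdeal (MvPowerSeries τ 𝒪) ^ (n + 1)) :
    augn 𝒪 τ n (Ideal.Quotient.factorPowSucc _ n x) =
      Ideal.Quotient.factorPowSucc _ n (augn 𝒪 τ (n + 1) x) := by
  obtain ⟨f, rfl⟩ := Ideal.Quotient.mk_surjective x
  rfl

/-- a solution of the patching problem at level `n` -/
structure Sol (Pb : Problem 𝒪 σ τ ι κ κ' d) (n : ℕ) where
  /-- the actions -/
  φ : ι → MvPowerSeries σ 𝒪 →ₐ[𝒪]
    Matrix (Fin d) (Fin d) (MvPowerSeries τ 𝒪 ⧸ maximalIdeal (MvPowerSeries τ 𝒪) ^ n)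
  /-- the elements realizing the scalars `u q`, modulo `𝔐 ^ n` -/
  F : ι → κ → MvPowerSeries σ 𝒪 ⧸ maximalIdeal (MvPowerSeries σ 𝒪) ^ n
  kill : ∀ i, ∀ f ∈ Pb.I i, φ i f = 0
  agree : ∀ i i' f j k, φ i f j k - φ i' f j k ∈ Pb.L.map (Ideal.Quotient.mk _)
  ctl_ge : ∀ c ∈ Pb.C0, ∃ y : κ' → Fin d → 𝒪 ⧸ maximalIdeal 𝒪 ^ n, ∀ j,
    Ideal.Quotient.mk _ (c j) = ∑ t, ∑ k, augn 𝒪 τ n (φ Pb.i₀ (Pb.test t) j k) * y t k
  hF : ∀ i q, ∃ G : MvPowerSeries σ 𝒪, G ∈ maximalIdeal (MvPowerSeries σ 𝒪) ∧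
    Ideal.Quotient.mk _ G = F i q ∧
    ∀ j k, φ i G j k = if j = k then Ideal.Quotient.mk _ (Pb.u q) else 0

namespace Sol

variable {Pb : Problem 𝒪 σ τ ι κ κ' d}

/-- truncation from level `n + 1` to level `n` -/
noncomputable def trunc {n : ℕ} (s : Sol Pb (n + 1)) : Sol Pb n where
  φ i := (facMat 𝒪 (maximalIdeal (MvPowerSeries τ 𝒪)) n).comp (s.φ i)
  F i q := Ideal.Quotient.factorPowSucc _ n (s.F i q)
  kill i f hf := by
    rw [AlgHom.comp_apply, s.kill i f hf, map_zero]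
  agree i i' f j k := by
    have h := Ideal.mem_map_of_mem
      (Ideal.Quotient.factorPowSucc (maximalIdeal (MvPowerSeries τ 𝒪)) n) (s.agree i i' f j k)
    rw [Ideal.map_map] at h
    rw [AlgHom.comp_apply, AlgHom.comp_apply, facMat_apply, facMat_apply, ← map_sub]
    exact h
  ctl_ge c hc := by
    obtain ⟨y, hy⟩ := s.ctl_ge c hc
    refine ⟨fun t k => Ideal.Quotient.factorPowSucc _ n (y t k), fun j => ?_⟩
    have h := congrArg (Ideal.Quotient.factorPowSucc (maximalIdeal 𝒪) n) (hy j)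
    rw [map_sum] at h
    simp only [map_sum, map_mul] at h
    simp only [AlgHom.comp_apply, facMat_apply, augn_factorPowSucc]
    exact h
  hF i q := by
    obtain ⟨G, hG, hGF, hGφ⟩ := s.hF i q
    refine ⟨G, hG, ?_, fun j k => ?_⟩
    · rw [← hGF]; rfl
    · rw [AlgHom.comp_apply, facMat_apply, hGφ j k]
      split_ifs
      · rfl
      · exact map_zero _

theorem ext' {n : ℕ} {s t : Sol Pb n} (hφ : s.φ = t.φ) (hF : s.F = t.F) : s = t := by
  cases s; cases t; simp only at hφ hF; subst hφ hF; rfl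

theorem trunc_φ {n : ℕ} (s : Sol Pb (n + 1)) (i : ι) (f : MvPowerSeries σ 𝒪) (j k : Fin d) :
    s.trunc.φ i f j k =
      Ideal.Quotient.factorPowSucc (maximalIdeal (MvPowerSeries τ 𝒪)) n (s.φ i f j k) := rfl

theorem trunc_F {n : ℕ} (s : Sol Pb (n + 1)) (i : ι) (q : κ) :
    s.trunc.F i q =
      Ideal.Quotient.factorPowSucc (maximalIdeal (MvPowerSeries σ 𝒪)) n (s.F i q) := rfl

instance finite [IsNoetherianRing 𝒪] [Finite (ResidueField 𝒪)] [Finite σ] [Finite τ] [Finite ι]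
    [Finite κ] (n : ℕ) : Finite (Sol Pb n) := by
  have h1 : Finite (MvPowerSeries τ 𝒪 ⧸ maximalIdeal (MvPowerSeries τ 𝒪) ^ n) :=
    finite_quotient_maximalIdeal_pow n
  have h2 : Finite (MvPowerSeries σ 𝒪 ⧸ maximalIdeal (MvPowerSeries σ 𝒪) ^ n) :=
    finite_quotient_maximalIdeal_pow n
  have h3 : Finite (Matrix (Fin d) (Fin d)
      (MvPowerSeries τ 𝒪 ⧸ maximalIdeal (MvPowerSeries τ 𝒪) ^ n)) :=
    inferInstanceAs (Finite (Fin d → Fin d → _))
  have h4 : Finite (MvPowerSeries σ 𝒪 →ₐ[𝒪] Matrix (Fin d) (Fin d)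
      (MvPowerSeries τ 𝒪 ⧸ maximalIdeal (MvPowerSeries τ 𝒪) ^ n)) := finite_algHom
  exact Finite.of_injective (fun s : Sol Pb n => (s.φ, s.F))
    (fun s t h => ext' (congrArg Prod.fst h) (congrArg Prod.snd h))

end Sol

/-- **The abstract patching theorem.**  If the patching problem has a solution at every finite
level, it has a solution over `S = 𝒪⟦y_τ⟧`. -/
theorem exists_patched [IsNoetherianRing 𝒪] [IsAdicComplete (maximalIdeal 𝒪) 𝒪]
    [Finite (ResidueField 𝒪)] [Finite σ] [Finite τ] [Finite ι] [Finite κ]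
    (Pb : Problem 𝒪 σ τ ι κ κ' d) (h : ∀ n, Nonempty (Sol Pb n)) :
    ∃ (Φ : ι → MvPowerSeries σ 𝒪 →ₐ[𝒪] Matrix (Fin d) (Fin d) (MvPowerSeries τ 𝒪))
      (F : ι → κ → MvPowerSeries σ 𝒪),
      (∀ i, ∀ f ∈ Pb.I i, Φ i f = 0) ∧
      (∀ i i' f j k, Φ i f j k - Φ i' f j k ∈ Pb.L) ∧
      (∀ c ∈ Pb.C0, ∃ y : κ' → Fin d → 𝒪, ∀ j,
        c j = ∑ t, ∑ k, constantCoeff (Φ Pb.i₀ (Pb.test t) j k) * y t k) ∧
      (∀ i q, F i q ∈ maximalIdeal (MvPowerSeries σ 𝒪) ∧
        ∀ j k, Φ i (F i q) j k = if j = k then Pb.u q else 0) := by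
  classical
  obtain ⟨s, hs⟩ := exists_compatible_of_finite (X := Sol Pb) (fun n => Sol.trunc)
  -- the limits of the actions
  have hΦ : ∀ i, ∃ Φ : MvPowerSeries σ 𝒪 →ₐ[𝒪] Matrix (Fin d) (Fin d) (MvPowerSeries τ 𝒪),
      ∀ n f, mkMat 𝒪 (maximalIdeal (MvPowerSeries τ 𝒪)) n (Φ f) = (s n).φ i f := by
    intro i
    refine exists_limAlgHom 𝒪 (maximalIdeal (MvPowerSeries τ 𝒪)) (fun n => (s n).φ i)
      (fun n f => ?_)
    rw [← hs n]; rfl
  choose Φ hΦ using hΦ
  -- the limits of the `F`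
  have hF : ∀ i q, ∃ G : MvPowerSeries σ 𝒪, ∀ n, Ideal.Quotient.mk _ G = (s n).F i q := by
    intro i q
    refine exists_lim (maximalIdeal (MvPowerSeries σ 𝒪)) (fun n => (s n).F i q) (fun n => ?_)
    rw [← hs n]; rfl
  choose F hF using hF
  -- compatibility along all truncations
  have hcompat : ∀ i f j k {n m : ℕ} (hnm : n ≤ m),
      Ideal.Quotient.factorPow (maximalIdeal (MvPowerSeries τ 𝒪)) hnm ((s m).φ i f j k) =
        (s n).φ i f j k := by
    intro i f j k n m hnm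
    refine factorPow_eq_of_succ (maximalIdeal (MvPowerSeries τ 𝒪))
      (fun n => (s n).φ i f j k) (fun n => ?_) hnm
    rw [← hs n]; rfl
  have haug : ∀ n i f j k, augn 𝒪 τ n ((s n).φ i f j k) =
      Ideal.Quotient.mk _ (constantCoeff (Φ i f j k)) := by
    intro n i f j k
    rw [← hΦ i n f, mkMat_apply, augn_mk]
  refine ⟨Φ, F, ?_, ?_, ?_, ?_⟩
  · intro i f hf
    refine mat_ext_of_mkMat 𝒪 (maximalIdeal (MvPowerSeries τ 𝒪)) (fun n => ?_)
    rw [hΦ, (s n).kill i f hf, map_zero]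
  · intro i i' f j k
    refine mem_of_forall_mk_mem_map _ _ (fun n => ?_)
    rw [map_sub, ← mkMat_apply 𝒪, ← mkMat_apply 𝒪, hΦ, hΦ]
    exact (s n).agree i i' f j k
  · intro c hc
    let Lm : (κ' → Fin d → 𝒪) →ₗ[𝒪] (Fin d → 𝒪) :=
      { toFun := fun y j => ∑ t, ∑ k, constantCoeff (Φ Pb.i₀ (Pb.test t) j k) * y t k
        map_add' := fun y y' => by
          funext j
          simp only [Pi.add_apply, mul_add, Finset.sum_add_distrib]
        map_smul' := fun a y => by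
          funext j
          simp only [Pi.smul_apply, smul_eq_mul, RingHom.id_apply, Finset.mul_sum]
          refine Finset.sum_congr rfl fun t _ => Finset.sum_congr rfl fun k _ => ?_
          ring }
    have hmem : c ∈ LinearMap.range Lm := by
      refine mem_submodule_of_forall _ _ (fun n => ?_)
      obtain ⟨y, hy⟩ := (s n).ctl_ge c hc
      choose y' hy' using fun t k => Ideal.Quotient.mk_surjective (y t k)
      refine ⟨Lm y', ⟨y', rfl⟩, fun j => ?_⟩
      rw [hy j]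
      change _ = Ideal.Quotient.mk _ (∑ t, ∑ k, constantCoeff (Φ Pb.i₀ (Pb.test t) j k) * y' t k)
      rw [map_sum]
      refine Finset.sum_congr rfl fun t _ => ?_
      rw [map_sum]
      refine Finset.sum_congr rfl fun k _ => ?_
      rw [map_mul, haug n, hy' t k]
    obtain ⟨y, hy⟩ := hmem
    exact ⟨y, fun j => by rw [← hy]; rfl⟩
  · intro i q
    constructor
    · obtain ⟨G, hG, hGF, -⟩ := (s 1).hF i q
      rw [← hF i q 1, Ideal.Quotient.eq, pow_one] at hGF
      have : F i q = G - (G - F i q) := by ring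
      rw [this]
      exact sub_mem hG hGF
    · intro j k
      refine eq_of_forall_mk_eq (maximalIdeal (MvPowerSeries τ 𝒪)) (fun n => ?_)
      rw [← mkMat_apply 𝒪, hΦ]
      have hfin1 : Finite (MvPowerSeries τ 𝒪 ⧸ maximalIdeal (MvPowerSeries τ 𝒪) ^ n) :=
        finite_quotient_maximalIdeal_pow n
      have hfin2 : Finite (Matrix (Fin d) (Fin d)
          (MvPowerSeries τ 𝒪 ⧸ maximalIdeal (MvPowerSeries τ 𝒪) ^ n)) :=
        inferInstanceAs (Finite (Fin d → Fin d → _))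
      obtain ⟨N, hN⟩ := exists_maximalIdeal_pow_le_ker ((s n).φ i).toRingHom
      obtain ⟨G, -, hGF, hGφ⟩ := (s (max n N)).hF i q
      rw [← hF i q (max n N), Ideal.Quotient.eq] at hGF
      have h1 : G - F i q ∈ RingHom.ker ((s n).φ i).toRingHom :=
        hN (Ideal.pow_le_pow_right (le_max_right n N) hGF)
      rw [RingHom.mem_ker, AlgHom.toRingHom_eq_coe, RingHom.coe_coe, map_sub, sub_eq_zero] at h1
      rw [← h1, ← hcompat i G j k (le_max_left n N), hGφ j k]
      split_ifs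
      · rfl
      · rw [map_zero, map_zero]

end Fermat.Agent.RB.PATCH
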