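/-
PROJECT RB, block [CORE] (helper9): from the patched matrices to the modules consumed by helper4's
`LOC.loc_ihara_avoidance`.

`Patched D g r d`: algebra maps `Φ₁, Φ₂ : PS → Mat_d(𝒪⟦Z_1..Z_r⟧)` killing `I₁`, `I₂`, congruent
modulo `λ`, and elements `F_i q ∈ 𝔪_PS` with `Φ_i (F_i q) = Z_q ^ 2`.

* `P.S = 𝒪⟦W_1..W_r⟧` with `P.S → R_i`, `W_q ↦ F_i q`;
* `P.M₁ = P.M₂ = 𝒪⟦Z⟧^d`, free of rank `2^r d` over `P.S` (`W_q ↦ Z_q²`), modules over `R_i`
  through `Φ_i`;
* `P.Mbar = (𝒪⟦Z⟧/λ)^d`, a module over `Rbar`, and the reductions `P.g₁`, `P.g₂`.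
-/
import Mathlib
import Fermat.Agent.RB.PATCH_helper9_MatEnd
import Fermat.Agent.RB.PATCH_helper9_Tower
import Fermat.Agent.RB.LOC_helper4_Final
import Fermat.Agent.TW.PSLift_helper6
import Fermat.Agent.RB.CA_helper4_PowerSeriesDim

set_option autoImplicit false
set_option linter.unusedSectionVars false

namespace Fermat.Agent.RB.CORE

open MvPowerSeries IsLocalRing Fermat.Agent.RB.PATCH

variable {O : Type} [CommRing O] [IsDomain O] [IsDiscreteValuationRing O] {Sig : Type}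

/-- the output of the patching theorem for the two local problems -/
structure Patched (D : LOC.Data O Sig) (g r d : ℕ) where
  Φ₁ : LOC.PS O Sig g →ₐ[O] Matrix (Fin d) (Fin d) (MvPowerSeries (Fin r) O)
  Φ₂ : LOC.PS O Sig g →ₐ[O] Matrix (Fin d) (Fin d) (MvPowerSeries (Fin r) O)
  F₁ : Fin r → LOC.PS O Sig g
  F₂ : Fin r → LOC.PS O Sig g
  kill₁ : ∀ f ∈ LOC.I₁ D g, Φ₁ f = 0
  kill₂ : ∀ f ∈ LOC.I₂ D g, Φ₂ f = 0
  agree : ∀ f j k, Φ₁ f j k - Φ₂ f j k ∈
    Ideal.span {(C D.lam : MvPowerSeries (Fin r) O)}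
  F₁_mem : ∀ q, F₁ q ∈ maximalIdeal (LOC.PS O Sig g)
  F₂_mem : ∀ q, F₂ q ∈ maximalIdeal (LOC.PS O Sig g)
  hF₁ : ∀ q j k, Φ₁ (F₁ q) j k = if j = k then (X q : MvPowerSeries (Fin r) O) ^ 2 else 0
  hF₂ : ∀ q j k, Φ₂ (F₂ q) j k = if j = k then (X q : MvPowerSeries (Fin r) O) ^ 2 else 0

namespace Patched

variable {D : LOC.Data O Sig} {g r d : ℕ} (P : Patched D g r d)

/-! ### The ring `S = 𝒪⟦W_1, …, W_r⟧` -/

/-- `S = 𝒪⟦W_1, …, W_r⟧` -/
def S (_P : Patched D g r d) : Type := MvPowerSeries (Fin r) O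

noncomputable instance : CommRing P.S := inferInstanceAs (CommRing (MvPowerSeries (Fin r) O))
noncomputable instance : Algebra O P.S := inferInstanceAs (Algebra O (MvPowerSeries (Fin r) O))
instance : IsDomain P.S :=
  @NoZeroDivisors.to_isDomain (MvPowerSeries (Fin r) O) _ _ _
instance : IsNoetherianRing P.S :=
  inferInstanceAs (IsNoetherianRing (MvPowerSeries (Fin r) O))

/-- the identity `S → 𝒪⟦W⟧` as an algebra isomorphism -/
noncomputable def sEquiv : P.S ≃ₐ[O] MvPowerSeries (Fin r) O :=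
  (AlgEquiv.refl : MvPowerSeries (Fin r) O ≃ₐ[O] MvPowerSeries (Fin r) O)

/-- the identity `𝒪⟦W⟧ → S` -/
noncomputable def toS (f : MvPowerSeries (Fin r) O) : P.S := P.sEquiv.symm f
/-- the identity `S → 𝒪⟦W⟧` -/
noncomputable def ofS (s : P.S) : MvPowerSeries (Fin r) O := P.sEquiv s

@[simp] theorem ofS_toS (f : MvPowerSeries (Fin r) O) : P.ofS (P.toS f) = f := rfl
@[simp] theorem toS_ofS (s : P.S) : P.toS (P.ofS s) = s := rfl

/-! ### The maps `S → R_i` -/

section Algebra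

variable [Finite Sig] [IsAdicComplete (maximalIdeal O) O]

/-- `𝒪⟦W⟧ → PS`, `W_q ↦ F₁ q` -/
noncomputable def rawPS₁ : MvPowerSeries (Fin r) O →ₐ[O] LOC.PS O Sig g :=
  TW.psLift (maximalIdeal (LOC.PS O Sig g)) P.F₁ P.F₁_mem

/-- `𝒪⟦W⟧ → PS`, `W_q ↦ F₂ q` -/
noncomputable def rawPS₂ : MvPowerSeries (Fin r) O →ₐ[O] LOC.PS O Sig g :=
  TW.psLift (maximalIdeal (LOC.PS O Sig g)) P.F₂ P.F₂_mem

theorem rawPS₁_X (q : Fin r) : P.rawPS₁ (X q) = P.F₁ q := TW.psLift_X _ _ _ q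
theorem rawPS₂_X (q : Fin r) : P.rawPS₂ (X q) = P.F₂ q := TW.psLift_X _ _ _ q

/-- `S → PS`, `W_q ↦ F₁ q` -/
noncomputable def toPS₁ : P.S →ₐ[O] LOC.PS O Sig g := P.rawPS₁.comp P.sEquiv.toAlgHom

/-- `S → PS`, `W_q ↦ F₂ q` -/
noncomputable def toPS₂ : P.S →ₐ[O] LOC.PS O Sig g := P.rawPS₂.comp P.sEquiv.toAlgHom

theorem toPS₁_apply (s : P.S) : P.toPS₁ s = P.rawPS₁ (P.ofS s) := rfl
theorem toPS₂_apply (s : P.S) : P.toPS₂ s = P.rawPS₂ (P.ofS s) := rfl

/-- `S → R₁` -/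
noncomputable def toR₁ : P.S →ₐ[O] LOC.R₁ D g :=
  (Ideal.Quotient.mkₐ O (LOC.I₁ D g)).comp P.toPS₁

/-- `S → R₂` -/
noncomputable def toR₂ : P.S →ₐ[O] LOC.R₂ D g :=
  (Ideal.Quotient.mkₐ O (LOC.I₂ D g)).comp P.toPS₂

noncomputable instance : Algebra P.S (LOC.R₁ D g) := P.toR₁.toRingHom.toAlgebra
noncomputable instance : Algebra P.S (LOC.R₂ D g) := P.toR₂.toRingHom.toAlgebra

theorem algebraMap_R₁ (s : P.S) : algebraMap P.S (LOC.R₁ D g) s = P.toR₁ s := rfl
theorem algebraMap_R₂ (s : P.S) : algebraMap P.S (LOC.R₂ D g) s = P.toR₂ s := rfl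

instance : IsScalarTower O P.S (LOC.R₁ D g) :=
  IsScalarTower.of_algebraMap_eq' (RingHom.ext fun c => (P.toR₁.commutes c).symm)
instance : IsScalarTower O P.S (LOC.R₂ D g) :=
  IsScalarTower.of_algebraMap_eq' (RingHom.ext fun c => (P.toR₂.commutes c).symm)

end Algebra

/-! ### The modules -/

/-- `M₁ = 𝒪⟦Z⟧^d` -/
def M₁ (_P : Patched D g r d) : Type := Fin d → EvenMod (Fin r) O
/-- `M₂ = 𝒪⟦Z⟧^d` -/
def M₂ (_P : Patched D g r d) : Type := Fin d → EvenMod (Fin r) O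

noncomputable instance : AddCommGroup P.M₁ :=
  inferInstanceAs (AddCommGroup (Fin d → EvenMod (Fin r) O))
noncomputable instance : AddCommGroup P.M₂ :=
  inferInstanceAs (AddCommGroup (Fin d → EvenMod (Fin r) O))
noncomputable instance : Module P.S P.M₁ :=
  inferInstanceAs (Module (MvPowerSeries (Fin r) O) (Fin d → EvenMod (Fin r) O))
noncomputable instance : Module P.S P.M₂ :=
  inferInstanceAs (Module (MvPowerSeries (Fin r) O) (Fin d → EvenMod (Fin r) O))
instance : Module.Free P.S P.M₁ :=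
  inferInstanceAs (Module.Free (MvPowerSeries (Fin r) O) (Fin d → EvenMod (Fin r) O))
instance : Module.Free P.S P.M₂ :=
  inferInstanceAs (Module.Free (MvPowerSeries (Fin r) O) (Fin d → EvenMod (Fin r) O))
instance : Module.Finite P.S P.M₁ :=
  inferInstanceAs (Module.Finite (MvPowerSeries (Fin r) O) (Fin d → EvenMod (Fin r) O))
instance : Module.Finite P.S P.M₂ :=
  inferInstanceAs (Module.Finite (MvPowerSeries (Fin r) O) (Fin d → EvenMod (Fin r) O))

/-- the action of `R₁` on `M₁` -/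
noncomputable def actR₁ : LOC.R₁ D g →+* Module.End P.S P.M₁ :=
  (matEndHom (τ := Fin r) (R := O) (d := d)).comp
    (Ideal.Quotient.lift (LOC.I₁ D g) P.Φ₁.toRingHom P.kill₁)

/-- the action of `R₂` on `M₂` -/
noncomputable def actR₂ : LOC.R₂ D g →+* Module.End P.S P.M₂ :=
  (matEndHom (τ := Fin r) (R := O) (d := d)).comp
    (Ideal.Quotient.lift (LOC.I₂ D g) P.Φ₂.toRingHom P.kill₂)

noncomputable instance : Module (LOC.R₁ D g) P.M₁ := Module.compHom P.M₁ P.actR₁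
noncomputable instance : Module (LOC.R₂ D g) P.M₂ := Module.compHom P.M₂ P.actR₂

theorem smul_def₁ (a : LOC.R₁ D g) (m : P.M₁) : a • m = P.actR₁ a m := rfl
theorem smul_def₂ (a : LOC.R₂ D g) (m : P.M₂) : a • m = P.actR₂ a m := rfl


/-! ### The scalar towers `S → R_i → End M_i` -/

section Tower

variable [Finite Sig] [IsAdicComplete (maximalIdeal O) O] [Finite (ResidueField O)]

/-- two algebra maps `𝒪⟦W⟧ → Mat_d(𝒪⟦Z⟧)` which agree on the variables are equal -/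
theorem algHom_mat_ext {f f' : MvPowerSeries (Fin r) O →ₐ[O]
      Matrix (Fin d) (Fin d) (MvPowerSeries (Fin r) O)}
    (h : ∀ q, f (X q) = f' (X q)) : f = f' := by
  refine AlgHom.ext fun s =>
    mat_ext_of_mkMat O (maximalIdeal (MvPowerSeries (Fin r) O)) fun n => ?_
  have hfin : Finite (MvPowerSeries (Fin r) O ⧸ maximalIdeal (MvPowerSeries (Fin r) O) ^ n) :=
    finite_quotient_maximalIdeal_pow n
  have h1 : (mkMat O (maximalIdeal (MvPowerSeries (Fin r) O)) n).comp f =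
      (mkMat O (maximalIdeal (MvPowerSeries (Fin r) O)) n).comp f' :=
    algHom_ext_of_finite (fun q => by rw [AlgHom.comp_apply, AlgHom.comp_apply, h q])
  exact DFunLike.congr_fun h1 s

theorem Φ₁_rawPS₁ (s : MvPowerSeries (Fin r) O) (j k : Fin d) :
    P.Φ₁ (P.rawPS₁ s) j k = if j = k then evenEmb (Fin r) O s else 0 := by
  have key : P.Φ₁.comp P.rawPS₁ =
      (Matrix.scalarAlgHom (Fin d) O).comp (evenEmb (Fin r) O) := by
    refine algHom_mat_ext fun q => Matrix.ext fun j k => ?_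
    rw [AlgHom.comp_apply, AlgHom.comp_apply, P.rawPS₁_X q, P.hF₁ q j k, evenEmb_X]
    change _ = Matrix.scalar (Fin d) ((X q : MvPowerSeries (Fin r) O) ^ 2) j k
    rw [Matrix.scalar_apply, Matrix.diagonal_apply]
  have h2 := DFunLike.congr_fun key s
  rw [AlgHom.comp_apply, AlgHom.comp_apply] at h2
  rw [h2]
  change Matrix.scalar (Fin d) (evenEmb (Fin r) O s) j k = _
  rw [Matrix.scalar_apply, Matrix.diagonal_apply]

theorem Φ₂_rawPS₂ (s : MvPowerSeries (Fin r) O) (j k : Fin d) :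
    P.Φ₂ (P.rawPS₂ s) j k = if j = k then evenEmb (Fin r) O s else 0 := by
  have key : P.Φ₂.comp P.rawPS₂ =
      (Matrix.scalarAlgHom (Fin d) O).comp (evenEmb (Fin r) O) := by
    refine algHom_mat_ext fun q => Matrix.ext fun j k => ?_
    rw [AlgHom.comp_apply, AlgHom.comp_apply, P.rawPS₂_X q, P.hF₂ q j k, evenEmb_X]
    change _ = Matrix.scalar (Fin d) ((X q : MvPowerSeries (Fin r) O) ^ 2) j k
    rw [Matrix.scalar_apply, Matrix.diagonal_apply]
  have h2 := DFunLike.congr_fun key s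
  rw [AlgHom.comp_apply, AlgHom.comp_apply] at h2
  rw [h2]
  change Matrix.scalar (Fin d) (evenEmb (Fin r) O s) j k = _
  rw [Matrix.scalar_apply, Matrix.diagonal_apply]

theorem Φ₁_toPS₁ (s : P.S) (j k : Fin d) :
    P.Φ₁ (P.toPS₁ s) j k = if j = k then evenEmb (Fin r) O (P.ofS s) else 0 :=
  P.Φ₁_rawPS₁ (P.ofS s) j k

theorem Φ₂_toPS₂ (s : P.S) (j k : Fin d) :
    P.Φ₂ (P.toPS₂ s) j k = if j = k then evenEmb (Fin r) O (P.ofS s) else 0 :=
  P.Φ₂_rawPS₂ (P.ofS s) j k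

theorem actR₁_toR₁ (s : P.S) (m : P.M₁) : P.actR₁ (P.toR₁ s) m = s • m :=
  matEndHom_scalar (P.ofS s) _ (P.Φ₁_toPS₁ s) m

theorem actR₂_toR₂ (s : P.S) (m : P.M₂) : P.actR₂ (P.toR₂ s) m = s • m :=
  matEndHom_scalar (P.ofS s) _ (P.Φ₂_toPS₂ s) m

instance : IsScalarTower P.S (LOC.R₁ D g) P.M₁ where
  smul_assoc s a m := by
    rw [Algebra.smul_def, P.smul_def₁, map_mul, Module.End.mul_apply, P.algebraMap_R₁,
      P.actR₁_toR₁, P.smul_def₁]

instance : IsScalarTower P.S (LOC.R₂ D g) P.M₂ where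
  smul_assoc s a m := by
    rw [Algebra.smul_def, P.smul_def₂, map_mul, Module.End.mul_apply, P.algebraMap_R₂,
      P.actR₂_toR₂, P.smul_def₂]

end Tower


/-! ### The common reduction -/

section Bar

variable [Fintype Sig] [DecidableEq Sig]

/-- `𝒪⟦Z⟧ ⧸ λ` -/
abbrev Zbar (D : LOC.Data O Sig) (r : ℕ) : Type :=
  MvPowerSeries (Fin r) O ⧸ Ideal.span {(C D.lam : MvPowerSeries (Fin r) O)}

/-- `Mbar = (𝒪⟦Z⟧ ⧸ λ)^d` -/
def Mbar (_P : Patched D g r d) : Type := Fin d → Zbar D r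

noncomputable instance : AddCommGroup P.Mbar := inferInstanceAs (AddCommGroup (Fin d → Zbar D r))

/-- the entrywise reduction of matrices -/
noncomputable def redMat : Matrix (Fin d) (Fin d) (MvPowerSeries (Fin r) O) →+*
    Matrix (Fin d) (Fin d) (Zbar D r) :=
  (Ideal.Quotient.mk (Ideal.span {(C D.lam : MvPowerSeries (Fin r) O)})).mapMatrix

theorem redMat_apply (A : Matrix (Fin d) (Fin d) (MvPowerSeries (Fin r) O)) (j k : Fin d) :
    redMat (D := D) A j k = Ideal.Quotient.mk _ (A j k) := rfl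

theorem redMat_Φ_lam (Φ : LOC.PS O Sig g →ₐ[O] Matrix (Fin d) (Fin d) (MvPowerSeries (Fin r) O)) :
    redMat (D := D) (Φ (C D.lam)) = 0 := by
  have h : (C D.lam : LOC.PS O Sig g) = algebraMap O _ D.lam := rfl
  rw [h, Φ.commutes]
  refine Matrix.ext fun j k => ?_
  rw [redMat_apply, Matrix.algebraMap_matrix_apply, Matrix.zero_apply]
  split_ifs
  · exact Ideal.Quotient.eq_zero_iff_mem.mpr (Ideal.subset_span rfl)
  · exact map_zero _

theorem redMat_Φ₁_eq (f : LOC.PS O Sig g) : redMat (D := D) (P.Φ₁ f) = redMat (D := D) (P.Φ₂ f) := by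
  refine Matrix.ext fun j k => ?_
  rw [redMat_apply, redMat_apply]
  exact (Ideal.Quotient.eq).mpr (P.agree f j k)

/-- `Rbar → Mat_d(𝒪⟦Z⟧ ⧸ λ)` -/
noncomputable def barHom : LOC.Rbar D g →+* Matrix (Fin d) (Fin d) (Zbar D r) :=
  Ideal.Quotient.lift (LOC.I₂ D g ⊔ Ideal.span {C D.lam})
    ((redMat (D := D)).comp P.Φ₂.toRingHom) (by
      intro f hf
      obtain ⟨a, ha, b, hb, rfl⟩ := Submodule.mem_sup.mp hf
      obtain ⟨c, rfl⟩ := Ideal.mem_span_singleton'.mp hb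
      rw [map_add, map_mul, RingHom.comp_apply, RingHom.comp_apply]
      change redMat (P.Φ₂ a) + _ * redMat (P.Φ₂ (C D.lam)) = 0
      rw [P.kill₂ a ha, map_zero, redMat_Φ_lam, mul_zero, add_zero])

theorem barHom_mk (f : LOC.PS O Sig g) :
    P.barHom (Ideal.Quotient.mk _ f) = redMat (D := D) (P.Φ₂ f) := rfl

noncomputable instance : Module (LOC.Rbar D g) P.Mbar :=
  Module.compHom (Fin d → Zbar D r) P.barHom

theorem smul_defBar (a : LOC.Rbar D g) (y : P.Mbar) :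
    a • y = (P.barHom a).mulVec (show Fin d → Zbar D r from y) := rfl

/-- the reduction `𝒪⟦Z⟧^d → (𝒪⟦Z⟧ ⧸ λ)^d` -/
noncomputable def redVec (v : Fin d → MvPowerSeries (Fin r) O) : Fin d → Zbar D r :=
  fun j => Ideal.Quotient.mk _ (v j)

theorem redVec_mulVec (A : Matrix (Fin d) (Fin d) (MvPowerSeries (Fin r) O))
    (v : Fin d → MvPowerSeries (Fin r) O) :
    redVec (D := D) (A.mulVec v) = (redMat (D := D) A).mulVec (redVec (D := D) v) := by
  funext j
  exact RingHom.map_mulVec _ A v j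

/-- `g₂ : M₂ → Mbar` -/
noncomputable def g₂ : P.M₂ →ₛₗ[LOC.π₂ D g] P.Mbar where
  toFun m := redVec (D := D) (toVec (show Fin d → EvenMod (Fin r) O from m))
  map_add' m m' := by
    funext j
    exact map_add (Ideal.Quotient.mk _) _ _
  map_smul' a m := by
    obtain ⟨f, rfl⟩ := Ideal.Quotient.mk_surjective a
    rw [LOC.π₂_mk, P.smul_defBar, P.barHom_mk, ← redVec_mulVec]
    rfl

/-- `g₁ : M₁ → Mbar` -/
noncomputable def g₁ : P.M₁ →ₛₗ[LOC.π₁ D g] P.Mbar where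
  toFun m := redVec (D := D) (toVec (show Fin d → EvenMod (Fin r) O from m))
  map_add' m m' := by
    funext j
    exact map_add (Ideal.Quotient.mk _) _ _
  map_smul' a m := by
    obtain ⟨f, rfl⟩ := Ideal.Quotient.mk_surjective a
    rw [LOC.π₁_mk, P.smul_defBar, P.barHom_mk, ← P.redMat_Φ₁_eq, ← redVec_mulVec]
    rfl

theorem g₁_apply (m : P.M₁) :
    P.g₁ m = redVec (D := D) (toVec (show Fin d → EvenMod (Fin r) O from m)) := rfl
theorem g₂_apply (m : P.M₂) :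
    P.g₂ m = redVec (D := D) (toVec (show Fin d → EvenMod (Fin r) O from m)) := rfl

theorem g₁_surjective : Function.Surjective P.g₁ := by
  intro y
  choose v hv using fun j => Ideal.Quotient.mk_surjective ((show Fin d → Zbar D r from y) j)
  exact ⟨(ofVec v : Fin d → EvenMod (Fin r) O), funext hv⟩

theorem g₂_surjective : Function.Surjective P.g₂ := by
  intro y
  choose v hv using fun j => Ideal.Quotient.mk_surjective ((show Fin d → Zbar D r from y) j)
  exact ⟨(ofVec v : Fin d → EvenMod (Fin r) O), funext hv⟩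

/-- a vector divisible by `λ` -/
theorem exists_lam_mul_of_redVec_eq_zero (v : Fin d → MvPowerSeries (Fin r) O)
    (h : redVec (D := D) v = 0) : ∃ w : Fin d → MvPowerSeries (Fin r) O,
      v = fun j => (C D.lam : MvPowerSeries (Fin r) O) * w j := by
  have h1 : ∀ j, ∃ c, c * (C D.lam : MvPowerSeries (Fin r) O) = v j := fun j =>
    Ideal.mem_span_singleton'.mp (Ideal.Quotient.eq_zero_iff_mem.mp (congrFun h j))
  choose w hw using h1
  exact ⟨w, funext fun j => by rw [← hw j, mul_comm]⟩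

theorem Φ_lam_mulVec (Φ : LOC.PS O Sig g →ₐ[O] Matrix (Fin d) (Fin d) (MvPowerSeries (Fin r) O))
    (w : Fin d → MvPowerSeries (Fin r) O) :
    (Φ (C D.lam)).mulVec w = fun j => (C D.lam : MvPowerSeries (Fin r) O) * w j := by
  have h : (C D.lam : LOC.PS O Sig g) = algebraMap O _ D.lam := rfl
  rw [h, Φ.commutes]
  funext j
  rw [Matrix.mulVec, dotProduct, Finset.sum_eq_single j]
  · rw [Matrix.algebraMap_matrix_apply, if_pos rfl]; rfl
  · intro k _ hk
    rw [Matrix.algebraMap_matrix_apply, if_neg (Ne.symm hk), zero_mul]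
  · intro hj; exact absurd (Finset.mem_univ j) hj

theorem hker₁ (m : P.M₁) (hm : P.g₁ m = 0) :
    m ∈ (RingHom.ker (LOC.π₁ D g)) • (⊤ : Submodule (LOC.R₁ D g) P.M₁) := by
  obtain ⟨w, hw⟩ := exists_lam_mul_of_redVec_eq_zero (D := D) _ hm
  have h1 : m = (Ideal.Quotient.mk (LOC.I₁ D g) (C D.lam)) •
      (show P.M₁ from (ofVec w : Fin d → EvenMod (Fin r) O)) := by
    rw [P.smul_def₁]
    change m = matEndHom (P.Φ₁ (C D.lam)) (ofVec w)
    apply toVec_injective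
    rw [matEndHom_apply, toVec_ofVec, Φ_lam_mulVec]
    exact hw
  rw [h1]
  refine Submodule.smul_mem_smul ?_ Submodule.mem_top
  rw [RingHom.mem_ker, LOC.π₁_mk]
  exact Ideal.Quotient.eq_zero_iff_mem.mpr (Ideal.mem_sup_right (Ideal.subset_span rfl))

theorem hker₂ (m : P.M₂) (hm : P.g₂ m = 0) :
    m ∈ (RingHom.ker (LOC.π₂ D g)) • (⊤ : Submodule (LOC.R₂ D g) P.M₂) := by
  obtain ⟨w, hw⟩ := exists_lam_mul_of_redVec_eq_zero (D := D) _ hm
  have h1 : m = (Ideal.Quotient.mk (LOC.I₂ D g) (C D.lam)) •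
      (show P.M₂ from (ofVec w : Fin d → EvenMod (Fin r) O)) := by
    rw [P.smul_def₂]
    change m = matEndHom (P.Φ₂ (C D.lam)) (ofVec w)
    apply toVec_injective
    rw [matEndHom_apply, toVec_ofVec, Φ_lam_mulVec]
    exact hw
  rw [h1]
  refine Submodule.smul_mem_smul ?_ Submodule.mem_top
  rw [RingHom.mem_ker, LOC.π₂_mk]
  exact Ideal.Quotient.eq_zero_iff_mem.mpr (Ideal.mem_sup_right (Ideal.subset_span rfl))

end Bar


/-! ### Ihara avoidance for the patched modules -/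

section Apply

variable [Fintype Sig] [DecidableEq Sig] [IsAdicComplete (maximalIdeal O) O]
  [Finite (ResidueField O)]

instance nontrivial_M₂ [NeZero d] : Nontrivial P.M₂ := by
  haveI : Nontrivial (EvenMod (Fin r) O) :=
    inferInstanceAs (Nontrivial (MvPowerSeries (Fin r) O))
  haveI : Nonempty (Fin d) := ⟨⟨0, Nat.pos_of_ne_zero (NeZero.ne d)⟩⟩
  exact inferInstanceAs (Nontrivial (Fin d → EvenMod (Fin r) O))

theorem algebraMap_S_injective : Function.Injective (algebraMap O P.S) :=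
  (MvPowerSeries.C_injective (σ := Fin r) (R := O))

theorem ringKrullDim_S (hr : r = 3 * Fintype.card Sig + g) :
    ringKrullDim P.S = (3 * Fintype.card Sig + g + 1 : ℕ) := by
  have h : ringKrullDim (MvPowerSeries (Fin r) O) = (Fintype.card (Fin r) + 1 : ℕ) :=
    ringKrullDim_mvPowerSeries_of_isDiscreteValuationRing (A := O) (Fin r)
  rw [Fintype.card_fin] at h
  rw [← hr]
  exact h

/-- **Ihara avoidance for the patched modules** (helper4's `LOC.loc_ihara_avoidance`). -/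
theorem ihara [NeZero d] (hD : D.Good) (hr : r = 3 * Fintype.card Sig + g) :
    IsAssociatedPrime (LOC.Punr D g) P.M₁ ∧
    ∀ (𝔞 : Ideal P.S) [𝔞.IsPrime],
      ∃ 𝔄 : PrimeSpectrum (LOC.R₁ D g), LOC.Punr D g ≤ 𝔄.asIdeal ∧
        𝔄.asIdeal.comap (algebraMap P.S (LOC.R₁ D g)) = 𝔞 ∧
        𝔄 ∈ Module.support (LOC.R₁ D g)
          (P.M₁ ⧸ ((LOC.Punr D g ⊔ 𝔞.map (algebraMap P.S (LOC.R₁ D g))) •
            (⊤ : Submodule (LOC.R₁ D g) P.M₁))) :=
  LOC.loc_ihara_avoidance D g hD (S := P.S) P.algebraMap_S_injective (P.ringKrullDim_S hr)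
    P.g₁ P.g₁_surjective P.hker₁ P.g₂ P.g₂_surjective P.hker₂

end Apply

end Patched

end Fermat.Agent.RB.CORE
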