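/-
PROJECT RB, block [CORE] (helper9): the end of the argument.  From Ihara avoidance for the patched
modules (`Patched.ihara`) and the control condition (C-ge) we deduce that `𝒪^d ⧸ C0` is not
`λ`-power torsion.
-/
import Mathlib
import Fermat.Agent.RB.PATCH_helper9_Modules
import Fermat.Agent.RB.TK_helper4_KillVars

set_option autoImplicit false
set_option linter.unusedSectionVars false

namespace Fermat.Agent.RB.CORE

open MvPowerSeries IsLocalRing Fermat.Agent.RB.PATCH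

section Abstract

/-- if `l ^ k` maps `V` into `U + 𝔟 V`, then `l ^ (k j)` maps `V` into `U + 𝔟 ^ j V` -/
theorem pow_smul_mem_sup_pow_smul {B V : Type*} [CommRing B] [AddCommGroup V] [Module B V]
    (U : Submodule B V) (𝔟 : Ideal B) (l : B) (k : ℕ)
    (h : ∀ v : V, l ^ k • v ∈ U ⊔ 𝔟 • (⊤ : Submodule B V)) :
    ∀ (j : ℕ) (v : V), l ^ (k * j) • v ∈ U ⊔ (𝔟 ^ j) • (⊤ : Submodule B V) := by
  intro j
  induction j with
  | zero =>
    intro v
    rw [pow_zero, Ideal.one_eq_top, Submodule.top_smul, sup_top_eq]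
    exact Submodule.mem_top
  | succ j ih =>
    intro v
    have hstep : ∀ w ∈ U ⊔ (𝔟 ^ j) • (⊤ : Submodule B V),
        l ^ k • w ∈ U ⊔ (𝔟 ^ (j + 1)) • (⊤ : Submodule B V) := by
      intro w hw
      obtain ⟨u, hu, w', hw', rfl⟩ := Submodule.mem_sup.mp hw
      rw [smul_add]
      refine Submodule.add_mem _ (Submodule.mem_sup_left (U.smul_mem _ hu)) ?_
      refine Submodule.smul_induction_on hw' (fun b hb x _ => ?_) (fun x y hx hy => ?_)
      · rw [smul_comm]
        obtain ⟨u', hu', w'', hw'', hsum⟩ := Submodule.mem_sup.mp (h x)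
        rw [← hsum, smul_add]
        refine Submodule.add_mem _ (Submodule.mem_sup_left (U.smul_mem _ hu'))
          (Submodule.mem_sup_right ?_)
        rw [pow_succ, Submodule.mul_smul]
        exact Submodule.smul_mem_smul hb hw''
      · rw [smul_add]
        exact Submodule.add_mem _ hx hy
    have : l ^ (k * (j + 1)) • v = l ^ k • (l ^ (k * j) • v) := by
      rw [smul_smul, ← pow_add]
      congr 2
      ring
    rw [this]
    exact hstep _ (ih v)

/-- pigeonhole: a product of `|τ| + 1` variables is divisible by the square of a variable -/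
theorem span_X_pow_le (R : Type*) [CommRing R] (τ : Type*) [Fintype τ] :
    (Ideal.span (Set.range (X : τ → MvPowerSeries τ R))) ^ (Fintype.card τ + 1) ≤
      Ideal.span (Set.range fun q => (X q : MvPowerSeries τ R) ^ 2) := by
  classical
  change (Submodule.span (MvPowerSeries τ R) (Set.range (X : τ → MvPowerSeries τ R))) ^
    (Fintype.card τ + 1) ≤ _
  rw [Submodule.span_pow, Submodule.span_le]
  intro a ha
  obtain ⟨f, rfl⟩ := Set.mem_pow.mp ha
  choose q hq using fun i => (f i).2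
  -- two equal indices
  obtain ⟨i, i', hne, heq⟩ := Fintype.exists_ne_map_eq_of_card_lt q (by
    rw [Fintype.card_fin]; exact Nat.lt_succ_self _)
  have hdvd : (X (q i) : MvPowerSeries τ R) ^ 2 ∣
      (List.ofFn fun i => ((f i : MvPowerSeries τ R))).prod := by
    rw [List.prod_ofFn]
    have h1 : ∏ j, (f j : MvPowerSeries τ R) =
        (f i : MvPowerSeries τ R) * ((f i' : MvPowerSeries τ R) *
          ∏ j ∈ (Finset.univ.erase i).erase i', (f j : MvPowerSeries τ R)) := by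
      rw [← Finset.mul_prod_erase Finset.univ _ (Finset.mem_univ i),
        ← Finset.mul_prod_erase (Finset.univ.erase i) _
          (Finset.mem_erase.mpr ⟨hne.symm, Finset.mem_univ i'⟩)]
    rw [h1, ← hq i, ← hq i', ← heq, ← mul_assoc, ← sq]
    exact Dvd.intro _ rfl
  obtain ⟨c, hc⟩ := hdvd
  rw [hc]
  exact Ideal.mul_mem_right _ _ (Ideal.subset_span ⟨q i, rfl⟩)

end Abstract


namespace Patched

variable {O : Type} [CommRing O] [IsDomain O] [IsDiscreteValuationRing O] {Sig : Type}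
  [Fintype Sig] [DecidableEq Sig] [IsAdicComplete (maximalIdeal O) O] [Finite (ResidueField O)]
  {D : LOC.Data O Sig} {g r d : ℕ} (P : Patched D g r d)

local notation "B" => MvPowerSeries (Fin r) O

/-- the augmentation ideal of `S` -/
noncomputable def aug : Ideal P.S :=
  RingHom.ker ((constantCoeff (σ := Fin r) (R := O)).comp (P.sEquiv : P.S →+* B))

instance : P.aug.IsPrime := RingHom.ker_isPrime _

theorem mem_aug (s : P.S) : s ∈ P.aug ↔ constantCoeff (P.ofS s) = 0 := Iff.rfl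

/-- the submodule `(Punr + 𝔞) M₁` -/
noncomputable def UR : Submodule (LOC.R₁ D g) P.M₁ :=
  (LOC.Punr D g ⊔ P.aug.map (algebraMap P.S (LOC.R₁ D g))) • (⊤ : Submodule (LOC.R₁ D g) P.M₁)

/-- the element of `M₁` with underlying vector `v` -/
def mkM₁ (v : Fin d → B) : P.M₁ := (ofVec v : Fin d → EvenMod (Fin r) O)

/-- the underlying vector of an element of `M₁` -/
def vecM₁ (m : P.M₁) : Fin d → B := toVec (show Fin d → EvenMod (Fin r) O from m)

@[simp] theorem vecM₁_mkM₁ (v : Fin d → B) : P.vecM₁ (P.mkM₁ v) = v := rfl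
@[simp] theorem mkM₁_vecM₁ (m : P.M₁) : P.mkM₁ (P.vecM₁ m) = m := rfl
theorem mkM₁_add (v w : Fin d → B) : P.mkM₁ (v + w) = P.mkM₁ v + P.mkM₁ w := rfl
theorem mkM₁_zero : P.mkM₁ 0 = 0 := rfl

theorem vecM₁_smul_mk (f : LOC.PS O Sig g) (m : P.M₁) :
    P.vecM₁ ((Ideal.Quotient.mk (LOC.I₁ D g) f) • m) = (P.Φ₁ f).mulVec (P.vecM₁ m) := rfl

theorem vecM₁_smul_S (s : P.S) (m : P.M₁) :
    P.vecM₁ (s • m) = evenEmb (Fin r) O (P.ofS s) • P.vecM₁ m := rfl

/-- multiplication by a power series, as an `R₁`-linear endomorphism of `M₁` -/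
noncomputable def mulB (h : B) : P.M₁ →ₗ[LOC.R₁ D g] P.M₁ where
  toFun m := P.mkM₁ (h • P.vecM₁ m)
  map_add' m m' := by
    change P.mkM₁ (h • (P.vecM₁ m + P.vecM₁ m')) = _
    rw [smul_add]; rfl
  map_smul' a m := by
    obtain ⟨f, rfl⟩ := Ideal.Quotient.mk_surjective a
    change P.mkM₁ (h • P.vecM₁ (Ideal.Quotient.mk (LOC.I₁ D g) f • m)) =
      Ideal.Quotient.mk (LOC.I₁ D g) f • P.mkM₁ (h • P.vecM₁ m)
    have h1 : P.vecM₁ (Ideal.Quotient.mk (LOC.I₁ D g) f • P.mkM₁ (h • P.vecM₁ m)) =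
        h • P.vecM₁ (Ideal.Quotient.mk (LOC.I₁ D g) f • m) := by
      rw [vecM₁_smul_mk, vecM₁_smul_mk, vecM₁_mkM₁, Matrix.mulVec_smul]
    rw [← h1, mkM₁_vecM₁]

theorem mulB_mem_UR (h : B) {m : P.M₁} (hm : m ∈ P.UR) : P.mulB h m ∈ P.UR := by
  have h1 : P.mulB h m ∈ P.UR.map (P.mulB h) := Submodule.mem_map_of_mem hm
  rw [UR, Submodule.map_smul''] at h1
  have h2 : (LOC.Punr D g ⊔ P.aug.map (algebraMap P.S (LOC.R₁ D g))) •
      (Submodule.map (P.mulB h) (⊤ : Submodule (LOC.R₁ D g) P.M₁)) ≤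
      (LOC.Punr D g ⊔ P.aug.map (algebraMap P.S (LOC.R₁ D g))) •
        (⊤ : Submodule (LOC.R₁ D g) P.M₁) := smul_mono_right _ le_top
  exact h2 h1

/-- `(Punr + 𝔞) M₁` as a submodule of `𝒪⟦Z⟧^d` -/
noncomputable def UB : Submodule B (Fin d → B) where
  carrier := {v | P.mkM₁ v ∈ P.UR}
  add_mem' {v w} hv hw := by
    change P.mkM₁ (v + w) ∈ P.UR
    rw [mkM₁_add]; exact P.UR.add_mem hv hw
  zero_mem' := by
    change P.mkM₁ 0 ∈ P.UR
    rw [mkM₁_zero]; exact P.UR.zero_mem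
  smul_mem' h v hv := P.mulB_mem_UR h hv

theorem mem_UB (v : Fin d → B) : v ∈ P.UB ↔ P.mkM₁ v ∈ P.UR := Iff.rfl


theorem Φ_C_mulVec (Φ : LOC.PS O Sig g →ₐ[O] Matrix (Fin d) (Fin d) B) (c : O)
    (w : Fin d → B) : (Φ (C c)).mulVec w = (C c : B) • w := by
  have h : (C c : LOC.PS O Sig g) = algebraMap O _ c := rfl
  rw [h, Φ.commutes]
  funext j
  rw [Matrix.mulVec, dotProduct, Finset.sum_eq_single j]
  · rw [Matrix.algebraMap_matrix_apply, if_pos rfl]; rfl
  · intro k _ hk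
    rw [Matrix.algebraMap_matrix_apply, if_neg (Ne.symm hk), zero_mul]
  · intro hj; exact absurd (Finset.mem_univ j) hj

/-- Claim A: `Z_q² M₁ ⊆ (Punr + 𝔞) M₁` -/
theorem sq_smul_mem_UB (q : Fin r) (v : Fin d → B) : ((X q : B) ^ 2) • v ∈ P.UB := by
  rw [mem_UB]
  have h1 : P.mkM₁ ((X q : B) ^ 2 • v) =
      (algebraMap P.S (LOC.R₁ D g) (P.toS (X q))) • P.mkM₁ v := by
    rw [algebraMap_smul]
    change P.mkM₁ ((X q : B) ^ 2 • v) = P.mkM₁ (evenEmb (Fin r) O (X q) • v)
    rw [evenEmb_X]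
  rw [h1]
  refine Submodule.smul_mem_smul (Ideal.mem_sup_right (Ideal.mem_map_of_mem _ ?_))
    Submodule.mem_top
  rw [mem_aug]
  exact constantCoeff_X q

theorem span_sq_smul_le_UB :
    (Ideal.span (Set.range fun q => (X q : B) ^ 2)) • (⊤ : Submodule B (Fin d → B)) ≤ P.UB := by
  rw [Submodule.smul_le]
  intro b hb v _
  refine Submodule.span_induction (p := fun b _ => ∀ v : Fin d → B, b • v ∈ P.UB)
    ?_ ?_ ?_ ?_ hb v
  · rintro _ ⟨q, rfl⟩ v
    exact P.sq_smul_mem_UB q v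
  · intro v
    rw [zero_smul]; exact zero_mem _
  · intro x y _ _ hx hy v
    rw [add_smul]; exact add_mem (hx v) (hy v)
  · intro a x _ hx v
    rw [smul_eq_mul, mul_smul]; exact P.UB.smul_mem a (hx v)

/-- a vector without constant terms lies in `(Z) 𝒪⟦Z⟧^d` -/
theorem mem_span_X_smul_top (w : Fin d → B) (hw : ∀ j, constantCoeff (w j) = 0) :
    w ∈ (Ideal.span (Set.range (X : Fin r → B))) • (⊤ : Submodule B (Fin d → B)) := by
  have h1 : w = ∑ j, (w j) • (Pi.single j (1 : B) : Fin d → B) := by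
    funext k
    rw [Finset.sum_apply, Finset.sum_eq_single k]
    · rw [Pi.smul_apply, Pi.single_eq_same, smul_eq_mul, mul_one]
    · intro j _ hj
      rw [Pi.smul_apply, Pi.single_eq_of_ne (Ne.symm hj), smul_zero]
    · intro hk; exact absurd (Finset.mem_univ k) hk
  rw [h1]
  refine Submodule.sum_mem _ fun j _ => Submodule.smul_mem_smul ?_ Submodule.mem_top
  have h2 : w j ∈ RingHom.ker (constantCoeff (σ := Fin r) (R := O)) := hw j
  rw [TK.ker_constantCoeff] at h2
  exact h2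

/-- Claim D -/
theorem lam_pow_smul_mem (C0 : Submodule O (Fin d → O))
    (hge : ∀ c ∈ C0, ∃ y : Sig × Fin 3 → Fin d → O, ∀ j,
      c j = ∑ t, ∑ k, constantCoeff (P.Φ₁ (X (Sum.inl t)) j k) * y t k)
    (K : ℕ) (hK : ∀ c : Fin d → O, D.lam ^ K • c ∈ C0) (v : Fin d → B) :
    (C D.lam : B) ^ K • v ∈ P.UB ⊔
      (Ideal.span (Set.range (X : Fin r → B))) • (⊤ : Submodule B (Fin d → B)) := by
  obtain ⟨y, hy⟩ := hge _ (hK (fun j => constantCoeff (v j)))
  set u : Fin d → B := ∑ t, (P.Φ₁ (X (Sum.inl t))).mulVec (fun k => (C (y t k) : B)) with hu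
  have huU : u ∈ P.UB := by
    rw [hu]
    refine Submodule.sum_mem _ fun t _ => ?_
    rw [mem_UB]
    have h1 : P.mkM₁ ((P.Φ₁ (X (Sum.inl t))).mulVec fun k => (C (y t k) : B)) =
        (Ideal.Quotient.mk (LOC.I₁ D g) (X (Sum.inl t))) •
          P.mkM₁ (fun k => (C (y t k) : B)) := rfl
    rw [h1]
    refine Submodule.smul_mem_smul (Ideal.mem_sup_left ?_) Submodule.mem_top
    exact Ideal.mem_map_of_mem _ (Ideal.subset_span ⟨t, rfl⟩)
  have hdiff : (C D.lam : B) ^ K • v - u ∈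
      (Ideal.span (Set.range (X : Fin r → B))) • (⊤ : Submodule B (Fin d → B)) := by
    refine mem_span_X_smul_top _ fun j => ?_
    rw [Pi.sub_apply, map_sub, Pi.smul_apply, smul_eq_mul, map_mul, map_pow, constantCoeff_C, hu,
      Finset.sum_apply, map_sum]
    have h2 := hy j
    rw [Pi.smul_apply, smul_eq_mul] at h2
    rw [h2, sub_eq_zero]
    refine Finset.sum_congr rfl fun t _ => ?_
    rw [Matrix.mulVec, dotProduct, map_sum]
    refine Finset.sum_congr rfl fun k _ => ?_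
    rw [map_mul, constantCoeff_C]
  have h3 : (C D.lam : B) ^ K • v = u + ((C D.lam : B) ^ K • v - u) := by abel
  rw [h3]
  exact Submodule.add_mem_sup huU hdiff


theorem mk_C_smul (c : O) (m : P.M₁) :
    P.vecM₁ ((Ideal.Quotient.mk (LOC.I₁ D g) (C c)) • m) = (C c : B) • P.vecM₁ m := by
  rw [vecM₁_smul_mk, Φ_C_mulVec]

/-- **[CORE], coordinate form.**  If the columns of the constant terms of the `Φ₁ (s_{v,i})` span
at least `C0`, then `𝒪^d ⧸ C0` is not `λ`-power torsion. -/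
theorem not_torsion [NeZero d] (hD : D.Good) (hr : r = 3 * Fintype.card Sig + g)
    (C0 : Submodule O (Fin d → O))
    (hge : ∀ c ∈ C0, ∃ y : Sig × Fin 3 → Fin d → O, ∀ j,
      c j = ∑ t, ∑ k, constantCoeff (P.Φ₁ (X (Sum.inl t)) j k) * y t k) :
    ¬ ∃ K : ℕ, ∀ c : Fin d → O, D.lam ^ K • c ∈ C0 := by
  rintro ⟨K, hK⟩
  obtain ⟨𝔄, -, hcomap, hsupp⟩ := (P.ihara hD hr).2 P.aug
  -- everything is killed by a power of `λ`
  have hall : ∀ m : P.M₁,
      (Ideal.Quotient.mk (LOC.I₁ D g) (C (D.lam ^ (K * (r + 1))))) • m ∈ P.UR := by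
    intro m
    have h1 := pow_smul_mem_sup_pow_smul P.UB (Ideal.span (Set.range (X : Fin r → B)))
      (C D.lam : B) K (P.lam_pow_smul_mem C0 hge K hK) (r + 1) (P.vecM₁ m)
    have h2 : (Ideal.span (Set.range (X : Fin r → B))) ^ (r + 1) •
        (⊤ : Submodule B (Fin d → B)) ≤ P.UB := by
      refine le_trans (Submodule.smul_mono_left ?_) P.span_sq_smul_le_UB
      have h3 := span_X_pow_le O (Fin r)
      rwa [Fintype.card_fin] at h3
    have h4 : (C D.lam : B) ^ (K * (r + 1)) • P.vecM₁ m ∈ P.UB :=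
      (sup_le le_rfl h2) h1
    rw [mem_UB] at h4
    have h5 : P.mkM₁ ((C D.lam : B) ^ (K * (r + 1)) • P.vecM₁ m) =
        (Ideal.Quotient.mk (LOC.I₁ D g) (C (D.lam ^ (K * (r + 1))))) • m := by
      have h6 := P.mk_C_smul (D.lam ^ (K * (r + 1))) m
      rw [← map_pow, ← h6, mkM₁_vecM₁]
    rw [← h5]
    exact h4
  obtain ⟨n, hn⟩ := Module.mem_support_iff_exists_annihilator.mp hsupp
  obtain ⟨m, rfl⟩ := Submodule.Quotient.mk_surjective _ n
  have hmem : (Ideal.Quotient.mk (LOC.I₁ D g) (C (D.lam ^ (K * (r + 1))))) ∈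
      (Submodule.span (LOC.R₁ D g) {(Submodule.Quotient.mk m : P.M₁ ⧸ P.UR)}).annihilator := by
    rw [Submodule.mem_annihilator_span_singleton, ← Submodule.Quotient.mk_smul,
      Submodule.Quotient.mk_eq_zero]
    exact hall m
  have h1 : (Ideal.Quotient.mk (LOC.I₁ D g) (C D.lam)) ∈ 𝔄.asIdeal := by
    have h2 := hn hmem
    rw [map_pow, map_pow] at h2
    exact 𝔄.isPrime.mem_of_pow_mem _ h2
  have h2 : P.toS (C D.lam) ∈ P.aug := by
    rw [← hcomap, Ideal.mem_comap]
    have h3 : algebraMap P.S (LOC.R₁ D g) (P.toS (C D.lam)) =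
        Ideal.Quotient.mk (LOC.I₁ D g) (C D.lam) := by
      rw [P.algebraMap_R₁]
      change Ideal.Quotient.mk (LOC.I₁ D g) (P.rawPS₁ (C D.lam)) = _
      have h4 : (C D.lam : B) = algebraMap O B D.lam := rfl
      rw [h4, P.rawPS₁.commutes]
      rfl
    rw [h3]
    exact h1
  rw [mem_aug, ofS_toS, constantCoeff_C] at h2
  exact hD.irreducible_lam.ne_zero h2

end Patched

end Fermat.Agent.RB.CORE
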