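/-
PROJECT RB, block [CORE] (helper9): the adapter `TWLevel n → Sol (coreProblem …) n`.

Given the Taylor–Wiles data at level `n ≥ 1` and a fixed basis `e` of `M0`:
* `b₁'` : lifts of `e` under `ctl` — again a basis of `X₁` over `S∞ ⧸ J` (Nakayama);
* `b₂'` : lifts of `red₁ (b₁')` under `red₂` — again a basis of `X₂`;
* `φ_i f` : the matrix of `act_i f` in the basis `b_i'`, reduced modulo `𝔫 ^ n`.
-/
import Mathlib
import Fermat.Agent.RB.IFACE_helper9_Core
import Fermat.Agent.RB.PATCH_helper9_BasisMod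
import Fermat.Agent.RB.PATCH_helper9_Post

set_option autoImplicit false
set_option linter.unusedSectionVars false

namespace Fermat.Agent.RB

open MvPowerSeries IsLocalRing Fermat.Agent.RB.PATCH Fermat.Agent.RB.CORE

variable {O : Type} [CommRing O] [IsDomain O] [IsDiscreteValuationRing O] {Sig : Type}
  {D : LOC.Data O Sig} {g r d : ℕ} {M0 : Type} [AddCommGroup M0] [Module O M0]
  {C0 : Submodule O M0} {n : ℕ}

/-- the patching problem of [CORE] -/
noncomputable def CORE.coreProblem (D : LOC.Data O Sig) (g r d : ℕ)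
    (C0' : Submodule O (Fin d → O)) :
    Problem O (LOC.Var Sig g) (Fin r) (Fin 2) (Fin r) (Sig × Fin 3) d where
  I := ![LOC.I₁ D g, LOC.I₂ D g]
  L := Ideal.span {(C D.lam : MvPowerSeries (Fin r) O)}
  u := fun q => (X q : MvPowerSeries (Fin r) O) ^ 2
  i₀ := 0
  test := fun t => (X (Sum.inl t) : LOC.PS O Sig g)
  C0 := C0'

section PhiOf

variable {X : Type} [AddCommGroup X] [Module (SInf O r) X]
  (act : LOC.PS O Sig g →+* Module.End (SInf O r) X)
  (hact : ∀ (c : O) (x : X), act (C c) x = (C c : SInf O r) • x)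
  {J : Ideal (SInf O r)} (hJ : J ≤ maximalIdeal (SInf O r) ^ n)
  {b : Fin d → X} (hb : IsBasisMod J b)

/-- the matrices of the action in a basis, modulo `𝔫 ^ n` -/
noncomputable def phiOf : LOC.PS O Sig g →ₐ[O]
    Matrix (Fin d) (Fin d) (SInf O r ⧸ maximalIdeal (SInf O r) ^ n) :=
  { toRingHom := (Ideal.Quotient.factor hJ).mapMatrix.comp (hb.matHom.comp act)
    commutes' := fun c => by
      refine Matrix.ext fun j k => ?_
      change Ideal.Quotient.factor hJ (hb.matHom (act (C c)) j k) = _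
      rw [hb.matHom_of_smul _ (C c) (hact c), Matrix.algebraMap_matrix_apply]
      split_ifs
      · rfl
      · exact map_zero _ }

theorem phiOf_apply (f : LOC.PS O Sig g) (j k : Fin d) :
    phiOf act hact hJ hb f j k = Ideal.Quotient.factor hJ (hb.matHom (act f) j k) := rfl

theorem phiOf_spec (f : LOC.PS O Sig g) (c : Fin d → Fin d → SInf O r)
    (hc : ∀ k, act f (b k) = ∑ j, c j k • b j) (j k : Fin d) :
    phiOf act hact hJ hb f j k = Ideal.Quotient.mk _ (c j k) := by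
  rw [phiOf_apply, hb.matHom_apply, hc k, hb.equiv_comb, redJ_apply]
  rfl

include hb in
theorem exists_coeff (f : LOC.PS O Sig g) :
    ∃ c : Fin d → Fin d → SInf O r, ∀ k, act f (b k) = ∑ j, c j k • b j := by
  choose c hc using fun k => hb.span (act f (b k))
  exact ⟨fun j k => c k j, hc⟩

theorem phiOf_eq_zero (f : LOC.PS O Sig g) (hf : act f = 0) : phiOf act hact hJ hb f = 0 := by
  refine Matrix.ext fun j k => ?_
  rw [phiOf_apply, hf, map_zero]
  exact map_zero _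

theorem phiOf_of_smul (f : LOC.PS O Sig g) (s : SInf O r) (hf : ∀ x, act f x = s • x)
    (j k : Fin d) :
    phiOf act hact hJ hb f j k = if j = k then Ideal.Quotient.mk _ s else 0 := by
  rw [phiOf_apply, hb.matHom_of_smul _ s hf]
  split_ifs
  · rfl
  · exact map_zero _

end PhiOf

namespace TWLevel

variable (L : TWLevel D g r d M0 C0 n)

local notation "S∞" => SInf O r

theorem isBasisMod₁ : IsBasisMod L.J L.b₁ := ⟨L.b₁_span, L.b₁_rel⟩
theorem isBasisMod₂ : IsBasisMod L.J L.b₂ := ⟨L.b₂_span, L.b₂_rel⟩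

theorem C_lam_mem (hD : D.Good) : (C D.lam : S∞) ∈ maximalIdeal S∞ := by
  rw [Fermat.Agent.S53.PS.mem_maximalIdeal_iff, constantCoeff_C]
  exact (mem_maximalIdeal _).mpr hD.irreducible_lam.not_isUnit

theorem C_lam_pow_mem (hD : D.Good) (hn : 1 ≤ n) : (C (D.lam ^ n) : S∞) ∈ maximalIdeal S∞ := by
  rw [map_pow]
  exact Ideal.pow_mem_of_mem _ (C_lam_mem hD) n hn

theorem X_mem (q : Fin r) : (X q : S∞) ∈ maximalIdeal S∞ := by
  rw [Fermat.Agent.S53.PS.mem_maximalIdeal_iff, constantCoeff_X]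
  exact zero_mem _

theorem ctl_sum_C_smul (a : Fin d → O) (x : Fin d → L.X₁) :
    L.ctl (∑ k, (C (a k) : S∞) • x k) = ∑ k, a k • L.ctl (x k) := by
  rw [map_sum]
  refine Finset.sum_congr rfl fun k _ => ?_
  rw [L.ctl_smul, constantCoeff_C]

/-- lifts of a basis of `M0` under the control map form a basis of `X₁` -/
theorem isBasisMod_of_ctl (hD : D.Good) (hn : 1 ≤ n) (e : Module.Basis (Fin d) O M0)
    (b' : Fin d → L.X₁) (hb' : ∀ k, L.ctl (b' k) = Submodule.Quotient.mk (e k)) :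
    IsBasisMod L.J b' := by
  refine L.isBasisMod₁.of_span_mod b' fun x => ?_
  obtain ⟨m, hm⟩ := Submodule.Quotient.mk_surjective _ (L.ctl x)
  refine ⟨fun k => C (e.repr m k), ?_⟩
  have h0 : L.ctl (x - ∑ k, (C (e.repr m k) : S∞) • b' k) = 0 := by
    rw [map_sub, ctl_sum_C_smul, ← hm, sub_eq_zero]
    conv_lhs => rw [← e.sum_repr m]
    change Submodule.mkQ _ (∑ k, e.repr m k • e k) = _
    rw [map_sum]
    refine Finset.sum_congr rfl fun k _ => ?_
    rw [hb' k, map_smul]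
    rfl
  obtain ⟨y, z, hyz⟩ := L.ker_ctl _ h0
  rw [hyz]
  refine Submodule.add_mem _ (Submodule.smul_mem_smul (C_lam_pow_mem hD hn) Submodule.mem_top)
    (Submodule.sum_mem _ fun q _ => Submodule.smul_mem_smul (X_mem q) Submodule.mem_top)

/-- lifts under `red₂` of the reduction of a basis of `X₁` form a basis of `X₂` -/
theorem isBasisMod_of_red (hD : D.Good) (b₁' : Fin d → L.X₁) (h₁ : IsBasisMod L.J b₁')
    (b₂' : Fin d → L.X₂) (hb₂' : ∀ k, L.red₂ (b₂' k) = L.red₁ (b₁' k)) :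
    IsBasisMod L.J b₂' := by
  refine L.isBasisMod₂.of_span_mod b₂' fun x => ?_
  obtain ⟨x₁, hx₁⟩ := L.red₁_surjective (L.red₂ x)
  obtain ⟨c, hc⟩ := h₁.span x₁
  refine ⟨c, ?_⟩
  have h0 : L.red₂ (x - ∑ k, c k • b₂' k) = 0 := by
    rw [map_sub, map_sum, ← hx₁, hc, map_sum, sub_eq_zero]
    refine Finset.sum_congr rfl fun k _ => ?_
    rw [map_smul, map_smul, hb₂' k]
  obtain ⟨y, hy⟩ := (L.ker_red₂ _).mp h0
  rw [hy]
  exact Submodule.smul_mem_smul (C_lam_mem hD) Submodule.mem_top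

section Agree

variable (b₁' : Fin d → L.X₁) (h₁ : IsBasisMod L.J b₁') (b₂' : Fin d → L.X₂)
  (h₂ : IsBasisMod L.J b₂') (hb₂' : ∀ k, L.red₂ (b₂' k) = L.red₁ (b₁' k))

include hb₂' in
/-- the two matrix representations agree modulo `λ` -/
theorem phiOf_agree (f : LOC.PS O Sig g) (j k : Fin d) :
    phiOf L.act₁ L.act₁_C L.J_le h₁ f j k - phiOf L.act₂ L.act₂_C L.J_le h₂ f j k ∈
      (Ideal.span {(C D.lam : S∞)}).map (Ideal.Quotient.mk (maximalIdeal S∞ ^ n)) := by
  obtain ⟨c₁, hc₁⟩ := exists_coeff L.act₁ h₁ f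
  obtain ⟨c₂, hc₂⟩ := exists_coeff L.act₂ h₂ f
  rw [phiOf_spec L.act₁ L.act₁_C L.J_le h₁ f c₁ hc₁, phiOf_spec L.act₂ L.act₂_C L.J_le h₂ f c₂ hc₂,
    ← map_sub]
  -- the difference of the coefficients lies in `J + (λ)`
  have hred : L.red₁ (∑ j, (c₁ j k - c₂ j k) • b₁' j) = 0 := by
    have e1 : L.red₁ (L.act₁ f (b₁' k)) = L.red₂ (L.act₂ f (b₂' k)) := by
      rw [L.red₁_act, L.red₂_act, hb₂' k]
    rw [hc₁ k, hc₂ k, map_sum, map_sum] at e1
    rw [map_sum]
    have e2 : ∑ j, L.red₁ ((c₁ j k - c₂ j k) • b₁' j) =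
        ∑ j, L.red₁ (c₁ j k • b₁' j) - ∑ j, L.red₂ (c₂ j k • b₂' j) := by
      rw [← Finset.sum_sub_distrib]
      refine Finset.sum_congr rfl fun j _ => ?_
      rw [sub_smul, map_sub, map_smul, map_smul, map_smul, hb₂' j]
    rw [e2, e1, sub_self]
  obtain ⟨y, hy⟩ := (L.ker_red₁ _).mp hred
  obtain ⟨a, ha⟩ := h₁.span y
  have hrel : ∑ j, (c₁ j k - c₂ j k - C D.lam * a j) • b₁' j = 0 := by
    have e3 : ∑ j, (c₁ j k - c₂ j k - C D.lam * a j) • b₁' j =
        ∑ j, (c₁ j k - c₂ j k) • b₁' j - (C D.lam : S∞) • ∑ j, a j • b₁' j := by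
      rw [Finset.smul_sum, ← Finset.sum_sub_distrib]
      refine Finset.sum_congr rfl fun j _ => ?_
      rw [sub_smul _ (C D.lam * a j), mul_smul]
    rw [e3, ← ha, hy, sub_self]
  have hJ := (h₁.rel _).mp hrel j
  have h4 : c₁ j k - c₂ j k = (c₁ j k - c₂ j k - C D.lam * a j) + C D.lam * a j := by ring
  rw [h4, map_add]
  refine Ideal.add_mem _ ?_ ?_
  · rw [Ideal.Quotient.eq_zero_iff_mem.mpr (L.J_le hJ)]
    exact Ideal.zero_mem _
  · exact Ideal.mem_map_of_mem _ (Ideal.mul_mem_right _ _ (Ideal.subset_span rfl))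

end Agree

section Ctl

variable [Fintype Sig] (e : Module.Basis (Fin d) O M0) (b₁' : Fin d → L.X₁)
  (h₁ : IsBasisMod L.J b₁') (hb₁' : ∀ k, L.ctl (b₁' k) = Submodule.Quotient.mk (e k))

omit [IsDomain O] [IsDiscreteValuationRing O] in
/-- coordinates modulo an ideal -/
theorem repr_mem_of_mem_smul_top (I : Ideal O) (m : M0)
    (hm : m ∈ I • (⊤ : Submodule O M0)) (j : Fin d) : e.repr m j ∈ I := by
  refine Submodule.smul_induction_on hm (fun a ha x _ => ?_) (fun x y hx hy => ?_)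
  · rw [map_smul, Finsupp.smul_apply, smul_eq_mul]
    exact I.mul_mem_right _ ha
  · rw [map_add, Finsupp.add_apply]
    exact I.add_mem hx hy

include hb₁' in
theorem ctl_ge_aux (m : M0) (hm : m ∈ C0) :
    ∃ y : (Sig × Fin 3) → Fin d → O ⧸ maximalIdeal O ^ n, ∀ j,
      Ideal.Quotient.mk (maximalIdeal O ^ n) (e.repr m j) =
        ∑ t, ∑ k, augn O (Fin r) n
          (phiOf L.act₁ L.act₁_C L.J_le h₁ (X (Sum.inl t)) j k) * y t k := by
  classical
  choose c hc using fun t : Sig × Fin 3 => exists_coeff L.act₁ h₁ (X (Sum.inl t))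
  have hw : ∀ (t : Sig × Fin 3) (k : Fin d), L.ctl (L.act₁ (X (Sum.inl t)) (b₁' k)) =
      ∑ j, constantCoeff (c t j k) • (Submodule.Quotient.mk (e j) :
        M0 ⧸ (maximalIdeal O ^ n • ⊤ : Submodule O M0)) := by
    intro t k
    rw [hc t k, map_sum]
    refine Finset.sum_congr rfl fun j _ => ?_
    rw [L.ctl_smul, hb₁' j]
  set W : Submodule O (M0 ⧸ (maximalIdeal O ^ n • ⊤ : Submodule O M0)) :=
    Submodule.span O (Set.range fun p : (Sig × Fin 3) × Fin d =>
      L.ctl (L.act₁ (X (Sum.inl p.1)) (b₁' p.2))) with hW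
  have hsub : {z | ∃ (v : Sig) (i : Fin 3) (x : L.X₁),
      z = L.ctl (L.act₁ (LOC.sX O g v i) x)} ⊆ (W : Set _) := by
    rintro z ⟨v, i, x, rfl⟩
    obtain ⟨a, rfl⟩ := h₁.span x
    rw [map_sum, map_sum]
    refine Submodule.sum_mem _ fun k _ => ?_
    rw [map_smul, L.ctl_smul]
    exact Submodule.smul_mem _ _ (Submodule.subset_span ⟨((v, i), k), rfl⟩)
  have hmem : (Submodule.Quotient.mk m : M0 ⧸ (maximalIdeal O ^ n • ⊤ : Submodule O M0)) ∈ W :=
    Submodule.span_le.mpr hsub (L.ctl_C _ (Submodule.mem_map_of_mem hm))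
  obtain ⟨y, hy⟩ := (Submodule.mem_span_range_iff_exists_fun O).mp hmem
  set a : Fin d → O := fun j => ∑ p : (Sig × Fin 3) × Fin d, y p * constantCoeff (c p.1 j p.2)
    with ha
  have h1 : (Submodule.Quotient.mk m : M0 ⧸ (maximalIdeal O ^ n • ⊤ : Submodule O M0)) =
      Submodule.Quotient.mk (∑ j, a j • e j) := by
    rw [← hy]
    change _ = Submodule.mkQ _ (∑ j, a j • e j)
    rw [map_sum]
    have h2 : ∀ p : (Sig × Fin 3) × Fin d,
        y p • L.ctl (L.act₁ (X (Sum.inl p.1)) (b₁' p.2)) =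
          ∑ j, (y p * constantCoeff (c p.1 j p.2)) •
            (Submodule.Quotient.mk (e j) : M0 ⧸ (maximalIdeal O ^ n • ⊤ : Submodule O M0)) := by
      intro p
      rw [hw, Finset.smul_sum]
      exact Finset.sum_congr rfl fun j _ => by rw [mul_smul]
    rw [Finset.sum_congr rfl fun p _ => h2 p, Finset.sum_comm]
    refine Finset.sum_congr rfl fun j _ => ?_
    rw [map_smul, ha, Finset.sum_smul]
    rfl
  have h3 : m - ∑ j, a j • e j ∈ (maximalIdeal O ^ n • ⊤ : Submodule O M0) :=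
    (Submodule.Quotient.eq _).mp h1
  refine ⟨fun t k => Ideal.Quotient.mk _ (y (t, k)), fun j => ?_⟩
  have h4 := repr_mem_of_mem_smul_top e _ _ h3 j
  rw [map_sub, Finsupp.sub_apply, map_sum, Finsupp.finsetSum_apply] at h4
  have h5 : ∑ i, (e.repr (a i • e i)) j = a j := by
    rw [Finset.sum_eq_single j]
    · rw [map_smul, e.repr_self, Finsupp.smul_apply, Finsupp.single_eq_same, smul_eq_mul, mul_one]
    · intro i _ hi
      rw [map_smul, e.repr_self, Finsupp.smul_apply, Finsupp.single_eq_of_ne (Ne.symm hi),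
        smul_zero]
    · intro hj; exact absurd (Finset.mem_univ j) hj
  rw [h5] at h4
  rw [(Ideal.Quotient.eq).mpr h4, ha]
  simp only [map_sum, map_mul]
  rw [Fintype.sum_prod_type]
  refine Finset.sum_congr rfl fun t _ => Finset.sum_congr rfl fun k _ => ?_
  rw [phiOf_spec L.act₁ L.act₁_C L.J_le h₁ _ (c t) (hc t), augn_mk, mul_comm]

end Ctl

include L in
/-- **the adapter**: the Taylor–Wiles data at level `n ≥ 1` solve the patching problem at
level `n`. -/
theorem nonempty_sol [Fintype Sig] (hD : D.Good) (hn : 1 ≤ n)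
    (e : Module.Basis (Fin d) O M0) :
    Nonempty (Sol (coreProblem D g r d (C0.map (e.equivFun : M0 →ₗ[O] (Fin d → O)))) n) := by
  classical
  choose b₁' hb₁' using fun k => L.ctl_surjective (Submodule.Quotient.mk (e k))
  have h₁ := L.isBasisMod_of_ctl hD hn e b₁' hb₁'
  choose b₂' hb₂' using fun k => L.red₂_surjective (L.red₁ (b₁' k))
  have h₂ := L.isBasisMod_of_red hD b₁' h₁ b₂' hb₂'
  choose G₁ hG₁m hG₁ using L.hF₁
  choose G₂ hG₂m hG₂ using L.hF₂
  refine ⟨{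
    φ := ![phiOf L.act₁ L.act₁_C L.J_le h₁, phiOf L.act₂ L.act₂_C L.J_le h₂]
    F := ![fun q => Ideal.Quotient.mk _ (G₁ q), fun q => Ideal.Quotient.mk _ (G₂ q)]
    kill := ?_
    agree := ?_
    ctl_ge := ?_
    hF := ?_ }⟩
  · rw [Fin.forall_fin_two]
    refine ⟨fun f hf => ?_, fun f hf => ?_⟩
    · exact phiOf_eq_zero L.act₁ L.act₁_C L.J_le h₁ f (L.kill₁ f hf)
    · exact phiOf_eq_zero L.act₂ L.act₂_C L.J_le h₂ f (L.kill₂ f hf)
  · have h12 := L.phiOf_agree b₁' h₁ b₂' h₂ hb₂'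
    rw [Fin.forall_fin_two]
    refine ⟨?_, ?_⟩ <;> rw [Fin.forall_fin_two] <;> refine ⟨fun f j k => ?_, fun f j k => ?_⟩
    · change phiOf L.act₁ L.act₁_C L.J_le h₁ f j k - phiOf L.act₁ L.act₁_C L.J_le h₁ f j k ∈ _
      rw [sub_self]; exact Ideal.zero_mem _
    · exact h12 f j k
    · have := h12 f j k
      rw [← Ideal.neg_mem_iff, neg_sub] at this
      exact this
    · change phiOf L.act₂ L.act₂_C L.J_le h₂ f j k - phiOf L.act₂ L.act₂_C L.J_le h₂ f j k ∈ _
      rw [sub_self]; exact Ideal.zero_mem _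
  · rintro c ⟨m, hm, rfl⟩
    obtain ⟨y, hy⟩ := L.ctl_ge_aux e b₁' h₁ hb₁' m hm
    exact ⟨y, fun j => hy j⟩
  · rw [Fin.forall_fin_two]
    refine ⟨fun q => ⟨G₁ q, hG₁m q, rfl, fun j k => ?_⟩, fun q => ⟨G₂ q, hG₂m q, rfl, fun j k => ?_⟩⟩
    · exact phiOf_of_smul L.act₁ L.act₁_C L.J_le h₁ (G₁ q) _ (hG₁ q) j k
    · exact phiOf_of_smul L.act₂ L.act₂_C L.J_le h₂ (G₂ q) _ (hG₂ q) j k

end TWLevel

end Fermat.Agent.RB
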