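/-
PROJECT RB, block [CORE] (helper9): **`CoreStatement` is proved.**
Taylor–Wiles data at every level ⟹ (adapter) solutions of the patching problem at every level
⟹ (`PATCH.exists_patched`) patched matrices over `𝒪⟦Z⟧` ⟹ (`CORE.Patched.not_torsion`:
helper4's Ihara avoidance `LOC.loc_ihara_avoidance` on the patched modules) `M0 ⧸ C0` is not
`λ`-power torsion.
-/
import Mathlib
import Fermat.Agent.RB.PATCH_helper9_Adapter

set_option autoImplicit false
set_option linter.unusedSectionVars false

namespace Fermat.Agent.RB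

open MvPowerSeries IsLocalRing Fermat.Agent.RB.PATCH Fermat.Agent.RB.CORE

/-- **[CORE]**: patching + Ihara avoidance. -/
theorem coreStatement : CoreStatement := by
  intro O _ _ _ _ _ Sig _ _ D hD g r d hr hd M0 _ _ _ _ hrank C0 hL
  classical
  let e : Module.Basis (Fin d) O M0 := Module.finBasisOfFinrankEq O M0 hrank
  set C0' : Submodule O (Fin d → O) := C0.map (e.equivFun : M0 →ₗ[O] (Fin d → O)) with hC0'
  have hsol : ∀ n, Nonempty (Sol (coreProblem D g r d C0') n) := by
    intro n
    obtain ⟨L⟩ := hL (n + 1)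
    obtain ⟨s⟩ := L.nonempty_sol hD (Nat.succ_le_succ (Nat.zero_le n)) e
    exact ⟨s.trunc⟩
  obtain ⟨Φ, F, hkill, hagree, hge, hF⟩ := exists_patched (coreProblem D g r d C0') hsol
  let P : Patched D g r d :=
    { Φ₁ := Φ 0
      Φ₂ := Φ 1
      F₁ := F 0
      F₂ := F 1
      kill₁ := hkill 0
      kill₂ := hkill 1
      agree := hagree 0 1
      F₁_mem := fun q => (hF 0 q).1
      F₂_mem := fun q => (hF 1 q).1
      hF₁ := fun q j k => (hF 0 q).2 j k
      hF₂ := fun q j k => (hF 1 q).2 j k }
  haveI : NeZero d := ⟨hd.ne'⟩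
  have hnt := P.not_torsion hD hr C0' hge
  intro htors
  apply hnt
  choose k hk using htors
  refine ⟨Finset.univ.sup fun j => k (e j), fun c => ?_⟩
  have hmem : D.lam ^ (Finset.univ.sup fun j => k (e j)) • e.equivFun.symm c ∈ C0 := by
    rw [e.equivFun_symm_apply, Finset.smul_sum]
    refine Submodule.sum_mem _ fun j _ => ?_
    have hle : k (e j) ≤ Finset.univ.sup fun j => k (e j) :=
      Finset.le_sup (f := fun j => k (e j)) (Finset.mem_univ j)
    obtain ⟨t, ht⟩ := Nat.exists_eq_add_of_le hle
    rw [smul_comm, ht, pow_add, mul_comm, mul_smul]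
    exact C0.smul_mem _ (C0.smul_mem _ (hk (e j)))
  have h2 : D.lam ^ (Finset.univ.sup fun j => k (e j)) • c =
      e.equivFun (D.lam ^ (Finset.univ.sup fun j => k (e j)) • e.equivFun.symm c) := by
    rw [map_smul, LinearEquiv.apply_symm_apply]
  rw [h2]
  exact Submodule.mem_map_of_mem hmem

end Fermat.Agent.RB
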