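/-
PROJECT RB, block [REP_T] (helper1), part 2: Wiles' construction of a representation from its
trace, in matrix form.

`G` is a group, `T` a commutative ring with jointly injective homomorphisms `f i : T →+* B i`, and
`r i : G →* M₂(B i)` are representations normalised at an involution `c₀` (`r i c₀ = diag(1,-1)`)
and at an element `σ₀` (`(r i σ₀) 0 1 = 1`).  If all traces lift to `T` (compatibly) and
`x(σ₀, τ₀)` is a unit for some `τ₀`, the `r i` come from ONE representation `G →* M₂(T)`.
-/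
import Mathlib

set_option autoImplicit false
set_option linter.unusedSectionVars false
set_option linter.unusedVariables false
set_option linter.style.haveILetI false

namespace Fermat.Agent.RB.REPT

open Matrix

/-- the normal form of the involution. -/
def diagPM (A : Type*) [CommRing A] : Matrix (Fin 2) (Fin 2) A := !![1, 0; 0, -1]

section Joint

variable {G : Type*} [Group G] {T : Type*} [CommRing T]
  {ι : Type*} {B : ι → Type*} [∀ i, CommRing (B i)] (f : ∀ i, T →+* B i)

theorem matrix_eq_of_forall_map_eq (hinj : ∀ x : T, (∀ i, f i x = 0) → x = 0)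
    {X Y : Matrix (Fin 2) (Fin 2) T} (h : ∀ i, X.map (f i) = Y.map (f i)) : X = Y := by
  ext j k
  rw [← sub_eq_zero]
  refine hinj _ fun i => ?_
  have := congrFun (congrFun (h i) j) k
  rw [Matrix.map_apply, Matrix.map_apply] at this
  rw [map_sub, this, sub_self]

/-- a family of matrices lifting representations `r i` is a representation. -/
theorem exists_monoidHom_of_forall_map_eq (hinj : ∀ x : T, (∀ i, f i x = 0) → x = 0)
    (r : ∀ i, G →* Matrix (Fin 2) (Fin 2) (B i)) (M : G → Matrix (Fin 2) (Fin 2) T)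
    (hM : ∀ i g, (M g).map (f i) = r i g) :
    ∃ ρ : G →* Matrix (Fin 2) (Fin 2) T, ∀ g, ρ g = M g := by
  refine ⟨{ toFun := M, map_one' := ?_, map_mul' := ?_ }, fun g => rfl⟩
  · refine matrix_eq_of_forall_map_eq f hinj fun i => ?_
    rw [hM, map_one, ← RingHom.mapMatrix_apply, map_one]
  · intro g h
    refine matrix_eq_of_forall_map_eq f hinj fun i => ?_
    rw [hM, map_mul, ← RingHom.mapMatrix_apply, map_mul, RingHom.mapMatrix_apply,
      RingHom.mapMatrix_apply, hM, hM]

end Joint

section Wiles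

variable {G : Type*} [Group G] {T : Type*} [CommRing T]
  {ι : Type*} {B : ι → Type*} [∀ i, CommRing (B i)] (f : ∀ i, T →+* B i)

/-- the function `a(g) = (t(g) + t(c₀ g)) / 2`. -/
def aFun (two : T) (t : G → T) (c₀ : G) (g : G) : T := two * (t g + t (c₀ * g))

/-- the function `d(g) = (t(g) - t(c₀ g)) / 2`. -/
def dFun (two : T) (t : G → T) (c₀ : G) (g : G) : T := two * (t g - t (c₀ * g))

/-- the function `x(σ, τ) = a(σ τ) - a(σ) a(τ)`. -/
def xFun (two : T) (t : G → T) (c₀ : G) (σ τ : G) : T :=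
  aFun two t c₀ (σ * τ) - aFun two t c₀ σ * aFun two t c₀ τ

variable (two : T) (h2 : 2 * two = 1) (t : G → T) (c₀ : G)
  (r : ∀ i, G →* Matrix (Fin 2) (Fin 2) (B i))
  (ht : ∀ i g, f i (t g) = (r i g).trace)
  (hc₀ : ∀ i, r i c₀ = diagPM (B i))

include h2 ht hc₀

theorem map_aFun (i : ι) (g : G) : f i (aFun two t c₀ g) = r i g 0 0 := by
  have h2' : 2 * f i two = 1 := by rw [← map_ofNat (f i) 2, ← map_mul, h2, map_one]
  have h1 : (r i (c₀ * g)).trace = r i g 0 0 - r i g 1 1 := by
    rw [map_mul, hc₀ i, diagPM, Matrix.trace_fin_two]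
    simp [Matrix.mul_apply, Fin.sum_univ_two]
    ring
  rw [aFun, map_mul, map_add, ht, ht, h1, Matrix.trace_fin_two]
  linear_combination (r i g 0 0) * h2'

theorem map_dFun (i : ι) (g : G) : f i (dFun two t c₀ g) = r i g 1 1 := by
  have h2' : 2 * f i two = 1 := by rw [← map_ofNat (f i) 2, ← map_mul, h2, map_one]
  have h1 : (r i (c₀ * g)).trace = r i g 0 0 - r i g 1 1 := by
    rw [map_mul, hc₀ i, diagPM, Matrix.trace_fin_two]
    simp [Matrix.mul_apply, Fin.sum_univ_two]
    ring
  rw [dFun, map_mul, map_sub, ht, ht, h1, Matrix.trace_fin_two]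
  linear_combination (r i g 1 1) * h2'

theorem map_xFun (i : ι) (σ τ : G) :
    f i (xFun two t c₀ σ τ) = r i σ 0 1 * r i τ 1 0 := by
  rw [xFun, map_sub, map_mul, map_aFun f two h2 t c₀ r ht hc₀, map_aFun f two h2 t c₀ r ht hc₀,
    map_aFun f two h2 t c₀ r ht hc₀, map_mul, Matrix.mul_apply, Fin.sum_univ_two]
  ring

/-- **Wiles' lemma**: the representations `r i` come from one representation over `T`. -/
theorem exists_monoidHom_of_trace (hinj : ∀ x : T, (∀ i, f i x = 0) → x = 0)
    (σ₀ τ₀ : G) (hσ₀ : ∀ i, r i σ₀ 0 1 = 1) (u : Tˣ) (hu : (u : T) = xFun two t c₀ σ₀ τ₀) :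
    ∃ ρ : G →* Matrix (Fin 2) (Fin 2) T, (∀ i g, (ρ g).map (f i) = r i g) ∧
      ∀ g, (ρ g).trace = t g := by
  have hux : ∀ i, f i (u : T) = r i τ₀ 1 0 := by
    intro i
    rw [hu, map_xFun f two h2 t c₀ r ht hc₀, hσ₀, one_mul]
  have huinv : ∀ i, r i τ₀ 1 0 * f i ((u⁻¹ : Tˣ) : T) = 1 := by
    intro i
    rw [← hux, ← map_mul, Units.mul_inv, map_one]
  set M : G → Matrix (Fin 2) (Fin 2) T := fun g =>
    !![aFun two t c₀ g, xFun two t c₀ g τ₀ * ((u⁻¹ : Tˣ) : T);
       xFun two t c₀ σ₀ g, dFun two t c₀ g] with hM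
  have hMr : ∀ i g, (M g).map (f i) = r i g := by
    intro i g
    ext j k
    rw [Matrix.map_apply]
    fin_cases j <;> fin_cases k
    · simp only [hM, Fin.zero_eta, Fin.isValue, Matrix.of_apply, Matrix.cons_val', Matrix.cons_val_zero,
        Matrix.cons_val_fin_one]
      exact map_aFun f two h2 t c₀ r ht hc₀ i g
    · simp only [hM, Fin.zero_eta, Fin.mk_one, Fin.isValue, Matrix.of_apply, Matrix.cons_val',
        Matrix.cons_val_one, Matrix.cons_val_zero, Matrix.cons_val_fin_one]
      rw [map_mul, map_xFun f two h2 t c₀ r ht hc₀, mul_assoc, huinv, mul_one]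
    · simp only [hM, Fin.zero_eta, Fin.mk_one, Fin.isValue, Matrix.of_apply, Matrix.cons_val',
        Matrix.cons_val_one, Matrix.cons_val_zero, Matrix.cons_val_fin_one]
      rw [map_xFun f two h2 t c₀ r ht hc₀, hσ₀, one_mul]
    · simp only [hM, Fin.mk_one, Fin.isValue, Matrix.of_apply, Matrix.cons_val', Matrix.cons_val_one,
        Matrix.cons_val_fin_one]
      exact map_dFun f two h2 t c₀ r ht hc₀ i g
  obtain ⟨ρ, hρ⟩ := exists_monoidHom_of_forall_map_eq f hinj r M hMr
  refine ⟨ρ, fun i g => by rw [hρ, hMr], fun g => ?_⟩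
  rw [← sub_eq_zero]
  refine hinj _ fun i => ?_
  have h1 : f i (ρ g).trace = ((ρ g).map (f i)).trace := by
    rw [Matrix.trace_fin_two, Matrix.trace_fin_two, map_add, Matrix.map_apply, Matrix.map_apply]
  rw [map_sub, h1, hρ, hMr, ht, sub_self]

end Wiles

end Fermat.Agent.RB.REPT
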