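/-
PROJECT RB, block [REP_T] (helper1), part 3: normalised bases of a free module of rank two over a
local ring in which `2` is a unit, with respect to an involution of determinant `-1`.
-/
import Mathlib
import Fermat.Agent.RB.REPT_helper1_Wiles

set_option autoImplicit false
set_option linter.unusedSectionVars false
set_option linter.unusedVariables false
set_option linter.style.haveILetI false

namespace Fermat.Agent.RB.REPT

open Matrix IsLocalRing

section BasisChange

variable {R : Type*} [CommRing R] {M : Type*} [AddCommGroup M] [Module R M]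
  {n : Type*} [Fintype n] [DecidableEq n]

/-- the matrix of an endomorphism in the basis obtained from `b` by an invertible matrix `P`. -/
theorem mul_toMatrix_map_toLinearEquiv (b : Module.Basis n R M) (P : Matrix n n R)
    (h : IsUnit P.det) (φ : M →ₗ[R] M) :
    P * LinearMap.toMatrix (b.map (P.toLinearEquiv b h)) (b.map (P.toLinearEquiv b h)) φ =
      LinearMap.toMatrix b b φ * P := by
  set e := P.toLinearEquiv b h with he
  have heP : LinearMap.toMatrix b b (e : M →ₗ[R] M) = P := by
    have : (e : M →ₗ[R] M) = Matrix.toLin b b P := by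
      ext x
      rfl
    rw [this, LinearMap.toMatrix_toLin]
  rw [LinearMap.toMatrix_map_left, LinearMap.toMatrix_map_right]
  conv_lhs => rw [← heP]
  rw [← LinearMap.toMatrix_comp b b b]
  conv_rhs => rw [← heP]
  rw [← LinearMap.toMatrix_comp b b b]
  congr 1
  ext x
  simp

/-- uniqueness form: `toMatrix` in the new basis is `P⁻¹ * _ * P`. -/
theorem toMatrix_map_toLinearEquiv_eq (b : Module.Basis n R M) (P : Matrix n n R)
    (h : IsUnit P.det) (φ : M →ₗ[R] M) (X : Matrix n n R)
    (hX : P * X = LinearMap.toMatrix b b φ * P) :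
    LinearMap.toMatrix (b.map (P.toLinearEquiv b h)) (b.map (P.toLinearEquiv b h)) φ = X := by
  have h1 := mul_toMatrix_map_toLinearEquiv b P h φ
  rw [← hX] at h1
  have h2 := congrArg (fun Y => P⁻¹ * Y) h1
  simp only [← Matrix.mul_assoc, Matrix.nonsing_inv_mul _ h, Matrix.one_mul] at h2
  exact h2

end BasisChange

section Involution

variable {A : Type*} [CommRing A]

/-- an involution of determinant `-1` of a `2 × 2` matrix ring has trace zero. -/
theorem trace_eq_zero_of_mul_self_eq_one (C : Matrix (Fin 2) (Fin 2) A) (hC : C * C = 1)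
    (hdet : C.det = -1) : C.trace = 0 := by
  have h00 := congrFun (congrFun hC 0) 0
  have h01 := congrFun (congrFun hC 0) 1
  have h10 := congrFun (congrFun hC 1) 0
  have h11 := congrFun (congrFun hC 1) 1
  simp only [Matrix.mul_apply, Fin.sum_univ_two, Matrix.one_apply_eq, Matrix.one_apply_ne,
    ne_eq, zero_ne_one, one_ne_zero, not_false_eq_true, Fin.isValue] at h00 h01 h10 h11
  rw [Matrix.det_fin_two] at hdet
  rw [Matrix.trace_fin_two]
  linear_combination (-(C 1 1)) * h00 + C 1 0 * h01 + C 0 0 * hdet

variable [IsLocalRing A]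

/-- **diagonalisation of an involution of determinant `-1`** over a local ring in which `2` is a
unit. -/
theorem exists_mul_eq_mul_diagPM (h2 : IsUnit (2 : A)) (C : Matrix (Fin 2) (Fin 2) A)
    (hC : C * C = 1) (hdet : C.det = -1) :
    ∃ P : Matrix (Fin 2) (Fin 2) A, IsUnit P.det ∧ C * P = P * diagPM A := by
  have htr := trace_eq_zero_of_mul_self_eq_one C hC hdet
  rw [Matrix.trace_fin_two] at htr
  have h00 := congrFun (congrFun hC 0) 0
  simp only [Matrix.mul_apply, Fin.sum_univ_two, Matrix.one_apply_eq, Fin.isValue] at h00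
  set α := C 0 0 with hα
  set β := C 0 1 with hβ
  set γ := C 1 0 with hγ
  have hδ : C 1 1 = -α := by linear_combination htr
  have hCeq : C = !![α, β; γ, -α] := by
    rw [← hδ]
    exact Matrix.eta_fin_two C
  have hsum : IsUnit ((α + 1) + (1 - α)) := by
    have : (α + 1) + (1 - α) = 2 := by ring
    rw [this]; exact h2
  rcases IsLocalRing.isUnit_or_isUnit_of_isUnit_add hsum with hu | hu
  · refine ⟨!![α + 1, β; γ, -(α + 1)], ?_, ?_⟩
    · rw [Matrix.det_fin_two_of]
      have : (α + 1) * -(α + 1) - β * γ = -(2 * (α + 1)) := by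
        linear_combination (-1 : A) * h00
      rw [this]
      exact (h2.mul hu).neg
    · rw [hCeq, diagPM]
      ext j k
      fin_cases j <;> fin_cases k <;>
        simp [Matrix.mul_apply, Fin.sum_univ_two] <;>
        first | ring1 | linear_combination h00
  · refine ⟨!![β, α - 1; 1 - α, γ], ?_, ?_⟩
    · rw [Matrix.det_fin_two_of]
      have : β * γ - (α - 1) * (1 - α) = 2 * (1 - α) := by
        linear_combination h00
      rw [this]
      exact h2.mul hu
    · rw [hCeq, diagPM]
      ext j k
      fin_cases j <;> fin_cases k <;>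
        simp [Matrix.mul_apply, Fin.sum_univ_two] <;>
        first | ring1 | linear_combination h00

end Involution

section NormalBasis

variable {A : Type*} [CommRing A] [IsLocalRing A] {V : Type*} [AddCommGroup V] [Module A V]
  [Module.Free A V] [Module.Finite A V]

/-- **a basis diagonalising an involution of determinant `-1`.** -/
theorem exists_basis_toMatrix_eq_diagPM (h2 : IsUnit (2 : A)) (hV : Module.finrank A V = 2)
    (C : Module.End A V) (hC : C * C = 1) (hdet : LinearMap.det C = -1) :
    ∃ b : Module.Basis (Fin 2) A V, LinearMap.toMatrix b b C = diagPM A := by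
  set b₀ : Module.Basis (Fin 2) A V := Module.finBasisOfFinrankEq A V hV with hb₀
  set C₀ := LinearMap.toMatrix b₀ b₀ C with hC₀
  have h1 : C₀ * C₀ = 1 := by
    rw [hC₀, ← LinearMap.toMatrix_mul, hC, LinearMap.toMatrix_one]
  have h3 : C₀.det = -1 := by rw [hC₀, LinearMap.det_toMatrix, hdet]
  obtain ⟨P, hP, hCP⟩ := exists_mul_eq_mul_diagPM h2 C₀ h1 h3
  exact ⟨b₀.map (P.toLinearEquiv b₀ hP),
    toMatrix_map_toLinearEquiv_eq b₀ P hP C (diagPM A) hCP.symm⟩

/-- rescaling the second basis vector by a unit. -/
theorem exists_basis_rescale (b₁ : Module.Basis (Fin 2) A V) (l : A) (hl : IsUnit l) :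
    ∃ b₂ : Module.Basis (Fin 2) A V, ∀ φ : Module.End A V,
      (LinearMap.toMatrix b₂ b₂ φ 0 1 = LinearMap.toMatrix b₁ b₁ φ 0 1 * l) ∧
      (LinearMap.toMatrix b₁ b₁ φ = diagPM A → LinearMap.toMatrix b₂ b₂ φ = diagPM A) := by
  set D : Matrix (Fin 2) (Fin 2) A := !![1, 0; 0, l] with hD
  have hDdet : IsUnit D.det := by
    rw [hD, Matrix.det_fin_two_of]
    simpa using hl
  refine ⟨b₁.map (D.toLinearEquiv b₁ hDdet), fun φ => ⟨?_, fun hφ => ?_⟩⟩
  · have h1 := mul_toMatrix_map_toLinearEquiv b₁ D hDdet φ
    have h2 := congrFun (congrFun h1 0) 1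
    rw [Matrix.mul_apply, Matrix.mul_apply, Fin.sum_univ_two, Fin.sum_univ_two] at h2
    simpa [hD] using h2
  · refine toMatrix_map_toLinearEquiv_eq b₁ D hDdet φ (diagPM A) ?_
    rw [hφ, hD, diagPM]
    ext j k
    fin_cases j <;> fin_cases k <;> simp [Matrix.mul_apply, Fin.sum_univ_two]

end NormalBasis

end Fermat.Agent.RB.REPT
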