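/-
PROJECT RB, block [REP_T] (helper1), part 5: gluing the traces of a finite family of adic Galois
representations over finite local `T`-algebras `B i`: if the Frobenius traces come from `T`, then
ALL traces come from `T` (Frobenius density + closedness of the image of `T`).
-/
import Mathlib
import Fermat.Agent.RB.REPT_helper1_Top
import Fermat.Agent.GR.K9B_helper4_Pieces

set_option autoImplicit false
set_option linter.unusedSectionVars false
set_option linter.unusedVariables false
set_option linter.style.haveILetI false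

namespace Fermat.Agent.RB.REPT

open Polynomial IsLocalRing Fermat.Agent.GR

local notation "Ω" => AlgebraicClosure ℚ
local notation "GQ" => (AlgebraicClosure ℚ ≃ₐ[ℚ] AlgebraicClosure ℚ)

section TraceLift

variable {T : Type} [CommRing T] [IsLocalRing T] [IsNoetherianRing T]
  {ι : Type} [Finite ι] {B : ι → Type} [∀ i, CommRing (B i)] [∀ i, IsLocalRing (B i)]
  [∀ i, Algebra T (B i)] [∀ i, Module.Finite T (B i)]

/-- **all traces come from `T`.** -/
theorem exists_trace_lift (e : ℕ)
    (he : ∀ i, maximalIdeal (B i) ^ e ≤ (maximalIdeal T).map (algebraMap T (B i)))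
    (ρ : ∀ i, GaloisRepAdic (B i)) (S : Finset ℕ) (t d : ℕ → T)
    (hchar : ∀ (i : ι) (ℓ : ℕ), ℓ.Prime → ℓ ∉ S → ∀ A : ValuationSubring Ω, A.LiesOverPrime ℓ →
      ∀ σ : GQ, A.IsFrobeniusAt σ ℓ → LinearMap.charpoly ((ρ i).ρ σ) =
        X ^ 2 - C (algebraMap T (B i) (t ℓ)) * X + C (algebraMap T (B i) (d ℓ)))
    (g : GQ) :
    ∃ x : T, ∀ i, algebraMap T (B i) x = LinearMap.trace (B i) (ρ i).V ((ρ i).ρ g) := by
  refine exists_algebraMap_eq_of_forall_sub_mem e he
    (fun i => LinearMap.trace (B i) (ρ i).V ((ρ i).ρ g)) fun n => ?_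
  choose L hLfd hL using fun i => (ρ i).isAdicContinuous n
  haveI := hLfd
  haveI : FiniteDimensional ℚ ↥(⨆ i, L i) := IntermediateField.finiteDimensional_iSup_of_finite
  obtain ⟨ℓ, hℓ, hℓS, A, hA, φ, hφ, m, τ, h⟩ := exists_frobenius_pow_conj S (⨆ i, L i) g
  refine ⟨luc (t ℓ) (d ℓ) m, fun i => ?_⟩
  have c₁ := trace_sub_trace_mem (ρ i) n (L i) (hL i) _ _ (fun x hx => h x (le_iSup L i hx))
  rw [trace_conj_eq, trace_pow_eq_luc_of_charpoly (ρ i) φ _ _ (hchar i ℓ hℓ hℓS A hA φ hφ) m,
    ← map_luc] at c₁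
  exact c₁

end TraceLift

end Fermat.Agent.RB.REPT
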