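/-
PROJECT RB, block [REP_T] (helper1), part 7: **the gluing theorem (GL)**.

`T` is a noetherian local ring in which `2` is a unit, `f i : T →+* B i` a finite jointly injective
family of finite local homomorphisms to local rings with `𝔪_i ^ e ⊆ 𝔪_T B_i`, and `ρ i` adic Galois
representations over `B i` whose Frobenius characteristic polynomials come from `T`.  If
`det ρ i (c₀) = -1` for an involution `c₀` and one `ρ i₀` is residually absolutely irreducible, then
the `ρ i` are the base changes of ONE adic representation over `T`.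
-/
import Mathlib
import Fermat.Agent.RB.REPT_helper1_Trace
import Fermat.Agent.RB.REPT_helper1_Normal
import Fermat.Agent.RB.REPT_helper1_MatRep

set_option autoImplicit false
set_option linter.unusedSectionVars false
set_option linter.unusedVariables false
set_option linter.style.haveILetI false

namespace Fermat.Agent.RB.REPT

open Polynomial IsLocalRing Fermat.Agent.S53 Fermat.Agent.S53.L1

local notation "Ω" => AlgebraicClosure ℚ
local notation "GQ" => (AlgebraicClosure ℚ ≃ₐ[ℚ] AlgebraicClosure ℚ)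

section Quadratic

variable {R : Type*} [CommRing R]

theorem coeffs_eq_of_quadratic_eq {a b a' b' : R}
    (h : (X ^ 2 - C a * X + C b : R[X]) = X ^ 2 - C a' * X + C b') : a = a' ∧ b = b' := by
  have h1 := congrArg (fun q => Polynomial.coeff q 1) h
  have h0 := congrArg (fun q => Polynomial.coeff q 0) h
  simp [Polynomial.coeff_X_pow] at h1 h0
  exact ⟨h1, h0⟩

theorem trace_det_of_charpoly_eq (M : Matrix (Fin 2) (Fin 2) R) {a b : R}
    (h : M.charpoly = X ^ 2 - C a * X + C b) : M.trace = a ∧ M.det = b := by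
  rcases subsingleton_or_nontrivial R with hR | hR
  · exact ⟨Subsingleton.elim _ _, Subsingleton.elim _ _⟩
  rw [Matrix.charpoly_fin_two] at h
  exact coeffs_eq_of_quadratic_eq h

end Quadratic

section Core

variable {T : Type} [CommRing T] [IsLocalRing T] [IsNoetherianRing T]
  {ι : Type} [Finite ι] {B : ι → Type} [∀ i, CommRing (B i)] [∀ i, IsLocalRing (B i)]
  [∀ i, Algebra T (B i)] [∀ i, Module.Finite T (B i)]

/-- **(GL), matrix form.** -/
theorem exists_matRep_of_points (h2 : IsUnit (2 : T))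
    (hloc : ∀ i, IsLocalHom (algebraMap T (B i)))
    (e : ℕ) (he : ∀ i, maximalIdeal (B i) ^ e ≤ (maximalIdeal T).map (algebraMap T (B i)))
    (hinj : ∀ x : T, (∀ i, algebraMap T (B i) x = 0) → x = 0)
    (ρ : ∀ i, GaloisRepAdic (B i)) (S : Finset ℕ) (t d : ℕ → T)
    (hchar : ∀ (i : ι) (ℓ : ℕ), ℓ.Prime → ℓ ∉ S → ∀ A : ValuationSubring Ω, A.LiesOverPrime ℓ →
      ∀ σ : GQ, A.IsFrobeniusAt σ ℓ → LinearMap.charpoly ((ρ i).ρ σ) =
        X ^ 2 - C (algebraMap T (B i) (t ℓ)) * X + C (algebraMap T (B i) (d ℓ)))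
    (c₀ : GQ) (hc₀ : c₀ * c₀ = 1) (hdet : ∀ i, LinearMap.det ((ρ i).ρ c₀) = -1)
    (i₀ : ι) (hirr : (ρ i₀).residual.IsAbsolutelyIrreducible) :
    ∃ (ρM : GQ →* Mat2 T) (bs : ∀ i, Module.Basis (Fin 2) (B i) (ρ i).V),
      (∀ i g, (ρM g).map (algebraMap T (B i)) = matRep (ρ i) (bs i) g) ∧
      MatAdicCont ρM ∧ FullSpan (mapRep (residue T) ρM) ∧
      (∀ (ℓ : ℕ), ℓ.Prime → ℓ ∉ S → ∀ A : ValuationSubring Ω, A.LiesOverPrime ℓ →
        ∀ σ : GQ, A.IsFrobeniusAt σ ℓ → (ρM σ).charpoly = X ^ 2 - C (t ℓ) * X + C (d ℓ)) := by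
  classical
  obtain ⟨two, h2'⟩ := h2.exists_right_inv
  choose tr htr using exists_trace_lift e he ρ S t d hchar
  have h2B : ∀ i, IsUnit (2 : B i) := fun i => by
    have := h2.map (algebraMap T (B i))
    rwa [map_ofNat] at this
  have hcc : ∀ i, (ρ i).ρ c₀ * (ρ i).ρ c₀ = 1 := fun i => by rw [← map_mul, hc₀, map_one]
  -- the index `i₀`
  obtain ⟨b₀, hb₀⟩ := exists_basis_toMatrix_eq_diagPM (h2B i₀) (ρ i₀).finrank_eq ((ρ i₀).ρ c₀)
    (hcc i₀) (hdet i₀)
  have hfull := fullSpan_matRep (ρ i₀) b₀ hirr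
  obtain ⟨σ₀, hσ₀⟩ := exists_isUnit_apply_of_fullSpan _ hfull 0 1
  obtain ⟨τ₀, hτ₀⟩ := exists_isUnit_apply_of_fullSpan _ hfull 1 0
  have hxi : ∀ (i : ι) (b : Module.Basis (Fin 2) (B i) (ρ i).V),
      matRep (ρ i) b c₀ = diagPM (B i) → ∀ σ τ, algebraMap T (B i) (xFun two tr c₀ σ τ) =
        matRep (ρ i) b σ 0 1 * matRep (ρ i) b τ 1 0 := by
    intro i b hb σ τ
    exact map_xFun (ι := Unit) (B := fun _ => B i) (fun _ => algebraMap T (B i)) two h2' tr c₀
      (fun _ => matRep (ρ i) b) (fun _ g => by rw [htr, trace_matRep]) (fun _ => hb) () σ τ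
  have hxu : IsUnit (xFun two tr c₀ σ₀ τ₀) := by
    haveI := hloc i₀
    apply isUnit_of_map_unit (algebraMap T (B i₀))
    rw [hxi i₀ b₀ hb₀]
    exact hσ₀.mul hτ₀
  obtain ⟨u, hu⟩ := hxu
  -- normalised bases for all `i`
  have hbs : ∀ i, ∃ b : Module.Basis (Fin 2) (B i) (ρ i).V,
      matRep (ρ i) b c₀ = diagPM (B i) ∧ matRep (ρ i) b σ₀ 0 1 = 1 := by
    intro i
    obtain ⟨b₁, hb₁⟩ := exists_basis_toMatrix_eq_diagPM (h2B i) (ρ i).finrank_eq ((ρ i).ρ c₀)
      (hcc i) (hdet i)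
    have hunit : IsUnit (matRep (ρ i) b₁ σ₀ 0 1) := by
      have h1 : IsUnit (algebraMap T (B i) (xFun two tr c₀ σ₀ τ₀)) := by
        rw [← hu]; exact u.isUnit.map _
      rw [hxi i b₁ hb₁] at h1
      exact isUnit_of_mul_isUnit_left h1
    obtain ⟨l, hl⟩ := hunit
    obtain ⟨b₂, hb₂⟩ := exists_basis_rescale b₁ ((l⁻¹ : (B i)ˣ) : B i) (Units.isUnit _)
    refine ⟨b₂, (hb₂ _).2 hb₁, ?_⟩
    rw [matRep_apply, (hb₂ _).1, ← matRep_apply, ← hl, Units.mul_inv]
  choose bs hbs1 hbs2 using hbs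
  obtain ⟨ρM, hρM, hρMtr⟩ := exists_monoidHom_of_trace (fun i => algebraMap T (B i)) two h2' tr c₀
    (fun i => matRep (ρ i) (bs i)) (fun i g => by rw [htr, trace_matRep]) hbs1 hinj σ₀ τ₀ hbs2 u hu
  refine ⟨ρM, bs, hρM, ?_, ?_, ?_⟩
  · -- continuity
    intro n
    obtain ⟨n', hn'⟩ := exists_forall_mem_pow_of_forall_algebraMap_mem e he hinj n
    choose L hLfd hL using fun i => (ρ i).isAdicContinuous n'
    haveI := hLfd
    refine ⟨⨆ i, L i, IntermediateField.finiteDimensional_iSup_of_finite,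
      fun σ hσ j k => hn' _ fun i => ?_⟩
    have h1 := matRep_sub_one_apply_mem (ρ i) (bs i)
      (hL i σ fun x hx => hσ x (le_iSup L i hx)) j k
    rw [← hρM i σ] at h1
    have h3 : algebraMap T (B i) ((ρM σ - 1) j k) =
        ((ρM σ).map (algebraMap T (B i)) - 1) j k := by
      rw [Matrix.sub_apply, Matrix.sub_apply, Matrix.map_apply, map_sub, Matrix.one_apply,
        Matrix.one_apply]
      split_ifs
      · rw [map_one]
      · rw [map_zero]
    rw [h3]
    exact h1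
  · -- full span
    have h1 := fullSpan_mapRep_residue_matRep (ρ i₀) (bs i₀) hirr
    haveI := hloc i₀
    apply fullSpan_of_fullSpan_map (ResidueField.map (algebraMap T (B i₀)))
    have h3 : mapRep (ResidueField.map (algebraMap T (B i₀))) (mapRep (residue T) ρM) =
        mapRep (residue (B i₀)) (matRep (ρ i₀) (bs i₀)) := by
      ext g j k
      rw [mapRep_apply, mapRep_apply, mapRep_apply, ← hρM i₀ g, Matrix.map_apply, Matrix.map_apply,
        Matrix.map_apply, Matrix.map_apply]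
      rfl
    rw [h3]
    exact h1
  · -- Frobenius
    intro ℓ hℓ hℓS A hA σ hσ
    rw [Matrix.charpoly_fin_two]
    have key : ∀ i, algebraMap T (B i) (ρM σ).trace = algebraMap T (B i) (t ℓ) ∧
        algebraMap T (B i) (ρM σ).det = algebraMap T (B i) (d ℓ) := by
      intro i
      have h1 := trace_det_of_charpoly_eq (matRep (ρ i) (bs i) σ)
        ((charpoly_matRep (ρ i) (bs i) σ).trans (hchar i ℓ hℓ hℓS A hA σ hσ))
      rw [← hρM i σ] at h1
      refine ⟨?_, ?_⟩
      · rw [← h1.1, Matrix.trace_fin_two, Matrix.trace_fin_two, map_add, Matrix.map_apply,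
          Matrix.map_apply]
      · rw [← h1.2, Matrix.det_fin_two, Matrix.det_fin_two, map_sub, map_mul, map_mul,
          Matrix.map_apply, Matrix.map_apply, Matrix.map_apply, Matrix.map_apply]
    have htrace : (ρM σ).trace = t ℓ := by
      rw [← sub_eq_zero]
      refine hinj _ fun i => ?_
      rw [map_sub, (key i).1, sub_self]
    have hdet' : (ρM σ).det = d ℓ := by
      rw [← sub_eq_zero]
      refine hinj _ fun i => ?_
      rw [map_sub, (key i).2, sub_self]
    rw [htrace, hdet']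

end Core

section Main

variable {T : Type} [CommRing T] [IsLocalRing T] [IsNoetherianRing T]
  {ι : Type} [Finite ι] {B : ι → Type} [∀ i, CommRing (B i)] [∀ i, IsLocalRing (B i)]

/-- **(GL): gluing adic Galois representations along a finite jointly injective family of finite
local homomorphisms `f i : T →+* B i`.** -/
theorem exists_galoisRepAdic_of_points (h2 : IsUnit (2 : T))
    (f : ∀ i, T →+* B i) (hloc : ∀ i, IsLocalHom (f i)) (hfin : ∀ i, (f i).Finite)
    (e : ℕ) (he : ∀ i, maximalIdeal (B i) ^ e ≤ (maximalIdeal T).map (f i))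
    (hinj : ∀ x : T, (∀ i, f i x = 0) → x = 0)
    (ρ : ∀ i, GaloisRepAdic (B i)) (S : Finset ℕ) (t d : ℕ → T)
    (hchar : ∀ (i : ι) (ℓ : ℕ), ℓ.Prime → ℓ ∉ S → ∀ A : ValuationSubring Ω, A.LiesOverPrime ℓ →
      ∀ σ : GQ, A.IsFrobeniusAt σ ℓ → LinearMap.charpoly ((ρ i).ρ σ) =
        X ^ 2 - C (f i (t ℓ)) * X + C (f i (d ℓ)))
    (c₀ : GQ) (hc₀ : c₀ * c₀ = 1) (hdet : ∀ i, LinearMap.det ((ρ i).ρ c₀) = -1)
    (i₀ : ι) (hirr : (ρ i₀).residual.IsAbsolutelyIrreducible) :
    ∃ ρT : GaloisRepAdic T,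
      (∀ i, (ρT.baseChangeAlong (f i) (hloc i)).IsEquiv (ρ i)) ∧
      (∀ (ℓ : ℕ), ℓ.Prime → ℓ ∉ S → ∀ A : ValuationSubring Ω, A.LiesOverPrime ℓ →
        ∀ σ : GQ, A.IsFrobeniusAt σ ℓ →
          LinearMap.charpoly (ρT.ρ σ) = X ^ 2 - C (t ℓ) * X + C (d ℓ)) ∧
      ρT.residual.IsAbsolutelyIrreducible ∧
      (∀ σ : GQ, (∀ i, (ρ i).ρ σ = 1) → ρT.ρ σ = 1) ∧
      (∀ (σ : GQ) (i : ι), f i (LinearMap.trace T ρT.V (ρT.ρ σ)) =
        LinearMap.trace (B i) (ρ i).V ((ρ i).ρ σ)) := by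
  letI : ∀ i, Algebra T (B i) := fun i => (f i).toAlgebra
  haveI : ∀ i, Module.Finite T (B i) := fun i => hfin i
  obtain ⟨ρM, bs, hρM, hcont, hfull, hfrob⟩ := exists_matRep_of_points h2 hloc e he hinj ρ S t d
    hchar c₀ hc₀ hdet i₀ hirr
  refine ⟨repOfMat ρM hcont, fun i => ?_, fun ℓ hℓ hℓS A hA σ hσ => ?_,
    residual_repOfMat_isAbsolutelyIrreducible ρM hcont hfull, fun σ hσ => ?_, fun σ i => ?_⟩
  · exact isEquiv_baseChangeAlong_of_map_eq (f i) (hloc i) (repOfMat ρM hcont)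
      (Pi.basisFun T (Fin 2)) (ρ i) (bs i) (fun σ => by rw [matRep_repOfMat]; exact hρM i σ)
  · rw [charpoly_repOfMat]
    exact hfrob ℓ hℓ hℓS A hA σ hσ
  · have h1 : ρM σ = 1 := by
      refine matrix_eq_of_forall_map_eq (fun i => algebraMap T (B i)) hinj fun i => ?_
      rw [hρM i σ, matRep_apply, hσ i, ← RingHom.mapMatrix_apply,
        map_one (algebraMap T (B i)).mapMatrix]
      exact LinearMap.toMatrix_one (bs i)
    rw [repOfMat_ρ_apply, h1, Matrix.toLin'_one]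
    rfl
  · rw [← trace_matRep (repOfMat ρM hcont) (Pi.basisFun T (Fin 2)), matRep_repOfMat,
      ← trace_matRep (ρ i) (bs i), ← hρM i σ, Matrix.trace_fin_two, Matrix.trace_fin_two, map_add,
      Matrix.map_apply, Matrix.map_apply]
    rfl

end Main

end Fermat.Agent.RB.REPT
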