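/-
PROJECT RB, block [REP_T] (helper1), part (B7a): **two-by-two matrix algebra for the type at `Σ`.**

* `eq_zero_of_sq_zero_of_commute`: over a domain, a square-zero matrix commuting with a matrix of
  non-zero discriminant vanishes;
* `pow_eq_one_of_commute`: over a field, `M` of determinant `1` and trace `μ + μ⁻¹`, `μ ^ p = 1`
  (`p` odd), commuting with a matrix of non-zero discriminant satisfies `M ^ p = 1`.
-/
import Mathlib

set_option autoImplicit false
set_option linter.unusedSectionVars false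
set_option linter.unusedVariables false

namespace Fermat.Agent.RB.REPT

open Polynomial Matrix

section Mat2

variable {B : Type*} [CommRing B]

/-- Cayley–Hamilton for two-by-two matrices. -/
theorem mat2_sq_eq (M : Matrix (Fin 2) (Fin 2) B) :
    M * M = M.trace • M - M.det • (1 : Matrix (Fin 2) (Fin 2) B) := by
  ext i j
  fin_cases i <;> fin_cases j <;>
    simp [Matrix.mul_apply, Fin.sum_univ_two, Matrix.trace_fin_two, Matrix.det_fin_two] <;> ring

variable [IsDomain B]

/-- a square-zero matrix commuting with a matrix of non-zero discriminant vanishes. -/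
theorem eq_zero_of_sq_zero_of_commute (N D : Matrix (Fin 2) (Fin 2) B) (hN : N * N = 0)
    (hND : N * D = D * N) (hΔ : D.trace ^ 2 - 4 * D.det ≠ 0) : N = 0 := by
  have h11 := congrFun (congrFun hN 0) 0
  have h12 := congrFun (congrFun hN 0) 1
  have h21 := congrFun (congrFun hN 1) 0
  have h22 := congrFun (congrFun hN 1) 1
  have c11 := congrFun (congrFun hND 0) 0
  have c12 := congrFun (congrFun hND 0) 1
  have c21 := congrFun (congrFun hND 1) 0
  have c22 := congrFun (congrFun hND 1) 1
  simp only [Matrix.mul_apply, Fin.sum_univ_two, Matrix.zero_apply] at h11 h12 h21 h22 c11 c12 c21 c22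
  rw [Matrix.trace_fin_two, Matrix.det_fin_two] at hΔ
  set x := N 0 0
  set y := N 0 1
  set z := N 1 0
  set w := N 1 1
  set d₁ := D 0 0
  set d₂ := D 0 1
  set d₃ := D 1 0
  set d₄ := D 1 1
  -- the trace of `N` vanishes
  have hs : x + w = 0 := by
    by_contra hs
    have hy : y = 0 := by
      have : (x + w) * y = 0 := by linear_combination h12
      exact (mul_eq_zero.1 this).resolve_left hs
    have hz : z = 0 := by
      have : (x + w) * z = 0 := by linear_combination h21
      exact (mul_eq_zero.1 this).resolve_left hs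
    have hx : x = 0 := by
      have : x * x = 0 := by rw [hy] at h11; linear_combination h11
      exact mul_self_eq_zero.1 this
    have hw : w = 0 := by
      have : w * w = 0 := by rw [hy] at h22; linear_combination h22
      exact mul_self_eq_zero.1 this
    exact hs (by rw [hx, hw, add_zero])
  have hw : w = -x := by linear_combination hs
  rw [hw] at c12 c21
  have hx : x = 0 := by
    have : ((d₁ + d₄) ^ 2 - 4 * (d₁ * d₄ - d₂ * d₃)) * (x * x) = 0 := by
      linear_combination (d₁ - d₄) ^ 2 * h11 + (2 * x * d₃) * c12 + (y * (d₁ - d₄)) * (-c21)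
    exact mul_self_eq_zero.1 ((mul_eq_zero.1 this).resolve_left hΔ)
  rw [hx] at h11 c11 c12 c21
  have hy : y = 0 := by
    have : ((d₁ + d₄) ^ 2 - 4 * (d₁ * d₄ - d₂ * d₃)) * (y * y) = 0 := by
      linear_combination (-(d₁ - d₄) * y) * c12 + (4 * d₂ * y) * c11 + (4 * d₂ ^ 2) * h11
    exact mul_self_eq_zero.1 ((mul_eq_zero.1 this).resolve_left hΔ)
  have hz : z = 0 := by
    have : ((d₁ + d₄) ^ 2 - 4 * (d₁ * d₄ - d₂ * d₃)) * (z * z) = 0 := by
      linear_combination ((d₁ - d₄) * z) * c21 + (-4 * d₃ * z) * c11 + (4 * d₃ ^ 2) * h11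
    exact mul_self_eq_zero.1 ((mul_eq_zero.1 this).resolve_left hΔ)
  ext i j
  fin_cases i <;> fin_cases j
  · exact hx
  · exact hy
  · exact hz
  · show w = 0
    rw [hw, hx, neg_zero]

end Mat2

section Field

variable {F : Type*} [Field F]

/-- `X² - (μ + μ⁻¹) X + 1` divides `X ^ p - 1` for `μ ^ p = 1`, `μ ≠ μ⁻¹`. -/
theorem quadratic_dvd_X_pow_sub_one {μ : F} {p : ℕ} (hμp : μ ^ p = 1) (hμ : μ ≠ μ⁻¹) :
    (X ^ 2 - C (μ + μ⁻¹) * X + 1 : F[X]) ∣ X ^ p - 1 := by
  have hμ0 : μ ≠ 0 := by
    rintro rfl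
    exact hμ (by rw [_root_.inv_zero])
  have h1 : (X ^ 2 - C (μ + μ⁻¹) * X + 1 : F[X]) = (X - C μ) * (X - C μ⁻¹) := by
    have : (C μ * C μ⁻¹ : F[X]) = 1 := by rw [← C_mul, mul_inv_cancel₀ hμ0, C_1]
    rw [C_add]
    linear_combination -this
  rw [h1]
  have hcop : IsCoprime (X - C μ : F[X]) (X - C μ⁻¹) :=
    Polynomial.isCoprime_X_sub_C_of_isUnit_sub (sub_ne_zero.2 hμ).isUnit
  refine hcop.mul_dvd ?_ ?_
  · rw [Polynomial.dvd_iff_isRoot]
    simp [hμp]
  · rw [Polynomial.dvd_iff_isRoot]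
    simp [hμp]

/-- `M` of determinant `1` and trace `μ + μ⁻¹`, `μ ^ p = 1` (`p` odd), commuting with a matrix of
non-zero discriminant satisfies `M ^ p = 1`. -/
theorem pow_eq_one_of_commute (M D : Matrix (Fin 2) (Fin 2) F) (hMD : M * D = D * M)
    (hΔ : D.trace ^ 2 - 4 * D.det ≠ 0) (hdet : M.det = 1) {μ : F} {p : ℕ} (hp : Odd p)
    (hμp : μ ^ p = 1) (htr : M.trace = μ + μ⁻¹) : M ^ p = 1 := by
  have hsq := mat2_sq_eq M
  rw [hdet, htr, one_smul] at hsq
  by_cases hμ1 : μ = 1
  · -- the unipotent case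
    rw [hμ1, inv_one] at hsq
    have hN : (M - 1) * (M - 1) = 0 := by
      rw [sub_mul, mul_sub, mul_sub, mul_one, one_mul, mul_one, hsq]
      rw [show ((1 : F) + 1) • M = M + M by rw [add_smul, one_smul]]
      abel
    have hND : (M - 1) * D = D * (M - 1) := by
      rw [sub_mul, mul_sub, hMD, one_mul, mul_one]
    have h0 := eq_zero_of_sq_zero_of_commute (M - 1) D hN hND hΔ
    rw [sub_eq_zero.1 h0, one_pow]
  · -- the split case
    have hμ : μ ≠ μ⁻¹ := by
      intro h
      have hμ0 : μ ≠ 0 := by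
        rintro rfl
        rw [zero_pow hp.pos.ne'] at hμp
        exact zero_ne_one hμp
      have h2 : μ ^ 2 = 1 := by
        rw [pow_two]
        nth_rewrite 2 [h]
        exact mul_inv_cancel₀ hμ0
      obtain ⟨k, hk⟩ := hp
      apply hμ1
      have : μ ^ p = μ := by rw [hk, pow_succ, pow_mul, h2, one_pow, one_mul]
      rw [← this, hμp]
    obtain ⟨g, hg⟩ := quadratic_dvd_X_pow_sub_one hμp hμ
    have h1 := congrArg (Polynomial.aeval M) hg
    have h2 : Polynomial.aeval M (X ^ 2 - C (μ + μ⁻¹) * X + 1 : F[X]) = 0 := by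
      rw [map_add, map_sub, map_mul, map_pow, Polynomial.aeval_X, Polynomial.aeval_C, map_one,
        pow_two, hsq, Algebra.algebraMap_eq_smul_one, smul_mul_assoc, one_mul]
      abel
    rw [map_mul, h2, zero_mul] at h1
    simp only [map_sub, map_pow, Polynomial.aeval_X, map_one] at h1
    exact sub_eq_zero.1 h1

end Field

section Points

variable {R : Type*} [CommRing R] {ι : Type*} {F : ι → Type*} [∀ i, Field (F i)]

/-- `M ^ p = 1` checked at a jointly injective family of field-valued points. -/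
theorem pow_eq_one_of_points (φ : ∀ i, R →+* F i) (hφ : ∀ a : R, (∀ i, φ i a = 0) → a = 0)
    (M D : Matrix (Fin 2) (Fin 2) R) (hMD : M * D = D * M) (hdet : M.det = 1) {p : ℕ}
    (hp : Odd p)
    (hD : ∀ i, φ i D.trace ^ 2 - 4 * φ i D.det ≠ 0)
    (hM : ∀ i, ∃ μ : F i, μ ^ p = 1 ∧ φ i M.trace = μ + μ⁻¹) : M ^ p = 1 := by
  ext a b
  rw [← sub_eq_zero]
  refine hφ _ fun i => ?_
  rw [map_sub, sub_eq_zero]
  obtain ⟨μ, hμp, hμ⟩ := hM i
  have h1 : ((φ i).mapMatrix M) ^ p = 1 := by
    refine pow_eq_one_of_commute ((φ i).mapMatrix M) ((φ i).mapMatrix D) ?_ ?_ ?_ hp hμp ?_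
    · rw [← map_mul, hMD, map_mul]
    · rw [← RingHom.map_det, RingHom.mapMatrix_apply, ← AddMonoidHom.map_trace]
      exact hD i
    · rw [← RingHom.map_det, hdet, map_one]
    · rw [RingHom.mapMatrix_apply, ← AddMonoidHom.map_trace]
      exact hμ
  have h2 := congrFun (congrFun h1 a) b
  rw [← map_pow, RingHom.mapMatrix_apply, Matrix.map_apply] at h2
  rw [h2, Matrix.one_apply, Matrix.one_apply]
  split_ifs
  · rw [map_one]
  · rw [map_zero]

end Points

end Fermat.Agent.RB.REPT
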