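/-
PROJECT RB, block [REP_T] (helper1), part (B11): **an absolutely irreducible residual
representation is not Eisenstein**, in the form needed by [TWMOD] (`hNE`).

`r : G_ℚ → GL₂(k)` of finite level with full span (`k` of characteristic `p`), Frobenius
characteristic polynomials `X² - a_ℓ X + ℓ` outside a finite set `B`.  Then for every modulus `D`
and every finite set `Bad` there is a prime `ℓ ∉ B ∪ Bad`, `ℓ ≡ 1 mod D`, with `a_ℓ ≠ ℓ + 1`.

Proof: otherwise, by the Frobenius density theorem, every `h` in the kernel `H` of the cyclotomic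
character mod `D p` satisfies `(r h - 1)² = 0`; a normal subgroup of unipotent elements acts
trivially (two-by-two matrix algebra + full span), so `r` has abelian image: contradiction.
-/
import Mathlib
import Fermat.Agent.S53.L1_helper1_MatrixAlg
import Fermat.Agent.LR.NONEIS_helper3_Abstract
import Fermat.Agent.RB.REPT_helper1_Mat2
import Fermat.Agent.RB.REPT_helper1_Glue
import Fermat.Prelude.Def_GaloisRep_Residual

set_option autoImplicit false
set_option linter.unusedSectionVars false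
set_option linter.unusedVariables false
set_option linter.style.haveILetI false

namespace Fermat.Agent.RB.REPT

open Polynomial Matrix Fermat.Agent.S53.L1 Fermat.Agent.TW.Kill

local notation "Ω" => AlgebraicClosure ℚ
local notation "GQ" => (AlgebraicClosure ℚ ≃ₐ[ℚ] AlgebraicClosure ℚ)

section MatLemma

variable {B : Type*} [CommRing B] [IsDomain B]

/-- a square-zero two-by-two matrix over a domain has trace zero. -/
theorem trace_eq_zero_of_sq_zero (x : Matrix (Fin 2) (Fin 2) B) (hx : x * x = 0) :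
    x 0 0 + x 1 1 = 0 := by
  have h11 := congrFun (congrFun hx 0) 0
  have h12 := congrFun (congrFun hx 0) 1
  have h21 := congrFun (congrFun hx 1) 0
  have h22 := congrFun (congrFun hx 1) 1
  simp only [Matrix.mul_apply, Fin.sum_univ_two, Matrix.zero_apply] at h11 h12 h21 h22
  by_contra hs
  have hy : x 0 1 = 0 := by
    have : (x 0 0 + x 1 1) * x 0 1 = 0 := by linear_combination h12
    exact (mul_eq_zero.1 this).resolve_left hs
  have hz : x 1 0 = 0 := by
    have : (x 0 0 + x 1 1) * x 1 0 = 0 := by linear_combination h21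
    exact (mul_eq_zero.1 this).resolve_left hs
  have hx0 : x 0 0 = 0 := by
    have : x 0 0 * x 0 0 = 0 := by rw [hy] at h11; linear_combination h11
    exact mul_self_eq_zero.1 this
  have hw : x 1 1 = 0 := by
    have : x 1 1 * x 1 1 = 0 := by rw [hy] at h22; linear_combination h22
    exact mul_self_eq_zero.1 this
  exact hs (by rw [hx0, hw, add_zero])

/-- two square-zero two-by-two matrices over a domain with `tr (x y) = 0` have product zero. -/
theorem mul_eq_zero_of_sq_zero_of_trace (x y : Matrix (Fin 2) (Fin 2) B) (hx : x * x = 0)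
    (hy : y * y = 0) (hxy : (x * y).trace = 0) : x * y = 0 := by
  have hsx := trace_eq_zero_of_sq_zero x hx
  have hsy := trace_eq_zero_of_sq_zero y hy
  have hx11 := congrFun (congrFun hx 0) 0
  have hy11 := congrFun (congrFun hy 0) 0
  simp only [Matrix.mul_apply, Fin.sum_univ_two, Matrix.zero_apply] at hx11 hy11
  rw [Matrix.trace_fin_two] at hxy
  simp only [Matrix.mul_apply, Fin.sum_univ_two] at hxy
  have hx4 : x 1 1 = -x 0 0 := by linear_combination hsx
  have hy4 : y 1 1 = -y 0 0 := by linear_combination hsy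
  rw [hx4, hy4] at hxy
  ext i j
  fin_cases i <;> fin_cases j
  · -- (0,0)
    show (x * y) 0 0 = 0
    simp only [Matrix.mul_apply, Fin.sum_univ_two]
    have : (x 0 0 * y 0 0 + x 0 1 * y 1 0) * (x 0 0 * y 0 0 + x 0 1 * y 1 0) = 0 := by
      linear_combination (x 0 1 * y 1 0) * hxy + (y 0 0 * y 0 0) * hx11 +
        (-(x 0 1 * x 1 0)) * hy11
    exact mul_self_eq_zero.1 this
  · show (x * y) 0 1 = 0
    simp only [Matrix.mul_apply, Fin.sum_univ_two]
    rw [hy4]
    have : (x 0 0 * y 0 1 + x 0 1 * -y 0 0) * (x 0 0 * y 0 1 + x 0 1 * -y 0 0) = 0 := by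
      linear_combination (-(x 0 1 * y 0 1)) * hxy + (y 0 1 * y 0 1) * hx11 +
        (x 0 1 * x 0 1) * hy11
    exact mul_self_eq_zero.1 this
  · show (x * y) 1 0 = 0
    simp only [Matrix.mul_apply, Fin.sum_univ_two]
    rw [hx4]
    have : (x 1 0 * y 0 0 + -x 0 0 * y 1 0) * (x 1 0 * y 0 0 + -x 0 0 * y 1 0) = 0 := by
      linear_combination (-(x 1 0 * y 1 0)) * hxy + (y 1 0 * y 1 0) * hx11 +
        (x 1 0 * x 1 0) * hy11
    exact mul_self_eq_zero.1 this
  · show (x * y) 1 1 = 0
    simp only [Matrix.mul_apply, Fin.sum_univ_two]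
    rw [hx4, hy4]
    have : (x 1 0 * y 0 1 + -x 0 0 * -y 0 0) * (x 1 0 * y 0 1 + -x 0 0 * -y 0 0) = 0 := by
      linear_combination (x 1 0 * y 0 1) * hxy + (y 0 0 * y 0 0) * hx11 +
        (-(x 0 1 * x 1 0)) * hy11
    exact mul_self_eq_zero.1 this

end MatLemma

section Group

variable {G : Type*} [Group G] {k : Type*} [Field k]

/-- a matrix `x` with `x M x = 0` for all `M` vanishes. -/
theorem eq_zero_of_forall_mul_mul (x : Mat2 k) (h : ∀ M : Mat2 k, x * M * x = 0) : x = 0 := by
  ext i j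
  have h1 := congrFun (congrFun (h (Matrix.single j i 1)) i) j
  rw [Matrix.mul_apply] at h1
  simp only [Matrix.mul_apply, Matrix.single_apply, Matrix.zero_apply] at h1
  have h2 : x i j * x i j = 0 := by
    rw [← h1]
    rw [Finset.sum_eq_single i]
    · rw [Finset.sum_eq_single j]
      · simp
      · intro b _ hb
        simp [hb.symm]
      · simp
    · intro b _ hb
      rw [Finset.sum_eq_zero]
      · rw [zero_mul]
      · intro c _
        simp [hb.symm]
    · simp
  exact mul_self_eq_zero.1 h2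

/-- **a normal subgroup of unipotent elements acts trivially** (full span). -/
theorem eq_one_of_forall_sq_zero (r : G →* Mat2 k) (hfull : FullSpan r) (H : Subgroup G)
    [hH : H.Normal] (hsq : ∀ h ∈ H, (r h - 1) * (r h - 1) = 0) : ∀ h ∈ H, r h = 1 := by
  -- traces
  have htr : ∀ h ∈ H, (r h).trace = (1 : Mat2 k).trace := by
    intro h hh
    have h1 := trace_eq_zero_of_sq_zero (r h - 1) (hsq h hh)
    have h2 : (r h - 1).trace = 0 := by
      rw [Matrix.trace_fin_two]
      exact h1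
    rw [Matrix.trace_sub, sub_eq_zero] at h2
    exact h2
  -- products vanish
  have hprod : ∀ h₁ ∈ H, ∀ h₂ ∈ H, (r h₁ - 1) * (r h₂ - 1) = 0 := by
    intro h₁ hh₁ h₂ hh₂
    refine mul_eq_zero_of_sq_zero_of_trace _ _ (hsq h₁ hh₁) (hsq h₂ hh₂) ?_
    have e : (r h₁ - 1) * (r h₂ - 1) = r (h₁ * h₂) - r h₁ - r h₂ + 1 := by
      rw [map_mul]
      noncomm_ring
    rw [e, Matrix.trace_add, Matrix.trace_sub, Matrix.trace_sub, htr _ (H.mul_mem hh₁ hh₂),
      htr _ hh₁, htr _ hh₂]
    ring
  intro h₀ hh₀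
  rw [← sub_eq_zero]
  apply eq_zero_of_forall_mul_mul
  -- `x₀ r(g) x₀ = 0`
  have hg : ∀ g : G, (r h₀ - 1) * r g * (r h₀ - 1) = 0 := by
    intro g
    have h1 := hprod (g⁻¹ * h₀ * g⁻¹⁻¹) (hH.conj_mem h₀ hh₀ g⁻¹) h₀ hh₀
    have e : r (g⁻¹ * h₀ * g⁻¹⁻¹) - 1 = r g⁻¹ * (r h₀ - 1) * r g := by
      have e1 : r g⁻¹ * r g = 1 := by rw [← map_mul, inv_mul_cancel, map_one]
      rw [inv_inv, map_mul, map_mul, mul_sub, sub_mul, mul_one, e1]
    rw [e] at h1
    have h2 : r g * (r g⁻¹ * (r h₀ - 1) * r g * (r h₀ - 1)) = 0 := by rw [h1, mul_zero]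
    have e2 : r g * (r g⁻¹ * (r h₀ - 1) * r g * (r h₀ - 1)) =
        (r g * r g⁻¹) * ((r h₀ - 1) * r g * (r h₀ - 1)) := by noncomm_ring
    rw [e2, ← map_mul, mul_inv_cancel, map_one, one_mul] at h2
    exact h2
  intro M
  have hM : M ∈ Submodule.span k (Set.range r) := by
    unfold FullSpan at hfull
    rw [hfull]
    trivial
  induction hM using Submodule.span_induction with
  | mem y hy =>
    obtain ⟨g, rfl⟩ := hy
    exact hg g
  | zero => rw [mul_zero, zero_mul]
  | add y z _ _ hy hz => rw [mul_add, add_mul, hy, hz, add_zero]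
  | smul c y _ hy => rw [Matrix.mul_smul, Matrix.smul_mul, hy, smul_zero]

/-- a representation with commuting image does not have full span. -/
theorem not_fullSpan_of_commute (r : G →* Mat2 k) (hc : ∀ g g' : G, r g * r g' = r g' * r g) :
    ¬ FullSpan r := by
  intro hfull
  unfold FullSpan at hfull
  -- every `r g` is central
  have h1 : ∀ (g : G) (M : Mat2 k), r g * M = M * r g := by
    intro g M
    have hM : M ∈ Submodule.span k (Set.range r) := by rw [hfull]; trivial
    induction hM using Submodule.span_induction with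
    | mem y hy =>
      obtain ⟨g', rfl⟩ := hy
      exact hc g g'
    | zero => rw [mul_zero, zero_mul]
    | add y z _ _ hy hz => rw [mul_add, add_mul, hy, hz]
    | smul c y _ hy => rw [Matrix.mul_smul, Matrix.smul_mul, hy]
  -- everything is central
  have h2 : ∀ M M' : Mat2 k, M * M' = M' * M := by
    intro M M'
    have hM : M ∈ Submodule.span k (Set.range r) := by rw [hfull]; trivial
    induction hM using Submodule.span_induction with
    | mem y hy =>
      obtain ⟨g, rfl⟩ := hy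
      exact h1 g M'
    | zero => rw [mul_zero, zero_mul]
    | add y z _ _ hy hz => rw [mul_add, add_mul, hy, hz]
    | smul c y _ hy => rw [Matrix.mul_smul, Matrix.smul_mul, hy]
  have h3 := h2 (Matrix.single 0 1 1) (Matrix.single 1 0 1)
  have h4 := congrFun (congrFun h3 0) 0
  simp [Matrix.mul_apply, Matrix.single_apply] at h4

end Group

section Unipotent

variable {R : Type*} [Ring R]

/-- powers of a unipotent element of index two are unipotent of index two. -/
theorem pow_sub_one_sq_eq_zero (u : R) (h : (u - 1) * (u - 1) = 0) (j : ℕ) :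
    (u ^ j - 1) * (u ^ j - 1) = 0 := by
  have h1 : u ^ j - 1 = (u - 1) * ∑ i ∈ Finset.range j, u ^ i := (mul_geom_sum u j).symm
  have hc : Commute (∑ i ∈ Finset.range j, u ^ i) (u - 1) := by
    refine Commute.sum_left _ _ _ fun i _ => ?_
    exact ((Commute.refl u).pow_left i).sub_right (Commute.one_right _)
  rw [h1, hc.mul_mul_mul_comm, h, zero_mul]

end Unipotent

section Main

variable {k : Type} [Field k] [Finite k]

/-- **an absolutely irreducible residual representation is not Eisenstein.** -/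
theorem exists_prime_trace_ne {p : ℕ} (hp : p.Prime) (hpk : (p : k) = 0)
    (r : GQ →* Mat2 k) (hfac : GaloisFactorsThroughFiniteLevel r) (hfull : FullSpan r)
    (a : ℕ → k) (B : Finset ℕ)
    (hchar : ∀ ℓ : ℕ, ℓ.Prime → ℓ ∉ B → ∀ A : ValuationSubring Ω, A.LiesOverPrime ℓ →
      ∀ σ : GQ, A.IsFrobeniusAt σ ℓ → (r σ).charpoly = X ^ 2 - C (a ℓ) * X + C (ℓ : k))
    (D : ℕ) (hD : 0 < D) (Bad : Finset ℕ) :
    ∃ ℓ : ℕ, ℓ.Prime ∧ ℓ ∉ B ∧ ℓ ∉ Bad ∧ ℓ ≡ 1 [MOD D] ∧ a ℓ ≠ (ℓ : k) + 1 := by
  classical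
  by_contra hno
  have hneg : ∀ ℓ : ℕ, ℓ.Prime → ℓ ∉ B → ℓ ∉ Bad → ℓ ≡ 1 [MOD D] → a ℓ = (ℓ : k) + 1 := by
    intro ℓ h1 h2 h3 h4
    by_contra h5
    exact hno ⟨ℓ, h1, h2, h3, h4, h5⟩
  set D' : ℕ := D * p with hD'
  have hD0 : D' ≠ 0 := Nat.mul_ne_zero hD.ne' hp.ne_zero
  haveI : NeZero D' := ⟨hD0⟩
  -- an open normal subgroup in the kernels of `r` and of the cyclotomic character
  obtain ⟨L, hLfd, hL⟩ := hfac
  obtain ⟨Lc, hLcfd, hLc⟩ := exists_finiteDimensional_cyc_eq_one D'
  haveI : FiniteDimensional ℚ L := hLfd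
  haveI : FiniteDimensional ℚ Lc := hLcfd
  set K₀ : IntermediateField ℚ Ω := L ⊔ Lc with hK₀
  haveI : FiniteDimensional ℚ K₀ := IntermediateField.finiteDimensional_sup _ _
  haveI : IsGalois ℚ Ω := IsAlgClosure.isGalois ℚ Ω
  set K : IntermediateField ℚ Ω := IntermediateField.normalClosure ℚ K₀ Ω with hK
  haveI : FiniteDimensional ℚ K := normalClosure.is_finiteDimensional ℚ K₀ Ω
  haveI : Normal ℚ K := normalClosure.normal ℚ K₀ Ω
  haveI : IsGalois ℚ K := ⟨⟩
  have hle : K₀ ≤ K := IntermediateField.le_normalClosure K₀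
  haveI hNn : K.fixingSubgroup.Normal := IsGalois.fixingSubgroup_normal_of_isGalois K
  have hNo : IsOpen (K.fixingSubgroup : Set GQ) := IntermediateField.fixingSubgroup_isOpen K
  have hNr : ∀ σ ∈ K.fixingSubgroup, r σ = 1 := by
    intro σ hσ
    rw [IntermediateField.mem_fixingSubgroup_iff] at hσ
    exact hL σ fun x hx => hσ x (hle ((le_sup_left : L ≤ K₀) hx))
  have hNcyc : K.fixingSubgroup ≤ (cyc D').ker := by
    intro σ hσ
    rw [MonoidHom.mem_ker]
    apply hLc σ
    rw [IntermediateField.mem_fixingSubgroup_iff] at hσ ⊢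
    exact fun x hx => hσ x (hle ((le_sup_right : Lc ≤ K₀) hx))
  set T : Finset ℕ := B ∪ Bad ∪ D'.primeFactors with hT
  obtain ⟨ζ, hζ⟩ := exists_primitiveRoot D'
  -- the units-valued form of `r`
  let R : GQ →* (Mat2 k)ˣ := r.toHomUnits
  have hR : ∀ σ, ((R σ : (Mat2 k)ˣ) : Mat2 k) = r σ := fun σ => rfl
  have hNR : K.fixingSubgroup ≤ R.ker := by
    intro σ hσ
    rw [MonoidHom.mem_ker]
    apply Units.ext
    rw [hR, hNr σ hσ, Units.val_one]
  -- Step A: the kernel of the cyclotomic character consists of unipotent elements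
  have hsq : ∀ h ∈ (cyc D').ker, (r h - 1) * (r h - 1) = 0 := by
    intro h hh
    rw [MonoidHom.mem_ker] at hh
    obtain ⟨q, hq, hqT, hall⟩ :=
      Fermat.Agent.Density.exists_prime_frobenius_conj_algClosure K.fixingSubgroup hNo h T
    haveI : Fact q.Prime := ⟨hq⟩
    have hP₀ : (padicPlace q).LiesOverPrime q := padicPlace_liesOverPrime q
    obtain ⟨φ, hφ⟩ := exists_isFrobeniusAt (padicPlace q) hq hP₀
    obtain ⟨τ, hτ⟩ := (hall _ hP₀).2 φ hφ
    have hqB : q ∉ B := fun h => hqT (by rw [hT]; simp [h])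
    have hqBad : q ∉ Bad := fun h => hqT (by rw [hT]; simp [h])
    have hqD : ¬ q ∣ D' := fun h => hqT (by
      rw [hT]
      exact Finset.mem_union_right _ (Nat.mem_primeFactors.mpr ⟨hq, h, hD0⟩))
    have hcycφ : cyc D' φ = 1 := by
      have h1 := Fermat.Agent.LR.NonEis.zpowers_map_eq_of_zpowers_mk_eq K.fixingSubgroup
        (cyc D') hNcyc hτ
      have h2 : cyc D' (τ * h * τ⁻¹) = 1 := by
        rw [map_mul, map_mul, hh, mul_one, map_inv, mul_inv_cancel]
      rw [h2, Subgroup.zpowers_one_eq_bot, Subgroup.zpowers_eq_bot] at h1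
      exact h1
    have hfix : φ ζ = ζ := (cyc_eq_one_iff D' φ).mp hcycφ ζ hζ.pow_eq_one
    have hdvd : D' ∣ q - 1 := dvd_sub_one_of_isFrobeniusAt hq hqD hP₀ hφ hζ hfix
    have hq1 : 1 ≤ q := hq.one_lt.le
    have hqd : q ≡ 1 [MOD D] := by
      have : D ∣ q - 1 := (Dvd.intro _ rfl : D ∣ D').trans hdvd
      exact ((Nat.modEq_iff_dvd' hq1).mpr this).symm
    have hqk : (q : k) = 1 := by
      have h1 : p ∣ q - 1 := (Dvd.intro_left _ rfl : p ∣ D').trans hdvd
      obtain ⟨c, hc⟩ := h1
      have h2 : q = p * c + 1 := by omega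
      rw [h2]
      push_cast
      rw [hpk, zero_mul, zero_add]
    -- `r φ` is unipotent
    have hch := hchar q hq hqB _ hP₀ φ hφ
    rw [hneg q hq hqB hqBad hqd, hqk] at hch
    obtain ⟨htr, hdet⟩ := trace_det_of_charpoly_eq (r φ) hch
    have hφsq : (r φ - 1) * (r φ - 1) = 0 := by
      have h1 := mat2_sq_eq (r φ)
      rw [htr, hdet, one_smul] at h1
      rw [sub_mul, mul_sub, mul_sub, mul_one, one_mul, mul_one, h1, add_smul, one_smul]
      abel
    -- transfer to `τ h τ⁻¹`
    have h6 := Fermat.Agent.LR.NonEis.zpowers_map_eq_of_zpowers_mk_eq K.fixingSubgroup R hNR hτ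
    obtain ⟨j, -, hj⟩ := Fermat.Agent.Density.exists_coprime_pow_eq_of_zpowers_eq
      (isOfFinOrder_of_finite (R φ)) h6.symm
    have hj' : r (τ * h * τ⁻¹) = r φ ^ j := by
      rw [← hR, hj, Units.val_pow_eq_pow_val, hR]
    have h7 := pow_sub_one_sq_eq_zero (r φ) hφsq j
    rw [← hj'] at h7
    have e1 : r τ⁻¹ * r τ = 1 := by rw [← map_mul, inv_mul_cancel, map_one]
    have e2 : r τ * r τ⁻¹ = 1 := by rw [← map_mul, mul_inv_cancel, map_one]
    have e3 : r (τ * h * τ⁻¹) - 1 = r τ * (r h - 1) * r τ⁻¹ := by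
      rw [map_mul, map_mul, mul_sub, sub_mul, mul_one, e2]
    rw [e3] at h7
    have h8 : r τ⁻¹ * (r τ * (r h - 1) * r τ⁻¹ * (r τ * (r h - 1) * r τ⁻¹)) * r τ = 0 := by
      rw [h7, mul_zero, zero_mul]
    have e4 : r τ⁻¹ * (r τ * (r h - 1) * r τ⁻¹ * (r τ * (r h - 1) * r τ⁻¹)) * r τ =
        (r τ⁻¹ * r τ) * (r h - 1) * (r τ⁻¹ * r τ) * (r h - 1) * (r τ⁻¹ * r τ) := by
      noncomm_ring
    rw [e4, e1, one_mul, mul_one, mul_one] at h8
    exact h8
  -- Step B: the kernel acts trivially
  have htriv : ∀ h ∈ (cyc D').ker, r h = 1 :=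
    eq_one_of_forall_sq_zero r hfull (cyc D').ker hsq
  -- Step C: abelian image
  refine not_fullSpan_of_commute r (fun g g' => ?_) hfull
  have hmem : g * g' * g⁻¹ * g'⁻¹ ∈ (cyc D').ker := by
    rw [MonoidHom.mem_ker, map_mul, map_mul, map_mul, map_inv, map_inv]
    rw [mul_comm (cyc D' g) (cyc D' g'), mul_assoc (cyc D' g'), mul_inv_cancel, mul_one,
      mul_inv_cancel]
  have h1 := htriv _ hmem
  have h2 : r g * r g' = r (g * g' * g⁻¹ * g'⁻¹) * (r g' * r g) := by
    rw [← map_mul, ← map_mul, ← map_mul]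
    congr 1
    group
  rw [h2, h1, one_mul]

end Main

end Fermat.Agent.RB.REPT
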