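/-
PROJECT RB, block [REP_T](B) (helper1): **facts about `ρ̄` deduced from a lift `ρ` with
`ρ.residual ≅ ρ̄ ⊗_ψ k_A`**: Frobenius characteristic polynomials, absolute irreducibility (for
bijective `ψ`), oddness, and "`ρ̄(σ) = 1 ⇒ ρ(σ) ≡ 1 mod 𝔪`".
-/
import Mathlib
import Fermat.Agent.RB.GLUE_helper9_Residual
import Fermat.Agent.RB.REPT_helper1_DetConj
import Fermat.Agent.GR.S34TOP_helper4

set_option autoImplicit false
set_option linter.unusedSectionVars false
set_option linter.unusedVariables false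
set_option linter.style.haveILetI false

namespace Fermat.Agent.RB.REPT

open Polynomial IsLocalRing Fermat.Agent.S53

local notation "Ω" => AlgebraicClosure ℚ
local notation "GQ" => (AlgebraicClosure ℚ ≃ₐ[ℚ] AlgebraicClosure ℚ)

section Lift

variable {k : Type} [Field k] {A : Type} [CommRing A] [IsLocalRing A]
  (ρ : GaloisRepAdic A) (ψ : k →+* ResidueField A) (ρbar : ResidualGaloisRep k)
  (h : ρ.residual.IsEquiv (ρbar.baseChangeAlong ψ))

include h in
/-- the characteristic polynomial of `ρ̄(σ)` from that of `ρ(σ)`. -/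
theorem charpoly_rhobar_of_lift {σ : GQ} {a b : A} {a' b' : k}
    (hc : LinearMap.charpoly (ρ.ρ σ) = X ^ 2 - C a * X + C b)
    (ha : residue A a = ψ a') (hb : residue A b = ψ b') :
    LinearMap.charpoly (ρbar.ρ σ) = X ^ 2 - C a' * X + C b' := by
  obtain ⟨ht, hd⟩ := Fermat.Agent.GR.trace_det_of_charpoly_eq ρ.finrank_eq (ρ.ρ σ) a b hc
  have h1 := GLUE.residue_trace ρ ψ ρbar h σ
  have h2 := GLUE.residue_det ρ ψ ρbar h σ
  rw [GaloisRepAdic.trace, ht, ha] at h1
  rw [hd, hb] at h2
  rw [Fermat.Agent.GR.charpoly_eq_of_finrank_eq_two ρbar.finrank_eq, ← ψ.injective h1,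
    ← ψ.injective h2]

include h in
/-- if `ρ̄(σ) = 1` then `ρ(σ) ≡ 1` modulo the maximal ideal. -/
theorem sub_mem_smul_top_of_rhobar_eq_one {σ : GQ} (hσ : ρbar.ρ σ = 1) (x : ρ.V) :
    ρ.ρ σ x - x ∈ maximalIdeal A • (⊤ : Submodule A ρ.V) := by
  set b := someBasis ρ with hb
  rw [mem_smul_top_iff_repr b]
  intro i
  have key : b.repr (ρ.ρ σ x - x) i =
      ∑ j, (LinearMap.toMatrix b b (ρ.ρ σ) - 1) i j * b.repr x j := by
    have h1 : b.repr (ρ.ρ σ x) i = ∑ j, LinearMap.toMatrix b b (ρ.ρ σ) i j * b.repr x j := by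
      have := LinearMap.toMatrix_mulVec_repr b b (ρ.ρ σ) x
      have h2 := congrFun this i
      rw [Matrix.mulVec, dotProduct] at h2
      exact h2.symm
    rw [map_sub, Finsupp.sub_apply, h1]
    simp only [Matrix.sub_apply, sub_mul, Finset.sum_sub_distrib, Matrix.one_apply, ite_mul,
      one_mul, zero_mul, Finset.sum_ite_eq, Finset.mem_univ, if_true]
  rw [key]
  exact Ideal.sum_mem _ fun j _ =>
    Ideal.mul_mem_right _ _ (GLUE.sub_one_mem_of_eq_one ρ b ψ ρbar h hσ i j)

include h in
/-- absolute irreducibility descends from the residual representation of a lift to `ρ̄`, when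
`ψ` is bijective. -/
theorem isAbsolutelyIrreducible_of_lift (hψ : Function.Bijective ψ)
    (habs : ρ.residual.IsAbsolutelyIrreducible) : ρbar.IsAbsolutelyIrreducible := by
  set b := someBasis ρ
  set β := resSomeBasis ρbar
  obtain ⟨U, hU⟩ := GLUE.exists_conj_residue ρ b ψ ρbar h β
  have h1 : L1.FullSpan (resMatrixOf ρ.residual (residualBasis ρ b)) :=
    L1.fullSpan_of_absIrr ρ.residual (residualBasis ρ b) habs _ (fun σ => rfl)
  have h2 : L1.FullSpan (L1.mapRep (residue A) (matrixOf ρ b)) := by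
    have e : resMatrixOf ρ.residual (residualBasis ρ b) = L1.mapRep (residue A) (matrixOf ρ b) := by
      rw [resMatrixOf_residual]; rfl
    rw [← e]; exact h1
  have h3 : L1.FullSpan (L1.mapRep ψ (resMatrixOf ρbar β)) := by
    refine GLUE.fullSpan_of_conj (r := L1.mapRep (residue A) (matrixOf ρ b))
      (r' := L1.mapRep ψ (resMatrixOf ρbar β)) (U⁻¹) (fun σ => ?_) h2
    have := hU σ
    show ((U⁻¹ : (M2 (ResidueField A))ˣ) : M2 (ResidueField A)) *
      (LinearMap.toMatrix β β (ρbar.ρ σ)).map ψ =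
      (LinearMap.toMatrix b b (ρ.ρ σ)).map (residue A) * ((U⁻¹ : (M2 (ResidueField A))ˣ) :
        M2 (ResidueField A))
    rw [← Units.mul_right_inj U, ← mul_assoc, Units.mul_inv, one_mul, ← mul_assoc, this,
      mul_assoc, Units.mul_inv, mul_one]
  set e : k ≃+* ResidueField A := RingEquiv.ofBijective ψ hψ with he
  have h4 := fullSpan_mapRep (e.symm : ResidueField A →+* k) _ h3
  have h5 : L1.mapRep (e.symm : ResidueField A →+* k) (L1.mapRep ψ (resMatrixOf ρbar β)) =
      resMatrixOf ρbar β := by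
    ext σ i j
    show e.symm (ψ (resMatrixOf ρbar β σ i j)) = _
    exact e.symm_apply_apply _
  rw [h5] at h4
  exact isAbsolutelyIrreducible_of_fullSpan ρbar β _ (fun σ => rfl) h4

end Lift

section Odd

variable {k : Type} [Field k] (ρbar : ResidualGaloisRep k) (p : ℕ) [Fact p.Prime]

/-- a residual representation in characteristic `p` whose Frobenius determinants are `q` is odd. -/
theorem det_resid_complexConjugation (hp : (p : k) = 0) (T : Finset ℕ) (hpT : p ∈ T)
    (hdetF : ∀ q : ℕ, q.Prime → q ∉ T → ∀ P : ValuationSubring Ω, P.LiesOverPrime q →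
      ∀ φ : GQ, P.IsFrobeniusAt φ q → LinearMap.det (ρbar.ρ φ) = (q : k)) :
    LinearMap.det (ρbar.ρ complexConjugation) = -1 :=
  det_complexConjugation_eq_neg_one (GaloisRepAdic.ofResidualGaloisRep ρbar) p
    (by rw [hp]; exact Ideal.zero_mem _) T hpT hdetF

end Odd

end Fermat.Agent.RB.REPT
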