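/-
PROJECT RB, block [REP_T](B) (helper1): **the hypotheses of `TWModStatement` from those of
`TWProducerStatement`**: `θ` is not Eisenstein (`hNE`), `N ≠ 2`, the Taylor–Wiles primes have
distinct Frobenius eigenvalues in the form `α + β = θ(T_q)`, `α β = q`.
-/
import Mathlib
import Fermat.Agent.RB.REPT_helper1_NonEis
import Fermat.Agent.RB.REPT_helper1_ResFacts
import Fermat.Agent.Helper2.Gamma0Small
import Fermat.Agent.TW.Kill_helper1_Frob
import Fermat.Prelude.Def_CuspForm_HeckeAlgebra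

set_option autoImplicit false
set_option linter.unusedSectionVars false
set_option linter.unusedVariables false
set_option linter.style.haveILetI false

namespace Fermat.Agent.RB.REPT

open Polynomial IsLocalRing Fermat.Agent.S53

local notation "Ω" => AlgebraicClosure ℚ
local notation "GQ" => (AlgebraicClosure ℚ ≃ₐ[ℚ] AlgebraicClosure ℚ)

/-- there is no ring homomorphism from the Hecke algebra of level `2` to a nontrivial ring. -/
theorem level_ne_two {N : ℕ} [NeZero N] {S : Set ℕ} {k : Type*} [Semiring k] [Nontrivial k]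
    (θ : CuspForm.heckeAlgebra N 2 S →+* k) : N ≠ 2 := by
  rintro rfl
  have hz : ∀ f : CuspForm (CongruenceSubgroup.Gamma0 2) 2, f = 0 := by
    intro f
    apply Fermat.Agent.Helper2.cuspForm_Gamma0_eq_zero_of_sturm_zero 2 2 _ f
    have hidx : (CongruenceSubgroup.Gamma0 2).index ≤ 2 ^ 2 :=
      Fermat.Agent.Helper2.index_Gamma0_le 2
    omega
  have h01 : (1 : CuspForm.heckeAlgebra 2 2 S) = 0 := by
    apply Subtype.ext
    apply LinearMap.ext
    intro f
    rw [hz f]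
    simp
  have := congrArg θ h01
  rw [map_one, map_zero] at this
  exact one_ne_zero this

section NE

variable {k : Type} [Field k] [Finite k]

/-- **`hNE`**: the system of eigenvalues of an absolutely irreducible residual representation is
not Eisenstein. -/
theorem not_eisenstein_of_absIrr {p : ℕ} (hp : p.Prime) (hpk : (p : k) = 0)
    {N : ℕ} [NeZero N] {S : Finset ℕ}
    (θ : CuspForm.heckeAlgebra N 2 (S : Set ℕ) →+* k) (ρbar : ResidualGaloisRep k)
    (habs : ρbar.IsAbsolutelyIrreducible)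
    (hbarchar : ∀ (ℓ : ℕ) (hℓ : ℓ.Prime) (hℓN : ¬ ℓ ∣ N) (hℓS : ℓ ∉ (S : Set ℕ))
      (A' : ValuationSubring Ω), A'.LiesOverPrime ℓ → ∀ σ : GQ, A'.IsFrobeniusAt σ ℓ →
      LinearMap.charpoly (ρbar.ρ σ) =
        X ^ 2 - C (θ (CuspForm.heckeAlgebra.T hℓ hℓN hℓS)) * X + C (ℓ : k))
    (hSN : ∀ ℓ : ℕ, ℓ.Prime → ℓ ∉ S → ¬ ℓ ∣ N)
    (D : ℕ) (hD : 0 < D) (Bad : Finset ℕ) :
    ∃ (ℓ : ℕ) (hℓ : ℓ.Prime) (hℓN : ¬ ℓ ∣ N) (hℓS : ℓ ∉ (S : Set ℕ)), ℓ ∉ Bad ∧ ℓ ≡ 1 [MOD D] ∧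
      θ (CuspForm.heckeAlgebra.T hℓ hℓN hℓS) ≠ (ℓ : k) + 1 := by
  classical
  set β := resSomeBasis ρbar with hβ
  set a : ℕ → k := fun ℓ => if h : ℓ.Prime ∧ ℓ ∉ S then
    θ (CuspForm.heckeAlgebra.T h.1 (hSN ℓ h.1 h.2) (fun h' => h.2 (Finset.mem_coe.1 h'))) else 0
    with ha
  have hfull : L1.FullSpan (resMatrixOf ρbar β) :=
    L1.fullSpan_of_absIrr ρbar β habs _ (fun σ => rfl)
  obtain ⟨ℓ, hℓ, hℓS, hℓBad, hℓD, hne⟩ := exists_prime_trace_ne hp hpk (resMatrixOf ρbar β)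
    (resMatrixOf_factors ρbar β) hfull a S (fun ℓ hℓ hℓS A' hA' σ hσ => by
      rw [resMatrixOf_eq_toMatrix, LinearMap.charpoly_toMatrix,
        hbarchar ℓ hℓ (hSN ℓ hℓ hℓS) (fun h' => hℓS (Finset.mem_coe.1 h')) A' hA' σ hσ, ha]
      simp only
      rw [dif_pos ⟨hℓ, hℓS⟩]) D hD Bad
  refine ⟨ℓ, hℓ, hSN ℓ hℓ hℓS, fun h' => hℓS (Finset.mem_coe.1 h'), hℓBad, hℓD, ?_⟩
  rw [ha] at hne
  simp only at hne
  rwa [dif_pos ⟨hℓ, hℓS⟩] at hne

end NE

section Roots

variable {k : Type} [Field k]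

/-- distinct Frobenius eigenvalues at `q`, in the form used by [TWMOD]. -/
theorem exists_roots_of_distinct (ρbar : ResidualGaloisRep k) {q : ℕ} (hq : q.Prime) (t : k)
    (hchar : ∀ P : ValuationSubring Ω, P.LiesOverPrime q → ∀ φ : GQ, P.IsFrobeniusAt φ q →
      LinearMap.charpoly (ρbar.ρ φ) = X ^ 2 - C t * X + C (q : k))
    (hdist : ∀ P : ValuationSubring Ω, P.LiesOverPrime q → ∀ φ : GQ, P.IsFrobeniusAt φ q →
      ∃ α β : k, α ≠ β ∧ LinearMap.charpoly (ρbar.ρ φ) = (X - C α) * (X - C β)) :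
    ∃ α β : k, α ≠ β ∧ α + β = t ∧ α * β = (q : k) := by
  haveI : Fact q.Prime := ⟨hq⟩
  have hP₀ : (padicPlace q).LiesOverPrime q := Fermat.Agent.TW.Kill.padicPlace_liesOverPrime q
  obtain ⟨φ₀, hφ₀⟩ := Fermat.Agent.TW.Kill.exists_isFrobeniusAt (padicPlace q) hq hP₀
  obtain ⟨α, β, hne, h1⟩ := hdist _ hP₀ φ₀ hφ₀
  rw [hchar _ hP₀ φ₀ hφ₀] at h1
  refine ⟨α, β, hne, ?_, ?_⟩
  · have := congrArg (fun g : k[X] => g.coeff 1) h1
    have e : ((X - C α) * (X - C β) : k[X]) = X ^ 2 - C (α + β) * X + C (α * β) := by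
      rw [map_add, map_mul]; ring
    rw [e] at this
    simp only [coeff_add, coeff_sub, coeff_X_pow, coeff_C_mul, coeff_X_one, coeff_C] at this
    simp at this
    have h2 : -(α + β) = -t := by rw [neg_add']; rw [sub_eq_add_neg, add_comm]; exact this.symm
    exact neg_injective h2
  · have := congrArg (fun g : k[X] => g.coeff 0) h1
    have e : ((X - C α) * (X - C β) : k[X]) = X ^ 2 - C (α + β) * X + C (α * β) := by
      rw [map_add, map_mul]; ring
    rw [e] at this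
    simp only [coeff_add, coeff_sub, coeff_X_pow, coeff_C_mul, coeff_X_zero, coeff_C] at this
    simp at this
    exact this.symm

end Roots

end Fermat.Agent.RB.REPT
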