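/-
PROJECT RB, block [REP_T] (helper1), part (B8a): **transport of a generated algebra of endomorphisms
through a surjective linear map.**

`π : H → H'` surjective, `s` a set of endomorphisms of `H`, `j : E → End H'` an injective algebra
homomorphism; if every `a ∈ s` is intertwined by `π` with some `j e`, then there is an algebra
homomorphism `f : 𝒪[s] → E` with `π (t x) = j (f t) (π x)`.
-/
import Mathlib

set_option autoImplicit false
set_option linter.unusedSectionVars false
set_option linter.unusedVariables false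

namespace Fermat.Agent.RB.REPT

section Intertwine

variable {𝒪 : Type*} [CommRing 𝒪] {H H' : Type*} [AddCommGroup H] [Module 𝒪 H]
  [AddCommGroup H'] [Module 𝒪 H'] {E : Type*} [Ring E] [Algebra 𝒪 E]

/-- every element of the generated algebra is intertwined. -/
theorem exists_intertwine_of_mem_adjoin (π : H →ₗ[𝒪] H') (j : E →ₐ[𝒪] Module.End 𝒪 H')
    (s : Set (Module.End 𝒪 H)) (hs : ∀ a ∈ s, ∃ e : E, ∀ x, π (a x) = j e (π x))
    {t : Module.End 𝒪 H} (ht : t ∈ Algebra.adjoin 𝒪 s) : ∃ e : E, ∀ x, π (t x) = j e (π x) := by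
  induction ht using Algebra.adjoin_induction with
  | mem a ha => exact hs a ha
  | algebraMap c =>
    refine ⟨algebraMap 𝒪 E c, fun x => ?_⟩
    rw [AlgHom.commutes, Module.algebraMap_end_apply, Module.algebraMap_end_apply, map_smul]
  | add a b _ _ ha hb =>
    obtain ⟨e₁, h₁⟩ := ha
    obtain ⟨e₂, h₂⟩ := hb
    refine ⟨e₁ + e₂, fun x => ?_⟩
    rw [LinearMap.add_apply, map_add, h₁, h₂, map_add, LinearMap.add_apply]
  | mul a b _ _ ha hb =>
    obtain ⟨e₁, h₁⟩ := ha
    obtain ⟨e₂, h₂⟩ := hb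
    refine ⟨e₁ * e₂, fun x => ?_⟩
    rw [Module.End.mul_apply, h₁, h₂, map_mul, Module.End.mul_apply]

/-- **the induced algebra homomorphism.** -/
theorem exists_algHom_of_intertwine (π : H →ₗ[𝒪] H') (hπ : Function.Surjective π)
    (j : E →ₐ[𝒪] Module.End 𝒪 H') (hj : Function.Injective j)
    (s : Set (Module.End 𝒪 H)) (hs : ∀ a ∈ s, ∃ e : E, ∀ x, π (a x) = j e (π x)) :
    ∃ f : Algebra.adjoin 𝒪 s →ₐ[𝒪] E,
      ∀ (t : Algebra.adjoin 𝒪 s) (x : H), π ((t : Module.End 𝒪 H) x) = j (f t) (π x) := by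
  classical
  have key : ∀ t : Algebra.adjoin 𝒪 s, ∃ e : E, ∀ x, π ((t : Module.End 𝒪 H) x) = j e (π x) :=
    fun t => exists_intertwine_of_mem_adjoin π j s hs t.2
  have huniq : ∀ e e' : E, (∀ x : H, j e (π x) = j e' (π x)) → e = e' := by
    intro e e' h
    apply hj
    refine LinearMap.ext fun y => ?_
    obtain ⟨x, rfl⟩ := hπ y
    exact h x
  let f₀ : Algebra.adjoin 𝒪 s → E := fun t => (key t).choose
  have hf₀ : ∀ (t : Algebra.adjoin 𝒪 s) (x : H), π ((t : Module.End 𝒪 H) x) = j (f₀ t) (π x) :=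
    fun t => (key t).choose_spec
  have h1 : f₀ 1 = 1 := by
    refine huniq _ _ fun x => ?_
    rw [← hf₀, map_one]
    rfl
  have hmul : ∀ a b, f₀ (a * b) = f₀ a * f₀ b := by
    intro a b
    refine huniq _ _ fun x => ?_
    rw [← hf₀, map_mul, Module.End.mul_apply, ← hf₀, ← hf₀]
    rfl
  have h0 : f₀ 0 = 0 := by
    refine huniq _ _ fun x => ?_
    rw [← hf₀, map_zero]
    show π ((0 : Module.End 𝒪 H) x) = (0 : Module.End 𝒪 H') (π x)
    rw [LinearMap.zero_apply, LinearMap.zero_apply, map_zero]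
  have hadd : ∀ a b, f₀ (a + b) = f₀ a + f₀ b := by
    intro a b
    refine huniq _ _ fun x => ?_
    rw [← hf₀, map_add, LinearMap.add_apply, ← hf₀, ← hf₀]
    show π (((a : Module.End 𝒪 H) + (b : Module.End 𝒪 H)) x) = _
    rw [LinearMap.add_apply, map_add]
  have hc : ∀ c : 𝒪, f₀ (algebraMap 𝒪 _ c) = algebraMap 𝒪 E c := by
    intro c
    refine huniq _ _ fun x => ?_
    rw [← hf₀, AlgHom.commutes, Module.algebraMap_end_apply]
    show π ((algebraMap 𝒪 (Module.End 𝒪 H) c) x) = _
    rw [Module.algebraMap_end_apply, map_smul]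
  exact ⟨{ toFun := f₀, map_one' := h1, map_mul' := hmul, map_zero' := h0, map_add' := hadd,
           commutes' := hc }, hf₀⟩

end Intertwine

end Fermat.Agent.RB.REPT
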