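/-
PROJECT RB, block [REP_T] (helper1), part (B5) **[CYCI]: inertia at `r` surjects onto the `r`-part
of `(ℤ/M)ˣ`** for `r ∥ M`:

* `exists_mem_inertia_cyc_prime` : `P | r` prime ⇒ `cyc r` maps `I_P` ONTO `(ℤ/r)ˣ`
  (Minkowski: the subextension of `ℚ(ζ_r)` fixed by `cyc_r⁻¹(cyc_r(I_P))` is unramified everywhere);
* `exists_mem_inertia_cyc_eq` : `r ∥ M`, `u ∈ (ℤ/M)ˣ`, `u ≡ 1 mod M / r` ⇒ `∃ σ ∈ I_P, cyc M σ = u`.
-/
import Mathlib
import Fermat.Agent.EC.Minkowski_helper5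
import Fermat.Agent.EC.Conjugacy_helper5
import Fermat.Agent.W1.TOP1_lead_Twist

set_option autoImplicit false
set_option linter.unusedSectionVars false
set_option linter.unusedVariables false
set_option linter.style.haveILetI false

namespace Fermat.Agent.RB.REPT

open Fermat.Agent.TW.Kill Fermat.Agent.W1 Fermat.Agent.EC

local notation "Ω" => AlgebraicClosure ℚ
local notation "GQ" => (AlgebraicClosure ℚ ≃ₐ[ℚ] AlgebraicClosure ℚ)

/-- **inertia at `r` surjects onto `(ℤ/r)ˣ`.** -/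
theorem exists_mem_inertia_cyc_prime (r : ℕ) [Fact r.Prime] [NeZero r]
    {P : ValuationSubring Ω} (hP : P.LiesOverPrime r) (u : (ZMod r)ˣ) :
    ∃ σ ∈ P.inertiaSubgroupIn ℚ, cyc r σ = u := by
  have hr : r.Prime := Fact.out
  -- the image of inertia
  let Hs : Subgroup (ZMod r)ˣ := (P.inertiaSubgroupIn ℚ).map (cyc r)
  let χ : GQ →* (ZMod r)ˣ ⧸ Hs := (QuotientGroup.mk' Hs).comp (cyc r)
  have hχ : χ = 1 := by
    refine monoidHom_eq_one_of_inertia χ ?_ ?_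
    · obtain ⟨F, hF, hFc⟩ := exists_finiteDimensional_cyc_eq_one r
      haveI := hF
      refine Subgroup.isOpen_mono (H₁ := F.fixingSubgroup) ?_ (F.fixingSubgroup_isOpen)
      intro σ hσ
      rw [MonoidHom.mem_ker]
      show (QuotientGroup.mk' Hs) (cyc r σ) = 1
      rw [hFc σ hσ, map_one]
    · intro ℓ A hℓ hA σ hσ
      show (QuotientGroup.mk' Hs) (cyc r σ) = 1
      by_cases hℓr : ℓ = r
      · subst hℓr
        obtain ⟨τ, hτ⟩ := exists_conj_inertia hℓ P A hP hA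
        have h1 : cyc ℓ σ = cyc ℓ (τ⁻¹ * σ * τ) := by
          rw [map_mul, map_mul, map_inv]
          rw [mul_comm ((cyc ℓ τ)⁻¹), mul_assoc, inv_mul_cancel, mul_one]
        rw [QuotientGroup.mk'_apply, QuotientGroup.eq_one_iff, h1]
        exact ⟨_, hτ σ hσ, rfl⟩
      · have hℓr' : ¬ ℓ ∣ r := fun h => hℓr ((Nat.prime_dvd_prime_iff_eq hℓ hr).1 h)
        rw [cyc_eq_one_of_mem_inertia r hℓ hℓr' hA hσ, map_one]
  obtain ⟨τ, hτ⟩ := cyc_surjective r u
  have h2 : χ τ = 1 := by rw [hχ]; rfl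
  have h3 : cyc r τ ∈ Hs := by
    have : (QuotientGroup.mk' Hs) (cyc r τ) = 1 := h2
    rwa [QuotientGroup.mk'_apply, QuotientGroup.eq_one_iff] at this
  obtain ⟨σ, hσ, hσu⟩ := h3
  exact ⟨σ, hσ, hσu.trans hτ⟩

/-- compatibility of the cyclotomic characters. -/
theorem cyc_unitsMap {m M : ℕ} [NeZero m] [NeZero M] (h : m ∣ M) (σ : GQ) :
    ZMod.unitsMap h (cyc M σ) = cyc m σ := by
  symm
  apply Units.ext
  refine cyc_unique m σ fun t ht => ?_
  have htM : t ^ M = 1 := by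
    obtain ⟨c, rfl⟩ := h
    rw [pow_mul, ht, one_pow]
  rw [cyc_spec' M σ htM]
  -- exponents congruent modulo `m`
  have h1 : ((ZMod.unitsMap h (cyc M σ) : (ZMod m)ˣ) : ZMod m) =
      ZMod.castHom h (ZMod m) ((cyc M σ : (ZMod M)ˣ) : ZMod M) := rfl
  rw [h1]
  have h2 : ((ZMod.castHom h (ZMod m) ((cyc M σ : (ZMod M)ˣ) : ZMod M)).val : ℕ) ≡
      ((cyc M σ : (ZMod M)ˣ) : ZMod M).val [MOD m] := by
    rw [← ZMod.natCast_eq_natCast_iff, ZMod.natCast_val, ZMod.cast_id', id, ZMod.natCast_val]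
    rfl
  exact (pow_eq_pow_of_modEq h2.symm ht)

/-- units modulo `r * m'` (coprime) are determined by their reductions. -/
theorem units_ext_of_coprime {M r m' : ℕ} [NeZero M] (hM : M = r * m') (hcop : r.Coprime m')
    (hr : r ∣ M) (hm : m' ∣ M) {a b : (ZMod M)ˣ}
    (h1 : ZMod.unitsMap hr a = ZMod.unitsMap hr b)
    (h2 : ZMod.unitsMap hm a = ZMod.unitsMap hm b) : a = b := by
  apply Units.ext
  have e1 : ((a : ZMod M).val : ZMod r) = ((b : ZMod M).val : ZMod r) := by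
    have := congrArg (fun x : (ZMod r)ˣ => (x : ZMod r)) h1
    simp only [ZMod.unitsMap_def, Units.coe_map, MonoidHom.coe_coe, ZMod.castHom_apply] at this
    rw [ZMod.natCast_val, ZMod.natCast_val]
    exact this
  have e2 : ((a : ZMod M).val : ZMod m') = ((b : ZMod M).val : ZMod m') := by
    have := congrArg (fun x : (ZMod m')ˣ => (x : ZMod m')) h2
    simp only [ZMod.unitsMap_def, Units.coe_map, MonoidHom.coe_coe, ZMod.castHom_apply] at this
    rw [ZMod.natCast_val, ZMod.natCast_val]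
    exact this
  rw [ZMod.natCast_eq_natCast_iff] at e1 e2
  have e3 : (a : ZMod M).val ≡ (b : ZMod M).val [MOD r * m'] :=
    (Nat.modEq_and_modEq_iff_modEq_mul hcop).1 ⟨e1, e2⟩
  rw [← hM] at e3
  rw [← ZMod.natCast_zmod_val (a : ZMod M), ← ZMod.natCast_zmod_val (b : ZMod M)]
  exact (ZMod.natCast_eq_natCast_iff _ _ _).2 e3

/-- **[CYCI]** inertia at `r ∥ M` realises every unit `≡ 1 mod M / r`. -/
theorem exists_mem_inertia_cyc_eq {M r : ℕ} [NeZero M] (hr : r.Prime) (hrM : r ∣ M)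
    (hr2 : ¬ r ^ 2 ∣ M) {P : ValuationSubring Ω} (hP : P.LiesOverPrime r) (u : (ZMod M)ˣ)
    (hu : (((u : ZMod M).val : ℕ) : ZMod (M / r)) = 1) :
    ∃ σ ∈ P.inertiaSubgroupIn ℚ, cyc M σ = u := by
  haveI : Fact r.Prime := ⟨hr⟩
  haveI : NeZero r := ⟨hr.ne_zero⟩
  have hM0 : M ≠ 0 := NeZero.ne M
  obtain ⟨m', hm'⟩ := hrM
  have hdiv : M / r = m' := by rw [hm', Nat.mul_div_cancel_left _ hr.pos]
  rw [hdiv] at hu
  have hm0 : m' ≠ 0 := by rintro rfl; exact hM0 (by rw [hm', mul_zero])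
  haveI : NeZero m' := ⟨hm0⟩
  have hrm : ¬ r ∣ m' := by
    rintro ⟨c, rfl⟩
    exact hr2 ⟨c, by rw [hm']; ring⟩
  have hcop : r.Coprime m' := (Nat.Prime.coprime_iff_not_dvd hr).2 hrm
  have hrM' : r ∣ M := ⟨m', hm'⟩
  have hmM : m' ∣ M := ⟨r, by rw [hm', mul_comm]⟩
  obtain ⟨σ, hσ, hσu⟩ := exists_mem_inertia_cyc_prime r hP (ZMod.unitsMap hrM' u)
  refine ⟨σ, hσ, units_ext_of_coprime hm' hcop hrM' hmM ?_ ?_⟩
  · rw [cyc_unitsMap hrM' σ, hσu]
  · rw [cyc_unitsMap hmM σ, cyc_eq_one_of_mem_inertia m' hr hrm hP hσ]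
    symm
    apply Units.ext
    simp only [ZMod.unitsMap_def, Units.coe_map, MonoidHom.coe_coe, ZMod.castHom_apply,
      Units.val_one]
    rw [← ZMod.natCast_val]
    exact hu

end Fermat.Agent.RB.REPT
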