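/-
PROJECT RB, block [REP_T] (helper1), part 18: **(B), abstract part — the representation over a
quotient `A` of the big Hecke ring**: `ρ_A := ρ_T ⊗_f A` with all its properties (the fields
`ρ`, `residual_isEquiv`, `isOfType`, `adjoin_trace` of helper9's `TWSide`).
-/
import Mathlib
import Fermat.Agent.RB.REPT_helper1_Sub
import Fermat.Agent.TW.CondBaseChange_helper6
import Fermat.Agent.NP.S33TOP_helper2_DetH
import Fermat.Agent.S31
import Fermat.Agent.S32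
import Fermat.Agent.S34

set_option autoImplicit false
set_option linter.unusedSectionVars false
set_option linter.unusedVariables false
set_option linter.style.haveILetI false

namespace Fermat.Agent.RB.REPT

open Polynomial IsLocalRing CuspForm Fermat.Agent.GR

local notation "Ω" => AlgebraicClosure ℚ
local notation "GQ" => (AlgebraicClosure ℚ ≃ₐ[ℚ] AlgebraicClosure ℚ)

section SubRep

variable {N : ℕ} [NeZero N] {S : Finset ℕ}
  {𝒪 : Type} [CommRing 𝒪] [IsDomain 𝒪] [IsDiscreteValuationRing 𝒪]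
  [IsAdicComplete (maximalIdeal 𝒪) 𝒪] [CharZero 𝒪] [Finite (ResidueField 𝒪)]
  {θ : ↥(heckeAlgebra N 2 (↑S : Set ℕ)) →+* ResidueField 𝒪}
  {T : Type} [CommRing T] [IsLocalRing T] [IsNoetherianRing T]
  [IsAdicComplete (maximalIdeal T) T] [Algebra 𝒪 T] [IsLocalHom (algebraMap 𝒪 T)]
  [Module.Finite 𝒪 T] [Module.Free 𝒪 T]
  {A : Type} [CommRing A] [IsLocalRing A] [Algebra 𝒪 A] [IsLocalHom (algebraMap 𝒪 A)]

/-- **the representation over a quotient of the Hecke ring.** -/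
theorem exists_rep_of_surjective (H : HeckeGaloisRepDatum N (↑S : Set ℕ) 𝒪 θ T)
    {p : ℕ} (hp : p.Prime) (hp2 : p ≠ 2) (hp𝒪 : (p : 𝒪) ∈ maximalIdeal 𝒪) (hpN : ¬ p ∣ N)
    (hpS : p ∈ S) (hNS : ∀ q : ℕ, q.Prime → q ∣ N → q ∈ S)
    (ρbar : ResidualGaloisRep (ResidueField 𝒪))
    (hresT : H.ρ.residual.IsEquiv (ρbar.baseChangeAlong (ResidueField.map (algebraMap 𝒪 T))))
    (f : T →ₐ[𝒪] A) (hf : Function.Surjective f) (t : ℕ → A)
    (hft : ∀ (ℓ : ℕ) (hℓ : ℓ.Prime) (hℓN : ¬ ℓ ∣ N) (hℓS : ℓ ∉ (↑S : Set ℕ)),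
      f (H.π (heckeAlgebra.T hℓ hℓN hℓS)) = t ℓ)
    (hgen : Algebra.adjoin 𝒪 (t '' {ℓ | ℓ.Prime ∧ ℓ ∉ S}) = ⊤) :
    ∃ ρ : GaloisRepAdic A,
      ρ.residual.IsEquiv (ρbar.baseChangeAlong (ResidueField.map (algebraMap 𝒪 A))) ∧
      ρ.DetIsCyclotomic p ∧ ρ.IsFlatAt p ∧
      (∀ q : ℕ, q.Prime → q ∉ S → ρ.IsUnramifiedAt q) ∧
      (∀ q : ℕ, q.Prime → q ≠ p → q ∣ N → ¬ q ^ 2 ∣ N → ρ.IsUnipotentOnInertiaAt q) ∧
      (∀ (ℓ : ℕ), ℓ.Prime → ℓ ∉ S → ∀ P : ValuationSubring Ω, P.LiesOverPrime ℓ →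
        ∀ σ : GQ, P.IsFrobeniusAt σ ℓ →
          LinearMap.charpoly (ρ.ρ σ) = X ^ 2 - C (t ℓ) * X + C ((ℓ : ℕ) : A)) ∧
      Algebra.adjoin 𝒪 (Set.range ρ.trace) = ⊤ := by
  have hloc : IsLocalHom (f : T →+* A) := IsLocalHom.of_surjective (f : T →+* A) hf
  let ρ : GaloisRepAdic A := H.ρ.baseChangeAlong (f : T →+* A) hloc
  have hchar : ∀ (ℓ : ℕ), ℓ.Prime → ℓ ∉ S → ∀ P : ValuationSubring Ω, P.LiesOverPrime ℓ →
      ∀ σ : GQ, P.IsFrobeniusAt σ ℓ →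
        LinearMap.charpoly (ρ.ρ σ) = X ^ 2 - C (t ℓ) * X + C ((ℓ : ℕ) : A) := by
    intro ℓ hℓ hℓS P hP σ hσ
    have hℓS' : ℓ ∉ (↑S : Set ℕ) := by simpa using hℓS
    have hℓN : ¬ ℓ ∣ N := fun h => hℓS (hNS ℓ hℓ h)
    rw [Fermat.Agent.TW.charpoly_baseChangeAlong, H.charpoly_frob ℓ hℓ hℓN hℓS' P hP σ hσ]
    simp only [Polynomial.map_add, Polynomial.map_sub, Polynomial.map_mul, Polynomial.map_pow,
      Polynomial.map_X, Polynomial.map_C, map_natCast]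
    rw [show (f : T →+* A) (H.π (heckeAlgebra.T hℓ hℓN hℓS')) = t ℓ from hft ℓ hℓ hℓN hℓS',
      Polynomial.map_natCast]
  refine ⟨ρ, ?_, ?_, ?_, ?_, ?_, hchar, ?_⟩
  · exact Fermat.Agent.S53.residual_baseChangeAlong_isEquiv ρbar f hloc H.ρ hresT
  · exact Fermat.Agent.TW.detIsCyclotomic_baseChangeAlong _ _ _
      (Fermat.Agent.NP.heckeDatum_detIsCyclotomic hp hp𝒪 hNS H)
  · exact Fermat.Agent.TW.isFlatAt_baseChangeAlong_of_surjective _ _ _ hf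
      (Fermat.Agent.S32.result hp hp2 hp𝒪 hpN hpS hNS H)
  · intro q hq hqS
    exact Fermat.Agent.TW.isUnramifiedAt_baseChangeAlong _ _ _
      (Fermat.Agent.S31.result hp hp𝒪 hpS hNS H q hq hqS)
  · intro q hq hqp hqN hq2
    exact Fermat.Agent.TW.isUnipotentOnInertiaAt_baseChangeAlong _ _ _
      (Fermat.Agent.S34.result hp hp𝒪 hpS hNS H q hq hqp hqN hq2)
  · rw [eq_top_iff, ← hgen]
    refine Algebra.adjoin_le ?_
    rintro _ ⟨ℓ, ⟨hℓ, hℓS⟩, rfl⟩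
    obtain ⟨P, σ, hP, hσ⟩ := Fermat.Agent.S54.exists_frobenius ℓ hℓ
    have h1 := (Fermat.Agent.GR.trace_det_of_charpoly_eq ρ.finrank_eq (ρ.ρ σ) _ _
      (hchar ℓ hℓ hℓS P hP σ hσ)).1
    rw [← h1]
    exact Algebra.subset_adjoin ⟨σ, rfl⟩

end SubRep

end Fermat.Agent.RB.REPT
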