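/-
PROJECT RB, block [REP_T] (helper1), part (B3): **the Galois representation over the Hecke algebra
`T_i = 𝒪[Tt ℓ : ℓ ∉ Sbig]` of one side of the Taylor–Wiles module data.**

Input: helper2's `TWModSide` + `Occ` (only `reduced`, `residual`, (OCC-a) are used here) and a
residual representation `ρ̄` (absolutely irreducible, odd) with `charpoly ρ̄(Frob_ℓ) =
X² - θ(T_ℓ) Y + ℓ` for `ℓ ∉ S`.  Output: `ρ : GaloisRepAdic T_i` lifting `ρ̄`, with cyclotomic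
determinant, flat at `p`, unramified outside `Sbig`, unipotent at the primes `q ∥ Nbig`, `q ≠ p`,
`charpoly ρ(Frob_ℓ) = X² - Tt ℓ Y + ℓ` for `ℓ ∉ Sbig`, and `T_i` generated by the traces.
-/
import Mathlib
import Fermat.Agent.RB.REPT_helper1_TWAlg
import Fermat.Agent.RB.REPT_helper1_SubRep

set_option autoImplicit false
set_option linter.unusedSectionVars false
set_option linter.unusedVariables false
set_option linter.style.haveILetI false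

namespace Fermat.Agent.RB.REPT

open Polynomial IsLocalRing CuspForm Fermat.Agent.GR

local notation "Ω" => AlgebraicClosure ℚ
local notation "GQ" => (AlgebraicClosure ℚ ≃ₐ[ℚ] AlgebraicClosure ℚ)

section TWRep

variable {𝒪 : Type} [CommRing 𝒪] [IsDomain 𝒪] [IsDiscreteValuationRing 𝒪]
  [IsAdicComplete (maximalIdeal 𝒪) 𝒪] [CharZero 𝒪] [Finite (ResidueField 𝒪)]
  {p r d n : ℕ} (Y : TWModSide 𝒪 p r d n) {lam z : 𝒪} {N : ℕ} [NeZero N] {S : Finset ℕ}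
  {θ : ↥(heckeAlgebra N 2 (↑S : Set ℕ)) →+* ResidueField 𝒪} {Sig : Finset ℕ} {Nt Nbig : ℕ}
  [NeZero Nt] [NeZero Nbig] {Sbig : Finset ℕ} {uQ : Fin r → (ZMod Nt)ˣ} {uS : ℕ → (ZMod Nt)ˣ}

/-- the restriction of a point of `alg` to `heckeAlg`. -/
noncomputable def restrictPoint (x : DVRPoint 𝒪 Y.alg) (Sbig : Finset ℕ) :
    DVRPoint 𝒪 (heckeAlg Y Sbig) :=
  { B := x.B
    injective := x.injective
    ψ := x.ψ.comp (heckeIncl Y Sbig) }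

/-- the family `t ℓ` of generators of `heckeAlg`. -/
noncomputable def TtFun (Sbig : Finset ℕ) (ℓ : ℕ) : heckeAlg Y Sbig := by
  classical
  exact if h : ℓ.Prime ∧ ℓ ∉ Sbig then TtH Y ⟨ℓ, h.1⟩ h.2 else 0

theorem TtFun_eq {Sbig : Finset ℕ} {ℓ : ℕ} (hℓ : ℓ.Prime) (hℓS : ℓ ∉ Sbig) :
    TtFun Y Sbig ℓ = TtH Y ⟨ℓ, hℓ⟩ hℓS := by
  classical
  unfold TtFun
  rw [dif_pos ⟨hℓ, hℓS⟩]

theorem adjoin_TtFun (Sbig : Finset ℕ) :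
    Algebra.adjoin 𝒪 (TtFun Y Sbig '' {ℓ | ℓ.Prime ∧ ℓ ∉ Sbig}) = ⊤ := by
  rw [eq_top_iff, ← adjoin_heckeGen Y Sbig]
  refine Algebra.adjoin_mono ?_
  rintro ⟨a, ha⟩ ⟨ℓ, hℓS, hℓ⟩
  refine ⟨ℓ, ⟨ℓ.2, hℓS⟩, ?_⟩
  rw [TtFun_eq Y ℓ.2 hℓS]
  exact Subtype.ext hℓ.symm

/-- **the representation over `heckeAlg`.** -/
theorem exists_twRep (hp : p.Prime) (hp2 : p ≠ 2) (hp𝒪 : (p : 𝒪) ∈ maximalIdeal 𝒪)
    (hlam : Irreducible lam) (hd : 0 < d)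
    (O : Y.Occ lam z θ Sig Nt Nbig Sbig uQ uS)
    (hjunk : ∀ ℓ : Nat.Primes, (ℓ : ℕ) ∈ Sbig → Y.Tt ℓ = 0)
    (hSbig : ∀ ℓ : ℕ, ℓ.Prime → ℓ ∉ Sbig → ¬ ℓ ∣ N ∧ ℓ ∉ (↑S : Set ℕ))
    (hpSbig : p ∈ Sbig) (hpNbig : ¬ p ∣ Nbig)
    (hNbigS : ∀ q : ℕ, q.Prime → q ∣ Nbig → q ∈ Sbig)
    (ρbar : ResidualGaloisRep (ResidueField 𝒪)) (habs : ρbar.IsAbsolutelyIrreducible)
    (hbarchar : ∀ (ℓ : ℕ) (hℓ : ℓ.Prime) (hℓN : ¬ ℓ ∣ N) (hℓS : ℓ ∉ (↑S : Set ℕ)),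
      ∀ A' : ValuationSubring Ω, A'.LiesOverPrime ℓ → ∀ σ : GQ, A'.IsFrobeniusAt σ ℓ →
        LinearMap.charpoly (ρbar.ρ σ) =
          X ^ 2 - C (θ (heckeAlgebra.T hℓ hℓN hℓS)) * X + C ((ℓ : ResidueField 𝒪)))
    (hbardet : LinearMap.det (ρbar.ρ complexConjugation) = -1) :
    ∃ (_ : IsLocalRing (heckeAlg Y Sbig)) (_ : IsLocalHom (algebraMap 𝒪 (heckeAlg Y Sbig)))
      (ρ : GaloisRepAdic (heckeAlg Y Sbig)),
      Function.Surjective (residue (heckeAlg Y Sbig) ∘ algebraMap 𝒪 (heckeAlg Y Sbig)) ∧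
      ρ.residual.IsEquiv
        (ρbar.baseChangeAlong (ResidueField.map (algebraMap 𝒪 (heckeAlg Y Sbig)))) ∧
      ρ.DetIsCyclotomic p ∧ ρ.IsFlatAt p ∧
      (∀ q : ℕ, q.Prime → q ∉ Sbig → ρ.IsUnramifiedAt q) ∧
      (∀ q : ℕ, q.Prime → q ≠ p → q ∣ Nbig → ¬ q ^ 2 ∣ Nbig → ρ.IsUnipotentOnInertiaAt q) ∧
      (∀ (ℓ : ℕ) (hℓ : ℓ.Prime) (hℓS : ℓ ∉ Sbig), ∀ P : ValuationSubring Ω, P.LiesOverPrime ℓ →
        ∀ σ : GQ, P.IsFrobeniusAt σ ℓ →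
          LinearMap.charpoly (ρ.ρ σ) =
            X ^ 2 - C (TtH Y ⟨ℓ, hℓ⟩ hℓS) * X + C ((ℓ : ℕ) : heckeAlg Y Sbig)) ∧
      Algebra.adjoin 𝒪 (Set.range ρ.trace) = ⊤ := by
  classical
  haveI : Fact p.Prime := ⟨hp⟩
  -- the local structure of `alg` and `heckeAlg`
  haveI hlocA : IsLocalRing Y.alg := isLocalRing_alg Y O hlam hp hp𝒪 hd hSbig hjunk
  haveI hlhA : IsLocalHom (algebraMap 𝒪 Y.alg) :=
    isLocalHom_algebraMap_alg Y O hlam hp hp𝒪 hd hSbig hjunk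
  have hsurjA := residue_surjective_alg Y O hlam hp hp𝒪 hd hSbig hjunk
  haveI : IsReduced Y.alg := isReduced_alg Y O
  haveI : Module.Finite 𝒪 Y.alg := finite_alg Y
  haveI : Module.IsTorsionFree 𝒪 Y.alg := isTorsionFree_alg Y
  haveI : Module.Free 𝒪 Y.alg := Module.free_of_finite_type_torsion_free'
  haveI hlocT : IsLocalRing (heckeAlg Y Sbig) := isLocalRing_heckeAlg Y O hlam hp hd hSbig
  haveI hlhT : IsLocalHom (algebraMap 𝒪 (heckeAlg Y Sbig)) :=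
    isLocalHom_algebraMap_heckeAlg Y O hlam hp hd hSbig
  have hsurjT := residue_surjective_heckeAlg Y O hlam hp hd hSbig
  haveI : IsReduced (heckeAlg Y Sbig) := isReduced_heckeAlg Y O
  haveI : Module.Finite 𝒪 (heckeAlg Y Sbig) := finite_heckeAlg Y Sbig
  haveI : Module.IsTorsionFree 𝒪 (heckeAlg Y Sbig) := isTorsionFree_heckeAlg Y Sbig
  haveI : Module.Free 𝒪 (heckeAlg Y Sbig) := Module.free_of_finite_type_torsion_free'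
  refine ⟨hlocT, hlhT, ?_⟩
  -- the points of `alg`
  obtain ⟨Θ, hΘres, hΘker⟩ := exists_theta_of_residue_surjective (𝒪 := 𝒪) (A := Y.alg) hsurjA
  obtain ⟨J, hJ, hJne, pt, hle, hinj⟩ := exists_points_family_injective Θ hΘker
  have hΘTt : ∀ (ℓ : ℕ) (hℓ : ℓ.Prime) (hℓS : ℓ ∉ Sbig),
      Θ (Y.TtA ⟨ℓ, hℓ⟩) = θ (heckeAlgebra.T hℓ (hSbig ℓ hℓ hℓS).1 (hSbig ℓ hℓ hℓS).2) := by
    intro ℓ hℓ hℓS
    apply (ResidueField.map (algebraMap 𝒪 Y.alg)).injective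
    rw [hΘres]
    exact residue_TtA Y O hlam hp hp𝒪 hd hSbig hjunk (ℓ := ⟨ℓ, hℓ⟩) hℓS
  -- (OCC-a) at all points
  have hocc : ∀ j : J, ∃ χ : ↥(heckeAlgebra Nbig 2 (↑Sbig : Set ℕ)) →+* (pt j).B,
      ∀ (ℓ : ℕ) (hℓ : ℓ.Prime) (hℓN : ¬ ℓ ∣ Nbig) (hℓS : ℓ ∉ (↑Sbig : Set ℕ)),
        χ (heckeAlgebra.T hℓ hℓN hℓS) = (pt j).ψ (Y.TtA ⟨ℓ, hℓ⟩) := fun j =>
    (O.occ (pt j).B (pt j).ψ).1
  -- the residual character at level `Nbig`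
  obtain ⟨j₀⟩ := hJne
  obtain ⟨χ₀, hχ₀⟩ := hocc j₀
  have hNbigS' : ∀ q : ℕ, q.Prime → q ∣ Nbig → q ∈ (↑Sbig : Set ℕ) := fun q hq hqN =>
    Finset.mem_coe.2 (hNbigS q hq hqN)
  obtain ⟨θbig, hθbig⟩ := exists_heckeAlgebra_factor hNbigS'
    (ResidueField.map (algebraMap 𝒪 (pt j₀).B)) ((residue (pt j₀).B).comp χ₀) (by
      intro ℓ hℓ hℓN hℓS
      have hℓS' : ℓ ∉ Sbig := fun h => hℓS (Finset.mem_coe.2 h)
      refine ⟨θ (heckeAlgebra.T hℓ (hSbig ℓ hℓ hℓS').1 (hSbig ℓ hℓ hℓS').2), ?_⟩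
      rw [RingHom.comp_apply, hχ₀ ℓ hℓ hℓN hℓS, (pt j₀).residue_ψ Θ (hle j₀), hΘTt ℓ hℓ hℓS'])
  have hθbigT : ∀ (ℓ : ℕ) (hℓ : ℓ.Prime) (hℓN : ¬ ℓ ∣ Nbig) (hℓS : ℓ ∉ (↑Sbig : Set ℕ))
      (hℓS' : ℓ ∉ Sbig),
      θbig (heckeAlgebra.T hℓ hℓN hℓS) =
        θ (heckeAlgebra.T hℓ (hSbig ℓ hℓ hℓS').1 (hSbig ℓ hℓ hℓS').2) := by
    intro ℓ hℓ hℓN hℓS hℓS'
    apply (ResidueField.map (algebraMap 𝒪 (pt j₀).B)).injective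
    rw [hθbig, RingHom.comp_apply, hχ₀ ℓ hℓ hℓN hℓS, (pt j₀).residue_ψ Θ (hle j₀),
      hΘTt ℓ hℓ hℓS']
  -- REP_T (A) at level `Nbig`
  obtain ⟨Tb, j1, j2, j3, j4, j5, j6, j7, j8, Hb, hresb, -, hfull⟩ :=
    exists_heckeGaloisRepDatum' (N := Nbig) (S := Sbig) (𝒪 := 𝒪) p hp2 hpSbig hNbigS hp𝒪 θbig ρbar
      habs (by
        intro ℓ hℓ hℓN hℓS A' hA' σ hσ
        have hℓS' : ℓ ∉ Sbig := fun h => hℓS (Finset.mem_coe.2 h)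
        rw [hθbigT ℓ hℓ hℓN hℓS hℓS']
        exact hbarchar ℓ hℓ (hSbig ℓ hℓ hℓS').1 (hSbig ℓ hℓ hℓS').2 A' hA' σ hσ) hbardet
  letI := j1
  haveI := j2
  haveI := j3
  haveI := j4
  letI := j5
  haveI := j6
  haveI := j7
  haveI := j8
  -- the surjection `Tb → heckeAlg`
  obtain ⟨f, hfsurj, hft⟩ := exists_surjective_algHom_of_family (A := heckeAlg Y Sbig) Hb hfull
    hNbigS hsurjT (TtFun Y Sbig) (adjoin_TtFun Y Sbig) (by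
      intro ℓ hℓ hℓN hℓS
      have hℓS' : ℓ ∉ Sbig := fun h => hℓS (Finset.mem_coe.2 h)
      rw [TtFun_eq Y hℓ hℓS', hθbigT ℓ hℓ hℓN hℓS hℓS']
      exact residue_TtH Y O hlam hp hd hSbig (ℓ := ⟨ℓ, hℓ⟩) hℓS')
    (fun j => restrictPoint Y (pt j) Sbig) (by
      intro a ha
      apply heckeIncl_injective Y Sbig
      rw [map_zero]
      exact hinj _ fun j => ha j) (by
      intro j
      obtain ⟨χ, hχ⟩ := hocc j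
      refine ⟨χ, fun ℓ hℓ hℓN hℓS => ?_⟩
      have hℓS' : ℓ ∉ Sbig := fun h => hℓS (Finset.mem_coe.2 h)
      rw [TtFun_eq Y hℓ hℓS']
      exact hχ ℓ hℓ hℓN hℓS)
  -- the representation
  obtain ⟨ρ, h1, h2, h3, h4, h5, h6, h7⟩ := exists_rep_of_surjective Hb hp hp2 hp𝒪 hpNbig hpSbig
    hNbigS ρbar hresb f hfsurj (TtFun Y Sbig) hft (adjoin_TtFun Y Sbig)
  refine ⟨ρ, hsurjT, h1, h2, h3, h4, h5, ?_, h7⟩
  intro ℓ hℓ hℓS P hP σ hσ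
  rw [h6 ℓ hℓ hℓS P hP σ hσ, TtFun_eq Y hℓ hℓS]

end TWRep

end Fermat.Agent.RB.REPT
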