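/-
PROJECT RB, block [REP_T] (helper1), part (B6): **the trace of inertia at a point of `alg`.**

`x : alg → B` a point of the algebra of one side (`B` a complete DVR finite over `𝒪`),
`F = AlgebraicClosure (Frac B)`.  (OCC-b) gives a system `a : HIdx Nt → F` occurring in
`eigenPar Nt F` and `ψh : (ℤ/Nt)ˣ → Fˣ` with `a(⟨u⟩) = ψh(u)²`, `a(T_ℓ) = ψh(ℓ) x(Tt ℓ)`.
By (KEY-H) for systems (lead, `exists_rep_of_system_of_thetaKillsJ1`) there is `ρ_a` over a finite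
extension `B'` of `B` with `tr ρ_a(σ) = 1 + ψh(cyc σ)²` on inertia at `r ∥ Nt`; by Chebotarev
`ρ ⊗_x B' ` and `ρ_a ⊗ ψh⁻¹` have the same traces.  Hence

    `x (tr ρ(σ)) = ψh(cyc_Nt σ) + ψh(cyc_Nt σ)⁻¹`   for `σ` in an inertia group at `r ∥ Nt`.
-/
import Mathlib
import Fermat.Agent.RB.REPT_helper1_TWRep
import Fermat.Agent.RB.KEYHTR_lead_Final
import Fermat.Agent.S58.CHEB_helper4

set_option autoImplicit false
set_option linter.unusedSectionVars false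
set_option linter.unusedVariables false
set_option linter.style.haveILetI false

namespace Fermat.Agent.RB.REPT

open Polynomial IsLocalRing CuspForm Fermat.Agent.GR Fermat.Agent.W1 Fermat.Agent.TW.Kill

local notation "Ω" => AlgebraicClosure ℚ
local notation "GQ" => (AlgebraicClosure ℚ ≃ₐ[ℚ] AlgebraicClosure ℚ)

section LocalHom

variable {𝒪 : Type} [CommRing 𝒪] [IsLocalRing 𝒪]
  {A : Type} [CommRing A] [IsLocalRing A] [Algebra 𝒪 A] [IsLocalHom (algebraMap 𝒪 A)]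
  [Module.Finite 𝒪 A]
  {B : Type} [CommRing B] [IsLocalRing B] [Algebra 𝒪 B] [IsLocalHom (algebraMap 𝒪 B)]

/-- an `𝒪`-algebra homomorphism from a finite local `𝒪`-algebra to a local `𝒪`-algebra (both
structure maps local) is local. -/
theorem isLocalHom_of_finite (ψ : A →ₐ[𝒪] B) : IsLocalHom (ψ : A →+* B) := by
  constructor
  intro a ha
  by_contra hnu
  have ha𝔪 : a ∈ maximalIdeal A := hnu
  -- the prime `ψ⁻¹(𝔪_B)` lies over `𝔪_𝒪`, hence is maximal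
  let 𝔮 : Ideal A := (maximalIdeal B).comap (ψ : A →+* B)
  haveI : 𝔮.IsPrime := Ideal.comap_isPrime _ _
  have hcomap : 𝔮.comap (algebraMap 𝒪 A) = maximalIdeal 𝒪 := by
    have h1 : 𝔮.comap (algebraMap 𝒪 A) = (maximalIdeal B).comap (algebraMap 𝒪 B) := by
      ext r
      simp only [Ideal.mem_comap, 𝔮]
      rw [show (ψ : A →+* B) (algebraMap 𝒪 A r) = algebraMap 𝒪 B r from ψ.commutes r]
    rw [h1]
    exact IsLocalRing.maximalIdeal_comap (algebraMap 𝒪 B)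
  haveI : Algebra.IsIntegral 𝒪 A := Algebra.IsIntegral.of_finite 𝒪 A
  have hmax : 𝔮.IsMaximal := by
    apply Ideal.isMaximal_of_isIntegral_of_isMaximal_comap (R := 𝒪) 𝔮
    rw [hcomap]
    exact IsLocalRing.maximalIdeal.isMaximal 𝒪
  have h𝔮 : 𝔮 = maximalIdeal A := IsLocalRing.eq_maximalIdeal hmax
  have : a ∈ 𝔮 := h𝔮 ▸ ha𝔪
  exact (mem_maximalIdeal _).1 (Ideal.mem_comap.1 this) ha

end LocalHom

section TwistCore

variable {R : Type} [CommRing R] [IsLocalRing R]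
  {B' : Type} [CommRing B'] [IsDomain B'] [IsLocalRing B'] [IsNoetherianRing B']

/-- **the Chebotarev comparison with a twist**: `ρ` over `R`, `ρa` over `B'`, `f : R → B'` local,
`η` a character mod `Nt` with values in `B'`; if at the primes `ℓ ∉ Sbig` the Frobenius
characteristic polynomials are `X² - t X + ℓ` resp. `X² - η(ℓ) f(t) X + ℓ η(ℓ)²`, then
`f (tr ρ(σ)) η(cyc σ) = tr ρa(σ)` for all `σ`. -/
theorem trace_mul_eq_of_twist (f : R →+* B') [IsLocalHom f] (ρ : GaloisRepAdic R)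
    (ρa : GaloisRepAdic B') {Nt : ℕ} [NeZero Nt] (η : (ZMod Nt)ˣ →* B') (Sbig : Finset ℕ)
    (hSbigNt : ∀ ℓ : ℕ, ℓ.Prime → ℓ ∉ Sbig → ¬ ℓ ∣ Nt)
    (h : ∀ (ℓ : ℕ) (hℓ : ℓ.Prime) (hℓN : ¬ ℓ ∣ Nt), ℓ ∉ Sbig → ∃ t : R,
      ∀ P : ValuationSubring Ω, P.LiesOverPrime ℓ → ∀ φ : GQ, P.IsFrobeniusAt φ ℓ →
        LinearMap.charpoly (ρ.ρ φ) = X ^ 2 - C t * X + C ((ℓ : ℕ) : R) ∧
        LinearMap.charpoly (ρa.ρ φ) =
          X ^ 2 - C (η (DS48.primeUnit Nt hℓ hℓN) * f t) * X +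
            C (((ℓ : ℕ) : B') * η (DS48.primeUnit Nt hℓ hℓN) ^ 2))
    (σ : GQ) :
    f (ρ.trace σ) * η (cyc Nt σ) = ρa.trace σ := by
  classical
  -- the inverse character and the twist
  let ε : (ZMod Nt)ˣ →* B' := η.comp (invMonoidHom : (ZMod Nt)ˣ →* (ZMod Nt)ˣ)
  have hε : ∀ u, ε u * η u = 1 := by
    intro u
    show η u⁻¹ * η u = 1
    rw [← map_mul, inv_mul_cancel, map_one]
  have htw : ∀ τ : GQ, LinearMap.trace B' (twistRep ρa Nt ε).V ((twistRep ρa Nt ε).ρ τ) =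
      ε (cyc Nt τ) * LinearMap.trace B' ρa.V (ρa.ρ τ) := by
    intro τ
    show LinearMap.trace B' ρa.V (ε (cyc Nt τ) • ρa.ρ τ) = _
    rw [map_smul, smul_eq_mul]
  have htwd : ∀ τ : GQ, LinearMap.det ((twistRep ρa Nt ε).ρ τ) =
      ε (cyc Nt τ) ^ 2 * LinearMap.det (ρa.ρ τ) := by
    intro τ
    show LinearMap.det (ε (cyc Nt τ) • ρa.ρ τ) = _
    rw [LinearMap.det_smul, ρa.finrank_eq]
  have hcmp := Fermat.Agent.S58.cheb_trace_det_eq f (Fermat.Agent.S58.cheb_separated_of_noetherian B')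
    ρ (twistRep ρa Nt ε) Sbig ?_ σ
  · have h1 := hcmp.1
    show f (LinearMap.trace R ρ.V (ρ.ρ σ)) * η (cyc Nt σ) = LinearMap.trace B' ρa.V (ρa.ρ σ)
    rw [h1, htw, mul_comm, ← mul_assoc, mul_comm (η _), hε, one_mul]
  · intro ℓ hℓ hℓS P hP φ hφ
    have hℓN := hSbigNt ℓ hℓ hℓS
    obtain ⟨t, ht⟩ := h ℓ hℓ hℓN hℓS
    obtain ⟨ht1, ht2⟩ := ht P hP φ hφ
    rw [ht1]
    obtain ⟨htr, hdet⟩ := GR.trace_det_of_charpoly_eq ρa.finrank_eq _ _ _ ht2
    have hcyc : cyc Nt φ = DS48.primeUnit Nt hℓ hℓN := by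
      apply Units.ext
      rw [cyc_frobenius Nt hℓ hℓN hP hφ, DS48.coe_primeUnit]
    rw [charpoly_eq_of_finrank_eq_two (twistRep ρa Nt ε).finrank_eq, htw, htwd, hcyc, htr, hdet]
    have e1 : ε (DS48.primeUnit Nt hℓ hℓN) * (η (DS48.primeUnit Nt hℓ hℓN) * f t) = f t := by
      rw [← mul_assoc, hε, one_mul]
    have e2 : ε (DS48.primeUnit Nt hℓ hℓN) ^ 2 *
        (((ℓ : ℕ) : B') * η (DS48.primeUnit Nt hℓ hℓN) ^ 2) = ((ℓ : ℕ) : B') := by
      have := hε (DS48.primeUnit Nt hℓ hℓN)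
      calc ε (DS48.primeUnit Nt hℓ hℓN) ^ 2 * (((ℓ : ℕ) : B') * η (DS48.primeUnit Nt hℓ hℓN) ^ 2)
          = ((ℓ : ℕ) : B') * (ε (DS48.primeUnit Nt hℓ hℓN) * η (DS48.primeUnit Nt hℓ hℓN)) ^ 2 := by
            ring
        _ = ((ℓ : ℕ) : B') := by rw [this, one_pow, mul_one]
    rw [e1, e2]
    simp only [Polynomial.map_add, Polynomial.map_sub, Polynomial.map_mul, Polynomial.map_pow,
      Polynomial.map_X, Polynomial.map_C, map_natCast, Polynomial.map_natCast]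

/-- **the trace of inertia, abstract form**: `ι : B' → F` an embedding into a field, `ψh` a
character of odd order `p ^ m` with values in `Fˣ`, `a'' : HIdx Nt → B'` with
`ι (a''(⟨u⟩)) = ψh(u)²`; `ρ` over `R`, `f : R → B'` local, Frobenius characteristic polynomials
`X² - t X + ℓ` with `ι (a''(T_ℓ)) = ψh(ℓ) ι(f t)`; `ρa` over `B'` with Frobenius characteristic
polynomials `X² - a''(T_ℓ) X + ℓ a''(⟨ℓ⟩)`.  If `tr ρa(σ) = 1 + a''(⟨cyc σ⟩)` then
`ι (f (tr ρ(σ))) = ψh(cyc σ) + ψh(cyc σ)⁻¹`. -/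
theorem trace_eq_of_twist_of_embedding {F : Type} [Field F] (ι : B' →+* F)
    (hιinj : Function.Injective ι) (f : R →+* B') [IsLocalHom f] (ρ : GaloisRepAdic R)
    (ρa : GaloisRepAdic B') {Nt : ℕ} [NeZero Nt] (a'' : HIdx Nt → B') (ψh : (ZMod Nt)ˣ →* Fˣ)
    {p : ℕ} (hp : p.Prime) (hp2 : p ≠ 2) (m : ℕ) (hpow : ∀ u, ψh u ^ (p ^ m) = 1)
    (hdia : ∀ u : (ZMod Nt)ˣ, ι (a'' (Sum.inr u)) = ((ψh u : Fˣ) : F) ^ 2)
    (Sbig : Finset ℕ) (hSbigNt : ∀ ℓ : ℕ, ℓ.Prime → ℓ ∉ Sbig → ¬ ℓ ∣ Nt)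
    (hρ : ∀ (ℓ : ℕ) (hℓ : ℓ.Prime) (hℓN : ¬ ℓ ∣ Nt), ℓ ∉ Sbig → ∃ t : R,
      ι (a'' (Sum.inl ⟨ℓ, hℓ⟩)) = ((ψh (DS48.primeUnit Nt hℓ hℓN) : Fˣ) : F) * ι (f t) ∧
      ∀ P : ValuationSubring Ω, P.LiesOverPrime ℓ → ∀ φ : GQ, P.IsFrobeniusAt φ ℓ →
        LinearMap.charpoly (ρ.ρ φ) = X ^ 2 - C t * X + C ((ℓ : ℕ) : R))
    (h1 : ∀ (ℓ : ℕ) (hℓ : ℓ.Prime) (hℓN : ¬ ℓ ∣ Nt), ℓ ∉ Sbig →
      ∀ P : ValuationSubring Ω, P.LiesOverPrime ℓ → ∀ φ : GQ, P.IsFrobeniusAt φ ℓ →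
        LinearMap.charpoly (ρa.ρ φ) = X ^ 2 - C (a'' (Sum.inl ⟨ℓ, hℓ⟩)) * X +
          C (((ℓ : ℕ) : B') * a'' (Sum.inr (DS48.primeUnit Nt hℓ hℓN))))
    (σ : GQ) (hσ : ρa.trace σ = 1 + a'' (Sum.inr (cyc Nt σ))) :
    ι (f (ρ.trace σ)) = ((ψh (cyc Nt σ) : Fˣ) : F) + (((ψh (cyc Nt σ))⁻¹ : Fˣ) : F) := by
  classical
  obtain ⟨k, hk⟩ : ∃ k : ℕ, 2 * k = p ^ m + 1 := by
    have hodd : Odd (p ^ m) := (hp.odd_of_ne_two hp2).pow
    obtain ⟨j, hj⟩ := hodd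
    exact ⟨j + 1, by omega⟩
  have hψk : ∀ u : (ZMod Nt)ˣ, ι (a'' (Sum.inr u) ^ k) = ((ψh u : Fˣ) : F) := by
    intro u
    rw [map_pow, hdia, ← pow_mul, hk, pow_succ, ← Units.val_pow_eq_pow_val, hpow,
      Units.val_one, one_mul]
  let η : (ZMod Nt)ˣ →* B' :=
    { toFun := fun u => a'' (Sum.inr u) ^ k
      map_one' := by
        apply hιinj
        rw [hψk, map_one, map_one, Units.val_one]
      map_mul' := fun u v => by
        apply hιinj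
        rw [map_mul, hψk, hψk, hψk, map_mul, Units.val_mul] }
  have hηψ : ∀ u : (ZMod Nt)ˣ, ι (η u) = ((ψh u : Fˣ) : F) := hψk
  have hmain : f (ρ.trace σ) * η (cyc Nt σ) = ρa.trace σ := by
    refine trace_mul_eq_of_twist f ρ ρa η Sbig hSbigNt ?_ σ
    intro ℓ hℓ hℓN hℓS
    obtain ⟨t, hat, hch⟩ := hρ ℓ hℓ hℓN hℓS
    refine ⟨t, fun P hP φ hφ => ⟨hch P hP φ hφ, ?_⟩⟩
    rw [h1 ℓ hℓ hℓN hℓS P hP φ hφ]
    have e1 : a'' (Sum.inl ⟨ℓ, hℓ⟩) = η (DS48.primeUnit Nt hℓ hℓN) * f t := by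
      apply hιinj
      rw [hat, map_mul, hηψ]
    have e2 : a'' (Sum.inr (DS48.primeUnit Nt hℓ hℓN)) = η (DS48.primeUnit Nt hℓ hℓN) ^ 2 := by
      apply hιinj
      rw [hdia, map_pow, hηψ]
    rw [e1, e2]
  rw [hσ] at hmain
  have hm' := congrArg ι hmain
  rw [map_mul, map_add, map_one, hηψ, hdia] at hm'
  have hne : ((ψh (cyc Nt σ) : Fˣ) : F) ≠ 0 := Units.ne_zero _
  rw [Units.val_inv_eq_inv_val]
  field_simp
  rw [hm']
  ring

end TwistCore

section System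

variable {B : Type} [CommRing B] [IsDomain B] [IsDiscreteValuationRing B]
  [IsAdicComplete (maximalIdeal B) B] [Finite (ResidueField B)] [CharZero B]

/-- auxiliary form of `trace_inertia_of_system`: a finite subextension `L` containing the
eigenvalues is given. -/
theorem trace_inertia_of_system_aux {p : ℕ} [Fact p.Prime] (hp2 : p ≠ 2) (hp5 : 5 ≤ p)
    (hpB : (p : B) ∈ maximalIdeal B) {Nt : ℕ} [NeZero Nt] (hM5 : 5 ≤ Nt)
    (hTh : ThetaKillsJ1 Nt p) (Sbig : Finset ℕ)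
    (hSbigNt : ∀ ℓ : ℕ, ℓ.Prime → ℓ ∉ Sbig → ¬ ℓ ∣ Nt ∧ ℓ ≠ p)
    {R : Type} [CommRing R] [IsLocalRing R] (g : R →+* B) [IsLocalHom g] (ρ : GaloisRepAdic R)
    (a : HIdx Nt → AlgebraicClosure (FractionRing B))
    (ψh : (ZMod Nt)ˣ →* (AlgebraicClosure (FractionRing B))ˣ)
    (hocc : eigenPar Nt (AlgebraicClosure (FractionRing B)) a ≠ ⊥)
    (m : ℕ) (hpow : ∀ u, ψh u ^ (p ^ m) = 1)
    (hdia : ∀ u : (ZMod Nt)ˣ, a (Sum.inr u) =
      ((ψh u : (AlgebraicClosure (FractionRing B))ˣ) : AlgebraicClosure (FractionRing B)) ^ 2)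
    (hρ : ∀ (ℓ : ℕ) (hℓ : ℓ.Prime) (hℓN : ¬ ℓ ∣ Nt), ℓ ∉ Sbig → ∃ t : R,
      a (Sum.inl ⟨ℓ, hℓ⟩) =
        ((ψh (DS48.primeUnit Nt hℓ hℓN) : (AlgebraicClosure (FractionRing B))ˣ) :
          AlgebraicClosure (FractionRing B)) *
          algebraMap B (AlgebraicClosure (FractionRing B)) (g t) ∧
      ∀ P : ValuationSubring Ω, P.LiesOverPrime ℓ → ∀ φ : GQ, P.IsFrobeniusAt φ ℓ →
        LinearMap.charpoly (ρ.ρ φ) = X ^ 2 - C t * X + C ((ℓ : ℕ) : R))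
    (L : IntermediateField (FractionRing B) (AlgebraicClosure (FractionRing B)))
    [FiniteDimensional (FractionRing B) ↥L] (hmem : ∀ ℓ, a ℓ ∈ L) :
    ∀ r' : ℕ, r'.Prime → r' ∣ Nt → ¬ r' ^ 2 ∣ Nt → r' ≠ p → r' ≠ 2 → 5 ≤ Nt / r' →
      ∀ P : ValuationSubring Ω, P.LiesOverPrime r' → ∀ σ ∈ P.inertiaSubgroupIn ℚ,
        algebraMap B (AlgebraicClosure (FractionRing B)) (g (ρ.trace σ)) =
          ((ψh (cyc Nt σ) : (AlgebraicClosure (FractionRing B))ˣ) :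
            AlgebraicClosure (FractionRing B)) +
          (((ψh (cyc Nt σ))⁻¹ : (AlgebraicClosure (FractionRing B))ˣ) :
            AlgebraicClosure (FractionRing B)) := by
  classical
  have hp : p.Prime := Fact.out
  haveI : CharZero (FractionRing B) :=
    charZero_of_injective_algebraMap (IsFractionRing.injective B (FractionRing B))
  have hint𝒪 : ∀ ℓ, IsIntegral B (a ℓ) := fun ℓ =>
    isIntegral_of_isIntegral_int (isIntegral_of_eigenPar_ne_bot hocc ℓ)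
  haveI : IsScalarTower B (FractionRing B) ↥L :=
    IsScalarTower.of_algebraMap_eq fun x => Subtype.ext (by
      show algebraMap B (AlgebraicClosure (FractionRing B)) x = _
      rw [IsScalarTower.algebraMap_apply B (FractionRing B) (AlgebraicClosure (FractionRing B))]
      rfl)
  haveI : IsScalarTower B ↥L (AlgebraicClosure (FractionRing B)) :=
    IsScalarTower.of_algebraMap_eq fun x => rfl
  let aL : HIdx Nt → ↥L := fun ℓ => ⟨a ℓ, hmem ℓ⟩
  have hintL : ∀ ℓ, IsIntegral B (aL ℓ) := by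
    intro ℓ
    have h := hint𝒪 ℓ
    have h2 : a ℓ = algebraMap ↥L (AlgebraicClosure (FractionRing B)) (aL ℓ) := rfl
    rw [h2] at h
    exact (isIntegral_algebraMap_iff (RingHom.injective _)).1 h
  have hoccL : eigenPar Nt ↥L aL ≠ ⊥ := by
    rw [← W1.eigenPar_ne_bot_map_iff _ (AlgebraicClosure (FractionRing B))]
    exact hocc
  -- the integral closure
  haveI : Algebra.IsSeparable (FractionRing B) ↥L := Algebra.IsAlgebraic.isSeparable_of_perfectField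
  obtain ⟨i1, i2, i3, i4, i5, i6, i7⟩ :=
    Fermat.Agent.CFT.Local.exists_localExt_instances B (FractionRing B) ↥L ↥(integralClosure B ↥L)
  haveI := i1
  haveI := i2
  haveI := i3
  haveI := i4
  haveI := i5
  haveI := i6
  haveI hfinres : Finite (ResidueField ↥(integralClosure B ↥L)) := i7 inferInstance
  have hinjL : Function.Injective (algebraMap B ↥L) := by
    rw [IsScalarTower.algebraMap_eq B (FractionRing B) ↥L]
    exact (algebraMap (FractionRing B) ↥L).injective.comp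
      (IsFractionRing.injective B (FractionRing B))
  have hinj : Function.Injective (algebraMap B ↥(integralClosure B ↥L)) := by
    intro x y hxy
    apply hinjL
    exact congrArg Subtype.val hxy
  haveI : CharZero ↥(integralClosure B ↥L) := charZero_of_injective_algebraMap hinj
  have hpB' : (p : ↥(integralClosure B ↥L)) ∈ maximalIdeal ↥(integralClosure B ↥L) := by
    have h1 : (p : ↥(integralClosure B ↥L)) = algebraMap B ↥(integralClosure B ↥L) (p : B) := by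
      rw [map_natCast]
    rw [h1]
    exact map_nonunit (algebraMap B ↥(integralClosure B ↥L)) _ hpB
  let a'' : HIdx Nt → ↥(integralClosure B ↥L) := fun ℓ => ⟨aL ℓ, hintL ℓ⟩
  have hsys : mapSys Nt ↥(integralClosure B ↥L) ↥L a'' = aL := rfl
  obtain ⟨ρa, h1, h2, h3⟩ := exists_rep_of_system_of_thetaKillsJ1 Nt hM5 p hTh
    ↥(integralClosure B ↥L) hpB' ↥L a'' (by rw [hsys]; exact hoccL)
  -- the embedding of `B'` into `F`
  let ι : ↥(integralClosure B ↥L) →+* AlgebraicClosure (FractionRing B) :=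
    (algebraMap ↥L (AlgebraicClosure (FractionRing B))).comp
      (algebraMap ↥(integralClosure B ↥L) ↥L)
  have hιinj : Function.Injective ι := by
    intro x y hxy
    exact Subtype.ext (Subtype.ext hxy)
  let f : R →+* ↥(integralClosure B ↥L) := (algebraMap B ↥(integralClosure B ↥L)).comp g
  haveI : IsLocalHom f := RingHom.isLocalHom_comp _ _
  intro r' hr' hr'N hr'2 hr'p hr'2' hr'3 P hP σ hσ
  exact trace_eq_of_twist_of_embedding ι hιinj f ρ ρa a'' ψh hp hp2 m hpow hdia Sbig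
    (fun ℓ hℓ hℓS => (hSbigNt ℓ hℓ hℓS).1) hρ
    (fun ℓ hℓ hℓN hℓS => h1 ℓ hℓ hℓN (hSbigNt ℓ hℓ hℓS).2) σ
    (h3 hp5 r' hr' hr'N hr'2 hr'p hr'2' hr'3 P hP σ hσ)

/-- **the trace of inertia from an occurring system**: `B` a complete discrete valuation ring,
`F` the algebraic closure of its fraction field, `a : HIdx Nt → F` a system occurring in
`eigenPar Nt F`, `ψh` a character of `p`-power order with `a(⟨u⟩) = ψh(u)²`; `ρ` a representation
over a local ring `R`, `g : R → B` a local homomorphism, such that the Frobenius characteristic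
polynomials of `ρ` at the primes `ℓ ∉ Sbig` are `X² - t X + ℓ` with `a(T_ℓ) = ψh(ℓ) g(t)`.
Then `g (tr ρ(σ)) = ψh(cyc σ) + ψh(cyc σ)⁻¹` for `σ` in an inertia group at `r' ∥ Nt`. -/
theorem trace_inertia_of_system {p : ℕ} [Fact p.Prime] (hp2 : p ≠ 2) (hp5 : 5 ≤ p)
    (hpB : (p : B) ∈ maximalIdeal B) {Nt : ℕ} [NeZero Nt] (hM5 : 5 ≤ Nt)
    (hTh : ThetaKillsJ1 Nt p) (Sbig : Finset ℕ)
    (hSbigNt : ∀ ℓ : ℕ, ℓ.Prime → ℓ ∉ Sbig → ¬ ℓ ∣ Nt ∧ ℓ ≠ p)
    {R : Type} [CommRing R] [IsLocalRing R] (g : R →+* B) [IsLocalHom g] (ρ : GaloisRepAdic R)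
    (a : HIdx Nt → AlgebraicClosure (FractionRing B))
    (ψh : (ZMod Nt)ˣ →* (AlgebraicClosure (FractionRing B))ˣ)
    (hocc : eigenPar Nt (AlgebraicClosure (FractionRing B)) a ≠ ⊥)
    (m : ℕ) (hpow : ∀ u, ψh u ^ (p ^ m) = 1)
    (hdia : ∀ u : (ZMod Nt)ˣ, a (Sum.inr u) =
      ((ψh u : (AlgebraicClosure (FractionRing B))ˣ) : AlgebraicClosure (FractionRing B)) ^ 2)
    (hρ : ∀ (ℓ : ℕ) (hℓ : ℓ.Prime) (hℓN : ¬ ℓ ∣ Nt), ℓ ∉ Sbig → ∃ t : R,
      a (Sum.inl ⟨ℓ, hℓ⟩) =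
        ((ψh (DS48.primeUnit Nt hℓ hℓN) : (AlgebraicClosure (FractionRing B))ˣ) :
          AlgebraicClosure (FractionRing B)) *
          algebraMap B (AlgebraicClosure (FractionRing B)) (g t) ∧
      ∀ P : ValuationSubring Ω, P.LiesOverPrime ℓ → ∀ φ : GQ, P.IsFrobeniusAt φ ℓ →
        LinearMap.charpoly (ρ.ρ φ) = X ^ 2 - C t * X + C ((ℓ : ℕ) : R)) :
    ∀ r' : ℕ, r'.Prime → r' ∣ Nt → ¬ r' ^ 2 ∣ Nt → r' ≠ p → r' ≠ 2 → 5 ≤ Nt / r' →
      ∀ P : ValuationSubring Ω, P.LiesOverPrime r' → ∀ σ ∈ P.inertiaSubgroupIn ℚ,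
        algebraMap B (AlgebraicClosure (FractionRing B)) (g (ρ.trace σ)) =
          ((ψh (cyc Nt σ) : (AlgebraicClosure (FractionRing B))ˣ) :
            AlgebraicClosure (FractionRing B)) +
          (((ψh (cyc Nt σ))⁻¹ : (AlgebraicClosure (FractionRing B))ˣ) :
            AlgebraicClosure (FractionRing B)) := by
  classical
  have hp : p.Prime := Fact.out
  haveI : CharZero (FractionRing B) :=
    charZero_of_injective_algebraMap (IsFractionRing.injective B (FractionRing B))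
  have hint𝒪 : ∀ ℓ, IsIntegral B (a ℓ) := fun ℓ =>
    isIntegral_of_isIntegral_int (isIntegral_of_eigenPar_ne_bot hocc ℓ)
  have hintK : ∀ ℓ, IsIntegral (FractionRing B) (a ℓ) := fun ℓ =>
    isIntegral_of_isIntegral_int (isIntegral_of_eigenPar_ne_bot hocc ℓ)
  -- the finite extension generated by finitely many eigenvalues
  obtain ⟨s, hs⟩ := exists_finset_forall_mem_algebra_adjoin hocc
  haveI : Finite ↑(a '' (s : Set (HIdx Nt))) := (s.finite_toSet.image a).to_subtype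
  haveI hfd : FiniteDimensional (FractionRing B)
      ↥(IntermediateField.adjoin (FractionRing B) (a '' (s : Set (HIdx Nt)))) :=
    IntermediateField.finiteDimensional_adjoin (by
      rintro _ ⟨ℓ, _, rfl⟩
      exact hintK ℓ)
  haveI : IsScalarTower B (FractionRing B)
      ↥(IntermediateField.adjoin (FractionRing B) (a '' (s : Set (HIdx Nt)))) :=
    IsScalarTower.of_algebraMap_eq fun x => Subtype.ext (by
      show algebraMap B (AlgebraicClosure (FractionRing B)) x = _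
      rw [IsScalarTower.algebraMap_apply B (FractionRing B) (AlgebraicClosure (FractionRing B))]
      rfl)
  have hmem : ∀ ℓ : HIdx Nt, a ℓ ∈
      IntermediateField.adjoin (FractionRing B) (a '' (s : Set (HIdx Nt))) := fun ℓ =>
    mem_adjoin_of_mem_algebra_adjoin_rat (hs ℓ)
  haveI : IsScalarTower B
      ↥(IntermediateField.adjoin (FractionRing B) (a '' (s : Set (HIdx Nt))))
      (AlgebraicClosure (FractionRing B)) :=
    IsScalarTower.of_algebraMap_eq fun x => rfl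
  exact trace_inertia_of_system_aux hp2 hp5 hpB hM5 hTh Sbig hSbigNt g ρ a ψh hocc m hpow hdia hρ
    (IntermediateField.adjoin (FractionRing B) (a '' (s : Set (HIdx Nt)))) hmem

end System

section Point

variable {𝒪 : Type} [CommRing 𝒪] [IsDomain 𝒪] [IsDiscreteValuationRing 𝒪]
  [IsAdicComplete (maximalIdeal 𝒪) 𝒪] [CharZero 𝒪] [Finite (ResidueField 𝒪)]
  {p r d n : ℕ} (Y : TWModSide 𝒪 p r d n) {lam z : 𝒪} {N : ℕ} [NeZero N] {S : Finset ℕ}
  {θ : ↥(heckeAlgebra N 2 (↑S : Set ℕ)) →+* ResidueField 𝒪} {Sig : Finset ℕ} {Nt Nbig : ℕ}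
  [NeZero Nt] [NeZero Nbig] {Sbig : Finset ℕ} {uQ : Fin r → (ZMod Nt)ˣ} {uS : ℕ → (ZMod Nt)ˣ}

/-- **the trace of inertia at a point.** -/
theorem trace_inertia_point [Fact p.Prime] (hp2 : p ≠ 2) (hp5 : 5 ≤ p)
    (hp𝒪 : (p : 𝒪) ∈ maximalIdeal 𝒪) (hM5 : 5 ≤ Nt) (hTh : ThetaKillsJ1 Nt p)
    (O : Y.Occ lam z θ Sig Nt Nbig Sbig uQ uS)
    (hSbigNt : ∀ ℓ : ℕ, ℓ.Prime → ℓ ∉ Sbig → ¬ ℓ ∣ Nt ∧ ℓ ≠ p)
    [IsLocalRing (heckeAlg Y Sbig)] [IsLocalHom (algebraMap 𝒪 (heckeAlg Y Sbig))]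
    [Module.Finite 𝒪 (heckeAlg Y Sbig)]
    (ρ : GaloisRepAdic (heckeAlg Y Sbig))
    (hρ : ∀ (ℓ : ℕ) (hℓ : ℓ.Prime) (hℓS : ℓ ∉ Sbig), ∀ P : ValuationSubring Ω,
      P.LiesOverPrime ℓ → ∀ σ : GQ, P.IsFrobeniusAt σ ℓ →
        LinearMap.charpoly (ρ.ρ σ) =
          X ^ 2 - C (TtH Y ⟨ℓ, hℓ⟩ hℓS) * X + C ((ℓ : ℕ) : heckeAlg Y Sbig))
    (x : DVRPoint 𝒪 Y.alg) :
    ∃ ψh : (ZMod Nt)ˣ →* (AlgebraicClosure (FractionRing x.B))ˣ,
      (∃ m : ℕ, ∀ u, ψh u ^ (p ^ m) = 1) ∧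
      (∀ q : Fin r, algebraMap x.B (AlgebraicClosure (FractionRing x.B)) (x.ψ (Y.gA q)) =
        ((ψh (uQ q) : (AlgebraicClosure (FractionRing x.B))ˣ) :
          AlgebraicClosure (FractionRing x.B))) ∧
      (∀ v ∈ Sig, ((ψh (uS v) : (AlgebraicClosure (FractionRing x.B))ˣ) :
          AlgebraicClosure (FractionRing x.B)) =
          algebraMap x.B (AlgebraicClosure (FractionRing x.B)) (algebraMap 𝒪 x.B z) ∧
        ∀ u : (ZMod Nt)ˣ, (((u : ZMod Nt).val : ℕ) : ZMod (Nt / v)) = 1 →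
          ∃ j : ℕ, ((ψh u : (AlgebraicClosure (FractionRing x.B))ˣ) :
            AlgebraicClosure (FractionRing x.B)) =
            algebraMap x.B (AlgebraicClosure (FractionRing x.B)) (algebraMap 𝒪 x.B z) ^ j) ∧
      ∀ r' : ℕ, r'.Prime → r' ∣ Nt → ¬ r' ^ 2 ∣ Nt → r' ≠ p → r' ≠ 2 → 5 ≤ Nt / r' →
        ∀ P : ValuationSubring Ω, P.LiesOverPrime r' → ∀ σ ∈ P.inertiaSubgroupIn ℚ,
          algebraMap x.B (AlgebraicClosure (FractionRing x.B))
              (x.ψ (heckeIncl Y Sbig (ρ.trace σ))) =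
            ((ψh (cyc Nt σ) : (AlgebraicClosure (FractionRing x.B))ˣ) :
              AlgebraicClosure (FractionRing x.B)) +
            (((ψh (cyc Nt σ))⁻¹ : (AlgebraicClosure (FractionRing x.B))ˣ) :
              AlgebraicClosure (FractionRing x.B)) := by
  classical
  have hp : p.Prime := Fact.out
  -- notation
  let B := x.B
  let K := FractionRing B
  let F := AlgebraicClosure K
  haveI : CharZero K := charZero_of_injective_algebraMap (IsFractionRing.injective B K)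
  have hinjBF : Function.Injective (algebraMap B F) := by
    rw [IsScalarTower.algebraMap_eq B K F]
    exact (algebraMap K F).injective.comp (IsFractionRing.injective B K)
  -- (OCC-b)
  obtain ⟨a, ψh, hocc, ⟨m, hpow⟩, hdia, hT, hg, hSig⟩ := (O.occ B x.ψ).2 F hinjBF
  refine ⟨ψh, ⟨m, hpow⟩, hg, hSig, ?_⟩
  have hpB : (p : B) ∈ maximalIdeal B := by
    have h1 : (p : B) = algebraMap 𝒪 B (p : 𝒪) := by rw [map_natCast]
    rw [h1]
    exact map_nonunit (algebraMap 𝒪 B) _ hp𝒪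
  let gg : heckeAlg Y Sbig →ₐ[𝒪] B := x.ψ.comp (heckeIncl Y Sbig)
  haveI : IsLocalHom (gg : heckeAlg Y Sbig →+* B) := isLocalHom_of_finite gg
  have hmain := trace_inertia_of_system (B := B) hp2 hp5 hpB hM5 hTh Sbig hSbigNt
    (gg : heckeAlg Y Sbig →+* B) ρ a ψh hocc m hpow hdia ?_
  · exact hmain
  · intro ℓ hℓ hℓN hℓS
    refine ⟨TtH Y ⟨ℓ, hℓ⟩ hℓS, ?_, fun P hP φ hφ => hρ ℓ hℓ hℓS P hP φ hφ⟩
    rw [hT ℓ hℓ hℓN hℓS]
    rfl

end Point

end Fermat.Agent.RB.REPT
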