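/-
PROJECT RB, block [REP_T] (helper1), part (B4): **(T-a) the image of inertia at `v ≠ p` under a
residually unramified `p`-adic representation is ABELIAN.**

`ρ : GaloisRepAdic R` (`R` noetherian local, `p ∈ 𝔪_R`), `P` a place over `v ≠ p`,
`ρ(σ) ≡ 1 mod 𝔪_R` for `σ ∈ I_P`.  Then `ρ(σ) ρ(σ') = ρ(σ') ρ(σ)` for `σ, σ' ∈ I_P`
(`TW.exists_generator_of_inertia` applied to `ρ mod 𝔪 ^ k` for every `k` + Krull).
-/
import Mathlib
import Fermat.Agent.TW.TameCyclic_helper6
import Fermat.Agent.GR.DET_lead_Main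

set_option autoImplicit false
set_option linter.unusedSectionVars false
set_option linter.unusedVariables false
set_option linter.style.haveILetI false

namespace Fermat.Agent.RB.REPT

open Polynomial IsLocalRing Fermat.Agent.GR

local notation "Ω" => AlgebraicClosure ℚ
local notation "GQ" => (AlgebraicClosure ℚ ≃ₐ[ℚ] AlgebraicClosure ℚ)

section OneUnits

variable {R : Type} [CommRing R] {V : Type} [AddCommGroup V] [Module R V]

/-- a linear map maps `I V` into `I V`. -/
theorem end_apply_mem_smul_top' (I : Ideal R) (f : Module.End R V) {x : V}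
    (hx : x ∈ (I • ⊤ : Submodule R V)) : f x ∈ (I • ⊤ : Submodule R V) := by
  refine Submodule.smul_induction_on (p := fun x => f x ∈ (I • ⊤ : Submodule R V)) hx ?_ ?_
  · intro r hr n _
    rw [map_smul]
    exact Submodule.smul_mem_smul hr Submodule.mem_top
  · intro x y hx hy
    rw [map_add]
    exact Submodule.add_mem _ hx hy

/-- `e V ⊆ I V`, `x ∈ J V` ⇒ `e x ∈ (J I) V`. -/
theorem end_apply_mem_mul_smul_top (I J : Ideal R) (e : Module.End R V)
    (he : ∀ v, e v ∈ (I • ⊤ : Submodule R V)) {x : V} (hx : x ∈ (J • ⊤ : Submodule R V)) :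
    e x ∈ ((J * I) • ⊤ : Submodule R V) := by
  refine Submodule.smul_induction_on (p := fun x => e x ∈ ((J * I) • ⊤ : Submodule R V)) hx ?_ ?_
  · intro r hr n _
    rw [map_smul, mul_smul]
    exact Submodule.smul_mem_smul hr (he n)
  · intro x y hx hy
    rw [map_add]
    exact Submodule.add_mem _ hx hy

/-- `f ≡ 1 mod I` ⇒ `f ^ i ≡ 1 mod I`. -/
theorem pow_apply_sub_mem (I : Ideal R) (f : Module.End R V)
    (hf : ∀ v, f v - v ∈ (I • ⊤ : Submodule R V)) (i : ℕ) (v : V) :
    (f ^ i) v - v ∈ (I • ⊤ : Submodule R V) := by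
  induction i with
  | zero => simp
  | succ i ih =>
    have h1 : (f ^ (i + 1)) v - v = (f ^ i) (f v - v) + ((f ^ i) v - v) := by
      rw [pow_succ, Module.End.mul_apply, map_sub]
      abel
    rw [h1]
    exact Submodule.add_mem _ (end_apply_mem_smul_top' I _ (hf v)) ih

/-- **`f ≡ 1 mod I`, `p ∈ J`, `I² ≤ I J`-type step**: `f ^ p ≡ 1 mod (J I)` when `I ≤ J`. -/
theorem pow_prime_apply_sub_mem (I J : Ideal R) (hIJ : I ≤ J) (p : ℕ) (hp : (p : R) ∈ J)
    (f : Module.End R V) (hf : ∀ v, f v - v ∈ (I • ⊤ : Submodule R V)) (v : V) :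
    (f ^ p) v - v ∈ ((J * I) • ⊤ : Submodule R V) := by
  set e : Module.End R V := f - 1 with he
  have hev : ∀ v, e v ∈ (I • ⊤ : Submodule R V) := fun v => by
    have : e v = f v - v := by simp [he]
    rw [this]
    exact hf v
  -- `f ^ p - 1 = e * ∑ f ^ i`
  have h1 : f ^ p - 1 = e * ∑ i ∈ Finset.range p, f ^ i := (mul_geom_sum f p).symm
  have h2 : (f ^ p) v - v = e ((∑ i ∈ Finset.range p, f ^ i) v) := by
    have := congrArg (fun g : Module.End R V => g v) h1
    simpa using this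
  -- `(∑ f ^ i) v = p • v + w`, `w ∈ I V`
  have h3 : (∑ i ∈ Finset.range p, f ^ i) v = (p : R) • v +
      ∑ i ∈ Finset.range p, ((f ^ i) v - v) := by
    rw [LinearMap.sum_apply, Finset.sum_sub_distrib, Finset.sum_const, Finset.card_range]
    rw [Nat.cast_smul_eq_nsmul]
    abel
  rw [h2, h3, map_add, map_smul]
  refine Submodule.add_mem _ ?_ ?_
  · have h4 : (p : R) • e v ∈ (J • (I • ⊤ : Submodule R V) : Submodule R V) :=
      Submodule.smul_mem_smul hp (hev v)
    rwa [← mul_smul] at h4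
  · have h5 : ∑ i ∈ Finset.range p, ((f ^ i) v - v) ∈ (I • ⊤ : Submodule R V) :=
      Submodule.sum_mem _ fun i _ => pow_apply_sub_mem I f hf i v
    have h6 := end_apply_mem_mul_smul_top I I e hev h5
    exact Submodule.smul_mono_left (Ideal.mul_mono_left hIJ) h6

end OneUnits

section Tame

variable {R : Type} [CommRing R] [IsLocalRing R] (ρ : GaloisRepAdic R)

/-- `ρ(σ) ≡ 1 mod 𝔪` ⇒ `ρ(σ) ^ (p ^ k) ≡ 1 mod 𝔪 ^ (k + 1)`. -/
theorem pow_prime_pow_apply_sub_mem {p : ℕ} (hpR : (p : R) ∈ maximalIdeal R)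
    (f : Module.End R ρ.V) (hf : ∀ v, f v - v ∈ (maximalIdeal R • ⊤ : Submodule R ρ.V)) (k : ℕ)
    (v : ρ.V) : (f ^ p ^ k) v - v ∈ (maximalIdeal R ^ (k + 1) • ⊤ : Submodule R ρ.V) := by
  induction k generalizing v with
  | zero => simpa using hf v
  | succ k ih =>
    have h1 := pow_prime_apply_sub_mem (maximalIdeal R ^ (k + 1)) (maximalIdeal R)
      (Ideal.pow_le_self (Nat.succ_ne_zero k)) p hpR (f ^ p ^ k) ih v
    rw [← pow_mul, ← pow_succ, ← pow_succ'] at h1
    exact h1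

variable [IsNoetherianRing R]

/-- **(T-a)** -/
theorem commute_of_mem_inertia {p v : ℕ} (hp : p.Prime) (hv : v.Prime) (hvp : v ≠ p)
    (hpR : (p : R) ∈ maximalIdeal R) {P : ValuationSubring Ω} (hP : P.LiesOverPrime v)
    (hres : ∀ σ ∈ P.inertiaSubgroupIn ℚ, ∀ x : ρ.V,
      ρ.ρ σ x - x ∈ (maximalIdeal R • ⊤ : Submodule R ρ.V))
    {σ σ' : GQ} (hσ : σ ∈ P.inertiaSubgroupIn ℚ) (hσ' : σ' ∈ P.inertiaSubgroupIn ℚ) :
    ρ.ρ σ * ρ.ρ σ' = ρ.ρ σ' * ρ.ρ σ := by
  -- modulo `𝔪 ^ k`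
  have hk : ∀ k : ℕ, matModHom ρ k (σ * σ') = matModHom ρ k (σ' * σ) := by
    intro k
    obtain ⟨L, hLfd, hL⟩ := ρ.isAdicContinuous k
    haveI := hLfd
    set F : IntermediateField ℚ Ω := IntermediateField.normalClosure ℚ L Ω with hF
    haveI : Normal ℚ F := normalClosure.normal ℚ L Ω
    haveI : FiniteDimensional ℚ F := normalClosure.is_finiteDimensional ℚ L Ω
    have hLF : L ≤ F := IntermediateField.le_normalClosure L
    obtain ⟨τ₀, hτ₀, hgen⟩ := Fermat.Agent.TW.exists_generator_of_inertia hv hP (matModHom ρ k) F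
      (fun τ hτ => matModHom_eq_one_of_forall_mem ρ (hL τ fun x hx => hτ x (hLF hx)))
      (fun τ hτ => by
        refine ⟨p ^ k, Nat.Coprime.pow_left k ((Nat.coprime_primes hp hv).mpr (Ne.symm hvp)), ?_⟩
        rw [← map_pow]
        refine matModHom_eq_one_of_forall_mem ρ fun x => ?_
        rw [map_pow]
        exact Submodule.smul_mono_left (Ideal.pow_le_pow_right (Nat.le_succ k))
          (pow_prime_pow_apply_sub_mem ρ hpR (ρ.ρ τ) (hres τ hτ) k x))
    obtain ⟨a, ha⟩ := hgen σ hσ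
    obtain ⟨b, hb⟩ := hgen σ' hσ'
    rw [map_mul, map_mul, ha, hb, ← pow_add, ← pow_add, add_comm]
  -- pass to the limit
  have hmat : matHom ρ (σ * σ') = matHom ρ (σ' * σ) := by
    ext i j
    rw [← sub_eq_zero]
    refine eq_zero_of_forall_exists_mem_pow fun k => ⟨k, le_rfl, ?_⟩
    have h1 := congrFun (congrFun (hk k) i) j
    rw [matModHom_apply, matModHom_apply, RingHom.mapMatrix_apply, RingHom.mapMatrix_apply,
      Matrix.map_apply, Matrix.map_apply] at h1
    exact (Ideal.Quotient.eq (I := maximalIdeal R ^ k)).1 h1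
  rw [matHom_apply, matHom_apply] at hmat
  have := (LinearMap.toMatrix (gBasis ρ) (gBasis ρ)).injective hmat
  rwa [map_mul, map_mul] at this

end Tame

end Fermat.Agent.RB.REPT
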