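/-
PROJECT RB, block [REP_T] (helper1), part (B7): **inertia at `Q` and `Σ` for the representation
over the Hecke algebra of one side.**

From `trace_inertia_point` (traces of inertia at all discrete-valuation-ring points of `alg`),
[CYCI] and the reducedness of `alg`:
* `keyH_alg`     : for some `σ` in an inertia group at `Q q`, `tr ρ(σ) = g q + (g q) ^ (p ^ n - 1)`;
* `unipotent_of_z_eq_one` : (`z = 1`) `ρ` is unipotent on inertia at `v ∈ Σ`;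
* `type_of_z_eq_zeta`     : (`z = ζ`) `ρ(σ) ^ p = 1` on inertia at `v ∈ Σ`, and some `τ` has
  characteristic polynomial `X² - (ζ + ζ ^ (p - 1)) X + 1`.
-/
import Mathlib
import Fermat.Agent.RB.REPT_helper1_TWPoint
import Fermat.Agent.RB.REPT_helper1_Mat2
import Fermat.Agent.RB.REPT_helper1_TameComm
import Fermat.Agent.RB.REPT_helper1_CycInertia

set_option autoImplicit false
set_option linter.unusedSectionVars false
set_option linter.unusedVariables false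
set_option linter.style.haveILetI false

namespace Fermat.Agent.RB.REPT

open Polynomial IsLocalRing CuspForm Fermat.Agent.GR Fermat.Agent.W1 Fermat.Agent.TW.Kill

local notation "Ω" => AlgebraicClosure ℚ
local notation "GQ" => (AlgebraicClosure ℚ ≃ₐ[ℚ] AlgebraicClosure ℚ)

section General

/-- the cyclotomic character mod `M` of an element of an inertia group at `r ∥ M` is `≡ 1` modulo
`M / r`. -/
theorem cyc_val_cast_eq_one_of_mem_inertia {M r : ℕ} [NeZero M] (hr : r.Prime) (hrM : r ∣ M)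
    (hr2 : ¬ r ^ 2 ∣ M) {P : ValuationSubring Ω} (hP : P.LiesOverPrime r) {σ : GQ}
    (hσ : σ ∈ P.inertiaSubgroupIn ℚ) :
    (((((cyc M σ : (ZMod M)ˣ) : ZMod M).val : ℕ)) : ZMod (M / r)) = 1 := by
  have hM0 : M ≠ 0 := NeZero.ne M
  obtain ⟨m', hm'⟩ := hrM
  have hdiv : M / r = m' := by rw [hm', Nat.mul_div_cancel_left _ hr.pos]
  rw [hdiv]
  have hm0 : m' ≠ 0 := by rintro rfl; exact hM0 (by rw [hm', mul_zero])
  haveI : NeZero m' := ⟨hm0⟩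
  have hrm : ¬ r ∣ m' := by
    rintro ⟨c, rfl⟩
    exact hr2 ⟨c, by rw [hm']; ring⟩
  have hmM : m' ∣ M := ⟨r, by rw [hm', mul_comm]⟩
  have h1 := cyc_unitsMap hmM σ
  rw [cyc_eq_one_of_mem_inertia m' hr hrm hP hσ] at h1
  have h2 := congrArg (fun x : (ZMod m')ˣ => (x : ZMod m')) h1
  simp only [ZMod.unitsMap_def, Units.coe_map, MonoidHom.coe_coe, ZMod.castHom_apply,
    Units.val_one] at h2
  rw [ZMod.natCast_val]
  exact h2

variable {R : Type} [CommRing R] [IsLocalRing R] [IsNoetherianRing R]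

/-- a representation with cyclotomic determinant has determinant `1` on inertia at `v ≠ p`. -/
theorem det_eq_one_of_mem_inertia (ρ : GaloisRepAdic R) {p v : ℕ} (hp : p.Prime) (hv : v.Prime)
    (hvp : v ≠ p) (hdet : ρ.DetIsCyclotomic p) {P : ValuationSubring Ω} (hP : P.LiesOverPrime v)
    {σ : GQ} (hσ : σ ∈ P.inertiaSubgroupIn ℚ) : LinearMap.det (ρ.ρ σ) = 1 := by
  rw [← sub_eq_zero]
  refine eq_zero_of_forall_exists_mem_pow fun n => ⟨n, le_rfl, ?_⟩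
  haveI : NeZero (p ^ n) := ⟨pow_ne_zero n hp.ne_zero⟩
  have hvpn : ¬ v ∣ p ^ n := fun h =>
    hvp ((Nat.prime_dvd_prime_iff_eq hv hp).1 (hv.dvd_of_dvd_pow h))
  have h1 : cyc (p ^ n) σ = 1 := cyc_eq_one_of_mem_inertia (p ^ n) hv hvpn hP hσ
  rw [cyc_eq_one_iff] at h1
  have h2 := hdet.2 n σ 1 (fun μ hμ => by rw [h1 μ hμ, pow_one])
  rw [Nat.cast_one] at h2
  have h3 : Ideal.span {((p ^ n : ℕ) : R)} ≤ maximalIdeal R ^ n := by
    rw [Ideal.span_singleton_le_iff_mem, Nat.cast_pow]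
    exact Ideal.pow_mem_pow hdet.1 n
  exact h3 h2

end General

section Side

variable {𝒪 : Type} [CommRing 𝒪] [IsDomain 𝒪] [IsDiscreteValuationRing 𝒪]
  [IsAdicComplete (maximalIdeal 𝒪) 𝒪] [CharZero 𝒪] [Finite (ResidueField 𝒪)]
  {p r d n : ℕ} (Y : TWModSide 𝒪 p r d n) {lam z : 𝒪} {N : ℕ} [NeZero N] {S : Finset ℕ}
  {θ : ↥(heckeAlgebra N 2 (↑S : Set ℕ)) →+* ResidueField 𝒪} {Sig : Finset ℕ} {Nt Nbig : ℕ}
  [NeZero Nt] [NeZero Nbig] {Sbig : Finset ℕ} {uQ : Fin r → (ZMod Nt)ˣ} {uS : ℕ → (ZMod Nt)ˣ}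

/-- **two elements of `alg` agreeing at all discrete-valuation-ring points are equal.** -/
theorem eq_of_forall_point (hp : p.Prime) (hp𝒪 : (p : 𝒪) ∈ maximalIdeal 𝒪)
    (hlam : Irreducible lam) (hd : 0 < d)
    (O : Y.Occ lam z θ Sig Nt Nbig Sbig uQ uS)
    (hSbig : ∀ ℓ : ℕ, ℓ.Prime → ℓ ∉ Sbig → ¬ ℓ ∣ N ∧ ℓ ∉ (↑S : Set ℕ))
    {a b : Y.alg} (h : ∀ x : DVRPoint 𝒪 Y.alg, x.ψ a = x.ψ b) : a = b := by
  classical
  haveI hlocA : IsLocalRing Y.alg := isLocalRing_alg Y O hlam hp hp𝒪 hd hSbig O.junk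
  haveI hlhA : IsLocalHom (algebraMap 𝒪 Y.alg) :=
    isLocalHom_algebraMap_alg Y O hlam hp hp𝒪 hd hSbig O.junk
  have hsurjA := residue_surjective_alg Y O hlam hp hp𝒪 hd hSbig O.junk
  haveI : IsReduced Y.alg := isReduced_alg Y O
  haveI : Module.Finite 𝒪 Y.alg := finite_alg Y
  haveI : Module.IsTorsionFree 𝒪 Y.alg := isTorsionFree_alg Y
  haveI : Module.Free 𝒪 Y.alg := Module.free_of_finite_type_torsion_free'
  obtain ⟨Θ, hΘres, hΘker⟩ := exists_theta_of_residue_surjective (𝒪 := 𝒪) (A := Y.alg) hsurjA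
  obtain ⟨J, hJ, hJne, pt, hle, hinj⟩ := exists_points_family_injective Θ hΘker
  rw [← sub_eq_zero]
  refine hinj _ fun j => ?_
  rw [map_sub, h (pt j), sub_self]

/-- **(KEY-H) at a Taylor–Wiles prime, in `alg`.** -/
theorem keyH_alg [Fact p.Prime] (hp2 : p ≠ 2) (hp5 : 5 ≤ p)
    (hp𝒪 : (p : 𝒪) ∈ maximalIdeal 𝒪) (hlam : Irreducible lam) (hd : 0 < d) (hM5 : 5 ≤ Nt)
    (hTh : ThetaKillsJ1 Nt p)
    (O : Y.Occ lam z θ Sig Nt Nbig Sbig uQ uS)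
    (hSbig : ∀ ℓ : ℕ, ℓ.Prime → ℓ ∉ Sbig → ¬ ℓ ∣ N ∧ ℓ ∉ (↑S : Set ℕ))
    (hSbigNt : ∀ ℓ : ℕ, ℓ.Prime → ℓ ∉ Sbig → ¬ ℓ ∣ Nt ∧ ℓ ≠ p)
    [IsLocalRing (heckeAlg Y Sbig)] [IsLocalHom (algebraMap 𝒪 (heckeAlg Y Sbig))]
    (ρ : GaloisRepAdic (heckeAlg Y Sbig))
    (hρ : ∀ (ℓ : ℕ) (hℓ : ℓ.Prime) (hℓS : ℓ ∉ Sbig), ∀ P : ValuationSubring Ω,
      P.LiesOverPrime ℓ → ∀ σ : GQ, P.IsFrobeniusAt σ ℓ →
        LinearMap.charpoly (ρ.ρ σ) =
          X ^ 2 - C (TtH Y ⟨ℓ, hℓ⟩ hℓS) * X + C ((ℓ : ℕ) : heckeAlg Y Sbig))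
    (q : Fin r) {r' : ℕ} (hr' : r'.Prime) (hr'N : r' ∣ Nt) (hr'2 : ¬ r' ^ 2 ∣ Nt) (hr'p : r' ≠ p)
    (hr'2' : r' ≠ 2) (hr'3 : 5 ≤ Nt / r')
    (huQ : (((((uQ q : (ZMod Nt)ˣ) : ZMod Nt).val : ℕ)) : ZMod (Nt / r')) = 1) :
    ∃ (P : ValuationSubring Ω) (_ : P.LiesOverPrime r') (σ : GQ)
      (_ : σ ∈ P.inertiaSubgroupIn ℚ),
      heckeIncl Y Sbig (ρ.trace σ) = Y.gA q + Y.gA q ^ (p ^ n - 1) := by
  classical
  have hp : p.Prime := Fact.out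
  haveI : Module.Finite 𝒪 (heckeAlg Y Sbig) := finite_heckeAlg Y Sbig
  obtain ⟨P, -, hP, -⟩ := Fermat.Agent.S54.exists_frobenius r' hr'
  obtain ⟨σ, hσ, hcyc⟩ := exists_mem_inertia_cyc_eq hr' hr'N hr'2 hP (uQ q) huQ
  refine ⟨P, hP, σ, hσ, ?_⟩
  refine eq_of_forall_point Y hp hp𝒪 hlam hd O hSbig fun x => ?_
  have hinjBF : Function.Injective
      (algebraMap x.B (AlgebraicClosure (FractionRing x.B))) := by
    rw [IsScalarTower.algebraMap_eq x.B (FractionRing x.B) (AlgebraicClosure (FractionRing x.B))]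
    exact (algebraMap (FractionRing x.B) (AlgebraicClosure (FractionRing x.B))).injective.comp
      (IsFractionRing.injective x.B (FractionRing x.B))
  apply hinjBF
  obtain ⟨ψh, -, hg, -, htr⟩ := trace_inertia_point Y hp2 hp5 hp𝒪 hM5 hTh O hSbigNt ρ hρ x
  rw [htr r' hr' hr'N hr'2 hr'p hr'2' hr'3 P hP σ hσ, hcyc, map_add, map_add, map_pow, map_pow,
    hg q]
  congr 1
  have h1 : ((ψh (uQ q) : (AlgebraicClosure (FractionRing x.B))ˣ) :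
      AlgebraicClosure (FractionRing x.B)) ^ (p ^ n) = 1 := by
    rw [← hg q, ← map_pow, ← map_pow]
    have : Y.gA q ^ p ^ n = 1 := Subtype.ext (Y.g_pow q)
    rw [this, map_one, map_one]
  rw [Units.val_inv_eq_inv_val]
  symm
  apply eq_inv_of_mul_eq_one_left
  rw [← pow_succ, Nat.sub_add_cancel (Nat.one_le_pow _ _ hp.pos), h1]

/-- the trace of `ρ(σ)`, `σ` in an inertia group at `v ∈ Σ`, at a point: `μ + μ⁻¹` with `μ` a
power of `z`. -/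
theorem trace_sig_point [Fact p.Prime] (hp2 : p ≠ 2) (hp5 : 5 ≤ p)
    (hp𝒪 : (p : 𝒪) ∈ maximalIdeal 𝒪) (hM5 : 5 ≤ Nt) (hTh : ThetaKillsJ1 Nt p)
    (O : Y.Occ lam z θ Sig Nt Nbig Sbig uQ uS)
    (hSbigNt : ∀ ℓ : ℕ, ℓ.Prime → ℓ ∉ Sbig → ¬ ℓ ∣ Nt ∧ ℓ ≠ p)
    [IsLocalRing (heckeAlg Y Sbig)] [IsLocalHom (algebraMap 𝒪 (heckeAlg Y Sbig))]
    (ρ : GaloisRepAdic (heckeAlg Y Sbig))
    (hρ : ∀ (ℓ : ℕ) (hℓ : ℓ.Prime) (hℓS : ℓ ∉ Sbig), ∀ P : ValuationSubring Ω,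
      P.LiesOverPrime ℓ → ∀ σ : GQ, P.IsFrobeniusAt σ ℓ →
        LinearMap.charpoly (ρ.ρ σ) =
          X ^ 2 - C (TtH Y ⟨ℓ, hℓ⟩ hℓS) * X + C ((ℓ : ℕ) : heckeAlg Y Sbig))
    {v : ℕ} (hvS : v ∈ Sig) (hv : v.Prime) (hvN : v ∣ Nt) (hv2 : ¬ v ^ 2 ∣ Nt) (hvp : v ≠ p)
    (hv2' : v ≠ 2) (hv3 : 5 ≤ Nt / v) {P : ValuationSubring Ω} (hP : P.LiesOverPrime v)
    {σ : GQ} (hσ : σ ∈ P.inertiaSubgroupIn ℚ) (x : DVRPoint 𝒪 Y.alg) :
    ∃ j : ℕ, algebraMap x.B (AlgebraicClosure (FractionRing x.B))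
        (x.ψ (heckeIncl Y Sbig (ρ.trace σ))) =
      algebraMap x.B (AlgebraicClosure (FractionRing x.B)) (algebraMap 𝒪 x.B z) ^ j +
        (algebraMap x.B (AlgebraicClosure (FractionRing x.B)) (algebraMap 𝒪 x.B z) ^ j)⁻¹ := by
  classical
  haveI : Module.Finite 𝒪 (heckeAlg Y Sbig) := finite_heckeAlg Y Sbig
  obtain ⟨ψh, -, -, hSig, htr⟩ := trace_inertia_point Y hp2 hp5 hp𝒪 hM5 hTh O hSbigNt ρ hρ x
  obtain ⟨j, hj⟩ := (hSig v hvS).2 (cyc Nt σ) (cyc_val_cast_eq_one_of_mem_inertia hv hvN hv2 hP hσ)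
  refine ⟨j, ?_⟩
  rw [htr v hv hvN hv2 hvp hv2' hv3 P hP σ hσ, Units.val_inv_eq_inv_val, hj]

/-- **type (1)**: for `z = 1`, `ρ` is unipotent on inertia at the primes of `Σ`. -/
theorem unipotent_of_z_eq_one [Fact p.Prime] (hp2 : p ≠ 2) (hp5 : 5 ≤ p)
    (hp𝒪 : (p : 𝒪) ∈ maximalIdeal 𝒪) (hlam : Irreducible lam) (hd : 0 < d) (hM5 : 5 ≤ Nt)
    (hTh : ThetaKillsJ1 Nt p)
    (O : Y.Occ lam 1 θ Sig Nt Nbig Sbig uQ uS)
    (hSbig : ∀ ℓ : ℕ, ℓ.Prime → ℓ ∉ Sbig → ¬ ℓ ∣ N ∧ ℓ ∉ (↑S : Set ℕ))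
    (hSbigNt : ∀ ℓ : ℕ, ℓ.Prime → ℓ ∉ Sbig → ¬ ℓ ∣ Nt ∧ ℓ ≠ p)
    [IsLocalRing (heckeAlg Y Sbig)] [IsLocalHom (algebraMap 𝒪 (heckeAlg Y Sbig))]
    (ρ : GaloisRepAdic (heckeAlg Y Sbig))
    (hρ : ∀ (ℓ : ℕ) (hℓ : ℓ.Prime) (hℓS : ℓ ∉ Sbig), ∀ P : ValuationSubring Ω,
      P.LiesOverPrime ℓ → ∀ σ : GQ, P.IsFrobeniusAt σ ℓ →
        LinearMap.charpoly (ρ.ρ σ) =
          X ^ 2 - C (TtH Y ⟨ℓ, hℓ⟩ hℓS) * X + C ((ℓ : ℕ) : heckeAlg Y Sbig))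
    (hdet : ρ.DetIsCyclotomic p)
    {v : ℕ} (hvS : v ∈ Sig) (hv : v.Prime) (hvN : v ∣ Nt) (hv2 : ¬ v ^ 2 ∣ Nt) (hvp : v ≠ p)
    (hv2' : v ≠ 2) (hv3 : 5 ≤ Nt / v) : ρ.IsUnipotentOnInertiaAt v := by
  classical
  have hp : p.Prime := Fact.out
  haveI : Module.Finite 𝒪 (heckeAlg Y Sbig) := finite_heckeAlg Y Sbig
  haveI : IsNoetherianRing (heckeAlg Y Sbig) := IsNoetherianRing.of_finite 𝒪 _
  intro P hP σ hσ
  refine charpoly_eq_X_sub_one_sq_of_trace_det ρ.finrank_eq _ ?_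
    (det_eq_one_of_mem_inertia ρ hp hv hvp hdet hP hσ)
  apply heckeIncl_injective Y Sbig
  refine eq_of_forall_point Y hp hp𝒪 hlam hd O hSbig fun x => ?_
  have hinjBF : Function.Injective
      (algebraMap x.B (AlgebraicClosure (FractionRing x.B))) := by
    rw [IsScalarTower.algebraMap_eq x.B (FractionRing x.B) (AlgebraicClosure (FractionRing x.B))]
    exact (algebraMap (FractionRing x.B) (AlgebraicClosure (FractionRing x.B))).injective.comp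
      (IsFractionRing.injective x.B (FractionRing x.B))
  apply hinjBF
  obtain ⟨j, hj⟩ := trace_sig_point Y hp2 hp5 hp𝒪 hM5 hTh O hSbigNt ρ hρ hvS hv hvN hv2 hvp hv2'
    hv3 hP hσ x
  have h1 : heckeIncl Y Sbig (LinearMap.trace (heckeAlg Y Sbig) ρ.V (ρ.ρ σ)) =
      heckeIncl Y Sbig (ρ.trace σ) := rfl
  rw [h1, hj, map_one, map_one, one_pow, inv_one, map_ofNat, map_ofNat, map_ofNat]
  norm_num

/-- the field-valued point of `heckeAlg` attached to a point of `alg`. -/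
noncomputable def pointHom (x : DVRPoint 𝒪 Y.alg) (Sbig : Finset ℕ) :
    heckeAlg Y Sbig →+* AlgebraicClosure (FractionRing x.B) :=
  (algebraMap x.B (AlgebraicClosure (FractionRing x.B))).comp
    ((x.ψ : Y.alg →+* x.B).comp (heckeIncl Y Sbig : heckeAlg Y Sbig →+* Y.alg))

theorem pointHom_apply (x : DVRPoint 𝒪 Y.alg) (Sbig : Finset ℕ) (a : heckeAlg Y Sbig) :
    pointHom Y x Sbig a =
      algebraMap x.B (AlgebraicClosure (FractionRing x.B)) (x.ψ (heckeIncl Y Sbig a)) := rfl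

theorem algebraMap_point_injective (x : DVRPoint 𝒪 Y.alg) : Function.Injective
    (algebraMap x.B (AlgebraicClosure (FractionRing x.B))) := by
  rw [IsScalarTower.algebraMap_eq x.B (FractionRing x.B) (AlgebraicClosure (FractionRing x.B))]
  exact (algebraMap (FractionRing x.B) (AlgebraicClosure (FractionRing x.B))).injective.comp
    (IsFractionRing.injective x.B (FractionRing x.B))

theorem pointHom_algebraMap (x : DVRPoint 𝒪 Y.alg) (Sbig : Finset ℕ) (c : 𝒪) :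
    pointHom Y x Sbig (algebraMap 𝒪 (heckeAlg Y Sbig) c) =
      algebraMap x.B (AlgebraicClosure (FractionRing x.B)) (algebraMap 𝒪 x.B c) := by
  rw [pointHom_apply, AlgHom.commutes, AlgHom.commutes]

theorem eq_zero_of_forall_pointHom (hp : p.Prime) (hp𝒪 : (p : 𝒪) ∈ maximalIdeal 𝒪)
    (hlam : Irreducible lam) (hd : 0 < d)
    (O : Y.Occ lam z θ Sig Nt Nbig Sbig uQ uS)
    (hSbig : ∀ ℓ : ℕ, ℓ.Prime → ℓ ∉ Sbig → ¬ ℓ ∣ N ∧ ℓ ∉ (↑S : Set ℕ))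
    (a : heckeAlg Y Sbig) (ha : ∀ x : DVRPoint 𝒪 Y.alg, pointHom Y x Sbig a = 0) : a = 0 := by
  apply heckeIncl_injective Y Sbig
  rw [map_zero]
  refine eq_of_forall_point Y hp hp𝒪 hlam hd O hSbig fun x => ?_
  apply algebraMap_point_injective Y x
  rw [map_zero, map_zero]
  exact ha x

/-- the discriminant of `X² - (ζ + ζ⁻¹) X + 1` does not vanish at the points. -/
theorem disc_zeta_ne_zero (hp : p.Prime) (hp2 : p ≠ 2) {ζ : 𝒪} (hζ : IsPrimitiveRoot ζ p)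
    (x : DVRPoint 𝒪 Y.alg) (Sbig : Finset ℕ) :
    pointHom Y x Sbig (algebraMap 𝒪 (heckeAlg Y Sbig) (ζ + ζ ^ (p - 1))) ^ 2 - 4 * 1 ≠ 0 := by
  rw [pointHom_algebraMap]
  have hinj : Function.Injective
      ((algebraMap x.B (AlgebraicClosure (FractionRing x.B))).comp (algebraMap 𝒪 x.B)) :=
    (algebraMap_point_injective Y x).comp x.injective
  have h1 : algebraMap x.B (AlgebraicClosure (FractionRing x.B))
      (algebraMap 𝒪 x.B (ζ + ζ ^ (p - 1))) ^ 2 - 4 * 1 =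
      ((algebraMap x.B (AlgebraicClosure (FractionRing x.B))).comp (algebraMap 𝒪 x.B))
        ((ζ + ζ ^ (p - 1)) ^ 2 - 4) := by
    rw [RingHom.comp_apply, map_sub, map_sub, map_pow, map_pow, map_ofNat, map_ofNat, mul_one]
  rw [h1]
  intro h0
  have h2 := hinj (h0.trans (map_zero _).symm)
  have hζ1 : ζ * ζ ^ (p - 1) = 1 := by
    rw [← pow_succ', Nat.sub_add_cancel hp.pos, hζ.pow_eq_one]
  have h3 : (ζ - ζ ^ (p - 1)) ^ 2 = 0 := by linear_combination h2 - 4 * hζ1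
  have h4 : ζ = ζ ^ (p - 1) := sub_eq_zero.1 (pow_eq_zero_iff two_ne_zero |>.1 h3)
  have h5 : ζ ^ 2 = 1 := by
    rw [pow_two]
    nth_rewrite 2 [h4]
    exact hζ1
  have h6 := Nat.le_of_dvd (by norm_num) (hζ.dvd_of_pow_eq_one 2 h5)
  have := hp.two_le
  omega

/-- **type (2)**: for `z = ζ` a primitive `p`-th root of unity, inertia at `v ∈ Σ` acts through a
quotient killed by `p`, and some `τ` has characteristic polynomial `X² - (ζ + ζ⁻¹) X + 1`. -/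
theorem type_of_z_eq_zeta [Fact p.Prime] (hp2 : p ≠ 2) (hp5 : 5 ≤ p)
    (hp𝒪 : (p : 𝒪) ∈ maximalIdeal 𝒪) (hlam : Irreducible lam) (hd : 0 < d) (hM5 : 5 ≤ Nt)
    (hTh : ThetaKillsJ1 Nt p) {ζ : 𝒪} (hζ : IsPrimitiveRoot ζ p)
    (O : Y.Occ lam ζ θ Sig Nt Nbig Sbig uQ uS)
    (hSbig : ∀ ℓ : ℕ, ℓ.Prime → ℓ ∉ Sbig → ¬ ℓ ∣ N ∧ ℓ ∉ (↑S : Set ℕ))
    (hSbigNt : ∀ ℓ : ℕ, ℓ.Prime → ℓ ∉ Sbig → ¬ ℓ ∣ Nt ∧ ℓ ≠ p)
    [IsLocalRing (heckeAlg Y Sbig)] [IsLocalHom (algebraMap 𝒪 (heckeAlg Y Sbig))]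
    (ρ : GaloisRepAdic (heckeAlg Y Sbig))
    (hρ : ∀ (ℓ : ℕ) (hℓ : ℓ.Prime) (hℓS : ℓ ∉ Sbig), ∀ P : ValuationSubring Ω,
      P.LiesOverPrime ℓ → ∀ σ : GQ, P.IsFrobeniusAt σ ℓ →
        LinearMap.charpoly (ρ.ρ σ) =
          X ^ 2 - C (TtH Y ⟨ℓ, hℓ⟩ hℓS) * X + C ((ℓ : ℕ) : heckeAlg Y Sbig))
    (hdet : ρ.DetIsCyclotomic p)
    {v : ℕ} (hvS : v ∈ Sig) (hv : v.Prime) (hvN : v ∣ Nt) (hv2 : ¬ v ^ 2 ∣ Nt) (hvp : v ≠ p)
    (hv2' : v ≠ 2) (hv3 : 5 ≤ Nt / v)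
    (huS : (((((uS v : (ZMod Nt)ˣ) : ZMod Nt).val : ℕ)) : ZMod (Nt / v)) = 1)
    {P : ValuationSubring Ω} (hP : P.LiesOverPrime v)
    (hres : ∀ σ ∈ P.inertiaSubgroupIn ℚ, ∀ x : ρ.V,
      ρ.ρ σ x - x ∈ (maximalIdeal (heckeAlg Y Sbig) • ⊤ : Submodule (heckeAlg Y Sbig) ρ.V)) :
    (∀ σ ∈ P.inertiaSubgroupIn ℚ, ρ.ρ σ ^ p = 1) ∧
    ∃ τ ∈ P.inertiaSubgroupIn ℚ, LinearMap.charpoly (ρ.ρ τ) =
      X ^ 2 - C (algebraMap 𝒪 (heckeAlg Y Sbig) (ζ + ζ ^ (p - 1))) * X + 1 := by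
  classical
  have hp : p.Prime := Fact.out
  haveI : Module.Finite 𝒪 (heckeAlg Y Sbig) := finite_heckeAlg Y Sbig
  haveI : IsNoetherianRing (heckeAlg Y Sbig) := IsNoetherianRing.of_finite 𝒪 _
  have hpT : ((p : ℕ) : heckeAlg Y Sbig) ∈ maximalIdeal (heckeAlg Y Sbig) := hdet.1
  obtain ⟨τ, hτ, hcyc⟩ := exists_mem_inertia_cyc_eq hv hvN hv2 hP (uS v) huS
  -- `ζ` at the points
  have hζ1 : ζ * ζ ^ (p - 1) = 1 := by
    rw [← pow_succ', Nat.sub_add_cancel hp.pos, hζ.pow_eq_one]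
  have hζx : ∀ x : DVRPoint 𝒪 Y.alg,
      algebraMap x.B (AlgebraicClosure (FractionRing x.B)) (algebraMap 𝒪 x.B ζ) ^ p = 1 := by
    intro x
    rw [← map_pow, ← map_pow, hζ.pow_eq_one, map_one, map_one]
  have hζinv : ∀ x : DVRPoint 𝒪 Y.alg,
      (algebraMap x.B (AlgebraicClosure (FractionRing x.B)) (algebraMap 𝒪 x.B ζ))⁻¹ =
      algebraMap x.B (AlgebraicClosure (FractionRing x.B)) (algebraMap 𝒪 x.B (ζ ^ (p - 1))) := by
    intro x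
    symm
    apply eq_inv_of_mul_eq_one_right
    rw [← map_mul, ← map_mul, hζ1, map_one, map_one]
  -- the trace of `ρ(τ)`
  have htrτ : ρ.trace τ = algebraMap 𝒪 (heckeAlg Y Sbig) (ζ + ζ ^ (p - 1)) := by
    rw [← sub_eq_zero]
    refine eq_zero_of_forall_pointHom Y hp hp𝒪 hlam hd O hSbig _ fun x => ?_
    rw [map_sub, sub_eq_zero, pointHom_algebraMap, pointHom_apply]
    obtain ⟨ψh, -, -, hSig, htr⟩ := trace_inertia_point Y hp2 hp5 hp𝒪 hM5 hTh O hSbigNt ρ hρ x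
    rw [htr v hv hvN hv2 hvp hv2' hv3 P hP τ hτ, hcyc, Units.val_inv_eq_inv_val, (hSig v hvS).1,
      hζinv x, map_add, map_add]
  have hdetτ : LinearMap.det (ρ.ρ τ) = 1 := det_eq_one_of_mem_inertia ρ hp hv hvp hdet hP hτ
  have htrmat : ∀ σ : GQ, (matHom ρ σ).trace = ρ.trace σ := fun σ =>
    (LinearMap.trace_eq_matrix_trace (heckeAlg Y Sbig) (gBasis ρ) (ρ.ρ σ)).symm
  refine ⟨?_, τ, hτ, ?_⟩
  · -- the order of inertia
    intro σ hσ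
    have hmat : matHom ρ σ ^ p = 1 := by
      refine pow_eq_one_of_points (fun x : DVRPoint 𝒪 Y.alg => pointHom Y x Sbig)
        (eq_zero_of_forall_pointHom Y hp hp𝒪 hlam hd O hSbig)
        (matHom ρ σ) (matHom ρ τ) ?_ ?_ (hp.odd_of_ne_two hp2) ?_ ?_
      · rw [matHom_apply, matHom_apply, ← LinearMap.toMatrix_mul, ← LinearMap.toMatrix_mul,
          commute_of_mem_inertia ρ hp hv hvp hpT hP hres hσ hτ]
      · rw [det_matHom]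
        exact det_eq_one_of_mem_inertia ρ hp hv hvp hdet hP hσ
      · intro x
        rw [htrmat, det_matHom, hdetτ, htrτ, map_one]
        exact disc_zeta_ne_zero Y hp hp2 hζ x Sbig
      · intro x
        obtain ⟨j, hj⟩ := trace_sig_point Y hp2 hp5 hp𝒪 hM5 hTh O hSbigNt ρ hρ hvS hv hvN hv2 hvp
          hv2' hv3 hP hσ x
        refine ⟨algebraMap x.B (AlgebraicClosure (FractionRing x.B)) (algebraMap 𝒪 x.B ζ) ^ j, ?_,
          ?_⟩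
        · rw [← pow_mul, mul_comm, pow_mul, hζx x, one_pow]
        · rw [htrmat]
          exact hj
    have h1 : matHom ρ σ ^ p = matHom ρ (σ ^ p) := (map_pow (matHom ρ) σ p).symm
    rw [h1, matHom_apply] at hmat
    have h2 : LinearMap.toMatrix (gBasis ρ) (gBasis ρ) (ρ.ρ (σ ^ p)) =
        LinearMap.toMatrix (gBasis ρ) (gBasis ρ) (1 : Module.End (heckeAlg Y Sbig) ρ.V) := by
      rw [hmat]
      exact (LinearMap.toMatrix_one (gBasis ρ)).symm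
    have h3 := (LinearMap.toMatrix (gBasis ρ) (gBasis ρ)).injective h2
    rw [← map_pow]
    exact h3
  · have htr' : LinearMap.trace (heckeAlg Y Sbig) ρ.V (ρ.ρ τ) =
        algebraMap 𝒪 (heckeAlg Y Sbig) (ζ + ζ ^ (p - 1)) := htrτ
    rw [charpoly_eq_of_finrank_eq_two ρ.finrank_eq, hdetτ, map_one, htr']

end Side

end Fermat.Agent.RB.REPT
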