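/-
PROJECT RB, block [REP_T] (helper1), part (B9): **assembly of one `TWSide`** from helper2's module
data (`TWModSide`) and the representation over its Hecke algebra.
-/
import Mathlib
import Fermat.Agent.RB.IFACE_helper9_TW
import Fermat.Agent.RB.REPT_helper1_TWInertia
import Fermat.Prelude.Thm_IsLocalRing_isAdicComplete_of_module_finite

set_option autoImplicit false
set_option linter.unusedSectionVars false
set_option linter.unusedVariables false
set_option linter.style.haveILetI false

namespace Fermat.Agent.RB.REPT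

open Polynomial IsLocalRing CuspForm Fermat.Agent.GR Fermat.Agent.W1 Fermat.Agent.TW.Kill

local notation "Ω" => AlgebraicClosure ℚ
local notation "GQ" => (AlgebraicClosure ℚ ≃ₐ[ℚ] AlgebraicClosure ℚ)

section MkSide

variable {𝒪 : Type} [CommRing 𝒪] [IsDomain 𝒪] [IsDiscreteValuationRing 𝒪]
  [IsAdicComplete (maximalIdeal 𝒪) 𝒪]
  {p r d n : ℕ} (Y : TWModSide 𝒪 p r d n)

/-- **the side of the Taylor–Wiles data attached to a side of the module data.** -/
noncomputable def mkSide (S Sig : Finset ℕ) (ρbar : ResidualGaloisRep (ResidueField 𝒪))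
    (Q : Fin r → ℕ) (Sbig : Finset ℕ)
    [hloc : IsLocalRing (heckeAlg Y Sbig)]
    [hlh : IsLocalHom (algebraMap 𝒪 (heckeAlg Y Sbig))]
    (hsurj : Function.Surjective (residue (heckeAlg Y Sbig) ∘ algebraMap 𝒪 (heckeAlg Y Sbig)))
    (ρ : GaloisRepAdic (heckeAlg Y Sbig))
    (hres : ρ.residual.IsEquiv
      (ρbar.baseChangeAlong (ResidueField.map (algebraMap 𝒪 (heckeAlg Y Sbig)))))
    (htype : twCondition 𝒪 p S Sig (Finset.univ.image Q) ρ)
    (hadj : Algebra.adjoin 𝒪 (Set.range ρ.trace) = ⊤)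
    (hkeyH : ∀ q, ∃ (P : ValuationSubring Ω) (_ : P.LiesOverPrime (Q q)) (σ : GQ)
      (_ : σ ∈ P.inertiaSubgroupIn ℚ),
      ((ρ.trace σ : heckeAlg Y Sbig) : Module.End 𝒪 Y.H) = Y.g q + Y.g q ^ (p ^ n - 1)) :
    TWSide (𝒪 := 𝒪) p S Sig ρbar r d n Q :=
  haveI : Module.Finite 𝒪 (heckeAlg Y Sbig) := finite_heckeAlg Y Sbig
  { T := heckeAlg Y Sbig
    instCommRing := heckeAlgCommRing Y Sbig
    instIsLocalRing := hloc
    instIsNoetherianRing := IsNoetherianRing.of_finite 𝒪 _
    instIsAdicComplete := IsLocalRing.isAdicComplete_of_module_finite (𝒪 := 𝒪)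
    instAlgebra := inferInstance
    instIsLocalHom := hlh
    instFinite := finite_heckeAlg Y Sbig
    residue_surjective := hsurj
    ρ := ρ
    residual_isEquiv := hres
    isOfType := htype
    adjoin_trace := hadj
    H := Y.H
    h := (heckeAlg Y Sbig).val
    g := Y.g
    g_pow := Y.g_pow
    g_comm := Y.g_comm
    g_comm_h := fun q t =>
      alg_comm Y _ (Y.g_mem_alg q) _ (heckeAlg_le_alg Y Sbig t.2)
    b := Y.b
    free := Y.free
    keyH := hkeyH }

end MkSide

end Fermat.Agent.RB.REPT
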