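/-
PROJECT RB, block [REP_T] (helper1), part (B8b): **comparison of the traces of two representations
through a common (non-faithful) module.**

`ρ₁` over `T₁`, `ρ₂` over `T₂` (local rings, `T₁` finite over a noetherian ring `𝒪`), acting through
`F_i : T_i → End_𝒪 (Hbar)` with the SAME image.  If the Frobenius characteristic polynomials
`X² - a_i X + ℓ` correspond (`F₁ a₁ = F₂ a₂`) outside a finite set of primes, then
`F₁ (tr ρ₁(σ)) = F₂ (tr ρ₂(σ))` for ALL `σ` (Chebotarev + continuity, `S58.cheb_trace_det_eq`).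
-/
import Mathlib
import Fermat.Agent.S58.CHEB_helper4
import Fermat.Agent.TW.CondBaseChange_helper6
import Fermat.Agent.RB.REPT_helper1_TWAlg

set_option autoImplicit false
set_option linter.unusedSectionVars false
set_option linter.unusedVariables false
set_option linter.style.haveILetI false

namespace Fermat.Agent.RB.REPT

open Polynomial IsLocalRing

local notation "Ω" => AlgebraicClosure ℚ
local notation "GQ" => (AlgebraicClosure ℚ ≃ₐ[ℚ] AlgebraicClosure ℚ)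

section Sep

/-- a noetherian local ring is separated. -/
theorem separated_of_noetherian_local (B : Type*) [CommRing B] [IsLocalRing B]
    [IsNoetherianRing B] : ∀ b : B, (∀ n : ℕ, b ∈ maximalIdeal B ^ n) → b = 0 := by
  intro b hb
  have h1 : (⨅ n : ℕ, maximalIdeal B ^ n) = ⊥ :=
    Ideal.iInf_pow_eq_bot_of_isLocalRing _ (IsLocalRing.maximalIdeal.isMaximal B).ne_top
  have h2 : b ∈ (⨅ n : ℕ, maximalIdeal B ^ n) := by
    rw [Ideal.mem_iInf]
    exact hb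
  rw [h1] at h2
  exact h2

/-- the trace of a base change. -/
theorem trace_baseChangeAlong {A B : Type} [CommRing A] [IsLocalRing A] [CommRing B]
    [IsLocalRing B] (f : A →+* B) (hf : IsLocalHom f) (ρ : GaloisRepAdic A) (σ : GQ) :
    (ρ.baseChangeAlong f hf).trace σ = f (ρ.trace σ) := by
  letI : Algebra A B := f.toAlgebra
  exact LinearMap.trace_baseChange (ρ.ρ σ) B

end Sep

section Compare

variable {𝒪 : Type} [CommRing 𝒪] [IsNoetherianRing 𝒪]
  {T₁ T₂ : Type} [CommRing T₁] [IsLocalRing T₁] [Algebra 𝒪 T₁] [Module.Finite 𝒪 T₁]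
  [CommRing T₂] [IsLocalRing T₂] [Algebra 𝒪 T₂]
  {Hbar : Type} [AddCommGroup Hbar] [Module 𝒪 Hbar] [Nontrivial Hbar]

/-- **comparison of traces through a common module.** -/
theorem trace_compare (F₁ : T₁ →ₐ[𝒪] Module.End 𝒪 Hbar) (F₂ : T₂ →ₐ[𝒪] Module.End 𝒪 Hbar)
    (hrange : F₁.range = F₂.range) (ρ₁ : GaloisRepAdic T₁) (ρ₂ : GaloisRepAdic T₂)
    (Sbig : Finset ℕ)
    (h : ∀ ℓ : ℕ, ℓ.Prime → ℓ ∉ Sbig → ∃ (a₁ : T₁) (a₂ : T₂), F₁ a₁ = F₂ a₂ ∧
      ∀ P : ValuationSubring Ω, P.LiesOverPrime ℓ → ∀ φ : GQ, P.IsFrobeniusAt φ ℓ →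
        LinearMap.charpoly (ρ₁.ρ φ) = X ^ 2 - C a₁ * X + C ((ℓ : ℕ) : T₁) ∧
        LinearMap.charpoly (ρ₂.ρ φ) = X ^ 2 - C a₂ * X + C ((ℓ : ℕ) : T₂))
    (σ : GQ) : F₁ (ρ₁.trace σ) = F₂ (ρ₂.trace σ) := by
  classical
  -- the common image, a commutative local noetherian ring
  have hcomm : ∀ a ∈ F₁.range, ∀ b ∈ F₁.range, a * b = b * a := by
    rintro _ ⟨a, rfl⟩ _ ⟨b, rfl⟩
    rw [← map_mul, ← map_mul, mul_comm]
  letI : CommRing F₁.range := commRingOfComm F₁.range hcomm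
  let f₁ : T₁ →ₐ[𝒪] F₁.range := F₁.rangeRestrict
  have hf₁ : Function.Surjective f₁ := F₁.rangeRestrict_surjective
  let f₂ : T₂ →ₐ[𝒪] F₁.range := F₂.codRestrict F₁.range (fun t => by
    rw [hrange]
    exact ⟨t, rfl⟩)
  have hf₂ : Function.Surjective f₂ := by
    rintro ⟨y, hy⟩
    rw [hrange] at hy
    obtain ⟨t, rfl⟩ := hy
    exact ⟨t, rfl⟩
  haveI : Nontrivial (Module.End 𝒪 Hbar) := inferInstance
  haveI : Nontrivial F₁.range :=
    ⟨⟨0, 1, fun h => zero_ne_one (α := Module.End 𝒪 Hbar) (congrArg Subtype.val h)⟩⟩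
  haveI hlocE : IsLocalRing F₁.range := IsLocalRing.of_surjective' (f₁ : T₁ →+* F₁.range) hf₁
  haveI hl₁ : IsLocalHom (f₁ : T₁ →+* F₁.range) :=
    IsLocalHom.of_surjective (f₁ : T₁ →+* F₁.range) hf₁
  have hl₂ : IsLocalHom (f₂ : T₂ →+* F₁.range) :=
    IsLocalHom.of_surjective (f₂ : T₂ →+* F₁.range) hf₂
  haveI : Module.Finite 𝒪 F₁.range := Module.Finite.of_surjective f₁.toLinearMap hf₁
  haveI : IsNoetherianRing F₁.range := IsNoetherianRing.of_finite 𝒪 _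
  -- Chebotarev
  have hcmp := Fermat.Agent.S58.cheb_trace_det_eq (f₁ : T₁ →+* F₁.range)
    (separated_of_noetherian_local F₁.range) ρ₁
    (ρ₂.baseChangeAlong (f₂ : T₂ →+* F₁.range) hl₂) Sbig ?_ σ
  · have h1 := hcmp.1
    have h2 : LinearMap.trace F₁.range (ρ₂.baseChangeAlong (f₂ : T₂ →+* F₁.range) hl₂).V
        ((ρ₂.baseChangeAlong (f₂ : T₂ →+* F₁.range) hl₂).ρ σ) = f₂ (ρ₂.trace σ) :=
      trace_baseChangeAlong (f₂ : T₂ →+* F₁.range) hl₂ ρ₂ σ
    rw [h2] at h1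
    exact congrArg Subtype.val h1
  · intro ℓ hℓ hℓS P hP φ hφ
    obtain ⟨a₁, a₂, ha, hch⟩ := h ℓ hℓ hℓS
    obtain ⟨hc₁, hc₂⟩ := hch P hP φ hφ
    rw [Fermat.Agent.TW.charpoly_baseChangeAlong, hc₁, hc₂]
    have ha' : f₁ a₁ = f₂ a₂ := Subtype.ext ha
    simp only [Polynomial.map_add, Polynomial.map_sub, Polynomial.map_mul, Polynomial.map_pow,
      Polynomial.map_X, Polynomial.map_C, map_natCast, Polynomial.map_natCast]
    rw [show (f₁ : T₁ →+* F₁.range) a₁ = (f₂ : T₂ →+* F₁.range) a₂ from ha']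

end Compare

end Fermat.Agent.RB.REPT
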