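/-
PROJECT RB, block [REP_T] (helper1), part (B10): **the control map to level zero and the common
reduction of the traces**, for helper2's `TWModLevel`.

* `exists_toT`   : `toT : T₁ → T` with `ctl (t x) = toT t • ctl x`, `toT (Tt ℓ) = datum.π (T_ℓ)`;
* `toT_trace`    : `toT (tr ρ₁(σ)) = tr datum.ρ(σ)`;
* `exists_trbar` : `trbar : G_ℚ → End (Hbar)` with `red_i (tr ρ_i(σ) x) = trbar σ (red_i x)`.
-/
import Mathlib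
import Fermat.Agent.RB.REPT_helper1_TWSideAsm
import Fermat.Agent.RB.REPT_helper1_Intertwine
import Fermat.Agent.RB.REPT_helper1_TraceCompare

set_option autoImplicit false
set_option linter.unusedSectionVars false
set_option linter.unusedVariables false
set_option linter.style.haveILetI false

namespace Fermat.Agent.RB.REPT

open Polynomial IsLocalRing CuspForm Fermat.Agent.GR

local notation "Ω" => AlgebraicClosure ℚ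
local notation "GQ" => (AlgebraicClosure ℚ ≃ₐ[ℚ] AlgebraicClosure ℚ)

attribute [local instance] TWModLevel.instAddCommGroupBar TWModLevel.instModuleBar

section Level

variable {𝒪 : Type} [CommRing 𝒪] [IsDomain 𝒪] [IsDiscreteValuationRing 𝒪]
  [IsAdicComplete (maximalIdeal 𝒪) 𝒪]
  {N : ℕ} [NeZero N] {S : Finset ℕ}
  {θ : heckeAlgebra N 2 (S : Set ℕ) →+* ResidueField 𝒪}
  {T : Type} [CommRing T] [IsLocalRing T] [IsNoetherianRing T]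
  [IsAdicComplete (maximalIdeal T) T] [Algebra 𝒪 T] [IsLocalHom (algebraMap 𝒪 T)]
  [Module.Finite 𝒪 T] [Module.Free 𝒪 T]
  {p : ℕ} {datum : HeckeGaloisRepDatum N (S : Set ℕ) 𝒪 θ T}
  {Sig : Finset ℕ} {ζ lam : 𝒪} {r d : ℕ} {M0 : Type} [AddCommGroup M0] [Module 𝒪 M0]
  [Module T M0] {n : ℕ} {Q : Fin r → ℕ} {Nt Nbig : ℕ} [NeZero Nt] [NeZero Nbig]
  (L : TWModLevel p datum Sig ζ lam r d M0 n Q Nt Nbig)

/-- `Hbar ≠ 0`. -/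
theorem nontrivial_Hbar (hd : 0 < d) (hp : 0 < p) (hlam : Irreducible lam) :
    Nontrivial L.Hbar := by
  classical
  haveI : Nonempty (Fin d) := ⟨⟨0, hd⟩⟩
  haveI : Nonempty (Fin (p ^ n)) := ⟨⟨0, pow_pos hp n⟩⟩
  obtain ⟨i⟩ : Nonempty (Fin d × (Fin r → Fin (p ^ n))) := inferInstance
  refine ⟨⟨L.red₁ (sideEquiv L.side₁ (Finsupp.single i 1)), 0, fun h => ?_⟩⟩
  obtain ⟨y, hy⟩ := (L.ker_red₁ _).1 h
  have h1 := congrArg (fun v => (sideEquiv L.side₁).symm v i) hy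
  simp only [LinearEquiv.symm_apply_apply, Finsupp.single_eq_same, map_smul, Finsupp.smul_apply,
    smul_eq_mul] at h1
  exact hlam.not_isUnit (IsUnit.of_mul_eq_one _ h1.symm)

/-- **the map `T₁ → T` to level zero.** -/
theorem exists_toT [IsScalarTower 𝒪 T M0]
    (hfaith : ∀ t : T, (∀ m : M0, t • m = 0) → t = 0)
    (hSN : ∀ ℓ : ℕ, ℓ.Prime → ℓ ∉ S → ¬ ℓ ∣ N) :
    ∃ toT : heckeAlg L.side₁ (S ∪ Finset.univ.image Q) →ₐ[𝒪] T,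
      (∀ (t : heckeAlg L.side₁ (S ∪ Finset.univ.image Q)) (x : L.side₁.H),
        L.ctl ((t : Module.End 𝒪 L.side₁.H) x) = toT t • L.ctl x) ∧
      ∀ (ℓ : ℕ) (hℓ : ℓ.Prime) (hℓS : ℓ ∉ S ∪ Finset.univ.image Q) (hℓN : ¬ ℓ ∣ N)
        (hℓS' : ℓ ∉ (S : Set ℕ)),
        toT (TtH L.side₁ ⟨ℓ, hℓ⟩ hℓS) = datum.π (heckeAlgebra.T hℓ hℓN hℓS') := by
  classical
  have hj : Function.Injective (Algebra.lsmul 𝒪 𝒪 M0 : T →ₐ[𝒪] Module.End 𝒪 M0) := by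
    intro a b hab
    rw [← sub_eq_zero]
    refine hfaith _ fun m => ?_
    have := congrArg (fun f : Module.End 𝒪 M0 => f m) hab
    simp only [Algebra.lsmul_coe] at this
    rw [sub_smul, this, sub_self]
  obtain ⟨f, hf⟩ := exists_algHom_of_intertwine L.ctl L.ctl_surjective
    (Algebra.lsmul 𝒪 𝒪 M0 : T →ₐ[𝒪] Module.End 𝒪 M0) hj
    (heckeSet L.side₁ (S ∪ Finset.univ.image Q)) (by
      rintro a ⟨ℓ, hℓS, rfl⟩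
      have hℓS1 : (ℓ : ℕ) ∉ S := fun h => hℓS (Finset.mem_union_left _ h)
      have hℓQ : (ℓ : ℕ) ∉ Finset.univ.image Q := fun h => hℓS (Finset.mem_union_right _ h)
      refine ⟨datum.π (heckeAlgebra.T ℓ.2 (hSN ℓ ℓ.2 hℓS1) (fun h => hℓS1 (Finset.mem_coe.1 h))),
        fun x => ?_⟩
      exact L.ctl_Tt ℓ ℓ.2 _ _ hℓQ x)
  refine ⟨f, hf, ?_⟩
  intro ℓ hℓ hℓS hℓN hℓS'
  rw [← sub_eq_zero]
  refine hfaith _ fun m => ?_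
  obtain ⟨x, rfl⟩ := L.ctl_surjective m
  have hℓQ : (ℓ : ℕ) ∉ Finset.univ.image Q := fun h => hℓS (Finset.mem_union_right _ h)
  have h1 := hf (TtH L.side₁ ⟨ℓ, hℓ⟩ hℓS) x
  have h2 := L.ctl_Tt ℓ hℓ hℓN hℓS' hℓQ x
  have h3 : ((TtH L.side₁ ⟨ℓ, hℓ⟩ hℓS : heckeAlg L.side₁ (S ∪ Finset.univ.image Q)) :
      Module.End 𝒪 L.side₁.H) x = L.side₁.Tt ⟨ℓ, hℓ⟩ x := rfl
  rw [h3, h2] at h1
  rw [sub_smul, sub_eq_zero]
  exact h1.symm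

/-- **`toT` is compatible with the traces.** -/
theorem toT_trace (hSN : ∀ ℓ : ℕ, ℓ.Prime → ℓ ∉ S → ¬ ℓ ∣ N)
    [IsLocalRing (heckeAlg L.side₁ (S ∪ Finset.univ.image Q))]
    [IsLocalHom (algebraMap 𝒪 (heckeAlg L.side₁ (S ∪ Finset.univ.image Q)))]
    (toT : heckeAlg L.side₁ (S ∪ Finset.univ.image Q) →ₐ[𝒪] T)
    (hT : ∀ (ℓ : ℕ) (hℓ : ℓ.Prime) (hℓS : ℓ ∉ S ∪ Finset.univ.image Q) (hℓN : ¬ ℓ ∣ N)
        (hℓS' : ℓ ∉ (S : Set ℕ)),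
        toT (TtH L.side₁ ⟨ℓ, hℓ⟩ hℓS) = datum.π (heckeAlgebra.T hℓ hℓN hℓS'))
    (ρ₁ : GaloisRepAdic (heckeAlg L.side₁ (S ∪ Finset.univ.image Q)))
    (hρ₁ : ∀ (ℓ : ℕ) (hℓ : ℓ.Prime) (hℓS : ℓ ∉ S ∪ Finset.univ.image Q),
      ∀ P : ValuationSubring Ω, P.LiesOverPrime ℓ → ∀ σ : GQ, P.IsFrobeniusAt σ ℓ →
        LinearMap.charpoly (ρ₁.ρ σ) = X ^ 2 - C (TtH L.side₁ ⟨ℓ, hℓ⟩ hℓS) * X +
          C ((ℓ : ℕ) : heckeAlg L.side₁ (S ∪ Finset.univ.image Q)))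
    (σ : GQ) : toT (ρ₁.trace σ) = datum.ρ.trace σ := by
  classical
  haveI : Module.Finite 𝒪 (heckeAlg L.side₁ (S ∪ Finset.univ.image Q)) := finite_heckeAlg _ _
  haveI : IsLocalHom (toT : heckeAlg L.side₁ (S ∪ Finset.univ.image Q) →+* T) :=
    isLocalHom_of_finite toT
  refine (Fermat.Agent.S58.cheb_trace_det_eq
    (toT : heckeAlg L.side₁ (S ∪ Finset.univ.image Q) →+* T)
    (separated_of_noetherian_local T) ρ₁ datum.ρ (S ∪ Finset.univ.image Q) ?_ σ).1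
  intro ℓ hℓ hℓS P hP φ hφ
  have hℓS1 : (ℓ : ℕ) ∉ S := fun h => hℓS (Finset.mem_union_left _ h)
  have hℓS' : ℓ ∉ (S : Set ℕ) := fun h => hℓS1 (Finset.mem_coe.1 h)
  rw [hρ₁ ℓ hℓ hℓS P hP φ hφ, datum.charpoly_frob ℓ hℓ (hSN ℓ hℓ hℓS1) hℓS' P hP φ hφ]
  simp only [Polynomial.map_add, Polynomial.map_sub, Polynomial.map_mul, Polynomial.map_pow,
    Polynomial.map_X, Polynomial.map_C, map_natCast, Polynomial.map_natCast]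
  rw [show (toT : heckeAlg L.side₁ (S ∪ Finset.univ.image Q) →+* T) (TtH L.side₁ ⟨ℓ, hℓ⟩ hℓS) =
    datum.π (heckeAlgebra.T hℓ (hSN ℓ hℓ hℓS1) hℓS') from hT ℓ hℓ hℓS _ _]

/-- the action of the Hecke algebra of side `1` on the common reduction. -/
theorem exists_redHom₁ (Sbig : Finset ℕ) :
    ∃ F : heckeAlg L.side₁ Sbig →ₐ[𝒪] Module.End 𝒪 L.Hbar,
      (∀ (t : heckeAlg L.side₁ Sbig) (x : L.side₁.H),
        L.red₁ ((t : Module.End 𝒪 L.side₁.H) x) = F t (L.red₁ x)) ∧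
      ∀ (ℓ : Nat.Primes) (hℓS : (ℓ : ℕ) ∉ Sbig), F (TtH L.side₁ ℓ hℓS) = L.Ttbar ℓ := by
  obtain ⟨F, hF⟩ := exists_algHom_of_intertwine L.red₁ L.red₁_surjective
    (AlgHom.id 𝒪 (Module.End 𝒪 L.Hbar)) Function.injective_id (heckeSet L.side₁ Sbig) (by
      rintro a ⟨ℓ, hℓS, rfl⟩
      exact ⟨L.Ttbar ℓ, fun x => L.red₁_Tt ℓ x⟩)
  refine ⟨F, hF, fun ℓ hℓS => ?_⟩
  refine LinearMap.ext fun y => ?_
  obtain ⟨x, rfl⟩ := L.red₁_surjective y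
  have h1 := hF (TtH L.side₁ ℓ hℓS) x
  rw [← L.red₁_Tt ℓ x]
  exact h1.symm

/-- the action of the Hecke algebra of side `2` on the common reduction. -/
theorem exists_redHom₂ (Sbig : Finset ℕ) :
    ∃ F : heckeAlg L.side₂ Sbig →ₐ[𝒪] Module.End 𝒪 L.Hbar,
      (∀ (t : heckeAlg L.side₂ Sbig) (x : L.side₂.H),
        L.red₂ ((t : Module.End 𝒪 L.side₂.H) x) = F t (L.red₂ x)) ∧
      ∀ (ℓ : Nat.Primes) (hℓS : (ℓ : ℕ) ∉ Sbig), F (TtH L.side₂ ℓ hℓS) = L.Ttbar ℓ := by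
  obtain ⟨F, hF⟩ := exists_algHom_of_intertwine L.red₂ L.red₂_surjective
    (AlgHom.id 𝒪 (Module.End 𝒪 L.Hbar)) Function.injective_id (heckeSet L.side₂ Sbig) (by
      rintro a ⟨ℓ, hℓS, rfl⟩
      exact ⟨L.Ttbar ℓ, fun x => L.red₂_Tt ℓ x⟩)
  refine ⟨F, hF, fun ℓ hℓS => ?_⟩
  refine LinearMap.ext fun y => ?_
  obtain ⟨x, rfl⟩ := L.red₂_surjective y
  have h1 := hF (TtH L.side₂ ℓ hℓS) x
  rw [← L.red₂_Tt ℓ x]
  exact h1.symm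

/-- the range of an algebra homomorphism out of `heckeAlg` is generated by the images of the
`Tt ℓ`. -/
theorem range_le_of_TtH {p' r' d' n' : ℕ} (Y : TWModSide 𝒪 p' r' d' n') (Sbig : Finset ℕ)
    {E : Type*} [Ring E] [Algebra 𝒪 E] (F : heckeAlg Y Sbig →ₐ[𝒪] E) (A : Subalgebra 𝒪 E)
    (h : ∀ (ℓ : Nat.Primes) (hℓS : (ℓ : ℕ) ∉ Sbig), F (TtH Y ℓ hℓS) ∈ A) : F.range ≤ A := by
  rw [← Algebra.map_top, ← adjoin_heckeGen Y Sbig, AlgHom.map_adjoin, Algebra.adjoin_le_iff]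
  rintro _ ⟨x, hx, rfl⟩
  obtain ⟨ℓ, hℓS, hxℓ⟩ := hx
  have : x = TtH Y ℓ hℓS := Subtype.ext hxℓ
  rw [this]
  exact h ℓ hℓS

/-- **the common reduction of the traces.** -/
theorem exists_trbar (hd : 0 < d) (hp : 0 < p) (hlam : Irreducible lam) (Sbig : Finset ℕ)
    [IsLocalRing (heckeAlg L.side₁ Sbig)] [IsLocalRing (heckeAlg L.side₂ Sbig)]
    (ρ₁ : GaloisRepAdic (heckeAlg L.side₁ Sbig)) (ρ₂ : GaloisRepAdic (heckeAlg L.side₂ Sbig))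
    (hρ₁ : ∀ (ℓ : ℕ) (hℓ : ℓ.Prime) (hℓS : ℓ ∉ Sbig),
      ∀ P : ValuationSubring Ω, P.LiesOverPrime ℓ → ∀ σ : GQ, P.IsFrobeniusAt σ ℓ →
        LinearMap.charpoly (ρ₁.ρ σ) = X ^ 2 - C (TtH L.side₁ ⟨ℓ, hℓ⟩ hℓS) * X +
          C ((ℓ : ℕ) : heckeAlg L.side₁ Sbig))
    (hρ₂ : ∀ (ℓ : ℕ) (hℓ : ℓ.Prime) (hℓS : ℓ ∉ Sbig),
      ∀ P : ValuationSubring Ω, P.LiesOverPrime ℓ → ∀ σ : GQ, P.IsFrobeniusAt σ ℓ →
        LinearMap.charpoly (ρ₂.ρ σ) = X ^ 2 - C (TtH L.side₂ ⟨ℓ, hℓ⟩ hℓS) * X +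
          C ((ℓ : ℕ) : heckeAlg L.side₂ Sbig)) :
    ∃ trbar : GQ → Module.End 𝒪 L.Hbar,
      (∀ (σ : GQ) (x : L.side₁.H),
        L.red₁ (((ρ₁.trace σ : heckeAlg L.side₁ Sbig) : Module.End 𝒪 L.side₁.H) x) =
          trbar σ (L.red₁ x)) ∧
      (∀ (σ : GQ) (x : L.side₂.H),
        L.red₂ (((ρ₂.trace σ : heckeAlg L.side₂ Sbig) : Module.End 𝒪 L.side₂.H) x) =
          trbar σ (L.red₂ x)) := by
  classical
  haveI : Nontrivial L.Hbar := nontrivial_Hbar L hd hp hlam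
  haveI : Module.Finite 𝒪 (heckeAlg L.side₁ Sbig) := finite_heckeAlg _ _
  obtain ⟨F₁, hF₁, hF₁T⟩ := exists_redHom₁ L Sbig
  obtain ⟨F₂, hF₂, hF₂T⟩ := exists_redHom₂ L Sbig
  have hrange : F₁.range = F₂.range := by
    apply le_antisymm
    · exact range_le_of_TtH L.side₁ Sbig F₁ F₂.range fun ℓ hℓS =>
        ⟨TtH L.side₂ ℓ hℓS, by rw [hF₁T ℓ hℓS]; exact hF₂T ℓ hℓS⟩
    · exact range_le_of_TtH L.side₂ Sbig F₂ F₁.range fun ℓ hℓS =>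
        ⟨TtH L.side₁ ℓ hℓS, by rw [hF₂T ℓ hℓS]; exact hF₁T ℓ hℓS⟩
  have hcmp : ∀ σ : GQ, F₁ (ρ₁.trace σ) = F₂ (ρ₂.trace σ) := by
    intro σ
    refine trace_compare F₁ F₂ hrange ρ₁ ρ₂ Sbig ?_ σ
    intro ℓ hℓ hℓS
    refine ⟨TtH L.side₁ ⟨ℓ, hℓ⟩ hℓS, TtH L.side₂ ⟨ℓ, hℓ⟩ hℓS, ?_, fun P hP φ hφ =>
      ⟨hρ₁ ℓ hℓ hℓS P hP φ hφ, hρ₂ ℓ hℓ hℓS P hP φ hφ⟩⟩
    rw [hF₁T ⟨ℓ, hℓ⟩ hℓS, hF₂T ⟨ℓ, hℓ⟩ hℓS]
  refine ⟨fun σ => F₁ (ρ₁.trace σ), fun σ x => hF₁ _ x, fun σ x => ?_⟩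
  show _ = F₁ (ρ₁.trace σ) (L.red₂ x)
  rw [hcmp σ]
  exact hF₂ _ x

end Level

end Fermat.Agent.RB.REPT
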