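/-
PROJECT RB, block [REP_T](B) (helper1): **elementary number theory of the Taylor–Wiles levels**
`Nt = N * ∏ Q`, `Nbig = N / ∏ Σ * (∏ Σ * ∏ Q) ^ 2`, `Sbig = S ∪ Q`.
-/
import Mathlib

set_option autoImplicit false
set_option linter.unusedSectionVars false
set_option linter.unusedVariables false

namespace Fermat.Agent.RB.REPT

/-- the standing hypotheses on `(N, p, S, Σ, Q)`. -/
structure TWNumSetup (N p : ℕ) (S Sig : Finset ℕ) {r : ℕ} (Q : Fin r → ℕ) : Prop where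
  sqN : Squarefree N
  pprime : p.Prime
  pN : ¬ p ∣ N
  twoN : 2 ∣ N
  hS : ∀ ℓ : ℕ, ℓ ∈ S ↔ ℓ.Prime ∧ (ℓ = p ∨ ℓ ∣ N)
  hSig : ∀ v ∈ Sig, v.Prime ∧ v ∣ N ∧ v ≠ 2
  Qinj : Function.Injective Q
  Qprime : ∀ j, (Q j).Prime
  QS : ∀ j, Q j ∉ S

namespace TWNumSetup

variable {N p : ℕ} {S Sig : Finset ℕ} {r : ℕ} {Q : Fin r → ℕ} (h : TWNumSetup N p S Sig Q)

include h

theorem N_ne_zero : N ≠ 0 := fun h0 => by
  have := h.sqN; rw [h0] at this; exact not_squarefree_zero this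

theorem N_pos : 0 < N := Nat.pos_of_ne_zero h.N_ne_zero

theorem p_mem : p ∈ S := (h.hS p).2 ⟨h.pprime, Or.inl rfl⟩

theorem two_mem : 2 ∈ S := (h.hS 2).2 ⟨Nat.prime_two, Or.inr h.twoN⟩

theorem not_dvd_of_notMem {ℓ : ℕ} (hℓ : ℓ.Prime) (hℓS : ℓ ∉ S) : ¬ ℓ ∣ N :=
  fun hd => hℓS ((h.hS ℓ).2 ⟨hℓ, Or.inr hd⟩)

theorem Q_not_dvd (j : Fin r) : ¬ Q j ∣ N := h.not_dvd_of_notMem (h.Qprime j) (h.QS j)

theorem Q_ne_p (j : Fin r) : Q j ≠ p := fun e => h.QS j (e ▸ h.p_mem)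

theorem Q_ne_two (j : Fin r) : Q j ≠ 2 := fun e => h.QS j (e ▸ h.two_mem)

theorem three_le_Q (j : Fin r) : 3 ≤ Q j := by
  have h2 := (h.Qprime j).two_le
  have := h.Q_ne_two j
  omega

theorem prodQ_pos : 0 < ∏ j, Q j := Finset.prod_pos fun j _ => (h.Qprime j).pos

theorem prodSig_pos : 0 < ∏ v ∈ Sig, v := Finset.prod_pos fun v hv => (h.hSig v hv).1.pos

theorem prodSig_dvd : ∏ v ∈ Sig, v ∣ N :=
  Finset.prod_primes_dvd N (fun v hv => (h.hSig v hv).1.prime) fun v hv => (h.hSig v hv).2.1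

theorem mem_Sig_of_dvd_prodSig {ℓ : ℕ} (hℓ : ℓ.Prime) (hd : ℓ ∣ ∏ v ∈ Sig, v) : ℓ ∈ Sig := by
  obtain ⟨v, hv, hdv⟩ := (Prime.dvd_finsetProd_iff hℓ.prime _).1 hd
  rwa [(Nat.prime_dvd_prime_iff_eq hℓ (h.hSig v hv).1).1 hdv]

theorem exists_eq_Q_of_dvd_prodQ {ℓ : ℕ} (hℓ : ℓ.Prime) (hd : ℓ ∣ ∏ j, Q j) : ∃ j, ℓ = Q j := by
  obtain ⟨j, -, hdv⟩ := (Prime.dvd_finsetProd_iff hℓ.prime _).1 hd
  exact ⟨j, (Nat.prime_dvd_prime_iff_eq hℓ (h.Qprime j)).1 hdv⟩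

theorem six_le_N (hN2 : N ≠ 2) : 6 ≤ N := by
  obtain ⟨m, hm⟩ := h.twoN
  have hm0 : m ≠ 0 := fun e => h.N_ne_zero (by rw [hm, e])
  have hm1 : m ≠ 1 := fun e => hN2 (by rw [hm, e])
  have hm2 : m ≠ 2 := fun e => by
    have := h.sqN
    rw [hm, e] at this
    exact absurd (this 2 ⟨1, rfl⟩) (by decide)
  omega

theorem coprime_N_prodQ : Nat.Coprime N (∏ j, Q j) :=
  Nat.Coprime.prod_right fun j _ =>
    (Nat.Coprime.symm ((Nat.Prime.coprime_iff_not_dvd (h.Qprime j)).2 (h.Q_not_dvd j)))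

theorem squarefree_prodQ : Squarefree (∏ j, Q j) := by
  refine Finset.squarefree_prod_of_pairwise_isCoprime (fun i _ j _ hij => ?_)
    fun j _ => (h.Qprime j).prime.squarefree
  show IsRelPrime (Q i) (Q j)
  rw [← Nat.coprime_iff_isRelPrime]
  exact (Nat.coprime_primes (h.Qprime i) (h.Qprime j)).2 fun e => hij (h.Qinj e)

theorem squarefree_Nt : Squarefree (N * ∏ j, Q j) :=
  Nat.squarefree_mul_iff.2 ⟨h.coprime_N_prodQ, h.sqN, h.squarefree_prodQ⟩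

theorem not_sq_dvd_Nt {ℓ : ℕ} (hℓ : ℓ.Prime) : ¬ ℓ ^ 2 ∣ N * ∏ j, Q j := fun hd => by
  have := h.squarefree_Nt ℓ (by rwa [← sq])
  exact hℓ.one_lt.ne' (Nat.isUnit_iff.1 this)

theorem Nt_pos : 0 < N * ∏ j, Q j := Nat.mul_pos h.N_pos h.prodQ_pos

theorem N_le_Nt : N ≤ N * ∏ j, Q j := Nat.le_mul_of_pos_right _ h.prodQ_pos

theorem Q_dvd_Nt (j : Fin r) : Q j ∣ N * ∏ j, Q j :=
  Dvd.dvd.mul_left (Finset.dvd_prod_of_mem Q (Finset.mem_univ j)) _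

theorem five_le_Nt (hN2 : N ≠ 2) : 5 ≤ N * ∏ j, Q j :=
  le_trans (by have := h.six_le_N hN2; omega) h.N_le_Nt

theorem five_le_Nt_div_Q (hN2 : N ≠ 2) (j : Fin r) : 5 ≤ N * (∏ j, Q j) / Q j := by
  obtain ⟨c, hc⟩ := Finset.dvd_prod_of_mem Q (Finset.mem_univ j)
  have hQpos := (h.Qprime j).pos
  have hcpos : 0 < c := by
    rcases Nat.eq_zero_or_pos c with e | e
    · have := h.prodQ_pos; rw [hc, e, mul_zero] at this; exact absurd this (lt_irrefl _)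
    · exact e
  have e : N * (∏ j, Q j) / Q j = N * c := by
    rw [hc, mul_comm (Q j) c, ← mul_assoc, Nat.mul_div_cancel _ hQpos]
  rw [e]
  have := h.six_le_N hN2
  nlinarith

theorem v_dvd_Nt {v : ℕ} (hv : v ∈ Sig) : v ∣ N * ∏ j, Q j :=
  Dvd.dvd.mul_right (h.hSig v hv).2.1 _

theorem v_ne_p {v : ℕ} (hv : v ∈ Sig) : v ≠ p := fun e => h.pN (e ▸ (h.hSig v hv).2.1)

theorem five_le_Nt_div_v {v : ℕ} (hv : v ∈ Sig) (hr : 0 < r) : 5 ≤ N * (∏ j, Q j) / v := by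
  obtain ⟨hvp, ⟨c, hc⟩, hv2⟩ := h.hSig v hv
  have hvpos := hvp.pos
  have e : N * (∏ j, Q j) / v = c * ∏ j, Q j := by
    rw [hc, mul_assoc, Nat.mul_div_cancel_left _ hvpos]
  rw [e]
  -- `c` is even and positive
  have hc2 : 2 ∣ c := by
    have h2 : 2 ∣ v * c := hc ▸ h.twoN
    rcases (Nat.Prime.dvd_mul Nat.prime_two).1 h2 with h3 | h3
    · exact absurd ((Nat.prime_dvd_prime_iff_eq Nat.prime_two hvp).1 h3).symm hv2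
    · exact h3
  have hcpos : 0 < c := by
    rcases Nat.eq_zero_or_pos c with e0 | e0
    · exact absurd (by rw [hc, e0, mul_zero]) h.N_ne_zero
    · exact e0
  have hc2' : 2 ≤ c := Nat.le_of_dvd hcpos hc2
  have hQ3 : 3 ≤ ∏ j, Q j := by
    have h1 : Q ⟨0, hr⟩ ∣ ∏ j, Q j := Finset.dvd_prod_of_mem Q (Finset.mem_univ _)
    exact le_trans (h.three_le_Q _) (Nat.le_of_dvd h.prodQ_pos h1)
  nlinarith

/-! ### the big level -/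

theorem Nbig_pos :
    0 < N / (∏ v ∈ Sig, v) * ((∏ v ∈ Sig, v) * ∏ j, Q j) ^ 2 := by
  refine Nat.mul_pos (Nat.div_pos (Nat.le_of_dvd h.N_pos h.prodSig_dvd) h.prodSig_pos) ?_
  exact pow_pos (Nat.mul_pos h.prodSig_pos h.prodQ_pos) 2

theorem not_sbig_iff {ℓ : ℕ} : ℓ ∉ S ∪ Finset.univ.image Q ↔ ℓ ∉ S ∧ ∀ j, ℓ ≠ Q j := by
  rw [Finset.mem_union, not_or]
  refine and_congr Iff.rfl ?_
  rw [Finset.mem_image]
  constructor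
  · intro h1 j e; exact h1 ⟨j, Finset.mem_univ j, e.symm⟩
  · rintro h1 ⟨j, -, e⟩; exact h1 j e.symm

theorem sbig_N {ℓ : ℕ} (hℓ : ℓ.Prime) (hℓS : ℓ ∉ S ∪ Finset.univ.image Q) :
    ¬ ℓ ∣ N ∧ ℓ ∉ (S : Set ℕ) := by
  have h1 := (h.not_sbig_iff.1 hℓS).1
  exact ⟨h.not_dvd_of_notMem hℓ h1, fun h2 => h1 (Finset.mem_coe.1 h2)⟩

theorem sbig_Nt {ℓ : ℕ} (hℓ : ℓ.Prime) (hℓS : ℓ ∉ S ∪ Finset.univ.image Q) :
    ¬ ℓ ∣ N * ∏ j, Q j ∧ ℓ ≠ p := by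
  obtain ⟨h1, h2⟩ := h.not_sbig_iff.1 hℓS
  refine ⟨fun hd => ?_, fun e => h1 (e ▸ h.p_mem)⟩
  rcases (Nat.Prime.dvd_mul hℓ).1 hd with h3 | h3
  · exact h.not_dvd_of_notMem hℓ h1 h3
  · obtain ⟨j, hj⟩ := h.exists_eq_Q_of_dvd_prodQ hℓ h3
    exact h2 j hj

theorem p_mem_sbig : p ∈ S ∪ Finset.univ.image Q := Finset.mem_union_left _ h.p_mem

theorem dvd_Nbig_cases {ℓ : ℕ} (hℓ : ℓ.Prime)
    (hd : ℓ ∣ N / (∏ v ∈ Sig, v) * ((∏ v ∈ Sig, v) * ∏ j, Q j) ^ 2) :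
    ℓ ∣ N ∨ ∃ j, ℓ = Q j := by
  rcases (Nat.Prime.dvd_mul hℓ).1 hd with h1 | h1
  · exact Or.inl (h1.trans (Nat.div_dvd_of_dvd h.prodSig_dvd))
  · have h2 := hℓ.dvd_of_dvd_pow h1
    rcases (Nat.Prime.dvd_mul hℓ).1 h2 with h3 | h3
    · exact Or.inl (h3.trans h.prodSig_dvd)
    · exact Or.inr (h.exists_eq_Q_of_dvd_prodQ hℓ h3)

theorem p_not_dvd_Nbig :
    ¬ p ∣ N / (∏ v ∈ Sig, v) * ((∏ v ∈ Sig, v) * ∏ j, Q j) ^ 2 := fun hd => by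
  rcases h.dvd_Nbig_cases h.pprime hd with h1 | ⟨j, hj⟩
  · exact h.pN h1
  · exact h.Q_ne_p j hj.symm

theorem mem_sbig_of_dvd_Nbig {ℓ : ℕ} (hℓ : ℓ.Prime)
    (hd : ℓ ∣ N / (∏ v ∈ Sig, v) * ((∏ v ∈ Sig, v) * ∏ j, Q j) ^ 2) :
    ℓ ∈ S ∪ Finset.univ.image Q := by
  rcases h.dvd_Nbig_cases hℓ hd with h1 | ⟨j, hj⟩
  · exact Finset.mem_union_left _ ((h.hS ℓ).2 ⟨hℓ, Or.inr h1⟩)
  · exact Finset.mem_union_right _ (Finset.mem_image.2 ⟨j, Finset.mem_univ j, hj.symm⟩)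

/-- a prime of `S` other than `p`, not in `Σ`, divides `Nbig` exactly once. -/
theorem exactly_dvd_Nbig {ℓ : ℕ} (hℓS : ℓ ∈ S) (hℓp : ℓ ≠ p) (hℓSig : ℓ ∉ Sig) :
    ℓ ∣ N / (∏ v ∈ Sig, v) * ((∏ v ∈ Sig, v) * ∏ j, Q j) ^ 2 ∧
    ¬ ℓ ^ 2 ∣ N / (∏ v ∈ Sig, v) * ((∏ v ∈ Sig, v) * ∏ j, Q j) ^ 2 := by
  obtain ⟨hℓ, h1⟩ := (h.hS ℓ).1 hℓS
  have hℓN : ℓ ∣ N := h1.resolve_left hℓp
  obtain ⟨c, hc⟩ := h.prodSig_dvd
  have hdiv : N / (∏ v ∈ Sig, v) = c := by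
    rw [hc, Nat.mul_div_cancel_left _ h.prodSig_pos]
  have hnS : ¬ ℓ ∣ ∏ v ∈ Sig, v := fun hd => hℓSig (h.mem_Sig_of_dvd_prodSig hℓ hd)
  have hnQ : ¬ ℓ ∣ ∏ j, Q j := fun hd => by
    obtain ⟨j, hj⟩ := h.exists_eq_Q_of_dvd_prodQ hℓ hd
    exact h.QS j (hj ▸ hℓS)
  have hℓc : ℓ ∣ c := by
    rw [hc] at hℓN
    exact ((Nat.Prime.dvd_mul hℓ).1 hℓN).resolve_left hnS
  rw [hdiv]
  refine ⟨Dvd.dvd.mul_right hℓc _, fun hd => ?_⟩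
  have hcop : Nat.Coprime (ℓ ^ 2) (((∏ v ∈ Sig, v) * ∏ j, Q j) ^ 2) := by
    refine Nat.Coprime.pow _ _ ?_
    rw [Nat.Prime.coprime_iff_not_dvd hℓ]
    intro hd'
    rcases (Nat.Prime.dvd_mul hℓ).1 hd' with h3 | h3
    · exact hnS h3
    · exact hnQ h3
  have h4 : ℓ ^ 2 ∣ c := hcop.dvd_of_dvd_mul_right hd
  have h5 : ℓ ^ 2 ∣ N := h4.trans ⟨∏ v ∈ Sig, v, by rw [hc, mul_comm]⟩
  have := h.sqN ℓ (by rwa [← sq])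
  exact hℓ.one_lt.ne' (Nat.isUnit_iff.1 this)

end TWNumSetup

end Fermat.Agent.RB.REPT
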