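/-
PROJECT RB, block [REP_T](B) (helper1), FINAL ASSEMBLY:
**`TWModStatement` + (KEY-H) in the geometric form `ThetaKillsJ1` ⇒ `TWProducerStatement`.**
-/
import Mathlib
import Fermat.Agent.RB.REPT_helper1_TWLevelAsm
import Fermat.Agent.RB.REPT_helper1_TWHyps
import Fermat.Agent.RB.REPT_helper1_TWNum

set_option autoImplicit false
set_option linter.unusedSectionVars false
set_option linter.unusedVariables false
set_option linter.style.haveILetI false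

namespace Fermat.Agent.RB.REPT

open Polynomial IsLocalRing CuspForm Fermat.Agent.GR

local notation "Ω" => AlgebraicClosure ℚ
local notation "GQ" => (AlgebraicClosure ℚ ≃ₐ[ℚ] AlgebraicClosure ℚ)

attribute [local instance] TWModLevel.instAddCommGroupBar TWModLevel.instModuleBar

section Level

variable {𝒪 : Type} [CommRing 𝒪] [IsDomain 𝒪] [IsDiscreteValuationRing 𝒪]
  [IsAdicComplete (maximalIdeal 𝒪) 𝒪] [Finite (ResidueField 𝒪)] [CharZero 𝒪]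
  {N : ℕ} [NeZero N] {S : Finset ℕ}
  {θ : heckeAlgebra N 2 (S : Set ℕ) →+* ResidueField 𝒪}
  {T : Type} [CommRing T] [IsLocalRing T] [IsNoetherianRing T]
  [IsAdicComplete (maximalIdeal T) T] [Algebra 𝒪 T] [IsLocalHom (algebraMap 𝒪 T)]
  [Module.Finite 𝒪 T] [Module.Free 𝒪 T]
  {p : ℕ} [Fact p.Prime] {datum : HeckeGaloisRepDatum N (S : Set ℕ) 𝒪 θ T}
  {Sig : Finset ℕ} {ζ lam : 𝒪} {r d : ℕ} {M0 : Type} [AddCommGroup M0] [Module 𝒪 M0]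
  [Module T M0] [IsScalarTower 𝒪 T M0] {n : ℕ} {Q : Fin r → ℕ}

/-- **the Taylor–Wiles data at `(n, Q)` from the module data.** -/
theorem nonempty_twGaloisLevel (hp5 : 5 ≤ p) (hp𝒪 : (p : 𝒪) ∈ maximalIdeal 𝒪)
    (hζ : IsPrimitiveRoot ζ p) (hlam : Irreducible lam)
    (hnum : TWNumSetup N p S Sig Q) (hN2 : N ≠ 2) (hd : 0 < d)
    (hfaith : ∀ t : T, (∀ m : M0, t • m = 0) → t = 0)
    (ρbar : ResidualGaloisRep (ResidueField 𝒪))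
    (habs : ρbar.IsAbsolutelyIrreducible)
    (hbarchar : ∀ (ℓ : ℕ) (hℓ : ℓ.Prime) (hℓN : ¬ ℓ ∣ N) (hℓS : ℓ ∉ (S : Set ℕ))
      (A' : ValuationSubring Ω), A'.LiesOverPrime ℓ → ∀ σ : GQ, A'.IsFrobeniusAt σ ℓ →
      LinearMap.charpoly (ρbar.ρ σ) =
        X ^ 2 - C (θ (heckeAlgebra.T hℓ hℓN hℓS)) * X + C (ℓ : ResidueField 𝒪))
    (hbardet : LinearMap.det (ρbar.ρ complexConjugation) = -1)
    (hSigunr : ∀ v ∈ Sig, ρbar.IsUnramifiedAt v)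
    (hr : Sig.Nonempty → 0 < r)
    [NeZero (N * ∏ j, Q j)]
    [NeZero (N / (∏ v ∈ Sig, v) * ((∏ v ∈ Sig, v) * ∏ j, Q j) ^ 2)]
    (hTh : ThetaKillsJ1 (N * ∏ j, Q j) p)
    (L : TWModLevel p datum Sig ζ lam r d M0 n Q (N * ∏ j, Q j)
      (N / (∏ v ∈ Sig, v) * ((∏ v ∈ Sig, v) * ∏ j, Q j) ^ 2)) :
    Nonempty (TWGaloisLevel p datum Sig ζ lam ρbar r d M0 n Q) := by
  classical
  have hp : p.Prime := Fact.out
  have hp2 : p ≠ 2 := by omega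
  set Sbig : Finset ℕ := S ∪ Finset.univ.image Q with hSbigdef
  have hSbig : ∀ ℓ : ℕ, ℓ.Prime → ℓ ∉ Sbig → ¬ ℓ ∣ N ∧ ℓ ∉ (↑S : Set ℕ) :=
    fun ℓ hℓ hℓS => hnum.sbig_N hℓ hℓS
  have hSbigNt : ∀ ℓ : ℕ, ℓ.Prime → ℓ ∉ Sbig → ¬ ℓ ∣ N * ∏ j, Q j ∧ ℓ ≠ p :=
    fun ℓ hℓ hℓS => hnum.sbig_Nt hℓ hℓS
  have hSN : ∀ ℓ : ℕ, ℓ.Prime → ℓ ∉ S → ¬ ℓ ∣ N := fun ℓ hℓ hℓS => hnum.not_dvd_of_notMem hℓ hℓS
  have hNt5 : 5 ≤ N * ∏ j, Q j := hnum.five_le_Nt hN2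
  -- the two representations
  obtain ⟨loc₁, lh₁, ρ₁, hsurj₁, hres₁, hdet₁, hflat₁, hunr₁, hunip₁, hfrob₁, hadj₁⟩ :=
    exists_twRep L.side₁ hp hp2 hp𝒪 hlam hd L.occ₁ L.occ₁.junk hSbig hnum.p_mem_sbig
      hnum.p_not_dvd_Nbig (fun q hq hqd => hnum.mem_sbig_of_dvd_Nbig hq hqd) ρbar habs hbarchar
      hbardet
  obtain ⟨loc₂, lh₂, ρ₂, hsurj₂, hres₂, hdet₂, hflat₂, hunr₂, hunip₂, hfrob₂, hadj₂⟩ :=
    exists_twRep L.side₂ hp hp2 hp𝒪 hlam hd L.occ₂ L.occ₂.junk hSbig hnum.p_mem_sbig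
      hnum.p_not_dvd_Nbig (fun q hq hqd => hnum.mem_sbig_of_dvd_Nbig hq hqd) ρbar habs hbarchar
      hbardet
  haveI := loc₁
  haveI := lh₁
  haveI := loc₂
  haveI := lh₂
  -- the global deformation condition
  have htype : ∀ ℓ ∈ S, ℓ.Prime → ℓ ≠ p → ℓ ∉ Sig →
      ℓ ∣ N / (∏ v ∈ Sig, v) * ((∏ v ∈ Sig, v) * ∏ j, Q j) ^ 2 ∧
      ¬ ℓ ^ 2 ∣ N / (∏ v ∈ Sig, v) * ((∏ v ∈ Sig, v) * ∏ j, Q j) ^ 2 :=
    fun ℓ hℓS hℓ hℓp hℓSig => hnum.exactly_dvd_Nbig hℓS hℓp hℓSig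
  have hcond₁ : twCondition 𝒪 p S Sig (Finset.univ.image Q) ρ₁ :=
    ⟨⟨hdet₁, hflat₁, hunr₁⟩, fun ℓ hℓS hℓ hℓp hℓSig =>
      hunip₁ ℓ hℓ hℓp (htype ℓ hℓS hℓ hℓp hℓSig).1 (htype ℓ hℓS hℓ hℓp hℓSig).2⟩
  have hcond₂ : twCondition 𝒪 p S Sig (Finset.univ.image Q) ρ₂ :=
    ⟨⟨hdet₂, hflat₂, hunr₂⟩, fun ℓ hℓS hℓ hℓp hℓSig =>
      hunip₂ ℓ hℓ hℓp (htype ℓ hℓS hℓ hℓp hℓSig).1 (htype ℓ hℓS hℓ hℓp hℓSig).2⟩
  -- (KEY-H) at the Taylor–Wiles primes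
  have hkey₁ : ∀ q : Fin r, ∃ (P : ValuationSubring Ω) (_ : P.LiesOverPrime (Q q))
      (σ : GQ) (_ : σ ∈ P.inertiaSubgroupIn ℚ),
      ((ρ₁.trace σ : heckeAlg L.side₁ Sbig) : Module.End 𝒪 L.side₁.H) =
        L.side₁.g q + L.side₁.g q ^ (p ^ n - 1) := by
    intro q
    obtain ⟨P, hP, σ, hσ, h1⟩ := keyH_alg L.side₁ hp2 hp5 hp𝒪 hlam hd hNt5 hTh L.occ₁ hSbig
      hSbigNt ρ₁ hfrob₁ q (hnum.Qprime q) (hnum.Q_dvd_Nt q) (hnum.not_sq_dvd_Nt (hnum.Qprime q))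
      (hnum.Q_ne_p q) (hnum.Q_ne_two q) (hnum.five_le_Nt_div_Q hN2 q) (L.uQ_spec q)
    exact ⟨P, hP, σ, hσ, congrArg Subtype.val h1⟩
  have hkey₂ : ∀ q : Fin r, ∃ (P : ValuationSubring Ω) (_ : P.LiesOverPrime (Q q))
      (σ : GQ) (_ : σ ∈ P.inertiaSubgroupIn ℚ),
      ((ρ₂.trace σ : heckeAlg L.side₂ Sbig) : Module.End 𝒪 L.side₂.H) =
        L.side₂.g q + L.side₂.g q ^ (p ^ n - 1) := by
    intro q
    obtain ⟨P, hP, σ, hσ, h1⟩ := keyH_alg L.side₂ hp2 hp5 hp𝒪 hlam hd hNt5 hTh L.occ₂ hSbig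
      hSbigNt ρ₂ hfrob₂ q (hnum.Qprime q) (hnum.Q_dvd_Nt q) (hnum.not_sq_dvd_Nt (hnum.Qprime q))
      (hnum.Q_ne_p q) (hnum.Q_ne_two q) (hnum.five_le_Nt_div_Q hN2 q) (L.uQ_spec q)
    exact ⟨P, hP, σ, hσ, congrArg Subtype.val h1⟩
  -- the types at `Σ`
  have hSigfacts : ∀ v ∈ Sig, v.Prime ∧ v ∣ N * ∏ j, Q j ∧ ¬ v ^ 2 ∣ N * ∏ j, Q j ∧ v ≠ p ∧
      v ≠ 2 ∧ 5 ≤ N * (∏ j, Q j) / v := fun v hv =>
    ⟨(hnum.hSig v hv).1, hnum.v_dvd_Nt hv, hnum.not_sq_dvd_Nt (hnum.hSig v hv).1, hnum.v_ne_p hv,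
      (hnum.hSig v hv).2.2, hnum.five_le_Nt_div_v hv (hr ⟨v, hv⟩)⟩
  have htype₁ : ∀ v ∈ Sig, ρ₁.IsUnipotentOnInertiaAt v := by
    intro v hv
    obtain ⟨h1, h2, h3, h4, h5, h6⟩ := hSigfacts v hv
    exact unipotent_of_z_eq_one L.side₁ hp2 hp5 hp𝒪 hlam hd hNt5 hTh L.occ₁ hSbig hSbigNt ρ₁
      hfrob₁ hdet₁ hv h1 h2 h3 h4 h5 h6
  have htype₂ : ∀ v ∈ Sig, ∀ P : ValuationSubring Ω, P.LiesOverPrime v →
      (∀ σ ∈ P.inertiaSubgroupIn ℚ, ρ₂.ρ σ ^ p = 1) ∧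
      ∃ τ ∈ P.inertiaSubgroupIn ℚ, LinearMap.charpoly (ρ₂.ρ τ) =
        X ^ 2 - C (algebraMap 𝒪 (heckeAlg L.side₂ Sbig) (ζ + ζ ^ (p - 1))) * X + 1 := by
    intro v hv P hP
    obtain ⟨h1, h2, h3, h4, h5, h6⟩ := hSigfacts v hv
    refine type_of_z_eq_zeta L.side₂ hp2 hp5 hp𝒪 hlam hd hNt5 hTh hζ L.occ₂ hSbig hSbigNt ρ₂
      hfrob₂ hdet₂ hv h1 h2 h3 h4 h5 h6 (L.uS_spec v hv) hP ?_
    intro σ hσ x
    exact sub_mem_smul_top_of_rhobar_eq_one ρ₂ _ ρbar hres₂ (hSigunr v hv P hP σ hσ) x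
  -- control and common reduction
  obtain ⟨toT, htoTctl, htoT⟩ := exists_toT L hfaith hSN
  have htoTtr := toT_trace L hSN toT htoT ρ₁ hfrob₁
  obtain ⟨trbar, htr₁, htr₂⟩ := exists_trbar L hd hp.pos hlam Sbig ρ₁ ρ₂ hfrob₁ hfrob₂
  exact ⟨{
    side₁ := mkSide L.side₁ S Sig ρbar Q Sbig hsurj₁ ρ₁ hres₁ hcond₁ hadj₁ hkey₁
    side₂ := mkSide L.side₂ S Sig ρbar Q Sbig hsurj₂ ρ₂ hres₂ hcond₂ hadj₂ hkey₂
    type₁ := htype₁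
    type₂ := htype₂
    Hbar := L.Hbar
    gbar := L.gbar
    trbar := trbar
    red₁ := L.red₁
    red₂ := L.red₂
    red₁_surjective := L.red₁_surjective
    red₂_surjective := L.red₂_surjective
    ker_red₁ := L.ker_red₁
    ker_red₂ := L.ker_red₂
    red₁_g := L.red₁_g
    red₂_g := L.red₂_g
    red₁_trace := htr₁
    red₂_trace := htr₂
    toT := toT
    toT_trace := htoTtr
    ctl := L.ctl
    ctl_surjective := L.ctl_surjective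
    ker_ctl := L.ker_ctl
    ctl_h := htoTctl }⟩

end Level

/-- **[REP_T](B)**: the Taylor–Wiles producers, from the module side [TWMOD] and the geometric
form of (KEY-H). -/
theorem twProducerStatement_of_twMod (hMod : TWModStatement)
    (hTh : ∀ (M : ℕ) [NeZero M], 5 ≤ M → ∀ (p : ℕ) [Fact p.Prime], ThetaKillsJ1 M p) :
    TWProducerStatement := by
  intro 𝒪 _ _ _ _ _ _ p _ hp5 hp𝒪 ζ hζ lam hlam N _ hNsq hpN h2N S hS θ T _ _ _ _ _ _ _ _ datum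
    hfull ρbar hres Sig hSig hram
  classical
  have hp : p.Prime := Fact.out
  -- the residue field of `T`
  have hψbij : Function.Bijective (ResidueField.map (algebraMap 𝒪 T)) := by
    refine ⟨(ResidueField.map (algebraMap 𝒪 T)).injective, fun y => ?_⟩
    obtain ⟨a, ha⟩ := datum.residue_surjective y
    exact ⟨residue 𝒪 a, by rw [ResidueField.map_residue]; exact ha⟩
  have hpk : ((p : ℕ) : ResidueField 𝒪) = 0 := by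
    rw [← map_natCast (residue 𝒪), residue_eq_zero_iff]; exact hp𝒪
  have hSN : ∀ ℓ : ℕ, ℓ.Prime → ℓ ∉ S → ¬ ℓ ∣ N :=
    fun ℓ hℓ hℓS hd => hℓS ((hS ℓ).2 ⟨hℓ, Or.inr hd⟩)
  have hpS : p ∈ S := (hS p).2 ⟨hp, Or.inl rfl⟩
  -- facts about `ρ̄`
  have habs : ρbar.IsAbsolutelyIrreducible :=
    isAbsolutelyIrreducible_of_lift datum.ρ _ ρbar hres hψbij datum.residual_absIrr
  have hbarchar : ∀ (ℓ : ℕ) (hℓ : ℓ.Prime) (hℓN : ¬ ℓ ∣ N) (hℓS : ℓ ∉ (S : Set ℕ))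
      (A' : ValuationSubring Ω), A'.LiesOverPrime ℓ → ∀ σ : GQ, A'.IsFrobeniusAt σ ℓ →
      LinearMap.charpoly (ρbar.ρ σ) =
        X ^ 2 - C (θ (heckeAlgebra.T hℓ hℓN hℓS)) * X + C (ℓ : ResidueField 𝒪) := by
    intro ℓ hℓ hℓN hℓS A' hA' σ hσ
    refine charpoly_rhobar_of_lift datum.ρ _ ρbar hres
      (datum.charpoly_frob ℓ hℓ hℓN hℓS A' hA' σ hσ) (datum.residue_π _) ?_
    rw [map_natCast, map_natCast]
  have hbardet : LinearMap.det (ρbar.ρ complexConjugation) = -1 := by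
    refine det_resid_complexConjugation ρbar p hpk S hpS fun q hq hqS P hP φ hφ => ?_
    have h1 := hbarchar q hq (hSN q hq hqS) (fun h' => hqS (Finset.mem_coe.1 h')) P hP φ hφ
    exact (Fermat.Agent.GR.trace_det_of_charpoly_eq ρbar.finrank_eq _ _ _ h1).2
  have hNE := not_eisenstein_of_absIrr hp hpk θ ρbar habs hbarchar hSN
  have hN2 : N ≠ 2 := level_ne_two θ
  have hSig' : ∀ v ∈ Sig, v.Prime ∧ v ∣ N ∧ v ≠ 2 ∧ v ≡ 1 [MOD p] := fun v hv =>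
    ⟨(hSig v hv).1, (hSig v hv).2.1, (hSig v hv).2.2.1, (hSig v hv).2.2.2.1⟩
  have hSigunr : ∀ v ∈ Sig, ρbar.IsUnramifiedAt v := fun v hv => (hSig v hv).2.2.2.2.1
  obtain ⟨d, hd, M0, i1, i2, i3, i4, i5, i6, hrank, hfaith, hlev⟩ :=
    hMod p hp5 hp𝒪 ζ hζ lam hlam N hNsq hpN h2N S hS θ T datum hfull hNE Sig hSig'
  refine ⟨d, hd, M0, i1, i2, i3, i4, i5, i6, hrank, fun r n Q hQ hp1 hr => ?_⟩
  have hnum : TWNumSetup N p S Sig Q :=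
    ⟨hNsq, hp, hpN, h2N, hS, fun v hv => ⟨(hSig v hv).1, (hSig v hv).2.1, (hSig v hv).2.2.1⟩,
      hQ.injective, hQ.prime, hQ.notMem⟩
  haveI : NeZero (N * ∏ j, Q j) := ⟨hnum.Nt_pos.ne'⟩
  haveI : NeZero (N / (∏ v ∈ Sig, v) * ((∏ v ∈ Sig, v) * ∏ j, Q j) ^ 2) := ⟨hnum.Nbig_pos.ne'⟩
  obtain ⟨L⟩ := hlev r n Q hQ.injective hQ.prime hQ.notMem hQ.cong hp1
    (fun j hq hqN hqS => exists_roots_of_distinct ρbar hq _
      (fun P hP φ hφ => hbarchar (Q j) hq hqN hqS P hP φ hφ) (hQ.distinct j))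
    (N * ∏ j, Q j) (N / (∏ v ∈ Sig, v) * ((∏ v ∈ Sig, v) * ∏ j, Q j) ^ 2) rfl rfl
  exact nonempty_twGaloisLevel hp5 hp𝒪 hζ hlam hnum hN2 hd hfaith ρbar habs hbarchar hbardet
    hSigunr hr (hTh _ (hnum.five_le_Nt hN2) p) L

end Fermat.Agent.RB.REPT
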