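/-
RB — helper6 — [MAZ]: **[FIN-q]: `EigenTorsOccurs ⇐ ParLiftModP`.**

A non-zero Hecke eigenclass `x ∈ J₀(M)[p]` with eigensystem `a` outside `S`: its Kummer class
`κ₁(x) ∈ Hom_par(Γ₀(M), ℤ/p)` lifts to `w ∈ H¹_par(Γ₀(M), ℤ)` ([TOPO-p]); `w` is not divisible by
`p` (`κ₁` injective) and is an eigenvector modulo `p` (Hecke-equivariance of `κ₁`), so the
eigensystem occurs residually at level `M` (lead's `MP.latLiftStatement`).
-/
import Mathlib
import Fermat.Agent.RB.MAZ_helper6_Parts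
import Fermat.Agent.MP.TOPG_lead_Final

set_option autoImplicit false
set_option linter.unusedSectionVars false
set_option linter.unusedVariables false
set_option linter.style.haveILetI false

open AlgebraicCurve ModularCurve CongruenceSubgroup ModularCurve.Period

open scoped MatrixGroups

namespace Fermat.Agent.RB

open Fermat.Agent.S35 Fermat.Agent.NP Fermat.Agent.GR Fermat.Agent.LR Fermat.Agent.MP
  Fermat.Agent.LR.NonEis

/-- **[FIN-q] from [TOPO-p].** -/
theorem eigenTorsOccurs_of (HP : ParLiftModP) : EigenTorsOccurs := by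
  intro M _ p hp hp5 S a hS x hx0 hpx hT
  haveI : Fact p.Prime := ⟨hp⟩
  set I := stageIData M p with hI
  have hz : x ∈ torsionNat (JZero M) (p ^ 1) := by
    rw [mem_torsionNat, pow_one]
    exact hpx
  set z : ↥(torsionNat (JZero M) (p ^ 1)) := ⟨x, hz⟩ with hzdef
  obtain ⟨w, hw⟩ := HP M p hp5 (I.D.kap 1 z) (I.D.par 1 z)
  refine latLiftStatement hp a w ?_ ?_
  · intro y hy
    have h1 : (Int.castAddHom (ZMod (p ^ 1))).comp w.1 = 0 := by
      rw [hy, Submodule.coe_smul]
      exact red_smul_eq_zero (Gamma0 M) y.1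
    rw [hw] at h1
    have h2 := I.D.inj 1 (h1.trans (map_zero (I.D.kap 1)).symm)
    have h3 := congrArg (fun u : ↥(torsionNat (JZero M) (p ^ 1)) => (u : JZero M)) h2
    exact hx0 h3
  · intro ℓ hℓS
    have hℓN : ¬ (ℓ : ℕ) ∣ M := fun h => hℓS (hS ℓ ℓ.2 h)
    have hTz : torsionNat.map (p ^ 1) (I.T' ℓ) z = a ℓ • z := by
      apply Subtype.ext
      have h1 := I.hT' ℓ hℓN x
      have h2 := hT ℓ ℓ.2 hℓS
      exact h1.trans h2
    have hred : (Int.castAddHom (ZMod (p ^ 1))).comp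
        (heckeZ M ℓ w - a ℓ • w : LPar M).1 = 0 := by
      rw [Submodule.coe_sub, Submodule.coe_smul, AddMonoidHom.comp_sub, coe_heckeParP,
        ← heckeGrpP_comp]
      have e1 : (Int.castAddHom (ZMod (p ^ 1))).comp (a ℓ • w.1) =
          a ℓ • (Int.castAddHom (ZMod (p ^ 1))).comp w.1 := by
        refine AddMonoidHom.ext fun γ => ?_
        show (((a ℓ • w.1) γ : ℤ) : ZMod (p ^ 1)) =
          (a ℓ • (Int.castAddHom (ZMod (p ^ 1))).comp w.1) γ
        rw [AddMonoidHom.smul_apply, AddMonoidHom.smul_apply, smul_eq_mul, Int.cast_mul,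
          zsmul_eq_mul]
        rfl
      rw [e1, hw, ← I.hecke ℓ 1 z, hTz, map_zsmul, sub_self]
    obtain ⟨y, hy⟩ := lpar_eq_smul_of_red_eq_zero (Gamma0 M) _ hred
    exact ⟨y, by rw [← hy]; abel⟩

end Fermat.Agent.RB
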