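/-
RB — helper4 — [TOPO-p]: **every parabolic homomorphism `Γ₀(N) → ℤ/p` (`p ≥ 5`) is the reduction
of an integral parabolic homomorphism** (`H₁(X₀(N), ℤ)` has no torsion, and `p ∤ 12`).

This is the literal proposition `Fermat.Agent.RB.ParLiftModP` of `RB/MAZ_helper6_Parts.lean`
(stated here directly, without importing that file).  The proof is `S16.exists_parabolic_lift`
(helper9, `S16/LB_helper9_TFLift.lean`) with `ℓ = p`, `k = 1`: a parabolic homomorphism into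
`ℤ/p` kills every `γ` with `γ ^ 12 = 1`, because `12 • ψ γ = ψ (γ ^ 12) = 0` and `12` is a unit
modulo `p`.
-/
import Mathlib
import Fermat.Agent.S16.LB_helper9_TFLift
import Fermat.Agent.LR.RAISE_helper2_Hecke

set_option autoImplicit false
set_option linter.unusedSectionVars false

namespace Fermat.Agent.RB.TOPO

open CongruenceSubgroup MatrixGroups Matrix ModularCurve.Period
open Fermat.Agent.S16 Fermat.Agent.LR

/-- a homomorphism into `ℤ/p^k` (`p ≥ 5` prime) kills the elements of order dividing `12`. -/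
theorem apply_eq_zero_of_pow_twelve {Γ : Subgroup SL(2, ℤ)} (p : ℕ) [Fact p.Prime] (hp : 5 ≤ p)
    (k : ℕ) (ψ : Additive ↥Γ →+ ZMod (p ^ k)) {γ : Γ} (hγ : γ ^ 12 = 1) :
    ψ (Additive.ofMul γ) = 0 := by
  have hpp : p.Prime := Fact.out
  have h1 : (12 : ℕ) • ψ (Additive.ofMul γ) = 0 := by
    rw [← map_nsmul, ← ofMul_pow, hγ, ofMul_one, map_zero]
  have hcop : Nat.Coprime 12 (p ^ k) := by
    apply Nat.Coprime.pow_right
    rw [Nat.coprime_comm, hpp.coprime_iff_not_dvd]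
    intro hdvd
    have hle : p ≤ 12 := Nat.le_of_dvd (by norm_num) hdvd
    interval_cases p <;> first | omega | (exact absurd hpp (by norm_num))
  have hu : IsUnit ((12 : ℕ) : ZMod (p ^ k)) := (ZMod.isUnit_iff_coprime 12 (p ^ k)).2 hcop
  rw [nsmul_eq_mul] at h1
  exact (hu.mul_right_eq_zero).1 h1

/-- **[TOPO-p]** (the literal `ParLiftModP` of `RB/MAZ_helper6_Parts.lean`). -/
theorem parLiftModP :
    ∀ (N : ℕ) [NeZero N] (p : ℕ) [Fact p.Prime], 5 ≤ p →
      ∀ ψ : Additive ↥(Gamma0 N) →+ ZMod (p ^ 1),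
        ψ ∈ parabolicHoms ℤ (Gamma0 N) (ZMod (p ^ 1)) →
        ∃ w : LPar N, (Int.castAddHom (ZMod (p ^ 1))).comp w.1 = ψ := by
  intro N _ p _ hp ψ hψ
  have hy : ∀ γ ∈ parTorSet (Gamma0 N), ψ (Additive.ofMul γ) = 0 := by
    intro γ hγ
    rcases (mem_parTorSet (Gamma0 N)).1 hγ with h | h
    · exact hψ γ h
    · exact apply_eq_zero_of_pow_twelve p hp 1 ψ h
  obtain ⟨w, hw, hwψ⟩ := exists_parabolic_lift N p 1 ψ hy
  exact ⟨⟨w, hw⟩, hwψ.symm⟩

/-- the same for every power `p ^ k` (by-product). -/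
theorem parLiftModPow (N : ℕ) [NeZero N] (p : ℕ) [Fact p.Prime] (hp : 5 ≤ p) (k : ℕ)
    (ψ : Additive ↥(Gamma0 N) →+ ZMod (p ^ k))
    (hψ : ψ ∈ parabolicHoms ℤ (Gamma0 N) (ZMod (p ^ k))) :
    ∃ w : LPar N, (Int.castAddHom (ZMod (p ^ k))).comp w.1 = ψ := by
  have hy : ∀ γ ∈ parTorSet (Gamma0 N), ψ (Additive.ofMul γ) = 0 := by
    intro γ hγ
    rcases (mem_parTorSet (Gamma0 N)).1 hγ with h | h
    · exact hψ γ h
    · exact apply_eq_zero_of_pow_twelve p hp k ψ h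
  obtain ⟨w, hw, hwψ⟩ := exists_parabolic_lift N p k ψ hy
  exact ⟨⟨w, hw⟩, hwψ.symm⟩

end Fermat.Agent.RB.TOPO
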