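/-
RB — helper6 — [MAZ]: **`EigenTorsOccurs`, proved** (helper4's `TOPO.parLiftModP` + `eigenTorsOccurs_of`).
-/
import Mathlib
import Fermat.Agent.RB.MAZ_helper6_Fin
import Fermat.Agent.RB.TOPO_helper4_Main

set_option autoImplicit false

namespace Fermat.Agent.RB

/-- **[TOPO-p]**, helper4. -/
theorem parLiftModP : ParLiftModP := TOPO.parLiftModP

/-- **[FIN-q]**, proved. -/
theorem eigenTorsOccurs : EigenTorsOccurs := eigenTorsOccurs_of parLiftModP

end Fermat.Agent.RB
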