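/-
RB — helper4 — [ROLD-q], part 8a: **the Hecke operators `T_ℓ`, `T_ℓ'` (`ℓ, ℓ' ∤ M`) commute on
`J₀(M)[p]`** (`p ≥ 5`).

The Kummer map `κ₁ : J₀(M)[p] ↪ Hom_par(Γ₀(M), ℤ/p)` is injective and Hecke-equivariant; every
parabolic hom mod `p` lifts to `H¹_par(Γ₀(M), ℤ)` ([TOPO-p]), where the Hecke operators commute.
-/
import Mathlib
import Fermat.Agent.RB.TOPO_helper4_Main
import Fermat.Agent.MP.TOPG_lead_Final
import Fermat.Agent.LR.RAISE_helper2_Hecke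

set_option autoImplicit false
set_option linter.unusedSectionVars false
set_option linter.unusedVariables false
set_option linter.style.haveILetI false

open AlgebraicCurve ModularCurve CongruenceSubgroup ModularCurve.Period

open scoped MatrixGroups

namespace Fermat.Agent.RB.ROLD

open Fermat.Agent.S35 Fermat.Agent.NP Fermat.Agent.GR Fermat.Agent.LR Fermat.Agent.MP

/-- **the Hecke operators commute on `J₀(M)[p]`.** -/
theorem heckeOperatorBar_comm_of_nsmul_eq_zero (M : ℕ) [NeZero M] (p : ℕ) [Fact p.Prime]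
    (hp5 : 5 ≤ p) (ℓ ℓ' : Nat.Primes) (hℓ : ¬ (ℓ : ℕ) ∣ M) (hℓ' : ¬ (ℓ' : ℕ) ∣ M) (x : JZero M)
    (hx : p • x = 0) :
    heckeOperatorBar M ℓ (heckeOperatorBar M ℓ' x) =
      heckeOperatorBar M ℓ' (heckeOperatorBar M ℓ x) := by
  set I := stageIData M p with hI
  have hz : x ∈ torsionNat (JZero M) (p ^ 1) := by
    rw [mem_torsionNat, pow_one]
    exact hx
  set z : ↥(torsionNat (JZero M) (p ^ 1)) := ⟨x, hz⟩ with hzdef
  obtain ⟨w, hw⟩ := Fermat.Agent.RB.TOPO.parLiftModP M p hp5 (I.D.kap 1 z) (I.D.par 1 z)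
  have key : ∀ (ℓ₁ : Nat.Primes) (z' : ↥(torsionNat (JZero M) (p ^ 1))) (w' : LPar M),
      (Int.castAddHom (ZMod (p ^ 1))).comp w'.1 = I.D.kap 1 z' →
      (Int.castAddHom (ZMod (p ^ 1))).comp (heckeZ M ℓ₁ w').1 =
        I.D.kap 1 (torsionNat.map (p ^ 1) (I.T' ℓ₁) z') := by
    intro ℓ₁ z' w' h
    rw [coe_heckeParP, ← heckeGrpP_comp, h, I.hecke ℓ₁ 1 z']
  have h1 := key ℓ' z w hw
  have h2 := key ℓ _ _ h1
  have h3 := key ℓ z w hw
  have h4 := key ℓ' _ _ h3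
  have hc : heckeZ M ℓ (heckeZ M ℓ' w) = heckeZ M ℓ' (heckeZ M ℓ w) :=
    LinearMap.congr_fun (heckeZ_commute M ℓ ℓ').eq w
  rw [hc, h4] at h2
  have h5 := I.D.inj 1 h2
  have h6 := congrArg (fun u : ↥(torsionNat (JZero M) (p ^ 1)) => (u : JZero M)) h5
  simp only [torsionNat.map_coe] at h6
  rw [I.hT' ℓ' hℓ', I.hT' ℓ hℓ, I.hT' ℓ hℓ, I.hT' ℓ' hℓ'] at h6
  exact h6.symm

end Fermat.Agent.RB.ROLD
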