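/-
RB — helper4 — [ROLD-q], part 3: **every valuation subring of `ℚ̄` over a prime is multivariable
Henselian** (`FG.IsMvHenselian`): transport of helper2's `isMvHenselian_padicPlace` along the
conjugacy of the valuation subrings over a prime (helper5's `EC.exists_smul_eq_of_liesOverPrime`).
-/
import Mathlib
import Fermat.Agent.FG.HENSEL_helper2_Padic
import Fermat.Agent.EC.Conjugacy_helper5
import Fermat.Agent.TW.Kill_helper1_Frob

set_option autoImplicit false
set_option linter.unusedSectionVars false
set_option linter.style.haveILetI false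

open scoped Pointwise

noncomputable section

namespace Fermat.Agent.RB.ROLD

open IsLocalRing Fermat.Agent.FG

local notation "Ω" => AlgebraicClosure ℚ
local notation "GQ" => (AlgebraicClosure ℚ ≃ₐ[ℚ] AlgebraicClosure ℚ)

/-- the ring isomorphism `A ≃ τ • A`. -/
def smulEquiv (τ : GQ) (A : ValuationSubring Ω) : ↥A ≃+* ↥(τ • A) where
  toFun a := ⟨τ (a : Ω), ValuationSubring.smul_mem_pointwise_smul τ (a : Ω) A a.2⟩
  invFun b := ⟨τ⁻¹ (b : Ω), by
    have := ValuationSubring.mem_pointwise_smul_iff_inv_smul_mem.mp b.2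
    simpa [AlgEquiv.smul_def] using this⟩
  left_inv a := Subtype.ext (by
    show τ⁻¹ (τ (a : Ω)) = a
    show (τ⁻¹ * τ) (a : Ω) = a
    rw [inv_mul_cancel]; rfl)
  right_inv b := Subtype.ext (by
    show τ (τ⁻¹ (b : Ω)) = b
    show (τ * τ⁻¹) (b : Ω) = b
    rw [mul_inv_cancel]; rfl)
  map_mul' a b := Subtype.ext (by simp)
  map_add' a b := Subtype.ext (by simp)

theorem mem_maximalIdeal_map_iff {R S : Type*} [CommRing R] [CommRing S] [IsLocalRing R]
    [IsLocalRing S] (e : R ≃+* S) (x : R) : e x ∈ maximalIdeal S ↔ x ∈ maximalIdeal R := by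
  rw [mem_maximalIdeal, mem_maximalIdeal, mem_nonunits_iff, mem_nonunits_iff]
  exact not_congr (isUnit_map_iff e x)

/-- multivariable Henselianity is invariant under conjugation. -/
theorem isMvHenselian_smul (τ : GQ) {A : ValuationSubring Ω} (h : IsMvHenselian A) :
    IsMvHenselian (τ • A) := by
  classical
  intro n G' hconst hjac
  set e := smulEquiv τ A with he
  set f : ↥(τ • A) →+* ↥A := (e.symm : ↥(τ • A) →+* ↥A) with hf
  set G : Fin n → MvPolynomial (Fin n) ↥A := fun i => MvPolynomial.map f (G' i) with hG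
  have hconst' : ∀ i, MvPolynomial.constantCoeff (G i) ∈ maximalIdeal ↥A := by
    intro i
    rw [hG, MvPolynomial.constantCoeff_map]
    exact (mem_maximalIdeal_map_iff e.symm _).2 (hconst i)
  have hjac' : IsUnit (Matrix.det (Matrix.of fun i j =>
      MvPolynomial.constantCoeff (MvPolynomial.pderiv j (G i)))) := by
    have h1 : (Matrix.of fun i j => MvPolynomial.constantCoeff (MvPolynomial.pderiv j (G i))) =
        f.mapMatrix (Matrix.of fun i j =>
          MvPolynomial.constantCoeff (MvPolynomial.pderiv j (G' i))) := by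
      ext i j
      rw [RingHom.mapMatrix_apply, Matrix.map_apply, Matrix.of_apply, Matrix.of_apply, hG,
        MvPolynomial.pderiv_map, MvPolynomial.constantCoeff_map]
    rw [h1, ← RingHom.map_det]
    exact hjac.map f
  obtain ⟨x, hx, hxG⟩ := h n G hconst' hjac'
  refine ⟨fun i => e (x i), fun i => (mem_maximalIdeal_map_iff e _).2 (hx i), fun i => ?_⟩
  have h2 := MvPolynomial.map_eval (e : ↥A →+* ↥(τ • A)) x (G i)
  rw [hxG i, map_zero] at h2
  have h3 : MvPolynomial.map (e : ↥A →+* ↥(τ • A)) (G i) = G' i := by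
    rw [hG, MvPolynomial.map_map]
    have h4 : (e : ↥A →+* ↥(τ • A)).comp f = RingHom.id _ := by
      ext b
      exact congrArg Subtype.val (e.apply_symm_apply b)
    rw [h4, MvPolynomial.map_id]
  rw [h3] at h2
  exact h2.symm

/-- **every valuation subring of `ℚ̄` over a prime is multivariable Henselian.** -/
theorem isMvHenselian_of_liesOverPrime {q : ℕ} [Fact q.Prime] {A : ValuationSubring Ω}
    (hA : A.LiesOverPrime q) : IsMvHenselian A := by
  obtain ⟨τ, rfl⟩ := Fermat.Agent.EC.exists_smul_eq_of_liesOverPrime (Fact.out : q.Prime)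
    (Fermat.Agent.TW.Kill.padicPlace_liesOverPrime q) hA
  exact isMvHenselian_smul τ (isMvHenselian_padicPlace q)

end Fermat.Agent.RB.ROLD

end
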