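/-
RB — helper4 — [ROLD-q], part 2: **lifting torsion classes and Kummer functions along a
good-reduction datum.**

`X : GoodRed Ω A 𝔽 𝔽b` with [LIFT] (`X.LiftSpec`) and an `m`-divisible kernel of reduction:

* `exists_torsion_lift` : every class of `Pic⁰(𝔽b)` killed by `m` is the reduction of a class of
  `Pic⁰(𝔽)` killed by `m`;
* `exists_kummer_lift` : a nonzero function `w̄` on the special fibre all of whose orders are
  divisible by `m` is, up to an `m`-th power, the reduction of a Gauss unit `g` of `𝔽` whose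
  divisor is `m · D`, `D` of degree zero (`k` algebraically closed).
-/
import Mathlib
import Fermat.Agent.FG.OB_helper2_Gauss
import Fermat.Agent.FG.NFCHART_helper2_Main

set_option autoImplicit false
set_option linter.unusedSectionVars false
set_option linter.style.haveILetI false

noncomputable section

namespace Fermat.Agent.RB.ROLD

open AlgebraicCurve IsLocalRing IntermediateField Fermat.Agent.FG Fermat.Agent.FF

variable {Ω : Type*} [Field Ω] {A : ValuationSubring Ω} {𝔽 : Type*} [Field 𝔽] [Algebra Ω 𝔽]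
  {𝔽b : Type*} [Field 𝔽b] [Algebra (ResidueField ↥A) 𝔽b] (X : GoodRed Ω A 𝔽 𝔽b)

/-- **lifting torsion classes.** -/
theorem exists_torsion_lift (hlift : X.LiftSpec) (m : ℕ)
    (hdiv : ∀ z ∈ X.kerRed, ∃ z' ∈ X.kerRed, m • z' = z)
    (zb : Pic0 (ResidueField ↥A) 𝔽b) (hzb : m • zb = 0) :
    ∃ z : Pic0 Ω 𝔽, m • z = 0 ∧ X.redPic0 z = zb := by
  obtain ⟨z₀, hz₀, -⟩ := hlift zb
  have h1 : m • z₀ ∈ X.kerRed := by
    rw [GoodRed.mem_kerRed, map_nsmul, hz₀, hzb]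
  obtain ⟨z₁, hz₁, h2⟩ := hdiv _ h1
  refine ⟨z₀ - z₁, ?_, ?_⟩
  · rw [nsmul_sub, h2, sub_self]
  · rw [map_sub, hz₀, (GoodRed.mem_kerRed X).1 hz₁, sub_zero]

/-- a divisor all of whose coefficients are divisible by `m` is `m` times a divisor. -/
theorem exists_nsmul_eq_of_forall_dvd {K F : Type*} [Field K] [Field F] [Algebra K F]
    (E : Divisor K F) (m : ℕ) (h : ∀ Q, (m : ℤ) ∣ E Q) :
    ∃ D : Divisor K F, m • D = E := by
  refine ⟨Finsupp.mapRange (fun n : ℤ => n / (m : ℤ)) (by simp) E, ?_⟩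
  ext Q
  rw [Finsupp.smul_apply, Finsupp.mapRange_apply, nsmul_eq_mul]
  exact Int.mul_ediv_cancel' (h Q)

variable [IsAlgClosed (ResidueField ↥A)]

/-- **lifting Kummer functions.** -/
theorem exists_kummer_lift (hlift : X.LiftSpec) (m : ℕ) (hm : m ≠ 0)
    (hdiv : ∀ z ∈ X.kerRed, ∃ z' ∈ X.kerRed, m • z' = z)
    (wb : 𝔽b) (hwb : wb ≠ 0) (hord : ∀ Q : Place (ResidueField ↥A) 𝔽b, (m : ℤ) ∣ Q.ord wb) :
    ∃ (D : Divisor.degZero (K := Ω) (F := 𝔽)) (g : 𝔽) (hg : g ∈ X.W) (β : 𝔽b),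
      g ≠ 0 ∧ (∀ P : Place Ω 𝔽, (m • (D : Divisor Ω 𝔽)) P = P.ord g) ∧ β ≠ 0 ∧
        X.ρ ⟨g, hg⟩ = wb * β ^ m := by
  classical
  haveI := X.principal_red
  haveI := X.principal_gen
  -- the divisor of `w̄` and its `m`-th part
  obtain ⟨E, hE, hEdeg⟩ := HasPrincipalDivisors.exists_divisor (K := ResidueField ↥A) wb hwb
  obtain ⟨Db, hDb⟩ := exists_nsmul_eq_of_forall_dvd E m (fun Q => by rw [hE]; exact hord Q)
  have hDbdeg : Divisor.degree Db = 0 := by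
    have h1 : Divisor.degree (m • Db) = 0 := by rw [hDb, hEdeg]
    rw [map_nsmul, nsmul_eq_mul] at h1
    rcases mul_eq_zero.1 h1 with h | h
    · exact absurd (by exact_mod_cast h) hm
    · exact h
  set Db0 : Divisor.degZero (K := ResidueField ↥A) (F := 𝔽b) := ⟨Db, hDbdeg⟩ with hDb0
  have hzb : m • (Pic0.mk Db0 : Pic0 (ResidueField ↥A) 𝔽b) = 0 := by
    have h1 : m • (Pic0.mk Db0 : Pic0 (ResidueField ↥A) 𝔽b) = Pic0.mk (m • Db0) := rfl
    rw [h1]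
    refine (QuotientAddGroup.eq_zero_iff _).2 ?_
    rw [AddSubgroup.mem_addSubgroupOf, AddSubgroup.coe_nsmul]
    show m • Db ∈ Divisor.principal
    rw [hDb]
    exact ⟨wb, hwb, hE⟩
  obtain ⟨z, hmz, hred⟩ := exists_torsion_lift X hlift m hdiv _ hzb
  obtain ⟨D, rfl⟩ := Pic0.mk_surjective z
  -- the Kummer function
  have hprin : m • (D : Divisor Ω 𝔽) ∈ Divisor.principal (K := Ω) (F := 𝔽) := by
    have h1 : m • (Pic0.mk D : Pic0 Ω 𝔽) = Pic0.mk (m • D) := rfl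
    rw [h1] at hmz
    have h2 := (QuotientAddGroup.eq_zero_iff _).1 hmz
    rw [AddSubgroup.mem_addSubgroupOf, AddSubgroup.coe_nsmul] at h2
    exact h2
  obtain ⟨g₀, hg₀, hDg₀⟩ := hprin
  obtain ⟨a, ha, h1, h2⟩ := X.exists_smul_unit g₀ hg₀
  have hag : a • g₀ ≠ 0 := smul_ne_zero ha hg₀
  have hρg : X.ρ ⟨a • g₀, h1⟩ ≠ 0 := X.ρ_ne_zero_of_inv_mem h1 h2 hag
  have hDg : ∀ P : Place Ω 𝔽, (m • (D : Divisor Ω 𝔽)) P = P.ord (a • g₀) := by
    intro P
    rw [hDg₀ P, Algebra.smul_def, P.ord_mul ((_root_.map_ne_zero _).mpr ha) hg₀,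
      PlaceAux.ord_algebraMap, zero_add]
  -- the reduction of the divisor of `g`
  have hrdiv : ∀ Q : Place (ResidueField ↥A) 𝔽b,
      Finsupp.mapDomain X.r (m • (D : Divisor Ω 𝔽)) Q = Q.ord (X.ρ ⟨a • g₀, h1⟩) :=
    X.r_div ⟨a • g₀, h1⟩ hρg _ hDg
  -- the reduction of `D` is linearly equivalent to `Db`
  have hredD : X.redDiv (D : Divisor Ω 𝔽) - Db ∈
      Divisor.principal (K := ResidueField ↥A) (F := 𝔽b) := by
    rw [GoodRed.redPic0_mk] at hred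
    have h3 : (Pic0.mk (X.redDegZero D - Db0) : Pic0 (ResidueField ↥A) 𝔽b) = 0 := by
      have h4 : (Pic0.mk (X.redDegZero D - Db0) : Pic0 (ResidueField ↥A) 𝔽b) =
          Pic0.mk (X.redDegZero D) - Pic0.mk Db0 := rfl
      rw [h4, hred, sub_self]
    have h5 := (QuotientAddGroup.eq_zero_iff _).1 h3
    rw [AddSubgroup.mem_addSubgroupOf] at h5
    exact h5
  obtain ⟨bb, hbb, hbbD⟩ := hredD
  -- compare the divisors
  have hcmp : ∀ Q : Place (ResidueField ↥A) 𝔽b,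
      Q.ord (X.ρ ⟨a • g₀, h1⟩ * (wb * bb ^ m)⁻¹) = 0 := by
    intro Q
    have hwbb : wb * bb ^ m ≠ 0 := mul_ne_zero hwb (pow_ne_zero m hbb)
    rw [Q.ord_mul hρg (inv_ne_zero hwbb), Q.ord_inv, Q.ord_mul hwb (pow_ne_zero m hbb),
      PlaceAux.ord_pow, ← hrdiv Q, ← hE Q, ← hDb]
    have h6 : Finsupp.mapDomain X.r (m • (D : Divisor Ω 𝔽)) =
        m • X.redDiv (D : Divisor Ω 𝔽) := by
      rw [← GoodRed.redDiv_apply, map_nsmul]
    have h7 := hbbD Q
    rw [Finsupp.sub_apply] at h7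
    rw [h6, Finsupp.smul_apply, Finsupp.smul_apply, nsmul_eq_mul, nsmul_eq_mul, ← h7]
    ring
  have hc0 : X.ρ ⟨a • g₀, h1⟩ * (wb * bb ^ m)⁻¹ ≠ 0 :=
    mul_ne_zero hρg (inv_ne_zero (mul_ne_zero hwb (pow_ne_zero m hbb)))
  obtain ⟨c, hc⟩ := X.const_red _ (fun Q => (hcmp Q).ge)
  have hcne : c ≠ 0 := by
    rintro rfl
    rw [map_zero] at hc
    exact hc0 hc
  obtain ⟨e, he⟩ := IsAlgClosed.exists_pow_nat_eq c (Nat.pos_of_ne_zero hm)
  have he0 : e ≠ 0 := by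
    rintro rfl
    rw [zero_pow hm] at he
    exact hcne he.symm
  refine ⟨D, a • g₀, h1, algebraMap (ResidueField ↥A) 𝔽b e * bb, hag, hDg,
    mul_ne_zero ((_root_.map_ne_zero _).mpr he0) hbb, ?_⟩
  have hwbb : wb * bb ^ m ≠ 0 := mul_ne_zero hwb (pow_ne_zero m hbb)
  rw [mul_pow, ← map_pow, he, ← hc]
  field_simp

end Fermat.Agent.RB.ROLD

end
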