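/-
RB — helper4 — [ROLD-q], part 7: **a common kernel vector for a commuting family of endomorphisms
of a finite abelian group** (Mathlib only).

`V` finite abelian group, `T i` pairwise commuting endomorphisms, `V₀ ≤ V` a stable subgroup,
`x ∉ V₀` with `T i x ∈ V₀` for all `i`.  Then there is `y ≠ 0` with `T i y = 0` for all `i`.

Proof: stage 1 — for each `T` some power `T ^ e` (`e ≥ 1`) is idempotent; replacing `x` by
`x - T ^ e x` (still outside `V₀`, still mapped into `V₀`) makes `T` nilpotent on `x`; stage 2 —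
commuting operators nilpotent on `y ≠ 0` have a common kernel vector (replace `y` by the last
non-zero `T ^ n y`).
-/
import Mathlib

set_option autoImplicit false
set_option linter.unusedSectionVars false

namespace Fermat.Agent.RB.ROLD

/-- in a finite monoid some positive power of every element is idempotent. -/
theorem exists_pow_mul_self_eq {M : Type*} [Monoid M] [Finite M] (a : M) :
    ∃ e : ℕ, 0 < e ∧ a ^ e * a ^ e = a ^ e := by
  obtain ⟨i, j, hij, h⟩ := Finite.exists_ne_map_eq_of_infinite (fun n : ℕ => a ^ n)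
  wlog hlt : i < j generalizing i j
  · exact this j i hij.symm h.symm (lt_of_le_of_ne (not_lt.mp hlt) hij.symm)
  obtain ⟨d, rfl⟩ : ∃ d, j = i + d := ⟨j - i, by omega⟩
  have hd : 0 < d := by omega
  have h' : a ^ i = a ^ (i + d) := h
  have h1 : ∀ m, i ≤ m → a ^ (m + d) = a ^ m := by
    intro m hm
    obtain ⟨k, rfl⟩ : ∃ k, m = i + k := ⟨m - i, by omega⟩
    calc a ^ (i + k + d) = a ^ (i + d) * a ^ k := by
          rw [← pow_add]; congr 1; omega
      _ = a ^ i * a ^ k := by rw [← h']
      _ = a ^ (i + k) := (pow_add _ _ _).symm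
  have h2 : ∀ k m, i ≤ m → a ^ (m + k * d) = a ^ m := by
    intro k
    induction k with
    | zero => intro m _; simp
    | succ k ih =>
      intro m hm
      rw [Nat.succ_mul, ← add_assoc, h1 _ (by omega), ih m hm]
  refine ⟨(i + 1) * d, Nat.mul_pos (Nat.succ_pos i) hd, ?_⟩
  rw [← pow_add]
  refine h2 (i + 1) ((i + 1) * d) ?_
  exact Nat.le_of_lt (lt_of_lt_of_le (Nat.lt_succ_self i) (Nat.le_mul_of_pos_right _ hd))

section Core

variable {V : Type*} [AddCommGroup V]

theorem pow_apply_mem_of_stable (T : AddMonoid.End V) (V₀ : AddSubgroup V)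
    (h : ∀ y ∈ V₀, T y ∈ V₀) (n : ℕ) {y : V} (hy : y ∈ V₀) : (T ^ n) y ∈ V₀ := by
  induction n with
  | zero => simpa using hy
  | succ n ih =>
    rw [pow_succ']
    exact h _ ih

theorem commute_apply {S T : AddMonoid.End V} (h : Commute S T) (y : V) : S (T y) = T (S y) :=
  congrArg (fun f : AddMonoid.End V => f y) h.eq

variable [Finite V]

/-- the finset form. -/
theorem exists_common_kernel_of_finset (s : Finset (AddMonoid.End V))
    (hcomm : ∀ S ∈ s, ∀ T ∈ s, Commute S T) (V₀ : AddSubgroup V)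
    (hV₀ : ∀ T ∈ s, ∀ y ∈ V₀, T y ∈ V₀) (x : V) (hx : x ∉ V₀) (hTx : ∀ T ∈ s, T x ∈ V₀) :
    ∃ y : V, y ≠ 0 ∧ ∀ T ∈ s, T y = 0 := by
  classical
  haveI : Finite (AddMonoid.End V) := DFunLike.finite (AddMonoid.End V)
  -- stage 1
  have stage1 : ∀ t : Finset (AddMonoid.End V), t ⊆ s → ∃ x' : V, x' ∉ V₀ ∧
      (∀ T ∈ s, T x' ∈ V₀) ∧ ∀ T ∈ t, ∃ e : ℕ, (T ^ e) x' = 0 := by
    intro t
    induction t using Finset.induction_on with
    | empty => intro _; exact ⟨x, hx, hTx, by simp⟩
    | insert T t hT ih =>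
      intro hts
      obtain ⟨x', hx', hTx', hnil⟩ := ih (fun a ha => hts (Finset.mem_insert_of_mem ha))
      have hTs : T ∈ s := hts (Finset.mem_insert_self T t)
      obtain ⟨e, he, hidem⟩ := exists_pow_mul_self_eq T
      have hmemT : (T ^ e) x' ∈ V₀ := by
        obtain ⟨e', rfl⟩ : ∃ e', e = e' + 1 := ⟨e - 1, by omega⟩
        rw [pow_succ]
        exact pow_apply_mem_of_stable T V₀ (hV₀ T hTs) e' (hTx' T hTs)
      refine ⟨x' - (T ^ e) x', ?_, ?_, ?_⟩
      · intro hmem
        apply hx'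
        have := V₀.add_mem hmem hmemT
        simpa using this
      · intro S hS
        rw [map_sub]
        refine V₀.sub_mem (hTx' S hS) ?_
        rw [commute_apply ((hcomm S hS T hTs).pow_right e)]
        exact pow_apply_mem_of_stable T V₀ (hV₀ T hTs) e (hTx' S hS)
      · intro S hS
        rcases Finset.mem_insert.1 hS with rfl | hS'
        · refine ⟨e, ?_⟩
          rw [map_sub]
          have h3 : (S ^ e) ((S ^ e) x') = (S ^ e) x' :=
            congrArg (fun f : AddMonoid.End V => f x') hidem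
          rw [h3, sub_self]
        · obtain ⟨e', he'⟩ := hnil S hS'
          refine ⟨e', ?_⟩
          have hSs : S ∈ s := hts (Finset.mem_insert_of_mem hS')
          rw [map_sub, he', zero_sub, neg_eq_zero,
            commute_apply ((hcomm S hSs T hTs).pow_pow e' e), he', map_zero]
  obtain ⟨x₁, hx₁, -, hnil₁⟩ := stage1 s (Finset.Subset.refl s)
  have hx₁0 : x₁ ≠ 0 := fun h => hx₁ (h ▸ V₀.zero_mem)
  -- stage 2
  have stage2 : ∀ t : Finset (AddMonoid.End V), t ⊆ s → ∃ y : V, y ≠ 0 ∧
      (∀ T ∈ s, ∃ e : ℕ, (T ^ e) y = 0) ∧ ∀ T ∈ t, T y = 0 := by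
    intro t
    induction t using Finset.induction_on with
    | empty => intro _; exact ⟨x₁, hx₁0, hnil₁, by simp⟩
    | insert T t hT ih =>
      intro hts
      obtain ⟨y, hy0, hnil, hker⟩ := ih (fun a ha => hts (Finset.mem_insert_of_mem ha))
      have hTs : T ∈ s := hts (Finset.mem_insert_self T t)
      have hex : ∃ e : ℕ, (T ^ e) y = 0 := hnil T hTs
      set n := Nat.find hex with hn
      have hn0 : n ≠ 0 := by
        intro h0
        have h1 := Nat.find_spec hex
        rw [← hn, h0, pow_zero] at h1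
        exact hy0 h1
      obtain ⟨m, hm⟩ : ∃ m, n = m + 1 := ⟨n - 1, by omega⟩
      have hmne : (T ^ m) y ≠ 0 := Nat.find_min hex (by omega)
      refine ⟨(T ^ m) y, hmne, ?_, ?_⟩
      · intro S hS
        obtain ⟨e, he⟩ := hnil S hS
        refine ⟨e, ?_⟩
        rw [commute_apply ((hcomm S hS T hTs).pow_pow e m), he, map_zero]
      · intro S hS
        rcases Finset.mem_insert.1 hS with rfl | hS'
        · have h1 := Nat.find_spec hex
          rw [← hn, hm, pow_succ'] at h1
          exact h1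
        · have hSs : S ∈ s := hts (Finset.mem_insert_of_mem hS')
          rw [commute_apply ((hcomm S hSs T hTs).pow_right m), hker S hS', map_zero]
  obtain ⟨y, hy0, -, hker⟩ := stage2 s (Finset.Subset.refl s)
  exact ⟨y, hy0, hker⟩

/-- **a common kernel vector**, indexed form. -/
theorem exists_common_kernel {ι : Type*} (T : ι → AddMonoid.End V)
    (hcomm : ∀ i j, Commute (T i) (T j)) (V₀ : AddSubgroup V)
    (hV₀ : ∀ i, ∀ y ∈ V₀, T i y ∈ V₀) (x : V) (hx : x ∉ V₀) (hTx : ∀ i, T i x ∈ V₀) :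
    ∃ y : V, y ≠ 0 ∧ ∀ i, T i y = 0 := by
  classical
  haveI : Finite (AddMonoid.End V) := DFunLike.finite (AddMonoid.End V)
  set s : Finset (AddMonoid.End V) := (Set.toFinite (Set.range T)).toFinset with hs
  have hmem : ∀ S, S ∈ s ↔ ∃ i, T i = S := by
    intro S
    rw [hs, Set.Finite.mem_toFinset, Set.mem_range]
  obtain ⟨y, hy0, hker⟩ := exists_common_kernel_of_finset s
    (by
      intro S hS S' hS'
      obtain ⟨i, rfl⟩ := (hmem S).1 hS
      obtain ⟨j, rfl⟩ := (hmem S').1 hS'
      exact hcomm i j) V₀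
    (by
      intro S hS
      obtain ⟨i, rfl⟩ := (hmem S).1 hS
      exact hV₀ i) x hx
    (by
      intro S hS
      obtain ⟨i, rfl⟩ := (hmem S).1 hS
      exact hTx i)
  exact ⟨y, hy0, fun i => hker (T i) ((hmem _).2 ⟨i, rfl⟩)⟩

end Core

/-- **a common kernel vector**, for endomorphisms of an ambient group preserving a finite
subgroup `V` and commuting on it. -/
theorem exists_common_kernel_subgroup {G : Type*} [AddCommGroup G] (V V₀ : AddSubgroup G)
    [Finite V] {ι : Type*} (N : ι → G →+ G) (hV : ∀ i, ∀ y ∈ V, N i y ∈ V)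
    (hV₀ : ∀ i, ∀ y ∈ V, y ∈ V₀ → N i y ∈ V₀)
    (hcomm : ∀ i j, ∀ y ∈ V, N i (N j y) = N j (N i y))
    (x : G) (hxV : x ∈ V) (hx : x ∉ V₀) (hNx : ∀ i, N i x ∈ V₀) :
    ∃ y ∈ V, y ≠ 0 ∧ ∀ i, N i y = 0 := by
  set T : ι → AddMonoid.End V := fun i =>
    ((N i).comp V.subtype).codRestrict V (fun y => hV i y y.2) with hT
  have hTapp : ∀ i (y : V), ((T i y : V) : G) = N i (y : G) := fun i y => rfl
  obtain ⟨y, hy0, hker⟩ := exists_common_kernel T
    (by
      intro i j
      refine AddMonoidHom.ext fun y => Subtype.ext ?_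
      show ((T i (T j y) : V) : G) = ((T j (T i y) : V) : G)
      rw [hTapp, hTapp, hTapp, hTapp]
      exact hcomm i j y y.2)
    (V₀.comap V.subtype)
    (by
      intro i y hy
      rw [AddSubgroup.mem_comap] at hy ⊢
      exact hV₀ i y y.2 hy)
    ⟨x, hxV⟩
    (by
      rw [AddSubgroup.mem_comap]
      exact hx)
    (by
      intro i
      rw [AddSubgroup.mem_comap]
      exact hNx i)
  refine ⟨y, y.2, ?_, fun i => ?_⟩
  · intro h
    exact hy0 (Subtype.ext h)
  · have := congrArg (fun z : V => (z : G)) (hker i)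
    exact this

end Fermat.Agent.RB.ROLD
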