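/-
RB — helper4 — [ROLD-q], part 1: **automorphisms of the function field of a good-reduction datum
preserve the Gauss valuation ring**, as soon as they map the uniformizer `τ` to an integral
function with transcendental reduction.

`X : GoodRed Ω A 𝔽 𝔽b`, `σ : 𝔽 →ₐ[Ω] 𝔽` with `σ τ ∈ W` and `ρ (σ τ)` transcendental over `k`:

* `map_mem_W_of_mem_adjoin` : `σ (W ∩ Ω(τ)) ⊆ W` (Gauss lemma);
* `map_mem_W` : `σ W ⊆ W` (`W` is finite over `W ∩ Ω(τ)`: orthogonal basis; `W` is integrally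
  closed);
* `ρ_map_eq_zero` : for an automorphism `σ` such that `σ` and `σ⁻¹` both satisfy the hypothesis,
  `σ` preserves the maximal ideal of `W`.
-/
import Mathlib
import Fermat.Agent.FG.OB_helper2_Norm

set_option autoImplicit false
set_option linter.unusedSectionVars false
set_option linter.style.haveILetI false

noncomputable section

namespace Fermat.Agent.RB.ROLD

open AlgebraicCurve IsLocalRing IntermediateField Polynomial Fermat.Agent.FG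

variable {Ω : Type*} [Field Ω] {A : ValuationSubring Ω} {𝔽 : Type*} [Field 𝔽] [Algebra Ω 𝔽]
  {𝔽b : Type*} [Field 𝔽b] [Algebra (ResidueField ↥A) 𝔽b] (X : GoodRed Ω A 𝔽 𝔽b)

/-- evaluation of an integral polynomial at an integral function `s`, as an element of `W`. -/
def evalAt (s : ↥X.W) (q : (↥A)[X]) : ↥X.W := eval₂ X.constW s q

theorem coe_evalAt (s : ↥X.W) (q : (↥A)[X]) :
    ((evalAt X s q : ↥X.W) : 𝔽) = aeval (s : 𝔽) (q.map (algebraMap ↥A Ω)) := by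
  rw [evalAt, aeval_def, eval₂_map]
  exact hom_eval₂ q X.constW X.W.subtype s

theorem ρ_evalAt (s : ↥X.W) (q : (↥A)[X]) :
    X.ρ (evalAt X s q) = aeval (X.ρ s) (q.map (residue ↥A)) := by
  rw [evalAt, hom_eval₂, aeval_def, eval₂_map]
  congr 1
  ext a
  exact X.ρ_constW a

variable (σ : 𝔽 →ₐ[Ω] 𝔽) (hs : σ X.τ ∈ X.W)
  (htr : Transcendental (ResidueField ↥A) (X.ρ ⟨σ X.τ, hs⟩))

include htr in
/-- a normalised polynomial in `τ` is mapped to a Gauss unit. -/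
theorem map_smul_aeval_mem {P : Polynomial Ω} {a : Ω} (haA : ∀ j, a * P.coeff j ∈ A)
    (hu : a • aeval X.τ P ∈ X.W) (hρ : X.ρ ⟨_, hu⟩ ≠ 0) :
    ∃ h : σ (a • aeval X.τ P) ∈ X.W, X.ρ ⟨_, h⟩ ≠ 0 := by
  have hcoeff : ∀ j, (C a * P).coeff j ∈ A := fun j => by
    rw [coeff_C_mul]
    exact haA j
  set q : (↥A)[X] := GoodRed.liftPoly (C a * P) hcoeff with hq
  have hqτ : ((X.evalW q : ↥X.W) : 𝔽) = a • aeval X.τ P := by
    rw [X.coe_evalW, hq, GoodRed.map_liftPoly, map_mul, aeval_C, Algebra.smul_def]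
  have hqe : X.evalW q = ⟨_, hu⟩ := Subtype.ext hqτ
  have hq0 : q.map (residue ↥A) ≠ 0 := by
    intro h0
    apply hρ
    rw [← hqe, X.ρ_evalW, h0, map_zero]
  have hσ : σ (a • aeval X.τ P) = ((evalAt X ⟨σ X.τ, hs⟩ q : ↥X.W) : 𝔽) := by
    rw [coe_evalAt, hq, GoodRed.map_liftPoly, map_mul, aeval_C, map_smul, Algebra.smul_def,
      aeval_algHom_apply]
  refine ⟨hσ ▸ (evalAt X ⟨σ X.τ, hs⟩ q).2, ?_⟩
  have he : (⟨σ (a • aeval X.τ P), hσ ▸ (evalAt X ⟨σ X.τ, hs⟩ q).2⟩ : ↥X.W) =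
      evalAt X ⟨σ X.τ, hs⟩ q := Subtype.ext hσ
  rw [he, ρ_evalAt]
  intro h0
  exact hq0 ((transcendental_iff.1 htr) _ h0)

include htr in
/-- **`σ (W ∩ Ω(τ)) ⊆ W`.** -/
theorem map_mem_W_of_mem_adjoin {f : 𝔽} (hf : f ∈ Ω⟮X.τ⟯) (hfW : f ∈ X.W) : σ f ∈ X.W := by
  by_cases hf0 : f = 0
  · rw [hf0, map_zero]
    exact X.W.zero_mem
  obtain ⟨P, Q, rfl⟩ := (mem_adjoin_simple_iff Ω f).1 hf
  have hP0 : P ≠ 0 := by
    rintro rfl
    rw [map_zero, zero_div] at hf0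
    exact hf0 rfl
  have hQ0 : Q ≠ 0 := by
    rintro rfl
    rw [map_zero, div_zero] at hf0
    exact hf0 rfl
  obtain ⟨a, hua, ha0, haA, hρa, -⟩ := X.exists_smul_unit_aeval hP0
  obtain ⟨b, hub, hb0, hbA, hρb, -⟩ := X.exists_smul_unit_aeval hQ0
  obtain ⟨hσa, -⟩ := map_smul_aeval_mem X σ hs htr haA hua hρa
  obtain ⟨hσb, hρσb⟩ := map_smul_aeval_mem X σ hs htr hbA hub hρb
  have hub0 : b • aeval X.τ Q ≠ 0 := X.ρ_ne_zero_imp_ne_zero hub hρb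
  have hinv : (b • aeval X.τ Q)⁻¹ ∈ X.W := (X.inv_mem_W_iff hub hub0).2 hρb
  have hua0 : a • aeval X.τ P ≠ 0 := X.ρ_ne_zero_imp_ne_zero hua hρa
  have hinva : (a • aeval X.τ P)⁻¹ ∈ X.W := (X.inv_mem_W_iff hua hua0).2 hρa
  have hσb0 : σ (b • aeval X.τ Q) ≠ 0 := X.ρ_ne_zero_imp_ne_zero hσb hρσb
  have hσinv : (σ (b • aeval X.τ Q))⁻¹ ∈ X.W := (X.inv_mem_W_iff hσb hσb0).2 hρσb
  -- the unit `u = (a P(τ)) / (b Q(τ))` and the constant `c = b / a`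
  set u : 𝔽 := (a • aeval X.τ P) * (b • aeval X.τ Q)⁻¹ with hu
  have huW : u ∈ X.W := X.W.mul_mem _ _ hua hinv
  have hρu : X.ρ ⟨u, huW⟩ ≠ 0 := by
    have h1 : (⟨u, huW⟩ : ↥X.W) = ⟨_, hua⟩ * ⟨_, hinv⟩ := rfl
    rw [h1, map_mul]
    refine mul_ne_zero hρa ?_
    exact X.ρ_ne_zero_of_inv_mem hinv (by rw [inv_inv]; exact hub) (inv_ne_zero hub0)
  have hPQ : aeval X.τ P / aeval X.τ Q = (b / a) • u := by
    have hb' : algebraMap Ω 𝔽 b ≠ 0 := (_root_.map_ne_zero _).2 hb0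
    have ha' : algebraMap Ω 𝔽 a ≠ 0 := (_root_.map_ne_zero _).2 ha0
    have hQ1 : aeval X.τ Q ≠ 0 := by
      intro h0
      rw [h0, smul_zero] at hub0
      exact hub0 rfl
    rw [hu, Algebra.smul_def, Algebra.smul_def, Algebra.smul_def, map_div₀, mul_inv]
    field_simp
  have hcA : b / a ∈ A := by
    have h1 : ((b / a)⁻¹ : Ω) • ((b / a) • u) ∈ X.W := by
      rw [smul_smul, inv_mul_cancel₀ (div_ne_zero hb0 ha0), one_smul]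
      exact huW
    have h2 := X.mem_of_smul_unit (hPQ ▸ hfW) h1 (inv_ne_zero (div_ne_zero hb0 ha0)) (by
      have h3 : (⟨((b / a)⁻¹ : Ω) • ((b / a) • u), h1⟩ : ↥X.W) = ⟨u, huW⟩ := by
        apply Subtype.ext
        show ((b / a)⁻¹ : Ω) • ((b / a) • u) = u
        rw [smul_smul, inv_mul_cancel₀ (div_ne_zero hb0 ha0), one_smul]
      rw [h3]
      exact hρu)
    rwa [inv_inv] at h2
  rw [hPQ, map_smul, hu, map_mul, map_inv₀]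
  exact X.smul_mem_W hcA (X.W.mul_mem _ _ hσa hσinv)

/-- the restriction of `σ` to `W ∩ Ω(τ)`, with values in `W`. -/
def mapWτ : ↥X.Wτ →+* ↥X.W where
  toFun c := ⟨σ ((c : ↥Ω⟮X.τ⟯) : 𝔽),
    map_mem_W_of_mem_adjoin X σ hs htr (c : ↥Ω⟮X.τ⟯).2 ((X.mem_Wτ_iff _).1 c.2)⟩
  map_one' := Subtype.ext (by simp)
  map_mul' a b := Subtype.ext (by simp)
  map_zero' := Subtype.ext (by simp)
  map_add' a b := Subtype.ext (by simp)

theorem coe_mapWτ (c : ↥X.Wτ) :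
    ((mapWτ X σ hs htr c : ↥X.W) : 𝔽) = σ ((c : ↥Ω⟮X.τ⟯) : 𝔽) := rfl

include htr in
/-- **`σ W ⊆ W`.** -/
theorem map_mem_W {y : 𝔽} (hy : y ∈ X.W) : σ y ∈ X.W := by
  classical
  -- `W` is a finite `Wτ`-algebra
  letI algW : Algebra ↥X.Wτ ↥X.W := X.inclWτ.toAlgebra
  have hfin : Module.Finite ↥X.Wτ ↥X.W := by
    refine ⟨⟨Finset.univ.image X.bW, ?_⟩⟩
    rw [eq_top_iff]
    intro f _
    rw [← X.sum_coordW f]
    refine Submodule.sum_mem _ fun i _ => ?_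
    have h1 : X.inclWτ (X.coordW f i) * X.bW i = (X.coordW f i) • X.bW i := by
      rw [Algebra.smul_def]
      rfl
    rw [h1]
    refine Submodule.smul_mem _ _ (Submodule.subset_span ?_)
    rw [Finset.coe_image]
    exact ⟨i, Finset.mem_coe.2 (Finset.mem_univ i), rfl⟩
  haveI := hfin
  -- every element of `W` is integral over `Wτ`
  have hint : ∀ z : ↥X.W, σ (z : 𝔽) ∈ X.W := by
    intro z
    obtain ⟨p, hpm, hp⟩ := (Algebra.IsIntegral.of_finite ↥X.Wτ ↥X.W).isIntegral z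
    have hroot : eval₂ (X.W.subtype.comp (mapWτ X σ hs htr)) (σ (z : 𝔽)) p = 0 := by
      have h1 : (X.W.subtype.comp (mapWτ X σ hs htr) : ↥X.Wτ →+* 𝔽) =
          (σ : 𝔽 →+* 𝔽).comp (X.W.subtype.comp (algebraMap ↥X.Wτ ↥X.W)) := by
        ext c
        rfl
      have h2 : eval₂ (algebraMap ↥X.Wτ ↥X.W) z p = 0 := hp
      have h3 := hom_eval₂ p (algebraMap ↥X.Wτ ↥X.W) X.W.subtype z
      have h4 := hom_eval₂ p (X.W.subtype.comp (algebraMap ↥X.Wτ ↥X.W)) (σ : 𝔽 →+* 𝔽) (z : 𝔽)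
      rw [h1]
      refine h4.symm.trans ?_
      have h5 : eval₂ (X.W.subtype.comp (algebraMap ↥X.Wτ ↥X.W)) (z : 𝔽) p = 0 := by
        refine h3.symm.trans ?_
        rw [h2, map_zero]
      rw [h5, map_zero]
    have hI : IsIntegral ↥X.W (σ (z : 𝔽)) := by
      refine ⟨p.map (mapWτ X σ hs htr), hpm.map _, ?_⟩
      rw [eval₂_map]
      exact hroot
    obtain ⟨y', hy'⟩ := IsIntegrallyClosed.algebraMap_eq_of_integral hI
    rw [← hy']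
    exact y'.2
  exact hint ⟨y, hy⟩

omit σ hs htr in
/-- **an automorphism `σ` such that `σ` and `σ⁻¹` satisfy the hypothesis preserves the maximal
ideal of `W`.** -/
theorem ρ_map_eq_zero (σ : 𝔽 ≃ₐ[Ω] 𝔽) (hs : (σ : 𝔽 →ₐ[Ω] 𝔽) X.τ ∈ X.W)
    (htr : Transcendental (ResidueField ↥A) (X.ρ ⟨(σ : 𝔽 →ₐ[Ω] 𝔽) X.τ, hs⟩))
    (hs' : (σ.symm : 𝔽 →ₐ[Ω] 𝔽) X.τ ∈ X.W)
    (htr' : Transcendental (ResidueField ↥A) (X.ρ ⟨(σ.symm : 𝔽 →ₐ[Ω] 𝔽) X.τ, hs'⟩))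
    {m : 𝔽} (hm : m ∈ X.W) (hρ : X.ρ ⟨m, hm⟩ = 0) :
    X.ρ ⟨(σ : 𝔽 →ₐ[Ω] 𝔽) m, map_mem_W X (σ : 𝔽 →ₐ[Ω] 𝔽) hs htr hm⟩ = 0 := by
  by_contra h
  have hσm := map_mem_W X (σ : 𝔽 →ₐ[Ω] 𝔽) hs htr hm
  have h0 : (σ : 𝔽 →ₐ[Ω] 𝔽) m ≠ 0 := X.ρ_ne_zero_imp_ne_zero hσm h
  have hinv : ((σ : 𝔽 →ₐ[Ω] 𝔽) m)⁻¹ ∈ X.W := (X.inv_mem_W_iff hσm h0).2 h
  have h1 := map_mem_W X (σ.symm : 𝔽 →ₐ[Ω] 𝔽) hs' htr' hinv
  have h2 : (σ.symm : 𝔽 →ₐ[Ω] 𝔽) (((σ : 𝔽 →ₐ[Ω] 𝔽) m)⁻¹) = m⁻¹ := by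
    rw [map_inv₀]
    congr 1
    exact σ.symm_apply_apply m
  rw [h2] at h1
  have hm0 : m ≠ 0 := by
    rintro rfl
    exact h0 (map_zero _)
  exact X.ρ_ne_zero_of_inv_mem hm h1 hm0 hρ

end Fermat.Agent.RB.ROLD

end
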