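/-
RB — helper4 — [ROLD-q], part 4: **the automorphisms of the Legendre cover `legE Ω N / F̄(X₀(N))`
preserve the Gauss valuation ring `legWE`** (at a valuation ring `A` of `ℚ̄` over an odd prime
`q ∤ N`) and its maximal ideal.

An automorphism `σ` of `legE Ω N` over `Ω` fixing `j` maps the uniformizer `τ` (one of the six
Legendre parameters with invariant `j`) to another Legendre parameter `σ τ` with the same `j`;
the Legendre relation forces `σ τ` to be Gauss-integral with transcendental reduction, and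
`ROLD_helper4_Aut` applies.
-/
import Mathlib
import Fermat.Agent.RB.ROLD_helper4_Aut
import Fermat.Agent.FG.INST_helper5_Leg
import Fermat.Agent.FG.EGAL_helper6_PullLeg
import Fermat.Agent.MP.ROLDQ_helper8_HostSeriesC

set_option autoImplicit false
set_option linter.unusedSectionVars false
set_option linter.style.haveILetI false
set_option synthInstance.maxHeartbeats 400000

noncomputable section

namespace Fermat.Agent.RB.ROLD

open AlgebraicCurve IsLocalRing IntermediateField Polynomial ModularCurve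
open Fermat.Agent.FG Fermat.Agent.JA Fermat.Agent.SS Fermat.Agent.FF

section Field

variable {K L : Type*} [Field K] [IsAlgClosed K] [Field L] [Algebra K L]

/-- an algebraic element of an extension of an algebraically closed field is a constant. -/
theorem exists_algebraMap_eq_of_isAlgebraic {s : L} (hs : IsAlgebraic K s) :
    ∃ c : K, algebraMap K L c = s := by
  have hint : IsIntegral K s := hs.isIntegral
  have hdeg : (minpoly K s).degree = 1 :=
    IsAlgClosed.degree_eq_one_of_irreducible K (minpoly.irreducible hint)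
  exact minpoly.mem_range_of_degree_eq_one K s hdeg

/-- **a Legendre parameter with a transcendental invariant is transcendental**: if `t` is
transcendental and `s`, `t` have the same Legendre invariant `j`, then `s` is transcendental. -/
theorem transcendental_of_legendre_rel (h256 : (256 : L) ≠ 0) {t j s : L}
    (ht : Transcendental K t)
    (hrt : j * (t ^ 2 * (t - 1) ^ 2) = 256 * (t ^ 2 - t + 1) ^ 3)
    (hrs : j * (s ^ 2 * (s - 1) ^ 2) = 256 * (s ^ 2 - s + 1) ^ 3) : Transcendental K s := by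
  intro halg
  obtain ⟨c, rfl⟩ := exists_algebraMap_eq_of_isAlgebraic halg
  have h256K : (256 : K) ≠ 0 := by
    intro h0
    apply h256
    have := congrArg (algebraMap K L) h0
    rwa [map_ofNat, map_zero] at this
  by_cases hD : c ^ 2 * (c - 1) ^ 2 = 0
  · have hD' : (algebraMap K L c) ^ 2 * (algebraMap K L c - 1) ^ 2 = 0 := by
      have := congrArg (algebraMap K L) hD
      simpa using this
    rw [hD', mul_zero] at hrs
    have h1 : (c ^ 2 - c + 1) ^ 3 = 1 := by
      rcases mul_eq_zero.1 hD with h | h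
      · have hc : c = 0 := by simpa using h
        rw [hc]; ring
      · have hc : c = 1 := by
          have : c - 1 = 0 := by simpa using h
          exact sub_eq_zero.1 this
        rw [hc]; ring
    have h2 : ((algebraMap K L c) ^ 2 - algebraMap K L c + 1) ^ 3 = 1 := by
      have := congrArg (algebraMap K L) h1
      simpa using this
    rw [h2, mul_one] at hrs
    exact h256 hrs.symm
  · -- `j` is a constant
    set c' : K := 256 * (c ^ 2 - c + 1) ^ 3 / (c ^ 2 * (c - 1) ^ 2) with hc'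
    have hj : j = algebraMap K L c' := by
      have hD' : algebraMap K L (c ^ 2 * (c - 1) ^ 2) ≠ 0 := (_root_.map_ne_zero _).2 hD
      rw [hc', map_div₀, eq_div_iff hD']
      simp only [map_mul, map_pow, map_sub, map_add, map_one, map_ofNat]
      exact hrs
    apply ht
    refine ⟨C 256 * (X ^ 2 - X + 1) ^ 3 - C c' * (X ^ 2 * (X - 1) ^ 2), ?_, ?_⟩
    · intro h0
      have := congrArg (Polynomial.eval 0) h0
      simp at this
      exact h256K this
    · simp only [map_sub, map_mul, map_pow, map_add, map_one, aeval_X, aeval_C, map_ofNat]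
      rw [← hj, hrt]
      ring

end Field

section Abs

variable {Ω : Type*} [Field Ω] {A : ValuationSubring Ω} {𝔽 : Type*} [Field 𝔽] [Algebra Ω 𝔽]
  {𝔽b : Type*} [Field 𝔽b] [Algebra (ResidueField ↥A) 𝔽b] (X : GoodRed Ω A 𝔽 𝔽b)

/-- **a Legendre parameter with an integral invariant is integral** (odd residue
characteristic). -/
theorem mem_W_of_legendre_rel (h256 : (256 : 𝔽b) ≠ 0) {j s : 𝔽} (hj : j ∈ X.W)
    (hrs : j * (s ^ 2 * (s - 1) ^ 2) = 256 * (s ^ 2 - s + 1) ^ 3) : s ∈ X.W := by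
  by_contra hs
  have hs0 : s ≠ 0 := fun h => hs (h ▸ X.W.zero_mem)
  have hu : s⁻¹ ∈ X.W := (X.W.mem_or_inv_mem s).resolve_left hs
  have hρu : X.ρ ⟨s⁻¹, hu⟩ = 0 := by
    by_contra h
    have := (X.inv_mem_W_iff hu (inv_ne_zero hs0)).2 h
    rw [inv_inv] at this
    exact hs this
  have hid : j * (s⁻¹ ^ 2 * (1 - s⁻¹) ^ 2) = 256 * (1 - s⁻¹ + s⁻¹ ^ 2) ^ 3 := by
    have h1 : j * (s⁻¹ ^ 2 * (1 - s⁻¹) ^ 2) = (j * (s ^ 2 * (s - 1) ^ 2)) * s⁻¹ ^ 6 := by
      field_simp
    have h2 : 256 * (1 - s⁻¹ + s⁻¹ ^ 2) ^ 3 = (256 * (s ^ 2 - s + 1) ^ 3) * s⁻¹ ^ 6 := by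
      field_simp
    rw [h1, h2, hrs]
  have hidW : (⟨j, hj⟩ : ↥X.W) * ((⟨s⁻¹, hu⟩ : ↥X.W) ^ 2 * (1 - ⟨s⁻¹, hu⟩) ^ 2) =
      256 * (1 - ⟨s⁻¹, hu⟩ + (⟨s⁻¹, hu⟩ : ↥X.W) ^ 2) ^ 3 := by
    apply Subtype.ext
    push_cast
    exact hid
  have h3 := congrArg X.ρ hidW
  simp only [map_mul, map_pow, map_sub, map_add, map_one, hρu, map_ofNat] at h3
  apply h256
  have h4 : (256 : 𝔽b) = 256 * (1 - 0 + 0 ^ 2) ^ 3 := by ring
  rw [h4, ← h3]
  ring

end Abs

local notation "Ω" => AlgebraicClosure ℚ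

section Leg

variable {q : ℕ} [Fact q.Prime] {A : ValuationSubring Ω} (hA : A.LiesOverPrime q)
  (N : ℕ) [NeZero N] (hqN : ¬ q ∣ N) (hq2 : q ≠ 2)

/-- the Legendre relation of the uniformizer. -/
theorem legTau_rel : legJE Ω N * (legTau Ω N ^ 2 * (legTau Ω N - 1) ^ 2) =
    256 * (legTau Ω N ^ 2 - legTau Ω N + 1) ^ 3 := by
  apply Subtype.ext
  push_cast
  exact (legU_rel Ω).symm

include hA hq2 in
theorem ofNat_256_ne_zero_legEt : (256 : legEt hA N hq2) ≠ 0 := by
  haveI : CharP (ResidueField ↥A) q := charP_residueField hA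
  have hq : q.Prime := Fact.out
  have h1 : ((256 : ℕ) : ResidueField ↥A) ≠ 0 := by
    rw [Ne, CharP.cast_eq_zero_iff (ResidueField ↥A) q]
    intro hdvd
    have h2 : q ∣ 2 ^ 8 := by norm_num; exact hdvd
    exact hq2 ((Nat.prime_dvd_prime_iff_eq hq Nat.prime_two).1 (hq.dvd_of_dvd_pow h2))
  have h3 : algebraMap (ResidueField ↥A) (legEt hA N hq2) ((256 : ℕ) : ResidueField ↥A) ≠ 0 :=
    (_root_.map_ne_zero _).2 h1
  rw [map_natCast] at h3
  exact_mod_cast h3

variable (σ : ↥(legE Ω N) ≃ₐ[Ω] ↥(legE Ω N)) (hσ : σ (legJE Ω N) = legJE Ω N)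

include hσ in
theorem legTau_rel_apply : legJE Ω N * (σ (legTau Ω N) ^ 2 * (σ (legTau Ω N) - 1) ^ 2) =
    256 * (σ (legTau Ω N) ^ 2 - σ (legTau Ω N) + 1) ^ 3 := by
  have h := congrArg σ (legTau_rel N)
  simp only [map_mul, map_pow, map_sub, map_add, map_one, map_ofNat, hσ] at h
  exact h

include hσ hqN in
/-- `σ τ` is Gauss-integral. -/
theorem apply_legTau_mem : σ (legTau Ω N) ∈ legWE hA N hq2 :=
  mem_W_of_legendre_rel (legGoodRed hA N hqN hq2) (ofNat_256_ne_zero_legEt hA N hq2)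
    (Fermat.Agent.MP.legJE_mem_legWE N hA hq2) (legTau_rel_apply N σ hσ)

include hσ in
/-- the reduction of `σ τ` is transcendental. -/
theorem transcendental_legρ_apply_legTau :
    Transcendental (ResidueField ↥A)
      (legρ hA N hq2 ⟨σ (legTau Ω N), apply_legTau_mem hA N hqN hq2 σ hσ⟩) := by
  haveI : IsAlgClosed (ResidueField ↥A) := isAlgClosed_residueField A
  set X := legGoodRed hA N hqN hq2 with hX
  have ht : Transcendental (ResidueField ↥A) X.τb := X.transcendental_τb
  set jW : ↥(legWE hA N hq2) := ⟨legJE Ω N, Fermat.Agent.MP.legJE_mem_legWE N hA hq2⟩ with hjW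
  set tW : ↥(legWE hA N hq2) := ⟨legTau Ω N, legTau_mem_legWE hA N hq2⟩ with htW
  set sW : ↥(legWE hA N hq2) := ⟨σ (legTau Ω N), apply_legTau_mem hA N hqN hq2 σ hσ⟩ with hsW
  have hrt : jW * (tW ^ 2 * (tW - 1) ^ 2) = 256 * (tW ^ 2 - tW + 1) ^ 3 := by
    apply Subtype.ext
    push_cast
    exact legTau_rel N
  have hrs : jW * (sW ^ 2 * (sW - 1) ^ 2) = 256 * (sW ^ 2 - sW + 1) ^ 3 := by
    apply Subtype.ext
    push_cast
    exact legTau_rel_apply N σ hσ
  have hrt' := congrArg (legρ hA N hq2) hrt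
  have hrs' := congrArg (legρ hA N hq2) hrs
  simp only [map_mul, map_pow, map_sub, map_add, map_one, map_ofNat] at hrt' hrs'
  exact transcendental_of_legendre_rel (ofNat_256_ne_zero_legEt hA N hq2) ht hrt' hrs'

include hσ in
theorem symm_apply_legJE : σ.symm (legJE Ω N) = legJE Ω N := by
  conv_lhs => rw [← hσ]
  exact σ.symm_apply_apply _

include hσ hqN in
/-- **`σ` preserves the Gauss valuation ring.** -/
theorem apply_mem_legWE {y : ↥(legE Ω N)} (hy : y ∈ legWE hA N hq2) : σ y ∈ legWE hA N hq2 :=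
  map_mem_W (legGoodRed hA N hqN hq2) (σ : ↥(legE Ω N) →ₐ[Ω] ↥(legE Ω N))
    (apply_legTau_mem hA N hqN hq2 σ hσ) (transcendental_legρ_apply_legTau hA N hqN hq2 σ hσ) hy

include hσ in
/-- **`σ` preserves the maximal ideal of the Gauss valuation ring.** -/
theorem legρ_apply_eq_zero {y : ↥(legE Ω N)} (hy : y ∈ legWE hA N hq2)
    (h0 : legρ hA N hq2 ⟨y, hy⟩ = 0) :
    legρ hA N hq2 ⟨σ y, apply_mem_legWE hA N hqN hq2 σ hσ hy⟩ = 0 :=
  ρ_map_eq_zero (legGoodRed hA N hqN hq2) σ
    (apply_legTau_mem hA N hqN hq2 σ hσ) (transcendental_legρ_apply_legTau hA N hqN hq2 σ hσ)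
    (apply_legTau_mem hA N hqN hq2 σ.symm (symm_apply_legJE N σ hσ))
    (transcendental_legρ_apply_legTau hA N hqN hq2 σ.symm (symm_apply_legJE N σ hσ)) hy h0

end Leg

end Fermat.Agent.RB.ROLD

end
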