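/-
RB — helper4 — [ROLD-q], part 5: **the norm from the Legendre host down to `X₀(N)`.**

`φ = fullToLegE Ω N : F̄(X₀(N)) → legE Ω N` is a Galois cover; its automorphisms preserve the Gauss
valuation ring `legWE` and its maximal ideal (`ROLD_helper4_Gal`).  Hence, for a Gauss-integral
function `g` on the host with `ρ g = ρ (φ w) · β ^ p`:

* `φ (N g) = ∏_σ σ g` is Gauss-integral with reduction `ρ (φ w) ^ d · B ^ p`, `d = [E : F]`;
* `div (N g) = π_* (div g)` (norm formula);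
* `d` is prime to every prime `p ≥ 5`.
-/
import Mathlib
import Fermat.Agent.RB.ROLD_helper4_Gal
import Fermat.Agent.MW.DIV_helper1_Leg
import Fermat.Agent.NP.BASEP_helper2_Old

set_option autoImplicit false
set_option linter.unusedSectionVars false
set_option linter.style.haveILetI false
set_option synthInstance.maxHeartbeats 400000

noncomputable section

namespace Fermat.Agent.RB.ROLD

open AlgebraicCurve IsLocalRing IntermediateField Polynomial ModularCurve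
open Fermat.Agent.FG Fermat.Agent.JA Fermat.Agent.SS Fermat.Agent.FF Fermat.Agent.S35

section Abs

variable {Ω : Type*} [Field Ω] {A : ValuationSubring Ω} {𝔽 : Type*} [Field 𝔽] [Algebra Ω 𝔽]
  {𝔽b : Type*} [Field 𝔽b] [Algebra (ResidueField ↥A) 𝔽b] (X : GoodRed Ω A 𝔽 𝔽b)

/-- a ring endomorphism preserving the Gauss ring and its maximal ideal transports a congruence
`g ≡ w₀ b ^ p` with `σ w₀ = w₀`. -/
theorem ρ_apply_of_congr (σ : 𝔽 →+* 𝔽) (h1 : ∀ y ∈ X.W, σ y ∈ X.W)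
    (h2 : ∀ (y : 𝔽) (hy : y ∈ X.W), X.ρ ⟨y, hy⟩ = 0 → X.ρ ⟨σ y, h1 y hy⟩ = 0)
    {w₀ g b : 𝔽} (hw₀ : w₀ ∈ X.W) (hσw : σ w₀ = w₀) (hg : g ∈ X.W) (hb : b ∈ X.W) (p : ℕ)
    (hρ : X.ρ ⟨g, hg⟩ = X.ρ ⟨w₀, hw₀⟩ * X.ρ ⟨b, hb⟩ ^ p) :
    X.ρ ⟨σ g, h1 g hg⟩ = X.ρ ⟨w₀, hw₀⟩ * X.ρ ⟨σ b, h1 b hb⟩ ^ p := by
  have hm : g - w₀ * b ^ p ∈ X.W := sub_mem hg (mul_mem hw₀ (pow_mem hb p))
  have h0 : X.ρ ⟨g - w₀ * b ^ p, hm⟩ = 0 := by
    have e : (⟨g - w₀ * b ^ p, hm⟩ : ↥X.W) = ⟨g, hg⟩ - ⟨w₀, hw₀⟩ * ⟨b, hb⟩ ^ p :=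
      Subtype.ext (by push_cast; rfl)
    rw [e, map_sub, map_mul, map_pow, hρ, sub_self]
  have h3 := h2 _ hm h0
  have e : (⟨σ (g - w₀ * b ^ p), h1 _ hm⟩ : ↥X.W) =
      ⟨σ g, h1 g hg⟩ - ⟨w₀, hw₀⟩ * ⟨σ b, h1 b hb⟩ ^ p := by
    apply Subtype.ext
    push_cast
    rw [map_sub, map_mul, map_pow, hσw]
  rw [e, map_sub, map_mul, map_pow, sub_eq_zero] at h3
  exact h3

/-- **the reduction of a product of conjugates.** -/
theorem ρ_prod_of_congr {ι : Type*} (σ : ι → 𝔽 →+* 𝔽) (h1 : ∀ i, ∀ y ∈ X.W, σ i y ∈ X.W)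
    (h2 : ∀ i (y : 𝔽) (hy : y ∈ X.W), X.ρ ⟨y, hy⟩ = 0 → X.ρ ⟨σ i y, h1 i y hy⟩ = 0)
    (h3 : ∀ i (y : 𝔽) (hy : y ∈ X.W), X.ρ ⟨y, hy⟩ ≠ 0 → X.ρ ⟨σ i y, h1 i y hy⟩ ≠ 0)
    {w₀ g : 𝔽} (hw₀ : w₀ ∈ X.W) (hσw : ∀ i, σ i w₀ = w₀) (hg : g ∈ X.W) (β : 𝔽b) (hβ : β ≠ 0)
    (p : ℕ) (hρ : X.ρ ⟨g, hg⟩ = X.ρ ⟨w₀, hw₀⟩ * β ^ p) (s : Finset ι) :
    ∃ (P : ↥X.W) (B : 𝔽b), (P : 𝔽) = ∏ i ∈ s, σ i g ∧ B ≠ 0 ∧
      X.ρ P = X.ρ ⟨w₀, hw₀⟩ ^ s.card * B ^ p := by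
  classical
  obtain ⟨⟨b, hb⟩, hbβ⟩ := X.ρ_surjective β
  rw [← hbβ] at hρ
  induction s using Finset.induction_on with
  | empty =>
    refine ⟨1, 1, ?_, one_ne_zero, ?_⟩
    · rw [Finset.prod_empty]; rfl
    · rw [map_one, Finset.card_empty, pow_zero, one_pow, one_mul]
  | insert i s hi ih =>
    obtain ⟨P, B, hP, hB, hρP⟩ := ih
    refine ⟨⟨σ i g, h1 i g hg⟩ * P, X.ρ ⟨σ i b, h1 i b hb⟩ * B, ?_, ?_, ?_⟩
    · rw [Finset.prod_insert hi, ← hP]; rfl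
    · exact mul_ne_zero (h3 i b hb (by rw [hbβ]; exact hβ)) hB
    · rw [map_mul, hρP, ρ_apply_of_congr X (σ i) (h1 i) (h2 i) hw₀ (hσw i) hg hb p hρ,
        Finset.card_insert_of_notMem hi]
      ring

end Abs

local notation "Ω" => AlgebraicClosure ℚ

section Leg

variable {q : ℕ} [Fact q.Prime] {A : ValuationSubring Ω} (hA : A.LiesOverPrime q)
  (N : ℕ) [NeZero N] (hqN : ¬ q ∣ N) (hq2 : q ≠ 2)

/-- the degree of the Legendre cover. -/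
def legCoverDeg : ℕ := finrankAlong Ω (fullToLegE Ω N)

theorem legCoverDeg_pos : 0 < legCoverDeg N := by
  letI := algebraAlong (fullToLegE Ω N)
  haveI : FiniteDimensional ↥(keyFq Ω N) ↥(legE Ω N) := finiteAlong_fullToLegE N
  exact Module.finrank_pos

theorem legCoverDeg_le_six : legCoverDeg N ≤ 6 := by
  letI := algebraAlong (fullToLegE Ω N)
  haveI : FiniteDimensional ↥(keyFq Ω N) ↥(legE Ω N) := finiteAlong_fullToLegE N
  have ht : IntermediateField.adjoin ↥(keyFq Ω N) {legTE Ω N} = ⊤ := adjoin_legTE_eq_top N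
  have hpt : aeval (legTE Ω N) (legSextic N) = 0 := by
    rw [aeval_def, eval₂_eq_eval_map]
    exact legSextic_eval N
  have hint : IsIntegral ↥(keyFq Ω N) (legTE Ω N) := Algebra.IsIntegral.isIntegral _
  have h2 : Module.finrank ↥(keyFq Ω N) ↥(legE Ω N) =
      (minpoly ↥(keyFq Ω N) (legTE Ω N)).natDegree := by
    rw [← IntermediateField.adjoin.finrank hint, ht, IntermediateField.finrank_top']
  show Module.finrank ↥(keyFq Ω N) ↥(legE Ω N) ≤ 6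
  rw [h2]
  exact (natDegree_le_of_dvd (minpoly.dvd _ _ hpt) (legSextic_ne_zero N)).trans
    (Fermat.Agent.MW.legSextic_natDegree_le N)

/-- **the degree of the Legendre cover is prime to every prime `p ≥ 5`.** -/
theorem legCoverDeg_coprime {p : ℕ} (hp : p.Prime) (hp5 : 5 ≤ p) :
    Nat.Coprime (legCoverDeg N) p := by
  by_cases h5 : p = 5
  · subst h5
    exact Fermat.Agent.MW.legDeg_coprime_five N
  · have h7 : 7 ≤ p := by
      by_contra hlt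
      have h6 : p = 6 := by omega
      subst h6
      exact absurd hp (by norm_num)
    have hlt : legCoverDeg N < p := lt_of_le_of_lt (legCoverDeg_le_six N) (by omega)
    exact ((Nat.Prime.coprime_iff_not_dvd hp).2
      (Nat.not_dvd_of_pos_of_lt (legCoverDeg_pos N) hlt)).symm

include hqN in
/-- **the norm of a Kummer lift is Gauss-integral, with reduction `w̄ ^ d · B ^ p`.** -/
theorem exists_ρ_normAlong (p : ℕ) (w : ↥(keyFq Ω N))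
    (hW : fullToLegE Ω N w ∈ legWE hA N hq2) {g : ↥(legE Ω N)} (hg : g ∈ legWE hA N hq2)
    {β : legEt hA N hq2} (hβ : β ≠ 0)
    (hρ : legρ hA N hq2 ⟨g, hg⟩ = legρ hA N hq2 ⟨fullToLegE Ω N w, hW⟩ * β ^ p) :
    ∃ (h : fullToLegE Ω N (normAlong (fullToLegE Ω N) g) ∈ legWE hA N hq2)
      (B : legEt hA N hq2), B ≠ 0 ∧
      legρ hA N hq2 ⟨fullToLegE Ω N (normAlong (fullToLegE Ω N) g), h⟩ =
        legρ hA N hq2 ⟨fullToLegE Ω N w, hW⟩ ^ legCoverDeg N * B ^ p := by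
  letI := algebraAlong (fullToLegE Ω N)
  haveI := isScalarTower_along (fullToLegE Ω N)
  haveI : FiniteDimensional ↥(keyFq Ω N) ↥(legE Ω N) := finiteAlong_fullToLegE N
  haveI : IsGalois ↥(keyFq Ω N) ↥(legE Ω N) := isGalois_fullToLegE N
  have hnorm : fullToLegE Ω N (normAlong (fullToLegE Ω N) g) =
      ∏ σ : (↥(legE Ω N) ≃ₐ[↥(keyFq Ω N)] ↥(legE Ω N)), σ g :=
    Algebra.norm_eq_prod_automorphisms ↥(keyFq Ω N) g
  have hfix : ∀ σ : (↥(legE Ω N) ≃ₐ[↥(keyFq Ω N)] ↥(legE Ω N)),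
      (σ.restrictScalars Ω) (legJE Ω N) = legJE Ω N := by
    intro σ
    rw [← fullToLegE_egalJ]
    exact σ.commutes _
  have h1 : ∀ (σ : (↥(legE Ω N) ≃ₐ[↥(keyFq Ω N)] ↥(legE Ω N))), ∀ y ∈ legWE hA N hq2,
      ((σ.restrictScalars Ω : ↥(legE Ω N) ≃ₐ[Ω] ↥(legE Ω N)) : ↥(legE Ω N) →+* ↥(legE Ω N)) y ∈
        legWE hA N hq2 :=
    fun σ y hy => apply_mem_legWE hA N hqN hq2 (σ.restrictScalars Ω) (hfix σ) hy
  have h2 : ∀ (σ : (↥(legE Ω N) ≃ₐ[↥(keyFq Ω N)] ↥(legE Ω N))) (y : ↥(legE Ω N))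
      (hy : y ∈ legWE hA N hq2), legρ hA N hq2 ⟨y, hy⟩ = 0 →
      legρ hA N hq2 ⟨_, h1 σ y hy⟩ = 0 :=
    fun σ y hy h0 => legρ_apply_eq_zero hA N hqN hq2 (σ.restrictScalars Ω) (hfix σ) hy h0
  have h3 : ∀ (σ : (↥(legE Ω N) ≃ₐ[↥(keyFq Ω N)] ↥(legE Ω N))) (y : ↥(legE Ω N))
      (hy : y ∈ legWE hA N hq2), legρ hA N hq2 ⟨y, hy⟩ ≠ 0 →
      legρ hA N hq2 ⟨_, h1 σ y hy⟩ ≠ 0 := by
    intro σ y hy hne h0
    apply hne
    have h4 := h2 σ.symm _ (h1 σ y hy) h0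
    have e : (⟨_, h1 σ.symm _ (h1 σ y hy)⟩ : ↥(legWE hA N hq2)) = ⟨y, hy⟩ :=
      Subtype.ext (σ.symm_apply_apply y)
    rw [e] at h4
    exact h4
  obtain ⟨P, B, hP, hB, hρP⟩ := ρ_prod_of_congr (legGoodRed hA N hqN hq2)
    (fun σ : (↥(legE Ω N) ≃ₐ[↥(keyFq Ω N)] ↥(legE Ω N)) =>
      ((σ.restrictScalars Ω : ↥(legE Ω N) ≃ₐ[Ω] ↥(legE Ω N)) : ↥(legE Ω N) →+* ↥(legE Ω N)))
    h1 h2 h3 hW (fun σ => σ.commutes w) hg β hβ p hρ Finset.univ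
  have hPe : (P : ↥(legE Ω N)) = fullToLegE Ω N (normAlong (fullToLegE Ω N) g) := by
    rw [hnorm, hP]
    rfl
  have hcard : (Finset.univ : Finset (↥(legE Ω N) ≃ₐ[↥(keyFq Ω N)] ↥(legE Ω N))).card =
      legCoverDeg N := by
    rw [Finset.card_univ, ← Nat.card_eq_fintype_card, IsGalois.card_aut_eq_finrank]
    rfl
  have hmem : fullToLegE Ω N (normAlong (fullToLegE Ω N) g) ∈ legWE hA N hq2 := by
    rw [← hPe]
    exact P.2
  refine ⟨hmem, B, hB, ?_⟩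
  have e1 : legρ hA N hq2 ⟨_, hmem⟩ = (legGoodRed hA N hqN hq2).ρ P :=
    congrArg (legρ hA N hq2) (Subtype.ext hPe.symm)
  rw [e1, hρP, hcard]
  rfl

/-- **the divisor of the norm is the push-forward of the divisor.** -/
theorem isDivOf_normAlong (D : Divisor.degZero (K := Ω) (F := ↥(legE Ω N))) {g : ↥(legE Ω N)}
    (m : ℕ) (hg : IsDivOf g (m • (D : Divisor Ω ↥(legE Ω N)))) :
    haveI : HasPrincipalDivisors Ω ↥(legE Ω N) := legE_principal_gen N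
    IsDivOf (normAlong (fullToLegE Ω N) g)
      (m • (Fermat.Agent.MW.pushDegZero (fullToLegE Ω N) (isIntegral_fullToLegE_bar N) D :
        Divisor Ω ↥(keyFq Ω N))) := by
  haveI : HasPrincipalDivisors Ω ↥(legE Ω N) := legE_principal_gen N
  have hN := Fermat.Agent.MW.normFormulaAlong_fullToLegE N
  letI := algebraAlong (fullToLegE Ω N)
  haveI := isScalarTower_along (fullToLegE Ω N)
  haveI : Module.Finite ↥(keyFq Ω N) ↥(legE Ω N) := finiteAlong_fullToLegE N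
  refine ⟨Algebra.norm_ne_zero_iff.mpr hg.1, fun v => ?_⟩
  rw [Fermat.Agent.MW.coe_pushDegZero, ← map_nsmul]
  exact hN g hg.1 _ hg.2 v

end Leg

end Fermat.Agent.RB.ROLD

end
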