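/-
RB — helper4 — **[ROLD-q] `LegRoldQ`, PROVED** (literal of `RB/MAZ_helper6_Parts.lean`).

A function `w` of `X₀(M)` over `ℚ̄` whose pull-back to the Legendre host is Gauss-integral at a
place `A` over `q ∤ 2M`, with reduction `w̄` not a `p`-th power but with all orders divisible by `p`
(`p ≥ 5`, `p ≠ q`), satisfying the reduced Hecke relations `T̄_ℓ w̄ = c w̄ ^ (a ℓ) u ^ p` (`ℓ ∉ S`):
then the eigensystem `a` occurs residually at level `M`.

Proof.  (A) `(1/p) div w̄` is a `p`-torsion class of `Pic⁰` of the reduced host; it lifts to a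
`p`-torsion class of `Pic⁰(legE Ω M)` (`LiftSpec` + `p`-divisibility of the kernel of reduction), with
a Gauss-integral Kummer function `g`, `ρ g = w̄ β ^ p` (`ROLD_helper4_Lift`).
(B) The automorphisms of the cover `legE Ω M / F̄(X₀(M))` preserve the Gauss ring
(`ROLD_helper4_Gal`), so `f' = N g` pulls back to a Gauss-integral function with reduction
`w̄ ^ d B ^ p`, `d = deg` prime to `p`, and `div f' = p D'`, `D' = π_* D` (`ROLD_helper4_Norm`).
(C) `V₀ ⊆ J₀(M)[p]`, the classes whose Kummer function reduces to a `p`-th power, is a Hecke-stable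
subgroup (`ROLD_helper4_V0`, `ROLD_helper4_Heck`); `x' = [D'] ∉ V₀` and `(T_ℓ - a ℓ) x' ∈ V₀`.
(D) The Hecke operators commute on `J₀(M)[p]` (`ROLD_helper4_Comm`), so there is a non-zero common
eigenvector with eigenvalues `a ℓ` (`ROLD_helper4_LinAlg`); conclude by helper6's `eigenTorsOccurs`.
-/
import Mathlib
import Fermat.Agent.RB.ROLD_helper4_Lift
import Fermat.Agent.RB.ROLD_helper4_Hens
import Fermat.Agent.RB.ROLD_helper4_Norm
import Fermat.Agent.RB.ROLD_helper4_Heck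
import Fermat.Agent.RB.ROLD_helper4_LinAlg
import Fermat.Agent.RB.ROLD_helper4_Comm
import Fermat.Agent.RB.MAZ_helper6_FinT
import Fermat.Agent.MW.DIV_helper2_KerRed
import Fermat.Agent.FG.LIFT_helper8_Padic
import Fermat.Agent.JA.BASE_helper1_Res

set_option autoImplicit false
set_option linter.unusedSectionVars false
set_option linter.unusedVariables false
set_option linter.style.haveILetI false
set_option synthInstance.maxHeartbeats 400000

noncomputable section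

namespace Fermat.Agent.RB.ROLD

open AlgebraicCurve IsLocalRing IntermediateField ModularCurve
open Fermat.Agent.FG Fermat.Agent.JA Fermat.Agent.SS Fermat.Agent.FF Fermat.Agent.S35
  Fermat.Agent.NP Fermat.Agent.MP Fermat.Agent.GR Fermat.Agent.X0N

local notation "Ω" => AlgebraicClosure ℚ

/-- a class with a Kummer function is killed by `p`. -/
theorem nsmul_mk_eq_zero_of_isDivOf {K F : Type*} [Field K] [Field F] [Algebra K F]
    (D : Divisor.degZero (K := K) (F := F)) {f : F} {p : ℕ}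
    (hf : IsDivOf f (p • (D : Divisor K F))) : p • (Pic0.mk D : Pic0 K F) = 0 := by
  have h1 : (p • Pic0.mk D : Pic0 K F) = Pic0.mk (p • D) := rfl
  rw [h1]
  refine (QuotientAddGroup.eq_zero_iff _).2 ?_
  rw [AddSubgroup.mem_addSubgroupOf]
  exact ⟨f, hf.1, fun v => hf.2 v⟩

set_option maxHeartbeats 1600000 in
/-- **[ROLD-q]**, proved. -/
theorem legRoldQ : Fermat.Agent.RB.LegRoldQ := by
  intro M _ q _ _ hq2 hqM p hp hp5 hpq A hA S a hS hqS hpS h2S w hW hnot hord hrel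
  haveI : Fact p.Prime := ⟨hp⟩
  haveI : IsAlgClosed (ResidueField ↥A) := isAlgClosed_residueField A
  have hq : q.Prime := Fact.out
  set X := legGoodRed hA M hqM hq2 with hX
  set wb : legEt hA M hq2 := legρ hA M hq2 ⟨fullToLegE Ω M w, hW⟩ with hwb
  have hwb0 : wb ≠ 0 := by
    intro h0
    exact hnot ⟨0, by rw [h0, zero_pow hp.ne_zero]⟩
  -- (A) the Kummer lift
  have hlift : X.LiftSpec := X.liftSpec_of_liesOverPrime hA
  have hens : IsMvHenselian A := isMvHenselian_of_liesOverPrime hA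
  have hval : A.valuation ((p : ℕ) : Ω) = 1 :=
    Fermat.Agent.TW.Kill.valuation_natCast_eq_one hq
      (fun h => hpq ((Nat.prime_dvd_prime_iff_eq hq hp).1 h).symm) hA
  have hdiv := Fermat.Agent.MW.kerRed_divisible X hens p hval
  obtain ⟨D, g, hg, β, hg0, hgD, hβ, hρg⟩ :=
    exists_kummer_lift X hlift p hp.ne_zero hdiv wb hwb0 hord
  -- (B) the norm
  obtain ⟨hmem, B, hB, hρN⟩ := exists_ρ_normAlong hA M hqM hq2 p w hW hg hβ hρg
  haveI : HasPrincipalDivisors Ω ↥(legE Ω M) := legE_principal_gen M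
  have hdivN := isDivOf_normAlong M D p ⟨hg0, hgD⟩
  set D' : Divisor.degZero (K := Ω) (F := ↥(keyFq Ω M)) :=
    Fermat.Agent.MW.pushDegZero (fullToLegE Ω M) (isIntegral_fullToLegE_bar M) D with hD'
  set f' : ↥(keyFq Ω M) := normAlong (fullToLegE Ω M) g with hf'
  have hr' : RedTo X (fullToLegE Ω M f') (wb ^ legCoverDeg M * B ^ p) := ⟨hmem, hρN⟩
  set x' : JZero M := Pic0.mk D' with hx'
  have hx'p : p • x' = 0 := nsmul_mk_eq_zero_of_isDivOf D' hdivN
  -- (C) the subgroup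
  have hconst : ∀ u : ↥(keyFq Ω M), u ≠ 0 → (∀ v : Place Ω ↥(keyFq Ω M), v.ord u = 0) →
      ∃ c : Ω, u = algebraMap Ω ↥(keyFq Ω M) c :=
    fun u _ hu => exists_const_of_forall_ord_eq_zero (jCoordBar M) u hu
  have hx'not : ¬ IsRedPow X (fullToLegE Ω M) p x' :=
    not_isRedPow_of_not_pow X (fullToLegE Ω M) hconst hp.ne_zero (legCoverDeg_coprime M hp hp5)
      D' hdivN hnot hB hr'
  set V : AddSubgroup (JZero M) := torsionNat (JZero M) (p ^ 1) with hV
  haveI : Finite ↥V := (stageIData M p).D.finite_torsion 1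
  set V₀ : AddSubgroup (JZero M) := redPowSubgroup X (fullToLegE Ω M) p with hV₀
  set N : {ℓ : Nat.Primes // (ℓ : ℕ) ∉ S} → (JZero M →+ JZero M) := fun i =>
    (heckeOperatorBar M i.1).toAddMonoidHom - (a (i.1 : ℕ)) • AddMonoidHom.id (JZero M) with hN
  have hNapp : ∀ (i : {ℓ : Nat.Primes // (ℓ : ℕ) ∉ S}) (y : JZero M),
      N i y = heckeOperatorBar M i.1 y - a (i.1 : ℕ) • y := fun i y => rfl
  have hi2 : ∀ i : {ℓ : Nat.Primes // (ℓ : ℕ) ∉ S}, (i.1 : ℕ) ≠ 2 := fun i h => i.2 (h ▸ h2S)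
  have hiM : ∀ i : {ℓ : Nat.Primes // (ℓ : ℕ) ∉ S}, ¬ (i.1 : ℕ) ∣ M :=
    fun i h => i.2 (hS _ i.1.2 h)
  have hiq : ∀ i : {ℓ : Nat.Primes // (ℓ : ℕ) ∉ S}, (i.1 : ℕ) ≠ q := fun i h => i.2 (h ▸ hqS)
  have hmemV : ∀ y : JZero M, y ∈ V ↔ p • y = 0 := by
    intro y
    rw [hV, mem_torsionNat, pow_one]
  obtain ⟨y, hyV, hy0, hker⟩ := exists_common_kernel_subgroup V V₀ N
    (by
      intro i y hy
      rw [hmemV] at hy ⊢
      rw [hNapp, nsmul_sub, ← map_nsmul, hy, map_zero, zero_sub, neg_eq_zero, smul_comm, hy,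
        smul_zero])
    (by
      intro i y _ hy
      haveI : NeZero (i.1 : ℕ) := ⟨i.1.2.ne_zero⟩
      haveI : NeZero (M * (i.1 : ℕ)) := ⟨Nat.mul_ne_zero (NeZero.ne M) i.1.2.ne_zero⟩
      rw [hNapp]
      refine V₀.sub_mem ?_ (V₀.zsmul_mem hy _)
      exact IsRedPow.map X (fullToLegE Ω M) (heckeOperatorBar M i.1).toAddMonoidHom
        (heckeFunBar M (i.1 : ℕ)) (legEtT hA M hq2 (i.1 : ℕ) i.1.2 (hi2 i))
        (fun E => heckeOperatorBar_mk_nsmul M (i.1 : ℕ) i.1.2 p E)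
        (fun f r h => redTo_heckeFunBar hA M hqM hq2 (i.1 : ℕ) i.1.2 (hi2 i) (hiM i) (hiq i) f r h)
        hy)
    (by
      intro i j y hy
      rw [hmemV] at hy
      have hTT := heckeOperatorBar_comm_of_nsmul_eq_zero M p hp5 i.1 j.1 (hiM i) (hiM j) y hy
      rw [hNapp, hNapp, hNapp, hNapp, map_sub, map_sub, map_zsmul, map_zsmul, hTT]
      module)
    x' ((hmemV x').2 hx'p) hx'not
    (by
      intro i
      haveI : NeZero (i.1 : ℕ) := ⟨i.1.2.ne_zero⟩
      haveI : NeZero (M * (i.1 : ℕ)) := ⟨Nat.mul_ne_zero (NeZero.ne M) i.1.2.ne_zero⟩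
      obtain ⟨c, u, hc, hu, hr⟩ := hrel (i.1 : ℕ) i.1.2 (hi2 i) i.2
      exact isRedPow_map_sub_zsmul X (fullToLegE Ω M) (heckeOperatorBar M i.1).toAddMonoidHom
        (heckeFunBar M (i.1 : ℕ)) (legEtT hA M hq2 (i.1 : ℕ) i.1.2 (hi2 i))
        (fun E => heckeOperatorBar_mk_nsmul M (i.1 : ℕ) i.1.2 p E)
        (fun f r h => redTo_heckeFunBar hA M hqM hq2 (i.1 : ℕ) i.1.2 (hi2 i) (hiM i) (hiq i) f r h)
        hp.ne_zero D' hdivN hwb0 hB hr' (a (i.1 : ℕ)) hc hu hr)
  -- (D) conclusion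
  refine Fermat.Agent.RB.eigenTorsOccurs M p hp hp5 S a hS y hy0 ((hmemV y).1 hyV) ?_
  intro ℓ hℓ hℓS
  exact sub_eq_zero.1 (hker ⟨⟨ℓ, hℓ⟩, hℓS⟩)

end Fermat.Agent.RB.ROLD

end
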