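/-
PROJECT RB — [SEL] (helper4), file 2: the family of local conditions of [SEL] — the family
`twFamily` of S56 with one more case: **`⊥` at the primes of `Σ`** — and the local count at `Σ`:
if `ρ̄` is scalar on `G_v` then `#L_v · |k|³ = 1 · |k|³ ≤ #H⁰(G_v, ad⁰ρ̄)`.
-/
import Mathlib
import Fermat.Agent.TW.Family_helper9
import Fermat.Agent.TW.UnrCount_helper6

set_option autoImplicit false
set_option linter.unusedSectionVars false

open CategoryTheory CategoryTheory.Abelian groupCohomology ExtCitation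

namespace Fermat.Agent.RB.SEL

open Fermat.Agent.TW Fermat.Agent.CFT.Sm Fermat.Agent.CFT.Bridge Fermat.Agent.CFT.Arith
  Fermat.Agent.CFT

/-- `GQ = Gal(ℚ̄/ℚ)`. -/
local notation "GQ" => (AlgebraicClosure ℚ ≃ₐ[ℚ] AlgebraicClosure ℚ)

section Family

variable {k : Type} [Field k] (p : ℕ) [Fact p.Prime] (rbar : GQ →* Matrix (Fin 2) (Fin 2) k)
  (Smin SigP : Finset Nat.Primes)
  (𝓗p : AddSubgroup (H1 (Rep.res (primeLocalToGlobal (pPrime p)) (adRep rbar))))

open Classical in
/-- the family of local conditions in `H¹(G_q, ad⁰)`: `𝓗p` at `p`, **nothing** (`⊥`) at `q ∈ Σ`,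
unramified at `q ∈ Smin ∖ Σ`, `q ≠ p`, and everything at `q ∉ Smin`. -/
noncomputable def selCond (q : Nat.Primes) :
    AddSubgroup (H1 (Rep.res (primeLocalToGlobal q) (adRep rbar))) :=
  if h : q = pPrime p then h ▸ 𝓗p
  else if q ∈ SigP then ⊥
  else if q ∈ Smin then unrCond q (Rep.res (primeLocalToGlobal q) (adRep rbar)) else ⊤

lemma selCond_p : selCond p rbar Smin SigP 𝓗p (pPrime p) = 𝓗p := by
  unfold selCond
  rw [dif_pos rfl]

lemma selCond_of_mem_sig {q : Nat.Primes} (hq : q ≠ pPrime p) (hqS : q ∈ SigP) :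
    selCond p rbar Smin SigP 𝓗p q = ⊥ := by
  unfold selCond
  rw [dif_neg hq, if_pos hqS]

lemma selCond_of_mem {q : Nat.Primes} (hq : q ≠ pPrime p) (hqSig : q ∉ SigP) (hqS : q ∈ Smin) :
    selCond p rbar Smin SigP 𝓗p q = unrCond q (Rep.res (primeLocalToGlobal q) (adRep rbar)) := by
  unfold selCond
  rw [dif_neg hq, if_neg hqSig, if_pos hqS]

lemma selCond_of_not_mem {q : Nat.Primes} (hq : q ≠ pPrime p) (hqSig : q ∉ SigP)
    (hqS : q ∉ Smin) : selCond p rbar Smin SigP 𝓗p q = ⊤ := by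
  unfold selCond
  rw [dif_neg hq, if_neg hqSig, if_neg hqS]

variable (hloc : ∀ q : Nat.Primes, IsSmooth (locBasis q)
  (Rep.res (primeLocalToGlobal q) (adRep rbar)))

/-- the same family, pulled back to the `Ext¹` of the engine -/
noncomputable def selFamily (q : Nat.Primes) :
    AddSubgroup (Ext (smUnit ℤ (locBasis q)) (YLoc (adRep rbar) q (hloc q)) 1) :=
  locCond (YLoc (adRep rbar) q (hloc q)) (selCond p rbar Smin SigP 𝓗p q)

lemma selFamily_p : selFamily p rbar Smin SigP 𝓗p hloc (pPrime p) =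
    locCond (YLoc (adRep rbar) (pPrime p) (hloc (pPrime p))) 𝓗p := by
  unfold selFamily
  rw [selCond_p]

lemma locCond_bot {Γ : Type} [Group Γ] {𝒰 : OpenBasis Γ} (X : SmRep ℤ 𝒰) :
    locCond X (⊥ : AddSubgroup (H1 X.obj)) = ⊥ := by
  ext e
  rw [mem_locCond, AddSubgroup.mem_bot, AddSubgroup.mem_bot]
  constructor
  · intro h
    exact clsH1_injective X (h.trans (map_zero _).symm)
  · rintro rfl
    exact map_zero _

lemma selFamily_of_mem_sig {q : Nat.Primes} (hq : q ≠ pPrime p) (hqS : q ∈ SigP) :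
    selFamily p rbar Smin SigP 𝓗p hloc q = ⊥ := by
  unfold selFamily
  rw [selCond_of_mem_sig p rbar Smin SigP 𝓗p hq hqS, locCond_bot]

lemma selFamily_of_mem {q : Nat.Primes} (hq : q ≠ pPrime p) (hqSig : q ∉ SigP)
    (hqS : q ∈ Smin) :
    selFamily p rbar Smin SigP 𝓗p hloc q = locCond (YLoc (adRep rbar) q (hloc q))
      (unrCond q (Rep.res (primeLocalToGlobal q) (adRep rbar))) := by
  unfold selFamily
  rw [selCond_of_mem p rbar Smin SigP 𝓗p hq hqSig hqS]

lemma selFamily_of_not_mem {q : Nat.Primes} (hq : q ≠ pPrime p) (hqSig : q ∉ SigP)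
    (hqS : q ∉ Smin) : selFamily p rbar Smin SigP 𝓗p hloc q = ⊤ := by
  unfold selFamily
  rw [selCond_of_not_mem p rbar Smin SigP 𝓗p hq hqSig hqS]
  rfl

end Family

section Sl2

variable {k : Type} [Field k]

/-- coordinates on the trace-zero matrices -/
def sl2Equiv : sl2 k ≃ (Fin 3 → k) where
  toFun w := ![w.1 0 0, w.1 0 1, w.1 1 0]
  invFun v := ⟨!![v 0, v 1; v 2, -v 0], by
    rw [mem_sl2_iff, Matrix.trace_fin_two]
    simp⟩
  left_inv w := by
    apply Subtype.ext
    have h := (mem_sl2_iff _).1 w.2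
    rw [Matrix.trace_fin_two] at h
    have h11 : w.1 1 1 = -w.1 0 0 := by linear_combination h
    ext i j
    fin_cases i <;> fin_cases j <;> simp [h11]
  right_inv v := by
    funext i
    fin_cases i <;> simp

lemma natCard_sl2 [Finite k] : Nat.card (sl2 k) = Nat.card k ^ 3 := by
  rw [Nat.card_congr sl2Equiv, Nat.card_fun, Nat.card_fin]

end Sl2

section CountSig

variable {k : Type} [Field k] [Finite k] (rbar : GQ →* Matrix (Fin 2) (Fin 2) k)

/-- a scalar matrix acts trivially on `ad⁰` -/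
lemma adRep_ρ_apply_of_scalar (g : GQ) (c : k) (hg : rbar g = c • (1 : Matrix (Fin 2) (Fin 2) k))
    (w : (adRep rbar).V) : (adRep rbar).ρ g w = w := by
  apply Subtype.ext
  change rbar g * (show sl2 k from w).1 * rbar g⁻¹ = (show sl2 k from w).1
  have h1 : rbar g * rbar g⁻¹ = 1 := by rw [← map_mul, mul_inv_cancel, map_one]
  have h2 : rbar g * (show sl2 k from w).1 = (show sl2 k from w).1 * rbar g := by
    rw [hg, Matrix.smul_mul, Matrix.mul_smul, one_mul, mul_one]
  rw [h2, mul_assoc, h1, mul_one]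

/-- **the local count at `Σ`**: if `ρ̄` is scalar on `G_q`, then `|k|³ ≤ #H⁰(G_q, ad⁰ρ̄)`. -/
theorem pow_three_le_card_ext_zero (q : Nat.Primes)
    (hq : IsSmooth (locBasis q) (Rep.res (primeLocalToGlobal q) (adRep rbar)))
    (hscal : ∀ τ : primeLocalGaloisGroup q, ∃ c : k,
      rbar (primeLocalToGlobal q τ) = c • (1 : Matrix (Fin 2) (Fin 2) k)) :
    Nat.card k ^ 3 ≤
      Nat.card (Ext (smUnit ℤ (locBasis q)) (YLoc (adRep rbar) q hq) 0) := by
  rw [natCard_ext_zero, ← natCard_sl2]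
  have : Finite {y : (YLoc (adRep rbar) q hq).obj.V //
      ∀ g : primeLocalGaloisGroup q, (YLoc (adRep rbar) q hq).obj.ρ g y = y} :=
    inferInstanceAs (Finite {y : sl2 k // _})
  refine Nat.card_le_card_of_injective (fun w : sl2 k => ⟨w, fun g => ?_⟩) ?_
  · obtain ⟨c, hc⟩ := hscal g
    exact adRep_ρ_apply_of_scalar rbar (primeLocalToGlobal q g) c hc w
  · intro w w' h
    exact congrArg Subtype.val h

end CountSig

end Fermat.Agent.RB.SEL
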