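/-
PROJECT RB — [SEL] (helper4), file 5: the `ad⁰`-class of a deformation `rbar + ε b` to the dual
numbers lies in the Selmer group of the family `selFamily`, provided (besides the hypotheses of
S56's `exists_clsOfCocycle_mem_selmer_twFamily` at the primes outside `Σ`) **the `ad`-cocycle
`b σ * rbar σ⁻¹` is scalar on the local Galois groups at `Σ`** (then it vanishes there, `2 ≠ 0`).
-/
import Mathlib
import Fermat.Agent.RB.SEL_helper4_Family
import Fermat.Agent.TW.EndProduct_helper6

set_option autoImplicit false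
set_option linter.unusedSectionVars false
set_option linter.style.haveILetI false

noncomputable section

namespace Fermat.Agent.RB.SEL

open Fermat.Agent.TW Fermat.Agent.S53 Fermat.Agent.CFT.Sm Fermat.Agent.CFT.Bridge
  Fermat.Agent.CFT.Arith groupCohomology CategoryTheory CategoryTheory.Abelian Matrix ExtCitation
  IsLocalRing GaloisRepAdic GaloisRep

/-- `Ω = AlgebraicClosure ℚ`. -/
local notation "Ω" => AlgebraicClosure ℚ

section Vanish

variable {G G' : Type} [Group G] [Group G'] (ψ : G' →* G) (X : Rep.{0} ℤ G)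

/-- a cocycle vanishing identically on the image of `ψ` has trivial restriction along `ψ` -/
theorem map_H1π_eq_zero_of_vanish (c : cocycles₁ X)
    (hc : ∀ g : G', (c : G → X.V) (ψ g) = 0) :
    (groupCohomology.map ψ (𝟙 (Rep.res ψ X)) 1).hom ((H1π X).hom c) = 0 := by
  obtain ⟨c', hc', hx⟩ := map_H1π_mem_vanishCond ψ X ⊤ c 0 (fun g _ => by
    rw [hc g, map_zero, sub_zero, add_zero])
  have h0 : c' = 0 := by
    apply Subtype.ext
    funext g
    exact hc' g (Subgroup.mem_top g)
  rw [← hx, h0, map_zero]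

end Vanish

section Mem

variable {k : Type} [Field k]

/-- **(I) for the family `selFamily`.** -/
theorem exists_clsOfCocycle_mem_selmer_selFamily {p : ℕ} [hp : Fact p.Prime] (hp2 : p ≠ 2)
    (hpk : (p : k) = 0) (ρbar : ResidualGaloisRep k) (β : Module.Basis (Fin 2) k ρbar.V)
    (Smin SigP S : Finset Nat.Primes) (D : PTDatum (levelBasis S) p (locHom S) (locFine S))
    (hS : IsSmooth (levelBasis S) (adRep (resMatrixOf ρbar β)))
    (hloc : ∀ q : Nat.Primes, IsSmooth (locBasis q)
      (Rep.res (primeLocalToGlobal q) (adRep (resMatrixOf ρbar β))))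
    (𝓗p : AddSubgroup (H1 (Rep.res (primeLocalToGlobal (pPrime p))
      (adRep (resMatrixOf ρbar β)))))
    {b : Gal → M2 k} (hb : IsTwCocycle (resMatrixOf ρbar β) b) (hsm : IsSmoothFun b)
    (hdet : (ofMatrix (defOfCocycle (resMatrixOf ρbar β) b hb)
      (matCont_defOfCocycle (resMatrixOf_factors ρbar β) hb hsm)).DetIsCyclotomic p)
    (hur : ∀ v : Nat.Primes, v ∉ S → (ofMatrix (defOfCocycle (resMatrixOf ρbar β) b hb)
      (matCont_defOfCocycle (resMatrixOf_factors ρbar β) hb hsm)).IsUnramifiedAt (v : ℕ))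
    (hunip : ∀ v ∈ Smin, v ≠ pPrime p → v ∉ SigP → ¬ ρbar.IsUnramifiedAt (v : ℕ) ∧
      (ofMatrix (defOfCocycle (resMatrixOf ρbar β) b hb)
        (matCont_defOfCocycle (resMatrixOf_factors ρbar β) hb hsm)).IsUnipotentOnInertiaAt (v : ℕ))
    (hsig : ∀ v ∈ SigP, ∀ τ : primeLocalGaloisGroup v, ∃ c : k,
      b (primeLocalToGlobal v τ) * resMatrixOf ρbar β (primeLocalToGlobal v τ)⁻¹ =
        c • (1 : M2 k))
    (hlocp : ∀ htr : ∀ σ, Matrix.trace (b σ * resMatrixOf ρbar β σ⁻¹) = 0,
      (groupCohomology.map (primeLocalToGlobal (pPrime p))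
        (𝟙 (Rep.res (primeLocalToGlobal (pPrime p)) (adRep (resMatrixOf ρbar β)))) 1).hom
      ((H1π (adRep (resMatrixOf ρbar β))).hom (adCocycle hb htr)) ∈ 𝓗p) :
    ∃ (htr : ∀ σ, Matrix.trace (b σ * resMatrixOf ρbar β σ⁻¹) = 0)
      (hlc : IsLC₁ (levelBasis S) (adCocycle hb htr : Gal → (adRep (resMatrixOf ρbar β)).V)),
      clsOfCocycle S hS hb htr hlc ∈ D.selmer (adSm S (resMatrixOf ρbar β) hS)
        (fun v : ↥S => selFamily p (resMatrixOf ρbar β) Smin SigP 𝓗p hloc v.1) := by
  haveI : CharP k p := (CharP.charP_iff_prime_eq_zero hp.out).mpr hpk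
  have h2 : (2 : k) ≠ 0 := by
    intro h
    have h3 : ((2 : ℕ) : k) = 0 := by exact_mod_cast h
    have h4 := (CharP.cast_eq_zero_iff k p 2).1 h3
    exact hp2 ((Nat.prime_dvd_prime_iff_eq hp.out Nat.prime_two).1 h4)
  have htr : ∀ σ, Matrix.trace (b σ * resMatrixOf ρbar β σ⁻¹) = 0 := by
    intro σ
    rw [map_inv_eq_inv]
    exact trace_mul_inv_eq_zero_of_detIsCyclotomic hb _ hpk hdet σ
  have hlc : IsLC₁ (levelBasis S)
      (adCocycle hb htr : Gal → (adRep (resMatrixOf ρbar β)).V) :=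
    isLC₁_adCocycle S (resMatrixOf_factors ρbar β) hb hsm htr
      (fun q hq => (isUnramifiedAt_defOfCocycle_iff hb _ (q : ℕ)).1 (hur q hq))
  refine ⟨htr, hlc, ?_⟩
  have hmem := clsOfCocycle_mem_selmer S D hS hb htr hlc
    (fun v => selCond p (resMatrixOf ρbar β) Smin SigP 𝓗p v.1) ?_
  · exact hmem
  rintro ⟨v, hvS⟩
  by_cases hv : v = pPrime p
  · subst hv
    show _ ∈ selCond p (resMatrixOf ρbar β) Smin SigP 𝓗p (pPrime p)
    rw [selCond_p]
    exact hlocp htr
  · show _ ∈ selCond p (resMatrixOf ρbar β) Smin SigP 𝓗p v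
    by_cases hvSig : v ∈ SigP
    · rw [selCond_of_mem_sig p _ Smin SigP 𝓗p hv hvSig, AddSubgroup.mem_bot]
      apply map_H1π_eq_zero_of_vanish
      intro τ
      obtain ⟨c, hc⟩ := hsig v hvSig τ
      have h3 := htr (primeLocalToGlobal v τ)
      rw [hc, Matrix.trace_smul, Matrix.trace_one, Fintype.card_fin, smul_eq_mul] at h3
      have hc0 : c = 0 := by
        rcases mul_eq_zero.1 h3 with h | h
        · exact h
        · exact absurd (by exact_mod_cast h) h2
      apply Subtype.ext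
      show b (primeLocalToGlobal v τ) * resMatrixOf ρbar β (primeLocalToGlobal v τ)⁻¹ = 0
      rw [hc, hc0, zero_smul]
    · by_cases hvm : v ∈ Smin
      · rw [selCond_of_mem p _ Smin SigP 𝓗p hv hvSig hvm]
        have hpq : p.Coprime (v : ℕ) := by
          rw [Nat.coprime_primes hp.out v.2]
          intro h
          exact hv (Subtype.ext h.symm)
        obtain ⟨hram, hun⟩ := hunip v hvm hv hvSig
        exact res_adCocycle_mem_unrCond hpk h2 ρbar β hb hsm v hpq hram hun htr
      · rw [selCond_of_not_mem p _ Smin SigP 𝓗p hv hvSig hvm]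
        exact AddSubgroup.mem_top _

end Mem

end Fermat.Agent.RB.SEL
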