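/-
PROJECT RB — [SEL] (helper4), file 8: **the number of `𝒪`-algebra maps `T → k[ε]` killing the
traceless coordinates at `Σ` is at most `#Sel + 1`**, `Sel` the Selmer group of the family
`selFamily`.  (`T` generated by the traces of a deformation `ρ` of type `twCondition`.)
The class map `f ↦ [b_f]` on SURJECTIVE `f` (matrix form `r_f = f ∘ [ρ]_b`, `b` a strict basis) is
injective because `T` is generated by traces; the non-surjective `f` is unique.
-/
import Mathlib
import Fermat.Agent.RB.SEL_helper4_Deform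
import Fermat.Agent.RB.SEL_helper4_Mem
import Fermat.Agent.TW.DefCount_helper6

set_option autoImplicit false
set_option linter.unusedSectionVars false
set_option linter.style.haveILetI false

noncomputable section

namespace Fermat.Agent.RB.SEL

open Fermat.Agent.TW Fermat.Agent.S53 Fermat.Agent.CFT.Sm Fermat.Agent.CFT.Bridge
  Fermat.Agent.CFT.Arith groupCohomology CategoryTheory CategoryTheory.Abelian Matrix ExtCitation
  IsLocalRing GaloisRepAdic GaloisRep

/-- `Ω = AlgebraicClosure ℚ`. -/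
local notation "Ω" => AlgebraicClosure ℚ

attribute [local instance] PS.dualNumberAlgebra

variable {𝒪 : Type} [CommRing 𝒪] [IsDomain 𝒪] [IsDiscreteValuationRing 𝒪]
  [IsAdicComplete (maximalIdeal 𝒪) 𝒪] [Finite (ResidueField 𝒪)]

/-- **the count of tangent vectors killing the local coordinates.** -/
theorem card_algHom_le_card_selmer {p : ℕ} [hp : Fact p.Prime] (hp2 : p ≠ 2)
    (hp𝒪 : (p : 𝒪) ∈ maximalIdeal 𝒪) {ρbar : ResidualGaloisRep (ResidueField 𝒪)}
    (β₀ : Module.Basis (Fin 2) (ResidueField 𝒪) ρbar.V) (SN SigN TN : Finset ℕ)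
    (Smin SigP SP : Finset Nat.Primes) (hpSP : pPrime p ∈ SP)
    (hST : ∀ v : Nat.Primes, v ∉ SP → (v : ℕ) ∉ TN)
    (hSmin : ∀ v ∈ Smin, v ≠ pPrime p → v ∉ SigP →
      (v : ℕ) ∈ SN ∧ (v : ℕ) ∉ SigN ∧ ¬ ρbar.IsUnramifiedAt (v : ℕ))
    (hSigP : ∀ v ∈ SigP, (v : ℕ) ∈ SigN)
    (T : Type) [CommRing T] [IsLocalRing T] [Algebra 𝒪 T] [IsLocalHom (algebraMap 𝒪 T)]
    (hres : Function.Surjective (residue T ∘ algebraMap 𝒪 T))
    (ρ : GaloisRepAdic T)
    (hρ : ρ.residual.IsEquiv (ρbar.baseChangeAlong (ResidueField.map (algebraMap 𝒪 T))))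
    (htype : flatCondition 𝒪 p TN ρ ∧
      ∀ ℓ ∈ SN, ℓ.Prime → ℓ ≠ p → ℓ ∉ SigN → ρ.IsUnipotentOnInertiaAt ℓ)
    (hadj : Algebra.adjoin 𝒪 (Set.range ρ.trace) = ⊤)
    (β : Module.Basis (Fin 2) T ρ.V)
    (hSP : IsSmooth (levelBasis SP) (adRep (resMatrixOf ρbar β₀)))
    (hloc : ∀ q : Nat.Primes, IsSmooth (locBasis q)
      (Rep.res (primeLocalToGlobal q) (adRep (resMatrixOf ρbar β₀))))
    (𝓗p : AddSubgroup (H1 (Rep.res (primeLocalToGlobal (pPrime p))
      (adRep (resMatrixOf ρbar β₀)))))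
    (hT1 : ∀ (b : Gal → M2 (ResidueField 𝒪)) (hb : IsTwCocycle (resMatrixOf ρbar β₀) b)
      (hs : IsSmoothFun b),
      (ofMatrix (defOfCocycle (resMatrixOf ρbar β₀) b hb)
        (matCont_defOfCocycle (resMatrixOf_factors ρbar β₀) hb hs)).DetIsCyclotomic p →
      (ofMatrix (defOfCocycle (resMatrixOf ρbar β₀) b hb)
        (matCont_defOfCocycle (resMatrixOf_factors ρbar β₀) hb hs)).IsFlatAt p →
      ∀ htr : ∀ σ, Matrix.trace (b σ * resMatrixOf ρbar β₀ σ⁻¹) = 0,
        (groupCohomology.map (primeLocalToGlobal (pPrime p))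
          (𝟙 (Rep.res (primeLocalToGlobal (pPrime p)) (adRep (resMatrixOf ρbar β₀)))) 1).hom
        ((H1π (adRep (resMatrixOf ρbar β₀))).hom (adCocycle hb htr)) ∈ 𝓗p)
    (s : Finset (T →ₐ[𝒪] DualNumber (ResidueField 𝒪)))
    (hs : ∀ f ∈ s, ∀ x ∈ locCoordIdeal ρ β SigN, f x = 0) :
    s.card ≤ Nat.card ((twDatum hp2 SP hpSP).selmer (adSm SP (resMatrixOf ρbar β₀) hSP)
      (fun v : ↥SP => selFamily p (resMatrixOf ρbar β₀) Smin SigP 𝓗p hloc v.1)) + 1 := by
  classical
  have hpk : ((p : ℕ) : ResidueField 𝒪) = 0 := by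
    have h1 : residue 𝒪 (p : 𝒪) = 0 := (residue_eq_zero_iff _).2 hp𝒪
    rwa [map_natCast] at h1
  haveI : CharP (ResidueField 𝒪) p := (CharP.charP_iff_prime_eq_zero hp.out).mpr hpk
  haveI : Finite (adSm SP (resMatrixOf ρbar β₀) hSP).obj.V :=
    inferInstanceAs (Finite (sl2 (ResidueField 𝒪)))
  haveI : Finite (Ext (smUnit ℤ (levelBasis SP)) (adSm SP (resMatrixOf ρbar β₀) hSP) 1) :=
    global_finite_ext_one hp2 SP hpSP (adSm SP (resMatrixOf ρbar β₀) hSP)
      (fun x => nsmul_adRep p (resMatrixOf ρbar β₀) x)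
  set Sel := (twDatum hp2 SP hpSP).selmer (adSm SP (resMatrixOf ρbar β₀) hSP)
      (fun v : ↥SP => selFamily p (resMatrixOf ρbar β₀) Smin SigP 𝓗p hloc v.1) with hSel
  have hfac := resMatrixOf_factors ρbar β₀
  haveI := isLocalHom_algebraMap_dualNumber (𝒪 := 𝒪)
  have hresD := residue_dualNumber_surjective (𝒪 := 𝒪)
  have hlocf : ∀ f : T →ₐ[𝒪] DualNumber (ResidueField 𝒪),
      IsLocalHom (f : T →+* DualNumber (ResidueField 𝒪)) :=
    fun f => L6.isLocalHom_of_residue_surjective hresD f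
  obtain ⟨b, hb⟩ := exists_basis_isStrictLift ρbar β₀ ρ hρ
  -- the matrix form of the deformation attached to `f`
  obtain ⟨rf, hrfdef⟩ : ∃ rf : (T →ₐ[𝒪] DualNumber (ResidueField 𝒪)) →
      (Gal →* M2 (DualNumber (ResidueField 𝒪))),
      ∀ f, rf f = mapMat (f : T →+* DualNumber (ResidueField 𝒪)) (matrixOf ρ b) := ⟨_, fun _ => rfl⟩
  have hrfapp : ∀ f σ, rf f σ = (matrixOf ρ b σ).map (f : T →+* DualNumber (ResidueField 𝒪)) := by
    intro f σ; rw [hrfdef]; rfl
  have hrf : ∀ f, MatCont (rf f) := fun f => by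
    rw [hrfdef]; exact (matCont_matrixOf ρ b).mapMat _ (hlocf f)
  have hstrict : ∀ f, IsStrictLift 𝒪 (resMatrixOf ρbar β₀) (rf f) := fun f => by
    rw [hrfdef]; exact hb.mapMat f (hlocf f)
  have hequiv : ∀ f : T →ₐ[𝒪] DualNumber (ResidueField 𝒪),
      (ρ.baseChangeAlong (f : T →+* DualNumber (ResidueField 𝒪)) (hlocf f)).IsEquiv
      (ofMatrix (rf f) (hrf f)) := fun f => by
    have h1 := baseChangeAlong_isEquiv_ofMatrix (f : T →+* DualNumber (ResidueField 𝒪)) (hlocf f) ρ b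
    exact isEquiv_trans h1 (by
      rw [isEquiv_ofMatrix_iff]
      exact ⟨1, fun σ => by rw [hrfdef, Units.val_one, one_mul, mul_one]⟩)
  have hfst : ∀ f σ, fstM (rf f σ) = (resMatrixOf ρbar β₀) σ := fun f =>
    (isStrictLift_dualNumber_iff _ _).1 (hstrict f)
  have hcoc : ∀ f, IsTwCocycle (resMatrixOf ρbar β₀) (cocycleOf (rf f)) := fun f => isTwCocycle_cocycleOf (hfst f)
  have hsm : ∀ f, IsSmoothFun (cocycleOf (rf f)) := fun f => isSmoothFun_cocycleOf (hrf f)
  have hdef : ∀ f, defOfCocycle (resMatrixOf ρbar β₀) (cocycleOf (rf f)) (hcoc f) = rf f :=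
    fun f => defOfCocycle_cocycleOf (hfst f)
  have hmat : ∀ f, (ofMatrix (rf f) (hrf f)).IsEquiv
      (ofMatrix (defOfCocycle (resMatrixOf ρbar β₀) (cocycleOf (rf f)) (hcoc f))
        (matCont_defOfCocycle hfac (hcoc f) (hsm f))) := by
    intro f
    rw [isEquiv_ofMatrix_iff]
    refine ⟨1, fun σ => ?_⟩
    rw [hdef f, Units.val_one, one_mul, mul_one]
  -- the type of the deformations attached to surjective maps
  have htype' : flatCondition 𝒪 p TN ρ ∧
      ∀ q ∈ SN \ SigN, q.Prime → q ≠ p → ρ.IsUnipotentOnInertiaAt q :=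
    ⟨htype.1, fun q hq hq' hqp =>
      htype.2 q (Finset.mem_sdiff.1 hq).1 hq' hqp (Finset.mem_sdiff.1 hq).2⟩
  have h𝒟f : ∀ f : T →ₐ[𝒪] DualNumber (ResidueField 𝒪), Function.Surjective f →
      (flatCondition 𝒪 p TN (ofMatrix (defOfCocycle (resMatrixOf ρbar β₀) (cocycleOf (rf f)) (hcoc f))
        (matCont_defOfCocycle hfac (hcoc f) (hsm f))) ∧
      ∀ q ∈ SN \ SigN, q.Prime → q ≠ p →
        (ofMatrix (defOfCocycle (resMatrixOf ρbar β₀) (cocycleOf (rf f)) (hcoc f))
          (matCont_defOfCocycle hfac (hcoc f) (hsm f))).IsUnipotentOnInertiaAt q) := by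
    intro f hf
    have h1 := twFlat_baseChangeAlong_of_surjective (𝒪 := 𝒪)
      (f : T →+* DualNumber (ResidueField 𝒪)) (hlocf f) hf htype'
    exact twFlat_of_isEquiv (isEquiv_trans (hequiv f) (hmat f)) h1
  -- membership in the Selmer group
  have hmem : ∀ f : T →ₐ[𝒪] DualNumber (ResidueField 𝒪), Function.Surjective f →
      (∀ x ∈ locCoordIdeal ρ β SigN, f x = 0) →
      ∃ (htr : ∀ σ, Matrix.trace (cocycleOf (rf f) σ * (resMatrixOf ρbar β₀) σ⁻¹) = 0)
        (hlc : IsLC₁ (levelBasis SP)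
          (adCocycle (hcoc f) htr : Gal → (adRep (resMatrixOf ρbar β₀)).V)),
        clsOfCocycle SP hSP (hcoc f) htr hlc ∈ Sel := by
    intro f hf hkill
    obtain ⟨⟨hdet, hflat, hur⟩, hunip⟩ := h𝒟f f hf
    refine exists_clsOfCocycle_mem_selmer_selFamily hp2 hpk ρbar β₀ Smin SigP SP
      (twDatum hp2 SP hpSP) hSP hloc 𝓗p (hcoc f) (hsm f) hdet
      (fun v hv => hur (v : ℕ) v.2 (hST v hv)) ?_ ?_
      (fun htr => hT1 _ (hcoc f) (hsm f) hdet hflat htr)
    · intro v hvm hvp hvSig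
      obtain ⟨h1, h2, h3⟩ := hSmin v hvm hvp hvSig
      have hvp' : (v : ℕ) ≠ p := fun h => hvp (Subtype.ext h)
      exact ⟨h3, hunip (v : ℕ) (Finset.mem_sdiff.2 ⟨h1, h2⟩) v.2 hvp'⟩
    · intro v hv τ
      have hσ := primeLocalToGlobal_mem_decompositionSubgroup v τ
      have hσ' := inv_mem hσ
      obtain ⟨c, hc⟩ := exists_map_eq_smul_one ρ b β SigN
        (f : T →+* DualNumber (ResidueField 𝒪)) hkill (hSigP v hv) (primeLocalPlace v)
        (primeLocalPlace_liesOverPrime v) hσ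
      obtain ⟨c', hc'⟩ := exists_map_eq_smul_one ρ b β SigN
        (f : T →+* DualNumber (ResidueField 𝒪)) hkill (hSigP v hv) (primeLocalPlace v)
        (primeLocalPlace_liesOverPrime v) hσ'
      rw [← hrfapp] at hc hc'
      exact ⟨_, cocycleOf_mul_eq_smul_one (hfst f) hc hc'⟩
  -- the class map
  haveI : Finite Sel := inferInstance
  haveI := Fintype.ofFinite Sel
  let Ψ : (T →ₐ[𝒪] DualNumber (ResidueField 𝒪)) → Option Sel := fun f =>
    if h : Function.Surjective f ∧ (∀ x ∈ locCoordIdeal ρ β SigN, f x = 0) then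
      some ⟨clsOfCocycle SP hSP (hcoc f) (hmem f h.1 h.2).choose (hmem f h.1 h.2).choose_spec.choose,
        (hmem f h.1 h.2).choose_spec.choose_spec⟩
    else none
  have hΨ : Set.InjOn Ψ (s : Set (T →ₐ[𝒪] DualNumber (ResidueField 𝒪))) := by
    intro f hfs f' hfs' h
    have hk := hs f hfs
    have hk' := hs f' hfs'
    by_cases hf : Function.Surjective f <;> by_cases hf' : Function.Surjective f'
    · simp only [Ψ, dif_pos (And.intro hf hk), dif_pos (And.intro hf' hk'), Option.some.injEq] at h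
      have h1 := congrArg Subtype.val h
      obtain ⟨X, hX⟩ := exists_twCoboundary_of_clsOfCocycle_eq SP hSP _ _ _ _ _ _ h1
      -- equal traces
      apply AlgHom.ext_of_adjoin_eq_top hadj
      rintro _ ⟨σ, rfl⟩
      have h2 := congrArg Matrix.trace (hX σ)
      rw [Matrix.trace_sub, Matrix.trace_sub, Matrix.trace_mul_comm X, sub_self, sub_eq_zero,
        cocycleOf, cocycleOf, trace_sndM, trace_sndM, hrfapp, hrfapp, trace_map_matrixOf,
        trace_map_matrixOf] at h2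
      apply TrivSqZeroExt.ext
      · rw [algHom_fst hres f, algHom_fst hres f']
      · exact h2.symm
    · simp only [Ψ, dif_pos (And.intro hf hk), dif_neg (not_and_of_not_left _ hf')] at h
      exact absurd h (by simp)
    · simp only [Ψ, dif_neg (not_and_of_not_left _ hf), dif_pos (And.intro hf' hk')] at h
      exact absurd h (by simp)
    · exact algHom_dualNumber_eq_of_not_surjective hres f f' hf hf'
  calc s.card ≤ (Finset.univ : Finset (Option Sel)).card :=
        Finset.card_le_card_of_injOn Ψ (fun _ _ => Finset.mem_univ _) hΨ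
    _ = Fintype.card Sel + 1 := by rw [Finset.card_univ, Fintype.card_option]
    _ = Nat.card Sel + 1 := by rw [Nat.card_eq_fintype_card]

end Fermat.Agent.RB.SEL
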