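/-
PROJECT RB — [SEL] (helper4), file 3: the Greenberg–Wiles count with deficits and the bound
`#Sel · |k|^{3 |Σ|} ≤ |k|^{#Q}` for the family `selFamily` (`⊥` at `Σ`), once the dual Selmer group
for `Smin ∪ Q` vanishes.
-/
import Mathlib
import Fermat.Agent.RB.SEL_helper4_Family
import Fermat.Agent.TW.CountTW_helper9

set_option autoImplicit false
set_option linter.unusedSectionVars false

open CategoryTheory CategoryTheory.Abelian groupCohomology ExtCitation Polynomial

namespace Fermat.Agent.RB.SEL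

open Fermat.Agent.TW Fermat.Agent.CFT.Sm Fermat.Agent.CFT.Bridge Fermat.Agent.CFT.Arith
  Fermat.Agent.CFT.Local Fermat.Agent.CFT

/-- `Ω = AlgebraicClosure ℚ`. -/
local notation "Ω" => AlgebraicClosure ℚ
/-- `GQ = Gal(Ω/ℚ)`. -/
local notation "GQ" => (AlgebraicClosure ℚ ≃ₐ[ℚ] AlgebraicClosure ℚ)

section Count

variable {p : ℕ} [Fact p.Prime] (hp2 : p ≠ 2) (S : Finset Nat.Primes) (hpS : pPrime p ∈ S)
  (X : SmRep ℤ (levelBasis S)) [hfin : Finite X.obj.V] (hX : ∀ x : X.obj.V, p • x = 0)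
  (L : ∀ v : ↥S, AddSubgroup (Ext (smUnit ℤ (locFine S v))
    (((twDatum hp2 S hpS).Rv v).obj X) 1))

include hX in
/-- **The Taylor–Wiles bound with deficits.** If the dual Selmer group vanishes,
`H⁰(G_ℚ, X) = 0`, the local conditions satisfy `#L_v · e_v ≤ #H⁰(G_v, X) · c_v`, `K ≤ N = #X^c`
and `∏ c_v ≤ K · M`, then `#Sel · ∏ e_v ≤ M`. -/
theorem twDatum_card_selmer_le_deficit
    [Finite (Ext X (ESSm S) 1)] [Finite (Ext X (ESSm S) 2)]
    (hdual : (twDatum hp2 S hpS).dualSelmer X L = ⊥) (N : ℕ)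
    (hec : Nat.card (Ext X (ESSm S) 1) =
      Nat.card (Ext X (ESSm S) 0) * Nat.card (Ext X (ESSm S) 2) * N)
    (hH0 : Nat.card (Ext (smUnit ℤ (levelBasis S)) X 0) = 1)
    (c e : ↥S → ℕ)
    (hL : ∀ v, Nat.card (L v) * e v ≤
      Nat.card (Ext (smUnit ℤ (locFine S v)) (((twDatum hp2 S hpS).Rv v).obj X) 0) * c v)
    (K M : ℕ) (hK : 0 < K) (hKN : K ≤ N) (hprod : ∏ v, c v ≤ K * M) :
    Nat.card ((twDatum hp2 S hpS).selmer X L) * ∏ v, e v ≤ M := by
  have h := twDatum_card_selmer_mul hp2 S hpS X hX L hdual N hec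
  rw [hH0, mul_one] at h
  have hfinv : ∀ v : ↥S, Finite (((twDatum hp2 S hpS).Rv v).obj X).obj.V := fun _ => hfin
  have hloc0 : ∀ v : ↥S, Finite (Ext (smUnit ℤ (locFine S v))
      (((twDatum hp2 S hpS).Rv v).obj X) 0) := fun v =>
    finite_ext_unit_zero (locFine S v) (((twDatum hp2 S hpS).Rv v).obj X)
  set P := ∏ v, Nat.card (Ext (smUnit ℤ (locFine S v)) (((twDatum hp2 S hpS).Rv v).obj X) 0)
    with hP
  have hPpos : 0 < P := Finset.prod_pos fun v _ => Nat.card_pos
  have hE1 : 0 < Nat.card (Ext X (ESSm S) 1) := Nat.card_pos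
  have hE0 : 0 < Nat.card (Ext X (ESSm S) 0) := by
    rcases Nat.eq_zero_or_pos (Nat.card (Ext X (ESSm S) 0)) with h0 | h0
    · rw [hec, h0, zero_mul, zero_mul] at hE1
      exact absurd hE1 (lt_irrefl 0)
    · exact h0
  set A := Nat.card ((twDatum hp2 S hpS).selmer X L) with hA
  set E := ∏ v, e v with hE
  have h1 : (∏ v, Nat.card (L v)) * E ≤ P * ∏ v, c v := by
    rw [hP, hE, ← Finset.prod_mul_distrib, ← Finset.prod_mul_distrib]
    exact Finset.prod_le_prod' fun v _ => hL v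
  have h2 : A * K * P ≤ A * Nat.card (Ext X (ESSm S) 0) * N * P := by
    apply Nat.mul_le_mul_right
    calc A * K = A * 1 * K := by rw [mul_one]
      _ ≤ A * Nat.card (Ext X (ESSm S) 0) * N :=
        Nat.mul_le_mul (Nat.mul_le_mul_left A hE0) hKN
  have h3 : (A * E) * (K * P) ≤ M * (K * P) := by
    calc (A * E) * (K * P) = (A * K * P) * E := by ring
      _ ≤ (A * Nat.card (Ext X (ESSm S) 0) * N * P) * E := Nat.mul_le_mul_right E h2
      _ = (∏ v, Nat.card (L v)) * E := by rw [h]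
      _ ≤ P * ∏ v, c v := h1
      _ ≤ P * (K * M) := Nat.mul_le_mul_left P hprod
      _ = M * (K * P) := by ring
  exact Nat.le_of_mul_le_mul_right h3 (Nat.mul_pos hK hPpos)

end Count

section CountSel

variable {k : Type} [Field k] [Finite k] {p : ℕ} [Fact p.Prime] (hp2 : p ≠ 2) [CharP k p]
  (ρbar : ResidualGaloisRep k) (β : Module.Basis (Fin 2) k ρbar.V)

variable (Smin SigP Q : Finset Nat.Primes) (hdisj : Disjoint Q Smin) (hSig : SigP ⊆ Smin)
  (hpSig : pPrime p ∉ SigP) (n : ℕ)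
  (hQ : ∀ q ∈ Q, IsTWPrime p ρbar n q)
  (hloc : ∀ q : Nat.Primes, IsSmooth (locBasis q)
    (Rep.res (primeLocalToGlobal q) (adRep (Fermat.Agent.S53.resMatrixOf ρbar β))))
  (hscal : ∀ q ∈ SigP, ∀ τ : primeLocalGaloisGroup q, ∃ c : k,
    Fermat.Agent.S53.resMatrixOf ρbar β (primeLocalToGlobal q τ) =
      c • (1 : Matrix (Fin 2) (Fin 2) k))
  (𝓗p : AddSubgroup (H1 (Rep.res (primeLocalToGlobal (pPrime p))
    (adRep (Fermat.Agent.S53.resMatrixOf ρbar β)))))
  (h𝓗p : Nat.card (locCond (YLoc (adRep (Fermat.Agent.S53.resMatrixOf ρbar β)) (pPrime p)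
      (hloc (pPrime p))) 𝓗p) ≤
    Nat.card (Ext (smUnit ℤ (locBasis (pPrime p)))
      (YLoc (adRep (Fermat.Agent.S53.resMatrixOf ρbar β)) (pPrime p) (hloc (pPrime p))) 0) *
      Nat.card k)

include hdisj hSig hpSig hQ hscal h𝓗p in
open Classical in
/-- the local bounds `#L_q · e_q ≤ #H⁰(G_q, ad⁰) · c_q` for the family `selFamily` -/
lemma card_selFamily_le (q : Nat.Primes) (hq : q ∈ Smin ∪ Q) :
    Nat.card (selFamily p (Fermat.Agent.S53.resMatrixOf ρbar β) Smin SigP 𝓗p hloc q) *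
        (if q ∈ SigP then Nat.card k ^ 3 else 1) ≤
      Nat.card (Ext (smUnit ℤ (locBasis q))
        (YLoc (adRep (Fermat.Agent.S53.resMatrixOf ρbar β)) q (hloc q)) 0) *
        (if q = pPrime p ∨ q ∈ Q then Nat.card k else 1) := by
  by_cases hqp : q = pPrime p
  · subst hqp
    rw [selFamily_p, if_pos (Or.inl rfl), if_neg hpSig, mul_one]
    exact h𝓗p
  · by_cases hqSig : q ∈ SigP
    · have hqQ : q ∉ Q := fun h => (Finset.disjoint_left.1 hdisj h) (hSig hqSig)
      rw [selFamily_of_mem_sig p _ Smin SigP 𝓗p hloc hqp hqSig, if_pos hqSig,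
        if_neg (by tauto), mul_one, AddSubgroup.card_bot, one_mul]
      exact pow_three_le_card_ext_zero _ q (hloc q) (hscal q hqSig)
    · rw [if_neg hqSig, mul_one]
      by_cases hqS : q ∈ Smin
      · have hqQ : q ∉ Q := fun h => (Finset.disjoint_left.1 hdisj h) hqS
        rw [selFamily_of_mem p _ Smin SigP 𝓗p hloc hqp hqSig hqS, if_neg (by tauto), mul_one]
        have : Finite (YLoc (adRep (Fermat.Agent.S53.resMatrixOf ρbar β)) q (hloc q)).obj.V :=
          inferInstanceAs (Finite (adRep (Fermat.Agent.S53.resMatrixOf ρbar β)).V)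
        exact card_locCond_unrCond_le q
          (YLoc (adRep (Fermat.Agent.S53.resMatrixOf ρbar β)) q (hloc q))
      · have hqQ : q ∈ Q := by
          rcases Finset.mem_union.1 hq with h | h
          · exact absurd h hqS
          · exact h
        obtain ⟨-, hdvd, hunr, hfrob⟩ := hQ q hqQ
        rw [selFamily_of_not_mem p _ Smin SigP 𝓗p hloc hqp hqSig hqS, if_pos (Or.inr hqQ),
          Nat.card_congr AddSubgroup.topEquiv.toEquiv]
        exact loc_card_ext_one_le_ad_residual q p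
          (dvd_trans (dvd_pow_self p (Nat.succ_ne_zero n)) hdvd) ρbar β hunr hfrob (hloc q)

include hdisj hSig hpSig hQ hscal h𝓗p in
open Classical in
/-- **The bound of [SEL]**: `#Sel_{Smin ∪ Q} · |k|^{3 #Σ} ≤ |k|^{#Q}` when the dual Selmer group for
`Smin ∪ Q` vanishes. -/
theorem sel_card_selmer_le (habs : ρbar.IsAbsolutelyIrreducible)
    (hpS : pPrime p ∈ Smin ∪ Q)
    (hS : IsSmooth (levelBasis (Smin ∪ Q)) (adRep (Fermat.Agent.S53.resMatrixOf ρbar β)))
    [Finite (Ext (XS (adRep (Fermat.Agent.S53.resMatrixOf ρbar β)) (Smin ∪ Q) hS)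
      (ESSm (Smin ∪ Q)) 1)]
    [Finite (Ext (XS (adRep (Fermat.Agent.S53.resMatrixOf ρbar β)) (Smin ∪ Q) hS)
      (ESSm (Smin ∪ Q)) 2)]
    (hec : Nat.card (Ext (XS (adRep (Fermat.Agent.S53.resMatrixOf ρbar β)) (Smin ∪ Q) hS)
        (ESSm (Smin ∪ Q)) 1) =
      Nat.card (Ext (XS (adRep (Fermat.Agent.S53.resMatrixOf ρbar β)) (Smin ∪ Q) hS)
        (ESSm (Smin ∪ Q)) 0) *
      Nat.card (Ext (XS (adRep (Fermat.Agent.S53.resMatrixOf ρbar β)) (Smin ∪ Q) hS)
        (ESSm (Smin ∪ Q)) 2) *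
      Nat.card {z : (XS (adRep (Fermat.Agent.S53.resMatrixOf ρbar β)) (Smin ∪ Q) hS).obj.V //
        (XS (adRep (Fermat.Agent.S53.resMatrixOf ρbar β)) (Smin ∪ Q) hS).obj.ρ
          complexConjugation z = z})
    (hbot : twTS hp2 (adRep (Fermat.Agent.S53.resMatrixOf ρbar β))
      (nsmul_adRep p (Fermat.Agent.S53.resMatrixOf ρbar β)) hloc
      (selFamily p (Fermat.Agent.S53.resMatrixOf ρbar β) Smin SigP 𝓗p hloc) (Smin ∪ Q) hpS hS
        = ⊥) :
    Nat.card ((twDatum hp2 (Smin ∪ Q) hpS).selmer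
      (XS (adRep (Fermat.Agent.S53.resMatrixOf ρbar β)) (Smin ∪ Q) hS)
      (fun v => selFamily p (Fermat.Agent.S53.resMatrixOf ρbar β) Smin SigP 𝓗p hloc v.1)) *
        Nat.card k ^ (3 * SigP.card) ≤
      Nat.card k ^ Q.card := by
  have hfinX : Finite (XS (adRep (Fermat.Agent.S53.resMatrixOf ρbar β)) (Smin ∪ Q) hS).obj.V :=
    inferInstanceAs (Finite (adRep (Fermat.Agent.S53.resMatrixOf ρbar β)).V)
  have hk0 : 0 < Nat.card k := Nat.card_pos
  have hmain := twDatum_card_selmer_le_deficit hp2 (Smin ∪ Q) hpS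
    (XS (adRep (Fermat.Agent.S53.resMatrixOf ρbar β)) (Smin ∪ Q) hS)
    (nsmul_adRep p (Fermat.Agent.S53.resMatrixOf ρbar β))
    (fun v => selFamily p (Fermat.Agent.S53.resMatrixOf ρbar β) Smin SigP 𝓗p hloc v.1)
    (dualSelmer_eq_bot_of_twTS hp2 _ _ hloc _ (Smin ∪ Q) hpS hS hbot) _ hec
    (card_ext_zero_adSm hp2 ρbar β habs (Smin ∪ Q) hS)
    (fun v => if v.1 = pPrime p ∨ v.1 ∈ Q then Nat.card k else 1)
    (fun v => if v.1 ∈ SigP then Nat.card k ^ 3 else 1)
    (fun v => card_selFamily_le ρbar β Smin SigP Q hdisj hSig hpSig n hQ hloc hscal 𝓗p h𝓗p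
      v.1 v.2)
    (Nat.card k) (Nat.card k ^ Q.card) hk0
    (card_le_card_adRep_fixed (two_ne_zero_of_charP hp2) _ complexConjugation) ?_
  · -- the product of the deficits
    have hE : (∏ v : ↥(Smin ∪ Q), if v.1 ∈ SigP then Nat.card k ^ 3 else 1) =
        Nat.card k ^ (3 * SigP.card) := by
      rw [Finset.prod_ite, Finset.prod_const, Finset.prod_const_one, mul_one, ← pow_mul]
      congr 2
      apply Finset.card_bij (fun v _ => v.1)
      · intro v hv
        exact (Finset.mem_filter.1 hv).2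
      · intro a _ b _ hab
        exact Subtype.ext hab
      · intro q hq
        exact ⟨⟨q, Finset.mem_union_left _ (hSig hq)⟩,
          Finset.mem_filter.2 ⟨Finset.mem_univ _, hq⟩, rfl⟩
    rw [hE] at hmain
    exact hmain
  -- the product of the local factors
  rw [Finset.prod_ite, Finset.prod_const, Finset.prod_const_one, mul_one, ← pow_succ']
  apply Nat.pow_le_pow_right hk0
  have hinj : (Finset.univ.filter
      (fun v : ↥(Smin ∪ Q) => v.1 = pPrime p ∨ v.1 ∈ Q)).card ≤ (insert (pPrime p) Q).card := by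
    apply Finset.card_le_card_of_injOn (fun v => v.1)
    · intro v hv
      rcases (Finset.mem_filter.1 hv).2 with h | h
      · exact Finset.mem_insert.2 (Or.inl h)
      · exact Finset.mem_insert.2 (Or.inr h)
    · intro a _ b _ hab
      exact Subtype.ext hab
  exact hinj.trans (Finset.card_insert_le _ _)

end CountSel

end Fermat.Agent.RB.SEL
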