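/-
PROJECT RB — [SEL] (helper4), file 4: the choice of the Taylor–Wiles primes for the family
`selFamily` (`⊥` at `Σ`) together with the bound `#Sel · |k|^{3 #Σ} ≤ |k|^r`; consequently
`3 #Σ ≤ r`.
-/
import Mathlib
import Fermat.Agent.RB.SEL_helper4_Count
import Fermat.Agent.TW.Final_helper9

set_option autoImplicit false
set_option linter.unusedSectionVars false

open CategoryTheory CategoryTheory.Abelian groupCohomology ExtCitation Polynomial

namespace Fermat.Agent.RB.SEL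

open Fermat.Agent.TW Fermat.Agent.CFT.Sm Fermat.Agent.CFT.Bridge Fermat.Agent.CFT.Arith
  Fermat.Agent.CFT.Local Fermat.Agent.CFT

/-- `Ω = AlgebraicClosure ℚ`. -/
local notation "Ω" => AlgebraicClosure ℚ
/-- `GQ = Gal(Ω/ℚ)`. -/
local notation "GQ" => (AlgebraicClosure ℚ ≃ₐ[ℚ] AlgebraicClosure ℚ)

section Final

variable {k : Type} [Field k] [Finite k] {p : ℕ} [Fact p.Prime] (hp2 : p ≠ 2) [CharP k p]
  (ρbar : ResidualGaloisRep k) (β : Module.Basis (Fin 2) k ρbar.V)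

variable (habs : ρbar.IsAbsolutelyIrreducible)
    (hdet : (GaloisRepAdic.ofResidualGaloisRep ρbar).DetIsCyclotomic p)
    (hsplit : ∀ σ : GQ, ∃ a b : k, LinearMap.charpoly (ρbar.ρ σ) = (X - C a) * (X - C b))
    (hTW : ∀ (K : Type) [Field K] [Algebra k K] (G : Subgroup GQ), G.index = 2 →
      ∀ V : Submodule K (ρbar.baseChange K).V,
        (∀ σ ∈ G, ∀ x ∈ V, (ρbar.baseChange K).ρ σ x ∈ V) → V = ⊥ ∨ V = ⊤)
    (hEC : ECGlobal p)

include habs hdet hsplit hTW hEC in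
/-- **The Taylor–Wiles primes and the Selmer bound for [SEL].** There is `r ≥ 3 #Σ` such that for
every level `n` there are `r` Taylor–Wiles primes `Q` (disjoint from `Smin` and from `avoid`) such
that the Selmer group for `Smin ∪ Q` of the family `selFamily` satisfies
`#Sel · |k|^{3 #Σ} ≤ |k|^r`. -/
theorem sel_primes_and_count (Smin SigP : Finset Nat.Primes) (hpS : pPrime p ∈ Smin)
    (hSig : SigP ⊆ Smin) (hpSig : pPrime p ∉ SigP)
    (hunr : ∀ q : Nat.Primes, q ∉ Smin → ρbar.IsUnramifiedAt (q : ℕ))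
    (hloc : ∀ q : Nat.Primes, IsSmooth (locBasis q)
      (Rep.res (primeLocalToGlobal q) (adRep (Fermat.Agent.S53.resMatrixOf ρbar β))))
    (hscal : ∀ q ∈ SigP, ∀ τ : primeLocalGaloisGroup q, ∃ c : k,
      Fermat.Agent.S53.resMatrixOf ρbar β (primeLocalToGlobal q τ) =
        c • (1 : Matrix (Fin 2) (Fin 2) k))
    (𝓗p : AddSubgroup (H1 (Rep.res (primeLocalToGlobal (pPrime p))
      (adRep (Fermat.Agent.S53.resMatrixOf ρbar β)))))
    (h𝓗p : Nat.card (locCond (YLoc (adRep (Fermat.Agent.S53.resMatrixOf ρbar β)) (pPrime p)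
        (hloc (pPrime p))) 𝓗p) ≤
      Nat.card (Ext (smUnit ℤ (locBasis (pPrime p)))
        (YLoc (adRep (Fermat.Agent.S53.resMatrixOf ρbar β)) (pPrime p) (hloc (pPrime p))) 0) *
        Nat.card k)
    (avoid : Finset Nat.Primes) :
    ∃ r : ℕ, 3 * SigP.card ≤ r ∧ ∀ n : ℕ, ∃ Q : Finset Nat.Primes, Q.card = r ∧
      Disjoint Q avoid ∧ Disjoint Q Smin ∧ (∀ q ∈ Q, IsTWPrime p ρbar n q) ∧
      ∀ (hpS' : pPrime p ∈ Smin ∪ Q)
        (hS' : IsSmooth (levelBasis (Smin ∪ Q)) (adRep (Fermat.Agent.S53.resMatrixOf ρbar β))),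
        Nat.card ((twDatum hp2 (Smin ∪ Q) hpS').selmer
          (XS (adRep (Fermat.Agent.S53.resMatrixOf ρbar β)) (Smin ∪ Q) hS')
          (fun v => selFamily p (Fermat.Agent.S53.resMatrixOf ρbar β) Smin SigP 𝓗p hloc v.1)) *
            Nat.card k ^ (3 * SigP.card) ≤ Nat.card k ^ r := by
  have hS := isSmooth_adRep_of_unramified ρbar β Smin hunr
  have hX := nsmul_adRep p (Fermat.Agent.S53.resMatrixOf ρbar β)
  have hfinX : Finite (XS (adRep (Fermat.Agent.S53.resMatrixOf ρbar β)) Smin hS).obj.V :=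
    inferInstanceAs (Finite (adRep (Fermat.Agent.S53.resMatrixOf ρbar β)).V)
  have hfinE : Finite (Ext (XS (adRep (Fermat.Agent.S53.resMatrixOf ρbar β)) Smin hS)
      (ESSm Smin) 1) :=
    finite_ext_ESSm hp2 Smin hpS _ hX 1 (by norm_num)
  have hfin := finite_twTS hp2 (adRep (Fermat.Agent.S53.resMatrixOf ρbar β)) hX hloc
    (selFamily p (Fermat.Agent.S53.resMatrixOf ρbar β) Smin SigP 𝓗p hloc) Smin hpS hS
  have h𝓛 : ∀ q, q ∉ Smin →
      selFamily p (Fermat.Agent.S53.resMatrixOf ρbar β) Smin SigP 𝓗p hloc q = ⊤ := by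
    intro q hq
    have hqp : q ≠ pPrime p := fun h => hq (h ▸ hpS)
    have hqSig : q ∉ SigP := fun h => hq (hSig h)
    exact selFamily_of_not_mem p _ Smin SigP 𝓗p hloc hqp hqSig hq
  have key : ∀ n : ℕ, ∃ Q : Finset Nat.Primes,
      Q.card = killNumber (twTS hp2 (adRep (Fermat.Agent.S53.resMatrixOf ρbar β)) hX hloc
        (selFamily p (Fermat.Agent.S53.resMatrixOf ρbar β) Smin SigP 𝓗p hloc) Smin hpS hS) ∧
      Disjoint Q avoid ∧ Disjoint Q Smin ∧ (∀ q ∈ Q, IsTWPrime p ρbar n q) ∧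
      ∀ (hpS' : pPrime p ∈ Smin ∪ Q)
        (hS' : IsSmooth (levelBasis (Smin ∪ Q)) (adRep (Fermat.Agent.S53.resMatrixOf ρbar β))),
        Nat.card ((twDatum hp2 (Smin ∪ Q) hpS').selmer
          (XS (adRep (Fermat.Agent.S53.resMatrixOf ρbar β)) (Smin ∪ Q) hS')
          (fun v => selFamily p (Fermat.Agent.S53.resMatrixOf ρbar β) Smin SigP 𝓗p hloc v.1)) *
            Nat.card k ^ (3 * SigP.card) ≤ Nat.card k ^ killNumber (twTS hp2
              (adRep (Fermat.Agent.S53.resMatrixOf ρbar β)) hX hloc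
              (selFamily p (Fermat.Agent.S53.resMatrixOf ρbar β) Smin SigP 𝓗p hloc) Smin hpS
              hS) := by
    intro n
    obtain ⟨Q, hcard, hdisjA, hdisjS, hQ, hbot⟩ := exists_tw_primes hp2 ρbar β habs hdet hsplit
      hTW hloc (selFamily p (Fermat.Agent.S53.resMatrixOf ρbar β) Smin SigP 𝓗p hloc) Smin hpS hS
      h𝓛 hfin n avoid
    refine ⟨Q, hcard, hdisjA, hdisjS, hQ, fun hpS' hS' => ?_⟩
    have hfinX' : Finite (XS (adRep (Fermat.Agent.S53.resMatrixOf ρbar β)) (Smin ∪ Q) hS').obj.V :=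
      inferInstanceAs (Finite (adRep (Fermat.Agent.S53.resMatrixOf ρbar β)).V)
    have hfinE1 : Finite (Ext (XS (adRep (Fermat.Agent.S53.resMatrixOf ρbar β)) (Smin ∪ Q) hS')
        (ESSm (Smin ∪ Q)) 1) :=
      finite_ext_ESSm hp2 (Smin ∪ Q) hpS' _ hX 1 (by norm_num)
    have hfinE2 : Finite (Ext (XS (adRep (Fermat.Agent.S53.resMatrixOf ρbar β)) (Smin ∪ Q) hS')
        (ESSm (Smin ∪ Q)) 2) :=
      finite_ext_ESSm hp2 (Smin ∪ Q) hpS' _ hX 2 le_rfl
    rw [← hcard]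
    exact sel_card_selmer_le hp2 ρbar β Smin SigP Q hdisjS hSig hpSig n hQ hloc hscal 𝓗p h𝓗p habs
      hpS' hS' (hEC (Smin ∪ Q) hpS' _ hX) (hbot hpS' hS')
  refine ⟨_, ?_, key⟩
  -- `3 #Σ ≤ r`, from the count at level `0`
  obtain ⟨Q, -, -, -, -, hcount⟩ := key 0
  have hpS' : pPrime p ∈ Smin ∪ Q := Finset.mem_union_left _ hpS
  have hS' : IsSmooth (levelBasis (Smin ∪ Q)) (adRep (Fermat.Agent.S53.resMatrixOf ρbar β)) :=
    hS.of_finer (levelBasis_finer_of_subset Finset.subset_union_left)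
  have h1 := hcount hpS' hS'
  have hk1 : 1 < Nat.card k := Finite.one_lt_card
  have hpos : 0 < Nat.card ((twDatum hp2 (Smin ∪ Q) hpS').selmer
      (XS (adRep (Fermat.Agent.S53.resMatrixOf ρbar β)) (Smin ∪ Q) hS')
      (fun v => selFamily p (Fermat.Agent.S53.resMatrixOf ρbar β) Smin SigP 𝓗p hloc v.1)) := by
    have hfinX' : Finite (XS (adRep (Fermat.Agent.S53.resMatrixOf ρbar β)) (Smin ∪ Q) hS').obj.V :=
      inferInstanceAs (Finite (adRep (Fermat.Agent.S53.resMatrixOf ρbar β)).V)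
    have := global_finite_ext_one hp2 (Smin ∪ Q) hpS'
      (XS (adRep (Fermat.Agent.S53.resMatrixOf ρbar β)) (Smin ∪ Q) hS') hX
    exact Nat.card_pos
  have h2 : Nat.card k ^ (3 * SigP.card) ≤ Nat.card k ^ killNumber (twTS hp2
      (adRep (Fermat.Agent.S53.resMatrixOf ρbar β)) hX hloc
      (selFamily p (Fermat.Agent.S53.resMatrixOf ρbar β) Smin SigP 𝓗p hloc) Smin hpS hS) :=
    le_trans (Nat.le_mul_of_pos_left _ hpos) h1
  exact (Nat.pow_le_pow_iff_right hk1).1 h2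

end Final

end Fermat.Agent.RB.SEL
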