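/-
PROJECT RB — [SEL] (helper4), file 6: generators of the maximal ideal relative to an ideal `K`.
If a local noetherian `𝒪`-algebra `R` with residue field `k`
(`|k| ≥ 3`) has at most `|k|^g + 1` algebra maps to `k[ε]` KILLING `K ≤ 𝔪_R`, then
`𝔪_R = 𝔪_𝒪 R + K + (y_1, …, y_g)`.
(Relative form of helper6's `TW.exists_gen_of_card_algHom_le`, plus Nakayama to drop `𝔪_R²`.)
-/
import Mathlib
import Fermat.Agent.TW.TangentCount_helper6
import Fermat.Agent.TW.Glue_helper1_Tangent

set_option autoImplicit false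
set_option linter.unusedSectionVars false

noncomputable section

namespace Fermat.Agent.RB.SEL

open IsLocalRing Fermat.Agent.S53 Fermat.Agent.TW

variable {𝒪 : Type*} [CommRing 𝒪] [IsLocalRing 𝒪]
  {R : Type*} [CommRing R] [IsLocalRing R] [Algebra 𝒪 R] [IsLocalHom (algebraMap 𝒪 R)]

attribute [local instance] PS.dualNumberAlgebra

/-- the algebra map attached to a derivation killing `K ⊇ tangentIdeal` -/
def derToAlgHomRel (hres : Function.Surjective (residue R ∘ algebraMap 𝒪 R)) (K : Ideal R)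
    (l : derSub (𝒪 := 𝒪) (tangentIdeal 𝒪 R ⊔ K)) : R →ₐ[𝒪] DualNumber (ResidueField 𝒪) :=
  derToAlgHom hres ⟨l.1, derSub_anti le_sup_left l.2⟩

theorem derToAlgHomRel_injective (hres : Function.Surjective (residue R ∘ algebraMap 𝒪 R))
    (K : Ideal R) : Function.Injective (derToAlgHomRel (𝒪 := 𝒪) hres K) := by
  intro l l' h
  have h1 := derToAlgHom_injective hres h
  exact Subtype.ext (Subtype.mk.inj h1)

theorem derToAlgHomRel_apply_of_mem (hres : Function.Surjective (residue R ∘ algebraMap 𝒪 R))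
    (K : Ideal R) (hK : K ≤ maximalIdeal R) (l : derSub (𝒪 := 𝒪) (tangentIdeal 𝒪 R ⊔ K)) {x : R}
    (hx : x ∈ K) : derToAlgHomRel hres K l x = 0 := by
  apply TrivSqZeroExt.ext
  · rw [algHom_fst hres, TrivSqZeroExt.fst_zero]
    exact (PS.resHom_eq_zero_iff hres x).2 (hK hx)
  · rw [derToAlgHomRel, derToAlgHom_snd, TrivSqZeroExt.snd_zero]
    exact l.2.2 x (Ideal.mem_sup_right hx)

/-- **Relative generators, with `𝔪²`.** -/
theorem exists_gen_of_card_algHom_le_rel [Finite (ResidueField 𝒪)]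
    (hres : Function.Surjective (residue R ∘ algebraMap 𝒪 R)) (K : Ideal R)
    (hK : K ≤ maximalIdeal R) (g : ℕ) (hk : 3 ≤ Nat.card (ResidueField 𝒪))
    (hT : ∀ s : Finset (R →ₐ[𝒪] DualNumber (ResidueField 𝒪)),
      (∀ f ∈ s, ∀ x ∈ K, f x = 0) → s.card ≤ Nat.card (ResidueField 𝒪) ^ g + 1) :
    ∃ y : Fin g → R, (∀ i, y i ∈ maximalIdeal R) ∧
      tangentIdeal 𝒪 R ⊔ K ⊔ Ideal.span (Set.range y) = maximalIdeal R := by
  classical
  set K' : Ideal R := tangentIdeal 𝒪 R ⊔ K with hK'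
  have hK'm : K' ≤ maximalIdeal R := sup_le tangentIdeal_le hK
  have hΛ : ∀ s : Finset (derSub (𝒪 := 𝒪) K'),
      s.card ≤ Nat.card (ResidueField 𝒪) ^ g + 1 := by
    intro s
    have := hT (s.map ⟨derToAlgHomRel hres K, derToAlgHomRel_injective hres K⟩) (by
      intro f hf x hx
      obtain ⟨l, -, rfl⟩ := Finset.mem_map.1 hf
      exact derToAlgHomRel_apply_of_mem hres K hK l hx)
    rwa [Finset.card_map] at this
  obtain ⟨hfin, hcard⟩ := finite_and_card_le_of_finset_card_le hΛ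
  have : Module.Finite (ResidueField 𝒪) (derSub (𝒪 := 𝒪) K') := Module.Finite.of_finite
  set d := Module.finrank (ResidueField 𝒪) (derSub (𝒪 := 𝒪) K') with hd
  have hpow : Nat.card (ResidueField 𝒪) ^ d ≤ Nat.card (ResidueField 𝒪) ^ g + 1 := by
    rw [hd, ← Module.natCard_eq_pow_finrank (K := ResidueField 𝒪)
      (V := derSub (𝒪 := 𝒪) K')]
    exact hcard
  have hdg : d ≤ g := by
    by_contra hlt
    rw [not_le] at hlt
    have h1 : Nat.card (ResidueField 𝒪) ^ (g + 1) ≤ Nat.card (ResidueField 𝒪) ^ d :=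
      Nat.pow_le_pow_right (by omega) hlt
    have h2 : 1 ≤ Nat.card (ResidueField 𝒪) ^ g := Nat.one_le_pow _ _ (by omega)
    have h3 : Nat.card (ResidueField 𝒪) ^ (g + 1) = Nat.card (ResidueField 𝒪) ^ g *
        Nat.card (ResidueField 𝒪) := pow_succ _ _
    nlinarith
  obtain ⟨y, hy, hgen⟩ := exists_gen_of_finrank hres d K' le_sup_left hK'm inferInstance rfl
  -- pad with zeros
  refine ⟨fun i => if h : (i : ℕ) < d then y ⟨i, h⟩ else 0, fun i => ?_, ?_⟩
  · dsimp only
    split_ifs with h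
    · exact hy _
    · exact Ideal.zero_mem _
  · have hspan : Ideal.span (Set.range fun i : Fin g => if h : (i : ℕ) < d then y ⟨i, h⟩ else 0) =
        Ideal.span (Set.range y) := by
      apply le_antisymm
      · rw [Ideal.span_le]
        rintro _ ⟨i, rfl⟩
        dsimp only
        split_ifs with h
        · exact Ideal.subset_span ⟨_, rfl⟩
        · exact Ideal.zero_mem _
      · rw [Ideal.span_le]
        rintro _ ⟨j, rfl⟩
        refine Ideal.subset_span ⟨⟨j, lt_of_lt_of_le j.2 hdg⟩, ?_⟩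
        simp
    rw [hspan]
    exact hgen

/-- **Relative generators** (Nakayama removes `𝔪_R²`). -/
theorem exists_gen_rel [Finite (ResidueField 𝒪)] [IsNoetherianRing R]
    (hres : Function.Surjective (residue R ∘ algebraMap 𝒪 R)) (K : Ideal R)
    (hK : K ≤ maximalIdeal R) (g : ℕ) (hk : 3 ≤ Nat.card (ResidueField 𝒪))
    (hT : ∀ s : Finset (R →ₐ[𝒪] DualNumber (ResidueField 𝒪)),
      (∀ f ∈ s, ∀ x ∈ K, f x = 0) → s.card ≤ Nat.card (ResidueField 𝒪) ^ g + 1) :
    ∃ y : Fin g → R, (∀ i, y i ∈ maximalIdeal R) ∧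
      maximalIdeal R = (maximalIdeal 𝒪).map (algebraMap 𝒪 R) ⊔ K ⊔ Ideal.span (Set.range y) := by
  obtain ⟨y, hy, hgen⟩ := exists_gen_of_card_algHom_le_rel hres K hK g hk hT
  refine ⟨y, hy, ?_⟩
  set N : Ideal R := (maximalIdeal 𝒪).map (algebraMap 𝒪 R) ⊔ K ⊔ Ideal.span (Set.range y) with hN
  have hNm : N ≤ maximalIdeal R := by
    refine sup_le (sup_le PS.map_maximalIdeal_le_maximalIdeal hK) ?_
    rw [Ideal.span_le]
    rintro _ ⟨i, rfl⟩
    exact hy i
  apply le_antisymm _ hNm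
  apply Submodule.le_of_le_smul_of_le_jacobson_bot (I := maximalIdeal R)
    (IsNoetherian.noetherian (maximalIdeal R)) (IsLocalRing.maximalIdeal_le_jacobson ⊥)
  conv_lhs => rw [← hgen]
  rw [smul_eq_mul, ← pow_two, tangentIdeal, hN]
  refine sup_le (sup_le (sup_le ?_ ?_) ?_) ?_
  · exact le_sup_of_le_left (le_sup_of_le_left le_sup_left)
  · exact le_sup_right
  · exact le_sup_of_le_left (le_sup_of_le_left le_sup_right)
  · exact le_sup_of_le_left le_sup_right

end Fermat.Agent.RB.SEL
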