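/-
PROJECT RB — [SEL] (helper4), file 9: **`SelStatement`** (interface 6, `IFACE_helper9_Sel`).
Assembly: `sel_primes_and_count` (Taylor–Wiles primes, `r ≥ 3 #Σ`, `#Sel · |k|^{3 #Σ} ≤ |k|^r`),
`card_algHom_le_card_selmer` (tangent vectors killing the local coordinates inject into `Sel`),
`exists_gen_rel` (relative generators); the local condition at `p` is chosen as in `S56.result`
(reducible / irreducible on the decomposition group at `p`).
-/
import Mathlib
import Fermat.Agent.RB.SEL_helper4_Frob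
import Fermat.Agent.RB.SEL_helper4_Primes
import Fermat.Agent.RB.SEL_helper4_Inj
import Fermat.Agent.RB.SEL_helper4_Tangent
import Fermat.Agent.TW.Halves_helper9
import Fermat.Agent.TW.S56Bridge_helper9
import Fermat.Agent.TW.LocCondCard_helper9
import Fermat.Agent.TW.EC_helper3_Global
import Fermat.Agent.TW.FlatOrd8_helper8
import Fermat.Agent.TW.FlatIrr_helper7

set_option autoImplicit false
set_option linter.unusedSectionVars false
set_option linter.style.haveILetI false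

open Polynomial IsLocalRing

namespace Fermat.Agent.RB.SEL

open Fermat.Agent.TW Fermat.Agent.S53 Fermat.Agent.CFT.Sm Fermat.Agent.CFT.Bridge
  Fermat.Agent.CFT.Arith groupCohomology CategoryTheory CategoryTheory.Abelian ExtCitation
  GaloisRepAdic GaloisRep

/-- `Ω = AlgebraicClosure ℚ`. -/
local notation "Ω" => AlgebraicClosure ℚ
/-- `GQ = Gal(Ω/ℚ)`. -/
local notation "GQ" => (AlgebraicClosure ℚ ≃ₐ[ℚ] AlgebraicClosure ℚ)

lemma card_primesOf_of_forall_prime (T : Finset ℕ) (hT : ∀ q ∈ T, q.Prime) :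
    (primesOf T).card = T.card :=
  (Finset.card_subtype Nat.Prime T).trans (by rw [Finset.filter_true_of_mem hT])

variable {𝒪 : Type} [CommRing 𝒪] [IsDomain 𝒪] [IsDiscreteValuationRing 𝒪]
  [IsAdicComplete (maximalIdeal 𝒪) 𝒪] [Finite (ResidueField 𝒪)]

/-- **[SEL], generic in the local condition at `p`.** -/
theorem sel_generic (p : ℕ) [hp : Fact p.Prime] (hp2 : p ≠ 2) (hp𝒪 : (p : 𝒪) ∈ maximalIdeal 𝒪)
    (ρbar : ResidualGaloisRep (ResidueField 𝒪))
    (habs : ρbar.IsAbsolutelyIrreducible)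
    (hdet : (GaloisRepAdic.ofResidualGaloisRep ρbar).DetIsCyclotomic p)
    (hsplit : ∀ σ : GQ, ∃ α β : ResidueField 𝒪,
      LinearMap.charpoly (ρbar.ρ σ) = (X - C α) * (X - C β))
    (hTW : ∀ (K : Type) [Field K] [Algebra (ResidueField 𝒪) K] (G : Subgroup GQ), G.index = 2 →
      ∀ V : Submodule K (ρbar.baseChange K).V,
        (∀ σ ∈ G, ∀ x ∈ V, (ρbar.baseChange K).ρ σ x ∈ V) → V = ⊥ ∨ V = ⊤)
    (hEC : ECGlobal p)
    (S Sig : Finset ℕ) (hpS : p ∈ S) (hSprime : ∀ q ∈ S, q.Prime) (hSigS : Sig ⊆ S)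
    (hpSig : p ∉ Sig)
    (hSigscal : ∀ v ∈ Sig, ResFrobScalarAt ρbar p v)
    (hram : ∀ ℓ ∈ S, ℓ ≠ p → ℓ ∉ Sig → ¬ ρbar.IsUnramifiedAt ℓ)
    (hunr : ∀ ℓ : ℕ, ℓ.Prime → ℓ ∉ S → ρbar.IsUnramifiedAt ℓ)
    (β₀ : Module.Basis (Fin 2) (ResidueField 𝒪) ρbar.V)
    (𝓗p : AddSubgroup (H1 (Rep.res (primeLocalToGlobal (pPrime p))
      (adRep (resMatrixOf ρbar β₀)))))
    (hT1 : ∀ (b : GQ → Matrix (Fin 2) (Fin 2) (ResidueField 𝒪))
      (hb : IsTwCocycle (resMatrixOf ρbar β₀) b) (hs : IsSmoothFun b),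
      (ofMatrix (defOfCocycle (resMatrixOf ρbar β₀) b hb)
        (matCont_defOfCocycle (resMatrixOf_factors ρbar β₀) hb hs)).DetIsCyclotomic p →
      (ofMatrix (defOfCocycle (resMatrixOf ρbar β₀) b hb)
        (matCont_defOfCocycle (resMatrixOf_factors ρbar β₀) hb hs)).IsFlatAt p →
      ∀ htr : ∀ σ, Matrix.trace (b σ * resMatrixOf ρbar β₀ σ⁻¹) = 0,
        (groupCohomology.map (primeLocalToGlobal (pPrime p))
          (𝟙 (Rep.res (primeLocalToGlobal (pPrime p)) (adRep (resMatrixOf ρbar β₀)))) 1).hom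
        ((H1π (adRep (resMatrixOf ρbar β₀))).hom (adCocycle hb htr)) ∈ 𝓗p)
    (h𝓗p : ∀ hsm : IsSmooth (locBasis (pPrime p)) (Rep.res (primeLocalToGlobal (pPrime p))
        (adRep (resMatrixOf ρbar β₀))),
      Nat.card (locCond (YLoc (adRep (resMatrixOf ρbar β₀)) (pPrime p) hsm) 𝓗p) ≤
      Nat.card (Ext (smUnit ℤ (locBasis (pPrime p)))
        (YLoc (adRep (resMatrixOf ρbar β₀)) (pPrime p) hsm) 0) * Nat.card (ResidueField 𝒪)) :
    ∃ g r : ℕ, r = 3 * Sig.card + g ∧ ∀ n : ℕ, ∃ Q : Fin r → ℕ, IsTWSet ρbar p S n Q ∧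
      ∀ (T : Type) [CommRing T] [IsLocalRing T] [IsNoetherianRing T]
        [IsAdicComplete (maximalIdeal T) T] [Algebra 𝒪 T] [IsLocalHom (algebraMap 𝒪 T)]
        [Module.Finite 𝒪 T]
        (_ : Function.Surjective (IsLocalRing.residue T ∘ algebraMap 𝒪 T))
        (ρ : GaloisRepAdic T)
        (_ : ρ.residual.IsEquiv
          (ρbar.baseChangeAlong (IsLocalRing.ResidueField.map (algebraMap 𝒪 T))))
        (_ : twCondition 𝒪 p S Sig (Finset.univ.image Q) ρ)
        (_ : Algebra.adjoin 𝒪 (Set.range ρ.trace) = ⊤)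
        (β : Module.Basis (Fin 2) T ρ.V),
        ∃ y : Fin g → T, (∀ j, y j ∈ maximalIdeal T) ∧
          maximalIdeal T = (maximalIdeal 𝒪).map (algebraMap 𝒪 T) ⊔ locCoordIdeal ρ β Sig ⊔
            Ideal.span (Set.range y) := by
  classical
  haveI : CharP (ResidueField 𝒪) p := charP_residueField_of_mem p hp𝒪
  have hpk : ((p : ℕ) : ResidueField 𝒪) = 0 := CharP.cast_eq_zero (ResidueField 𝒪) p
  have h2 : (2 : ResidueField 𝒪) ≠ 0 := two_ne_zero_of_charP hp2
  have hk3 : 3 ≤ Nat.card (ResidueField 𝒪) := three_le_natCard_of_two_ne_zero h2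
  have hk1 : 1 < Nat.card (ResidueField 𝒪) := by omega
  -- the sets of primes
  have hpSmin : pPrime p ∈ primesOf S := mem_primesOf.2 hpS
  have hSigSub : primesOf Sig ⊆ primesOf S := fun q hq =>
    mem_primesOf.2 (hSigS (mem_primesOf.1 hq))
  have hpSigP : pPrime p ∉ primesOf Sig := fun h => hpSig (mem_primesOf.1 h)
  have hunr' : ∀ q : Nat.Primes, q ∉ primesOf S → ρbar.IsUnramifiedAt (q : ℕ) := fun q hq =>
    hunr q q.2 (fun h => hq (mem_primesOf.2 h))
  have hS0 := isSmooth_adRep_of_unramified ρbar β₀ (primesOf S) hunr'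
  have hloc : ∀ q : Nat.Primes, IsSmooth (locBasis q)
      (Rep.res (primeLocalToGlobal q) (adRep (resMatrixOf ρbar β₀))) :=
    fun q => isSmooth_resQ _ (primesOf S) hS0 q
  -- `ρ̄` is scalar on the decomposition groups over `Σ`
  have hscalD : ∀ v ∈ Sig, ∀ P : ValuationSubring Ω, P.LiesOverPrime v →
      ∀ σ ∈ P.decompositionSubgroup ℚ, ∃ c : ResidueField 𝒪,
        resMatrixOf ρbar β₀ σ = c • (1 : M2 (ResidueField 𝒪)) := by
    intro v hv P hP σ hσ
    obtain ⟨c, hc⟩ := (hSigscal v hv).exists_smul_of_mem_decompositionSubgroup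
      (hSprime v (hSigS hv)) P hP hσ
    refine ⟨c, ?_⟩
    rw [resMatrixOf_eq_toMatrix, hc, map_smul, LinearMap.toMatrix_one]
  have hscal : ∀ q ∈ primesOf Sig, ∀ τ : primeLocalGaloisGroup q, ∃ c : ResidueField 𝒪,
      resMatrixOf ρbar β₀ (primeLocalToGlobal q τ) = c • (1 : Matrix (Fin 2) (Fin 2) _) :=
    fun q hq τ => hscalD (q : ℕ) (mem_primesOf.1 hq) (primeLocalPlace q)
      (primeLocalPlace_liesOverPrime q) _ (primeLocalToGlobal_mem_decompositionSubgroup q τ)
  -- the Taylor–Wiles primes and the count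
  obtain ⟨r, hr3, hr⟩ := sel_primes_and_count hp2 ρbar β₀ habs hdet hsplit hTW hEC (primesOf S)
    (primesOf Sig) hpSmin hSigSub hpSigP hunr' hloc hscal 𝓗p (h𝓗p (hloc _)) (primesOf S)
  have hcardSig : (primesOf Sig).card = Sig.card :=
    card_primesOf_of_forall_prime Sig (fun q hq => hSprime q (hSigS hq))
  rw [hcardSig] at hr3 hr
  refine ⟨r - 3 * Sig.card, r, by omega, fun n => ?_⟩
  obtain ⟨Q, hcard, hdisjA, hdisjS, hQ, hcount⟩ := hr n
  let e : Fin r → Nat.Primes := fun i => ((Q.equivFin.symm (Fin.cast hcard.symm i) : Q) : Nat.Primes)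
  have he_mem : ∀ i, e i ∈ Q := fun i => (Q.equivFin.symm (Fin.cast hcard.symm i)).2
  have he_inj : Function.Injective e := by
    intro i j hij
    have h1 : Q.equivFin.symm (Fin.cast hcard.symm i) = Q.equivFin.symm (Fin.cast hcard.symm j) :=
      Subtype.ext hij
    exact Fin.cast_injective _ (Q.equivFin.symm.injective h1)
  refine ⟨fun i => (e i : ℕ), ⟨?_, ?_, ?_, ?_, ?_⟩, ?_⟩
  · intro i j hij
    exact he_inj (Subtype.ext hij)
  · intro i
    exact (e i).2
  · intro i hS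
    exact (Finset.disjoint_left.1 hdisjS (he_mem i)) (mem_primesOf.2 hS)
  · intro i
    exact dvd_trans (pow_dvd_pow p (Nat.le_succ n)) (hQ _ (he_mem i)).2.1
  · intro i P hP φ hφ
    exact (hQ _ (he_mem i)).2.2.2 P hP φ hφ
  -- the deformation side
  intro T _ _ _ _ _ _ _ hres ρ hρ htype hadj β
  have hpS' : pPrime p ∈ primesOf S ∪ Q := Finset.mem_union_left _ hpSmin
  have hS' : IsSmooth (levelBasis (primesOf S ∪ Q)) (adRep (resMatrixOf ρbar β₀)) :=
    hS0.of_finer (levelBasis_finer_of_subset Finset.subset_union_left)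
  have hST : ∀ v : Nat.Primes, v ∉ primesOf S ∪ Q →
      (v : ℕ) ∉ S ∪ Finset.univ.image (fun i => (e i : ℕ)) := by
    intro v hv hmem
    rcases Finset.mem_union.1 hmem with h | h
    · exact hv (Finset.mem_union_left _ (mem_primesOf.2 h))
    · obtain ⟨i, -, hi⟩ := Finset.mem_image.1 h
      have : e i = v := Subtype.ext hi
      exact hv (Finset.mem_union_right _ (this ▸ he_mem i))
  obtain ⟨b, hb⟩ := exists_basis_isStrictLift ρbar β₀ ρ hρ
  have hK : locCoordIdeal ρ β Sig ≤ maximalIdeal T :=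
    locCoordIdeal_le_maximalIdeal ρbar β₀ ρ b β Sig hb hscalD
  have hSelcard := hcount hpS' hS'
  have hfinSel : Finite (Ext (smUnit ℤ (levelBasis (primesOf S ∪ Q)))
      (adSm (primesOf S ∪ Q) (resMatrixOf ρbar β₀) hS') 1) := by
    haveI : Finite (adSm (primesOf S ∪ Q) (resMatrixOf ρbar β₀) hS').obj.V :=
      inferInstanceAs (Finite (sl2 (ResidueField 𝒪)))
    exact global_finite_ext_one hp2 (primesOf S ∪ Q) hpS'
      (adSm (primesOf S ∪ Q) (resMatrixOf ρbar β₀) hS')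
      (fun x => nsmul_adRep p (resMatrixOf ρbar β₀) x)
  -- `#Sel ≤ |k|^g`
  have hSel_le : Nat.card ((twDatum hp2 (primesOf S ∪ Q) hpS').selmer
      (adSm (primesOf S ∪ Q) (resMatrixOf ρbar β₀) hS')
      (fun v => selFamily p (resMatrixOf ρbar β₀) (primesOf S) (primesOf Sig) 𝓗p hloc v.1)) ≤
      Nat.card (ResidueField 𝒪) ^ (r - 3 * Sig.card) := by
    have h3 : Nat.card (ResidueField 𝒪) ^ r =
        Nat.card (ResidueField 𝒪) ^ (r - 3 * Sig.card) *
          Nat.card (ResidueField 𝒪) ^ (3 * Sig.card) := by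
      rw [← pow_add]
      congr 1
      omega
    rw [h3] at hSelcard
    exact Nat.le_of_mul_le_mul_right hSelcard (pow_pos (by omega) _)
  refine exists_gen_rel hres (locCoordIdeal ρ β Sig) hK (r - 3 * Sig.card) hk3 (fun s hs => ?_)
  have h4 := card_algHom_le_card_selmer hp2 hp𝒪 β₀ S Sig
    (S ∪ Finset.univ.image (fun i => (e i : ℕ))) (primesOf S) (primesOf Sig) (primesOf S ∪ Q) hpS'
    hST ?_ (fun v hv => mem_primesOf.1 hv) T hres ρ hρ htype hadj β hS' hloc 𝓗p hT1 s hs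
  · exact h4.trans (Nat.add_le_add_right hSel_le 1)
  · intro v hvm hvp hvSig
    have hvS : (v : ℕ) ∈ S := mem_primesOf.1 hvm
    have hvp' : (v : ℕ) ≠ p := fun h => hvp (Subtype.ext h)
    have hvSig' : (v : ℕ) ∉ Sig := fun h => hvSig (mem_primesOf.2 h)
    exact ⟨hvS, hvSig', hram (v : ℕ) hvS hvp' hvSig'⟩

/-- **[SEL]** -/
theorem selStatement : SelStatement := by
  intro 𝒪 _ _ _ _ _ p _ hp2 hp𝒪 ρbar habs hdet hsplit hTW S Sig hpS hSprime hSigS hpSig hSigscal
    hram hunr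
  have hEC : ECGlobal p := fun S hpS Z _ hZ => Fermat.Agent.TW.EC.ec_global hp2 S hpS Z hZ
  have hchar : CharP (ResidueField 𝒪) p := charP_residueField_of_mem p hp𝒪
  have hpk : ((p : ℕ) : ResidueField 𝒪) = 0 := CharP.cast_eq_zero (ResidueField 𝒪) p
  obtain ⟨β⟩ : Nonempty (Module.Basis (Fin 2) (ResidueField 𝒪) ρbar.V) :=
    ⟨Module.finBasisOfFinrankEq (ResidueField 𝒪) ρbar.V ρbar.finrank_eq⟩
  have hdet' := det_resMatrixOf_of_detIsCyclotomic hpk ρbar β hdet
  have hsplit' := charpoly_resMatrixOf_split ρbar β hsplit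
  by_cases hline : ∃ e₁ : Fin 2 → ResidueField 𝒪, e₁ ≠ 0 ∧
      ∀ g ∈ (padicPlace p).decompositionSubgroup ℚ, ∃ t : ResidueField 𝒪,
        (resMatrixOf ρbar β g).mulVec e₁ = t • e₁
  · -- reducible on the decomposition group at `p`
    refine sel_generic p hp2 hp𝒪 ρbar habs hdet hsplit hTW hEC S Sig hpS hSprime hSigS hpSig
      hSigscal hram hunr β (flatOrdCond p (resMatrixOf ρbar β)) ?_ ?_
    · intro b hb hs hdetb hflat htr
      exact res_adCocycle_mem_flatOrdCond hp2 hpk hb _ hdetb hflat htr hline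
    · intro hsm
      exact card_locCond_flatOrdCond_le p hp2 (resMatrixOf ρbar β) hdet' hsm
  · -- irreducible on the decomposition group at `p`
    have hnl : ¬ ∃ e₁ : Fin 2 → ResidueField 𝒪, e₁ ≠ 0 ∧
        ∀ τ : ExtCitation.primeLocalGaloisGroup (ExtCitation.pPrime p), ∃ t : ResidueField 𝒪,
          (resMatrixOf ρbar β
            (ExtCitation.primeLocalToGlobal (ExtCitation.pPrime p) τ)).mulVec e₁ = t • e₁ :=
      fun h => hline (exists_decomposition_line_of_exists_local_line _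
        (resMatrixOf_factors ρbar β) h)
    refine sel_generic p hp2 hp𝒪 ρbar habs hdet hsplit hTW hEC S Sig hpS hSprime hSigS hpSig
      hSigscal hram hunr β (flatIrrCond p (resMatrixOf ρbar β)) ?_ ?_
    · intro b hb hs _ hflat htr
      exact res_adCocycle_mem_flatIrrCond hpk hb _ hflat htr
    · intro hsm
      exact card_locCond_YLoc_le_of_card_le (resMatrixOf ρbar β) _
        (card_flatIrrCond_le hp2 (resMatrixOf ρbar β) hdet' hsplit' hnl) hsm

end Fermat.Agent.RB.SEL
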