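import Mathlib
import Fermat.Agent.RB.HYG_lead_Transv

set_option autoImplicit false
set_option linter.unusedSectionVars false

/-!
# [HYG] semilinear intertwiners between residual representations

`ResIntertwined ψ ρ₁ ρ₂` (`ψ : k₁ →+* k₂`): there is an additive, Galois-equivariant, `ψ`-semilinear
map `F : ρ₁.V → ρ₂.V` whose image is not killed by any nonzero functional.  Then a basis of `ρ₁.V`
goes to a basis of `ρ₂.V` (`exists_bases`), the matrices of `ρ₂` are the `ψ`-images of those of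
`ρ₁`, and all the properties used by the Taylor–Wiles method transfer:
`TwoTransv` (hence irreducibility statements), unramifiedness, scalar Frobenius, characteristic
polynomials, unipotence.
-/

open Polynomial

namespace Fermat.Agent.RB

local notation "Γℚ" => AlgebraicClosure ℚ ≃ₐ[ℚ] AlgebraicClosure ℚ

variable {k₁ k₂ : Type} [Field k₁] [Field k₂]

/-- a `ψ`-semilinear Galois-equivariant map with spanning image -/
def ResIntertwined (ψ : k₁ →+* k₂) (ρ₁ : ResidualGaloisRep k₁) (ρ₂ : ResidualGaloisRep k₂) : Prop :=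
  ∃ F : ρ₁.V →+ ρ₂.V, (∀ (σ : Γℚ) (v : ρ₁.V), F (ρ₁.ρ σ v) = ρ₂.ρ σ (F v)) ∧
    (∀ (c : k₁) (v : ρ₁.V), F (c • v) = ψ c • F v) ∧
    (∀ Φ : ρ₂.V →ₗ[k₂] k₂, (∀ v : ρ₁.V, Φ (F v) = 0) → Φ = 0)

section Span

variable {ψ : k₁ →+* k₂} {ρ₁ : ResidualGaloisRep k₁} {ρ₂ : ResidualGaloisRep k₂}

/-- the image of a spanning pair is a spanning pair -/
theorem span_pair_of_intertwiner (F : ρ₁.V →+ ρ₂.V)
    (hsemi : ∀ (c : k₁) (v : ρ₁.V), F (c • v) = ψ c • F v)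
    (hsep : ∀ Φ : ρ₂.V →ₗ[k₂] k₂, (∀ v : ρ₁.V, Φ (F v) = 0) → Φ = 0)
    {e₁ e₂ : ρ₁.V} (hspan : ∀ x : ρ₁.V, ∃ c d : k₁, x = c • e₁ + d • e₂) (y : ρ₂.V) :
    ∃ c d : k₂, y = c • F e₁ + d • F e₂ := by
  set U : Submodule k₂ ρ₂.V := Submodule.span k₂ {F e₁, F e₂} with hU
  have hFU : ∀ v : ρ₁.V, F v ∈ U := by
    intro v
    obtain ⟨c, d, rfl⟩ := hspan v
    rw [map_add, hsemi, hsemi]
    exact U.add_mem (U.smul_mem _ (Submodule.subset_span (by simp)))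
      (U.smul_mem _ (Submodule.subset_span (by simp)))
  have htop : U = ⊤ := by
    by_contra hne
    obtain ⟨Φ, hΦ0, hΦ⟩ := U.exists_le_ker_of_lt_top (lt_top_iff_ne_top.mpr hne)
    exact hΦ0 (hsep Φ fun v => LinearMap.mem_ker.mp (hΦ (hFU v)))
  have hy : y ∈ U := by rw [htop]; exact Submodule.mem_top
  rw [hU, Submodule.mem_span_pair] at hy
  obtain ⟨c, d, h⟩ := hy
  exact ⟨c, d, h.symm⟩

end Span

/-- **bases**: a basis of `ρ₁.V` whose image is a basis of `ρ₂.V`. -/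
theorem ResIntertwined.exists_bases {ψ : k₁ →+* k₂} {ρ₁ : ResidualGaloisRep k₁}
    {ρ₂ : ResidualGaloisRep k₂} (h : ResIntertwined ψ ρ₁ ρ₂) :
    ∃ (F : ρ₁.V →+ ρ₂.V) (b₁ : Module.Basis (Fin 2) k₁ ρ₁.V) (b₂ : Module.Basis (Fin 2) k₂ ρ₂.V),
      (∀ (σ : Γℚ) (v : ρ₁.V), F (ρ₁.ρ σ v) = ρ₂.ρ σ (F v)) ∧
      (∀ (c : k₁) (v : ρ₁.V), F (c • v) = ψ c • F v) ∧ (∀ i, b₂ i = F (b₁ i)) := by
  obtain ⟨F, hequiv, hsemi, hsep⟩ := h
  let b₁ : Module.Basis (Fin 2) k₁ ρ₁.V := Module.finBasisOfFinrankEq k₁ ρ₁.V ρ₁.finrank_eq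
  have hspan₁ : ∀ x : ρ₁.V, ∃ c d : k₁, x = c • b₁ 0 + d • b₁ 1 := by
    intro x
    refine ⟨b₁.repr x 0, b₁.repr x 1, ?_⟩
    have := b₁.sum_repr x
    rw [Fin.sum_univ_two] at this
    exact this.symm
  have hspan₂ := span_pair_of_intertwiner F hsemi hsep hspan₁
  have hle : ⊤ ≤ Submodule.span k₂ (Set.range (fun i : Fin 2 => F (b₁ i))) := by
    intro y _
    obtain ⟨c, d, rfl⟩ := hspan₂ y
    refine Submodule.add_mem _ (Submodule.smul_mem _ _ (Submodule.subset_span ⟨0, rfl⟩))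
      (Submodule.smul_mem _ _ (Submodule.subset_span ⟨1, rfl⟩))
  have hcard : Fintype.card (Fin 2) = Module.finrank k₂ ρ₂.V := by rw [ρ₂.finrank_eq]; rfl
  refine ⟨F, b₁, basisOfTopLeSpanOfCardEqFinrank (fun i : Fin 2 => F (b₁ i)) hle hcard, hequiv,
    hsemi, fun i => ?_⟩
  rw [coe_basisOfTopLeSpanOfCardEqFinrank]

/-- **matrices**: in adapted bases the matrix of `ρ₂ σ` is the image of the matrix of `ρ₁ σ`. -/
theorem toMatrix_of_intertwiner {ψ : k₁ →+* k₂} {ρ₁ : ResidualGaloisRep k₁}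
    {ρ₂ : ResidualGaloisRep k₂} (F : ρ₁.V →+ ρ₂.V) (b₁ : Module.Basis (Fin 2) k₁ ρ₁.V)
    (b₂ : Module.Basis (Fin 2) k₂ ρ₂.V)
    (hequiv : ∀ (σ : Γℚ) (v : ρ₁.V), F (ρ₁.ρ σ v) = ρ₂.ρ σ (F v))
    (hsemi : ∀ (c : k₁) (v : ρ₁.V), F (c • v) = ψ c • F v) (hb : ∀ i, b₂ i = F (b₁ i)) (σ : Γℚ) :
    LinearMap.toMatrix b₂ b₂ (ρ₂.ρ σ) = (LinearMap.toMatrix b₁ b₁ (ρ₁.ρ σ)).map ψ := by
  ext i j
  rw [LinearMap.toMatrix_apply, Matrix.map_apply, LinearMap.toMatrix_apply, hb j, ← hequiv]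
  have h1 : ρ₁.ρ σ (b₁ j) = ∑ l, b₁.repr (ρ₁.ρ σ (b₁ j)) l • b₁ l := (b₁.sum_repr _).symm
  rw [h1, map_sum]
  simp only [hsemi, ← hb, map_sum, map_smul, Finsupp.coe_finset_sum, Finset.sum_apply,
    Finsupp.smul_apply, Module.Basis.repr_self, smul_eq_mul]
  rw [Fin.sum_univ_two, Fin.sum_univ_two]
  fin_cases i <;> simp [Finsupp.single_apply]

section Transfer

variable {ψ : k₁ →+* k₂} {ρ₁ : ResidualGaloisRep k₁} {ρ₂ : ResidualGaloisRep k₂}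

/-- characteristic polynomials correspond -/
theorem ResIntertwined.charpoly_eq (h : ResIntertwined ψ ρ₁ ρ₂) (σ : Γℚ) :
    (ρ₂.ρ σ).charpoly = ((ρ₁.ρ σ).charpoly).map ψ := by
  obtain ⟨F, b₁, b₂, hequiv, hsemi, hb⟩ := h.exists_bases
  rw [← LinearMap.charpoly_toMatrix (ρ₂.ρ σ) b₂, ← LinearMap.charpoly_toMatrix (ρ₁.ρ σ) b₁,
    toMatrix_of_intertwiner F b₁ b₂ hequiv hsemi hb σ, Matrix.charpoly_map]

/-- `ρ₂ σ = 1 ↔ ρ₁ σ = 1` -/
theorem ResIntertwined.eq_one_iff (h : ResIntertwined ψ ρ₁ ρ₂) (σ : Γℚ) :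
    ρ₂.ρ σ = 1 ↔ ρ₁.ρ σ = 1 := by
  obtain ⟨F, b₁, b₂, hequiv, hsemi, hb⟩ := h.exists_bases
  have hM := toMatrix_of_intertwiner F b₁ b₂ hequiv hsemi hb σ
  constructor
  · intro h2
    apply (LinearMap.toMatrix b₁ b₁).injective
    rw [h2, Module.End.one_eq_id, LinearMap.toMatrix_id] at hM
    rw [Module.End.one_eq_id, LinearMap.toMatrix_id]
    ext i j
    have := congrFun (congrFun hM i) j
    rw [Matrix.map_apply] at this
    apply ψ.injective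
    rw [← this, Matrix.one_apply, Matrix.one_apply]
    split_ifs <;> simp
  · intro h1
    apply (LinearMap.toMatrix b₂ b₂).injective
    rw [hM, h1, Module.End.one_eq_id, LinearMap.toMatrix_id, Module.End.one_eq_id,
      LinearMap.toMatrix_id]
    ext i j
    rw [Matrix.map_apply, Matrix.one_apply, Matrix.one_apply]
    split_ifs <;> simp

/-- unramifiedness corresponds -/
theorem ResIntertwined.isUnramifiedAt_iff (h : ResIntertwined ψ ρ₁ ρ₂) (q : ℕ) :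
    ρ₂.IsUnramifiedAt q ↔ ρ₁.IsUnramifiedAt q := by
  constructor
  · intro h2 A hA σ hσ
    exact (h.eq_one_iff σ).mp (h2 A hA σ hσ)
  · intro h1 A hA σ hσ
    exact (h.eq_one_iff σ).mpr (h1 A hA σ hσ)

/-- scalars go to scalars -/
theorem ResIntertwined.scalar (h : ResIntertwined ψ ρ₁ ρ₂) (σ : Γℚ) (c : k₁)
    (hc : ρ₁.ρ σ = c • (1 : Module.End k₁ ρ₁.V)) :
    ρ₂.ρ σ = ψ c • (1 : Module.End k₂ ρ₂.V) := by
  obtain ⟨F, b₁, b₂, hequiv, hsemi, hb⟩ := h.exists_bases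
  apply b₂.ext
  intro i
  rw [hb i, ← hequiv, hc, LinearMap.smul_apply, Module.End.one_apply, hsemi,
    LinearMap.smul_apply, Module.End.one_apply]

/-- unipotence transfers -/
theorem ResIntertwined.unipotent (h : ResIntertwined ψ ρ₁ ρ₂) (σ : Γℚ)
    (hu : ∀ x : ρ₁.V, ρ₁.ρ σ (ρ₁.ρ σ x - x) = ρ₁.ρ σ x - x) (y : ρ₂.V) :
    ρ₂.ρ σ (ρ₂.ρ σ y - y) = ρ₂.ρ σ y - y := by
  obtain ⟨F, b₁, b₂, hequiv, hsemi, hb⟩ := h.exists_bases
  have key : ∀ i, ρ₂.ρ σ (ρ₂.ρ σ (b₂ i) - b₂ i) = ρ₂.ρ σ (b₂ i) - b₂ i := by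
    intro i
    rw [hb i, ← hequiv, ← map_sub, ← hequiv, hu]
  have hlin : ((ρ₂.ρ σ).comp (ρ₂.ρ σ - LinearMap.id)) = (ρ₂.ρ σ - LinearMap.id) := by
    apply b₂.ext
    intro i
    simpa using key i
  have := congrArg (fun f : ρ₂.V →ₗ[k₂] ρ₂.V => f y) hlin
  simpa using this

/-- **`TwoTransv` transfers** -/
theorem ResIntertwined.twoTransv (h : ResIntertwined ψ ρ₁ ρ₂) {G : Subgroup Γℚ}
    (ht : TwoTransv ρ₁ G) : TwoTransv ρ₂ G := by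
  obtain ⟨F, hequiv, hsemi, hsep⟩ := h
  obtain ⟨σ₁, hσ₁, σ₂, hσ₂, e₁, e₂, a, b, ha, hb, hspan, h11, h12, h22, h21⟩ := ht
  refine ⟨σ₁, hσ₁, σ₂, hσ₂, F e₁, F e₂, ψ a, ψ b, fun h0 => ha (ψ.injective (by rw [h0, map_zero])),
    fun h0 => hb (ψ.injective (by rw [h0, map_zero])),
    span_pair_of_intertwiner F hsemi hsep hspan, ?_, ?_, ?_, ?_⟩
  · rw [← hequiv, h11]
  · rw [← hequiv, h12, map_add, hsemi]
  · rw [← hequiv, h22]
  · rw [← hequiv, h21, map_add, hsemi]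

end Transfer

end Fermat.Agent.RB
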