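import Mathlib
import Fermat.Agent.RB.HYG_lead_Inter
import Fermat.Agent.NP.EMB33_helper2_Main

set_option autoImplicit false
set_option linter.unusedSectionVars false

/-!
# [HYG] Chebotarev + Brauer–Nesbitt for residual representations, intertwiner form

`resIntertwined_of_frob`: if `ρ₁` has two transvections with distinct axes (so it is absolutely
irreducible) and `ρ₂` has the `ψ`-image characteristic polynomials at almost all Frobenius
elements, then `ResIntertwined ψ ρ₁ ρ₂`.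
-/

open Polynomial

namespace Fermat.Agent.RB

local notation "Γℚ" => AlgebraicClosure ℚ ≃ₐ[ℚ] AlgebraicClosure ℚ

variable {k₁ k₂ : Type} [Field k₁] [Field k₂]

/-- two transvections ⇒ the residual representation of the "adic" avatar is absolutely
irreducible -/
theorem absIrr_residual_of_twoTransv (ρ₁ : ResidualGaloisRep k₁) (ht : TwoTransv ρ₁ ⊤) :
    (GaloisRepAdic.ofResidualGaloisRep ρ₁).residual.IsAbsolutelyIrreducible := by
  have h1 : TwoTransv (GaloisRepAdic.ofResidualGaloisRep ρ₁).residual ⊤ :=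
    ht.baseChange (IsLocalRing.ResidueField k₁)
  intro W hW
  exact (@TwoTransv.baseChange _ _ _ _ h1 (AlgebraicClosure (IsLocalRing.ResidueField k₁)) _
    (AlgebraicClosure.instAlgebra (IsLocalRing.ResidueField k₁))).eq_bot_or_top W
    (fun σ _ x hx => hW σ x hx)

/-- **Chebotarev + Brauer–Nesbitt, intertwiner form.** -/
theorem resIntertwined_of_frob (ψ : k₁ →+* k₂) (h2 : (2 : k₂) ≠ 0) (ρ₁ : ResidualGaloisRep k₁)
    (ρ₂ : ResidualGaloisRep k₂) (ht : TwoTransv ρ₁ ⊤) (S : Finset ℕ)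
    (hfrob : ∀ ℓ : ℕ, ℓ.Prime → ℓ ∉ S → ∀ P : ValuationSubring (AlgebraicClosure ℚ),
      P.LiesOverPrime ℓ → ∀ φ : Γℚ, P.IsFrobeniusAt φ ℓ →
        (LinearMap.charpoly (ρ₁.ρ φ)).map ψ = LinearMap.charpoly (ρ₂.ρ φ)) :
    ResIntertwined ψ ρ₁ ρ₂ := by
  obtain ⟨F, hFσ, hFt, hFΦ, -, -⟩ := Fermat.Agent.NP.exists_semilinear_of_frob
    (GaloisRepAdic.ofResidualGaloisRep ρ₁) ψ (GaloisRepAdic.ofResidualGaloisRep ρ₂)
    (absIrr_residual_of_twoTransv ρ₁ ht) (isUnit_iff_ne_zero.mpr h2) S hfrob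
  exact ⟨F, hFσ, hFt, hFΦ⟩

end Fermat.Agent.RB
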