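import Mathlib
import Fermat.Agent.RB.HYG_lead_Bridge
import Fermat.Agent.RB.HYG_lead_Charpoly
import Fermat.Agent.RB.IFACE_helper9_Datum
import Fermat.Agent.GR.S29TOP_lead

set_option autoImplicit false
set_option linter.unusedSectionVars false

/-!
# [HYG] the residual side of `TopIAStatement`

For a Frey package `P`, an integral model `W` of the Frey curve and a Hecke–Galois datum whose
residual eigensystem `θ` is given by the `a_ℓ(W)` (almost everywhere), the residual
representation of the datum is intertwined with `E[p]` (`datum_resIntertwined`), and therefore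
satisfies all the residual hypotheses of helper9's `IharaAvoidanceDatum`:
`datum_hsplit`, `datum_hTW`, `datum_resFrobScalarAt`, `datum_not_isUnramifiedAt_two`,
`datum_isUnramifiedAt`.
-/

open Polynomial IsLocalRing

namespace Fermat.Agent.RB

open WeierstrassCurve WeierstrassCurve.Affine WeierstrassCurve.Affine.Point

local notation "Ω" => AlgebraicClosure ℚ
local notation "Γℚ" => AlgebraicClosure ℚ ≃ₐ[ℚ] AlgebraicClosure ℚ

variable {𝒪 : Type} [CommRing 𝒪] [IsDomain 𝒪] [IsDiscreteValuationRing 𝒪]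
  [IsAdicComplete (maximalIdeal 𝒪) 𝒪]
  {N : ℕ} [NeZero N] {S : Set ℕ} {θ : CuspForm.heckeAlgebra N 2 S →+* ResidueField 𝒪}
  {T : Type} [CommRing T] [IsLocalRing T] [IsNoetherianRing T]
  [IsAdicComplete (maximalIdeal T) T] [Algebra 𝒪 T] [IsLocalHom (algebraMap 𝒪 T)]
  [Module.Finite 𝒪 T] [Module.Free 𝒪 T]
  (datum : CuspForm.HeckeGaloisRepDatum N S 𝒪 θ T)
  (P : FreyPackage) {W : WeierstrassCurve ℤ}
  (ψ : ZMod P.p →+* ResidueField T)

/-- the ring homomorphism `ZMod p → ResidueField T` when `p ∈ 𝔪_𝒪` -/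
theorem exists_zmod_hom_residueField (hp : (P.p : 𝒪) ∈ maximalIdeal 𝒪) :
    Nonempty (ZMod P.p →+* ResidueField T) := by
  have h0 : ((P.p : ℕ) : ResidueField T) = 0 := by
    have h1 : algebraMap 𝒪 T (P.p : 𝒪) ∈ maximalIdeal T := by
      rw [mem_maximalIdeal, mem_nonunits_iff]
      intro hu
      exact hp (isUnit_of_map_unit (algebraMap 𝒪 T) _ hu)
    rw [map_natCast] at h1
    have := (residue_eq_zero_iff (P.p : T)).mpr h1
    rwa [map_natCast] at this
  haveI : CharP (ResidueField T) P.p := (CharP.charP_iff_prime_eq_zero P.pp).mpr h0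
  exact ⟨ZMod.castHom (dvd_refl P.p) (ResidueField T)⟩

/-- **(B1)** the residual representation of the datum is intertwined with `E[p]`. -/
theorem datum_resIntertwined (hW : W.IsIntegralModelOf P.freyCurve)
    (hirr : GaloisRepIsIrreducible (K := AlgebraicClosure ℚ) ℚ P.freyCurve P.p)
    (S₀ : Finset ℕ)
    (hS₀ : ∀ ℓ : ℕ, ℓ.Prime → ℓ ∉ S₀ → ℓ ∉ S ∧ ¬ ℓ ∣ N ∧ ℓ ≠ P.p ∧ W.IsGoodPrimeFor ℓ)
    (hθ : ∀ (ℓ : ℕ) (hℓ : ℓ.Prime) (hℓN : ¬ ℓ ∣ N) (hℓS : ℓ ∉ S), ℓ ∉ S₀ →
      θ (CuspForm.heckeAlgebra.T hℓ hℓN hℓS) = ((W.apOfModel ℓ : ℤ) : ResidueField 𝒪)) :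
    ResIntertwined ψ (freyRhobar P) datum.ρ.residual := by
  have h2 : (2 : ResidueField T) ≠ 0 := by
    intro h
    have := two_ne_zero_zmod P
    apply this
    apply ψ.injective
    rw [map_ofNat, h, _root_.map_zero]
  refine resIntertwined_of_frob ψ h2 (freyRhobar P) datum.ρ.residual
    (freyRhobar_twoTransv P hirr ⊤ (fun _ => Subgroup.mem_top _)) S₀ ?_
  intro ℓ hℓ hℓS₀ A hA φ hφ
  obtain ⟨hℓS, hℓN, hℓp, hgood⟩ := hS₀ ℓ hℓ hℓS₀
  rw [freyRhobar_charpoly_frobenius P hW hℓ hℓp hgood A hA φ hφ,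
    Fermat.Agent.GR.residual_charpoly, datum.charpoly_frob ℓ hℓ hℓN hℓS A hA φ hφ]
  have hres : residue T (datum.π (CuspForm.heckeAlgebra.T hℓ hℓN hℓS)) =
      ((W.apOfModel ℓ : ℤ) : ResidueField T) := by
    rw [datum.residue_π, hθ ℓ hℓ hℓN hℓS hℓS₀, map_intCast]
  simp only [Polynomial.map_add, Polynomial.map_sub, Polynomial.map_mul, Polynomial.map_pow,
    Polynomial.map_X, Polynomial.map_C, hres, map_intCast, map_natCast, Polynomial.map_intCast,
    Polynomial.map_natCast]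

section Consequences

variable {datum P ψ}
variable (hI : ResIntertwined ψ (freyRhobar P) datum.ρ.residual)
include hI

/-- **(B2)** `hsplit`, when every monic quadratic over `𝔽_p` splits in the residue field. -/
theorem datum_hsplit
    (hquad : ∀ f : (ZMod P.p)[X], f.Monic → f.natDegree = 2 →
      ∃ α β : ResidueField T, f.map ψ = (X - C α) * (X - C β)) (σ : Γℚ) :
    ∃ α β : ResidueField T, LinearMap.charpoly (datum.ρ.residual.ρ σ) = (X - C α) * (X - C β) := by
  rw [hI.charpoly_eq σ]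
  refine hquad _ (LinearMap.charpoly_monic _) ?_
  rw [LinearMap.charpoly_natDegree, (freyRhobar P).finrank_eq]

/-- **(B3)** `hTW` (the literal of S56 and of `IharaAvoidanceDatum`). -/
theorem datum_hTW (hirr : GaloisRepIsIrreducible (K := AlgebraicClosure ℚ) ℚ P.freyCurve P.p)
    (K : Type) [Field K] [Algebra (ResidueField T) K] (G : Subgroup Γℚ) (hG : G.index = 2)
    (V : Submodule K (datum.ρ.residual.baseChange K).V)
    (hV : ∀ σ ∈ G, ∀ x ∈ V, (datum.ρ.residual.baseChange K).ρ σ x ∈ V) : V = ⊥ ∨ V = ⊤ :=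
  ((hI.twoTransv (freyRhobar_twoTransv P hirr G (sq_mem_of_index_two G hG))).baseChange
    K).eq_bot_or_top V hV

/-- absolute irreducibility of the residual representation of the datum (already a field of the
datum; here from `E[p]`). -/
theorem datum_twoTransv (hirr : GaloisRepIsIrreducible (K := AlgebraicClosure ℚ) ℚ P.freyCurve P.p)
    (G : Subgroup Γℚ) (hG : ∀ σ : Γℚ, σ * σ ∈ G) : TwoTransv datum.ρ.residual G :=
  hI.twoTransv (freyRhobar_twoTransv P hirr G hG)

/-- **(B6)** the residual representation of the datum is unramified at the odd primes `≠ p`. -/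
theorem datum_isUnramifiedAt {v : ℕ} (hv : v.Prime) (hv2 : v ≠ 2) (hvp : v ≠ P.p) :
    datum.ρ.residual.IsUnramifiedAt v :=
  (hI.isUnramifiedAt_iff v).mpr (freyRhobar_isUnramifiedAt P hv hv2 hvp)

/-- **(B5)** the residual representation of the datum is ramified at `2`. -/
theorem datum_not_isUnramifiedAt_two : ¬ datum.ρ.residual.IsUnramifiedAt 2 := fun h =>
  freyRhobar_not_isUnramifiedAt_two P ((hI.isUnramifiedAt_iff 2).mp h)

/-- **(B4)** `FrobScalarAt P v ⇒ ResFrobScalarAt datum.ρ.residual p v`. -/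
theorem datum_resFrobScalarAt {v : ℕ} (hv : v.Prime) (hv2 : v ≠ 2) (hvp : v ≠ P.p)
    (hs : FrobScalarAt P v) : ResFrobScalarAt datum.ρ.residual P.p v := by
  refine ⟨hs.1, datum_isUnramifiedAt hI hv hv2 hvp, fun A hA φ hφ => ?_⟩
  obtain ⟨c, hc⟩ := hs.2 A hA φ hφ
  refine ⟨ψ ((c : ℤ) : ZMod P.p), hI.scalar φ ((c : ℤ) : ZMod P.p) ?_⟩
  ext x
  rw [freyRhobar_apply, hc x, LinearMap.smul_apply, Module.End.one_apply,
    Int.cast_smul_eq_zsmul]
  rfl

end Consequences

end Fermat.Agent.RB
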