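/-
PROJECT RB, block [TOP-IA] (helper1), part 1: **the bridge eigenform ↔ `E[p]`**.

For a normalised eigenform `g` of level `M`, a maximal ideal `𝔪' ∋ p` of `ℤ̄` and congruences
`a_ℓ(g) ≡ a_ℓ(W) mod 𝔪'` outside a finite set of primes, the residual representation `ρ̄_g`
(S29) over `ℤ̄ ⧸ 𝔪'` is intertwined with `E[p]` (Chebotarev + Brauer–Nesbitt, lead's
`resIntertwined_of_frob`); hence the congruences hold at all good primes `ℓ ∤ M p`, and the
Frobenius characteristic polynomials of `E[p]` are those of `g` at ALL primes `ℓ ∤ M p`.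
-/
import Mathlib
import Fermat.Agent.RB.HYG_lead_Bridge
import Fermat.Agent.RB.HYG_lead_Charpoly
import Fermat.Agent.S29
import Fermat.Agent.RB.REPT_helper1_Glue
import Fermat.Agent.MP.TOPL_helper4_Closers
import Fermat.Agent.LR.NONEIS_helper3_Main

set_option autoImplicit false
set_option linter.unusedSectionVars false
set_option linter.unusedVariables false
set_option linter.style.haveILetI false

open Polynomial

namespace Fermat.Agent.RB.TOPIA

open Fermat.Agent.RB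

local notation "Ω" => AlgebraicClosure ℚ
local notation "GQ" => (AlgebraicClosure ℚ ≃ₐ[ℚ] AlgebraicClosure ℚ)
local notation "ℤbar" => integralClosure ℤ ℂ

/-- two elements of `ℤ̄` with the same complex value are equal. -/
theorem zbar_ext {a b : ℤbar} (h : (a : ℂ) = (b : ℂ)) : a = b := Subtype.ext h

section Bridge

variable (P : FreyPackage) {M : ℕ} [NeZero M] {g : CuspForm (CongruenceSubgroup.Gamma0 M) 2}
  {W : WeierstrassCurve ℤ} {k : Type} [Field k] [CharP k P.p]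

/-- the residual representation of `g` is intertwined with `E[p]`. -/
theorem exists_attached_intertwined (hg : g.IsNormalizedEigenform)
    (hW : W.IsIntegralModelOf P.freyCurve)
    (hirr : WeierstrassCurve.Affine.Point.GaloisRepIsIrreducible (K := AlgebraicClosure ℚ) ℚ
      P.freyCurve P.p)
    (φ : ℤbar →+* k) (ψ : ZMod P.p →+* k) (S₀ : Finset ℕ)
    (hcong : ∀ ℓ : ℕ, ℓ.Prime → ℓ ∉ S₀ → ∃ a : ℤbar, (a : ℂ) = ModularFormClass.qCoeff g ℓ ∧
      φ a = ((W.apOfModel ℓ : ℤ) : k)) :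
    ∃ ρ : ResidualGaloisRep k, ρ.IsAttachedTo g φ ∧
      (∀ ℓ : ℕ, ℓ.Prime → ¬ ℓ ∣ M * P.p → ρ.IsUnramifiedAt ℓ) ∧
      ResIntertwined ψ (freyRhobar P) ρ := by
  classical
  obtain ⟨ρ, hatt, hunr⟩ := Fermat.Agent.S29.result hg P.pp φ
  refine ⟨ρ, hatt, hunr, ?_⟩
  haveI : P.freyCurve.IsElliptic := Fermat.Agent.MP.freyCurve_isElliptic P
  have hΔ : W.Δ ≠ 0 := Fermat.Agent.LR.NonEis.Δ_ne_zero_of_isIntegralModelOf P.freyCurve hW
  have h2 : (2 : k) ≠ 0 := by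
    intro h
    apply two_ne_zero_zmod P
    apply ψ.injective
    rw [map_ofNat, h, _root_.map_zero]
  -- the exceptional set
  let S₁ : Finset ℕ := S₀ ∪ M.primeFactors ∪ W.Δ.natAbs.primeFactors ∪ {P.p}
  refine resIntertwined_of_frob ψ h2 (freyRhobar P) ρ
    (freyRhobar_twoTransv P hirr ⊤ (fun _ => Subgroup.mem_top _)) S₁ ?_
  intro ℓ hℓ hℓS₁ A hA σ hσ
  have hℓS₀ : ℓ ∉ S₀ := fun h => hℓS₁ (by simp [S₁, h])
  have hℓp : ℓ ≠ P.p := fun h => hℓS₁ (by simp [S₁, h])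
  have hℓM : ¬ ℓ ∣ M := fun h => hℓS₁ (by
    have : ℓ ∈ M.primeFactors := Nat.mem_primeFactors.2 ⟨hℓ, h, NeZero.ne M⟩
    simp [S₁, this])
  have hgood : W.IsGoodPrimeFor ℓ := by
    intro hdvd
    apply hℓS₁
    have : ℓ ∈ W.Δ.natAbs.primeFactors :=
      Nat.mem_primeFactors.2 ⟨hℓ, Int.natCast_dvd.mp hdvd, Int.natAbs_ne_zero.mpr hΔ⟩
    simp [S₁, this]
  have hℓk : (ℓ : k) ≠ 0 := by
    intro h0
    have := (CharP.cast_eq_zero_iff k P.p ℓ).1 h0
    exact hℓp ((Nat.prime_dvd_prime_iff_eq P.pp hℓ).1 this).symm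
  obtain ⟨a, ha, hchar⟩ := hatt ℓ hℓ hℓM hℓk A hA σ hσ
  obtain ⟨a', ha', hφa'⟩ := hcong ℓ hℓ hℓS₀
  have haa' : a = a' := zbar_ext (ha.trans ha'.symm)
  rw [hchar, haa', hφa', freyRhobar_charpoly_frobenius P hW hℓ hℓp hgood A hA σ hσ]
  simp only [Polynomial.map_add, Polynomial.map_sub, Polynomial.map_mul, Polynomial.map_pow,
    Polynomial.map_X, Polynomial.map_C, map_intCast, map_natCast, Polynomial.map_intCast,
    Polynomial.map_natCast]

/-- the Frobenius characteristic polynomials of `E[p]` at ALL primes `ℓ ∤ M p`, in terms of the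
eigenform. -/
theorem charpoly_freyRhobar_of_attached {ρ : ResidualGaloisRep k} {φ : ℤbar →+* k}
    {ψ : ZMod P.p →+* k} (hatt : ρ.IsAttachedTo g φ) (hI : ResIntertwined ψ (freyRhobar P) ρ)
    {ℓ : ℕ} (hℓ : ℓ.Prime) (hℓM : ¬ ℓ ∣ M) (hℓp : ℓ ≠ P.p)
    (A : ValuationSubring Ω) (hA : A.LiesOverPrime ℓ) (σ : GQ) (hσ : A.IsFrobeniusAt σ ℓ) :
    ∃ a : ℤbar, (a : ℂ) = ModularFormClass.qCoeff g ℓ ∧
      (LinearMap.charpoly ((freyRhobar P).ρ σ)).map ψ = X ^ 2 - C (φ a) * X + C ((ℓ : ℕ) : k) := by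
  have hℓk : (ℓ : k) ≠ 0 := by
    intro h0
    have := (CharP.cast_eq_zero_iff k P.p ℓ).1 h0
    exact hℓp ((Nat.prime_dvd_prime_iff_eq P.pp hℓ).1 this).symm
  obtain ⟨a, ha, hchar⟩ := hatt ℓ hℓ hℓM hℓk A hA σ hσ
  exact ⟨a, ha, by rw [← hI.charpoly_eq σ, hchar]⟩

/-- the congruences at ALL good primes `ℓ ∤ M p`. -/
theorem congr_of_attached {ρ : ResidualGaloisRep k} {φ : ℤbar →+* k}
    {ψ : ZMod P.p →+* k} (hW : W.IsIntegralModelOf P.freyCurve)
    (hatt : ρ.IsAttachedTo g φ) (hI : ResIntertwined ψ (freyRhobar P) ρ)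
    {ℓ : ℕ} (hℓ : ℓ.Prime) (hgood : W.IsGoodPrimeFor ℓ) (hℓM : ¬ ℓ ∣ M) (hℓp : ℓ ≠ P.p) :
    ∃ a : ℤbar, (a : ℂ) = ModularFormClass.qCoeff g ℓ ∧ φ a = ((W.apOfModel ℓ : ℤ) : k) := by
  obtain ⟨A, σ, hA, hσ⟩ := Fermat.Agent.S54.exists_frobenius ℓ hℓ
  obtain ⟨a, ha, hchar⟩ := charpoly_freyRhobar_of_attached P hatt hI hℓ hℓM hℓp A hA σ hσ
  refine ⟨a, ha, ?_⟩
  have h1 : (X ^ 2 - C (((W.apOfModel ℓ : ℤ) : k)) * X + C ((ℓ : ℕ) : k) : k[X]) =
      X ^ 2 - C (φ a) * X + C ((ℓ : ℕ) : k) := by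
    rw [← hchar, freyRhobar_charpoly_frobenius P hW hℓ hℓp hgood A hA σ hσ]
    simp only [Polynomial.map_add, Polynomial.map_sub, Polynomial.map_mul, Polynomial.map_pow,
      Polynomial.map_X, Polynomial.map_C, map_intCast, map_natCast, Polynomial.map_intCast,
      Polynomial.map_natCast]
  exact (Fermat.Agent.RB.REPT.coeffs_eq_of_quadratic_eq h1).1.symm

end Bridge

end Fermat.Agent.RB.TOPIA
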