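/-
PROJECT RB, block [TOP-IA] (helper1), part 2: **from a character of the Hecke algebra to
`ModularRepOfLevel`**.

* `modularRepOfLevel_of_almost` : a normalised eigenform `g` of level `M` and a maximal ideal
  `𝔪' ∋ p` of `ℤ̄` with `a_ℓ(g) ≡ a_ℓ(W) mod 𝔪'` outside a finite set ⇒ `P.ModularRepOfLevel M`
  (the congruences at the remaining good primes by Chebotarev + Brauer–Nesbitt).
* `exists_eigenform_of_character` : a ring homomorphism `χ : heckeAlgebra M 2 S → D`, `D` a domain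
  of characteristic zero, a prime `𝔫` of `D`: a normalised eigenform `g` of level `M`, a maximal
  ideal `𝔪'` of `ℤ̄` with `a_ℓ(g) - n ∈ 𝔪'` whenever `χ (T_ℓ) - n ∈ 𝔫` (`n ∈ ℤ`), and `p ∈ 𝔪'`
  when `p ∈ 𝔫`.
* `modularRepOfLevel_of_character`.
-/
import Mathlib
import Fermat.Agent.RB.TOPIA_helper1_Bridge
import Fermat.Agent.GR.S30TOP_lead
import Fermat.Agent.S49_Eigenform

set_option autoImplicit false
set_option linter.unusedSectionVars false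
set_option linter.unusedVariables false
set_option linter.style.haveILetI false

open Polynomial

namespace Fermat.Agent.RB.TOPIA

open Fermat.Agent.RB Fermat.Agent.GR CuspForm

local notation "Ω" => AlgebraicClosure ℚ
local notation "GQ" => (AlgebraicClosure ℚ ≃ₐ[ℚ] AlgebraicClosure ℚ)
local notation "ℤbar" => integralClosure ℤ ℂ

section Almost

variable (P : FreyPackage) {M : ℕ} [NeZero M] {g : CuspForm (CongruenceSubgroup.Gamma0 M) 2}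
  {W : WeierstrassCurve ℤ}

/-- the quotient of `ℤ̄` by a maximal ideal containing `p` has characteristic `p`. -/
theorem charP_quotient_of_mem (𝔪' : Ideal ℤbar) [h𝔪 : 𝔪'.IsMaximal] {p : ℕ} (hp : p.Prime)
    (hp𝔪 : (p : ℤbar) ∈ 𝔪') : CharP (ℤbar ⧸ 𝔪') p := by
  letI : Field (ℤbar ⧸ 𝔪') := Ideal.Quotient.field 𝔪'
  have h0 : ((p : ℕ) : ℤbar ⧸ 𝔪') = 0 := by
    rw [← map_natCast (Ideal.Quotient.mk 𝔪')]
    exact Ideal.Quotient.eq_zero_iff_mem.2 hp𝔪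
  exact (CharP.charP_iff_prime_eq_zero hp).mpr h0

theorem modularRepOfLevel_of_almost (hg : g.IsNormalizedEigenform)
    (hW : W.IsIntegralModelOf P.freyCurve)
    (hirr : WeierstrassCurve.Affine.Point.GaloisRepIsIrreducible (K := AlgebraicClosure ℚ) ℚ
      P.freyCurve P.p)
    (𝔪' : Ideal ℤbar) (h𝔪 : 𝔪'.IsMaximal) (hp𝔪 : (P.p : ℤbar) ∈ 𝔪') (S₀ : Finset ℕ)
    (hcong : ∀ ℓ : ℕ, ℓ.Prime → ℓ ∉ S₀ → ∃ a : ℤbar, (a : ℂ) = ModularFormClass.qCoeff g ℓ ∧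
      a - ((W.apOfModel ℓ : ℤ) : ℤbar) ∈ 𝔪') :
    P.ModularRepOfLevel M := by
  haveI := h𝔪
  letI : Field (ℤbar ⧸ 𝔪') := Ideal.Quotient.field 𝔪'
  haveI : CharP (ℤbar ⧸ 𝔪') P.p := charP_quotient_of_mem 𝔪' P.pp hp𝔪
  let φ : ℤbar →+* (ℤbar ⧸ 𝔪') := Ideal.Quotient.mk 𝔪'
  let ψ : ZMod P.p →+* (ℤbar ⧸ 𝔪') := ZMod.castHom (dvd_refl P.p) (ℤbar ⧸ 𝔪')
  have hφ : ∀ (a : ℤbar) (n : ℤ), φ a = ((n : ℤ) : ℤbar ⧸ 𝔪') ↔ a - ((n : ℤ) : ℤbar) ∈ 𝔪' := by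
    intro a n
    rw [← Ideal.Quotient.eq_zero_iff_mem, map_sub, map_intCast, sub_eq_zero]
  obtain ⟨ρ, hatt, -, hI⟩ := exists_attached_intertwined P hg hW hirr φ ψ S₀ (by
    intro ℓ hℓ hℓS₀
    obtain ⟨a, ha, ha'⟩ := hcong ℓ hℓ hℓS₀
    exact ⟨a, ha, (hφ a _).2 ha'⟩)
  refine ⟨g, W, 𝔪', hg, hW, h𝔪, hp𝔪, ?_⟩
  intro ℓ hℓ hgood hℓM hℓp
  obtain ⟨a, ha, ha'⟩ := congr_of_attached P hW hatt hI hℓ hgood hℓM hℓp
  exact ⟨a, ha, (hφ a _).1 ha'⟩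

end Almost

section Character

variable {M : ℕ} [NeZero M] {S : Set ℕ}

/-- **from a character to an eigenform.** -/
theorem exists_eigenform_of_character {D : Type} [CommRing D] [IsDomain D] [CharZero D]
    (χ : heckeAlgebra M 2 S →+* D) (𝔫 : Ideal D) [h𝔫 : 𝔫.IsPrime] :
    ∃ (g : CuspForm (CongruenceSubgroup.Gamma0 M) 2) (𝔪' : Ideal ℤbar),
      g.IsNormalizedEigenform ∧ 𝔪'.IsMaximal ∧
      (∀ n : ℕ, (n : D) ∈ 𝔫 → (n : ℤbar) ∈ 𝔪') ∧
      ∀ (ℓ : ℕ) (hℓ : ℓ.Prime) (hℓM : ¬ ℓ ∣ M) (hℓS : ℓ ∉ S) (n : ℤ),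
        χ (heckeAlgebra.T hℓ hℓM hℓS) - (n : D) ∈ 𝔫 →
        ∃ a : ℤbar, (a : ℂ) = ModularFormClass.qCoeff g ℓ ∧ a - ((n : ℤ) : ℤbar) ∈ 𝔪' := by
  classical
  -- the range of `χ`, embedded in `ℂ`
  let A : Subring D := χ.range
  haveI : Algebra.IsIntegral ℤ A := ⟨by
    rintro ⟨_, t, rfl⟩
    have h1 : IsIntegral ℤ (χ.rangeRestrict t) := map_isIntegral_int χ.rangeRestrict
      (isIntegral_heckeAlgebra S t)
    exact h1⟩
  haveI : Algebra.IsAlgebraic ℤ A := Algebra.IsIntegral.isAlgebraic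
  let ι : A →ₐ[ℤ] ℂ := IsAlgClosed.lift
  have hιinj : Function.Injective ι := by
    rw [injective_iff_map_eq_zero]
    intro x hx
    have hker : RingHom.ker ι.toRingHom = ⊥ := by
      apply Ideal.eq_bot_of_comap_eq_bot (R := ℤ)
      rw [eq_bot_iff]
      intro n hn
      rw [Ideal.mem_comap, RingHom.mem_ker] at hn
      have h1 : ι (algebraMap ℤ A n) = 0 := hn
      rw [AlgHom.commutes] at h1
      have h2 : (n : ℂ) = 0 := by simpa using h1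
      rw [Ideal.mem_bot]
      exact_mod_cast h2
    have : x ∈ RingHom.ker ι.toRingHom := hx
    rw [hker] at this
    exact this
  let lam : heckeAlgebra M 2 S →+* ℂ := ι.toRingHom.comp χ.rangeRestrict
  have hlamint : ∀ t, lam t ∈ integralClosure ℤ ℂ := fun t =>
    map_isIntegral_int lam (isIntegral_heckeAlgebra S t)
  let lam' : heckeAlgebra M 2 S →+* ℤbar := RingHom.codRestrict lam (integralClosure ℤ ℂ) hlamint
  have hlam' : ∀ t, ((lam' t : ℤbar) : ℂ) = lam t := fun t => rfl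
  have hker : ∀ t, lam' t = 0 → χ t = 0 := by
    intro t ht
    have h1 : lam t = 0 := by rw [← hlam', ht]; rfl
    have h2 : ι (χ.rangeRestrict t) = 0 := h1
    have h3 : χ.rangeRestrict t = 0 := hιinj (by rw [h2, map_zero])
    exact congrArg Subtype.val h3
  -- the prime of `ℤ̄` over `𝔫`
  letI : Algebra (heckeAlgebra M 2 S) ℤbar := lam'.toAlgebra
  haveI : Algebra.IsIntegral (heckeAlgebra M 2 S) ℤbar := ⟨fun x =>
    isIntegral_of_isIntegral_int (by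
      have h := (integralClosure.isIntegral x : IsIntegral ℤ x)
      convert h using 1)⟩
  have hprime : (𝔫.comap χ).IsPrime := Ideal.comap_isPrime χ 𝔫
  obtain ⟨Q, hQprime, hQ⟩ := Ideal.exists_ideal_over_prime_of_isIntegral_of_isDomain
    (S := ℤbar) (𝔫.comap χ) (by
      intro t ht
      rw [RingHom.mem_ker] at ht
      rw [Ideal.mem_comap, hker t ht]
      exact 𝔫.zero_mem)
  obtain ⟨𝔪', h𝔪', hQ𝔪'⟩ := Ideal.exists_le_maximal Q hQprime.ne_top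
  have hmemQ : ∀ t : heckeAlgebra M 2 S, χ t ∈ 𝔫 → lam' t ∈ 𝔪' := by
    intro t ht
    apply hQ𝔪'
    have : t ∈ Q.comap (algebraMap (heckeAlgebra M 2 S) ℤbar) := by rw [hQ]; exact ht
    exact this
  -- the eigenform
  obtain ⟨a, hocc, haT, -⟩ := exists_eigenPar_of_character (N := M) (F := ℂ) S lam
  obtain ⟨f₀, hf₀, hf₀mem⟩ := exists_eigenForm_of_eigenPar_ne_bot hocc
  let lamP : ℕ → ℂ := fun p => if hp : p.Prime then a ⟨p, hp⟩ else 0
  have hlamP : ∀ (p : ℕ) (hp : p.Prime), lamP p = a ⟨p, hp⟩ := fun p hp => by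
    show dite _ _ _ = _
    rw [dif_pos hp]
  obtain ⟨g, hg, hgq⟩ := Fermat.Agent.S49E.exists_isNormalizedEigenform_of_eigenvector f₀ hf₀ lamP
    (by
      intro p hp hpM
      have h := hf₀mem ⟨p, hp⟩
      rw [heckeOpP_of_not_dvd (ℓ := ⟨p, hp⟩) hpM] at h
      rw [hlamP p hp]
      exact h)
    (by
      intro p hp hpM
      have h := hf₀mem ⟨p, hp⟩
      rw [heckeOpP_of_dvd (ℓ := ⟨p, hp⟩) hpM] at h
      rw [hlamP p hp]
      exact h)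
  refine ⟨g, 𝔪', hg, h𝔪', ?_, ?_⟩
  · intro n hn
    have h1 := hmemQ (n : heckeAlgebra M 2 S) (by rw [map_natCast]; exact hn)
    rwa [map_natCast] at h1
  · intro ℓ hℓ hℓM hℓS n hn
    refine ⟨lam' (heckeAlgebra.T hℓ hℓM hℓS), ?_, ?_⟩
    · rw [hgq ℓ hℓ, hlamP ℓ hℓ, haT ℓ hℓ hℓM hℓS]
      rfl
    · have h1 := hmemQ (heckeAlgebra.T hℓ hℓM hℓS - (n : heckeAlgebra M 2 S)) (by
        rw [map_sub, map_intCast]; exact hn)
      rwa [map_sub, map_intCast] at h1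

end Character

section Final

variable (P : FreyPackage) {M : ℕ} [NeZero M] {S : Finset ℕ} {W : WeierstrassCurve ℤ}

/-- **from a character of the Hecke algebra of level `M` to `ModularRepOfLevel M`.** -/
theorem modularRepOfLevel_of_character (hW : W.IsIntegralModelOf P.freyCurve)
    (hirr : WeierstrassCurve.Affine.Point.GaloisRepIsIrreducible (K := AlgebraicClosure ℚ) ℚ
      P.freyCurve P.p)
    {D : Type} [CommRing D] [IsDomain D] [CharZero D]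
    (χ : heckeAlgebra M 2 (↑S : Set ℕ) →+* D) (𝔫 : Ideal D) [h𝔫 : 𝔫.IsPrime]
    (hp𝔫 : (P.p : D) ∈ 𝔫) (S₀ : Finset ℕ)
    (hχ : ∀ (ℓ : ℕ) (hℓ : ℓ.Prime) (hℓM : ¬ ℓ ∣ M) (hℓS : ℓ ∉ (↑S : Set ℕ)), ℓ ∉ S₀ →
      χ (heckeAlgebra.T hℓ hℓM hℓS) - (((W.apOfModel ℓ : ℤ)) : D) ∈ 𝔫) :
    P.ModularRepOfLevel M := by
  classical
  obtain ⟨g, 𝔪', hg, h𝔪', hnat, hcong⟩ := exists_eigenform_of_character χ 𝔫
  refine modularRepOfLevel_of_almost P hg hW hirr 𝔪' h𝔪' (hnat _ hp𝔫)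
    (S₀ ∪ S ∪ M.primeFactors) ?_
  intro ℓ hℓ hℓS'
  have hℓS₀ : ℓ ∉ S₀ := fun h => hℓS' (by simp [h])
  have hℓS : ℓ ∉ (↑S : Set ℕ) := fun h => hℓS' (by
    have h' : ℓ ∈ S := h
    simp [h'])
  have hℓM : ¬ ℓ ∣ M := fun h => hℓS' (by
    have : ℓ ∈ M.primeFactors := Nat.mem_primeFactors.2 ⟨hℓ, h, NeZero.ne M⟩
    simp [this])
  exact hcong ℓ hℓ hℓM hℓS _ (hχ ℓ hℓ hℓM hℓS hℓS₀)

end Final

end Fermat.Agent.RB.TOPIA
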