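/-
PROJECT RB, block [TOP-IA] (helper1), part 4: **the residual representation `ρ̄ = E[p] ⊗ k`** over
the residue field `k` of the coefficient ring: absolute irreducibility, `det ρ̄(c) = -1`, the
characteristic polynomials.
-/
import Mathlib
import Fermat.Agent.RB.TOPIA_helper1_Bridge
import Fermat.Agent.TW.Odd_helper1

set_option autoImplicit false
set_option linter.unusedSectionVars false
set_option linter.unusedVariables false
set_option linter.style.haveILetI false

open Polynomial

namespace Fermat.Agent.RB.TOPIA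

open Fermat.Agent.RB

local notation "Ω" => AlgebraicClosure ℚ
local notation "GQ" => (AlgebraicClosure ℚ ≃ₐ[ℚ] AlgebraicClosure ℚ)

section General

variable {k₁ k₂ : Type} [Field k₁] [Field k₂]

theorem baseChangeAlong_ρ_apply (ψ : k₁ →+* k₂) (ρ : ResidualGaloisRep k₁) (σ : GQ) :
    (ρ.baseChangeAlong ψ).ρ σ =
      (letI : Algebra k₁ k₂ := ψ.toAlgebra; (ρ.ρ σ).baseChange k₂) := rfl

theorem charpoly_baseChangeAlong (ψ : k₁ →+* k₂) (ρ : ResidualGaloisRep k₁) (σ : GQ) :
    LinearMap.charpoly ((ρ.baseChangeAlong ψ).ρ σ) = (LinearMap.charpoly (ρ.ρ σ)).map ψ := by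
  letI : Algebra k₁ k₂ := ψ.toAlgebra
  show LinearMap.charpoly ((ρ.ρ σ).baseChange k₂) = _
  rw [LinearMap.charpoly_baseChange]
  rfl

theorem det_baseChangeAlong (ψ : k₁ →+* k₂) (ρ : ResidualGaloisRep k₁) (σ : GQ) :
    LinearMap.det ((ρ.baseChangeAlong ψ).ρ σ) = ψ (LinearMap.det (ρ.ρ σ)) := by
  letI : Algebra k₁ k₂ := ψ.toAlgebra
  show LinearMap.det ((ρ.ρ σ).baseChange k₂) = _
  rw [LinearMap.det_baseChange]
  rfl

theorem isAbsolutelyIrreducible_baseChangeAlong_of_twoTransv (ψ : k₁ →+* k₂)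
    (ρ : ResidualGaloisRep k₁) (ht : TwoTransv ρ ⊤) :
    (ρ.baseChangeAlong ψ).IsAbsolutelyIrreducible := by
  letI : Algebra k₁ k₂ := ψ.toAlgebra
  have h1 : TwoTransv (ρ.baseChange k₂) ⊤ := ht.baseChange k₂
  intro W hW
  exact (h1.baseChange (AlgebraicClosure k₂)).eq_bot_or_top W (fun σ _ x hx => hW σ x hx)

end General

section Frey

variable (P : FreyPackage) {k : Type} [Field k] (ψ₀ : ZMod P.p →+* k)

theorem det_freyRhobar_complexConjugation :
    LinearMap.det ((freyRhobar P).ρ complexConjugation) = -1 := by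
  rw [freyRhobar_det P complexConjugation (P.p - 1) (fun μ hμ =>
    Fermat.Agent.TW.Odd.complexConjugation_eq_pow P.pp.pos hμ)]
  have h1 : ((P.p - 1 : ℕ) : ZMod P.p) + 1 = 0 := by
    have : ((P.p - 1 : ℕ) : ZMod P.p) + 1 = ((P.p - 1 + 1 : ℕ) : ZMod P.p) := by push_cast; ring
    rw [this, Nat.sub_add_cancel P.pp.one_le]
    exact ZMod.natCast_self P.p
  exact eq_neg_of_add_eq_zero_left h1

theorem det_rhobar_complexConjugation :
    LinearMap.det (((freyRhobar P).baseChangeAlong ψ₀).ρ complexConjugation) = -1 := by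
  rw [det_baseChangeAlong, det_freyRhobar_complexConjugation, map_neg, map_one]

theorem isAbsolutelyIrreducible_rhobar
    (hirr : WeierstrassCurve.Affine.Point.GaloisRepIsIrreducible (K := AlgebraicClosure ℚ) ℚ
      P.freyCurve P.p) :
    ((freyRhobar P).baseChangeAlong ψ₀).IsAbsolutelyIrreducible :=
  isAbsolutelyIrreducible_baseChangeAlong_of_twoTransv ψ₀ _
    (freyRhobar_twoTransv P hirr ⊤ (fun _ => Subgroup.mem_top _))

end Frey

end Fermat.Agent.RB.TOPIA
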