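/-
PROJECT RB, block [TOP-IA] (helper1), part 3: **the `p`-adic setup attached to a normalised
eigenform `g` and a maximal ideal `𝔪 ∋ p` of `ℤ̄`**: a complete DVR `𝒪` of characteristic zero with
finite residue field `k ⊆ ℤ̄ ⧸ 𝔪`, containing a primitive `p`-th root of unity, such that every
monic quadratic over `𝔽_p` splits in `k`, and the eigen-character `χ₀ : heckeAlgebra → 𝒪` of `g`.
-/
import Mathlib
import Fermat.Agent.GR.PADIC_lead_NumberField
import Fermat.Agent.GR.UPTS_helper2_Hecke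
import Fermat.Agent.S58.COMPL_helper3

set_option autoImplicit false
set_option linter.unusedSectionVars false
set_option linter.unusedVariables false
set_option linter.style.haveILetI false

open Polynomial IsLocalRing NumberField

namespace Fermat.Agent.RB.TOPIA

open Fermat.Agent.GR CuspForm

local notation "ℤbar" => integralClosure ℤ ℂ

/-- a monic quadratic is `X² + a₁ X + a₀`. -/
theorem monic_quadratic_eq {R : Type*} [CommRing R] {f : R[X]} (hf : f.Monic)
    (hdeg : f.natDegree = 2) : f = X ^ 2 + C (f.coeff 1) * X + C (f.coeff 0) := by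
  have h := Polynomial.as_sum_range' f 3 (by omega)
  rw [Finset.sum_range_succ, Finset.sum_range_succ, Finset.sum_range_succ, Finset.sum_range_zero,
    zero_add] at h
  have h2 : f.coeff 2 = 1 := by
    have := hf.coeff_natDegree
    rwa [hdeg] at this
  rw [h2] at h
  conv_lhs => rw [h]
  rw [← C_mul_X_pow_eq_monomial, ← C_mul_X_pow_eq_monomial, ← C_mul_X_pow_eq_monomial]
  simp only [pow_zero, mul_one, pow_one, map_one, one_mul]
  ring

/-- a complex monic quadratic with natural coefficients splits, with roots `r, s`. -/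
theorem exists_roots_quadratic (a b : ℕ) :
    ∃ r s : ℂ, r ^ 2 + (a : ℂ) * r + (b : ℂ) = 0 ∧ s ^ 2 + (a : ℂ) * s + (b : ℂ) = 0 ∧
      r + s = -(a : ℂ) ∧ r * s = (b : ℂ) := by
  have hdeg : (X ^ 2 + C (a : ℂ) * X + C (b : ℂ) : ℂ[X]).degree ≠ 0 := by
    have : (X ^ 2 + C (a : ℂ) * X + C (b : ℂ) : ℂ[X]).degree = 2 := by
      compute_degree!
    rw [this]
    norm_num
  obtain ⟨r, hr⟩ := IsAlgClosed.exists_root _ hdeg
  have hr' : r ^ 2 + (a : ℂ) * r + (b : ℂ) = 0 := by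
    simpa [Polynomial.IsRoot] using hr
  refine ⟨r, -(a : ℂ) - r, hr', ?_, by ring, ?_⟩
  · linear_combination hr'
  · linear_combination -hr'

/-- the finite set of the roots of the monic quadratics with coefficients in `{0, …, p - 1}`. -/
noncomputable def quadRoots (p : ℕ) : Finset ℂ :=
  (Finset.range p).biUnion fun a => (Finset.range p).biUnion fun b =>
    (X ^ 2 + C (a : ℂ) * X + C (b : ℂ) : ℂ[X]).roots.toFinset

theorem mem_quadRoots {p a b : ℕ} (ha : a < p) (hb : b < p) {r : ℂ}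
    (hr : r ^ 2 + (a : ℂ) * r + (b : ℂ) = 0) : r ∈ quadRoots p := by
  classical
  rw [quadRoots, Finset.mem_biUnion]
  refine ⟨a, Finset.mem_range.2 ha, ?_⟩
  rw [Finset.mem_biUnion]
  refine ⟨b, Finset.mem_range.2 hb, ?_⟩
  rw [Multiset.mem_toFinset, Polynomial.mem_roots']
  constructor
  · intro h0
    have : (X ^ 2 + C (a : ℂ) * X + C (b : ℂ) : ℂ[X]).degree = 2 := by compute_degree!
    rw [h0, Polynomial.degree_zero] at this
    exact absurd this (by decide)
  · simpa [Polynomial.IsRoot] using hr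

theorem isIntegral_of_mem_quadRoots {p : ℕ} {r : ℂ} (hr : r ∈ quadRoots p) : IsIntegral ℤ r := by
  classical
  rw [quadRoots, Finset.mem_biUnion] at hr
  obtain ⟨a, -, hr⟩ := hr
  rw [Finset.mem_biUnion] at hr
  obtain ⟨b, -, hr⟩ := hr
  rw [Multiset.mem_toFinset, Polynomial.mem_roots'] at hr
  refine ⟨X ^ 2 + C (a : ℤ) * X + C (b : ℤ), ?_, ?_⟩
  · monicity!
  · have h2 := hr.2
    simp only [Polynomial.IsRoot, eval_add, eval_pow, eval_X, eval_mul, eval_C] at h2
    have h3 : eval₂ (algebraMap ℤ ℂ) r (X ^ 2 + C (a : ℤ) * X + C (b : ℤ)) =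
        r ^ 2 + (a : ℂ) * r + (b : ℂ) := by
      simp
    rw [h3]
    exact h2

section Setup

variable {N : ℕ} [NeZero N] {g : CuspForm (CongruenceSubgroup.Gamma0 N) 2}

/-- **the `p`-adic setup.** -/
theorem exists_padic_setup (hg : g.IsNormalizedEigenform) (S : Set ℕ) {p : ℕ} (hp : p.Prime)
    (𝔪 : Ideal ℤbar) [h𝔪 : 𝔪.IsMaximal] (hp𝔪 : (p : ℤbar) ∈ 𝔪) :
    ∃ (𝒪 : Type) (_ : CommRing 𝒪) (_ : IsDomain 𝒪) (_ : IsDiscreteValuationRing 𝒪)
      (_ : IsAdicComplete (maximalIdeal 𝒪) 𝒪) (_ : Finite (ResidueField 𝒪)) (_ : CharZero 𝒪),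
      (p : 𝒪) ∈ maximalIdeal 𝒪 ∧ (∃ ζ : 𝒪, IsPrimitiveRoot ζ p) ∧
      (∀ (ψ₀ : ZMod p →+* ResidueField 𝒪) (f : (ZMod p)[X]), f.Monic → f.natDegree = 2 →
        ∃ α β : ResidueField 𝒪, f.map ψ₀ = (X - C α) * (X - C β)) ∧
      ∃ (χ₀ : heckeAlgebra N 2 S →+* 𝒪) (θ' : ResidueField 𝒪 →+* ℤbar ⧸ 𝔪),
        ∀ (ℓ : ℕ) (hℓ : ℓ.Prime) (hℓN : ¬ ℓ ∣ N) (hℓS : ℓ ∉ S),
          ∃ a : ℤbar, (a : ℂ) = ModularFormClass.qCoeff g ℓ ∧
            θ' (residue 𝒪 (χ₀ (heckeAlgebra.T hℓ hℓN hℓS))) = Ideal.Quotient.mk 𝔪 a := by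
  classical
  haveI : NeZero p := ⟨hp.ne_zero⟩
  letI : Field (ℤbar ⧸ 𝔪) := Ideal.Quotient.field 𝔪
  haveI : CharP (ℤbar ⧸ 𝔪) p := by
    have h0 : ((p : ℕ) : ℤbar ⧸ 𝔪) = 0 := by
      rw [← map_natCast (Ideal.Quotient.mk 𝔪)]
      exact Ideal.Quotient.eq_zero_iff_mem.2 hp𝔪
    exact (CharP.charP_iff_prime_eq_zero hp).mpr h0
  -- the eigen-character
  obtain ⟨chig, -, hchigT, -⟩ := Fermat.Agent.S58.exists_eigenChar hg S
  have hchigint : ∀ t, IsIntegral ℤ (chig t) := fun t =>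
    map_isIntegral_int chig (isIntegral_heckeAlgebra S t)
  -- generators of the Hecke algebra as a `ℤ`-module
  haveI := heckeAlgebra_moduleFinite N 2 S
  obtain ⟨gens, hgens⟩ := (Module.Finite.fg_top : (⊤ : Submodule ℤ (heckeAlgebra N 2 S)).FG)
  -- the number field
  set ζ₀ : ℂ := Complex.exp (2 * Real.pi * Complex.I / p) with hζ₀
  have hζ₀prim : IsPrimitiveRoot ζ₀ p := Complex.isPrimitiveRoot_exp p hp.ne_zero
  have hζ₀int : IsIntegral ℤ ζ₀ := hζ₀prim.isIntegral hp.pos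
  let gen : Finset ℂ := gens.image chig ∪ quadRoots p ∪ {ζ₀}
  have hgenint : ∀ x ∈ gen, IsIntegral ℤ x := by
    intro x hx
    simp only [gen, Finset.mem_union, Finset.mem_image, Finset.mem_singleton] at hx
    rcases hx with (⟨t, -, rfl⟩ | hx) | rfl
    · exact hchigint t
    · exact isIntegral_of_mem_quadRoots hx
    · exact hζ₀int
  let E : IntermediateField ℚ ℂ := IntermediateField.adjoin ℚ (↑gen : Set ℂ)
  haveI : FiniteDimensional ℚ E :=
    IntermediateField.finiteDimensional_adjoin (fun x hx => (hgenint x hx).tower_top)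
  have hgenE : ∀ x ∈ gen, x ∈ E := fun x hx => IntermediateField.subset_adjoin ℚ _ hx
  have hchigE : ∀ t, chig t ∈ E := by
    intro t
    have ht : t ∈ Submodule.span ℤ (↑gens : Set (heckeAlgebra N 2 S)) := by
      rw [hgens]; exact Submodule.mem_top
    induction ht using Submodule.span_induction with
    | mem x hx =>
      exact hgenE _ (by
        simp only [gen, Finset.mem_union, Finset.mem_image]
        exact Or.inl (Or.inl ⟨x, hx, rfl⟩))
    | zero => rw [map_zero]; exact E.zero_mem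
    | add x y _ _ hx hy => rw [map_add]; exact E.add_mem hx hy
    | smul a x _ hx =>
      rw [zsmul_eq_mul, map_mul, map_intCast]
      exact E.mul_mem (E.intCast_mem a) hx
  -- the character with values in `𝓞 E`
  let chigE : heckeAlgebra N 2 S →+* ↥E := RingHom.codRestrict chig E hchigE
  have hchigEint : ∀ t, chigE t ∈ integralClosure ℤ ↥E := by
    intro t
    have h1 : IsIntegral ℤ ((E.val : ↥E →+* ℂ) (chigE t)) := hchigint t
    exact (isIntegral_algHom_iff (E.val.restrictScalars ℤ) Subtype.val_injective).1 h1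
  let χE : heckeAlgebra N 2 S →+* 𝓞 ↥E :=
    RingHom.codRestrict chigE (integralClosure ℤ ↥E) hchigEint
  have hχE : ∀ t, ((ringOfIntegersToIntegralClosure E (χE t) : ℤbar) : ℂ) = chig t := fun t => rfl
  -- the model
  obtain ⟨𝒪, i1, i2, i3, i4, i5, i6, j, θ', hj, hp𝒪, hθ'⟩ :=
    exists_padic_model E hp (Ideal.Quotient.mk 𝔪)
  -- elements of `𝓞 E` from integral elements of `E ⊆ ℂ`
  have hmk : ∀ x : ℂ, x ∈ E → IsIntegral ℤ x → ∃ y : 𝓞 ↥E, ((y : ↥E) : ℂ) = x := by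
    intro x hxE hxint
    have h1 : IsIntegral ℤ (⟨x, hxE⟩ : ↥E) :=
      (isIntegral_algHom_iff (E.val.restrictScalars ℤ) Subtype.val_injective).1 hxint
    exact ⟨⟨⟨x, hxE⟩, h1⟩, rfl⟩
  have hcoeinj : Function.Injective (fun y : 𝓞 ↥E => ((y : ↥E) : ℂ)) := by
    intro y y' h
    exact RingOfIntegers.coe_injective (Subtype.val_injective h)
  refine ⟨𝒪, i1, i2, i3, i4, i5, i6, hp𝒪, ?_, ?_, j.comp χE, θ', ?_⟩
  · -- the root of unity
    obtain ⟨ζ, hζ⟩ := hmk ζ₀ (hgenE _ (by simp [gen])) hζ₀int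
    refine ⟨j ζ, IsPrimitiveRoot.map_of_injective ?_ hj⟩
    let c : 𝓞 ↥E →+* ℂ := (E.val : ↥E →+* ℂ).comp (algebraMap (𝓞 ↥E) ↥E)
    have hc : Function.Injective c := hcoeinj
    refine IsPrimitiveRoot.of_map_of_injective (f := c) ?_ hc
    show IsPrimitiveRoot (((ζ : ↥E) : ℂ)) p
    rw [hζ]
    exact hζ₀prim
  · -- the quadratics
    intro ψ₀ f hf hdeg
    rw [monic_quadratic_eq hf hdeg]
    set a := f.coeff 1 with ha
    set b := f.coeff 0 with hb
    obtain ⟨r, s, hr, hs, hsum, hprod⟩ := exists_roots_quadratic a.val b.val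
    have hrq : r ∈ quadRoots p := mem_quadRoots (ZMod.val_lt a) (ZMod.val_lt b) hr
    have hsq : s ∈ quadRoots p := mem_quadRoots (ZMod.val_lt a) (ZMod.val_lt b) hs
    obtain ⟨r', hr'⟩ := hmk r (hgenE _ (by simp [gen, hrq])) (isIntegral_of_mem_quadRoots hrq)
    obtain ⟨s', hs'⟩ := hmk s (hgenE _ (by simp [gen, hsq])) (isIntegral_of_mem_quadRoots hsq)
    have hsum' : r' + s' = -((a.val : ℕ) : 𝓞 ↥E) := by
      apply hcoeinj
      show (((r' + s' : 𝓞 ↥E) : ↥E) : ℂ) = (((-((a.val : ℕ) : 𝓞 ↥E) : 𝓞 ↥E) : ↥E) : ℂ)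
      push_cast
      rw [hr', hs', hsum]
    have hprod' : r' * s' = ((b.val : ℕ) : 𝓞 ↥E) := by
      apply hcoeinj
      show (((r' * s' : 𝓞 ↥E) : ↥E) : ℂ) = (((((b.val : ℕ) : 𝓞 ↥E) : 𝓞 ↥E) : ↥E) : ℂ)
      push_cast
      rw [hr', hs', hprod]
    let red : 𝓞 ↥E →+* ResidueField 𝒪 := (residue 𝒪).comp j
    have hψ₀ : ∀ x : ZMod p, ψ₀ x = ((x.val : ℕ) : ResidueField 𝒪) := by
      intro x
      conv_lhs => rw [← ZMod.natCast_zmod_val x]
      rw [map_natCast]
    refine ⟨red r', red s', ?_⟩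
    have h1 : red r' + red s' = -ψ₀ a := by
      rw [← map_add, hsum', map_neg, map_natCast, hψ₀]
    have h2 : red r' * red s' = ψ₀ b := by
      rw [← map_mul, hprod', map_natCast, hψ₀]
    simp only [Polynomial.map_add, Polynomial.map_mul, Polynomial.map_pow, Polynomial.map_X,
      Polynomial.map_C]
    have h3 : ψ₀ a = -(red r' + red s') := by rw [h1, neg_neg]
    rw [h3, ← h2]
    simp only [map_neg, map_add, map_mul]
    ring
  · -- the eigenvalues
    intro ℓ hℓ hℓN hℓS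
    refine ⟨ringOfIntegersToIntegralClosure E (χE (heckeAlgebra.T hℓ hℓN hℓS)), ?_, ?_⟩
    · rw [hχE, hchigT ℓ hℓ hℓN hℓS]
    · exact hθ' _

end Setup

end Fermat.Agent.RB.TOPIA
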