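/-
PROJECT RB, block [TOP-IA] (helper1), part 5: **`TopIAStatement`**:
`NewRamified → IharaAvoidanceDatum → IharaAvoidanceFrey`.
-/
import Mathlib
import Fermat.Agent.RB.TOPIA_helper1_Setup
import Fermat.Agent.RB.TOPIA_helper1_Back
import Fermat.Agent.RB.TOPIA_helper1_Rhobar
import Fermat.Agent.RB.REPT_helper1_Final
import Fermat.Agent.RB.HYG_lead_Datum
import Fermat.Agent.RB.IFACE_helper9_Datum

set_option autoImplicit false
set_option linter.unusedSectionVars false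
set_option linter.unusedVariables false
set_option linter.style.haveILetI false

open Polynomial IsLocalRing

namespace Fermat.Agent.RB.TOPIA

open Fermat.Agent.RB Fermat.Agent.GR CuspForm

local notation "Ω" => AlgebraicClosure ℚ
local notation "GQ" => (AlgebraicClosure ℚ ≃ₐ[ℚ] AlgebraicClosure ℚ)
local notation "ℤbar" => integralClosure ℤ ℂ

section Aux

/-- a prime of a finite algebra over a characteristic-zero DVR (of residue characteristic `p`)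
which does not contain `p` has a quotient of characteristic zero. -/
theorem charZero_quotient_of_natCast_notMem {𝒪 : Type} [CommRing 𝒪] [IsDomain 𝒪]
    [IsDiscreteValuationRing 𝒪] [CharZero 𝒪] {p : ℕ} (hp𝒪 : (p : 𝒪) ∈ maximalIdeal 𝒪)
    {T : Type} [CommRing T] [Algebra 𝒪 T] (𝔭 : Ideal T) [h𝔭 : 𝔭.IsPrime] (hp𝔭 : (p : T) ∉ 𝔭) :
    CharZero (T ⧸ 𝔭) := by
  apply charZero_of_injective_algebraMap (R := 𝒪)
  rw [injective_iff_map_eq_zero]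
  intro x hx
  by_contra hx0
  -- the kernel is a nonzero prime, hence the maximal ideal
  let I : Ideal 𝒪 := RingHom.ker (algebraMap 𝒪 (T ⧸ 𝔭))
  have hIprime : I.IsPrime := RingHom.ker_isPrime _
  have hI0 : I ≠ ⊥ := fun h => hx0 (by
    have : x ∈ I := hx
    rwa [h, Ideal.mem_bot] at this)
  have hImax : I.IsMaximal := hIprime.isMaximal hI0
  have hI : I = maximalIdeal 𝒪 := IsLocalRing.eq_maximalIdeal hImax
  have hpI : (p : 𝒪) ∈ I := hI ▸ hp𝒪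
  have h1 : algebraMap 𝒪 (T ⧸ 𝔭) (p : 𝒪) = 0 := hpI
  rw [map_natCast] at h1
  have h2 : ((p : T) : T ⧸ 𝔭) = 0 := by
    rw [← h1]; simp
  exact hp𝔭 (Ideal.Quotient.eq_zero_iff_mem.1 h2)

/-- a finite DVR extension of a DVR is injective on scalars -/
theorem injective_algebraMap_of_finite_dvr {𝒪 B : Type} [CommRing 𝒪] [IsDomain 𝒪]
    [IsDiscreteValuationRing 𝒪] [CommRing B] [IsDomain B] [IsDiscreteValuationRing B]
    [Algebra 𝒪 B] [Module.Finite 𝒪 B] : Function.Injective (algebraMap 𝒪 B) := by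
  rw [injective_iff_map_eq_zero]
  by_contra hne
  push Not at hne
  obtain ⟨a, ha0, ha⟩ := hne
  have hker : RingHom.ker (algebraMap 𝒪 B) ≠ ⊥ := by
    intro h
    have : a ∈ RingHom.ker (algebraMap 𝒪 B) := ha0
    rw [h] at this
    exact ha this
  have : (RingHom.ker (algebraMap 𝒪 B)).IsPrime := RingHom.ker_isPrime _
  have hmax : (RingHom.ker (algebraMap 𝒪 B)).IsMaximal :=
    Ideal.IsPrime.isMaximal inferInstance hker
  have : Algebra.IsIntegral 𝒪 B := Algebra.IsIntegral.of_finite 𝒪 B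
  have hbot : (⊥ : Ideal B).IsMaximal := by
    have : (⊥ : Ideal B).IsPrime := Ideal.isPrime_bot
    apply Ideal.isMaximal_of_isIntegral_of_isMaximal_comap (R := 𝒪) (⊥ : Ideal B)
    exact hmax
  exact IsDiscreteValuationRing.not_isField B (Ring.isField_iff_maximal_bot.2 hbot)

end Aux

section Main

/-- **[TOP-IA]** -/
theorem topIA : TopIAStatement := by
  intro hNR hIAD P M₀ hcond hpM₀ hirr hmod hmin hSigP q hq hqM₀ hq2 hunr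
  classical
  obtain ⟨M, rfl⟩ : ∃ M, M₀ = M * q := ⟨M₀ / q, (Nat.div_mul_cancel hqM₀).symm⟩
  have hpos : 0 < M * q := hcond.pos
  have hM0 : M ≠ 0 := fun h => by rw [h, zero_mul] at hpos; exact lt_irrefl _ hpos
  haveI : NeZero M := ⟨hM0⟩
  haveI : NeZero (M * q) := ⟨hpos.ne'⟩
  have hqM : ¬ q ∣ M := by
    intro h
    apply hcond.sq_not_dvd hq
    rw [pow_two]
    exact Nat.mul_dvd_mul h dvd_rfl
  have hqp : q ≠ P.p := fun h => hpM₀ (h ▸ hqM₀)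
  have hp2 : P.p ≠ 2 := by have := P.hp5; omega
  obtain ⟨f, W, 𝔪, hf, hW, h𝔪, hp𝔪, hcong⟩ := hmod
  haveI := h𝔪
  haveI : P.freyCurve.IsElliptic := Fermat.Agent.MP.freyCurve_isElliptic P
  have hΔ : W.Δ ≠ 0 := Fermat.Agent.LR.NonEis.Δ_ne_zero_of_isIntegralModelOf P.freyCurve hW
  -- the set `S`
  let S : Finset ℕ := insert P.p (M * q).primeFactors
  have hS : ∀ ℓ : ℕ, ℓ ∈ S ↔ ℓ.Prime ∧ (ℓ = P.p ∨ ℓ ∣ M * q) := by
    intro ℓ
    simp only [S, Finset.mem_insert, Nat.mem_primeFactors]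
    constructor
    · rintro (rfl | ⟨h1, h2, -⟩)
      · exact ⟨P.pp, Or.inl rfl⟩
      · exact ⟨h1, Or.inr h2⟩
    · rintro ⟨h1, rfl | h2⟩
      · exact Or.inl rfl
      · exact Or.inr ⟨h1, h2, hpos.ne'⟩
  have hpS : P.p ∈ S := (hS _).2 ⟨P.pp, Or.inl rfl⟩
  have hNS : ∀ ℓ : ℕ, ℓ.Prime → ℓ ∣ M * q → ℓ ∈ S := fun ℓ h1 h2 => (hS ℓ).2 ⟨h1, Or.inr h2⟩
  -- the exceptional set of primes
  let S₀ : Finset ℕ := S ∪ W.Δ.natAbs.primeFactors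
  have hS₀ : ∀ ℓ : ℕ, ℓ.Prime → ℓ ∉ S₀ →
      ℓ ∉ (↑S : Set ℕ) ∧ ¬ ℓ ∣ M * q ∧ ℓ ≠ P.p ∧ W.IsGoodPrimeFor ℓ := by
    intro ℓ hℓ hℓS₀
    have h1 : ℓ ∉ S := fun h => hℓS₀ (by simp [S₀, h])
    refine ⟨h1, fun h => h1 (hNS ℓ hℓ h), fun h => h1 (h ▸ hpS), ?_⟩
    intro hdvd
    apply hℓS₀
    have : ℓ ∈ W.Δ.natAbs.primeFactors :=
      Nat.mem_primeFactors.2 ⟨hℓ, Int.natCast_dvd.mp hdvd, Int.natAbs_ne_zero.mpr hΔ⟩
    simp [S₀, this]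
  -- the `p`-adic setup
  obtain ⟨𝒪, i1, i2, i3, i4, i5, i6, hp𝒪, hζ, hquad, χ₀, θ', hχ₀⟩ :=
    exists_padic_setup hf (↑S : Set ℕ) P.pp 𝔪 hp𝔪
  letI := i1
  haveI := i2
  haveI := i3
  haveI := i4
  haveI := i5
  haveI := i6
  let θ : heckeAlgebra (M * q) 2 (↑S : Set ℕ) →+* ResidueField 𝒪 := (residue 𝒪).comp χ₀
  have h0k : ((P.p : ℕ) : ResidueField 𝒪) = 0 := by
    have := (residue_eq_zero_iff (P.p : 𝒪)).mpr hp𝒪
    rwa [map_natCast] at this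
  haveI : CharP (ResidueField 𝒪) P.p := (CharP.charP_iff_prime_eq_zero P.pp).mpr h0k
  let ψ₀ : ZMod P.p →+* ResidueField 𝒪 := ZMod.castHom (dvd_refl P.p) (ResidueField 𝒪)
  -- the field `ℤ̄ ⧸ 𝔪`
  letI : Field (ℤbar ⧸ 𝔪) := Ideal.Quotient.field 𝔪
  haveI : CharP (ℤbar ⧸ 𝔪) P.p := charP_quotient_of_mem 𝔪 P.pp hp𝔪
  let φ : ℤbar →+* (ℤbar ⧸ 𝔪) := Ideal.Quotient.mk 𝔪
  let ψF : ZMod P.p →+* (ℤbar ⧸ 𝔪) := ZMod.castHom (dvd_refl P.p) (ℤbar ⧸ 𝔪)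
  have hθ'ψ : θ'.comp ψ₀ = ψF := RingHom.ext_zmod _ _
  have hφ : ∀ (a : ℤbar) (n : ℤ), φ a = ((n : ℤ) : ℤbar ⧸ 𝔪) ↔ a - ((n : ℤ) : ℤbar) ∈ 𝔪 := by
    intro a n
    rw [← Ideal.Quotient.eq_zero_iff_mem, map_sub, map_intCast, sub_eq_zero]
  -- the bridge for `f`
  obtain ⟨ρf, hatt, hunrf, hIf⟩ := exists_attached_intertwined P hf hW hirr φ ψF S₀ (by
    intro ℓ hℓ hℓS₀
    obtain ⟨-, hℓN, hℓp, hgood⟩ := hS₀ ℓ hℓ hℓS₀
    obtain ⟨a, ha, ha'⟩ := hcong ℓ hℓ hgood hℓN hℓp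
    exact ⟨a, ha, (hφ a _).2 ha'⟩)
  -- `2 ∣ M * q`
  have h2N : 2 ∣ M * q := by
    by_contra h2
    have h2' : ¬ 2 ∣ M * q * P.p := by
      intro h
      rcases (Nat.Prime.dvd_mul Nat.prime_two).1 h with h | h
      · exact h2 h
      · exact hp2 ((Nat.prime_dvd_prime_iff_eq Nat.prime_two P.pp).1 h).symm
    exact freyRhobar_not_isUnramifiedAt_two P
      ((hIf.isUnramifiedAt_iff 2).mp (hunrf 2 Nat.prime_two h2'))
  -- `θ` on the good primes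
  have hθ : ∀ (ℓ : ℕ) (hℓ : ℓ.Prime) (hℓN : ¬ ℓ ∣ M * q) (hℓS : ℓ ∉ (↑S : Set ℕ)), ℓ ∉ S₀ →
      θ (heckeAlgebra.T hℓ hℓN hℓS) = ((W.apOfModel ℓ : ℤ) : ResidueField 𝒪) := by
    intro ℓ hℓ hℓN hℓS hℓS₀
    obtain ⟨-, -, hℓp, hgood⟩ := hS₀ ℓ hℓ hℓS₀
    obtain ⟨a, ha, hθa⟩ := hχ₀ ℓ hℓ hℓN hℓS
    obtain ⟨a', ha', hcg⟩ := hcong ℓ hℓ hgood hℓN hℓp
    have haa' : a = a' := zbar_ext (ha.trans ha'.symm)
    apply θ'.injective
    rw [map_intCast]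
    show θ' (residue 𝒪 (χ₀ (heckeAlgebra.T hℓ hℓN hℓS))) = _
    rw [hθa, haa']
    exact (hφ a' _).2 hcg
  -- the residual representation
  let ρbar : ResidualGaloisRep (ResidueField 𝒪) := (freyRhobar P).baseChangeAlong ψ₀
  have habs : ρbar.IsAbsolutelyIrreducible := isAbsolutelyIrreducible_rhobar P ψ₀ hirr
  have hbardet : LinearMap.det (ρbar.ρ complexConjugation) = -1 :=
    det_rhobar_complexConjugation P ψ₀
  have hbarchar : ∀ (ℓ : ℕ) (hℓ : ℓ.Prime) (hℓN : ¬ ℓ ∣ M * q) (hℓS : ℓ ∉ (↑S : Set ℕ)),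
      ∀ A' : ValuationSubring Ω, A'.LiesOverPrime ℓ → ∀ σ : GQ, A'.IsFrobeniusAt σ ℓ →
        LinearMap.charpoly (ρbar.ρ σ) =
          X ^ 2 - C (θ (heckeAlgebra.T hℓ hℓN hℓS)) * X + C ((ℓ : ResidueField 𝒪)) := by
    intro ℓ hℓ hℓN hℓS A' hA' σ hσ
    have hℓp : ℓ ≠ P.p := fun h => hℓS (h ▸ hpS)
    obtain ⟨a, ha, hchar⟩ := charpoly_freyRhobar_of_attached P hatt hIf hℓ hℓN hℓp A' hA' σ hσ
    obtain ⟨a₁, ha₁, hθa⟩ := hχ₀ ℓ hℓ hℓN hℓS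
    have haa₁ : a₁ = a := zbar_ext (ha₁.trans ha.symm)
    apply Polynomial.map_injective θ' θ'.injective
    rw [charpoly_baseChangeAlong, Polynomial.map_map, hθ'ψ, hchar]
    simp only [Polynomial.map_add, Polynomial.map_sub, Polynomial.map_mul, Polynomial.map_pow,
      Polynomial.map_X, Polynomial.map_C, map_natCast]
    have h1 : θ' (θ (heckeAlgebra.T hℓ hℓN hℓS)) = φ a := by
      show θ' (residue 𝒪 (χ₀ (heckeAlgebra.T hℓ hℓN hℓS))) = _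
      rw [hθa, haa₁]
    rw [h1, Polynomial.map_natCast]
  -- (A): the Hecke–Galois datum
  obtain ⟨T, j1, j2, j3, j4, j5, j6, j7, j8, H, -, -, hfull⟩ :=
    Fermat.Agent.RB.REPT.exists_heckeGaloisRepDatum' (N := M * q) (S := S) (𝒪 := 𝒪) P.p hp2 hpS hNS
      hp𝒪 θ ρbar habs hbarchar hbardet
  letI := j1
  haveI := j2
  haveI := j3
  haveI := j4
  letI := j5
  haveI := j6
  haveI := j7
  haveI := j8
  -- the residual side (lead's [HYG])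
  obtain ⟨ψT⟩ := exists_zmod_hom_residueField (𝒪 := 𝒪) (T := T) P hp𝒪
  have hI : ResIntertwined ψT (freyRhobar P) H.ρ.residual :=
    datum_resIntertwined H P ψT hW hirr S₀ hS₀ hθ
  have hquadT : ∀ f : (ZMod P.p)[X], f.Monic → f.natDegree = 2 →
      ∃ α β : ResidueField T, f.map ψT = (X - C α) * (X - C β) := by
    intro f hfm hfd
    obtain ⟨α, β, hαβ⟩ := hquad ψ₀ f hfm hfd
    let κ : ResidueField 𝒪 →+* ResidueField T := ResidueField.map (algebraMap 𝒪 T)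
    have hκ : κ.comp ψ₀ = ψT := RingHom.ext_zmod _ _
    refine ⟨κ α, κ β, ?_⟩
    rw [← hκ, ← Polynomial.map_map, hαβ]
    simp only [Polynomial.map_mul, Polynomial.map_sub, Polynomial.map_X, Polynomial.map_C]
  -- the set `Σ`
  let Sig : Finset ℕ := (M * q).primeFactors.filter (fun v => v ≠ 2)
  have hSig1 : ∀ v ∈ Sig, v.Prime ∧ v ∣ M * q ∧ v ≠ 2 ∧ ResFrobScalarAt H.ρ.residual P.p v := by
    intro v hv
    obtain ⟨hvpf, hv2⟩ := Finset.mem_filter.1 hv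
    have hvp : v.Prime := Nat.prime_of_mem_primeFactors hvpf
    have hvd : v ∣ M * q := Nat.dvd_of_mem_primeFactors hvpf
    have hvne : v ≠ P.p := fun h => hpM₀ (h ▸ hvd)
    exact ⟨hvp, hvd, hv2, datum_resFrobScalarAt hI hvp hv2 hvne
      (hSigP v hvp hvd hv2 (Fermat.Agent.S05.result P hvp hv2 hvne))⟩
  have hSig2 : ∀ ℓ : ℕ, ℓ.Prime → ℓ ∣ M * q → ℓ ∉ Sig → ¬ H.ρ.residual.IsUnramifiedAt ℓ := by
    intro ℓ hℓ hℓd hℓSig
    have h2 : ℓ = 2 := by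
      by_contra h
      exact hℓSig (Finset.mem_filter.2 ⟨Nat.mem_primeFactors.2 ⟨hℓ, hℓd, hpos.ne'⟩, h⟩)
    rw [h2]
    exact datum_not_isUnramifiedAt_two hI
  have hqSig : q ∈ Sig :=
    Finset.mem_filter.2 ⟨Nat.mem_primeFactors.2 ⟨hq, hqM₀, hpos.ne'⟩, hq2⟩
  -- Ihara avoidance for the datum
  have key := hIAD P.p P.hp5 hp𝒪 hζ (M * q) hcond.squarefree hpM₀ h2N S hS θ T H
    (fun B _ _ _ _ _ _ χ hχ => hfull B injective_algebraMap_of_finite_dvr χ hχ)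
    (fun σ => datum_hsplit hI hquadT σ)
    (fun K _ _ G hG V hV => datum_hTW hI hirr K G hG V hV) Sig hSig1 hSig2
  -- a characteristic-zero prime containing the inertia ideals
  have hdisj : Disjoint (↑(⨆ v ∈ Sig, inertiaIdeal H.ρ v) : Set T)
      (↑(Submonoid.powers (P.p : T)) : Set T) := by
    rw [Set.disjoint_left]
    rintro x hx ⟨k, rfl⟩
    exact key k hx
  obtain ⟨𝔭, h𝔭prime, hle, h𝔭disj⟩ := Ideal.exists_le_prime_disjoint _ _ hdisj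
  haveI := h𝔭prime
  have hp𝔭 : (P.p : T) ∉ 𝔭 := fun h => Set.disjoint_left.1 h𝔭disj h ⟨1, pow_one _⟩
  have hq𝔭 : inertiaIdeal H.ρ q ≤ 𝔭 := le_trans (le_iSup₂_of_le q hqSig le_rfl) hle
  -- (LGC-St)
  obtain ⟨χ, hχ⟩ := hNR P.p P.hp5 hp𝒪 M q hq hqM hqp hq2 S hpS hNS θ T H 𝔭 h𝔭prime hp𝔭 hq𝔭
  -- the quotient `T ⧸ 𝔭`
  haveI : IsDomain (T ⧸ 𝔭) := Ideal.Quotient.isDomain 𝔭
  haveI : CharZero (T ⧸ 𝔭) := charZero_quotient_of_natCast_notMem hp𝒪 𝔭 hp𝔭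
  let 𝔫 : Ideal (T ⧸ 𝔭) := (maximalIdeal T).map (Ideal.Quotient.mk 𝔭)
  haveI h𝔫 : 𝔫.IsPrime := by
    refine Ideal.map_isPrime_of_surjective Ideal.Quotient.mk_surjective ?_
    rw [Ideal.mk_ker]
    exact IsLocalRing.le_maximalIdeal h𝔭prime.ne_top
  have hmem𝔫 : ∀ x : T, x ∈ maximalIdeal T → (Ideal.Quotient.mk 𝔭 x) ∈ 𝔫 := fun x hx =>
    Ideal.mem_map_of_mem _ hx
  have hpT : (P.p : T) ∈ maximalIdeal T := by
    have h1 : algebraMap 𝒪 T (P.p : 𝒪) ∈ maximalIdeal T := by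
      rw [mem_maximalIdeal, mem_nonunits_iff]
      intro hu
      exact hp𝒪 (isUnit_of_map_unit (algebraMap 𝒪 T) _ hu)
    rwa [map_natCast] at h1
  have hp𝔫 : (P.p : T ⧸ 𝔭) ∈ 𝔫 := by
    have := hmem𝔫 _ hpT
    rwa [map_natCast] at this
  have hχcong : ∀ (ℓ : ℕ) (hℓ : ℓ.Prime) (hℓM : ¬ ℓ ∣ M) (hℓS : ℓ ∉ (↑S : Set ℕ)), ℓ ∉ S₀ →
      χ (heckeAlgebra.T hℓ hℓM hℓS) - (((W.apOfModel ℓ : ℤ)) : T ⧸ 𝔭) ∈ 𝔫 := by
    intro ℓ hℓ hℓM hℓS hℓS₀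
    obtain ⟨-, hℓN, -, -⟩ := hS₀ ℓ hℓ hℓS₀
    have h1 := hχ ℓ hℓ hℓN hℓS
    have h2 : χ (heckeAlgebra.T hℓ hℓM hℓS) =
        Ideal.Quotient.mk 𝔭 (H.π (heckeAlgebra.T hℓ hℓN hℓS)) := h1
    rw [h2, ← map_intCast (Ideal.Quotient.mk 𝔭), ← map_sub]
    apply hmem𝔫
    rw [← residue_eq_zero_iff, map_sub, map_intCast, H.residue_π, hθ ℓ hℓ hℓN hℓS hℓS₀,
      map_intCast, sub_self]
  have hmodM : P.ModularRepOfLevel M :=
    modularRepOfLevel_of_character P hW hirr χ 𝔫 hp𝔫 S₀ hχcong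
  refine hmin M (Dvd.intro _ rfl) ?_ hmodM
  intro h
  have h1 : M * 1 = M * q := by rw [mul_one]; exact h
  have := Nat.eq_of_mul_eq_mul_left (Nat.pos_of_ne_zero hM0) h1
  exact hq.one_lt.ne this

end Main

end Fermat.Agent.RB.TOPIA
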