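/-
PROJECT RB — top-level assembly (lead): **S43 from the remaining open leaves**, as an integration
test of all the interfaces.

  S43  ⇐  S44 (main) + MazurPrinciple (⇐ KeyMazStatement ⇐ LegRoldQ: PROVED)
                      + IharaAvoidanceFrey ⇐ TopIA (PROVED) (NewRamified ⇐ KeyI3Restricted ⇐
                          NewToricStatement [OPEN]) (IharaAvoidanceDatum ⇐ GLUE [OPEN]
                            (TWProducerStatement ⇐ TWModStatement [OPEN] + ThetaKillsJ1 [OPEN])
                            (SelStatement: PROVED) (CoreStatement: PROVED))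
-/
import Mathlib
import Fermat.Agent.RB.IFACE_helper9_Top
import Fermat.Agent.RB.TOPIA_helper1_Main
import Fermat.Agent.RB.MAZ_helper6_Adapter
import Fermat.Agent.RB.MAZ_helper6_ChainT
import Fermat.Agent.RB.MAZ_helper6_KeyToric
import Fermat.Agent.RB.ROLD_helper4_Main
import Fermat.Agent.RB.LGCBR_lead_Main
import Fermat.Agent.RB.REPT_helper1_TWProducer
import Fermat.Agent.RB.SEL_helper4_Main
import Fermat.Agent.RB.PATCH_helper9_Core
import Fermat.Agent.S44

set_option autoImplicit false

namespace Fermat.Agent.RB.ASM

/-- **[GLUE]** (helper9): the Taylor–Wiles producer, the Selmer statement and the commutative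
algebra core give Ihara avoidance for Hecke–Galois data. -/
def GlueStatement : Prop :=
  TWProducerStatement → SelStatement → CoreStatement → IharaAvoidanceDatum

/-- Mazur's principle: PROVED. -/
theorem mazurPrinciple : MazurPrinciple :=
  mazurPrinciple_of_keyMaz' (keyMazStatement_of_rold ROLD.legRoldQ)

/-- the statement of S44 is on main. -/
theorem s44Statement : S44Statement :=
  fun P _ hcond hpN hirr hmod => Fermat.Agent.S44.result P hcond hpN hirr hmod

/-- `NewRamified` from `NewToricStatement`. -/
theorem newRamified_of_newToric (H : NewToricStatement) : NewRamified :=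
  newRamified_of_keyI3 (fun M q p _ _ _ hq hp hqp hqM h5 hq2 =>
    keyI3_of_newToricStatement H M q p hq hq2 hp h5 hqp hqM)

/-- **S43 from the leaves, with (KEY-I3) in the weak form** (constant depending on the place). -/
theorem s43Statement_of_leaves_weak (hglue : GlueStatement) (htwmod : TWModStatement)
    (hTh : ∀ (M : ℕ) [NeZero M], 5 ≤ M → ∀ (p : ℕ) [Fact p.Prime], ThetaKillsJ1 M p)
    (hkey : KeyI3WRestricted) : S43Statement :=
  s43_of_mazur_ihara s44Statement mazurPrinciple
    (TOPIA.topIA (newRamified_of_keyI3W hkey)
      (hglue (REPT.twProducerStatement_of_twMod htwmod hTh) SEL.selStatement coreStatement))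

/-- **S43 from the four open leaves.** -/
theorem s43Statement_of_leaves (hglue : GlueStatement) (htwmod : TWModStatement)
    (hTh : ∀ (M : ℕ) [NeZero M], 5 ≤ M → ∀ (p : ℕ) [Fact p.Prime], ThetaKillsJ1 M p)
    (hnt : NewToricStatement) : S43Statement :=
  s43_of_mazur_ihara s44Statement mazurPrinciple
    (TOPIA.topIA (newRamified_of_newToric hnt)
      (hglue (REPT.twProducerStatement_of_twMod htwmod hTh) SEL.selStatement coreStatement))

end Fermat.Agent.RB.ASM
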