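/-
PROJECT RB — ARCHITECT (helper9) — WIRING 2: **S43 from the THREE remaining open leaves**
(`TWModStatement`, `ThetaKillsJ1`, `KeyI3WRestricted`), with [GLUE] plugged in.
-/
import Mathlib
import Fermat.Agent.RB.S43ASM_lead_Main
import Fermat.Agent.RB.GLUE_helper9_Main

set_option autoImplicit false

namespace Fermat.Agent.RB

/-- `IharaAvoidanceDatum` from the Taylor–Wiles producers alone ([SEL], [CORE], [GLUE] proved) -/
theorem iharaAvoidanceDatum_of_twProducer (hTW : TWProducerStatement) : IharaAvoidanceDatum :=
  GLUE.iharaAvoidanceDatum_of_producers hTW SEL.selStatement coreStatement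

/-- **S43 from the three open leaves.** -/
theorem s43Statement_of_three_leaves (htwmod : TWModStatement)
    (hTh : ∀ (M : ℕ) [NeZero M], 5 ≤ M → ∀ (p : ℕ) [Fact p.Prime], ThetaKillsJ1 M p)
    (hkey : KeyI3WRestricted) : S43Statement :=
  ASM.s43Statement_of_leaves_weak GLUE.iharaAvoidanceDatum_of_producers htwmod hTh hkey

end Fermat.Agent.RB
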