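/-
PROJECT RB — ARCHITECT (helper9) — WIRING 3: **`TWModStatement` closed** (all twelve [TWMOD]
leaves plugged into helper2's final assembly), and **S43 from the TWO remaining leaves**.
-/
import Mathlib
import Fermat.Agent.RB.WIRE_helper9_S43
import Fermat.Agent.RB.TWMOD_helper2_Final
import Fermat.Agent.RB.T3_helper3_Iter
import Fermat.Agent.RB.LEVEL0_helper3_Main
import Fermat.Agent.RB.TWMOD_helper1_Grp
import Fermat.Agent.RB.TWMOD_helper9_Resid
import Fermat.Agent.RB.TWMOD_lead_ZeroPrim
import Fermat.Agent.RB.TW_lead_Exists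
import Fermat.Agent.RB.TW_lead_Par
import Fermat.Agent.RB.TW_lead_Hecke
import Fermat.Agent.RB.TW_lead_Inj
import Fermat.Agent.RB.TW_lead_SSBig
import Fermat.Agent.RB.SS_lead_Side
import Fermat.Agent.RB.OCC_helper1_Main

set_option autoImplicit false

namespace Fermat.Agent.RB.WIRE

/-- **[TWMOD] closed**: the Taylor–Wiles module statement, all leaves proved. -/
theorem twModStatement_closed : TWModStatement :=
  TWM.twModStatement_of_leaves TWM.t3IterStatement TWM.level0Statement TWM.grpDataStatement
    TWM.residStatement TWM.zeroPrimStatement TWL.twExistsStatement TWL.twParabolicStatement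
    TWL.twHeckeStatement TWL.twInjStatement TWL.ssBigStatement SSL.sideReducedStatement
    OCC.sideOccStatement

/-- **S43 from the TWO remaining open leaves** (`ThetaKillsJ1`, `KeyI3WRestricted`). -/
theorem s43Statement_of_two_leaves
    (hTh : ∀ (M : ℕ) [NeZero M], 5 ≤ M → ∀ (p : ℕ) [Fact p.Prime], ThetaKillsJ1 M p)
    (hkey : KeyI3WRestricted) : S43Statement :=
  s43Statement_of_three_leaves twModStatement_closed hTh hkey

end Fermat.Agent.RB.WIRE
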