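/-
PROJECT RB — ARCHITECT (helper9) — WIRING 4: **the two remaining leaves of S43, reduced to their
last open literals**, and S43 from them.

* leaf 2 `ThetaKillsJ1` ⇐ `DESC1.LegThetaBase` (helper4) ⇐ `LegLEFacts` (helper8's literal, wired by
  helper5's `legThetaBase_of_facts`);
* leaf 3 `KeyI3WRestricted` ⇐ `NewToricAtStatement` (per-place [NODE-I], helper6) by (KEY-TORIC)
  (helper6's `keyToricStatement`) ⇐ `LegNewBaseQ` (helper7's `newToricAtStatement_of_parts` +
  `newDescQ`).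
-/
import Mathlib
import Fermat.Agent.RB.WIRE_helper9_TWMod
import Fermat.Agent.RB.DESC1_helper4_Main
import Fermat.Agent.RB.KEYH_helper5_Theta
import Fermat.Agent.RB.MAZ_helper6_KeyToric
import Fermat.Agent.RB.NEWT_helper7_Asm
import Fermat.Agent.RB.NEWT_helper7_Desc
import Fermat.Agent.RB.NEWT_helper7_Wire
import Fermat.Agent.RB.NEWT_helper9_DictQ
import Fermat.Agent.RB.RECS_helper8_Host

set_option autoImplicit false

namespace Fermat.Agent.RB.WIRE

/-- **leaf 2** from helper8's literal `LegLEFacts`. -/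
theorem thetaKillsJ1_of_legLEFacts (hE : LegLEFacts) (M : ℕ) [NeZero M] (hM : 5 ≤ M) (p : ℕ)
    [Fact p.Prime] : ThetaKillsJ1 M p :=
  DESC1.thetaKillsJ1_of_legThetaBase (legThetaBase_of_facts hE) M hM p

/-- (KEY-I3W) at one level from the per-place [NODE-I]. -/
theorem keyI3W_of_newToricAt {M q p : ℕ} [NeZero M] [NeZero q] [NeZero (M * q)] (hq : q.Prime)
    (hq2 : q ≠ 2) (hp : p.Prime) (hp5 : 5 ≤ p) (hqp : q ≠ p) (hqM : ¬ q ∣ M)
    (H : ∀ A : ValuationSubring (AlgebraicClosure ℚ), A.LiesOverPrime q → NewToricAt M q p A) :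
    KeyI3W M q p := by
  intro A hA
  obtain ⟨c, hc⟩ := H A hA
  refine ⟨c, fun φ hφ k x hx hI hα hβ => ?_⟩
  have hqm : ¬ q ∣ p ^ k := fun h =>
    hqp ((Nat.prime_dvd_prime_iff_eq hq hp).1 (hq.dvd_of_dvd_pow h))
  have htor := hc k x hx hI hα hβ
  have hR := keyToricStatement M q hq hq2 hqM A hA φ hφ (p ^ k) (pow_pos hp.pos k) hqm
    (legDeg_coprime_pow (M * q) hp hp5 k) _ htor
  have h1 := frob_sq_eq_of_frob_add_al φ (atkinLehnerJ hq hqM) (atkinLehnerJ_atkinLehnerJ hq hqM)
    (fun z => (smul_atkinLehnerJ hq hqM φ z).symm) q hR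
  exact (nsmul_frob_sq_sub φ (p ^ c) (q ^ 2) x).trans (by rw [h1, sub_self])

/-- **leaf 3** from the per-place [NODE-I] statement. -/
theorem keyI3WRestricted_of_newToricAtStatement (H : NewToricAtStatement) : KeyI3WRestricted :=
  fun M q p _ _ _ hq hp hqp hqM hp5 hq2 =>
    keyI3W_of_newToricAt hq hq2 hp hp5 hqp hqM (H M q p hq hq2 hp hp5 hqp hqM)

/-- **leaf 3** from helper7's literal `LegNewBaseQ` ([NEW-DESC] is proved). -/
theorem keyI3WRestricted_of_legNewBaseQ (hB : LegNewBaseQ) : KeyI3WRestricted :=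
  keyI3WRestricted_of_newToricAtStatement (newToricAtStatement_of_parts newDescQ hB)

/-- **S43 from the two last open literals.** -/
theorem s43Statement_of_last_literals (hE : LegLEFacts) (hB : LegNewBaseQ) : S43Statement :=
  s43Statement_of_two_leaves (fun M _ hM p _ => thetaKillsJ1_of_legLEFacts hE M hM p)
    (keyI3WRestricted_of_legNewBaseQ hB)

/-- **leaf 3** from (D2) `LegNewDeltaQ` alone ((D1) `legNewDictQ`, [HALF∞]-NEW, [BASE]-NEW and
[NEW-DESC] are proved). -/
theorem keyI3WRestricted_of_legNewDeltaQ (hD : LegNewDeltaQ) : KeyI3WRestricted :=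
  keyI3WRestricted_of_newToricAtStatement (newToricAtStatement_of_dict_delta legNewDictQ hD)

/-- **S43 from `LegLEFacts` and (D2) `LegNewDeltaQ`.** -/
theorem s43Statement_of_facts_delta (hE : LegLEFacts) (hD : LegNewDeltaQ) : S43Statement :=
  s43Statement_of_two_leaves (fun M _ hM p _ => thetaKillsJ1_of_legLEFacts hE M hM p)
    (keyI3WRestricted_of_legNewDeltaQ hD)

/-- **LEAF 2 CLOSED**: `ThetaKillsJ1 M p` for all `M ≥ 5` and all primes `p`
(helper8's `legL_E_facts`). -/
theorem thetaKillsJ1_closed (M : ℕ) [NeZero M] (hM : 5 ≤ M) (p : ℕ) [Fact p.Prime] :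
    ThetaKillsJ1 M p :=
  thetaKillsJ1_of_legLEFacts legL_E_facts M hM p

/-- **S43 from the last open literal (D2) `LegNewDeltaQ`.** -/
theorem s43Statement_of_legNewDeltaQ (hD : LegNewDeltaQ) : S43Statement :=
  s43Statement_of_facts_delta legL_E_facts hD

end Fermat.Agent.RB.WIRE
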