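/-
S59 Gate 0, [HOSTGAL] — helper5 — part 4: **Kummer descent at `p = 3` through EVERY Legendre host**
`legHost K F₀ = K(λ)·(K·F₀)(x²)` (helper7's `RB/KEYH_helper7_Host`), `F₀ ∋ j` any field of modular
functions: `W1.legE K M` (`F₀ = F₁ M 1`, the `X₁(M)`-world of (KEY-H); part 2 is this special case),
`JA.legE K N` (`F₀ = modularFunctionFieldFull N`, the `X₀(N)`-world of MAZ / NEWT / ROLD / FG / MW),
`legEL K M L` (`F₀ = F₁ M L`).

* `mem_range_legHostEmb_of_pow` : `u ∈ legHost K F₀`, `u ^ (3 ^ n) ∈ φ(K·F₀)` ⇒ `u ∈ φ(K·F₀)`,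
  `φ = legHostEmb K F₀` (`f ↦ f(x²)`), `K ∋ ζ` a primitive `3 ^ n`-th root of unity;
* `exists_pow_eq_of_legHostEmb_eq_pow` : `φ G = u ^ (3 ^ n)` ⇒ `G = v ^ (3 ^ n)`, `φ v = u`;
* `mem_range_fullToLegE_of_pow₀`, `exists_pow_eq_of_fullToLegE_eq_pow₀` : the same for
  `JA.fullToLegE K N : keyFq K N → legE K N` (this is what replaces `legDeg_coprime_pow`,
  `legCoverDeg_coprime` at `p = 3` in `MAZ_helper6_KeyToric`, `MAZ_helper6_Top`, `ROLD_helper4_*`).
-/
import Mathlib
import Fermat.Agent.RB.P3_helper5_HostGal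
import Fermat.Agent.RB.FIELD1_helper5_Host

set_option autoImplicit false
set_option linter.unusedSectionVars false
set_option linter.unusedVariables false
set_option linter.style.haveILetI false
set_option synthInstance.maxHeartbeats 400000

open HahnSeries IntermediateField AlgebraicCurve ModularCurve Polynomial

noncomputable section

namespace Fermat.Agent.RB.P3

open Fermat.Agent.JA Fermat.Agent.SS Fermat.Agent.Igusa
open scoped Fermat.Agent.JA.Host

section Gen

variable (K : Type*) [Field K] [Algebra ℚ K] (F₀ : IntermediateField ℚ (LaurentSeries ℚ))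

/-- the Legendre coordinate as an element of the host. -/
def legTH : ↥(legHost K F₀) := ⟨legT K, legT_mem_legHost F₀⟩

/-- `j` as an element of `K·F₀`. -/
def jGenH (hj : jqModC K ∈ laurentBaseChange K F₀) : ↥(laurentBaseChange K F₀) := ⟨jqModC K, hj⟩

variable {K F₀} in
theorem coe_legHostEmb_jGenH (hj : jqModC K ∈ laurentBaseChange K F₀) :
    ((legHostEmb K F₀ (jGenH K F₀ hj) : ↥(legHost K F₀)) : LaurentSeries K) = jqNModC K 2 := rfl

variable {K F₀} in
/-- the Legendre relation in the host. -/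
theorem legTH_rel (hj : jqModC K ∈ laurentBaseChange K F₀) :
    legHostEmb K F₀ (jGenH K F₀ hj) * (legTH K F₀ ^ 2 * (legTH K F₀ - 1) ^ 2) =
      256 * (legTH K F₀ ^ 2 - legTH K F₀ + 1) ^ 3 := by
  apply Subtype.ext
  have h := legT_rel K
  push_cast
  rw [coe_legHostEmb_jGenH]
  exact h

theorem legTH_ne_zero : legTH K F₀ ≠ 0 := fun h => legT_ne_zero K (congrArg Subtype.val h)

theorem legTH_ne_one : legTH K F₀ ≠ 1 := fun h => legT_ne_one K (congrArg Subtype.val h)

theorem one_sub_legTH_ne : 1 - legTH K F₀ ≠ legTH K F₀ := by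
  intro h
  have h' : (1 : LaurentSeries K) - legT K = legT K := congrArg Subtype.val h
  have hp : (Polynomial.C 2 * X - Polynomial.C 1 : K[X]) ≠ 0 := by
    intro h0
    have := congrArg (Polynomial.eval 0) h0
    simp at this
  apply legT_aeval_ne_zero K hp
  rw [map_sub, map_mul, aeval_X, aeval_C, aeval_C, map_one, map_ofNat]
  linear_combination -h'

theorem inv_legTH_ne : (legTH K F₀)⁻¹ ≠ legTH K F₀ := by
  intro h
  have h' : (legT K)⁻¹ = legT K := congrArg Subtype.val h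
  have hp : (X ^ 2 - Polynomial.C 1 : K[X]) ≠ 0 := by
    intro h0
    have := congrArg (Polynomial.eval 0) h0
    simp at this
  apply legT_aeval_ne_zero K hp
  rw [map_sub, map_pow, aeval_X, aeval_C, map_one, pow_two]
  nth_rewrite 1 [← h']
  rw [inv_mul_cancel₀ (legT_ne_zero K), sub_self]

theorem one_sub_legTH_ne_inv : 1 - legTH K F₀ ≠ (legTH K F₀)⁻¹ := by
  intro h
  have h' : (1 : LaurentSeries K) - legT K = (legT K)⁻¹ := congrArg Subtype.val h
  have hp : (X ^ 2 - X + Polynomial.C 1 : K[X]) ≠ 0 := by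
    intro h0
    have := congrArg (Polynomial.eval 0) h0
    simp at this
  apply legT_aeval_ne_zero K hp
  rw [map_add, map_sub, map_pow, aeval_X, aeval_C, map_one]
  have h2 : (1 - legT K) * legT K = 1 := by
    rw [h', inv_mul_cancel₀ (legT_ne_zero K)]
  linear_combination -h2

/-- **`legHost K F₀ = φ(K·F₀)(t)`**. -/
theorem adjoin_legTH_eq_top :
    letI : Algebra ↥(laurentBaseChange K F₀) ↥(legHost K F₀) :=
      (legHostEmb K F₀).toRingHom.toAlgebra
    IntermediateField.adjoin ↥(laurentBaseChange K F₀) {legTH K F₀} = ⊤ := by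
  letI : Algebra ↥(laurentBaseChange K F₀) ↥(legHost K F₀) :=
    (legHostEmb K F₀).toRingHom.toAlgebra
  haveI : IsScalarTower K ↥(laurentBaseChange K F₀) ↥(legHost K F₀) :=
    isScalarTower_along (legHostEmb K F₀)
  rw [eq_top_iff]
  intro e _
  set S := IntermediateField.adjoin ↥(laurentBaseChange K F₀) {legTH K F₀} with hS
  let T : IntermediateField K (LaurentSeries K) :=
    (S.restrictScalars K).map (legHost K F₀).val
  have h1 : hostW K 2 F₀ ≤ T := by
    intro x hx
    obtain ⟨y, hy, rfl⟩ := mem_hostImage_iff.mp hx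
    refine (IntermediateField.mem_map _).mpr ⟨legHostEmb K F₀ ⟨y, hy⟩, ?_, rfl⟩
    show legHostEmb K F₀ ⟨y, hy⟩ ∈ S
    exact S.algebraMap_mem ⟨y, hy⟩
  have h2 : K⟮legT K⟯ ≤ T := by
    rw [adjoin_simple_le_iff]
    refine (IntermediateField.mem_map _).mpr ⟨legTH K F₀, ?_, rfl⟩
    show legTH K F₀ ∈ S
    exact IntermediateField.mem_adjoin_simple_self _ _
  have h3 : legHost K F₀ ≤ T := by
    rw [legHost_eq_sup]
    exact sup_le h2 h1
  obtain ⟨s, hs, hse⟩ := (IntermediateField.mem_map _).mp (h3 e.2)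
  have : s = e := Subtype.ext hse
  rw [← this]
  exact hs

/-- the sign twist preserves every Legendre host. -/
theorem signTwist_mem_legHost {f : LaurentSeries K} (hf : f ∈ legHost K F₀) :
    signTwist K f ∈ legHost K F₀ := by
  have h : (legHost K F₀).map ((signTwist K : LaurentSeries K ≃ₐ[K] LaurentSeries K) :
      LaurentSeries K →ₐ[K] LaurentSeries K) ≤ legHost K F₀ := by
    rw [legHost_eq_sup, IntermediateField.map_sup, IntermediateField.adjoin_map,
      Set.image_singleton]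
    refine sup_le ?_ ?_
    · rw [adjoin_simple_le_iff]
      exact (le_sup_left : K⟮legT K⟯ ≤ _) (signTwist_legT_mem K)
    · rintro _ ⟨f, hf, rfl⟩
      obtain ⟨g, hg, rfl⟩ := mem_hostImage_iff.mp hf
      refine (le_sup_right : hostW K 2 F₀ ≤ _) ?_
      show signTwist K (qExpand K 2 g) ∈ _
      rw [signTwist_qExpand_two]
      exact mem_hostImage_iff.mpr ⟨g, hg, rfl⟩
  exact h ⟨f, hf, rfl⟩

/-- the sign twist on a Legendre host. -/
def legHostSignTwist : ↥(legHost K F₀) ≃+* ↥(legHost K F₀) where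
  toFun x := ⟨signTwist K x, signTwist_mem_legHost K F₀ x.2⟩
  invFun x := ⟨signTwist K x, signTwist_mem_legHost K F₀ x.2⟩
  left_inv x := Subtype.ext (signTwist_signTwist K _)
  right_inv x := Subtype.ext (signTwist_signTwist K _)
  map_mul' x y := Subtype.ext (map_mul (signTwist K) _ _)
  map_add' x y := Subtype.ext (map_add (signTwist K) _ _)

theorem coe_legHostSignTwist (x : ↥(legHost K F₀)) :
    ((legHostSignTwist K F₀ x : ↥(legHost K F₀)) : LaurentSeries K) = signTwist K x := rfl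

theorem legHostSignTwist_legHostEmb (f : ↥(laurentBaseChange K F₀)) :
    legHostSignTwist K F₀ (legHostEmb K F₀ f) = legHostEmb K F₀ f := by
  apply Subtype.ext
  rw [coe_legHostSignTwist, coe_legHostEmb]
  exact signTwist_qExpand_two K _

theorem legHostSignTwist_legHostSignTwist (x : ↥(legHost K F₀)) :
    legHostSignTwist K F₀ (legHostSignTwist K F₀ x) = x :=
  Subtype.ext (signTwist_signTwist K _)

theorem legHostSignTwist_legTH_ne : legHostSignTwist K F₀ (legTH K F₀) ≠ legTH K F₀ := fun h =>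
  signTwist_legT_ne K (congrArg Subtype.val h)

variable {K F₀}

/-- **Kummer descent at `p = 3` through a Legendre host**: `u ∈ E = legHost K F₀`,
`u ^ (3 ^ n) ∈ φ(K·F₀)` ⇒ `u ∈ φ(K·F₀)` (`j ∈ K·F₀`, `K ∋ ζ` a primitive `3 ^ n`-th root of unity). -/
theorem mem_range_legHostEmb_of_pow (hj : jqModC K ∈ laurentBaseChange K F₀) {n : ℕ} {ζ : K}
    (hζ : IsPrimitiveRoot ζ (3 ^ n)) {u : ↥(legHost K F₀)}
    (hu : u ^ (3 ^ n) ∈ (legHostEmb K F₀).toRingHom.range) :
    u ∈ (legHostEmb K F₀).toRingHom.range := by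
  letI : Algebra ↥(laurentBaseChange K F₀) ↥(legHost K F₀) :=
    (legHostEmb K F₀).toRingHom.toAlgebra
  haveI : IsScalarTower K ↥(laurentBaseChange K F₀) ↥(legHost K F₀) :=
    isScalarTower_along (legHostEmb K F₀)
  haveI : CharZero K := charZero_of_injective_algebraMap (algebraMap ℚ K).injective
  haveI : CharZero ↥(laurentBaseChange K F₀) :=
    charZero_of_injective_algebraMap (algebraMap K ↥(laurentBaseChange K F₀)).injective
  let τ : ↥(legHost K F₀) ≃ₐ[↥(laurentBaseChange K F₀)] ↥(legHost K F₀) :=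
    AlgEquiv.ofRingEquiv (f := legHostSignTwist K F₀) (legHostSignTwist_legHostEmb K F₀)
  have hτ2 : τ * τ = 1 := by
    apply AlgEquiv.ext
    intro x
    exact legHostSignTwist_legHostSignTwist K F₀ x
  have hτ1 : τ ≠ 1 := by
    intro h
    apply legHostSignTwist_legTH_ne K F₀
    have := congrArg (fun σ : ↥(legHost K F₀) ≃ₐ[↥(laurentBaseChange K F₀)] ↥(legHost K F₀) =>
      σ (legTH K F₀)) h
    exact this
  have hμ : ∀ η : ↥(legHost K F₀), η ^ (3 ^ n) = 1 →
      η ∈ (algebraMap ↥(laurentBaseChange K F₀) ↥(legHost K F₀)).range := by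
    intro η hη
    have hζL : IsPrimitiveRoot (algebraMap K ↥(legHost K F₀) ζ) (3 ^ n) :=
      hζ.map_of_injective (algebraMap K ↥(legHost K F₀)).injective
    obtain ⟨i, -, hi⟩ := hζL.eq_pow_of_pow_eq_one hη
    refine ⟨(algebraMap K ↥(laurentBaseChange K F₀) ζ) ^ i, ?_⟩
    rw [map_pow, ← IsScalarTower.algebraMap_apply, hi]
  exact mem_range_of_pow_mem_legSextic (F := ↥(laurentBaseChange K F₀)) (L := ↥(legHost K F₀))
    (t := legTH K F₀) (j := jGenH K F₀ hj) (legTH_ne_zero K F₀) (legTH_ne_one K F₀)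
    (legTH_rel hj) (adjoin_legTH_eq_top K F₀) (one_sub_legTH_ne K F₀) (inv_legTH_ne K F₀)
    (one_sub_legTH_ne_inv K F₀) τ hτ2 hτ1 hμ hu

/-- `φ G = u ^ (3 ^ n)` ⇒ `G` is a `3 ^ n`-th power in `K·F₀`. -/
theorem exists_pow_eq_of_legHostEmb_eq_pow (hj : jqModC K ∈ laurentBaseChange K F₀) {n : ℕ}
    {ζ : K} (hζ : IsPrimitiveRoot ζ (3 ^ n)) {G : ↥(laurentBaseChange K F₀)}
    {u : ↥(legHost K F₀)} (h : (legHostEmb K F₀).toRingHom G = u ^ (3 ^ n)) :
    ∃ v : ↥(laurentBaseChange K F₀), G = v ^ (3 ^ n) ∧ legHostEmb K F₀ v = u := by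
  obtain ⟨v, hv⟩ := mem_range_legHostEmb_of_pow hj hζ (u := u) ⟨G, h⟩
  refine ⟨v, ?_, hv⟩
  apply (legHostEmb K F₀).toRingHom.injective
  rw [h, map_pow, hv]

end Gen

section X0

variable (K : Type*) [Field K] [Algebra ℚ K] (N : ℕ) [NeZero N]

/-- **the `X₀(N)`-world**: Kummer descent at `p = 3` through `JA.legE K N / keyFq K N`. -/
theorem mem_range_fullToLegE_of_pow₀ {n : ℕ} {ζ : K} (hζ : IsPrimitiveRoot ζ (3 ^ n))
    {u : ↥(JA.legE K N)} (hu : u ^ (3 ^ n) ∈ (JA.fullToLegE K N).toRingHom.range) :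
    u ∈ (JA.fullToLegE K N).toRingHom.range :=
  mem_range_legHostEmb_of_pow (K := K) (F₀ := modularFunctionFieldFull N)
    (JA.jqModC_mem_keyFq N) hζ hu

theorem exists_pow_eq_of_fullToLegE_eq_pow₀ {n : ℕ} {ζ : K} (hζ : IsPrimitiveRoot ζ (3 ^ n))
    {G : ↥(JA.keyFq K N)} {u : ↥(JA.legE K N)}
    (h : (JA.fullToLegE K N).toRingHom G = u ^ (3 ^ n)) :
    ∃ v : ↥(JA.keyFq K N), G = v ^ (3 ^ n) ∧ JA.fullToLegE K N v = u :=
  exists_pow_eq_of_legHostEmb_eq_pow (K := K) (F₀ := modularFunctionFieldFull N)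
    (JA.jqModC_mem_keyFq N) hζ h

end X0

end Fermat.Agent.RB.P3

end
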