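/-
RB — helper4 — [ROLD-q], part 6: **the subgroup of classes whose Kummer function reduces to a
`p`-th power** (abstract form).

`X : GoodRed Ω A 𝔽 𝔽b`, `φ : F →ₐ[Ω] 𝔽` an embedding of function fields (`F` with constant
functions only the constants), `k = A / 𝔪` algebraically closed.  For `y ∈ Pic⁰(F)`:
`IsRedPow y` iff `y = [D]` with `p D = div f`, `φ f` Gauss-integral with reduction a non-zero
`p`-th power.

* `redPowSubgroup` : these classes form a subgroup;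
* `exists_pow_of_mk_eq` : the reduction of the Kummer function is well defined up to `p`-th powers;
* `IsRedPow.map` : stability under a Hecke-like operator compatible with the reduction;
* `not_isRedPow_of_not_pow` : a class with Kummer function reducing to `w̄ ^ d · B ^ p`, `w̄` not a
  `p`-th power, `(d, p) = 1`, is not in the subgroup;
* `isRedPow_map_sub_zsmul` : a reduced Hecke relation `T̄ w̄ = c · w̄ ^ a · u ^ p` gives
  `T [D] - a [D] ∈ redPowSubgroup`.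
-/
import Mathlib
import Fermat.Agent.FG.LAT_helper5_Gauss
import Fermat.Agent.NP.BASEP_helper2_Old
import Fermat.Agent.MP.KPDESC_helper2_Hecke

set_option autoImplicit false
set_option linter.unusedSectionVars false
set_option linter.style.haveILetI false

noncomputable section

namespace Fermat.Agent.RB.ROLD

open AlgebraicCurve IsLocalRing
open Fermat.Agent.FG Fermat.Agent.S35 Fermat.Agent.NP

variable {Ω : Type*} [Field Ω] {A : ValuationSubring Ω} {𝔽 : Type*} [Field 𝔽] [Algebra Ω 𝔽]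
  {𝔽b : Type*} [Field 𝔽b] [Algebra (ResidueField ↥A) 𝔽b] (X : GoodRed Ω A 𝔽 𝔽b)

/-- `y` is Gauss-integral with reduction `r`. -/
def RedTo (y : 𝔽) (r : 𝔽b) : Prop := ∃ h : y ∈ X.W, X.ρ ⟨y, h⟩ = r

namespace RedTo

variable {X} {y y' : 𝔽} {r r' : 𝔽b}

theorem one : RedTo X (1 : 𝔽) (1 : 𝔽b) := ⟨X.W.one_mem, map_one X.ρ⟩

theorem mul (h : RedTo X y r) (h' : RedTo X y' r') : RedTo X (y * y') (r * r') := by
  obtain ⟨hy, rfl⟩ := h
  obtain ⟨hy', rfl⟩ := h'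
  exact ⟨X.W.mul_mem _ _ hy hy', map_mul X.ρ ⟨y, hy⟩ ⟨y', hy'⟩⟩

theorem pow (h : RedTo X y r) (n : ℕ) : RedTo X (y ^ n) (r ^ n) := by
  induction n with
  | zero => rw [pow_zero, pow_zero]; exact one
  | succ n ih => rw [pow_succ, pow_succ]; exact ih.mul h

theorem unique (h : RedTo X y r) (h' : RedTo X y r') : r = r' := by
  obtain ⟨hy, rfl⟩ := h
  obtain ⟨hy', rfl⟩ := h'
  rfl

theorem ne_zero (h : RedTo X y r) (hr : r ≠ 0) : y ≠ 0 := by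
  obtain ⟨hy, rfl⟩ := h
  exact X.ρ_ne_zero_imp_ne_zero hy hr

theorem inv (h : RedTo X y r) (hr : r ≠ 0) : RedTo X y⁻¹ r⁻¹ := by
  have hy0 := h.ne_zero hr
  obtain ⟨hy, rfl⟩ := h
  have hi : y⁻¹ ∈ X.W := (X.inv_mem_W_iff hy hy0).2 hr
  refine ⟨hi, ?_⟩
  apply eq_inv_of_mul_eq_one_left
  rw [← map_mul]
  have e : (⟨y⁻¹, hi⟩ : ↥X.W) * ⟨y, hy⟩ = 1 := Subtype.ext (inv_mul_cancel₀ hy0)
  rw [e, map_one]

theorem zpow (h : RedTo X y r) (hr : r ≠ 0) (a : ℤ) : RedTo X (y ^ a) (r ^ a) := by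
  obtain ⟨n, rfl | rfl⟩ := Int.eq_nat_or_neg a
  · rw [zpow_natCast, zpow_natCast]
    exact h.pow n
  · rw [zpow_neg, zpow_neg, zpow_natCast, zpow_natCast]
    exact (h.pow n).inv (pow_ne_zero n hr)

theorem div (h : RedTo X y r) (h' : RedTo X y' r') (hr' : r' ≠ 0) : RedTo X (y / y') (r / r') := by
  rw [div_eq_mul_inv, div_eq_mul_inv]
  exact h.mul (h'.inv hr')

theorem algebraMap_of_mem {a : Ω} (ha : a ∈ A) :
    RedTo X (algebraMap Ω 𝔽 a) (algebraMap (ResidueField ↥A) 𝔽b (residue ↥A ⟨a, ha⟩)) :=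
  ⟨X.algebraMap_mem_W ha, X.ρ_const ⟨a, ha⟩⟩

end RedTo

variable {F : Type*} [Field F] [Algebra Ω F] (φ : F →ₐ[Ω] 𝔽)

/-- the class `y` has a Kummer function (`p D = div f`) whose pull-back to `𝔽` reduces to a
non-zero `p`-th power. -/
def IsRedPow (p : ℕ) (y : Pic0 Ω F) : Prop :=
  ∃ (D : Divisor.degZero (K := Ω) (F := F)) (f : F) (γ : 𝔽b),
    Pic0.mk D = y ∧ IsDivOf f (p • (D : Divisor Ω F)) ∧ γ ≠ 0 ∧ RedTo X (φ f) (γ ^ p)

/-- **the subgroup of classes with `p`-th power reduction.** -/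
def redPowSubgroup (p : ℕ) : AddSubgroup (Pic0 Ω F) where
  carrier := {y | IsRedPow X φ p y}
  zero_mem' := by
    refine ⟨0, 1, 1, rfl, ?_, one_ne_zero, ?_⟩
    · have h := isDivOf_one (K := Ω) (F := F)
      refine h.congr ?_
      rw [AddSubgroup.coe_zero, smul_zero]
    · rw [map_one, one_pow]
      exact RedTo.one
  add_mem' := by
    rintro _ _ ⟨D, f, γ, rfl, hf, hγ, hr⟩ ⟨D', f', γ', rfl, hf', hγ', hr'⟩
    refine ⟨D + D', f * f', γ * γ', rfl, ?_, mul_ne_zero hγ hγ', ?_⟩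
    · refine (hf.mul' hf').congr ?_
      rw [AddSubgroup.coe_add, smul_add]
    · rw [map_mul, mul_pow]
      exact hr.mul hr'
  neg_mem' := by
    rintro _ ⟨D, f, γ, rfl, hf, hγ, hr⟩
    refine ⟨-D, f⁻¹, γ⁻¹, rfl, ?_, inv_ne_zero hγ, ?_⟩
    · refine hf.inv'.congr ?_
      rw [AddSubgroup.coe_neg, smul_neg]
    · rw [map_inv₀, inv_pow]
      exact hr.inv (pow_ne_zero p hγ)

theorem mem_redPowSubgroup {p : ℕ} {y : Pic0 Ω F} :
    y ∈ redPowSubgroup X φ p ↔ IsRedPow X φ p y := Iff.rfl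

/-- the classes of the subgroup are killed by `p`. -/
theorem IsRedPow.nsmul_eq_zero {p : ℕ} {y : Pic0 Ω F} (h : IsRedPow X φ p y) : p • y = 0 := by
  obtain ⟨D, f, γ, rfl, hf, -, -⟩ := h
  have h1 : (p • Pic0.mk D : Pic0 Ω F) = Pic0.mk (p • D) := rfl
  rw [h1]
  refine (QuotientAddGroup.eq_zero_iff _).2 ?_
  rw [AddSubgroup.mem_addSubgroupOf]
  exact ⟨f, hf.1, fun v => hf.2 v⟩

section Compare

variable [IsAlgClosed (ResidueField ↥A)]
  (hconst : ∀ u : F, u ≠ 0 → (∀ v : Place Ω F, v.ord u = 0) → ∃ a : Ω, u = algebraMap Ω F a)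

include hconst in
/-- **the reduction of the Kummer function of a class is well defined up to `p`-th powers.** -/
theorem exists_pow_of_mk_eq {p : ℕ} (hp : p ≠ 0)
    (D₁ D₂ : Divisor.degZero (K := Ω) (F := F)) (h12 : (Pic0.mk D₁ : Pic0 Ω F) = Pic0.mk D₂)
    {f₁ f₂ : F} (h1 : IsDivOf f₁ (p • (D₁ : Divisor Ω F)))
    (h2 : IsDivOf f₂ (p • (D₂ : Divisor Ω F))) {r₁ r₂ : 𝔽b} (hr₁ : r₁ ≠ 0) (hr₂ : r₂ ≠ 0)
    (H1 : RedTo X (φ f₁) r₁) (H2 : RedTo X (φ f₂) r₂) :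
    ∃ δ : 𝔽b, δ ≠ 0 ∧ r₁ = r₂ * δ ^ p := by
  -- `f₁ / f₂ = c h ^ p`
  set E : Divisor.degZero (K := Ω) (F := F) := D₁ - D₂ with hE
  have hE0 : (Pic0.mk E : Pic0 Ω F) = 0 := by
    have h4 : (Pic0.mk D₁ : Pic0 Ω F) - Pic0.mk D₂ = Pic0.mk E := rfl
    rw [← h4, h12, sub_self]
  have hg : IsDivOf (f₁ / f₂) (p • (E : Divisor Ω F)) := by
    refine (h1.div h2).congr ?_
    rw [hE, AddSubgroup.coe_sub, smul_sub]
  obtain ⟨c, h, hc, hh, hrel⟩ := exists_const_mul_pow_of_mk_eq_zero hconst E hE0 hg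
  have hf₂0 : f₂ ≠ 0 := h2.1
  have hf₁ : f₁ = algebraMap Ω F c * h ^ p * f₂ := by
    rw [← hrel, div_mul_cancel₀ _ hf₂0]
  -- normalise `φ h`
  obtain ⟨a, ha, hu1, hu2⟩ := X.exists_smul_unit (φ h) ((map_ne_zero φ).2 hh)
  set h' : 𝔽 := a • φ h with hh'
  have hh'0 : h' ≠ 0 := by
    rw [hh', Algebra.smul_def]
    exact mul_ne_zero ((map_ne_zero _).2 ha) ((map_ne_zero φ).2 hh)
  set η : 𝔽b := X.ρ ⟨h', hu1⟩ with hη
  have hη0 : η ≠ 0 := (X.inv_mem_W_iff hu1 hh'0).1 hu2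
  have Hh : RedTo X h' η := ⟨hu1, rfl⟩
  -- the constant
  set c' : Ω := c * (a⁻¹) ^ p with hc'
  have hc'0 : c' ≠ 0 := mul_ne_zero hc (pow_ne_zero p (inv_ne_zero ha))
  have hφ : φ f₁ = algebraMap Ω 𝔽 c' * (h' ^ p * φ f₂) := by
    rw [hf₁, map_mul, map_mul, map_pow, AlgHom.commutes, hc', map_mul, map_pow, map_inv₀, hh',
      Algebra.smul_def, mul_pow]
    have ha' : (algebraMap Ω 𝔽 a) ≠ 0 := (map_ne_zero _).2 ha
    have h3 : ((algebraMap Ω 𝔽 a)⁻¹) ^ p * (algebraMap Ω 𝔽 a) ^ p = 1 := by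
      rw [← mul_pow, inv_mul_cancel₀ ha', one_pow]
    linear_combination (-(algebraMap Ω 𝔽 c * φ h ^ p * φ f₂)) * h3
  have Hden : RedTo X (h' ^ p * φ f₂) (η ^ p * r₂) := (Hh.pow p).mul H2
  have hden0 : η ^ p * r₂ ≠ 0 := mul_ne_zero (pow_ne_zero p hη0) hr₂
  have hden0' : h' ^ p * φ f₂ ≠ 0 := Hden.ne_zero hden0
  have Hc : RedTo X (algebraMap Ω 𝔽 c') (r₁ / (η ^ p * r₂)) := by
    have e : algebraMap Ω 𝔽 c' = φ f₁ / (h' ^ p * φ f₂) := by
      rw [hφ, mul_div_cancel_right₀ _ hden0']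
    rw [e]
    exact H1.div Hden hden0
  have hcA : c' ∈ A := (X.algebraMap_mem_iff c').1 Hc.1
  have hres := (RedTo.algebraMap_of_mem (X := X) hcA).unique Hc
  obtain ⟨e, he⟩ := IsAlgClosed.exists_pow_nat_eq (residue ↥A ⟨c', hcA⟩) (Nat.pos_of_ne_zero hp)
  refine ⟨algebraMap (ResidueField ↥A) 𝔽b e * η, ?_, ?_⟩
  · refine mul_ne_zero ?_ hη0
    intro h0
    have h3 : algebraMap (ResidueField ↥A) 𝔽b (residue ↥A ⟨c', hcA⟩) = 0 := by
      rw [← he, map_pow, h0, zero_pow hp]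
    rw [hres] at h3
    exact (div_ne_zero hr₁ hden0) h3
  · rw [mul_pow, ← map_pow, he, hres]
    field_simp

end Compare

section Hecke

variable {p : ℕ} (T : Pic0 Ω F →+ Pic0 Ω F) (Tf : F → F) (Tb : 𝔽b →* 𝔽b)
  (hdiv : ∀ D : Divisor.degZero (K := Ω) (F := F), ∃ D' : Divisor.degZero (K := Ω) (F := F),
    T (Pic0.mk D) = Pic0.mk D' ∧
      ∀ f : F, IsDivOf f (p • (D : Divisor Ω F)) → IsDivOf (Tf f) (p • (D' : Divisor Ω F)))
  (hred : ∀ (f : F) (r : 𝔽b), RedTo X (φ f) r → RedTo X (φ (Tf f)) (Tb r))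

theorem monoidHom_apply_ne_zero {γ : 𝔽b} (hγ : γ ≠ 0) : Tb γ ≠ 0 := by
  intro h0
  have h1 : Tb γ * Tb γ⁻¹ = 1 := by rw [← map_mul, mul_inv_cancel₀ hγ, map_one]
  rw [h0, zero_mul] at h1
  exact zero_ne_one h1

include hdiv hred in
/-- **stability under a Hecke operator compatible with the reduction.** -/
theorem IsRedPow.map {y : Pic0 Ω F} (h : IsRedPow X φ p y) : IsRedPow X φ p (T y) := by
  obtain ⟨D, f, γ, rfl, hf, hγ, hr⟩ := h
  obtain ⟨D', hD', hdiv'⟩ := hdiv D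
  refine ⟨D', Tf f, Tb γ, hD'.symm, hdiv' f hf, monoidHom_apply_ne_zero Tb hγ, ?_⟩
  rw [← map_pow]
  exact hred f _ hr

variable [IsAlgClosed (ResidueField ↥A)]

include hdiv hred in
/-- **a reduced Hecke relation gives `T [D] - a [D] ∈ redPowSubgroup`.** -/
theorem isRedPow_map_sub_zsmul (hp : p ≠ 0) {d : ℕ}
    (D : Divisor.degZero (K := Ω) (F := F)) {f : F} (hf : IsDivOf f (p • (D : Divisor Ω F)))
    {wb B : 𝔽b} (hwb : wb ≠ 0) (hB : B ≠ 0) (hr : RedTo X (φ f) (wb ^ d * B ^ p)) (a : ℤ)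
    {c : ResidueField ↥A} {u : 𝔽b} (hc : c ≠ 0) (hu : u ≠ 0)
    (hrel : Tb wb = algebraMap (ResidueField ↥A) 𝔽b c * wb ^ a * u ^ p) :
    IsRedPow X φ p (T (Pic0.mk D) - a • Pic0.mk D) := by
  obtain ⟨D', hD', hdiv'⟩ := hdiv D
  obtain ⟨e, he⟩ := IsAlgClosed.exists_pow_nat_eq (c ^ d) (Nat.pos_of_ne_zero hp)
  have he0 : e ≠ 0 := by
    rintro rfl
    rw [zero_pow hp] at he
    exact (pow_ne_zero d hc) he.symm
  set C : 𝔽b := algebraMap (ResidueField ↥A) 𝔽b c with hC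
  set Eb : 𝔽b := algebraMap (ResidueField ↥A) 𝔽b e with hEb
  have hEC : Eb ^ p = C ^ d := by rw [hEb, hC, ← map_pow, he, map_pow]
  have hEb0 : Eb ≠ 0 := (map_ne_zero _).2 he0
  have hTB0 : Tb B ≠ 0 := monoidHom_apply_ne_zero Tb hB
  have hY0 : wb ^ d * B ^ p ≠ 0 := mul_ne_zero (pow_ne_zero d hwb) (pow_ne_zero p hB)
  refine ⟨D' - a • D, Tf f / f ^ a, Eb * u ^ d * Tb B * (B ^ a)⁻¹, ?_, ?_, ?_, ?_⟩
  · rw [hD']
    rfl
  · refine ((hdiv' f hf).div (hf.zpow a)).congr ?_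
    show p • (D' : Divisor Ω F) - a • (p • (D : Divisor Ω F)) =
      p • ((D' : Divisor Ω F) - a • (D : Divisor Ω F))
    rw [smul_sub, smul_comm a p]
  · exact mul_ne_zero (mul_ne_zero (mul_ne_zero hEb0 (pow_ne_zero d hu)) hTB0)
      (inv_ne_zero (zpow_ne_zero a hB))
  · have H1 : RedTo X (φ (Tf f)) (Tb (wb ^ d * B ^ p)) := hred f _ hr
    have H2 : RedTo X (φ f ^ a) ((wb ^ d * B ^ p) ^ a) := hr.zpow hY0 a
    have H3 := H1.div H2 (zpow_ne_zero a hY0)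
    rw [← map_zpow₀, ← map_div₀] at H3
    have e1 : Tb (wb ^ d * B ^ p) / (wb ^ d * B ^ p) ^ a =
        (Eb * u ^ d * Tb B * (B ^ a)⁻¹) ^ p := by
      rw [map_mul, map_pow, map_pow, hrel, mul_zpow]
      have e2 : (wb ^ a) ^ d = (wb ^ d) ^ a := by
        rw [← zpow_natCast (wb ^ a) d, ← zpow_mul, mul_comm, zpow_mul, zpow_natCast]
      have e3 : (B ^ p) ^ a = (B ^ a) ^ p := by
        rw [← zpow_natCast (B ^ a) p, ← zpow_mul, mul_comm, zpow_mul, zpow_natCast]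
      have hWa : (wb ^ d) ^ a ≠ 0 := zpow_ne_zero a (pow_ne_zero d hwb)
      have hBa : B ^ a ≠ 0 := zpow_ne_zero a hB
      rw [mul_pow, mul_pow, e2, e3, mul_pow, mul_pow, mul_pow, hEC, inv_pow]
      field_simp
      ring
    rw [e1] at H3
    exact H3

end Hecke

section NotPow

variable [IsAlgClosed (ResidueField ↥A)]
  (hconst : ∀ u : F, u ≠ 0 → (∀ v : Place Ω F, v.ord u = 0) → ∃ a : Ω, u = algebraMap Ω F a)

include hconst in
/-- **a class whose Kummer function reduces to `w̄ ^ d B ^ p` with `w̄` not a `p`-th power and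
`(d, p) = 1` is not in the subgroup.** -/
theorem not_isRedPow_of_not_pow {p d : ℕ} (hp : p ≠ 0) (hdp : Nat.Coprime d p)
    (D : Divisor.degZero (K := Ω) (F := F)) {f : F} (hf : IsDivOf f (p • (D : Divisor Ω F)))
    {wb B : 𝔽b} (hwb : ¬ ∃ g : 𝔽b, wb = g ^ p) (hB : B ≠ 0)
    (hr : RedTo X (φ f) (wb ^ d * B ^ p)) : ¬ IsRedPow X φ p (Pic0.mk D) := by
  rintro ⟨D₁, f₁, γ, hD₁, hf₁, hγ, hr₁⟩
  have hwb0 : wb ≠ 0 := by
    rintro rfl
    exact hwb ⟨0, (zero_pow hp).symm⟩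
  have hY0 : wb ^ d * B ^ p ≠ 0 := mul_ne_zero (pow_ne_zero d hwb0) (pow_ne_zero p hB)
  obtain ⟨δ, hδ, hrel⟩ := exists_pow_of_mk_eq X φ hconst hp D₁ D hD₁ hf₁ hf
    (pow_ne_zero p hγ) hY0 hr₁ hr
  -- `wb ^ d = θ ^ p`
  set θ : 𝔽b := γ / (B * δ) with hθ
  have hBδ : B * δ ≠ 0 := mul_ne_zero hB hδ
  have hθp : wb ^ d = θ ^ p := by
    rw [hθ, div_pow, hrel, mul_pow]
    field_simp
  -- Bezout
  have hbez : (d : ℤ) * Nat.gcdA d p + (p : ℤ) * Nat.gcdB d p = 1 := by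
    have := Nat.gcd_eq_gcd_ab d p
    rw [hdp] at this
    exact_mod_cast this.symm
  apply hwb
  refine ⟨θ ^ (Nat.gcdA d p) * wb ^ (Nat.gcdB d p), ?_⟩
  have h1 : wb = wb ^ ((d : ℤ) * Nat.gcdA d p + (p : ℤ) * Nat.gcdB d p) := by
    rw [hbez, zpow_one]
  rw [zpow_add₀ hwb0, zpow_mul, zpow_natCast, hθp, zpow_mul, zpow_natCast] at h1
  rw [mul_pow, ← zpow_natCast (θ ^ Nat.gcdA d p) p, ← zpow_mul, mul_comm (Nat.gcdA d p) (p : ℤ),
    zpow_mul, zpow_natCast, ← zpow_natCast (wb ^ Nat.gcdB d p) p, ← zpow_mul,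
    mul_comm (Nat.gcdB d p) (p : ℤ), zpow_mul, zpow_natCast]
  exact h1

end NotPow

end Fermat.Agent.RB.ROLD

end
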