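/-
RB — helper4 — [ROLD-q], part 6b: **the Hecke operator `T_ℓ` of `X₀(M)` is compatible with the
reduction of the Legendre host** (`ℓ ∤ 2 M q`):

* `legHeckeP_fullToLegE_Omega` : `T_ℓ (π^* f) = π^* (T_ℓ f)` over `Ω` itself;
* `redTo_heckeFunBar` : if `π^* f` is Gauss-integral with reduction `r` then `π^* (T_ℓ f)` is
  Gauss-integral with reduction `T̄_ℓ r`;
* `heckeOperatorBar_mk_nsmul` : the divisor clause in the form used by `ROLD_helper4_V0`.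
-/
import Mathlib
import Fermat.Agent.RB.ROLD_helper4_V0
import Fermat.Agent.FG.INST_helper5_Leg
import Fermat.Agent.MP.REDINF_helper3_Omega
import Fermat.Agent.MP.HECKERO_helper6_Deg
import Fermat.Agent.NP.BASEP_helper2_Compat
import Fermat.Agent.NP.BASEP_helper2_Old

set_option autoImplicit false
set_option linter.unusedSectionVars false
set_option linter.style.haveILetI false
set_option synthInstance.maxHeartbeats 400000

noncomputable section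

namespace Fermat.Agent.RB.ROLD

open AlgebraicCurve IsLocalRing IntermediateField ModularCurve
open Fermat.Agent.FG Fermat.Agent.JA Fermat.Agent.SS Fermat.Agent.FF Fermat.Agent.S35
  Fermat.Agent.NP Fermat.Agent.MP

local notation "Ω" => AlgebraicClosure ℚ

section Omega

variable (M : ℕ) [NeZero M] (ℓ : ℕ) [NeZero ℓ] [NeZero (M * ℓ)]
  (hℓ : ℓ.Prime) (hℓ2 : ℓ ≠ 2) (hℓM : ¬ ℓ ∣ M)

include hℓM in
/-- **`T_ℓ` on the host and on the level field are compatible, over `Ω`.** -/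
theorem legHeckeP_fullToLegE_Omega (f : ↥(keyFq Ω M)) :
    legHeckeP Ω M ℓ hℓ hℓ2 (fullToLegE Ω M f) = fullToLegE Ω M (heckeFunBar M ℓ f) := by
  letI : Algebra Ω ℂ := ((IsAlgClosed.lift : Ω →ₐ[ℚ] ℂ) : Ω →+* ℂ).toAlgebra
  have h1 : heckeFunBar M ℓ f = heckeFunK Ω M ℓ f := rfl
  rw [h1, heckeFunK_eq_norm]
  exact legHeckeP_fullToLegE Ω M ℓ hℓ hℓ2 hℓM (finrank_legHostA_Omega M ℓ hℓ hℓ2 hℓM) f

end Omega

section Red

variable {q : ℕ} [Fact q.Prime] {A : ValuationSubring Ω} (hA : A.LiesOverPrime q)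
  (M : ℕ) [NeZero M] (hqM : ¬ q ∣ M) (hq2 : q ≠ 2) (ℓ : ℕ) [NeZero ℓ] [NeZero (M * ℓ)]
  (hℓ : ℓ.Prime) (hℓ2 : ℓ ≠ 2) (hℓM : ¬ ℓ ∣ M) (hℓq : ℓ ≠ q)

include hℓM hℓq in
/-- **the reduction clause.** -/
theorem redTo_heckeFunBar (f : ↥(keyFq Ω M)) (r : legEt hA M hq2)
    (h : RedTo (legGoodRed hA M hqM hq2) (fullToLegE Ω M f) r) :
    RedTo (legGoodRed hA M hqM hq2) (fullToLegE Ω M (heckeFunBar M ℓ f))
      (legEtT hA M hq2 ℓ hℓ hℓ2 r) := by
  obtain ⟨hf, rfl⟩ := h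
  have hq : q.Prime := Fact.out
  have hqMℓ : ¬ q ∣ M * ℓ := by
    intro hdvd
    rcases (Nat.Prime.dvd_mul hq).1 hdvd with h1 | h1
    · exact hqM h1
    · exact hℓq ((Nat.prime_dvd_prime_iff_eq hq hℓ).1 h1).symm
  obtain ⟨hN, hT⟩ := legρ_legHeckeP_of hA M hq2 ℓ hℓ hℓ2 hℓM (finite_legEtA hA M hq2 ℓ hqMℓ)
    (finrank_legEtA hA M hq2 ℓ hℓ hℓ2 hℓM hqMℓ) (fullToLegE Ω M f) hf
  rw [← legHeckeP_fullToLegE_Omega M ℓ hℓ hℓ2 hℓM f]
  exact ⟨hN, hT⟩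

end Red

section Div

variable (M : ℕ) [NeZero M] (ℓ : ℕ) [NeZero ℓ]

/-- **the divisor clause.** -/
theorem heckeOperatorBar_mk_nsmul (hℓ : ℓ.Prime) (p : ℕ)
    (D : Divisor.degZero (K := Ω) (F := ↥(modularFunctionFieldBar M))) :
    ∃ D' : Divisor.degZero (K := Ω) (F := ↥(modularFunctionFieldBar M)),
      heckeOperatorBar M ⟨ℓ, hℓ⟩ (Pic0.mk D : JZero M) = Pic0.mk D' ∧
      ∀ f : ↥(modularFunctionFieldBar M),
        IsDivOf f (p • (D : Divisor Ω ↥(modularFunctionFieldBar M))) →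
        IsDivOf (heckeFunBar M ℓ f) (p • (D' : Divisor Ω ↥(modularFunctionFieldBar M))) := by
  obtain ⟨D', h1, h2⟩ := heckeOperatorBar_mk M ℓ hℓ D
  exact ⟨D', h1, fun f hf => h2 p f hf⟩

end Div

end Fermat.Agent.RB.ROLD

end
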