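/-
S59 long shot (P3 = "p = 3") — helper2 — **`Γ₀(N)` has no element of order three as soon as a prime
`r ≡ 2 mod 3` divides `N`** (`Gamma0_eq_one_of_pow_three`; `r = 2` qualifies).  Input of
`liftsCocycles_of_injective_SL2Z_of_noOrderThree` (`RB/P3_helper2_T2.lean`).
-/
import Mathlib

set_option autoImplicit false

namespace Fermat.Agent.RB.P3

open Matrix Matrix.SpecialLinearGroup CongruenceSubgroup
open scoped MatrixGroups

/-- an element of `SL₂(ℤ)` with `A³ = 1` is `1` or has trace `-1`. -/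
theorem SL2Z_eq_one_or_trace_of_pow_three (A : SL(2, ℤ)) (h : A ^ 3 = 1) :
    A = 1 ∨ A 0 0 + A 1 1 = -1 := by
  have hdet : A 0 0 * A 1 1 - A 0 1 * A 1 0 = 1 := by
    have := A.det_coe
    rw [Matrix.det_fin_two] at this
    exact this
  have h3 : (A : Matrix (Fin 2) (Fin 2) ℤ) * ((A : Matrix (Fin 2) (Fin 2) ℤ) *
      (A : Matrix (Fin 2) (Fin 2) ℤ)) = 1 := by
    have := congrArg (fun B : SL(2, ℤ) => (B : Matrix (Fin 2) (Fin 2) ℤ)) h
    simpa [pow_succ, mul_assoc] using this
  set a := A 0 0 with ha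
  set b := A 0 1 with hb
  set c := A 1 0 with hc
  set d := A 1 1 with hd
  have hA : (A : Matrix (Fin 2) (Fin 2) ℤ) = !![a, b; c, d] := by
    rw [ha, hb, hc, hd]
    exact Matrix.eta_fin_two _
  rw [hA] at h3
  simp only [Matrix.mul_fin_two] at h3
  have e00 := congrFun (congrFun h3 0) 0
  have e01 := congrFun (congrFun h3 0) 1
  have e10 := congrFun (congrFun h3 1) 0
  have e11 := congrFun (congrFun h3 1) 1
  simp only [Matrix.of_apply, Matrix.cons_val', Matrix.cons_val_zero, Matrix.cons_val_one,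
    Matrix.empty_val', Matrix.cons_val_fin_one, Matrix.one_apply_eq, Matrix.one_apply_ne,
    ne_eq, zero_ne_one, one_ne_zero, not_false_eq_true] at e00 e01 e10 e11
  set t := a + d with ht
  have k00 : (t ^ 2 - 1) * a - t = 1 := by
    rw [ht]; linear_combination e00 + (2 * a + d) * hdet
  have k01 : (t ^ 2 - 1) * b = 0 := by
    rw [ht]; linear_combination e01 + b * hdet
  have k10 : (t ^ 2 - 1) * c = 0 := by
    rw [ht]; linear_combination e10 + c * hdet
  have k11 : (t ^ 2 - 1) * d - t = 1 := by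
    rw [ht]; linear_combination e11 + (a + 2 * d) * hdet
  by_cases ht1 : t ^ 2 - 1 = 0
  · -- t = ±1
    have : (t - 1) * (t + 1) = 0 := by linear_combination ht1
    rcases mul_eq_zero.1 this with h1 | h1
    · exfalso
      rw [ht1, zero_mul] at k00
      have : t = 1 := by linarith
      rw [this] at k00
      norm_num at k00
    · right
      linarith
  · left
    have hb0 : b = 0 := (mul_eq_zero.1 k01).resolve_left ht1
    have hc0 : c = 0 := (mul_eq_zero.1 k10).resolve_left ht1
    have had : a * d = 1 := by rw [hb0, zero_mul, sub_zero] at hdet; exact hdet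
    have ha1 : a = 1 ∨ a = -1 := Int.isUnit_iff.1 (IsUnit.of_mul_eq_one _ had)
    have hA1 : (A : Matrix (Fin 2) (Fin 2) ℤ) = 1 := by
      rcases ha1 with h1 | h1
      · have hd1 : d = 1 := by rw [h1, one_mul] at had; exact had
        rw [hA, h1, hb0, hc0, hd1]
        exact Matrix.one_fin_two.symm
      · exfalso
        have hd1 : d = -1 := by rw [h1] at had; linarith
        have : t = -2 := by rw [ht, h1, hd1]; norm_num
        rw [this, h1] at k00
        norm_num at k00
    exact Subtype.ext hA1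

/-- `Γ₀(N)` has no element of order three as soon as a prime `r ≡ 2 mod 3` divides `N`
(e.g. `r = 2`). -/
theorem Gamma0_eq_one_of_pow_three {N r : ℕ} (hr : r.Prime) (hrN : r ∣ N) (hr3 : r % 3 = 2)
    (δ : ↥(Gamma0 N)) (h : δ ^ 3 = 1) : δ = 1 := by
  have hA3 : (δ : SL(2, ℤ)) ^ 3 = 1 := by
    have := congrArg (fun x : ↥(Gamma0 N) => (x : SL(2, ℤ))) h
    simpa using this
  rcases SL2Z_eq_one_or_trace_of_pow_three (δ : SL(2, ℤ)) hA3 with h1 | h1
  · exact Subtype.ext h1
  exfalso
  have : Fact r.Prime := ⟨hr⟩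
  set A : SL(2, ℤ) := (δ : SL(2, ℤ)) with hA
  have hc : ((A 1 0 : ℤ) : ZMod r) = 0 := by
    have h0 : ((A 1 0 : ℤ) : ZMod N) = 0 := Gamma0_mem.1 δ.2
    have h1' : (N : ℤ) ∣ A 1 0 := (ZMod.intCast_zmod_eq_zero_iff_dvd _ _).1 h0
    exact (ZMod.intCast_zmod_eq_zero_iff_dvd _ _).2 (dvd_trans (Int.natCast_dvd_natCast.2 hrN) h1')
  have hdet : A 0 0 * A 1 1 - A 0 1 * A 1 0 = 1 := by
    have := A.det_coe
    rw [Matrix.det_fin_two] at this
    exact this
  set x : ZMod r := ((A 0 0 : ℤ) : ZMod r) with hx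
  have hxx : x ^ 2 + x + 1 = 0 := by
    have e1 : ((A 0 0 * A 1 1 - A 0 1 * A 1 0 : ℤ) : ZMod r) = 1 := by rw [hdet]; simp
    have e2 : ((A 1 1 : ℤ) : ZMod r) = -1 - x := by
      have : A 1 1 = -1 - A 0 0 := by linarith
      rw [this]; push_cast; rfl
    push_cast at e1
    rw [hc, mul_zero, sub_zero, e2] at e1
    linear_combination -e1
  have hx3 : x ^ 3 = 1 := by linear_combination (x - 1) * hxx
  have hx1 : x ≠ 1 := by
    intro h1'
    rw [h1'] at hxx
    have h3 : ((3 : ℕ) : ZMod r) = 0 := by push_cast; linear_combination hxx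
    have : r ∣ 3 := (ZMod.natCast_eq_zero_iff 3 r).1 h3
    have : r = 3 := (Nat.prime_dvd_prime_iff_eq hr Nat.prime_three).1 this
    omega
  have hx0 : x ≠ 0 := by
    intro h0
    rw [h0] at hx3
    norm_num at hx3
  have hord : orderOf x = 3 := orderOf_eq_prime hx3 hx1
  have hdvd : 3 ∣ r - 1 := by
    rw [← hord]
    exact orderOf_dvd_of_pow_eq_one (ZMod.pow_card_sub_one_eq_one hx0)
  have hr2 : 2 ≤ r := hr.two_le
  omega

end Fermat.Agent.RB.P3
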