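/-
S59 gate 0 (G0-a) — helper4 — **Mazur's principle at `q ^ 2`: the literal interfaces** (definitions
only; nothing here is used by any closed statement).

Level `M₁ * q` with `q ∥ M₁` (so `q ^ 2 ∥` level), `p ≠ q`, a place `A ∣ q` of `Ω`.

* `KeyMazSqAt M₁ q p A` : a non-zero `I_A`-fixed Hecke eigenclass of `J₀(M₁ q)[p]` with a
  non-Eisenstein eigensystem `a` (outside `S ∋ 2, p`, primes of the level) forces the eigensystem to
  occur residually at level `M₁`  (NO `q`-newness hypothesis, NO "toric" alternative: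
  classically `J[p]^{I}_𝔪 = 𝒥⁰_s[p]_𝔪` is `(torus of level M₁) + (abelian part of level M₁ / q)`,
  the component group of the three-sheet regular model being Eisenstein);
* `KeyMazSqStatement` : all levels;
* `MazurSqStatement` : the curve form — `E[p]` irreducible with a non-zero `I_A`-fixed point,
  `W` residually modular of level `M' q ^ 2` ⇒ residually modular of level `M' q`;
* `CarayolSCStatement` : helper3's literal (finding 433 §3), and `CarayolPSStatement` its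
  `p ∣ q - 1` twin.
-/
import Mathlib
import Fermat.Agent.RB.MAZ_helper6_Iface

set_option autoImplicit false
set_option linter.unusedSectionVars false
set_option linter.unusedVariables false
set_option linter.style.haveILetI false

open AlgebraicCurve ModularCurve WeierstrassCurve
open WeierstrassCurve.Affine WeierstrassCurve.Affine.Point

open scoped WeierstrassCurve.Affine

namespace Fermat.Agent.RB

open Fermat.Agent.JA Fermat.Agent.FF Fermat.Agent.SS Fermat.Agent.S35 Fermat.Agent.MP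
  Fermat.Agent.NP Fermat.Agent.GR

/-- `Ω = AlgebraicClosure ℚ`. -/
local notation "Ω" => AlgebraicClosure ℚ

/-- the absolute Galois group. -/
local notation "GQ" => (AlgebraicClosure ℚ ≃ₐ[ℚ] AlgebraicClosure ℚ)

/-- **(KEY-MAZ-SQ)** at one place `A ∣ q`: a non-zero `I_A`-fixed Hecke eigenclass of
`J₀(M₁ q)[p]` with a non-Eisenstein eigensystem forces the eigensystem to occur residually at
level `M₁`. -/
def KeyMazSqAt (M₁ q p : ℕ) [NeZero M₁] [NeZero q] [NeZero (M₁ * q)] (A : ValuationSubring Ω) :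
    Prop :=
  ∀ (S : Set ℕ) (a : ℕ → ℤ), (∀ ℓ : ℕ, ℓ.Prime → ℓ ∣ M₁ * q → ℓ ∈ S) → p ∈ S → 2 ∈ S →
    (∃ ℓ : ℕ, ℓ.Prime ∧ ℓ ∉ S ∧ ¬ (a ℓ ≡ (ℓ : ℤ) + 1 [ZMOD (p : ℤ)])) →
    ∀ x : JZero (M₁ * q), x ≠ 0 → p • x = 0 →
      (∀ (ℓ : ℕ) (hℓ : ℓ.Prime), ℓ ∉ S → heckeOperatorBar (M₁ * q) ⟨ℓ, hℓ⟩ x = a ℓ • x) →
      (∀ τ ∈ A.inertiaSubgroupIn ℚ, τ • x = x) → ResOccurs M₁ p S a

/-- **(KEY-MAZ-SQ), all levels** (`q ∥ M₁`; `q ≠ 2` for the Legendre host, `p ≥ 5` as in RB). -/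
def KeyMazSqStatement : Prop :=
  ∀ (M₁ q p : ℕ) [NeZero M₁] [NeZero q] [NeZero (M₁ * q)], q.Prime → q ≠ 2 → p.Prime → 5 ≤ p →
    q ≠ p → q ∣ M₁ → ¬ q ^ 2 ∣ M₁ → ∀ A : ValuationSubring Ω, A.LiesOverPrime q →
      KeyMazSqAt M₁ q p A

/-- **Mazur's principle at `q ^ 2`** (general curve): `E[p]` irreducible with a non-zero point fixed
by the inertia group at some place over `q`, `W` residually modular of level `M' q q` (`q ∤ M'`)
⇒ `W` residually modular of level `M' q`. -/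
def MazurSqStatement : Prop :=
  ∀ (E : WeierstrassCurve ℚ) [E.IsElliptic] {W : WeierstrassCurve ℤ} (_hW : W.IsIntegralModelOf E)
    {M' q p : ℕ} [NeZero M'], p.Prime → 5 ≤ p → q.Prime → q ≠ 2 →
    q ≠ p → ¬ q ∣ M' → 2 ∈ badSet W p (M' * q * q) →
    GaloisRepIsIrreducible (K := Ω) ℚ E p →
    (∃ A : ValuationSubring Ω, A.LiesOverPrime q ∧ ∃ Q : (E.toAffine⁄Ω).Point, Q ≠ 0 ∧ p • Q = 0 ∧
      ∀ τ ∈ A.inertiaSubgroupIn ℚ, τ • Q = Q) →
    W.IsResiduallyModularOfLevel p (M' * q * q) → W.IsResiduallyModularOfLevel p (M' * q)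

/-- **Carayol's lemma, supercuspidal case** (helper3's literal, finding 433 §3). -/
def CarayolSCStatement : Prop :=
  ∀ (p : ℕ), p.Prime → p ≠ 2 → ∀ W : WeierstrassCurve ℤ, W.Δ ≠ 0 → W.IsSemistableModel →
    W.ModRepIsIrreducible p → ∀ (M q : ℕ) [NeZero (M * q)] [NeZero (M * q ^ 2)], q.Prime → q ≠ p →
    ¬ q ∣ M → p ∣ q + 1 → W.IsResiduallyModularOfLevel p (M * q ^ 2) →
      W.IsResiduallyModularOfLevel p (M * q)

/-- **the principal series twin** (`p ∣ q - 1`): same conclusion, same proof. -/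
def CarayolPSStatement : Prop :=
  ∀ (p : ℕ), p.Prime → p ≠ 2 → ∀ W : WeierstrassCurve ℤ, W.Δ ≠ 0 → W.IsSemistableModel →
    W.ModRepIsIrreducible p → ∀ (M q : ℕ) [NeZero (M * q)] [NeZero (M * q ^ 2)], q.Prime → q ≠ p →
    ¬ q ∣ M → p ∣ q - 1 → W.IsResiduallyModularOfLevel p (M * q ^ 2) →
      W.IsResiduallyModularOfLevel p (M * q)

end Fermat.Agent.RB
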