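/-
PROJECT RB — [TOP] (D3b), lead: **a ring homomorphism from the Hecke algebra of level `M` to a field
of characteristic `p` occurs residually at level `M`** (Deligne–Serre at the level of the lattice of
integral cusp forms; no embedding into `ℂ`, no `eigenPar`).

* `resOccurs_of_heckeAlgebra_hom` : `χ : 𝕋_S(M) → k`, `char k = p`, `χ(T_ℓ) = a ℓ` for the primes
  `ℓ ∉ S' ⊇ S` ⇒ `MP.ResOccurs M p S' a`.
* `modularRepOfLevel_of_heckeAlgebra_hom` : the same in the vocabulary of `ModularRepOfLevel`.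
-/
import Mathlib
import Fermat.Agent.S23
import Fermat.Agent.MP.RQ5_helper4_Lift

set_option autoImplicit false
set_option linter.unusedSectionVars false
set_option linter.unusedVariables false
set_option linter.style.haveILetI false

namespace Fermat.Agent.RB

open CuspForm MvPolynomial CongruenceSubgroup Fermat.Agent.GR Fermat.Agent.LR Fermat.Agent.MP

section Occur

variable (M : ℕ) [NeZero M] {S S' : Set ℕ}

/-- `ℤ[X_ℓ : ℓ ∉ S'] → 𝕋_S(M)`, `X_ℓ ↦` the Hecke operator at `ℓ` (`S ⊆ S'`). -/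
noncomputable def polyToHecke (hSS' : S ⊆ S') :
    MvPolynomial (PIdx S') ℤ →+* ↥(heckeAlgebra M 2 S) :=
  MvPolynomial.eval₂Hom (Int.castRingHom ↥(heckeAlgebra M 2 S))
    (fun ℓ : PIdx S' => heckeGenS (N := M) S ℓ.1 (fun h => ℓ.2 (hSS' h)))

theorem polyToHecke_X (hSS' : S ⊆ S') (ℓ : PIdx S') :
    polyToHecke M hSS' (X ℓ) = heckeGenS (N := M) S ℓ.1 (fun h => ℓ.2 (hSS' h)) := by
  rw [polyToHecke, MvPolynomial.coe_eval₂Hom, MvPolynomial.eval₂_X]

theorem polyToHecke_C (hSS' : S ⊆ S') (n : ℤ) :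
    polyToHecke M hSS' (C n) = (n : ↥(heckeAlgebra M 2 S)) := by
  rw [polyToHecke, MvPolynomial.coe_eval₂Hom, MvPolynomial.eval₂_C, eq_intCast]

/-- the action of `ℤ[X_ℓ]` on the lattice factors through the Hecke algebra. -/
theorem latticeActionHom_polyToHecke (hSS' : S ⊆ S') (r : MvPolynomial (PIdx S') ℤ) :
    latticeActionHom M S (polyToHecke M hSS' r) = latRingHom M S' r := by
  have h : (latticeActionHom M S).comp (polyToHecke M hSS') = latRingHom M S' := by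
    apply MvPolynomial.ringHom_ext
    · intro n
      rw [RingHom.comp_apply, polyToHecke_C, map_intCast, latRingHom, polyHom_C]
    · intro ℓ
      rw [RingHom.comp_apply, polyToHecke_X, latRingHom, polyHom_X]
      apply LinearMap.ext
      intro x
      apply Subtype.ext
      rw [latHecke_coe]
      rfl
  exact congrArg (fun φ : MvPolynomial (PIdx S') ℤ →+* _ => φ r) h

/-- **(D3b), `ResOccurs` form.** -/
theorem resOccurs_of_heckeAlgebra_hom (hSS' : S ⊆ S') {p : ℕ} (hp : p.Prime)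
    {k : Type*} [Field k] [CharP k p] (χ : ↥(heckeAlgebra M 2 S) →+* k) (a : ℕ → ℤ)
    (hχ : ∀ ℓ : PIdx S', χ (heckeGenS (N := M) S ℓ.1 (fun h => ℓ.2 (hSS' h))) = ((a ℓ.1 : ℤ) : k)) :
    ResOccurs M p S' a := by
  classical
  haveI : Fact p.Prime := ⟨hp⟩
  haveI : Module.Finite ℤ ↥(CuspForm.intLattice M 2) := CuspForm.intLattice.moduleFinite M
  letI : Module (MvPolynomial (PIdx S') ℤ) ↥(CuspForm.intLattice M 2) :=
    Module.compHom _ (latRingHom M S')
  have hsmul : ∀ (r : MvPolynomial (PIdx S') ℤ) (y : ↥(CuspForm.intLattice M 2)),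
      r • y = latRingHom M S' r y := fun r y => rfl
  set 𝔪 : Ideal (MvPolynomial (PIdx S') ℤ) := RingHom.ker (resChar (S := S') p a) with h𝔪def
  have h𝔪 : 𝔪.IsMaximal := RingHom.ker_isMaximal_of_surjective _ (resChar_surjective p a)
  -- `χ ∘ polyToHecke = cast ∘ resChar`
  have hfac : ∀ r : MvPolynomial (PIdx S') ℤ,
      χ (polyToHecke M hSS' r) = ZMod.castHom (dvd_refl p) k (resChar (S := S') p a r) := by
    have h : χ.comp (polyToHecke M hSS') =
        (ZMod.castHom (dvd_refl p) k).comp (resChar (S := S') p a) := by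
      apply MvPolynomial.ringHom_ext
      · intro n
        rw [RingHom.comp_apply, RingHom.comp_apply, polyToHecke_C, map_intCast, resChar,
          MvPolynomial.coe_eval₂Hom, MvPolynomial.eval₂_C, eq_intCast, map_intCast]
      · intro ℓ
        rw [RingHom.comp_apply, RingHom.comp_apply, polyToHecke_X, hχ ℓ, resChar,
          MvPolynomial.coe_eval₂Hom, MvPolynomial.eval₂_X, map_intCast]
    exact fun r => congrArg (fun φ : MvPolynomial (PIdx S') ℤ →+* k => φ r) h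
  have hp𝔪 : ((p : ℕ) : MvPolynomial (PIdx S') ℤ) ∈ 𝔪 := by
    rw [h𝔪def, RingHom.mem_ker, map_natCast]
    exact CharP.cast_eq_zero (ZMod p) p
  -- `𝔪 L ≠ L`
  have hne : 𝔪 • (⊤ : Submodule (MvPolynomial (PIdx S') ℤ) ↥(CuspForm.intLattice M 2)) ≠ ⊤ := by
    intro htop
    haveI : Module.Finite (MvPolynomial (PIdx S') ℤ) ↥(CuspForm.intLattice M 2) :=
      Module.Finite.of_restrictScalars_finite ℤ _ _
    obtain ⟨r, hr1, hr⟩ := Submodule.exists_sub_one_mem_and_smul_eq_zero_of_fg_of_le_smul 𝔪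
      (⊤ : Submodule (MvPolynomial (PIdx S') ℤ) ↥(CuspForm.intLattice M 2))
      Module.Finite.fg_top (by rw [htop])
    have h0 : latRingHom M S' r = 0 := by
      apply LinearMap.ext
      intro x
      have := hr x Submodule.mem_top
      rw [hsmul] at this
      rw [this, LinearMap.zero_apply]
    have h1 : polyToHecke M hSS' r = 0 := by
      apply latticeActionHom_injective M S (Fermat.Agent.S23.result M)
      rw [latticeActionHom_polyToHecke, h0, map_zero]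
    have h2 : resChar (S := S') p a r = 0 := by
      have := hfac r
      rw [h1, map_zero] at this
      exact (map_eq_zero_iff _ (RingHom.injective _)).1 this.symm
    have h3 : r ∈ 𝔪 := by rw [h𝔪def, RingHom.mem_ker]; exact h2
    apply h𝔪.ne_top
    rw [Ideal.eq_top_iff_one]
    have : (1 : MvPolynomial (PIdx S') ℤ) = r - (r - 1) := by ring
    rw [this]
    exact Ideal.sub_mem _ h3 hr1
  obtain ⟨w, hw, hw𝔪⟩ := exists_notMem_p_smul_of_smul_top_ne_top hp.ne_zero 𝔪 hp𝔪 hne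
  refine resOccurs_of_eigen_mod_p (S := S') hp a w.1 w.2
    (fun G hG h => hw ⟨G, hG⟩ (Subtype.ext h)) (fun ℓ hℓ => ?_)
  have hmem : (X (⟨ℓ, hℓ⟩ : PIdx S') - C (a ℓ) : MvPolynomial (PIdx S') ℤ) ∈ 𝔪 := by
    rw [h𝔪def, RingHom.mem_ker, map_sub, resChar, MvPolynomial.coe_eval₂Hom,
      MvPolynomial.eval₂_X, MvPolynomial.eval₂_C, eq_intCast, sub_self]
  obtain ⟨y, hy⟩ := hw𝔪 _ hmem
  refine ⟨y.1, y.2, ?_⟩
  rw [hsmul, map_sub, LinearMap.sub_apply, latRingHom, polyHom_X, polyHom_C,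
    Module.End.intCast_apply, sub_eq_iff_eq_add] at hy
  have := congrArg Subtype.val hy
  rw [latHecke_coe] at this
  rw [this]
  push_cast
  abel

/-- **(D3b), `ModularRepOfLevel` form**: a ring homomorphism `χ` from the Hecke algebra of level
`M` (away from `S`) to a field of characteristic `p` with `χ(T_ℓ) = a_ℓ(W)` at the good primes
`ℓ ∉ S`, where every prime of `S` divides `M`, is `p` or is bad for `W`, gives
`P.ModularRepOfLevel M`. -/
theorem modularRepOfLevel_of_heckeAlgebra_hom (P : FreyPackage) {S : Set ℕ}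
    {k : Type*} [Field k] [CharP k P.p] (χ : ↥(heckeAlgebra M 2 S) →+* k)
    {W : WeierstrassCurve ℤ} (hW : W.IsIntegralModelOf P.freyCurve)
    (hMS : ∀ ℓ : ℕ, ℓ.Prime → ℓ ∣ M → ℓ ∈ S)
    (hS : ∀ ℓ ∈ S, ℓ.Prime → ℓ ∣ M ∨ ℓ = P.p ∨ ¬ W.IsGoodPrimeFor ℓ)
    (hχ : ∀ (ℓ : ℕ) (hℓ : ℓ.Prime) (hℓM : ¬ ℓ ∣ M) (hℓS : ℓ ∉ S), W.IsGoodPrimeFor ℓ →
      χ (heckeAlgebra.T hℓ hℓM hℓS) = ((W.apOfModel ℓ : ℤ) : k)) :
    P.ModularRepOfLevel M := by
  set S' : Set ℕ := S ∪ {ℓ | ¬ W.IsGoodPrimeFor ℓ} with hS'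
  have hSS' : S ⊆ S' := Set.subset_union_left
  have hocc : ResOccurs M P.p S' (fun ℓ => W.apOfModel ℓ) := by
    refine resOccurs_of_heckeAlgebra_hom M hSS' P.pp χ (fun ℓ => W.apOfModel ℓ) (fun ℓ => ?_)
    have hℓS : (ℓ.1 : ℕ) ∉ S := fun h => ℓ.2 (hSS' h)
    have hgood : W.IsGoodPrimeFor (ℓ.1 : ℕ) := by
      by_contra hbad
      exact ℓ.2 (Or.inr hbad)
    have hℓM : ¬ (ℓ.1 : ℕ) ∣ M := fun h => hℓS (hMS _ ℓ.1.2 h)
    have h1 : heckeGenS (N := M) S ℓ.1 hℓS = heckeAlgebra.T ℓ.1.2 hℓM hℓS :=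
      heckeGenS_eq_T S ℓ.1.2 hℓM hℓS
    rw [h1]
    exact hχ _ ℓ.1.2 hℓM hℓS hgood
  obtain ⟨g, 𝔪, hg, h𝔪, hp𝔪, h⟩ := hocc
  refine ⟨g, W, 𝔪, hg, hW, h𝔪, hp𝔪, fun ℓ hℓ hgood hℓM hℓp => h ℓ hℓ ?_⟩
  rintro (hℓS | hbad)
  · rcases hS ℓ hℓS hℓ with h1 | h1 | h1
    · exact hℓM h1
    · exact hℓp h1
    · exact h1 hgood
  · exact hbad hgood

end Occur

end Fermat.Agent.RB
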