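/-
PROJECT RB, block [CORE] (helper9): modules which are free of rank `d` over a quotient `S ⧸ J`,
given by a family `b : Fin d → X` spanning `X` with relation module `J^d`
(`IsBasisMod J b`); coordinates `X ≃ (S ⧸ J)^d`, matrices of endomorphisms, and the criterion
"a family spanning modulo the maximal ideal is again a basis" (Nakayama + Orzech).
-/
import Mathlib

set_option autoImplicit false
set_option linter.unusedSectionVars false

namespace Fermat.Agent.RB.PATCH

section BasisMod

variable {S : Type*} [CommRing S] {X : Type*} [AddCommGroup X] [Module S X] {d : ℕ}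

/-- `b` is a basis of `X` over `S ⧸ J` -/
structure IsBasisMod (J : Ideal S) (b : Fin d → X) : Prop where
  span : ∀ x : X, ∃ c : Fin d → S, x = ∑ i, c i • b i
  rel : ∀ c : Fin d → S, ∑ i, c i • b i = 0 ↔ ∀ i, c i ∈ J

/-- the reduction `S^d → (S ⧸ J)^d` -/
def redJ (J : Ideal S) (d : ℕ) : (Fin d → S) →ₗ[S] (Fin d → S ⧸ J) :=
  (Submodule.mkQ J).compLeft (Fin d)

theorem redJ_apply (J : Ideal S) (c : Fin d → S) (i : Fin d) :
    redJ J d c i = Ideal.Quotient.mk J (c i) := rfl

theorem redJ_surjective (J : Ideal S) : Function.Surjective (redJ J d) := by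
  intro y
  choose c hc using fun i => Ideal.Quotient.mk_surjective (y i)
  exact ⟨c, funext hc⟩

theorem mem_ker_redJ (J : Ideal S) (c : Fin d → S) :
    c ∈ LinearMap.ker (redJ J d) ↔ ∀ i, c i ∈ J := by
  rw [LinearMap.mem_ker]
  constructor
  · intro h i
    exact Ideal.Quotient.eq_zero_iff_mem.mp (congrFun h i)
  · intro h
    funext i
    exact Ideal.Quotient.eq_zero_iff_mem.mpr (h i)

namespace IsBasisMod

variable {J : Ideal S} {b : Fin d → X} (h : IsBasisMod J b)

include h in
theorem comb_surjective : Function.Surjective (Fintype.linearCombination S b) := by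
  intro x
  obtain ⟨c, hc⟩ := h.span x
  exact ⟨c, by rw [Fintype.linearCombination_apply, hc]⟩

include h in
theorem ker_comb : LinearMap.ker (Fintype.linearCombination S b) = LinearMap.ker (redJ J d) := by
  ext c
  rw [LinearMap.mem_ker, Fintype.linearCombination_apply, h.rel, mem_ker_redJ]

/-- the coordinates `X ≃ (S ⧸ J)^d` -/
noncomputable def equiv : X ≃ₗ[S] (Fin d → S ⧸ J) :=
  (LinearMap.quotKerEquivOfSurjective _ h.comb_surjective).symm ≪≫ₗ
    (Submodule.quotEquivOfEq _ _ h.ker_comb ≪≫ₗ
      LinearMap.quotKerEquivOfSurjective _ (redJ_surjective J))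

theorem equiv_comb (c : Fin d → S) : h.equiv (∑ i, c i • b i) = redJ J d c := by
  have h1 : (LinearMap.quotKerEquivOfSurjective _ h.comb_surjective).symm (∑ i, c i • b i) =
      Submodule.Quotient.mk c := by
    rw [LinearEquiv.symm_apply_eq, LinearMap.quotKerEquivOfSurjective_apply_mk,
      Fintype.linearCombination_apply]
  rw [equiv, LinearEquiv.trans_apply, h1, LinearEquiv.trans_apply, Submodule.quotEquivOfEq_mk,
    LinearMap.quotKerEquivOfSurjective_apply_mk]

theorem equiv_b (k : Fin d) : h.equiv (b k) = Pi.single k 1 := by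
  classical
  have h1 : b k = ∑ i, (Pi.single k (1 : S) : Fin d → S) i • b i := by
    rw [Finset.sum_eq_single k]
    · rw [Pi.single_eq_same, one_smul]
    · intro i _ hi
      rw [Pi.single_eq_of_ne hi, zero_smul]
    · intro hk; exact absurd (Finset.mem_univ k) hk
  rw [h1, equiv_comb]
  funext j
  rw [redJ_apply]
  by_cases hj : j = k
  · subst hj
    rw [Pi.single_eq_same, Pi.single_eq_same, map_one]
  · rw [Pi.single_eq_of_ne hj, Pi.single_eq_of_ne hj, map_zero]

/-- the matrix of an endomorphism -/
noncomputable def mat (T : Module.End S X) : Matrix (Fin d) (Fin d) (S ⧸ J) :=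
  fun j k => h.equiv (T (b k)) j

theorem mat_apply (T : Module.End S X) (j k : Fin d) : h.mat T j k = h.equiv (T (b k)) j := rfl

theorem equiv_apply_end (T : Module.End S X) (x : X) :
    h.equiv (T x) = (h.mat T).mulVec (h.equiv x) := by
  obtain ⟨c, rfl⟩ := h.span x
  rw [map_sum, map_sum, equiv_comb]
  funext j
  rw [Finset.sum_apply, Matrix.mulVec, dotProduct]
  refine Finset.sum_congr rfl fun k _ => ?_
  rw [map_smul, map_smul, Pi.smul_apply, redJ_apply, mat_apply, mul_comm]
  rfl

theorem mat_eq_of_forall (T : Module.End S X) (M : Matrix (Fin d) (Fin d) (S ⧸ J))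
    (hM : ∀ x, h.equiv (T x) = M.mulVec (h.equiv x)) : h.mat T = M := by
  classical
  refine Matrix.ext fun j k => ?_
  rw [mat_apply, hM, equiv_b, Matrix.mulVec_single_one]
  rfl

/-- the matrix of an endomorphism, as a ring homomorphism -/
noncomputable def matHom : Module.End S X →+* Matrix (Fin d) (Fin d) (S ⧸ J) where
  toFun := h.mat
  map_one' := h.mat_eq_of_forall _ _ fun x => by rw [Matrix.one_mulVec]; rfl
  map_mul' T T' := h.mat_eq_of_forall _ _ fun x => by
    rw [Module.End.mul_apply, equiv_apply_end, equiv_apply_end, Matrix.mulVec_mulVec]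
  map_zero' := h.mat_eq_of_forall _ _ fun x => by
    rw [Matrix.zero_mulVec, LinearMap.zero_apply, map_zero]
  map_add' T T' := h.mat_eq_of_forall _ _ fun x => by
    rw [LinearMap.add_apply, map_add, equiv_apply_end, equiv_apply_end, Matrix.add_mulVec]

theorem matHom_apply (T : Module.End S X) (j k : Fin d) :
    h.matHom T j k = h.equiv (T (b k)) j := rfl

/-- a scalar endomorphism has a scalar matrix -/
theorem matHom_of_smul (T : Module.End S X) (s : S) (hT : ∀ x, T x = s • x) (j k : Fin d) :
    h.matHom T j k = if j = k then Ideal.Quotient.mk J s else 0 := by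
  classical
  rw [matHom_apply, hT, map_smul, equiv_b, Pi.smul_apply]
  by_cases hjk : j = k
  · subst hjk
    rw [Pi.single_eq_same, if_pos rfl]
    change Ideal.Quotient.mk J s * 1 = _
    rw [mul_one]
  · rw [Pi.single_eq_of_ne hjk, if_neg hjk, smul_zero]

/-- the entries of the matrix are the coordinates of the images of the basis -/
theorem apply_b_eq (T : Module.End S X) (c : Fin d → Fin d → S)
    (hc : ∀ j k, Ideal.Quotient.mk J (c j k) = h.matHom T j k) (k : Fin d) :
    T (b k) = ∑ j, c j k • b j := by
  apply h.equiv.injective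
  rw [equiv_comb]
  funext j
  rw [redJ_apply, hc, matHom_apply]

include h in
theorem finite : Module.Finite S X :=
  Module.Finite.of_surjective (Fintype.linearCombination S b) h.comb_surjective

include h in
/-- `J` kills `X` -/
theorem smul_eq_zero_of_mem {s : S} (hs : s ∈ J) (x : X) : s • x = 0 := by
  obtain ⟨c, rfl⟩ := h.span x
  rw [Finset.smul_sum]
  have h1 : ∑ i, s • c i • b i = ∑ i, (s * c i) • b i :=
    Finset.sum_congr rfl fun i _ => by rw [mul_smul]
  rw [h1, h.rel]
  exact fun i => J.mul_mem_right _ hs

include h in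
/-- **a family spanning `X` modulo the maximal ideal is again a basis** -/
theorem of_span_mod [IsLocalRing S] (b' : Fin d → X)
    (hb' : ∀ x : X, ∃ c : Fin d → S,
      x - ∑ i, c i • b' i ∈ (IsLocalRing.maximalIdeal S) • (⊤ : Submodule S X)) :
    IsBasisMod J b' := by
  haveI := h.finite
  -- `b'` spans
  have hspan : Submodule.span S (Set.range b') = ⊤ := by
    refine top_le_iff.mp (Submodule.le_of_le_smul_of_le_jacobson_bot
      (I := IsLocalRing.maximalIdeal S) (Module.Finite.fg_top)
      (IsLocalRing.maximalIdeal_le_jacobson ⊥) ?_)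
    intro x _
    obtain ⟨c, hc⟩ := hb' x
    have h1 : x = ∑ i, c i • b' i + (x - ∑ i, c i • b' i) := by abel
    rw [h1]
    refine Submodule.add_mem_sup (Submodule.sum_mem _ fun i _ =>
      Submodule.smul_mem _ _ (Submodule.subset_span ⟨i, rfl⟩)) hc
  have hspan' : ∀ x : X, ∃ c : Fin d → S, x = ∑ i, c i • b' i := by
    intro x
    have hx : x ∈ Submodule.span S (Set.range b') := by rw [hspan]; exact Submodule.mem_top
    obtain ⟨c, hc⟩ := (Submodule.mem_span_range_iff_exists_fun S).mp hx
    exact ⟨c, hc.symm⟩
  -- the comparison endomorphism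
  have hle : LinearMap.ker (Fintype.linearCombination S b) ≤
      LinearMap.ker (Fintype.linearCombination S b') := by
    intro c hc
    rw [LinearMap.mem_ker, Fintype.linearCombination_apply, h.rel] at hc
    rw [LinearMap.mem_ker, Fintype.linearCombination_apply]
    exact Finset.sum_eq_zero fun i _ => h.smul_eq_zero_of_mem (hc i) _
  let ψ : X →ₗ[S] X :=
    ((LinearMap.ker (Fintype.linearCombination S b)).liftQ
      (Fintype.linearCombination S b') hle).comp
      (LinearMap.quotKerEquivOfSurjective _ h.comb_surjective).symm.toLinearMap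
  have hψ : ∀ c : Fin d → S, ψ (∑ i, c i • b i) = ∑ i, c i • b' i := by
    intro c
    have h1 : (LinearMap.quotKerEquivOfSurjective _ h.comb_surjective).symm (∑ i, c i • b i) =
        Submodule.Quotient.mk c := by
      rw [LinearEquiv.symm_apply_eq, LinearMap.quotKerEquivOfSurjective_apply_mk,
        Fintype.linearCombination_apply]
    change ((LinearMap.ker (Fintype.linearCombination S b)).liftQ
      (Fintype.linearCombination S b') hle)
        ((LinearMap.quotKerEquivOfSurjective _ h.comb_surjective).symm (∑ i, c i • b i)) = _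
    rw [h1, Submodule.liftQ_apply, Fintype.linearCombination_apply]
  have hsurj : Function.Surjective ψ := by
    intro x
    obtain ⟨c, rfl⟩ := hspan' x
    exact ⟨_, hψ c⟩
  have hinj : Function.Injective ψ := OrzechProperty.injective_of_surjective_endomorphism ψ hsurj
  refine ⟨hspan', fun c => ?_⟩
  rw [← h.rel, ← hψ]
  constructor
  · intro h0
    exact hinj (by rw [h0, map_zero])
  · intro h0
    rw [h0, map_zero]

end IsBasisMod

end BasisMod

end Fermat.Agent.RB.PATCH
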