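/-
PROJECT RB — [TWMOD] second wave, [LEVEL0] part (b) (helper1): **every point of a Hecke algebra
acting on a submodule of `Hom_par(Γ₀(N), 𝒪)` is a character of `heckeAlgebra N 2 S`.**

`H` a finite `𝒪`-module embedded by `ι` in `Hom(Γ₀(N), 𝒪)` with parabolic values, `R` a commutative
`𝒪`-algebra, integral over `𝒪`, acting faithfully on `H`, with elements `t ℓ` (`ℓ ∉ S`) acting as
the Hecke operators; `x : R → B` a point with values in a discrete valuation ring finite over `𝒪`.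
Then there is `χ : heckeAlgebra N 2 S → B` with `χ (T_ℓ) = x (t ℓ)`.
-/
import Mathlib
import Fermat.Agent.RB.OCC_helper1_A

set_option autoImplicit false
set_option linter.unusedSectionVars false
set_option linter.unusedVariables false
set_option linter.style.haveILetI false

namespace Fermat.Agent.RB.OCC

open CongruenceSubgroup Matrix ModularCurve.Period IsLocalRing Polynomial
open scoped MatrixGroups
open Fermat.Agent.GR

section Level0

variable {𝒪 : Type} [CommRing 𝒪] [IsDomain 𝒪] [IsDiscreteValuationRing 𝒪] [CharZero 𝒪]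
  {N : ℕ} [NeZero N] (S : Set ℕ)
  {H : Type} [AddCommGroup H] [Module 𝒪 H] [Module.Finite 𝒪 H]
  {R : Type} [CommRing R] [Algebra 𝒪 R] [Algebra.IsIntegral 𝒪 R]
  {B : Type} [CommRing B] [IsDomain B] [IsDiscreteValuationRing B] [Algebra 𝒪 B]
  [Module.Finite 𝒪 B]

/-- **[LEVEL0] (b)**, with an abstract algebraically closed coefficient field. -/
theorem exists_character_of_point_aux {F : Type} [Field F] [IsAlgClosed F] [Algebra B F]
    (hBF : Function.Injective (algebraMap B F))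
    (hNS : ∀ ℓ : ℕ, ℓ.Prime → ℓ ∣ N → ℓ ∈ S)
    (ι : H →ₗ[𝒪] (Additive ↥(Gamma0 N) →+ 𝒪)) (hι : Function.Injective ι)
    (hpar : ∀ h, ι h ∈ parabolicHoms 𝒪 (Gamma0 N) 𝒪)
    (φ : R →ₐ[𝒪] Module.End 𝒪 H) (hφ : Function.Injective φ)
    (t : Nat.Primes → R)
    (ht : ∀ ℓ : Nat.Primes, (ℓ : ℕ) ∉ S → ∀ h : H, ι (φ (t ℓ) h) = GR.heckeGrpP N ℓ 𝒪 (ι h))
    (x : R →ₐ[𝒪] B) :
    ∃ χ₀ : CuspForm.heckeAlgebra N 2 S →+* B,
      ∀ (ℓ : ℕ) (hℓ : ℓ.Prime) (hℓN : ¬ ℓ ∣ N) (hℓS : ℓ ∉ S),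
        χ₀ (CuspForm.heckeAlgebra.T hℓ hℓN hℓS) = x (t ⟨ℓ, hℓ⟩) := by
  classical
  letI : Algebra 𝒪 F := ((algebraMap B F).comp (algebraMap 𝒪 B)).toAlgebra
  haveI : IsScalarTower 𝒪 B F := IsScalarTower.of_algebraMap_eq fun _ => rfl
  have hinj𝒪B : Function.Injective (algebraMap 𝒪 B) := algebraMap_injective_of_finite_dvr
  have hinj : Function.Injective (algebraMap 𝒪 F) := hBF.comp hinj𝒪B
  haveI : CharZero B := charZero_of_injective_ringHom hinj𝒪B
  haveI : CharZero F := charZero_of_injective_ringHom hBF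
  obtain ⟨χ, Φ, hΦ0, hker, hχ𝒪, hspan, heig⟩ :=
    exists_eigen_character (𝒪 := 𝒪) (F := F) (G := ↥(Gamma0 N)) (R := R) hinj ι hι φ hφ
      ((algebraMap B F).comp (x : R →+* B)) (fun c => by
        show algebraMap B F (x (algebraMap 𝒪 R c)) = _
        rw [AlgHom.commutes]
        rfl)
  have hΦpar : Φ ∈ parabolicHoms F (Gamma0 N) F := by
    refine Submodule.span_le.2 ?_ hspan
    rintro _ ⟨h, rfl⟩
    exact comp_mem_parabolicHoms (R := 𝒪) (S := F) (algebraMap 𝒪 F : 𝒪 →+ F) (hpar h)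
  have heigΦ : ∀ ℓ : Nat.Primes, (ℓ : ℕ) ∉ S → GR.heckeGrpP N ℓ F Φ = χ (t ℓ) • Φ := by
    intro ℓ hℓS
    refine heig (t ℓ) (GR.heckeGrpP N ℓ F) (fun c ψ => ?_) (fun h => ?_)
    · have h1 := (heckeGrpPₗ N ℓ F F).map_smul c ψ
      rw [heckeGrpPₗ_apply, heckeGrpPₗ_apply] at h1
      exact h1
    · show GR.heckeGrpP N ℓ F ((algebraMap 𝒪 F : 𝒪 →+ F).comp (ι h)) = _
      rw [heckeGrpP_comp, ← ht ℓ hℓS h]
      rfl
  -- the two embeddings of `R ⧸ ker χ`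
  haveI : (RingHom.ker χ).IsPrime := RingHom.ker_isPrime χ
  haveI : IsDomain (R ⧸ RingHom.ker χ) := Ideal.Quotient.isDomain _
  set gχ : (R ⧸ RingHom.ker χ) →+* F := RingHom.kerLift χ with hgχdef
  set gx : (R ⧸ RingHom.ker χ) →+* F := Ideal.Quotient.lift (RingHom.ker χ)
    ((algebraMap B F).comp (x : R →+* B)) (fun s hs => by rw [hker] at hs; exact hs) with hgxdef
  have hgχ : Function.Injective gχ := RingHom.kerLift_injective χ
  have hgx : Function.Injective gx := RingHom.lift_injective_of_ker_le_ideal _ _ hker.ge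
  have hgχm : ∀ s : R, gχ (Ideal.Quotient.mk _ s) = χ s := fun s => rfl
  have hgxm : ∀ s : R, gx (Ideal.Quotient.mk _ s) = algebraMap B F (x s) := fun s => rfl
  have hocc : GR.eigenParOn N F (primesOutside S)
      (fun ℓ => gχ (Ideal.Quotient.mk _ (t ℓ))) ≠ ⊥ := by
    rw [Submodule.ne_bot_iff]
    refine ⟨Φ, ⟨hΦpar, fun ℓ hℓ => ?_⟩, hΦ0⟩
    show _ = gχ (Ideal.Quotient.mk _ (t ℓ)) • Φ
    rw [hgχm]
    exact heigΦ ℓ hℓ
  have hocc' := GR.eigenParOn_ne_bot_of_domain (N := N) gχ gx hgχ hgx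
    (primesOutside S) (fun ℓ => Ideal.Quotient.mk _ (t ℓ)) hocc
  obtain ⟨ψ, hψ, hψ0⟩ := (Submodule.ne_bot_iff _).1 hocc'
  have hint : ∀ ℓ : Nat.Primes, (ℓ : ℕ) ∉ S → IsIntegral ℤ (x (t ℓ)) := by
    intro ℓ hℓS
    have h1 : GR.heckeGrpP N ℓ F ψ = gx (Ideal.Quotient.mk _ (t ℓ)) • ψ := hψ.2 ℓ hℓS
    rw [hgxm] at h1
    obtain ⟨P, hPm, hP0⟩ := exists_monic_of_eigen ℓ hψ.1 hψ0 h1
    refine ⟨P, hPm, ?_⟩
    apply hBF
    rw [map_zero, algebraMap_int_eq, Polynomial.hom_eval₂]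
    have e : (algebraMap B F).comp (Int.castRingHom B) = Int.castRingHom F :=
      RingHom.ext_int _ _
    rw [e]
    exact hP0
  set D₀ := integralClosure ℤ B with hD₀
  set dsys : Nat.Primes → D₀ := fun ℓ =>
    if h : (ℓ : ℕ) ∉ S then ⟨x (t ℓ), hint ℓ h⟩ else 0 with hdsys
  have hg₀ : Function.Injective ((algebraMap B F).comp (D₀.val : D₀ →+* B)) :=
    hBF.comp Subtype.val_injective
  haveI : CharZero D₀ := (D₀.val : D₀ →+* B).charZero
  have hocc'' : GR.eigenParOn N F (primesOutside S)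
      (fun ℓ => ((algebraMap B F).comp (D₀.val : D₀ →+* B)) (dsys ℓ)) ≠ ⊥ := by
    have e : GR.eigenParOn N F (primesOutside S)
        (fun ℓ => ((algebraMap B F).comp (D₀.val : D₀ →+* B)) (dsys ℓ)) =
        GR.eigenParOn N F (primesOutside S)
          (fun ℓ => gx (Ideal.Quotient.mk _ (t ℓ))) := by
      refine eigenParOn_congr fun ℓ hℓ => ?_
      have hℓS : (ℓ : ℕ) ∉ S := hℓ
      rw [hgxm, hdsys]
      simp only
      rw [dif_pos hℓS]
      rfl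
    rw [e]
    exact hocc'
  obtain ⟨χ₀, hχ₀⟩ := LGCBR.exists_character_of_eigenParOn (M := N) S hNS _ hg₀ dsys hocc''
  refine ⟨(D₀.val : D₀ →+* B).comp χ₀, fun ℓ hℓ hℓN hℓS => ?_⟩
  rw [RingHom.comp_apply, hχ₀ ℓ hℓ hℓN hℓS, hdsys]
  simp only
  rw [dif_pos hℓS]
  rfl

/-- **[LEVEL0] (b)**: every point (with values in a discrete valuation ring finite over `𝒪`) of a
commutative integral `𝒪`-algebra acting faithfully, with Hecke operators `t ℓ`, on a finite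
submodule of the parabolic homomorphisms `Γ₀(N) → 𝒪`, is a character of `heckeAlgebra N 2 S`. -/
theorem exists_character_of_point (hNS : ∀ ℓ : ℕ, ℓ.Prime → ℓ ∣ N → ℓ ∈ S)
    (ι : H →ₗ[𝒪] (Additive ↥(Gamma0 N) →+ 𝒪)) (hι : Function.Injective ι)
    (hpar : ∀ h, ι h ∈ parabolicHoms 𝒪 (Gamma0 N) 𝒪)
    (φ : R →ₐ[𝒪] Module.End 𝒪 H) (hφ : Function.Injective φ)
    (t : Nat.Primes → R)
    (ht : ∀ ℓ : Nat.Primes, (ℓ : ℕ) ∉ S → ∀ h : H, ι (φ (t ℓ) h) = GR.heckeGrpP N ℓ 𝒪 (ι h))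
    (x : R →ₐ[𝒪] B) :
    ∃ χ₀ : CuspForm.heckeAlgebra N 2 S →+* B,
      ∀ (ℓ : ℕ) (hℓ : ℓ.Prime) (hℓN : ¬ ℓ ∣ N) (hℓS : ℓ ∉ S),
        χ₀ (CuspForm.heckeAlgebra.T hℓ hℓN hℓS) = x (t ⟨ℓ, hℓ⟩) := by
  have hBF : Function.Injective (algebraMap B (AlgebraicClosure (FractionRing B))) := by
    rw [IsScalarTower.algebraMap_eq B (FractionRing B) (AlgebraicClosure (FractionRing B))]
    exact (algebraMap (FractionRing B) _).injective.comp (IsFractionRing.injective B _)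
  exact exists_character_of_point_aux S hBF hNS ι hι hpar φ hφ t ht x

end Level0

end Fermat.Agent.RB.OCC
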