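/-
PROJECT RB, block [REP_T] (helper1), part 9: the LOCAL QUOTIENT `T = A ⧸ ⋂ ker ψ_j` of a finite
`𝒪`-algebra `A` cut out by a finite nonempty family of characteristic-zero points `ψ_j : A → B_j`
all reducing to the same `Θ : A → k`.

`T` is a local ring with residue field `k`, finite and free over `𝒪`, noetherian and complete,
`𝒪 → T` is local, and `T` embeds in `∏ B_j` (integrally).
-/
import Mathlib
import Fermat.Agent.RB.REPT_helper1_Points
import Fermat.Prelude.Thm_IsLocalRing_isAdicComplete_of_module_finite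

set_option autoImplicit false
set_option linter.unusedSectionVars false
set_option linter.unusedVariables false
set_option linter.style.haveILetI false

namespace Fermat.Agent.RB.REPT

open IsLocalRing

section Quot

variable {𝒪 : Type} [CommRing 𝒪] [IsDomain 𝒪] [IsDiscreteValuationRing 𝒪]
  [IsAdicComplete (maximalIdeal 𝒪) 𝒪]
  {A : Type} [CommRing A] [Algebra 𝒪 A] [Module.Finite 𝒪 A]
  {J : Type} (pt : J → DVRPoint 𝒪 A)

/-- the ideal of `A` cut out by a family of points. -/
def pointsIdeal : Ideal A := ⨅ j, RingHom.ker ((pt j).ψ : A →+* (pt j).B)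

/-- the quotient of `A` cut out by a family of points. -/
abbrev PointsQuot : Type := A ⧸ pointsIdeal pt

theorem pointsIdeal_le (j : J) : pointsIdeal pt ≤ RingHom.ker ((pt j).ψ : A →+* (pt j).B) :=
  iInf_le _ j

/-- the `j`-th point on the quotient. -/
noncomputable def quotPoint (j : J) : PointsQuot pt →ₐ[𝒪] (pt j).B :=
  Ideal.Quotient.liftₐ (pointsIdeal pt) (pt j).ψ fun x hx => pointsIdeal_le pt j hx

@[simp] theorem quotPoint_mk (j : J) (x : A) :
    quotPoint pt j (Ideal.Quotient.mk (pointsIdeal pt) x) = (pt j).ψ x := rfl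

/-- the points are jointly injective on the quotient. -/
theorem eq_zero_of_forall_quotPoint_eq_zero (x : PointsQuot pt)
    (h : ∀ j, quotPoint pt j x = 0) : x = 0 := by
  obtain ⟨x, rfl⟩ := Ideal.Quotient.mk_surjective x
  rw [Ideal.Quotient.eq_zero_iff_mem, pointsIdeal, Ideal.mem_iInf]
  intro j
  rw [RingHom.mem_ker]
  exact h j

variable (Θ : A →ₐ[𝒪] ResidueField 𝒪)
  (hle : ∀ j, RingHom.ker ((pt j).ψ : A →+* (pt j).B) ≤ RingHom.ker (Θ : A →+* ResidueField 𝒪))

/-- the reduction `Θ` on the quotient. -/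
noncomputable def quotTheta [Nonempty J] (hle : ∀ j, RingHom.ker ((pt j).ψ : A →+* (pt j).B) ≤
    RingHom.ker (Θ : A →+* ResidueField 𝒪)) : PointsQuot pt →ₐ[𝒪] ResidueField 𝒪 :=
  Ideal.Quotient.liftₐ (pointsIdeal pt) Θ fun x hx =>
    hle (Classical.arbitrary J) (pointsIdeal_le pt _ hx)

@[simp] theorem quotTheta_mk [Nonempty J] (x : A) :
    quotTheta pt Θ hle (Ideal.Quotient.mk (pointsIdeal pt) x) = Θ x := rfl

variable [CharZero 𝒪] [Finite (ResidueField 𝒪)]

include hle in
theorem residue_quotPoint [Nonempty J] (j : J) (x : PointsQuot pt) :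
    residue (pt j).B (quotPoint pt j x) =
      ResidueField.map (algebraMap 𝒪 (pt j).B) (quotTheta pt Θ hle x) := by
  obtain ⟨x, rfl⟩ := Ideal.Quotient.mk_surjective x
  rw [quotPoint_mk, quotTheta_mk]
  exact (pt j).residue_ψ Θ (hle j) x

variable [Finite J]

/-- the joint map to the product. -/
noncomputable def quotJoint : PointsQuot pt →+* ∀ j, (pt j).B :=
  RingHom.pi fun j => (quotPoint pt j : PointsQuot pt →+* (pt j).B)

theorem quotJoint_injective : Function.Injective (quotJoint pt) := by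
  rw [injective_iff_map_eq_zero]
  intro x hx
  exact eq_zero_of_forall_quotPoint_eq_zero pt x fun j => congrFun hx j

theorem quotJoint_isIntegral : (quotJoint pt).IsIntegral := by
  haveI := Fintype.ofFinite J
  letI : Algebra (PointsQuot pt) (∀ j, (pt j).B) := (quotJoint pt).toAlgebra
  haveI : IsScalarTower 𝒪 (PointsQuot pt) (∀ j, (pt j).B) :=
    IsScalarTower.of_algebraMap_eq fun a => by
      ext j
      show algebraMap 𝒪 (pt j).B a = quotPoint pt j (algebraMap 𝒪 (PointsQuot pt) a)
      rw [AlgHom.commutes]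
  intro y
  have h1 : IsIntegral 𝒪 y := Algebra.IsIntegral.isIntegral y
  exact h1.tower_top

include hle in
/-- **the unit criterion.** -/
theorem isUnit_iff_quotTheta_ne_zero [Nonempty J] (x : PointsQuot pt) :
    IsUnit x ↔ quotTheta pt Θ hle x ≠ 0 := by
  constructor
  · intro hx h0
    have := hx.map (quotTheta pt Θ hle)
    rw [h0] at this
    exact not_isUnit_zero this
  · intro hx
    haveI := (quotJoint_isIntegral pt).isLocalHom (quotJoint_injective pt)
    apply isUnit_of_map_unit (quotJoint pt)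
    rw [Pi.isUnit_iff]
    intro j
    show IsUnit (quotPoint pt j x)
    by_contra hnu
    have h1 : quotPoint pt j x ∈ maximalIdeal (pt j).B := hnu
    rw [← residue_eq_zero_iff, residue_quotPoint pt Θ hle j x, map_eq_zero] at h1
    exact hx h1

include hle in
theorem isLocalRing_pointsQuot [Nonempty J] : IsLocalRing (PointsQuot pt) := by
  haveI : Nontrivial (PointsQuot pt) :=
    (quotTheta pt Θ hle : PointsQuot pt →+* ResidueField 𝒪).domain_nontrivial
  refine IsLocalRing.of_isUnit_or_isUnit_of_isUnit_add fun a b hab => ?_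
  rw [isUnit_iff_quotTheta_ne_zero pt Θ hle] at hab ⊢
  rw [isUnit_iff_quotTheta_ne_zero pt Θ hle]
  by_contra hcon
  push Not at hcon
  apply hab
  rw [map_add, hcon.1, hcon.2, add_zero]

/-- the quotient is torsion-free. -/
theorem isTorsionFree_pointsQuot : Module.IsTorsionFree 𝒪 (PointsQuot pt) := by
  refine Module.IsTorsionFree.of_smul_eq_zero fun a x hax => ?_
  by_cases ha : a = 0
  · exact Or.inl ha
  · right
    refine eq_zero_of_forall_quotPoint_eq_zero pt x fun j => ?_
    have h1 : quotPoint pt j (a • x) = 0 := by rw [hax, map_zero]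
    rw [map_smul, Algebra.smul_def, mul_eq_zero] at h1
    rcases h1 with h1 | h1
    · exact absurd ((pt j).injective (h1.trans (map_zero _).symm)) ha
    · exact h1

instance free_pointsQuot : Module.Free 𝒪 (PointsQuot pt) :=
  haveI := isTorsionFree_pointsQuot pt
  Module.free_of_finite_type_torsion_free'

section LocalFacts

variable [Nonempty J]

include hle in
theorem mem_maximalIdeal_pointsQuot_iff [IsLocalRing (PointsQuot pt)] (x : PointsQuot pt) :
    x ∈ maximalIdeal (PointsQuot pt) ↔ quotTheta pt Θ hle x = 0 := by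
  rw [mem_maximalIdeal, mem_nonunits_iff, isUnit_iff_quotTheta_ne_zero pt Θ hle, not_not]

include hle in
theorem isLocalHom_algebraMap_pointsQuot : IsLocalHom (algebraMap 𝒪 (PointsQuot pt)) := by
  constructor
  intro a ha
  rw [isUnit_iff_quotTheta_ne_zero pt Θ hle, AlgHom.commutes] at ha
  by_contra hnu
  have h1 : a ∈ maximalIdeal 𝒪 := hnu
  rw [← residue_eq_zero_iff] at h1
  exact ha h1

include hle in
theorem residue_surjective_pointsQuot [IsLocalRing (PointsQuot pt)] :
    Function.Surjective (residue (PointsQuot pt) ∘ algebraMap 𝒪 (PointsQuot pt)) := by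
  intro y
  obtain ⟨x, rfl⟩ := residue_surjective y
  obtain ⟨a, ha⟩ := residue_surjective (quotTheta pt Θ hle x)
  refine ⟨a, ?_⟩
  rw [Function.comp_apply, eq_comm, ← sub_eq_zero, ← map_sub, residue_eq_zero_iff,
    mem_maximalIdeal_pointsQuot_iff pt Θ hle, map_sub, AlgHom.commutes, ← ha, sub_eq_zero]
  rfl

include hle in
theorem residue_mk_pointsQuot [IsLocalRing (PointsQuot pt)]
    [IsLocalHom (algebraMap 𝒪 (PointsQuot pt))] (x : A) :
    residue (PointsQuot pt) (Ideal.Quotient.mk (pointsIdeal pt) x) =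
      ResidueField.map (algebraMap 𝒪 (PointsQuot pt)) (Θ x) := by
  obtain ⟨a, ha⟩ := residue_surjective (Θ x)
  rw [← ha, ResidueField.map_residue, ← sub_eq_zero, ← map_sub, residue_eq_zero_iff,
    mem_maximalIdeal_pointsQuot_iff pt Θ hle, map_sub, AlgHom.commutes, quotTheta_mk, ← ha,
    sub_eq_zero]
  rfl

theorem isNoetherianRing_pointsQuot : IsNoetherianRing (PointsQuot pt) :=
  IsNoetherianRing.of_finite 𝒪 (PointsQuot pt)

theorem isAdicComplete_pointsQuot [IsLocalRing (PointsQuot pt)]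
    [IsLocalHom (algebraMap 𝒪 (PointsQuot pt))] :
    IsAdicComplete (maximalIdeal (PointsQuot pt)) (PointsQuot pt) :=
  IsLocalRing.isAdicComplete_of_module_finite (𝒪 := 𝒪) (T := PointsQuot pt)

end LocalFacts

end Quot

section Family

variable {𝒪 : Type} [CommRing 𝒪] [IsDomain 𝒪] [IsDiscreteValuationRing 𝒪]
  [IsAdicComplete (maximalIdeal 𝒪) 𝒪] [CharZero 𝒪] [Finite (ResidueField 𝒪)]
  {A : Type} [CommRing A] [Algebra 𝒪 A] [Module.Finite 𝒪 A] [Module.Flat 𝒪 A]

/-- **the family of ALL characteristic-zero points lifting `Θ`** (one for each prime of `A` over `0`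
below `ker Θ`): finite, nonempty, and every `𝒪`-valued point lifting `Θ` factors through the
quotient it cuts out. -/
theorem exists_points_family (Θ : A →ₐ[𝒪] ResidueField 𝒪) :
    ∃ (J : Type) (_ : Finite J) (_ : Nonempty J) (pt : J → DVRPoint 𝒪 A),
      (∀ j, RingHom.ker ((pt j).ψ : A →+* (pt j).B) ≤ RingHom.ker (Θ : A →+* ResidueField 𝒪)) ∧
      (∀ ψ : A →ₐ[𝒪] 𝒪, (∀ x, residue 𝒪 (ψ x) = Θ x) →
        pointsIdeal pt ≤ RingHom.ker (ψ : A →+* 𝒪)) ∧
      (∀ (B : Type) [CommRing B] [IsDomain B] [Algebra 𝒪 B]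
        (_ : Function.Injective (algebraMap 𝒪 B)) (ψ : A →ₐ[𝒪] B),
        RingHom.ker (ψ : A →+* B) ≤ RingHom.ker (Θ : A →+* ResidueField 𝒪) →
        pointsIdeal pt ≤ RingHom.ker (ψ : A →+* B)) := by
  set Sp : Set (Ideal A) := {𝔭 | 𝔭.IsPrime ∧ 𝔭.comap (algebraMap 𝒪 A) = ⊥ ∧
    𝔭 ≤ RingHom.ker (Θ : A →+* ResidueField 𝒪)} with hSp
  have hfin : Sp.Finite :=
    (finite_setOf_isPrime_comap_eq_bot (𝒪 := 𝒪) (A := A)).subset fun 𝔭 h => ⟨h.1, h.2.1⟩
  have hne : Nonempty ↥Sp := by
    obtain ⟨𝔭, h1, h2, h3⟩ := exists_prime_le_ker Θ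
    exact ⟨⟨𝔭, h1, h2, h3⟩⟩
  have hpt : ∀ j : ↥Sp, ∃ P : DVRPoint 𝒪 A, RingHom.ker (P.ψ : A →+* P.B) = j.1 := fun j =>
    haveI := j.2.1
    exists_point_of_prime j.1 j.2.2.1
  choose pt hpt using hpt
  refine ⟨↥Sp, hfin.to_subtype, hne, pt, fun j => ?_, fun ψ hψ => ?_, fun B _ _ _ hinj ψ hψ => ?_⟩
  · rw [hpt j]
    exact j.2.2.2
  · have hmem : RingHom.ker (ψ : A →+* 𝒪) ∈ Sp := by
      refine ⟨RingHom.ker_isPrime (ψ : A →+* 𝒪), ?_, ?_⟩
      · rw [eq_bot_iff]
        intro a ha
        rw [Ideal.mem_comap, RingHom.mem_ker] at ha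
        have h1 : ψ (algebraMap 𝒪 A a) = a := by rw [AlgHom.commutes]; rfl
        rw [Ideal.mem_bot, ← h1]
        exact ha
      · intro x hx
        rw [RingHom.mem_ker] at hx ⊢
        show Θ x = 0
        have hx' : ψ x = 0 := hx
        rw [← hψ x, hx', map_zero]
    have := pointsIdeal_le pt ⟨_, hmem⟩
    rw [hpt] at this
    exact this
  · have hmem : RingHom.ker (ψ : A →+* B) ∈ Sp := by
      refine ⟨RingHom.ker_isPrime (ψ : A →+* B), ?_, hψ⟩
      rw [eq_bot_iff]
      intro a ha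
      rw [Ideal.mem_comap, RingHom.mem_ker] at ha
      have h1 : ψ (algebraMap 𝒪 A a) = algebraMap 𝒪 B a := AlgHom.commutes ψ a
      rw [Ideal.mem_bot]
      apply hinj
      rw [map_zero, ← h1]
      exact ha
    have := pointsIdeal_le pt ⟨_, hmem⟩
    rw [hpt] at this
    exact this

end Family

end Fermat.Agent.RB.REPT
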