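/-
PROJECT RB, block [REP_T] (helper1), part 11: **the Galois representation over the local quotient**
`T = A ⧸ ⋂ ker ψ_j` of a finite `𝒪`-algebra `A` cut out by a finite family of points, from Galois
representations at the points (over finite extensions) and a residual representation `ρ̄` over `k`
with the same Frobenius characteristic polynomials: gluing theorem (GL) applied to the family
`Option J` (`none` = the residual representation, which also provides residual irreducibility).
-/
import Mathlib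
import Fermat.Agent.RB.REPT_helper1_Glue
import Fermat.Agent.RB.REPT_helper1_Quot
import Fermat.Agent.RB.REPT_helper1_Irr2
import Fermat.Agent.GR.S31TOP_lead

set_option autoImplicit false
set_option linter.unusedSectionVars false
set_option linter.unusedVariables false
set_option linter.style.haveILetI false

namespace Fermat.Agent.RB.REPT

open Polynomial IsLocalRing Fermat.Agent.S53 Fermat.Agent.S53.L1

local notation "Ω" => AlgebraicClosure ℚ
local notation "GQ" => (AlgebraicClosure ℚ ≃ₐ[ℚ] AlgebraicClosure ℚ)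

/-- a Galois representation at a point, over a finite extension of its coefficient ring. -/
structure PointRep {𝒪 : Type} [CommRing 𝒪] {A : Type} [CommRing A] [Algebra 𝒪 A]
    (P : DVRPoint 𝒪 A) : Type 1 where
  /-- the extended coefficient ring -/
  B' : Type
  [instCommRing : CommRing B']
  [instIsDomain : IsDomain B']
  [instDVR : IsDiscreteValuationRing B']
  [instAlgebra : Algebra P.B B']
  [instFinite : Module.Finite P.B B']
  [instIsLocalHom : IsLocalHom (algebraMap P.B B')]
  injective : Function.Injective (algebraMap P.B B')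
  /-- the representation -/
  ρ : GaloisRepAdic B'

attribute [instance] PointRep.instCommRing PointRep.instIsDomain PointRep.instDVR
  PointRep.instAlgebra PointRep.instFinite PointRep.instIsLocalHom

/-- one member of a gluing family over `T`. -/
structure GluePiece (T : Type) [CommRing T] : Type 1 where
  /-- the coefficient ring -/
  B : Type
  [instCommRing : CommRing B]
  [instIsLocalRing : IsLocalRing B]
  /-- the structure map -/
  f : T →+* B
  /-- the representation -/
  ρ : GaloisRepAdic B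

attribute [instance] GluePiece.instCommRing GluePiece.instIsLocalRing

section Uniform

/-- a uniform exponent from individual ones. -/
theorem exists_uniform_pow_le {ι : Type*} [Finite ι] {B : ι → Type*} [∀ i, CommRing (B i)]
    (𝔪 I : ∀ i, Ideal (B i)) (h : ∀ i, ∃ e : ℕ, 𝔪 i ^ e ≤ I i) :
    ∃ e : ℕ, ∀ i, 𝔪 i ^ e ≤ I i := by
  choose e he using h
  obtain ⟨M, hM⟩ := (Set.finite_range e).bddAbove
  refine ⟨M, fun i => ?_⟩
  exact (Ideal.pow_le_pow_right (hM ⟨i, rfl⟩)).trans (he i)

end Uniform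

section Assemble

variable {𝒪 : Type} [CommRing 𝒪] [IsDomain 𝒪] [IsDiscreteValuationRing 𝒪]
  [IsAdicComplete (maximalIdeal 𝒪) 𝒪] [CharZero 𝒪] [Finite (ResidueField 𝒪)]
  {A : Type} [CommRing A] [Algebra 𝒪 A] [Module.Finite 𝒪 A]
  {J : Type} [Finite J] [Nonempty J] (pt : J → DVRPoint 𝒪 A)
  (Θ : A →ₐ[𝒪] ResidueField 𝒪)
  (hle : ∀ j, RingHom.ker ((pt j).ψ : A →+* (pt j).B) ≤ RingHom.ker (Θ : A →+* ResidueField 𝒪))

/-- the structure map of the point `j` to the extended coefficient ring. -/
noncomputable def pieceHom (rep : ∀ j, PointRep (pt j)) (j : J) :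
    PointsQuot pt →+* (rep j).B' :=
  (algebraMap (pt j).B (rep j).B').comp (quotPoint pt j : PointsQuot pt →+* (pt j).B)

theorem pieceHom_mk (rep : ∀ j, PointRep (pt j)) (j : J) (x : A) :
    pieceHom pt rep j (Ideal.Quotient.mk (pointsIdeal pt) x) =
      algebraMap (pt j).B (rep j).B' ((pt j).ψ x) := rfl

/-- the gluing family: the residual representation and the representations at the points. -/
noncomputable def glueFamily (rep : ∀ j, PointRep (pt j))
    (ρbar : ResidualGaloisRep (ResidueField 𝒪)) : Option J → GluePiece (PointsQuot pt)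
  | none =>
    { B := ResidueField 𝒪
      f := (quotTheta pt Θ hle : PointsQuot pt →+* ResidueField 𝒪)
      ρ := GaloisRepAdic.ofResidualGaloisRep ρbar }
  | some j =>
    { B := (rep j).B'
      f := pieceHom pt rep j
      ρ := (rep j).ρ }

include hle in
theorem isLocalHom_quotTheta :
    IsLocalHom (quotTheta pt Θ hle : PointsQuot pt →+* ResidueField 𝒪) := by
  constructor
  intro x hx
  rw [isUnit_iff_quotTheta_ne_zero pt Θ hle]
  exact hx.ne_zero

include hle in
theorem isLocalHom_quotPoint (j : J) :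
    IsLocalHom (quotPoint pt j : PointsQuot pt →+* (pt j).B) := by
  constructor
  intro x hx
  rw [isUnit_iff_quotTheta_ne_zero pt Θ hle]
  intro h0
  have h1 := residue_quotPoint pt Θ hle j x
  rw [h0, map_zero, residue_eq_zero_iff] at h1
  exact h1 hx

theorem quotTheta_surjective :
    Function.Surjective (quotTheta pt Θ hle : PointsQuot pt →+* ResidueField 𝒪) := by
  intro y
  obtain ⟨a, rfl⟩ := residue_surjective y
  exact ⟨algebraMap 𝒪 (PointsQuot pt) a, by
    show quotTheta pt Θ hle (algebraMap 𝒪 (PointsQuot pt) a) = _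
    rw [AlgHom.commutes]; rfl⟩

/-- **the Galois representation over the local quotient.** -/
theorem exists_galoisRepAdic_pointsQuot [IsLocalRing (PointsQuot pt)] (h2 : IsUnit (2 : 𝒪))
    (rep : ∀ j, PointRep (pt j)) (S : Finset ℕ) (t d : ℕ → A)
    (hchar : ∀ (j : J) (ℓ : ℕ), ℓ.Prime → ℓ ∉ S → ∀ A' : ValuationSubring Ω,
      A'.LiesOverPrime ℓ → ∀ σ : GQ, A'.IsFrobeniusAt σ ℓ →
        LinearMap.charpoly ((rep j).ρ.ρ σ) =
          X ^ 2 - C (algebraMap (pt j).B (rep j).B' ((pt j).ψ (t ℓ))) * X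
            + C (algebraMap (pt j).B (rep j).B' ((pt j).ψ (d ℓ))))
    (c₀ : GQ) (hc₀ : c₀ * c₀ = 1) (hdet : ∀ j, LinearMap.det ((rep j).ρ.ρ c₀) = -1)
    (ρbar : ResidualGaloisRep (ResidueField 𝒪)) (habs : ρbar.IsAbsolutelyIrreducible)
    (hbarchar : ∀ (ℓ : ℕ), ℓ.Prime → ℓ ∉ S → ∀ A' : ValuationSubring Ω,
      A'.LiesOverPrime ℓ → ∀ σ : GQ, A'.IsFrobeniusAt σ ℓ →
        LinearMap.charpoly (ρbar.ρ σ) = X ^ 2 - C (Θ (t ℓ)) * X + C (Θ (d ℓ)))
    (hbardet : LinearMap.det (ρbar.ρ c₀) = -1) :
    ∃ (ρT : GaloisRepAdic (PointsQuot pt))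
      (hloc : ∀ o, IsLocalHom (glueFamily pt Θ hle rep ρbar o).f),
      (∀ o, (ρT.baseChangeAlong (glueFamily pt Θ hle rep ρbar o).f (hloc o)).IsEquiv
        (glueFamily pt Θ hle rep ρbar o).ρ) ∧
      (∀ (ℓ : ℕ), ℓ.Prime → ℓ ∉ S → ∀ A' : ValuationSubring Ω, A'.LiesOverPrime ℓ →
        ∀ σ : GQ, A'.IsFrobeniusAt σ ℓ → LinearMap.charpoly (ρT.ρ σ) =
          X ^ 2 - C (Ideal.Quotient.mk (pointsIdeal pt) (t ℓ)) * X
            + C (Ideal.Quotient.mk (pointsIdeal pt) (d ℓ))) ∧
      ρT.residual.IsAbsolutelyIrreducible ∧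
      (∀ σ : GQ, (∀ j, (rep j).ρ.ρ σ = 1) → ρbar.ρ σ = 1 → ρT.ρ σ = 1) ∧
      (∀ (σ : GQ) (j : J), pieceHom pt rep j (LinearMap.trace (PointsQuot pt) ρT.V (ρT.ρ σ)) =
        LinearMap.trace (rep j).B' (rep j).ρ.V ((rep j).ρ.ρ σ)) := by
  haveI : IsNoetherianRing (PointsQuot pt) := isNoetherianRing_pointsQuot pt
  haveI hlocT : IsLocalHom (algebraMap 𝒪 (PointsQuot pt)) :=
    isLocalHom_algebraMap_pointsQuot pt Θ hle
  have h2T : IsUnit (2 : PointsQuot pt) := by
    have := h2.map (algebraMap 𝒪 (PointsQuot pt))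
    rwa [map_ofNat] at this
  -- the hypotheses of (GL)
  have hloc : ∀ o, IsLocalHom (glueFamily pt Θ hle rep ρbar o).f := by
    rintro (_ | j)
    · exact isLocalHom_quotTheta pt Θ hle
    · haveI := isLocalHom_quotPoint pt Θ hle j
      show IsLocalHom (pieceHom pt rep j)
      exact RingHom.isLocalHom_comp (algebraMap (pt j).B (rep j).B')
        (quotPoint pt j : PointsQuot pt →+* (pt j).B)
  have hfin : ∀ o, ((glueFamily pt Θ hle rep ρbar o).f).Finite := by
    rintro (_ | j)
    · exact RingHom.Finite.of_surjective _ (quotTheta_surjective pt Θ hle)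
    · show (pieceHom pt rep j).Finite
      refine RingHom.Finite.comp (RingHom.finite_algebraMap.mpr inferInstance) ?_
      refine RingHom.Finite.of_comp_finite (f := algebraMap 𝒪 (PointsQuot pt)) ?_
      have : (quotPoint pt j : PointsQuot pt →+* (pt j).B).comp (algebraMap 𝒪 (PointsQuot pt)) =
          algebraMap 𝒪 (pt j).B := (quotPoint pt j).comp_algebraMap
      rw [this]
      exact RingHom.finite_algebraMap.mpr inferInstance
  have hinj : ∀ x : PointsQuot pt, (∀ o, (glueFamily pt Θ hle rep ρbar o).f x = 0) → x = 0 := by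
    intro x hx
    refine eq_zero_of_forall_quotPoint_eq_zero pt x fun j => ?_
    have h1 : algebraMap (pt j).B (rep j).B' (quotPoint pt j x) = 0 := hx (some j)
    exact (rep j).injective (h1.trans (map_zero _).symm)
  have he : ∃ e : ℕ, ∀ o, maximalIdeal (glueFamily pt Θ hle rep ρbar o).B ^ e ≤
      (maximalIdeal (PointsQuot pt)).map (glueFamily pt Θ hle rep ρbar o).f := by
    refine exists_uniform_pow_le (fun o => maximalIdeal (glueFamily pt Θ hle rep ρbar o).B)
      (fun o => (maximalIdeal (PointsQuot pt)).map (glueFamily pt Θ hle rep ρbar o).f) ?_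
    rintro (_ | j)
    · refine ⟨1, ?_⟩
      rw [pow_one]
      show maximalIdeal (ResidueField 𝒪) ≤ _
      rw [IsLocalRing.maximalIdeal_eq_bot]
      exact bot_le
    · obtain ⟨ϖ, hϖ⟩ := IsDiscreteValuationRing.exists_irreducible 𝒪
      have hb : pieceHom pt rep j (algebraMap 𝒪 (PointsQuot pt) ϖ) ≠ 0 := by
        intro h0
        have h1 : algebraMap (pt j).B (rep j).B' (algebraMap 𝒪 (pt j).B ϖ) = 0 := by
          rw [← h0]
          show _ = algebraMap (pt j).B (rep j).B' (quotPoint pt j (algebraMap 𝒪 (PointsQuot pt) ϖ))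
          rw [AlgHom.commutes]
        have h3 := (pt j).injective ((rep j).injective (h1.trans (map_zero _).symm)
          |>.trans (map_zero _).symm)
        exact hϖ.ne_zero h3
      obtain ⟨e, he⟩ := Fermat.Agent.GR.exists_pow_maximalIdeal_le_span hb
      refine ⟨e, ?_⟩
      show maximalIdeal (rep j).B' ^ e ≤ (maximalIdeal (PointsQuot pt)).map (pieceHom pt rep j)
      refine he.trans ?_
      rw [Ideal.span_singleton_le_iff_mem]
      refine Ideal.mem_map_of_mem _ ?_
      exact map_nonunit (algebraMap 𝒪 (PointsQuot pt)) ϖ hϖ.not_isUnit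
  obtain ⟨e, he⟩ := he
  have hchar' : ∀ (o : Option J) (ℓ : ℕ), ℓ.Prime → ℓ ∉ S → ∀ A' : ValuationSubring Ω,
      A'.LiesOverPrime ℓ → ∀ σ : GQ, A'.IsFrobeniusAt σ ℓ →
        LinearMap.charpoly ((glueFamily pt Θ hle rep ρbar o).ρ.ρ σ) =
          X ^ 2 - C ((glueFamily pt Θ hle rep ρbar o).f (Ideal.Quotient.mk (pointsIdeal pt) (t ℓ))) * X
            + C ((glueFamily pt Θ hle rep ρbar o).f (Ideal.Quotient.mk (pointsIdeal pt) (d ℓ))) := by
    rintro (_ | j) ℓ hℓ hℓS A' hA' σ hσ
    · exact hbarchar ℓ hℓ hℓS A' hA' σ hσ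
    · exact hchar j ℓ hℓ hℓS A' hA' σ hσ
  have hdet' : ∀ o, LinearMap.det ((glueFamily pt Θ hle rep ρbar o).ρ.ρ c₀) = -1 := by
    rintro (_ | j)
    · exact hbardet
    · exact hdet j
  have hirr : (glueFamily pt Θ hle rep ρbar none).ρ.residual.IsAbsolutelyIrreducible :=
    residual_ofResidualGaloisRep_isAbsolutelyIrreducible ρbar habs
  obtain ⟨ρT, h1, h3, h4, h5, h6⟩ := exists_galoisRepAdic_of_points
    (B := fun o => (glueFamily pt Θ hle rep ρbar o).B) h2T
    (fun o => (glueFamily pt Θ hle rep ρbar o).f) hloc hfin e he hinj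
    (fun o => (glueFamily pt Θ hle rep ρbar o).ρ) S
    (fun ℓ => Ideal.Quotient.mk (pointsIdeal pt) (t ℓ))
    (fun ℓ => Ideal.Quotient.mk (pointsIdeal pt) (d ℓ)) hchar' c₀ hc₀ hdet' none hirr
  refine ⟨ρT, hloc, h1, h3, h4, fun σ hσ hσbar => h5 σ ?_, fun σ j => h6 σ (some j)⟩
  rintro (_ | j)
  · exact hσbar
  · exact hσ j

end Assemble

end Fermat.Agent.RB.REPT
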