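/-
PROJECT RB — [TWMOD] second wave, package [OCC] (helper1), part 1: **base change of an injective
map into `Hom(G, 𝒪)`**: for a Bézout domain `𝒪` embedded in a field `F` and a finitely generated
group `G`, an injective `𝒪`-linear map `ι : H → Hom(G, 𝒪)` induces an injective `F`-linear map
`F ⊗ H → Hom(G, F)`.
-/
import Mathlib

set_option autoImplicit false
set_option linter.unusedSectionVars false
set_option linter.unusedVariables false
set_option linter.style.haveILetI false

open TensorProduct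

namespace Fermat.Agent.RB.OCC

section Inj

variable {𝒪 F : Type*} [CommRing 𝒪] [Field F] [Algebra 𝒪 F]
  {G : Type*} [Group G] {H : Type*} [AddCommGroup H] [Module 𝒪 H]

/-- postcomposition with `algebraMap 𝒪 F` on `Hom(G, 𝒪)`. -/
def coeffMap (𝒪 F G : Type*) [CommRing 𝒪] [Field F] [Algebra 𝒪 F] [Group G] :
    (Additive G →+ 𝒪) →ₗ[𝒪] (Additive G →+ F) where
  toFun ψ := (algebraMap 𝒪 F : 𝒪 →+ F).comp ψ
  map_add' ψ φ := by
    refine AddMonoidHom.ext fun γ => ?_
    show algebraMap 𝒪 F (ψ γ + φ γ) = algebraMap 𝒪 F (ψ γ) + algebraMap 𝒪 F (φ γ)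
    exact map_add _ _ _
  map_smul' c ψ := by
    refine AddMonoidHom.ext fun γ => ?_
    show algebraMap 𝒪 F (c • ψ γ) = c • algebraMap 𝒪 F (ψ γ)
    rw [smul_eq_mul, map_mul, Algebra.smul_def]

@[simp] theorem coeffMap_apply (ψ : Additive G →+ 𝒪) (γ : Additive G) :
    coeffMap 𝒪 F G ψ γ = algebraMap 𝒪 F (ψ γ) := rfl

theorem coeffMap_injective (hinj : Function.Injective (algebraMap 𝒪 F)) :
    Function.Injective (coeffMap 𝒪 F G) := by
  intro ψ φ h
  refine AddMonoidHom.ext fun γ => hinj ?_
  exact DFunLike.congr_fun h γ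

/-- the base change `F ⊗ H → Hom(G, F)` of `ι : H → Hom(G, 𝒪)`. -/
noncomputable def liftF (F : Type*) [Field F] [Algebra 𝒪 F] (ι : H →ₗ[𝒪] (Additive G →+ 𝒪)) :
    F ⊗[𝒪] H →ₗ[F] (Additive G →+ F) :=
  LinearMap.liftBaseChange F ((coeffMap 𝒪 F G).comp ι)

theorem liftF_tmul (ι : H →ₗ[𝒪] (Additive G →+ 𝒪)) (c : F) (h : H) :
    liftF F ι (c ⊗ₜ h) = c • coeffMap 𝒪 F G (ι h) :=
  LinearMap.liftBaseChange_tmul _ _ _ _

theorem liftF_one_tmul (ι : H →ₗ[𝒪] (Additive G →+ 𝒪)) (h : H) :
    liftF F ι ((1 : F) ⊗ₜ h) = coeffMap 𝒪 F G (ι h) := by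
  rw [liftF_tmul, one_smul]

variable [IsDomain 𝒪] [IsBezout 𝒪]

theorem flat_of_injective (hinj : Function.Injective (algebraMap 𝒪 F)) : Module.Flat 𝒪 F := by
  rw [Module.Flat.flat_iff_torsion_eq_bot_of_isBezout, eq_bot_iff]
  rintro x ⟨a, ha⟩
  rw [Submodule.mem_bot]
  have h1 : algebraMap 𝒪 F (a : 𝒪) * x = 0 := by rw [← Algebra.smul_def]; exact ha
  rcases mul_eq_zero.1 h1 with h2 | h2
  · exact absurd (hinj (h2.trans (map_zero _).symm)) (nonZeroDivisors.coe_ne_zero a)
  · exact h2

variable [Group.FG G]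

/-- **the base change of an injective map into `Hom(G, 𝒪)` is injective.** -/
theorem liftF_injective (hinj : Function.Injective (algebraMap 𝒪 F))
    (ι : H →ₗ[𝒪] (Additive G →+ 𝒪)) (hι : Function.Injective ι) :
    Function.Injective (liftF F ι) := by
  classical
  obtain ⟨S, hS, hSfin⟩ := Group.fg_iff.1 (inferInstance : Group.FG G)
  haveI : Fintype S := hSfin.fintype
  haveI : Module.Flat 𝒪 F := flat_of_injective hinj
  -- evaluation at the generators
  let evO : (Additive G →+ 𝒪) →ₗ[𝒪] (S → 𝒪) :=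
    { toFun := fun ψ s => ψ (Additive.ofMul (s : G))
      map_add' := fun _ _ => rfl
      map_smul' := fun _ _ => rfl }
  let evF : (Additive G →+ F) →ₗ[F] (S → F) :=
    { toFun := fun ψ s => ψ (Additive.ofMul (s : G))
      map_add' := fun _ _ => rfl
      map_smul' := fun _ _ => rfl }
  have hevO : Function.Injective evO := by
    intro ψ φ h
    have h1 : AddMonoidHom.toMultiplicativeRight ψ = AddMonoidHom.toMultiplicativeRight φ := by
      refine MonoidHom.eq_of_eqOn_dense hS fun s hs => ?_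
      have := congrFun h ⟨s, hs⟩
      exact congrArg Multiplicative.ofAdd this
    exact AddMonoidHom.toMultiplicativeRight.injective h1
  have hE : Function.Injective (evO.comp ι) := hevO.comp hι
  have h1 : Function.Injective (LinearMap.lTensor F (evO.comp ι)) :=
    Module.Flat.lTensor_preserves_injective_linearMap _ hE
  have hcomm : ∀ w : F ⊗[𝒪] H,
      TensorProduct.piScalarRight 𝒪 F F S (LinearMap.lTensor F (evO.comp ι) w) =
        evF (liftF F ι w) := by
    intro w
    induction w using TensorProduct.induction_on with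
    | zero => rw [map_zero, map_zero, map_zero, map_zero]
    | tmul c h =>
      rw [LinearMap.lTensor_tmul, liftF_tmul]
      funext s
      rw [TensorProduct.piScalarRight_apply, TensorProduct.piScalarRightHom_tmul]
      show (ι h) (Additive.ofMul (s : G)) • c = c * algebraMap 𝒪 F ((ι h) (Additive.ofMul (s : G)))
      rw [Algebra.smul_def, mul_comm]
    | add x y hx hy => rw [map_add, map_add, map_add, map_add, hx, hy]
  rw [injective_iff_map_eq_zero]
  intro w hw
  apply h1
  rw [map_zero]
  apply (TensorProduct.piScalarRight 𝒪 F F S).injective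
  rw [hcomm, hw, map_zero, map_zero]

end Inj

end Fermat.Agent.RB.OCC
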