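/-
PROJECT RB — [TWMOD] second wave, package [OCC] (helper1), part 2: **an eigenvector for (a conjugate
of) a given character**.  `H` a finite `𝒪`-module embedded by `ι` in `Hom(G, 𝒪)`, `R` a commutative
`𝒪`-algebra, integral over `𝒪`, acting faithfully on `H`, `x : R → F` a character with values in an
algebraically closed field `F ⊇ 𝒪`.  Then there are a character `χ : R → F` with the same kernel
as `x` and a non-zero `Φ` in the `F`-span of `ι(H)` inside `Hom(G, F)` on which every operator
compatible (through `ι`) with the action of `t ∈ R` acts by `χ t`.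
-/
import Mathlib
import Fermat.Agent.RB.OCC_helper1_Inj
import Fermat.Agent.Helper2.EigenChar

set_option autoImplicit false
set_option linter.unusedSectionVars false
set_option linter.unusedVariables false
set_option linter.style.haveILetI false

open TensorProduct

namespace Fermat.Agent.RB.OCC

section Eigen

variable {𝒪 F : Type*} [CommRing 𝒪] [IsDomain 𝒪] [IsBezout 𝒪] [Field F] [IsAlgClosed F]
  [Algebra 𝒪 F]
  {G : Type*} [Group G] [Group.FG G] {H : Type*} [AddCommGroup H] [Module 𝒪 H]
  [Module.Finite 𝒪 H]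
  {R : Type*} [CommRing R] [Algebra 𝒪 R] [Algebra.IsIntegral 𝒪 R]

/-- an operator on `Hom(G, F)` compatible with `f ∈ End(H)` through `ι` corresponds to the base
change of `f` under `liftF`. -/
theorem liftF_baseChange (ι : H →ₗ[𝒪] (Additive G →+ 𝒪)) (f : Module.End 𝒪 H)
    (Θ : (Additive G →+ F) →+ (Additive G →+ F))
    (hΘ : ∀ (c : F) (ψ : Additive G →+ F), Θ (c • ψ) = c • Θ ψ)
    (hcompat : ∀ h : H, Θ (coeffMap 𝒪 F G (ι h)) = coeffMap 𝒪 F G (ι (f h)))
    (w : F ⊗[𝒪] H) : Θ (liftF F ι w) = liftF F ι (f.baseChange F w) := by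
  induction w using TensorProduct.induction_on with
  | zero => rw [map_zero, map_zero, map_zero, map_zero]
  | tmul c h =>
    rw [liftF_tmul, hΘ, hcompat, LinearMap.baseChange_tmul, liftF_tmul]
  | add x y hx hy => rw [map_add, map_add, map_add, map_add, hx, hy]

theorem liftF_mem_span (ι : H →ₗ[𝒪] (Additive G →+ 𝒪)) (w : F ⊗[𝒪] H) :
    liftF F ι w ∈ Submodule.span F (Set.range fun h : H => coeffMap 𝒪 F G (ι h)) := by
  induction w using TensorProduct.induction_on with
  | zero => rw [map_zero]; exact Submodule.zero_mem _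
  | tmul c h =>
    rw [liftF_tmul]
    exact Submodule.smul_mem _ _ (Submodule.subset_span ⟨h, rfl⟩)
  | add x y hx hy => rw [map_add]; exact Submodule.add_mem _ hx hy

/-- **an eigenvector for a conjugate of a given character.** -/
theorem exists_eigen_character (hinj : Function.Injective (algebraMap 𝒪 F))
    (ι : H →ₗ[𝒪] (Additive G →+ 𝒪)) (hι : Function.Injective ι)
    (φ : R →ₐ[𝒪] Module.End 𝒪 H) (hφ : Function.Injective φ)
    (x : R →+* F) (hx : ∀ c : 𝒪, x (algebraMap 𝒪 R c) = algebraMap 𝒪 F c) :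
    ∃ (χ : R →+* F) (Φ : Additive G →+ F), Φ ≠ 0 ∧ RingHom.ker χ = RingHom.ker x ∧
      (∀ c : 𝒪, χ (algebraMap 𝒪 R c) = algebraMap 𝒪 F c) ∧
      Φ ∈ Submodule.span F (Set.range fun h : H => coeffMap 𝒪 F G (ι h)) ∧
      ∀ (t : R) (Θ : (Additive G →+ F) →+ (Additive G →+ F)),
        (∀ (c : F) (ψ : Additive G →+ F), Θ (c • ψ) = c • Θ ψ) →
        (∀ h : H, Θ (coeffMap 𝒪 F G (ι h)) = coeffMap 𝒪 F G (ι (φ t h))) →
        Θ Φ = χ t • Φ := by
  classical
  haveI : Module.Finite F (F ⊗[𝒪] H) := Module.Finite.base_change 𝒪 F H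
  let ρ : R →+* Module.End F (F ⊗[𝒪] H) :=
    ((Module.End.baseChangeHom 𝒪 F H).comp φ).toRingHom
  have hρ : ∀ (t : R) (w : F ⊗[𝒪] H), ρ t w = (φ t).baseChange F w := fun t w => rfl
  haveI : (RingHom.ker x).IsPrime := RingHom.ker_isPrime x
  obtain ⟨g, χ, hg0, hge, hχ⟩ := Fermat.Agent.Helper2.exists_eigenvector_character ρ
    (RingHom.ker x) (by
      intro s hs
      have hs0 : s = 0 := by
        apply hφ
        rw [map_zero]
        apply LinearMap.ext
        intro h
        rw [LinearMap.zero_apply]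
        apply hι
        rw [map_zero]
        apply coeffMap_injective (F := F) (G := G) hinj
        rw [map_zero, ← liftF_one_tmul (F := F), ← LinearMap.baseChange_tmul, ← hρ, hs,
          LinearMap.zero_apply, map_zero]
      rw [hs0]
      exact Ideal.zero_mem _)
  have hle : RingHom.ker χ ≤ RingHom.ker x := by
    intro s hs
    by_contra hns
    exact hχ s hns ((RingHom.mem_ker).1 hs)
  have hker : RingHom.ker χ = RingHom.ker x := by
    by_contra hne
    have hlt : RingHom.ker χ < RingHom.ker x := lt_of_le_of_ne hle hne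
    obtain ⟨y, hy, hny⟩ := SetLike.exists_of_lt hlt
    haveI : (RingHom.ker χ).IsPrime := RingHom.ker_isPrime χ
    have h1 := Ideal.comap_lt_comap_of_integral_mem_sdiff (R := 𝒪) hle ⟨hy, hny⟩
      (Algebra.IsIntegral.isIntegral y)
    obtain ⟨c, hc, hnc⟩ := SetLike.exists_of_lt h1
    apply hnc
    rw [Ideal.mem_comap, RingHom.mem_ker, hx] at hc
    have hc0 : c = 0 := hinj (hc.trans (map_zero _).symm)
    rw [hc0]
    exact Ideal.zero_mem _
  have hχ𝒪 : ∀ c : 𝒪, χ (algebraMap 𝒪 R c) = algebraMap 𝒪 F c := by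
    intro c
    have h1 := hge (algebraMap 𝒪 R c)
    have h2 : ρ (algebraMap 𝒪 R c) g = algebraMap 𝒪 F c • g := by
      rw [hρ, AlgHom.commutes, Module.algebraMap_end_eq_smul_id, LinearMap.baseChange_smul,
        LinearMap.baseChange_id, LinearMap.smul_apply, LinearMap.id_apply, algebraMap_smul]
    rw [h2] at h1
    exact (smul_left_injective F hg0 h1).symm
  refine ⟨χ, liftF F ι g, ?_, hker, hχ𝒪, liftF_mem_span ι g, ?_⟩
  · intro h0
    exact hg0 (liftF_injective hinj ι hι (h0.trans (map_zero _).symm))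
  · intro t Θ hΘ hcompat
    rw [liftF_baseChange ι (φ t) Θ hΘ hcompat g, ← hρ, hge t, map_smul]

end Eigen

end Fermat.Agent.RB.OCC
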