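/-
S59 long shot (P3 = "p = 3") — helper2 — **[T2 at p = 3]**: cocycles of a group `Γ ↪ SL₂(ℤ)`
WITHOUT elements of order three lift along surjections as soon as `2` is invertible (no hypothesis
on `3`): `liftsCocycles_of_injective_SL2Z_of_noOrderThree`, the drop-in replacement of
`liftsCocycles_of_injective_SL2Z` (`RB/T2_helper3_Coind.lean`) in residue characteristic `3`.

* `SL2Z_repCoc_lift_of_normLift` : `SL2Z_repCoc_lift` with the `1/3`-projector replaced by the
  hypothesis `Ĥ⁰(⟨U⟩/±1, (ker f)^{±1}) = 0`;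
* `IsFund j`, `isFund_cases` : a fundamental domain for the (free) action of `⟨U⟩/±1` on
  `j(Γ) \ SL₂(ℤ) / ±1`;
* `coind_normLift` : the hypothesis holds for coinduced modules.
-/
import Mathlib
import Fermat.Agent.RB.T2_helper3_Coind

set_option autoImplicit false
set_option linter.unusedSectionVars false

namespace Fermat.Agent.RB.P3

open Matrix Matrix.SpecialLinearGroup ModularGroup Fermat.Agent.LR
open scoped MatrixGroups

section SL2Z

variable {R : Type*} [CommRing R] {Y : Type*} [AddCommGroup Y] [Module R Y]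

/-- **`SL₂(ℤ)`-cocycles lift along an equivariant surjection `f`**, if `2` is invertible and the
kernel of `f` has trivial `Ĥ⁰(⟨U⟩/±1, ·)` on its `(-1)`-invariants (hypothesis `hN`). -/
theorem SL2Z_repCoc_lift_of_normLift {Y'' : Type*} [AddCommGroup Y''] [Module R Y'']
    (h2 : IsUnit (2 : R))
    (ρ : Representation R SL(2, ℤ) Y) (ρ'' : Representation R SL(2, ℤ) Y'')
    (f : Y →ₗ[R] Y'') (hf : Function.Surjective f) (hfρ : ∀ g y, f (ρ g y) = ρ'' g (f y))
    (hN : ∀ κ : Y, f κ = 0 → ρ presU κ = κ → ρ (S * S) κ = κ →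
      ∃ κ' : Y, f κ' = 0 ∧ ρ (S * S) κ' = κ' ∧ κ' + ρ presU κ' + ρ presU (ρ presU κ') = κ)
    (z'' : SL(2, ℤ) → Y'') (hz'' : IsRepCoc ρ'' z'') :
    ∃ z : SL(2, ℤ) → Y, IsRepCoc ρ z ∧ ∀ g, f (z g) = z'' g := by
  obtain ⟨i2, hi2⟩ := h2.exists_right_inv
  -- the central element `ε = S² = U³ = -1`
  obtain ⟨ε, hεS⟩ : ∃ ε : SL(2, ℤ), ε = S * S := ⟨_, rfl⟩
  have hεε : ε * ε = 1 := by rw [hεS]; decide
  have hεU : ε = presU * (presU * presU) := by rw [hεS]; decide
  have hεUc : ε * presU = presU * ε := by rw [hεS]; decide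
  -- step 1: normalise `z'' ε = 0`
  have hzε : z'' ε + ρ'' ε (z'' ε) = 0 := by
    have := hz'' ε ε
    rw [hεε, hz''.map_one] at this
    exact this.symm
  set y₀'' : Y'' := -(i2 • z'' ε) with hy₀''
  set z₁'' : SL(2, ℤ) → Y'' := z'' - repCobd ρ'' y₀'' with hz₁''
  have hz₁c : IsRepCoc ρ'' z₁'' := hz''.sub (isRepCoc_repCobd ρ'' y₀'')
  have hz₁ε : z₁'' ε = 0 := by
    have e1 : ρ'' ε (z'' ε) = -z'' ε := eq_neg_of_add_eq_zero_right hzε
    simp only [hz₁'', Pi.sub_apply, repCobd, hy₀'', map_neg, map_smul, e1]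
    have : z'' ε = (2 * i2) • z'' ε := by rw [hi2, one_smul]
    nth_rewrite 1 [this]
    module
  -- the values at `S` and `U`
  have hS'' : z₁'' S + ρ'' S (z₁'' S) = 0 := by
    have := hz₁c S S
    rw [← hεS, hz₁ε] at this
    exact this.symm
  have hU'' : z₁'' presU + ρ'' presU (z₁'' presU) + ρ'' presU (ρ'' presU (z₁'' presU)) = 0 := by
    have := hz₁c presU (presU * presU)
    rw [← hεU, hz₁ε, hz₁c presU presU, map_add] at this
    rw [this]
    abel
  have hεu'' : ρ'' ε (z₁'' presU) = z₁'' presU := by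
    have h1 := hz₁c ε presU
    have h2' := hz₁c presU ε
    rw [hz₁ε, zero_add] at h1
    rw [hz₁ε, map_zero, add_zero] at h2'
    rw [← h1, hεUc, h2']
  -- lifts
  obtain ⟨aS, haS⟩ := hf (z₁'' S)
  obtain ⟨aU, haU⟩ := hf (z₁'' presU)
  have hρS4 : ∀ y : Y, ρ S (ρ S (ρ S (ρ S y))) = y := by
    intro y
    have h : (S : SL(2, ℤ)) * (S * (S * S)) = 1 := by decide
    have : ρ (S * (S * (S * S))) y = y := by rw [h, map_one, Module.End.one_apply]
    simpa only [map_mul, Module.End.mul_apply] using this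
  have hρεε : ∀ y : Y, ρ ε (ρ ε y) = y := by
    intro y
    have : ρ (ε * ε) y = y := by rw [hεε, map_one, Module.End.one_apply]
    simpa only [map_mul, Module.End.mul_apply] using this
  have hρU3 : ∀ y : Y, ρ presU (ρ presU (ρ presU y)) = ρ ε y := by
    intro y
    rw [hεU]
    simp only [map_mul, Module.End.mul_apply]
  have hρεU : ∀ y : Y, ρ ε (ρ presU y) = ρ presU (ρ ε y) := by
    intro y
    have : ρ (ε * presU) y = ρ (presU * ε) y := by rw [hεUc]
    simpa only [map_mul, Module.End.mul_apply] using this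
  -- the value at `S`
  set yS : Y := (i2 * i2) • (aS - ρ S aS + ρ S (ρ S aS) - ρ S (ρ S (ρ S aS))) with hyS
  have hyS0 : yS + ρ S yS = 0 := by
    simp only [hyS, map_smul, map_sub, map_add, hρS4]
    module
  have hfyS : f yS = z₁'' S := by
    have e1 : ρ'' S (z₁'' S) = -z₁'' S := eq_neg_of_add_eq_zero_right hS''
    simp only [hyS, map_smul, map_sub, map_add, hfρ, haS, e1, map_neg, neg_neg]
    trans ((2 * i2) * (2 * i2)) • z₁'' S
    · module
    · rw [hi2, one_mul, one_smul]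
  -- the value at `U`
  set y₁ : Y := i2 • (aU + ρ ε aU) with hy₁
  have hεy₁ : ρ ε y₁ = y₁ := by
    simp only [hy₁, map_smul, map_add, hρεε]
    module
  have hfy₁ : f y₁ = z₁'' presU := by
    simp only [hy₁, map_smul, map_add, hfρ, haU, hεu'']
    trans (2 * i2) • z₁'' presU
    · module
    · rw [hi2, one_smul]
  set κ : Y := y₁ + ρ presU y₁ + ρ presU (ρ presU y₁) with hκ
  have hfκ : f κ = 0 := by
    simp only [hκ, map_add, hfρ, hfy₁]
    exact hU''
  have hUκ : ρ presU κ = κ := by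
    simp only [hκ, map_add, hρU3, hεy₁]
    abel
  have hεκ : ρ (S * S) κ = κ := by
    rw [← hεS]
    simp only [hκ, map_add, hρεU, hεy₁]
  obtain ⟨κ', hfκ', hεκ', hNκ'⟩ := hN κ hfκ hUκ hεκ
  set yU : Y := y₁ - κ' with hyU
  have hyU0 : yU + ρ presU yU + ρ presU (ρ presU yU) = 0 := by
    simp only [hyU, map_sub]
    have : y₁ - κ' + (ρ presU y₁ - ρ presU κ') + (ρ presU (ρ presU y₁) - ρ presU (ρ presU κ')) =
        κ - (κ' + ρ presU κ' + ρ presU (ρ presU κ')) := by
      rw [hκ]; abel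
    rw [this, hNκ', sub_self]
  have hfyU : f yU = z₁'' presU := by
    rw [hyU, map_sub, hfκ', sub_zero, hfy₁]
  -- the lifted cocycle
  obtain ⟨z₁, hz₁, hz₁S, hz₁U⟩ := exists_repCoc_of_values ρ yS yU hyS0 hyU0
  obtain ⟨y₀, hy₀⟩ := hf y₀''
  have hfz₁ : (fun g => f (z₁ g)) = z₁'' := by
    apply repCoc_ext (ρ := ρ'') _ hz₁c
    · show f (z₁ S) = z₁'' S
      rw [hz₁S, hfyS]
    · show f (z₁ presU) = z₁'' presU
      rw [hz₁U, hfyU]
    · intro g h
      show f (z₁ (g * h)) = f (z₁ g) + ρ'' g (f (z₁ h))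
      rw [hz₁ g h, map_add, hfρ]
  refine ⟨z₁ + repCobd ρ y₀, hz₁.add (isRepCoc_repCobd ρ y₀), fun g => ?_⟩
  have := congrFun hfz₁ g
  simp only [Pi.add_apply, repCobd, map_add, map_sub, hfρ, hy₀]
  rw [this, hz₁'']
  simp only [Pi.sub_apply, repCobd]
  abel

end SL2Z

section Fund

variable {Γ : Type*} [Group Γ] (j : Γ →* SL(2, ℤ))

/-- the chosen representative of the double coset `j(Γ) g ⟨U⟩`. -/
noncomputable def fundRep (g : SL(2, ℤ)) : SL(2, ℤ) :=
  (DoubleCoset.mk j.range presB g).out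

theorem fundRep_spec (g : SL(2, ℤ)) :
    ∃ γ : Γ, ∃ c ∈ presB, g = j γ * fundRep j g * c := by
  have h : DoubleCoset.mk j.range presB (fundRep j g) = DoubleCoset.mk j.range presB g :=
    DoubleCoset.out_eq' _ _ _
  obtain ⟨a, ⟨γ, rfl⟩, c, hc, h⟩ := (DoubleCoset.eq _ _ _ _).1 h
  exact ⟨γ, c, hc, h⟩

theorem fundRep_mul_left (γ : Γ) (g : SL(2, ℤ)) : fundRep j (j γ * g) = fundRep j g := by
  have h : DoubleCoset.mk j.range presB (j γ * g) = DoubleCoset.mk j.range presB g :=
    ((DoubleCoset.eq _ _ _ _).2 ⟨j γ, MonoidHom.mem_range.2 ⟨γ, rfl⟩, 1, one_mem _, by rw [mul_one]⟩).symm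
  unfold fundRep
  rw [h]

theorem fundRep_mul_right (g c : SL(2, ℤ)) (hc : c ∈ presB) : fundRep j (g * c) = fundRep j g := by
  have h : DoubleCoset.mk j.range presB (g * c) = DoubleCoset.mk j.range presB g :=
    ((DoubleCoset.eq _ _ _ _).2 ⟨1, one_mem _, c, hc, by rw [one_mul]⟩).symm
  unfold fundRep
  rw [h]

/-- the fundamental domain for the action of `⟨U⟩ / ±1` on `j(Γ) \ SL₂(ℤ) / ±1`. -/
def IsFund (g : SL(2, ℤ)) : Prop :=
  ∃ γ : Γ, g = j γ * fundRep j g ∨ g = j γ * fundRep j g * (S * S)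

theorem isFund_mul_left (γ : Γ) (g : SL(2, ℤ)) : IsFund j (j γ * g) ↔ IsFund j g := by
  unfold IsFund
  simp only [fundRep_mul_left]
  constructor
  · rintro ⟨γ', h | h⟩
    · refine ⟨γ⁻¹ * γ', Or.inl ?_⟩
      rw [map_mul, map_inv, mul_assoc, ← h, inv_mul_cancel_left]
    · refine ⟨γ⁻¹ * γ', Or.inr ?_⟩
      rw [map_mul, map_inv, mul_assoc, mul_assoc, ← mul_assoc (j γ'), ← h, inv_mul_cancel_left]
  · rintro ⟨γ', h | h⟩
    · refine ⟨γ * γ', Or.inl ?_⟩
      rw [map_mul, mul_assoc, ← h]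
    · refine ⟨γ * γ', Or.inr ?_⟩
      rw [map_mul, mul_assoc, mul_assoc, ← mul_assoc (j γ'), ← h]

theorem SS_mem_presB : (S * S : SL(2, ℤ)) ∈ presB := by
  have e : (S * S : SL(2, ℤ)) = -1 := by decide
  rw [e]
  exact neg_one_mem_presB

theorem isFund_mul_SS (g : SL(2, ℤ)) : IsFund j (g * (S * S)) ↔ IsFund j g := by
  unfold IsFund
  rw [fundRep_mul_right j g _ SS_mem_presB]
  have hSS : (S * S : SL(2, ℤ)) * (S * S) = 1 := by decide
  constructor
  · rintro ⟨γ', h | h⟩
    · refine ⟨γ', Or.inr ?_⟩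
      rw [← h, mul_assoc, hSS, mul_one]
    · refine ⟨γ', Or.inl ?_⟩
      exact mul_right_cancel h
  · rintro ⟨γ', h | h⟩
    · refine ⟨γ', Or.inr ?_⟩
      rw [← h]
    · refine ⟨γ', Or.inl ?_⟩
      nth_rewrite 1 [h]
      rw [mul_assoc, hSS, mul_one]

variable {j}

theorem isFund_iff (g : SL(2, ℤ)) : IsFund j g ↔
    ∃ (γ : Γ) (e : SL(2, ℤ)), (e = 1 ∨ e = S * S) ∧ g = j γ * fundRep j g * e := by
  constructor
  · rintro ⟨γ, h | h⟩
    · exact ⟨γ, 1, Or.inl rfl, by rw [mul_one]; exact h⟩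
    · exact ⟨γ, S * S, Or.inr rfl, h⟩
  · rintro ⟨γ, e, rfl | rfl, h⟩
    · exact ⟨γ, Or.inl (by rw [mul_one] at h; exact h)⟩
    · exact ⟨γ, Or.inr h⟩

/-- no two points of an orbit of `⟨U⟩ / ±1` lie in the fundamental domain, if `Γ` has no element
of order three. -/
theorem not_isFund_of_isFund_mul (hj : Function.Injective j) (hno3 : ∀ δ : Γ, δ ^ 3 = 1 → δ = 1)
    {h w : SL(2, ℤ)} (hw : w = presU ∨ w = presU * presU) (h1 : IsFund j h)
    (h2 : IsFund j (h * w)) : False := by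
  have hwB : w ∈ presB := by
    rcases hw with rfl | rfl
    · exact presU_mem_presB
    · exact mul_mem presU_mem_presB presU_mem_presB
  obtain ⟨γ₁, e₁, he₁, h1⟩ := (isFund_iff h).1 h1
  obtain ⟨γ₂, e₂, he₂, h2⟩ := (isFund_iff (h * w)).1 h2
  rw [fundRep_mul_right j h w hwB] at h2
  set h₀ := fundRep j h with hh₀
  set y : SL(2, ℤ) := e₁ * w * e₂ with hy
  have hy6 : y ^ 6 = 1 ∧ y ^ 2 ≠ 1 := by
    rw [hy]
    rcases he₁ with rfl | rfl <;> rcases he₂ with rfl | rfl <;> rcases hw with rfl | rfl <;>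
      decide
  have he₂2 : e₂ * e₂ = 1 := by
    rcases he₂ with rfl | rfl <;> decide
  set δ : Γ := γ₁⁻¹ * γ₂ with hδ
  have hδy : j δ * h₀ = h₀ * y := by
    have e : j γ₂ * h₀ * e₂ = j γ₁ * h₀ * e₁ * w := by rw [← h2, h1]
    have e' : j γ₂ * h₀ = j γ₁ * h₀ * e₁ * w * e₂ := by
      rw [← e, mul_assoc (j γ₂ * h₀), he₂2, mul_one]
    rw [hδ, map_mul, map_inv, mul_assoc, e', hy]
    simp only [mul_assoc, inv_mul_cancel_left]
  have hpow : ∀ n : ℕ, j (δ ^ n) * h₀ = h₀ * y ^ n := by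
    intro n
    induction n with
    | zero => simp
    | succ n ih =>
      rw [pow_succ, map_mul, mul_assoc, hδy, ← mul_assoc, ih, mul_assoc, ← pow_succ]
  have h6 : δ ^ 6 = 1 := by
    apply hj
    have := hpow 6
    rw [hy6.1, mul_one] at this
    rw [map_one]
    exact mul_right_cancel (this.trans (one_mul _).symm)
  have h2' : δ ^ 2 = 1 := by
    apply hno3
    rw [← pow_mul]
    exact h6
  have := hpow 2
  rw [h2', map_one, one_mul] at this
  exact hy6.2 (mul_left_cancel (this.symm.trans (mul_one _).symm))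

/-- in every orbit exactly one point lies in the fundamental domain. -/
theorem isFund_cases (hj : Function.Injective j) (hno3 : ∀ δ : Γ, δ ^ 3 = 1 → δ = 1)
    (g : SL(2, ℤ)) :
    (IsFund j g ∧ ¬ IsFund j (g * presU) ∧ ¬ IsFund j (g * presU * presU)) ∨
    (¬ IsFund j g ∧ IsFund j (g * presU) ∧ ¬ IsFund j (g * presU * presU)) ∨
    (¬ IsFund j g ∧ ¬ IsFund j (g * presU) ∧ IsFund j (g * presU * presU)) := by
  have n01 : IsFund j g → IsFund j (g * presU) → False := fun a b =>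
    not_isFund_of_isFund_mul hj hno3 (Or.inl rfl) a b
  have n02 : IsFund j g → IsFund j (g * presU * presU) → False := fun a b =>
    not_isFund_of_isFund_mul hj hno3 (Or.inr rfl) a (by rw [← mul_assoc]; exact b)
  have n12 : IsFund j (g * presU) → IsFund j (g * presU * presU) → False := fun a b =>
    not_isFund_of_isFund_mul hj hno3 (Or.inl rfl) a b
  obtain ⟨γ, c, hc, hg⟩ := fundRep_spec j g
  have hSS : (S * S : SL(2, ℤ)) = -1 := by decide
  have hrU : fundRep j (g * presU) = fundRep j g := fundRep_mul_right j g _ presU_mem_presB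
  have hrUU : fundRep j (g * presU * presU) = fundRep j g := by
    rw [mul_assoc]
    exact fundRep_mul_right j g _ (mul_mem presU_mem_presB presU_mem_presB)
  rcases mem_presB hc with rfl | rfl | rfl | rfl | rfl | rfl
  · -- c = 1
    have h0 : IsFund j g := ⟨γ, Or.inl (by rw [mul_one] at hg; exact hg)⟩
    exact Or.inl ⟨h0, fun h => n01 h0 h, fun h => n02 h0 h⟩
  · -- c = U : g U² = γ g₀ U³ = γ g₀ (-1)
    have h2 : IsFund j (g * presU * presU) := by
      refine ⟨γ, Or.inr ?_⟩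
      rw [hrUU]
      nth_rewrite 1 [hg]
      have : presU * presU * presU = (S * S : SL(2, ℤ)) := by decide
      rw [← this]
      simp only [mul_assoc]
    exact Or.inr (Or.inr ⟨fun h => n02 h h2, fun h => n12 h h2, h2⟩)
  · -- c = U² : g U = γ g₀ U³
    have h1 : IsFund j (g * presU) := by
      refine ⟨γ, Or.inr ?_⟩
      rw [hrU]
      nth_rewrite 1 [hg]
      have : presU ^ 2 * presU = (S * S : SL(2, ℤ)) := by decide
      rw [← this]
      simp only [mul_assoc]
    exact Or.inr (Or.inl ⟨fun h => n01 h h1, h1, fun h => n12 h1 h⟩)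
  · -- c = -1
    have h0 : IsFund j g := ⟨γ, Or.inr (by rw [hSS]; exact hg)⟩
    exact Or.inl ⟨h0, fun h => n01 h0 h, fun h => n02 h0 h⟩
  · -- c = -U : g U² = γ g₀ (-U³) = γ g₀
    have h2 : IsFund j (g * presU * presU) := by
      refine ⟨γ, Or.inl ?_⟩
      rw [hrUU]
      nth_rewrite 1 [hg]
      have : -presU * presU * presU = (1 : SL(2, ℤ)) := by decide
      rw [mul_assoc, mul_assoc, ← mul_assoc (-presU), this, mul_one]
    exact Or.inr (Or.inr ⟨fun h => n02 h h2, fun h => n12 h h2, h2⟩)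
  · -- c = -U² : g U = γ g₀ (-U³) = γ g₀
    have h1 : IsFund j (g * presU) := by
      refine ⟨γ, Or.inl ?_⟩
      rw [hrU]
      nth_rewrite 1 [hg]
      have : -presU ^ 2 * presU = (1 : SL(2, ℤ)) := by decide
      rw [mul_assoc, this, mul_one]
    exact Or.inr (Or.inl ⟨fun h => n01 h h1, h1, fun h => n12 h1 h⟩)

end Fund

universe v w

section CoindNorm

variable {Γ : Type w} [Group Γ] (j : Γ →* SL(2, ℤ))
variable {Λ : Type v} [CommRing Λ] (u : Γ →* Λˣ)
variable {X : Type*} [AddCommGroup X] [Module Λ X]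

open Classical in
/-- cut a coinduced function off outside the fundamental domain. -/
noncomputable def coindCut (κ : ↥(coindMod j u X)) : ↥(coindMod j u X) :=
  ⟨fun g => if IsFund j g then κ.1 g else 0, fun γ g => by
    show (if IsFund j (j γ * g) then κ.1 (j γ * g) else 0) =
      ((u γ : Λˣ) : Λ) • (if IsFund j g then κ.1 g else 0)
    by_cases h : IsFund j g
    · rw [if_pos h, if_pos ((isFund_mul_left j γ g).2 h), κ.2 γ g]
    · rw [if_neg h, if_neg (fun h' => h ((isFund_mul_left j γ g).1 h')), smul_zero]⟩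

open Classical in
theorem coindCut_apply (κ : ↥(coindMod j u X)) (g : SL(2, ℤ)) :
    (coindCut j u κ).1 g = if IsFund j g then κ.1 g else 0 := rfl

variable {Y : Type*} [AddCommGroup Y] [Module Λ Y]

/-- **`Ĥ⁰(⟨U⟩/±1, ·) = 0` on the kernel of a coinduced map**, for `Γ` without elements of order
three. -/
theorem coind_normLift (hj : Function.Injective j) (hno3 : ∀ δ : Γ, δ ^ 3 = 1 → δ = 1)
    (f : X →ₗ[Λ] Y) (κ : ↥(coindMod j u X)) (hfκ : coindMap j u f κ = 0)
    (hUκ : coindRep j u X presU κ = κ) (hεκ : coindRep j u X (S * S) κ = κ) :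
    ∃ κ' : ↥(coindMod j u X), coindMap j u f κ' = 0 ∧ coindRep j u X (S * S) κ' = κ' ∧
      κ' + coindRep j u X presU κ' + coindRep j u X presU (coindRep j u X presU κ') = κ := by
  classical
  have hU : ∀ g, κ.1 (g * presU) = κ.1 g := fun g => by
    have := congrArg (fun F : ↥(coindMod j u X) => F.1 g) hUκ
    exact this
  have hε : ∀ g, κ.1 (g * (S * S)) = κ.1 g := fun g => by
    have := congrArg (fun F : ↥(coindMod j u X) => F.1 g) hεκ
    exact this
  have hf0 : ∀ g, f (κ.1 g) = 0 := fun g => by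
    have := congrArg (fun F : ↥(coindMod j u Y) => F.1 g) hfκ
    exact this
  refine ⟨coindCut j u κ, ?_, ?_, ?_⟩
  · apply Subtype.ext
    funext g
    show f ((coindCut j u κ).1 g) = 0
    rw [coindCut_apply]
    split_ifs
    · exact hf0 g
    · exact map_zero f
  · apply Subtype.ext
    funext g
    show (coindCut j u κ).1 (g * (S * S)) = (coindCut j u κ).1 g
    rw [coindCut_apply, coindCut_apply, hε]
    by_cases h : IsFund j g
    · rw [if_pos h, if_pos ((isFund_mul_SS j g).2 h)]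
    · rw [if_neg h, if_neg (fun h' => h ((isFund_mul_SS j g).1 h'))]
  · apply Subtype.ext
    funext g
    show (coindCut j u κ).1 g + (coindCut j u κ).1 (g * presU) +
      (coindCut j u κ).1 (g * presU * presU) = κ.1 g
    rw [coindCut_apply, coindCut_apply, coindCut_apply, hU, hU, hU]
    rcases isFund_cases hj hno3 g with ⟨a, b, c⟩ | ⟨a, b, c⟩ | ⟨a, b, c⟩
    · rw [if_pos a, if_neg b, if_neg c, add_zero, add_zero]
    · rw [if_neg a, if_pos b, if_neg c, zero_add, add_zero]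
    · rw [if_neg a, if_neg b, if_pos c, zero_add, zero_add]

end CoindNorm

section Main

variable {Γ : Type w} [Group Γ] {Λ : Type v} [CommRing Λ] (u : Γ →* Λˣ)

/-- **(CD1) for groups embedded in `SL₂(ℤ)` WITHOUT elements of order three**: only `2 ∈ Λˣ` is
needed (this is the form used in residue characteristic `3`). -/
theorem liftsCocycles_of_injective_SL2Z_of_noOrderThree (j : Γ →* SL(2, ℤ))
    (hj : Function.Injective j) (hno3 : ∀ δ : Γ, δ ^ 3 = 1 → δ = 1)
    (h2 : IsUnit (2 : Λ)) : LiftsCocycles u := by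
  intro X Y _ _ _ _ f hf z''
  obtain ⟨r, hr, hr1⟩ := exists_coindSection j hj
  obtain ⟨c, hc, hfc⟩ := SL2Z_repCoc_lift_of_normLift h2 (coindRep j u X) (coindRep j u Y)
    (coindMap j u f) (coindMap_surjective j u hj f hf) (coindMap_coindRep j u f)
    (fun κ h1 h2 h3 => coind_normLift j u hj hno3 f κ h1 h2 h3)
    (coindCoc j u r hr z'') (isRepCoc_coindCoc j u r hr z'')
  refine ⟨⟨fun γ => (c (j γ)).1 1, coindRestrict_mem j u hc⟩, ?_⟩
  apply Subtype.ext
  funext γ
  show f ((c (j γ)).1 1) = z''.1 γ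
  have := congrArg (fun F : ↥(coindMod j u Y) => F.1 1) (hfc (j γ))
  rw [← coindCoc_apply_one j u r hr hr1 z'' γ]
  exact this

end Main

end Fermat.Agent.RB.P3
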