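/-
S59 long shot (P3 = "p = 3") — helper2 — **[T2] in residue characteristic `p ≥ 3`**: the main
theorems of `RB/T2_helper3_Main.lean` (freeness of the `m`-part of `H¹(Γ, O[Δ])` over `O[Δ]`,
control) with the hypothesis `5 ≤ p` replaced by

  `p ≠ 2` and (`p = 3 →` the group `Γ ↪ SL₂(ℤ)` has no element of order three).

* `liftsCocycles_grpRingChar_of_odd` : (CD1) for the tautological character;
* `free_idemRange_cocH1_of_lifts`, `ctlMap_surjective_of_lifts`, `ctlMap_eq_zero_iff_of_lifts`,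
  `control_idemRange_cocH1_of_lifts` : the theorems of `T2_helper3_Main` with (CD1) as a hypothesis;
* `liftsCocycles_grpRingChar_Gamma0` : the case of a subgroup `H ≤ Γ₀(N)` (e.g. the kernel of the
  Taylor–Wiles character) when `p = 3 →` some prime `r ≡ 2 mod 3` divides `N`.
-/
import Mathlib
import Fermat.Agent.RB.T2_helper3_Main
import Fermat.Agent.RB.P3_helper2_T2
import Fermat.Agent.RB.P3_helper2_NoThree

set_option autoImplicit false
set_option linter.unusedSectionVars false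
set_option linter.style.haveILetI false

namespace Fermat.Agent.RB.P3

open Fermat.Agent.GR IsLocalRing Matrix Matrix.SpecialLinearGroup CongruenceSubgroup
open scoped MatrixGroups

universe v w

section Main

variable {O : Type v} [CommRing O] [IsLocalRing O] [IsNoetherianRing O]
  [IsAdicComplete (maximalIdeal O) O]
variable {Γ : Type w} [Group Γ] [Group.FG Γ]
variable {Δ : Type v} [CommGroup Δ] [Finite Δ] (χ : Γ →* Δ)

local notation "Λ" => MonoidAlgebra O Δ
local notation "uu" => grpRingChar O χ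

/-- **(CD1)** for the tautological character of a group embedded in `SL₂(ℤ)`, residue
characteristic `p ≥ 3`; for `p = 3` the group must not contain elements of order three. -/
theorem liftsCocycles_grpRingChar_of_odd {p : ℕ} (hp : p.Prime) (hp2 : p ≠ 2)
    (hpO : (p : O) ∈ maximalIdeal O) (j : Γ →* SL(2, ℤ)) (hj : Function.Injective j)
    (hno3 : p = 3 → ∀ δ : Γ, δ ^ 3 = 1 → δ = 1) : LiftsCocycles uu := by
  by_cases hp5 : 5 ≤ p
  · exact liftsCocycles_grpRingChar χ hp hp5 hpO j hj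
  · have hp3 : p = 3 := by
      have h2 := hp.two_le
      have : p < 5 := not_le.1 hp5
      interval_cases p
      · exact absurd rfl hp2
      · rfl
      · exact absurd hp (by norm_num)
    have hcop : Nat.Coprime 2 p := by
      rw [hp3]; norm_num
    have h2 : IsUnit (2 : Λ) := by
      have := (isUnit_natCast_of_coprime hpO hcop).map (algebraMap O Λ)
      rwa [map_natCast] at this
    exact liftsCocycles_of_injective_SL2Z_of_noOrderThree uu j hj (hno3 hp3) h2

/-- **(T2, freeness)** with (CD1) as a hypothesis. -/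
theorem free_idemRange_cocH1_of_lifts (hL : LiftsCocycles uu) {p : ℕ} (hp : p.Prime)
    (hpO : (p : O) ∈ maximalIdeal O) (hΔ : IsPGroup p Δ)
    {𝕋 : Type*} [CommRing 𝕋] [Algebra O 𝕋] (α : 𝕋 →ₐ[O] Module.End Λ (cocH1 uu Λ))
    (m : Ideal 𝕋) {G ι : Type*} [Group G] [Fintype ι] (D : HeckeDatum Γ G ι)
    (hD : ∀ γ i, χ (D.cocycle γ i) = χ γ) (t : 𝕋) (htm : t ∉ m)
    (ht : α t = cocEta uu D (grpRingChar_cocycle χ D hD) Λ)
    (ε : 𝕋) (hε : α ε * α ε = α ε) (hinv : ∀ s : 𝕋, s ∉ m → ∃ s' : 𝕋, α (s * s') * α ε = α ε) :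
    Module.Free Λ ↥(idemRange (α ε)) := by
  haveI : IsLocalRing Λ := isLocalRing_monoidAlgebra hp hpO hΔ
  obtain ⟨s', hs'⟩ := hinv t htm
  have hcomm : ∀ a b : 𝕋, Commute (α a) (α b) := fun a b => by
    show α a * α b = α b * α a
    rw [← map_mul, ← map_mul, mul_comm]
  obtain ⟨E, hE⟩ := exists_equiv_idemRange (α ε) (α t) (α s') hε (hcomm _ _) (hcomm _ _)
    (hcomm _ _) (by rw [← map_mul]; exact hs')
  refine free_of_retract_of_cocEta_bijective D hL (grpRingChar_cocycle χ D hD)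
    (idemRange (α ε)).subtype (idemProj (α ε)) (idemProj_subtype (α ε) hε) E ?_
  intro x
  rw [hE, ht]

section Control

variable {Δ'' : Type v} [CommGroup Δ''] (π : Δ →* Δ'')

local notation "Λ''" => MonoidAlgebra O Δ''
local notation "uu''" => grpRingChar O (π.comp χ)

/-- **(T2, control)**: surjectivity, with (CD1) as a hypothesis. -/
theorem ctlMap_surjective_of_lifts (hL : LiftsCocycles uu) (hπ : Function.Surjective π) :
    Function.Surjective (ctlMap O χ π) :=
  cocH1MapSL_surjective _ _ hL (mapDomainRingHom_surjective π hπ) (grpRingChar_comp χ π)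

/-- **(T2, control)**: the kernel is `I_π H`, with (CD1) as a hypothesis. -/
theorem ctlMap_eq_zero_iff_of_lifts (hL : LiftsCocycles uu) (hπ : Function.Surjective π)
    (x : cocH1 uu Λ) :
    ctlMap O χ π x = 0 ↔ x ∈ Ideal.span {a : Λ | ∃ δ ∈ π.ker, a = MonoidAlgebra.of O Δ δ - 1} •
      (⊤ : Submodule Λ (cocH1 uu Λ)) := by
  rw [← ker_mapDomainRingHom π hπ, ← ker_cocH1MapSL _ _ hL
    (mapDomainRingHom_surjective π hπ) (grpRingChar_comp χ π), LinearMap.mem_ker]
  rfl

variable {𝕋 : Type*} [CommRing 𝕋] [Algebra O 𝕋]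

/-- **(T2, control for the `m`-parts)**, with (CD1) as a hypothesis. -/
theorem control_idemRange_cocH1_of_lifts (hL : LiftsCocycles uu)
    (α : 𝕋 →ₐ[O] Module.End Λ (cocH1 uu Λ))
    (α'' : 𝕋 →ₐ[O] Module.End Λ'' (cocH1 uu'' Λ''))
    (hπ : Function.Surjective π)
    (hαα : ∀ (t : 𝕋)
      (x : cocH1 uu Λ), ctlMap O χ π (α t x) = α'' t (ctlMap O χ π x)) (ε : 𝕋)
    (hε : α ε * α ε = α ε) :
    ∃ πe : ↥(idemRange (α ε)) →ₛₗ[MonoidAlgebra.mapDomainRingHom O π] ↥(idemRange (α'' ε)),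
      (∀ x, ((πe x : ↥(idemRange (α'' ε))) : cocH1 uu'' Λ'') = ctlMap O χ π x) ∧
      Function.Surjective πe ∧
      ∀ x, πe x = 0 ↔ x ∈ Ideal.span {a : Λ | ∃ δ ∈ π.ker, a = MonoidAlgebra.of O Δ δ - 1} •
        (⊤ : Submodule Λ ↥(idemRange (α ε))) :=
  idemRange_control (ctlMap O χ π) (ctlMap_surjective_of_lifts χ π hL hπ) _
    (ctlMap_eq_zero_iff_of_lifts χ π hL hπ) (α ε) (α'' ε) hε (hαα ε)

end Control

end Main

section Gamma0

variable {O : Type v} [CommRing O] [IsLocalRing O] [IsNoetherianRing O]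
  [IsAdicComplete (maximalIdeal O) O]
variable {Δ : Type v} [CommGroup Δ] [Finite Δ]

/-- **(CD1) for the subgroups of `Γ₀(N)`** (e.g. the kernel of a Taylor–Wiles character), residue
characteristic `p ≥ 3`: for `p = 3` it suffices that some prime `r ≡ 2 mod 3` divides `N`
(`r = 2` qualifies). -/
theorem liftsCocycles_grpRingChar_Gamma0 (N : ℕ) (H : Subgroup ↥(Gamma0 N)) [Group.FG ↥H]
    (χ : ↥H →* Δ) {p : ℕ} (hp : p.Prime) (hp2 : p ≠ 2) (hpO : (p : O) ∈ maximalIdeal O)
    (h3 : p = 3 → ∃ r : ℕ, r.Prime ∧ r ∣ N ∧ r % 3 = 2) :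
    LiftsCocycles (grpRingChar O χ) := by
  refine liftsCocycles_grpRingChar_of_odd χ hp hp2 hpO ((Gamma0 N).subtype.comp H.subtype)
    ((Gamma0 N).subtype_injective.comp H.subtype_injective) ?_
  intro hp3 δ hδ
  obtain ⟨r, hr, hrN, hr3⟩ := h3 hp3
  have h1 : (δ : ↥(Gamma0 N)) ^ 3 = 1 := by
    have := congrArg (fun x : ↥H => (x : ↥(Gamma0 N))) hδ
    simpa using this
  exact Subtype.ext (Gamma0_eq_one_of_pow_three hr hrN hr3 (δ : ↥(Gamma0 N)) h1)

end Gamma0

end Fermat.Agent.RB.P3
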