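/-
PROJECT RB — [BB3] package H = [TRACE], lead, part 1 (pure algebra).

* `trace_eq_one_add_of_pow_mul_pow_eq_zero`: an endomorphism `N` of a free module of rank two over a
  domain with `(N - 1)^k (N - ψ)^l = 0`, `det N = ψ ≠ 0` has `tr N = 1 + ψ`
  (`det (N - 1) = 0` or `det (N - ψ) = 0`, and `det (N - c) = c² - (tr N) c + det N`).
* `EndLifts`: an endomorphism of a submodule induced by an endomorphism of the ambient module;
  closure under `1`, `-`, `*`, `^`, scalars.
-/
import Mathlib

set_option autoImplicit false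
set_option linter.unusedSectionVars false
set_option linter.unusedVariables false

namespace Fermat.Agent.RB

open Matrix

section TwoByTwo

variable {R : Type*} [CommRing R]

theorem det_sub_smul_one_fin_two (A : Matrix (Fin 2) (Fin 2) R) (c : R) :
    (A - c • (1 : Matrix (Fin 2) (Fin 2) R)).det = c ^ 2 - A.trace * c + A.det := by
  rw [Matrix.det_fin_two, Matrix.det_fin_two, Matrix.trace_fin_two]
  simp only [Matrix.sub_apply, Matrix.smul_apply, Matrix.one_apply_eq, Matrix.one_apply_ne,
    ne_eq, not_false_eq_true, smul_eq_mul, mul_one, mul_zero, sub_zero,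
    Fin.isValue, zero_ne_one, one_ne_zero]
  ring

variable [IsDomain R]

/-- **the 2×2 lemma**, matrix form. -/
theorem matrix_trace_eq_one_add_of_pow_mul_pow_eq_zero (A : Matrix (Fin 2) (Fin 2) R) (ψ : R)
    (hψ : ψ ≠ 0) (hdet : A.det = ψ) (k l : ℕ)
    (h : (A - 1) ^ k * (A - ψ • (1 : Matrix (Fin 2) (Fin 2) R)) ^ l = 0) :
    A.trace = 1 + ψ := by
  have h1 := congrArg Matrix.det h
  rw [Matrix.det_mul, Matrix.det_pow, Matrix.det_pow, Matrix.det_zero] at h1
  have hA1 : (A - 1).det = 1 - A.trace + ψ := by
    have := det_sub_smul_one_fin_two A 1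
    rw [one_smul, hdet] at this
    rw [this]; ring
  have hAψ : (A - ψ • (1 : Matrix (Fin 2) (Fin 2) R)).det = ψ * (1 - A.trace + ψ) := by
    rw [det_sub_smul_one_fin_two, hdet]; ring
  have h2 : (1 : R) - A.trace + ψ = 0 := by
    rcases mul_eq_zero.1 h1 with h3 | h3
    · have h4 : (A - 1).det = 0 := by
        by_cases hk : k = 0
        · subst hk
          rw [pow_zero] at h3
          exact absurd h3 one_ne_zero
        · exact (pow_eq_zero_iff hk).1 h3
      rw [hA1] at h4
      exact h4
    · have h4 : (A - ψ • (1 : Matrix (Fin 2) (Fin 2) R)).det = 0 := by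
        by_cases hl : l = 0
        · subst hl
          rw [pow_zero] at h3
          exact absurd h3 one_ne_zero
        · exact (pow_eq_zero_iff hl).1 h3
      rw [hAψ] at h4
      exact (mul_eq_zero.1 h4).resolve_left hψ
  have : A.trace = 1 + ψ - (1 - A.trace + ψ) := by ring
  rw [this, h2, sub_zero]

/-- **the 2×2 lemma**, for endomorphisms of a free module with a basis indexed by `Fin 2`. -/
theorem trace_eq_one_add_of_pow_mul_pow_eq_zero {V : Type*} [AddCommGroup V] [Module R V]
    (b : Module.Basis (Fin 2) R V) (N : Module.End R V) (ψ : R) (hψ : ψ ≠ 0)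
    (hdet : LinearMap.det N = ψ) (k l : ℕ)
    (h : (N - 1) ^ k * (N - ψ • (1 : Module.End R V)) ^ l = 0) :
    LinearMap.trace R V N = 1 + ψ := by
  rw [LinearMap.trace_eq_matrix_trace R b N]
  refine matrix_trace_eq_one_add_of_pow_mul_pow_eq_zero (LinearMap.toMatrix b b N) ψ hψ ?_ k l ?_
  · rw [LinearMap.det_toMatrix, hdet]
  · have h1 := congrArg (LinearMap.toMatrixAlgEquiv b) h
    rw [map_mul, map_pow, map_pow, map_sub, map_sub, map_one, map_smul, map_one, map_zero] at h1
    exact h1

end TwoByTwo

section Lifts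

variable {R : Type*} [CommRing R] {V : Type*} [AddCommGroup V] [Module R V] (W : Submodule R V)

/-- `X' : End W` is induced by `X : End V`. -/
def EndLifts (X' : Module.End R ↥W) (X : Module.End R V) : Prop :=
  ∀ w : ↥W, ((X' w : ↥W) : V) = X (w : V)

variable {W}

theorem EndLifts.one : EndLifts W 1 1 := fun _ => rfl

theorem EndLifts.sub {X' Y' : Module.End R ↥W} {X Y : Module.End R V} (hX : EndLifts W X' X)
    (hY : EndLifts W Y' Y) : EndLifts W (X' - Y') (X - Y) := by
  intro w
  rw [LinearMap.sub_apply, LinearMap.sub_apply, Submodule.coe_sub, hX w, hY w]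

theorem EndLifts.mul {X' Y' : Module.End R ↥W} {X Y : Module.End R V} (hX : EndLifts W X' X)
    (hY : EndLifts W Y' Y) : EndLifts W (X' * Y') (X * Y) := by
  intro w
  rw [Module.End.mul_apply, Module.End.mul_apply, hX, hY]

theorem EndLifts.pow {X' : Module.End R ↥W} {X : Module.End R V} (hX : EndLifts W X' X) (n : ℕ) :
    EndLifts W (X' ^ n) (X ^ n) := by
  induction n with
  | zero => rw [pow_zero, pow_zero]; exact EndLifts.one
  | succ n ih => rw [pow_succ, pow_succ]; exact ih.mul hX

theorem EndLifts.smul_one {c : R} {D : Module.End R V} (hD : ∀ w ∈ W, D w = c • w) :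
    EndLifts W (c • (1 : Module.End R ↥W)) D := by
  intro w
  rw [LinearMap.smul_apply, Module.End.one_apply, Submodule.coe_smul, hD w.1 w.2]

theorem EndLifts.eq_zero {X' : Module.End R ↥W} {X : Module.End R V} (h : EndLifts W X' X)
    (hX : X = 0) : X' = 0 := by
  apply LinearMap.ext
  intro w
  apply Subtype.ext
  rw [h w, hX]
  rfl

end Lifts

end Fermat.Agent.RB
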