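/-
PROJECT RB — [BB3] package H = [TRACE], lead, part 2: **from "`Θ_σ` kills `J₁(M)[p^∞]`" to the
trace of `ρ(σ)`** for the representation `I.rep` on the eigenlattice (the `ρ` of `AdicRepGamma1`).

* `ThetaKillsAt I σ`  : `∃ k l, (σ - 1)^k (σ - ⟨cyc_M σ⟩)^l` kills the `p`-power torsion of `J₁(M)`
                        (`⟨d⟩ = I.Op (inr d)`, W1's normalisation of the diamond operators).
* `ThetaKills I`      : `ThetaKillsAt I σ` for every `σ` in an inertia group at a prime `r ≠ p`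
                        exactly dividing `M`.  THIS is the geometric target of [BB3].
* `rep_theta`         : `(ρ(σ) - 1)^k (ρ(σ) - a(inr (cyc_M σ)))^l = 0` on the eigenlattice.
* `rep_det_inertia`   : `det ρ(σ) = a(inr (cyc_M σ))` for `σ` in inertia at `r ≠ p`
                        (from W1's `det_sub_chiVal_mem`).
* `rep_trace_inertia` : `tr ρ(σ) = 1 + a(inr (cyc_M σ))`.
-/
import Fermat.Agent.W1.TOP1_lead_Main
import Fermat.Agent.W1.TOP1_lead_Twist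
import Fermat.Agent.RB.KEYHTR_lead_Lin

set_option autoImplicit false
set_option linter.unusedSectionVars false
set_option linter.unusedVariables false
set_option linter.style.haveILetI false

namespace Fermat.Agent.RB

open CongruenceSubgroup ModularCurve ModularCurve.Period Polynomial IsLocalRing Fermat.Agent.GR
  Fermat.Agent.W1 Fermat.Agent.W1.ES Fermat.Agent.TW.Kill

open scoped MatrixGroups

local notation "Ω" => AlgebraicClosure ℚ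
local notation "GQ" => (AlgebraicClosure ℚ ≃ₐ[ℚ] AlgebraicClosure ℚ)

section Defs

variable {M : ℕ} [NeZero M] {p : ℕ} [hp : Fact p.Prime]

/-- the diamond operator `⟨d⟩` of the stage-(I) data as an element of the ring `End(J₁(M))`. -/
def diaEnd (I : StageIData₁ M p) (d : (ZMod M)ˣ) : AddMonoid.End (J₁ M) := I.Op (Sum.inr d)

theorem transport_diaEnd (I : StageIData₁ M p) (d : (ZMod M)ˣ) :
    I.D.transport (diaEnd I d) = heckeParI M (Sum.inr d) ℤ_[p] ℤ_[p] :=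
  I.transport_Op (Sum.inr d)

/-- `(σ - 1)^k (σ - ⟨cyc_M σ⟩)^l` kills the `p`-power torsion of `J₁(M)`, for some `k`, `l`. -/
def ThetaKillsAt (I : StageIData₁ M p) (σ : GQ) : Prop :=
  ∃ k l : ℕ, ∀ x : J₁ M, (∃ n : ℕ, p ^ n • x = 0) →
    ((DistribMulAction.toAddMonoidEnd GQ (J₁ M) σ - 1) ^ k *
      (DistribMulAction.toAddMonoidEnd GQ (J₁ M) σ - diaEnd I (cyc M σ)) ^ l) x = 0

/-- **the geometric target of [BB3]**: `Θ_σ` kills `J₁(M)[p^∞]` for all `σ` in the inertia groups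
at the primes `r ≠ p`, `r ≠ 2`, exactly dividing `M`, with `5 ≤ M / r` (and `5 ≤ p`). -/
def ThetaKills (I : StageIData₁ M p) : Prop :=
  5 ≤ p → ∀ r : ℕ, r.Prime → r ∣ M → ¬ r ^ 2 ∣ M → r ≠ p → r ≠ 2 → 5 ≤ M / r →
    ∀ A : ValuationSubring Ω, A.LiesOverPrime r → ∀ σ ∈ A.inertiaSubgroupIn ℚ, ThetaKillsAt I σ

end Defs

namespace ThetaKillsAt

variable {M : ℕ} [NeZero M] {p : ℕ} [hp : Fact p.Prime] {I : StageIData₁ M p} {σ : GQ}

/-- the identity on `P = Hom_par(Γ, ℤ_p)`. -/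
theorem rhoP_theta (h : ThetaKillsAt I σ) :
    ∃ k l : ℕ, (I.rhoP σ - 1) ^ k *
      (I.rhoP σ - heckeParI M (Sum.inr (cyc M σ)) ℤ_[p] ℤ_[p]) ^ l = 0 := by
  obtain ⟨k, l, h⟩ := h
  refine ⟨k, l, ?_⟩
  have h1 := I.D.transport_eq_zero h
  rw [map_mul, map_pow, map_pow, map_sub, map_sub, map_one, transport_diaEnd] at h1
  exact h1

end ThetaKillsAt

namespace RepTheta

variable {M : ℕ} [NeZero M] {p : ℕ} [hp : Fact p.Prime] (I : StageIData₁ M p)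
  (𝒪 : Type) [CommRing 𝒪] [IsDomain 𝒪] [IsDiscreteValuationRing 𝒪] [CharZero 𝒪]
  [Algebra ℤ_[p] 𝒪] (hp𝒪 : (p : 𝒪) ∈ IsLocalRing.maximalIdeal 𝒪) (a : HIdx M → 𝒪)
  (K : Type*) [Field K] [Algebra 𝒪 K] [IsFractionRing 𝒪 K]
  (hrank : Module.finrank K ↥(eigenPar M K (mapSys M 𝒪 K a)) = 2)

/-- the identity on the eigenlattice. -/
theorem rep_theta {σ : GQ} (h : ThetaKillsAt I σ) :
    ∃ k l : ℕ, ((I.rep 𝒪 hp𝒪 a K hrank).ρ σ - 1) ^ k *
      ((I.rep 𝒪 hp𝒪 a K hrank).ρ σ -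
        a (Sum.inr (cyc M σ)) • (1 : Module.End 𝒪 (I.rep 𝒪 hp𝒪 a K hrank).V)) ^ l = 0 := by
  obtain ⟨k, l, h⟩ := h.rhoP_theta
  refine ⟨k, l, ?_⟩
  have h1 := congrArg (parExt ℤ_[p] 𝒪 (Gpm M 1)) h
  rw [map_mul, map_pow, map_pow, map_sub, map_sub, map_one, map_zero] at h1
  rw [StageIData₁.rep_ρ]
  have hN : EndLifts (eigenLattice M 𝒪 a) (rhoLattice M p 𝒪 a I.rhoP I.rhoP_comm σ)
      (parExt ℤ_[p] 𝒪 (Gpm M 1) (I.rhoP σ)) := fun w => rfl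
  have hD : EndLifts (eigenLattice M 𝒪 a)
      (a (Sum.inr (cyc M σ)) • (1 : Module.End 𝒪 ↥(eigenLattice M 𝒪 a)))
      (parExt ℤ_[p] 𝒪 (Gpm M 1) (heckeParI M (Sum.inr (cyc M σ)) ℤ_[p] ℤ_[p])) :=
    EndLifts.smul_one fun w hw => parExt_heckeParI_apply_of_mem M p 𝒪 a _ hw
  exact (((hN.sub EndLifts.one).pow k).mul ((hN.sub hD).pow l)).eq_zero h1

variable
  (hplus : ∃ e : Additive (Gpm M 1) →+ K, e ∈ eigenPar M K (mapSys M 𝒪 K a) ∧ e ≠ 0 ∧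
      charInvolutionΓ (Gpm M 1) K K e = e)
  (hminus : ∃ e : Additive (Gpm M 1) →+ K, e ∈ eigenPar M K (mapSys M 𝒪 K a) ∧ e ≠ 0 ∧
      charInvolutionΓ (Gpm M 1) K K e = -e)
  (hocc : eigenPar M K (mapSys M 𝒪 K a) ≠ ⊥)

include hplus hminus hocc in
/-- the determinant on inertia at `r ≠ p` is the nebentypus. -/
theorem rep_det_inertia {r : ℕ} (hr : r.Prime) (hrp : r ≠ p) {A : ValuationSubring Ω}
    (hA : A.LiesOverPrime r) {σ : GQ} (hσ : σ ∈ A.inertiaSubgroupIn ℚ) :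
    LinearMap.det ((I.rep 𝒪 hp𝒪 a K hrank).ρ σ) = a (Sum.inr (cyc M σ)) := by
  rw [← sub_eq_zero]
  refine eq_zero_of_forall_exists_mem_pow fun n₀ => ⟨n₀, le_rfl, ?_⟩
  have h1 := det_sub_chiVal_mem hp𝒪 StageIData₁.mem_primeFactors_self
    (I.rep_frobeniusQuadraticChiOutside 𝒪 hp𝒪 a K hrank hocc)
    (I.rep_c0_not_isScalarEnd 𝒪 hp𝒪 a K hrank hplus hminus) σ n₀
  have hrpn : ¬ r ∣ p ^ n₀ := fun hd =>
    hrp ((Nat.prime_dvd_prime_iff_eq hr hp.out).1 (hr.dvd_of_dvd_pow hd))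
  haveI : NeZero (p ^ n₀) := ⟨pow_ne_zero _ hp.out.ne_zero⟩
  have hcyc : cyc (p ^ n₀) σ = 1 := cyc_eq_one_of_mem_inertia (p ^ n₀) hr hrpn hA hσ
  have h2 := chiVal_sub_one_of_cyc_eq_one (R := 𝒪) p M (epsHom 𝒪 a K hocc) n₀ (g := σ) hcyc
  -- `chiVal = cycVal * ε(cyc_M σ)`, `cycVal ≡ 1`
  have h3 : chiVal p M (epsHom 𝒪 a K hocc) n₀ σ - a (Sum.inr (cyc M σ)) ∈
      Ideal.span {((p ^ n₀ : ℕ) : 𝒪)} := by
    have h4 := natCast_sub_natCast_mem_span (R := 𝒪) (cycVal_of_cyc_eq_one p n₀ hcyc)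
    rw [Nat.cast_one] at h4
    have : chiVal p M (epsHom 𝒪 a K hocc) n₀ σ - a (Sum.inr (cyc M σ)) =
        ((cycVal p n₀ σ : 𝒪) - 1) * a (Sum.inr (cyc M σ)) := by
      rw [chiVal, epsHom_apply]; ring
    rw [this]
    exact Ideal.mul_mem_right _ _ h4
  have : LinearMap.det ((I.rep 𝒪 hp𝒪 a K hrank).ρ σ) - a (Sum.inr (cyc M σ)) =
      (LinearMap.det ((I.rep 𝒪 hp𝒪 a K hrank).ρ σ) - chiVal p M (epsHom 𝒪 a K hocc) n₀ σ) +
        (chiVal p M (epsHom 𝒪 a K hocc) n₀ σ - a (Sum.inr (cyc M σ))) := by ring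
  rw [this]
  exact span_pow_le_maximalIdeal_pow p hp𝒪 n₀ (Ideal.add_mem _ h1 h3)

include hplus hminus hocc in
/-- **the trace on inertia at `r ≠ p`**, given `ThetaKillsAt`. -/
theorem rep_trace_inertia {r : ℕ} (hr : r.Prime) (hrp : r ≠ p) {A : ValuationSubring Ω}
    (hA : A.LiesOverPrime r) {σ : GQ} (hσ : σ ∈ A.inertiaSubgroupIn ℚ) (h : ThetaKillsAt I σ) :
    LinearMap.trace 𝒪 (I.rep 𝒪 hp𝒪 a K hrank).V ((I.rep 𝒪 hp𝒪 a K hrank).ρ σ) =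
      1 + a (Sum.inr (cyc M σ)) := by
  obtain ⟨k, l, hkl⟩ := rep_theta I 𝒪 hp𝒪 a K hrank h
  have hψ : a (Sum.inr (cyc M σ)) ≠ 0 := by
    intro h0
    have := eps_mul_eps_inv M (epsHom 𝒪 a K hocc) (cyc M σ)
    rw [epsHom_apply, h0, zero_mul] at this
    exact zero_ne_one this
  exact trace_eq_one_add_of_pow_mul_pow_eq_zero (gBasis (I.rep 𝒪 hp𝒪 a K hrank)) _ _ hψ
    (rep_det_inertia I 𝒪 hp𝒪 a K hrank hplus hminus hocc hr hrp hA hσ) k l hkl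

end RepTheta

end Fermat.Agent.RB
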