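/-
RB (S43), kill-test (ii) — helper8 — **the Eisenstein sandwich, core (pure algebra, Mathlib only)**.

`D` an integrally closed domain with fraction field `κ`, `ϖ ∈ D` a prime element, `ε ∈ Dˣ`,
`m ∈ Dˣ`; `κ' / κ` finite separable of degree `≤ m`, `z ∈ κ'` with `z ^ m = ϖ ε`.  Then
`X ^ m - ϖ ε` is the minimal polynomial of `z` (Eisenstein), `κ' = κ(z)`, and **every element of
`κ'` integral over `D` lies in `D[z]`**.
-/
import Mathlib

set_option autoImplicit false

namespace Fermat.Agent.RB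

open Polynomial Algebra IntermediateField

section Eis

variable {D : Type*} [CommRing D] [IsDomain D]

/-- `X ^ m - ϖ ε` is Eisenstein at `(ϖ)`. -/
theorem isEisensteinAt_X_pow_sub_C {ϖ ε : D} (hϖ : Prime ϖ) (hε : IsUnit ε) {m : ℕ} (hm : 0 < m) :
    (X ^ m - C (ϖ * ε) : D[X]).IsEisensteinAt (Submodule.span D {ϖ}) := by
  have hdeg : (X ^ m - C (ϖ * ε) : D[X]).natDegree = m := natDegree_X_pow_sub_C
  refine ⟨?_, ?_, ?_⟩
  · have hmonic : (X ^ m - C (ϖ * ε) : D[X]).Monic := monic_X_pow_sub_C _ hm.ne'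
    rw [hmonic.leadingCoeff]
    intro h1
    rw [← Ideal.span, Ideal.mem_span_singleton] at h1
    exact hϖ.not_isUnit (isUnit_of_dvd_one h1)
  · intro n hn
    rw [hdeg] at hn
    rw [coeff_sub, coeff_X_pow, coeff_C, if_neg hn.ne]
    by_cases h0 : n = 0
    · subst h0
      rw [if_pos rfl, zero_sub]
      exact Submodule.neg_mem _ (Ideal.mem_span_singleton.mpr (dvd_mul_right ϖ ε))
    · rw [if_neg h0, sub_zero]
      exact Submodule.zero_mem _
  · rw [coeff_sub, coeff_X_pow, coeff_C, if_neg hm.ne, if_pos rfl, zero_sub]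
    intro h2
    have h3 : ϖ * ε ∈ (Ideal.span {ϖ} : Ideal D) ^ 2 := by
      have := Ideal.neg_mem_iff ((Ideal.span {ϖ} : Ideal D) ^ 2) |>.mp h2
      exact this
    rw [Ideal.span_singleton_pow, Ideal.mem_span_singleton] at h3
    obtain ⟨c, hc⟩ := h3
    have h4 : ε = ϖ * c := by
      have : ϖ * ε = ϖ * (ϖ * c) := by rw [hc]; ring
      exact mul_left_cancel₀ hϖ.ne_zero this
    obtain ⟨ε', hε'⟩ := hε.exists_right_inv
    apply hϖ.not_isUnit
    refine IsUnit.of_mul_eq_one (c * ε') ?_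
    rw [← mul_assoc, ← h4, hε']

/-- an `m`-th root of an element of `D` is integral over `D`. -/
theorem isIntegral_of_pow_eq {S : Type*} [CommRing S] [Algebra D S] {a : D} {m : ℕ} (hm : 0 < m)
    {z : S} (hz : z ^ m = algebraMap D S a) : IsIntegral D z := by
  refine ⟨X ^ m - C a, monic_X_pow_sub_C _ hm.ne', ?_⟩
  rw [eval₂_sub, eval₂_X_pow, eval₂_C, hz, sub_self]

end Eis

section Sandwich

variable {D : Type*} [CommRing D] [IsDomain D] [IsIntegrallyClosed D]
  {κ κ' : Type*} [Field κ] [Field κ'] [Algebra D κ] [IsFractionRing D κ]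
  [Algebra κ κ'] [Algebra D κ'] [IsScalarTower D κ κ'] [FiniteDimensional κ κ']
  [Algebra.IsSeparable κ κ']

omit [FiniteDimensional κ κ'] [Algebra.IsSeparable κ κ'] in
/-- the minimal polynomial over the fraction field. -/
theorem minpoly_eq_X_pow_sub_C {ϖ ε : D} (hϖ : Prime ϖ) (hε : IsUnit ε) {m : ℕ} (hm : 0 < m)
    {z : κ'} (hz : z ^ m = algebraMap D κ' (ϖ * ε)) :
    minpoly κ z = (X ^ m - C (ϖ * ε) : D[X]).map (algebraMap D κ) := by
  have hmonic : (X ^ m - C (ϖ * ε) : D[X]).Monic := monic_X_pow_sub_C _ hm.ne'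
  have hirr : Irreducible (X ^ m - C (ϖ * ε) : D[X]) := by
    refine (isEisensteinAt_X_pow_sub_C hϖ hε hm).irreducible ?_ hmonic.isPrimitive ?_
    · exact (Ideal.span_singleton_prime hϖ.ne_zero).mpr hϖ
    · rw [natDegree_X_pow_sub_C]; exact hm
  have hirr' : Irreducible ((X ^ m - C (ϖ * ε) : D[X]).map (algebraMap D κ)) :=
    (Monic.irreducible_iff_irreducible_map_fraction_map hmonic).mp hirr
  refine (minpoly.eq_of_irreducible_of_monic hirr' ?_ (hmonic.map _)).symm
  rw [aeval_def, eval₂_map, ← IsScalarTower.algebraMap_eq D κ κ', eval₂_sub, eval₂_X_pow, eval₂_C,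
    hz, sub_self]

omit [Algebra.IsSeparable κ κ'] in
/-- `κ' = κ[z]`. -/
theorem adjoin_eq_top_of_pow_eq {ϖ ε : D} (hϖ : Prime ϖ) (hε : IsUnit ε) {m : ℕ} (hm : 0 < m)
    {z : κ'} (hz : z ^ m = algebraMap D κ' (ϖ * ε)) (hdeg : Module.finrank κ κ' ≤ m) :
    Algebra.adjoin κ ({z} : Set κ') = ⊤ := by
  have hzint : IsIntegral κ z := (isIntegral_of_pow_eq hm hz).tower_top
  have hmin := minpoly_eq_X_pow_sub_C (κ := κ) hϖ hε hm hz
  have hfr : Module.finrank κ ↥κ⟮z⟯ = m := by
    rw [IntermediateField.adjoin.finrank hzint, hmin,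
      (monic_X_pow_sub_C _ hm.ne').natDegree_map, natDegree_X_pow_sub_C]
  have htop : κ⟮z⟯ = ⊤ := by
    apply IntermediateField.eq_of_le_of_finrank_le le_top
    rw [IntermediateField.finrank_top', hfr]
    exact hdeg
  rw [← IntermediateField.adjoin_simple_toSubalgebra_of_isAlgebraic hzint.isAlgebraic, htop,
    IntermediateField.top_toSubalgebra]

/-- the discriminant of the power basis `1, z, …, z^{m-1}` is a unit times a power of `ϖ`. -/
theorem discr_eq_unit_mul_pow {ϖ ε : D} (hϖ : Prime ϖ) (hε : IsUnit ε) {m : ℕ}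
    (hm : 0 < m) (hmD : IsUnit (m : D)) {z : κ'} (hz : z ^ m = algebraMap D κ' (ϖ * ε))
    (B : PowerBasis κ κ') (hgen : B.gen = z) :
    ∃ u : D, IsUnit u ∧ Algebra.discr κ B.basis = algebraMap D κ (u * ϖ ^ (m - 1)) := by
  have hmin := minpoly_eq_X_pow_sub_C (κ := κ) hϖ hε hm hz
  have hdim : B.dim = m := by
    rw [← B.natDegree_minpoly, hgen, hmin, (monic_X_pow_sub_C _ hm.ne').natDegree_map,
      natDegree_X_pow_sub_C]
  have hfin : Module.finrank κ κ' = m := by rw [← hdim, B.finrank]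
  have hder : aeval B.gen (derivative (minpoly κ B.gen)) =
      algebraMap κ κ' (algebraMap D κ (m : D)) * z ^ (m - 1) := by
    rw [hgen, hmin, Polynomial.map_sub, Polynomial.map_pow, map_X, map_C, derivative_sub,
      derivative_X_pow, derivative_C, sub_zero, map_mul, map_pow, aeval_X, aeval_C, map_natCast,
      map_natCast, map_natCast]
  have hnorm : Algebra.norm κ z = (-1) ^ m * algebraMap D κ (-(ϖ * ε)) := by
    rw [← hgen, Algebra.PowerBasis.norm_gen_eq_coeff_zero_minpoly, hdim, hgen, hmin, coeff_map,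
      coeff_sub, coeff_X_pow, coeff_C, if_neg hm.ne, if_pos rfl, zero_sub]
  rw [Algebra.discr_powerBasis_eq_norm, hder, map_mul, Algebra.norm_algebraMap, hfin, map_pow,
    hnorm]
  refine ⟨(-1) ^ (m * (m - 1) / 2) * (m : D) ^ m * ((-1) ^ m * -1) ^ (m - 1) * ε ^ (m - 1), ?_, ?_⟩
  · refine ((((IsUnit.neg isUnit_one).pow _).mul (hmD.pow _)).mul ?_).mul (hε.pow _)
    exact (((IsUnit.neg isUnit_one).pow _).mul (IsUnit.neg isUnit_one)).pow _
  · simp only [map_mul, map_pow, map_neg, map_one]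
    ring

/-- **the Eisenstein sandwich**: every element of `κ'` integral over `D` lies in `D[z]`. -/
theorem mem_adjoin_of_isIntegral_of_pow_eq {ϖ ε : D} (hϖ : Prime ϖ) (hε : IsUnit ε) {m : ℕ}
    (hm : 0 < m) (hmD : IsUnit (m : D)) {z : κ'} (hz : z ^ m = algebraMap D κ' (ϖ * ε))
    (hdeg : Module.finrank κ κ' ≤ m) {w : κ'} (hw : IsIntegral D w) :
    w ∈ Algebra.adjoin D ({z} : Set κ') := by
  have hzintD : IsIntegral D z := isIntegral_of_pow_eq hm hz
  have hzint : IsIntegral κ z := hzintD.tower_top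
  have htop := adjoin_eq_top_of_pow_eq (κ := κ) hϖ hε hm hz hdeg
  set B : PowerBasis κ κ' := PowerBasis.ofAdjoinEqTop hzint htop with hB
  have hgen : B.gen = z := PowerBasis.ofAdjoinEqTop_gen hzint htop
  have hminD : minpoly D z = X ^ m - C (ϖ * ε) := by
    have h1 := minpoly.isIntegrallyClosed_eq_field_fractions' κ hzintD
    have h2 := minpoly_eq_X_pow_sub_C (κ := κ) hϖ hε hm hz
    exact Polynomial.map_injective _ (IsFractionRing.injective D κ) (h1.symm.trans h2)
  obtain ⟨u, hu, hdisc⟩ := discr_eq_unit_mul_pow (κ := κ) hϖ hε hm hmD hz B hgen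
  have h1 := Algebra.discr_mul_isIntegral_mem_adjoin (R := D) (K := κ) (B := B)
    (hgen.symm ▸ hzintD) hw
  rw [hdisc, hgen, algebraMap_smul, mul_comm, mul_smul] at h1
  have hei : (minpoly D B.gen).IsEisensteinAt (Submodule.span D {ϖ}) := by
    rw [hgen, hminD]; exact isEisensteinAt_X_pow_sub_C hϖ hε hm
  have h2 : u • w ∈ Algebra.adjoin D ({B.gen} : Set κ') :=
    mem_adjoin_of_smul_prime_pow_smul_of_minpoly_isEisensteinAt (K := κ) hϖ (hgen.symm ▸ hzintD)
      (hw.smul u) (hgen.symm ▸ h1) hei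
  rw [hgen] at h2
  obtain ⟨u', hu'⟩ := hu.exists_left_inv
  have : w = u' • (u • w) := by rw [smul_smul, hu', one_smul]
  rw [this]
  exact Subalgebra.smul_mem _ h2 u'

end Sandwich

end Fermat.Agent.RB
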