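/-
RB (S43), kill-test (ii) — helper8 — **the étale twin of the Eisenstein sandwich (pure algebra)**.

`D` an integrally closed domain with fraction field `κ`, `ε, m ∈ Dˣ`; `κ' / κ` finite separable of
degree exactly `m`, generated by `z` with `z ^ m = ε`.  Then every element of `κ'` integral over `D`
lies in `D[z]` (the discriminant `± m^m ε^(m-1)` of `1, z, …, z^(m-1)` is a unit).
-/
import Mathlib
import Fermat.Agent.RB.KUMBR_helper8_Core

set_option autoImplicit false
set_option linter.unusedSectionVars false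

namespace Fermat.Agent.RB

open Polynomial Algebra IntermediateField

section Etale

variable {D : Type*} [CommRing D] [IsDomain D] [IsIntegrallyClosed D]
  {κ κ' : Type*} [Field κ] [Field κ'] [Algebra D κ] [IsFractionRing D κ]
  [Algebra κ κ'] [Algebra D κ'] [IsScalarTower D κ κ'] [FiniteDimensional κ κ']
  [Algebra.IsSeparable κ κ']

/-- the minimal polynomial of a generator `z` with `z ^ m = ε` of an extension of degree `m`. -/
theorem minpoly_eq_X_pow_sub_C_of_finrank {ε : D} {m : ℕ} (hm : 0 < m) {z : κ'}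
    (hz : z ^ m = algebraMap D κ' ε) (hdeg : Module.finrank κ κ' = m)
    (htop : Algebra.adjoin κ ({z} : Set κ') = ⊤) :
    minpoly κ z = (X ^ m - C ε : D[X]).map (algebraMap D κ) := by
  have hzint : IsIntegral κ z := (isIntegral_of_pow_eq hm hz).tower_top
  have hmonic : ((X ^ m - C ε : D[X]).map (algebraMap D κ)).Monic :=
    (monic_X_pow_sub_C _ hm.ne').map _
  have hroot : aeval z ((X ^ m - C ε : D[X]).map (algebraMap D κ)) = 0 := by
    rw [aeval_def, eval₂_map, ← IsScalarTower.algebraMap_eq D κ κ', eval₂_sub, eval₂_X_pow,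
      eval₂_C, hz, sub_self]
  have hdvd := minpoly.dvd κ z hroot
  have hnat : (minpoly κ z).natDegree = m := by
    have h1 : Module.finrank κ ↥κ⟮z⟯ = (minpoly κ z).natDegree :=
      IntermediateField.adjoin.finrank hzint
    have h2 : κ⟮z⟯ = ⊤ := by
      apply IntermediateField.toSubalgebra_injective
      rw [IntermediateField.adjoin_simple_toSubalgebra_of_isAlgebraic hzint.isAlgebraic, htop,
        IntermediateField.top_toSubalgebra]
    rw [← h1, h2, IntermediateField.finrank_top', hdeg]
  have hnat' : ((X ^ m - C ε : D[X]).map (algebraMap D κ)).natDegree = m := by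
    rw [(monic_X_pow_sub_C _ hm.ne').natDegree_map, natDegree_X_pow_sub_C]
  exact (Polynomial.eq_of_monic_of_dvd_of_natDegree_le (minpoly.monic hzint) hmonic hdvd
    (by rw [hnat, hnat'])).symm

/-- **the étale sandwich**: every element of `κ'` integral over `D` lies in `D[z]`. -/
theorem mem_adjoin_of_isIntegral_of_pow_eq_unit {ε : D} (hε : IsUnit ε) {m : ℕ}
    (hm : 0 < m) (hmD : IsUnit (m : D)) {z : κ'} (hz : z ^ m = algebraMap D κ' ε)
    (hdeg : Module.finrank κ κ' = m) (htop : Algebra.adjoin κ ({z} : Set κ') = ⊤)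
    {w : κ'} (hw : IsIntegral D w) :
    w ∈ Algebra.adjoin D ({z} : Set κ') := by
  have hzintD : IsIntegral D z := isIntegral_of_pow_eq hm hz
  have hzint : IsIntegral κ z := hzintD.tower_top
  set B : PowerBasis κ κ' := PowerBasis.ofAdjoinEqTop hzint htop with hB
  have hgen : B.gen = z := PowerBasis.ofAdjoinEqTop_gen hzint htop
  have hmin := minpoly_eq_X_pow_sub_C_of_finrank (κ := κ) hm hz hdeg htop
  have hdim : B.dim = m := by
    rw [← B.natDegree_minpoly, hgen, hmin, (monic_X_pow_sub_C _ hm.ne').natDegree_map,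
      natDegree_X_pow_sub_C]
  have hder : aeval B.gen (derivative (minpoly κ B.gen)) =
      algebraMap κ κ' (algebraMap D κ (m : D)) * z ^ (m - 1) := by
    rw [hgen, hmin, Polynomial.map_sub, Polynomial.map_pow, map_X, map_C, derivative_sub,
      derivative_X_pow, derivative_C, sub_zero, map_mul, map_pow, aeval_X, aeval_C, map_natCast,
      map_natCast, map_natCast]
  have hnorm : Algebra.norm κ z = (-1) ^ m * algebraMap D κ (-ε) := by
    rw [← hgen, Algebra.PowerBasis.norm_gen_eq_coeff_zero_minpoly, hdim, hgen, hmin, coeff_map,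
      coeff_sub, coeff_X_pow, coeff_C, if_neg hm.ne, if_pos rfl, zero_sub]
  have hdisc : ∃ u : D, IsUnit u ∧ Algebra.discr κ B.basis = algebraMap D κ u := by
    rw [Algebra.discr_powerBasis_eq_norm, hder, map_mul, Algebra.norm_algebraMap, hdeg, map_pow,
      hnorm]
    refine ⟨(-1) ^ (m * (m - 1) / 2) * (m : D) ^ m * ((-1) ^ m * -ε) ^ (m - 1), ?_, ?_⟩
    · refine (((IsUnit.neg isUnit_one).pow _).mul (hmD.pow _)).mul ?_
      exact (((IsUnit.neg isUnit_one).pow _).mul hε.neg).pow _
    · simp only [map_mul, map_pow, map_neg, map_one]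
      ring
  obtain ⟨u, hu, hdisc⟩ := hdisc
  have h1 := Algebra.discr_mul_isIntegral_mem_adjoin (R := D) (K := κ) (B := B)
    (hgen.symm ▸ hzintD) hw
  rw [hdisc, hgen, algebraMap_smul] at h1
  obtain ⟨u', hu'⟩ := hu.exists_left_inv
  have : w = u' • (u • w) := by rw [smul_smul, hu', one_smul]
  rw [this]
  exact Subalgebra.smul_mem _ h1 u'

end Etale

end Fermat.Agent.RB
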