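/-
RB (S43), kill-test (ii) — helper8 — **the Eisenstein sandwich, hom form (pure algebra)**: the
`gen` clause of a branch uniformizer on a Kummer cover, with NO quotient ring and NO localisation.

`i : A → B` rings (think: `A` = the chart of the `X₀`-host, `B` = the chart of its Kummer cover, `B`
integral over `A`), `φ : A → κ`, `ψ : B → κ'` ring homomorphisms to fields with `ψ ∘ i = (κ → κ') ∘ φ`
(think: reduction along a sheet `W` of the host and along the sheet `W'` of the cover above it;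
`ker φ = 𝔭₀`, `ker ψ = 𝔭'`), `κ' / κ` finite separable of degree `≤ m`.
`D` an integrally closed domain with fraction field `κ` (think: the valuation subring `Ā ⊆ κ` of the
closed point), `ι : A → D` compatible with `φ`, `𝔪₀` a prime of `A` whose complement becomes
invertible in `D` and such that every element of `D` is a fraction with denominator outside `𝔪₀`.
`x₀ ∈ A` prime in `D`, generating `𝔪₀` modulo `ker φ` locally; `z ∈ B` with
`ψ (i a · z ^ m) = ψ (i (b x₀))`, `a, b, m ∉ 𝔪₀`.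

Then for every prime `𝔪 ⊇ ker ψ` of `B` over `𝔪₀` and every `w ∈ 𝔪` there are `s ∈ A ∖ 𝔪₀`, `c ∈ B`
with `ψ (i s · w) = ψ (c · z)`.
-/
import Mathlib
import Fermat.Agent.RB.KUMBR_helper8_Core

set_option autoImplicit false
set_option linter.unusedSectionVars false
set_option linter.style.haveILetI false

namespace Fermat.Agent.RB

open Polynomial Algebra

section Hom

variable {A B : Type*} [CommRing A] [CommRing B] (i : A →+* B)
  {κ κ' : Type*} [Field κ] [Field κ'] [Algebra κ κ'] [FiniteDimensional κ κ']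
  [Algebra.IsSeparable κ κ']
  (φ : A →+* κ) (ψ : B →+* κ')
  {D : Type*} [CommRing D] [IsDomain D] [IsIntegrallyClosed D] [Algebra D κ] [IsFractionRing D κ]
  [Algebra D κ'] [IsScalarTower D κ κ']
  (ι : A →+* D)
  (𝔪₀ : Ideal A) [h𝔪₀ : 𝔪₀.IsPrime]

/-- elements of `D[ψ z]` are fractions with denominator in `A ∖ 𝔪₀`, with control of the constant
term. -/
theorem exists_mul_eq_add_mul_of_mem_adjoin_hom
    (hψi : ∀ a : A, ψ (i a) = algebraMap κ κ' (φ a))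
    (hιφ : ∀ a : A, algebraMap D κ (ι a) = φ a)
    (hsurj : ∀ d : D, ∃ a' t : A, t ∉ 𝔪₀ ∧ d * ι t = ι a')
    {z : B} {y : κ'} (hy : y ∈ Algebra.adjoin D ({ψ z} : Set κ')) :
    ∃ (s a₀ : A) (c : B), s ∉ 𝔪₀ ∧ ψ (i s) * y = ψ (i a₀ + c * z) := by
  have hD : ∀ a : A, algebraMap D κ' (ι a) = ψ (i a) := fun a => by
    rw [IsScalarTower.algebraMap_apply D κ κ', hιφ, hψi]
  induction hy using Algebra.adjoin_induction with
  | mem x hx =>
    rw [Set.mem_singleton_iff] at hx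
    subst hx
    exact ⟨1, 0, 1, fun h => h𝔪₀.ne_top ((Ideal.eq_top_iff_one _).mpr h), by
      rw [map_one, map_one, one_mul, map_zero, zero_add, one_mul]⟩
  | algebraMap d =>
    obtain ⟨a', t, ht, hd⟩ := hsurj d
    refine ⟨t, a', 0, ht, ?_⟩
    rw [zero_mul, add_zero, ← hD, ← hD, ← hd, map_mul, mul_comm]
  | add x y _ _ hx hy =>
    obtain ⟨s₁, a₁, c₁, hs₁, h₁⟩ := hx
    obtain ⟨s₂, a₂, c₂, hs₂, h₂⟩ := hy
    refine ⟨s₁ * s₂, s₂ * a₁ + s₁ * a₂, i s₂ * c₁ + i s₁ * c₂,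
      fun h => (h𝔪₀.mem_or_mem h).elim hs₁ hs₂, ?_⟩
    have e : ψ (i (s₁ * s₂)) * (x + y) =
        ψ (i s₂) * (ψ (i s₁) * x) + ψ (i s₁) * (ψ (i s₂) * y) := by
      rw [map_mul, map_mul]; ring
    rw [e, h₁, h₂, ← map_mul, ← map_mul, ← map_add]
    congr 1
    simp only [map_add, map_mul]
    ring
  | mul x y _ _ hx hy =>
    obtain ⟨s₁, a₁, c₁, hs₁, h₁⟩ := hx
    obtain ⟨s₂, a₂, c₂, hs₂, h₂⟩ := hy
    refine ⟨s₁ * s₂, a₁ * a₂, i a₁ * c₂ + i a₂ * c₁ + c₁ * c₂ * z,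
      fun h => (h𝔪₀.mem_or_mem h).elim hs₁ hs₂, ?_⟩
    have e : ψ (i (s₁ * s₂)) * (x * y) = (ψ (i s₁) * x) * (ψ (i s₂) * y) := by
      rw [map_mul, map_mul]; ring
    rw [e, h₁, h₂, ← map_mul]
    congr 1
    simp only [map_mul]
    ring

/-- **the Eisenstein sandwich, hom form.** -/
theorem exists_mul_eq_mul_of_mem_of_pow_eq_hom
    (hψi : ∀ a : A, ψ (i a) = algebraMap κ κ' (φ a))
    (hιφ : ∀ a : A, algebraMap D κ (ι a) = φ a)
    (hint : ∀ w : B, i.IsIntegralElem w)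
    (hunit : ∀ s : A, s ∉ 𝔪₀ → IsUnit (ι s))
    (hsurj : ∀ d : D, ∃ a' t : A, t ∉ 𝔪₀ ∧ d * ι t = ι a')
    {x₀ : A} (hx₀ : Prime (ι x₀))
    (hgen₀ : ∀ y ∈ 𝔪₀, ∃ t e : A, t ∉ 𝔪₀ ∧ φ (t * y) = φ (e * x₀))
    {m : ℕ} (hm : 0 < m) (hmA : (m : A) ∉ 𝔪₀)
    {a b : A} (ha : a ∉ 𝔪₀) (hb : b ∉ 𝔪₀) {z : B}
    (hz : ψ (i a * z ^ m) = ψ (i (b * x₀)))
    (hdeg : Module.finrank κ κ' ≤ m)
    (𝔪 : Ideal B) [h𝔪p : 𝔪.IsPrime] (hker : RingHom.ker ψ ≤ 𝔪) (h𝔪 : 𝔪.comap i = 𝔪₀) :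
    ∀ w ∈ 𝔪, ∃ (s : A) (c : B), s ∉ 𝔪₀ ∧ ψ (i s * w) = ψ (c * z) := by
  intro w hw
  have hD : ∀ a : A, algebraMap D κ' (ι a) = ψ (i a) := fun a => by
    rw [IsScalarTower.algebraMap_apply D κ κ', hιφ, hψi]
  -- units of `D`
  have hub : IsUnit (ι b) := hunit b hb
  have hmD : IsUnit ((m : ℕ) : D) := by
    have := hunit (m : A) hmA
    rwa [map_natCast] at this
  obtain ⟨ua, hua'⟩ := hunit a ha
  set ε : D := ι b * ((ua⁻¹ : Dˣ) : D) with hε
  have hεu : IsUnit ε := hub.mul (Units.isUnit _)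
  -- `x₀ ∈ 𝔪₀`
  have hx₀m : x₀ ∈ 𝔪₀ := by
    by_contra hcon
    exact hx₀.not_isUnit (hunit x₀ hcon)
  -- the equation in `κ'`
  have hz' : (ψ z) ^ m = algebraMap D κ' (ι x₀ * ε) := by
    have h1 := hz
    rw [map_mul, map_pow, ← hD, ← hD, ← hua'] at h1
    have h2 : algebraMap D κ' ((ua⁻¹ : Dˣ) : D) * algebraMap D κ' (ua : D) = 1 := by
      rw [← map_mul, Units.inv_mul, map_one]
    calc (ψ z) ^ m
        = algebraMap D κ' ((ua⁻¹ : Dˣ) : D) * (algebraMap D κ' (ua : D) * (ψ z) ^ m) := by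
          rw [← mul_assoc, h2, one_mul]
      _ = algebraMap D κ' (ι x₀ * ε) := by
          rw [h1, ← map_mul, hε, map_mul ι]
          congr 1
          ring
  -- integrality
  have hwint : IsIntegral D (ψ w) := by
    obtain ⟨P, hP, hPw⟩ := hint w
    refine ⟨P.map ι, hP.map ι, ?_⟩
    rw [eval₂_map]
    have hcomp : (algebraMap D κ').comp ι = ψ.comp i := RingHom.ext fun a => hD a
    rw [hcomp, ← Polynomial.hom_eval₂, hPw, map_zero]
  have hmem := mem_adjoin_of_isIntegral_of_pow_eq (κ := κ) hx₀ hεu hm hmD hz' hdeg hwint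
  obtain ⟨s, a₀, c, hs, hsw⟩ :=
    exists_mul_eq_add_mul_of_mem_adjoin_hom i φ ψ ι 𝔪₀ hψi hιφ hsurj hmem
  -- `z ∈ 𝔪`
  have hia𝔪 : i a ∉ 𝔪 := fun h => ha (h𝔪 ▸ (Ideal.mem_comap.mpr h))
  have hx₀𝔪 : i x₀ ∈ 𝔪 := Ideal.mem_comap.mp (h𝔪.symm ▸ hx₀m)
  have hz𝔪 : z ∈ 𝔪 := by
    have h0 : i a * z ^ m - i (b * x₀) ∈ 𝔪 := hker (by rw [RingHom.mem_ker, map_sub, hz, sub_self])
    have h1 : i a * z ^ m ∈ 𝔪 := by
      have : i a * z ^ m = (i a * z ^ m - i (b * x₀)) + i b * i x₀ := by rw [map_mul]; ring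
      rw [this]
      exact 𝔪.add_mem h0 (𝔪.mul_mem_left _ hx₀𝔪)
    exact h𝔪p.mem_of_pow_mem m ((h𝔪p.mem_or_mem h1).resolve_left hia𝔪)
  -- `a₀ ∈ 𝔪₀`
  have ha₀ : a₀ ∈ 𝔪₀ := by
    rw [← h𝔪, Ideal.mem_comap]
    have h0 : i a₀ - (i s * w - c * z) ∈ 𝔪 := hker (by
      rw [RingHom.mem_ker, map_sub, map_sub, map_mul, hsw, map_add]; ring)
    have : i a₀ = (i a₀ - (i s * w - c * z)) + (i s * w - c * z) := by ring
    rw [this]
    exact 𝔪.add_mem h0 (𝔪.sub_mem (𝔪.mul_mem_left _ hw) (𝔪.mul_mem_left _ hz𝔪))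
  obtain ⟨t, e, ht, hte⟩ := hgen₀ a₀ ha₀
  refine ⟨t * b * s, i (e * a) * z ^ (m - 1) + i (t * b) * c, fun h => ?_, ?_⟩
  · rcases h𝔪₀.mem_or_mem h with h | h
    · rcases h𝔪₀.mem_or_mem h with h | h
      · exact ht h
      · exact hb h
    · exact hs h
  · have hzm : z ^ m = z ^ (m - 1) * z := by
      rw [← pow_succ, Nat.sub_add_cancel hm]
    have h3 : ψ (i (t * a₀)) = ψ (i (e * x₀)) := by rw [hψi, hψi, hte]
    calc ψ (i (t * b * s) * w)
        = ψ (i (t * b)) * ψ (i s * w) := by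
          rw [← map_mul]; congr 1; rw [map_mul i (t * b) s]; ring
      _ = ψ (i b) * ψ (i (t * a₀)) + ψ (i (t * b) * c * z) := by
          rw [map_mul ψ (i s) w, hsw]; simp only [map_mul, map_add]; ring
      _ = ψ (i e) * ψ (i a * z ^ m) + ψ (i (t * b) * c * z) := by
          rw [h3, hz]; simp only [map_mul]; ring
      _ = ψ ((i (e * a) * z ^ (m - 1) + i (t * b) * c) * z) := by
          rw [hzm]; simp only [map_mul, map_add]; ring

end Hom

end Fermat.Agent.RB
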