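/-
RB (S43), kill-test (ii) — helper8 — **the étale twin, hom form (pure algebra)**: at a point of the
sheet where the Kummer function is a unit times an `m`-th power, a branch uniformizer `x₀` of the
`X₀`-host stays a branch uniformizer of the Kummer cover, at every point above.

Same setting as `KUMBR_helper8_Hom` (`i : A → B`, `φ : A → κ`, `ψ : B → κ'`, `D`, `ι`, `𝔪₀`);
`z ∈ B` with `ψ (i a · z ^ m) = ψ (i b)` (`a, b, m ∉ 𝔪₀`), `κ' = κ(ψ z)` of degree `m`; `𝔪 ⊇ ker ψ` a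
prime of `B` over `𝔪₀` with `z ≡ i ζ` modulo `𝔪` for some `ζ ∈ A` (residue degree one).  Then every
`w ∈ 𝔪` satisfies `ψ (s w) = ψ (c · i x₀)` with `s ∉ 𝔪`.
-/
import Mathlib
import Fermat.Agent.RB.KUMBR_helper8_Etale
import Fermat.Agent.RB.KUMBR_helper8_Hom

set_option autoImplicit false
set_option linter.unusedSectionVars false
set_option linter.style.haveILetI false

namespace Fermat.Agent.RB

open Polynomial Algebra Finset

section EtaleHom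

variable {A B : Type*} [CommRing A] [CommRing B] (i : A →+* B)
  {κ κ' : Type*} [Field κ] [Field κ'] [Algebra κ κ'] [FiniteDimensional κ κ']
  [Algebra.IsSeparable κ κ']
  (φ : A →+* κ) (ψ : B →+* κ')
  {D : Type*} [CommRing D] [IsDomain D] [IsIntegrallyClosed D] [Algebra D κ] [IsFractionRing D κ]
  [Algebra D κ'] [IsScalarTower D κ κ']
  (ι : A →+* D)
  (𝔪₀ : Ideal A) [h𝔪₀ : 𝔪₀.IsPrime]

/-- elements of `D[ψ z]` are polynomials in `z` over `A`, up to a denominator in `A ∖ 𝔪₀`. -/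
theorem exists_mul_eq_eval₂_of_mem_adjoin_hom
    (hψi : ∀ a : A, ψ (i a) = algebraMap κ κ' (φ a))
    (hιφ : ∀ a : A, algebraMap D κ (ι a) = φ a)
    (hsurj : ∀ d : D, ∃ a' t : A, t ∉ 𝔪₀ ∧ d * ι t = ι a')
    {z : B} {y : κ'} (hy : y ∈ Algebra.adjoin D ({ψ z} : Set κ')) :
    ∃ (s : A) (P : A[X]), s ∉ 𝔪₀ ∧ ψ (i s) * y = ψ (P.eval₂ i z) := by
  have hD : ∀ a : A, algebraMap D κ' (ι a) = ψ (i a) := fun a => by
    rw [IsScalarTower.algebraMap_apply D κ κ', hιφ, hψi]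
  induction hy using Algebra.adjoin_induction with
  | mem x hx =>
    rw [Set.mem_singleton_iff] at hx
    subst hx
    exact ⟨1, X, fun h => h𝔪₀.ne_top ((Ideal.eq_top_iff_one _).mpr h), by
      rw [map_one, map_one, one_mul, eval₂_X]⟩
  | algebraMap d =>
    obtain ⟨a', t, ht, hd⟩ := hsurj d
    refine ⟨t, C a', ht, ?_⟩
    rw [eval₂_C, ← hD, ← hD, ← hd, map_mul, mul_comm]
  | add x y _ _ hx hy =>
    obtain ⟨s₁, P₁, hs₁, h₁⟩ := hx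
    obtain ⟨s₂, P₂, hs₂, h₂⟩ := hy
    refine ⟨s₁ * s₂, C s₂ * P₁ + C s₁ * P₂, fun h => (h𝔪₀.mem_or_mem h).elim hs₁ hs₂, ?_⟩
    have e : ψ (i (s₁ * s₂)) * (x + y) =
        ψ (i s₂) * (ψ (i s₁) * x) + ψ (i s₁) * (ψ (i s₂) * y) := by
      rw [map_mul, map_mul]; ring
    rw [e, h₁, h₂, eval₂_add, eval₂_mul, eval₂_mul, eval₂_C, eval₂_C, map_add, map_mul, map_mul]
  | mul x y _ _ hx hy =>
    obtain ⟨s₁, P₁, hs₁, h₁⟩ := hx
    obtain ⟨s₂, P₂, hs₂, h₂⟩ := hy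
    refine ⟨s₁ * s₂, P₁ * P₂, fun h => (h𝔪₀.mem_or_mem h).elim hs₁ hs₂, ?_⟩
    have e : ψ (i (s₁ * s₂)) * (x * y) = (ψ (i s₁) * x) * (ψ (i s₂) * y) := by
      rw [map_mul, map_mul]; ring
    rw [e, h₁, h₂, eval₂_mul, map_mul]

/-- **the étale sandwich, hom form.** -/
theorem exists_mul_eq_mul_of_mem_of_pow_eq_unit_hom
    (hψi : ∀ a : A, ψ (i a) = algebraMap κ κ' (φ a))
    (hιφ : ∀ a : A, algebraMap D κ (ι a) = φ a)
    (hint : ∀ w : B, i.IsIntegralElem w)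
    (hunit : ∀ s : A, s ∉ 𝔪₀ → IsUnit (ι s))
    (hsurj : ∀ d : D, ∃ a' t : A, t ∉ 𝔪₀ ∧ d * ι t = ι a')
    {x₀ : A} (hgen₀ : ∀ y ∈ 𝔪₀, ∃ t e : A, t ∉ 𝔪₀ ∧ φ (t * y) = φ (e * x₀))
    {m : ℕ} (hm : 0 < m) (hmA : (m : A) ∉ 𝔪₀)
    {a b : A} (ha : a ∉ 𝔪₀) (hb : b ∉ 𝔪₀) {z : B}
    (hz : ψ (i a * z ^ m) = ψ (i b))
    (hdeg : Module.finrank κ κ' = m) (htop : Algebra.adjoin κ ({ψ z} : Set κ') = ⊤)
    (𝔪 : Ideal B) [h𝔪p : 𝔪.IsPrime] (hker : RingHom.ker ψ ≤ 𝔪) (h𝔪 : 𝔪.comap i = 𝔪₀)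
    {ζ : A} (hζ : z - i ζ ∈ 𝔪) :
    ∀ w ∈ 𝔪, ∃ (s c : B), s ∉ 𝔪 ∧ ψ (s * w) = ψ (c * i x₀) := by
  intro w hw
  have hD : ∀ a : A, algebraMap D κ' (ι a) = ψ (i a) := fun a => by
    rw [IsScalarTower.algebraMap_apply D κ κ', hιφ, hψi]
  have hnot : ∀ s : A, s ∉ 𝔪₀ → i s ∉ 𝔪 := fun s hs h => hs (h𝔪 ▸ (Ideal.mem_comap.mpr h))
  have hin : ∀ s : A, i s ∈ 𝔪 → s ∈ 𝔪₀ := fun s h => h𝔪 ▸ (Ideal.mem_comap.mpr h)
  have hkerm : ∀ u v : B, ψ u = ψ v → u - v ∈ 𝔪 := fun u v h =>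
    hker (by rw [RingHom.mem_ker, map_sub, h, sub_self])
  -- units of `D`
  have hub : IsUnit (ι b) := hunit b hb
  have hmD : IsUnit ((m : ℕ) : D) := by
    have := hunit (m : A) hmA
    rwa [map_natCast] at this
  obtain ⟨ua, hua'⟩ := hunit a ha
  set ε : D := ι b * ((ua⁻¹ : Dˣ) : D) with hε
  have hεu : IsUnit ε := hub.mul (Units.isUnit _)
  -- the equation in `κ'`
  have hz' : (ψ z) ^ m = algebraMap D κ' ε := by
    have h1 := hz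
    rw [map_mul, map_pow, ← hD, ← hD, ← hua'] at h1
    have h2 : algebraMap D κ' ((ua⁻¹ : Dˣ) : D) * algebraMap D κ' (ua : D) = 1 := by
      rw [← map_mul, Units.inv_mul, map_one]
    calc (ψ z) ^ m
        = algebraMap D κ' ((ua⁻¹ : Dˣ) : D) * (algebraMap D κ' (ua : D) * (ψ z) ^ m) := by
          rw [← mul_assoc, h2, one_mul]
      _ = algebraMap D κ' ε := by
          rw [h1, ← map_mul, hε, mul_comm]
  -- integrality
  have hwint : IsIntegral D (ψ w) := by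
    obtain ⟨P, hP, hPw⟩ := hint w
    refine ⟨P.map ι, hP.map ι, ?_⟩
    rw [eval₂_map]
    have hcomp : (algebraMap D κ').comp ι = ψ.comp i := RingHom.ext fun a => hD a
    rw [hcomp, ← Polynomial.hom_eval₂, hPw, map_zero]
  have hmem := mem_adjoin_of_isIntegral_of_pow_eq_unit (κ := κ) hεu hm hmD hz' hdeg htop hwint
  obtain ⟨s₁, P, hs₁, hsw⟩ :=
    exists_mul_eq_eval₂_of_mem_adjoin_hom i φ ψ ι 𝔪₀ hψi hιφ hsurj hmem
  -- `ζ ∉ 𝔪₀`
  have hζ0 : ζ ∉ 𝔪₀ := by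
    intro h
    have hz𝔪 : z ∈ 𝔪 := by
      have : z = (z - i ζ) + i ζ := by ring
      rw [this]
      exact 𝔪.add_mem hζ (Ideal.mem_comap.mp (h𝔪.symm ▸ h))
    have h1 : i b ∈ 𝔪 := by
      have h2 := hkerm _ _ hz
      have : i b = i a * z ^ m - (i a * z ^ m - i b) := by ring
      rw [this]
      exact 𝔪.sub_mem (𝔪.mul_mem_left _ (𝔪.pow_mem_of_mem hz𝔪 m hm)) h2
    exact hb (hin b h1)
  -- the cofactor `Gz`
  set Gz : B := i a * ∑ j ∈ range m, z ^ j * (i ζ) ^ (m - 1 - j) with hGz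
  have hGmul : Gz * (z - i ζ) = i a * z ^ m - i (a * ζ ^ m) := by
    rw [hGz, mul_assoc, geom_sum₂_mul, map_mul, map_pow]; ring
  set β : A := b - a * ζ ^ m with hβ
  have hψβ : ψ (Gz * (z - i ζ)) = ψ (i β) := by
    rw [hGmul, map_sub, hz, hβ, map_sub i, map_sub ψ]
  have hβ0 : β ∈ 𝔪₀ := by
    apply hin
    have h2 := hkerm _ _ hψβ
    have : i β = Gz * (z - i ζ) - (Gz * (z - i ζ) - i β) := by ring
    rw [this]
    exact 𝔪.sub_mem (𝔪.mul_mem_left _ hζ) h2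
  obtain ⟨t', e', ht', hte'⟩ := hgen₀ β hβ0
  -- `Gz ∉ 𝔪`
  have hGz𝔪 : Gz ∉ 𝔪 := by
    intro h
    have hq : Ideal.Quotient.mk 𝔪 z = Ideal.Quotient.mk 𝔪 (i ζ) := Ideal.Quotient.eq.mpr hζ
    have h1 : Ideal.Quotient.mk 𝔪 Gz = 0 := Ideal.Quotient.eq_zero_iff_mem.mpr h
    rw [hGz, map_mul, map_sum] at h1
    have h2 : ∀ j ∈ range m, Ideal.Quotient.mk 𝔪 (z ^ j * (i ζ) ^ (m - 1 - j)) =
        Ideal.Quotient.mk 𝔪 ((i ζ) ^ (m - 1)) := by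
      intro j hj
      rw [map_mul, map_pow, hq, ← map_pow, ← map_mul, ← pow_add]
      congr 2
      have := mem_range.mp hj
      omega
    rw [sum_congr rfl h2, sum_const, card_range, nsmul_eq_mul,
      ← map_natCast (Ideal.Quotient.mk 𝔪), ← map_mul, ← map_mul,
      Ideal.Quotient.eq_zero_iff_mem] at h1
    have h3 : i (a * ((m : A) * ζ ^ (m - 1))) ∈ 𝔪 := by
      rw [map_mul, map_mul, map_natCast, map_pow]; exact h1
    have h4 := hin _ h3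
    rcases h𝔪₀.mem_or_mem h4 with h5 | h5
    · exact ha h5
    · rcases h𝔪₀.mem_or_mem h5 with h6 | h6
      · exact hmA h6
      · exact hζ0 (h𝔪₀.mem_of_pow_mem _ h6)
  -- the value of `P` at `ζ`
  obtain ⟨Q, hQ⟩ := Polynomial.sub_dvd_eval_sub z (i ζ) (P.map i)
  rw [eval_map, eval_map, Polynomial.eval₂_at_apply] at hQ
  have hPζ : P.eval ζ ∈ 𝔪₀ := by
    apply hin
    have h2 : i s₁ * w - P.eval₂ i z ∈ 𝔪 := hkerm _ _ (by rw [map_mul, hsw])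
    have : i (P.eval ζ) = i s₁ * w - (i s₁ * w - P.eval₂ i z) - (z - i ζ) * Q := by
      rw [← hQ]; ring
    rw [this]
    exact 𝔪.sub_mem (𝔪.sub_mem (𝔪.mul_mem_left _ hw) h2) (𝔪.mul_mem_right _ hζ)
  obtain ⟨t, e, ht, hte⟩ := hgen₀ _ hPζ
  have hg𝔪 : i t' * Gz ∉ 𝔪 := fun h =>
    (h𝔪p.mem_or_mem h).elim (hnot t' ht') hGz𝔪
  refine ⟨i t * (i t' * Gz) * i s₁, i t' * Gz * i e + i t * Q * i e', fun h => ?_, ?_⟩
  · rcases h𝔪p.mem_or_mem h with h | h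
    · rcases h𝔪p.mem_or_mem h with h | h
      · exact hnot t ht h
      · exact hg𝔪 h
    · exact hnot s₁ hs₁ h
  · have h1 : ψ (i s₁ * w) = ψ (i (P.eval ζ)) + ψ ((z - i ζ) * Q) := by
      rw [map_mul, hsw, ← map_add]
      congr 1
      rw [← hQ]; ring
    have h2 : ψ (i (t * P.eval ζ)) = ψ (i (e * x₀)) := by rw [hψi, hψi, hte]
    have h3 : ψ (i (t' * β)) = ψ (i (e' * x₀)) := by rw [hψi, hψi, hte']
    have h4 : ψ (i t' * Gz * (z - i ζ)) = ψ (i (e' * x₀)) := by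
      rw [mul_assoc, map_mul, hψβ, ← map_mul, ← map_mul i, h3]
    calc ψ (i t * (i t' * Gz) * i s₁ * w)
        = ψ (i t * (i t' * Gz)) * ψ (i s₁ * w) := by rw [← map_mul]; congr 1; ring
      _ = ψ (i t' * Gz) * ψ (i (t * P.eval ζ)) + ψ (i t * Q) * ψ (i t' * Gz * (z - i ζ)) := by
          rw [h1]; simp only [map_mul, map_sub]; ring
      _ = ψ ((i t' * Gz * i e + i t * Q * i e') * i x₀) := by
          rw [h2, h4]; simp only [map_mul, map_add]; ring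

end EtaleHom

end Fermat.Agent.RB
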