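/-
PROJECT RB — [TWMOD] second wave, [LEVEL0] (helper3), part 3: **lattice eigenvectors and their
`𝒪`-dual projections.**

* `exists_lattice_eigenvector`: every character `χ` of `heckeAlgebra N 2 S` with values in a domain
  `B` of characteristic `0` has an eigenvector `Φ ≠ 0` in `Hom_par(Γ₀(N), B)`;
* `dualPar Φ hΦ lam : B →ₗ[𝒪] Hom_par(Γ₀(N), 𝒪)`, `b ↦ lam ∘ (b • Φ)`, for `lam : B →ₗ[𝒪] 𝒪`: it
  intertwines multiplication by the eigenvalue with the Hecke operator, and its values lie in the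
  primary part as soon as the eigenvalues are congruent to the `c ℓ`.
-/
import Mathlib
import Fermat.Agent.GR.MULT1_helper2_Occur
import Fermat.Agent.RB.TWMOD_helper2_PrimDef
import Fermat.Agent.RB.T3_helper3_TopNil

set_option autoImplicit false
set_option linter.unusedSectionVars false
set_option linter.unusedVariables false
set_option linter.style.haveILetI false

namespace Fermat.Agent.RB.L0

open CongruenceSubgroup ModularCurve.Period IsLocalRing Fermat.Agent.GR Fermat.Agent.RB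
  Fermat.Agent.RB.TWM
open scoped MatrixGroups

section Denominators

variable {Γ : Type*} [Group Γ] [Group.FG Γ] {B F : Type*} [CommRing B] [IsDomain B] [Field F]
  [Algebra B F] [IsFractionRing B F]

/-- clearing the denominators of a homomorphism from a finitely generated group to the fraction
field. -/
theorem exists_smul_eq_comp (Φ : Additive Γ →+ F) :
    ∃ (b : B) (Φ' : Additive Γ →+ B), b ≠ 0 ∧
      ∀ γ, algebraMap B F (Φ' γ) = algebraMap B F b * Φ γ := by
  classical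
  obtain ⟨n, g, hg⟩ := exists_fintype_generators (Γ := Γ)
  obtain ⟨b, hb⟩ := IsLocalization.exist_integer_multiples_of_finset (nonZeroDivisors B)
    (Finset.univ.image fun i : Fin n => Φ (Additive.ofMul (g i)))
  have key : ∀ γ : Γ, ∃ y : B, algebraMap B F y = algebraMap B F b * Φ (Additive.ofMul γ) := by
    intro γ
    have hγ : γ ∈ Subgroup.closure (Set.range g) := by rw [hg]; trivial
    induction hγ using Subgroup.closure_induction with
    | mem x hx =>
      obtain ⟨i, rfl⟩ := hx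
      obtain ⟨y, hy⟩ := hb _ (Finset.mem_image_of_mem _ (Finset.mem_univ i))
      exact ⟨y, by rw [hy, Algebra.smul_def]⟩
    | one => exact ⟨0, by rw [map_zero, ofMul_one, map_zero, mul_zero]⟩
    | mul x y _ _ ihx ihy =>
      obtain ⟨a, ha⟩ := ihx
      obtain ⟨c, hc⟩ := ihy
      exact ⟨a + c, by rw [map_add, ha, hc, ofMul_mul, map_add, mul_add]⟩
    | inv x _ ih =>
      obtain ⟨a, ha⟩ := ih
      exact ⟨-a, by rw [map_neg, ha, ofMul_inv, map_neg, mul_neg]⟩
  choose y hy using key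
  have hadd : ∀ γ δ : Additive Γ, y (Additive.toMul (γ + δ)) =
      y (Additive.toMul γ) + y (Additive.toMul δ) := by
    intro γ δ
    apply IsFractionRing.injective B F
    have e1 : algebraMap B F (y (Additive.toMul (γ + δ))) = algebraMap B F b * Φ (γ + δ) := hy _
    have e2 : algebraMap B F (y (Additive.toMul γ)) = algebraMap B F b * Φ γ := hy _
    have e3 : algebraMap B F (y (Additive.toMul δ)) = algebraMap B F b * Φ δ := hy _
    rw [e1, RingHom.map_add, e2, e3, AddMonoidHom.map_add, mul_add]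
  exact ⟨b, AddMonoidHom.mk' (fun γ => y (Additive.toMul γ)) hadd, nonZeroDivisors.ne_zero b.2,
    fun γ => hy _⟩

end Denominators

section Lattice

variable {N : ℕ} [NeZero N] (S : Set ℕ) {B : Type*} [CommRing B] [IsDomain B] [CharZero B]

/-- **every character of the Hecke algebra with values in a domain `B` of characteristic `0` has an
eigenvector in `Hom_par(Γ₀(N), B)`.** -/
theorem exists_lattice_eigenvector (χ : CuspForm.heckeAlgebra N 2 S →+* B) :
    ∃ Φ : Additive (Gamma0 N) →+ B, Φ ≠ 0 ∧ Φ ∈ parabolicHoms B (Gamma0 N) B ∧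
      ∀ (ℓ : Nat.Primes) (h : (ℓ : ℕ) ∉ S),
        heckeGrpP N ℓ B Φ = χ (heckeGenS S ℓ h) • Φ := by
  classical
  haveI : CharZero (FractionRing B) :=
    charZero_of_injective_algebraMap (IsFractionRing.injective B (FractionRing B))
  have hinj : Function.Injective (algebraMap B (FractionRing B)) :=
    IsFractionRing.injective B (FractionRing B)
  set j : B →+ FractionRing B := (algebraMap B (FractionRing B)).toAddMonoidHom with hj
  set a : Nat.Primes → B := fun ℓ => if h : (ℓ : ℕ) ∉ S then χ (heckeGenS S ℓ h) else 0 with ha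
  have haℓ : ∀ (ℓ : Nat.Primes) (h : (ℓ : ℕ) ∉ S), a ℓ = χ (heckeGenS S ℓ h) := by
    intro ℓ h
    rw [ha]
    simp only
    rw [dif_pos h]
  have hocc := eigenParOn_ne_bot_of_character (N := N) (F := FractionRing B) S
    ((algebraMap B (FractionRing B)).comp χ) (fun ℓ => algebraMap B (FractionRing B) (a ℓ))
    (by
      intro ℓ h
      rw [haℓ ℓ h]
      rfl)
  obtain ⟨Φ, hΦmem, hΦ0⟩ := (Submodule.ne_bot_iff _).1 hocc
  obtain ⟨hΦpar, hΦeig⟩ := mem_eigenParOn.1 hΦmem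
  obtain ⟨b, Φ', hb0, hΦ'⟩ := exists_smul_eq_comp (B := B) Φ
  have hcomp : j.comp Φ' = algebraMap B (FractionRing B) b • Φ := by
    ext γ
    exact hΦ' γ
  have hb0' : algebraMap B (FractionRing B) b ≠ 0 := by
    rw [Ne, map_eq_zero_iff _ hinj]
    exact hb0
  have hcompinj : ∀ φ φ' : Additive (Gamma0 N) →+ B, j.comp φ = j.comp φ' → φ = φ' := by
    intro φ φ' h
    ext γ
    exact hinj (DFunLike.congr_fun h γ)
  refine ⟨Φ', ?_, ?_, ?_⟩
  · intro h0
    apply hΦ0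
    have h1 : algebraMap B (FractionRing B) b • Φ = 0 := by
      rw [← hcomp, h0]
      ext γ
      simp
    exact (smul_eq_zero.1 h1).resolve_left hb0'
  · intro γ hγ
    apply hinj
    have h1 : algebraMap B (FractionRing B) (Φ' (Additive.ofMul γ)) =
        algebraMap B (FractionRing B) b * Φ (Additive.ofMul γ) := hΦ' _
    rw [h1, hΦpar γ hγ, mul_zero, map_zero]
  · intro ℓ h
    apply hcompinj
    rw [← heckeGrpP_comp, hcomp]
    have h1 := (heckeGrpPₗ N ℓ (FractionRing B) (FractionRing B)).map_smul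
      (algebraMap B (FractionRing B) b) Φ
    rw [heckeGrpPₗ_apply, heckeGrpPₗ_apply] at h1
    rw [h1, hΦeig ℓ h, ← haℓ ℓ h]
    ext γ
    show algebraMap B (FractionRing B) b * (algebraMap B (FractionRing B) (a ℓ) * Φ γ) =
      algebraMap B (FractionRing B) (a ℓ * Φ' γ)
    rw [map_mul, hΦ' γ]
    ring

end Lattice

section Dual

variable {N : ℕ} {𝒪 : Type*} [CommRing 𝒪] {B : Type*} [CommRing B] [Algebra 𝒪 B]

/-- `b ↦ lam ∘ (b • Φ)`. -/
noncomputable def dualHom (Φ : Additive (Gamma0 N) →+ B) (lam : B →ₗ[𝒪] 𝒪) :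
    B →ₗ[𝒪] (Additive (Gamma0 N) →+ 𝒪) where
  toFun b := lam.toAddMonoidHom.comp (b • Φ)
  map_add' b b' := by
    ext γ
    show lam ((b + b') • Φ γ) = lam (b • Φ γ) + lam (b' • Φ γ)
    rw [add_smul, map_add]
  map_smul' r b := by
    ext γ
    show lam ((r • b) • Φ γ) = r • lam (b • Φ γ)
    rw [smul_assoc, map_smul]

theorem dualHom_apply (Φ : Additive (Gamma0 N) →+ B) (lam : B →ₗ[𝒪] 𝒪) (b : B) :
    dualHom Φ lam b = lam.toAddMonoidHom.comp (b • Φ) := rfl

theorem dualHom_apply_apply (Φ : Additive (Gamma0 N) →+ B) (lam : B →ₗ[𝒪] 𝒪) (b : B)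
    (γ : Additive (Gamma0 N)) : dualHom Φ lam b γ = lam (b * Φ γ) := rfl

theorem dualHom_mem_parabolicHoms {Φ : Additive (Gamma0 N) →+ B}
    (hΦ : Φ ∈ parabolicHoms B (Gamma0 N) B) (lam : B →ₗ[𝒪] 𝒪) (b : B) :
    dualHom Φ lam b ∈ parabolicHoms 𝒪 (Gamma0 N) 𝒪 := by
  rw [dualHom_apply]
  exact comp_mem_parabolicHoms (R := B) (S := 𝒪) lam.toAddMonoidHom
    ((parabolicHoms B (Gamma0 N) B).smul_mem b hΦ)

theorem heckeGrpP_dualHom (ℓ : Nat.Primes) {Φ : Additive (Gamma0 N) →+ B} {a : B}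
    (heig : heckeGrpP N ℓ B Φ = a • Φ) (lam : B →ₗ[𝒪] 𝒪) (b : B) :
    heckeGrpP N ℓ 𝒪 (dualHom Φ lam b) = dualHom Φ lam (a * b) := by
  rw [dualHom_apply, heckeGrpP_comp, dualHom_apply]
  have h1 := (heckeGrpPₗ N ℓ B B).map_smul b Φ
  rw [heckeGrpPₗ_apply, heckeGrpPₗ_apply] at h1
  rw [h1, heig, smul_smul, mul_comm]

/-- `b ↦ lam ∘ (b • Φ)` with values in the parabolic homomorphisms. -/
noncomputable def dualPar {Φ : Additive (Gamma0 N) →+ B} (hΦ : Φ ∈ parabolicHoms B (Gamma0 N) B)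
    (lam : B →ₗ[𝒪] 𝒪) : B →ₗ[𝒪] ↥(parabolicHoms 𝒪 (Gamma0 N) 𝒪) :=
  (dualHom Φ lam).codRestrict _ (fun b => dualHom_mem_parabolicHoms hΦ lam b)

theorem coe_dualPar {Φ : Additive (Gamma0 N) →+ B} (hΦ : Φ ∈ parabolicHoms B (Gamma0 N) B)
    (lam : B →ₗ[𝒪] 𝒪) (b : B) :
    ((dualPar hΦ lam b : ↥(parabolicHoms 𝒪 (Gamma0 N) 𝒪)) : Additive (Gamma0 N) →+ 𝒪) =
      dualHom Φ lam b := rfl

theorem heckeParP_dualPar (ℓ : Nat.Primes) {Φ : Additive (Gamma0 N) →+ B}
    (hΦ : Φ ∈ parabolicHoms B (Gamma0 N) B) {a : B}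
    (heig : heckeGrpP N ℓ B Φ = a • Φ) (lam : B →ₗ[𝒪] 𝒪) (b : B) :
    heckeParP N ℓ 𝒪 𝒪 (dualPar hΦ lam b) = dualPar hΦ lam (a * b) := by
  apply Subtype.ext
  rw [coe_heckeParP, coe_dualPar, coe_dualPar]
  exact heckeGrpP_dualHom ℓ heig lam b

end Dual

section TopNilB

variable {𝒪 : Type*} [CommRing 𝒪] [IsDomain 𝒪] [IsDiscreteValuationRing 𝒪]
  {B : Type*} [CommRing B] [IsDomain B] [IsDiscreteValuationRing B] [Algebra 𝒪 B]

/-- high powers of an element of the maximal ideal of `B` lie in `𝔪_𝒪 ^ n B`. -/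
theorem exists_pow_mul_mem_smul_top (hinj : Function.Injective (algebraMap 𝒪 B)) {x : B}
    (hx : x ∈ maximalIdeal B) (n : ℕ) :
    ∃ k : ℕ, ∀ b : B, x ^ k * b ∈ (maximalIdeal 𝒪 ^ n • ⊤ : Submodule 𝒪 B) := by
  obtain ⟨ϖ, hϖ⟩ := IsDiscreteValuationRing.exists_irreducible 𝒪
  obtain ⟨ϖB, hϖB⟩ := IsDiscreteValuationRing.exists_irreducible B
  have hϖ0 : algebraMap 𝒪 B ϖ ≠ 0 := by
    rw [Ne, map_eq_zero_iff _ hinj]
    exact hϖ.ne_zero
  obtain ⟨e, u, hu⟩ := IsDiscreteValuationRing.eq_unit_mul_pow_irreducible hϖ0 hϖB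
  rw [hϖB.maximalIdeal_eq, Ideal.mem_span_singleton'] at hx
  obtain ⟨y, rfl⟩ := hx
  have hϖmem : ϖ ∈ maximalIdeal 𝒪 := by
    rw [hϖ.maximalIdeal_eq]
    exact Ideal.mem_span_singleton_self ϖ
  refine ⟨e * n, fun b => ?_⟩
  have h2 : (ϖB ^ e) ^ n = ((u⁻¹ : Bˣ) : B) ^ n * (algebraMap 𝒪 B ϖ) ^ n := by
    rw [hu, mul_pow, ← mul_assoc, ← mul_pow, Units.inv_mul, one_pow, one_mul]
  have h1 : (y * ϖB) ^ (e * n) * b =
      (ϖ ^ n) • (((u⁻¹ : Bˣ) : B) ^ n * y ^ (e * n) * b) := by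
    rw [Algebra.smul_def, map_pow, mul_pow, pow_mul ϖB, h2]
    ring
  rw [h1]
  exact Submodule.smul_mem_smul (Ideal.pow_mem_pow hϖmem n) Submodule.mem_top

/-- multiplication by an element of the maximal ideal of `B` is topologically nilpotent for the
`𝔪_𝒪`-adic topology. -/
theorem topNil_lmul (hinj : Function.Injective (algebraMap 𝒪 B)) {x : B}
    (hx : x ∈ maximalIdeal B) (b : B) : TopNil (Algebra.lmul 𝒪 B x) b := by
  intro n
  obtain ⟨k, hk⟩ := exists_pow_mul_mem_smul_top hinj hx n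
  refine ⟨k, ?_⟩
  rw [← map_pow]
  exact hk b

end TopNilB

section Primary

variable {N : ℕ} {𝒪 : Type*} [CommRing 𝒪] [IsDomain 𝒪] [IsDiscreteValuationRing 𝒪]
  {B : Type*} [CommRing B] [IsDomain B] [IsDiscreteValuationRing B] [Algebra 𝒪 B]

/-- **the dual projections of a lattice eigenvector lie in the primary part.** -/
theorem dualPar_mem_primaryPart (hinj : Function.Injective (algebraMap 𝒪 B))
    {σ : Type*} (pr : σ → Nat.Primes) (c : σ → 𝒪) (a : σ → B)
    {Φ : Additive (Gamma0 N) →+ B} (hΦ : Φ ∈ parabolicHoms B (Gamma0 N) B)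
    (heig : ∀ i, heckeGrpP N (pr i) B Φ = a i • Φ)
    (hac : ∀ i, a i - algebraMap 𝒪 B (c i) ∈ maximalIdeal B)
    (lam : B →ₗ[𝒪] 𝒪) (b : B) :
    dualPar hΦ lam b ∈ primaryPart (fun i => heckeParP N (pr i) 𝒪 𝒪) c := by
  intro i
  have h1 : TopNil (Algebra.lmul 𝒪 B (a i - algebraMap 𝒪 B (c i))) b :=
    topNil_lmul hinj (hac i) b
  have h2 := TopNil.map (s' := heckeParP N (pr i) 𝒪 𝒪 -
      algebraMap 𝒪 (Module.End 𝒪 ↥(parabolicHoms 𝒪 (Gamma0 N) 𝒪)) (c i))
    (dualPar hΦ lam) (fun y => ?_) h1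
  · exact h2
  · show dualPar hΦ lam ((a i - algebraMap 𝒪 B (c i)) * y) =
      heckeParP N (pr i) 𝒪 𝒪 (dualPar hΦ lam y) - c i • dualPar hΦ lam y
    rw [heckeParP_dualPar (pr i) hΦ (heig i), sub_mul, map_sub, ← Algebra.smul_def, map_smul]

end Primary

end Fermat.Agent.RB.L0
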