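/-
PROJECT RB, block [MAZ] (Mazur's principle at `q ≠ p`), package P7 [TORIC-FROB] — helper6 — part 1:
**residues along a sheet with a denominator which is a unit at a given closed point.**

In the setting of helper9's SINF-EMB (`exists_isBranchUniformizer_of_embedding`): `ι : F →+* L` an
embedding of the lower field, `BF`, `BL` the lower and upper charts, `V ⊇ BL` the valuation ring of a
sheet with prime `𝔓 ⊆ 𝔪`, `𝔫` the closed point of `BF` induced by `𝔪`, a regular point of the special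
fibre of `BF` with uniformizer `z` (`hdvr`).  Every `x ∈ BL` is congruent along `V` to a fraction
`ι b / ι s` with `s ∉ 𝔫`, i.e. with a denominator which is a unit at `𝔪`:

* `exists_unit_denominator_of_embedding` : the raw form;
* `GeoHyps.exists_unit_denominator_of_comap` : `(ι, W)` form for a level of good reduction;
* `SSModel.exists_unit_denominator_inf/_zero` : the two sheets of the chart `j` of the model.
-/
import Mathlib
import Fermat.Agent.SS.SINFEMB_helper9_One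

set_option autoImplicit false
set_option linter.unusedSectionVars false
set_option linter.style.haveILetI false

namespace Fermat.Agent.RB

open Fermat.Agent.SS Fermat.Agent.JA

section Raw

variable {R : Type*} [CommRing R] {F L : Type*} [Field F] [Field L] [Algebra R F] [Algebra R L]

/-- **a residue representation with a unit denominator.** -/
theorem exists_unit_denominator_of_embedding (ι : F →+* L) (π : R)
    (BF : Subalgebra R F) (BL : Subalgebra R L)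
    (V : ValuationSubring L) (hBL : ∀ b ∈ BL, b ∈ V)
    (𝔓 : Ideal ↥BL) (h𝔓 : ∀ b : ↥BL, b ∈ 𝔓 ↔ V.valuation (b : L) < 1)
    (𝔪 : Ideal ↥BL) [h𝔪 : 𝔪.IsPrime] (h𝔓𝔪 : 𝔓 ≤ 𝔪)
    (ha : ∀ a : ↥BF, ∃ r s : ↥BL, s ∉ 𝔪 ∧ ι (a : F) * (s : L) = (r : L))
    (𝔫 : Ideal ↥BF) [h𝔫p : 𝔫.IsPrime]
    (h𝔫 : ∀ (a : ↥BF) (r s : ↥BL), s ∉ 𝔪 → ι (a : F) * (s : L) = (r : L) → (a ∈ 𝔫 ↔ r ∈ 𝔪))
    (z : ↥BF) (hz : z ∈ 𝔫) (hzπ : z ∉ Ideal.span {algebraMap R ↥BF π})
    (hdvr : ∀ a : ↥BF, a ∉ Ideal.span {algebraMap R ↥BF π} → ∃ (k : ℕ) (s e : ↥BF),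
      s ∉ 𝔫 ∧ e ∉ 𝔫 ∧ s * a - e * z ^ k ∈ Ideal.span {algebraMap R ↥BF π})
    (hVF : ∀ a : ↥BF, V.valuation (ι (a : F)) < 1 ↔ a ∈ Ideal.span {algebraMap R ↥BF π})
    (hres : ∀ x ∈ V, ∃ a c : ↥BF, c ∉ Ideal.span {algebraMap R ↥BF π} ∧
      V.valuation (x * ι (c : F) - ι (a : F)) < 1)
    (x : ↥BL) :
    ∃ b s : ↥BF, s ∉ 𝔫 ∧ V.valuation ((x : L) * ι (s : F) - ι (b : F)) < 1 := by
  classical
  set v := V.valuation with hv
  have hle1 : ∀ b : ↥BL, v (b : L) ≤ 1 := fun b => (V.valuation_le_one_iff _).mpr (hBL b b.2)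
  have hunit : ∀ s : ↥BL, s ∉ 𝔪 → v (s : L) = 1 := by
    intro s hs
    exact le_antisymm (hle1 s) (not_lt.mp fun h => hs (h𝔓𝔪 ((h𝔓 s).mpr h)))
  have hιle : ∀ a : ↥BF, v (ι (a : F)) ≤ 1 := by
    intro a
    obtain ⟨r, s, hs, hrs⟩ := ha a
    have h1 : v (ι (a : F)) * v (s : L) = v (r : L) := by rw [← map_mul, hrs]
    rw [hunit s hs, mul_one] at h1
    rw [h1]; exact hle1 r
  have hιone : ∀ a : ↥BF, a ∉ Ideal.span {algebraMap R ↥BF π} → v (ι (a : F)) = 1 :=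
    fun a ha' => le_antisymm (hιle a) (not_lt.mp fun h => ha' ((hVF a).mp h))
  have hmul : ∀ x y : L, v x ≤ 1 → v y < 1 → v (x * y) < 1 := by
    intro x y hx hy
    rw [map_mul]
    calc v x * v y ≤ 1 * v y := mul_le_mul_left hx _
      _ = v y := one_mul _
      _ < 1 := hy
  have hadd : ∀ x y : L, v x < 1 → v y < 1 → v (x + y) < 1 :=
    fun x y hx hy => Valuation.map_add_lt _ hx hy
  -- local units
  have hlu : ∀ a : ↥BF, a ∉ 𝔫 →
      ∃ r t : ↥BL, r ∉ 𝔪 ∧ t ∉ 𝔪 ∧ ι (a : F) * (t : L) = (r : L) := by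
    intro a ha𝔫
    obtain ⟨r, s, hs, hrs⟩ := ha a
    exact ⟨r, s, fun hr => ha𝔫 ((h𝔫 a r s hs hrs).mpr hr), hs, hrs⟩
  obtain ⟨y, s, hs, hys⟩ := ha z
  have hy𝔪 : y ∈ 𝔪 := (h𝔫 z y s hs hys).mp hz
  have hZ : v (ι (z : F)) = 1 := hιone z hzπ
  obtain ⟨a, c, hc, hxac⟩ := hres (x : L) (hBL x x.2)
  have hvc : v (ι (c : F)) = 1 := hιone c hc
  by_cases haπ : a ∈ Ideal.span {algebraMap R ↥BF π}
  · -- `x ∈ 𝔓`: take `b = 0`, `s = 1`
    have hva : v (ι (a : F)) < 1 := (hVF a).mpr haπ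
    have h1 : v ((x : L) * ι (c : F)) < 1 := by
      have := hadd _ _ hxac hva
      rwa [sub_add_cancel] at this
    rw [map_mul, hvc, mul_one] at h1
    refine ⟨0, 1, (Ideal.ne_top_iff_one 𝔫).mp h𝔫p.ne_top, ?_⟩
    simpa using h1
  · obtain ⟨k, sa, ea, hsa, hea, hka⟩ := hdvr a haπ
    obtain ⟨l, sc, ec, hsc, hec, hlc⟩ := hdvr c hc
    set Z : L := ι (z : F) with hZdef
    -- the two congruences of the lower level, in `V`
    have h2 : v (ι (sa : F) * ι (a : F) - ι (ea : F) * Z ^ k) < 1 := by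
      have := (hVF (sa * a - ea * z ^ k)).mpr hka
      simpa only [Subalgebra.coe_sub, Subalgebra.coe_mul, Subalgebra.coe_pow, map_sub, map_mul,
        map_pow] using this
    have h3 : v (ι (sc : F) * ι (c : F) - ι (ec : F) * Z ^ l) < 1 := by
      have := (hVF (sc * c - ec * z ^ l)).mpr hlc
      simpa only [Subalgebra.coe_sub, Subalgebra.coe_mul, Subalgebra.coe_pow, map_sub, map_mul,
        map_pow] using this
    set α : L := ι (sa : F) * ι (ec : F) with hα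
    set β : L := ι (sc : F) * ι (ea : F) with hβ
    have hkey : v ((x : L) * α * Z ^ l - β * Z ^ k) < 1 := by
      have hid : (x : L) * α * Z ^ l - β * Z ^ k =
          (-((x : L) * ι (sa : F))) * (ι (sc : F) * ι (c : F) - ι (ec : F) * Z ^ l) +
            ((ι (sa : F) * ι (sc : F)) * ((x : L) * ι (c : F) - ι (a : F)) +
              ι (sc : F) * (ι (sa : F) * ι (a : F) - ι (ea : F) * Z ^ k)) := by
        rw [hα, hβ]; ring
      rw [hid]
      refine hadd _ _ (hmul _ _ ?_ h3) (hadd _ _ (hmul _ _ ?_ hxac) (hmul _ _ (hιle sc) h2))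
      · rw [Valuation.map_neg, map_mul]
        exact mul_le_one' (hle1 x) (hιle sa)
      · rw [map_mul]
        exact mul_le_one' (hιle sa) (hιle sc)
    have hZpow : ∀ n : ℕ, v (Z ^ n) = 1 := fun n => by rw [map_pow, hZ, one_pow]
    rcases le_or_gt l k with hkl | hkl
    · -- `l ≤ k`: `x ι (sa ec) ≡ ι (sc ea z ^ (k - l))`
      obtain ⟨d, rfl⟩ := Nat.exists_eq_add_of_le hkl
      refine ⟨sc * ea * z ^ d, sa * ec, fun h => (h𝔫p.mem_or_mem h).elim hsa hec, ?_⟩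
      have hid : (x : L) * α * Z ^ l - β * Z ^ (l + d) =
          Z ^ l * ((x : L) * α - β * Z ^ d) := by ring
      rw [hid, map_mul, hZpow, one_mul] at hkey
      have e1 : ι ((sa * ec : ↥BF) : F) = α := by rw [hα]; push_cast; rw [map_mul]
      have e2 : ι ((sc * ea * z ^ d : ↥BF) : F) = β * Z ^ d := by
        rw [hβ, hZdef]; push_cast; rw [map_mul, map_mul, map_pow]
      rw [e1, e2]
      exact hkey
    · -- `k < l` is impossible: a unit at `𝔪` would lie in `𝔪`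
      exfalso
      obtain ⟨d, rfl⟩ : ∃ d, l = k + d + 1 := by
        obtain ⟨d, hd⟩ := Nat.exists_eq_add_of_lt hkl
        exact ⟨d, hd⟩
      have h4 : v ((x : L) * α * Z ^ (d + 1) - β) < 1 := by
        have hid : (x : L) * α * Z ^ (k + d + 1) - β * Z ^ k =
            Z ^ k * ((x : L) * α * Z ^ (d + 1) - β) := by ring
        rw [hid, map_mul, hZpow, one_mul] at hkey
        exact hkey
      obtain ⟨r₁, t₁, hr₁, ht₁, h₁⟩ := hlu sa hsa
      obtain ⟨r₂, t₂, hr₂, ht₂, h₂⟩ := hlu ec hec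
      obtain ⟨r₃, t₃, hr₃, ht₃, h₃⟩ := hlu sc hsc
      obtain ⟨r₄, t₄, hr₄, ht₄, h₄⟩ := hlu ea hea
      have hαt : α * ((t₁ * t₂ : ↥BL) : L) = ((r₁ * r₂ : ↥BL) : L) := by
        push_cast
        rw [← h₁, ← h₂, hα]; ring
      have hβt : β * ((t₃ * t₄ : ↥BL) : L) = ((r₃ * r₄ : ↥BL) : L) := by
        push_cast
        rw [← h₃, ← h₄, hβ]; ring
      have htα : t₁ * t₂ ∉ 𝔪 := fun h => (h𝔪.mem_or_mem h).elim ht₁ ht₂
      have hrβ : r₃ * r₄ ∉ 𝔪 := fun h => (h𝔪.mem_or_mem h).elim hr₃ hr₄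
      set rα : ↥BL := r₁ * r₂ with hrαdef
      set tα : ↥BL := t₁ * t₂ with htαdef
      set rβ : ↥BL := r₃ * r₄ with hrβdef
      set tβ : ↥BL := t₃ * t₄ with htβdef
      have h5 : v (((tα * tβ * s ^ (d + 1) : ↥BL) : L) * ((x : L) * α * Z ^ (d + 1) - β)) < 1 :=
        hmul _ _ (hle1 _) h4
      have hid : ((tα * tβ * s ^ (d + 1) : ↥BL) : L) * ((x : L) * α * Z ^ (d + 1) - β) =
          ((x * rα * tβ * y ^ (d + 1) - rβ * tα * s ^ (d + 1) : ↥BL) : L) := by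
        push_cast
        have e1 : (rα : L) = α * (tα : L) := hαt.symm
        have e2 : (rβ : L) = β * (tβ : L) := hβt.symm
        rw [e1, e2, ← hys]
        ring
      rw [hid] at h5
      have h6 : x * rα * tβ * y ^ (d + 1) - rβ * tα * s ^ (d + 1) ∈ 𝔪 := h𝔓𝔪 ((h𝔓 _).mpr h5)
      have h7 : x * rα * tβ * y ^ (d + 1) ∈ 𝔪 := by
        have : x * rα * tβ * y ^ (d + 1) = (x * rα * tβ * y ^ d) * y := by ring
        rw [this]; exact 𝔪.mul_mem_left _ hy𝔪
      have h8 : rβ * tα * s ^ (d + 1) ∈ 𝔪 := by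
        have : rβ * tα * s ^ (d + 1) =
            x * rα * tβ * y ^ (d + 1) - (x * rα * tβ * y ^ (d + 1) - rβ * tα * s ^ (d + 1)) := by
          ring
        rw [this]; exact 𝔪.sub_mem h7 h6
      rcases h𝔪.mem_or_mem h8 with h9 | h9
      · rcases h𝔪.mem_or_mem h9 with h10 | h10
        · exact hrβ h10
        · exact htα h10
      · exact hs (h𝔪.mem_of_pow_mem _ h9)

end Raw

section Geo

variable {R : Type*} [CommRing R] [IsDomain R] [IsDiscreteValuationRing R] [CharZero R]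
  {K₁ : Type*} [Field K₁] [Algebra R K₁] [IsFractionRing R K₁]
  {KM : Type*} [Field KM] [Algebra K₁ KM] [Algebra R KM] [IsScalarTower R K₁ KM]
  {EM : Type*} [Field EM] [Algebra KM EM] [Algebra K₁ EM] [IsScalarTower K₁ KM EM]
  [Algebra R EM] [IsScalarTower R KM EM]
  {L : Type*} [Field L] [Algebra R L]
  {π : R} {t : KM} {n : ℕ} {S : Finset R}

/-- **residues with a unit denominator, `(ι, W)` form**: `W` lies over the Gauss extension `VM` of
the level of good reduction along `ι` with residue degree one; `BL ⊆ W` an integrally closed upper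
chart, `𝔪` a closed point of the sheet of `W` at which `ι t` is regular.  Every `x ∈ BL` is
congruent along `W` to `ι b / ι s` with `ι s` a unit at `𝔪`. -/
theorem _root_.Fermat.Agent.JA.GeoHyps.exists_unit_denominator_of_comap
    (h : GeoHyps K₁ π t EM n S)
    (VM : ValuationSubring EM) (hGM : IsGaussAt R π t (VM.comap (algebraMap KM EM)))
    (ι : EM →+* L) (hι : ∀ c : R, ι (algebraMap R EM c) = algebraMap R L c)
    (W : ValuationSubring L) (hcomap : W.comap ι = VM)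
    (hresW : ∀ x ∈ W, ∃ a ∈ VM, W.valuation (x - ι a) < 1)
    (BL : Subalgebra R L) (hic : ∀ x : L, IsIntegral ↥BL x → x ∈ BL) (hBL : ∀ b ∈ BL, b ∈ W)
    (𝔓 : Ideal ↥BL) (h𝔓 : ∀ b : ↥BL, b ∈ 𝔓 ↔ W.valuation (b : L) < 1)
    (𝔪 : Ideal ↥BL) [h𝔪 : 𝔪.IsMaximal] (h𝔓𝔪 : 𝔓 ≤ 𝔪) (hπ𝔪 : algebraMap R ↥BL π ∈ 𝔪)
    (hresk : ∀ b : ↥BL, ∃ c : R, b - algebraMap R ↥BL c ∈ 𝔪)
    (hreg : ι (algebraMap KM EM t) ∈ locRing BL 𝔪) (x : ↥BL) :
    ∃ b s : ↥(chartOne R EM t), ι (s : EM) ∈ locRing BL 𝔪 ∧ ι (s : EM) ∉ locMax BL 𝔪 ∧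
      W.valuation ((x : L) * ι (s : EM) - ι (b : EM)) < 1 := by
  haveI h𝔪p : 𝔪.IsPrime := h𝔪.isPrime
  obtain ⟨hVF, hres⟩ := sinfemb_hVF_hres h VM hGM ι W hcomap hresW
  obtain ⟨r, s, hs, hts⟩ := hreg
  have ha := sinfemb_exists_mul_mem_of_coord ι hι BL hic 𝔪 t r s hs hts
  obtain ⟨hmax, -⟩ := sinfembPull_isMaximal (ha := ha) hι hresk
    (sinfemb_isUnit_of_algebraMap_notMem h.irreducible hπ𝔪)
  haveI := hmax
  haveI : (sinfembPull ι (chartOne R EM t) BL 𝔪 ha).IsPrime := hmax.isPrime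
  have hπ𝔫 : algebraMap R ↥(chartOne R EM t) π ∈ sinfembPull ι (chartOne R EM t) BL 𝔪 ha :=
    (algebraMap_mem_sinfembPull_iff (ha := ha) hι π).mpr hπ𝔪
  obtain ⟨z, hz, hzπ, -, hdvr⟩ := GeoHyps.exists_dvrForm h _ hπ𝔫
  obtain ⟨b, s', hs', hbs⟩ := exists_unit_denominator_of_embedding ι π
    (chartOne R EM t) BL W hBL 𝔓 h𝔓 𝔪 h𝔓𝔪 ha _
    (fun a r s hs hrs => mem_sinfembPull_iff a r s hs hrs) z hz hzπ hdvr hVF hres x
  refine ⟨b, s', ha s', ?_, hbs⟩
  rintro ⟨r', t', hr', ht', hrt'⟩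
  exact hs' ((mem_sinfembPull_iff (ha := ha) s' r' t' ht' hrt').mpr hr')

end Geo

section Model

variable {R : Type*} [CommRing R] [IsDomain R] [IsDiscreteValuationRing R] [CharZero R]
  {K₁ : Type*} [Field K₁] [Algebra R K₁] [IsFractionRing R K₁]
  {KM : Type*} [Field KM] [Algebra K₁ KM] [Algebra R KM] [IsScalarTower R K₁ KM]
  {EM : Type*} [Field EM] [Algebra KM EM] [Algebra K₁ EM] [IsScalarTower K₁ KM EM] [Algebra R EM]
  [IsScalarTower R KM EM]
  {KN : Type*} [Field KN] [Algebra K₁ KN] [Algebra R KN] [IsScalarTower R K₁ KN]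
  {EN : Type*} [Field EN] [Algebra KN EN] [Algebra K₁ EN] [IsScalarTower K₁ KN EN] [Algebra R EN]
  [IsScalarTower R KN EN] [FiniteDimensional KN EN]
  {π : R} {q n : ℕ} {S : Finset R} {t : KM} {jM : EM} {j : KN} {A B : EM →+* EN}
  {VM : ValuationSubring EM} {Winf W0 : ValuationSubring EN}

/-- **residues along `C_∞` with a unit denominator**, chart `j` of the model. -/
theorem _root_.Fermat.Agent.SS.SSModel.exists_unit_denominator_inf
    [IsAlgClosed (IsLocalRing.ResidueField R)]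
    (h : SSModel K₁ π q n S t jM j A B VM Winf W0)
    (𝔪 : Ideal ↥(chartOne R EN j)) [h𝔪 : 𝔪.IsMaximal]
    (hinf : sheetIdeal j Winf h.two.chart_le_inf ≤ 𝔪) (x : ↥(chartOne R EN j)) :
    ∃ b s : ↥(chartOne R EM t), A (s : EM) ∈ locRing (chartOne R EN j) 𝔪 ∧
      A (s : EM) ∉ locMax (chartOne R EN j) 𝔪 ∧
      Winf.valuation ((x : EN) * A (s : EM) - A (b : EM)) < 1 := by
  have hπ𝔪 : algebraMap R ↥(chartOne R EN j) π ∈ 𝔪 :=
    hinf (sinfemb_pi_mem_sheetIdeal h.two.gauss_inf)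
  exact GeoHyps.exists_unit_denominator_of_comap h.geo VM h.gauss_M A h.A_algebraMap Winf
    h.comap_A_inf h.res_inf (chartOne R EN j)
    (fun x hx => sinfemb_mem_chartOne_of_isIntegral j hx) h.two.chart_le_inf _
    (fun b => mem_sheetIdeal_iff j Winf _ b) 𝔪 hinf hπ𝔪
    (exists_sub_mem_of_isMaximal_chartOne (K₁ := K₁) h.geo.irreducible h.j_transcendental
      h.j_adjoin 𝔪 hπ𝔪) (le_locRing h.A_t_mem) x

/-- **residues along `C_0` with a unit denominator**, chart `j` of the model. -/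
theorem _root_.Fermat.Agent.SS.SSModel.exists_unit_denominator_zero
    [IsAlgClosed (IsLocalRing.ResidueField R)]
    (h : SSModel K₁ π q n S t jM j A B VM Winf W0) (hjq : B jM ∈ chartOne R EN j)
    (𝔪 : Ideal ↥(chartOne R EN j)) [h𝔪 : 𝔪.IsMaximal]
    (h0 : sheetIdeal j W0 h.two.chart_le_zero ≤ 𝔪) (x : ↥(chartOne R EN j)) :
    ∃ b s : ↥(chartOne R EM t), B (s : EM) ∈ locRing (chartOne R EN j) 𝔪 ∧
      B (s : EM) ∉ locMax (chartOne R EN j) 𝔪 ∧
      W0.valuation ((x : EN) * B (s : EM) - B (b : EM)) < 1 := by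
  have hπ𝔪 : algebraMap R ↥(chartOne R EN j) π ∈ 𝔪 :=
    h0 (sinfemb_pi_mem_sheetIdeal h.two.gauss_zero)
  exact GeoHyps.exists_unit_denominator_of_comap h.geo VM h.gauss_M B h.B_algebraMap W0
    h.comap_B_zero h.res_zero (chartOne R EN j)
    (fun x hx => sinfemb_mem_chartOne_of_isIntegral j hx) h.two.chart_le_zero _
    (fun b => mem_sheetIdeal_iff j W0 _ b) 𝔪 h0 hπ𝔪
    (exists_sub_mem_of_isMaximal_chartOne (K₁ := K₁) h.geo.irreducible h.j_transcendental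
      h.j_adjoin 𝔪 hπ𝔪) (le_locRing (h.B_t_mem hjq)) x

end Model

end Fermat.Agent.RB
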