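/-
S59 Gate 0, [HOSTGAL] — helper5 — part 2: **Kummer descent through the Legendre host at `p = 3`.**

`F = keyFq K M` (the function field of `X₁(M)` over `K`), `E = W1.legE K M = F_2(t)`,
`φ = W1.fullToLegE K M` (`q = x²`).  `E / φ F` is Galois (part 1: it is generated by the root `t` of
the Legendre sextic, whose conjugates are anharmonic transforms of `t`), and the sign twist
`x ↦ -x` of `K⸨x⸩` induces a non-trivial involution of `E / φ F` (it fixes `F_2` pointwise, maps
`t` to a root of the sextic, and moves `√(j - 1728)`, whose `x`-expansion has order `-1`).  Hence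
`[E : φ F] ∈ {2, 4, 6}` and the group of `E / φ F` has no character of order `3`:

* `mem_range_fullToLegE_of_pow` : `u ∈ E`, `u ^ (3 ^ n) ∈ φ F`  ⇒  `u ∈ φ F`
  (`K` contains a primitive `3 ^ n`-th root of unity);
* `exists_pow_eq_of_fullToLegE_eq_pow` : `φ G = u ^ (3 ^ n)`  ⇒  `G = v ^ (3 ^ n)`, `φ v = u`.

This replaces the norm argument of `DESC1_helper4_Main` (which needs `p ∤ [E : φ F]`, i.e. `p ≥ 5`)
at `p = 3`: `ThetaKummerAt` with exponent `c = 1`.
-/
import Mathlib
import Fermat.Agent.RB.P3_helper5_Sextic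
import Fermat.Agent.RB.DESC1_helper4_Deg

set_option autoImplicit false
set_option linter.unusedSectionVars false
set_option linter.unusedVariables false
set_option linter.style.haveILetI false
set_option synthInstance.maxHeartbeats 400000

open HahnSeries IntermediateField AlgebraicCurve ModularCurve Polynomial

noncomputable section

namespace Fermat.Agent.RB.P3

open Fermat.Agent.JA Fermat.Agent.SS Fermat.Agent.W1 Fermat.Agent.Igusa
open scoped Fermat.Agent.JA.Host

section Twist

variable (K : Type*) [Field K] [Algebra ℚ K]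

/-- the sign twist `x ↦ -x` as a `K`-algebra automorphism of `K⸨x⸩`. -/
def signTwist : LaurentSeries K ≃ₐ[K] LaurentSeries K :=
  AlgEquiv.ofRingEquiv (f := twist (-1 : Kˣ)) (fun c => by
    rw [LaurentSeries.algebraMap_apply]
    exact twist_C _ c)

theorem signTwist_apply (f : LaurentSeries K) : signTwist K f = twist (-1 : Kˣ) f := rfl

theorem signTwist_coeff (f : LaurentSeries K) (n : ℤ) :
    (signTwist K f).coeff n = (((-1 : Kˣ) ^ n : Kˣ) : K) * f.coeff n := rfl

theorem signTwist_signTwist (f : LaurentSeries K) : signTwist K (signTwist K f) = f := by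
  rw [signTwist_apply, signTwist_apply, ← twist_mul]
  have h : (-1 : Kˣ) * (-1) = 1 := by simp
  rw [h, twist_one]

theorem signTwist_qExpand_two (f : LaurentSeries K) :
    signTwist K (qExpand K 2 f) = qExpand K 2 f := by
  rw [signTwist_apply, twist_qExpand]
  have h : (-1 : Kˣ) ^ 2 = 1 := by simp
  rw [h, twist_one]

theorem signTwist_jqNModC : signTwist K (jqNModC K 2) = jqNModC K 2 :=
  signTwist_qExpand_two K _

theorem legT_aeval_ne_zero {p : K[X]} (hp : p ≠ 0) : aeval (legT K) p ≠ 0 := fun h =>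
  hp (transcendental_iff.mp (transcendental_legT K) p h)

theorem legT_ne_zero : legT K ≠ 0 := by
  have h := legT_aeval_ne_zero K (p := X) X_ne_zero
  rwa [aeval_X] at h

theorem legT_ne_one : legT K ≠ 1 := by
  have h := legT_aeval_ne_zero K (p := X - Polynomial.C 1) (X_sub_C_ne_zero 1)
  rw [map_sub, aeval_X, aeval_C, map_one] at h
  exact sub_ne_zero.mp h

/-- the Legendre relation in `K⸨x⸩`. -/
theorem legT_rel :
    jqNModC K 2 * (legT K ^ 2 * (legT K - 1) ^ 2) = 256 * (legT K ^ 2 - legT K + 1) ^ 3 := by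
  have h := jqNModC_mul_aeval_legT K
  rwa [Host.aeval_legA, Host.aeval_legB] at h

/-- **the sign twist maps `λ` into `K(λ)`** (to one of its anharmonic transforms). -/
theorem signTwist_legT_mem : signTwist K (legT K) ∈ K⟮legT K⟯ := by
  haveI : CharZero K := charZero_of_injective_algebraMap (algebraMap ℚ K).injective
  set t := legT K with ht
  set s := signTwist K t with hs
  have ht0 : t ≠ 0 := legT_ne_zero K
  have ht1 : t ≠ 1 := legT_ne_one K
  have htm : t ∈ K⟮t⟯ := IntermediateField.mem_adjoin_simple_self K t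
  have h1m : (1 : LaurentSeries K) ∈ K⟮t⟯ := one_mem _
  have hrel := legT_rel K
  rw [← ht] at hrel
  have hrel' : jqNModC K 2 * (s ^ 2 * (s - 1) ^ 2) = 256 * (s ^ 2 - s + 1) ^ 3 := by
    have h := congrArg (signTwist K) hrel
    simpa only [map_mul, map_pow, map_sub, map_add, map_one, map_ofNat, signTwist_jqNModC] using h
  have hid := anharmonic_identity t s
  haveI : CharZero (LaurentSeries K) :=
    charZero_of_injective_algebraMap (algebraMap K (LaurentSeries K)).injective
  have h256 : (-256 : LaurentSeries K) ≠ 0 := by norm_num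
  have hz : (s - t) * (s - (1 - t)) * (t * s - 1) * ((1 - t) * s - 1) * (t * s - (t - 1)) *
      ((t - 1) * s - t) = 0 := by
    apply mul_left_cancel₀ h256
    rw [mul_zero, ← hid]
    linear_combination (-(t ^ 2 * (t - 1) ^ 2)) * hrel' + (s ^ 2 * (s - 1) ^ 2) * hrel
  have h1t : (1 : LaurentSeries K) - t ≠ 0 := sub_ne_zero.mpr (Ne.symm ht1)
  have ht1' : t - 1 ≠ 0 := sub_ne_zero.mpr ht1
  rcases mul_eq_zero.mp hz with hz | hz
  · rcases mul_eq_zero.mp hz with hz | hz
    · rcases mul_eq_zero.mp hz with hz | hz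
      · rcases mul_eq_zero.mp hz with hz | hz
        · rcases mul_eq_zero.mp hz with hz | hz
          · rw [sub_eq_zero.mp hz]; exact htm
          · rw [sub_eq_zero.mp hz]; exact sub_mem h1m htm
        · have e : s = t⁻¹ := eq_inv_of_mul_eq_one_right (sub_eq_zero.mp hz)
          rw [e]; exact inv_mem htm
      · have e : s = (1 - t)⁻¹ := eq_inv_of_mul_eq_one_right (sub_eq_zero.mp hz)
        rw [e]; exact inv_mem (sub_mem h1m htm)
    · have e : s = (t - 1) / t := by
        rw [eq_div_iff ht0, mul_comm]; exact sub_eq_zero.mp hz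
      rw [e]; exact div_mem (sub_mem htm h1m) htm
  · have e : s = t / (t - 1) := by
      rw [eq_div_iff ht1', mul_comm]; exact sub_eq_zero.mp hz
    rw [e]; exact div_mem htm (sub_mem htm h1m)

/-- **the sign twist moves `λ`** (`√(j - 1728)` has an `x`-expansion of order `-1`). -/
theorem signTwist_legT_ne : signTwist K (legT K) ≠ legT K := by
  haveI : CharZero K := charZero_of_injective_algebraMap (algebraMap ℚ K).injective
  haveI : CharZero (LaurentSeries K) :=
    charZero_of_injective_algebraMap (algebraMap K (LaurentSeries K)).injective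
  intro hfix
  set t := legT K with ht
  have ht0 : t ≠ 0 := legT_ne_zero K
  have ht1 : t ≠ 1 := legT_ne_one K
  have hrel := legT_rel K
  rw [← ht] at hrel
  set d : LaurentSeries K := (t + 1) * (t - 2) * (2 * t - 1) / (t * (t - 1)) with hd
  have hdfix : signTwist K d = d := by
    rw [hd]
    simp only [map_div₀, map_mul, map_add, map_sub, map_one, map_ofNat, hfix]
  have hden : t * (t - 1) ≠ 0 := mul_ne_zero ht0 (sub_ne_zero.mpr ht1)
  have hsq : 64 * d ^ 2 = jqNModC K 2 - 1728 := by
    rw [hd, div_pow, mul_div_assoc', div_eq_iff (pow_ne_zero 2 hden)]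
    linear_combination (-1 : LaurentSeries K) * hrel
  have hsq' : (64 : LaurentSeries K) * d ^ 2 =
      jqNModC K 2 - algebraMap K (LaurentSeries K) 1728 := by
    rw [← Fermat.Agent.FG.ofNat_laurent_eq_algebraMap]
    exact hsq
  have hord := Fermat.Agent.FG.order_jqNModC_sub_const (K := K) 2 (1728 : K)
  rw [← hsq'] at hord
  have h64 : (64 : LaurentSeries K) ≠ 0 := by norm_num
  have hd0 : d ≠ 0 := by
    intro h0
    rw [h0] at hord
    simp at hord
  have h64o : (64 : LaurentSeries K).order = 0 := by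
    rw [Fermat.Agent.FG.ofNat_laurent_eq_algebraMap, LaurentSeries.algebraMap_apply]
    exact HahnSeries.order_C
  rw [HahnSeries.order_mul h64 (pow_ne_zero 2 hd0), h64o, zero_add, pow_two,
    HahnSeries.order_mul hd0 hd0] at hord
  have hdord : d.order = -1 := by
    push_cast at hord
    omega
  have hc : d.coeff (-1) ≠ 0 := by
    rw [← hdord]
    exact fun h => hd0 (HahnSeries.coeff_order_eq_zero.mp h)
  have h1 : (signTwist K d).coeff (-1) = d.coeff (-1) := by rw [hdfix]
  rw [signTwist_coeff] at h1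
  have h2 : (((-1 : Kˣ) ^ (-1 : ℤ) : Kˣ) : K) = -1 := by simp
  rw [h2] at h1
  have h3 : (2 : K) * d.coeff (-1) = 0 := by linear_combination -h1
  rcases mul_eq_zero.mp h3 with h4 | h4
  · exact two_ne_zero h4
  · exact hc h4

end Twist

section Host

variable (K : Type) [Field K] [Algebra ℚ K] (M : ℕ) [NeZero M] [W1Api M]

/-- the Legendre coordinate as an element of the host. -/
def legTE : ↥(W1.legE K M) := ⟨legT K, Host.mem_Etu_t _ _ _⟩

theorem coe_legTE : ((legTE K M : ↥(W1.legE K M)) : LaurentSeries K) = legT K := rfl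

/-- the Legendre relation in the host. -/
theorem legTE_rel :
    W1.fullToLegE K M (W1.jGen K M) * (legTE K M ^ 2 * (legTE K M - 1) ^ 2) =
      256 * (legTE K M ^ 2 - legTE K M + 1) ^ 3 := by
  apply Subtype.ext
  have h := legT_rel K
  push_cast
  rw [W1.coe_fullToLegE, W1.coe_jGen']
  exact h

theorem legTE_ne_zero : legTE K M ≠ 0 := fun h => legT_ne_zero K (congrArg Subtype.val h)

theorem legTE_ne_one : legTE K M ≠ 1 := fun h => legT_ne_one K (congrArg Subtype.val h)

theorem one_sub_legTE_ne : 1 - legTE K M ≠ legTE K M := by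
  intro h
  have h' : (1 : LaurentSeries K) - legT K = legT K := congrArg Subtype.val h
  have hp : (Polynomial.C 2 * X - Polynomial.C 1 : K[X]) ≠ 0 := by
    intro h0
    have := congrArg (Polynomial.eval 0) h0
    simp at this
  apply legT_aeval_ne_zero K hp
  rw [map_sub, map_mul, aeval_X, aeval_C, aeval_C, map_one, map_ofNat]
  linear_combination -h'

theorem inv_legTE_ne : (legTE K M)⁻¹ ≠ legTE K M := by
  intro h
  have h' : (legT K)⁻¹ = legT K := congrArg Subtype.val h
  have hp : (X ^ 2 - Polynomial.C 1 : K[X]) ≠ 0 := by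
    intro h0
    have := congrArg (Polynomial.eval 0) h0
    simp at this
  apply legT_aeval_ne_zero K hp
  rw [map_sub, map_pow, aeval_X, aeval_C, map_one, pow_two]
  nth_rewrite 1 [← h']
  rw [inv_mul_cancel₀ (legT_ne_zero K), sub_self]

theorem one_sub_legTE_ne_inv : 1 - legTE K M ≠ (legTE K M)⁻¹ := by
  intro h
  have h' : (1 : LaurentSeries K) - legT K = (legT K)⁻¹ := congrArg Subtype.val h
  have hp : (X ^ 2 - X + Polynomial.C 1 : K[X]) ≠ 0 := by
    intro h0
    have := congrArg (Polynomial.eval 0) h0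
    simp at this
  apply legT_aeval_ne_zero K hp
  rw [map_add, map_sub, map_pow, aeval_X, aeval_C, map_one]
  have h2 : (1 - legT K) * legT K = 1 := by
    rw [h', inv_mul_cancel₀ (legT_ne_zero K)]
  linear_combination -h2

/-- **`E = φ(F)(t)`** over `K` (the `Ω`-version is `DESC1.adjoin_legTE₁_eq_top`). -/
theorem adjoin_legTE_eq_top :
    letI : Algebra ↥(W1.keyFq K M) ↥(W1.legE K M) := (W1.fullToLegE K M).toRingHom.toAlgebra
    IntermediateField.adjoin ↥(W1.keyFq K M) {legTE K M} = ⊤ := by
  letI : Algebra ↥(W1.keyFq K M) ↥(W1.legE K M) := (W1.fullToLegE K M).toRingHom.toAlgebra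
  haveI : IsScalarTower K ↥(W1.keyFq K M) ↥(W1.legE K M) :=
    isScalarTower_along (W1.fullToLegE K M)
  rw [eq_top_iff]
  intro e _
  set S := IntermediateField.adjoin ↥(W1.keyFq K M) {legTE K M} with hS
  let T : IntermediateField K (LaurentSeries K) :=
    (S.restrictScalars K).map (W1.legE K M).val
  have h1 : W1.keyFw K M 2 ≤ T := by
    intro x hx
    obtain ⟨y, hy, rfl⟩ := (IntermediateField.mem_map _).mp hx
    refine (IntermediateField.mem_map _).mpr ⟨W1.fullToLegE K M ⟨y, hy⟩, ?_, rfl⟩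
    show W1.fullToLegE K M ⟨y, hy⟩ ∈ S
    exact S.algebraMap_mem ⟨y, hy⟩
  have h2 : K⟮legT K⟯ ≤ T := by
    rw [adjoin_simple_le_iff]
    refine (IntermediateField.mem_map _).mpr ⟨legTE K M, ?_, rfl⟩
    show legTE K M ∈ S
    exact IntermediateField.mem_adjoin_simple_self _ _
  have h3 : W1.legE K M ≤ T := by
    show Host.Etu (W1.keyFw K M 2) (legT K) 1 ≤ T
    rw [W1.Etu_one_eq_sup]
    exact sup_le h1 h2
  obtain ⟨s, hs, hse⟩ := (IntermediateField.mem_map _).mp (h3 e.2)
  have : s = e := Subtype.ext hse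
  rw [← this]
  exact hs

/-- the sign twist preserves the Legendre host. -/
theorem signTwist_mem_legE {f : LaurentSeries K} (hf : f ∈ W1.legE K M) :
    signTwist K f ∈ W1.legE K M := by
  have e : W1.legE K M = W1.keyFw K M 2 ⊔ K⟮legT K⟯ := W1.Etu_one_eq_sup K M 2 (legT K)
  have h : (W1.legE K M).map ((signTwist K : LaurentSeries K ≃ₐ[K] LaurentSeries K) :
      LaurentSeries K →ₐ[K] LaurentSeries K) ≤ W1.legE K M := by
    rw [e, IntermediateField.map_sup, IntermediateField.adjoin_map, Set.image_singleton]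
    refine sup_le ?_ ?_
    · rintro _ ⟨f, hf, rfl⟩
      obtain ⟨g, hg, rfl⟩ := mem_hostImage_iff.mp hf
      refine (le_sup_left : W1.keyFw K M 2 ≤ _) ?_
      show signTwist K (qExpand K 2 g) ∈ _
      rw [signTwist_qExpand_two]
      exact mem_hostImage_iff.mpr ⟨g, hg, rfl⟩
    · rw [adjoin_simple_le_iff]
      exact (le_sup_right : K⟮legT K⟯ ≤ _) (signTwist_legT_mem K)
  exact h ⟨f, hf, rfl⟩

/-- the sign twist on the Legendre host. -/
def hostSignTwist : ↥(W1.legE K M) ≃+* ↥(W1.legE K M) where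
  toFun x := ⟨signTwist K x, signTwist_mem_legE K M x.2⟩
  invFun x := ⟨signTwist K x, signTwist_mem_legE K M x.2⟩
  left_inv x := Subtype.ext (signTwist_signTwist K _)
  right_inv x := Subtype.ext (signTwist_signTwist K _)
  map_mul' x y := Subtype.ext (map_mul (signTwist K) _ _)
  map_add' x y := Subtype.ext (map_add (signTwist K) _ _)

theorem coe_hostSignTwist (x : ↥(W1.legE K M)) :
    ((hostSignTwist K M x : ↥(W1.legE K M)) : LaurentSeries K) = signTwist K x := rfl

theorem hostSignTwist_fullToLegE (f : ↥(W1.keyFq K M)) :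
    hostSignTwist K M (W1.fullToLegE K M f) = W1.fullToLegE K M f := by
  apply Subtype.ext
  rw [coe_hostSignTwist, W1.coe_fullToLegE]
  exact signTwist_qExpand_two K _

theorem hostSignTwist_hostSignTwist (x : ↥(W1.legE K M)) :
    hostSignTwist K M (hostSignTwist K M x) = x :=
  Subtype.ext (signTwist_signTwist K _)

theorem hostSignTwist_legTE_ne : hostSignTwist K M (legTE K M) ≠ legTE K M := fun h =>
  signTwist_legT_ne K (congrArg Subtype.val h)

/-- **Kummer descent through the Legendre host at `p = 3`**: `u ∈ E`, `u ^ (3 ^ n) ∈ φ F` ⇒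
`u ∈ φ F` (`K ∋ ζ` a primitive `3 ^ n`-th root of unity). -/
theorem mem_range_fullToLegE_of_pow {n : ℕ} {ζ : K} (hζ : IsPrimitiveRoot ζ (3 ^ n))
    {u : ↥(W1.legE K M)} (hu : u ^ (3 ^ n) ∈ (W1.fullToLegE K M).toRingHom.range) :
    u ∈ (W1.fullToLegE K M).toRingHom.range := by
  letI : Algebra ↥(W1.keyFq K M) ↥(W1.legE K M) := (W1.fullToLegE K M).toRingHom.toAlgebra
  haveI : IsScalarTower K ↥(W1.keyFq K M) ↥(W1.legE K M) :=
    isScalarTower_along (W1.fullToLegE K M)
  haveI : CharZero K := charZero_of_injective_algebraMap (algebraMap ℚ K).injective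
  haveI : CharZero ↥(W1.keyFq K M) :=
    charZero_of_injective_algebraMap (algebraMap K ↥(W1.keyFq K M)).injective
  let τ : ↥(W1.legE K M) ≃ₐ[↥(W1.keyFq K M)] ↥(W1.legE K M) :=
    AlgEquiv.ofRingEquiv (f := hostSignTwist K M) (hostSignTwist_fullToLegE K M)
  have hτ2 : τ * τ = 1 := by
    apply AlgEquiv.ext
    intro x
    exact hostSignTwist_hostSignTwist K M x
  have hτ1 : τ ≠ 1 := by
    intro h
    apply hostSignTwist_legTE_ne K M
    have := congrArg (fun σ : ↥(W1.legE K M) ≃ₐ[↥(W1.keyFq K M)] ↥(W1.legE K M) =>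
      σ (legTE K M)) h
    exact this
  have hμ : ∀ η : ↥(W1.legE K M), η ^ (3 ^ n) = 1 →
      η ∈ (algebraMap ↥(W1.keyFq K M) ↥(W1.legE K M)).range := by
    intro η hη
    have hζL : IsPrimitiveRoot (algebraMap K ↥(W1.legE K M) ζ) (3 ^ n) :=
      hζ.map_of_injective (algebraMap K ↥(W1.legE K M)).injective
    obtain ⟨i, -, hi⟩ := hζL.eq_pow_of_pow_eq_one hη
    refine ⟨(algebraMap K ↥(W1.keyFq K M) ζ) ^ i, ?_⟩
    rw [map_pow, ← IsScalarTower.algebraMap_apply, hi]
  exact mem_range_of_pow_mem_legSextic (F := ↥(W1.keyFq K M)) (L := ↥(W1.legE K M))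
    (t := legTE K M) (j := W1.jGen K M) (legTE_ne_zero K M) (legTE_ne_one K M) (legTE_rel K M)
    (adjoin_legTE_eq_top K M) (one_sub_legTE_ne K M) (inv_legTE_ne K M)
    (one_sub_legTE_ne_inv K M) τ hτ2 hτ1 hμ hu

/-- the form used by the descent: `φ G = u ^ (3 ^ n)` ⇒ `G` is a `3 ^ n`-th power in `F`. -/
theorem exists_pow_eq_of_fullToLegE_eq_pow {n : ℕ} {ζ : K} (hζ : IsPrimitiveRoot ζ (3 ^ n))
    {G : ↥(W1.keyFq K M)} {u : ↥(W1.legE K M)}
    (h : (W1.fullToLegE K M).toRingHom G = u ^ (3 ^ n)) :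
    ∃ v : ↥(W1.keyFq K M), G = v ^ (3 ^ n) ∧ W1.fullToLegE K M v = u := by
  obtain ⟨v, hv⟩ := mem_range_fullToLegE_of_pow K M hζ (u := u) ⟨G, h⟩
  refine ⟨v, ?_, hv⟩
  apply (W1.fullToLegE K M).toRingHom.injective
  rw [h, map_pow, hv]

end Host

end Fermat.Agent.RB.P3

end
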