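/-
S59 Gate 0, [HOSTGAL] — helper5 — part 3: **(KEY-H) at `p = 3`: `Θ_σ` kills `J₁(M)[3^∞]`.**

`DESC1_helper4_Main` proves `ThetaKillsJ1 M p` for `p ≥ 5` from the host literal `LegThetaBase` by a
norm from the Legendre host `E'' = legE K₁ M` down to `F = K₁·F₁(M, 1)`, which costs the exponent
`c = [E'' : F] ∈ {2, 4, 6}` and therefore needs `p ∤ 6`.  At `p = 3` the norm is replaced by the
Kummer descent of `P3_helper5_HostGal` (`E'' / F` is Galois and its group has no character of order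
`3`): `ThetaKummerAt M 3 1 σ d`, exponent `c = 1`.

* `LegThetaBaseAll` : the host literal without the (unused) restriction `5 ≤ p`;
* `legThetaBaseAll_of_facts : LegLEFacts → LegThetaBaseAll` (same proof as
  `legThetaBase_of_facts`, which never uses `5 ≤ p`);
* `thetaKummerAt_three_of_legThetaBaseAll`, `thetaKills_three_of_legThetaBaseAll`,
  `thetaKillsJ1_three_of_legThetaBaseAll` (the statement of `ThetaKillsJ1 M 3` without `5 ≤ p`);
* `legThetaBaseAll_closed`, `thetaKillsJ1_three_closed` : the unconditional forms (helper8's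
  `legL_E_facts`).
-/
import Mathlib
import Fermat.Agent.RB.P3_helper5_HostGal
import Fermat.Agent.RB.DESC1_helper4_Main
import Fermat.Agent.RB.KEYH_helper5_Theta
import Fermat.Agent.RB.RECS_helper8_Host

set_option autoImplicit false
set_option linter.unusedSectionVars false
set_option linter.unusedVariables false
set_option linter.style.haveILetI false
set_option synthInstance.maxHeartbeats 400000

open HahnSeries IntermediateField AlgebraicCurve ModularCurve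

noncomputable section

namespace Fermat.Agent.RB.DESC1

open Fermat.Agent.JA Fermat.Agent.FF Fermat.Agent.SS Fermat.Agent.W1 Fermat.Agent.GR
  Fermat.Agent.TW.Kill Fermat.Agent.S35 Fermat.Agent.NP

local notation "Ω" => AlgebraicClosure ℚ
local notation "GQ" => (AlgebraicClosure ℚ ≃ₐ[ℚ] AlgebraicClosure ℚ)

/-- **the host literal of package G for ALL primes `p ≠ r`** (`LegThetaBase` without `5 ≤ p`). -/
def LegThetaBaseAll : Prop :=
  ∀ (M' r : ℕ) [NeZero M'] [NeZero r] [NeZero (M' * r)], 5 ≤ M' → r.Prime → r ≠ 2 →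
    Nat.Coprime M' r →
  ∀ (A : ValuationSubring Ω), A.LiesOverPrime r → ∀ σ ∈ A.inertiaSubgroupIn ℚ,
  ∀ (p : ℕ), p.Prime → p ≠ r → ∀ n : ℕ,
  ∃ K₀ : IntermediateField ℚ Ω, IsBase r K₀ ∧
    ∀ (K₁ : IntermediateField ℚ Ω) [Normal ℚ ↥K₁], IsGalBase r K₁ → K₀ ≤ K₁ →
      HostThetaAt M' r σ (p ^ n) K₁

theorem legThetaBase_of_all (h : LegThetaBaseAll) : LegThetaBase :=
  fun M' r _ _ _ hM' hr hr2 hcop A hA σ hσ p hp _ hpr n =>
    h M' r hM' hr hr2 hcop A hA σ hσ p hp hpr n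

section Main

variable (M' r : ℕ) [NeZero M'] [NeZero r] [NeZero (M' * r)] [W1Api (M' * r)]

set_option maxHeartbeats 6400000 in
/-- **the Kummer form over `Ω` at `p = 3`, with exponent `c = 1`, from the host literal**: the norm
argument of `DESC1.thetaKummerAt_of_legThetaBase` (which needs `p ∤ [E'' : F]`) is replaced by the
Kummer descent `exists_pow_eq_of_fullToLegE_eq_pow` through the Legendre host. -/
theorem thetaKummerAt_three_of_legThetaBaseAll (hB : LegThetaBaseAll) (hM' : 5 ≤ M')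
    (hr : r.Prime) (hr2 : r ≠ 2) (hcop : Nat.Coprime M' r) {A : ValuationSubring Ω}
    (hA : A.LiesOverPrime r) {σ : GQ} (hσ : σ ∈ A.inertiaSubgroupIn ℚ) (hpr : 3 ≠ r) :
    ThetaKummerAt (M' * r) 3 1 σ (cyc (M' * r) σ)⁻¹ := by
  classical
  intro n f hf hdiv
  have hp : Nat.Prime 3 := Nat.prime_three
  have hm0 : 0 < 3 ^ n := pow_pos hp.pos n
  -- a primitive `3 ^ n`-th root of unity
  obtain ⟨ζ, hζ⟩ := HasEnoughRootsOfUnity.exists_primitiveRoot Ω (3 ^ n)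
  -- `Θ f` over `Ω`
  set sΩ : SemilinearAut Ω ↥(F₁Bar (M' * r) 1) := arithmeticGalois (F₁ (M' * r) 1) σ with hsΩ
  set dΩ : SemilinearAut Ω ↥(F₁Bar (M' * r) 1) := diaSLBar (M' * r) (cyc (M' * r) σ)⁻¹ with hdΩ
  set GΩ : ↥(F₁Bar (M' * r) 1) := thetaFun sΩ dΩ f with hGΩ
  have hGΩ0 : GΩ ≠ 0 := thetaFun_ne_zero sΩ dΩ hf
  have hGΩL : ((GΩ : ↥(F₁Bar (M' * r) 1)) : LaurentSeries Ω) ≠ 0 := fun h0 =>
    hGΩ0 (Subtype.ext h0)
  obtain ⟨μ, hμ⟩ := IsAlgClosed.exists_pow_nat_eq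
    (((GΩ : ↥(F₁Bar (M' * r) 1)) : LaurentSeries Ω).leadingCoeff) hm0
  have hμ0 : μ ≠ 0 := by
    rintro rfl
    rw [zero_pow hm0.ne'] at hμ
    exact HahnSeries.leadingCoeff_ne_zero.2 hGΩL hμ.symm
  -- the divisor of `f` on the host over `Ω`
  haveI : HasPrincipalDivisors Ω ↥(W1.legE Ω (M' * r)) := W1.up_hasPrincipalDivisors_legE (M' * r)
  have hfE : W1.fullToLegE Ω (M' * r) f ≠ 0 := (map_ne_zero _).2 hf
  obtain ⟨D1, hD1, -⟩ :=
    HasPrincipalDivisors.exists_divisor (K := Ω) (W1.fullToLegE Ω (M' * r) f) hfE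
  -- the base
  obtain ⟨K₀, hK₀, hhost⟩ := hB M' r hM' hr hr2 hcop A hA σ hσ 3 hp hpr n
  obtain ⟨K₁, hK₁, hle, htK, hdesc, hrat⟩ :=
    exists_ge_isGalBase_legE₁ (M' * r) hK₀ ({μ, ζ} : Finset Ω)
      (f := fun _ : Unit => ((f : ↥(F₁Bar (M' * r) 1)) : LaurentSeries Ω)) (fun _ => f.2)
      D1.support
  haveI := hK₁.normal
  letI instC : Algebra ↥K₁ ℂ := baseToComplex K₁
  haveI : IsScalarTower ℚ ↥K₁ ℂ := IsScalarTower.of_algebraMap_eq' (Subsingleton.elim _ _)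
  obtain ⟨δ, hdict, hmain⟩ := hhost K₁ hK₁ hle
  obtain ⟨f₁, hf₁mem, hf₁⟩ := hdesc ()
  set Fd : ↥(W1.keyFq ↥K₁ (M' * r)) := ⟨f₁, hf₁mem⟩ with hFddef
  have hBC : W1.keyFqBC (M' * r) K₁ Fd = f := Subtype.ext hf₁
  have hFd0 : Fd ≠ 0 := by
    intro h0
    apply hf
    rw [← hBC, h0, map_zero]
  -- the function on the host over `K₁`
  set g : ↥(W1.legE ↥K₁ (M' * r)) := W1.fullToLegE ↥K₁ (M' * r) Fd with hgdef
  have hg0 : g ≠ 0 := (map_ne_zero _).2 hFd0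
  have hgBC : W1.legBC (M' * r) K₁ g = W1.fullToLegE Ω (M' * r) f := by
    rw [hgdef, W1.bcdeg_legBC_fullToLegE, hBC]
  have hkum : IsKum ↥K₁ (3 ^ n) g :=
    isKum_descended_leg (M' * r) f hf hdiv D1 hD1 K₁ hrat g hgBC
  -- the semilinear forms on the host
  set sH : SemilinearAut ↥K₁ ↥(W1.legE ↥K₁ (M' * r)) := hostGal (M' * r) K₁ (resGal K₁ σ) with hsH
  set dH : SemilinearAut ↥K₁ ↥(W1.legE ↥K₁ (M' * r)) := SemilinearAut.ofAlgAut δ with hdH
  have ha : ∀ x : ↥(W1.legE ↥K₁ (M' * r)),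
      (coeffRingAut (coeffStable_legHost (K := ↥K₁) (F₁ (M' * r) 1)) (resGal K₁ σ) :
        ↥(legEL ↥K₁ (M' * r) 1) →+* ↥(legEL ↥K₁ (M' * r) 1)) x = sH • x := fun x => rfl
  have hb : ∀ x : ↥(W1.legE ↥K₁ (M' * r)),
      (δ : ↥(legEL ↥K₁ (M' * r) 1) →+* ↥(legEL ↥K₁ (M' * r) 1)) x = dH • x := fun x => rfl
  have e2 := hostG₂_eq_g₂Fun' sH dH _ _ ha hb g
  have e3 := hostTheta_eq_thetaFun' sH dH _ _ ha hb g
  -- `Θ` over `K₁`
  set sK : SemilinearAut ↥K₁ ↥(W1.keyFq ↥K₁ (M' * r)) :=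
    arithmeticGalois (F₁ (M' * r) 1) (resGal K₁ σ) with hsK
  set dK : SemilinearAut ↥K₁ ↥(W1.keyFq ↥K₁ (M' * r)) :=
    diaSL (k := ↥K₁) (M' * r) 1 (cyc (M' * r) σ)⁻¹ with hdK
  set GK : ↥(W1.keyFq ↥K₁ (M' * r)) := thetaFun sK dK Fd with hGK
  have hhostG : (W1.fullToLegE ↥K₁ (M' * r)).toRingHom GK = thetaFun sH dH g := by
    rw [hGK, map_thetaFun (W1.fullToLegE ↥K₁ (M' * r)).toRingHom (s := sK) (δ := dK) (s' := sH)
      (δ' := dH) (fun x => fullToLegE_arithmeticGalois_smul (M' * r) K₁ (resGal K₁ σ) x)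
      (fun x => (hdict x).symm) Fd]
    rfl
  have hBCG : W1.keyFqBC (M' * r) K₁ GK = GΩ := by
    rw [hGK, map_thetaFun (W1.keyFqBC (M' * r) K₁) (s := sK) (δ := dK) (s' := sΩ) (δ' := dΩ)
      (fun x => keyFqBC_arithmeticGalois_smul (M' * r) K₁ σ x)
      (fun x => keyFqBC_diaAlg (M' * r) K₁ (cyc (M' * r) σ)⁻¹ x) Fd, hBC]
  -- the hypotheses of the host statement
  have hordg := fun P => (hkum.g₂Fun hg0 sH dH).hord P
  have hordG := fun P => (hkum.thetaFun hg0 sH dH).hord P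
  have hμK : μ ∈ K₁ := htK μ (Finset.mem_insert_self μ _)
  have hlead : ∃ c : ↥K₁, c ≠ 0 ∧
      ((thetaFun sH dH g : ↥(W1.legE ↥K₁ (M' * r))) : LaurentSeries ↥K₁).leadingCoeff =
        c ^ (3 ^ n) := by
    refine ⟨⟨μ, hμK⟩, fun h0 => hμ0 (congrArg Subtype.val h0), ?_⟩
    rw [← hhostG]
    show ((W1.fullToLegE ↥K₁ (M' * r) GK : ↥(W1.legE ↥K₁ (M' * r))) :
      LaurentSeries ↥K₁).leadingCoeff = _
    rw [W1.coe_fullToLegE, leadingCoeff_qExpand]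
    apply (algebraMap ↥K₁ Ω).injective
    rw [← leadingCoeff_coeffMap_of_injective (f := algebraMap ↥K₁ Ω)
      (algebraMap ↥K₁ Ω).injective, ← W1.coe_keyFqBC, hBCG, map_pow, ← hμ]
    rfl
  rw [← e2] at hordg
  rw [← e3] at hordG hlead
  obtain ⟨u, hu⟩ := hmain g hg0 hordg hordG hlead
  rw [e3] at hu
  -- Kummer descent through the host
  have hu' : (W1.fullToLegE ↥K₁ (M' * r)).toRingHom GK = u ^ (3 ^ n) := by
    rw [hhostG]
    exact hu
  have hζK : ζ ∈ K₁ := htK ζ (Finset.mem_insert_of_mem (Finset.mem_singleton_self ζ))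
  have hζ' : IsPrimitiveRoot (⟨ζ, hζK⟩ : ↥K₁) (3 ^ n) :=
    IsPrimitiveRoot.of_map_of_injective (f := algebraMap ↥K₁ Ω) hζ (algebraMap ↥K₁ Ω).injective
  obtain ⟨v, hv, -⟩ := P3.exists_pow_eq_of_fullToLegE_eq_pow ↥K₁ (M' * r) hζ' hu'
  have h5 := congrArg (W1.keyFqBC (M' * r) K₁) hv
  rw [map_pow, hBCG] at h5
  set Nu : ↥(F₁Bar (M' * r) 1) := W1.keyFqBC (M' * r) K₁ v with hNu
  have hNu0 : Nu ≠ 0 := by
    intro h0
    rw [h0, zero_pow hm0.ne'] at h5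
    exact hGΩ0 h5
  exact ⟨1, Nu, one_ne_zero, hNu0, by rw [pow_one, map_one, one_mul]; exact h5⟩

end Main

section Final

/-- **`Θ_σ` kills `J₁(M' r)[3^∞]`, from the host literal.** -/
theorem thetaKills_three_of_legThetaBaseAll (hB : LegThetaBaseAll) (M' r : ℕ) [NeZero M']
    [NeZero r] [NeZero (M' * r)] (hM' : 5 ≤ M') (hr : r.Prime) (hr2 : r ≠ 2)
    (hcop : Nat.Coprime M' r) {A : ValuationSubring Ω} (hA : A.LiesOverPrime r)
    {σ : GQ} (hσ : σ ∈ A.inertiaSubgroupIn ℚ) (hpr : 3 ≠ r)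
    (x : J₁ (M' * r)) (hx : ∃ n : ℕ, 3 ^ n • x = 0) :
    ((DistribMulAction.toAddMonoidEnd GQ (J₁ (M' * r)) σ - 1) ^ 3 *
      (DistribMulAction.toAddMonoidEnd GQ (J₁ (M' * r)) σ -
        diaBarEnd (M' * r) (cyc (M' * r) σ)⁻¹) ^ 1 : AddMonoid.End (J₁ (M' * r))) x = 0 := by
  have hM5 : 5 ≤ M' * r := le_trans hM' (Nat.le_mul_of_pos_right _ hr.pos)
  haveI : W1Api (M' * r) := w1Api_of_five_le (M' * r) hM5
  exact theta_kills_of_thetaKummerAt (M' * r) (Nat.coprime_one_left 3) (by norm_num) σ _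
    (thetaKummerAt_three_of_legThetaBaseAll M' r hB hM' hr hr2 hcop hA hσ hpr) x hx

/-- **the statement of `ThetaKillsJ1 M 3` without the hypothesis `5 ≤ p`**, from the host
literal. -/
theorem thetaKillsJ1_three_of_legThetaBaseAll (hB : LegThetaBaseAll) (M : ℕ) [NeZero M]
    (hM : 5 ≤ M) :
    ∀ r : ℕ, r.Prime → r ∣ M → ¬ r ^ 2 ∣ M → r ≠ 3 → r ≠ 2 → 5 ≤ M / r →
      ∀ A : ValuationSubring Ω, A.LiesOverPrime r → ∀ σ ∈ A.inertiaSubgroupIn ℚ,
        ∃ k l : ℕ, ∀ x : J₁ M, (∃ n : ℕ, 3 ^ n • x = 0) →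
          ((DistribMulAction.toAddMonoidEnd GQ (J₁ M) σ - 1) ^ k *
            (DistribMulAction.toAddMonoidEnd GQ (J₁ M) σ - diaBarEnd M (cyc M σ)⁻¹) ^ l) x =
            0 := by
  intro r hr hrM hr2M hrp hr2 hMr A hA σ hσ
  obtain ⟨M', hM'⟩ : ∃ M', M = M' * r := ⟨M / r, (Nat.div_mul_cancel hrM).symm⟩
  subst hM'
  have hM'r : M' * r / r = M' := Nat.mul_div_cancel _ hr.pos
  rw [hM'r] at hMr
  haveI : NeZero M' := ⟨by omega⟩
  haveI : NeZero r := ⟨hr.ne_zero⟩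
  have hcop : Nat.Coprime M' r := by
    rw [Nat.coprime_comm, Nat.Prime.coprime_iff_not_dvd hr]
    intro h
    apply hr2M
    rw [pow_two]
    exact Nat.mul_dvd_mul h dvd_rfl |>.trans (by rw [Nat.mul_comm])
  refine ⟨3, 1, fun x hx => ?_⟩
  exact thetaKills_three_of_legThetaBaseAll hB M' r hMr hr hr2 hcop hA hσ
    (fun h => hrp h.symm) x hx

end Final

end Fermat.Agent.RB.DESC1

namespace Fermat.Agent.RB

open Fermat.Agent.JA Fermat.Agent.Igusa Fermat.Agent.SS Fermat.Agent.FF Fermat.Agent.MP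
  Fermat.Agent.W1 Fermat.Agent.SS.TwoExt Fermat.Agent.TW.Kill

open scoped Fermat.Agent.JA.Host

local notation "Ω" => AlgebraicClosure ℚ
local notation "GQ" => (AlgebraicClosure ℚ ≃ₐ[ℚ] AlgebraicClosure ℚ)

attribute [local instance] baseToComplex

set_option maxHeartbeats 3200000 in
/-- **the host literal for all primes `p ≠ r` from the concrete host glue `LegLEFacts`** (the proof
of `legThetaBase_of_facts` never uses `5 ≤ p`). -/
theorem legThetaBaseAll_of_facts (h : LegLEFacts) : DESC1.LegThetaBaseAll := by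
  intro M' r _ _ _ hM' hr hr2 hcop A hA σ hσ p hp hpr n
  classical
  haveI : Fact r.Prime := ⟨hr⟩
  have hrM : ¬ r ∣ M' := by
    rw [← Nat.Prime.coprime_iff_not_dvd hr]
    exact hcop.symm
  -- a Bézout relation
  obtain ⟨x, y, hbez⟩ : ∃ x y : ℤ, (r : ℤ) * x + M' * y = 1 := by
    have h1 : IsCoprime (r : ℤ) (M' : ℤ) := Nat.isCoprime_iff_coprime.mpr hcop.symm
    obtain ⟨a, b, hab⟩ := h1
    exact ⟨a, b, by linarith⟩
  -- the faithful character over the flat base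
  obtain ⟨ψF, hψF⟩ := exists_faithful_mulChar_baseRing (r := r) A (isBase_flatBase (ℓ := r))
  obtain ⟨K₀, hK₀, hroots, H⟩ :=
    legL_kummer_cover_galBase M' r hM' hr hr2 hrM A hA x y hbez ψF hψF
  refine ⟨K₀, hK₀, fun K₁ _ hK₁ hle => ?_⟩
  have hflat : flatBase r ≤ K₁ := hK₁.flatBase_le
  haveI := hK₁.isBase.isDiscreteValuationRing hA
  haveI : CharZero ↥(baseRing A K₁) := charZero_valuationSubring_of_algebraRat _
  obtain ⟨ϖ, hϖ⟩ := IsDiscreteValuationRing.exists_irreducible ↥(baseRing A K₁)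
  have h2 : IsUnit (2 : ↥(baseRing A K₁)) := isUnit_ofNat_baseRing hA K₁ Nat.prime_two hr2
  haveI := isScalarTower_baseToComplex K₁
  haveI : Fact (legEL ↥K₁ M' r ≤ legEL ↥K₁ (M' * r) 1) :=
    ⟨legEL_raise_le ↥K₁ M' r (by omega)⟩
  haveI : FiniteDimensional ↥(↥K₁)⟮jqNModC ↥K₁ 2⟯ ↥(legEL ↥K₁ M' r) :=
    finite_legEL_adjoin_j_base K₁ hr hrM (by omega)
  haveI : FiniteDimensional ↥(↥K₁)⟮jqNModC ↥K₁ 2⟯ ↥(legEL ↥K₁ (M' * r) 1) :=
    finite_legEL_raise_adjoin_j_base K₁ hr hrM (by omega)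
  obtain ⟨Winf'', W0'', two'', hexti, hext0, hmod₁, hmod₂, hfr, hspani, hspan0⟩ :=
    H K₁ hK₁ hle hflat ϖ hϖ h2
  obtain ⟨δ, hdict, hsinf, hs0, hres, hdinf, hd0, hcomm, hres0⟩ :=
    h M' r hM' hr hr2 hrM A hA K₁ hK₁.isBase ϖ hϖ h2 x y hbez
      (fun ζ hζ => hle (hroots ζ hζ)) (legPsi A hflat ψF) (legPsi_injective A hflat ψF hψF) hσ
      Winf'' W0'' two'' hexti hext0 hfr hspani hspan0
  have hrm : ¬ r ∣ p ^ n := by
    intro hd
    have h1 : r ∣ p := hr.dvd_of_dvd_pow hd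
    exact hpr ((Nat.prime_dvd_prime_iff_eq hr hp).mp h1).symm
  exact DESC1.hostThetaAt_of_sheets M' r hr A hA K₁ hK₁.isBase ϖ hϖ hσ (pow_pos hp.pos n) hrm
    two'' hmod₁ hmod₂ hsinf hs0 hres δ hdict hdinf hd0 hcomm hres0

/-- **the host literal for all primes `p ≠ r`, unconditionally** (helper8's `legL_E_facts`). -/
theorem legThetaBaseAll_closed : DESC1.LegThetaBaseAll := legThetaBaseAll_of_facts legL_E_facts

/-- **(KEY-H) at `p = 3`, unconditionally: `(σ - 1)³ (σ - ⟨cyc σ⟩⁻¹)` kills `J₁(M)[3^∞]`** for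
`σ` in the inertia at a prime `r ∉ {2, 3}` exactly dividing `M`, `5 ≤ M / r` (the statement of
`ThetaKillsJ1 M 3` without its hypothesis `5 ≤ p`). -/
theorem thetaKillsJ1_three_closed (M : ℕ) [NeZero M] (hM : 5 ≤ M) :
    ∀ r : ℕ, r.Prime → r ∣ M → ¬ r ^ 2 ∣ M → r ≠ 3 → r ≠ 2 → 5 ≤ M / r →
      ∀ A : ValuationSubring Ω, A.LiesOverPrime r → ∀ σ ∈ A.inertiaSubgroupIn ℚ,
        ∃ k l : ℕ, ∀ x : J₁ M, (∃ n : ℕ, 3 ^ n • x = 0) →
          ((DistribMulAction.toAddMonoidEnd GQ (J₁ M) σ - 1) ^ k *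
            (DistribMulAction.toAddMonoidEnd GQ (J₁ M) σ - diaBarEnd M (cyc M σ)⁻¹) ^ l) x =
            0 :=
  DESC1.thetaKillsJ1_three_of_legThetaBaseAll legThetaBaseAll_closed M hM

end Fermat.Agent.RB

end
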