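import Mathlib

set_option autoImplicit false

open Polynomial IntermediateField

namespace Fermat.Agent.RB.P3

section Identity

variable {R : Type*} [CommRing R]

/-- the anharmonic factorisation `B(t) A(X) - A(t) B(X) = -256 ∏ (X - mᵢ(t))·(denominators)`. -/
theorem anharmonic_identity (t X : R) :
    t ^ 2 * (t - 1) ^ 2 * (256 * (X ^ 2 - X + 1) ^ 3) -
      256 * (t ^ 2 - t + 1) ^ 3 * (X ^ 2 * (X - 1) ^ 2) =
    -256 * ((X - t) * (X - (1 - t)) * (t * X - 1) * ((1 - t) * X - 1) * (t * X - (t - 1)) *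
      ((t - 1) * X - t)) := by
  ring

end Identity

section Sextic

variable {F L : Type*} [Field F] [Field L] [Algebra F L]

/-- the Legendre sextic `256 (X² - X + 1)³ - j X² (X - 1)²`. -/
noncomputable def legSextic (j : F) : F[X] :=
  C 256 * (X ^ 2 - X + 1) ^ 3 - C j * (X ^ 2 * (X - 1) ^ 2)

theorem aeval_legSextic (j : F) (s : L) :
    aeval s (legSextic j) = 256 * (s ^ 2 - s + 1) ^ 3 - algebraMap F L j * (s ^ 2 * (s - 1) ^ 2) := by
  simp only [legSextic, map_sub, map_mul, map_pow, map_add, map_one, aeval_X, aeval_C, map_ofNat]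

theorem natDegree_legSextic [CharZero F] (j : F) : (legSextic j).natDegree = 6 := by
  unfold legSextic
  compute_degree!

theorem legSextic_ne_zero [CharZero F] (j : F) : legSextic j ≠ 0 := by
  intro h
  have := natDegree_legSextic j
  rw [h, natDegree_zero] at this
  omega

variable {t : L} {j : F}

/-- the six anharmonic conjugates are roots. -/
theorem aeval_self_legSextic
    (hrel : algebraMap F L j * (t ^ 2 * (t - 1) ^ 2) = 256 * (t ^ 2 - t + 1) ^ 3) :
    aeval t (legSextic j) = 0 := by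
  rw [aeval_legSextic, hrel, sub_self]

theorem aeval_one_sub_legSextic
    (hrel : algebraMap F L j * (t ^ 2 * (t - 1) ^ 2) = 256 * (t ^ 2 - t + 1) ^ 3) :
    aeval (1 - t) (legSextic j) = 0 := by
  rw [aeval_legSextic]
  linear_combination (-1 : L) * hrel

theorem aeval_inv_legSextic (ht0 : t ≠ 0)
    (hrel : algebraMap F L j * (t ^ 2 * (t - 1) ^ 2) = 256 * (t ^ 2 - t + 1) ^ 3) :
    aeval t⁻¹ (legSextic j) = 0 := by
  rw [aeval_legSextic]
  have h6 : t ^ 6 ≠ 0 := pow_ne_zero 6 ht0
  apply mul_left_cancel₀ h6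
  rw [mul_zero]
  have e1 : t ^ 6 * (256 * ((t⁻¹) ^ 2 - t⁻¹ + 1) ^ 3 -
      algebraMap F L j * ((t⁻¹) ^ 2 * (t⁻¹ - 1) ^ 2)) =
      256 * (t ^ 2 - t + 1) ^ 3 - algebraMap F L j * (t ^ 2 * (t - 1) ^ 2) := by
    field_simp
    ring
  rw [e1, hrel, sub_self]

end Sextic

section Split

variable {F L : Type*} [Field F] [Field L] [Algebra F L] {t : L} {j : F}

/-- the factorisation of the sextic over `L`. -/
theorem map_legSextic_mul
    (hrel : algebraMap F L j * (t ^ 2 * (t - 1) ^ 2) = 256 * (t ^ 2 - t + 1) ^ 3) :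
    C (t ^ 2 * (t - 1) ^ 2) * (legSextic j).map (algebraMap F L) =
      C (-256) * ((X - C t) * (X - C (1 - t)) * (C t * X - 1) * (C (1 - t) * X - 1) *
        (C t * X - C (t - 1)) * (C (t - 1) * X - C t)) := by
  have h := anharmonic_identity (C t : L[X]) X
  have e1 : (legSextic j).map (algebraMap F L) =
      256 * (X ^ 2 - X + 1) ^ 3 - C (algebraMap F L j) * (X ^ 2 * (X - 1) ^ 2) := by
    simp only [legSextic, Polynomial.map_sub, Polynomial.map_mul, Polynomial.map_pow,
      Polynomial.map_add, Polynomial.map_one, Polynomial.map_X, Polynomial.map_C, map_ofNat,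
      Polynomial.map_ofNat]
  have e2 : (C (algebraMap F L j) : L[X]) * (C t ^ 2 * (C t - 1) ^ 2) =
      256 * (C t ^ 2 - C t + 1) ^ 3 := by
    have h0 := congrArg (C : L → L[X]) hrel
    simpa only [map_mul, map_pow, map_sub, map_add, map_one, map_ofNat] using h0
  rw [e1]
  simp only [map_mul, map_pow, map_sub, map_one, map_neg, map_ofNat]
  linear_combination h - (X ^ 2 * (X - 1) ^ 2) * e2

theorem splits_map_legSextic (ht0 : t ≠ 0) (ht1 : t ≠ 1)
    (hrel : algebraMap F L j * (t ^ 2 * (t - 1) ^ 2) = 256 * (t ^ 2 - t + 1) ^ 3) :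
    Splits ((legSextic j).map (algebraMap F L)) := by
  have hB : t ^ 2 * (t - 1) ^ 2 ≠ 0 :=
    mul_ne_zero (pow_ne_zero 2 ht0) (pow_ne_zero 2 (sub_ne_zero.mpr ht1))
  have h := map_legSextic_mul hrel
  have e : (legSextic j).map (algebraMap F L) =
      C ((t ^ 2 * (t - 1) ^ 2)⁻¹) * (C (-256) * ((X - C t) * (X - C (1 - t)) * (C t * X - 1) *
        (C (1 - t) * X - 1) * (C t * X - C (t - 1)) * (C (t - 1) * X - C t))) := by
    rw [← h, ← mul_assoc, ← C_mul, inv_mul_cancel₀ hB, C_1, one_mul]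
  rw [e]
  refine (Splits.C _).mul ((Splits.C _).mul ?_)
  refine Splits.mul (Splits.mul (Splits.mul (Splits.mul (Splits.mul ?_ ?_) ?_) ?_) ?_) ?_
  · exact Splits.X_sub_C _
  · exact Splits.X_sub_C _
  · exact Splits.of_natDegree_le_one (by compute_degree)
  · exact Splits.of_natDegree_le_one (by compute_degree)
  · exact Splits.of_natDegree_le_one (by compute_degree)
  · exact Splits.of_natDegree_le_one (by compute_degree)

theorem isAlgebraic_of_legSextic [CharZero F]
    (hrel : algebraMap F L j * (t ^ 2 * (t - 1) ^ 2) = 256 * (t ^ 2 - t + 1) ^ 3) :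
    IsAlgebraic F t :=
  ⟨legSextic j, legSextic_ne_zero j, aeval_self_legSextic hrel⟩

theorem algebra_adjoin_eq_top [CharZero F]
    (hrel : algebraMap F L j * (t ^ 2 * (t - 1) ^ 2) = 256 * (t ^ 2 - t + 1) ^ 3)
    (hgen : F⟮t⟯ = ⊤) : Algebra.adjoin F {t} = ⊤ := by
  have h1 := IntermediateField.adjoin_simple_toSubalgebra_of_isAlgebraic
    (isAlgebraic_of_legSextic (F := F) hrel)
  rw [hgen] at h1
  rw [← h1]
  rfl

theorem isSplittingField_legSextic [CharZero F] (ht0 : t ≠ 0) (ht1 : t ≠ 1)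
    (hrel : algebraMap F L j * (t ^ 2 * (t - 1) ^ 2) = 256 * (t ^ 2 - t + 1) ^ 3)
    (hgen : F⟮t⟯ = ⊤) : IsSplittingField F L (legSextic j) where
  splits' := splits_map_legSextic ht0 ht1 hrel
  adjoin_rootSet' := by
    apply top_unique
    rw [← algebra_adjoin_eq_top hrel hgen]
    apply Algebra.adjoin_mono
    rw [Set.singleton_subset_iff, mem_rootSet]
    exact ⟨legSextic_ne_zero j, aeval_self_legSextic hrel⟩

theorem normal_of_legSextic [CharZero F] (ht0 : t ≠ 0) (ht1 : t ≠ 1)
    (hrel : algebraMap F L j * (t ^ 2 * (t - 1) ^ 2) = 256 * (t ^ 2 - t + 1) ^ 3)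
    (hgen : F⟮t⟯ = ⊤) : Normal F L :=
  haveI := isSplittingField_legSextic ht0 ht1 hrel hgen
  Normal.of_isSplittingField (legSextic j)

theorem isGalois_of_legSextic [CharZero F] (ht0 : t ≠ 0) (ht1 : t ≠ 1)
    (hrel : algebraMap F L j * (t ^ 2 * (t - 1) ^ 2) = 256 * (t ^ 2 - t + 1) ^ 3)
    (hgen : F⟮t⟯ = ⊤) : IsGalois F L :=
  haveI := normal_of_legSextic ht0 ht1 hrel hgen
  ⟨⟩

end Split

section Descent

variable {F L : Type*} [Field F] [Field L] [Algebra F L] [CharZero F] {t : L} {j : F}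

theorem finrank_le_six
    (hrel : algebraMap F L j * (t ^ 2 * (t - 1) ^ 2) = 256 * (t ^ 2 - t + 1) ^ 3)
    (hgen : F⟮t⟯ = ⊤) : Module.finrank F L ≤ 6 := by
  have halg := isAlgebraic_of_legSextic (F := F) hrel
  have h1 : Module.finrank F L = (minpoly F t).natDegree := by
    rw [← IntermediateField.adjoin.finrank halg.isIntegral, hgen, IntermediateField.finrank_top']
  rw [h1, ← natDegree_legSextic j]
  exact natDegree_le_of_dvd (minpoly.dvd F t (aeval_self_legSextic hrel)) (legSextic_ne_zero j)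

/-- in degree six the minimal polynomial of `t` vanishes at every root of the sextic. -/
theorem aeval_minpoly_eq_zero_of_finrank_eq_six
    (hrel : algebraMap F L j * (t ^ 2 * (t - 1) ^ 2) = 256 * (t ^ 2 - t + 1) ^ 3)
    (hgen : F⟮t⟯ = ⊤) (h6 : Module.finrank F L = 6) {s : L} (hs : aeval s (legSextic j) = 0) :
    aeval s (minpoly F t) = 0 := by
  have halg := isAlgebraic_of_legSextic (F := F) hrel
  have h1 : (minpoly F t).natDegree = 6 := by
    rw [← h6, ← IntermediateField.adjoin.finrank halg.isIntegral, hgen,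
      IntermediateField.finrank_top']
  obtain ⟨q, hq⟩ := minpoly.dvd F t (aeval_self_legSextic hrel)
  have hq0 : q ≠ 0 := by
    rintro rfl
    rw [mul_zero] at hq
    exact legSextic_ne_zero j hq
  have hdeg : q.natDegree = 0 := by
    have := congrArg natDegree hq
    rw [natDegree_legSextic, natDegree_mul (minpoly.ne_zero halg.isIntegral) hq0, h1] at this
    omega
  rw [eq_C_of_natDegree_eq_zero hdeg] at hq hq0
  have hc : q.coeff 0 ≠ 0 := fun h => hq0 (by rw [h, C_0])
  rw [hq, map_mul, aeval_C] at hs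
  rcases mul_eq_zero.mp hs with h | h
  · exact h
  · exact absurd ((map_eq_zero _).mp h) hc

omit [CharZero F] in
/-- an automorphism of order prime to `3` fixing `u ^ (3 ^ n)` fixes `u` (when the `3 ^ n`-th roots
of unity are in the base). -/
theorem algEquiv_apply_eq_self_of_pow {n : ℕ}
    (hμ : ∀ ζ : L, ζ ^ (3 ^ n) = 1 → ζ ∈ (algebraMap F L).range)
    {u : L} (hu0 : u ≠ 0) (hu : u ^ (3 ^ n) ∈ (algebraMap F L).range)
    (σ : L ≃ₐ[F] L) {k : ℕ} (hk : Nat.Coprime k 3) (hσ : σ ^ k = 1) : σ u = u := by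
  obtain ⟨ζ, hζdef⟩ : ∃ ζ : L, ζ = σ u / u := ⟨_, rfl⟩
  have hσu : σ u = ζ * u := by rw [hζdef, div_mul_cancel₀ _ hu0]
  have hζm : ζ ^ (3 ^ n) = 1 := by
    obtain ⟨a, ha⟩ := hu
    have h1 : σ (u ^ (3 ^ n)) = u ^ (3 ^ n) := by rw [← ha, σ.commutes]
    rw [hζdef, div_pow, ← map_pow, h1, div_self (pow_ne_zero _ hu0)]
  obtain ⟨b, hb⟩ := hμ ζ hζm
  have hσζ : σ ζ = ζ := by rw [← hb, σ.commutes]
  have hpow : ∀ i : ℕ, (σ ^ i) u = ζ ^ i * u := by
    intro i
    induction i with
    | zero => rw [pow_zero, pow_zero, one_mul]; rfl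
    | succ i ih =>
      rw [pow_succ', AlgEquiv.mul_apply, ih, map_mul, map_pow, hσζ, hσu, pow_succ]
      ring
  have h2 := hpow k
  rw [hσ, AlgEquiv.one_apply] at h2
  have hζk : ζ ^ k = 1 := by
    have h3 : ζ ^ k * u = 1 * u := by rw [one_mul]; exact h2.symm
    exact mul_right_cancel₀ hu0 h3
  have h1 : orderOf ζ ∣ Nat.gcd k (3 ^ n) :=
    Nat.dvd_gcd (orderOf_dvd_of_pow_eq_one hζk) (orderOf_dvd_of_pow_eq_one hζm)
  have hg : Nat.gcd k (3 ^ n) = 1 := Nat.Coprime.pow_right n hk
  rw [hg, Nat.dvd_one, orderOf_eq_one_iff] at h1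
  rw [hσu, h1, one_mul]

/-- **Kummer descent through the Legendre sextic**: `L = F(t)`, `j = A(t)/B(t) ∈ F`, an involution
`τ ≠ 1` of `L / F`; then `u ∈ L`, `u ^ (3 ^ n) ∈ F` ⇒ `u ∈ F`. -/
theorem mem_range_of_pow_mem_legSextic (ht0 : t ≠ 0) (ht1 : t ≠ 1)
    (hrel : algebraMap F L j * (t ^ 2 * (t - 1) ^ 2) = 256 * (t ^ 2 - t + 1) ^ 3)
    (hgen : F⟮t⟯ = ⊤) (h2 : 1 - t ≠ t) (h3 : t⁻¹ ≠ t) (h4 : 1 - t ≠ t⁻¹)
    (τ : L ≃ₐ[F] L) (hτ2 : τ * τ = 1) (hτ1 : τ ≠ 1) {n : ℕ}
    (hμ : ∀ ζ : L, ζ ^ (3 ^ n) = 1 → ζ ∈ (algebraMap F L).range)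
    {u : L} (hu : u ^ (3 ^ n) ∈ (algebraMap F L).range) :
    u ∈ (algebraMap F L).range := by
  by_cases hu0 : u = 0
  · exact ⟨0, by rw [hu0, map_zero]⟩
  have := isSplittingField_legSextic ht0 ht1 hrel hgen
  have : FiniteDimensional F L := IsSplittingField.finiteDimensional L (legSextic j)
  have := isGalois_of_legSextic ht0 ht1 hrel hgen
  have halg := isAlgebraic_of_legSextic (F := F) hrel
  -- reduction to: every automorphism fixes `u`
  suffices hfix : ∀ σ : L ≃ₐ[F] L, σ u = u by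
    have h1 : u ∈ (⊥ : IntermediateField F L) := (IsGalois.mem_bot_iff_fixed u).mpr hfix
    exact IntermediateField.mem_bot.mp h1
  have hcard : Nat.card (L ≃ₐ[F] L) = Module.finrank F L := IsGalois.card_aut_eq_finrank F L
  have hle := finrank_le_six (F := F) hrel hgen
  -- the order of the group is even
  have hτord : orderOf τ = 2 := by
    refine orderOf_eq_prime (by rw [pow_two]; exact hτ2) hτ1
  have heven : 2 ∣ Module.finrank F L := by
    rw [← hcard, ← hτord]
    exact orderOf_dvd_natCard τ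
  have hpos : 0 < Module.finrank F L := Module.finrank_pos
  by_cases h6 : Module.finrank F L = 6
  · -- degree six: two distinct involutions
    obtain ⟨σa, hσa⟩ := minpoly.exists_algEquiv_of_root' halg
      (aeval_minpoly_eq_zero_of_finrank_eq_six hrel hgen h6 (aeval_one_sub_legSextic hrel))
    obtain ⟨σb, hσb⟩ := minpoly.exists_algEquiv_of_root' halg
      (aeval_minpoly_eq_zero_of_finrank_eq_six hrel hgen h6 (aeval_inv_legSextic ht0 hrel))
    have hext : ∀ σ σ' : L ≃ₐ[F] L, σ t = σ' t → σ = σ' := by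
      intro σ σ' h
      have h1 : (σ : L →ₐ[F] L) = (σ' : L →ₐ[F] L) := by
        refine AlgHom.ext_of_adjoin_eq_top (algebra_adjoin_eq_top hrel hgen) ?_
        intro x hx
        rw [Set.mem_singleton_iff] at hx
        subst hx
        exact h
      exact AlgEquiv.coe_toAlgHom_injective h1
    have hσa2 : σa ^ 2 = 1 := by
      apply hext
      rw [pow_two, AlgEquiv.mul_apply, hσa, map_sub, map_one, hσa, AlgEquiv.one_apply]
      ring
    have hσb2 : σb ^ 2 = 1 := by
      apply hext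
      rw [pow_two, AlgEquiv.mul_apply, hσb, map_inv₀, hσb, inv_inv, AlgEquiv.one_apply]
    have hσa1 : σa ≠ 1 := by
      intro h
      rw [h, AlgEquiv.one_apply] at hσa
      exact h2 hσa.symm
    have hσb1 : σb ≠ 1 := by
      intro h
      rw [h, AlgEquiv.one_apply] at hσb
      exact h3 hσb.symm
    have hσab : σa ≠ σb := by
      intro h
      rw [h, hσb] at hσa
      exact h4 hσa.symm
    have hfa := algEquiv_apply_eq_self_of_pow hμ hu0 hu σa (by norm_num : Nat.Coprime 2 3) hσa2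
    have hfb := algEquiv_apply_eq_self_of_pow hμ hu0 hu σb (by norm_num : Nat.Coprime 2 3) hσb2
    -- the stabiliser of `u`
    let S : Subgroup (L ≃ₐ[F] L) := MulAction.stabilizer (L ≃ₐ[F] L) u
    have hSa : σa ∈ S := hfa
    have hSb : σb ∈ S := hfb
    have hSdvd : Nat.card S ∣ 6 := by
      rw [← h6, ← hcard]
      exact Subgroup.card_subgroup_dvd_card S
    have hS2 : 2 ∣ Nat.card S := by
      have h1 : orderOf (⟨σa, hSa⟩ : S) = 2 := by
        refine orderOf_eq_prime ?_ ?_
        · exact Subtype.ext (by simpa using hσa2)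
        · intro h
          exact hσa1 (congrArg Subtype.val h)
      rw [← h1]
      exact orderOf_dvd_natCard _
    have hSne2 : Nat.card S ≠ 2 := by
      intro hc
      obtain ⟨y, -, hy⟩ := (Nat.card_eq_two_iff' (1 : S)).mp hc
      have ha : (⟨σa, hSa⟩ : S) = y := hy _ (fun h => hσa1 (congrArg Subtype.val h))
      have hb : (⟨σb, hSb⟩ : S) = y := hy _ (fun h => hσb1 (congrArg Subtype.val h))
      exact hσab (congrArg Subtype.val (ha.trans hb.symm))
    have hS6 : Nat.card S = 6 := by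
      have hmem : Nat.card S ∈ Nat.divisors 6 := Nat.mem_divisors.mpr ⟨hSdvd, by norm_num⟩
      have hdiv : Nat.divisors 6 = {1, 2, 3, 6} := by decide
      rw [hdiv] at hmem
      simp only [Finset.mem_insert, Finset.mem_singleton] at hmem
      rcases hmem with h | h | h | h
      · rw [h] at hS2; omega
      · exact absurd h hSne2
      · rw [h] at hS2; omega
      · exact h
    have hStop : S = ⊤ := by
      apply Subgroup.eq_top_of_card_eq
      rw [hS6, hcard, h6]
    intro σ
    have : σ ∈ S := by rw [hStop]; exact Subgroup.mem_top σ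
    exact this
  · -- degree two or four: every automorphism has order prime to `3`
    intro σ
    have hd : Module.finrank F L = 2 ∨ Module.finrank F L = 4 := by
      obtain ⟨c, hc⟩ := heven
      omega
    have hσd : σ ^ Module.finrank F L = 1 := by
      rw [← hcard]
      exact pow_card_eq_one'
    rcases hd with hd | hd
    · rw [hd] at hσd
      exact algEquiv_apply_eq_self_of_pow hμ hu0 hu σ (by norm_num : Nat.Coprime 2 3) hσd
    · rw [hd] at hσd
      exact algEquiv_apply_eq_self_of_pow hμ hu0 hu σ (by norm_num : Nat.Coprime 4 3) hσd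

end Descent

end Fermat.Agent.RB.P3
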