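/-
PROJECT RB — [SEL] (helper4), file 7: matrix computations for the deformation side.
* conjugate matrices: if the image of one under a ring hom is a scalar, so is the image of the
  other (`mapMatrix_eq_smul_one_of_conj`);
* `locCoordIdeal_le_maximalIdeal` : the ideal of traceless coordinates at `Σ` is proper, because
  `ρ̄` is scalar on the decomposition groups over `Σ`;
* `exists_map_eq_smul_one` : a ring hom killing `locCoordIdeal` maps the matrices of `ρ(σ)` (in ANY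
  basis), `σ` in a decomposition group over `Σ`, to scalars;
* over the dual numbers: the `ad`-cocycle of a lift which is scalar at `σ` and `σ⁻¹` is scalar at
  `σ`; traces.
-/
import Mathlib
import Fermat.Agent.RB.IFACE_helper9_Sel
import Fermat.Agent.TW.Deform_helper6
import Fermat.Agent.S53.L0_helper3_Matrix

set_option autoImplicit false
set_option linter.unusedSectionVars false

noncomputable section

namespace Fermat.Agent.RB.SEL

open Fermat.Agent.S53 Fermat.Agent.TW IsLocalRing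

/-- `Ω = AlgebraicClosure ℚ`. -/
local notation "Ω" => AlgebraicClosure ℚ

section MatrixLemma

variable {A B : Type*} [CommRing A] [CommRing B]

/-- conjugate matrices: if `f(M)` is the scalar `c` then so is `f(N)`. -/
theorem mapMatrix_eq_smul_one_of_conj (f : A →+* B) {M N : Matrix (Fin 2) (Fin 2) A}
    (U : (Matrix (Fin 2) (Fin 2) A)ˣ) (hU : (U : Matrix (Fin 2) (Fin 2) A) * M = N * U) {c : B}
    (hM : f.mapMatrix M = c • (1 : Matrix (Fin 2) (Fin 2) B)) :
    f.mapMatrix N = c • (1 : Matrix (Fin 2) (Fin 2) B) := by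
  have h1 : f.mapMatrix (U : Matrix (Fin 2) (Fin 2) A) * f.mapMatrix M =
      f.mapMatrix N * f.mapMatrix (U : Matrix (Fin 2) (Fin 2) A) := by
    rw [← map_mul, hU, map_mul]
  rw [hM, Matrix.mul_smul, mul_one] at h1
  obtain ⟨V, hV⟩ : IsUnit (f.mapMatrix (U : Matrix (Fin 2) (Fin 2) A)) := U.isUnit.map f.mapMatrix
  calc f.mapMatrix N = f.mapMatrix N * (V : Matrix (Fin 2) (Fin 2) B) * ((V⁻¹ : _ˣ) : _) := by
        rw [mul_assoc, V.mul_inv, mul_one]
    _ = (c • (V : Matrix (Fin 2) (Fin 2) B)) * ((V⁻¹ : _ˣ) : _) := by rw [hV, ← h1]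
    _ = c • (1 : Matrix (Fin 2) (Fin 2) B) := by rw [Matrix.smul_mul, V.mul_inv]

/-- a matrix whose traceless coordinates are killed by `f` is mapped to a scalar -/
theorem mapMatrix_eq_smul_one_of_coords (f : A →+* B) (M : Matrix (Fin 2) (Fin 2) A)
    (h1 : f (M 0 0 - M 1 1) = 0) (h2 : f (M 0 1) = 0) (h3 : f (M 1 0) = 0) :
    f.mapMatrix M = f (M 1 1) • (1 : Matrix (Fin 2) (Fin 2) B) := by
  rw [map_sub, sub_eq_zero] at h1
  ext i j
  fin_cases i <;> fin_cases j <;> simp [h1, h2, h3]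

/-- the traceless coordinates of a matrix mapped to a scalar are killed -/
theorem coords_eq_zero_of_mapMatrix_eq_smul_one (f : A →+* B) (M : Matrix (Fin 2) (Fin 2) A)
    {c : B} (h : f.mapMatrix M = c • (1 : Matrix (Fin 2) (Fin 2) B)) :
    f (M 0 0 - M 1 1) = 0 ∧ f (M 0 1) = 0 ∧ f (M 1 0) = 0 := by
  have h00 := congrFun (congrFun h 0) 0
  have h01 := congrFun (congrFun h 0) 1
  have h10 := congrFun (congrFun h 1) 0
  have h11 := congrFun (congrFun h 1) 1
  simp at h00 h01 h10 h11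
  refine ⟨?_, h01, h10⟩
  rw [map_sub, h00, h11, sub_self]

end MatrixLemma

section Coord

variable {𝒪 : Type} [CommRing 𝒪] [IsLocalRing 𝒪]
  {T : Type} [CommRing T] [IsLocalRing T] [Algebra 𝒪 T] [IsLocalHom (algebraMap 𝒪 T)]
  (ρbar : ResidualGaloisRep (ResidueField 𝒪))
  (β₀ : Module.Basis (Fin 2) (ResidueField 𝒪) ρbar.V)
  (ρ : GaloisRepAdic T) (b β : Module.Basis (Fin 2) T ρ.V) (Sig : Finset ℕ)

omit [Algebra 𝒪 T] [IsLocalHom (algebraMap 𝒪 T)] in
/-- the matrices of `ρ` in two bases are conjugate -/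
theorem exists_conj_matrixOf : ∃ U : (M2 T)ˣ, ∀ σ, (U : M2 T) * matrixOf ρ b σ =
    matrixOf ρ β σ * U :=
  (isEquiv_iff_matrixOf ρ ρ b β).1 (isEquiv_refl ρ)

/-- **`locCoordIdeal` is contained in the maximal ideal**: `ρ̄` is scalar on the decomposition
groups over `Σ`. -/
theorem locCoordIdeal_le_maximalIdeal
    (hb : IsStrictLift 𝒪 (resMatrixOf ρbar β₀) (matrixOf ρ b))
    (hscal : ∀ v ∈ Sig, ∀ P : ValuationSubring Ω, P.LiesOverPrime v →
      ∀ σ ∈ P.decompositionSubgroup ℚ, ∃ c : ResidueField 𝒪,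
        resMatrixOf ρbar β₀ σ = c • (1 : M2 (ResidueField 𝒪))) :
    locCoordIdeal ρ β Sig ≤ maximalIdeal T := by
  obtain ⟨U, hU⟩ := exists_conj_matrixOf ρ b β
  unfold locCoordIdeal
  rw [Ideal.span_le]
  rintro a ⟨v, hv, P, hP, σ, hσ, ha⟩
  obtain ⟨c, hc⟩ := hscal v hv P hP σ hσ
  have h1 : (residue T).mapMatrix (matrixOf ρ b σ) =
      (ResidueField.map (algebraMap 𝒪 T) c) • (1 : M2 (ResidueField T)) := by
    ext i j
    have h2 := (isStrictLift_iff _ _).1 hb σ i j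
    rw [RingHom.mapMatrix_apply, Matrix.map_apply, h2, hc, Matrix.smul_apply, Matrix.smul_apply,
      smul_eq_mul, smul_eq_mul, map_mul]
    congr 1
    by_cases hij : i = j
    · subst hij; rw [Matrix.one_apply_eq, Matrix.one_apply_eq, map_one]
    · rw [Matrix.one_apply_ne hij, Matrix.one_apply_ne hij, map_zero]
  have h3 := mapMatrix_eq_smul_one_of_conj (residue T) U (hU σ) h1
  obtain ⟨e1, e2, e3⟩ := coords_eq_zero_of_mapMatrix_eq_smul_one (residue T) _ h3
  rw [matrixOf_eq_toMatrix] at e1 e2 e3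
  show a ∈ maximalIdeal T
  rcases ha with rfl | rfl | rfl
  · exact (residue_eq_zero_iff _).1 e1
  · exact (residue_eq_zero_iff _).1 e2
  · exact (residue_eq_zero_iff _).1 e3

omit [Algebra 𝒪 T] [IsLocalHom (algebraMap 𝒪 T)] in
/-- **a ring hom killing `locCoordIdeal` maps the matrices of `ρ(σ)` in any basis, `σ` in a
decomposition group over `Σ`, to scalars.** -/
theorem exists_map_eq_smul_one {B : Type*} [CommRing B] (f : T →+* B)
    (hf : ∀ x ∈ locCoordIdeal ρ β Sig, f x = 0) {v : ℕ} (hv : v ∈ Sig)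
    (P : ValuationSubring Ω) (hP : P.LiesOverPrime v) {σ : Gal}
    (hσ : σ ∈ P.decompositionSubgroup ℚ) :
    ∃ c : B, (matrixOf ρ b σ).map f = c • (1 : Matrix (Fin 2) (Fin 2) B) := by
  obtain ⟨U, hU⟩ := exists_conj_matrixOf ρ b β
  have hN : f.mapMatrix (matrixOf ρ β σ) =
      f (matrixOf ρ β σ 1 1) • (1 : Matrix (Fin 2) (Fin 2) B) := by
    apply mapMatrix_eq_smul_one_of_coords
    · exact hf _ (Ideal.subset_span ⟨v, hv, P, hP, σ, hσ, Or.inl rfl⟩)
    · exact hf _ (Ideal.subset_span ⟨v, hv, P, hP, σ, hσ, Or.inr (Or.inl rfl)⟩)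
    · exact hf _ (Ideal.subset_span ⟨v, hv, P, hP, σ, hσ, Or.inr (Or.inr rfl)⟩)
  have hU' : ((U⁻¹ : (M2 T)ˣ) : M2 T) * matrixOf ρ β σ = matrixOf ρ b σ * ((U⁻¹ : (M2 T)ˣ) : M2 T) := by
    calc ((U⁻¹ : (M2 T)ˣ) : M2 T) * matrixOf ρ β σ
        = ((U⁻¹ : (M2 T)ˣ) : M2 T) * (matrixOf ρ β σ * U) * ((U⁻¹ : (M2 T)ˣ) : M2 T) := by
          rw [mul_assoc, mul_assoc, U.mul_inv, mul_one]
      _ = ((U⁻¹ : (M2 T)ˣ) : M2 T) * ((U : M2 T) * matrixOf ρ b σ) * ((U⁻¹ : (M2 T)ˣ) : M2 T) := by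
          rw [hU σ]
      _ = matrixOf ρ b σ * ((U⁻¹ : (M2 T)ˣ) : M2 T) := by
          rw [← mul_assoc, U.inv_mul, one_mul]
  exact ⟨_, mapMatrix_eq_smul_one_of_conj f U⁻¹ hU' hN⟩

omit [Algebra 𝒪 T] [IsLocalHom (algebraMap 𝒪 T)] in
/-- traces -/
theorem trace_map_matrixOf {B : Type*} [CommRing B] (f : T →+* B) (σ : Gal) :
    Matrix.trace ((matrixOf ρ b σ).map f) = f (ρ.trace σ) := by
  have h1 : ρ.trace σ = Matrix.trace (matrixOf ρ b σ) := by
    rw [matrixOf_eq_toMatrix]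
    exact LinearMap.trace_eq_matrix_trace T b (ρ.ρ σ)
  rw [h1]
  exact (AddMonoidHom.map_trace f.toAddMonoidHom (matrixOf ρ b σ)).symm

end Coord

section Dual

variable {k : Type} [Field k]

theorem sndM_smul_one (c : DualNumber k) :
    sndM (c • (1 : M2 (DualNumber k))) = c.snd • (1 : M2 k) := by
  ext i j
  by_cases hij : i = j
  · subst hij; simp
  · simp [Matrix.one_apply_ne hij]

theorem fstM_smul_one (c : DualNumber k) :
    fstM (c • (1 : M2 (DualNumber k))) = c.fst • (1 : M2 k) := by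
  ext i j
  by_cases hij : i = j
  · subst hij; simp
  · simp [Matrix.one_apply_ne hij]

theorem trace_sndM (P : M2 (DualNumber k)) : Matrix.trace (sndM P) = (Matrix.trace P).snd := by
  rw [Matrix.trace_fin_two, Matrix.trace_fin_two, TrivSqZeroExt.snd_add]
  rfl

theorem trace_fstM (P : M2 (DualNumber k)) : Matrix.trace (fstM P) = (Matrix.trace P).fst := by
  rw [Matrix.trace_fin_two, Matrix.trace_fin_two, TrivSqZeroExt.fst_add]
  rfl

/-- the `ad`-cocycle of a lift which is scalar at `σ` and `σ⁻¹` is scalar at `σ` -/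
theorem cocycleOf_mul_eq_smul_one {rbar : Gal →* M2 k} {r : Gal →* M2 (DualNumber k)}
    (h : ∀ σ, fstM (r σ) = rbar σ) {σ : Gal} {c c' : DualNumber k}
    (hc : r σ = c • (1 : M2 (DualNumber k))) (hc' : r σ⁻¹ = c' • (1 : M2 (DualNumber k))) :
    cocycleOf r σ * rbar σ⁻¹ = (c.snd * c'.fst) • (1 : M2 k) := by
  rw [← h σ⁻¹, hc', cocycleOf, hc, sndM_smul_one, fstM_smul_one, Matrix.smul_mul, Matrix.mul_smul,
    one_mul, smul_smul]

end Dual

end Fermat.Agent.RB.SEL
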