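/-
PROJECT RB — [SINF] (helper4), file 5: **the kernel `J` of `ev₀ : S∞ → Λ` is contained in `𝔫 ^ n`.**

* `pow_prime_pow_sub_one_mem` : `a ≡ 1 mod 𝔫`, `p ∈ 𝔫` ⇒ `a ^ (p ^ m) ≡ 1 mod 𝔫 ^ (m + 1)`;
* `J p hp2 hpO r n = ker ev₀`, `mem_J`;
* `J_le : J ≤ 𝔫 ^ n`, `𝔫` the maximal ideal of `S∞ = O⟦Z_1, …, Z_r⟧`: the quotient map
  `S∞ → S∞ ⧸ 𝔫 ^ n` factors through `ev₀` (via `δ_q ↦ (1 + Z_q)(1 − Z_q)⁻¹`).
-/
import Mathlib
import Fermat.Agent.S53.PowerSeries
import Fermat.Agent.RB.SINF_helper4_Ev0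

set_option autoImplicit false
set_option linter.unusedSectionVars false
set_option linter.style.haveILetI false

namespace Fermat.Agent.RB.SINF

open MvPowerSeries IsLocalRing

section PowLemma

variable {R : Type*} [CommRing R] {𝔫 : Ideal R} {p : ℕ}

theorem pow_prime_sub_one_mem (hp : p.Prime) (hpn : (p : R) ∈ 𝔫) {a : R} {k : ℕ} (hk : 1 ≤ k)
    (ha : a - 1 ∈ 𝔫 ^ k) : a ^ p - 1 ∈ 𝔫 ^ (k + 1) := by
  obtain ⟨c, hc⟩ := exists_add_pow_prime_eq hp 1 (a - 1)
  have h1 : a ^ p - 1 = (a - 1) ^ p + (p : R) * ((a - 1) * c) := by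
    have h2 : (1 : R) + (a - 1) = a := by ring
    rw [h2] at hc
    rw [hc]
    ring
  rw [h1]
  refine Ideal.add_mem _ ?_ ?_
  · have h3 : k + 1 ≤ k * p := by
      have := hp.two_le
      nlinarith
    have h4 : (a - 1) ^ p ∈ (𝔫 ^ k) ^ p := Ideal.pow_mem_pow ha p
    rw [← pow_mul] at h4
    exact Ideal.pow_le_pow_right h3 h4
  · rw [pow_succ']
    exact Ideal.mul_mem_mul hpn (Ideal.mul_mem_right _ _ ha)

theorem pow_prime_pow_sub_one_mem (hp : p.Prime) (hpn : (p : R) ∈ 𝔫) {a : R} (ha : a - 1 ∈ 𝔫)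
    (m : ℕ) : a ^ p ^ m - 1 ∈ 𝔫 ^ (m + 1) := by
  induction m with
  | zero => simpa using ha
  | succ m ih =>
    have h1 : a ^ p ^ (m + 1) = (a ^ p ^ m) ^ p := by rw [← pow_mul, ← pow_succ]
    rw [h1]
    exact pow_prime_sub_one_mem hp hpn (Nat.succ_le_succ (Nat.zero_le m)) ih

end PowLemma

variable {O : Type} [CommRing O] [IsLocalRing O] [IsNoetherianRing O]
  [IsAdicComplete (maximalIdeal O) O]
  (p : ℕ) [hp : Fact p.Prime] (hp2 : p ≠ 2) (hpO : (p : O) ∈ maximalIdeal O) (r n : ℕ)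

/-- **the ideal `J = ker (S∞ → Λ)`.** -/
noncomputable def J : Ideal (MvPowerSeries (Fin r) O) :=
  RingHom.ker (ev₀ p hp2 hpO r n : MvPowerSeries (Fin r) O →+* Lam O (p ^ n) r)

theorem mem_J (s : MvPowerSeries (Fin r) O) : s ∈ J p hp2 hpO r n ↔ ev₀ p hp2 hpO r n s = 0 :=
  Iff.rfl

section JLe

/-- `S∞`. -/
local notation "S∞" => MvPowerSeries (Fin r) O
/-- the maximal ideal of `S∞`. -/
local notation "𝔫" => maximalIdeal (MvPowerSeries (Fin r) O)

/-- the series `(1 + Z_q)(1 − Z_q)⁻¹` together with its defining properties. -/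
theorem exists_cayley_series (q : Fin r) :
    ∃ s v : S∞, (1 - X q) * v = 1 ∧ s = (1 + X q) * v ∧ s - 1 ∈ 𝔫 ∧
      X q * (s + 1) = s - 1 ∧ s + 1 = 2 * v := by
  have hu : IsUnit (1 - X q : S∞) := by
    rw [isUnit_iff_constantCoeff, map_sub, map_one, constantCoeff_X, sub_zero]
    exact isUnit_one
  obtain ⟨u, hu⟩ := hu
  have hv : (1 - X q : S∞) * ((u⁻¹ : S∞ˣ) : S∞) = 1 := by rw [← hu, Units.mul_inv]
  set v : S∞ := ((u⁻¹ : S∞ˣ) : S∞) with hvdef
  have hs1 : (1 + X q) * v - 1 = 2 * X q * v := by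
    have : (1 + X q : S∞) * v - 1 = (1 + X q) * v - (1 - X q) * v := by rw [hv]
    rw [this]; ring
  have hs2 : (1 + X q) * v + 1 = 2 * v := by
    have : (1 + X q : S∞) * v + 1 = (1 + X q) * v + (1 - X q) * v := by rw [hv]
    rw [this]; ring
  refine ⟨(1 + X q) * v, v, hv, rfl, ?_, ?_, hs2⟩
  · have h3 : (2 : S∞) * X q * v = (2 * v) * X q := by ring
    rw [hs1, h3]
    exact Ideal.mul_mem_left _ _ (Fermat.Agent.S53.PS.X_mem_maximalIdeal q)
  · rw [hs1, hs2]; ring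

include hpO in
theorem natCast_mem_maximalIdeal : ((p : ℕ) : S∞) ∈ 𝔫 := by
  rw [Fermat.Agent.S53.PS.mem_maximalIdeal_iff, map_natCast]
  exact hpO

/-- **`J ≤ 𝔫 ^ n`.** -/
theorem J_le : J p hp2 hpO r n ≤ 𝔫 ^ n := by
  classical
  -- the target `B = S∞ ⧸ 𝔫 ^ n`
  set mk : S∞ →ₐ[O] S∞ ⧸ 𝔫 ^ n := Ideal.Quotient.mkₐ O (𝔫 ^ n) with hmk
  set IB : Ideal (S∞ ⧸ 𝔫 ^ n) := (𝔫).map mk with hIB
  have hIBn : IB ^ n = ⊥ := by
    rw [hIB, ← Ideal.map_pow, Ideal.map_eq_bot_iff_le_ker]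
    intro x hx
    rw [RingHom.mem_ker]
    exact Ideal.Quotient.eq_zero_iff_mem.2 hx
  haveI : IsAdicComplete IB (S∞ ⧸ 𝔫 ^ n) := isAdicComplete_of_pow_eq_bot hIBn
  -- the images of the `δ_q`
  choose s v hv hs hs1 hsX hs2 using exists_cayley_series (O := O) r
  have hupow : ∀ q, mk (s q) ^ p ^ n = 1 := by
    intro q
    rw [← map_pow, ← map_one mk, hmk]
    rw [Ideal.Quotient.mkₐ_eq_mk, Ideal.Quotient.mk_eq_mk_iff_sub_mem]
    exact Ideal.pow_le_pow_right (Nat.le_succ n)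
      (pow_prime_pow_sub_one_mem hp.out (natCast_mem_maximalIdeal p hpO r) (hs1 q) n)
  set φ : Lam O (p ^ n) r →ₐ[O] S∞ ⧸ 𝔫 ^ n :=
    actAlg O (p ^ n) (fun q => mk (s q)) hupow (fun _ _ => Commute.all _ _) with hφ
  have hφd : ∀ q, φ (dgen O (p ^ n) q) = mk (s q) := fun q => actAlg_dgen _ _ _ _ _ q
  have ha : ∀ t, mk (X t) ∈ IB := fun t =>
    Ideal.mem_map_of_mem _ (Fermat.Agent.S53.PS.X_mem_maximalIdeal t)
  -- the quotient map is an adic evaluation
  have h1 : mk = TK.evalAdic IB (fun t => mk (X t)) ha := by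
    apply TK.eq_evalAdic
    · intro t; rfl
    · intro m f hf
      rw [hIB, ← Ideal.map_pow]
      exact Ideal.mem_map_of_mem _
        (Fermat.Agent.S53.PS.mem_maximalIdeal_pow_of_coeff_eq_zero hf)
  -- so is `φ ∘ ev₀`
  have hmapI : (idealI O (p ^ n) r).map φ ≤ IB := by
    rw [Ideal.map_le_iff_le_comap]
    refine sup_le ?_ ?_
    · rw [Ideal.map_le_iff_le_comap]
      intro c hc
      rw [Ideal.mem_comap, Ideal.mem_comap, AlgHom.commutes, ← mk.commutes]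
      apply Ideal.mem_map_of_mem
      rw [Fermat.Agent.S53.PS.mem_maximalIdeal_iff, MvPowerSeries.algebraMap_apply,
        constantCoeff_C, Algebra.algebraMap_self_apply]
      exact hc
    · rw [Ideal.span_le]
      rintro _ ⟨q, rfl⟩
      rw [SetLike.mem_coe, Ideal.mem_comap, map_sub, map_one, hφd, ← map_one mk, ← map_sub]
      exact Ideal.mem_map_of_mem _ (hs1 q)
  have h2 : φ.comp (ev₀ p hp2 hpO r n) = TK.evalAdic IB (fun t => mk (X t)) ha := by
    apply TK.eq_evalAdic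
    · intro t
      rw [AlgHom.comp_apply, ev₀_X]
      -- cancel the unit `mk (s t) + 1`
      have h3 : φ (zLam p hp2 hpO r n t) * (mk (s t) + 1) = mk (s t) - 1 := by
        have := congrArg φ (zLam_mul p hp2 hpO r n t)
        rw [map_mul, map_add, map_sub, map_one, hφd] at this
        exact this
      have h4 : mk (X t) * (mk (s t) + 1) = mk (s t) - 1 := by
        rw [← map_one mk, ← map_add, ← map_mul, ← map_sub, hsX t]
      obtain ⟨c2, hc2⟩ := (isUnit_two hp.out hp2 hpO).exists_right_inv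
      have h5 : (mk (s t) + 1) * mk (C c2 * (1 - X t)) = 1 := by
        rw [← map_one mk, ← map_add, ← map_mul, hs2 t]
        have h6 : (2 * v t) * (C c2 * (1 - X t)) = C (2 * c2) * ((1 - X t) * v t) := by
          rw [map_mul, map_ofNat]; ring
        rw [h6, hv t, hc2, map_one, mul_one]
      calc φ (zLam p hp2 hpO r n t)
          = φ (zLam p hp2 hpO r n t) * ((mk (s t) + 1) * mk (C c2 * (1 - X t))) := by
            rw [h5, mul_one]
        _ = mk (X t) * ((mk (s t) + 1) * mk (C c2 * (1 - X t))) := by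
            rw [← mul_assoc, h3, ← h4, mul_assoc]
        _ = mk (X t) := by rw [h5, mul_one]
    · intro m f hf
      rw [AlgHom.comp_apply]
      have h3 := ev₀_mem_pow p hp2 hpO r n m f hf
      have h4 : φ (ev₀ p hp2 hpO r n f) ∈ (idealI O (p ^ n) r ^ m).map φ :=
        Ideal.mem_map_of_mem _ h3
      rw [Ideal.map_pow] at h4
      exact Ideal.pow_right_mono hmapI m h4
  -- conclusion
  intro f hf
  rw [mem_J] at hf
  have h3 : mk f = φ (ev₀ p hp2 hpO r n f) := by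
    rw [h1, ← h2]; rfl
  rw [hf, map_zero, hmk, Ideal.Quotient.mkₐ_eq_mk, Ideal.Quotient.eq_zero_iff_mem] at h3
  exact h3

end JLe

end Fermat.Agent.RB.SINF
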