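/-
RB — helper3 for [TWMOD] (helper2), package [BDY], part 2: **upper triangular representatives
congruent to `1` modulo `N`**.

For a prime `ℓ ∤ N`: `adaptedRep N ℓ (some b) = (1 N·b; 0 ℓ)`, `adaptedRep N ℓ none = (ℓ 0; 0 1)`.
* `exists_mul_adaptedRep` : every integral matrix of determinant `ℓ` is `κ · adaptedRep j`,
  `κ ∈ SL₂(ℤ)`; `adaptedRep_unique` : `j` is unique;
* `adaptedRep_map_eq_one` : they are `≡ 1 mod N` if `ℓ ≡ 1 mod N`;
* `adaptedRep_mul_T_zpow` : `adaptedRep j · T^k = T^(y j) · adaptedRep (σ j)` with `σ` a permutation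
  and `∑ j, y j = (ℓ + 1) k`.
-/
import Mathlib
import Fermat.Agent.GR.CHAR_helper8_Conj
import Fermat.Agent.RB.TWMOD_helper3_BdyReps

set_option autoImplicit false
set_option linter.unusedSectionVars false

namespace Fermat.Agent.RB.TWM

open CongruenceSubgroup Matrix ModularGroup
open scoped MatrixGroups
open Fermat.Agent.GR Fermat.Agent.W1 Fermat.Agent.W1.ES

/-- the adapted representatives of `SL₂(ℤ) \ {det = ℓ}`. -/
def adaptedRep (N ℓ : ℕ) : Option (Fin ℓ) → Matrix (Fin 2) (Fin 2) ℤ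
  | some b => !![1, (N : ℤ) * ((b : ℕ) : ℤ); 0, (ℓ : ℤ)]
  | none => !![(ℓ : ℤ), 0; 0, 1]

section Adapted

variable (N ℓ : ℕ)

theorem adaptedRep_one_zero (j : Option (Fin ℓ)) : adaptedRep N ℓ j 1 0 = 0 := by
  cases j <;> simp [adaptedRep]

theorem adaptedRep_det (j : Option (Fin ℓ)) : (adaptedRep N ℓ j).det = (ℓ : ℤ) := by
  cases j <;> simp [adaptedRep, Matrix.det_fin_two_of]

theorem adaptedRep_zero_zero_pos (hℓ : 0 < ℓ) (j : Option (Fin ℓ)) : 0 < adaptedRep N ℓ j 0 0 := by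
  cases j
  · simpa [adaptedRep] using hℓ
  · simp [adaptedRep]

theorem adaptedRep_one_one_pos (hℓ : 0 < ℓ) (j : Option (Fin ℓ)) : 0 < adaptedRep N ℓ j 1 1 := by
  cases j
  · simp [adaptedRep]
  · simpa [adaptedRep] using hℓ

theorem adaptedRep_map_eq_one (h1 : ((ℓ : ℕ) : ZMod N) = 1) (j : Option (Fin ℓ)) :
    (adaptedRep N ℓ j).map (Int.castRingHom (ZMod N)) = 1 := by
  cases j with
  | some b =>
    ext i k
    fin_cases i <;> fin_cases k <;> simp [adaptedRep, h1]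
  | none =>
    ext i k
    fin_cases i <;> fin_cases k <;> simp [adaptedRep, h1]

variable {N ℓ}

/-- **uniqueness** of the adapted representative. -/
theorem adaptedRep_unique (hℓ : ℓ.Prime) (hcop : Nat.Coprime N ℓ) {i j : Option (Fin ℓ)}
    (κ : SL(2, ℤ)) (h : adaptedRep N ℓ i = κ.1 * adaptedRep N ℓ j) : i = j := by
  have hℓ1 : ¬ (ℓ : ℤ) ∣ 1 := by
    intro hd
    have := Int.natAbs_dvd_natAbs.mpr hd
    simp at this
    exact hℓ.one_lt.ne' this
  have hdet : κ.1 0 0 * κ.1 1 1 - κ.1 0 1 * κ.1 1 0 = 1 := by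
    have := κ.det_coe
    rwa [Matrix.det_fin_two] at this
  have h00 := congrFun (congrFun h 0) 0
  have h01 := congrFun (congrFun h 0) 1
  have h10 := congrFun (congrFun h 1) 0
  cases i with
  | some b =>
    cases j with
    | some b' =>
      simp only [adaptedRep, Matrix.mul_apply, Fin.sum_univ_two, Matrix.of_apply,
        Matrix.cons_val', Matrix.cons_val_zero, Matrix.cons_val_one,
        Matrix.cons_val_fin_one] at h00 h01
      have ha : κ.1 0 0 = 1 := by linarith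
      rw [ha] at h01
      have hd : (ℓ : ℤ) ∣ (N : ℤ) * (((b : ℕ) : ℤ) - ((b' : ℕ) : ℤ)) :=
        ⟨κ.1 0 1, by linarith⟩
      have hcop' : IsCoprime (ℓ : ℤ) (N : ℤ) := by
        rw [Int.isCoprime_iff_gcd_eq_one]
        simpa [Int.gcd, Nat.coprime_comm] using hcop
      have hd' : (ℓ : ℤ) ∣ ((b : ℕ) : ℤ) - ((b' : ℕ) : ℤ) := hcop'.dvd_of_dvd_mul_left hd
      have hb := b.2
      have hb' := b'.2
      obtain ⟨m, hm⟩ := hd'
      have hm0 : m = 0 := by
        by_contra hne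
        rcases lt_or_gt_of_ne hne with hlt | hgt
        · have : m ≤ -1 := by omega
          nlinarith
        · have : 1 ≤ m := by omega
          nlinarith
      rw [hm0, mul_zero] at hm
      congr 1
      apply Fin.ext
      omega
    | none =>
      exfalso
      simp only [adaptedRep, Matrix.mul_apply, Fin.sum_univ_two, Matrix.of_apply,
        Matrix.cons_val', Matrix.cons_val_zero, Matrix.cons_val_one,
        Matrix.cons_val_fin_one] at h00
      exact hℓ1 ⟨κ.1 0 0, by linarith⟩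
  | none =>
    cases j with
    | some b' =>
      exfalso
      simp only [adaptedRep, Matrix.mul_apply, Fin.sum_univ_two, Matrix.of_apply,
        Matrix.cons_val', Matrix.cons_val_zero, Matrix.cons_val_one,
        Matrix.cons_val_fin_one] at h00 h10
      have h10' : κ.1 1 0 = 0 := by linarith
      have h00' : κ.1 0 0 = (ℓ : ℤ) := by linarith
      rw [h10', h00', mul_zero, sub_zero] at hdet
      exact hℓ1 ⟨κ.1 1 1, hdet.symm⟩
    | none => rfl

/-- **existence** of the adapted representative. -/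
theorem exists_mul_adaptedRep (hℓ : ℓ.Prime) (hcop : Nat.Coprime N ℓ)
    (A : Matrix (Fin 2) (Fin 2) ℤ) (hA : A.det = (ℓ : ℤ)) :
    ∃ (κ : SL(2, ℤ)) (j : Option (Fin ℓ)), A = κ.1 * adaptedRep N ℓ j := by
  have hℓ1 : ¬ ℓ ∣ 1 := fun h => hℓ.one_lt.ne' (Nat.dvd_one.mp h)
  have hmem : A ∈ DS48.DeltaInt 1 ℓ :=
    ⟨hA, Subsingleton.elim _ _, Subsingleton.elim _ _⟩
  obtain ⟨i, g, -, hAg⟩ := (intRepsT 1 hℓ hℓ1).ex A hmem
  cases i with
  | none =>
    refine ⟨g * sigmaP 1 hℓ hℓ1, none, ?_⟩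
    rw [hAg, Matrix.SpecialLinearGroup.coe_mul, Matrix.mul_assoc]
    rfl
  | some a =>
    -- find `b` with `N b ≡ a mod ℓ`
    haveI : Fact ℓ.Prime := ⟨hℓ⟩
    haveI : NeZero ℓ := ⟨hℓ.ne_zero⟩
    have hNu : IsUnit ((N : ℕ) : ZMod ℓ) := (ZMod.isUnit_iff_coprime N ℓ).mpr hcop
    obtain ⟨u, hu⟩ := hNu
    set bz : ZMod ℓ := (↑(u⁻¹) : ZMod ℓ) * (((a : ℕ) : ℕ) : ZMod ℓ) with hbz
    set b : Fin ℓ := ⟨bz.val, ZMod.val_lt bz⟩ with hb
    have hcong : (((N * (b : ℕ) : ℕ) : ℤ) : ZMod ℓ) = (((a : ℕ) : ℤ) : ZMod ℓ) := by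
      push_cast
      rw [hb]
      simp only [ZMod.natCast_val, ZMod.cast_id', id_eq]
      rw [hbz, ← hu, ← mul_assoc, Units.mul_inv, one_mul]
    obtain ⟨m, hm⟩ : (ℓ : ℤ) ∣ ((N * (b : ℕ) : ℕ) : ℤ) - ((a : ℕ) : ℤ) := by
      rw [← ZMod.intCast_zmod_eq_zero_iff_dvd, Int.cast_sub, hcong, sub_self]
    refine ⟨g * T ^ (-m), some b, ?_⟩
    rw [hAg, Matrix.SpecialLinearGroup.coe_mul, Matrix.mul_assoc]
    congr 1
    show DS48.repJ ℓ a = _
    rw [ModularGroup.coe_T_zpow]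
    ext i k
    fin_cases i <;> fin_cases k <;>
      simp [DS48.repJ, adaptedRep, Matrix.mul_apply, Fin.sum_univ_two]
    push_cast at hm
    linarith

/-- **translations permute the adapted representatives**, with total translation `(ℓ + 1) k`. -/
theorem adaptedRep_mul_T_zpow (hℓ : ℓ.Prime) (hcop : Nat.Coprime N ℓ) (k : ℤ) :
    ∃ (σ : Equiv.Perm (Option (Fin ℓ))) (y : Option (Fin ℓ) → ℤ),
      (∀ j, adaptedRep N ℓ j * (T ^ k : SL(2, ℤ)).1 =
        (T ^ (y j) : SL(2, ℤ)).1 * adaptedRep N ℓ (σ j)) ∧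
      ∑ j, y j = ((ℓ : ℤ) + 1) * k := by
  classical
  have hℓpos : 0 < ℓ := hℓ.pos
  -- the decomposition of `β_j T^k`
  have hex : ∀ j : Option (Fin ℓ), ∃ (j' : Option (Fin ℓ)) (y : ℤ),
      adaptedRep N ℓ j * (T ^ k : SL(2, ℤ)).1 = (T ^ y : SL(2, ℤ)).1 * adaptedRep N ℓ j' := by
    intro j
    have hdet : (adaptedRep N ℓ j * (T ^ k : SL(2, ℤ)).1).det = (ℓ : ℤ) := by
      rw [Matrix.det_mul, adaptedRep_det, (T ^ k : SL(2, ℤ)).det_coe, mul_one]
    obtain ⟨κ, j', hκ⟩ := exists_mul_adaptedRep hℓ hcop _ hdet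
    have h10 := congrFun (congrFun hκ 1) 0
    have h00 := congrFun (congrFun hκ 0) 0
    rw [ModularGroup.coe_T_zpow] at h10 h00
    simp only [Matrix.mul_apply, Fin.sum_univ_two, Matrix.of_apply, Matrix.cons_val',
      Matrix.cons_val_zero, Matrix.cons_val_one, Matrix.cons_val_fin_one, adaptedRep_one_zero,
      mul_one, mul_zero, add_zero, zero_mul, zero_add] at h10 h00
    have hpos' := adaptedRep_zero_zero_pos N ℓ hℓpos j'
    have hpos := adaptedRep_zero_zero_pos N ℓ hℓpos j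
    have hc : κ 1 0 = 0 := by
      rcases mul_eq_zero.mp h10.symm with h | h
      · exact h
      · exact absurd h hpos'.ne'
    obtain ⟨y, hy | hy⟩ := eq_T_zpow_or_eq_neg_of_c_eq_zero κ hc
    · exact ⟨j', y, by rw [hκ, hy]⟩
    · exfalso
      have h1 : κ.1 0 0 = -1 := by
        rw [hy, Matrix.SpecialLinearGroup.coe_neg, ModularGroup.coe_T_zpow]
        simp
      rw [h1] at h00
      linarith
  choose σ y hσ using hex
  have hinj : Function.Injective σ := by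
    intro i j hij
    apply adaptedRep_unique hℓ hcop (T ^ (y i - y j))
    have hi := hσ i
    have hj := hσ j
    rw [hij] at hi
    have hTk : (T ^ k : SL(2, ℤ)).1 * (T ^ (-k) : SL(2, ℤ)).1 = 1 := by
      rw [← Matrix.SpecialLinearGroup.coe_mul, ← _root_.zpow_add, add_neg_cancel, zpow_zero,
        Matrix.SpecialLinearGroup.coe_one]
    have hj' : adaptedRep N ℓ (σ j) = (T ^ (-y j) : SL(2, ℤ)).1 *
        (adaptedRep N ℓ j * (T ^ k : SL(2, ℤ)).1) := by
      rw [hj, ← Matrix.mul_assoc, ← Matrix.SpecialLinearGroup.coe_mul, ← _root_.zpow_add,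
        neg_add_cancel, zpow_zero, Matrix.SpecialLinearGroup.coe_one, Matrix.one_mul]
    have h2 : adaptedRep N ℓ i * (T ^ k : SL(2, ℤ)).1 =
        ((T ^ (y i - y j) : SL(2, ℤ)).1 * adaptedRep N ℓ j) * (T ^ k : SL(2, ℤ)).1 := by
      rw [hi, hj', sub_eq_add_neg, _root_.zpow_add, Matrix.SpecialLinearGroup.coe_mul]
      simp only [Matrix.mul_assoc]
    have h3 := congrArg (fun X => X * (T ^ (-k) : SL(2, ℤ)).1) h2
    simp only [Matrix.mul_assoc, hTk, Matrix.mul_one] at h3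
    exact h3
  have hbij : Function.Bijective σ := Finite.injective_iff_bijective.mp hinj
  refine ⟨Equiv.ofBijective σ hbij, y, fun j => hσ j, ?_⟩
  -- the sum, computed in `ℚ`
  have hq : ∀ j, (y j : ℚ) = k * ((adaptedRep N ℓ j 0 0 : ℤ) : ℚ) / ((adaptedRep N ℓ j 1 1 : ℤ) : ℚ) +
      (((adaptedRep N ℓ j 0 1 : ℤ) : ℚ) / ((adaptedRep N ℓ j 1 1 : ℤ) : ℚ) -
        ((adaptedRep N ℓ (σ j) 0 1 : ℤ) : ℚ) / ((adaptedRep N ℓ (σ j) 1 1 : ℤ) : ℚ)) := by
    intro j
    have h01 := congrFun (congrFun (hσ j) 0) 1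
    have h11 := congrFun (congrFun (hσ j) 1) 1
    rw [ModularGroup.coe_T_zpow, ModularGroup.coe_T_zpow] at h01 h11
    simp only [Matrix.mul_apply, Fin.sum_univ_two, Matrix.of_apply, Matrix.cons_val',
      Matrix.cons_val_zero, Matrix.cons_val_one, Matrix.cons_val_fin_one, adaptedRep_one_zero,
      mul_one, mul_zero, add_zero, zero_mul, zero_add, one_mul] at h01 h11
    have hd : ((adaptedRep N ℓ j 1 1 : ℤ) : ℚ) ≠ 0 := by
      exact_mod_cast (adaptedRep_one_one_pos N ℓ hℓpos j).ne'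
    have h01q : ((adaptedRep N ℓ j 0 0 : ℤ) : ℚ) * k + ((adaptedRep N ℓ j 0 1 : ℤ) : ℚ) =
        ((adaptedRep N ℓ (σ j) 0 1 : ℤ) : ℚ) + (y j : ℚ) * ((adaptedRep N ℓ (σ j) 1 1 : ℤ) : ℚ) := by
      exact_mod_cast h01
    have h11q : ((adaptedRep N ℓ j 1 1 : ℤ) : ℚ) = ((adaptedRep N ℓ (σ j) 1 1 : ℤ) : ℚ) := by
      exact_mod_cast h11
    rw [← h11q] at h01q ⊢
    field_simp
    linarith
  have hsumq : ((∑ j, y j : ℤ) : ℚ) = (((ℓ : ℤ) + 1) * k : ℤ) := by
    push_cast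
    rw [Finset.sum_congr rfl fun j _ => hq j, Finset.sum_add_distrib, Finset.sum_sub_distrib]
    have h1 : ∑ j, ((adaptedRep N ℓ (σ j) 0 1 : ℤ) : ℚ) / ((adaptedRep N ℓ (σ j) 1 1 : ℤ) : ℚ) =
        ∑ j, ((adaptedRep N ℓ j 0 1 : ℤ) : ℚ) / ((adaptedRep N ℓ j 1 1 : ℤ) : ℚ) :=
      Equiv.sum_comp (Equiv.ofBijective σ hbij)
        (fun j => ((adaptedRep N ℓ j 0 1 : ℤ) : ℚ) / ((adaptedRep N ℓ j 1 1 : ℤ) : ℚ))
    rw [h1, sub_self, add_zero, Fintype.sum_option]
    have hℓq : (ℓ : ℚ) ≠ 0 := by exact_mod_cast hℓ.ne_zero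
    simp only [adaptedRep, Matrix.of_apply, Matrix.cons_val', Matrix.cons_val_zero,
      Matrix.cons_val_one, Matrix.cons_val_fin_one, Int.cast_natCast, Int.cast_one,
      Finset.sum_const, Finset.card_univ, Fintype.card_fin, nsmul_eq_mul]
    field_simp
  exact_mod_cast hsumq

end Adapted

end Fermat.Agent.RB.TWM
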