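/-
RB — helper3 for [TWMOD] (helper2), package [BDY], part 3: **`T_ℓ - (ℓ + 1)` maps `Hom(Γ', A)` into
the parabolic homomorphisms** for `Γ₁(N) ≤ Γ' ≤ Γ₀(N)` and a prime `ℓ ≡ 1 mod N`.

`heckeOnP_apply_of_trace_sq`  : `(T_ℓ ψ)(γ) = (ℓ + 1) • ψ(γ)` for every `ψ : Hom(Γ', A)` (any abelian
group `A`, no torsion hypothesis) and every `γ ∈ Γ'` with `tr(γ)² = 4`;
`heckeOnP_sub_mem_parabolicHoms` : `T_ℓ ψ - (ℓ + 1) • ψ ∈ parabolicHoms R Γ' A`.

Proof: `γ = z g T^k g⁻¹`, `z = ± 1`; the conjugates `g β_j g⁻¹` of the adapted upper triangular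
representatives (`≡ 1 mod N`) form a system of representatives of `Γ₁(N) \ Δ₁(N, ℓ)` (`conjReps`);
the operator does not depend on the representatives; for these the cocycle of `γ` is
`z g T^(y j) g⁻¹` with `∑ y j = (ℓ + 1) k`, and these elements commute, so their product is
`γ ^ (ℓ + 1)`.
-/
import Mathlib
import Fermat.Agent.RB.TWMOD_helper3_BdyAdapt

set_option autoImplicit false
set_option linter.unusedSectionVars false
set_option linter.style.haveILetI false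

namespace Fermat.Agent.RB.TWM

open CongruenceSubgroup Matrix ModularGroup ModularCurve.Period
open scoped MatrixGroups
open Fermat.Agent.GR Fermat.Agent.W1 Fermat.Agent.W1.ES

section ConjReps

variable {N ℓ : ℕ} (hℓ : ℓ.Prime) (hcop : Nat.Coprime N ℓ) (h1 : ((ℓ : ℕ) : ZMod N) = 1)
  (g : SL(2, ℤ))

/-- the integral matrix `g β_j g⁻¹`. -/
def conjRepZ (N ℓ : ℕ) (g : SL(2, ℤ)) (j : Option (Fin ℓ)) : Matrix (Fin 2) (Fin 2) ℤ :=
  g.1 * adaptedRep N ℓ j * (g⁻¹ : SL(2, ℤ)).1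

theorem conjRepZ_det (j : Option (Fin ℓ)) : (conjRepZ N ℓ g j).det = (ℓ : ℤ) := by
  rw [conjRepZ, Matrix.det_mul, Matrix.det_mul, adaptedRep_det, g.det_coe,
    (g⁻¹ : SL(2, ℤ)).det_coe, one_mul, mul_one]

include h1 in
theorem conjRepZ_map (j : Option (Fin ℓ)) :
    (conjRepZ N ℓ g j).map (Int.castRingHom (ZMod N)) = 1 := by
  rw [conjRepZ, Matrix.map_mul, Matrix.map_mul, adaptedRep_map_eq_one N ℓ h1, Matrix.mul_one,
    ← Matrix.map_mul, ← Matrix.SpecialLinearGroup.coe_mul, mul_inv_cancel,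
    Matrix.SpecialLinearGroup.coe_one]
  ext i k
  fin_cases i <;> fin_cases k <;> simp

include h1 in
theorem conjRepZ_mem (j : Option (Fin ℓ)) : conjRepZ N ℓ g j ∈ DS48.DeltaInt N ℓ := by
  have hm := conjRepZ_map h1 g j
  refine ⟨conjRepZ_det g j, ?_, ?_⟩
  · have := congrFun (congrFun hm 1) 0
    simpa using this
  · have := congrFun (congrFun hm 0) 0
    simpa using this

/-- **the conjugated adapted representatives are a system of representatives of
`Γ₁(N) \ Δ₁(N, ℓ)`** (for `ℓ ≡ 1 mod N`). -/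
noncomputable def conjReps : IntReps N ℓ (Option (Fin ℓ)) where
  r j := Matrix.GeneralLinearGroup.mkOfDetNeZero
    ((conjRepZ N ℓ g j).map (Int.castRingHom ℝ)) (by
      have h := conjRepZ_det (N := N) g j
      have h2 : ((conjRepZ N ℓ g j).map (Int.castRingHom ℝ)).det =
          (Int.castRingHom ℝ) (conjRepZ N ℓ g j).det := by
        rw [RingHom.map_det]
        rfl
      rw [h2, h]
      simpa using hℓ.ne_zero)
  rZ := conjRepZ N ℓ g
  val_r _ := rfl
  mem := conjRepZ_mem h1 g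
  ex A hA := by
    have hdet : ((g⁻¹ : SL(2, ℤ)).1 * A * g.1).det = (ℓ : ℤ) := by
      rw [Matrix.det_mul, Matrix.det_mul, hA.1, g.det_coe, (g⁻¹ : SL(2, ℤ)).det_coe, one_mul,
        mul_one]
    obtain ⟨κ, j, hκ⟩ := exists_mul_adaptedRep hℓ hcop _ hdet
    have hA' : A = (g * κ * g⁻¹ : SL(2, ℤ)).1 * conjRepZ N ℓ g j := by
      have hgg : g.1 * (g⁻¹ : SL(2, ℤ)).1 = 1 := by
        rw [← Matrix.SpecialLinearGroup.coe_mul, mul_inv_cancel,
          Matrix.SpecialLinearGroup.coe_one]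
      have hgg' : (g⁻¹ : SL(2, ℤ)).1 * g.1 = 1 := by
        rw [← Matrix.SpecialLinearGroup.coe_mul, inv_mul_cancel,
          Matrix.SpecialLinearGroup.coe_one]
      have h2 : A = g.1 * ((g⁻¹ : SL(2, ℤ)).1 * A * g.1) * (g⁻¹ : SL(2, ℤ)).1 := by
        simp only [Matrix.mul_assoc, hgg, Matrix.mul_one]
        rw [← Matrix.mul_assoc, hgg, Matrix.one_mul]
      rw [h2, hκ, conjRepZ, Matrix.SpecialLinearGroup.coe_mul, Matrix.SpecialLinearGroup.coe_mul]
      simp only [Matrix.mul_assoc]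
      congr 2
      rw [← Matrix.mul_assoc (g⁻¹ : SL(2, ℤ)).1, hgg', Matrix.one_mul]
    refine ⟨j, g * κ * g⁻¹, ?_, hA'⟩
    -- membership in `Γ₁(N)` by reduction modulo `N`
    have hm : A.map (Int.castRingHom (ZMod N)) =
        ((g * κ * g⁻¹ : SL(2, ℤ)).1).map (Int.castRingHom (ZMod N)) := by
      conv_lhs => rw [hA']
      rw [Matrix.map_mul, conjRepZ_map h1 g j, Matrix.mul_one]
    have hlr := DS48.DeltaInt.lowerRight hA
    obtain ⟨-, h10, h00⟩ := hA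
    rw [Gamma1_mem]
    refine ⟨?_, ?_, ?_⟩
    · have := congrFun (congrFun hm 0) 0
      simp only [Matrix.map_apply, Int.coe_castRingHom] at this
      rw [← this]
      exact h00
    · have := congrFun (congrFun hm 1) 1
      simp only [Matrix.map_apply, Int.coe_castRingHom] at this
      rw [← this, hlr]
      exact h1
    · have := congrFun (congrFun hm 1) 0
      simp only [Matrix.map_apply, Int.coe_castRingHom] at this
      rw [← this]
      exact h10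
  uniq i j κ h := by
    apply adaptedRep_unique hℓ hcop (g⁻¹ * κ * g)
    have hgg' : (g⁻¹ : SL(2, ℤ)).1 * g.1 = 1 := by
      rw [← Matrix.SpecialLinearGroup.coe_mul, inv_mul_cancel,
        Matrix.SpecialLinearGroup.coe_one]
    have h2 := congrArg (fun X => (g⁻¹ : SL(2, ℤ)).1 * X * g.1) h
    simp only [conjRepZ] at h2
    have e1 : (g⁻¹ : SL(2, ℤ)).1 * (g.1 * adaptedRep N ℓ i * (g⁻¹ : SL(2, ℤ)).1) * g.1 =
        adaptedRep N ℓ i := by
      simp only [Matrix.mul_assoc, hgg', Matrix.mul_one]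
      rw [← Matrix.mul_assoc, hgg', Matrix.one_mul]
    have e2 : (g⁻¹ : SL(2, ℤ)).1 * (κ.1 * (g.1 * adaptedRep N ℓ j * (g⁻¹ : SL(2, ℤ)).1)) * g.1 =
        (g⁻¹ * κ * g : SL(2, ℤ)).1 * adaptedRep N ℓ j := by
      rw [Matrix.SpecialLinearGroup.coe_mul, Matrix.SpecialLinearGroup.coe_mul]
      simp only [Matrix.mul_assoc, hgg', Matrix.mul_one]
    rw [e1, e2] at h2
    exact h2

@[simp] theorem conjReps_rZ (j : Option (Fin ℓ)) :
    (conjReps hℓ hcop h1 g).rZ j = g.1 * adaptedRep N ℓ j * (g⁻¹ : SL(2, ℤ)).1 := rfl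

end ConjReps

/-! ### auxiliary algebra -/

section Aux

/-- right cancellation of an integral matrix of non-zero determinant. -/
theorem mul_right_cancel_of_det_ne_zero {X Y R : Matrix (Fin 2) (Fin 2) ℤ} (hR : R.det ≠ 0)
    (h : X * R = Y * R) : X = Y := by
  have h2 := congrArg (fun Z => Z * R.adjugate) h
  simp only [Matrix.mul_assoc, Matrix.mul_adjugate] at h2
  rw [Matrix.mul_smul, Matrix.mul_smul, Matrix.mul_one, Matrix.mul_one] at h2
  ext i j
  have h3 := congrFun (congrFun h2 i) j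
  simp only [Matrix.smul_apply, smul_eq_mul] at h3
  exact mul_left_cancel₀ hR h3

/-- a product of commuting conjugates of translations, twisted by a central element. -/
theorem list_prod_conj_T_zpow (z g : SL(2, ℤ)) (hz : ∀ x : SL(2, ℤ), z * x = x * z) {ι : Type*}
    (y : ι → ℤ) (l : List ι) :
    (l.map fun j => z * (g * T ^ (y j) * g⁻¹)).prod =
      z ^ l.length * (g * T ^ ((l.map y).sum) * g⁻¹) := by
  induction l with
  | nil => simp
  | cons a l ih =>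
    rw [List.map_cons, List.prod_cons, ih, List.map_cons, List.sum_cons, List.length_cons,
      pow_succ', _root_.zpow_add]
    have hzc : ∀ x : SL(2, ℤ), z ^ l.length * x = x * z ^ l.length := by
      intro x
      have : Commute z x := hz x
      exact (this.pow_left l.length).eq
    calc z * (g * T ^ y a * g⁻¹) * (z ^ l.length * (g * T ^ (l.map y).sum * g⁻¹))
        = z * ((g * T ^ y a * g⁻¹) * z ^ l.length) * (g * T ^ (l.map y).sum * g⁻¹) := by
          simp only [mul_assoc]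
      _ = z * (z ^ l.length * (g * T ^ y a * g⁻¹)) * (g * T ^ (l.map y).sum * g⁻¹) := by
          rw [hzc]
      _ = z * z ^ l.length * (g * (T ^ y a * T ^ (l.map y).sum) * g⁻¹) := by
          simp only [mul_assoc, inv_mul_cancel_left]

end Aux

/-! ### the main theorem -/

section Main

variable {N : ℕ} [NeZero N] (Γ' : Subgroup SL(2, ℤ)) (h1 : Gamma1 N ≤ Γ') (h0 : Γ' ≤ Gamma0 N)

/-- **[BDY], pointwise form**: for a prime `ℓ ≡ 1 mod N` and EVERY homomorphism `ψ`,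
`(T_ℓ ψ)(γ) = (ℓ + 1) ψ(γ)` at the elements `γ` with `tr(γ)² = 4`. -/
theorem heckeOnP_apply_of_trace_sq (ℓ : Nat.Primes) (hℓN : ¬ (ℓ : ℕ) ∣ N)
    (hℓ1 : (((ℓ : ℕ) : ℕ) : ZMod N) = 1) {A : Type*} [AddCommGroup A] (ψ : Additive Γ' →+ A)
    (γ : Γ') (hγ : ((γ : SL(2, ℤ)) : Matrix (Fin 2) (Fin 2) ℤ).trace ^ 2 = 4) :
    heckeOnP N Γ' h1 h0 ℓ A ψ (Additive.ofMul γ) = ((ℓ : ℕ) + 1) • ψ (Additive.ofMul γ) := by
  classical
  have hcop : Nat.Coprime N ℓ := ((Nat.Prime.coprime_iff_not_dvd ℓ.2).mpr hℓN).symm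
  obtain ⟨g, k, hgk⟩ := exists_conj_eq_T_zpow (γ : SL(2, ℤ)) hγ
  -- `γ = z g T^k g⁻¹` with `z = ± 1`
  obtain ⟨z, hzM, hγz⟩ : ∃ z : SL(2, ℤ), (∀ X : Matrix (Fin 2) (Fin 2) ℤ, z.1 * X = X * z.1) ∧
      (γ : SL(2, ℤ)) = z * (g * T ^ k * g⁻¹) := by
    rcases hgk with h | h
    · refine ⟨1, fun X => by simp, ?_⟩
      rw [← h]
      group
    · refine ⟨-1, fun X => by simp, ?_⟩
      have h2 : (γ : SL(2, ℤ)) = g * (g⁻¹ * (γ : SL(2, ℤ)) * g) * g⁻¹ := by group
      rw [h2, h]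
      simp
  have hz : ∀ x : SL(2, ℤ), z * x = x * z := by
    intro x
    apply Subtype.ext
    rw [Matrix.SpecialLinearGroup.coe_mul, Matrix.SpecialLinearGroup.coe_mul]
    exact hzM x.1
  -- the adapted system of representatives
  set S := conjReps ℓ.2 hcop hℓ1 g with hS
  set D := datumOn S Γ' h1 h0 with hD
  rw [heckeOnP_of_not_dvd h1 h0 hℓN]
  have hT : (datumT N Γ' h1 h0 ℓ ℓ.2 hℓN).heckeGrp A ψ = D.heckeGrp A ψ :=
    datumOn_heckeGrp_eq S (intRepsT N ℓ.2 hℓN) Γ' h1 h0 ψ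
  rw [hT, HeckeDatum.heckeGrp_apply]
  obtain ⟨σ, y, hσ, hsum⟩ := adaptedRep_mul_T_zpow ℓ.2 hcop k
  have hgg' : (g⁻¹ : SL(2, ℤ)).1 * g.1 = 1 := by
    rw [← Matrix.SpecialLinearGroup.coe_mul, inv_mul_cancel, Matrix.SpecialLinearGroup.coe_one]
  -- the cocycle
  have hc : ∀ j, ((D.cocycle γ j : Γ') : SL(2, ℤ)) = z * (g * T ^ (y j) * g⁻¹) := by
    intro j
    have hspec := D.spec γ j
    have hint : S.rZ j * ((γ : SL(2, ℤ)) : Matrix (Fin 2) (Fin 2) ℤ) =
        ((D.cocycle γ j : Γ') : SL(2, ℤ)).1 * S.rZ (D.perm γ j) :=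
      (gl_mul_eq_iff_int (S.val_r j) (val_slEmb Γ' γ) (val_slEmb Γ' (D.cocycle γ j))
        (S.val_r (D.perm γ j))).mp hspec
    have hdir : S.rZ j * ((γ : SL(2, ℤ)) : Matrix (Fin 2) (Fin 2) ℤ) =
        (z * (g * T ^ (y j) * g⁻¹) : SL(2, ℤ)).1 * S.rZ (σ j) := by
      rw [hγz, hS, conjReps_rZ, conjReps_rZ]
      simp only [Matrix.SpecialLinearGroup.coe_mul]
      calc g.1 * adaptedRep N ℓ j * (g⁻¹ : SL(2, ℤ)).1 *
            (z.1 * (g.1 * (T ^ k : SL(2, ℤ)).1 * (g⁻¹ : SL(2, ℤ)).1))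
          = g.1 * adaptedRep N ℓ j * ((g⁻¹ : SL(2, ℤ)).1 * z.1) *
              (g.1 * (T ^ k : SL(2, ℤ)).1 * (g⁻¹ : SL(2, ℤ)).1) := by
            simp only [Matrix.mul_assoc]
        _ = g.1 * adaptedRep N ℓ j * (z.1 * (g⁻¹ : SL(2, ℤ)).1) *
              (g.1 * (T ^ k : SL(2, ℤ)).1 * (g⁻¹ : SL(2, ℤ)).1) := by
            rw [hzM]
        _ = (g.1 * adaptedRep N ℓ j) * z.1 * (((g⁻¹ : SL(2, ℤ)).1 * g.1) *
              (T ^ k : SL(2, ℤ)).1 * (g⁻¹ : SL(2, ℤ)).1) := by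
            simp only [Matrix.mul_assoc]
        _ = z.1 * (g.1 * (adaptedRep N ℓ j * (T ^ k : SL(2, ℤ)).1) * (g⁻¹ : SL(2, ℤ)).1) := by
            rw [← hzM, hgg', Matrix.one_mul]
            simp only [Matrix.mul_assoc]
        _ = z.1 * (g.1 * (T ^ (y j) : SL(2, ℤ)).1 * (g⁻¹ : SL(2, ℤ)).1) *
              (g.1 * adaptedRep N ℓ (σ j) * (g⁻¹ : SL(2, ℤ)).1) := by
            rw [hσ j]
            simp only [Matrix.mul_assoc]
            rw [← Matrix.mul_assoc (g⁻¹ : SL(2, ℤ)).1 g.1, hgg', Matrix.one_mul]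
    have h3 : S.rZ (σ j) =
        ((z * (g * T ^ (y j) * g⁻¹))⁻¹ * ((D.cocycle γ j : Γ') : SL(2, ℤ)) : SL(2, ℤ)).1 *
          S.rZ (D.perm γ j) := by
      rw [Matrix.SpecialLinearGroup.coe_mul, Matrix.mul_assoc, ← hint, hdir, ← Matrix.mul_assoc,
        ← Matrix.SpecialLinearGroup.coe_mul, inv_mul_cancel, Matrix.SpecialLinearGroup.coe_one,
        Matrix.one_mul]
    have h4 : σ j = D.perm γ j := S.uniq _ _ _ h3
    rw [← h4, hdir] at hint
    have hdet : (S.rZ (σ j)).det ≠ 0 := by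
      rw [(S.mem (σ j)).1]
      exact_mod_cast ℓ.2.ne_zero
    exact Subtype.ext (mul_right_cancel_of_det_ne_zero hdet hint).symm
  -- the product of the cocycles is `γ ^ (ℓ + 1)`
  set L : List (Option (Fin ℓ)) := (Finset.univ : Finset (Option (Fin ℓ))).toList with hL
  have hlen : L.length = (ℓ : ℕ) + 1 := by
    rw [hL, Finset.length_toList, Finset.card_univ, Fintype.card_option, Fintype.card_fin]
  have hLsum : (L.map y).sum = ((ℓ : ℕ) + 1 : ℤ) * k := by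
    rw [hL, Finset.sum_map_toList, hsum]
  have hP : (L.map fun j => D.cocycle γ j).prod = γ ^ ((ℓ : ℕ) + 1) := by
    apply Subtype.ext
    have e1 : (((L.map fun j => D.cocycle γ j).prod : Γ') : SL(2, ℤ)) =
        (L.map fun j => ((D.cocycle γ j : Γ') : SL(2, ℤ))).prod := by
      rw [← Subgroup.coe_subtype, map_list_prod, List.map_map]
      rfl
    have h5 : (L.map fun j => ((D.cocycle γ j : Γ') : SL(2, ℤ))) =
        L.map fun j => z * (g * T ^ (y j) * g⁻¹) :=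
      List.map_congr_left (fun j _ => hc j)
    rw [e1, SubgroupClass.coe_pow, h5, list_prod_conj_T_zpow z g hz y L, hlen, hLsum, hγz]
    have hcomm : Commute z (g * T ^ k * g⁻¹) := hz _
    rw [hcomm.mul_pow, conj_pow, ← zpow_natCast (T ^ k), ← _root_.zpow_mul, mul_comm]
    push_cast
    rfl
  calc ∑ j, ψ (Additive.ofMul (D.cocycle γ j))
      = (L.map fun j => ψ (Additive.ofMul (D.cocycle γ j))).sum := by
        rw [hL, Finset.sum_map_toList]
    _ = ψ (Additive.ofMul ((L.map fun j => D.cocycle γ j).prod)) := by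
        rw [ofMul_list_prod, map_list_sum, List.map_map, List.map_map]
        rfl
    _ = ((ℓ : ℕ) + 1) • ψ (Additive.ofMul γ) := by
        rw [hP, ofMul_pow, map_nsmul]

/-- **[BDY]**, `ZMod` form of the congruence: `T_ℓ - (ℓ + 1)` maps `Hom(Γ', A)` into the parabolic
homomorphisms (`ℓ ≡ 1 mod N`). -/
theorem heckeOnP_sub_mem_parabolicHoms_of_cast_eq_one (ℓ : Nat.Primes) (hℓN : ¬ (ℓ : ℕ) ∣ N)
    (hℓ1 : (((ℓ : ℕ) : ℕ) : ZMod N) = 1) (R : Type*) [Semiring R] {A : Type*} [AddCommGroup A]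
    [Module R A] (ψ : Additive Γ' →+ A) :
    heckeOnP N Γ' h1 h0 ℓ A ψ - ((ℓ : ℕ) + 1) • ψ ∈ parabolicHoms R Γ' A := by
  rw [mem_parabolicHoms_iff]
  intro γ hγ
  rw [AddMonoidHom.sub_apply, AddMonoidHom.nsmul_apply,
    heckeOnP_apply_of_trace_sq Γ' h1 h0 ℓ hℓN hℓ1 ψ γ hγ, sub_self]

/-- **[BDY]** (helper2's literal, without the torsion-freeness hypothesis, which is not needed):
`T_ℓ - (ℓ + 1)` maps `Hom(Γ', A)` into the parabolic homomorphisms for `ℓ ≡ 1 mod N`. -/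
theorem heckeOnP_sub_mem_parabolicHoms (ℓ : Nat.Primes) (hℓN : ¬ (ℓ : ℕ) ∣ N)
    (hℓ1 : (ℓ : ℕ) ≡ 1 [MOD N]) {A : Type*} [AddCommGroup A] (R : Type*) [Semiring R]
    [Module R A] (ψ : Additive Γ' →+ A) :
    heckeOnP N Γ' h1 h0 ℓ A ψ - ((ℓ : ℕ) + 1) • ψ ∈ parabolicHoms R Γ' A := by
  refine heckeOnP_sub_mem_parabolicHoms_of_cast_eq_one Γ' h1 h0 ℓ hℓN ?_ R ψ
  have h := (ZMod.natCast_eq_natCast_iff (ℓ : ℕ) 1 N).mpr hℓ1
  rwa [Nat.cast_one] at h

end Main

end Fermat.Agent.RB.TWM
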