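/-
RB = S43 via Ihara avoidance, package [TW] (lead), part D3: **group theory in `SL₂(ℤ)`** for the
injectivity of the twisting transfer:
* `GammaUp M = Γ⁰(M)` and `kappa : Γ⁰(M) →* SL₂(ℤ)`, `(a b; c d) ↦ (a b/M; M c d)` (conjugation by
  `diag(1, M)`), `kappaS : Γ⁰(M) ⊓ Γ₀(N/M) →* Γ₀(N)`;
* `Γ(a) ⊓ Γ(b) ≤ Γ(a b)` and `[Γ(a), Γ(b)] ≤ Γ(a b)` for coprime `a`, `b`;
* the conjugation action `cj g` of `SL₂(ℤ)` on `Hom(Γ(N), K)`: `cj (g h) = cj h ∘ cj g`, trivial on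
  `Γ(N)`, `cj g` and `cj h` commute if `[g, h] ∈ Γ(N)`.
-/
import Mathlib
import Fermat.Agent.RB.TW_lead_Mat

set_option autoImplicit false
set_option linter.unusedSectionVars false
set_option linter.unnecessarySeqFocus false

namespace Fermat.Agent.RB.TWL

open CongruenceSubgroup Matrix ModularCurve.Period ModularForm
open scoped MatrixGroups
open Fermat.Agent.GR Fermat.Agent.W1 Fermat.Agent.RB.TWM

/-! ### `Γ⁰(M)` and the conjugation by `diag(1, M)` -/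

theorem SL2_inv_zero_one (a : SL(2, ℤ)) : (a⁻¹) 0 1 = -a 0 1 := by
  rw [Matrix.SpecialLinearGroup.coe_inv, Matrix.adjugate_fin_two]
  simp

theorem SL2_mul_zero_one (a b : SL(2, ℤ)) : (a * b) 0 1 = a 0 0 * b 0 1 + a 0 1 * b 1 1 := by
  rw [Matrix.SpecialLinearGroup.coe_mul, Matrix.mul_apply, Fin.sum_univ_two]

/-- `Γ⁰(M)`: the upper right entry is divisible by `M`. -/
def GammaUp (M : ℕ) : Subgroup SL(2, ℤ) where
  carrier := {g | (M : ℤ) ∣ g 0 1}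
  one_mem' := by
    show (M : ℤ) ∣ (1 : SL(2, ℤ)) 0 1
    simp
  mul_mem' := by
    intro a b ha hb
    show (M : ℤ) ∣ (a * b) 0 1
    rw [SL2_mul_zero_one]
    exact dvd_add (Dvd.dvd.mul_left hb _) (Dvd.dvd.mul_right ha _)
  inv_mem' := by
    intro a ha
    show (M : ℤ) ∣ (a⁻¹) 0 1
    rw [SL2_inv_zero_one]
    exact (dvd_neg).mpr ha

theorem mem_GammaUp {M : ℕ} {g : SL(2, ℤ)} : g ∈ GammaUp M ↔ (M : ℤ) ∣ g 0 1 := Iff.rfl

theorem utZ_diag_cancel {M : ℕ} (hM : M ≠ 0) (a b : SL(2, ℤ))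
    (h : (a : Matrix (Fin 2) (Fin 2) ℤ) * utZ 1 0 M = (b : Matrix (Fin 2) (Fin 2) ℤ) * utZ 1 0 M) :
    a = b := by
  have hM' : (M : ℤ) ≠ 0 := by exact_mod_cast hM
  have key : ∀ i : Fin 2, a i 0 = b i 0 ∧ a i 1 = b i 1 := by
    intro i
    have h0 := congrFun (congrFun h i) 0
    have h1 := congrFun (congrFun h i) 1
    simp only [utZ, Matrix.mul_apply, Fin.sum_univ_two, Matrix.of_apply, Matrix.cons_val',
      Matrix.cons_val_zero, Matrix.cons_val_one, Matrix.cons_val_fin_one, mul_one, mul_zero,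
      add_zero, zero_add] at h0 h1
    exact ⟨h0, mul_right_cancel₀ hM' h1⟩
  apply Subtype.ext
  ext i j
  fin_cases j
  · exact (key i).1
  · exact (key i).2

/-- the underlying function of `kappa`. -/
noncomputable def kappaFun (M : ℕ) (g : GammaUp M) : SL(2, ℤ) :=
  xferdConjDiag M (g : SL(2, ℤ)) (mem_GammaUp.mp g.2)

theorem utZ_mul_kappaFun (M : ℕ) (g : GammaUp M) :
    utZ 1 0 M * ((g : SL(2, ℤ)) : Matrix (Fin 2) (Fin 2) ℤ) =
      (kappaFun M g : Matrix (Fin 2) (Fin 2) ℤ) * utZ 1 0 M :=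
  utZ_mul_xferdConjDiag M (g : SL(2, ℤ)) (mem_GammaUp.mp g.2)

/-- **conjugation by `diag(1, M)`** on `Γ⁰(M)`: `(a b; c d) ↦ (a b/M; M c d)`. -/
noncomputable def kappa (M : ℕ) [NeZero M] : ↥(GammaUp M) →* SL(2, ℤ) where
  toFun g := kappaFun M g
  map_one' := by
    apply utZ_diag_cancel (NeZero.ne M)
    rw [← utZ_mul_kappaFun]
    simp
  map_mul' g h := by
    apply utZ_diag_cancel (NeZero.ne M)
    rw [← utZ_mul_kappaFun, Matrix.SpecialLinearGroup.coe_mul, Matrix.mul_assoc,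
      ← utZ_mul_kappaFun M h, ← Matrix.mul_assoc, ← utZ_mul_kappaFun M g, Subgroup.coe_mul,
      Matrix.SpecialLinearGroup.coe_mul, Matrix.mul_assoc]

section Kappa

variable (M : ℕ) [NeZero M]

theorem utZ_mul_kappa (g : GammaUp M) :
    utZ 1 0 M * ((g : SL(2, ℤ)) : Matrix (Fin 2) (Fin 2) ℤ) =
      (kappa M g : Matrix (Fin 2) (Fin 2) ℤ) * utZ 1 0 M :=
  utZ_mul_kappaFun M g

theorem kappa_zero_zero (g : GammaUp M) : (kappa M g) 0 0 = (g : SL(2, ℤ)) 0 0 := rfl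

theorem kappa_zero_one (g : GammaUp M) : (kappa M g) 0 1 = (g : SL(2, ℤ)) 0 1 / (M : ℤ) := rfl

theorem kappa_one_zero (g : GammaUp M) : (kappa M g) 1 0 = (M : ℤ) * (g : SL(2, ℤ)) 1 0 := rfl

theorem kappa_one_one (g : GammaUp M) : (kappa M g) 1 1 = (g : SL(2, ℤ)) 1 1 := rfl

/-- `(g : Γ⁰(M)) (M 0; 0 1) = (M 0; 0 1) κ(g)`. -/
theorem mul_utZ_eq_utZ_mul_kappa (g : GammaUp M) :
    ((g : SL(2, ℤ)) : Matrix (Fin 2) (Fin 2) ℤ) * utZ M 0 1 =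
      utZ M 0 1 * (kappa M g : Matrix (Fin 2) (Fin 2) ℤ) := by
  have hdvd : (M : ℤ) ∣ (g : SL(2, ℤ)) 0 1 := g.2
  ext i j
  fin_cases i <;> fin_cases j <;>
    simp [utZ, Matrix.mul_apply, Fin.sum_univ_two, kappa_zero_zero, kappa_zero_one,
      kappa_one_zero, kappa_one_one, Int.mul_ediv_cancel' hdvd, mul_comm]

end Kappa

/-- the group `Γ⁰(M) ⊓ Γ₀(N')`. -/
def SGrp (M N' : ℕ) : Subgroup SL(2, ℤ) := GammaUp M ⊓ Gamma0 N'

theorem mem_SGrp {M N' : ℕ} {g : SL(2, ℤ)} :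
    g ∈ SGrp M N' ↔ (M : ℤ) ∣ g 0 1 ∧ (N' : ℤ) ∣ g 1 0 := by
  rw [SGrp, Subgroup.mem_inf, mem_GammaUp, mem_Gamma0_iff_dvd]

section KappaS

variable {N M : ℕ} [NeZero M] (h : M ∣ N)

include h in
theorem kappa_mem_Gamma0 (s : SGrp M (N / M)) :
    kappa M ⟨(s : SL(2, ℤ)), s.2.1⟩ ∈ Gamma0 N := by
  rw [mem_Gamma0_iff_dvd, kappa_one_zero]
  have h1 : ((N / M : ℕ) : ℤ) ∣ (s : SL(2, ℤ)) 1 0 := (mem_SGrp.mp s.2).2
  have h2 : (N : ℤ) = (M : ℤ) * ((N / M : ℕ) : ℤ) := by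
    rw [← Nat.cast_mul, Nat.mul_div_cancel' h]
  rw [h2]
  exact mul_dvd_mul_left _ h1

/-- `κ` as a homomorphism `Γ⁰(M) ⊓ Γ₀(N/M) →* Γ₀(N)`. -/
noncomputable def kappaS : ↥(SGrp M (N / M)) →* ↥(Gamma0 N) where
  toFun s := ⟨kappa M ⟨(s : SL(2, ℤ)), s.2.1⟩, kappa_mem_Gamma0 h s⟩
  map_one' := Subtype.ext (map_one (kappa M))
  map_mul' s t := Subtype.ext (by
    show kappa M ⟨((s * t : SGrp M (N / M)) : SL(2, ℤ)), _⟩ =
      kappa M ⟨(s : SL(2, ℤ)), s.2.1⟩ * kappa M ⟨(t : SL(2, ℤ)), t.2.1⟩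
    rw [← map_mul]
    rfl)

theorem coe_kappaS (s : SGrp M (N / M)) :
    ((kappaS h s : Gamma0 N) : SL(2, ℤ)) = kappa M ⟨(s : SL(2, ℤ)), s.2.1⟩ := rfl

end KappaS

/-! ### principal congruence subgroups -/

theorem mem_Gamma_iff_dvd {n : ℕ} {γ : SL(2, ℤ)} :
    γ ∈ Gamma n ↔ (n : ℤ) ∣ γ 0 0 - 1 ∧ (n : ℤ) ∣ γ 0 1 ∧ (n : ℤ) ∣ γ 1 0 ∧ (n : ℤ) ∣ γ 1 1 - 1 := by
  rw [Gamma_mem, ← ZMod.intCast_zmod_eq_zero_iff_dvd, ← ZMod.intCast_zmod_eq_zero_iff_dvd,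
    ← ZMod.intCast_zmod_eq_zero_iff_dvd, ← ZMod.intCast_zmod_eq_zero_iff_dvd]
  push_cast
  rw [sub_eq_zero, sub_eq_zero]

theorem Gamma_inf_le {a b : ℕ} (hab : Nat.Coprime a b) : Gamma a ⊓ Gamma b ≤ Gamma (a * b) := by
  intro γ hγ
  obtain ⟨h1, h2⟩ := Subgroup.mem_inf.mp hγ
  rw [mem_Gamma_iff_dvd] at h1 h2
  rw [mem_Gamma_iff_dvd]
  have hcop : IsCoprime (a : ℤ) (b : ℤ) := by
    rw [Int.isCoprime_iff_gcd_eq_one, Int.gcd_natCast_natCast]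
    exact hab
  push_cast
  exact ⟨hcop.mul_dvd h1.1 h2.1, hcop.mul_dvd h1.2.1 h2.2.1, hcop.mul_dvd h1.2.2.1 h2.2.2.1,
    hcop.mul_dvd h1.2.2.2 h2.2.2.2⟩

theorem commutator_mem_Gamma {a b : ℕ} (hab : Nat.Coprime a b) {g h : SL(2, ℤ)}
    (hg : g ∈ Gamma a) (hh : h ∈ Gamma b) : g * h * g⁻¹ * h⁻¹ ∈ Gamma (a * b) := by
  apply Gamma_inf_le hab
  refine Subgroup.mem_inf.mpr ⟨?_, ?_⟩
  · have h1 : h * g⁻¹ * h⁻¹ ∈ Gamma a :=
      (Gamma_normal a).conj_mem _ ((Gamma a).inv_mem hg) h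
    have h2 : g * h * g⁻¹ * h⁻¹ = g * (h * g⁻¹ * h⁻¹) := by group
    rw [h2]
    exact (Gamma a).mul_mem hg h1
  · have h1 : g * h * g⁻¹ ∈ Gamma b := (Gamma_normal b).conj_mem _ hh g
    exact (Gamma b).mul_mem h1 ((Gamma b).inv_mem hh)

theorem upperUni_mem_Gamma {n : ℕ} {b : ℤ} (h : (n : ℤ) ∣ b) : upperUni b ∈ Gamma n := by
  rw [mem_Gamma_iff_dvd]
  refine ⟨?_, ?_, ?_, ?_⟩ <;> simp [upperUni, h]

theorem lowerUni_mem_Gamma {n : ℕ} {c : ℤ} (h : (n : ℤ) ∣ c) : lowerUni c ∈ Gamma n := by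
  rw [mem_Gamma_iff_dvd]
  refine ⟨?_, ?_, ?_, ?_⟩ <;> simp [lowerUni, h]

theorem upperUni_add (a b : ℤ) : upperUni (a + b) = upperUni a * upperUni b := by
  apply Subtype.ext
  rw [Matrix.SpecialLinearGroup.coe_mul]
  ext i j
  fin_cases i <;> fin_cases j <;> simp [upperUni, Matrix.mul_apply, Fin.sum_univ_two, add_comm]

theorem upperUni_zero : upperUni 0 = 1 := by
  apply Subtype.ext
  ext i j
  fin_cases i <;> fin_cases j <;> simp [upperUni]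

theorem upperUni_natCast (n : ℕ) : upperUni (n : ℤ) = upperUni 1 ^ n := by
  induction n with
  | zero => simp [upperUni_zero]
  | succ n ih => rw [Nat.cast_succ, upperUni_add, ih, pow_succ]

/-! ### the conjugation action on `Hom(Γ(N), K)` -/

section Cj

variable (N : ℕ) (K : Type*) [Field K]

instance gamma_normal_inst : (Gamma N).Normal := Gamma_normal N

/-- `f ↦ f ∘ (γ ↦ g γ g⁻¹)` on `Hom(Γ(N), K)`. -/
noncomputable def cj (g : SL(2, ℤ)) :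
    (Additive ↥(Gamma N) →+ K) →ₗ[K] (Additive ↥(Gamma N) →+ K) where
  toFun f := f.comp (MonoidHom.toAdditive
    ((MulAut.conjNormal g : MulAut ↥(Gamma N)).toMonoidHom))
  map_add' _ _ := rfl
  map_smul' _ _ := rfl

variable {N K}

theorem cj_apply (g : SL(2, ℤ)) (f : Additive ↥(Gamma N) →+ K) (γ : Gamma N) :
    cj N K g f (Additive.ofMul γ) =
      f (Additive.ofMul ((MulAut.conjNormal g : MulAut ↥(Gamma N)) γ)) := rfl

theorem cj_mul (g h : SL(2, ℤ)) (f : Additive ↥(Gamma N) →+ K) :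
    cj N K (g * h) f = cj N K h (cj N K g f) := by
  refine AddMonoidHom.ext fun γ => ?_
  obtain ⟨γ, rfl⟩ := Additive.ofMul.surjective γ
  rw [cj_apply, cj_apply, cj_apply, map_mul]
  rfl

theorem cj_one (f : Additive ↥(Gamma N) →+ K) : cj N K 1 f = f := by
  refine AddMonoidHom.ext fun γ => ?_
  obtain ⟨γ, rfl⟩ := Additive.ofMul.surjective γ
  rw [cj_apply, map_one]
  rfl

theorem cj_of_mem {g : SL(2, ℤ)} (hg : g ∈ Gamma N) (f : Additive ↥(Gamma N) →+ K) :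
    cj N K g f = f := by
  refine AddMonoidHom.ext fun γ => ?_
  obtain ⟨γ, rfl⟩ := Additive.ofMul.surjective γ
  rw [cj_apply]
  have h1 : (MulAut.conjNormal g : MulAut ↥(Gamma N)) γ = ⟨g, hg⟩ * γ * ⟨g, hg⟩⁻¹ :=
    Subtype.ext (by rw [MulAut.conjNormal_apply]; rfl)
  rw [h1, ofMul_mul, ofMul_mul, ofMul_inv, map_add, map_add, map_neg]
  abel

theorem cj_comm_of_commutator_mem {g h : SL(2, ℤ)} (hc : g * h * g⁻¹ * h⁻¹ ∈ Gamma N)
    (f : Additive ↥(Gamma N) →+ K) : cj N K h (cj N K g f) = cj N K g (cj N K h f) := by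
  have h1 : g * h = (g * h * g⁻¹ * h⁻¹) * (h * g) := by group
  rw [← cj_mul, h1, cj_mul, cj_of_mem hc, cj_mul]

theorem cj_pow (g : SL(2, ℤ)) (n : ℕ) (f : Additive ↥(Gamma N) →+ K) :
    cj N K (g ^ n) f = ((cj N K g) ^ n) f := by
  induction n generalizing f with
  | zero => rw [pow_zero, pow_zero, cj_one]; rfl
  | succ n ih => rw [pow_succ, cj_mul, ih, pow_succ', Module.End.mul_apply]

theorem cj_upperUni_natCast (n : ℕ) (f : Additive ↥(Gamma N) →+ K) :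
    cj N K (upperUni (n : ℤ)) f = ((cj N K (upperUni 1)) ^ n) f := by
  rw [upperUni_natCast, cj_pow]

end Cj

end Fermat.Agent.RB.TWL
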