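/-
Project RB, package C [VAL] (KEY-H) — helper8 — (C-I') **the Atkin–Lehner transform of the generators
`φ_a` of the function field of `X₁(M' r)`**: for `r x + M' y = 1`, `γ₁ = (1 −y; M' rx)`,
`φ_a(γ₁ (r τ)) = (E₄²/Δ)(rτ) · hFun M' r a₀ b (rτ) / c4`, `a₀ = a mod M' ≠ 0`, `b = −a y mod r`, with
Laurent expansion `phiMult(q^r) · r⁻⁴ · twSer(q)`,
`twSer = ∑_e (∑_{nm = e} ([n ≡ a₀] ξ^m + [n ≡ −a₀] ξ'^m) m³) q^e`, `ξ = e^{2πi b/r}`, `ξ' = ξ⁻¹`.
-/
import Fermat.Agent.RB.VAL_helper8_Eis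

set_option autoImplicit false
set_option linter.unusedSectionVars false
set_option linter.style.haveILetI false

open UpperHalfPlane hiding I
open EisensteinSeries ModularForm Complex Filter Matrix ModularGroup Topology
  CongruenceSubgroup Nat
open scoped MatrixGroups Manifold Real

namespace Fermat.Agent.RB

open Fermat.Agent.GR Fermat.Agent.RatStr Fermat.Agent.W1 Fermat.Agent.X0N ModularCurve

noncomputable section

local notation "Δ" => ModularForm.discriminant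

/-! ### the multiplier `E₄² / Δ` -/

/-- `E₄² / Δ` (weight `-4`). -/
def multFun : ℍ → ℂ := fun z => E₄ z ^ 2 / Δ z

theorem multFun_mul_qf : multFun * qf 1 = (⇑E₄) ^ 2 * etaInv24 := by
  ext z
  simp only [Pi.mul_apply, multFun, Pi.pow_apply, etaInv24, discriminant_eq_qf_mul]
  have h1 := qf_ne_zero 1 z
  have h2 := etaProdFun_ne_zero z
  field_simp

theorem isHolBdd_multFun_mul_qf : IsHolBdd 1 (multFun * qf 1 ^ 1) := by
  rw [pow_one, multFun_mul_qf]
  exact (isHolBdd_E₄.pow 2).mul isHolBdd_etaInv24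

theorem isMeroInfty_multFun : IsMeroInfty 1 multFun := ⟨1, isHolBdd_multFun_mul_qf⟩

theorem laurent_multFun : laurent 1 multFun = phiMult ℂ := by
  rw [laurent_eq one_pos isHolBdd_multFun_mul_qf, pow_one, multFun_mul_qf,
    qExpansion_mul' one_pos (isHolBdd_E₄.pow 2) isHolBdd_etaInv24, qExpansion_etaInv24]
  have h2 : qExpansion 1 ((⇑E₄) ^ 2) = (qExpansion 1 E₄) ^ 2 := by
    rw [pow_succ, pow_one, qExpansion_mul' one_pos isHolBdd_E₄ isHolBdd_E₄]
    ring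
  rw [h2, Fermat.Agent.S16.qExpansion_E₄_eq, phiMult_eq_single_mul, e4sqZ, map_mul, map_pow]
  simp only [Nat.cast_one]
  rw [map_mul (PowerSeries.map (Int.castRingHom ℂ)), map_pow (PowerSeries.map (Int.castRingHom ℂ)),
    map_mul (HahnSeries.ofPowerSeries ℤ ℂ), map_pow (HahnSeries.ofPowerSeries ℤ ℂ)]

theorem phiFun_eq_multFun (M : ℕ) (a : ZMod M) (z : ℍ) :
    phiFun M a z = multFun z * (gFun M a z / c4) := rfl

/-! ### the transform -/

/-- `(E₄²/Δ)(τ) · hFun M' r a₀ b τ / c4`. -/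
def phiAL (M' r : ℕ) (a₀ : ZMod M') (b : ZMod r) : ℍ → ℂ :=
  fun z => multFun z * (hFun M' r a₀ b z / c4)

/-- **`φ_a ∘ γ₁`** for the Atkin–Lehner matrix `γ₁ = (1 −y; M' rx)`. -/
theorem phiFun_smul_alGammaOne {M' r : ℕ} {x y : ℤ} (h : (r : ℤ) * x + M' * y = 1)
    (a : ZMod (M' * r)) (z : ℍ) :
    phiFun (M' * r) a (alGammaOne M' r x y h • z) =
      phiAL M' r (ZMod.castHom (dvd_mul_right M' r) (ZMod M') a)
        (-(ZMod.castHom (dvd_mul_left r M') (ZMod r) a) * ((y : ℤ) : ZMod r)) z := by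
  have hs := congrFun (gFun_slash_alGammaOne h a) z
  rw [SL_slash_apply] at hs
  have hne : denom (alGammaOne M' r x y h) z ≠ 0 := denom_ne_zero _ z
  rw [_root_.zpow_neg, mul_inv_eq_iff_eq_mul₀ (zpow_ne_zero _ hne)] at hs
  unfold phiFun phiAL multFun
  rw [hs, modularForm_SL_smul, discriminant_SL_smul']
  have h2 := discriminant_ne_zero z
  have h3 := c4_ne_zero
  have e4 : denom (alGammaOne M' r x y h) z ^ (4 : ℤ) = denom (alGammaOne M' r x y h) z ^ 4 := by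
    norm_cast
  have e12 : denom (alGammaOne M' r x y h) z ^ (12 : ℤ) =
      denom (alGammaOne M' r x y h) z ^ 12 := by norm_cast
  rw [e4, e12]
  field_simp

/-! ### the formal series -/

section Formal

variable (R : Type*) [CommRing R] {S : Type*} [CommRing S]

/-- the formal series `∑_e (∑_{nm = e} ([n ≡ a₀] ξ^m + [n ≡ −a₀] ξ'^m) m³) q^e`. -/
def twSer (M' : ℕ) (a₀ : ZMod M') (ξ ξ' : R) : PowerSeries R :=
  PowerSeries.mk fun e => ∑ x ∈ e.divisorsAntidiagonal,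
    ((if ((x.1 : ℕ) : ZMod M') = a₀ then ξ ^ x.2 else 0) +
      (if ((x.1 : ℕ) : ZMod M') = -a₀ then ξ' ^ x.2 else 0)) * (x.2 : R) ^ 3

variable {R}

theorem coeff_twSer (M' : ℕ) (a₀ : ZMod M') (ξ ξ' : R) (e : ℕ) :
    PowerSeries.coeff e (twSer R M' a₀ ξ ξ') = ∑ x ∈ e.divisorsAntidiagonal,
      ((if ((x.1 : ℕ) : ZMod M') = a₀ then ξ ^ x.2 else 0) +
        (if ((x.1 : ℕ) : ZMod M') = -a₀ then ξ' ^ x.2 else 0)) * (x.2 : R) ^ 3 := by
  rw [twSer, PowerSeries.coeff_mk]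

theorem map_twSer (f : R →+* S) (M' : ℕ) (a₀ : ZMod M') (ξ ξ' : R) :
    (twSer R M' a₀ ξ ξ').map f = twSer S M' a₀ (f ξ) (f ξ') := by
  ext e
  rw [PowerSeries.coeff_map, coeff_twSer, coeff_twSer, map_sum]
  refine Finset.sum_congr rfl fun x _ => ?_
  rw [map_mul, map_add, map_pow, map_natCast]
  congr 2
  · split_ifs
    · rw [map_pow]
    · rw [map_zero]
  · split_ifs
    · rw [map_pow]
    · rw [map_zero]

theorem coeffMap_qExpand_rb (f : R →+* S) (n : ℕ) [NeZero n] (x : LaurentSeries R) :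
    coeffMap f (qExpand R n x) = qExpand S n (coeffMap f x) := by
  ext k
  by_cases hk : (n : ℤ) ∣ k
  · obtain ⟨m, rfl⟩ := hk
    rw [coeffMap_coeff, qExpand_coeff_mul, qExpand_coeff_mul, coeffMap_coeff]
  · rw [coeffMap_coeff, qExpand_coeff_of_not_dvd n _ hk, qExpand_coeff_of_not_dvd n _ hk, map_zero]

end Formal

theorem twPart_eq_twSer (M' r : ℕ) (a₀ : ZMod M') (b : ZMod r) :
    twPart M' r a₀ b = twSer ℂ M' a₀ (xiR r b) (xiR r (-b)) := by
  ext e
  rw [twPart, PowerSeries.coeff_mk, coeff_twSer, twCoef]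
  rfl

/-! ### the Laurent expansion of the transform -/

theorem dilate_phiAL (M' r : ℕ) (a₀ : ZMod M') (b : ZMod r) :
    dilate r (phiAL M' r a₀ b) = dilate r multFun * (c4⁻¹ • dilate r (hFun M' r a₀ b)) := by
  ext z
  simp only [dilate_apply, phiAL, Pi.mul_apply, Pi.smul_apply, smul_eq_mul]
  rw [div_eq_inv_mul]

theorem isMeroInfty_dilate_phiAL {M' r : ℕ} [NeZero r] {a₀ : ZMod M'} (ha : a₀ ≠ 0)
    (b : ZMod r) : IsMeroInfty 1 (dilate r (phiAL M' r a₀ b)) := by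
  rw [dilate_phiAL]
  exact (isMeroInfty_dilate (NeZero.ne r) isMeroInfty_multFun).mul
    ((isHolBdd_dilate_hFun ha b).smul _).isMeroInfty

/-- **the Laurent expansion of `τ ↦ φ_a(γ₁ (rτ))`**. -/
theorem laurent_dilate_phiAL {M' r : ℕ} [NeZero r] {a₀ : ZMod M'} (ha : a₀ ≠ 0) (b : ZMod r) :
    laurent 1 (dilate r (phiAL M' r a₀ b)) =
      qExpand ℂ r (phiMult ℂ) * (HahnSeries.C (((r : ℂ)⁻¹) ^ 4) *
        HahnSeries.ofPowerSeries ℤ ℂ (twSer ℂ M' a₀ (xiR r b) (xiR r (-b)))) := by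
  rw [dilate_phiAL, laurent_mul one_pos (isMeroInfty_dilate (NeZero.ne r) isMeroInfty_multFun)
    ((isHolBdd_dilate_hFun ha b).smul _).isMeroInfty, laurent_dilate r isMeroInfty_multFun,
    laurent_multFun, laurent_of_isHolBdd one_pos ((isHolBdd_dilate_hFun ha b).smul _),
    UpperHalfPlane.qExpansion_smul ((isHolBdd_dilate_hFun ha b).analyticAt one_pos),
    qExpansion_dilate_hFun ha b, smul_smul, twPart_eq_twSer]
  have e : c4⁻¹ * (((r : ℂ)⁻¹) ^ 4 * c4) = ((r : ℂ)⁻¹) ^ 4 := by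
    rw [mul_comm _ c4, ← mul_assoc, inv_mul_cancel₀ c4_ne_zero, one_mul]
  rw [e]
  congr 1
  rw [← HahnSeries.ofPowerSeries_C, ← map_mul, ← PowerSeries.smul_eq_C_mul]

/-! ### the transform on `MerH` and its `k`-rational expansion -/

/-- `τ ↦ φ_a(γ₁ (rτ))` as a holomorphic function (`a₀ ≠ 0`). -/
def phiALHol (M' r : ℕ) [NeZero r] {a₀ : ZMod M'} (ha : a₀ ≠ 0) (b : ZMod r) : HolH :=
  ⟨dilate r (phiAL M' r a₀ b), (isMeroInfty_dilate_phiAL ha b).hol⟩

theorem dilateHom_comp_phiHolE {M' r : ℕ} [NeZero r] {x y : ℤ} (h : (r : ℤ) * x + M' * y = 1)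
    (a : ZMod (M' * r))
    (ha : (ZMod.castHom (dvd_mul_right M' r) (ZMod M') a) ≠ 0) :
    HolH.dilateHom r (HolH.comp (alGammaOne M' r x y h) (phiHolE (M' * r) a 1)) =
      phiALHol M' r ha
        (-(ZMod.castHom (dvd_mul_left r M') (ZMod r) a) * ((y : ℤ) : ZMod r)) := by
  apply Subtype.ext
  funext τ
  have h2 : heckeDiagMatrix 1 • (alGammaOne M' r x y h • (heckeDiagMatrix r • τ)) =
      alGammaOne M' r x y h • (heckeDiagMatrix r • τ) := by
    apply UpperHalfPlane.ext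
    rw [coe_heckeDiagMatrix_smul one_ne_zero]
    simp
  calc (HolH.dilateHom r (HolH.comp (alGammaOne M' r x y h) (phiHolE (M' * r) a 1)) : ℍ → ℂ) τ
      = phiFun (M' * r) a (heckeDiagMatrix 1 •
          (alGammaOne M' r x y h • (heckeDiagMatrix r • τ))) := rfl
    _ = phiFun (M' * r) a (alGammaOne M' r x y h • (heckeDiagMatrix r • τ)) := by rw [h2]
    _ = _ := phiFun_smul_alGammaOne h a _

/-- **the Atkin–Lehner operator on the generator `φ_a`**. -/
theorem atkinLehner_phiHolE {M' r : ℕ} [NeZero r] {x y : ℤ} (h : (r : ℤ) * x + M' * y = 1)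
    (a : ZMod (M' * r))
    (ha : (ZMod.castHom (dvd_mul_right M' r) (ZMod M') a) ≠ 0) :
    MerH.atkinLehner h (MerH.ofHol (phiHolE (M' * r) a 1)) =
      MerH.ofHol (phiALHol M' r ha
        (-(ZMod.castHom (dvd_mul_left r M') (ZMod r) a) * ((y : ℤ) : ZMod r))) := by
  rw [MerH.atkinLehner_apply]
  have h1 : MerH.comp (alGammaOne M' r x y h) (MerH.ofHol (phiHolE (M' * r) a 1)) =
      MerH.ofHol (HolH.comp (alGammaOne M' r x y h) (phiHolE (M' * r) a 1)) :=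
    MerH.comp_algebraMap _ _
  rw [h1, MerH.dilate_ofHol, dilateHom_comp_phiHolE h a ha]

section Rational

variable {k : Type*} [Field k] (ι : k →+* ℂ)

/-- the `k`-rational expansion of the transformed generator. -/
def alSer (k : Type*) [Field k] (ζ : k) (M' r : ℕ) [NeZero r] (a₀ : ZMod M') (b : ZMod r) :
    LaurentSeries k :=
  qExpand k r (phiMult k) * (HahnSeries.C (((r : k)⁻¹) ^ 4) *
    HahnSeries.ofPowerSeries ℤ k (twSer k M' a₀ (ζ ^ b.val) (ζ ^ (-b).val)))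

theorem xiR_eq_map {r : ℕ} {ζ : k} (hζ : ι ζ = cexp (2 * π * I / r)) (b : ZMod r) :
    xiR r b = ι (ζ ^ b.val) := by
  rw [map_pow, hζ, xiR, ← Complex.exp_nat_mul]
  congr 1
  ring

theorem coeffMap_alSer {r : ℕ} [NeZero r] {ζ : k} (hζ : ι ζ = cexp (2 * π * I / r)) (M' : ℕ)
    (a₀ : ZMod M') (b : ZMod r) :
    coeffMap ι (alSer k ζ M' r a₀ b) =
      qExpand ℂ r (phiMult ℂ) * (HahnSeries.C (((r : ℂ)⁻¹) ^ 4) *
        HahnSeries.ofPowerSeries ℤ ℂ (twSer ℂ M' a₀ (xiR r b) (xiR r (-b)))) := by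
  rw [alSer, map_mul, map_mul, coeffMap_qExpand_rb, coeffMap_phiMult, Igusa.coeffMap_C,
    X0N.coeffMap_ofPowerSeries, map_twSer, xiR_eq_map ι hζ b, xiR_eq_map ι hζ (-b), map_pow,
    map_inv₀, map_natCast]

/-- **the `k`-rational Laurent expansion of the transformed generator**. -/
theorem laurent_phiALHol {r : ℕ} [NeZero r] {ζ : k} (hζ : ι ζ = cexp (2 * π * I / r)) {M' : ℕ}
    {a₀ : ZMod M'} (ha : a₀ ≠ 0) (b : ZMod r) :
    laurent 1 (phiALHol M' r ha b : ℍ → ℂ) = coeffMap ι (alSer k ζ M' r a₀ b) := by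
  rw [coeffMap_alSer ι hζ]
  exact laurent_dilate_phiAL ha b

end Rational

end

end Fermat.Agent.RB
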