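/-
Project RB, package C [VAL] (KEY-H) — helper8 — (C-I) **the Atkin–Lehner transform of the weight-4
series `gFun (M' r) a`**: for `r x + M' y = 1`, `γ₁ = (1 −y; M' rx)`,
`gFun (M' r) a ∣[4] γ₁ = hFun M' r (a mod M') (−a y mod r)`, where
`hFun M' r a₀ b τ = ∑_{c ≡ a₀ (M'), d ≡ b (r)} (cτ + d)⁻⁴`; and the `q`-expansion of `τ ↦ hFun (rτ)`
(`a₀ ≠ 0`): `r⁻⁴ (8π⁴/3) ∑_e (∑_{nm = e} ([n ≡ a₀] ξ_b^m + [n ≡ −a₀] ξ_b^{-m}) m³) q^e`, `ξ_b = e^{2πi b/r}`.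
-/
import Fermat.Agent.W1.WEB4_helper9_Phi
import Fermat.Agent.JA.ES1_helper2_AL

set_option autoImplicit false
set_option linter.unusedSectionVars false
set_option linter.style.haveILetI false

open UpperHalfPlane hiding I
open EisensteinSeries ModularForm Complex Filter Matrix ModularGroup Topology
  CongruenceSubgroup Nat
open scoped MatrixGroups Manifold Real

namespace Fermat.Agent.RB

open Fermat.Agent.GR Fermat.Agent.RatStr Fermat.Agent.W1 Fermat.Agent.X0N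

noncomputable section

local notation "𝕢" => Function.Periodic.qParam

/-- the indicator weight of the class `v 0 ≡ a₀ (M')`, `v 1 ≡ b (r)`. -/
def wAB (M' r : ℕ) (a₀ : ZMod M') (b : ZMod r) (v : Fin 2 → ℤ) : ℂ :=
  if ((v 0 : ℤ) : ZMod M') = a₀ ∧ ((v 1 : ℤ) : ZMod r) = b then 1 else 0

theorem norm_wAB_le (M' r : ℕ) (a₀ : ZMod M') (b : ZMod r) (v : Fin 2 → ℤ) :
    ‖wAB M' r a₀ b v‖ ≤ 1 := by
  unfold wAB
  split_ifs <;> simp

/-- `∑_{(c,d), c ≡ a₀ (M'), d ≡ b (r)} (cτ + d)⁻⁴`. -/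
def hFun (M' r : ℕ) (a₀ : ZMod M') (b : ZMod r) : ℍ → ℂ := eisW (wAB M' r a₀ b) 4

theorem mdiff_hFun (M' r : ℕ) (a₀ : ZMod M') (b : ZMod r) : MDiff (hFun M' r a₀ b) :=
  mdiff_eisW (norm_wAB_le M' r a₀ b) (by norm_num)

/-- the arithmetic of the Atkin–Lehner matrix: `v₀ r x − v₁ M' ≡ a (M' r)` iff `v₀ ≡ a (M')` and
`v₁ ≡ −a y (r)`. -/
theorem al_congr_iff {M' r : ℕ} {x y : ℤ} (h : (r : ℤ) * x + M' * y = 1) (v0 v1 a : ℤ) :
    ((M' * r : ℕ) : ℤ) ∣ a - (v0 * (r * x) + v1 * (-(M' : ℤ))) ↔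
      (M' : ℤ) ∣ a - v0 ∧ (r : ℤ) ∣ -(a * y) - v1 := by
  constructor
  · rintro ⟨k, hk⟩
    push_cast at hk
    refine ⟨⟨r * k - v1 - v0 * y, ?_⟩, ⟨-(M' * k * y + v0 * x * y + v1 * x), ?_⟩⟩
    · linear_combination hk + v0 * h
    · linear_combination (-y) * hk + v1 * h
  · rintro ⟨⟨k, hk⟩, ⟨l, hl⟩⟩
    have hcop : IsCoprime (M' : ℤ) (r : ℤ) := ⟨y, x, by linear_combination h⟩
    push_cast
    refine hcop.mul_dvd ⟨k + v0 * y + v1, ?_⟩ ⟨a * x - v0 * x - M' * l, ?_⟩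
    · linear_combination hk - v0 * h
    · linear_combination (-(M' : ℤ)) * hl - a * h

/-- **the slash formula for the Atkin–Lehner matrix** `γ₁ = (1 −y; M' rx)`. -/
theorem gFun_slash_alGammaOne {M' r : ℕ} {x y : ℤ} (h : (r : ℤ) * x + M' * y = 1)
    (a : ZMod (M' * r)) :
    gFun (M' * r) a ∣[(4 : ℤ)] (alGammaOne M' r x y h) =
      hFun M' r (ZMod.castHom (dvd_mul_right M' r) (ZMod M') a)
        (-(ZMod.castHom (dvd_mul_left r M') (ZMod r) a) * ((y : ℤ) : ZMod r)) := by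
  rw [gFun, eisW_slash, hFun]
  congr 1
  funext v
  unfold wA wAB
  obtain ⟨a, rfl⟩ := ZMod.intCast_surjective a
  have e0 : (v ᵥ* (((alGammaOne M' r x y h)⁻¹ : SL(2, ℤ)) : Matrix (Fin 2) (Fin 2) ℤ)) 0 =
      v 0 * (r * x) + v 1 * (-(M' : ℤ)) := by
    rw [Matrix.SpecialLinearGroup.SL2_inv_expl]
    simp only [vecMul, dotProduct, Fin.sum_univ_two, Matrix.cons_val', Matrix.cons_val_zero,
      Matrix.cons_val_one, Matrix.cons_val_fin_one]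
    rfl
  rw [e0, map_intCast, map_intCast]
  refine if_congr ?_ rfl rfl
  rw [ZMod.intCast_eq_intCast_iff_dvd_sub, al_congr_iff h, ZMod.intCast_eq_intCast_iff_dvd_sub]
  refine and_congr Iff.rfl ?_
  have e1 : -((a : ℤ) : ZMod r) * ((y : ℤ) : ZMod r) = ((-(a * y) : ℤ) : ZMod r) := by
    push_cast
    ring
  rw [e1, ZMod.intCast_eq_intCast_iff_dvd_sub]

/-! ### generalities on weighted series -/

/-- the weighted summands in product form are summable. -/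
theorem summable_prod_eisW {w : (Fin 2 → ℤ) → ℂ} (hw : ∀ v, ‖w v‖ ≤ 1) (z : ℍ) :
    Summable fun x : ℤ × ℤ => w ![x.1, x.2] * eisSummand 4 ![x.1, x.2] z := by
  have h := (summable_norm_eisW (w := w) (k := 4) hw (by norm_num) z).of_norm
  refine (finTwoArrowEquiv ℤ).summable_iff.mp <| h.congr (fun v ↦ ?_)
  simp [show ![v 0, v 1] = v from List.ofFn_inj.mp rfl]

theorem eisW_eq_tsum_tsum {w : (Fin 2 → ℤ) → ℂ} (hw : ∀ v, ‖w v‖ ≤ 1) (z : ℍ) :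
    eisW w 4 z = ∑' c : ℤ, ∑' d : ℤ, w ![c, d] * eisSummand 4 ![c, d] z := by
  rw [eisW, ← (finTwoArrowEquiv ℤ).symm.tsum_eq]
  simp only [finTwoArrowEquiv_symm_apply]
  exact Summable.tsum_prod (summable_prod_eisW hw z)

/-- summability of the doubly weighted double series. -/
theorem summable_prod_weighted2 (u : ℕ → ℕ → ℂ) (hu : ∀ n m, ‖u n m‖ ≤ 2) {q : ℂ} (hq : ‖q‖ < 1)
    (k : ℕ) :
    Summable fun c : ℕ+ × ℕ+ => u c.1 c.2 * ((c.2 : ℕ) : ℂ) ^ k * q ^ (c.1 * c.2 : ℕ) := by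
  have h0 := summable_prod_mul_pow (𝕜 := ℂ) k hq
  have h1 := (summable_norm_iff.mpr h0).mul_left 2
  refine Summable.of_norm_bounded h1 fun c => ?_
  rw [mul_assoc, norm_mul]
  have := hu c.1 c.2
  have hn : 0 ≤ ‖((c.2 : ℕ) : ℂ) ^ k * q ^ (c.1 * c.2 : ℕ)‖ := norm_nonneg _
  have e : ‖((c.2 : ℕ) : ℂ) ^ k * q ^ (c.1 * c.2 : ℕ)‖ =
      ‖((c.2 : ℂ)) ^ k * q ^ (c.1 * c.2 : ℕ)‖ := by
    simp
  rw [← e]
  nlinarith

theorem summable_sigma_weighted2 (u : ℕ → ℕ → ℂ) (hu : ∀ n m, ‖u n m‖ ≤ 2) {q : ℂ}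
    (hq : ‖q‖ < 1) (k : ℕ) :
    Summable fun c : (n : ℕ+) × ↥((n : ℕ).divisorsAntidiagonal) =>
      u ↑(sigmaAntidiagonalEquivProd c).1 ↑(sigmaAntidiagonalEquivProd c).2 *
        ((↑(sigmaAntidiagonalEquivProd c).2 : ℕ) : ℂ) ^ k *
        q ^ (↑(sigmaAntidiagonalEquivProd c).1 * ↑(sigmaAntidiagonalEquivProd c).2 : ℕ) :=
  (sigmaAntidiagonalEquivProd.summable_iff).mpr (summable_prod_weighted2 u hu hq k)

theorem tsum_fibre_weighted2 (u : ℕ → ℕ → ℂ) (q : ℂ) (k : ℕ) (n : ℕ+) :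
    ∑' x : ↥((n : ℕ).divisorsAntidiagonal),
      u ↑(sigmaAntidiagonalEquivProd ⟨n, x⟩).1 ↑(sigmaAntidiagonalEquivProd ⟨n, x⟩).2 *
        ((↑(sigmaAntidiagonalEquivProd ⟨n, x⟩).2 : ℕ) : ℂ) ^ k *
        q ^ (↑(sigmaAntidiagonalEquivProd ⟨n, x⟩).1 * ↑(sigmaAntidiagonalEquivProd ⟨n, x⟩).2 : ℕ) =
      (∑ x ∈ (n : ℕ).divisorsAntidiagonal, u x.1 x.2 * (x.2 : ℂ) ^ k) * q ^ (n : ℕ) := by
  rw [tsum_fintype, Finset.sum_mul]
  rw [Finset.univ_eq_attach]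
  rw [← Finset.sum_attach ((n : ℕ).divisorsAntidiagonal)
    (fun x => u x.1 x.2 * (x.2 : ℂ) ^ k * q ^ (n : ℕ))]
  refine Finset.sum_congr rfl fun x _ => ?_
  have hx := (Nat.mem_divisorsAntidiagonal.mp x.2).1
  simp only [sigmaAntidiagonalEquivProd, divisorsAntidiagonalFactors, Equiv.coe_fn_mk,
    PNat.mk_coe]
  rw [hx]

/-- rearranging the doubly weighted double series by the product of the indices. -/
theorem tsum_prod_weighted2 (u : ℕ → ℕ → ℂ) (hu : ∀ n m, ‖u n m‖ ≤ 2) {q : ℂ} (hq : ‖q‖ < 1)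
    (k : ℕ) :
    ∑' c : ℕ+ × ℕ+, u c.1 c.2 * ((c.2 : ℕ) : ℂ) ^ k * q ^ (c.1 * c.2 : ℕ) =
      ∑' e : ℕ+, (∑ x ∈ (e : ℕ).divisorsAntidiagonal, u x.1 x.2 * (x.2 : ℂ) ^ k) * q ^ (e : ℕ) := by
  rw [← sigmaAntidiagonalEquivProd.tsum_eq]
  rw [Summable.tsum_sigma (summable_sigma_weighted2 u hu hq k)]
  exact tsum_congr fun n => tsum_fibre_weighted2 u q k n

theorem summable_fibre_weighted2 (u : ℕ → ℕ → ℂ) (hu : ∀ n m, ‖u n m‖ ≤ 2) {q : ℂ}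
    (hq : ‖q‖ < 1) (k : ℕ) :
    Summable fun e : ℕ+ =>
      (∑ x ∈ (e : ℕ).divisorsAntidiagonal, u x.1 x.2 * (x.2 : ℂ) ^ k) * q ^ (e : ℕ) := by
  have h := (summable_sigma_weighted2 u hu hq k).sigma
  refine h.congr fun n => ?_
  exact tsum_fibre_weighted2 u q k n

/-! ### the rows -/

/-- the root of unity `ξ_b = e^{2πi b / r}`. -/
def xiR (r : ℕ) (b : ZMod r) : ℂ := cexp (2 * π * I * ((b.val : ℕ) : ℂ) / (r : ℂ))

theorem xiR_pow_eq_one {r : ℕ} [NeZero r] (b : ZMod r) : xiR r b ^ r = 1 := by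
  have hr : (r : ℂ) ≠ 0 := Nat.cast_ne_zero.mpr (NeZero.ne r)
  rw [xiR, ← Complex.exp_nat_mul, Complex.exp_eq_one_iff]
  refine ⟨(b.val : ℤ), ?_⟩
  push_cast
  field_simp

theorem norm_xiR {r : ℕ} [NeZero r] (b : ZMod r) : ‖xiR r b‖ = 1 := by
  have h := congrArg norm (xiR_pow_eq_one b)
  rw [norm_pow, norm_one] at h
  exact (pow_eq_one_iff_of_nonneg (norm_nonneg _) (NeZero.ne r)).mp h

/-- the row of `τ ↦ hFun (rτ)` for a positive first coordinate. -/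
theorem rowB_pos {r : ℕ} [NeZero r] (b : ZMod r) (n : ℕ+) (z : ℍ) :
    ∑' d : ℤ, (if ((d : ℤ) : ZMod r) = b then (1 : ℂ) else 0) *
        eisSummand 4 ![(n : ℤ), d] (heckeDiagMatrix r • z) =
      ((r : ℂ)⁻¹) ^ 4 * (c4 * ∑' m : ℕ+, ((m : ℕ) : ℂ) ^ 3 * xiR r b ^ (m : ℕ) *
        cexp (2 * π * I * z) ^ ((n : ℕ) * (m : ℕ))) := by
  have hr0 : r ≠ 0 := NeZero.ne r
  have hr : (r : ℂ) ≠ 0 := Nat.cast_ne_zero.mpr hr0
  -- reindex `d = b.val + r t`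
  set g : ℤ → ℤ := fun t => (b.val : ℤ) + r * t with hg
  have hginj : Function.Injective g := by
    intro t t' h
    have h1 : (r : ℤ) * t = r * t' := by simpa [hg] using h
    exact mul_left_cancel₀ (by exact_mod_cast hr0) h1
  have hsupp : Function.support (fun d : ℤ => (if ((d : ℤ) : ZMod r) = b then (1 : ℂ) else 0) *
      eisSummand 4 ![(n : ℤ), d] (heckeDiagMatrix r • z)) ⊆ Set.range g := by
    intro d hd
    rw [Function.mem_support] at hd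
    have hdb : ((d : ℤ) : ZMod r) = b := by
      by_contra hne
      exact hd (by rw [if_neg hne, zero_mul])
    have h1 : ((b.val : ℤ) : ZMod r) = ((d : ℤ) : ZMod r) := by
      rw [hdb]
      simp
    rw [ZMod.intCast_eq_intCast_iff_dvd_sub] at h1
    obtain ⟨t, ht⟩ := h1
    exact ⟨t, by simp only [hg]; linarith⟩
  rw [← hginj.tsum_eq hsupp]
  -- the point `w = n z + b.val / r`
  have hw : 0 < ((n : ℂ) * (z : ℂ) + ((b.val : ℕ) : ℂ) / (r : ℂ)).im := by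
    have h1 : (((b.val : ℕ) : ℂ) / (r : ℂ)).im = 0 := by
      rw [← Complex.ofReal_natCast, ← Complex.ofReal_natCast, ← Complex.ofReal_div]
      exact Complex.ofReal_im _
    rw [Complex.add_im, h1, add_zero]
    simpa using z.2
  have H := EisensteinSeries.qExpansion_identity_pnat (k := 3) (by norm_num)
    ⟨(n : ℂ) * z + ((b.val : ℕ) : ℂ) / (r : ℂ), hw⟩
  rw [show ((⟨(n : ℂ) * z + ((b.val : ℕ) : ℂ) / (r : ℂ), hw⟩ : ℍ) : ℂ) =
    (n : ℂ) * z + ((b.val : ℕ) : ℂ) / (r : ℂ) from rfl] at H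
  have e1 : ∀ t : ℤ, (if (((g t : ℤ)) : ZMod r) = b then (1 : ℂ) else 0) *
      eisSummand 4 ![(n : ℤ), g t] (heckeDiagMatrix r • z) =
      ((r : ℂ)⁻¹) ^ 4 * (1 / ((n : ℂ) * (z : ℂ) + ((b.val : ℕ) : ℂ) / (r : ℂ) + t) ^ (3 + 1)) := by
    intro t
    have h1 : (((g t : ℤ)) : ZMod r) = b := by
      simp [hg]
    rw [if_pos h1, one_mul]
    simp only [eisSummand, Matrix.cons_val_zero, Matrix.cons_val_one, Matrix.cons_val_fin_one,
      coe_heckeDiagMatrix_smul hr0, hg]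
    push_cast
    have h2 : ((n : ℕ) : ℂ) * ((r : ℂ) * (z : ℂ)) + (((b.val : ℕ) : ℂ) + (r : ℂ) * (t : ℂ)) =
        (r : ℂ) * ((n : ℂ) * (z : ℂ) + ((b.val : ℕ) : ℂ) / (r : ℂ) + t) := by
      field_simp
      ring
    rw [h2, mul_zpow]
    norm_num
  simp_rw [e1]
  rw [tsum_mul_left, H, c4]
  congr 1
  congr 1
  refine tsum_congr fun m => ?_
  have e2 : cexp (2 * π * I * ((n : ℂ) * (z : ℂ) + ((b.val : ℕ) : ℂ) / (r : ℂ))) ^ (m : ℕ) =
      xiR r b ^ (m : ℕ) * cexp (2 * π * I * z) ^ ((n : ℕ) * (m : ℕ)) := by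
    rw [xiR, ← Complex.exp_nat_mul, ← Complex.exp_nat_mul, ← Complex.exp_nat_mul,
      ← Complex.exp_add]
    congr 1
    push_cast
    ring
  rw [e2]
  ring

/-- the row for a negative first coordinate. -/
theorem rowB_neg {r : ℕ} (b : ZMod r) (n : ℕ+) (Z : ℍ) :
    ∑' d : ℤ, (if ((d : ℤ) : ZMod r) = b then (1 : ℂ) else 0) *
        eisSummand 4 ![-(n : ℤ), d] Z =
      ∑' d : ℤ, (if ((d : ℤ) : ZMod r) = -b then (1 : ℂ) else 0) *
        eisSummand 4 ![(n : ℤ), d] Z := by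
  rw [← (Equiv.neg ℤ).tsum_eq]
  refine tsum_congr fun d => ?_
  have h1 : (((Equiv.neg ℤ) d : ℤ) : ZMod r) = b ↔ ((d : ℤ) : ZMod r) = -b := by
    simp only [Equiv.neg_apply, Int.cast_neg]
    constructor
    · intro h; rw [← h, neg_neg]
    · intro h; rw [h, neg_neg]
  rw [if_congr h1 rfl rfl]
  congr 1
  simp only [eisSummand, Equiv.neg_apply, Matrix.cons_val_zero, Matrix.cons_val_one,
    Matrix.cons_val_fin_one, Int.cast_neg]
  have : -((n : ℕ) : ℂ) * (Z : ℂ) + -(d : ℂ) = -(((n : ℕ) : ℂ) * (Z : ℂ) + (d : ℂ)) := by ring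
  push_cast
  rw [this]
  have h4 : Even (-4 : ℤ) := ⟨-2, by norm_num⟩
  exact h4.neg_zpow _

/-! ### the `q`-expansion -/

/-- the weight `[n ≡ a₀] ξ_b^m + [n ≡ -a₀] ξ_{-b}^m`. -/
def uAB (M' r : ℕ) (a₀ : ZMod M') (b : ZMod r) (n m : ℕ) : ℂ :=
  (if ((n : ℕ) : ZMod M') = a₀ then xiR r b ^ m else 0) +
    (if ((n : ℕ) : ZMod M') = -a₀ then xiR r (-b) ^ m else 0)

theorem norm_uAB_le (M' r : ℕ) [NeZero r] (a₀ : ZMod M') (b : ZMod r) (n m : ℕ) :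
    ‖uAB M' r a₀ b n m‖ ≤ 2 := by
  unfold uAB
  have h1 : ‖xiR r b ^ m‖ = 1 := by rw [norm_pow, norm_xiR, one_pow]
  have h2 : ‖xiR r (-b) ^ m‖ = 1 := by rw [norm_pow, norm_xiR, one_pow]
  refine (norm_add_le _ _).trans ?_
  split_ifs <;> simp only [h1, h2, norm_zero] <;> norm_num

theorem wAB_cons (M' r : ℕ) (a₀ : ZMod M') (b : ZMod r) (c d : ℤ) :
    wAB M' r a₀ b ![c, d] = (if ((c : ℤ) : ZMod M') = a₀ then 1 else 0) *
      (if ((d : ℤ) : ZMod r) = b then 1 else 0) := by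
  simp only [wAB, Matrix.cons_val_zero, Matrix.cons_val_one, Matrix.cons_val_fin_one]
  split_ifs <;> simp_all

theorem summable_rowB {r : ℕ} [NeZero r] (b : ZMod r) (n : ℕ+) (z : ℍ) :
    Summable fun m : ℕ+ => ((m : ℕ) : ℂ) ^ 3 * xiR r b ^ (m : ℕ) *
      cexp (2 * π * I * z) ^ ((n : ℕ) * (m : ℕ)) := by
  have h0 := _root_.summable_pow_mul_cexp 3 n z
  have h1 : Summable fun m : ℕ+ => ((m : ℕ) : ℂ) ^ 3 * cexp (2 * π * I * n * z) ^ (m : ℕ) :=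
    (summable_pnat_iff_summable_nat
      (f := fun m : ℕ => (m : ℂ) ^ 3 * cexp (2 * π * I * n * z) ^ m)).mpr h0
  refine Summable.of_norm_bounded (summable_norm_iff.mpr h1) fun m => ?_
  rw [norm_mul, norm_mul, norm_mul, norm_pow (xiR r b), norm_xiR, one_pow, mul_one]
  refine le_of_eq ?_
  congr 1
  rw [← Complex.exp_nat_mul, ← Complex.exp_nat_mul]
  congr 2
  push_cast
  ring

/-- the two rows `c = ± n` together. -/
theorem rowPairB (M' r : ℕ) [NeZero r] (a₀ : ZMod M') (b : ZMod r) (n : ℕ+) (z : ℍ) :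
    (∑' d : ℤ, wAB M' r a₀ b ![(n : ℤ), d] *
        eisSummand 4 ![(n : ℤ), d] (heckeDiagMatrix r • z)) +
      (∑' d : ℤ, wAB M' r a₀ b ![-(n : ℤ), d] *
        eisSummand 4 ![-(n : ℤ), d] (heckeDiagMatrix r • z)) =
    ((r : ℂ)⁻¹) ^ 4 * (c4 * ∑' m : ℕ+, uAB M' r a₀ b n m * ((m : ℕ) : ℂ) ^ 3 *
      cexp (2 * π * I * z) ^ ((n : ℕ) * (m : ℕ))) := by
  simp_rw [wAB_cons, mul_assoc, tsum_mul_left, rowB_neg, rowB_pos]
  have e1 : ((((n : ℕ) : ℤ) : ℤ) : ZMod M') = ((n : ℕ) : ZMod M') := by push_cast; rfl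
  have e2 : ((-((n : ℕ) : ℤ) : ℤ) : ZMod M') = a₀ ↔ ((n : ℕ) : ZMod M') = -a₀ := by
    push_cast
    constructor
    · intro h; rw [← h, neg_neg]
    · intro h; rw [h, neg_neg]
  rw [e1, if_congr e2 rfl rfl]
  have e3 : ∀ m : ℕ+, uAB M' r a₀ b n m * (((m : ℕ) : ℂ) ^ 3 *
      cexp (2 * (π * (I * z))) ^ ((n : ℕ) * (m : ℕ))) =
      (if ((n : ℕ) : ZMod M') = a₀ then (1 : ℂ) else 0) *
        (((m : ℕ) : ℂ) ^ 3 * xiR r b ^ (m : ℕ) * cexp (2 * π * I * z) ^ ((n : ℕ) * (m : ℕ))) +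
      (if ((n : ℕ) : ZMod M') = -a₀ then (1 : ℂ) else 0) *
        (((m : ℕ) : ℂ) ^ 3 * xiR r (-b) ^ (m : ℕ) *
          cexp (2 * π * I * z) ^ ((n : ℕ) * (m : ℕ))) := by
    intro m
    unfold uAB
    have : (2 : ℂ) * (π * (I * z)) = 2 * π * I * z := by ring
    rw [this]
    split_ifs <;> ring
  simp_rw [e3]
  rw [Summable.tsum_add ((summable_rowB b n z).mul_left _) ((summable_rowB (-b) n z).mul_left _),
    tsum_mul_left, tsum_mul_left]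
  ring

/-- the coefficients of the `q`-expansion of `τ ↦ hFun (rτ)` (up to `r⁻⁴ · 8π⁴/3`). -/
def twCoef (M' r : ℕ) (a₀ : ZMod M') (b : ZMod r) (e : ℕ) : ℂ :=
  ∑ x ∈ e.divisorsAntidiagonal, uAB M' r a₀ b x.1 x.2 * (x.2 : ℂ) ^ 3

theorem twCoef_zero (M' r : ℕ) (a₀ : ZMod M') (b : ZMod r) : twCoef M' r a₀ b 0 = 0 := by
  simp [twCoef]

theorem summable_rowsB (M' r : ℕ) (a₀ : ZMod M') (b : ZMod r) (Z : ℍ) :
    Summable fun c : ℤ => ∑' d : ℤ, wAB M' r a₀ b ![c, d] * eisSummand 4 ![c, d] Z :=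
  (summable_prod_eisW (norm_wAB_le M' r a₀ b) Z).prod

/-- **the `q`-expansion of `τ ↦ hFun M' r a₀ b (rτ)`, `a₀ ≠ 0`**, as a sum over `ℕ+`. -/
theorem hFun_dilate_eq_tsum_pnat {M' r : ℕ} [NeZero r] {a₀ : ZMod M'} (ha : a₀ ≠ 0) (b : ZMod r)
    (z : ℍ) :
    hFun M' r a₀ b (heckeDiagMatrix r • z) = ((r : ℂ)⁻¹) ^ 4 * (c4 * ∑' e : ℕ+,
      twCoef M' r a₀ b e * cexp (2 * π * I * z) ^ (e : ℕ)) := by
  set Z : ℍ := heckeDiagMatrix r • z with hZ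
  rw [hFun, eisW_eq_tsum_tsum (norm_wAB_le M' r a₀ b),
    tsum_int_eq_zero_add_tsum_pnat (summable_rowsB M' r a₀ b Z)]
  have h0 : (∑' d : ℤ, wAB M' r a₀ b ![(0 : ℤ), d] * eisSummand 4 ![(0 : ℤ), d] Z) = 0 := by
    have : ∀ d : ℤ, wAB M' r a₀ b ![(0 : ℤ), d] = 0 := by
      intro d
      rw [wAB_cons, if_neg, zero_mul]
      intro h
      exact ha (by rw [← h]; simp)
    simp_rw [this, zero_mul, tsum_zero]
  rw [h0, zero_add]
  have hs1 : Summable fun n : ℕ+ =>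
      ∑' d : ℤ, wAB M' r a₀ b ![((n : ℕ) : ℤ), d] * eisSummand 4 ![((n : ℕ) : ℤ), d] Z := by
    have := (summable_int_iff_summable_nat_and_neg.mp (summable_rowsB M' r a₀ b Z)).1
    exact (summable_pnat_iff_summable_nat
      (f := fun n : ℕ => ∑' d : ℤ, wAB M' r a₀ b ![(n : ℤ), d] *
        eisSummand 4 ![(n : ℤ), d] Z)).mpr this
  have hs2 : Summable fun n : ℕ+ =>
      ∑' d : ℤ, wAB M' r a₀ b ![-((n : ℕ) : ℤ), d] * eisSummand 4 ![-((n : ℕ) : ℤ), d] Z := by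
    have := (summable_int_iff_summable_nat_and_neg.mp (summable_rowsB M' r a₀ b Z)).2
    exact (summable_pnat_iff_summable_nat
      (f := fun n : ℕ => ∑' d : ℤ, wAB M' r a₀ b ![-(n : ℤ), d] *
        eisSummand 4 ![-(n : ℤ), d] Z)).mpr this
  rw [← hs1.tsum_add hs2]
  simp_rw [hZ, rowPairB]
  rw [tsum_mul_left, tsum_mul_left]
  congr 2
  have hq := norm_cexp_lt_one z
  unfold twCoef
  rw [← tsum_prod_weighted2 (uAB M' r a₀ b) (norm_uAB_le M' r a₀ b) hq 3]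
  exact ((summable_prod_weighted2 (uAB M' r a₀ b) (norm_uAB_le M' r a₀ b) hq 3).tsum_prod).symm

/-- **the `q`-expansion of `τ ↦ hFun M' r a₀ b (rτ)`, `a₀ ≠ 0`.** -/
theorem hasSum_hFun_dilate {M' r : ℕ} [NeZero r] {a₀ : ZMod M'} (ha : a₀ ≠ 0) (b : ZMod r)
    (z : ℍ) :
    HasSum (fun e : ℕ => (((r : ℂ)⁻¹) ^ 4 * c4 * twCoef M' r a₀ b e) • 𝕢 1 z ^ e)
      (hFun M' r a₀ b (heckeDiagMatrix r • z)) := by
  have hq : 𝕢 1 z = cexp (2 * π * I * z) := by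
    simp [Function.Periodic.qParam]
  rw [hq]
  have hr := norm_cexp_lt_one z
  have hs := summable_fibre_weighted2 (uAB M' r a₀ b) (norm_uAB_le M' r a₀ b) hr 3
  have hs' : Summable fun e : ℕ => twCoef M' r a₀ b e * cexp (2 * π * I * z) ^ e :=
    (summable_pnat_iff_summable_nat
      (f := fun e : ℕ => twCoef M' r a₀ b e * cexp (2 * π * I * z) ^ e)).mp hs
  have h1 := hFun_dilate_eq_tsum_pnat ha b z
  have h2 := tsum_zero_pnat_eq_tsum_nat hs'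
  rw [twCoef_zero, zero_mul, zero_add] at h2
  rw [h2] at h1
  rw [h1]
  have h3 := hs'.hasSum.mul_left (((r : ℂ)⁻¹) ^ 4 * c4)
  have e : (fun e : ℕ => (((r : ℂ)⁻¹) ^ 4 * c4 * twCoef M' r a₀ b e) •
      cexp (2 * π * I * z) ^ e) =
      fun i => ((r : ℂ)⁻¹) ^ 4 * c4 * (twCoef M' r a₀ b i * cexp (2 * π * I * z) ^ i) := by
    funext m
    rw [smul_eq_mul, mul_assoc]
  rw [e, ← mul_assoc]
  exact h3

/-- `τ ↦ hFun M' r a₀ b (rτ)` is holomorphic, `1`-periodic and bounded at `i∞` (`a₀ ≠ 0`). -/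
theorem isHolBdd_dilate_hFun {M' r : ℕ} [NeZero r] {a₀ : ZMod M'} (ha : a₀ ≠ 0) (b : ZMod r) :
    IsHolBdd 1 (dilate r (hFun M' r a₀ b)) where
  per := by
    apply periodic_comp_ofComplex_of_vadd
    intro τ
    have h1 := hasSum_hFun_dilate ha b ((1 : ℝ) +ᵥ τ)
    have h2 := hasSum_hFun_dilate ha b τ
    have hq : 𝕢 1 (((1 : ℝ) +ᵥ τ : ℍ) : ℂ) = 𝕢 1 (τ : ℂ) := by
      rw [UpperHalfPlane.coe_vadd]
      simp only [Function.Periodic.qParam, Complex.ofReal_one, div_one]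
      rw [mul_add, Complex.exp_add, mul_one, Complex.exp_two_pi_mul_I, one_mul]
    rw [hq] at h1
    exact h1.unique h2
  hol := by
    have h1 : MDiff (fun z : ℍ => heckeDiagMatrix r • z) :=
      UpperHalfPlane.mdifferentiable_smul (det_heckeDiagMatrix_pos r)
    exact (mdiff_hFun M' r a₀ b).comp h1
  bdd := by
    have hb : IsBoundedAtImInfty (hFun M' r a₀ b) :=
      isBoundedAtImInfty_eisW (norm_wAB_le M' r a₀ b) (by norm_num)
    rw [UpperHalfPlane.isBoundedAtImInfty_iff] at hb ⊢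
    obtain ⟨C, A, h⟩ := hb
    refine ⟨C, A, fun z hz => ?_⟩
    apply h
    rw [im_heckeDiagMatrix_smul' (NeZero.ne r)]
    have hd1 : (1 : ℝ) ≤ r := by exact_mod_cast Nat.one_le_iff_ne_zero.mpr (NeZero.ne r)
    have := z.im_pos
    nlinarith

/-- the formal series `∑_e twCoef e · q^e`. -/
def twPart (M' r : ℕ) (a₀ : ZMod M') (b : ZMod r) : PowerSeries ℂ :=
  PowerSeries.mk (twCoef M' r a₀ b)

/-- **`qExpansion 1 (τ ↦ hFun (rτ)) = r⁻⁴ (8π⁴/3) · twPart`** for `a₀ ≠ 0`. -/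
theorem qExpansion_dilate_hFun {M' r : ℕ} [NeZero r] {a₀ : ZMod M'} (ha : a₀ ≠ 0) (b : ZMod r) :
    qExpansion 1 (dilate r (hFun M' r a₀ b)) = (((r : ℂ)⁻¹) ^ 4 * c4) • twPart M' r a₀ b := by
  ext m
  have h1 := qExpansion_coeff_unique' (f := dilate r (hFun M' r a₀ b))
    (c := fun m => ((r : ℂ)⁻¹) ^ 4 * c4 * twCoef M' r a₀ b m)
    ((isHolBdd_dilate_hFun ha b).analyticAt one_pos) (fun τ => hasSum_hFun_dilate ha b τ) m
  rw [← h1, map_smul, twPart, PowerSeries.coeff_mk, smul_eq_mul]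

end

end Fermat.Agent.RB
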