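/-
Project RB, package C [VAL] (KEY-H) — helper8 — (C-II) **the Atkin–Lehner embedding
`alF1 : k(j(q^d), φ_a : a ≢ 0 (M')) → k((q))`** of (the good part of) the function field of
`X₁(M' r)`, `r` prime, `r ∤ M'`, over a field `k ⊆ ℂ` containing `ζ_r`: defined through the analytic
realisation as `laurent ∘ W_r ∘ real`, with
`alF1 (j(q^d)) = j(q^{dr})` (`d ∣ M'`), `alF1 (j(q^{dr})) = j(q^d)`, `alF1 φ_a = alSer …`.
-/
import Fermat.Agent.RB.VAL_helper8_AL
import Fermat.Agent.W1.REAL1_helper9_Main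

set_option autoImplicit false
set_option linter.unusedSectionVars false
set_option linter.style.haveILetI false

open UpperHalfPlane hiding I
open Complex Filter Topology ModularCurve IntermediateField CongruenceSubgroup
open scoped MatrixGroups Manifold Real

namespace Fermat.Agent.RB

open Fermat.Agent.RatStr Fermat.Agent.X0N Fermat.Agent.W1

noncomputable section

variable (k : Type*) [Field k] [Algebra ℚ k] (M' r : ℕ)

/-- the generators `j(q^d)`, `d ∣ M' r`. -/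
def goodJ : Set (LaurentSeries k) :=
  {s | ∃ (d : ℕ) (_ : NeZero d), d ∣ M' * r ∧ s = coeffEmb k (qExpand ℚ d jq)}

/-- the generators `φ_a`, `a ≢ 0 (M')`. -/
def goodPhi : Set (LaurentSeries k) :=
  {s | ∃ a : ZMod (M' * r), ZMod.castHom (dvd_mul_right M' r) (ZMod M') a ≠ 0 ∧
    s = coeffEmb k (phiGen ℚ (M' * r) a)}

/-- the subfield of the function field of `X₁(M' r)` generated by the good generators. -/
def F1good : IntermediateField k (LaurentSeries k) :=
  IntermediateField.adjoin k (goodJ k M' r ∪ goodPhi k M' r)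

theorem ne_zero_of_castHom_ne_zero {a : ZMod (M' * r)}
    (ha : ZMod.castHom (dvd_mul_right M' r) (ZMod M') a ≠ 0) : a ≠ 0 := by
  rintro rfl
  exact ha (map_zero _)

theorem goodJ_subset : goodJ k M' r ⊆ (laurentBaseChange k (F₁ (M' * r) 1) : Set (LaurentSeries k)) := by
  intro s hs
  obtain ⟨d, hd, hdvd, hs⟩ := hs
  have h1 : d ∣ M' * r * 1 := by rwa [mul_one]
  have h2 : qExpand ℚ d jq ∈ F₁ (M' * r) 1 := jqd_mem_F₁ h1
  rw [hs]
  exact coeffEmb_mem_laurentBaseChange k h2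

theorem goodPhi_subset :
    goodPhi k M' r ⊆ (laurentBaseChange k (F₁ (M' * r) 1) : Set (LaurentSeries k)) := by
  intro s hs
  obtain ⟨a, ha, hs⟩ := hs
  have h2 : phiGen ℚ (M' * r) a ∈ F₁ (M' * r) 1 :=
    phiGen_mem_F₁ _ _ (ne_zero_of_castHom_ne_zero M' r ha)
  rw [hs]
  exact coeffEmb_mem_laurentBaseChange k h2

theorem F1good_le : F1good k M' r ≤ laurentBaseChange k (F₁ (M' * r) 1) := by
  rw [F1good, IntermediateField.adjoin_le_iff]
  exact Set.union_subset (goodJ_subset k M' r) (goodPhi_subset k M' r)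

/-- the inclusion into the full function field. -/
def goodIncl : ↥(F1good k M' r) →+* ↥(laurentBaseChange k (F₁ (M' * r) 1)) where
  toFun x := ⟨x.1, F1good_le k M' r x.2⟩
  map_one' := rfl
  map_mul' _ _ := rfl
  map_zero' := rfl
  map_add' _ _ := rfl

theorem goodIncl_apply (x : ↥(F1good k M' r)) :
    goodIncl k M' r x = ⟨x.1, F1good_le k M' r x.2⟩ := by
  rfl

/-! ### the operator on the realisations -/

section Real

variable {k M' r}
variable (ι : k →+* ℂ) [NeZero M'] [NeZero r] [NeZero (M' * r)] {x y : ℤ}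
  (h : (r : ℤ) * x + M' * y = 1)

/-- `W_r ∘ real` on the good subfield. -/
def alPre : ↥(F1good k M' r) →+* MerH :=
  (MerH.atkinLehner h).comp ((realML ι (M' * r) 1).comp (goodIncl k M' r))

theorem alPre_apply (z : ↥(F1good k M' r)) :
    alPre ι h z = MerH.atkinLehner h (realML ι (M' * r) 1 (goodIncl k M' r z)) := rfl

theorem alPre_algebraMap (c : k) :
    alPre ι h (algebraMap k ↥(F1good k M' r) c) = MerH.const (ι c) := by
  rw [alPre_apply]
  have h1 : goodIncl k M' r (algebraMap k ↥(F1good k M' r) c) =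
      algebraMap k ↥(laurentBaseChange k (F₁ (M' * r) 1)) c := rfl
  rw [h1, realML_algebraMap, MerH.atkinLehner_const]

/-- the series `j(q^d)` is realised by `jdHol d`. -/
theorem real_jd (d : ℕ) [NeZero d] :
    ∃ hx : coeffEmb k (qExpand ℚ d jq) ∈ merSeries ι,
      merSeries.real ι ⟨coeffEmb k (qExpand ℚ d jq), hx⟩ = MerH.ofHol (jdHol d) :=
  merSeries.real_of_laurent_eq ι (x := coeffEmb k (qExpand ℚ d jq))
    (isMeroInfty_jFunN (NeZero.ne d)) (by rw [laurent_jFunN, coeffMap_coeffEmb_eq])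

theorem atkinLehner_jdHol_of_dvd {d : ℕ} [NeZero d] [NeZero (d * r)] (hd : d ∣ M') :
    MerH.atkinLehner h (MerH.ofHol (jdHol d)) = MerH.ofHol (jdHol (d * r)) := by
  have hγ : alGammaOne M' r x y h ∈ Gamma0 d := Gamma0_le_of_dvd hd (alGammaOne_mem h)
  have h1 : MerH.comp (alGammaOne M' r x y h) (MerH.ofHol (jdHol d)) = MerH.ofHol (jdHol d) := by
    have h2 : MerH.comp (alGammaOne M' r x y h) (MerH.ofHol (jdHol d)) =
        MerH.ofHol (HolH.comp (alGammaOne M' r x y h) (jdHol d)) := MerH.comp_algebraMap _ _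
    rw [h2, comp_jdHol_of_mem_Gamma0 hγ]
  rw [MerH.atkinLehner_of_invariant h h1, MerH.dilate_ofHol, HolH.dilateHom_jdHol]

theorem atkinLehner_jdHol_mul {d : ℕ} [NeZero d] [NeZero (d * r)] (hd : d ∣ M') :
    MerH.atkinLehner h (MerH.ofHol (jdHol (d * r))) = MerH.ofHol (jdHol d) := by
  have hγ : alGammaTwo M' r x y h ∈ Gamma0 d := Gamma0_le_of_dvd hd (alGammaTwo_mem h)
  have h1 : MerH.comp (alGammaTwo M' r x y h) (MerH.ofHol (jdHol d)) = MerH.ofHol (jdHol d) := by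
    have h2 : MerH.comp (alGammaTwo M' r x y h) (MerH.ofHol (jdHol d)) =
        MerH.ofHol (HolH.comp (alGammaTwo M' r x y h) (jdHol d)) := MerH.comp_algebraMap _ _
    rw [h2, comp_jdHol_of_mem_Gamma0 hγ]
  have h3 : MerH.ofHol (jdHol (d * r)) = MerH.dilate r (MerH.ofHol (jdHol d)) := by
    rw [MerH.dilate_ofHol, HolH.dilateHom_jdHol]
  rw [h3, MerH.atkinLehner_dilate_of_invariant h (NeZero.ne M') (NeZero.ne r) h1]

theorem alPre_jd_of_dvd {d : ℕ} [NeZero d] [NeZero (d * r)] (hd : d ∣ M')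
    (hs : coeffEmb k (qExpand ℚ d jq) ∈ F1good k M' r) :
    alPre ι h ⟨_, hs⟩ = MerH.ofHol (jdHol (d * r)) := by
  have hd' : d ∣ M' * r * 1 := by rw [mul_one]; exact hd.mul_right r
  have h1 : goodIncl k M' r ⟨_, hs⟩ = jdBarML (k := k) hd' := rfl
  rw [alPre_apply, h1, realML_jdBarML, atkinLehner_jdHol_of_dvd h hd]

theorem alPre_jd_mul {d : ℕ} [NeZero d] [NeZero (d * r)] (hd : d ∣ M')
    (hs : coeffEmb k (qExpand ℚ (d * r) jq) ∈ F1good k M' r) :
    alPre ι h ⟨_, hs⟩ = MerH.ofHol (jdHol d) := by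
  have hd' : d * r ∣ M' * r * 1 := by rw [mul_one]; exact Nat.mul_dvd_mul_right hd r
  have h1 : goodIncl k M' r ⟨_, hs⟩ = jdBarML (k := k) hd' := rfl
  rw [alPre_apply, h1, realML_jdBarML, atkinLehner_jdHol_mul h hd]

theorem alPre_phi (a : ZMod (M' * r))
    (ha : ZMod.castHom (dvd_mul_right M' r) (ZMod M') a ≠ 0)
    (hs : coeffEmb k (phiGen ℚ (M' * r) a) ∈ F1good k M' r) :
    alPre ι h ⟨_, hs⟩ = MerH.ofHol (phiALHol M' r ha
      (-(ZMod.castHom (dvd_mul_left r M') (ZMod r) a) * ((y : ℤ) : ZMod r))) := by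
  have ha0 : a ≠ 0 := ne_zero_of_castHom_ne_zero M' r ha
  have h1 : goodIncl k M' r ⟨_, hs⟩ = phiBarML (k := k) (one_dvd 1) ha0 := by
    apply Subtype.ext
    show coeffEmb k (phiGen ℚ (M' * r) a) = coeffEmb k (qExpand ℚ 1 (phiGen ℚ (M' * r) a))
    rw [qExpand_one_apply]
  rw [alPre_apply, h1, realML_phiBarML, atkinLehner_phiHolE h a ha]

variable (hr : r.Prime) {ζ : k} (hζ : ι ζ = cexp (2 * π * I / r))

include hr in
/-- divisors of `M' r`: either `d ∣ M'` or `d = d₀ r`, `d₀ ∣ M'`. -/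
theorem dvd_or_eq_mul_of_dvd_mul {d : ℕ} (hd : d ∣ M' * r) :
    d ∣ M' ∨ ∃ d₀, d₀ ∣ M' ∧ d = d₀ * r := by
  by_cases hrd : r ∣ d
  · obtain ⟨d₀, rfl⟩ := hrd
    refine Or.inr ⟨d₀, ?_, mul_comm _ _⟩
    rw [mul_comm M' r] at hd
    exact Nat.dvd_of_mul_dvd_mul_left hr.pos hd
  · have hcop : Nat.Coprime d r := (Nat.Coprime.symm ((Nat.Prime.coprime_iff_not_dvd hr).mpr hrd))
    exact Or.inl (hcop.dvd_of_dvd_mul_right hd)

include hζ in
/-- the realisation of the `k`-rational expansion of the transformed generator. -/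
theorem real_alSer {a₀ : ZMod M'} (ha : a₀ ≠ 0) (b : ZMod r) :
    ∃ hx : alSer k ζ M' r a₀ b ∈ merSeries ι,
      merSeries.real ι ⟨alSer k ζ M' r a₀ b, hx⟩ = MerH.ofHol (phiALHol M' r ha b) :=
  merSeries.real_of_laurent_eq ι (x := alSer k ζ M' r a₀ b)
    (isMeroInfty_dilate_phiAL ha b) (laurent_phiALHol ι hζ ha b)

include hr hζ in
theorem alPre_mem_range (z : ↥(F1good k M' r)) : alPre ι h z ∈ (merSeries.real ι).range := by
  obtain ⟨z, hz⟩ := z
  have hz' : z ∈ IntermediateField.adjoin k (goodJ k M' r ∪ goodPhi k M' r) := hz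
  revert hz
  refine IntermediateField.adjoin_induction k
    (p := fun z _ => ∀ hz : z ∈ F1good k M' r, alPre ι h ⟨z, hz⟩ ∈ (merSeries.real ι).range)
    ?_ ?_ ?_ ?_ ?_ hz'
  · rintro s (⟨d, hd, hdvd, rfl⟩ | ⟨a, ha, rfl⟩) hs
    · rcases dvd_or_eq_mul_of_dvd_mul hr hdvd with hd' | ⟨d₀, hd₀, rfl⟩
      · haveI : NeZero (d * r) := ⟨mul_ne_zero (NeZero.ne d) (NeZero.ne r)⟩
        obtain ⟨hx, hreal⟩ := real_jd (k := k) ι (d * r)
        rw [alPre_jd_of_dvd ι h hd' hs]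
        exact ⟨_, hreal⟩
      · haveI : NeZero d₀ := ⟨fun h0 => NeZero.ne (d₀ * r) (by rw [h0, zero_mul])⟩
        obtain ⟨hx, hreal⟩ := real_jd (k := k) ι d₀
        rw [alPre_jd_mul ι h hd₀ hs]
        exact ⟨_, hreal⟩
    · obtain ⟨hx, hreal⟩ := real_alSer ι hζ ha
        (-(ZMod.castHom (dvd_mul_left r M') (ZMod r) a) * ((y : ℤ) : ZMod r))
      rw [alPre_phi ι h a ha hs]
      exact ⟨_, hreal⟩
  · intro c hs
    have h1 : (⟨algebraMap k (LaurentSeries k) c, hs⟩ :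
        ↥(F1good k M' r)) = algebraMap k ↥(F1good k M' r) c := rfl
    rw [h1, alPre_algebraMap]
    exact ⟨_, merSeries.real_const ι c⟩
  · intro a b ha hb h1 h2 hs
    have ha' : a ∈ F1good k M' r := ha
    have hb' : b ∈ F1good k M' r := hb
    have e : (⟨a + b, hs⟩ : ↥(F1good k M' r)) = ⟨a, ha'⟩ + ⟨b, hb'⟩ := rfl
    rw [e, map_add]
    exact Subring.add_mem _ (h1 ha') (h2 hb')
  · intro a ha h1 hs
    have ha' : a ∈ F1good k M' r := ha
    have e : (⟨a⁻¹, hs⟩ : ↥(F1good k M' r)) = (⟨a, ha'⟩ : ↥(F1good k M' r))⁻¹ := rfl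
    obtain ⟨b, hb⟩ := h1 ha'
    rw [e, map_inv₀, ← hb, ← map_inv₀]
    exact ⟨_, rfl⟩
  · intro a b ha hb h1 h2 hs
    have ha' : a ∈ F1good k M' r := ha
    have hb' : b ∈ F1good k M' r := hb
    have e : (⟨a * b, hs⟩ : ↥(F1good k M' r)) = ⟨a, ha'⟩ * ⟨b, hb'⟩ := rfl
    rw [e, map_mul]
    exact Subring.mul_mem _ (h1 ha') (h2 hb')

/-- the ring isomorphism of `merSeries ι` onto its realisation. -/
def merRealEquiv : ↥(merSeries ι) ≃+* ↥(merSeries.real ι).range :=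
  RingEquiv.ofBijective (merSeries.real ι).rangeRestrict
    ⟨fun a b hab => merSeries.real_injective ι (congrArg Subtype.val hab),
      (merSeries.real ι).rangeRestrict_surjective⟩

theorem coe_merRealEquiv (z : ↥(merSeries ι)) :
    ((merRealEquiv ι z : ↥(merSeries.real ι).range) : MerH) = merSeries.real ι z := rfl

/-- **the Atkin–Lehner embedding** `alF1 : k(j(q^d), φ_a : a ≢ 0 (M')) → k((q))`
(`= laurent ∘ W_r ∘ real`). -/
def alF1 : ↥(F1good k M' r) →+* ↥(merSeries ι) :=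
  ((merRealEquiv ι).symm : ↥(merSeries.real ι).range →+* ↥(merSeries ι)).comp
    ((alPre ι h).codRestrict (merSeries.real ι).range (alPre_mem_range ι h hr hζ))

theorem real_alF1 (z : ↥(F1good k M' r)) :
    merSeries.real ι (alF1 ι h hr hζ z) = alPre ι h z := by
  rw [← coe_merRealEquiv]
  unfold alF1
  simp only [RingHom.comp_apply, RingHom.coe_coe, RingEquiv.apply_symm_apply]
  rfl

theorem alF1_eq_of_real {z : ↥(F1good k M' r)} {s : LaurentSeries k} (hs : s ∈ merSeries ι)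
    (hreal : merSeries.real ι ⟨s, hs⟩ = alPre ι h z) :
    ((alF1 ι h hr hζ z : ↥(merSeries ι)) : LaurentSeries k) = s := by
  have h1 : alF1 ι h hr hζ z = ⟨s, hs⟩ := by
    apply merSeries.real_injective ι
    rw [real_alF1, hreal]
  rw [h1]

theorem alF1_algebraMap (c : k) :
    ((alF1 ι h hr hζ (algebraMap k ↥(F1good k M' r) c) : ↥(merSeries ι)) : LaurentSeries k) =
      algebraMap k (LaurentSeries k) c :=
  alF1_eq_of_real ι h hr hζ (algebraMap_mem_merSeries ι c)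
    (by rw [alPre_algebraMap]; exact merSeries.real_const ι c)

theorem alF1_jd_of_dvd {d : ℕ} [NeZero d] [NeZero (d * r)] (hd : d ∣ M')
    (hs : coeffEmb k (qExpand ℚ d jq) ∈ F1good k M' r) :
    ((alF1 ι h hr hζ ⟨_, hs⟩ : ↥(merSeries ι)) : LaurentSeries k) =
      coeffEmb k (qExpand ℚ (d * r) jq) := by
  obtain ⟨hx, hreal⟩ := real_jd (k := k) ι (d * r)
  exact alF1_eq_of_real ι h hr hζ hx (by rw [alPre_jd_of_dvd ι h hd hs, hreal])

theorem alF1_jd_mul {d : ℕ} [NeZero d] [NeZero (d * r)] (hd : d ∣ M')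
    (hs : coeffEmb k (qExpand ℚ (d * r) jq) ∈ F1good k M' r) :
    ((alF1 ι h hr hζ ⟨_, hs⟩ : ↥(merSeries ι)) : LaurentSeries k) =
      coeffEmb k (qExpand ℚ d jq) := by
  obtain ⟨hx, hreal⟩ := real_jd (k := k) ι d
  exact alF1_eq_of_real ι h hr hζ hx (by rw [alPre_jd_mul ι h hd hs, hreal])

/-- **`alF1 φ_a = phiMult(q^r) · r⁻⁴ · twSer`**. -/
theorem alF1_phi (a : ZMod (M' * r))
    (ha : ZMod.castHom (dvd_mul_right M' r) (ZMod M') a ≠ 0)
    (hs : coeffEmb k (phiGen ℚ (M' * r) a) ∈ F1good k M' r) :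
    ((alF1 ι h hr hζ ⟨_, hs⟩ : ↥(merSeries ι)) : LaurentSeries k) =
      alSer k ζ M' r (ZMod.castHom (dvd_mul_right M' r) (ZMod M') a)
        (-(ZMod.castHom (dvd_mul_left r M') (ZMod r) a) * ((y : ℤ) : ZMod r)) := by
  obtain ⟨hx, hreal⟩ := real_alSer ι hζ ha
    (-(ZMod.castHom (dvd_mul_left r M') (ZMod r) a) * ((y : ℤ) : ZMod r))
  exact alF1_eq_of_real ι h hr hζ hx (by rw [alPre_phi ι h a ha hs, hreal])

/-- `alF1` as a ring homomorphism into `k((q))`. -/
def alF1L : ↥(F1good k M' r) →+* LaurentSeries k :=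
  (merSeries ι).subtype.comp (alF1 ι h hr hζ)

theorem alF1L_apply (z : ↥(F1good k M' r)) :
    alF1L ι h hr hζ z = ((alF1 ι h hr hζ z : ↥(merSeries ι)) : LaurentSeries k) := rfl

end Real

end

end Fermat.Agent.RB
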